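import Mathlib
import Fermat.Prelude.Def_ModularForm_HeckeOperator
import Fermat.Prelude.Def_FLTPrelim_Modularity
import Fermat.Prelude.Def_ModularCurve_HeckeModule
import Fermat.Agent.Pack.S43MC.G0E20L1
import Fermat.Agent.Pack.S43MC.G0E15L2
import Fermat.Agent.Pack.S43MC.G0E20L2
import Fermat.Agent.Pack.S43MC.G0E4L0
import Fermat.Agent.Pack.S43MC.G0E20L3
import Fermat.Agent.Pack.S43MC.G0E20L0
import Fermat.Agent.Pack.S43MC.G0E12L3
import Fermat.Agent.Pack.S43MC.G0E7L0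
import Fermat.Agent.Pack.S43MC.G0E10L0
import Fermat.Agent.Pack.S43MC.G0E16L2
import Fermat.Agent.Pack.S44C.G0E4L2
import Fermat.Agent.Pack.S43MC.G0E16L1
import Fermat.Agent.Pack.S44C.G0E22L2
import Fermat.Agent.Pack.S44C.G0E22L3
import Fermat.Agent.Pack.Fast891

-- ===== PACK-BEGIN Lib/Newform/H743/SpecMainD.lean
section





/-!
# NEWFORM library (helper743), part 8: `MainLemmaD` in the row-lead's Spec shape

* `mainLemmaD` : (definitionally) `Fermat.Agent.Lib.Newform.H23.MainLemmaD`.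
* `mainLemmaD_any_weight` : the same for every weight, with the pointwise identity.
* `qCoeff_eq_zero_of_coprime_level` : if `a_n(f) = 0` for all `n` prime to `D` (any `D > 0`),
  then `a_n(f) = 0` for all `n` prime to the level `N`  ("almost all ⇒ all").
* `mainLemma_any_weight'`, `mainLemma'` : the case `D = N` (`H23.MainLemma` shape).
-/

set_option autoImplicit false

open UpperHalfPlane ModularForm CongruenceSubgroup
open scoped MatrixGroups

namespace Fermat.Agent.Lib.Newform.H743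

open Fermat.Agent.Lib.Newform.H803 ModularFormClass

noncomputable section

theorem forall_not_dvd_imp_coprime {D n : ℕ} (h : ∀ p ∈ D.primeFactors, ¬ p ∣ n) (hD : D ≠ 0) :
    n.Coprime D := by
  apply Nat.coprime_of_dvd
  intro p hp hpn hpD
  exact h p (Nat.mem_primeFactors.mpr ⟨hp, hpD, hD⟩) hpn

theorem filter_dvd_primeFactors (N D : ℕ) (hN : N ≠ 0) :
    D.primeFactors.filter (fun p => p ∣ N) = N.primeFactors ∩ D.primeFactors := by
  ext p
  simp only [Finset.mem_filter, Finset.mem_inter, Nat.mem_primeFactors]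
  constructor
  · rintro ⟨⟨hp, hpD, hD⟩, hpN⟩
    exact ⟨⟨hp, hpN, hN⟩, hp, hpD, hD⟩
  · rintro ⟨⟨hp, hpN, -⟩, -, hpD, hD⟩
    exact ⟨⟨hp, hpD, hD⟩, hpN⟩

/-- "Almost all ⇒ all": vanishing of the coefficients prime to an arbitrary `D` implies vanishing
of the coefficients prime to the level. -/
theorem qCoeff_eq_zero_of_coprime_level (k : ℤ) (N D : ℕ) [NeZero N] (hD : 0 < D)
    (f : CuspForm (Gamma0 N) k) (h : ∀ n : ℕ, n.Coprime D → qCoeff f n = 0) :
    ∀ n : ℕ, n.Coprime N → qCoeff f n = 0 := by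
  classical
  intro n hn
  refine coeff_eq_zero_of_forall_not_dvd (k := k) _ N D.primeFactors
    (fun p hp => (Nat.mem_primeFactors.mp hp).1) le_rfl (f : ℍ → ℂ)
    (isCuspidal_of_cuspForm f) (slInv_of_cuspForm f)
    (fun n hn => h n (forall_not_dvd_imp_coprime hn hD.ne')) n ?_
  intro p hp hpn
  rw [Finset.mem_filter, Nat.mem_primeFactors] at hp
  have h1 : p ∣ Nat.gcd n N := Nat.dvd_gcd hpn hp.2
  rw [hn] at h1
  exact hp.1.1.one_lt.ne' (Nat.dvd_one.mp h1)

/-- **Main lemma, `D`-form**, any weight. -/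
theorem mainLemmaD_any_weight (k : ℤ) (N D : ℕ) [NeZero N] (hD : 0 < D)
    (f : CuspForm (Gamma0 N) k) (h : ∀ n : ℕ, n.Coprime D → qCoeff f n = 0) :
    ∃ g : (p : ℕ) → CuspForm (Gamma0 (N / p)) k,
      (∀ τ : ℍ, f τ = ∑ p ∈ N.primeFactors ∩ D.primeFactors, g p (heckeDiagMatrix p • τ)) ∧
      ∀ n : ℕ, qCoeff f n =
        ∑ p ∈ N.primeFactors ∩ D.primeFactors, if p ∣ n then qCoeff (g p) (n / p) else 0 := by
  classical
  have hN : N ≠ 0 := NeZero.ne N
  have hs : ∀ p ∈ D.primeFactors, p.Prime := fun p hp => (Nat.mem_primeFactors.mp hp).1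
  obtain ⟨G, hG, hsum⟩ := mainL_general (k := k) N D.primeFactors hs
    (isCuspidal_of_cuspForm f) (slInv_of_cuspForm f)
    (fun n hn => h n (forall_not_dvd_imp_coprime hn hD.ne'))
  rw [filter_dvd_primeFactors N D hN] at hsum
  have hmem : ∀ p ∈ N.primeFactors ∩ D.primeFactors, p ∈ D.primeFactors ∧ p ∣ N := by
    intro p hp
    rw [Finset.mem_inter] at hp
    exact ⟨hp.2, (Nat.mem_primeFactors.mp hp.1).2.1⟩
  let g : (p : ℕ) → CuspForm (Gamma0 (N / p)) k := fun p =>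
    if hp : p ∈ D.primeFactors ∧ p ∣ N then
      cuspFormOfIsCuspidal (Gamma0 (N / p)) (G p) (hG p hp.1 hp.2).1 (hG p hp.1 hp.2).2
    else 0
  have hg : ∀ p ∈ N.primeFactors ∩ D.primeFactors, (⇑(g p) : ℍ → ℂ) = G p := by
    intro p hp
    simp only [g, dif_pos (hmem p hp)]
    rfl
  refine ⟨g, fun τ => ?_, fun n => ?_⟩
  · have := congrFun hsum τ
    rw [Finset.sum_apply] at this
    rw [this]
    refine Finset.sum_congr rfl fun p hp => ?_
    rw [Bd_apply, hg p hp]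
  · have hQf := hasQ_of_isCuspidal (isCuspidal_of_cuspForm f)
      (periodic_of_slInv_Gamma0 (slInv_of_cuspForm f))
    have hQ2 : HasQ (fun n => ∑ p ∈ N.primeFactors ∩ D.primeFactors,
        if p ∣ n then (qExpansion 1 (G p)).coeff (n / p) else 0) (f : ℍ → ℂ) := by
      rw [hsum]
      refine HasQ.sum _ fun p hp => ?_
      have hp' := hmem p hp
      exact (hasQ_of_isCuspidal (hG p hp'.1 hp'.2).1
        (periodic_of_slInv_Gamma0 (hG p hp'.1 hp'.2).2)).Bd
        (Nat.mem_primeFactors.mp hp'.1).1.ne_zero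
    have := hQf.unique hQ2 n
    rw [qCoeff, this]
    refine Finset.sum_congr rfl fun p hp => ?_
    rw [qCoeff, hg p hp]

/-- **MAIN LEMMA, `D`-form** in the exact shape of `H23.MainLemmaD`. -/
theorem mainLemmaD :
    ∀ (N D : ℕ) [NeZero N], 0 < D → ∀ f : CuspForm (Gamma0 N) 2,
      (∀ n : ℕ, n.Coprime D → qCoeff f n = 0) →
      ∃ g : (p : ℕ) → CuspForm (Gamma0 (N / p)) 2, ∀ n : ℕ,
        qCoeff f n = ∑ p ∈ N.primeFactors ∩ D.primeFactors,
          if p ∣ n then qCoeff (g p) (n / p) else 0 := by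
  intro N D _ hD f h
  obtain ⟨g, -, hg⟩ := mainLemmaD_any_weight 2 N D hD f h
  exact ⟨g, hg⟩

/-- **MAIN LEMMA** in the exact shape of `H23.MainLemma` (the case `D = N`). -/
theorem mainLemma' :
    ∀ (N : ℕ) [NeZero N] (f : CuspForm (Gamma0 N) 2),
      (∀ n : ℕ, n.Coprime N → qCoeff f n = 0) →
      ∃ g : (p : ℕ) → CuspForm (Gamma0 (N / p)) 2, ∀ n : ℕ,
        qCoeff f n = ∑ p ∈ N.primeFactors, if p ∣ n then qCoeff (g p) (n / p) else 0 := by
  intro N _ f h
  obtain ⟨g, hg⟩ := mainLemmaD N N (Nat.pos_of_ne_zero (NeZero.ne N)) f h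
  refine ⟨g, fun n => ?_⟩
  rw [hg n, Finset.inter_self]

end

end Fermat.Agent.Lib.Newform.H743

end
-- ===== PACK-END Lib/Newform/H743/SpecMainD.lean

-- ===== PACK-BEGIN Ribet/H818/SwapToric.lean
section




/-!
# Row RIBET, WALL-q — the toric relation for a component-SWAPPING Frobenius (helper818)

Mirror of `S35/H433/{FrobToric,Final,ValForm}.lean` (helper433).  Setting of the A2 wall
(`Fermat/Agent/A2/Alg`): `R` a henselian DVR with algebraically closed residue field of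
characteristic `q`, two semistable charts `Bf`, `Bi`, the two components given by two valuation
subrings `V₁ ≠ V₂` of `F` (A2/MOD: `V∞`, `V₀`).  Let `φ` be a semilinear automorphism of `F` which

* fixes the coordinate `x`, acts on the constants as the `Q`-power map modulo `w`,
* **swaps** `V₁` and `V₂`,
* fixes every crossing point of the two charts.

Then every toric Kummer class `u` (`m ∣ div u`, residues at `V₁`, `V₂` in `kˣ · (κˣ)^m`, `q ∤ m`)
satisfies

    φ u · u ^ Q = h ^ m .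

Model case: `φ = σ ∘ w_q`, `σ` a Frobenius lift at `q ‖ N`, `w_q` the Atkin–Lehner involution,
`Q = q`; the conclusion says that `Frob = -q · w_q` on the toric part of `J₀(N)[m]`
(Mazur's principle: `Frob_q` acts on the toric part through `q · U_q`, `U_q = -w_q`).

* `swapToric_of_parts`   : chart form, constants explicit;
* `SwapToricValStatement`, `swapToricVal_of_leaves` : valuation form, from the three leaves of the
  A2 wall (PURITY P-S, P-N and GLUE, all three proved on main).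
-/

set_option autoImplicit false
set_option linter.unusedSectionVars false

namespace Fermat.Agent.Ribet.H818

open Fermat.Agent.A2 Fermat.Agent.A2.Alg Fermat.Agent.A2.H348 Fermat.Agent.A2.Alg.H348
open Fermat.Agent.S35.H433

section Div

variable {E F : Type*} [Field E] [Field F] [Algebra E F]

theorem divisibleDiv_mul818 (m : ℕ) (f g : F) (hf : DivisibleDiv E m f)
    (hg : DivisibleDiv E m g) : DivisibleDiv E m (f * g) := by
  intro V hV hE
  obtain ⟨h₁, u₁, hh₁, hu₁, hu₁', rfl⟩ := hf V hV hE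
  obtain ⟨h₂, u₂, hh₂, hu₂, hu₂', rfl⟩ := hg V hV hE
  refine ⟨h₁ * h₂, u₁ * u₂, mul_ne_zero hh₁ hh₂, V.mul_mem _ _ hu₁ hu₂, ?_, ?_⟩
  · rw [mul_inv]
    exact V.mul_mem _ _ hu₁' hu₂'
  · rw [mul_pow]
    ring

theorem divisibleDiv_const818 (m : ℕ) (e : E) :
    DivisibleDiv E m (algebraMap E F e) := by
  intro V _ hE
  refine ⟨1, algebraMap E F e, one_ne_zero, hE e, ?_, by rw [one_pow, mul_one]⟩
  rw [← map_inv₀]
  exact hE _

end Div

section Parts

variable {R E F : Type*} [CommRing R] [Field E] [Field F] [Algebra E F] [Algebra R F]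
  [Algebra R E] [IsScalarTower R E F]

/-- Local factorisations of `φ u · u ^ Q / (c₁ c₂) ^ Q` at all closed points of one chart. -/
theorem locallyFactored_swap {w : R} (B : Subalgebra R F) (c : SSChart w B)
    (φ : F ≃+* F) (Q : ℕ) (hQ : 0 < Q) (hφ : SwapCtx w B c φ Q) (m : ℕ) (hm : 0 < m)
    (hk : ∀ n : Ideal B, n.IsMaximal → c.p₁ ≤ n → c.p₂ ≤ n →
      ∀ b : B, ∃ r : R, b - algebraMap R B r ∈ n)
    (hfix : ∀ n : Ideal B, n.IsMaximal → c.p₁ ≤ n → c.p₂ ≤ n →
      ∀ b : B, b ∈ n → hφ.hom b ∈ n)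
    (htr : ∀ n : Ideal B, n.IsMaximal → c.p₁ ≤ n → c.p₂ ≤ n →
      ∀ b : B, b ∈ n → ∃ s : B, s ∉ n ∧ s * b ∈ c.p₁ ⊔ c.p₂)
    (u : F) (hu : u ≠ 0) {c₁ c₂ : R} (hc₁ : IsUnit c₁) (hc₂ : IsUnit c₂)
    (hu₁ : InLoc B c.p₁ c.p₁ (u - algebraMap R F c₁))
    (hu₂ : InLoc B c.p₂ c.p₂ (u - algebraMap R F c₂))
    (hpur : ∀ n : Ideal B, n.IsMaximal → algebraMap R B w ∈ n → PureAt B c m u n) :
    LocallyFactored B c m (φ u * u ^ Q * (algebraMap R F (c₁ * c₂) ^ Q)⁻¹) := by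
  intro n hn hwn
  have hn' : (n.comap hφ.hom).IsMaximal :=
    Ideal.comap_isMaximal_of_surjective hφ.hom hφ.hom_surjective
  exact localFactor_swap_of_pureAt w B c φ Q hφ m hm u hu hc₁ hc₂ hu₁ hu₂ n hn hwn (hk n hn)
    (hfix n hn) (htr n hn) (hpur _ hn' (hφ.w_mem_comap hQ hwn)) (hpur n hn hwn)

/-- Either labelling of the two constants. -/
theorem locallyFactored_swap' {w : R} (B : Subalgebra R F) (c : SSChart w B)
    (φ : F ≃+* F) (Q : ℕ) (hQ : 0 < Q) (hφ : SwapCtx w B c φ Q) (m : ℕ) (hm : 0 < m)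
    (hk : ∀ n : Ideal B, n.IsMaximal → c.p₁ ≤ n → c.p₂ ≤ n →
      ∀ b : B, ∃ r : R, b - algebraMap R B r ∈ n)
    (hfix : ∀ n : Ideal B, n.IsMaximal → c.p₁ ≤ n → c.p₂ ≤ n →
      ∀ b : B, b ∈ n → hφ.hom b ∈ n)
    (htr : ∀ n : Ideal B, n.IsMaximal → c.p₁ ≤ n → c.p₂ ≤ n →
      ∀ b : B, b ∈ n → ∃ s : B, s ∉ n ∧ s * b ∈ c.p₁ ⊔ c.p₂)
    (u : F) (hu : u ≠ 0) {c₁ c₂ : R} (hc₁ : IsUnit c₁) (hc₂ : IsUnit c₂)
    (hcs : (InLoc B c.p₁ c.p₁ (u - algebraMap R F c₁) ∧
        InLoc B c.p₂ c.p₂ (u - algebraMap R F c₂)) ∨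
      (InLoc B c.p₁ c.p₁ (u - algebraMap R F c₂) ∧
        InLoc B c.p₂ c.p₂ (u - algebraMap R F c₁)))
    (hpur : ∀ n : Ideal B, n.IsMaximal → algebraMap R B w ∈ n → PureAt B c m u n) :
    LocallyFactored B c m (φ u * u ^ Q * (algebraMap R F (c₁ * c₂) ^ Q)⁻¹) := by
  rcases hcs with ⟨h1, h2⟩ | ⟨h1, h2⟩
  · exact locallyFactored_swap B c φ Q hQ hφ m hm hk hfix htr u hu hc₁ hc₂ h1 h2 hpur
  · have := locallyFactored_swap B c φ Q hQ hφ m hm hk hfix htr u hu hc₂ hc₁ h1 h2 hpur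
    rwa [mul_comm c₂ c₁] at this

/-- **The toric relation for a swapping `φ`, chart form.**  `u ≡ c₁`, `c₂` on the two components
of both charts, `m ∣ div u`  ⟹  `φ u · u ^ Q = (c₁ c₂) ^ Q · h ^ m`. -/
theorem swapToric_of_parts (m : ℕ) (hm : 0 < m) (w : R) (Bf Bi : Subalgebra R F)
    (cf : SSChart w Bf) (ci : SSChart w Bi)
    (φ : F ≃+* F) (φE : E ≃+* E) (Q : ℕ) (hQ : 0 < Q)
    (hφE : ∀ e : E, φ (algebraMap E F e) = algebraMap E F (φE e))
    (hφf : SwapCtx w Bf cf φ Q) (hφi : SwapCtx w Bi ci φ Q)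
    (hkf : ∀ n : Ideal Bf, n.IsMaximal → cf.p₁ ≤ n → cf.p₂ ≤ n →
      ∀ b : Bf, ∃ r : R, b - algebraMap R Bf r ∈ n)
    (hki : ∀ n : Ideal Bi, n.IsMaximal → ci.p₁ ≤ n → ci.p₂ ≤ n →
      ∀ b : Bi, ∃ r : R, b - algebraMap R Bi r ∈ n)
    (hfixf : ∀ n : Ideal Bf, n.IsMaximal → cf.p₁ ≤ n → cf.p₂ ≤ n →
      ∀ b : Bf, b ∈ n → hφf.hom b ∈ n)
    (hfixi : ∀ n : Ideal Bi, n.IsMaximal → ci.p₁ ≤ n → ci.p₂ ≤ n →
      ∀ b : Bi, b ∈ n → hφi.hom b ∈ n)
    (htrf : ∀ n : Ideal Bf, n.IsMaximal → cf.p₁ ≤ n → cf.p₂ ≤ n →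
      ∀ b : Bf, b ∈ n → ∃ s : Bf, s ∉ n ∧ s * b ∈ cf.p₁ ⊔ cf.p₂)
    (htri : ∀ n : Ideal Bi, n.IsMaximal → ci.p₁ ≤ n → ci.p₂ ≤ n →
      ∀ b : Bi, b ∈ n → ∃ s : Bi, s ∉ n ∧ s * b ∈ ci.p₁ ⊔ ci.p₂)
    (u : F) (hu : u ≠ 0) (hdiv : DivisibleDiv E m u)
    {c₁ c₂ : R} (hc₁ : IsUnit c₁) (hc₂ : IsUnit c₂)
    (hcf : (InLoc Bf cf.p₁ cf.p₁ (u - algebraMap R F c₁) ∧
        InLoc Bf cf.p₂ cf.p₂ (u - algebraMap R F c₂)) ∨
      (InLoc Bf cf.p₁ cf.p₁ (u - algebraMap R F c₂) ∧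
        InLoc Bf cf.p₂ cf.p₂ (u - algebraMap R F c₁)))
    (hci : (InLoc Bi ci.p₁ ci.p₁ (u - algebraMap R F c₁) ∧
        InLoc Bi ci.p₂ ci.p₂ (u - algebraMap R F c₂)) ∨
      (InLoc Bi ci.p₁ ci.p₁ (u - algebraMap R F c₂) ∧
        InLoc Bi ci.p₂ ci.p₂ (u - algebraMap R F c₁)))
    (hpurf : ∀ n : Ideal Bf, n.IsMaximal → algebraMap R Bf w ∈ n → PureAt Bf cf m u n)
    (hpuri : ∀ n : Ideal Bi, n.IsMaximal → algebraMap R Bi w ∈ n → PureAt Bi ci m u n)
    (hglue : ∀ v : F, v ≠ 0 → DivisibleDiv E m v → LocallyFactored Bf cf m v →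
      LocallyFactored Bi ci m v → ∃ y : F, y ≠ 0 ∧ v = y ^ m) :
    ∃ h : F, h ≠ 0 ∧ φ u * u ^ Q = algebraMap R F (c₁ * c₂) ^ Q * h ^ m := by
  have hφu : φ u ≠ 0 := (map_ne_zero φ).2 hu
  have huQ : u ^ Q ≠ 0 := pow_ne_zero _ hu
  have hp₁ := cf.prime₁
  have hC0 : algebraMap R F (c₁ * c₂) ^ Q ≠ 0 :=
    locUnit_ne_zero (n := cf.p₁) (locUnit_pow (locUnit_const (hc₁.mul hc₂)) Q)
  have hv : φ u * u ^ Q * (algebraMap R F (c₁ * c₂) ^ Q)⁻¹ ≠ 0 :=
    mul_ne_zero (mul_ne_zero hφu huQ) (inv_ne_zero hC0)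
  have hCE : algebraMap R F (c₁ * c₂) ^ Q = algebraMap E F (algebraMap R E (c₁ * c₂) ^ Q) := by
    rw [map_pow, ← IsScalarTower.algebraMap_apply]
  have hCE0 : algebraMap R E (c₁ * c₂) ^ Q ≠ 0 := by
    intro h0
    apply hC0
    rw [hCE, h0, map_zero]
  have hdivv : DivisibleDiv E m (φ u * u ^ Q * (algebraMap R F (c₁ * c₂) ^ Q)⁻¹) := by
    rw [hCE]
    exact H34.divisibleDiv_mul_inv m _ _
      (divisibleDiv_mul818 m _ _ (H34.divisibleDiv_tau φ φE hφE m u hdiv)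
        (divisibleDiv_pow m u hdiv Q))
      (divisibleDiv_const818 m _)
  obtain ⟨y, hy, hyv⟩ := hglue _ hv hdivv
    (locallyFactored_swap' Bf cf φ Q hQ hφf m hm hkf hfixf htrf u hu hc₁ hc₂ hcf hpurf)
    (locallyFactored_swap' Bi ci φ Q hQ hφi m hm hki hfixi htri u hu hc₁ hc₂ hci hpuri)
  refine ⟨y, hy, ?_⟩
  rw [← hyv, mul_comm (algebraMap R F (c₁ * c₂) ^ Q), mul_assoc, inv_mul_cancel₀ hC0, mul_one]

end Parts

section Swap

variable {R F : Type*} [CommRing R] [Field F] [Algebra R F]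

/-- `φ` mapping `V'` onto `V` maps the non-units of `V'` onto those of `V`. -/
theorem swap_mem_nonunits_iff (φ : F ≃+* F) (V V' : ValuationSubring F)
    (hV : ∀ z : F, φ z ∈ V ↔ z ∈ V') (z : F) : φ z ∈ V.nonunits ↔ z ∈ V'.nonunits := by
  rw [ValuationSubring.mem_nonunits_iff_or, ValuationSubring.mem_nonunits_iff_or, ← map_inv₀, hV,
    map_eq_zero_iff φ φ.injective]

/-- `z ≡ c₀ mod 𝔪_V` for a unit constant. -/
theorem constV_iff818 {V : ValuationSubring F} {u : F} :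
    ConstV R V u ↔ ∃ c₀ : R, IsUnit c₀ ∧ u - algebraMap R F c₀ ∈ V.nonunits := Iff.rfl

end Swap

section Main

variable {R E F : Type*} [CommRing R] [IsDomain R] [IsDiscreteValuationRing R]
  [IsAlgClosed (IsLocalRing.ResidueField R)]
  [Field E] [CharZero E] [Algebra R E] [IsFractionRing R E]
  [Field F] [Algebra E F] [Algebra R F] [IsScalarTower R E F]

/-- `φ` swapping `V₁` and `V₂` swaps the components of a chart. -/
theorem swapCtx_of_val (w : R) (x : F) (B : Subalgebra R F) (hB : ChartCtx E w x B)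
    (c : SSChart w B) (V₁ V₂ : ValuationSubring F) (h₁ : ValCtx w x V₁) (h₂ : ValCtx w x V₂)
    (hne : V₁ ≠ V₂) (φ : F ≃+* F) (φR : R ≃+* R) (Q : ℕ)
    (hφR : ∀ r : R, φ (algebraMap R F r) = algebraMap R F (φR r))
    (hQ : ∀ r : R, ∃ s : R, φR r - r ^ Q = w * s) (hφx : φ x = x)
    (hV₁ : ∀ z : F, φ z ∈ V₁ ↔ z ∈ V₂) (hV₂ : ∀ z : F, φ z ∈ V₂ ↔ z ∈ V₁) :
    SwapCtx w B c φ Q := by
  have hp₁ := c.prime₁
  have hp₂ := c.prime₂
  have hmap : ∀ b : F, b ∈ B → φ b ∈ B := fun b hb => phi_mem_chart φ φR hφR hφx B hB.hB hb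
  have hφR' : ∀ r : R, φ.symm (algebraMap R F r) = algebraMap R F (φR.symm r) := by
    intro r
    rw [RingEquiv.symm_apply_eq, hφR, RingEquiv.apply_symm_apply]
  have hφx' : φ.symm x = x := by
    rw [RingEquiv.symm_apply_eq, hφx]
  have hmap' : ∀ b : F, φ b ∈ B → b ∈ B := fun b hb => by
    have := phi_mem_chart φ.symm φR.symm hφR' hφx' B hB.hB hb
    rwa [RingEquiv.symm_apply_apply] at this
  have e : ∀ (p : Ideal B) [p.IsPrime] (V : ValuationSubring F),
      (∀ z : F, z ∈ V.nonunits ↔ InLoc B p p z) → ∀ b' : B, b' ∈ p ↔ (b' : F) ∈ V.nonunits := by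
    intro p _ V d b'
    rw [d]
    constructor
    · intro hb'
      exact inLoc_coe hb'
    · rintro ⟨a, s, ha, hs, has⟩
      have h1 : b' * s = a := Subtype.ext (by push_cast; exact has)
      have h2 : b' * s ∈ p := by rw [h1]; exact ha
      exact (‹p.IsPrime›.mem_or_mem h2).resolve_right hs
  have key : ∀ (p p' : Ideal B) [p.IsPrime] [p'.IsPrime] (V V' : ValuationSubring F),
      (∀ z : F, φ z ∈ V ↔ z ∈ V') → (∀ z : F, z ∈ V.nonunits ↔ InLoc B p p z) →
      (∀ z : F, z ∈ V'.nonunits ↔ InLoc B p' p' z) →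
      ∀ b : B, (⟨φ b, hmap b b.2⟩ : B) ∈ p ↔ b ∈ p' := by
    intro p p' _ _ V V' hV d d' b
    rw [e p V d, e p' V' d']
    exact swap_mem_nonunits_iff φ V V' hV _
  refine ⟨hmap, hmap', ?_, ?_, ?_⟩
  · rcases exists_dict w x B hB c V₁ V₂ h₁ h₂ hne with ⟨⟨-, d₁⟩, ⟨-, d₂⟩⟩ | ⟨⟨-, d₁⟩, ⟨-, d₂⟩⟩
    · exact key c.p₁ c.p₂ V₁ V₂ hV₁ d₁ d₂
    · exact key c.p₁ c.p₂ V₂ V₁ hV₂ d₂ d₁
  · rcases exists_dict w x B hB c V₁ V₂ h₁ h₂ hne with ⟨⟨-, d₁⟩, ⟨-, d₂⟩⟩ | ⟨⟨-, d₁⟩, ⟨-, d₂⟩⟩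
    · exact key c.p₂ c.p₁ V₂ V₁ hV₂ d₂ d₁
    · exact key c.p₂ c.p₁ V₁ V₂ hV₁ d₁ d₂
  · intro r
    obtain ⟨s, hs⟩ := hQ r
    refine ⟨algebraMap R B s, ?_⟩
    rw [hφR, ← map_pow, ← map_sub, hs, map_mul]
    rfl

/-- Constants at `V₁`, `V₂`  ⟹  constants on the components of any chart, in some order. -/
theorem inLoc_of_constV (w : R) (x : F) (B : Subalgebra R F) (hB : ChartCtx E w x B)
    (c : SSChart w B) (V₁ V₂ : ValuationSubring F) (h₁ : ValCtx w x V₁) (h₂ : ValCtx w x V₂)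
    (hne : V₁ ≠ V₂) {u : F} {c₁ c₂ : R}
    (hu₁ : u - algebraMap R F c₁ ∈ V₁.nonunits) (hu₂ : u - algebraMap R F c₂ ∈ V₂.nonunits) :
    (InLoc B c.p₁ c.p₁ (u - algebraMap R F c₁) ∧ InLoc B c.p₂ c.p₂ (u - algebraMap R F c₂)) ∨
    (InLoc B c.p₁ c.p₁ (u - algebraMap R F c₂) ∧ InLoc B c.p₂ c.p₂ (u - algebraMap R F c₁)) := by
  rcases exists_dict w x B hB c V₁ V₂ h₁ h₂ hne with ⟨⟨-, d₁⟩, ⟨-, d₂⟩⟩ | ⟨⟨-, d₁⟩, ⟨-, d₂⟩⟩
  · exact Or.inl ⟨(d₁ _).1 hu₁, (d₂ _).1 hu₂⟩
  · exact Or.inr ⟨(d₂ _).1 hu₂, (d₁ _).1 hu₁⟩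

end Main

section Root

open Polynomial IsLocalRing

variable {R : Type*} [CommRing R] [HenselianLocalRing R]
  [IsAlgClosed (ResidueField R)]

/-- In a henselian local ring with algebraically closed residue field of characteristic `q ∤ m`
every unit is an `m`-th power. -/
theorem exists_pow_eq_of_isUnit818 (q m : ℕ) (hq : q.Prime) (hqR : (q : R) ∈ maximalIdeal R)
    (hm : 0 < m) (hqm : ¬ q ∣ m) {C₀ : R} (hC : IsUnit C₀) : ∃ r : R, IsUnit r ∧ r ^ m = C₀ := by
  have hmk := natCast_residue_ne_zero (R := R) q m hq hqR hqm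
  have hC0 : residue R C₀ ≠ 0 := by
    intro h
    rw [residue_eq_zero_iff] at h
    exact (IsLocalRing.notMem_maximalIdeal.mpr hC) h
  obtain ⟨z₀, hz₀⟩ := IsAlgClosed.exists_pow_nat_eq (residue R C₀) hm
  have hz₀0 : z₀ ≠ 0 := by
    rintro rfl
    rw [zero_pow hm.ne'] at hz₀
    exact hC0 hz₀.symm
  obtain ⟨r, hr, hres⟩ := Fermat.Agent.A2.H552.exists_root_of_residue_simple_root
    (X ^ m - C C₀) (monic_X_pow_sub_C C₀ hm.ne') z₀
    (by simp [hz₀])
    (by
      simp only [Polynomial.map_sub, Polynomial.map_pow, map_X, map_C, derivative_sub,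
        derivative_X_pow, derivative_C, sub_zero, eval_mul, eval_C, eval_pow, eval_X]
      exact mul_ne_zero hmk (pow_ne_zero _ hz₀0))
  have hpow : r ^ m = C₀ := by
    have : (X ^ m - C C₀ : R[X]).eval r = 0 := hr
    simpa [sub_eq_zero] using this
  refine ⟨r, ?_, hpow⟩
  rw [← IsLocalRing.notMem_maximalIdeal]
  intro h
  apply hz₀0
  rw [← hres]
  exact (residue_eq_zero_iff _).mpr h

end Root

section Core

variable {R E F : Type*} [CommRing R] [IsDomain R] [IsDiscreteValuationRing R]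
  [HenselianLocalRing R] [IsAlgClosed (IsLocalRing.ResidueField R)]
  [Field E] [CharZero E] [Algebra R E] [IsFractionRing R E]
  [Field F] [Algebra E F] [Algebra R F] [IsScalarTower R E F]

/-- **Core of the valuation form**: the toric relation for a swapping `φ`, with PURITY (for split
classes, on both charts) and GLUE as hypotheses. -/
theorem swapToricVal_core (w : R) (hw : Irreducible w) (q m : ℕ) (hq : q.Prime)
    (hqR : (q : R) ∈ IsLocalRing.maximalIdeal R) (hm : 0 < m) (hqm : ¬ q ∣ m)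
    (x : F) (hx : Transcendental E x)
    (hfin : FiniteDimensional (IntermediateField.adjoin E ({x} : Set F)) F)
    (hconst : ∀ f : F, IsAlgebraic E f → f ∈ (algebraMap E F).range)
    (Bf Bi : Subalgebra R F)
    (hBf : ∀ f : F, f ∈ Bf ↔ IsIntegral (Algebra.adjoin R ({x} : Set F)) f)
    (hBi : ∀ f : F, f ∈ Bi ↔ IsIntegral (Algebra.adjoin R ({x⁻¹} : Set F)) f)
    (cf : SSChart w Bf) (ci : SSChart w Bi)
    (V₁ V₂ : ValuationSubring F) (h₁ : ValCtx w x V₁) (h₂ : ValCtx w x V₂) (hne : V₁ ≠ V₂)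
    (φ : F ≃+* F) (φE : E ≃+* E) (φR : R ≃+* R) (Q : ℕ) (hQ : 0 < Q)
    (hφE : ∀ e : E, φ (algebraMap E F e) = algebraMap E F (φE e))
    (hφER : ∀ r : R, φE (algebraMap R E r) = algebraMap R E (φR r))
    (hfrob : ∀ r : R, ∃ s : R, φR r - r ^ Q = w * s)
    (hφx : φ x = x)
    (hV₁ : ∀ z : F, φ z ∈ V₁ ↔ z ∈ V₂) (hV₂ : ∀ z : F, φ z ∈ V₂ ↔ z ∈ V₁)
    (hfixf : ∀ n : Ideal Bf, n.IsMaximal → cf.p₁ ≤ n → cf.p₂ ≤ n →
      ∀ b : Bf, b ∈ n → ∀ hb : φ b ∈ Bf, (⟨φ b, hb⟩ : Bf) ∈ n)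
    (hfixi : ∀ n : Ideal Bi, n.IsMaximal → ci.p₁ ≤ n → ci.p₂ ≤ n →
      ∀ b : Bi, b ∈ n → ∀ hb : φ b ∈ Bi, (⟨φ b, hb⟩ : Bi) ∈ n)
    (hpurf : ∀ v : F, v ≠ 0 → DivisibleDiv E m v → IsSplit Bf cf v →
      ∀ n : Ideal Bf, n.IsMaximal → algebraMap R Bf w ∈ n → PureAt Bf cf m v n)
    (hpuri : ∀ v : F, v ≠ 0 → DivisibleDiv E m v → IsSplit Bi ci v →
      ∀ n : Ideal Bi, n.IsMaximal → algebraMap R Bi w ∈ n → PureAt Bi ci m v n)
    (hglue : ∀ v : F, v ≠ 0 → DivisibleDiv E m v → LocallyFactored Bf cf m v →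
      LocallyFactored Bi ci m v → ∃ y : F, y ≠ 0 ∧ v = y ^ m)
    (u : F) (hu : u ≠ 0) (hdiv : DivisibleDiv E m u)
    (hu₁ : GSplitV R V₁ m u) (hu₂ : GSplitV R V₂ m u) :
    ∃ h : F, h ≠ 0 ∧ φ u * u ^ Q = h ^ m := by
  have hCf : ChartCtx E w x Bf := ⟨hw, hx, hfin, hconst, hBf⟩
  have hCi : ChartCtx E w x⁻¹ Bi := H34.chartCtx_inv w hw x hx hfin hconst Bi hBi
  have hφR : ∀ r : R, φ (algebraMap R F r) = algebraMap R F (φR r) := by
    intro r
    rw [IsScalarTower.algebraMap_apply R E F, hφE, hφER, ← IsScalarTower.algebraMap_apply]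
  have hφxi : φ x⁻¹ = x⁻¹ := by rw [map_inv₀, hφx]
  have hφf : SwapCtx w Bf cf φ Q :=
    swapCtx_of_val w x Bf hCf cf V₁ V₂ h₁ h₂ hne φ φR Q hφR hfrob hφx hV₁ hV₂
  have hφi : SwapCtx w Bi ci φ Q :=
    swapCtx_of_val w x⁻¹ Bi hCi ci V₁ V₂ h₁.inv h₂.inv hne φ φR Q hφR hfrob hφxi hV₁ hV₂
  obtain ⟨G, hG0, hc₁, hc₂⟩ := exists_constV_of_gSplitV w x Bf hCf cf V₁ V₂ h₁ h₂ hne hu₁ hu₂
  obtain ⟨c₁, hc₁u, hc₁n⟩ := hc₁
  obtain ⟨c₂, hc₂u, hc₂n⟩ := hc₂
  have hGm : G ^ m ≠ 0 := pow_ne_zero _ hG0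
  have hu' : u * (G ^ m)⁻¹ ≠ 0 := mul_ne_zero hu (inv_ne_zero hGm)
  have hsf : IsSplit Bf cf (u * (G ^ m)⁻¹) :=
    isSplit_of_constV w x Bf hCf cf V₁ V₂ h₁ h₂ hne ⟨c₁, hc₁u, hc₁n⟩ ⟨c₂, hc₂u, hc₂n⟩
  have hsi : IsSplit Bi ci (u * (G ^ m)⁻¹) :=
    isSplit_of_constV w x⁻¹ Bi hCi ci V₁ V₂ h₁.inv h₂.inv hne ⟨c₁, hc₁u, hc₁n⟩
      ⟨c₂, hc₂u, hc₂n⟩
  have hdiv' := divisibleDiv_mul_inv_pow (E := E) m u G hG0 hdiv
  obtain ⟨h, hh, hrel⟩ := swapToric_of_parts (E := E) m hm w Bf Bi cf ci φ φE Q hQ hφE hφf hφi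
    (fun n hn _ _ b => exists_const_sub_mem w x Bf hCf n hn
      ((Ideal.span_singleton_le_iff_mem (I := n)).1
        (by rw [← cf.inf_eq]; exact inf_le_left.trans ‹cf.p₁ ≤ n›)) b)
    (fun n hn _ _ b => exists_const_sub_mem w x⁻¹ Bi hCi n hn
      ((Ideal.span_singleton_le_iff_mem (I := n)).1
        (by rw [← ci.inf_eq]; exact inf_le_left.trans ‹ci.p₁ ≤ n›)) b)
    (fun n hn h1 h2 b hb => hfixf n hn h1 h2 b hb _)
    (fun n hn h1 h2 b hb => hfixi n hn h1 h2 b hb _)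
    (fun n hn h1 h2 b hb => exists_mul_mem_sup w x Bf hCf cf n hn h1 h2 b hb)
    (fun n hn h1 h2 b hb => exists_mul_mem_sup w x⁻¹ Bi hCi ci n hn h1 h2 b hb)
    (u * (G ^ m)⁻¹) hu' hdiv' hc₁u hc₂u
    (inLoc_of_constV w x Bf hCf cf V₁ V₂ h₁ h₂ hne hc₁n hc₂n)
    (inLoc_of_constV w x⁻¹ Bi hCi ci V₁ V₂ h₁.inv h₂.inv hne hc₁n hc₂n)
    (hpurf _ hu' hdiv' hsf) (hpuri _ hu' hdiv' hsi) hglue
  -- absorb the constant
  obtain ⟨r, hr, hrC⟩ := exists_pow_eq_of_isUnit818 q m hq hqR hm hqm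
    ((hc₁u.mul hc₂u).pow Q)
  have hr0 : algebraMap R F r ≠ 0 := by
    have hp₁ := cf.prime₁
    exact locUnit_ne_zero (n := cf.p₁) (B := Bf) (locUnit_const hr)
  have hφG : φ G ≠ 0 := (map_ne_zero φ).2 hG0
  have hGQ : G ^ Q ≠ 0 := pow_ne_zero _ hG0
  refine ⟨algebraMap R F r * h * φ G * G ^ Q,
    mul_ne_zero (mul_ne_zero (mul_ne_zero hr0 hh) hφG) hGQ, ?_⟩
  rw [map_mul φ, map_inv₀ φ, map_pow φ] at hrel
  have hφGm : φ G ^ m ≠ 0 := pow_ne_zero _ hφG
  have hC : algebraMap R F (c₁ * c₂) ^ Q = algebraMap R F r ^ m := by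
    rw [← map_pow, ← map_pow, hrC]
  rw [hC] at hrel
  have e1 : φ u * u ^ Q
      = (φ u * (φ G ^ m)⁻¹ * (u * (G ^ m)⁻¹) ^ Q) * (φ G ^ m * (G ^ m) ^ Q) := by
    rw [mul_pow, inv_pow]
    have hGmQ : (G ^ m) ^ Q ≠ 0 := pow_ne_zero _ hGm
    field_simp
  rw [e1, hrel]
  ring

end Core

/-- **The toric relation for a swapping `φ` (interface statement, valuation language).** -/
def SwapToricValStatement : Prop :=
  ∀ {R E F : Type} [CommRing R] [IsDomain R] [IsDiscreteValuationRing R] [HenselianLocalRing R]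
    [IsAlgClosed (IsLocalRing.ResidueField R)]
    [Field E] [CharZero E] [Algebra R E] [IsFractionRing R E]
    [Field F] [Algebra E F] [Algebra R F] [IsScalarTower R E F]
    (w : R) (_ : Irreducible w) (q m : ℕ) (_ : q.Prime)
    (_ : (q : R) ∈ IsLocalRing.maximalIdeal R) (_ : 0 < m) (_ : ¬ q ∣ m)
    (x : F) (_ : Transcendental E x)
    (_ : FiniteDimensional (IntermediateField.adjoin E ({x} : Set F)) F)
    (_ : ∀ f : F, IsAlgebraic E f → f ∈ (algebraMap E F).range)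
    (Bf Bi : Subalgebra R F)
    (_ : ∀ f : F, f ∈ Bf ↔ IsIntegral (Algebra.adjoin R ({x} : Set F)) f)
    (_ : ∀ f : F, f ∈ Bi ↔ IsIntegral (Algebra.adjoin R ({x⁻¹} : Set F)) f)
    (cf : SSChart w Bf) (ci : SSChart w Bi)
    (_ : SepCoord R E x Bf) (_ : SepCoord R E x⁻¹ Bi)
    (V₁ V₂ : ValuationSubring F) (_ : ValCtx w x V₁) (_ : ValCtx w x V₂) (_ : V₁ ≠ V₂)
    (φ : F ≃+* F) (φE : E ≃+* E) (φR : R ≃+* R) (Q : ℕ) (_ : 0 < Q)
    (_ : ∀ e : E, φ (algebraMap E F e) = algebraMap E F (φE e))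
    (_ : ∀ r : R, φE (algebraMap R E r) = algebraMap R E (φR r))
    (_ : ∀ r : R, ∃ s : R, φR r - r ^ Q = w * s)
    (_ : φ x = x)
    (_ : ∀ z : F, φ z ∈ V₁ ↔ z ∈ V₂) (_ : ∀ z : F, φ z ∈ V₂ ↔ z ∈ V₁)
    (_ : ∀ n : Ideal Bf, n.IsMaximal → cf.p₁ ≤ n → cf.p₂ ≤ n →
      ∀ b : Bf, b ∈ n → ∀ hb : φ b ∈ Bf, (⟨φ b, hb⟩ : Bf) ∈ n)
    (_ : ∀ n : Ideal Bi, n.IsMaximal → ci.p₁ ≤ n → ci.p₂ ≤ n →
      ∀ b : Bi, b ∈ n → ∀ hb : φ b ∈ Bi, (⟨φ b, hb⟩ : Bi) ∈ n)
    (u : F), u ≠ 0 → DivisibleDiv E m u → GSplitV R V₁ m u → GSplitV R V₂ m u →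
      ∃ h : F, h ≠ 0 ∧ φ u * u ^ Q = h ^ m

/-- **The toric relation for a swapping `φ`, from the three leaves of the A2 wall.** -/
theorem swapToricVal_of_leaves (hPS : H34.PuritySmoothLeaf) (hPN : H34.PurityNodeLeaf)
    (hG : H34.GlueLeaf) : SwapToricValStatement := by
  intro R E F _ _ _ _ _ _ _ _ _ _ _ _ _ w hw q m hq hqR hm hqm x hx hfin hconst Bf Bi hBf hBi
    cf ci sf si V₁ V₂ h₁ h₂ hne φ φE φR Q hQ hφE hφER hfrob hφx hV₁ hV₂ hfixf hfixi u hu hdiv
    hu₁ hu₂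
  have hCf : ChartCtx E w x Bf := ⟨hw, hx, hfin, hconst, hBf⟩
  have hCi : ChartCtx E w x⁻¹ Bi := H34.chartCtx_inv w hw x hx hfin hconst Bi hBi
  exact swapToricVal_core w hw q m hq hqR hm hqm x hx hfin hconst Bf Bi hBf hBi cf ci V₁ V₂
    h₁ h₂ hne φ φE φR Q hQ hφE hφER hfrob hφx hV₁ hV₂ hfixf hfixi
    (fun v hv hdv hs n hn hwn => H34.purity_of_leaves hPS hPN q m hq hqR hm hqm w x Bf hCf cf sf
      v hv hdv hs n hn hwn)
    (fun v hv hdv hs n hn hwn => H34.purity_of_leaves hPS hPN q m hq hqR hm hqm w x⁻¹ Bi hCi ci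
      si v hv hdv hs n hn hwn)
    (fun v hv hdv hf hi => hG q m hq hqR hm hqm w x Bf Bi hCf hCi cf ci
      (H34.incomparable_of_ssChart cf) (H34.incomparable_of_ssChart ci) v hv hdv hf hi)
    u hu hdiv hu₁ hu₂

end Fermat.Agent.Ribet.H818

end
-- ===== PACK-END Ribet/H818/SwapToric.lean

-- ===== PACK-BEGIN S34/K789/Inputs.lean
section
/-
Row S34 (helper789): the frozen statement S34 from the inputs of row S30 + wall A2 + SS.

`hasAdicEigenModulesU_of_inputs` is the analogue of `Fermat.Agent.S30.hasAdicFrobModule_of_inputs`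
(S30 skeleton of helper49) with unipotent inertia at `q ∥ N`: the hypotheses are the UNFOLDED
forms of the frozen `Prop`s of `Fermat/Agent/S30/Defs.lean`
(`FinStatement`, `SmoothStatement`, `GalHeckeCommStatement`, `RawUnramifiedStatement`,
`RawFrobeniusStatement`, `TateLatticeStatement` with the structure `TateLattice` unbundled),
so that proofs of those `Prop`s can be passed directly, plus

* `hA2` : the Kummer form of wall A2, `Fermat.Agent.A2.H129.A2Kummer N (p ^ n) σ` for every `σ` in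
  an inertia group at a prime `q ≠ p`, `q ∥ N`.

`result_of_inputs` : the frozen statement S34 from these and `SSStatement` (row S31).
-/




set_option autoImplicit false

namespace Fermat.Agent.S34.K789

open TensorProduct

/-- The Kummer form of wall A2 for all inertia groups at the primes `q ≠ p` exactly dividing the
level (deliverable of cell A2). -/
def A2KummerStatement : Prop :=
  ∀ (N p q : ℕ), p.Prime → q.Prime → q ≠ p → q ∣ N → ¬ q ^ 2 ∣ N →
    ∀ P : ValuationSubring (AlgebraicClosure ℚ), P.LiesOverPrime q →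
      ∀ σ ∈ P.inertiaSubgroupIn ℚ, ∀ n : ℕ, Fermat.Agent.A2.H129.A2Kummer N (p ^ n) σ

/-- **The unipotent adic eigenmodules from the inputs of row S30 and wall A2.** -/
theorem hasAdicEigenModulesU_of_inputs
    (hfin : ∀ (N p : ℕ) [NeZero N], p.Prime →
      Finite {x : ModularCurve.JZero N // (p : ℤ) • x = 0})
    (hsm : ∀ (N p : ℕ) [NeZero N], ∀ x : ModularCurve.JZero N,
      (∃ n : ℕ, ((p : ℤ) ^ n) • x = 0) →
        ∃ L : IntermediateField ℚ (AlgebraicClosure ℚ), FiniteDimensional ℚ L ∧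
          ∀ σ : GQ', (∀ y ∈ L, σ y = y) → σ • x = x)
    (hgeq : ∀ (N : ℕ) [NeZero N] (ℓ : Nat.Primes) (σ : GQ') (x : ModularCurve.JZero N),
      ModularCurve.heckeOperatorBar N ℓ (σ • x) = σ • ModularCurve.heckeOperatorBar N ℓ x)
    (hunr : ∀ (N p : ℕ) [NeZero N], ∀ q : ℕ, q.Prime → ¬ q ∣ N * p →
      ∀ A : ValuationSubring (AlgebraicClosure ℚ), A.LiesOverPrime q →
        ∀ σ ∈ A.inertiaSubgroupIn ℚ, ∀ x : ModularCurve.JZero N,
          (∃ n : ℕ, ((p : ℤ) ^ n) • x = 0) → σ • x = x)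
    (hes : ∀ (N p : ℕ) [NeZero N], ∀ (ℓ : ℕ) (hℓ : ℓ.Prime), ¬ ℓ ∣ N * p →
      ∀ A : ValuationSubring (AlgebraicClosure ℚ), A.LiesOverPrime ℓ →
        ∀ σ : GQ', A.IsFrobeniusAt σ ℓ → ∀ x : ModularCurve.JZero N,
          (∃ n : ℕ, ((p : ℤ) ^ n) • x = 0) →
            σ • σ • x - ModularCurve.heckeOperatorBar N ⟨ℓ, hℓ⟩ (σ • x) + (ℓ : ℤ) • x = 0)
    (hlat : ∀ (N p : ℕ) [NeZero N], p.Prime →
      ∃ (Λ : Type) (_ : AddCommGroup Λ) (_ : Module.Free ℤ Λ) (_ : Module.Finite ℤ Λ)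
        (TΛ : Nat.Primes → Λ →ₗ[ℤ] Λ) (κ : ℕ → Λ →ₗ[ℤ] ModularCurve.JZero N),
        (∀ (n : ℕ) (x : Λ), κ n x = 0 ↔ ∃ y : Λ, x = ((p : ℤ) ^ n) • y) ∧
        (∀ (n : ℕ) (x : Λ), (p : ℤ) • κ (n + 1) x = κ n x) ∧
        (∀ ℓ : Nat.Primes, ¬ (ℓ : ℕ) ∣ N * p → ∀ (n : ℕ) (x : Λ),
          κ n (TΛ ℓ x) = ModularCurve.heckeOperatorBar N ℓ (κ n x)) ∧
        (∀ (S : Set ℕ) (R : Type) [CommRing R] [IsDomain R] [CharZero R]
          (χ : CuspForm.heckeAlgebra N 2 S →+* R),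
          ∃ v : R ⊗[ℤ] Λ, v ≠ 0 ∧
            ∀ (ℓ : ℕ) (hℓ : ℓ.Prime) (hℓN : ¬ ℓ ∣ N) (hℓS : ℓ ∉ S),
              (TΛ ⟨ℓ, hℓ⟩).baseChange R v = χ (CuspForm.heckeAlgebra.T hℓ hℓN hℓS) • v))
    (hA2 : A2KummerStatement) :
    HasAdicEigenModulesU := by
  intro p _ N _ S hpS hNS 𝒪' _ _ _ _ _ _ hp𝒪' χ
  have hp : p.Prime := Fact.out
  obtain ⟨Λ, i1, i2, i3, TΛ, κ, hκ0, hκs, hκT, hocc⟩ := hlat N p hp
  obtain ⟨v, hv, hva⟩ := hocc (↑S : Set ℕ) 𝒪' χ
  have hNp : ∀ ℓ : ℕ, ℓ.Prime → ¬ ℓ ∣ N → ℓ ≠ p → ¬ ℓ ∣ N * p := by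
    intro ℓ hℓ hℓN hℓp h
    rcases (Nat.Prime.dvd_mul hℓ).1 h with h | h
    · exact hℓN h
    · exact hℓp ((Nat.prime_dvd_prime_iff_eq hℓ hp).1 h)
  have hιp : ∀ i : {ℓ : Nat.Primes // ¬ (ℓ : ℕ) ∣ N ∧ (ℓ : ℕ) ∉ (↑S : Set ℕ)},
      ((i.1 : Nat.Primes) : ℕ) ≠ p := by
    intro i h
    exact i.2.2 (by rw [h]; exact hpS)
  exact exists_adicEigenModuleU_of_lattice (𝒪 := 𝒪') hp hp𝒪' χ (J := ModularCurve.JZero N)
    (fun i => ModularCurve.heckeOperatorBar N i.1)
    (fun i σ x => hgeq N i.1 σ x) (hfin N p hp) (hsm N p)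
    (fun i => TΛ i.1) κ hκ0 hκs
    (fun i n x => hκT i.1 (hNp _ i.1.2 i.2.1 (hιp i)) n x) v hv
    (fun i => hva i.1 i.1.2 i.2.1 i.2.2)
    (fun q hq hqN hqp P hP σ hσ x hx => hunr N p q hq (hNp q hq hqN hqp) P hP σ hσ x hx)
    (fun i A hA σ hσ x hx =>
      hes N p i.1 i.1.2 (hNp _ i.1.2 i.2.1 (hιp i)) A hA σ hσ x hx)
    (fun q hq hqp hqN hq2 P hP σ hσ x hx =>
      jZero_unip_of_a2Kummer N p hp.ne_zero σ
        (fun n => hA2 N p q hp hq hqp hqN hq2 P hP σ hσ n) x hx)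

/-- **The frozen statement S34** (binders as in the template) from the inputs of row S30
(unfolded), the Kummer form of wall A2 and the reducedness of the anemic Hecke algebra. -/
theorem result_of_inputs
    (hfin : ∀ (N p : ℕ) [NeZero N], p.Prime →
      Finite {x : ModularCurve.JZero N // (p : ℤ) • x = 0})
    (hsm : ∀ (N p : ℕ) [NeZero N], ∀ x : ModularCurve.JZero N,
      (∃ n : ℕ, ((p : ℤ) ^ n) • x = 0) →
        ∃ L : IntermediateField ℚ (AlgebraicClosure ℚ), FiniteDimensional ℚ L ∧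
          ∀ σ : GQ', (∀ y ∈ L, σ y = y) → σ • x = x)
    (hgeq : ∀ (N : ℕ) [NeZero N] (ℓ : Nat.Primes) (σ : GQ') (x : ModularCurve.JZero N),
      ModularCurve.heckeOperatorBar N ℓ (σ • x) = σ • ModularCurve.heckeOperatorBar N ℓ x)
    (hunr : ∀ (N p : ℕ) [NeZero N], ∀ q : ℕ, q.Prime → ¬ q ∣ N * p →
      ∀ A : ValuationSubring (AlgebraicClosure ℚ), A.LiesOverPrime q →
        ∀ σ ∈ A.inertiaSubgroupIn ℚ, ∀ x : ModularCurve.JZero N,
          (∃ n : ℕ, ((p : ℤ) ^ n) • x = 0) → σ • x = x)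
    (hes : ∀ (N p : ℕ) [NeZero N], ∀ (ℓ : ℕ) (hℓ : ℓ.Prime), ¬ ℓ ∣ N * p →
      ∀ A : ValuationSubring (AlgebraicClosure ℚ), A.LiesOverPrime ℓ →
        ∀ σ : GQ', A.IsFrobeniusAt σ ℓ → ∀ x : ModularCurve.JZero N,
          (∃ n : ℕ, ((p : ℤ) ^ n) • x = 0) →
            σ • σ • x - ModularCurve.heckeOperatorBar N ⟨ℓ, hℓ⟩ (σ • x) + (ℓ : ℤ) • x = 0)
    (hlat : ∀ (N p : ℕ) [NeZero N], p.Prime →
      ∃ (Λ : Type) (_ : AddCommGroup Λ) (_ : Module.Free ℤ Λ) (_ : Module.Finite ℤ Λ)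
        (TΛ : Nat.Primes → Λ →ₗ[ℤ] Λ) (κ : ℕ → Λ →ₗ[ℤ] ModularCurve.JZero N),
        (∀ (n : ℕ) (x : Λ), κ n x = 0 ↔ ∃ y : Λ, x = ((p : ℤ) ^ n) • y) ∧
        (∀ (n : ℕ) (x : Λ), (p : ℤ) • κ (n + 1) x = κ n x) ∧
        (∀ ℓ : Nat.Primes, ¬ (ℓ : ℕ) ∣ N * p → ∀ (n : ℕ) (x : Λ),
          κ n (TΛ ℓ x) = ModularCurve.heckeOperatorBar N ℓ (κ n x)) ∧
        (∀ (S : Set ℕ) (R : Type) [CommRing R] [IsDomain R] [CharZero R]
          (χ : CuspForm.heckeAlgebra N 2 S →+* R),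
          ∃ v : R ⊗[ℤ] Λ, v ≠ 0 ∧
            ∀ (ℓ : ℕ) (hℓ : ℓ.Prime) (hℓN : ¬ ℓ ∣ N) (hℓS : ℓ ∉ S),
              (TΛ ⟨ℓ, hℓ⟩).baseChange R v = χ (CuspForm.heckeAlgebra.T hℓ hℓN hℓS) • v))
    (hA2 : A2KummerStatement) (hSS : Fermat.Agent.S31.H22.SSStatement)
    {𝒪 : Type} [CommRing 𝒪] [IsDomain 𝒪] [IsDiscreteValuationRing 𝒪]
    [IsAdicComplete (IsLocalRing.maximalIdeal 𝒪) 𝒪] [Finite (IsLocalRing.ResidueField 𝒪)]
    [CharZero 𝒪]
    {p : ℕ} (hp : p.Prime) (hp𝒪 : (p : 𝒪) ∈ IsLocalRing.maximalIdeal 𝒪)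
    {N : ℕ} [NeZero N] {S : Finset ℕ} (hpS : p ∈ S) (hNS : ∀ q : ℕ, q.Prime → q ∣ N → q ∈ S)
    {θ : CuspForm.heckeAlgebra N 2 (↑S : Set ℕ) →+* IsLocalRing.ResidueField 𝒪}
    {T : Type} [CommRing T] [IsLocalRing T] [IsNoetherianRing T]
    [IsAdicComplete (IsLocalRing.maximalIdeal T) T] [Algebra 𝒪 T] [IsLocalHom (algebraMap 𝒪 T)]
    [Module.Finite 𝒪 T] [Module.Free 𝒪 T]
    (H : CuspForm.HeckeGaloisRepDatum N (↑S : Set ℕ) 𝒪 θ T)
    (q : ℕ) (hq : q.Prime) (hqp : q ≠ p) (hqN : q ∣ N) (hq2 : ¬ q ^ 2 ∣ N) :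
    H.ρ.IsUnipotentOnInertiaAt q :=
  result_of_U_SS (hasAdicEigenModulesU_of_inputs hfin hsm hgeq hunr hes hlat hA2) hSS hp hp𝒪
    hpS hNS H q hq hqp hqN hq2

end Fermat.Agent.S34.K789

end
-- ===== PACK-END S34/K789/Inputs.lean

-- ===== PACK-BEGIN Lib/Newform/H958/Final.lean
section





/-!
# Shared library NEWFORM — unconditional results (consumer API, part 1)

All leaf interfaces of `Spec.lean` are proved (helper683: `EigenT`, `EigenU`; helper563:
`LowerU`; helper923: `TraceAL`; helper863/helper958: `Occurs`, `Incl`), so the targets hold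
unconditionally:

* `newformBadPrimeCoeff N : CuspForm.NewformBadPrimeCoeff N` for every `N ≠ 0`;
* `badCoeffAt` : the same for forms that are new at a single prime (`CuspForm.IsNewformAt`);
* `descent` : every normalized eigenform comes from a newform of a level dividing its level;
* `stab` : a normalized eigenform of level `M ∣ C` gives a normalized eigenform of level `C`
  with the same eigenvalues at all primes `ℓ ∤ C`.
-/

set_option autoImplicit false

open CongruenceSubgroup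

namespace Fermat.Agent.Lib.Newform.H958

theorem badCoeffAt : BadCoeffAt :=
  badCoeffAt_of Fermat.Agent.Lib.Newform.H683.eigenT Fermat.Agent.Lib.Newform.H683.eigenU _root_.Fermat.Agent.Lib.Newform.H958.occurs
    Fermat.Agent.Lib.Newform.H563.lowerU Fermat.Agent.Lib.Newform.H923.traceAL

theorem badCoeff : BadCoeff := badCoeff_of _root_.Fermat.Agent.Lib.Newform.H958.badCoeffAt

/-- The Prelude's `NewformBadPrimeCoeff` holds at every positive level. -/
theorem newformBadPrimeCoeff (N : ℕ) [NeZero N] : CuspForm.NewformBadPrimeCoeff N := _root_.Fermat.Agent.Lib.Newform.H958.badCoeff N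

theorem stab : Stab :=
  stab_of Fermat.Agent.Lib.Newform.H683.eigenT _root_.Fermat.Agent.Lib.Newform.H958.incl _root_.Fermat.Agent.Lib.Newform.H958.occurs

/-- `a_q² = 1` for a newform at a prime `q ∥ N`. -/
theorem qCoeff_sq_eq_one {N : ℕ} [NeZero N] {f : CuspForm (Gamma0 N) 2} (hf : f.IsNewform)
    {q : ℕ} (hq : q.Prime) (hqN : q ∣ N) (hq2 : ¬ q ^ 2 ∣ N) :
    ModularFormClass.qCoeff f q ^ 2 = 1 :=
  (_root_.Fermat.Agent.Lib.Newform.H958.newformBadPrimeCoeff N f hf q hq hqN).1 hq2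

/-- `a_q = 0` for a newform at a prime `q` with `q² ∣ N`. -/
theorem qCoeff_eq_zero {N : ℕ} [NeZero N] {f : CuspForm (Gamma0 N) 2} (hf : f.IsNewform)
    {q : ℕ} (hq : q.Prime) (hq2 : q ^ 2 ∣ N) :
    ModularFormClass.qCoeff f q = 0 :=
  (_root_.Fermat.Agent.Lib.Newform.H958.newformBadPrimeCoeff N f hf q hq ((dvd_pow_self q two_ne_zero).trans hq2)).2 hq2

end Fermat.Agent.Lib.Newform.H958

end
-- ===== PACK-END Lib/Newform/H958/Final.lean

-- ===== PACK-BEGIN S36/H193/SheetsAll.lean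
section




/-!
# S36 engine, leaf CLOPEN (helper193), part 7: the sheets of an arbitrary finite cover

Setting: `R` a noetherian domain with `R[X]` integrally closed, `w ∈ R` prime, `Z` a field of
characteristic `0`, `x ∈ Z` transcendental over `R`, `Z` finite over `baseField R x`.
`C = chart R {x}` is the integral closure of `R[x]` in `Z`; the sheets are the valuation subrings
`W` of `Z` with `A2.H12.IsSheet w x W`.

**No hypothesis on the special fibre** (it may be non-reduced, with any singularities):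

* `chart_inst` : `C` is noetherian, integrally closed, with fraction field `Z`.
* `centre_mem_minimalPrimes` : the centre on `C` of a sheet is a minimal prime over `w C`.
* `sheet_mem_iff` : a sheet is the localisation of `C` at its centre (a discrete valuation ring).
* `sheets_finite` : there are finitely many sheets.
* `sheets_sep` : the sheets are pairwise separated (`Sep`).
* **`clopen_label_sheets`**, **`kummer_wall3_sheets`** : the CLOPEN theorems of `ClopenGraph.lean`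
  and `LabelWall.lean` for the set of all sheets, without any structural hypothesis.
-/

set_option autoImplicit false
set_option linter.style.haveILetI false
set_option linter.unusedSectionVars false

namespace Fermat.Agent.S36.H193

open Polynomial
open Fermat.Agent.A2.H12 (IsSheet)
open Fermat.Agent.A2.H849 (locAt mem_locAt_iff isDiscreteValuationRing_locAt_of_colon)
open Fermat.Agent.S18.H138

universe u

section Inst

variable {R : Type*} [CommRing R] {Z : Type*} [Field Z] [Algebra R Z]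
variable [IsNoetherianRing R] [IsIntegrallyClosed R[X]] [CharZero Z]

/-- The identity ring equivalence between the integral closure of `R[S]` and the chart. -/
def chartEquiv (S : Set Z) : ↥(integralClosure (Algebra.adjoin R S) Z) ≃+* ↥(chart R S) where
  toFun y := ⟨y.1, y.2⟩
  invFun y := ⟨y.1, y.2⟩
  left_inv _ := rfl
  right_inv _ := rfl
  map_mul' _ _ := rfl
  map_add' _ _ := rfl

/-- The chart is noetherian, integrally closed, and every element of `Z` is a quotient of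
elements of the chart. -/
theorem chart_inst {x : Z} (hx : Transcendental R x) [FiniteDimensional (baseField R x) Z] :
    IsNoetherianRing (chart R ({x} : Set Z)) ∧ IsIntegrallyClosed (chart R ({x} : Set Z)) ∧
      ∀ z : Z, ∃ a ∈ chart R ({x} : Set Z), ∃ b ∈ chart R ({x} : Set Z), b ≠ 0 ∧ z = a / b := by
  classical
  set A : Subalgebra R Z := Algebra.adjoin R ({x} : Set Z) with hA
  set K : Subfield Z := baseField R x with hK
  haveI := isIntegrallyClosed_adjoin_singleton (R := R) hx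
  haveI := isNoetherianRing_adjoin_singleton (R := R) hx
  let φ : A →+* K :=
    { toFun := fun a => ⟨a, adjoin_le_baseField x a.2⟩
      map_one' := rfl
      map_mul' := fun _ _ => rfl
      map_zero' := rfl
      map_add' := fun _ _ => rfl }
  letI : Algebra A K := φ.toAlgebra
  haveI : IsScalarTower A K Z := IsScalarTower.of_algebraMap_eq (fun _ => rfl)
  have hinj : Function.Injective (algebraMap A K) := by
    intro a b hab
    have : (a : Z) = b := congrArg (fun t : K => (t : Z)) hab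
    exact Subtype.ext this
  haveI : FaithfulSMul A K := (faithfulSMul_iff_algebraMap_injective A K).2 hinj
  haveI : IsFractionRing A K := by
    refine IsFractionRing.of_field A K (fun z => ?_)
    obtain ⟨a, ha, b, hb, h⟩ := exists_div_of_mem_baseField (R := R) x z.2
    exact ⟨⟨a, ha⟩, ⟨b, hb⟩, Subtype.ext h⟩
  haveI : CharZero K := (algebraMap K Z).charZero
  haveI h1 : IsNoetherianRing (integralClosure A Z) :=
    IsIntegralClosure.isNoetherianRing A K Z (integralClosure A Z)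
  haveI h2 : IsIntegrallyClosed (integralClosure A Z) :=
    integralClosure.isIntegrallyClosedOfFiniteExtension K
  haveI h3 : IsFractionRing (integralClosure A Z) Z :=
    integralClosure.isFractionRing_of_finite_extension K Z
  refine ⟨isNoetherianRing_of_ringEquiv _ (chartEquiv (R := R) ({x} : Set Z)),
    IsIntegrallyClosed.of_equiv (chartEquiv (R := R) ({x} : Set Z)), ?_⟩
  intro z
  obtain ⟨a, b, hb, h⟩ := IsFractionRing.div_surjective (A := integralClosure A Z) z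
  refine ⟨a.1, a.2, b.1, b.2, ?_, h.symm⟩
  have := nonZeroDivisors.ne_zero hb
  intro h0
  exact this (Subtype.ext h0)

end Inst

section Centre

variable {R : Type*} [CommRing R] {Z : Type*} [Field Z] [Algebra R Z]

/-- The inclusion of a subalgebra contained in a valuation subring. -/
def inclW (W : ValuationSubring Z) (C : Subalgebra R Z) (h : ∀ c ∈ C, c ∈ W) : C →+* W where
  toFun b := ⟨b, h b b.2⟩
  map_one' := rfl
  map_mul' _ _ := rfl
  map_zero' := rfl
  map_add' _ _ := rfl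

/-- The centre of a valuation subring on a subalgebra contained in it. -/
def centreW (W : ValuationSubring Z) (C : Subalgebra R Z) (h : ∀ c ∈ C, c ∈ W) : Ideal C :=
  (IsLocalRing.maximalIdeal W).comap (inclW W C h)

theorem mem_centreW (W : ValuationSubring Z) (C : Subalgebra R Z) (h : ∀ c ∈ C, c ∈ W)
    (b : C) : b ∈ centreW W C h ↔ (b : Z) ∈ W.nonunits := by
  rw [centreW, Ideal.mem_comap, ValuationSubring.mem_nonunits_iff_exists_mem_maximalIdeal]
  constructor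
  · intro hb
    exact ⟨h b b.2, hb⟩
  · rintro ⟨_, hb⟩
    exact hb

instance centreW_isPrime (W : ValuationSubring Z) (C : Subalgebra R Z) (h : ∀ c ∈ C, c ∈ W) :
    (centreW W C h).IsPrime :=
  Ideal.comap_isPrime _ _

theorem through_centreW (W : ValuationSubring Z) (C : Subalgebra R Z) (h : ∀ c ∈ C, c ∈ W)
    (𝔫 : Ideal C) : Through C 𝔫 W ↔ centreW W C h ≤ 𝔫 := by
  constructor
  · intro hth c hc
    exact hth c ((mem_centreW W C h c).1 hc)
  · intro hle c hc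
    exact hle ((mem_centreW W C h c).2 hc)

end Centre

section Sheets

variable {R : Type u} [CommRing R] [IsDomain R] {Z : Type u} [Field Z] [Algebra R Z]

theorem sheet_chart_le {w : R} {x : Z} {W : ValuationSubring Z} (hW : IsSheet w x W) :
    ∀ c ∈ chart R ({x} : Set Z), c ∈ W := fun _ hc =>
  hW.chart_le (T := {x}) (by simp) hc

theorem sheet_chart_mid_le {w : R} {x : Z} {W : ValuationSubring Z} (hW : IsSheet w x W) :
    ∀ c ∈ chart R ({x, x⁻¹} : Set Z), c ∈ W := fun _ hc =>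
  hW.chart_le (T := {x, x⁻¹}) (le_refl _) hc

/-- Gauss condition: a polynomial in `x` which is a nonunit of a sheet is divisible by `w`. -/
theorem sheet_dvd_of_nonunit {w : R} {x : Z} {W : ValuationSubring Z} (hW : IsSheet w x W)
    (P : R[X]) (h : aeval x P ∈ W.nonunits) :
    ∃ Q : R[X], aeval x P = algebraMap R Z w * aeval x Q := by
  by_cases h0 : aeval x P = 0
  · exact ⟨0, by rw [h0, map_zero, mul_zero]⟩
  have hall : ∀ i, w ∣ P.coeff i := by
    by_contra hcon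
    rw [not_forall] at hcon
    have h1 := hW.2.2.2 P hcon
    rw [ValuationSubring.mem_nonunits_iff_or] at h
    rcases h with h | h
    · exact h0 h
    · exact h h1
  obtain ⟨Q, hQ⟩ := (Polynomial.C_dvd_iff_dvd_coeff w P).2 hall
  refine ⟨Q, ?_⟩
  rw [hQ, map_mul, aeval_C]

/-- The centre of a sheet on the chart is a minimal prime over `w`. -/
theorem centre_mem_minimalPrimes {w : R} {x : Z} {W : ValuationSubring Z}
    (hW : IsSheet w x W) :
    centreW W (chart R ({x} : Set Z)) (sheet_chart_le hW) ∈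
      (Ideal.span {algebraMap R (chart R ({x} : Set Z)) w}).minimalPrimes := by
  set B := chart R ({x} : Set Z) with hB
  set 𝔭 := centreW W B (sheet_chart_le hW) with h𝔭
  have hw𝔭 : algebraMap R B w ∈ 𝔭 := (mem_centreW W B _ _).2 hW.2.2.1
  refine ⟨⟨inferInstance, ?_⟩, ?_⟩
  · rw [Ideal.span_le, Set.singleton_subset_iff]
    exact hw𝔭
  · rintro p ⟨hpp, hwp⟩ hle
    haveI := hpp
    have hwp' : algebraMap R B w ∈ p := hwp (Ideal.subset_span rfl)
    by_contra hnot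
    obtain ⟨b, hbc, hbp⟩ := SetLike.not_le_iff_exists.1 hnot
    set A : Subalgebra R Z := Algebra.adjoin R ({x} : Set Z) with hA
    have hAB : A ≤ B := adjoin_le_chart _
    letI : Algebra A B := (Subalgebra.inclusion hAB).toRingHom.toAlgebra
    have hint : IsIntegral A b := by
      obtain ⟨P, hPm, hP⟩ := (mem_chart.1 b.2)
      refine ⟨P, hPm, ?_⟩
      apply Subtype.ext
      have := Polynomial.hom_eval₂ P (algebraMap A B) (B.val : B →+* Z) b
      rw [show ((B.val : B →+* Z) (eval₂ (algebraMap A B) b P) : Z)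
        = ((eval₂ (algebraMap A B) b P : B) : Z) from rfl] at this
      rw [this]
      exact hP
    have hlt := Ideal.comap_lt_comap_of_integral_mem_sdiff hle ⟨hbc, hbp⟩ hint
    obtain ⟨a, hac, hap⟩ := SetLike.exists_of_lt hlt
    rw [Ideal.mem_comap] at hac hap
    rw [mem_centreW] at hac
    have haF : ((algebraMap A B a : B) : Z) = (a : Z) := rfl
    obtain ⟨P, hP⟩ : ∃ P : R[X], aeval x P = (a : Z) := by
      have h1 : (a : Z) ∈ Algebra.adjoin R ({x} : Set Z) := a.2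
      rw [Algebra.adjoin_singleton_eq_range_aeval] at h1
      exact h1
    rw [haF, ← hP] at hac
    obtain ⟨Q, hQ⟩ := sheet_dvd_of_nonunit hW P hac
    apply hap
    have hQB : aeval x Q ∈ B := hAB (by
      show aeval x Q ∈ Algebra.adjoin R ({x} : Set Z)
      rw [Algebra.adjoin_singleton_eq_range_aeval]
      exact ⟨Q, rfl⟩)
    have : algebraMap A B a = algebraMap R B w * ⟨aeval x Q, hQB⟩ := by
      apply Subtype.ext
      rw [haF, ← hP, hQ]
      rfl
    rw [this]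
    exact Ideal.mul_mem_right _ _ hwp'

variable [IsNoetherianRing R] [IsIntegrallyClosed R[X]] [CharZero Z]

/-- **A sheet is the localisation of the chart at its centre.** -/
theorem sheet_mem_iff (hinjR : Function.Injective (algebraMap R Z)) {w : R} (hw : Prime w)
    {x : Z} (hx : Transcendental R x)
    [FiniteDimensional (baseField R x) Z] {W : ValuationSubring Z} (hW : IsSheet w x W) (z : Z) :
    z ∈ W ↔ ∃ a s : chart R ({x} : Set Z), (s : Z) ∉ W.nonunits ∧ z = a * (s : Z)⁻¹ := by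
  classical
  set B := chart R ({x} : Set Z) with hB
  obtain ⟨hnoeth, hic, hfrac⟩ := chart_inst (R := R) hx
  haveI := hnoeth
  haveI := hic
  haveI : IsFractionRing B Z := by
    refine IsFractionRing.of_field B Z (fun z => ?_)
    obtain ⟨a, ha, b, hb, -, h⟩ := hfrac z
    exact ⟨⟨a, ha⟩, ⟨b, hb⟩, h⟩
  set 𝔭 := centreW W B (sheet_chart_le hW) with h𝔭
  have hmin := centre_mem_minimalPrimes hW
  have hBW := sheet_chart_le hW
  constructor
  · intro hz
    -- the localisation at the centre is a discrete valuation ring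
    have hw0 : algebraMap R B w ≠ 0 := by
      intro h0
      have : algebraMap R Z w = 0 := congrArg Subtype.val h0
      exact hw.ne_zero (hinjR (by rw [this, map_zero]))
    have hcolon : ((Ideal.span {algebraMap R B w} : Ideal B) : Submodule B B).colon {(1 : B)} =
        Ideal.span {algebraMap R B w} := by
      ext r
      rw [Submodule.mem_colon_singleton, smul_eq_mul, mul_one]
    have hmin' : 𝔭 ∈ (((Ideal.span {algebraMap R B w} : Ideal B) : Submodule B B).colon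
        {(1 : B)}).minimalPrimes := by
      rw [hcolon]
      exact hmin
    obtain ⟨c, hc⟩ := Submodule.exists_eq_colon_of_mem_minimalPrimes hmin'
    have hP : ∀ r, r ∈ 𝔭 ↔ algebraMap R B w ∣ r * c := by
      intro r
      rw [hc, Submodule.mem_colon_singleton, smul_eq_mul]
      exact Ideal.mem_span_singleton
    haveI hdvr : IsDiscreteValuationRing (locAt Z 𝔭) :=
      isDiscreteValuationRing_locAt_of_colon 𝔭 (algebraMap R B w) c hw0 hP
    rcases ValuationRing.isInteger_or_isInteger (locAt Z 𝔭) (K := Z) z with ⟨y, hy⟩ | ⟨y, hy⟩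
    · obtain ⟨a, s, hs, h⟩ := (mem_locAt_iff 𝔭 (y : Z)).1 y.2
      refine ⟨a, s, fun hsn => hs ((mem_centreW W B hBW s).2 hsn), ?_⟩
      rw [← hy]
      exact h
    · -- `z⁻¹ ∈ B_𝔭`
      by_cases hz0 : z = 0
      · exact ⟨0, 1, by simpa using nu_one_not W, by simp [hz0]⟩
      obtain ⟨a, s, hs, h⟩ := (mem_locAt_iff 𝔭 (y : Z)).1 y.2
      have hy' : (y : Z) = z⁻¹ := hy
      rw [hy'] at h
      have hs0 : (s : Z) ≠ 0 := by
        intro h0
        apply hs
        rw [mem_centreW, h0]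
        exact nu_zero W
      have ha0 : (a : Z) ≠ 0 := by
        intro h0
        have h1 : algebraMap B Z a = 0 := h0
        rw [h1, zero_mul] at h
        exact hz0 (inv_eq_zero.1 h)
      -- `a` is a unit of `W`
      have haW : (a : Z) ∉ W.nonunits := by
        intro han
        have hsW : (s : Z) ∈ W := hBW s s.2
        have hsn : (s : Z) ∉ W.nonunits := fun h1 => hs ((mem_centreW W B hBW s).2 h1)
        have h1 : z⁻¹ ∈ W.nonunits := by
          rw [h]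
          exact nu_mul_right W han (nu_unit_inv W hsW hsn)
        have h2 := nu_mul_left W h1 hz
        rw [mul_inv_cancel₀ hz0] at h2
        exact nu_one_not W h2
      refine ⟨s, a, haW, ?_⟩
      have h1 : z = (z⁻¹)⁻¹ := (inv_inv z).symm
      rw [h1, h]
      have e1 : algebraMap B Z a = (a : Z) := rfl
      have e2 : algebraMap B Z s = (s : Z) := rfl
      rw [e1, e2, mul_inv, inv_inv, mul_comm]
  · rintro ⟨a, s, hs, rfl⟩
    exact W.mul_mem _ _ (hBW a a.2) (nu_unit_inv W (hBW s s.2) hs)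

/-- A sheet is determined by its centre on the chart. -/
theorem sheet_eq_of_centre_eq (hinjR : Function.Injective (algebraMap R Z)) {w : R}
    (hw : Prime w) {x : Z} (hx : Transcendental R x)
    [FiniteDimensional (baseField R x) Z] {W W' : ValuationSubring Z} (hW : IsSheet w x W)
    (hW' : IsSheet w x W')
    (h : centreW W (chart R ({x} : Set Z)) (sheet_chart_le hW) =
      centreW W' (chart R ({x} : Set Z)) (sheet_chart_le hW')) : W = W' := by
  have hnu : ∀ s : chart R ({x} : Set Z), (s : Z) ∈ W.nonunits ↔ (s : Z) ∈ W'.nonunits := by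
    intro s
    rw [← mem_centreW W _ (sheet_chart_le hW), ← mem_centreW W' _ (sheet_chart_le hW'), h]
  ext z
  rw [sheet_mem_iff hinjR hw hx hW, sheet_mem_iff hinjR hw hx hW']
  constructor
  · rintro ⟨a, s, hs, hz⟩
    exact ⟨a, s, fun h1 => hs ((hnu s).2 h1), hz⟩
  · rintro ⟨a, s, hs, hz⟩
    exact ⟨a, s, fun h1 => hs ((hnu s).1 h1), hz⟩

/-- **There are finitely many sheets.** -/
theorem sheets_finite (hinjR : Function.Injective (algebraMap R Z)) (w : R) (hw : Prime w)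
    {x : Z} (hx : Transcendental R x) [FiniteDimensional (baseField R x) Z] :
    {W : ValuationSubring Z | IsSheet w x W}.Finite := by
  classical
  set B := chart R ({x} : Set Z) with hB
  obtain ⟨hnoeth, -, -⟩ := chart_inst (R := R) hx
  haveI := hnoeth
  have hfin := Ideal.finite_minimalPrimes_of_isNoetherianRing B (Ideal.span {algebraMap R B w})
  let f : ValuationSubring Z → Ideal B := fun W =>
    if h : IsSheet w x W then centreW W B (sheet_chart_le h) else ⊥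
  refine Set.Finite.of_injOn (f := f) (t := (Ideal.span {algebraMap R B w}).minimalPrimes)
    ?_ ?_ hfin
  · intro W hW
    have hW' : IsSheet w x W := hW
    simp only [f, dif_pos hW']
    exact centre_mem_minimalPrimes hW'
  · intro W hW W' hW' hff
    have h1 : IsSheet w x W := hW
    have h2 : IsSheet w x W' := hW'
    simp only [f, dif_pos h1, dif_pos h2] at hff
    exact sheet_eq_of_centre_eq hinjR hw hx h1 h2 hff

/-- **The sheets are pairwise separated.** -/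
theorem sheets_sep (hinjR : Function.Injective (algebraMap R Z)) (w : R) (hw : Prime w)
    {x : Z} (hx : Transcendental R x) [FiniteDimensional (baseField R x) Z] :
    Sep {W : ValuationSubring Z | IsSheet w x W} := by
  intro W hW W' hW' hne
  have h1 : IsSheet w x W := hW
  have h2 : IsSheet w x W' := hW'
  set B := chart R ({x} : Set Z) with hB
  have hnle : ¬ centreW W' B (sheet_chart_le h2) ≤ centreW W B (sheet_chart_le h1) := by
    intro hle
    have hge := (centre_mem_minimalPrimes h1).2 (centre_mem_minimalPrimes h2).1 hle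
    exact hne (sheet_eq_of_centre_eq hinjR hw hx h1 h2 (le_antisymm hge hle))
  obtain ⟨c, hc', hc⟩ := SetLike.not_le_iff_exists.1 hnle
  refine ⟨c, fun V hV => sheet_chart_le (show IsSheet w x V from hV) c c.2,
    (mem_centreW W' B _ c).1 hc', fun h => hc ((mem_centreW W B _ c).2 h)⟩

end Sheets

end Fermat.Agent.S36.H193

end
-- ===== PACK-END S36/H193/SheetsAll.lean

-- ===== PACK-BEGIN S29/H871/PlaceOrd.lean
section


/-!
# S29 / E3, part 3: orders at the base-changed place, uniqueness, injectivity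

(helper871)
-/

set_option autoImplicit false
set_option linter.unusedSectionVars false

noncomputable section

namespace Fermat.Agent.S29.H871

open AlgebraicCurve TensorProduct

variable {K F K' F' : Type*} [Field K] [Field F] [Field K'] [Field F']
  [Algebra K F] [Algebra K' F'] [Algebra K K'] [Algebra F F'] [Algebra K F']
  [IsScalarTower K F F'] [IsScalarTower K K' F'] [IsConstExt K F K' F']

variable {v : Place K F} (hv : IsRationalPlace v)

/-- The order at `placeBC` of `u * π^n`, `u` a unit of the extended valuation ring. -/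
theorem ord_placeBC_unit_mul_zpow {π : v.toValuationSubring} (hπ : Irreducible π) {u : F'}
    (hu : IsIntegralBC K' F' hv u) (hu' : IsIntegralBC K' F' hv u⁻¹) (hu0 : u ≠ 0) (n : ℤ) :
    (placeBC K' F' hv).ord (u * (algebraMap F F' (π : F)) ^ n) = n := by
  have hunit : IsUnit (⟨u, hu⟩ : valuationSubringBC K' F' hv) :=
    isUnit_of_isIntegralBC_inv hv hu0 hu'
  obtain ⟨U, hU⟩ := hunit
  have h := (placeBC K' F' hv).ord_unit_smul_zpow U (irreducible_piBC hv hπ) n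
  have hU' : ((U : valuationSubringBC K' F' hv) : F') = u := congrArg Subtype.val hU
  rw [← hU']
  exact h

theorem ord_placeBC_algebraMap (f : F) :
    (placeBC K' F' hv).ord (algebraMap F F' f) = v.ord f := by
  rcases eq_or_ne f 0 with rfl | hf
  · simp
  obtain ⟨π, hπ⟩ := IsDiscreteValuationRing.exists_irreducible v.toValuationSubring
  obtain ⟨u, hu⟩ := v.exists_unit_mul_zpow hf hπ
  have h1 : algebraMap F F' f = algebraMap F F' ((u : v.toValuationSubring) : F) *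
      (algebraMap F F' (π : F)) ^ (v.ord f) := by
    conv_lhs => rw [hu]
    rw [map_mul, map_zpow₀]
  have hu1 : IsIntegralBC K' F' hv (algebraMap F F' ((u : v.toValuationSubring) : F)) :=
    isIntegralBC_algebraMap_of_mem hv (u : v.toValuationSubring).2
  have hu2 : IsIntegralBC K' F' hv (algebraMap F F' ((u : v.toValuationSubring) : F))⁻¹ := by
    have h2 : (algebraMap F F' ((u : v.toValuationSubring) : F))⁻¹
        = algebraMap F F' (((u⁻¹ : (v.toValuationSubring)ˣ) : v.toValuationSubring) : F) := by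
      rw [← map_inv₀]
      congr 1
      have h := congrArg (fun t : v.toValuationSubring => (t : F)) (Units.mul_inv u)
      exact inv_eq_of_mul_eq_one_right h
    rw [h2]
    exact isIntegralBC_algebraMap_of_mem hv ((u⁻¹ : (v.toValuationSubring)ˣ) :
      v.toValuationSubring).2
  have hu0 : algebraMap F F' ((u : v.toValuationSubring) : F) ≠ 0 := by
    intro h
    have h3 : ((u : v.toValuationSubring) : F) = 0 :=
      (algebraMap F F').injective (by rw [h, map_zero])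
    exact u.ne_zero (Subtype.ext h3)
  rw [h1]
  exact ord_placeBC_unit_mul_zpow hv hπ hu1 hu2 hu0 _

theorem ord_placeBC_const {c : K'} :
    (placeBC K' F' hv).ord (algebraMap K' F' c) = 0 :=
  Fermat.Agent.S24.FF.ord_algebraMap _ c

/-- `placeBC` is injective (as a function of the place). -/
theorem placeBC_injective {v w : Place K F} (hv : IsRationalPlace v) (hw : IsRationalPlace w)
    (h : placeBC K' F' hv = placeBC K' F' hw) : v = w := by
  apply Fermat.Agent.S24.H117.place_ext_of_le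
  intro f hf
  rw [← ord_placeBC_algebraMap (K' := K') (F' := F') hw, ← h,
    ord_placeBC_algebraMap (K' := K') (F' := F') hv]
  exact hf

end Fermat.Agent.S29.H871

end
end
-- ===== PACK-END S29/H871/PlaceOrd.lean

-- ===== PACK-BEGIN S36/H878/Haupt4.lean
section


/-!
# The Hauptmodul `t₄` of `Γ₀(4)` (helper878, S36 cell REG: elliptic points, all odd `q`)

`t₄ = η(z)⁸/η(4z)⁸ = t⁻¹ ∏ (1 - tⁿ)⁸/(1 - t⁴ⁿ)⁸`, obtained here WITHOUT any new modular input from
helper637's level-2 relations (`Lib/Haupt`):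

  `t₄ := (t₂(t²) - 16 t₂) / (t₂ + 16)`,      `t₂ = Δ(t)/Δ(t²)`.

* `t4_sq`      : `t₄² = t₂ (t₄ + 16)`;
* `t2e_eq`     : `t₂(t²) = t₄ (t₄ + 16)`;
* `jq_mul_t4`  : `j · t₄⁴ (t₄ + 16) = (t₄² + 256 t₄ + 4096)³`;
* `jq_sub_1728_mul_t4` : `(j - 1728) · t₄⁴ (t₄ + 16) = (t₄ + 32)² (t₄² - 512 t₄ - 8192)²`;
* `t4_mul_cofactor`, `t4_add_mul_cofactor` : `t₄ ∣ 2³⁶` and `t₄ + 16 ∣ 2²⁴` in `ℤ[j, t₄]`
  (so `t₄`, `t₄ + 16` are units of every chart on which `2` is invertible);
* `t4_mem_fullC`, `t4_mem_full` : `t₄ ∈ K(j_d : d ∣ M)` for `4 ∣ M`;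
* `coeffMap_t4` : compatibility with change of coefficients.

`X₀(4)` has no elliptic points, and `t₄` is a local coordinate at every non-cuspidal point of
`X₀(4 M')` in every odd characteristic: see `Theta4.lean` for `(θ t₄)⁶ = Δ t₄² (t₄ + 16)⁵`.
-/

set_option autoImplicit false

noncomputable section

namespace Fermat.Agent.S36.H878

open PowerSeries ModularCurve Fermat.Agent.Lib.Haupt

/-! ## Integral power series -/

/-- `X² · t₂(X²)`. -/
abbrev T2e : PowerSeries ℤ := ex 2 T2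

theorem constantCoeff_T2e : constantCoeff T2e = 1 := by
  rw [T2e, constantCoeff_ex, constantCoeff_T2]


/-- `j(X²) · (X² t₂(X²))² = (X² t₂(X²) + 256 X²)³`. -/
theorem T2e_rel : ex 2 ModularCurve.jNum * T2e ^ 2 = (T2e + C 256 * X ^ 2) ^ 3 := by
  have h := congrArg (ex 2) T2_rel₁
  simp only [ex, map_mul, map_pow, map_add, PowerSeries.expand_X, PowerSeries.expand_C] at h
  exact h

theorem T2_mul_T2e_sub_ne_zero : T2 * T2e - C 4096 * X ^ 3 ≠ 0 := by
  intro h
  have := congrArg constantCoeff h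
  simp [constantCoeff_T2] at this

/-- The modular equation of `X₀(4)` in terms of `t₂`, `t₂(t²)`:
`B² = (A² + 48 A X) B + 4096 A X³`, `A = X t₂`, `B = X² t₂(X²)`. -/
theorem T2_T2e_rel :
    T2e ^ 2 = (T2 ^ 2 + C 48 * (X * T2)) * T2e + C 4096 * (X ^ 3 * T2) := by
  have h1 := T2_rel₂
  have h2 := T2e_rel
  have e16 : (C (16 : ℤ) : PowerSeries ℤ) = 16 := map_ofNat C 16
  have e48 : (C (48 : ℤ) : PowerSeries ℤ) = 48 := map_ofNat C 48
  have e256 : (C (256 : ℤ) : PowerSeries ℤ) = 256 := map_ofNat C 256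
  have e4096 : (C (4096 : ℤ) : PowerSeries ℤ) = 4096 := map_ofNat C 4096
  rw [e16] at h1
  rw [e256] at h2
  rw [e48, e4096]
  have hne := T2_mul_T2e_sub_ne_zero
  rw [e4096] at hne
  have key : (T2 * T2e - 4096 * X ^ 3) *
      (T2e ^ 2 - ((T2 ^ 2 + 48 * (X * T2)) * T2e + 4096 * (X ^ 3 * T2))) = 0 := by
    linear_combination T2e ^ 2 * h1 - T2 * h2
  rcases mul_eq_zero.1 key with h | h
  · exact absurd h hne
  · exact sub_eq_zero.1 h

/-- `X · t₄`, an integral power series with constant coefficient `1`. -/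
def T4 : PowerSeries ℤ := (T2e - C 16 * (X * T2)) * (T2 + C 16 * X).invOfUnit 1

theorem constantCoeff_T2_add : constantCoeff (T2 + C 16 * X) = 1 := by
  simp [constantCoeff_T2]

theorem T4_mul : T4 * (T2 + C 16 * X) = T2e - C 16 * (X * T2) := by
  have hu : (T2 + C 16 * X) * (T2 + C 16 * X).invOfUnit 1 = 1 :=
    PowerSeries.mul_invOfUnit _ _ (by rw [constantCoeff_T2_add]; rfl)
  rw [T4]
  linear_combination (T2e - C 16 * (X * T2)) * hu

theorem T2_add_ne_zero : T2 + C 16 * X ≠ 0 := fun h => by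
  have := constantCoeff_T2_add; rw [h, map_zero] at this; exact zero_ne_one this

theorem constantCoeff_T4 : constantCoeff T4 = 1 := by
  have h := congrArg constantCoeff T4_mul
  simpa [constantCoeff_T2, constantCoeff_T2e] using h

/-- `t₄² = t₂ (t₄ + 16)`. -/
theorem T4_sq : T4 ^ 2 = T2 * (T4 + C 16 * X) := by
  have h := T4_mul
  have hr := T2_T2e_rel
  have e16 : (C (16 : ℤ) : PowerSeries ℤ) = 16 := map_ofNat C 16
  have e48 : (C (48 : ℤ) : PowerSeries ℤ) = 48 := map_ofNat C 48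
  have e4096 : (C (4096 : ℤ) : PowerSeries ℤ) = 4096 := map_ofNat C 4096
  rw [e16] at h ⊢
  rw [e48, e4096] at hr
  have hne := T2_add_ne_zero
  rw [e16] at hne
  apply mul_right_cancel₀ (pow_ne_zero 2 hne)
  linear_combination (T4 * (T2 + 16 * X) + T2e - 16 * (X * T2) - T2 * (T2 + 16 * X)) * h + hr

/-- `t₂(t²) = t₄ (t₄ + 16)`. -/
theorem T2e_eq : T2e = T4 * (T4 + C 16 * X) := by
  have h := T4_mul
  have hs := T4_sq
  linear_combination -hs - h

/-- `j · t₄⁴ (t₄ + 16) = (t₄² + 256 t₄ + 4096)³`. -/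
theorem T4_rel :
    ModularCurve.jNum * (T4 ^ 4 * (T4 + C 16 * X))
      = (T4 ^ 2 + C 256 * (X * T4) + C 4096 * X ^ 2) ^ 3 := by
  have h1 := T2_rel₁
  have hs := T4_sq
  have e16 : (C (16 : ℤ) : PowerSeries ℤ) = 16 := map_ofNat C 16
  have e256 : (C (256 : ℤ) : PowerSeries ℤ) = 256 := map_ofNat C 256
  have e4096 : (C (4096 : ℤ) : PowerSeries ℤ) = 4096 := map_ofNat C 4096
  rw [e16] at hs ⊢
  rw [e256] at h1 ⊢
  rw [e4096]
  have e : T4 ^ 2 + 256 * (X * T4) + 4096 * X ^ 2 = (T2 + 256 * X) * (T4 + 16 * X) := by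
    linear_combination hs
  rw [e]
  linear_combination (ModularCurve.jNum * (T4 + 16 * X) * (T4 ^ 2 + T2 * (T4 + 16 * X))) * hs
    + (T4 + 16 * X) ^ 3 * h1


/-! ## Laurent series over an arbitrary commutative ring -/

section Laurent

variable (K : Type*) [CommRing K]

/-- The Hauptmodul of `Γ₀(4)`: `t₄ = η(z)⁸/η(4z)⁸ = t⁻¹ - 8 + 20 t - 62 t³ + …`. -/
def t4 : LaurentSeries K := qinv K * lau K T4

theorem t4_add_const (c : ℤ) :
    t4 K + (c : LaurentSeries K) = qinv K * lau K (T4 + PowerSeries.C c * X) := by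
  rw [t4, t_add_const]

theorem t4_add_16 : t4 K + 16 = qinv K * lau K (T4 + PowerSeries.C 16 * X) := by
  rw [← t4_add_const]; simp

theorem t2_add_16 : t2 K + 16 = qinv K * lau K (T2 + PowerSeries.C 16 * X) := by
  rw [← t_add_const, t2]; simp

theorem qExpand_t2 : qExpand K 2 (t2 K) = qinv K ^ 2 * lau K T2e := by
  rw [t2, map_mul, qExpand_qinv, qExpand_lau]

/-- `t₄² = t₂ (t₄ + 16)`. -/
theorem t4_sq : t4 K ^ 2 = t2 K * (t4 K + 16) := by
  have h := congrArg (fun f => qinv K ^ 2 * lau K f) T4_sq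
  simp only [lau_mul, lau_pow] at h
  rw [t4_add_16, t4, t2]
  linear_combination h

/-- `t₂(t²) = t₄ (t₄ + 16)`. -/
theorem t2e_eq : qExpand K 2 (t2 K) = t4 K * (t4 K + 16) := by
  have h := congrArg (fun f => qinv K ^ 2 * lau K f) T2e_eq
  simp only [lau_mul] at h
  rw [qExpand_t2, t4_add_16, t4]
  linear_combination h

/-- `t₄ (t₂ + 16) = t₂(t²) - 16 t₂`: the definition of `t₄`. -/
theorem t4_mul : t4 K * (t2 K + 16) = qExpand K 2 (t2 K) - 16 * t2 K := by
  have h1 := t4_sq K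
  have h2 := t2e_eq K
  linear_combination -h1 - h2

theorem t4_quad : t4 K ^ 2 + 256 * t4 K + 4096 = (t2 K + 256) * (t4 K + 16) := by
  linear_combination t4_sq K

/-- `j · t₄⁴ (t₄ + 16) = (t₄² + 256 t₄ + 4096)³`. -/
theorem jq_mul_t4 :
    jqModC K * (t4 K ^ 4 * (t4 K + 16)) = (t4 K ^ 2 + 256 * t4 K + 4096) ^ 3 := by
  have h1 := jq_mul_t2_sq K
  have hs := t4_sq K
  rw [t4_quad]
  linear_combination (jqModC K * (t4 K + 16) * (t4 K ^ 2 + t2 K * (t4 K + 16))) * hs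
    + (t4 K + 16) ^ 3 * h1

theorem t4_add_32_sq : (t4 K + 32) ^ 2 = (t2 K + 64) * (t4 K + 16) := by
  linear_combination t4_sq K

theorem t4_quad' : t4 K ^ 2 - 512 * t4 K - 8192 = (t2 K - 512) * (t4 K + 16) := by
  linear_combination t4_sq K

/-- `(j - 1728) · t₄⁴ (t₄ + 16) = (t₄ + 32)² (t₄² - 512 t₄ - 8192)²`. -/
theorem jq_sub_1728_mul_t4 :
    (jqModC K - 1728) * (t4 K ^ 4 * (t4 K + 16))
      = (t4 K + 32) ^ 2 * (t4 K ^ 2 - 512 * t4 K - 8192) ^ 2 := by
  have h1 := jq_sub_1728_mul_t2_sq K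
  have hs := t4_sq K
  rw [t4_add_32_sq, t4_quad']
  linear_combination ((jqModC K - 1728) * (t4 K + 16) * (t4 K ^ 2 + t2 K * (t4 K + 16))) * hs
    + (t4 K + 16) ^ 3 * h1

/-- `t₄` is a root of the monic sextic `(T² + 256 T + 4096)³ - j T⁴ (T + 16)` over `ℤ[j]`. -/
theorem t4_sextic :
    (t4 K ^ 2 + 256 * t4 K + 4096) ^ 3 - jqModC K * (t4 K ^ 4 * (t4 K + 16)) = 0 := by
  rw [jq_mul_t4, sub_self]

/-- `t₄ ∣ 2³⁶` in `ℤ[j, t₄]`. -/
theorem t4_mul_cofactor :
    t4 K * (jqModC K * (t4 K ^ 3 * (t4 K + 16))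
      - (t4 K ^ 5 + 768 * t4 K ^ 4 + 208896 * t4 K ^ 3 + 23068672 * t4 K ^ 2
        + 855638016 * t4 K + 12884901888)) = 2 ^ 36 := by
  linear_combination jq_mul_t4 K

/-- `t₄ + 16 ∣ 2²⁴` in `ℤ[j, t₄]`. -/
theorem t4_add_mul_cofactor :
    (t4 K + 16) * (jqModC K * t4 K ^ 4
      - ((t4 K + 16) ^ 5 + 672 * (t4 K + 16) ^ 4 + 151296 * (t4 K + 16) ^ 3
        + 11583488 * (t4 K + 16) ^ 2 + 38731776 * (t4 K + 16) + 44040192)) = 2 ^ 24 := by
  linear_combination jq_mul_t4 K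


/-! ### Basic properties -/

variable {K}

/-- `t₄` is compatible with every change of coefficients (base change, reduction mod `ℓ`). -/
theorem coeffMap_t4 {K' : Type*} [CommRing K'] (φ : K →+* K') :
    coeffMap φ (t4 K) = t4 K' := by
  rw [t4, map_mul, coeffMap_qinv, coeffMap_lau, t4]

variable (K)

/-- `t₄ = t⁻¹ + …`. -/
theorem coeff_t4_neg_one : (t4 K).coeff (-1) = 1 := by
  rw [t4, coeff_qinv_mul_lau, show (-1 : ℤ) + 1 = ((0 : ℕ) : ℤ) by norm_num, coeff_lau_natCast,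
    PowerSeries.coeff_zero_eq_constantCoeff, constantCoeff_T4, Int.cast_one]

theorem coeff_t4_of_lt {k : ℤ} (hk : k < -1) : (t4 K).coeff k = 0 := by
  rw [t4, coeff_qinv_mul_lau, coeff_lau_of_neg K _ (by omega)]

theorem t4_ne_zero [Nontrivial K] : t4 K ≠ 0 := fun h => by
  have := coeff_t4_neg_one K
  rw [h] at this
  simp at this

theorem coeff_t2_add_neg_one (c : ℤ) : (t2 K + (c : LaurentSeries K)).coeff (-1) = 1 := by
  rw [t2, t_add_const, coeff_qinv_mul_lau, show (-1 : ℤ) + 1 = ((0 : ℕ) : ℤ) by norm_num,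
    coeff_lau_natCast, PowerSeries.coeff_zero_eq_constantCoeff]
  simp [constantCoeff_T2]

theorem coeff_t4_add_neg_one (c : ℤ) : (t4 K + (c : LaurentSeries K)).coeff (-1) = 1 := by
  rw [t4_add_const, coeff_qinv_mul_lau, show (-1 : ℤ) + 1 = ((0 : ℕ) : ℤ) by norm_num,
    coeff_lau_natCast, PowerSeries.coeff_zero_eq_constantCoeff]
  simp [constantCoeff_T4]

theorem t2_add_ne_zero [Nontrivial K] (c : ℤ) : t2 K + (c : LaurentSeries K) ≠ 0 := fun h => by
  have := coeff_t2_add_neg_one K c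
  rw [h] at this
  simp at this

theorem t4_add_ne_zero [Nontrivial K] (c : ℤ) : t4 K + (c : LaurentSeries K) ≠ 0 := fun h => by
  have := coeff_t4_add_neg_one K c
  rw [h] at this
  simp at this

end Laurent

/-! ## Membership in the function field of `X₀(M)`, `4 ∣ M` -/

section Field

variable (K : Type*) [Field K]

theorem fullC_le_of_dvd {N M : ℕ} (h : N ∣ M) :
    modularFunctionFieldFullC K N ≤ modularFunctionFieldFullC K M := by
  rw [modularFunctionFieldFullC, IntermediateField.adjoin_le_iff]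
  rintro x ⟨d, hne, hdvd, rfl⟩
  exact @jqModCd_mem_full K _ M d hne (hdvd.trans h)

theorem qExpand_t2_mem_fullC (M : ℕ) (h4 : 4 ∣ M) :
    qExpand K 2 (t2 K) ∈ modularFunctionFieldFullC K M := by
  have h2 : t2 K ∈ modularFunctionFieldFullC K 2 := t2_mem_fullC K 2 dvd_rfl
  have h := full_degeneracyC_map_le K 2 2
    ((IntermediateField.mem_map _).2 ⟨t2 K, h2, rfl⟩)
  rw [qExpandAlgHomC_apply] at h
  exact fullC_le_of_dvd K (N := 2 * 2) (M := M) (by simpa using h4) h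

/-- **`t₄ ∈ K(j_d : d ∣ M)` for `4 ∣ M`**, over every field `K`. -/
theorem t4_mem_fullC (M : ℕ) (h4 : 4 ∣ M) : t4 K ∈ modularFunctionFieldFullC K M := by
  have h2 : t2 K ∈ modularFunctionFieldFullC K M :=
    t2_mem_fullC K M ((by norm_num : (2 : ℕ) ∣ 4).trans h4)
  have h2e := qExpand_t2_mem_fullC K M h4
  have hne : t2 K + 16 ≠ 0 := by
    have := t2_add_ne_zero K 16
    simpa using this
  have h : t4 K = (qExpand K 2 (t2 K) - 16 * t2 K) / (t2 K + 16) := by
    rw [eq_div_iff hne]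
    exact t4_mul K
  rw [h]
  exact div_mem (sub_mem h2e (mul_mem (ofNat_mem _ 16) h2)) (add_mem h2 (ofNat_mem _ 16))

end Field

/-- `t₄ ∈ ℚ(j_d : d ∣ M)` for `4 ∣ M`. -/
theorem t4_mem_full (M : ℕ) (h4 : 4 ∣ M) : t4 ℚ ∈ modularFunctionFieldFull M :=
  t4_mem_fullC ℚ M h4

/-- `t₄ ∈ L(j_d : d ∣ M)` for `4 ∣ M`, in the base-changed function field. -/
theorem t4_mem_laurentBaseChange (L : Type*) [Field L] [Algebra ℚ L] (M : ℕ) (h4 : 4 ∣ M) :
    t4 L ∈ laurentBaseChange L (modularFunctionFieldFull M) := by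
  have h := coeffEmb_mem_laurentBaseChange L (t4_mem_full M h4)
  rwa [coeffEmb, coeffMap_t4] at h


end Fermat.Agent.S36.H878

end
end
-- ===== PACK-END S36/H878/Haupt4.lean

-- ===== PACK-BEGIN S59/TW/H564/TwistBundle.lean
section



/-!
# S59 / TW leaf E4 TWIST (helper564), part 6: the bundled twist embedding (shape for E5)

* `nebSub k M ε` : the nebentypus-`ε` subspace of `S_k(Γ₁(M))` (predicate `S48.H548.HasNeb`);
* `TpNeb ε ℓ hℓ` : the Hecke operator `S48.H548.TpL` restricted to `nebSub k M ε`;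
* `exists_twistEmbedding` / `exists_twistEmbedding'` : for `ε` of odd order dividing `2 m + 1`
  factoring through `∏ Qs` (`Qs` distinct primes, `q ∥ M`) and `M · ∏ Qs ∣ M₂`, an INJECTIVE
  linear map `j : nebSub k M ε → CuspForm (Gamma0 M₂) k` with
  `heckeTLin k _ _ (j f) = j (ε(ℓ) ^ m • TpNeb ε ℓ _ f)` for all primes `ℓ ∤ M₂`.
-/

set_option autoImplicit false
set_option linter.deprecated false
set_option linter.unusedSectionVars false

noncomputable section

namespace Fermat.Agent.S59.TW.H564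

open Matrix Matrix.SpecialLinearGroup CongruenceSubgroup UpperHalfPlane ModularForm
open Fermat.Agent.Lib.Newform.H803
open scoped MatrixGroups ModularForm

variable {k : ℤ} {M : ℕ} [NeZero M]

/-- The nebentypus-`ε` subspace of `S_k(Γ₁(M))`. -/
def nebSub (k : ℤ) (M : ℕ) [NeZero M] (ε : DirichletCharacter ℂ M) :
    Submodule ℂ (CuspForm (Gamma1 M) k) where
  carrier := {f | S48.H548.HasNeb (⇑ε) (⇑f) k}
  add_mem' := fun {f g} hf hg => by
    show S48.H548.HasNeb (⇑ε) (⇑(f + g)) k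
    rw [CuspForm.coe_add]
    exact S48.H548.HasNeb.add hf hg
  zero_mem' := by
    show S48.H548.HasNeb (⇑ε) (⇑(0 : CuspForm (Gamma1 M) k)) k
    rw [CuspForm.coe_zero]
    exact S48.H548.HasNeb.zero
  smul_mem' := fun c f hf => by
    show S48.H548.HasNeb (⇑ε) (⇑(c • f)) k
    rw [CuspForm.IsGLPos.coe_smul]
    exact S48.H548.HasNeb.smul c hf

theorem mem_nebSub {ε : DirichletCharacter ℂ M} {f : CuspForm (Gamma1 M) k} :
    f ∈ nebSub k M ε ↔ S48.H548.HasNeb (⇑ε) (⇑f) k := Iff.rfl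

/-- `T_ℓ` on the nebentypus subspace. -/
def TpNeb (ε : DirichletCharacter ℂ M) (ℓ : ℕ) [Fact ℓ.Prime] (hℓ : ¬ ℓ ∣ M) :
    nebSub k M ε →ₗ[ℂ] nebSub k M ε :=
  (S48.H548.TpL ℓ hℓ).restrict fun f hf => S48.H548.hasNeb_TpL hℓ f hf

@[simp] theorem coe_TpNeb (ε : DirichletCharacter ℂ M) (ℓ : ℕ) [Fact ℓ.Prime] (hℓ : ¬ ℓ ∣ M)
    (f : nebSub k M ε) :
    ((TpNeb ε ℓ hℓ f : nebSub k M ε) : CuspForm (Gamma1 M) k) = S48.H548.TpL ℓ hℓ f.1 := rfl

theorem isNeb_of_hasNeb {ε : DirichletCharacter ℂ M} {f : ℍ → ℂ}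
    (hf : S48.H548.HasNeb (⇑ε) f k) :
    IsNeb k M (fun d : ℤ => ε ((d : ℤ) : ZMod M)) f := fun γ hγ => hf γ hγ

theorem isCharMod_dirichlet (ε : DirichletCharacter ℂ M) :
    IsCharMod M (fun d : ℤ => ε ((d : ℤ) : ZMod M)) where
  one := by simp
  periodic := fun d d' h => by
    show ε _ = ε _
    rw [intCast_zmod_eq_of_dvd h]

/-- **E4 TWIST, bundled (the shape consumed by the assembly E5).**

Let `ε` be a Dirichlet character modulo `M` of odd order dividing `2 m + 1`, factoring through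
`∏ Qs`, where `Qs` is a list of distinct primes with `q ∥ M`.  Then for every `M₂` divisible by
`M · ∏ Qs` (e.g. `M = N Q`, `M₂ = N Q²`) there is an INJECTIVE linear map
`j : S_k(Γ₁(M))[ε] → S_k(Γ₀(M₂))` with `T_ℓ ∘ j = j ∘ (ε(ℓ)^m • T_ℓ)` for all primes `ℓ ∤ M₂`
(note `ε(ℓ)^m = ε(ℓ)^{-1/2}`). -/
theorem exists_twistEmbedding (k : ℤ) {M : ℕ} [NeZero M] (Qs : List ℕ) (hnd : Qs.Nodup)
    (hQs : ∀ q ∈ Qs, q.Prime ∧ ∃ M' : ℕ, M = M' * q ∧ Nat.Coprime M' q)
    (ε : DirichletCharacter ℂ M)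
    (hper : ∀ a b : ℤ, IsUnit ((a : ℤ) : ZMod M) → IsUnit ((b : ℤ) : ZMod M) →
      (∀ q ∈ Qs, (q : ℤ) ∣ a - b) → ε ((a : ℤ) : ZMod M) = ε ((b : ℤ) : ZMod M))
    (m : ℕ) (hm : ε ^ (2 * m + 1) = 1) (M₂ : ℕ) (hM₂ : M * Qs.prod ∣ M₂) :
    ∃ j : nebSub k M ε →ₗ[ℂ] CuspForm (Gamma0 M₂) k,
      Function.Injective j ∧
      ∀ (ℓ : ℕ) [Fact ℓ.Prime] (hℓ : ¬ ℓ ∣ M) (hℓ₂ : ¬ ℓ ∣ M₂) (f : nebSub k M ε),
        CuspForm.heckeTLin k (Fact.out : ℓ.Prime) hℓ₂ (j f) =
          j (ε ((ℓ : ℕ) : ZMod M) ^ m • TpNeb ε ℓ hℓ f) := by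
  obtain ⟨L, ψ, hLnd, hLQ, hLprod, hψ, hram, hc, hd⟩ := exists_psi ε Qs hnd hQs hper m hm
  have hχ : IsCharMod M (fun d : ℤ => ε ((d : ℤ) : ZMod M)) := isCharMod_dirichlet ε
  have hLM : ∀ q ∈ L, q ∣ M := fun q hq => by
    obtain ⟨-, M', hM, -⟩ := hQs q (hLQ q hq)
    exact ⟨M', by rw [hM, mul_comm]⟩
  have hL : ∀ q ∈ L, q ≠ 0 ∧ q ∣ M := fun q hq => ⟨(hQs q (hLQ q hq)).1.ne_zero, hLM q hq⟩
  have hMM₂ : M ∣ M₂ := (Dvd.intro _ rfl).trans hM₂
  have hΓ : Gamma0 M₂ ≤ Gamma0 (M * L.prod) := by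
    intro γ hγ
    rw [mem_Gamma0_iff_dvd] at hγ ⊢
    exact (Int.natCast_dvd_natCast.mpr ((Nat.mul_dvd_mul_left M hLprod).trans hM₂)).trans hγ
  have h1 : ∀ γ ∈ Gamma0 M₂, chiL ψ (fun d : ℤ => ε ((d : ℤ) : ZMod M)) L (γ 1 1) = 1 := by
    intro γ hγ
    rw [chiL_apply]
    exact hc _ (isUnit_cast_of_mem_Gamma0 hMM₂ hγ)
  let j : nebSub k M ε →ₗ[ℂ] CuspForm (Gamma0 M₂) k :=
    { toFun := fun f => twistLCuspForm (ψ := ψ) L hL hχ (⇑f.1) (isNeb_of_hasNeb f.2)
        (isCuspidal_of_cuspForm f.1) (Gamma0 M₂) hΓ h1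
      map_add' := fun f g => by
        apply DFunLike.coe_injective
        rw [CuspForm.coe_add, coe_twistLCuspForm, coe_twistLCuspForm, coe_twistLCuspForm]
        rw [Submodule.coe_add, CuspForm.coe_add, twistL_add]
      map_smul' := fun c f => by
        apply DFunLike.coe_injective
        rw [RingHom.id_apply, CuspForm.IsGLPos.coe_smul, coe_twistLCuspForm,
          coe_twistLCuspForm, Submodule.coe_smul, CuspForm.IsGLPos.coe_smul, twistL_smul] }
  have hj : ∀ f : nebSub k M ε, (⇑(j f) : ℍ → ℂ) = twistL k ψ L ⇑f.1 := fun f => rfl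
  refine ⟨j, ?_, ?_⟩
  · rw [injective_iff_map_eq_zero]
    intro f hf
    have h0 : twistL k ψ L ⇑f.1 = 0 := by
      rw [← hj f, hf, CuspForm.coe_zero]
    have := twistL_injective (ψ := ψ) L hLnd (fun q hq => hQs q (hLQ q hq)) hψ hχ hram
      (isNeb_of_hasNeb f.2) h0
    apply Subtype.ext
    apply DFunLike.coe_injective
    rw [this]
    rfl
  · intro ℓ _ hℓ hℓ₂ f
    have hℓp : ℓ.Prime := Fact.out
    apply DFunLike.coe_injective
    rw [CuspForm.coe_heckeTLin_apply, hj, hj]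
    have hunit : IsUnit (((ℓ : ℕ) : ℤ) : ZMod M) := by
      rw [Int.cast_natCast, ZMod.isUnit_iff_coprime]
      exact (Nat.Prime.coprime_iff_not_dvd hℓp).mpr hℓ
    have hLℓ : ∀ q ∈ L, q ≠ 0 ∧ IsUnit ((ℓ : ℕ) : ZMod q) := fun q hq => by
      refine ⟨(hL q hq).1, ?_⟩
      have := isUnit_intCast_of_dvd (hLM q hq) hunit
      rwa [Int.cast_natCast] at this
    have hpsi : psiL ψ L ℓ = ε ((ℓ : ℕ) : ZMod M) ^ m := by
      have := hd (ℓ : ℤ) hunit
      simp only [Int.cast_natCast] at this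
      exact this
    have hcc : ε ((ℓ : ℕ) : ZMod M) * psiL ψ L ℓ ^ 2 = 1 := by
      have h2 := hc (ℓ : ℤ) hunit
      simp only [Int.cast_natCast] at h2
      rw [list_prod_map_pow] at h2
      exact h2
    rw [heckeT_twistL' (ψ := ψ) L hℓp.ne_zero hLℓ ((isNeb_of_hasNeb f.2).isPer hχ) hcc, hpsi]
    rw [Submodule.coe_smul, CuspForm.IsGLPos.coe_smul, twistL_smul, coe_TpNeb,
      S48.H548.coe_TpL_of_hasNeb hℓ f.1 f.2]


/-- A product of distinct primes, each dividing `z`, divides `z`. -/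
theorem list_prod_dvd_of_primes (L : List ℕ) (hnd : L.Nodup) (hp : ∀ q ∈ L, q.Prime) (z : ℤ)
    (hz : ∀ q ∈ L, (q : ℤ) ∣ z) : ((L.prod : ℕ) : ℤ) ∣ z := by
  induction L with
  | nil => simp
  | cons q L ih =>
    have hqL : q ∉ L := (List.nodup_cons.mp hnd).1
    have h1 := ih (List.nodup_cons.mp hnd).2 (fun q' hq' => hp q' (List.mem_cons_of_mem _ hq'))
      (fun q' hq' => hz q' (List.mem_cons_of_mem _ hq'))
    have hcop : Nat.Coprime q L.prod := by
      rw [Nat.coprime_list_prod_right_iff]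
      intro q' hq'
      exact (Nat.coprime_primes (hp q List.mem_cons_self)
        (hp q' (List.mem_cons_of_mem _ hq'))).mpr fun h => hqL (h ▸ hq')
    rw [List.prod_cons, Nat.cast_mul]
    exact IsCoprime.mul_dvd (Nat.isCoprime_iff_coprime.mpr hcop) (hz q List.mem_cons_self) h1

/-- `ε` trivial on the units `≡ 1 mod ∏ Qs` implies `ε` periodic modulo the primes of `Qs` on
units. -/
theorem periodic_of_trivial (Qs : List ℕ) (hnd : Qs.Nodup) (hQs : ∀ q ∈ Qs, q.Prime)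
    (ε : DirichletCharacter ℂ M)
    (hε : ∀ d : ℤ, ((Qs.prod : ℕ) : ℤ) ∣ d - 1 → IsUnit ((d : ℤ) : ZMod M) →
      ε ((d : ℤ) : ZMod M) = 1)
    (a b : ℤ) (ha : IsUnit ((a : ℤ) : ZMod M)) (hb : IsUnit ((b : ℤ) : ZMod M))
    (hab : ∀ q ∈ Qs, (q : ℤ) ∣ a - b) :
    ε ((a : ℤ) : ZMod M) = ε ((b : ℤ) : ZMod M) := by
  have hQab := list_prod_dvd_of_primes Qs hnd hQs (a - b) hab
  obtain ⟨u, hu⟩ := hb
  obtain ⟨b', hb'⟩ := ZMod.intCast_surjective ((u⁻¹ : (ZMod M)ˣ) : ZMod M)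
  have hbb' : ((b * b' : ℤ) : ZMod M) = 1 := by
    rw [Int.cast_mul, hb', ← hu, Units.mul_inv]
  have hb'u : IsUnit ((b' : ℤ) : ZMod M) := hb' ▸ (u⁻¹).isUnit
  have hMbb' : (M : ℤ) ∣ b * b' - 1 := dvd_of_intCast_zmod_eq (by rw [hbb']; simp)
  -- the hypothesis applied to `a b' · (2 - b b')`-like corrections is avoided: use `ε` directly
  have hab'u : IsUnit (((a * b' : ℤ)) : ZMod M) := by
    rw [Int.cast_mul]
    exact ha.mul hb'u
  -- `a b' ≡ 1` modulo `∏ Qs` up to a multiple of `M`: correct by `c := a b' - (b b' - 1)`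
  have hc : (((a * b' - (b * b' - 1) : ℤ)) : ZMod M) = ((a * b' : ℤ) : ZMod M) := by
    apply intCast_zmod_eq_of_dvd
    have : a * b' - (b * b' - 1) - a * b' = -(b * b' - 1) := by ring
    rw [this]
    exact (dvd_neg).mpr hMbb'
  have h1 := hε (a * b' - (b * b' - 1)) (by
      have : a * b' - (b * b' - 1) - 1 = (a - b) * b' := by ring
      rw [this]
      exact Dvd.dvd.mul_right hQab _) (by rw [hc]; exact hab'u)
  rw [hc, Int.cast_mul, map_mul] at h1
  have h2 : ε ((b : ℤ) : ZMod M) * ε ((b' : ℤ) : ZMod M) = 1 := by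
    rw [← map_mul, ← Int.cast_mul, hbb', map_one]
  have hne : ε ((b' : ℤ) : ZMod M) ≠ 0 := (hb'u.map ε).ne_zero
  exact mul_right_cancel₀ hne (h1.trans h2.symm)

/-- `exists_twistEmbedding` with the hypothesis "`ε` is trivial on the units `≡ 1 mod ∏ Qs`". -/
theorem exists_twistEmbedding' (k : ℤ) {M : ℕ} [NeZero M] (Qs : List ℕ) (hnd : Qs.Nodup)
    (hQs : ∀ q ∈ Qs, q.Prime ∧ ∃ M' : ℕ, M = M' * q ∧ Nat.Coprime M' q)
    (ε : DirichletCharacter ℂ M)
    (hε : ∀ d : ℤ, ((Qs.prod : ℕ) : ℤ) ∣ d - 1 → IsUnit ((d : ℤ) : ZMod M) →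
      ε ((d : ℤ) : ZMod M) = 1)
    (m : ℕ) (hm : ε ^ (2 * m + 1) = 1) (M₂ : ℕ) (hM₂ : M * Qs.prod ∣ M₂) :
    ∃ j : nebSub k M ε →ₗ[ℂ] CuspForm (Gamma0 M₂) k,
      Function.Injective j ∧
      ∀ (ℓ : ℕ) [Fact ℓ.Prime] (hℓ : ¬ ℓ ∣ M) (hℓ₂ : ¬ ℓ ∣ M₂) (f : nebSub k M ε),
        CuspForm.heckeTLin k (Fact.out : ℓ.Prime) hℓ₂ (j f) =
          j (ε ((ℓ : ℕ) : ZMod M) ^ m • TpNeb ε ℓ hℓ f) :=
  exists_twistEmbedding k Qs hnd hQs ε
    (periodic_of_trivial Qs hnd (fun q hq => (hQs q hq).1) ε hε) m hm M₂ hM₂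

end Fermat.Agent.S59.TW.H564

end
end
-- ===== PACK-END S59/TW/H564/TwistBundle.lean

-- ===== PACK-BEGIN S59/TW/H653/Cross/Main.lean
section



/-!
# S59 / TW-HECKE (helper653), block CROSS: `T_ℓ` and `U_q'` commute with the degeneracy maps at
`Γ_H`-levels

Levels: `K` with `Γ₁(N) ≤ K ≤ Γ₀(N)` and `K' ≤ K` with `Γ₁(N q) ≤ K' ≤ Γ₀(N q)`
(for `t₁`, `t₂`: `K' = K ⊓ Γ₀(N q)`, given as the hypothesis `hmem`), any coefficient group `A`.
Degeneracy maps:

* `r₁ = resK h`, `t₁ = coresK h` (restriction and transfer along `K' ≤ K`);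
* `r₂ φ = φ ∘ c`, `t₂ = transferAlong c` for ANY homomorphism `c : K' →* K` which is the
  conjugation by `δ = diag(q, 1)` (`hc : δ * ιK K' k = ιK K (c k) * δ`) and whose range contains
  every `m ∈ K` with `q ∣ m₀₁` (`hrange`), e.g. the restriction of `S41.Spec.conjDelta`.

Operators: `T_ℓ` (`ℓ ∤ N q` prime) and `U_q'` (`q' ∣ N` prime, prime to `q`), at both levels:

| | `T_ℓ` | `U_q'` |
|---|---|---|
| `r₁` | `TK_resK` | `UK_resK` |
| `r₂` | `TK_comp_conj` | `UK_comp_conj` |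
| `t₁` | `TK_coresK` | `UK_coresK` |
| `t₂` | `TK_transferAlong_conj` | `UK_transferAlong_conj` |

These are the hypotheses `hf` of the naturality of the localised parts (`H105.nat_of_isLocPart`)
for the four degeneracy maps.
-/

set_option autoImplicit false

namespace Fermat.Agent.S59.TW.H653.Cross

open CongruenceSubgroup Matrix.SpecialLinearGroup ModularCurve.Period ModularForm
open Fermat.Agent.S29.H642 Fermat.Agent.S41.Spec Fermat.Agent.S41.H761
open Fermat.Agent.S59.TW.H653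
open P2MW.S_ModularForm_heckeT_slash_eq_self_of_mem_Gamma0.ModularForm.HeckeSlashInvariance
open scoped MatrixGroups

variable {N q : ℕ} {K K' : Subgroup SL(2, ℤ)} {A : Type*} [AddCommGroup A]

theorem TK_zero (hK : IsMid N K) {ℓ : ℕ} [Fact ℓ.Prime] (hℓ : ¬ ℓ ∣ N) :
    TK N K ℓ (0 : Additive K →+ A) = 0 := by
  have h := TK_add hK hℓ (0 : Additive K →+ A) 0
  rw [add_zero] at h
  exact left_eq_add.mp h

theorem UK_zero (hK : IsMid N K) {q' : ℕ} [Fact q'.Prime] (hq' : q' ∣ N) :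
    UK K q' (0 : Additive K →+ A) = 0 := by
  have h := UK_add hK hq' (0 : Additive K →+ A) 0
  rw [add_zero] at h
  exact left_eq_add.mp h

theorem dvd_mul_self_right (N q : ℕ) : N ∣ N * q := Dvd.intro _ rfl

theorem isCoprime_natCast {a b : ℕ} (h : Nat.Coprime a b) : IsCoprime (a : ℤ) (b : ℤ) := by
  rw [Int.isCoprime_iff_gcd_eq_one, Int.gcd_natCast_natCast]
  exact h

theorem isCoprime_of_prime_not_dvd {ℓ M : ℕ} [Fact ℓ.Prime] (hℓ : ¬ ℓ ∣ M) :
    IsCoprime (ℓ : ℤ) (M : ℤ) :=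
  isCoprime_natCast ((Fact.out : ℓ.Prime).coprime_iff_not_dvd.mpr hℓ)

/-- Injectivity of a homomorphism realised by a conjugation. -/
theorem injective_of_conj (c : K' →* K) (d : GL (Fin 2) ℝ)
    (hc : ∀ k : K', d * ιK K' k = ιK K (c k) * d) : Function.Injective c := by
  intro k k' e
  apply ιK_injective K'
  have h1 := hc k
  rw [e, ← hc k'] at h1
  exact mul_left_cancel h1

/-! ## Restriction `r₁` -/

section Res

variable (hK : IsMid N K) (hK' : IsMid (N * q) K') (h : K' ≤ K)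
include hK hK'

/-- `T_ℓ r₁ = r₁ T_ℓ`. -/
theorem TK_resK {ℓ : ℕ} [Fact ℓ.Prime] (hℓ : ¬ ℓ ∣ N * q) (φ : Additive K →+ A) :
    TK (N * q) K' ℓ (resK h φ) = resK h (TK N K ℓ φ) := by
  rw [TK_eq hK' hℓ, TK_eq_of_dvd hK (dvd_mul_self_right N q) hℓ]
  exact transfer_comp_hom (ιK_injective K)
    (repsT_system_of_dvd hK (dvd_mul_self_right N q) hℓ) (repsT_system hK' hℓ)
    (Subgroup.inclusion h) 1 (fun g => by rw [one_mul, mul_one]; rfl)
    (fun y => ⟨1, y, by simp⟩)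
    (fun y y' m e => (repsT_system_of_dvd hK (dvd_mul_self_right N q) hℓ).eq_of_mul y y' m
      (by simpa using e)) φ

/-- `U_q' r₁ = r₁ U_q'`. -/
theorem UK_resK {q' : ℕ} [Fact q'.Prime] (hq' : q' ∣ N) (φ : Additive K →+ A) :
    UK K' q' (resK h φ) = resK h (UK K q' φ) := by
  have hq'' : q' ∣ N * q := dvd_mul_of_dvd_left hq' q
  rw [UK_eq hK' hq'', UK_eq hK hq']
  exact transfer_comp_hom (ιK_injective K) (repsU_system hK hq') (repsU_system hK' hq'')
    (Subgroup.inclusion h) 1 (fun g => by rw [one_mul, mul_one]; rfl)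
    (fun y => ⟨1, y, by simp⟩)
    (fun y y' m e => (repsU_system hK hq').eq_of_mul y y' m (by simpa using e)) φ

end Res

/-! ## Transfer `t₁` -/

section Cores

variable (hK : IsMid N K) (hK' : IsMid (N * q) K') (h : K' ≤ K)
  (hmem : ∀ k : SL(2, ℤ), k ∈ K → k ∈ Gamma0 (N * q) → k ∈ K')
include hK hK' hmem

omit hK hK' hmem in
theorem coresK_eq_zero (hfin : ¬ (Subgroup.inclusion h).range.FiniteIndex)
    (χ : Additive K' →+ A) : coresK h χ = 0 := by
  unfold coresK transferAlong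
  rw [dif_neg (fun h' => hfin h'.2)]

omit hK hK' hmem in
theorem mem_range_inclusion (m : K) (hm : (m : SL(2, ℤ)) ∈ K') :
    m ∈ (Subgroup.inclusion h).range :=
  ⟨⟨m, hm⟩, Subtype.ext rfl⟩

/-- `T_ℓ t₁ = t₁ T_ℓ`. -/
theorem TK_coresK {ℓ : ℕ} [Fact ℓ.Prime] (hℓ : ¬ ℓ ∣ N * q) (ψ : Additive K' →+ A) :
    TK N K ℓ (coresK h ψ) = coresK h (TK (N * q) K' ℓ ψ) := by
  have hℓN : ¬ ℓ ∣ N := fun h' => hℓ (dvd_mul_of_dvd_left h' q)
  by_cases hfin : (Subgroup.inclusion h).range.FiniteIndex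
  · rw [TK_eq hK' hℓ, TK_eq_of_dvd hK (dvd_mul_self_right N q) hℓ]
    refine transfer_transferAlong (ιK_injective K)
      (repsT_system_of_dvd hK (dvd_mul_self_right N q) hℓ) (repsT_system hK' hℓ)
      (Subgroup.inclusion h) (Subgroup.inclusion_injective h) 1
      (fun g => by rw [one_mul, mul_one]; rfl) (fun y => ⟨1, y, by simp⟩) ?_ ψ
    intro y y' m g Q hQ e
    rw [one_mul, mul_one] at hQ
    subst hQ
    have hdvd : ((N * q : ℕ) : ℤ) ∣ (m : SL(2, ℤ)) 1 0 :=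
      lower_dvd_of_rel (isIntRep_repsT hℓ y) (isIntRep_repsT hℓ y') (dvd_refl _)
        (isCoprime_of_prime_not_dvd hℓ) (dvd_of_mem_Gamma0 (hK'.le g.2)) e
    exact mem_range_inclusion h m (hmem _ m.2 (mem_Gamma0_of_dvd hdvd))
  · rw [coresK_eq_zero h hfin, coresK_eq_zero h hfin, TK_zero hK hℓN]

/-- `U_q' t₁ = t₁ U_q'`. -/
theorem UK_coresK (hNq : Nat.Coprime N q) {q' : ℕ} [Fact q'.Prime] (hq' : q' ∣ N)
    (ψ : Additive K' →+ A) :
    UK K q' (coresK h ψ) = coresK h (UK K' q' ψ) := by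
  have hq'' : q' ∣ N * q := dvd_mul_of_dvd_left hq' q
  have hcop : Nat.Coprime q' q := Nat.Coprime.coprime_dvd_left hq' hNq
  by_cases hfin : (Subgroup.inclusion h).range.FiniteIndex
  · rw [UK_eq hK' hq'', UK_eq hK hq']
    refine transfer_transferAlong (ιK_injective K) (repsU_system hK hq')
      (repsU_system hK' hq'') (Subgroup.inclusion h) (Subgroup.inclusion_injective h) 1
      (fun g => by rw [one_mul, mul_one]; rfl) (fun y => ⟨1, y, by simp⟩) ?_ ψ
    intro y y' m g Q hQ e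
    rw [one_mul, mul_one] at hQ
    subst hQ
    have hg : ((N * q : ℕ) : ℤ) ∣ (g : SL(2, ℤ)) 1 0 := dvd_of_mem_Gamma0 (hK'.le g.2)
    have hqg : (q : ℤ) ∣ (g : SL(2, ℤ)) 1 0 :=
      dvd_trans (Int.natCast_dvd_natCast.mpr (Dvd.intro_left N rfl)) hg
    have hdq : (q : ℤ) ∣ (m : SL(2, ℤ)) 1 0 :=
      lower_dvd_of_rel (D := N * q) (isIntRep_repsU q' y) (isIntRep_repsU q' y')
        (Int.natCast_dvd_natCast.mpr (Dvd.intro_left N rfl)) (isCoprime_natCast hcop) hqg e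
    have hdN : (N : ℤ) ∣ (m : SL(2, ℤ)) 1 0 := dvd_of_mem_Gamma0 (hK.le m.2)
    have hdvd : ((N * q : ℕ) : ℤ) ∣ (m : SL(2, ℤ)) 1 0 := by
      push_cast
      exact (isCoprime_natCast hNq).mul_dvd hdN hdq
    exact mem_range_inclusion h m (hmem _ m.2 (mem_Gamma0_of_dvd hdvd))
  · rw [coresK_eq_zero h hfin, coresK_eq_zero h hfin, UK_zero hK hq']

end Cores

/-! ## The conjugation by `δ = diag(q, 1)`: `r₂` and `t₂` -/

section Conj

variable (hK : IsMid N K) (hK' : IsMid (N * q) K') (hq : q ≠ 0) (c : K' →* K)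
  (hc : ∀ k : K', heckeDiagMatrix q * ιK K' k = ιK K (c k) * heckeDiagMatrix q)
  (hrange : ∀ m : K, (q : ℤ) ∣ (m : SL(2, ℤ)) 0 1 → m ∈ c.range)
include hK hK' hq hc hrange

omit hK hK' in
/-- The separation property of the pull-back. -/
theorem sep_conj {I : Type*} {ρ : I → GL (Fin 2) ℝ} (sys' : IsCosetSystem (ιK K') (ιK K') ρ)
    {n : ℤ} (hρ : ∀ i, IsIntRep (N * q) n (ρ i)) (hn : IsCoprime n (q : ℤ)) (y y' : I) (m : K)
    (e : heckeDiagMatrix q * ρ y = ιK K m * (heckeDiagMatrix q * ρ y')) : y = y' := by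
  have hdvd : (q : ℤ) ∣ (m : SL(2, ℤ)) 0 1 :=
    upper_dvd_of_rel' (D := N * q) hq (Int.natCast_dvd_natCast.mpr (Dvd.intro_left N rfl))
      (hρ y) (hρ y') hn e
  obtain ⟨k, hk⟩ := hrange m hdvd
  apply sys'.eq_of_mul y y' k
  have h1 : heckeDiagMatrix q * ρ y = heckeDiagMatrix q * (ιK K' k * ρ y') := by
    rw [e, ← hk, ← mul_assoc, ← hc k, mul_assoc]
  exact mul_left_cancel h1

/-- `T_ℓ r₂ = r₂ T_ℓ`. -/
theorem TK_comp_conj {ℓ : ℕ} [Fact ℓ.Prime] (hℓ : ¬ ℓ ∣ N * q) (φ : Additive K →+ A) :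
    TK (N * q) K' ℓ (φ.comp (MonoidHom.toAdditive c)) =
      (TK N K ℓ φ).comp (MonoidHom.toAdditive c) := by
  have hℓq : ¬ ℓ ∣ q := fun h' => hℓ (dvd_mul_of_dvd_right h' N)
  rw [TK_eq hK' hℓ, TK_eq_of_dvd hK (dvd_mul_self_right N q) hℓ]
  exact transfer_comp_hom (ιK_injective K)
    (repsT_system_of_dvd hK (dvd_mul_self_right N q) hℓ) (repsT_system hK' hℓ)
    c (heckeDiagMatrix q) hc (conjDiag_repsT hK hq hℓ)
    (sep_conj hq c hc hrange (repsT_system hK' hℓ) (fun i => isIntRep_repsT hℓ i)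
      (isCoprime_of_prime_not_dvd hℓq)) φ

/-- `U_q' r₂ = r₂ U_q'`. -/
theorem UK_comp_conj {q' : ℕ} [Fact q'.Prime] (hq' : q' ∣ N) (hcop : Nat.Coprime q' q)
    (φ : Additive K →+ A) :
    UK K' q' (φ.comp (MonoidHom.toAdditive c)) =
      (UK K q' φ).comp (MonoidHom.toAdditive c) := by
  have hq'' : q' ∣ N * q := dvd_mul_of_dvd_left hq' q
  rw [UK_eq hK' hq'', UK_eq hK hq']
  exact transfer_comp_hom (ιK_injective K) (repsU_system hK hq') (repsU_system hK' hq'')
    c (heckeDiagMatrix q) hc (conjDiag_repsU hK hq)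
    (sep_conj (N := N) hq c hc hrange (repsU_system hK' hq'') (fun i => isIntRep_repsU q' i)
      (isCoprime_natCast hcop)) φ

omit hK hK' hq hc hrange in
theorem transferAlong_eq_zero (hfin : ¬ c.range.FiniteIndex) (χ : Additive K' →+ A) :
    transferAlong c χ = 0 := by
  unfold transferAlong
  rw [dif_neg (fun h' => hfin h'.2)]

/-- `T_ℓ t₂ = t₂ T_ℓ`. -/
theorem TK_transferAlong_conj {ℓ : ℕ} [Fact ℓ.Prime] (hℓ : ¬ ℓ ∣ N * q)
    (ψ : Additive K' →+ A) :
    TK N K ℓ (transferAlong c ψ) = transferAlong c (TK (N * q) K' ℓ ψ) := by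
  have hℓN : ¬ ℓ ∣ N := fun h' => hℓ (dvd_mul_of_dvd_left h' q)
  by_cases hfin : c.range.FiniteIndex
  · rw [TK_eq hK' hℓ, TK_eq_of_dvd hK (dvd_mul_self_right N q) hℓ]
    refine transfer_transferAlong (ιK_injective K)
      (repsT_system_of_dvd hK (dvd_mul_self_right N q) hℓ) (repsT_system hK' hℓ)
      c (injective_of_conj c _ hc) (heckeDiagMatrix q) hc (conjDiag_repsT hK hq hℓ) ?_ ψ
    intro y y' m g Q hQ e
    exact hrange m (upper_dvd_of_rel (D := N * q) hq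
      (Int.natCast_dvd_natCast.mpr (Dvd.intro_left N rfl)) (isIntRep_repsT hℓ y)
      (isIntRep_repsT hℓ y') hQ e)
  · rw [transferAlong_eq_zero c hfin, transferAlong_eq_zero c hfin, TK_zero hK hℓN]

/-- `U_q' t₂ = t₂ U_q'`. -/
theorem UK_transferAlong_conj {q' : ℕ} [Fact q'.Prime] (hq' : q' ∣ N) (ψ : Additive K' →+ A) :
    UK K q' (transferAlong c ψ) = transferAlong c (UK K' q' ψ) := by
  have hq'' : q' ∣ N * q := dvd_mul_of_dvd_left hq' q
  by_cases hfin : c.range.FiniteIndex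
  · rw [UK_eq hK' hq'', UK_eq hK hq']
    refine transfer_transferAlong (ιK_injective K) (repsU_system hK hq')
      (repsU_system hK' hq'') c (injective_of_conj c _ hc) (heckeDiagMatrix q) hc
      (conjDiag_repsU hK hq) ?_ ψ
    intro y y' m g Q hQ e
    exact hrange m (upper_dvd_of_rel (D := N * q) hq
      (Int.natCast_dvd_natCast.mpr (Dvd.intro_left N rfl)) (isIntRep_repsU q' y)
      (isIntRep_repsU q' y') hQ e)
  · rw [transferAlong_eq_zero c hfin, transferAlong_eq_zero c hfin, UK_zero hK hq']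

end Conj

end Fermat.Agent.S59.TW.H653.Cross

end
-- ===== PACK-END S59/TW/H653/Cross/Main.lean

-- ===== PACK-BEGIN A3/H619/OrdMain.lean
section
/-
A3 / piece ORD (helper619): MAIN THEOREM.

`OrderHyp p T act H`  ⟹  `HasFlatModel p T act`, the conclusion of the frozen statement S19 (and of
`GaloisRepAdic.IsFlatAt`) for the finite Galois module `T`.
-/


set_option autoImplicit false
set_option linter.unusedSectionVars false

noncomputable section

namespace Fermat.Agent.A3.H619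

open GaloisRep TensorProduct Module

/-- The conclusion of S19 / of `IsFlatAt` for a Galois module `T`: a finite flat cocommutative
Hopf algebra over `ℤ_(p)` whose `ℚ̄`-points are `T`, additively and Galois-equivariantly. -/
def HasFlatModel (p : ℕ) (T : Type) [AddCommGroup T] (act : GQ → T → T) : Prop :=
  ∃ (H : Type) (_ : CommRing H) (_ : HopfAlgebra (ratLocalizedAt p) H),
    Module.Finite (ratLocalizedAt p) H ∧ Module.Flat (ratLocalizedAt p) H ∧
    Coalgebra.IsCocomm (ratLocalizedAt p) H ∧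
    ∃ e : WithConv (H →ₐ[ratLocalizedAt p] Qb) ≃ T,
      (∀ f g, e (f * g) = e f + e g) ∧
      ∀ (σ : GQ) (f g : WithConv (H →ₐ[ratLocalizedAt p] Qb)),
        (∀ h : H, g h = σ (f h)) → e g = act σ (e f)

variable {p : ℕ} {T : Type} [AddCommGroup T] [Finite T]
variable {H : Subalgebra (ratLocalizedAt p) (T → Qb)} {act : GQ → T → T}

namespace OrderHyp

variable (h : OrderHyp p T act H)
include h

theorem lift_evPt (s t : T) (x : ↥H ⊗[ratLocalizedAt p] ↥H) :
    Algebra.TensorProduct.lift (evPt H s) (evPt H t) (fun _ _ => Commute.all _ _) x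
      = mu H x (s, t) := by
  induction x using TensorProduct.induction_on with
  | zero => simp
  | tmul a b => simp
  | add x y hx hy => rw [map_add, map_add, Pi.add_apply, hx, hy]

/-- The bijection between points of `T` and `ℚ̄`-points of `H`. -/
def ptEquiv : T ≃ WithConv (↥H →ₐ[ratLocalizedAt p] Qb) :=
  (Equiv.ofBijective (evPt H) ⟨h.evPt_injective, h.evPt_surjective⟩).trans
    (WithConv.equiv _).symm

theorem ptEquiv_apply (t : T) : h.ptEquiv t = WithConv.toConv (evPt H t) := rfl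

theorem convMul_evPt (s t : T) :
    letI := h.hopfAlgebra
    (WithConv.toConv (evPt H s) * WithConv.toConv (evPt H t) :
      WithConv (↥H →ₐ[ratLocalizedAt p] Qb)) = WithConv.toConv (evPt H (s + t)) := by
  letI := h.hopfAlgebra
  apply WithConv.ext
  apply AlgHom.ext
  intro c
  have := AlgHom.convMul_apply (WithConv.toConv (evPt H s)) (WithConv.toConv (evPt H t)) c
  erw [this]
  erw [h.lift_evPt s t (h.comulAlg c)]
  rw [h.mu_comulAlg_apply]
  rfl

/-- **ORD.**  An order satisfying (O0)-(O3) gives the S19-shaped conclusion. -/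
theorem hasFlatModel : HasFlatModel p T act := by
  letI := h.hopfAlgebra
  have hfree := h.free
  refine ⟨↥H, inferInstance, h.hopfAlgebra, h.finite, Module.Flat.of_free, h.isCocomm,
    h.ptEquiv.symm, ?_, ?_⟩
  · intro f g
    obtain ⟨s, rfl⟩ := h.ptEquiv.surjective f
    obtain ⟨t, rfl⟩ := h.ptEquiv.surjective g
    rw [Equiv.symm_apply_apply, Equiv.symm_apply_apply, h.ptEquiv_apply, h.ptEquiv_apply,
      h.convMul_evPt, ← h.ptEquiv_apply, Equiv.symm_apply_apply]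
  · intro σ f g hfg
    obtain ⟨s, rfl⟩ := h.ptEquiv.surjective f
    obtain ⟨t, rfl⟩ := h.ptEquiv.surjective g
    rw [Equiv.symm_apply_apply, Equiv.symm_apply_apply]
    by_contra hne
    obtain ⟨c, hc, hcne⟩ := h.sep t (act σ s) hne
    apply hcne
    have := hfg ⟨c, hc⟩
    rw [h.equiv c hc σ s]
    exact this

end OrderHyp

end Fermat.Agent.A3.H619

end
end
-- ===== PACK-END A3/H619/OrdMain.lean

-- ===== PACK-BEGIN A3/H799/LocalSpec.lean
section



/-!
# A3 / LOCAL — FROZEN leaf statements  (architect helper799)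

`LocalStatement K F k Fk` (GoodRed.lean) is cut into five leaves, each a `Prop` below:

    DISC   `DiscStatement`   residue-disc calculus: a `DiscData` at every point of the special fibre
    NSP    `NspStatement`    special fibre: `g` distinct points with `ℓ(ΣQ_i) = 1`
    COORD  `CoordStatement`  the kernel of reduction is the polydisc `(𝔪_V)^g`
    ZADD   `ZaddStatement`   addition is algebraic: divisor form, for families on a finite set
    LIFTI  `LiftiStatement`  inertia-invariant lifts of classes of the special fibre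

Everything is about HONEST functions/divisors of `F/K`; the only "families" are functions on a
finite set `T` with values in `V`, and `Λ` is any `V`-algebra of such functions
(`Fermat.Agent.A3.H799.local_mem` is the algebra behind ZADD).
-/

set_option autoImplicit false

noncomputable section

open AlgebraicCurve

namespace Fermat.Agent.A3.H799

variable {K F k Fk : Type*} [Field K] [Field F] [Algebra K F] [Field k] [Field Fk] [Algebra k Fk]

/-- The kernel of reduction `J¹ ⊆ Pic0`: classes of degree-zero divisors whose reduction is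
principal. -/
def GoodRed.kerRed (𝓡 : GoodRed K F k Fk) : AddSubgroup (Pic0 K F) where
  carrier := {x | ∃ D : Divisor.degZero (K := K) (F := F), Pic0.mk D = x ∧
    Finsupp.mapDomain 𝓡.r (D : Divisor K F) ∈ Divisor.principal (K := k) (F := Fk)}
  zero_mem' := ⟨0, rfl, by simp [Finsupp.mapDomain_zero]⟩
  add_mem' := by
    rintro _ _ ⟨D, rfl, hD⟩ ⟨D', rfl, hD'⟩
    refine ⟨D + D', rfl, ?_⟩
    rw [AddSubgroup.coe_add, Finsupp.mapDomain_add]
    exact AddSubgroup.add_mem _ hD hD'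
  neg_mem' := by
    rintro _ ⟨D, rfl, hD⟩
    refine ⟨-D, rfl, ?_⟩
    have h : Finsupp.mapDomain 𝓡.r ((-D : Divisor.degZero (K := K) (F := F)) : Divisor K F) =
        -Finsupp.mapDomain 𝓡.r (D : Divisor K F) := by
      rw [AddSubgroup.coe_neg, ← Finsupp.mapDomain.addMonoidHom_apply, map_neg,
        Finsupp.mapDomain.addMonoidHom_apply]
    rw [h]
    exact AddSubgroup.neg_mem _ hD

/-- **Residue-disc data** at a point `Q` of the special fibre: the ring of integral functions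
without poles in the disc `r⁻¹ Q`, as a disc algebra (`Disc.lean`), with the dictionary
"evaluation `ev a` = value at the point `pt a` of the disc". -/
structure DiscData (𝓡 : GoodRed K F k Fk) (Q : Place k Fk) where
  /-- integral functions without poles in the disc -/
  ring : Subalgebra 𝓡.V F
  ring_le : ∀ f ∈ ring, f ∈ 𝓡.O
  ring_reg : ∀ f ∈ ring, ∀ P : Place K F, 𝓡.r P = Q → f ∈ P.toValuationSubring
  mem_ring : ∀ f ∈ 𝓡.O, (∀ P : Place K F, 𝓡.r P = Q → f ∈ P.toValuationSubring) → f ∈ ring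
  /-- the disc algebra structure: parameter `t`, evaluations, Taylor -/
  D : DiscAlg 𝓡.V ring
  /-- the point of the disc with parameter value `a` -/
  pt : IsLocalRing.maximalIdeal 𝓡.V → Place K F
  r_pt : ∀ a, 𝓡.r (pt a) = Q
  pt_surj : ∀ P : Place K F, 𝓡.r P = Q → ∃ a, pt a = P
  /-- the reduction of the parameter is a uniformiser at `Q` -/
  ord_t : Q.ord (𝓡.red ⟨(D.t : F), ring_le _ D.t.2⟩) = 1
  /-- `ev a f` is the value of `f` at `pt a` -/
  ev_spec : ∀ (a : IsLocalRing.maximalIdeal 𝓡.V) (f : ring),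
    (f : F) = algebraMap K F ((D.ev a f : 𝓡.V) : K) ∨
      1 ≤ (pt a).ord ((f : F) - algebraMap K F ((D.ev a f : 𝓡.V) : K))
  /-- the reduction of `ev a f` is the value of `red f` at `Q` -/
  red_ev : ∀ (a : IsLocalRing.maximalIdeal 𝓡.V) (f : ring),
    𝓡.red ⟨(f : F), ring_le _ f.2⟩ = algebraMap k Fk (𝓡.res (D.ev a f)) ∨
      1 ≤ Q.ord (𝓡.red ⟨(f : F), ring_le _ f.2⟩ - algebraMap k Fk (𝓡.res (D.ev a f)))

/-- The effective divisor `Σ_i [pt_i (z i)]` of the polydisc point `z`. -/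
def polyDiv {𝓡 : GoodRed K F k Fk} {ι : Type*} [Fintype ι] {Qs : ι → Place k Fk}
    (d : ∀ i, DiscData 𝓡 (Qs i)) (z : ι → IsLocalRing.maximalIdeal 𝓡.V) : Divisor K F :=
  ∑ i, Finsupp.single ((d i).pt (z i)) 1

section Statements

variable (K F k Fk)

/-- **DISC.**  Every point of the special fibre has residue-disc data, with an
inertia-invariant parameter. -/
def DiscStatement : Prop :=
  ∀ (𝓡 : GoodRed K F k Fk) (Q : Place k Fk),
    ∃ d : DiscData 𝓡 Q, ∀ g ∈ 𝓡.I, g • ((d.D.t : d.ring) : F) = ((d.D.t : d.ring) : F)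

/-- **DISC-I.**  For an inertia-invariant parameter the points of the disc are permuted by
inertia through their parameter values. -/
def DiscEquivStatement : Prop :=
  ∀ (𝓡 : GoodRed K F k Fk) (Q : Place k Fk) (d : DiscData 𝓡 Q),
    (∀ g ∈ 𝓡.I, g • ((d.D.t : d.ring) : F) = ((d.D.t : d.ring) : F)) →
    ∀ g ∈ 𝓡.I, ∀ a : IsLocalRing.maximalIdeal 𝓡.V,
      ∃ h : SemilinearAut.baseAut g ((a : 𝓡.V) : K) ∈ 𝓡.V,
        ∃ h' : (⟨SemilinearAut.baseAut g ((a : 𝓡.V) : K), h⟩ : 𝓡.V) ∈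
            IsLocalRing.maximalIdeal 𝓡.V,
          g • d.pt a = d.pt ⟨⟨SemilinearAut.baseAut g ((a : 𝓡.V) : K), h⟩, h'⟩

/-- **NSP.**  On the special fibre there are `g` distinct points `Q_i` with `ℓ(Σ Q_i) = 1`. -/
def NspStatement : Prop :=
  ∀ [IsAlgClosed k] [Lib.RR.FF1 k Fk], ∃ Qs : Fin (genusFF k Fk) → Place k Fk, Function.Injective Qs ∧
    Lib.RR.ell (∑ i, Finsupp.single (Qs i) (1 : ℤ)) = 1

/-- **COORD.**  With `E = polyDiv d 0`: every class of the kernel of reduction is `[D_z - E]` for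
a unique polydisc point `z`, and conversely. -/
def CoordStatement : Prop :=
  ∀ (𝓡 : GoodRed K F k Fk) (Qs : Fin (genusFF k Fk) → Place k Fk), Function.Injective Qs →
    @Lib.RR.ell k Fk _ _ _ (∑ i, Finsupp.single (Qs i) (1 : ℤ)) = 1 →
    ∀ d : ∀ i, DiscData 𝓡 (Qs i),
      (∀ x ∈ 𝓡.kerRed, ∃! z : Fin (genusFF k Fk) → IsLocalRing.maximalIdeal 𝓡.V,
        ∃ D : Divisor.degZero (K := K) (F := F),
          (D : Divisor K F) = polyDiv d z - polyDiv d 0 ∧ Pic0.mk D = x) ∧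
      ∀ z : Fin (genusFF k Fk) → IsLocalRing.maximalIdeal 𝓡.V,
        ∀ D : Divisor.degZero (K := K) (F := F),
          (D : Divisor K F) = polyDiv d z - polyDiv d 0 → Pic0.mk D ∈ 𝓡.kerRed

/-- **ZADD** (divisor form).  If `D_x + D_y ∼ D_s + E` for every parameter value `τ` of a finite
set `T`, and the coordinates of `x`, `y` lie in the `V`-algebra `Λ` of functions on `T`, then so do
the coordinates of `s`. -/
def ZaddStatement.{w} : Prop :=
  ∀ (𝓡 : GoodRed K F k Fk) (Qs : Fin (genusFF k Fk) → Place k Fk), Function.Injective Qs →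
    @Lib.RR.ell k Fk _ _ _ (∑ i, Finsupp.single (Qs i) (1 : ℤ)) = 1 →
    ∀ (d : ∀ i, DiscData 𝓡 (Qs i)) (T : Type w) [Finite T] (Λ : Subalgebra 𝓡.V (T → 𝓡.V))
      (zx zy zs : T → Fin (genusFF k Fk) → IsLocalRing.maximalIdeal 𝓡.V),
      (∀ j, (fun τ => ((zx τ j : IsLocalRing.maximalIdeal 𝓡.V) : 𝓡.V)) ∈ Λ) →
      (∀ j, (fun τ => ((zy τ j : IsLocalRing.maximalIdeal 𝓡.V) : 𝓡.V)) ∈ Λ) →
      (∀ τ, polyDiv d (zx τ) + polyDiv d (zy τ) - polyDiv d (zs τ) - polyDiv d 0 ∈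
        Divisor.principal (K := K) (F := F)) →
      ∀ i, (fun τ => ((zs τ i : IsLocalRing.maximalIdeal 𝓡.V) : 𝓡.V)) ∈ Λ

/-- **ZTRI** (sub-leaf of ZADD, one application of `local_mem` with `L(3E)`):
`D_x + D_y + D_w ∼ 3E`. -/
def ZtriStatement.{w} : Prop :=
  ∀ (𝓡 : GoodRed K F k Fk) (Qs : Fin (genusFF k Fk) → Place k Fk), Function.Injective Qs →
    @Lib.RR.ell k Fk _ _ _ (∑ i, Finsupp.single (Qs i) (1 : ℤ)) = 1 →
    ∀ (d : ∀ i, DiscData 𝓡 (Qs i)) (T : Type w) [Finite T] (Λ : Subalgebra 𝓡.V (T → 𝓡.V))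
      (zx zy zw : T → Fin (genusFF k Fk) → IsLocalRing.maximalIdeal 𝓡.V),
      (∀ j, (fun τ => ((zx τ j : IsLocalRing.maximalIdeal 𝓡.V) : 𝓡.V)) ∈ Λ) →
      (∀ j, (fun τ => ((zy τ j : IsLocalRing.maximalIdeal 𝓡.V) : 𝓡.V)) ∈ Λ) →
      (∀ τ, polyDiv d (zx τ) + polyDiv d (zy τ) + polyDiv d (zw τ) - (3 : ℤ) • polyDiv d 0 ∈
        Divisor.principal (K := K) (F := F)) →
      ∀ i, (fun τ => ((zw τ i : IsLocalRing.maximalIdeal 𝓡.V) : 𝓡.V)) ∈ Λ

/-- **ZNEG** (sub-leaf of ZADD, one application of `local_mem` with `L(2E)`):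
`D_x + D_n ∼ 2E`. -/
def ZnegStatement.{w} : Prop :=
  ∀ (𝓡 : GoodRed K F k Fk) (Qs : Fin (genusFF k Fk) → Place k Fk), Function.Injective Qs →
    @Lib.RR.ell k Fk _ _ _ (∑ i, Finsupp.single (Qs i) (1 : ℤ)) = 1 →
    ∀ (d : ∀ i, DiscData 𝓡 (Qs i)) (T : Type w) [Finite T] (Λ : Subalgebra 𝓡.V (T → 𝓡.V))
      (zx zn : T → Fin (genusFF k Fk) → IsLocalRing.maximalIdeal 𝓡.V),
      (∀ j, (fun τ => ((zx τ j : IsLocalRing.maximalIdeal 𝓡.V) : 𝓡.V)) ∈ Λ) →
      (∀ τ, polyDiv d (zx τ) + polyDiv d (zn τ) - (2 : ℤ) • polyDiv d 0 ∈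
        Divisor.principal (K := K) (F := F)) →
      ∀ i, (fun τ => ((zn τ i : IsLocalRing.maximalIdeal 𝓡.V) : 𝓡.V)) ∈ Λ

/-- **LIFTI.**  Every class is congruent modulo the kernel of reduction to an
inertia-invariant class. -/
def LiftiStatement : Prop :=
  ∀ (𝓡 : GoodRed K F k Fk) (x : Pic0 K F),
    ∃ y : Pic0 K F, (∀ g ∈ 𝓡.I, g • y = y) ∧ x - y ∈ 𝓡.kerRed

end Statements

end Fermat.Agent.A3.H799

end
end
-- ===== PACK-END A3/H799/LocalSpec.lean

-- ===== PACK-BEGIN S19/H195/MaxPrinciple.lean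
section


/-!
# A3 / LOCAL D1–D2 (helper195): maximum principle, surjectivity of `r`, specialisation of classes

For an abstract reduction datum `R : RedDatum K F k Fk` (see `RedDatum.lean`):

* `RedDatum.le_mapDomain_apply`  `D P ≤ (r_* D)(r P)` when `D ≥ 0` on the residue disc of `P`;
* `RedDatum.max_principle`  **D1**: if `f ∈ V` has no poles in the residue disc `r⁻¹(r P)` and
  `f(P) = c`, then `c ∈ O = V ∩ K` and `(red f)(r P) = red c`;
* `RedDatum.r_surjective`   **D2a**: `r` is onto (if `red` is onto);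
* `RedDatum.mapDomain_mem_principal`, `RedDatum.sp`  **D2b**: `r_*` maps principal divisors to
  principal divisors, hence induces `sp : Pic0 K F →+ Pic0 k Fk` (needs the scaling axiom);
* `RedDatum.eq_of_sp_of_ell_eq_one`-type uniqueness is in `Lib/RR/H439`.

(D2c, integral Riemann–Roch, is `RedDatum.redL_eq` / `exists_lattice_basis` in `RedDatum.lean`.)
-/

set_option autoImplicit false

noncomputable section

open AlgebraicCurve Fermat.Agent.Lib.RR

namespace Fermat.Agent.S19.H195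

universe u₁ u₂ u₃ u₄

variable {K : Type u₁} {F : Type u₂} {k : Type u₃} {Fk : Type u₄}
  [Field K] [Field F] [Algebra K F] [Field k] [Field Fk] [Algebra k Fk]

namespace RedDatum

variable (R : RedDatum K F k Fk)

/-- If `D` is non-negative on the fibre of `r` through `a`, then `D a ≤ (r_* D)(r a)`. -/
theorem le_mapDomain_apply {α β : Type*} (r : α → β) (D : α →₀ ℤ) (a : α)
    (h : ∀ a', r a' = r a → 0 ≤ D a') : D a ≤ Finsupp.mapDomain r D (r a) := by
  classical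
  rw [Finsupp.mapDomain, Finsupp.sum_apply]
  show D a ≤ ∑ a' ∈ D.support, (Finsupp.single (r a') (D a')) (r a)
  have hnn : ∀ a' ∈ D.support, 0 ≤ (Finsupp.single (r a') (D a')) (r a) := by
    intro a' _
    rw [Finsupp.single_apply]
    split_ifs with h1
    · exact h a' h1
    · exact le_rfl
  by_cases ha : a ∈ D.support
  · have := Finset.single_le_sum hnn ha
    rwa [Finsupp.single_eq_same] at this
  · rw [Finsupp.notMem_support_iff.mp ha]
    exact Finset.sum_nonneg hnn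

/-- A constant outside `V` has its inverse in
`V` with zero reduction. -/
theorem red_inv_eq_zero {c : K} (hc : algebraMap K F c ∉ R.V) :
    ∃ h : algebraMap K F c⁻¹ ∈ R.V, R.red ⟨_, h⟩ = 0 := by
  have hinv := (R.const_total c).resolve_left hc
  refine ⟨hinv, ?_⟩
  by_contra hne
  have := R.red_const_unit _ hinv hne
  rw [inv_inv] at this
  exact hc this

/-- **D1, maximum principle.**  Let `f ∈ V` have no poles in the residue disc of `P` and value
`c` at `P`.  Then `c` is integral and `red f` has the value `red c` at `r P`. -/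
theorem max_principle [FF1 K F] (P : Place K F) {f : F} (hf : f ∈ R.V)
    (hreg : ∀ Q, R.r Q = R.r P → 0 ≤ Q.ord f) {c : K}
    (hc : f - algebraMap K F c = 0 ∨ 0 < P.ord (f - algebraMap K F c)) :
    ∃ hcV : algebraMap K F c ∈ R.V,
      R.red ⟨f, hf⟩ - R.red ⟨_, hcV⟩ = 0 ∨
        0 < (R.r P).ord (R.red ⟨f, hf⟩ - R.red ⟨_, hcV⟩) := by
  -- regularity of `f - c'` and `c' f` on the disc
  have hmemQ : ∀ Q, R.r Q = R.r P → f ∈ Q.toValuationSubring := fun Q hQ =>
    mem_of_ord_nonneg Q (hreg Q hQ)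
  -- Step 1: `c` is integral
  have hcV : algebraMap K F c ∈ R.V := by
    by_contra hcV
    obtain ⟨hinv, hred0⟩ := R.red_inv_eq_zero hcV
    have hc0 : c ≠ 0 := by
      rintro rfl
      apply hcV
      rw [map_zero]
      exact R.V.zero_mem
    set g : F := algebraMap K F c⁻¹ * f - 1 with hg
    have hgV : g ∈ R.V := R.V.sub_mem (R.V.mul_mem hinv hf) R.V.one_mem
    have hgred : R.red ⟨g, hgV⟩ = -1 := by
      have : (⟨g, hgV⟩ : R.V) = ⟨_, hinv⟩ * ⟨f, hf⟩ - 1 := Subtype.ext rfl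
      rw [this, map_sub, map_mul, hred0, zero_mul, map_one, zero_sub]
    have hgred0 : R.red ⟨g, hgV⟩ ≠ 0 := by
      rw [hgred]; exact neg_ne_zero.mpr one_ne_zero
    have hg0 : g ≠ 0 := by
      rintro h0
      apply hgred0
      have : (⟨g, hgV⟩ : R.V) = 0 := Subtype.ext h0
      rw [this, map_zero]
    have hgeq : g = algebraMap K F c⁻¹ * (f - algebraMap K F c) := by
      rw [hg, mul_sub, ← map_mul, inv_mul_cancel₀ hc0, map_one]
    have hcinv0 : algebraMap K F c⁻¹ ≠ 0 := by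
      rw [Ne, map_eq_zero]; exact inv_ne_zero hc0
    have hordP : 0 < P.ord g := by
      rcases hc with h0 | hpos
      · exact absurd (by rw [hgeq, h0, mul_zero]) hg0
      · have hfc0 : f - algebraMap K F c ≠ 0 := by
          rintro h0
          exact hg0 (by rw [hgeq, h0, mul_zero])
        rw [hgeq, P.ord_mul hcinv0 hfc0, ord_algebraMap, zero_add]
        exact hpos
    have hE := R.ord_red g hgV hgred0 (divOf g hg0) (fun Q => divOf_apply g hg0 Q) (R.r P)
    have hle := le_mapDomain_apply R.r (divOf g hg0) P (fun Q hQ => by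
      rw [divOf_apply]
      apply ord_nonneg_of_mem
      exact sub_mem (mul_mem (Q.algebraMap_mem' _) (hmemQ Q hQ)) (one_mem _))
    rw [hE, divOf_apply, hgred, ord_neg, Place.ord_one] at hle
    omega
  refine ⟨hcV, ?_⟩
  -- Step 2: the value of the reduction
  set h : F := f - algebraMap K F c with hh
  have hhV : h ∈ R.V := R.V.sub_mem hf hcV
  have hhred : R.red ⟨h, hhV⟩ = R.red ⟨f, hf⟩ - R.red ⟨_, hcV⟩ := by
    have : (⟨h, hhV⟩ : R.V) = ⟨f, hf⟩ - ⟨_, hcV⟩ := Subtype.ext rfl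
    rw [this, map_sub]
  rw [← hhred]
  by_cases hred0 : R.red ⟨h, hhV⟩ = 0
  · exact Or.inl hred0
  right
  have hh0 : h ≠ 0 := by
    rintro h0
    apply hred0
    have : (⟨h, hhV⟩ : R.V) = 0 := Subtype.ext h0
    rw [this, map_zero]
  have hordP : 0 < P.ord h := hc.resolve_left hh0
  have hE := R.ord_red h hhV hred0 (divOf h hh0) (fun Q => divOf_apply h hh0 Q) (R.r P)
  have hle := le_mapDomain_apply R.r (divOf h hh0) P (fun Q hQ => by
    rw [divOf_apply]
    apply ord_nonneg_of_mem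
    exact sub_mem (hmemQ Q hQ) (Q.algebraMap_mem' _))
  rw [hE, divOf_apply] at hle
  omega

/-- **D2a**: the reduction of places is onto. -/
theorem r_surjective [FF1 K F] (hsurj : Function.Surjective R.red) :
    Function.Surjective R.r := by
  classical
  intro Q
  obtain ⟨t, ht⟩ := exists_ord_eq_one Q
  obtain ⟨⟨f, hf⟩, hft⟩ := hsurj t
  have ht0 : t ≠ 0 := ne_zero_of_ord_ne_zero Q (by rw [ht]; exact one_ne_zero)
  have hred0 : R.red ⟨f, hf⟩ ≠ 0 := by rw [hft]; exact ht0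
  have hf0 : f ≠ 0 := by
    rintro rfl
    exact hred0 (map_zero R.red)
  have hE := R.ord_red f hf hred0 (divOf f hf0) (fun P => divOf_apply f hf0 P) Q
  rw [hft, ht] at hE
  by_contra hne
  have hQ : Q ∉ Set.range R.r := fun ⟨P, hP⟩ => hne ⟨P, hP⟩
  rw [Finsupp.mapDomain_of_notMem_range _ _ hQ] at hE
  exact zero_ne_one hE

/-- **D2b**: principal divisors specialise to principal divisors. -/
theorem mapDomain_mem_principal
    (hscale : ∀ f : F, f ≠ 0 → ∃ c : K, c ≠ 0 ∧ ∃ h : algebraMap K F c * f ∈ R.V,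
      R.red ⟨_, h⟩ ≠ 0)
    {D : Divisor K F} (hD : D ∈ Divisor.principal (K := K) (F := F)) :
    Finsupp.mapDomain R.r D ∈ Divisor.principal (K := k) (F := Fk) := by
  obtain ⟨f, hf0, hDf⟩ := hD
  obtain ⟨c, hc0, hV, hred⟩ := hscale f hf0
  refine ⟨R.red ⟨_, hV⟩, hred, fun Q => ?_⟩
  refine R.ord_red _ hV hred D (fun P => ?_) Q
  have hc0' : algebraMap K F c ≠ 0 := by rwa [Ne, map_eq_zero]
  rw [hDf P, P.ord_mul hc0' hf0, ord_algebraMap, zero_add]

/-- Specialisation of divisors of degree zero. -/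
def spDegZero [FF1 K F] [FF1 k Fk] :
    Divisor.degZero (K := K) (F := F) →+ Divisor.degZero (K := k) (F := Fk) :=
  ((Finsupp.mapDomain.addMonoidHom R.r).domRestrict _).codRestrict _ fun D => by
    rw [Divisor.mem_degZero]
    show Divisor.degree (Finsupp.mapDomain R.r (D : Divisor K F)) = 0
    rw [R.degree_mapDomain]
    exact D.2

@[simp]
theorem coe_spDegZero [FF1 K F] [FF1 k Fk] (D : Divisor.degZero (K := K) (F := F)) :
    (R.spDegZero D : Divisor k Fk) = Finsupp.mapDomain R.r (D : Divisor K F) := rfl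

/-- **D2b**: the specialisation homomorphism `sp : Pic0 K F →+ Pic0 k Fk`. -/
def sp [FF1 K F] [FF1 k Fk]
    (hscale : ∀ f : F, f ≠ 0 → ∃ c : K, c ≠ 0 ∧ ∃ h : algebraMap K F c * f ∈ R.V,
      R.red ⟨_, h⟩ ≠ 0) :
    Pic0 K F →+ Pic0 k Fk :=
  QuotientAddGroup.map _ _ R.spDegZero (by
    rintro ⟨D, hD0⟩ hD
    simp only [AddSubgroup.mem_addSubgroupOf] at hD ⊢
    exact R.mapDomain_mem_principal hscale hD)

theorem sp_mk [FF1 K F] [FF1 k Fk]
    (hscale : ∀ f : F, f ≠ 0 → ∃ c : K, c ≠ 0 ∧ ∃ h : algebraMap K F c * f ∈ R.V,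
      R.red ⟨_, h⟩ ≠ 0)
    (D : Divisor.degZero (K := K) (F := F)) :
    R.sp hscale (Pic0.mk D) = Pic0.mk (R.spDegZero D) := rfl

end RedDatum

end Fermat.Agent.S19.H195

end
end
-- ===== PACK-END S19/H195/MaxPrinciple.lean

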