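import Mathlib
import Fermat.Agent.Pack.S44C.G0E22L1
import Fermat.Agent.Pack.S44C.G0E17L2
import Fermat.Agent.Pack.S44C.G0E10L0
import Fermat.Agent.Pack.S43MC.G0E4L3
import Fermat.Agent.Pack.S43MC.G0E20L2
import Fermat.Agent.Pack.S44C.G0E19L0
import Fermat.Agent.Pack.S43MC.G0E20L1
import Fermat.Agent.Pack.S43MC.G0E13L0
import Fermat.Agent.Pack.S44C.G0E10L1
import Fermat.Agent.Pack.S44C.G0E17L3
import Fermat.Agent.Pack.S44C.G0E22L3
import Fermat.Agent.Pack.S43MC.G0E16L0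
import Fermat.Agent.Pack.S43MC.G0E18L0
import Fermat.Agent.Pack.S43MC.G0E14L0
import Fermat.Agent.Pack.S44C.G0E6L0
import Fermat.Agent.Pack.S43MC.G0E3L1
import Fermat.Agent.Pack.S43GC.G0E15L3
import Fermat.Agent.Pack.S43MC.G0E20L3
import Fermat.Agent.Pack.S43MC.G0E20L0
import Fermat.Agent.Pack.S43MC.G0E7L1
import Fermat.Agent.Pack.S44C.G0E22L2
import Fermat.Agent.Pack.S43MC.G0E18L3
import Fermat.Agent.Pack.S43MC.G0E16L2
import Fermat.Agent.Pack.Fast891

-- ===== PACK-BEGIN S18/H876/Degree.lean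
section





/-!
# S18 / d2 : the degree `[F_M : F_N] = ψ(M) / ψ(N)` and the hypothesis-free transfer

* `psi_mul_finrank : ψ(N) * [F_M : F_N] = ψ(M)` for `N ∣ M` (from landed S24:
  `ModularPackage.finrank_eq`, `card_XX`).
* `core_descend_prime` : `p` prime, `p ∤ N`, `gcd(p + 1, m) = 1`
    ⟹ `CoreStatement (p * N) A m → CoreStatement N A m`.
* `node_d2` : the node D2 of the row skeleton, for `levelM N ℓ`.
-/

set_option autoImplicit false

noncomputable section

namespace Fermat.Agent.S18.H876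

open ModularCurve AlgebraicCurve HahnSeries Fermat.Agent.S24

section Degree

variable {N M : ℕ} [NeZero N] [NeZero M]

theorem coe_jF' : ((jF N : FF N) : LaurentSeries Qb) = coeffEmb Qb jq := rfl

theorem barIncl_jF (h : N ∣ M) : barIncl h (jF N) = jF M := by
  apply Subtype.ext
  rw [coe_barIncl, coe_jF', coe_jF']

/-- `Q̄(j) ⊆ F_N`. -/
abbrev jSub (N : ℕ) [NeZero N] : IntermediateField Kbar (FF N) :=
  IntermediateField.adjoin Kbar {jF N}

theorem jSub_map (h : N ∣ M) : (jSub N).map (barIncl h) = jSub M := by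
  rw [jSub, IntermediateField.adjoin_map, Set.image_singleton, barIncl_jF]

set_option synthInstance.maxHeartbeats 400000 in
/-- The isomorphism `Q̄(j) ⊆ F_N` with `Q̄(j) ⊆ F_M`. -/
def jSubEquiv (h : N ∣ M) : jSub N ≃ₐ[Kbar] jSub M :=
  ((jSub N).equivMap (barIncl h)).trans (IntermediateField.equivOfEq (jSub_map h))

set_option synthInstance.maxHeartbeats 400000 in
theorem coe_jSubEquiv (h : N ∣ M) (a : jSub N) :
    ((jSubEquiv h a : jSub M) : FF M) = barIncl h (a : FF N) := by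
  rw [jSubEquiv, AlgEquiv.trans_apply, IntermediateField.equivOfEq_apply]
  exact IntermediateField.coe_equivMap_apply _ _ _

set_option synthInstance.maxHeartbeats 400000 in
/-- `ψ(N) · [F_M : F_N] = ψ(M)`. -/
theorem psi_mul_finrank (h : N ∣ M) :
    dedekindPsi N * @Module.finrank (FF N) (FF M) _ _ (barAlgebra h).toModule
      = dedekindPsi M := by
  obtain ⟨PN⟩ := nonempty_modularPackage N
  obtain ⟨PM⟩ := nonempty_modularPackage M
  letI := barAlgebra h
  letI algJ : Algebra (jSub N) (FF M) :=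
    ((algebraMap (FF N) (FF M)).comp (algebraMap (jSub N) (FF N))).toAlgebra
  haveI : IsScalarTower (jSub N) (FF N) (FF M) :=
    IsScalarTower.of_algebraMap_eq fun _ => rfl
  have h1 : Module.finrank (jSub N) (FF N) = dedekindPsi N := by
    rw [← card_XX N]; exact PN.finrank_eq
  have h2 : Module.finrank (jSub M) (FF M) = dedekindPsi M := by
    rw [← card_XX M]; exact PM.finrank_eq
  have h3 : Module.finrank (jSub N) (FF M) = Module.finrank (jSub M) (FF M) := by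
    refine Algebra.finrank_eq_of_equiv_equiv (jSubEquiv h).toRingEquiv (RingEquiv.refl (FF M)) ?_
    refine RingHom.ext fun a => ?_
    exact coe_jSubEquiv h a
  haveI : Module.Free (jSub N) (FF N) := Module.Free.of_divisionRing _ _
  haveI : Module.Free (FF N) (FF M) := Module.Free.of_divisionRing _ _
  rw [← h1, ← h2, ← h3]
  exact Module.finrank_mul_finrank (jSub N) (FF N) (FF M)

theorem dedekindPsi_pos' (n : ℕ) (hn : n ≠ 0) : 0 < dedekindPsi n := by
  unfold dedekindPsi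
  have h1 : (1 : ℕ) ∈ n.divisors.filter Squarefree :=
    Finset.mem_filter.2 ⟨Nat.one_mem_divisors.2 hn, squarefree_one⟩
  calc 0 < n / 1 := by rw [Nat.div_one]; exact Nat.pos_of_ne_zero hn
    _ ≤ ∑ d ∈ n.divisors.filter Squarefree, n / d :=
        Finset.single_le_sum (f := fun d => n / d) (fun _ _ => Nat.zero_le _) h1

set_option synthInstance.maxHeartbeats 400000 in
theorem finrank_bar_pos (h : N ∣ M) :
    0 < @Module.finrank (FF N) (FF M) _ _ (barAlgebra h).toModule := by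
  have h1 := psi_mul_finrank h
  have h2 := dedekindPsi_pos' M (NeZero.ne M)
  rcases Nat.eq_zero_or_pos (@Module.finrank (FF N) (FF M) _ _ (barAlgebra h).toModule)
    with h0 | hpos
  · rw [h0, mul_zero] at h1
    omega
  · exact hpos

set_option synthInstance.maxHeartbeats 400000 in
theorem finite_bar (h : N ∣ M) :
    @Module.Finite (FF N) (FF M) _ _ (barAlgebra h).toModule := by
  letI := barAlgebra h
  haveI : Module.Free (FF N) (FF M) := Module.Free.of_divisionRing _ _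
  exact Module.finite_of_finrank_pos (finrank_bar_pos h)

end Degree

/-! ### Hypothesis-free transfer -/

/-- **d2, general form**: `N ∣ M` and `ψ(M) = d · ψ(N)` with `gcd(d, m) = 1`. -/
theorem core_descend_of_psi {N M : ℕ} [NeZero N] [NeZero M] (h : N ∣ M)
    (A : ValuationSubring Qb) (m d : ℕ) (hd : dedekindPsi M = d * dedekindPsi N)
    (hcop : d.Coprime m) (hM : CoreStatement M A m) : CoreStatement N A m := by
  refine core_descend_of_coprime h A m (finite_bar h) ?_ hM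
  have h1 := psi_mul_finrank h
  have h2 := dedekindPsi_pos' N (NeZero.ne N)
  have h3 : @Module.finrank (FF N) (FF M) _ _ (barAlgebra h).toModule = d := by
    rw [hd, mul_comm] at h1
    exact Nat.eq_of_mul_eq_mul_right h2 h1
  rw [show @Module.finrank (modularFunctionFieldBar N) (modularFunctionFieldBar M) _ _
    (barAlgebra h).toModule = d from h3]
  exact hcop

/-- **d2, prime form**: `p ∤ N` prime, `gcd(p + 1, m) = 1`. -/
theorem core_descend_prime {N : ℕ} [NeZero N] (p : ℕ) (hp : p.Prime) (hpN : ¬ p ∣ N)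
    (A : ValuationSubring Qb) (m : ℕ) (hcop : (p + 1).Coprime m)
    (hM : CoreStatement (p * N) A m) : CoreStatement N A m := by
  haveI : NeZero (p * N) := ⟨mul_ne_zero hp.ne_zero (NeZero.ne N)⟩
  exact core_descend_of_psi (Dvd.intro_left p rfl) A m (p + 1)
    (Fermat.Agent.S20.Comb694.dedekindPsi_prime_mul_of_not_dvd p N hp (NeZero.ne N) hpN) hcop hM

/-- **NODE D2** of the row skeleton (`levelM N ℓ` unfolded). -/
theorem node_d2 (N : ℕ) [NeZero N] {ℓ : ℕ} [Fact ℓ.Prime] (_hℓN : ¬ ℓ ∣ N)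
    (A : ValuationSubring Qb) (m : ℕ) (hm : ¬ ℓ ∣ m) :
    CoreStatement (if ℓ = 3 then Nat.lcm N 2 else if ℓ = 2 then Nat.lcm N 3 else N) A m →
      CoreStatement N A m := by
  split_ifs with h3 h2
  · subst h3
    by_cases h : 2 ∣ N
    · rw [Nat.lcm_eq_left h]
      exact id
    · have hcop : Nat.Coprime N 2 :=
        (Nat.coprime_comm.1 ((Nat.Prime.coprime_iff_not_dvd Nat.prime_two).2 h))
      rw [hcop.lcm_eq_mul, mul_comm]
      refine core_descend_prime 2 Nat.prime_two h A m ?_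
      exact (Nat.Prime.coprime_iff_not_dvd Nat.prime_three).2 hm
  · subst h2
    by_cases h : 3 ∣ N
    · rw [Nat.lcm_eq_left h]
      exact id
    · have hcop : Nat.Coprime N 3 :=
        (Nat.coprime_comm.1 ((Nat.Prime.coprime_iff_not_dvd Nat.prime_three).2 h))
      rw [hcop.lcm_eq_mul, mul_comm]
      refine core_descend_prime 3 Nat.prime_three h A m ?_
      have h2m : Nat.Coprime 2 m := (Nat.Prime.coprime_iff_not_dvd Nat.prime_two).2 hm
      exact Nat.Coprime.pow_left 2 h2m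
  · exact id

end Fermat.Agent.S18.H876

end
end
-- ===== PACK-END S18/H876/Degree.lean

-- ===== PACK-BEGIN S35/H433/AlgFrob.lean
section



/-!
# S35 / (G') — ALG-FROB from the three leaves of the A2 wall (helper433)

Adapter from `H433.frobToricVal_of_leaves` to the interface of `Fermat/Agent/S35/G/SpecLevel.lean`
(architect helper450).

WARNING (reported to helper450, note #8042): `G.PowV` admits `g = 0`, hence `G.AlgFrobStatement` as
frozen is FALSE (`h := w`).  This file proves the corrected statement `AlgFrobStatementU`, which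
is `G.AlgFrobStatement` VERBATIM with `G.PowV` replaced by `PowVU` (`g ≠ 0` added).

`algFrobU_of_leaves : PuritySmoothLeaf → PurityNodeLeaf → GlueLeaf → AlgFrobStatementU`.
Only `CutBy` on the finite chart `Bf` is used.

Second corrected form, which keeps the frozen `G.PowV`: `AlgFrobStatementT` is
`G.AlgFrobStatement` VERBATIM, restricted to functions of the form `h = ψ u / u`
(`= G.frobSub ψ 1 u`, `u ≠ 0`).  Such an `h` is a unit at both components, which excludes the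
degenerate root `g = 0`.  This is the only case used by `G.levelFrob_of_parts`
(see `LevelFrob.lean`: the assembly with the frozen leaves of `S35/G/SpecLevel.lean`).
`algFrobT_of_leaves : PuritySmoothLeaf → PurityNodeLeaf → GlueLeaf → AlgFrobStatementT`.
-/

set_option autoImplicit false
set_option linter.unusedSectionVars false
set_option linter.unusedVariables false

namespace Fermat.Agent.S35.H433

open Fermat.Agent.A2 Fermat.Agent.A2.Alg Fermat.Agent.A2.H348 Fermat.Agent.A2.Alg.H348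
open Fermat.Agent.S35.G (CutBy NodeStable)

section Defs

variable {R F : Type*} [CommRing R] [Field F] [Algebra R F]

/-- `u ≡ g ^ m mod w V` for a UNIT `g` of `V`. -/
def PowVU (w : R) (V : ValuationSubring F) (m : ℕ) (u : F) : Prop :=
  ∃ g : F, g ≠ 0 ∧ g ∈ V ∧ g⁻¹ ∈ V ∧ (u - g ^ m) * (algebraMap R F w)⁻¹ ∈ V

theorem nonunits_mul_mem {V : ValuationSubring F} {a b : F} (ha : a ∈ V.nonunits) (hb : b ∈ V) :
    a * b ∈ V.nonunits := by
  rw [ValuationSubring.mem_nonunits_iff] at ha ⊢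
  rw [map_mul]
  have hb' : V.valuation b ≤ 1 := (V.valuation_le_one_iff b).2 hb
  calc V.valuation a * V.valuation b ≤ V.valuation a * 1 := by gcongr
    _ = V.valuation a := mul_one _
    _ < 1 := ha

/-- `PowVU` at `V`, `V ⊆ W`, `w` not a unit of `W`  ⟹  `GSplitV` at `W`. -/
theorem gSplitV_of_powVU {w : R} {V W : ValuationSubring F} (hVW : ∀ z : F, z ∈ V → z ∈ W)
    (hwW : (algebraMap R F w)⁻¹ ∉ W) (hRW : ∀ r : R, algebraMap R F r ∈ W) {m : ℕ} {u : F}
    (h : PowVU w V m u) : GSplitV R W m u := by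
  obtain ⟨g, hg0, hg, hgi, hu⟩ := h
  refine ⟨g, hg0, hVW _ hg, hVW _ hgi, 1, isUnit_one, ?_⟩
  have hw0 : algebraMap R F w ≠ 0 := by
    intro h0
    apply hwW
    rw [h0, inv_zero]
    exact W.zero_mem
  have hgm : g ^ m ≠ 0 := pow_ne_zero _ hg0
  have e : u * (g ^ m)⁻¹ - algebraMap R F 1
      = algebraMap R F w * (((u - g ^ m) * (algebraMap R F w)⁻¹) * (g⁻¹) ^ m) := by
    rw [map_one, inv_pow]
    field_simp
  rw [e]
  refine nonunits_mul_mem ?_ (W.mul_mem _ _ (hVW _ hu) (W.pow_mem (hVW _ hgi) m))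
  rw [ValuationSubring.mem_nonunits_iff_or]
  exact Or.inr hwW

end Defs

section Chart

variable {R E F : Type*} [CommRing R] [IsDomain R] [IsDiscreteValuationRing R]
  [Field E] [CharZero E] [Algebra R E] [IsFractionRing R E]
  [Field F] [Algebra E F] [Algebra R F] [IsScalarTower R E F]

/-- A polynomial expression in `x` with a coefficient equal to `1` is not in a component. -/
theorem aeval_not_mem_of_coeff_one (w : R) (x : F) (B : Subalgebra R F) (hB : ChartCtx E w x B)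
    {A : Subalgebra R F} {p p' : Ideal B} [hp : p.IsPrime]
    (D : CompData (Algebra.adjoin R ({x} : Set F)) B p p' w) (P : Polynomial R) (k : ℕ)
    (hk : P.coeff k = 1) (b : B) (hb : (b : F) = Polynomial.aeval x P) : b ∉ p := by
  intro hbp
  have hx : Transcendental R x := H34.transcendental_of_field hB.hx
  have hbA : (b : F) ∈ Algebra.adjoin R ({x} : Set F) := by
    rw [hb, Algebra.adjoin_singleton_eq_range_aeval]
    exact ⟨P, rfl⟩
  obtain ⟨a', ha', hba⟩ := D.contract b hbA hbp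
  rw [Algebra.adjoin_singleton_eq_range_aeval] at ha'
  obtain ⟨P', rfl⟩ := ha'
  have h0 : Polynomial.aeval x (P - Polynomial.C w * P') = 0 := by
    rw [map_sub, map_mul, Polynomial.aeval_C, ← hb, hba]
    simp
  have h1 : P - Polynomial.C w * P' = 0 := by
    by_contra hne
    exact hx ⟨_, hne, h0⟩
  have h2 := congrArg (fun T => Polynomial.coeff T k) h1
  simp only [Polynomial.coeff_sub, Polynomial.coeff_C_mul, Polynomial.coeff_zero, hk] at h2
  have hunit : IsUnit w := IsUnit.of_mul_eq_one (P'.coeff k) (by linear_combination -h2)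
  exact hB.hw.not_isUnit hunit

/-- The local ring of a component of a chart satisfies `ValCtx`. -/
theorem valCtx_locAt (w : R) (x : F) (B : Subalgebra R F) (hB : ChartCtx E w x B)
    {p p' : Ideal B} [hp : p.IsPrime]
    (D : CompData (Algebra.adjoin R ({x} : Set F)) B p p' w) :
    ValCtx w x (D.valuationSubring (adjoin_le_of_ctx hB)) := by
  have hxB : x ∈ B := H609.self_mem_chart x B hB.hB
  have hx : Transcendental R x := H34.transcendental_of_field hB.hx
  have hx0 : x ≠ 0 := by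
    rintro rfl
    exact hx ⟨Polynomial.X, Polynomial.X_ne_zero, by simp⟩
  -- an element of `B ∖ p` is a unit of `B_p`
  have hunit : ∀ b : B, b ∉ p → (b : F)⁻¹ ∈ locAt B p := fun b hb =>
    ⟨b, hb, by rw [mul_inv_cancel₀ (coe_ne_zero_of_not_mem hb)]; exact B.one_mem⟩
  have hmemB : ∀ b : F, b ∈ B → b ∈ locAt B p := fun b hb =>
    ⟨1, fun h => hp.ne_top ((Ideal.eq_top_iff_one p).2 h), by simpa using hb⟩
  have h1 : (⟨x, hxB⟩ : B) ∉ p :=
    aeval_not_mem_of_coeff_one (A := B) w x B hB D Polynomial.X 1 (by simp) _ (by simp)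
  have h2 : ∀ r : R, (⟨x - algebraMap R F r, B.sub_mem hxB (B.algebraMap_mem r)⟩ : B) ∉ p :=
    fun r => aeval_not_mem_of_coeff_one (A := B) w x B hB D (Polynomial.X - Polynomial.C r) 1
      (by simp) _ (by simp)
  have h3 : ∀ r : R, (⟨1 - algebraMap R F r * x,
      B.sub_mem B.one_mem (B.mul_mem (B.algebraMap_mem r) hxB)⟩ : B) ∉ p :=
    fun r => aeval_not_mem_of_coeff_one (A := B) w x B hB D
      (1 - Polynomial.C r * Polynomial.X) 0 (by simp) _ (by simp)
  refine ⟨fun r => (locAt B p).algebraMap_mem r, hmemB x hxB, hunit _ h1, D.w_inv_notMem,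
    fun r => hunit _ (h2 r), fun r => ?_⟩
  have e : (x⁻¹ - algebraMap R F r)⁻¹ = x * (1 - algebraMap R F r * x)⁻¹ := by
    have hne : (1 - algebraMap R F r * x) ≠ 0 := coe_ne_zero_of_not_mem (h3 r)
    have hne' : x⁻¹ - algebraMap R F r ≠ 0 := by
      intro h
      apply hne
      have : 1 - algebraMap R F r * x = (x⁻¹ - algebraMap R F r) * x := by
        field_simp
      rw [this, h, zero_mul]
    field_simp
  rw [e]
  exact (locAt B p).mul_mem (hmemB x hxB) (hunit _ (h3 r))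

/-- A valuation ring cutting out the component `p` is contained in `B_p`. -/
theorem le_locAt_of_cut {w : R} {B : Subalgebra R F} {A : Subalgebra R F} {p p' : Ideal B}
    [hp : p.IsPrime] (D : CompData A B p p' w) (hAB : A ≤ B) (V : ValuationSubring F)
    (hle : ∀ b ∈ B, b ∈ V) (hcut : ∀ b : B, b ∈ p ↔ (b : F) * (algebraMap R F w)⁻¹ ∈ V)
    (z : F) (hz : z ∈ V) : z ∈ locAt B p := by
  rcases D.mem_or_inv_mem hAB z with h | h
  · exact h
  · by_contra hz'
    obtain ⟨s, hs, hsz⟩ := D.mul_inv_mem h (by rwa [inv_inv])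
    apply hs
    rw [hcut]
    have hz0 : z ≠ 0 := by
      rintro rfl
      exact hz' (locAt B p).zero_mem
    have hw0 := D.w_ne
    have e : (s : F) * (algebraMap R F w)⁻¹ = (s : F) * (z⁻¹ * (algebraMap R F w)⁻¹) * z := by
      field_simp
    rw [e]
    exact V.mul_mem _ _ (hle _ hsz) hz

end Chart

section Phi

variable {R F : Type*} [CommRing R] [Field F] [Algebra R F]

/-- The restriction to `B` of an automorphism of `F` mapping `B` into itself. -/
def restrictHom (φ : F ≃+* F) (B : Subalgebra R F) (h : ∀ b : F, b ∈ B → φ b ∈ B) : B →+* B where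
  toFun b := ⟨φ b, h b b.2⟩
  map_one' := Subtype.ext (by simp)
  map_mul' a b := Subtype.ext (by simp)
  map_zero' := Subtype.ext (by simp)
  map_add' a b := Subtype.ext (by simp)

@[simp] theorem coe_restrictHom (φ : F ≃+* F) (B : Subalgebra R F)
    (h : ∀ b : F, b ∈ B → φ b ∈ B) (b : B) : ((restrictHom φ B h b : B) : F) = φ b := rfl

/-- `ψ` maps the component cut out by `V` into itself. -/
theorem restrictHom_mem_of_cut {w : R} {B : Subalgebra R F} {p : Ideal B}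
    (V : ValuationSubring F) (hle : ∀ b ∈ B, b ∈ V)
    (hcut : ∀ b : B, b ∈ p ↔ (b : F) * (algebraMap R F w)⁻¹ ∈ V)
    (ψ : F ≃+* F) (hψB : ∀ b : F, b ∈ B → ψ b ∈ B) (hψV : ∀ f ∈ V, ψ f ∈ V)
    (t : R) (hψw : ψ (algebraMap R F w) = algebraMap R F w * algebraMap R F t)
    (hw0 : algebraMap R F w ≠ 0) {b : B} (hb : b ∈ p) : restrictHom ψ B hψB b ∈ p := by
  rw [hcut] at hb ⊢
  have h1 := hψV _ hb
  rw [map_mul, map_inv₀, hψw] at h1
  have ht0 : algebraMap R F t ≠ 0 := by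
    intro h
    have : ψ (algebraMap R F w) = 0 := by rw [hψw, h, mul_zero]
    exact hw0 ((map_eq_zero_iff ψ ψ.injective).1 this)
  have e : ((restrictHom ψ B hψB b : B) : F) * (algebraMap R F w)⁻¹
      = ψ b * (algebraMap R F w * algebraMap R F t)⁻¹ * algebraMap R F t := by
    rw [coe_restrictHom]
    field_simp
  rw [e]
  exact V.mul_mem _ _ h1 (hle _ (B.algebraMap_mem t))

/-- `ψ` preserves `B_p` if it preserves `B` and `p` (both ways). -/
theorem phi_mem_locAt_iff {B : Subalgebra R F} {p : Ideal B} [hp : p.IsPrime] (ψ : F ≃+* F)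
    (hψB : ∀ b : F, b ∈ B → ψ b ∈ B) (hψB' : ∀ b : F, ψ b ∈ B → b ∈ B)
    (hmap : ∀ b : B, restrictHom ψ B hψB b ∈ p ↔ b ∈ p) (z : F) :
    ψ z ∈ locAt B p ↔ z ∈ locAt B p := by
  constructor
  · rintro ⟨s, hs, hsz⟩
    have hs'B : ψ.symm (s : F) ∈ B := hψB' _ (by rw [ψ.apply_symm_apply]; exact s.2)
    refine ⟨⟨ψ.symm s, hs'B⟩, ?_, ?_⟩
    · intro h
      apply hs
      have := (hmap ⟨ψ.symm s, hs'B⟩).2 h
      have e : restrictHom ψ B hψB ⟨ψ.symm s, hs'B⟩ = s :=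
        Subtype.ext (by simp)
      rwa [e] at this
    · apply hψB'
      show ψ (ψ.symm (s : F) * z) ∈ B
      rw [map_mul, ψ.apply_symm_apply]
      exact hsz
  · rintro ⟨s, hs, hsz⟩
    refine ⟨restrictHom ψ B hψB s, fun h => hs ((hmap s).1 h), ?_⟩
    rw [coe_restrictHom, ← map_mul]
    exact hψB _ hsz

end Phi

section Final

variable {R E F : Type*} [CommRing R] [IsDomain R] [IsDiscreteValuationRing R]
  [Field E] [CharZero E] [Algebra R E] [IsFractionRing R E]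
  [Field F] [Algebra E F] [Algebra R F] [IsScalarTower R E F]

/-- `ψ` preserves (both ways) a component of a chart which is cut out by a `ψ`-stable valuation
ring. -/
theorem restrictHom_mem_iff_of_cut (w : R) (x : F) (B : Subalgebra R F) (hB : ChartCtx E w x B)
    {p p' : Ideal B} [hp : p.IsPrime] (hinf : p ⊓ p' = Ideal.span {algebraMap R B w})
    (hle' : ¬ p' ≤ p) (V : ValuationSubring F) (hle : ∀ b ∈ B, b ∈ V)
    (hcut : ∀ b : B, b ∈ p ↔ (b : F) * (algebraMap R F w)⁻¹ ∈ V)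
    (ψ : F ≃+* F) (ψR : R ≃+* R)
    (hψR : ∀ r : R, ψ (algebraMap R F r) = algebraMap R F (ψR r))
    (hψB : ∀ b : F, b ∈ B → ψ b ∈ B) (hψB' : ∀ b : F, ψ b ∈ B → b ∈ B)
    (hψV : ∀ f ∈ V, ψ f ∈ V) (b : B) : restrictHom ψ B hψB b ∈ p ↔ b ∈ p := by
  have hw0 : algebraMap R F w ≠ 0 := by
    intro h
    exact hB.hw.ne_zero (H34.algebraMap_RF_injective (R := R) (F := F) E (by rw [h, map_zero]))
  have hwp : algebraMap R B w ∈ p := by
    have : algebraMap R B w ∈ p ⊓ p' := by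
      rw [hinf]; exact Ideal.mem_span_singleton_self _
    exact this.1
  -- `ψR` and its inverse preserve the maximal ideal `(w)`
  have hmax : ∀ (e : R ≃+* R), ∃ t : R, e w = w * t := by
    intro e
    have h1 : e w ∈ IsLocalRing.maximalIdeal R := by
      rw [IsLocalRing.mem_maximalIdeal, mem_nonunits_iff]
      intro hu
      apply hB.hw.not_isUnit
      have := hu.map e.symm
      rwa [RingEquiv.symm_apply_apply] at this
    rw [hB.hw.maximalIdeal_eq, Ideal.mem_span_singleton] at h1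
    exact h1
  obtain ⟨t, ht⟩ := hmax ψR
  have hfwd : ∀ b : B, b ∈ p → restrictHom ψ B hψB b ∈ p := fun b hb =>
    restrictHom_mem_of_cut V hle hcut ψ hψB hψV t (by rw [hψR, ht, map_mul]) hw0 hb
  refine ⟨fun h => ?_, hfwd b⟩
  -- the prime `ψ(p)` contains `w` and is contained in `p`
  have hψsB : ∀ b : F, b ∈ B → ψ.symm b ∈ B := fun b hb =>
    hψB' _ (by rw [ψ.apply_symm_apply]; exact hb)
  set Q₁ : Ideal B := Ideal.comap (restrictHom ψ.symm B hψsB) p with hQ₁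
  have hQprime : Q₁.IsPrime := Ideal.comap_isPrime _ _
  have hQle : Q₁ ≤ p := by
    intro c hc
    have := hfwd _ hc
    have e : restrictHom ψ B hψB (restrictHom ψ.symm B hψsB c) = c :=
      Subtype.ext (by simp)
    rwa [e] at this
  have hwQ : algebraMap R B w ∈ Q₁ := by
    obtain ⟨t', ht'⟩ := hmax ψR.symm
    rw [hQ₁, Ideal.mem_comap]
    have e : restrictHom ψ.symm B hψsB (algebraMap R B w)
        = algebraMap R B w * algebraMap R B t' := by
      apply Subtype.ext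
      rw [coe_restrictHom]
      show ψ.symm (algebraMap R F w) = algebraMap R F w * algebraMap R F t'
      rw [RingEquiv.symm_apply_eq, map_mul, hψR, hψR, ← map_mul, ← map_mul, ← ht',
        RingEquiv.apply_symm_apply]
    rw [e]
    exact p.mul_mem_right _ hwp
  have hinfle : p ⊓ p' ≤ Q₁ := by
    rw [hinf, Ideal.span_singleton_le_iff_mem]
    exact hwQ
  have hpQ : p ≤ Q₁ := by
    rcases (Ideal.IsPrime.inf_le hQprime).1 hinfle with h' | h'
    · exact h'
    · exact absurd (h'.trans hQle) hle'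
  have := hpQ h
  rw [hQ₁, Ideal.mem_comap] at this
  have e : restrictHom ψ.symm B hψsB (restrictHom ψ B hψB b) = b := Subtype.ext (by simp)
  rwa [e] at this

end Final

section Unit

variable {R F : Type*} [CommRing R] [Field F] [Algebra R F]

/-- The frozen `G.PowV` gives `PowVU` for a function which is a unit of a valuation ring `W ⊇ V`
in which `w` is not invertible. -/
theorem powVU_of_powV {w : R} {V W : ValuationSubring F} (hVW : ∀ z : F, z ∈ V → z ∈ W)
    (hwW : (algebraMap R F w)⁻¹ ∉ W) {m : ℕ} (hm : 0 < m) {u : F} (hu0 : u ≠ 0)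
    (hui : u⁻¹ ∈ W) (h : Fermat.Agent.S35.G.PowV w V m u) : PowVU w V m u := by
  obtain ⟨g, hg, hgi, hgu⟩ := h
  refine ⟨g, ?_, hg, hgi, hgu⟩
  rintro rfl
  apply hwW
  rw [zero_pow hm.ne', sub_zero] at hgu
  have e : (algebraMap R F w)⁻¹ = u⁻¹ * (u * (algebraMap R F w)⁻¹) := by
    rw [← mul_assoc, inv_mul_cancel₀ hu0, one_mul]
  rw [e]
  exact W.mul_mem _ _ hui (hVW _ hgu)

/-- `ψ f / f` is a unit of a `ψ`-stable discrete valuation ring `W` with uniformiser `w`,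
`ψ w = w t`, `t ∈ Rˣ`. -/
theorem frobSub_one_unit {w : R} {W : ValuationSubring F} (ψ : F ≃+* F)
    (hψW : ∀ z : F, ψ z ∈ W ↔ z ∈ W) (t t' : R)
    (hψw : ψ (algebraMap R F w) = algebraMap R F w * algebraMap R F t) (htt' : t * t' = 1)
    (hRW : ∀ r : R, algebraMap R F r ∈ W) (hw0 : algebraMap R F w ≠ 0)
    (hdvr : ∀ f : F, f ≠ 0 → ∃ (k l : ℕ) (ε : F), ε ∈ W ∧ ε⁻¹ ∈ W ∧
      f * algebraMap R F w ^ k = algebraMap R F w ^ l * ε)
    {f : F} (hf : f ≠ 0) : ψ f * f⁻¹ ∈ W ∧ (ψ f * f⁻¹)⁻¹ ∈ W := by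
  obtain ⟨k, l, ε, hε, hεi, h⟩ := hdvr f hf
  have hε0 : ε ≠ 0 := by
    rintro rfl
    rw [mul_zero] at h
    exact (mul_ne_zero hf (pow_ne_zero _ hw0)) h
  have hT : algebraMap R F t * algebraMap R F t' = 1 := by rw [← map_mul, htt', map_one]
  have hT0 : algebraMap R F t ≠ 0 := left_ne_zero_of_mul_eq_one hT
  have hT'0 : algebraMap R F t' ≠ 0 := right_ne_zero_of_mul_eq_one hT
  have hTk : ∀ j : ℕ, algebraMap R F t ^ j * algebraMap R F t' ^ j = 1 := fun j => by
    rw [← mul_pow, hT, one_pow]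
  have hψ : ψ f * (algebraMap R F w * algebraMap R F t) ^ k
      = (algebraMap R F w * algebraMap R F t) ^ l * ψ ε := by
    have := congrArg ψ h
    rwa [map_mul, map_mul, map_pow, map_pow, hψw] at this
  have hψε0 : ψ ε ≠ 0 := (map_ne_zero ψ).2 hε0
  have hψf0 : ψ f ≠ 0 := (map_ne_zero ψ).2 hf
  have hc : algebraMap R F w ^ l * (algebraMap R F w * algebraMap R F t) ^ k ≠ 0 :=
    mul_ne_zero (pow_ne_zero _ hw0) (pow_ne_zero _ (mul_ne_zero hw0 hT0))
  have e1 : ψ f * f⁻¹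
      = algebraMap R F t ^ l * algebraMap R F t' ^ k * ψ ε * ε⁻¹ := by
    have key : ψ f * ε = algebraMap R F t ^ l * algebraMap R F t' ^ k * ψ ε * f := by
      apply mul_right_cancel₀ hc
      linear_combination (ε * algebraMap R F w ^ l) * hψ
        - (algebraMap R F t ^ l * algebraMap R F t' ^ k * algebraMap R F t ^ k * ψ ε
            * algebraMap R F w ^ l) * h
        - (algebraMap R F t ^ l * ψ ε * algebraMap R F w ^ (2 * l) * ε) * hTk k
    field_simp
    linear_combination key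
  have e2 : (ψ f * f⁻¹)⁻¹
      = algebraMap R F t' ^ l * algebraMap R F t ^ k * ψ ε⁻¹ * ε := by
    rw [e1, map_inv₀]
    have h1 := hTk l
    have h2 := hTk k
    field_simp
    linear_combination (-(algebraMap R F t ^ k * algebraMap R F t' ^ k)) * h1 - h2
  have hmemR : ∀ (r : R) (j : ℕ), algebraMap R F r ^ j ∈ W := fun r j => W.pow_mem (hRW r) j
  constructor
  · rw [e1]
    exact W.mul_mem _ _ (W.mul_mem _ _ (W.mul_mem _ _ (hmemR t l) (hmemR t' k))
      ((hψW ε).2 hε)) hεi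
  · rw [e2]
    exact W.mul_mem _ _ (W.mul_mem _ _ (W.mul_mem _ _ (hmemR t' l) (hmemR t k))
      ((hψW ε⁻¹).2 hεi)) hε

end Unit

section Data

variable {R E F : Type*} [CommRing R] [IsDomain R] [IsDiscreteValuationRing R]
  [Field E] [CharZero E] [Algebra R E] [IsFractionRing R E]
  [Field F] [Algebra E F] [Algebra R F] [IsScalarTower R E F]

/-- The local rings `W₁ = B_{p₁}`, `W₂ = B_{p₂}` of the two components of the finite chart, in the
setting of `G.AlgFrobStatement`: they contain `V₁`, `V₂`, satisfy `ValCtx`, are `ψ`-stable and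
are discrete valuation rings with uniformiser `w`. -/
theorem exists_locData_of_cut (w : R) (hw : Irreducible w) (x : F) (hx : Transcendental E x)
    (hfin : FiniteDimensional (IntermediateField.adjoin E ({x} : Set F)) F)
    (hconst : ∀ f : F, IsAlgebraic E f → f ∈ (algebraMap E F).range)
    (Bf : Subalgebra R F)
    (hBf : ∀ f : F, f ∈ Bf ↔ IsIntegral (Algebra.adjoin R ({x} : Set F)) f)
    (cf : A2.SSChart w Bf) (V₁ V₂ : ValuationSubring F) (hcutf : CutBy w Bf cf V₁ V₂)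
    (ψ : F ≃+* F) (ψR : R ≃+* R)
    (hψR : ∀ r : R, ψ (algebraMap R F r) = algebraMap R F (ψR r)) (hψx : ψ x = x)
    (hψV₁ : ∀ f ∈ V₁, ψ f ∈ V₁) (hψV₂ : ∀ f ∈ V₂, ψ f ∈ V₂) :
    ∃ W₁ W₂ : ValuationSubring F, ValCtx w x W₁ ∧ ValCtx w x W₂ ∧ W₁ ≠ W₂ ∧
      (∀ z : F, ψ z ∈ W₁ ↔ z ∈ W₁) ∧ (∀ z : F, ψ z ∈ W₂ ↔ z ∈ W₂) ∧
      (∀ z : F, z ∈ V₁ → z ∈ W₁) ∧ (∀ z : F, z ∈ V₂ → z ∈ W₂) ∧
      (∀ f : F, f ≠ 0 → ∃ (k l : ℕ) (ε : F), ε ∈ W₁ ∧ ε⁻¹ ∈ W₁ ∧
        f * algebraMap R F w ^ k = algebraMap R F w ^ l * ε) ∧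
      (∀ f : F, f ≠ 0 → ∃ (k l : ℕ) (ε : F), ε ∈ W₂ ∧ ε⁻¹ ∈ W₂ ∧
        f * algebraMap R F w ^ k = algebraMap R F w ^ l * ε) := by
  have hCf : ChartCtx E w x Bf := ⟨hw, hx, hfin, hconst, hBf⟩
  have hpr₁ := cf.prime₁
  have hpr₂ := cf.prime₂
  have hAB := adjoin_le_of_ctx hCf
  -- `ψ` preserves the chart
  have hψB : ∀ b : F, b ∈ Bf → ψ b ∈ Bf := fun b hb => phi_mem_chart ψ ψR hψR hψx Bf hBf hb
  have hψR' : ∀ r : R, ψ.symm (algebraMap R F r) = algebraMap R F (ψR.symm r) := by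
    intro r
    rw [RingEquiv.symm_apply_eq, hψR, RingEquiv.apply_symm_apply]
  have hψx' : ψ.symm x = x := by rw [RingEquiv.symm_apply_eq, hψx]
  have hψB' : ∀ b : F, ψ b ∈ Bf → b ∈ Bf := fun b hb => by
    have := phi_mem_chart ψ.symm ψR.symm hψR' hψx' Bf hBf hb
    rwa [RingEquiv.symm_apply_apply] at this
  -- the local rings of the two components
  let D₁ := compData₁ hCf cf
  let D₂ := compData₂ hCf cf
  let W₁ : ValuationSubring F := D₁.valuationSubring hAB
  let W₂ : ValuationSubring F := D₂.valuationSubring hAB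
  have hW₁ : ValCtx w x W₁ := valCtx_locAt w x Bf hCf D₁
  have hW₂ : ValCtx w x W₂ := valCtx_locAt w x Bf hCf D₂
  have hne : W₁ ≠ W₂ := by
    intro heq
    obtain ⟨t, ht2, ht1⟩ := SetLike.not_le_iff_exists.1 cf.not_le₂₁
    have h1 : (t : F)⁻¹ ∈ W₁ :=
      ⟨t, ht1, by rw [mul_inv_cancel₀ (coe_ne_zero_of_not_mem ht1)]; exact Bf.one_mem⟩
    rw [heq] at h1
    obtain ⟨s, hs, hst⟩ := h1
    apply hs
    have e : s = ⟨(s : F) * (t : F)⁻¹, hst⟩ * t := by
      apply Subtype.ext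
      push_cast
      rw [mul_assoc, inv_mul_cancel₀ (coe_ne_zero_of_not_mem ht1), mul_one]
    rw [e]
    exact cf.p₂.mul_mem_left _ ht2
  have hmap₁ := restrictHom_mem_iff_of_cut w x Bf hCf cf.inf_eq cf.not_le₂₁ V₁ hcutf.le₁
    hcutf.cut₁ ψ ψR hψR hψB hψB' hψV₁
  have hmap₂ := restrictHom_mem_iff_of_cut w x Bf hCf (by rw [inf_comm]; exact cf.inf_eq)
    cf.not_le₁₂ V₂ hcutf.le₂ hcutf.cut₂ ψ ψR hψR hψB hψB' hψV₂
  have hψW₁ : ∀ z : F, ψ z ∈ W₁ ↔ z ∈ W₁ := phi_mem_locAt_iff ψ hψB hψB' hmap₁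
  have hψW₂ : ∀ z : F, ψ z ∈ W₂ ↔ z ∈ W₂ := phi_mem_locAt_iff ψ hψB hψB' hmap₂
  have hV₁W₁ : ∀ z : F, z ∈ V₁ → z ∈ W₁ := le_locAt_of_cut D₁ hAB V₁ hcutf.le₁ hcutf.cut₁
  have hV₂W₂ : ∀ z : F, z ∈ V₂ → z ∈ W₂ := le_locAt_of_cut D₂ hAB V₂ hcutf.le₂ hcutf.cut₂
  exact ⟨W₁, W₂, hW₁, hW₂, hne, hψW₁, hψW₂, hV₁W₁, hV₂W₂,
    fun f hf => D₁.exists_zpow_mul hAB hf, fun f hf => D₂.exists_zpow_mul hAB hf⟩

end Data

/-- **ALG-FROB, corrected interface**: `G.AlgFrobStatement` VERBATIM with `G.PowV` replaced by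
`PowVU` (the root `g` is required to be nonzero). -/
def AlgFrobStatementU : Prop :=
  ∀ {R E F : Type} [CommRing R] [IsDomain R] [IsDiscreteValuationRing R] [HenselianLocalRing R]
    [IsAlgClosed (IsLocalRing.ResidueField R)]
    [Field E] [CharZero E] [Algebra R E] [IsFractionRing R E]
    [Field F] [Algebra E F] [Algebra R F] [IsScalarTower R E F]
    (w : R) (_ : Irreducible w) (q m Q : ℕ) (_ : q.Prime)
    (_ : (q : R) ∈ IsLocalRing.maximalIdeal R) (_ : 0 < m) (_ : ¬ q ∣ m)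
    (x : F) (_ : Transcendental E x)
    (_ : FiniteDimensional (IntermediateField.adjoin E ({x} : Set F)) F)
    (_ : ∀ f : F, IsAlgebraic E f → f ∈ (algebraMap E F).range)
    (Bf Bi : Subalgebra R F)
    (_ : ∀ f : F, f ∈ Bf ↔ IsIntegral (Algebra.adjoin R ({x} : Set F)) f)
    (_ : ∀ f : F, f ∈ Bi ↔ IsIntegral (Algebra.adjoin R ({x⁻¹} : Set F)) f)
    (cf : A2.SSChart w Bf) (ci : A2.SSChart w Bi)
    (_ : A2.SepCoord R E x Bf) (_ : A2.SepCoord R E x⁻¹ Bi)
    (V₁ V₂ : ValuationSubring F) (_ : CutBy w Bf cf V₁ V₂) (_ : CutBy w Bi ci V₁ V₂)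
    (ψ : F ≃+* F) (ψE : E ≃+* E) (ψR : R ≃+* R)
    (_ : ∀ e : E, ψ (algebraMap E F e) = algebraMap E F (ψE e))
    (_ : ∀ r : R, ψE (algebraMap R E r) = algebraMap R E (ψR r))
    (_ : ψ x = x)
    (_ : ∀ r : R, ψR r - r ^ Q ∈ IsLocalRing.maximalIdeal R)
    (_ : ∀ f ∈ V₁, ψ f ∈ V₁) (_ : ∀ f ∈ V₂, ψ f ∈ V₂)
    (_ : NodeStable Bf cf ψ) (_ : NodeStable Bi ci ψ),
    ∀ h : F, h ≠ 0 → A2.DivisibleDiv E m h → PowVU w V₁ m h → PowVU w V₂ m h →
      ∃ y : F, y ≠ 0 ∧ ψ h = y ^ m * h ^ Q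

/-- **ALG-FROB from the three leaves of the A2 wall.** -/
theorem algFrobU_of_leaves (hPS : H34.PuritySmoothLeaf) (hPN : H34.PurityNodeLeaf)
    (hG : H34.GlueLeaf) : AlgFrobStatementU := by
  intro R E F _ _ _ _ _ _ _ _ _ _ _ _ _ w hw q m Q hq hqR hm hqm x hx hfin hconst Bf Bi hBf hBi
    cf ci sf si V₁ V₂ hcutf hcuti ψ ψE ψR hψE hψER hψx hfrob hψV₁ hψV₂ hnodef hnodei h hh hdiv
    hp₁ hp₂
  have hψR : ∀ r : R, ψ (algebraMap R F r) = algebraMap R F (ψR r) := by
    intro r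
    rw [IsScalarTower.algebraMap_apply R E F, hψE, hψER, ← IsScalarTower.algebraMap_apply]
  -- `Q > 0`
  have hQ : 0 < Q := by
    rcases Nat.eq_zero_or_pos Q with rfl | hQ
    · exfalso
      have := hfrob 0
      rw [map_zero, pow_zero, zero_sub] at this
      have h1 : (1 : R) ∈ IsLocalRing.maximalIdeal R := by
        have := (IsLocalRing.maximalIdeal R).neg_mem this
        rwa [neg_neg] at this
      exact (IsLocalRing.maximalIdeal.isMaximal R).ne_top ((Ideal.eq_top_iff_one _).2 h1)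
    · exact hQ
  have hfrob' : ∀ r : R, ∃ s : R, ψR r - r ^ Q = w * s := by
    intro r
    have := hfrob r
    rw [hw.maximalIdeal_eq, Ideal.mem_span_singleton] at this
    exact this
  obtain ⟨W₁, W₂, hW₁, hW₂, hne, hψW₁, hψW₂, hV₁W₁, hV₂W₂, -, -⟩ :=
    exists_locData_of_cut (E := E) w hw x hx hfin hconst Bf hBf cf V₁ V₂ hcutf ψ ψR hψR hψx
      hψV₁ hψV₂
  exact frobToricVal_of_leaves hPS hPN hG w hw q m hq hqR hm hqm x hx hfin hconst Bf Bi hBf hBi
    cf ci sf si W₁ W₂ hW₁ hW₂ hne ψ ψE ψR Q hQ hψE hψER hfrob' hψx hψW₁ hψW₂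
    (fun n hn h1 h2 b hb hb' => hnodef n hn h1 h2 b hb ⟨ψ b, hb'⟩ rfl)
    (fun n hn h1 h2 b hb hb' => hnodei n hn h1 h2 b hb ⟨ψ b, hb'⟩ rfl)
    h hh hdiv (gSplitV_of_powVU hV₁W₁ hW₁.hw hW₁.hR hp₁) (gSplitV_of_powVU hV₂W₂ hW₂.hw hW₂.hR hp₂)

/-- **ALG-FROB, second corrected interface**: `G.AlgFrobStatement` VERBATIM (with the frozen
`G.PowV`), for the functions `h = ψ u / u = G.frobSub ψ 1 u`, `u ≠ 0`. -/
def AlgFrobStatementT : Prop :=
  ∀ {R E F : Type} [CommRing R] [IsDomain R] [IsDiscreteValuationRing R] [HenselianLocalRing R]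
    [IsAlgClosed (IsLocalRing.ResidueField R)]
    [Field E] [CharZero E] [Algebra R E] [IsFractionRing R E]
    [Field F] [Algebra E F] [Algebra R F] [IsScalarTower R E F]
    (w : R) (_ : Irreducible w) (q m Q : ℕ) (_ : q.Prime)
    (_ : (q : R) ∈ IsLocalRing.maximalIdeal R) (_ : 0 < m) (_ : ¬ q ∣ m)
    (x : F) (_ : Transcendental E x)
    (_ : FiniteDimensional (IntermediateField.adjoin E ({x} : Set F)) F)
    (_ : ∀ f : F, IsAlgebraic E f → f ∈ (algebraMap E F).range)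
    (Bf Bi : Subalgebra R F)
    (_ : ∀ f : F, f ∈ Bf ↔ IsIntegral (Algebra.adjoin R ({x} : Set F)) f)
    (_ : ∀ f : F, f ∈ Bi ↔ IsIntegral (Algebra.adjoin R ({x⁻¹} : Set F)) f)
    (cf : A2.SSChart w Bf) (ci : A2.SSChart w Bi)
    (_ : A2.SepCoord R E x Bf) (_ : A2.SepCoord R E x⁻¹ Bi)
    (V₁ V₂ : ValuationSubring F) (_ : CutBy w Bf cf V₁ V₂) (_ : CutBy w Bi ci V₁ V₂)
    (ψ : F ≃+* F) (ψE : E ≃+* E) (ψR : R ≃+* R)
    (_ : ∀ e : E, ψ (algebraMap E F e) = algebraMap E F (ψE e))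
    (_ : ∀ r : R, ψE (algebraMap R E r) = algebraMap R E (ψR r))
    (_ : ψ x = x)
    (_ : ∀ r : R, ψR r - r ^ Q ∈ IsLocalRing.maximalIdeal R)
    (_ : ∀ f ∈ V₁, ψ f ∈ V₁) (_ : ∀ f ∈ V₂, ψ f ∈ V₂)
    (_ : NodeStable Bf cf ψ) (_ : NodeStable Bi ci ψ),
    ∀ u : F, u ≠ 0 → A2.DivisibleDiv E m (Fermat.Agent.S35.G.frobSub ψ 1 u) →
      Fermat.Agent.S35.G.PowV w V₁ m (Fermat.Agent.S35.G.frobSub ψ 1 u) →
      Fermat.Agent.S35.G.PowV w V₂ m (Fermat.Agent.S35.G.frobSub ψ 1 u) →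
      ∃ y : F, y ≠ 0 ∧ ψ (Fermat.Agent.S35.G.frobSub ψ 1 u)
        = y ^ m * (Fermat.Agent.S35.G.frobSub ψ 1 u) ^ Q

/-- **ALG-FROB (form T) from the three leaves of the A2 wall.** -/
theorem algFrobT_of_leaves (hPS : H34.PuritySmoothLeaf) (hPN : H34.PurityNodeLeaf)
    (hG : H34.GlueLeaf) : AlgFrobStatementT := by
  intro R E F _ _ _ _ _ _ _ _ _ _ _ _ _ w hw q m Q hq hqR hm hqm x hx hfin hconst Bf Bi hBf hBi
    cf ci sf si V₁ V₂ hcutf hcuti ψ ψE ψR hψE hψER hψx hfrob hψV₁ hψV₂ hnodef hnodei u hu hdiv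
    hp₁ hp₂
  have hψR : ∀ r : R, ψ (algebraMap R F r) = algebraMap R F (ψR r) := by
    intro r
    rw [IsScalarTower.algebraMap_apply R E F, hψE, hψER, ← IsScalarTower.algebraMap_apply]
  obtain ⟨W₁, W₂, hW₁, hW₂, hne, hψW₁, hψW₂, hV₁W₁, hV₂W₂, hd₁, hd₂⟩ :=
    exists_locData_of_cut (E := E) w hw x hx hfin hconst Bf hBf cf V₁ V₂ hcutf ψ ψR hψR hψx
      hψV₁ hψV₂
  have hw0 : algebraMap R F w ≠ 0 := by
    intro h
    exact hw.ne_zero (H34.algebraMap_RF_injective (R := R) (F := F) E (by rw [h, map_zero]))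
  -- `ψR w = w t`, `t` a unit
  have hmax : ∀ (e : R ≃+* R), ∃ t : R, e w = w * t := by
    intro e
    have h1 : e w ∈ IsLocalRing.maximalIdeal R := by
      rw [IsLocalRing.mem_maximalIdeal, mem_nonunits_iff]
      intro hu'
      apply hw.not_isUnit
      have := hu'.map e.symm
      rwa [RingEquiv.symm_apply_apply] at this
    rw [hw.maximalIdeal_eq, Ideal.mem_span_singleton] at h1
    exact h1
  obtain ⟨t, ht⟩ := hmax ψR
  obtain ⟨t₁, ht₁⟩ := hmax ψR.symm
  have htt : t * ψR t₁ = 1 := by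
    have h1 : ψR (ψR.symm w) = w := ψR.apply_symm_apply w
    rw [ht₁, map_mul, ht] at h1
    have h2 : w * (t * ψR t₁) = w * 1 := by rw [mul_one, ← mul_assoc]; exact h1
    exact mul_left_cancel₀ hw.ne_zero h2
  have hψw : ψ (algebraMap R F w) = algebraMap R F w * algebraMap R F t := by
    rw [hψR, ht, map_mul]
  have hunit₁ := frobSub_one_unit ψ hψW₁ t (ψR t₁) hψw htt hW₁.hR hw0 hd₁ hu
  have hunit₂ := frobSub_one_unit ψ hψW₂ t (ψR t₁) hψw htt hW₂.hR hw0 hd₂ hu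
  have hfs : Fermat.Agent.S35.G.frobSub ψ 1 u = ψ u * u⁻¹ := by
    unfold Fermat.Agent.S35.G.frobSub
    rw [pow_one]
  have hh0 : Fermat.Agent.S35.G.frobSub ψ 1 u ≠ 0 := by
    rw [hfs]
    exact mul_ne_zero ((map_ne_zero ψ).2 hu) (inv_ne_zero hu)
  rw [← hfs] at hunit₁ hunit₂
  exact algFrobU_of_leaves hPS hPN hG w hw q m Q hq hqR hm hqm x hx hfin hconst Bf Bi hBf hBi
    cf ci sf si V₁ V₂ hcutf hcuti ψ ψE ψR hψE hψER hψx hfrob hψV₁ hψV₂ hnodef hnodei _ hh0 hdiv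
    (powVU_of_powV hV₁W₁ hW₁.hw hm hh0 hunit₁.2 hp₁)
    (powVU_of_powV hV₂W₂ hW₂.hw hm hh0 hunit₂.2 hp₂)

end Fermat.Agent.S35.H433

end
-- ===== PACK-END S35/H433/AlgFrob.lean

-- ===== PACK-BEGIN S27/H970/Euler.lean
section



/-!
# S27 / cohomology of `O(D)` on a function-field cospan (helper970)

* `finrank_H0_ofDivisor` : `dim Ȟ⁰(O(D)) = ℓ(D)`;
* `finrank_H1_ofDivisor` : `dim Ȟ¹(O(D)) = ℓ(D) - deg D - 1 + g`;
* `euler_ofDivisor`      : `χ(O(D)) = deg D + 1 - g`   (Riemann–Roch);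
* `unitIso`              : `O ≅ O(0)`;
* `finrank_H1_unit`      : **GENUS** `dim Ȟ¹(O) = genusFF K F`;
* `degree_ofDivisor`     : `deg O(D) = deg D`.
-/

set_option autoImplicit false
set_option linter.unusedSectionVars false
set_option linter.style.haveILetI false
universe u

noncomputable section

open AlgebraicCurve

namespace Fermat.Agent.S27.H970

open Fermat.Agent.S25 Fermat.Agent.Lib.RR Fermat.Agent.Lib.RR.H638 Fermat.Agent.Lib.RR.H623

variable {K F R₀ R₁ R₀₁ : Type u} [Field K] [Field F] [Algebra K F]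
  [CommRing R₀] [CommRing R₁] [CommRing R₀₁] [Algebra K R₀] [Algebra K R₁] [Algebra K R₀₁]
  [Algebra R₀ R₀₁] [Algebra R₁ R₀₁] [IsScalarTower K R₀ R₀₁] [IsScalarTower K R₁ R₀₁]
  [Algebra R₀ F] [Algebra R₁ F] [Algebra R₀₁ F]
  [IsScalarTower R₀ R₀₁ F] [IsScalarTower R₁ R₀₁ F]
  [IsScalarTower K R₀ F] [IsScalarTower K R₁ F] [IsScalarTower K R₀₁ F]
  {x₀ : R₀} {y₁ : R₁} (h : IsFFCospan K F R₀₁ x₀ y₁)

namespace IsFFCospan

/-- The value in `F` of a section over the intersection, `K`-linear. -/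
def val₀₁ (D : Divisor K F) : (h.ofDivisor D).N₀₁ →ₗ[K] F where
  toFun f := (f : ↥(NR R₀₁ ((h.Tz : Set (Place K F)) ∪ h.Ti) h.reg₀₁ D)).1
  map_add' _ _ := rfl
  map_smul' _ _ := rfl

/-- The value in `F` of a section over the chart `0`, `K`-linear. -/
def val₀ (D : Divisor K F) : (h.ofDivisor D).N₀ →ₗ[K] F where
  toFun f := (f : ↥(NR R₀ (h.Ti : Set (Place K F)) h.reg₀ D)).1
  map_add' _ _ := rfl
  map_smul' _ _ := rfl

/-- The value in `F` of a section over the chart `1`, `K`-linear. -/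
def val₁ (D : Divisor K F) : (h.ofDivisor D).N₁ →ₗ[K] F where
  toFun f := (f : ↥(NR R₁ (h.Tz : Set (Place K F)) h.reg₁ D)).1
  map_add' _ _ := rfl
  map_smul' _ _ := rfl

theorem val₀₁_injective (D : Divisor K F) : Function.Injective (h.val₀₁ D) :=
  fun _ _ hab => Subtype.ext hab

theorem val₀_injective (D : Divisor K F) : Function.Injective (h.val₀ D) :=
  fun _ _ hab => Subtype.ext hab

theorem val₁_injective (D : Divisor K F) : Function.Injective (h.val₁ D) :=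
  fun _ _ hab => Subtype.ext hab

theorem range_val₀₁ (D : Divisor K F) :
    LinearMap.range (h.val₀₁ D) = LOff ((h.Tz : Set (Place K F)) ∪ h.Ti) D := by
  ext f
  constructor
  · rintro ⟨g, rfl⟩
    exact g.2
  · intro hf
    exact ⟨⟨f, hf⟩, rfl⟩

theorem range_val₀ (D : Divisor K F) :
    LinearMap.range (h.val₀ D) = LOff (h.Ti : Set (Place K F)) D := by
  ext f
  constructor
  · rintro ⟨g, rfl⟩
    exact g.2
  · intro hf
    exact ⟨⟨f, hf⟩, rfl⟩

theorem range_val₁ (D : Divisor K F) :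
    LinearMap.range (h.val₁ D) = LOff (h.Tz : Set (Place K F)) D := by
  ext f
  constructor
  · rintro ⟨g, rfl⟩
    exact g.2
  · intro hf
    exact ⟨⟨f, hf⟩, rfl⟩

theorem val₀₁_cech (D : Divisor K F) (s : (h.ofDivisor D).N₀ × (h.ofDivisor D).N₁) :
    h.val₀₁ D ((h.ofDivisor D).cech s) = h.val₀ D s.1 - h.val₁ D s.2 := by
  obtain ⟨s₀, s₁⟩ := s
  simp only [GlueDatum.cech, LinearMap.coprod_apply, LinearMap.neg_apply,
    LinearMap.restrictScalars_apply, map_add, map_neg]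
  rw [sub_eq_add_neg]
  rfl

/-- `Ȟ⁰(O(D)) → F`, injective with image `L(D)`. -/
def valH0 (D : Divisor K F) : (h.ofDivisor D).H0 →ₗ[K] F :=
  (h.val₀ D).comp ((LinearMap.fst K _ _).comp (h.ofDivisor D).H0.subtype)

theorem valH0_injective (D : Divisor K F) : Function.Injective (h.valH0 D) := by
  rw [← LinearMap.ker_eq_bot, LinearMap.ker_eq_bot']
  rintro ⟨⟨s₀, s₁⟩, hs⟩ h0
  have h1 : h.val₀ D s₀ = 0 := h0
  have h2 : h.val₀ D s₀ - h.val₁ D s₁ = 0 := by
    rw [← h.val₀₁_cech D (s₀, s₁)]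
    have : (h.ofDivisor D).cech (s₀, s₁) = 0 := hs
    rw [this, map_zero]
  have h3 : h.val₁ D s₁ = 0 := by rw [h1, zero_sub, neg_eq_zero] at h2; exact h2
  have e0 : s₀ = 0 := h.val₀_injective D (by rw [h1, map_zero])
  have e1 : s₁ = 0 := h.val₁_injective D (by rw [h3, map_zero])
  apply Subtype.ext
  show (s₀, s₁) = 0
  rw [e0, e1]; rfl

theorem range_valH0 (D : Divisor K F) :
    LinearMap.range (h.valH0 D) = riemannRochSpace D := by
  rw [← LOff_inf_eq h.Tz h.Ti D h.disjoint]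
  ext f
  constructor
  · rintro ⟨⟨⟨s₀, s₁⟩, hs⟩, rfl⟩
    have h2 : h.val₀ D s₀ - h.val₁ D s₁ = 0 := by
      rw [← h.val₀₁_cech D (s₀, s₁)]
      have : (h.ofDivisor D).cech (s₀, s₁) = 0 := hs
      rw [this, map_zero]
    have h3 : h.val₀ D s₀ = h.val₁ D s₁ := sub_eq_zero.mp h2
    refine ⟨?_, ?_⟩
    · exact (s₀ : ↥(NR R₀ (h.Ti : Set (Place K F)) h.reg₀ D)).2
    · show h.val₀ D s₀ ∈ _
      rw [h3]
      exact (s₁ : ↥(NR R₁ (h.Tz : Set (Place K F)) h.reg₁ D)).2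
  · rintro ⟨hf0, hf1⟩
    let s₀ : (h.ofDivisor D).N₀ := (⟨f, hf0⟩ : ↥(NR R₀ (h.Ti : Set (Place K F)) h.reg₀ D))
    let s₁ : (h.ofDivisor D).N₁ := (⟨f, hf1⟩ : ↥(NR R₁ (h.Tz : Set (Place K F)) h.reg₁ D))
    have hs : (s₀, s₁) ∈ (h.ofDivisor D).H0 := by
      rw [LinearMap.mem_ker]
      apply h.val₀₁_injective D
      rw [h.val₀₁_cech, map_zero]
      exact sub_self f
    exact ⟨⟨(s₀, s₁), hs⟩, rfl⟩

theorem finrank_H0_ofDivisor (D : Divisor K F) :
    Module.finrank K (h.ofDivisor D).H0 = ell D := by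
  rw [← LinearMap.finrank_range_of_inj (h.valH0_injective D), h.range_valH0 D]
  rfl

/-- `N₀₁ → F ⧸ (N₀ + N₁)`. -/
def valH1 (D : Divisor K F) : (h.ofDivisor D).N₀₁ →ₗ[K]
    F ⧸ (LOff (h.Ti : Set (Place K F)) D ⊔ LOff (h.Tz : Set (Place K F)) D) :=
  (LOff (h.Ti : Set (Place K F)) D ⊔ LOff (h.Tz : Set (Place K F)) D).mkQ.comp (h.val₀₁ D)

theorem ker_valH1 (D : Divisor K F) :
    LinearMap.ker (h.valH1 D) = LinearMap.range (h.ofDivisor D).cech := by
  ext g
  rw [LinearMap.mem_ker, valH1, LinearMap.comp_apply, Submodule.mkQ_apply,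
    Submodule.Quotient.mk_eq_zero, LinearMap.mem_range]
  constructor
  · intro hg
    obtain ⟨a, ha, b, hb, hab⟩ := Submodule.mem_sup.mp hg
    let s₀ : (h.ofDivisor D).N₀ := (⟨a, ha⟩ : ↥(NR R₀ (h.Ti : Set (Place K F)) h.reg₀ D))
    let s₁ : (h.ofDivisor D).N₁ :=
      (⟨-b, (LOff (h.Tz : Set (Place K F)) D).neg_mem hb⟩ :
        ↥(NR R₁ (h.Tz : Set (Place K F)) h.reg₁ D))
    refine ⟨(s₀, s₁), h.val₀₁_injective D ?_⟩
    rw [h.val₀₁_cech, ← hab]
    show a - -b = a + b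
    ring
  · rintro ⟨⟨s₀, s₁⟩, rfl⟩
    rw [h.val₀₁_cech]
    refine Submodule.sub_mem _ (Submodule.mem_sup_left ?_) (Submodule.mem_sup_right ?_)
    · exact (s₀ : ↥(NR R₀ (h.Ti : Set (Place K F)) h.reg₀ D)).2
    · exact (s₁ : ↥(NR R₁ (h.Tz : Set (Place K F)) h.reg₁ D)).2

theorem range_valH1 (D : Divisor K F) :
    LinearMap.range (h.valH1 D) = (LOff ((h.Tz : Set (Place K F)) ∪ h.Ti) D).map
      (LOff (h.Ti : Set (Place K F)) D ⊔ LOff (h.Tz : Set (Place K F)) D).mkQ := by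
  rw [valH1, LinearMap.range_comp, h.range_val₀₁]

/-- `Ȟ¹(O(D)) ≃ N₀₁ / (N₀ + N₁)` (image form). -/
def equivH1 (D : Divisor K F) :
    (h.ofDivisor D).H1 ≃ₗ[K] ↥((LOff ((h.Tz : Set (Place K F)) ∪ h.Ti) D).map
      (LOff (h.Ti : Set (Place K F)) D ⊔ LOff (h.Tz : Set (Place K F)) D).mkQ) :=
  ((Submodule.quotEquivOfEq _ _ (h.ker_valH1 D).symm).trans
    (LinearMap.quotKerEquivRange (h.valH1 D))).trans
    (LinearEquiv.ofEq _ _ (h.range_valH1 D))

theorem finite_H1_ofDivisor (D : Divisor K F) : Module.Finite K (h.ofDivisor D).H1 :=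
  haveI := h.ff1
  haveI := (finrank_twisted_cech h.Tz h.Ti D h.disjoint h.Tz_nonempty h.Ti_nonempty).1
  Module.Finite.equiv (h.equivH1 D).symm

theorem finrank_H1_ofDivisor (D : Divisor K F) :
    haveI := h.ff1
    Module.finrank K (h.ofDivisor D).H1 = specIndex D := by
  haveI := h.ff1
  rw [(h.equivH1 D).finrank_eq]
  exact (finrank_twisted_cech h.Tz h.Ti D h.disjoint h.Tz_nonempty h.Ti_nonempty).2

/-- **Riemann–Roch** for `O(D)`: `χ(O(D)) = deg D + 1 - g`. -/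
theorem euler_ofDivisor (D : Divisor K F) :
    (h.ofDivisor D).euler = Divisor.degree D + 1 - (genusFF K F : ℤ) := by
  haveI := h.ff1
  unfold GlueDatum.euler
  rw [h.finrank_H0_ofDivisor, h.finrank_H1_ofDivisor, specIndex_eq]
  ring

include h in
theorem inj₀₁ : Function.Injective (algebraMap R₀₁ F) := by
  haveI := h.away₀
  rw [injective_iff_map_eq_zero]
  intro r hr
  obtain ⟨⟨a, s⟩, hs⟩ := IsLocalization.surj (Submonoid.powers x₀) r
  have h1 : algebraMap R₀ F a = 0 := by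
    rw [IsScalarTower.algebraMap_apply R₀ R₀₁ F, ← hs, map_mul, hr, zero_mul]
  have h2 : a = 0 := h.inj₀ (by rw [h1, map_zero])
  rw [h2, map_zero] at hs
  exact (IsLocalization.map_units R₀₁ s).mul_left_eq_zero.mp hs

include h in
theorem range₀₁' (f : F)
    (hf : ∀ v : Place K F, v ∉ (h.Tz : Set (Place K F)) ∪ h.Ti → 0 ≤ v.ord f) :
    f ∈ Set.range (algebraMap R₀₁ F) := by
  haveI := h.away₀
  have hmem : f ∈ NR R₀₁ ((h.Tz : Set (Place K F)) ∪ h.Ti) h.reg₀₁ 0 := by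
    intro v hv
    right
    simpa using hf v hv
  obtain ⟨⟨g, s⟩, hgs⟩ := (h.isLocalizedModule₀ 0).surj
    (⟨f, hmem⟩ : ↥(NR R₀₁ ((h.Tz : Set (Place K F)) ∪ h.Ti) h.reg₀₁ 0))
  have h1 : algebraMap R₀ F (s : R₀) * f = (g : F) := by
    have := congrArg Subtype.val hgs
    rw [resNR_coe] at this
    rw [← this]
    exact (coe_smul_NR' h.reg₀₁ 0 (s : R₀)
      (⟨f, hmem⟩ : ↥(NR R₀₁ ((h.Tz : Set (Place K F)) ∪ h.Ti) h.reg₀₁ 0))).symm
  obtain ⟨a, ha⟩ : (g : F) ∈ Set.range (algebraMap R₀ F) := by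
    refine h.range₀' _ fun v hv => ?_
    have := g.2 v hv
    simp only [Finsupp.coe_zero, Pi.zero_apply, neg_zero] at this
    exact ord_nonneg_of_big this
  obtain ⟨u, hu⟩ := (IsLocalization.map_units R₀₁ s).exists_right_inv
  refine ⟨algebraMap R₀ R₀₁ a * u, ?_⟩
  have hs0 : algebraMap R₀ F (s : R₀) ≠ 0 := by
    obtain ⟨n, hn⟩ := s.2
    rw [← hn, map_pow]
    exact pow_ne_zero _ h.x_ne_zero
  have hu' : algebraMap R₀ F (s : R₀) * algebraMap R₀₁ F u = 1 := by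
    rw [IsScalarTower.algebraMap_apply R₀ R₀₁ F, ← map_mul, hu, map_one]
  rw [map_mul, ← IsScalarTower.algebraMap_apply R₀ R₀₁ F, ha, ← h1]
  rw [mul_right_comm, hu', one_mul]

/-- `r ↦ algebraMap r`, as a linear equivalence `R ≃ LOff T 0`. -/
def unitEquiv {R : Type u} [CommRing R] [Algebra R F] (T : Set (Place K F))
    (hT : ∀ (r : R) (v : Place K F), v ∉ T → 0 ≤ v.ord (algebraMap R F r))
    (hinj : Function.Injective (algebraMap R F))
    (hrange : ∀ f : F, (∀ v : Place K F, v ∉ T → 0 ≤ v.ord f) → f ∈ Set.range (algebraMap R F)) :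
    R ≃ₗ[R] ↥(NR R T hT (0 : Divisor K F)) :=
  LinearEquiv.ofBijective
    (LinearMap.codRestrict (NR R T hT (0 : Divisor K F)) (Algebra.linearMap R F)
      (fun r v hv => Or.inr (by simpa using hT r v hv)))
    ⟨fun a b hab => hinj (congrArg Subtype.val hab), fun f => by
      obtain ⟨r, hr⟩ := hrange f.1 (fun v hv => by
        have := f.2 v hv
        simp only [Finsupp.coe_zero, Pi.zero_apply, neg_zero] at this
        exact ord_nonneg_of_big this)
      exact ⟨r, Subtype.ext hr⟩⟩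

@[simp] theorem unitEquiv_coe {R : Type u} [CommRing R] [Algebra R F] (T : Set (Place K F))
    (hT : ∀ (r : R) (v : Place K F), v ∉ T → 0 ≤ v.ord (algebraMap R F r))
    (hinj : Function.Injective (algebraMap R F))
    (hrange : ∀ f : F, (∀ v : Place K F, v ∉ T → 0 ≤ v.ord f) → f ∈ Set.range (algebraMap R F))
    (r : R) : ((unitEquiv T hT hinj hrange r : ↥(NR R T hT (0 : Divisor K F))) : F) =
      algebraMap R F r := rfl

/-- The unit gluing datum is `O(0)`. -/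
def unitIso : GlueDatum.Iso (GlueDatum.unit K R₀ R₁ R₀₁) (h.ofDivisor 0) where
  e₀ := unitEquiv _ h.reg₀ h.inj₀ h.range₀'
  e₁ := unitEquiv _ h.reg₁ h.inj₁ h.range₁'
  e₀₁ := unitEquiv _ h.reg₀₁ h.inj₀₁ h.range₀₁'
  comm₀ := fun s => Subtype.ext
    (show algebraMap R₀₁ F (algebraMap R₀ R₀₁ s) = algebraMap R₀ F s from
      (IsScalarTower.algebraMap_apply R₀ R₀₁ F _).symm)
  comm₁ := fun s => Subtype.ext
    (show algebraMap R₀₁ F (algebraMap R₁ R₀₁ s) = algebraMap R₁ F s from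
      (IsScalarTower.algebraMap_apply R₁ R₀₁ F _).symm)

theorem unit_isIso_ofDivisor_zero :
    (GlueDatum.unit K R₀ R₁ R₀₁).IsIso (h.ofDivisor 0) := ⟨h.unitIso⟩

include h in
theorem euler_unit :
    (GlueDatum.unit K R₀ R₁ R₀₁).euler = 1 - (genusFF K F : ℤ) := by
  rw [H265.euler_eq_of_isIso h.unit_isIso_ofDivisor_zero, h.euler_ofDivisor, map_zero, zero_add]

/-- `deg O(D) = deg D`. -/
theorem degree_ofDivisor (D : Divisor K F) : (h.ofDivisor D).degree = Divisor.degree D := by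
  unfold GlueDatum.degree
  rw [h.euler_ofDivisor, h.euler_unit]
  ring

include h in
/-- **GENUS** (abstract form): `dim Ȟ¹(O) = genusFF K F`. -/
theorem finrank_H1_unit :
    Module.finrank K (GlueDatum.unit K R₀ R₁ R₀₁).H1 = genusFF K F := by
  haveI := h.ff1
  rw [(H265.isoH1 h.unitIso).finrank_eq, h.finrank_H1_ofDivisor]
  have h1 := specIndex_eq (0 : Divisor K F)
  rw [ell_zero, map_zero] at h1
  have : ((specIndex (0 : Divisor K F) : ℕ) : ℤ) = (genusFF K F : ℤ) := by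
    rw [h1]; push_cast; ring
  exact_mod_cast this

include h in
theorem finite_H1_unit : Module.Finite K (GlueDatum.unit K R₀ R₁ R₀₁).H1 :=
  haveI := h.finite_H1_ofDivisor 0
  Module.Finite.equiv (H265.isoH1 h.unitIso).symm

/-- Riemann–Roch in terms of the degree of a gluing datum isomorphic to some `O(D)`. -/
theorem euler_eq_degree_of_isIso {G : GlueDatum K R₀ R₁ R₀₁} {D : Divisor K F}
    (hG : G.IsIso (h.ofDivisor D)) : G.euler = G.degree + 1 - (genusFF K F : ℤ) := by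
  rw [H265.euler_eq_of_isIso hG, H265.degree_eq_of_isIso hG, h.euler_ofDivisor,
    h.degree_ofDivisor]

end IsFFCospan

end Fermat.Agent.S27.H970

end
end
-- ===== PACK-END S27/H970/Euler.lean

-- ===== PACK-BEGIN S37/H98/RawES.lean
section





/-!
# S37 → S29 export (helper98): the raw Eichler–Shimura statement on torsion

Row S29 (helper269) consumes from rows S37/S18 exactly `Fermat.Agent.S29.RawESStatement`
(`Fermat/Agent/S29/Parts.lean`): for `ℓ ∤ N p`, `A` over `ℓ`, inertia at `A` fixes the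
`p`-torsion of `JZero N` and every Frobenius `σ` at `A` satisfies
`σ² x - T_ℓ (σ x) + ℓ x = 0` on it.  This file derives it formally

* `rawES_of_redData`  : from reduction data `H99.RedData N A ℓ hℓ` for all `ℓ ∤ N`, `A`;
* `rawES_of_pieces`   : from the two remaining pieces of the S37 row plan
  (`Core.result_of_pieces`): [S18] `Core.InjTorsionModL` and [PR] `Core.PlaceRed`
  ([HIA] is on main: `Lib.FF398.heckeInputsAlong`).

No Hecke-module structure, no `HeckeOperatorsCommuteBar`.  The pointwise versions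
`rawES_at_of_redData`, `rawES_at_of_placeRed` hold for every `m` prime to `ℓ` (not only primes).
-/

set_option autoImplicit false
set_option synthInstance.maxHeartbeats 400000

noncomputable section

namespace Fermat.Agent.S37.H98

open ModularCurve ValuationSubring AlgebraicCurve

section Abstract

variable {G J : Type*} [Group G] [AddCommGroup J] [DistribMulAction G J]

/-- Abstract core, inertia part: a map killing `τ x - x` and injective on `m`-torsion. -/
theorem smul_eq_of_red {Y : Type*} [AddCommGroup Y] (red : J →+ Y) {m : ℕ}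
    (hinj : ∀ x : J, m • x = 0 → red x = 0 → x = 0) (τ : G)
    (hτ : ∀ x : J, red (τ • x) = red x) {x : J} (hx : (m : ℤ) • x = 0) :
    τ • x = x := by
  have h1 : (m : ℤ) • (τ • x - x) = 0 := by
    rw [zsmul_sub, ← smul_comm τ (m : ℤ) x, hx, smul_zero, sub_zero]
  rw [natCast_zsmul] at h1
  have h2 : red (τ • x - x) = 0 := by rw [map_sub, hτ x, sub_self]
  exact sub_eq_zero.mp (hinj _ h1 h2)

/-- Abstract core, Frobenius part (`T` any additive endomorphism). -/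
theorem relation_eq_zero_of_red {Y : Type*} [AddCommGroup Y] (red : J →+ Y) {m : ℕ}
    (hinj : ∀ x : J, m • x = 0 → red x = 0 → x = 0) (σ : G) (T : J →+ J) (ℓ : ℕ)
    (hσ : ∀ x : J, red (σ • σ • x - T (σ • x) + ℓ • x) = 0)
    {x : J} (hx : (m : ℤ) • x = 0) :
    σ • σ • x - T (σ • x) + (ℓ : ℤ) • x = 0 := by
  rw [natCast_zsmul]
  refine hinj _ ?_ (hσ x)
  have h0 : (m : ℤ) • (σ • x) = 0 := by
    rw [← smul_comm σ (m : ℤ) x, hx, smul_zero]
  have h1 : (m : ℤ) • (σ • σ • x) = 0 := by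
    rw [← smul_comm σ (m : ℤ) (σ • x), h0, smul_zero]
  have h2 : (m : ℤ) • T (σ • x) = 0 := by
    rw [← map_zsmul, h0, map_zero]
  have h3 : (m : ℤ) • (ℓ • x) = 0 := by
    rw [← natCast_zsmul x ℓ, smul_comm, hx, smul_zero]
  have h4 : (m : ℤ) • (σ • σ • x - T (σ • x) + ℓ • x) = 0 := by
    rw [zsmul_add, zsmul_sub, h1, h2, h3, sub_zero, add_zero]
  rwa [natCast_zsmul] at h4

end Abstract

/-- Raw Eichler–Shimura at `(ℓ, A)` on `m`-torsion (`m` prime to `ℓ`), from reduction data. -/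
theorem rawES_at_of_redData {N : ℕ} [NeZero N] {A : ValuationSubring (AlgebraicClosure ℚ)}
    {ℓ : ℕ} {hℓ : ℓ.Prime} (D : Fermat.Agent.S37.H99.RedData N A ℓ hℓ) (m : ℕ)
    (hm : m.Coprime ℓ) :
    (∀ σ ∈ A.inertiaSubgroupIn ℚ, ∀ x : JZero N, (m : ℤ) • x = 0 → σ • x = x) ∧
    (∀ σ : AlgebraicClosure ℚ ≃ₐ[ℚ] AlgebraicClosure ℚ, A.IsFrobeniusAt σ ℓ →
      ∀ x : JZero N, (m : ℤ) • x = 0 →
        σ • σ • x - heckeOperatorBar N ⟨ℓ, hℓ⟩ (σ • x) + (ℓ : ℤ) • x = 0) := by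
  have hinj : ∀ x : JZero N, m • x = 0 → D.red x = 0 → x = 0 :=
    fun x hx h0 => D.inj_torsion m x hm hx h0
  exact ⟨fun τ hτ x hx => smul_eq_of_red D.red hinj τ (D.inertia τ hτ) hx,
    fun σ hσ x hx => relation_eq_zero_of_red D.red hinj σ
      (heckeOperatorBar N ⟨ℓ, hℓ⟩).toAddMonoidHom ℓ (D.relation σ hσ) hx⟩

/-- **`RawESStatement` from reduction data** (`H99.RedData` for all `ℓ ∤ N` and all `A`). -/
theorem rawES_of_redData
    (H : ∀ (N : ℕ) [NeZero N] (ℓ : ℕ) (hℓ : ℓ.Prime), ¬ ℓ ∣ N →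
      ∀ A : ValuationSubring (AlgebraicClosure ℚ), A.LiesOverPrime ℓ →
        Nonempty (Fermat.Agent.S37.H99.RedData N A ℓ hℓ)) :
    Fermat.Agent.S29.RawESStatement := by
  intro N p _ hp ℓ hℓ hdvd A hA
  have hℓN : ¬ ℓ ∣ N := fun h => hdvd (Dvd.dvd.mul_right h p)
  have hℓp : ¬ ℓ ∣ p := fun h => hdvd (Dvd.dvd.mul_left h N)
  obtain ⟨D⟩ := H N ℓ hℓ hℓN A hA
  exact rawES_at_of_redData D p
    (Nat.coprime_comm.mp ((Nat.Prime.coprime_iff_not_dvd hℓ).mpr hℓp))

open Fermat.Agent.S37.Core in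
/-- Raw Eichler–Shimura for ONE Frobenius `σ₀` at `(ℓ, A)` on `m`-torsion (`ℓ ∤ m`), from a
`Core.PlaceRed` and the conclusion of S18. -/
theorem rawES_at_of_placeRed {N : ℕ} [NeZero N] {A : ValuationSubring (AlgebraicClosure ℚ)}
    {ℓ : ℕ} (hℓ : ℓ.Prime) {σ₀ : AlgebraicClosure ℚ ≃ₐ[ℚ] AlgebraicClosure ℚ}
    (D : haveI : NeZero ℓ := ⟨hℓ.ne_zero⟩; PlaceRed N A ℓ σ₀)
    (hS18 : InjTorsionModL N ℓ A) (m : ℕ) (hm : ¬ ℓ ∣ m) :
    (∀ σ ∈ A.inertiaSubgroupIn ℚ, ∀ x : JZero N, (m : ℤ) • x = 0 → σ • x = x) ∧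
    (∀ x : JZero N, (m : ℤ) • x = 0 →
        σ₀ • σ₀ • x - heckeOperatorBar N ⟨ℓ, hℓ⟩ (σ₀ • x) + (ℓ : ℤ) • x = 0) := by
  have : NeZero ℓ := ⟨hℓ.ne_zero⟩
  have hinj : ∀ x : JZero N, m • x = 0 → D.red x = 0 → x = 0 :=
    fun x hx h0 => D.red_inj_torsion hS18 hm hx h0
  exact ⟨fun τ hτ x hx => smul_eq_of_red D.red hinj τ (fun y => D.red_inertia hτ y) hx,
    fun x hx => relation_eq_zero_of_red D.red hinj σ₀
      (heckeOperatorBar N ⟨ℓ, hℓ⟩).toAddMonoidHom ℓ
      (fun y => D.red_relation (Fermat.Agent.Lib.FF398.heckeInputsAlong N ℓ) y) hx⟩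

open Fermat.Agent.S37.Core in
/-- **`RawESStatement` from the two open pieces of the S37 row plan**: [S18] and [PR]. -/
theorem rawES_of_pieces
    (hS18 : ∀ (N : ℕ) [NeZero N] (ℓ : ℕ), ℓ.Prime → ¬ ℓ ∣ N →
      ∀ A : ValuationSubring (AlgebraicClosure ℚ), A.LiesOverPrime ℓ → InjTorsionModL N ℓ A)
    (hPR : ∀ (N : ℕ) [NeZero N] (ℓ : ℕ) (hℓ : ℓ.Prime), ¬ ℓ ∣ N →
      ∀ A : ValuationSubring (AlgebraicClosure ℚ), A.LiesOverPrime ℓ →
        ∀ σ₀ : AlgebraicClosure ℚ ≃ₐ[ℚ] AlgebraicClosure ℚ, A.IsFrobeniusAt σ₀ ℓ →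
          haveI : NeZero ℓ := ⟨hℓ.ne_zero⟩; Nonempty (PlaceRed N A ℓ σ₀)) :
    Fermat.Agent.S29.RawESStatement := by
  intro N p _ hp ℓ hℓ hdvd A hA
  have hℓN : ¬ ℓ ∣ N := fun h => hdvd (Dvd.dvd.mul_right h p)
  have hℓp : ¬ ℓ ∣ p := fun h => hdvd (Dvd.dvd.mul_left h N)
  refine ⟨?_, fun σ hσ x hx => ?_⟩
  · obtain ⟨σ₀, hσ₀⟩ := Fermat.Agent.S37.H99.exists_isFrobeniusAt ℓ hℓ A hA
    obtain ⟨D⟩ := hPR N ℓ hℓ hℓN A hA σ₀ hσ₀
    exact (rawES_at_of_placeRed hℓ D (hS18 N ℓ hℓ hℓN A hA) p hℓp).1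
  · obtain ⟨D⟩ := hPR N ℓ hℓ hℓN A hA σ hσ
    exact (rawES_at_of_placeRed hℓ D (hS18 N ℓ hℓ hℓN A hA) p hℓp).2 x hx

end Fermat.Agent.S37.H98

end
end
-- ===== PACK-END S37/H98/RawES.lean

-- ===== PACK-BEGIN S37/H999/RawES.lean
section



/-!
# S37 → S29 bridge (helper999): the RAW Eichler–Shimura statement

`Fermat.Agent.S29.RawESStatement` (the only input the rows S29/S30/S42 take from the rows
S37/S18) follows from the FINAL interface of the S37 row, i.e. from exactly the hypothesis `H` of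
`Fermat.Agent.S37.Core.result_of_weakRedData` (for all levels `N`).  No Hecke-module structure,
no `HeckeOperatorsCommuteBar`, no `SMulCommClass` is needed.

* `rawES_at` : the statement at one `(N, p, ℓ, A)`;
* `rawES_of_weakRedData` : `RawESStatement`.

Fully proved.
-/

set_option autoImplicit false
set_option synthInstance.maxHeartbeats 400000

noncomputable section

namespace Fermat.Agent.S37.H999

open ModularCurve ValuationSubring AlgebraicCurve Fermat.Agent.S37.Core Fermat.Agent.S37.H99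

/-- additive maps preserve `m`-torsion -/
theorem nsmul_map_eq_zero {G H : Type*} [AddCommGroup G] [AddCommGroup H] (f : G →+ H) {m : ℕ}
    {x : G} (hx : m • x = 0) : m • f x = 0 := by
  rw [← map_nsmul, hx, map_zero]

/-- the composite reduction map kills nothing on prime-to-`ℓ` torsion -/
theorem eq_zero_of_red_pull_eq_zero {N M : ℕ} [NeZero N] [NeZero M]
    {A : ValuationSubring (AlgebraicClosure ℚ)} {ℓ : ℕ} [NeZero ℓ]
    {σ₀ : AlgebraicClosure ℚ ≃ₐ[ℚ] AlgebraicClosure ℚ}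
    (W : WeakRedData M A ℓ σ₀) (Pd : PullData N M ℓ) {m : ℕ} (hm : ¬ ℓ ∣ m)
    {z : JZero N} (hz : m • z = 0) (h0 : W.red (Pd.pull z) = 0) : z = 0 := by
  refine Pd.inj_torsion m hm z hz ?_
  refine W.inj_torsion m hm _ ?_ h0
  rw [← map_nsmul, hz, map_zero]

/-- inertia acts trivially on prime-to-`ℓ` torsion -/
theorem inertia_smul_eq_of_weakRedData {N M : ℕ} [NeZero N] [NeZero M]
    {A : ValuationSubring (AlgebraicClosure ℚ)} {ℓ : ℕ} [NeZero ℓ]
    {σ₀ : AlgebraicClosure ℚ ≃ₐ[ℚ] AlgebraicClosure ℚ}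
    (W : WeakRedData M A ℓ σ₀) (Pd : PullData N M ℓ) {m : ℕ} (hm : ¬ ℓ ∣ m)
    {τ : AlgebraicClosure ℚ ≃ₐ[ℚ] AlgebraicClosure ℚ} (hτ : τ ∈ A.inertiaSubgroupIn ℚ)
    {x : JZero N} (hx : m • x = 0) : τ • x = x := by
  have hz : m • (τ • x - x) = 0 := by
    have h := nsmul_map_eq_zero (DistribSMul.toAddMonoidHom (JZero N) τ - AddMonoidHom.id _) hx
    exact h
  have h0 : W.red (Pd.pull (τ • x - x)) = 0 := by
    rw [map_sub, map_sub, Pd.galois, W.inertia τ hτ, sub_self]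
  exact sub_eq_zero.mp (eq_zero_of_red_pull_eq_zero W Pd hm hz h0)

/-- the Eichler–Shimura relation on prime-to-`ℓ` torsion, for the Frobenius element `σ₀` -/
theorem frobenius_relation_of_weakRedData {N M : ℕ} [NeZero N] [NeZero M]
    {A : ValuationSubring (AlgebraicClosure ℚ)} {ℓ : ℕ} [NeZero ℓ]
    {σ₀ : AlgebraicClosure ℚ ≃ₐ[ℚ] AlgebraicClosure ℚ}
    (W : WeakRedData M A ℓ σ₀) (Pd : PullData N M ℓ) {m : ℕ} (hm : ¬ ℓ ∣ m)
    {x : JZero N} (hx : m • x = 0) :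
    σ₀ • σ₀ • x - heckeOperatorAlong (AlgebraicClosure ℚ) N ℓ (σ₀ • x) + ℓ • x = 0 := by
  refine eq_zero_of_red_pull_eq_zero W Pd hm ?_ ?_
  · have h := nsmul_map_eq_zero
      ((DistribSMul.toAddMonoidHom (JZero N) σ₀).comp (DistribSMul.toAddMonoidHom (JZero N) σ₀) -
        (heckeOperatorAlong (AlgebraicClosure ℚ) N ℓ).comp
          (DistribSMul.toAddMonoidHom (JZero N) σ₀) + ℓ • AddMonoidHom.id _) hx
    exact h
  · rw [map_add, map_sub, map_nsmul, Pd.galois, Pd.galois, Pd.hecke, Pd.galois]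
    exact W.relation (Pd.pull x)

/-- The RAW Eichler–Shimura statement at one `(N, p, ℓ, A)`, from the final interface of the
S37 row at `(N, ℓ, A)`. -/
theorem rawES_at (N p : ℕ) [NeZero N] (ℓ : ℕ) (hℓ : ℓ.Prime) (hdvd : ¬ ℓ ∣ N * p)
    (A : ValuationSubring (AlgebraicClosure ℚ)) (hA : A.LiesOverPrime ℓ)
    (H : ∀ σ₀ : AlgebraicClosure ℚ ≃ₐ[ℚ] AlgebraicClosure ℚ, A.IsFrobeniusAt σ₀ ℓ →
      haveI : NeZero ℓ := ⟨hℓ.ne_zero⟩
      ∃ (M : ℕ) (_ : NeZero M), Nonempty (WeakRedData M A ℓ σ₀) ∧ Nonempty (PullData N M ℓ)) :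
    (∀ σ ∈ A.inertiaSubgroupIn ℚ, ∀ x : JZero N, (p : ℤ) • x = 0 → σ • x = x) ∧
      (∀ σ : AlgebraicClosure ℚ ≃ₐ[ℚ] AlgebraicClosure ℚ, A.IsFrobeniusAt σ ℓ →
        ∀ x : JZero N, (p : ℤ) • x = 0 →
          σ • σ • x - heckeOperatorBar N ⟨ℓ, hℓ⟩ (σ • x) + (ℓ : ℤ) • x = 0) := by
  have : NeZero ℓ := ⟨hℓ.ne_zero⟩
  have hℓp : ¬ ℓ ∣ p := fun h => hdvd (Dvd.dvd.mul_left h N)
  constructor
  · intro τ hτ x hx
    obtain ⟨σ₀, hσ₀⟩ := exists_isFrobeniusAt ℓ hℓ A hA
    obtain ⟨M, hM, ⟨W⟩, ⟨Pd⟩⟩ := H σ₀ hσ₀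
    rw [natCast_zsmul] at hx
    exact inertia_smul_eq_of_weakRedData W Pd hℓp hτ hx
  · intro σ hσ x hx
    obtain ⟨M, hM, ⟨W⟩, ⟨Pd⟩⟩ := H σ hσ
    rw [natCast_zsmul] at hx
    rw [natCast_zsmul]
    exact frobenius_relation_of_weakRedData W Pd hℓp hx

/-- **`RawESStatement` of the S29 row from the final interface of the S37 row.** -/
theorem rawES_of_weakRedData
    (H : ∀ (N : ℕ) [NeZero N] (ℓ : ℕ) (hℓ : ℓ.Prime), ¬ ℓ ∣ N →
      ∀ A : ValuationSubring (AlgebraicClosure ℚ), A.LiesOverPrime ℓ →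
        ∀ σ₀ : AlgebraicClosure ℚ ≃ₐ[ℚ] AlgebraicClosure ℚ, A.IsFrobeniusAt σ₀ ℓ →
          haveI : NeZero ℓ := ⟨hℓ.ne_zero⟩
          ∃ (M : ℕ) (_ : NeZero M), Nonempty (WeakRedData M A ℓ σ₀) ∧
            Nonempty (PullData N M ℓ)) :
    Fermat.Agent.S29.RawESStatement := by
  intro N p _ _ ℓ hℓ hdvd A hA
  have hℓN : ¬ ℓ ∣ N := fun h => hdvd (Dvd.dvd.mul_right h p)
  exact rawES_at N p ℓ hℓ hdvd A hA (fun σ₀ hσ₀ => H N ℓ hℓ hℓN A hA σ₀ hσ₀)

end Fermat.Agent.S37.H999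

end
end
-- ===== PACK-END S37/H999/RawES.lean

-- ===== PACK-BEGIN S36/H36/Mid.lean
section
/-
S36 mid layer (helper36): `HasNewformEigenModulesNoInv` (the input of the top glue
`Fermat.Agent.S36.H36.result_of`) from

* the inputs of row S30 in the unfolded lattice form used by rows S34 / S35
  (`Fermat/Agent/S34/H789/Inputs.lean`): `hfin hsm hgeq hunr hes hlat`;
* `NewPartInertiaStatement` (the Carayol ENGINE at `q² ∥ M`): there are two Hecke-equivariant
  additive maps `a b : J₀(M) → J₀(M/q)` (the two degeneracy push-forwards) such that, for every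
  prime `p ≠ q` and every place `A` over `q`, the `I_A`-fixed part of the `p`-power torsion of
  the Galois-stable subgroup `{x | ∀ γ, a (γ x) = 0 ∧ b (γ x) = 0}` (the `q`-new part) is
  BOUNDED (killed by some `p ^ k`);
* `S35.H991.ExclTateStatement` (shared with row S35): the eigensystem of a newform of level `M`
  does not occur in the `p`-adic Tate module of `J₀(M/q)`.

The proof is helper991's S35 mid layer with the bad-Frobenius transfer replaced by the
no-invariants transfer of `NewInv.lean`.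
-/




set_option autoImplicit false

namespace Fermat.Agent.S36.H36

open TensorProduct IsLocalRing Fermat.Agent.S30.H990 Fermat.Agent.S30.H529
  Fermat.Agent.S35.H991

/-- **(N) The Carayol engine: bounded inertia invariants on the `q`-new torsion, `q² ∥ M`.** -/
def NewPartInertiaStatement : Prop :=
  ∀ (M q : ℕ) [NeZero M] [NeZero (M / q)], q.Prime → M.factorization q = 2 →
    ∃ a b : ModularCurve.JZero M →+ ModularCurve.JZero (M / q),
      (∀ ℓ : Nat.Primes, ¬ (ℓ : ℕ) ∣ M → ∀ x : ModularCurve.JZero M,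
        a (ModularCurve.heckeOperatorBar M ℓ x) = ModularCurve.heckeOperatorBar (M / q) ℓ (a x)) ∧
      (∀ ℓ : Nat.Primes, ¬ (ℓ : ℕ) ∣ M → ∀ x : ModularCurve.JZero M,
        b (ModularCurve.heckeOperatorBar M ℓ x) = ModularCurve.heckeOperatorBar (M / q) ℓ (b x)) ∧
      ∀ p : ℕ, p.Prime → p ≠ q →
        ∀ A : ValuationSubring (AlgebraicClosure ℚ), A.LiesOverPrime q →
          ∃ k : ℕ, ∀ x : ModularCurve.JZero M, (∃ n : ℕ, p ^ n • x = 0) →
            (∀ γ : GQ, a (γ • x) = 0 ∧ b (γ • x) = 0) →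
            (∀ τ ∈ A.inertiaSubgroupIn ℚ, τ • x = x) → p ^ k • x = 0

theorem dvd_of_factorization_eq_two {M q : ℕ} (h : M.factorization q = 2) : q ∣ M :=
  Nat.dvd_of_factorization_pos (by rw [h]; exact two_ne_zero)

set_option maxHeartbeats 1600000 in
/-- **The newform eigenmodules without inertia invariants from the inputs of row S30, the
engine (N) and the exclusion (X).** -/
theorem hasNewformEigenModulesNoInv_of_inputs
    (hfin : ∀ (N p : ℕ) [NeZero N], p.Prime →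
      Finite {x : ModularCurve.JZero N // (p : ℤ) • x = 0})
    (hsm : ∀ (N p : ℕ) [NeZero N], ∀ x : ModularCurve.JZero N,
      (∃ n : ℕ, ((p : ℤ) ^ n) • x = 0) →
        ∃ L : IntermediateField ℚ (AlgebraicClosure ℚ), FiniteDimensional ℚ L ∧
          ∀ σ : GQ, (∀ y ∈ L, σ y = y) → σ • x = x)
    (hgeq : ∀ (N : ℕ) [NeZero N] (ℓ : Nat.Primes) (σ : GQ) (x : ModularCurve.JZero N),
      ModularCurve.heckeOperatorBar N ℓ (σ • x) = σ • ModularCurve.heckeOperatorBar N ℓ x)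
    (hunr : ∀ (N p : ℕ) [NeZero N], ∀ q : ℕ, q.Prime → ¬ q ∣ N * p →
      ∀ A : ValuationSubring (AlgebraicClosure ℚ), A.LiesOverPrime q →
        ∀ σ ∈ A.inertiaSubgroupIn ℚ, ∀ x : ModularCurve.JZero N,
          (∃ n : ℕ, ((p : ℤ) ^ n) • x = 0) → σ • x = x)
    (hes : ∀ (N p : ℕ) [NeZero N], ∀ (ℓ : ℕ) (hℓ : ℓ.Prime), ¬ ℓ ∣ N * p →
      ∀ A : ValuationSubring (AlgebraicClosure ℚ), A.LiesOverPrime ℓ →
        ∀ σ : GQ, A.IsFrobeniusAt σ ℓ → ∀ x : ModularCurve.JZero N,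
          (∃ n : ℕ, ((p : ℤ) ^ n) • x = 0) →
            σ • σ • x - ModularCurve.heckeOperatorBar N ⟨ℓ, hℓ⟩ (σ • x) + (ℓ : ℤ) • x = 0)
    (hlat : ∀ (N p : ℕ) [NeZero N], p.Prime →
      ∃ (Λ : Type) (_ : AddCommGroup Λ) (_ : Module.Free ℤ Λ) (_ : Module.Finite ℤ Λ)
        (TΛ : Nat.Primes → Λ →ₗ[ℤ] Λ) (κ : ℕ → Λ →ₗ[ℤ] ModularCurve.JZero N),
        (∀ (n : ℕ) (x : Λ), κ n x = 0 ↔ ∃ y : Λ, x = ((p : ℤ) ^ n) • y) ∧
        (∀ (n : ℕ) (x : Λ), (p : ℤ) • κ (n + 1) x = κ n x) ∧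
        (∀ ℓ : Nat.Primes, ¬ (ℓ : ℕ) ∣ N * p → ∀ (n : ℕ) (x : Λ),
          κ n (TΛ ℓ x) = ModularCurve.heckeOperatorBar N ℓ (κ n x)) ∧
        (∀ (S : Set ℕ) (R : Type) [CommRing R] [IsDomain R] [CharZero R]
          (χ : CuspForm.heckeAlgebra N 2 S →+* R),
          ∃ v : R ⊗[ℤ] Λ, v ≠ 0 ∧
            ∀ (ℓ : ℕ) (hℓ : ℓ.Prime) (hℓN : ¬ ℓ ∣ N) (hℓS : ℓ ∉ S),
              (TΛ ⟨ℓ, hℓ⟩).baseChange R v = χ (CuspForm.heckeAlgebra.T hℓ hℓN hℓS) • v))
    (hN : NewPartInertiaStatement) (hX : ExclTateStatement) :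
    HasNewformEigenModulesNoInv := by
  classical
  intro M _ g hg p _ S O' _ _ _ _ _ _ hpO' chig hchig iota hpS hMS
  have hp : p.Prime := Fact.out
  set χ : CuspForm.heckeAlgebra M 2 (↑S : Set ℕ) →+* O' := iota.comp chig.rangeRestrict with hχ
  obtain ⟨Λ, i1, i2, i3, TΛ, κ, hκ0, hκs, hκT, hocc⟩ := hlat M p hp
  obtain ⟨v, hv, hva⟩ := hocc (↑S : Set ℕ) O' χ
  -- good primes
  have hNp : ∀ ℓ : ℕ, ℓ.Prime → ¬ ℓ ∣ M → ℓ ≠ p → ¬ ℓ ∣ M * p := by
    intro ℓ hℓ hℓN hℓp h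
    rcases (Nat.Prime.dvd_mul hℓ).1 h with h | h
    · exact hℓN h
    · exact hℓp ((Nat.prime_dvd_prime_iff_eq hℓ hp).1 h)
  have hιp : ∀ i : {ℓ : Nat.Primes // ¬ (ℓ : ℕ) ∣ M ∧ (ℓ : ℕ) ∉ (↑S : Set ℕ)},
      ((i.1 : Nat.Primes) : ℕ) ≠ p := by
    intro i h
    exact i.2.2 (by rw [h]; exact hpS)
  -- conversions between `ℤ`- and `ℕ`-torsion
  have hpow : ∀ (N : ℕ) (n : ℕ) (x : ModularCurve.JZero N),
      ((p : ℤ) ^ n) • x = p ^ n • x := by
    intro N n x
    rw [← Nat.cast_pow, natCast_zsmul]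
  -- the operators
  let T : {ℓ : Nat.Primes // ¬ (ℓ : ℕ) ∣ M ∧ (ℓ : ℕ) ∉ (↑S : Set ℕ)} →
      ModularCurve.JZero M →+ ModularCurve.JZero M :=
    fun i => (ModularCurve.heckeOperatorBar M i.1).toAddMonoidHom
  let a : {ℓ : Nat.Primes // ¬ (ℓ : ℕ) ∣ M ∧ (ℓ : ℕ) ∉ (↑S : Set ℕ)} → O' :=
    fun i => χ (CuspForm.heckeAlgebra.T i.1.2 i.2.1 i.2.2)
  have hT' : ∀ i, (T i).toIntLinearMap = ModularCurve.heckeOperatorBar M i.1 :=
    fun i => LinearMap.ext fun _ => rfl
  have hfin' : {x : ModularCurve.JZero M | p • x = 0}.Finite := by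
    have h1 : {x : ModularCurve.JZero M | (p : ℤ) • x = 0}.Finite :=
      Set.finite_coe_iff.mp (hfin M p hp)
    refine h1.subset fun x hx => ?_
    show (p : ℤ) • x = 0
    rw [natCast_zsmul]
    exact hx
  -- the Kummer sequence (as in `S30.H649.exists_adicFrobModule_of_lattice`)
  have hκzero : ∀ w : O' ⊗[ℤ] Λ, (κ 0).baseChange O' w = 0 := by
    have h0 : κ 0 = 0 := by
      apply LinearMap.ext
      intro x
      rw [LinearMap.zero_apply, hκ0 0 x]
      exact ⟨x, by rw [pow_zero, one_smul]⟩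
    intro w
    rw [h0, LinearMap.baseChange_zero, LinearMap.zero_apply]
  have hκsucc : ∀ (n : ℕ) (w : O' ⊗[ℤ] Λ),
      (p : O') • (κ (n + 1)).baseChange O' w = (κ n).baseChange O' w := by
    intro n w
    have h1 : (p : ℤ) • κ (n + 1) = κ n := LinearMap.ext fun x => hκs n x
    have h2 : ((p : ℤ) : O') • (κ (n + 1)).baseChange O' w
        = (p : ℤ) • (κ (n + 1)).baseChange O' w := Fermat.Agent.S30.H649.intCast_smul_tensor _ _
    rw [Int.cast_natCast] at h2
    rw [h2, ← LinearMap.smul_apply, ← LinearMap.baseChange_smul, h1]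
  obtain ⟨n₀, hn₀⟩ := Fermat.Agent.S30.H649.exists_baseChange_ne_zero (𝒪 := O') hpO' κ hκ0 v hv
  obtain ⟨m₀, rfl⟩ : ∃ m₀, n₀ = m₀ + 1 := by
    cases n₀ with
    | zero => exact absurd (hκzero v) hn₀
    | succ m => exact ⟨m, rfl⟩
  let seq : ℕ → O' ⊗[ℤ] ModularCurve.JZero M := fun n => (κ (n + 1)).baseChange O' v
  have hseq0 : (p : O') • seq 0 = 0 := by
    show (p : O') • (κ (0 + 1)).baseChange O' v = 0
    rw [hκsucc 0 v, hκzero v]
  have hseqs : ∀ n, (p : O') • seq (n + 1) = seq n := fun n => hκsucc (n + 1) v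
  have hseqne : seq ≠ 0 := fun h => hn₀ (congrFun h m₀)
  have hseqeig : ∀ i n, tensorOp O' T i (seq n) = a i • seq n := by
    intro i n
    show ((T i).toIntLinearMap.baseChange O') ((κ (n + 1)).baseChange O' v)
      = a i • (κ (n + 1)).baseChange O' v
    have h1 : ModularCurve.heckeOperatorBar M i.1 ∘ₗ κ (n + 1) = κ (n + 1) ∘ₗ TΛ i.1 :=
      LinearMap.ext fun x => (hκT i.1 (hNp _ i.1.2 i.2.1 (hιp i)) (n + 1) x).symm
    have hva' : (TΛ i.1).baseChange O' v = a i • v := hva i.1 i.1.2 i.2.1 i.2.2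
    rw [hT' i, ← LinearMap.comp_apply, ← LinearMap.baseChange_comp, h1,
      LinearMap.baseChange_comp, LinearMap.comp_apply, hva', map_smul]
  -- the degeneracy maps at the primes `q² ∥ M`, `q ≠ p`
  let Q : Type := {q : ℕ // q.Prime ∧ q ≠ p ∧ M.factorization q = 2}
  have hQdvd : ∀ q : Q, q.1 ∣ M := fun q => dvd_of_factorization_eq_two q.2.2.2
  have hne0 : ∀ q : Q, NeZero (M / q.1) := by
    intro q
    refine ⟨?_⟩
    have hM : M ≠ 0 := NeZero.ne M
    intro h0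
    have h1 := Nat.div_mul_cancel (hQdvd q)
    rw [h0, zero_mul] at h1
    exact hM h1.symm
  have hab : ∀ q : Q, ∃ a b : ModularCurve.JZero M →+ ModularCurve.JZero (M / q.1),
      (∀ ℓ : Nat.Primes, ¬ (ℓ : ℕ) ∣ M → ∀ x : ModularCurve.JZero M,
        a (ModularCurve.heckeOperatorBar M ℓ x)
          = @ModularCurve.heckeOperatorBar (M / q.1) (hne0 q) ℓ (a x)) ∧
      (∀ ℓ : Nat.Primes, ¬ (ℓ : ℕ) ∣ M → ∀ x : ModularCurve.JZero M,
        b (ModularCurve.heckeOperatorBar M ℓ x)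
          = @ModularCurve.heckeOperatorBar (M / q.1) (hne0 q) ℓ (b x)) ∧
      ∀ p : ℕ, p.Prime → p ≠ q.1 →
        ∀ A : ValuationSubring (AlgebraicClosure ℚ), A.LiesOverPrime q.1 →
          ∃ k : ℕ, ∀ x : ModularCurve.JZero M, (∃ n : ℕ, p ^ n • x = 0) →
            (∀ γ : GQ, a (γ • x) = 0 ∧ b (γ • x) = 0) →
            (∀ τ ∈ A.inertiaSubgroupIn ℚ, τ • x = x) → p ^ k • x = 0 :=
    fun q => @hN M q.1 _ (hne0 q) q.2.1 q.2.2.2
  choose da db hda hdb hinert using hab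
  let J' : Q × Bool → Type := fun c => ModularCurve.JZero (M / c.1.1)
  let f : ∀ c : Q × Bool, ModularCurve.JZero M →+ J' c := fun c =>
    match c with
    | (q, true) => da q
    | (q, false) => db q
  let T'' : ∀ c : Q × Bool, {ℓ : Nat.Primes // ¬ (ℓ : ℕ) ∣ M ∧ (ℓ : ℕ) ∉ (↑S : Set ℕ)} →
      J' c →+ J' c :=
    fun c i => (@ModularCurve.heckeOperatorBar (M / c.1.1) (hne0 c.1) i.1).toAddMonoidHom
  have hf : ∀ (c : Q × Bool) (i : {ℓ : Nat.Primes // ¬ (ℓ : ℕ) ∣ M ∧ (ℓ : ℕ) ∉ (↑S : Set ℕ)})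
      (x : ModularCurve.JZero M), f c (T i x) = T'' c i (f c x) := by
    rintro ⟨q, b⟩ i x
    cases b with
    | true => exact hda q i.1 i.2.1 x
    | false => exact hdb q i.1 i.2.1 x
  have hexcl : ∀ (c : Q × Bool) (z : ℕ → O' ⊗[ℤ] J' c), (p : O') • z 0 = 0 →
      (∀ n, (p : O') • z (n + 1) = z n) →
      (∀ i n, tensorOp O' (T'' c) i (z n) = a i • z n) → z = 0 := by
    intro c z hz0 hzs hzeig
    exact @hX M _ g hg c.1.1 (hne0 c.1) c.1.2.1 (hQdvd c.1) p _ S O' _ _ _ _ _ _ hpO' chig hchig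
      iota hpS hMS z hz0 hzs (fun ℓ hℓ hℓM hℓS n => hzeig ⟨⟨ℓ, hℓ⟩, hℓM, hℓS⟩ n)
  -- the eigenmodule of the new part
  obtain ⟨E, j1, j2, j3, j4, ρ, hnt, hcont, hone, hquad, hinv⟩ :=
    exists_adic_eigenmodule_new_inv (O := O') hpO' hp.ne_zero (J := ModularCurve.JZero M) T a
      (fun i γ x => hgeq M i.1 γ x) hfin'
      (fun x hx => hsm M p x (by
        obtain ⟨n, hn⟩ := hx
        exact ⟨n, by rw [hpow]; exact hn⟩))
      T'' f hf hexcl seq hseq0 hseqs hseqne hseqeig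
  refine ⟨{ M := E
            ρ := ρ
            cont := hcont
            unram := fun q hq hqN hqp P hP σ hσ =>
              hone σ fun x hx _ => hunr M p q hq (hNp q hq hqN hqp) P hP σ hσ x (by
                obtain ⟨n, hn⟩ := hx
                exact ⟨n, by rw [hpow]; exact hn⟩)
            frob := fun ℓ hℓ hℓN hℓS A hA σ hσ => by
              have hℓp : ℓ ≠ p := fun h => hℓS (Finset.mem_coe.mpr (h ▸ hpS))
              have h := hquad σ ⟨⟨ℓ, hℓ⟩, hℓN, hℓS⟩ ((ℓ : ℕ) : ℤ)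
                (fun x hx _ => hes M p ℓ hℓ (hNp ℓ hℓ hℓN hℓp) A hA σ hσ x (by
                  obtain ⟨n, hn⟩ := hx
                  exact ⟨n, by rw [hpow]; exact hn⟩))
              simpa using h }, ?_⟩
  -- no inertia invariants
  intro q hq hqp hfac A hA w hw
  obtain ⟨k, hk⟩ := hinert ⟨q, hq, hqp, hfac⟩ p hp (Ne.symm hqp) A hA
  refine hinv (A.inertiaSubgroupIn ℚ : Set GQ) k ?_ w hw
  intro x hx hnew hfix
  exact hk x hx
    (fun γ => ⟨hnew γ (⟨q, hq, hqp, hfac⟩, true), hnew γ (⟨q, hq, hqp, hfac⟩, false)⟩) hfix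

end Fermat.Agent.S36.H36

end
-- ===== PACK-END S36/H36/Mid.lean

-- ===== PACK-BEGIN S59/H240/UnipInput.lean
section





/-!
# S59 / CR-I (helper240): `UnipInput` for a semistable integral model

* `inertia_smul_sub_fixed_of_mult` : for `W : WeierstrassCurve ℤ` with `Δ ≠ 0`, a prime `ℓ ∤ c₄`,
  `ℓ ∤ m`, a place `A` of `ℚ̄` over `ℓ`, `σ τ` in the inertia group of `A` and `x ∈ E[m](ℚ̄)`:
  `τ • (σ • x - x) = σ • x - x`;
* `inertia_sub_one_sq_of_mult` : `σ • σ • x - 2 • σ • x + 1 • x = 0`;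
* `unipInput_of_semistable` : `H127.UnipInput p W` for a semistable `W` with `Δ ≠ 0`
  (the finite-level input of the field `unip` of `Arch.CurveRep`);
* `tateGaloisRep_isUnipotentOnInertiaAt_of_semistable` : the Tate module version.
-/

set_option autoImplicit false

namespace Fermat.Agent.S59.H240

open WeierstrassCurve WeierstrassCurve.Affine
open scoped WeierstrassCurve.Affine
open Fermat.Agent.S05
open Fermat.Agent.S59.H899

/-- **CR-I, finite level.**  At a prime `ℓ ∤ c₄` (good or multiplicative reduction), the inertia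
group acts unipotently on the torsion of order prime to `ℓ`: `(τ - 1)(σ - 1) = 0`. -/
theorem inertia_smul_sub_fixed_of_mult (W : WeierstrassCurve ℤ) (hΔ : W.Δ ≠ 0) {ℓ : ℕ}
    (hℓ : ℓ.Prime) (hc₄ : ¬ (ℓ : ℤ) ∣ W.c₄) {m : ℕ} (hm : ¬ ℓ ∣ m)
    (A : ValuationSubring QbarH) (hA : A.LiesOverPrime ℓ)
    (σ τ : GalQH) (hσ : σ ∈ A.inertiaSubgroupIn ℚ) (hτ : τ ∈ A.inertiaSubgroupIn ℚ)
    (x : (curveQbar W).Point) (hx : m • x = 0) : τ • (σ • x - x) = σ • x - x := by
  have hW := integralCoeffs W A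
  have hc : A.valuation (curveQbar W).c₄ = 1 := by
    rw [curveQbar_c₄]
    exact val_intCast_eq_one hA hℓ hc₄
  have hΔ' : (curveQbar W).Δ ≠ 0 := by
    rw [curveQbar_Δ]
    exact_mod_cast hΔ
  have hmv : A.valuation (m : QbarH) = 1 := val_natCast_eq_one hA hℓ hm
  exact smul_sub_fixed_of_mult (W' := (W.map (Int.castRingHom ℚ)).toAffine) (S := ℚ)
    two_ne_zero hW hc hΔ' σ τ
    (fun t ht => inertia_val_sub_lt_one hσ t ht)
    (fun t => Sq12.valuation_apply_eq_of_mem_inertiaIn A hσ t)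
    (fun t ht => inertia_val_sub_lt_one hτ t ht) (m : ℤ)
    (fun Q hQ h => C1b.eq_zero_of_inKer_of_zsmul_eq_zero hW m hmv Q hQ h) x
    (by rwa [natCast_zsmul])

/-- **CR-I, finite level**: `(σ - 1)² = 0` on the torsion of order prime to `ℓ`. -/
theorem inertia_sub_one_sq_of_mult (W : WeierstrassCurve ℤ) (hΔ : W.Δ ≠ 0) {ℓ : ℕ}
    (hℓ : ℓ.Prime) (hc₄ : ¬ (ℓ : ℤ) ∣ W.c₄) {m : ℕ} (hm : ¬ ℓ ∣ m)
    (A : ValuationSubring QbarH) (hA : A.LiesOverPrime ℓ)
    (σ : GalQH) (hσ : σ ∈ A.inertiaSubgroupIn ℚ)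
    (x : (curveQbar W).Point) (hx : m • x = 0) :
    σ • σ • x - (2 : ℤ) • σ • x + (1 : ℤ) • x = 0 := by
  have key := inertia_smul_sub_fixed_of_mult W hΔ hℓ hc₄ hm A hA σ σ hσ hσ x hx
  rw [smul_sub] at key
  have e2 : (2 : ℤ) • (σ • x) = σ • x + σ • x := by
    rw [show (2 : ℤ) = 1 + 1 from rfl, add_zsmul, one_zsmul]
  rw [one_zsmul, e2]
  have e : σ • σ • x - (σ • x + σ • x) + x = (σ • σ • x - σ • x) - (σ • x - x) := by abel
  rw [e, key, sub_self]

/-- **CR-I = `UnipInput`** for a semistable integral model with `Δ ≠ 0`. -/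
theorem unipInput_of_semistable (p : ℕ) (hp : p.Prime) (W : WeierstrassCurve ℤ) (hΔ : W.Δ ≠ 0)
    (hss : W.IsSemistableModel) : H127.UnipInput p W := by
  intro ℓ hℓ hbad hℓp A hA σ hσ n x hx
  have hc₄ : ¬ (ℓ : ℤ) ∣ W.c₄ := hss ℓ hℓ (not_not.mp hbad)
  have hm : ¬ ℓ ∣ p ^ n := fun h =>
    hℓp ((Nat.prime_dvd_prime_iff_eq hℓ hp).mp (hℓ.dvd_of_dvd_pow h))
  exact inertia_sub_one_sq_of_mult W hΔ hℓ hc₄ hm A hA σ hσ x hx

end Fermat.Agent.S59.H240

end
-- ===== PACK-END S59/H240/UnipInput.lean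

-- ===== PACK-BEGIN S59/TW/H324/CuspLocPart.lean
section




/-!
# S59 / cell TW, layer 3 (AUT), piece CUSP of MOD0 / MODQ (helper324)

`isLocPart_cuspidal` : a localisation `V` of `X_K(𝒪)` (`Aut.IsLocPart`, helper511) at an
eigen-system containing a non-Eisenstein pair `(ℓ, c)` — `ℓ ≡ 1` mod `M`, `c - (ℓ + 1) ∈ 𝒪ˣ` —
consists of cuspidal classes (`H653.IsCuspidalK`).
-/

set_option autoImplicit false

namespace Fermat.Agent.S59.TW.H324

open CongruenceSubgroup IsLocalRing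
open Fermat.Agent.S59.TW.H653 Fermat.Agent.S59.TW.Aut
open scoped MatrixGroups

variable {M : ℕ} {K : Subgroup SL(2, ℤ)}

/-- **CUSP for `Aut.IsLocPart`.** -/
theorem isLocPart_cuspidal [NeZero M] {𝒪 : Type} [CommRing 𝒪] [IsDomain 𝒪] [CharZero 𝒪]
    [IsLocalRing 𝒪] [IsNoetherianRing 𝒪] (hK : IsMid M K) {Tset Uset : Set (ℕ × 𝒪)}
    {V : Submodule 𝒪 (Additive K →+ 𝒪)} (hV : IsLocPart hK Tset Uset V)
    {ℓ : ℕ} [Fact ℓ.Prime] (hℓ : ¬ ℓ ∣ M) (h1 : (M : ℤ) ∣ (ℓ : ℤ) - 1) {c : 𝒪}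
    (hmem : (ℓ, c) ∈ Tset) (hc : IsUnit (c - ((ℓ : 𝒪) + 1))) :
    ∀ v ∈ V, IsCuspidalK v := by
  obtain ⟨e, -, he1, he2, heT, -, -, -⟩ := hV.exists_proj
  obtain ⟨m, hm⟩ := hV.nilp_T ℓ c hmem
  exact cuspidal_of_nilp hK hℓ h1 c hc V e he1 he2 (heT ℓ hℓ) m hm

/-- The same, with the congruence `ℓ ≡ 1 [MOD M]` in `ℕ`. -/
theorem isLocPart_cuspidal' [NeZero M] {𝒪 : Type} [CommRing 𝒪] [IsDomain 𝒪] [CharZero 𝒪]
    [IsLocalRing 𝒪] [IsNoetherianRing 𝒪] (hK : IsMid M K) {Tset Uset : Set (ℕ × 𝒪)}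
    {V : Submodule 𝒪 (Additive K →+ 𝒪)} (hV : IsLocPart hK Tset Uset V)
    {ℓ : ℕ} [Fact ℓ.Prime] (hℓ : ¬ ℓ ∣ M) (h1 : ℓ ≡ 1 [MOD M]) {c : 𝒪}
    (hmem : (ℓ, c) ∈ Tset) (hc : IsUnit (c - ((ℓ : 𝒪) + 1))) :
    ∀ v ∈ V, IsCuspidalK v := by
  refine isLocPart_cuspidal hK hV hℓ ?_ hmem hc
  have := (Nat.modEq_iff_dvd.mp h1.symm)
  simpa using this

end Fermat.Agent.S59.TW.H324

end
-- ===== PACK-END S59/TW/H324/CuspLocPart.lean

-- ===== PACK-BEGIN S59/TW/H658/NebOps.lean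
section


/-!
# S59 / TW-ES (helper658), leaf E5a: the nebentypus components as Hecke modules

For a Dirichlet character `χ` modulo `M`:

* `nebSub M χ : Submodule ℂ (ℍ → ℂ)` : the cuspidal functions of weight `2` with nebentypus `χ`
  on `Γ₀(M)`;
* `isNeb_famOp_repsT` : `F ↦ ∑ₓ F ∣ repsT M ℓ x` preserves the nebentypus;
* `famOp_repsT_eq` : on nebentypus `χ`, `∑ₓ F ∣ repsT M ℓ x = U_ℓ F + χ(ℓ) F ∣ diag(ℓ, 1)`;
* `nebT χ hℓ c : nebSub M χ →ₗ[ℂ] nebSub M χ`, `F ↦ c • ∑ₓ F ∣ repsT M ℓ x`;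
* `nebForm hK χ hχ : nebSub M χ →ₗ[ℂ] CuspForm K 2` if `χ` is trivial on `K`;
* `perG_nebForm_nebT` : `perG (nebForm (nebT χ hℓ (χ u) F)) = ⟨u⟩ T_ℓ (perG (nebForm F))`;
* `exists_nebForm_sum` : every `f ∈ S₂(K)` is the sum of its nebentypus components.
-/

set_option autoImplicit false
set_option linter.unusedSectionVars false

noncomputable section

namespace Fermat.Agent.S59.TW.H658

open CongruenceSubgroup ModularForm ModularCurve ModularCurve.Period
open UpperHalfPlane hiding I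
open Matrix.SpecialLinearGroup Fermat.Agent.Lib.Newform.H803
open Fermat.Agent.S41.H761 Fermat.Agent.S29.H642
open Fermat.Agent.S59.TW.H653 Fermat.Agent.S59.TW.H564
open scoped Manifold MatrixGroups ModularForm

variable {M : ℕ}

/-- Scalars pass through the slash by a matrix of positive determinant. -/
theorem smul_slash_of_det_pos {k : ℤ} (c : ℂ) (F : ℍ → ℂ) {g : GL (Fin 2) ℝ}
    (hg : 0 < ((g : GL (Fin 2) ℝ) : Matrix (Fin 2) (Fin 2) ℝ).det) :
    (c • F) ∣[k] g = c • F ∣[k] g := by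
  have hσ : UpperHalfPlane.σ g = .refl ℝ ℂ := by
    rw [UpperHalfPlane.σ, if_pos]
    rwa [← Matrix.GeneralLinearGroup.val_det_apply] at hg
  rw [ModularForm.smul_slash, hσ]
  rfl

/-- The operator `∑ₓ F ∣ repsT M ℓ x` preserves the nebentypus. -/
theorem isNeb_famOp_repsT (χ : DirichletCharacter ℂ M) {ℓ : ℕ} [Fact ℓ.Prime] (hℓ : ¬ ℓ ∣ M)
    {F : ℍ → ℂ} (hF : IsNeb 2 M (chiZ χ) F) :
    IsNeb 2 M (chiZ χ) (famOp 2 (repsT M ℓ) F) := by
  intro γ hγ
  have h₀ := repsT_system0 (M := M) hℓ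
  have key : ∀ i : OnePoint (ZMod ℓ), (F ∣[(2 : ℤ)] repsT M ℓ i) ∣[(2 : ℤ)] γ =
      chiZ χ (γ 1 1) • F ∣[(2 : ℤ)] repsT M ℓ (h₀.act i ⟨γ, hγ⟩) := by
    intro i
    have hs := h₀.spec i ⟨γ, hγ⟩
    rw [ιN_apply, ιN_apply] at hs
    have hd := dUnit_coc h₀ (isNormRep_repsT hℓ) i ⟨γ, hγ⟩
    have hc : chiZ χ (((h₀.coc i ⟨γ, hγ⟩ : Gamma0 M) : SL(2, ℤ)) 1 1) = chiZ χ (γ 1 1) := by
      rw [chiZ_of_mem, hd, ← chiZ_of_mem]
    rw [sl_slash_mapGL, ← SlashAction.slash_mul, hs, SlashAction.slash_mul, ← sl_slash_mapGL,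
      hF _ (h₀.coc i ⟨γ, hγ⟩).2, smul_slash_of_det_pos _ _ (det_repsT_pos M ℓ _), hc]
  rw [famOp, SlashAction.sum_slash]
  simp only [key]
  rw [← Finset.smul_sum]
  congr 1
  exact Equiv.sum_comp (h₀.actEquiv ⟨γ, hγ⟩) (fun j => F ∣[(2 : ℤ)] repsT M ℓ j)

theorem sum_zmod_val_eq_sum_range {A : Type*} [AddCommMonoid A] {ℓ : ℕ} [NeZero ℓ]
    (g : ℕ → A) : ∑ j : ZMod ℓ, g j.val = ∑ j ∈ Finset.range ℓ, g j := by
  rcases ℓ with _ | n
  · exact absurd rfl (NeZero.ne 0)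
  · exact Fin.sum_univ_eq_sum_range g (n + 1)

/-- On nebentypus `χ`: `∑ₓ F ∣ repsT M ℓ x = U_ℓ F + χ(ℓ) F ∣ diag(ℓ, 1)`. -/
theorem famOp_repsT_eq (χ : DirichletCharacter ℂ M) {ℓ : ℕ} [NeZero ℓ]
    (hcop : Nat.Coprime ℓ M) {F : ℍ → ℂ} (hF : IsNeb 2 M (chiZ χ) F) :
    famOp 2 (repsT M ℓ) F =
      heckeU 2 ℓ F + chiZ χ (ℓ : ℤ) • F ∣[(2 : ℤ)] heckeDiagMatrix ℓ := by
  have h1 : famOp 2 (repsT M ℓ) F = F ∣[(2 : ℤ)] repsT M ℓ OnePoint.infty +
      ∑ j : ZMod ℓ, F ∣[(2 : ℤ)] repsT M ℓ (j : OnePoint (ZMod ℓ)) := by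
    rw [famOp]
    exact Fintype.sum_option _
  have h2 : F ∣[(2 : ℤ)] repsT M ℓ OnePoint.infty =
      chiZ χ (ℓ : ℤ) • F ∣[(2 : ℤ)] heckeDiagMatrix ℓ := by
    rw [repsT_infty, SlashAction.slash_mul, ιN_apply, ← sl_slash_mapGL,
      hF _ (sigma M ℓ).2, (sigma_spec hcop).2.2.2.1,
      smul_slash_of_det_pos _ _ (by
        have := ModularForm.det_heckeDiagMatrix_pos ℓ
        rwa [Matrix.GeneralLinearGroup.val_det_apply] at this)]
  have h3 : ∑ j : ZMod ℓ, F ∣[(2 : ℤ)] repsT M ℓ (j : OnePoint (ZMod ℓ)) = heckeU 2 ℓ F := by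
    simp only [repsT_coe]
    exact sum_zmod_val_eq_sum_range (fun j => F ∣[(2 : ℤ)] heckeMatrix ℓ j)
  rw [h1, h2, h3, add_comm]

/-! ## The nebentypus components -/

/-- The cuspidal functions of weight `2` and nebentypus `χ` on `Γ₀(M)`. -/
def nebSub (M : ℕ) (χ : DirichletCharacter ℂ M) : Submodule ℂ (ℍ → ℂ) where
  carrier := {F | IsCuspidal 2 F ∧ IsNeb 2 M (chiZ χ) F}
  add_mem' := fun {F G} hF hG =>
    ⟨mem_cuspSub.mp ((cuspSub 2).add_mem (mem_cuspSub.mpr hF.1) (mem_cuspSub.mpr hG.1)),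
      fun γ hγ => by rw [SlashAction.add_slash, hF.2 γ hγ, hG.2 γ hγ, smul_add]⟩
  zero_mem' := ⟨mem_cuspSub.mp (cuspSub 2).zero_mem,
    fun γ hγ => by rw [SlashAction.zero_slash, smul_zero]⟩
  smul_mem' := fun c F hF =>
    ⟨mem_cuspSub.mp ((cuspSub 2).smul_mem c (mem_cuspSub.mpr hF.1)),
      fun γ hγ => by rw [ModularForm.SL_smul_slash, hF.2 γ hγ, smul_comm]⟩

theorem mem_nebSub {χ : DirichletCharacter ℂ M} {F : ℍ → ℂ} :
    F ∈ _root_.Fermat.Agent.S59.TW.H658.nebSub M χ ↔ IsCuspidal 2 F ∧ IsNeb 2 M (chiZ χ) F := Iff.rfl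

/-- `F ↦ c • ∑ₓ F ∣ repsT M ℓ x` on the nebentypus-`χ` component. -/
def nebT (χ : DirichletCharacter ℂ M) {ℓ : ℕ} [Fact ℓ.Prime] (hℓ : ¬ ℓ ∣ M) (c : ℂ) :
    _root_.Fermat.Agent.S59.TW.H658.nebSub M χ →ₗ[ℂ] _root_.Fermat.Agent.S59.TW.H658.nebSub M χ where
  toFun F := ⟨c • famOp 2 (repsT M ℓ) (F : ℍ → ℂ), (_root_.Fermat.Agent.S59.TW.H658.nebSub M χ).smul_mem c
    ⟨isCuspidal_famOp (isCuspidal_slash_repsT M (Fact.out : ℓ.Prime).ne_zero) F.2.1,
      isNeb_famOp_repsT χ hℓ F.2.2⟩⟩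
  map_add' F G := Subtype.ext <| by
    show c • famOp 2 (repsT M ℓ) ((F : ℍ → ℂ) + (G : ℍ → ℂ)) = _
    rw [famOp_add, smul_add]
    rfl
  map_smul' a F := Subtype.ext <| by
    show c • famOp 2 (repsT M ℓ) (a • (F : ℍ → ℂ)) = a • (c • famOp 2 (repsT M ℓ) (F : ℍ → ℂ))
    rw [famOp_smul _ (det_repsT_pos M ℓ), smul_comm]

@[simp] theorem coe_nebT (χ : DirichletCharacter ℂ M) {ℓ : ℕ} [Fact ℓ.Prime] (hℓ : ¬ ℓ ∣ M)
    (c : ℂ) (F : _root_.Fermat.Agent.S59.TW.H658.nebSub M χ) :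
    ((nebT χ hℓ c F : _root_.Fermat.Agent.S59.TW.H658.nebSub M χ) : ℍ → ℂ) = c • famOp 2 (repsT M ℓ) (F : ℍ → ℂ) := rfl

variable {K : Subgroup SL(2, ℤ)}

/-- `χ` is trivial on (the image of) `K`. -/
def TrivOn (K : Subgroup SL(2, ℤ)) (χ : DirichletCharacter ℂ M) : Prop :=
  ∀ g : Gamma0 M, (g : SL(2, ℤ)) ∈ K → χ ((dUnit M g : (ZMod M)ˣ) : ZMod M) = 1

theorem slInv_of_mem_nebSub (hK : IsMid M K) {χ : DirichletCharacter ℂ M} (hχ : _root_.Fermat.Agent.S59.TW.H658.TrivOn K χ)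
    {F : ℍ → ℂ} (hF : F ∈ _root_.Fermat.Agent.S59.TW.H658.nebSub M χ) : SlInv 2 K F := by
  intro γ hγ
  rw [hF.2 γ (hK.le hγ), chiZ_of_mem χ ⟨γ, hK.le hγ⟩, hχ ⟨γ, hK.le hγ⟩ hγ, one_smul]

variable [K.FiniteIndex]

/-- The nebentypus-`χ` component inside `S₂(K)`, for `χ` trivial on `K`. -/
def nebForm (hK : IsMid M K) (χ : DirichletCharacter ℂ M) (hχ : _root_.Fermat.Agent.S59.TW.H658.TrivOn K χ) :
    _root_.Fermat.Agent.S59.TW.H658.nebSub M χ →ₗ[ℂ] CuspForm K 2 where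
  toFun F := cuspFormOfIsCuspidal K (F : ℍ → ℂ) F.2.1 (slInv_of_mem_nebSub hK hχ F.2)
  map_add' F G := DFunLike.coe_injective <| by
    show ((F : ℍ → ℂ) + (G : ℍ → ℂ)) = _
    rw [FunLike.coe_add]
    rfl
  map_smul' a F := DFunLike.coe_injective <| by
    show (a • (F : ℍ → ℂ)) = _
    rw [RingHom.id_apply, FunLike.coe_smul]
    rfl

@[simp] theorem coe_nebForm (hK : IsMid M K) (χ : DirichletCharacter ℂ M) (hχ : _root_.Fermat.Agent.S59.TW.H658.TrivOn K χ)
    (F : _root_.Fermat.Agent.S59.TW.H658.nebSub M χ) : (⇑(nebForm hK χ hχ F) : ℍ → ℂ) = (F : ℍ → ℂ) := rfl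

/-- **E2 on the `χ`-component**: the period map intertwines `χ(u) • ∑ₓ · ∣ repsT M ℓ x` with
`⟨u⟩ ∘ T_ℓ`. -/
theorem perG_nebForm_nebT [NeZero M] (hK : IsMid M K) (χ : DirichletCharacter ℂ M)
    (hχ : _root_.Fermat.Agent.S59.TW.H658.TrivOn K χ) {ℓ : ℕ} [Fact ℓ.Prime] (hℓ : ¬ ℓ ∣ M) (u : (ZMod M)ˣ) (F : _root_.Fermat.Agent.S59.TW.H658.nebSub M χ) :
    perG (nebForm hK χ hχ (nebT χ hℓ (χ (u : ZMod M)) F)) =
      diamondU hK u (TK M K ℓ (perG (nebForm hK χ hχ F))) := by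
  rw [← perG_TForm hK hℓ, diamondU_eq hK (dUnit_sg u), ← perG_diaForm]
  congr 1
  apply DFunLike.coe_injective
  rw [coe_nebForm, coe_nebT, coe_diaForm, coe_TForm, coe_nebForm,
    isNeb_famOp_repsT χ hℓ F.2.2 _ (sg u).2, chiZ_of_mem, dUnit_sg]

/-! ## Decomposition of `S₂(K)` -/

instance instFintypeTrivOn [NeZero M] (K : Subgroup SL(2, ℤ)) :
    Fintype {χ : DirichletCharacter ℂ M // _root_.Fermat.Agent.S59.TW.H658.TrivOn K χ} := Fintype.ofFinite _

/-- Every `f ∈ S₂(K)` is the sum of its nebentypus components (only characters trivial on `K`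
occur). -/
theorem exists_nebForm_sum [NeZero M] (hK : IsMid M K) (f : CuspForm K 2) :
    ∃ w : ∀ χ : {χ : DirichletCharacter ℂ M // _root_.Fermat.Agent.S59.TW.H658.TrivOn K χ}, _root_.Fermat.Agent.S59.TW.H658.nebSub M χ.1,
      f = ∑ χ : {χ : DirichletCharacter ℂ M // _root_.Fermat.Agent.S59.TW.H658.TrivOn K χ}, nebForm hK χ.1 χ.2 (w χ) := by
  classical
  have hF : SlInv 2 K (⇑f : ℍ → ℂ) := slInv_of_cuspForm f
  have hF1 : SlInv 2 (Gamma1 M) (⇑f : ℍ → ℂ) := hF.mono hK.ge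
  have hc : IsCuspidal 2 (⇑f : ℍ → ℂ) := isCuspidal_of_cuspForm f
  refine ⟨fun χ => ⟨nebProj 2 χ.1 ⇑f, isCuspidal_nebProj χ.1 hc, isNeb_nebProj χ.1 hF1⟩, ?_⟩
  apply DFunLike.coe_injective
  have hsum : ∀ (s : Finset {χ : DirichletCharacter ℂ M // _root_.Fermat.Agent.S59.TW.H658.TrivOn K χ})
      (w : ∀ χ : {χ : DirichletCharacter ℂ M // _root_.Fermat.Agent.S59.TW.H658.TrivOn K χ}, _root_.Fermat.Agent.S59.TW.H658.nebSub M χ.1),
      (⇑(∑ χ ∈ s, nebForm hK χ.1 χ.2 (w χ)) : ℍ → ℂ) = ∑ χ ∈ s, ((w χ : _root_.Fermat.Agent.S59.TW.H658.nebSub M χ.1) : ℍ → ℂ) := by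
    intro s w
    induction s using Finset.induction_on with
    | empty => simp
    | insert a s ha ih =>
      rw [Finset.sum_insert ha, Finset.sum_insert ha, FunLike.coe_add, ih, coe_nebForm]
  rw [hsum]
  show (⇑f : ℍ → ℂ) = ∑ χ : {χ : DirichletCharacter ℂ M // _root_.Fermat.Agent.S59.TW.H658.TrivOn K χ}, nebProj 2 χ.1 ⇑f
  have h0 : ∀ χ : DirichletCharacter ℂ M, ¬ _root_.Fermat.Agent.S59.TW.H658.TrivOn K χ → nebProj 2 χ (⇑f : ℍ → ℂ) = 0 := by
    intro χ hχ
    rw [_root_.Fermat.Agent.S59.TW.H658.TrivOn] at hχ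
    push Not at hχ
    obtain ⟨g, hg, hne⟩ := hχ
    exact nebProj_eq_zero hK χ hF hg hne
  conv_lhs => rw [← sum_nebProj hF1]
  rw [← Finset.sum_subtype (Finset.univ.filter fun χ : DirichletCharacter ℂ M => _root_.Fermat.Agent.S59.TW.H658.TrivOn K χ)
    (fun χ => by simp) (fun χ => nebProj 2 χ (⇑f : ℍ → ℂ))]
  rw [Finset.sum_filter]
  refine Finset.sum_congr rfl fun χ _ => ?_
  split_ifs with h
  · rfl
  · exact h0 χ h

end Fermat.Agent.S59.TW.H658

end
end
-- ===== PACK-END S59/TW/H658/NebOps.lean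

-- ===== PACK-BEGIN S19/H979/LocalGlue.lean
section



/-!
# Cell A3 (S19) — LOCAL = DISC + GR : the frozen split and its glue  (deputy helper979)

    S19.LocalStatement   <==   AbsLocalStatement  +  GrStatement  +  RankOneStatement

* `AbsLocalStatement` (block DISC, architect helper799): the abstract LOCAL theorem
  `Fermat.Agent.A3.H799.LocalStatement K F k Fk` (for the frozen interface
  `Fermat.Agent.A3.H799.GoodRed`), used at `K = Q̄` only.
* `GrStatement` (block GR / GOODRED-INST): at a good level `N` there is a `GoodRed` datum for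
  `F = Q̄(X₀(N))` (`modularFunctionFieldBar N`) over a valuation ring `V` of `Q̄` above `ℓ`, whose
  group `I` contains the image of the inertia group of `V` under `arithmeticGalois`.
  The residue field `k` and the special fibre `Fk` are chosen by the GR block (any `Type`).
* `RankOneStatement` (pure algebra): valuation rings of `Q̄` above `ℓ` have rank one.

The glue `localStatement_of_abs_gr` is proved here without holes.
-/

set_option autoImplicit false

noncomputable section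

open AlgebraicCurve ModularCurve

namespace Fermat.Agent.S19.H979

open Fermat.Agent.S19

/-- **DISC** (abstract LOCAL theorem, constants `Q̄`): `A3.H799.LocalStatement` for every function
field over `Q̄` and every special fibre. -/
def AbsLocalStatement : Prop :=
  ∀ (F : Type) [Field F] [Algebra Qb F] (k : Type) [Field k] [IsAlgClosed k]
    (Fk : Type) [Field Fk] [Algebra k Fk], A3.H799.LocalStatement Qb F k Fk

/-- **GR** (good reduction of `X₀(N)` at a good level, in the form of the frozen `GoodRed`). -/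
def GrStatement : Prop :=
  ∀ (N : ℕ) [NeZero N] (ℓ : ℕ) [Fact ℓ.Prime], ¬ ℓ ∣ N → GoodLevel N ℓ →
    ∃ (k : Type) (_ : Field k) (_ : IsAlgClosed k) (Fk : Type) (_ : Field Fk) (_ : Algebra k Fk)
      (𝓡 : A3.H799.GoodRed Qb (modularFunctionFieldBar N) k Fk),
      (ℓ : Qb) ∈ 𝓡.V.nonunits ∧
      ∀ σ : GalQ, IsInertiaAt 𝓡.V σ → arithmeticGalois (modularFunctionFieldFull N) σ ∈ 𝓡.I

/-- **RANK ONE** (pure algebra): a valuation ring of `Q̄` above `ℓ` has rank one. -/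
def RankOneStatement : Prop :=
  ∀ (ℓ : ℕ) [Fact ℓ.Prime] (V : ValuationSubring Qb), (ℓ : Qb) ∈ V.nonunits →
    ∀ a b : Qb, a ∈ V.nonunits → b ≠ 0 → ∃ n : ℕ, a ^ n / b ∈ V

/-- The torsion of `J₀(N)` as an additive subgroup of `Pic0`. -/
def torsSubgroup (N ℓ e : ℕ) : AddSubgroup (Pic0 Qb (modularFunctionFieldBar N)) :=
  (Submodule.torsionBy ℤ (ModularCurve.JZero N) ((ℓ : ℤ) ^ e)).toAddSubgroup

/-- The identification `Tors N ℓ e ≃+ torsSubgroup N ℓ e` (identity on the carrier). -/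
def torsEquiv (N ℓ e : ℕ) : Tors N ℓ e ≃+ torsSubgroup N ℓ e where
  toFun x := ⟨(x : ModularCurve.JZero N), x.2⟩
  invFun x := ⟨(x : Pic0 Qb (modularFunctionFieldBar N)), x.2⟩
  left_inv _ := rfl
  right_inv _ := rfl
  map_add' _ _ := rfl

theorem smul_mem_torsSubgroup (N ℓ e : ℕ)
    (g : SemilinearAut Qb (modularFunctionFieldBar N))
    (x : Pic0 Qb (modularFunctionFieldBar N)) (hx : x ∈ torsSubgroup N ℓ e) :
    g • x ∈ torsSubgroup N ℓ e := by
  have h : ((ℓ : ℤ) ^ e) • x = 0 := (Submodule.mem_torsionBy_iff _ _).1 hx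
  refine (Submodule.mem_torsionBy_iff _ _).2 ?_
  have h2 := (DistribSMul.toAddMonoidHom (Pic0 Qb (modularFunctionFieldBar N)) g).map_zsmul
    ((ℓ : ℤ) ^ e) x
  rw [h, map_zero] at h2
  exact h2.symm

/-- **Glue**: LOCAL from the abstract LOCAL theorem, the good-reduction instance, and rank one. -/
theorem localStatement_of_abs_gr (hD : AbsLocalStatement) (hG : GrStatement)
    (hR : RankOneStatement) : LocalStatement := by
  intro N _ ℓ _ hℓN hgood e hfin
  obtain ⟨k, _, _, Fk, _, _, 𝓡, hℓ, hI⟩ := hG N ℓ hℓN hgood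
  have hrank := hR ℓ 𝓡.V hℓ
  have : Finite (torsSubgroup N ℓ e) := Finite.of_equiv _ (torsEquiv N ℓ e).toEquiv
  have hT : ∀ g ∈ 𝓡.I, ∀ x ∈ torsSubgroup N ℓ e, g • x ∈ torsSubgroup N ℓ e :=
    fun g _ x hx => smul_mem_torsSubgroup N ℓ e g x hx
  obtain ⟨ι, hι, Ψ, hinj, hint, heq, hadd⟩ :=
    hD (modularFunctionFieldBar N) k Fk 𝓡 hrank (torsSubgroup N ℓ e) hT
  refine ⟨{ V := 𝓡.V
            ell_mem := hℓ
            ι := ι
            fin := hι
            Ψ := fun m => Ψ (torsEquiv N ℓ e m)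
            inj := fun m m' h => (torsEquiv N ℓ e).injective (hinj h)
            integral := fun m i => hint _ i
            equivariant := ?_
            add_mem := ?_ }⟩
  · intro σ hσ m i
    exact heq (arithmeticGalois (modularFunctionFieldFull N) σ) (hI σ hσ) (torsEquiv N ℓ e m) i
  · intro i
    -- pull back along `torsEquiv × torsEquiv`
    let φ : (torsSubgroup N ℓ e × torsSubgroup N ℓ e → Qb) →ₐ[𝓡.V]
        (Tors N ℓ e × Tors N ℓ e → Qb) :=
      { toFun := fun G p => G (torsEquiv N ℓ e p.1, torsEquiv N ℓ e p.2)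
        map_one' := rfl
        map_mul' := fun _ _ => rfl
        map_zero' := rfl
        map_add' := fun _ _ => rfl
        commutes' := fun _ => rfl }
    have h1 := Subalgebra.mem_map.2 ⟨_, hadd i, (rfl : φ _ = φ _)⟩
    rw [AlgHom.map_adjoin] at h1
    have h2 : (fun p : Tors N ℓ e × Tors N ℓ e => Ψ (torsEquiv N ℓ e (p.1 + p.2)) i) =
        φ (fun p : torsSubgroup N ℓ e × torsSubgroup N ℓ e => Ψ (p.1 + p.2) i) := by
      funext p
      show Ψ (torsEquiv N ℓ e (p.1 + p.2)) i = Ψ (torsEquiv N ℓ e p.1 + torsEquiv N ℓ e p.2) i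
      rw [map_add]
    rw [h2]
    refine Algebra.adjoin_mono ?_ h1
    rintro _ ⟨g, (⟨j, rfl⟩ | ⟨j, rfl⟩), rfl⟩
    · exact Or.inl ⟨j, rfl⟩
    · exact Or.inr ⟨j, rfl⟩

end Fermat.Agent.S19.H979

end

end
-- ===== PACK-END S19/H979/LocalGlue.lean

-- ===== PACK-BEGIN S19/H679/Main.lean
section




/-!
# Cell A3 (S19), block UNR (helper679) — `UnrStatement`

Local coordinates at one place, equivariant under inertia only, give global Galois-equivariant
integral coordinates with `Z̄_(ℓ)`-polynomial addition.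

    theorem unrStatementH679 : Fermat.Agent.S19.UnrStatement
-/

set_option autoImplicit false

namespace Fermat.Agent.S19.H679

open Fermat.Agent.S54 Fermat.Agent.S55.Bridge

attribute [local instance] isAlgebraic_Qbar isGalois_Qbar

/-- Independence over a finset, transported to the subtype. -/
theorem indep_subtypeH679 {N : Type*} (F : Finset (N → Qb))
    (hind : ∀ g : (N → Qb) → Qb, ∑ f ∈ F, g f • f = 0 → ∀ f ∈ F, g f = 0)
    (g : ↥F → Qb) (hg : ∑ k : ↥F, g k • (k : N → Qb) = 0) : ∀ k, g k = 0 := by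
  classical
  intro k
  have h1 := hind (fun f => if h : f ∈ F then g ⟨f, h⟩ else 0) ?_ k.1 k.2
  · simpa using h1
  · rw [← Finset.sum_coe_sort F]
    rw [← hg]
    refine Finset.sum_congr rfl fun k _ => ?_
    simp

/-- Independence of products, for a family indexed by a finite type. -/
theorem tensor_indep_subtypeH679 {N : Type*} (F : Finset (N → Qb))
    (hind : ∀ g : (N → Qb) → Qb, ∑ f ∈ F, g f • f = 0 → ∀ f ∈ F, g f = 0)
    (c : ↥F × ↥F → Qb)
    (hc : ∀ x y : N, ∑ p : ↥F × ↥F, c p * ((p.1 : N → Qb) x * (p.2 : N → Qb) y) = 0) :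
    ∀ p, c p = 0 := by
  classical
  have hind' := indep_subtypeH679 F hind
  have h1 : ∀ (y : N) (k : ↥F), ∑ k' : ↥F, c (k, k') * (k' : N → Qb) y = 0 := by
    intro y
    apply hind' (fun k => ∑ k' : ↥F, c (k, k') * (k' : N → Qb) y)
    funext x
    rw [Finset.sum_apply, Pi.zero_apply, ← hc x y, Fintype.sum_prod_type]
    refine Finset.sum_congr rfl fun k _ => ?_
    rw [Pi.smul_apply, smul_eq_mul, Finset.sum_mul]
    refine Finset.sum_congr rfl fun k' _ => ?_
    ring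
  rintro ⟨k, k'⟩
  refine hind' (fun k' => c (k, k')) ?_ k'
  funext y
  rw [Finset.sum_apply, Pi.zero_apply, ← h1 y k]
  refine Finset.sum_congr rfl fun k' _ => ?_
  rw [Pi.smul_apply, smul_eq_mul]

variable {ℓ : ℕ} {M : Type} [AddCommGroup M] {act : GalQ → M → M}

/-- The diagonal action is an action. -/
theorem isAct2H679 (hact : IsContAddAction act) : IsActH679 (act2H679 act) :=
  ⟨fun p => Prod.ext (hact.act_one _) (hact.act_one _),
    fun σ τ p => Prod.ext (hact.act_mul _ _ _) (hact.act_mul _ _ _)⟩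

theorem star2_tensH679 (V : ValuationSubring Qb) (σ : GalQ) (g g' : M → Qb) :
    starH679 (act2H679 act) σ (tensH679 V M g g')
      = tensH679 V M (starH679 act σ g) (starH679 act σ g') := by
  funext p
  show σ (g (act σ⁻¹ p.1) * g' (act σ⁻¹ p.2)) = _
  rw [map_mul]
  rfl

theorem star2_addPullH679 (hact : IsContAddAction act) (σ : GalQ) (f : M → Qb) :
    starH679 (act2H679 act) σ (addPullH679 f) = addPullH679 (starH679 act σ f) := by
  funext p
  show σ (f (act σ⁻¹ p.1 + act σ⁻¹ p.2)) = σ (f (act σ⁻¹ (p.1 + p.2)))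
  rw [hact.act_add]

/-- **UNR**: unramified descent of local coordinates. -/
theorem unrStatementH679 : UnrStatement := by
  classical
  intro ℓ hℓfact M _ _ act hact L
  have hℓ : ℓ.Prime := hℓfact.out
  have hA := isActH679_of_cont hact
  have hspan : Submodule.span L.V (invSetH679 L) = Subalgebra.toSubmodule (HlocH679 L) :=
    le_antisymm (Submodule.span_le.2 fun h hh => hh.1) (Hloc_le_span_invH679 hℓ hact L)
  obtain ⟨Λ⟩ := exists_levelDataH679 hact L
  obtain ⟨F, hF1, hF2, hF3⟩ :=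
    exists_minimal_spanningH679 (invSetH679 L) _ (Hloc_fgH679 hact L Λ) hspan
  have hind := indep_of_minimalH679 L.V F hF3
  have hFinv : ∀ k : ↥F, ∀ σ : GalQ, starH679 act σ (k : M → Qb) = k := fun k σ =>
    (hF1 k.2).2 σ
  have hFH : ∀ k : ↥F, (k : M → Qb) ∈ HlocH679 L := fun k => (hF1 k.2).1
  have hFV : ∀ (k : ↥F) (m : M), (k : M → Qb) m ∈ L.V := fun k m =>
    Hloc_le_valuedH679 L (hFH k) m
  have hFeq : ∀ (k : ↥F) (σ : GalQ) (m : M), (k : M → Qb) (act σ m) = σ ((k : M → Qb) m) :=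
    fun k σ m => (starH679_eq_self_iff hA σ _).1 (hFinv k σ) m
  refine ⟨{ ι := ↥F
            fin := inferInstance
            Φ := fun m k => (k : M → Qb) m
            inj := ?_
            equivariant := fun σ m k => hFeq k σ m
            integral := ?_
            add_mem := ?_ }⟩
  · -- injectivity
    intro m m' h
    apply L.inj
    funext i
    have hsub : Submodule.span L.V (F : Set (M → Qb)) ≤
        LinearMap.ker ((LinearMap.proj m : (M → Qb) →ₗ[L.V] Qb) - LinearMap.proj m') := by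
      rw [Submodule.span_le]
      intro f hf
      rw [SetLike.mem_coe, LinearMap.mem_ker, LinearMap.sub_apply, sub_eq_zero]
      exact congrFun h ⟨f, hf⟩
    have h1 : psiH679 L i ∈ Submodule.span L.V (F : Set (M → Qb)) := by
      rw [hF2]
      exact psi_mem_HlocH679 hact L i
    have h2 := hsub h1
    rw [LinearMap.mem_ker, LinearMap.sub_apply, sub_eq_zero] at h2
    exact h2
  · -- integrality
    intro m k
    apply isIntegral_of_conj_memH679 L.V hℓ L.ell_mem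
    intro σ
    rw [← hFeq k σ m]
    exact hFV k _
  · -- addition
    intro k
    have h1 : addPullH679 (k : M → Qb) ∈ tensImageH679 L :=
      addPull_mem_tensImageH679 hact L (hFH k)
    rw [tensImage_eq_span_of_spanH679 L (F : Set (M → Qb)) hF2] at h1
    have hrange : Set.image2 (fun g g' => tensH679 L.V M g g') (F : Set (M → Qb))
        (F : Set (M → Qb)) = Set.range fun p : ↥F × ↥F =>
          tensH679 L.V M (p.1 : M → Qb) (p.2 : M → Qb) := by
      ext G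
      constructor
      · rintro ⟨g, hg, g', hg', rfl⟩
        exact ⟨(⟨g, hg⟩, ⟨g', hg'⟩), rfl⟩
      · rintro ⟨p, rfl⟩
        exact ⟨p.1, p.1.2, p.2, p.2.2, rfl⟩
    rw [hrange, Submodule.mem_span_range_iff_exists_fun] at h1
    obtain ⟨c, hc⟩ := h1
    -- pointwise form
    have hcpt : ∀ x y : M, ∑ p : ↥F × ↥F, (c p : Qb) * ((p.1 : M → Qb) x * (p.2 : M → Qb) y)
        = (k : M → Qb) (x + y) := by
      intro x y
      have := congrFun hc (x, y)
      rw [Finset.sum_apply] at this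
      exact this
    -- the coefficients are Galois-invariant
    have hcinv : ∀ (σ : GalQ) (p : ↥F × ↥F), σ (c p : Qb) = (c p : Qb) := by
      intro σ p
      have h2 : ∀ x y : M, ∑ p : ↥F × ↥F,
          (σ (c p : Qb) - (c p : Qb)) * ((p.1 : M → Qb) x * (p.2 : M → Qb) y) = 0 := by
        intro x y
        have h3 := congrArg σ (hcpt (act σ⁻¹ x) (act σ⁻¹ y))
        rw [map_sum, ← hact.act_add, ← hFeq k σ, hA.act_inv, ← hcpt x y] at h3
        rw [← sub_eq_zero, ← Finset.sum_sub_distrib] at h3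
        rw [← h3]
        refine Finset.sum_congr rfl fun p _ => ?_
        rw [map_mul, map_mul, ← hFeq p.1 σ, ← hFeq p.2 σ, hA.act_inv, hA.act_inv]
        ring
      have h4 := tensor_indep_subtypeH679 F hind (fun p => σ (c p : Qb) - (c p : Qb)) h2 p
      exact sub_eq_zero.1 h4
    -- hence they lie in `ℤ_(ℓ)`, in particular in `Zb`
    have hcint : ∀ p : ↥F × ↥F, IsIntegral (Rl ℓ) (c p : Qb) := by
      intro p
      obtain ⟨q, hq⟩ := mem_range_of_fixedH679 (c p : Qb) fun σ => hcinv σ p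
      have hqR : q ∈ Rl ℓ := mem_ratLocalizedAtH679 L.V hℓ L.ell_mem q (hq ▸ (c p).2)
      have : (c p : Qb) = algebraMap (Rl ℓ) Qb ⟨q, hqR⟩ := hq.symm
      rw [this]
      exact isIntegral_algebraMap
    have hfinal : (fun p : M × M => (k : M → Qb) (p.1 + p.2))
        = ∑ p : ↥F × ↥F, (⟨(c p : Qb), hcint p⟩ : Zb ℓ) •
            ((fun x : M × M => (p.1 : M → Qb) x.1) * fun x : M × M => (p.2 : M → Qb) x.2) := by
      funext x
      rw [Finset.sum_apply, ← hcpt x.1 x.2]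
      rfl
    rw [hfinal]
    refine Subalgebra.sum_mem _ fun p _ => Subalgebra.smul_mem _ (mul_mem ?_ ?_) _
    · exact Algebra.subset_adjoin (Or.inl ⟨p.1, rfl⟩)
    · exact Algebra.subset_adjoin (Or.inr ⟨p.2, rfl⟩)

end Fermat.Agent.S19.H679

end
-- ===== PACK-END S19/H679/Main.lean

-- ===== PACK-BEGIN S19/H255/NSP.lean
section



/-!
# Cell A3 / S19, piece D5 = NSP (helper255): the special fibre — corollaries of Riemann–Roch

All statements are for a function field `F/K` with `[FF1 K F]` (shared library `Lib/RR`), genus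
`g = genusFF K F`; `K` infinite where generic choices are made (e.g. `K` algebraically closed).
In cell A3 they are applied to the special fibre `Fk / kbar` (and to `F / Qbar`).

* `isRiemannGenus_genusFF`      : `genusFF` is the genus of Riemann's theorem.
* `exists_reduced_nonspecial`   : **D5(a)** for every finite set `S` of places there are `g` DISTINCT
                                  places `Q₁, …, Q_g ∉ S` with `ℓ(Q₁ + ⋯ + Q_g) = 1`.
* `exists_ne_zero_mem_L`        : **D5(b)** `deg D ≥ g ⇒ L(D) ≠ 0` (every class of degree `≥ g` is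
                                  effective); `exists_effective`: the effective divisor.
* `eq_smul_of_ell_eq_one`, `ord_eq_of_ell_eq_one` : if `ℓ(D) = 1` the effective divisor of the
                                  class of `D` is unique.
* `ell_sub_eq_degree`           : `E ≥ 0`, `deg (B - E) > 2g - 2 ⇒ ℓ(B) - ℓ(B - E) = deg E`
                                  (jets at `E` are independent conditions on `L(B)`).
* `exists_bpfPencil_avoiding`   : **D5(c)** `deg D ≥ 2g ⇒` there are `s₁, s₂ ∈ L(D)` whose residual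
                                  divisors `div sᵢ + D` are disjoint and avoid a given finite set.
* `exists_of_cross_eq`          : **D5(d)** for such a pencil, `b₁ s₂ = b₂ s₁` with `bᵢ ∈ L(E)`
                                  forces `(b₁, b₂) = h • (s₁, s₂)` with `h ∈ L(E - D)`.
* `cross_ker_line`              : hence, if `ℓ(E - D) = 1` (non-special), the solutions of the
                                  cross system form a line spanned by `(h₀ s₁, h₀ s₂)`.

All proofs complete.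
-/

set_option autoImplicit false
set_option linter.style.haveILetI false

noncomputable section

open AlgebraicCurve

namespace Fermat.Agent.S19.H255

open Fermat.Agent.Lib.RR

variable {K F : Type*} [Field K] [Field F] [Algebra K F]

/-- `genusFF` is the genus of Riemann's theorem. -/
theorem isRiemannGenus_genusFF [FF1 K F] : H638.IsRiemannGenus K F (genusFF K F) := by
  rw [genusFF_eq_genusR]
  exact exists_degree_bound (K := K) (F := F)

/-- **D5(a)**: reduced non-special effective divisors of degree `g` avoiding a finite set. -/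
theorem exists_reduced_nonspecial [FF1 K F] [Infinite K] (S : Finset (Place K F)) :
    ∃ T : Finset (Place K F), T.card = genusFF K F ∧ Disjoint T S ∧ ell (H638.divT T) = 1 := by
  haveI : Infinite (Place K F) := H638.infinite_place
  exact H638.exists_nonspecial isRiemannGenus_genusFF S (genusFF K F) le_rfl

/-- **D5(b)**: `L(D) ≠ 0` as soon as `deg D ≥ g`. -/
theorem exists_ne_zero_mem_L [FF1 K F] {D : Divisor K F}
    (hD : (genusFF K F : ℤ) ≤ Divisor.degree D) :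
    ∃ f : F, f ≠ 0 ∧ f ∈ riemannRochSpace D := by
  have h1 := riemann_inequality_genusFF (K := K) (F := F) D
  have hpos : 0 < Module.finrank K (riemannRochSpace D) := by
    have h2 : Module.finrank K (riemannRochSpace D) = ell D := rfl
    have : (0 : ℤ) < (ell D : ℤ) := by omega
    rw [h2]
    exact_mod_cast this
  obtain ⟨x, hx⟩ := Module.finrank_pos_iff_exists_ne_zero.mp hpos
  exact ⟨x, fun h => hx (Subtype.ext h), x.2⟩

/-- **D5(b)**, divisor form: every divisor of degree `≥ g` is linearly equivalent to an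
effective one. -/
theorem exists_effective [FF1 K F] {D : Divisor K F}
    (hD : (genusFF K F : ℤ) ≤ Divisor.degree D) :
    ∃ (f : F) (hf : f ≠ 0), 0 ≤ D + divOf (K := K) f hf := by
  obtain ⟨f, hf, hfD⟩ := exists_ne_zero_mem_L hD
  refine ⟨f, hf, ?_⟩
  rw [Finsupp.le_def]
  intro v
  have := (mem_L_iff.mp hfD v).resolve_left hf
  simp only [Finsupp.coe_zero, Pi.zero_apply, Finsupp.coe_add, Pi.add_apply, divOf_apply]
  omega

/-- If `ℓ(D) = 1`, any two nonzero elements of `L(D)` are proportional. -/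
theorem eq_smul_of_ell_eq_one [FF1 K F] {D : Divisor K F} (hD : ell D = 1) {f g : F}
    (hf : f ≠ 0) (hfD : f ∈ riemannRochSpace D) (hgD : g ∈ riemannRochSpace D) :
    ∃ c : K, g = algebraMap K F c * f := by
  have h1 : Module.finrank K (riemannRochSpace D) = 1 := hD
  have hf' : (⟨f, hfD⟩ : riemannRochSpace D) ≠ 0 := fun h => hf (congrArg Subtype.val h)
  obtain ⟨c, hc⟩ := (finrank_eq_one_iff_of_nonzero' (⟨f, hfD⟩ : riemannRochSpace D) hf').mp h1
    ⟨g, hgD⟩
  refine ⟨c, ?_⟩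
  have := congrArg Subtype.val hc
  simp only [Submodule.coe_smul] at this
  rw [← this, Algebra.smul_def]

/-- If `ℓ(D) = 1`, the effective divisor in the class of `D` is unique: any two nonzero elements
of `L(D)` have the same divisor. -/
theorem ord_eq_of_ell_eq_one [FF1 K F] {D : Divisor K F} (hD : ell D = 1) {f g : F}
    (hf : f ≠ 0) (hg : g ≠ 0) (hfD : f ∈ riemannRochSpace D) (hgD : g ∈ riemannRochSpace D)
    (v : Place K F) : v.ord g = v.ord f := by
  obtain ⟨c, rfl⟩ := eq_smul_of_ell_eq_one hD hf hfD hgD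
  have hc : algebraMap K F c ≠ 0 := fun h => hg (by rw [h, zero_mul])
  rw [v.ord_mul hc hf, ord_algebraMap, zero_add]

/-- Independence of conditions: for `E ≥ 0` and `deg (B - E) > 2g - 2`,
`ℓ(B) - ℓ(B - E) = deg E`. -/
theorem ell_sub_eq_degree [FF1 K F] {B E : Divisor K F} (hE : 0 ≤ E)
    (h : 2 * (genusFF K F : ℤ) - 2 < Divisor.degree (B - E)) :
    (ell B : ℤ) - ell (B - E) = Divisor.degree E := by
  have h1 := ell_eq_of_degree_gt h
  have hE' : 0 ≤ Divisor.degree E := degree_nonneg hE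
  have h2 : 2 * (genusFF K F : ℤ) - 2 < Divisor.degree B := by
    rw [map_sub] at h
    omega
  have h3 := ell_eq_of_degree_gt h2
  rw [map_sub] at h1
  omega

/-- **D5(c)**: for `deg D ≥ 2g` there is a base-point-free pencil `s₁, s₂ ∈ L(D)` (residual
divisors `div sᵢ + D` disjoint), both of whose members avoid a given finite set `S` of places
(their residual divisors do not meet `S`). -/
theorem exists_bpfPencil_avoiding [FF1 K F] [Infinite K] {D : Divisor K F}
    (hD : 2 * (genusFF K F : ℤ) ≤ Divisor.degree D) (S : Finset (Place K F)) :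
    ∃ s₁ s₂ : F, H259.IsBpfPencil D s₁ s₂ ∧ s₂ ≠ 0 ∧
      (∀ v ∈ S, v.ord s₁ = - D v) ∧ (∀ v ∈ S, v.ord s₂ = - D v) := by
  classical
  have hell : (ell D : ℤ) = Divisor.degree D + 1 - (genusFF K F : ℤ) :=
    ell_eq_of_degree_gt (by omega)
  have hpos : 0 < Module.finrank K (riemannRochSpace D) := by
    have : Module.finrank K (riemannRochSpace D) = ell D := rfl
    omega
  haveI : Nontrivial (riemannRochSpace D) := Module.finrank_pos_iff.mp hpos
  let p : Place K F → Subspace K (riemannRochSpace D) := fun v =>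
    (riemannRochSpace (D - prim v)).comap (riemannRochSpace D).subtype
  have hp : ∀ v, p v ≠ ⊤ := by
    intro v htop
    have hle : riemannRochSpace D ≤ riemannRochSpace (D - prim v) := by
      intro f hf
      have : (⟨f, hf⟩ : riemannRochSpace D) ∈ p v := by rw [htop]; trivial
      exact this
    have h1 : ell D ≤ ell (D - prim v) := Submodule.finrank_mono hle
    have h2 : (ell (D - prim v) : ℤ) = Divisor.degree D - 1 + 1 - (genusFF K F : ℤ) := by
      have := ell_eq_of_degree_gt (D := D - prim v)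
        (by rw [map_sub, degree_prim v (deg_eq_one v)]; omega)
      rw [map_sub, degree_prim v (deg_eq_one v)] at this
      exact this
    omega
  -- an element outside finitely many of the hyperplanes `p v` and nonzero
  have key : ∀ S' : Finset (Place K F), ∃ x : riemannRochSpace D, x ≠ 0 ∧ ∀ v ∈ S', x ∉ p v := by
    intro S'
    have hnot : (⊤ : Subspace K (riemannRochSpace D)) ∉ insert ⊥ (S'.image p) := by
      intro hmem
      rcases Finset.mem_insert.mp hmem with h | h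
      · exact top_ne_bot h
      · obtain ⟨v, -, hv⟩ := Finset.mem_image.mp h
        exact hp v hv
    have hne := Subspace.biUnion_ne_univ_of_top_notMem hnot
    obtain ⟨x, hx⟩ : ∃ x : riemannRochSpace D,
        x ∉ ⋃ q ∈ insert ⊥ (S'.image p), (q : Set (riemannRochSpace D)) := by
      by_contra hcon
      simp only [not_exists, not_not] at hcon
      exact hne (Set.eq_univ_of_forall hcon)
    refine ⟨x, ?_, fun v hv hm => ?_⟩
    · intro h0
      apply hx
      refine Set.mem_biUnion (Finset.mem_insert_self _ _) ?_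
      rw [h0]
      exact Submodule.zero_mem _
    · exact hx (Set.mem_biUnion (Finset.mem_insert_of_mem (Finset.mem_image_of_mem p hv)) hm)
  -- an element of `L(D)` outside `p v` has order exactly `-D v` at `v`
  have hord : ∀ (x : riemannRochSpace D) (v : Place K F), x ≠ 0 → x ∉ p v →
      v.ord (x : F) = - D v := by
    intro x v hx0 hnm
    have hx0' : (x : F) ≠ 0 := fun h => hx0 (Subtype.ext h)
    have hmem := x.2
    rw [mem_L_iff] at hmem
    have hnm' : ¬ ((x : F) ∈ riemannRochSpace (D - prim v)) := hnm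
    rw [mem_L_iff] at hnm'
    simp only [not_forall, not_or, not_le] at hnm'
    obtain ⟨w, hw0, hw⟩ := hnm'
    have hwv : w = v := by
      by_contra hne'
      have h3 := (hmem w).resolve_left hw0
      simp only [Finsupp.coe_sub, Pi.sub_apply, prim_apply_of_ne hne'] at hw
      omega
    subst hwv
    have h3 := (hmem w).resolve_left hw0
    simp only [Finsupp.coe_sub, Pi.sub_apply, prim_apply_self] at hw
    omega
  obtain ⟨s₁, hs₁0, hs₁⟩ := key S
  have hs₁F : (s₁ : F) ≠ 0 := fun h => hs₁0 (Subtype.ext h)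
  let S₁ : Finset (Place K F) := (divOf (K := K) (s₁ : F) hs₁F + D).support
  have hS₁ : ∀ v ∉ S₁, v.ord (s₁ : F) = - D v := by
    intro v hv
    rw [Finsupp.notMem_support_iff] at hv
    simp only [Finsupp.coe_add, Pi.add_apply, divOf_apply] at hv
    omega
  obtain ⟨s₂, hs₂0, hs₂⟩ := key (S ∪ S₁)
  have hs₂F : (s₂ : F) ≠ 0 := fun h => hs₂0 (Subtype.ext h)
  refine ⟨s₁, s₂, ⟨s₁.2, s₂.2, hs₁F, fun v => ?_⟩, hs₂F, ?_, ?_⟩
  · by_cases hv : v ∈ S₁
    · right
      exact ⟨hs₂F, hord s₂ v hs₂0 (hs₂ v (Finset.mem_union_right _ hv))⟩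
    · left
      exact hS₁ v hv
  · intro v hv
    exact hord s₁ v hs₁0 (hs₁ v hv)
  · intro v hv
    exact hord s₂ v hs₂0 (hs₂ v (Finset.mem_union_left _ hv))

/-- **D5(d)**: the cross system of a base-point-free pencil.  If `s₁, s₂` is a base-point-free
pencil of `L(D)` and `b₁, b₂ ∈ L(E)` satisfy `b₁ s₂ = b₂ s₁`, then `(b₁, b₂) = h • (s₁, s₂)` with
`h ∈ L(E - D)`. -/
theorem exists_of_cross_eq {D E : Divisor K F} {s₁ s₂ b₁ b₂ : F} (h : H259.IsBpfPencil D s₁ s₂)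
    (hb₁ : b₁ ∈ riemannRochSpace E) (hb₂ : b₂ ∈ riemannRochSpace E)
    (hcross : b₁ * s₂ = b₂ * s₁) :
    ∃ c ∈ riemannRochSpace (E - D), b₁ = c * s₁ ∧ b₂ = c * s₂ := by
  have hs₁ := h.ne_zero
  have e1 : b₁ = b₁ / s₁ * s₁ := by field_simp
  have e2 : b₂ = b₁ / s₁ * s₂ := by
    have : b₂ * s₁ = b₁ / s₁ * s₂ * s₁ := by
      rw [← hcross]
      field_simp
    exact mul_right_cancel₀ hs₁ this
  refine ⟨b₁ / s₁, ?_, e1, e2⟩
  rw [mem_L_iff]
  intro v
  rcases eq_or_ne (b₁ / s₁) 0 with h0 | h0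
  · exact Or.inl h0
  right
  rw [mem_L_iff] at hb₁ hb₂
  simp only [Finsupp.coe_sub, Pi.sub_apply]
  rcases h.bpf v with hv | ⟨hs₂, hv⟩
  · have hb₁0 : b₁ ≠ 0 := by
      intro hb
      apply h0
      rw [hb, zero_div]
    have h3 := (hb₁ v).resolve_left hb₁0
    rw [e1, v.ord_mul h0 hs₁, hv] at h3
    omega
  · have hb₂0 : b₂ ≠ 0 := by
      rw [e2]
      exact mul_ne_zero h0 hs₂
    have h3 := (hb₂ v).resolve_left hb₂0
    rw [e2, v.ord_mul h0 hs₂, hv] at h3
    omega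

/-- Converse of `exists_of_cross_eq`: multiples of the pencil by `L(E - D)` solve the cross
system and lie in `L(E)`. -/
theorem cross_of_mem {D E : Divisor K F} {s₁ s₂ c : F} (h : H259.IsBpfPencil D s₁ s₂)
    (hc : c ∈ riemannRochSpace (E - D)) :
    c * s₁ ∈ riemannRochSpace E ∧ c * s₂ ∈ riemannRochSpace E ∧
      (c * s₁) * s₂ = (c * s₂) * s₁ := by
  have hsub : E - D + D = E := sub_add_cancel E D
  refine ⟨?_, ?_, by ring⟩
  · have := H259.mul_le_L (E - D) D (Submodule.mul_mem_mul hc h.mem₁)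
    rwa [hsub] at this
  · have := H259.mul_le_L (E - D) D (Submodule.mul_mem_mul hc h.mem₂)
    rwa [hsub] at this

/-- **D5(d), line form**: if moreover `ℓ(E - D) = 1` and `h₀ ≠ 0` spans `L(E - D)`, every solution
of the cross system is a `K`-multiple of `(h₀ s₁, h₀ s₂)`. -/
theorem cross_ker_line [FF1 K F] {D E : Divisor K F} {s₁ s₂ b₁ b₂ h₀ : F}
    (h : H259.IsBpfPencil D s₁ s₂) (hell : ell (E - D) = 1)
    (hh₀ : h₀ ≠ 0) (hh₀E : h₀ ∈ riemannRochSpace (E - D))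
    (hb₁ : b₁ ∈ riemannRochSpace E) (hb₂ : b₂ ∈ riemannRochSpace E)
    (hcross : b₁ * s₂ = b₂ * s₁) :
    ∃ a : K, b₁ = algebraMap K F a * (h₀ * s₁) ∧ b₂ = algebraMap K F a * (h₀ * s₂) := by
  obtain ⟨c, hc, e1, e2⟩ := exists_of_cross_eq h hb₁ hb₂ hcross
  obtain ⟨a, ha⟩ := eq_smul_of_ell_eq_one hell hh₀ hh₀E hc
  refine ⟨a, ?_, ?_⟩
  · rw [e1, ha]; ring
  · rw [e2, ha]; ring

end Fermat.Agent.S19.H255

end
end
-- ===== PACK-END S19/H255/NSP.lean

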