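import Mathlib
import Fermat.Agent.Pack.S44C.G0E21L0
import Fermat.Agent.Pack.S44C.G0E23L0
import Fermat.Agent.Pack.S43MC.G0E15L0
import Fermat.Agent.Pack.S43MC.G0E20L1
import Fermat.Agent.Pack.S43MC.G0E19L3
import Fermat.Agent.Pack.S43MC.G0E15L3
import Fermat.Agent.Pack.S43GC.G0E14L2
import Fermat.Agent.Pack.S44C.G0E0L2
import Fermat.Agent.Pack.S43MC.G0E16L3
import Fermat.Agent.Pack.S44C.G0E21L1
import Fermat.Agent.Pack.S44C.G0E15L0
import Fermat.Agent.Pack.S44C.G0E11L0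
import Fermat.Agent.Pack.S44C.G0E22L1
import Fermat.Agent.Pack.S44C.G0E1L1
import Fermat.Agent.Pack.S44C.G0E3L2
import Fermat.Agent.Pack.S43MC.G0E2L3
import Fermat.Agent.Pack.S43MC.G0E20L2
import Fermat.Agent.Pack.S43MC.G0E17L1
import Fermat.Agent.Pack.S43MC.G0E20L3
import Fermat.Agent.Pack.S43MC.G0E9L3
import Fermat.Agent.Pack.S43MC.G0E20L0
import Fermat.Agent.Pack.S43MC.G0E12L1
import Fermat.Agent.Pack.S43MC.G0E14L2
import Fermat.Agent.Pack.S43MC.G0E16L2
import Fermat.Agent.Pack.S43MC.G0E14L3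
import Fermat.Agent.Pack.S44C.G0E14L2
import Fermat.Agent.Pack.S43MC.G0E10L3
import Fermat.Agent.Pack.Fast891

-- ===== PACK-BEGIN A2/H729/H348Adapter.lean
section




/-!
# A2 (helper729): the canonical Gauss ring as input of `H348.exists_pow_eq_of_local_factorisation`

`V := gaussO hw x` satisfies all the fields of `H348.GaussData` and `H348.ChartData`
(for both charts) except the two which carry information: `u ≡ 1 mod w V` and the local
factorisations.  Hence `exists_pow_eq_gaussO`: the route-S theorem with `V` eliminated.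
-/

set_option autoImplicit false
set_option linter.unusedSectionVars false
set_option linter.style.haveILetI false

namespace Fermat.Agent.A2.H729

open Polynomial Fermat.Agent.S18.H138

variable {R : Type*} [CommRing R] [IsDomain R] [IsIntegrallyClosed (Polynomial R)]
  {F : Type*} [Field F] [Algebra R F]

theorem gaussData_gaussO (hinjR : Function.Injective (algebraMap R F)) {w : R} (hw : Prime w)
    {x : F} (hx : Transcendental R x) {mi : R} {m : ℕ} (hmi : (m : R) * mi = 1) {u : F}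
    (hu : InW (gaussO hw x) w (u - 1)) : H348.GaussData w m u (gaussO hw x) where
  closed := fun _ hf => mem_gaussO_of_isIntegral hw hf
  ϖ_inv_notMem := inv_not_mem_gaussO hinjR hw hx
  rad := fun _ ht => inv_one_add_mem_gaussO hw hx ht
  m_ne := by
    intro h0
    have h1 := congrArg (algebraMap R F) hmi
    rw [map_mul, map_natCast, h0, zero_mul, map_one] at h1
    exact zero_ne_one h1
  m_inv := by
    have h1 := congrArg (algebraMap R F) hmi
    rw [map_mul, map_natCast, map_one] at h1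
    have h2 : ((m : F))⁻¹ = algebraMap R F mi := inv_eq_of_mul_eq_one_right h1
    rw [h2]
    exact Subalgebra.algebraMap_mem _ mi
  u_one := by
    obtain ⟨t, ht, htt⟩ := hu
    exact ⟨t, ht, by rw [← htt]; ring⟩

theorem chartData_fin (hinjR : Function.Injective (algebraMap R F)) {w : R} (hw : Prime w)
    {x : F} (hx : Transcendental R x) {m : ℕ} {u : F}
    (hloc : ∀ 𝔪 : Ideal (chart R ({x} : Set F)), 𝔪.IsMaximal →
      algebraMap R (chart R ({x} : Set F)) w ∈ 𝔪 →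
      ∃ h : F, (∃ t ∈ gaussO hw x, h = 1 + algebraMap R F w * t) ∧
        ∃ s a : chart R ({x} : Set F), s ∉ 𝔪 ∧
          u * (s : F) = h ^ m * ((s : F) + algebraMap R F w * (a : F))) :
    H348.ChartData w m u (chart R ({x} : Set F)) (gaussO hw x) where
  le_V := chart_fin_le_gaussO hw x
  closed := fun _ hf => mem_chart_of_isIntegral_chart hf
  qep := by
    intro b hb t ht hbt
    have hw0 : algebraMap R F w ≠ 0 := fun h0 => hw.ne_zero (hinjR (by rw [h0, map_zero]))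
    obtain ⟨t', ht', hbt'⟩ := qep_fin hw hx b hb ⟨t, ht, hbt⟩
    have : t = t' := mul_left_cancel₀ hw0 (hbt.symm.trans hbt')
    rw [this]
    exact ht'
  loc := hloc

theorem chartData_inf (hinjR : Function.Injective (algebraMap R F)) {w : R} (hw : Prime w)
    {x : F} (hx : Transcendental R x) {m : ℕ} {u : F}
    (hloc : ∀ 𝔪 : Ideal (chart R ({x⁻¹} : Set F)), 𝔪.IsMaximal →
      algebraMap R (chart R ({x⁻¹} : Set F)) w ∈ 𝔪 →
      ∃ h : F, (∃ t ∈ gaussO hw x, h = 1 + algebraMap R F w * t) ∧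
        ∃ s a : chart R ({x⁻¹} : Set F), s ∉ 𝔪 ∧
          u * (s : F) = h ^ m * ((s : F) + algebraMap R F w * (a : F))) :
    H348.ChartData w m u (chart R ({x⁻¹} : Set F)) (gaussO hw x) where
  le_V := chart_inf_le_gaussO hw (ne_zero_of_transcendental hx)
  closed := fun _ hf => mem_chart_of_isIntegral_chart hf
  qep := by
    intro b hb t ht hbt
    have hw0 : algebraMap R F w ≠ 0 := fun h0 => hw.ne_zero (hinjR (by rw [h0, map_zero]))
    obtain ⟨t', ht', hbt'⟩ := qep_inf hw hx b hb ⟨t, ht, hbt⟩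
    have : t = t' := mul_left_cancel₀ hw0 (hbt.symm.trans hbt')
    rw [this]
    exact ht'
  loc := hloc

/-- **Route S with the canonical Gauss ring.** -/
theorem exists_pow_eq_gaussO [IsNoetherianRing R] [CharZero F]
    (hinjR : Function.Injective (algebraMap R F))
    {x : F} (hx : Transcendental R x) [FiniteDimensional (baseField R x) F]
    {w : R} (hw : Prime w) {mi : R} {m : ℕ} (hmi : (m : R) * mi = 1) {u : F}
    (hu : InW (gaussO hw x) w (u - 1))
    (hloc_fin : ∀ 𝔪 : Ideal (chart R ({x} : Set F)), 𝔪.IsMaximal →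
      algebraMap R (chart R ({x} : Set F)) w ∈ 𝔪 →
      ∃ h : F, (∃ t ∈ gaussO hw x, h = 1 + algebraMap R F w * t) ∧
        ∃ s a : chart R ({x} : Set F), s ∉ 𝔪 ∧
          u * (s : F) = h ^ m * ((s : F) + algebraMap R F w * (a : F)))
    (hloc_inf : ∀ 𝔪 : Ideal (chart R ({x⁻¹} : Set F)), 𝔪.IsMaximal →
      algebraMap R (chart R ({x⁻¹} : Set F)) w ∈ 𝔪 →
      ∃ h : F, (∃ t ∈ gaussO hw x, h = 1 + algebraMap R F w * t) ∧
        ∃ s a : chart R ({x⁻¹} : Set F), s ∉ 𝔪 ∧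
          u * (s : F) = h ^ m * ((s : F) + algebraMap R F w * (a : F)))
    (hconst : ∀ 𝔫 : Ideal (AdjoinRoot (X ^ m - C u)), 𝔫.IsMaximal →
      ∀ y : AdjoinRoot (X ^ m - C u) ⧸ 𝔫, IsIntegral R y →
        y ∈ Set.range (algebraMap R (AdjoinRoot (X ^ m - C u) ⧸ 𝔫))) :
    ∃ y : F, y ^ m = u ∧ InW (gaussO hw x) w (y - 1) := by
  obtain ⟨y, hy, t, ht, hyt⟩ := H348.exists_pow_eq_of_local_factorisation hinjR hx w hw
    (gaussData_gaussO hinjR hw hx hmi hu) (chartData_fin hinjR hw hx hloc_fin)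
    (chartData_inf hinjR hw hx hloc_inf) hconst
  exact ⟨y, hy, t, ht, by rw [hyt]; ring⟩

end Fermat.Agent.A2.H729

end
-- ===== PACK-END A2/H729/H348Adapter.lean

-- ===== PACK-BEGIN S26/H70/CubeOf.lean
section


/-!
# Row S26, block CUBE, leaf C5: the theorem of the cube from the leaves (helper70)

`cube_of_inH` : `Stmt.Cube T K` from
* `H_M = A(K')` for all abelian varieties over all algebraically closed fields (`hH`, = C2–C4),
* geometric integrality of abelian varieties over `K` (`hGI`),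
* base change of abelian varieties (`hBC`), local triviality over the base (`hP4`) and generic
  triviality (`hP5`).

`cube_of_C3` : the same with `hH` replaced by the statement of C3 (`inH_of_curveCube`) and
`Stmt.CurvesGenerate`; `cube_of'` : the exact statement `cube_of` of the row-lead's skeleton
`Skel/CubeSkel.lean`, with the statement of C3 as the only additional hypothesis.

Proof: the universal case `N₀ = Θ(p₁, p₂, p₃; M)` on `A × (A × A)`.  `N₀` vanishes on the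
geometric generic fibre `Spec K' × (A × A)` (`map_generic_N₀`), hence over a nonempty open
`U₀ ⊆ A` (P5), hence over all its translates (`map_N₀_preimage`), which cover `A`
(`exists_transl_mem`); so `N₀` is pulled back from `A × (0, 0)` (P4), where it vanishes
(`theta_self_one_one`).
-/

set_option autoImplicit false
universe u

open CategoryTheory CategoryTheory.Limits AlgebraicGeometry NeronModelInfra GoodReductionJacobian

namespace Fermat.Agent.S26.H70

noncomputable section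

variable {K : Type u} [Field K] [IsAlgClosed K] {T : PicTheory.{u}}

/-- The `K`-point `(0, 0)` of `A × A`. -/
def zeroZero (X : AbVar K) : KPt (prodStr X.str X.str) :=
  ⟨pullback.lift X.zero.1 X.zero.1 (by rw [X.zero.2]), by
    rw [pullback.lift_fst_assoc, X.zero.2]⟩

omit [IsAlgClosed K] in
theorem one_coe (X : AbVar K) {S : Scheme.{u}} (s : S ⟶ Spec (CommRingCat.of K)) :
    (X.law.one s).1 = s ≫ X.zero.1 := by
  rw [← AbVar.const_one]
  rfl

omit [IsAlgClosed K] in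
/-- The universal class vanishes on `A × (0, 0)`. -/
theorem map_inl_N₀ (hT : T.IsLocal) (X : AbVar K) (M : T.Pic X.A) :
    T.map (inl X.str (prodStr X.str X.str) (zeroZero X)) (N₀ X T M) = 0 := by
  rw [map_N₀ X.str (inl X.str (prodStr X.str X.str) (zeroZero X)) (inl_prodStr _ _ _)
    RelativeGroupLaw.idPoint (X.law.one X.str) (X.law.one X.str) ?_ ?_ ?_ M,
    theta_self_one_one hT]
  · show inl _ _ _ ≫ pullback.fst _ _ = 𝟙 _
    rw [inl, pullback.lift_fst]
  · show inl _ _ _ ≫ pullback.snd _ _ ≫ pullback.fst _ _ = _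
    rw [inl, pullback.lift_snd_assoc, one_coe, Category.assoc]
    congr 1
    exact pullback.lift_fst _ _ _
  · show inl _ _ _ ≫ pullback.snd _ _ ≫ pullback.snd _ _ = _
    rw [inl, pullback.lift_snd_assoc, one_coe, Category.assoc]
    congr 1
    exact pullback.lift_snd _ _ _

/-- The geometric generic point of an integral scheme. -/
def geomGeneric (Y : Scheme.{u}) [IsIntegral Y] :
    Spec (CommRingCat.of (AlgebraicClosure Y.functionField)) ⟶ Y :=
  Spec.map (CommRingCat.ofHom (algebraMap Y.functionField (AlgebraicClosure Y.functionField))) ≫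
    Y.fromSpecStalk (genericPoint Y)

omit [Field K] [IsAlgClosed K] in
theorem geomGeneric_apply (Y : Scheme.{u}) [IsIntegral Y]
    (p : Spec (CommRingCat.of (AlgebraicClosure Y.functionField))) :
    geomGeneric Y p = genericPoint Y := by
  rw [geomGeneric, Scheme.Hom.comp_apply]
  have hF : IsField (Y.presheaf.stalk (genericPoint Y)) :=
    (Field.toIsField Y.functionField)
  let _ : Field (Y.presheaf.stalk (genericPoint Y)) := hF.toField
  have hsub : Subsingleton (Spec (Y.presheaf.stalk (genericPoint Y))) :=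
    inferInstanceAs (Subsingleton (PrimeSpectrum (Y.presheaf.stalk (genericPoint Y))))
  rw [Subsingleton.elim (Spec.map _ p) (IsLocalRing.closedPoint _)]
  exact Scheme.fromSpecStalk_closedPoint

/-- **C5**, with `H_M = A(K')` as hypothesis. -/
theorem cube_of_inH (hT : T.IsLocal)
    (hH : ∀ (K' : Type u) [Field K'] [IsAlgClosed K'] (X' : AbVar K') (M' : T.Pic X'.A)
      (x : X'.Pt), X'.InH T M' x)
    (hGI : ∀ X : AbVar K, GeometricallyIntegral X.str)
    (hBC : Stmt.BaseChange K) (hP4 : Stmt.LocalOnBase T K) (hP5 : Stmt.GenericTrivial T K) :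
    Stmt.Cube T K := by
  intro X S s a b c M
  show X.theta T s a b c M = 0
  rw [theta_eq_map_univ]
  suffices h : N₀ X T M = 0 by rw [h, map_zero]
  have : GeometricallyIntegral X.str := hGI X
  have : Smooth X.str := X.bundle.smooth
  have : IsProper X.str := X.bundle.proper
  have : IsIntegral X.A := GeometricallyIntegral.isIntegral_of_subsingleton X.str
  have : GeometricallyIntegral (prodStr X.str X.str) := geometricallyIntegral_prodStr _ _
  have : IsProper (prodStr X.str X.str) := by unfold prodStr; infer_instance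
  -- generic triviality
  obtain ⟨U₀, hU₀, hN⟩ := hP5 X.A (pullback X.str X.str) X.str (prodStr X.str X.str)
    (N₀ X T M) (AlgebraicClosure X.A.functionField) (geomGeneric X.A) (geomGeneric_apply X.A)
    (map_generic_N₀ hBC hH X M _ _)
  -- local triviality over the base
  have hloc : ∀ p : X.A, ∃ U : X.A.Opens, p ∈ U ∧
      T.map (prodMapLeft X.str (U.ι ≫ X.str) (prodStr X.str X.str) U.ι rfl) (N₀ X T M) = 0 := by
    intro p
    obtain ⟨t, ht⟩ := exists_transl_mem X U₀ hU₀ p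
    exact ⟨_, ht, map_N₀_preimage hT M t (hH K X M t) U₀ hN⟩
  rw [hP4 X.A (pullback X.str X.str) X.str (prodStr X.str X.str) (zeroZero X) (N₀ X T M) hloc,
    map_inl_N₀ hT, map_zero]

/-- **C5** from C3 (`inH_of_curveCube`, as a hypothesis) and the other leaves. -/
theorem cube_of_C3 (hT : T.IsLocal)
    (hC3 : ∀ (K' : Type u) [Field K'] [IsAlgClosed K'] (X : AbVar K') (M : T.Pic X.A)
      (Γ : X.PtdCurve) (p : KPt Γ.str), X.InH T M (Γ.image p))
    (hGI : ∀ X : AbVar K, GeometricallyIntegral X.str)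
    (hGen : ∀ (K' : Type u) [Field K'] [IsAlgClosed K'], Stmt.CurvesGenerate K')
    (hBC : Stmt.BaseChange K) (hP4 : Stmt.LocalOnBase T K) (hP5 : Stmt.GenericTrivial T K) :
    Stmt.Cube T K :=
  cube_of_inH hT
    (fun K' _ _ X' M' x =>
      hGen K' X' (X'.InH T M') (AbVar.inH_zero hT M')
        (fun _ _ hx hy => AbVar.inH_mul hT M' hx hy) (fun _ hx => AbVar.inH_neg hT M' hx)
        (fun Γ p => hC3 K' X' M' Γ p) x)
    hGI hBC hP4 hP5

/-- **C5**: the exact statement `cube_of` of `Skel/CubeSkel.lean`, with the statement of C3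
(`Skel.inH_of_curveCube`) as an additional hypothesis `hC3`. -/
theorem cube_of'
    (hC3 : ∀ (K' : Type u) [Field K'] [IsAlgClosed K'], T.IsLocal → Stmt.CurveCube T K' →
      (∀ X : AbVar K', GeometricallyIntegral X.str) →
      ∀ (X : AbVar K') (M : T.Pic X.A) (Γ : X.PtdCurve) (p : KPt Γ.str),
        X.InH T M (Γ.image p))
    (hT : T.IsLocal)
    (hC1 : ∀ (K' : Type u) [Field K'] [IsAlgClosed K'], Stmt.CurveCube T K')
    (hGI : ∀ (K' : Type u) [Field K'] [IsAlgClosed K'] (X : AbVar K'),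
      GeometricallyIntegral X.str)
    (hGen : ∀ (K' : Type u) [Field K'] [IsAlgClosed K'], Stmt.CurvesGenerate K')
    (hBC : Stmt.BaseChange K) (hP4 : Stmt.LocalOnBase T K) (hP5 : Stmt.GenericTrivial T K) :
    Stmt.Cube T K :=
  cube_of_C3 hT (fun K' _ _ X M Γ p => hC3 K' hT (hC1 K') (hGI K') X M Γ p) (hGI K) hGen hBC hP4
    hP5

end

end Fermat.Agent.S26.H70

end
-- ===== PACK-END S26/H70/CubeOf.lean

-- ===== PACK-BEGIN Ribet/H384/RamTwoMain.lean
section






/-!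
# The mod-`p` representation of the Frey curve is RAMIFIED at `2` (helper384)

`freyRamifiedAtTwo_of : Places → DetFrob → TorsionRank → ∀ P : FreyPackage,
¬ P.GaloisRepUnramifiedAt 2`  (the three inputs are on main; plugged in in `RamTwo.lean`).

Proof.  Let `A ∣ 2` with a Frobenius `φ` and suppose inertia at `A` fixes `E[p]`.
* The coordinates of the `p`-torsion points lie in the inertia field, whose value group is
  `v(2)^ℤ` (`S56.H66.vg0`); as `v(a₄)² = v(2)^(2pi - 8)` and `p ∤ 2pi - 8`, the component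
  `v(x)` mod `v(a₄)²` of a `p`-torsion point is trivial: `E[p] ⊆ E⁰` (`one_le_of_val_zpow`).
* The reduction at `2` is `y² + xy = x³ + ā₂x²`, on which `(x², y²) = ± 2 (x, y)`
  (`dblX_char2`, `dblY_char2`); reduction is injective on `E⁰[p]`, so `φ = ± 2` on `E[p]`
  (`frob_eq_of_unit`).
* Hence `det φ = 4`; but `det φ = 2` (DETF), so `p ∣ 2`: contradiction.

Use: a level `N` at which the Frey representation is modular (`FreyEmbedsIn P N S a`) is EVEN
(`WallQGood.lean`).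
-/

set_option autoImplicit false
set_option linter.unusedSectionVars false
set_option linter.unusedVariables false
set_option linter.style.haveILetI false

namespace Fermat.Agent.Ribet.H384

open WeierstrassCurve WeierstrassCurve.Affine WeierstrassCurve.Affine.Point
open Fermat.Agent.S05.SameRed
open Fermat.Agent.S05.Assemble (Qb val_int_le_one val_int_lt_one val_int_eq_one
  fA fB frey_a₁ frey_a₂ frey_a₃ frey_a₄ frey_a₆ val_p_eq_one KerTorsionFree
  val_x_le_one_of_torsion)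
open Fermat.Agent.S13.H365
open Fermat.Agent.Ribet.Spec

variable (P : FreyPackage)

/-- `v(a₄) = v(2)^t` with `p ∤ 2t`. -/
lemma frey_val_a₄_zpow {A : ValuationSubring Qb} (hA : A.LiesOverPrime 2) :
    ∃ t : ℤ, A.valuation (P.freyCurve⁄Qb).a₄ = A.valuation (2 : Qb) ^ t ∧
      ¬ (P.p : ℤ) ∣ 2 * t := by
  obtain ⟨i, hi⟩ := Fermat.Agent.S13.H187.val_int_eq_pow (K := Qb) hA P.hb0
  have h20 : A.valuation (2 : Qb) ≠ 0 := (Valuation.ne_zero_iff _).mpr two_ne_zero
  refine ⟨(P.p : ℤ) * i - 4, ?_, ?_⟩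
  · have hfA : A.valuation (fA P) = 1 := by
      have h := val_int_eq_one hA Nat.prime_two (n := P.a ^ P.p) (by
        intro h
        exact frey_a_odd P (Int.prime_two.dvd_of_dvd_pow (by exact_mod_cast h)))
      exact h
    have hfB : A.valuation (fB P) = A.valuation (2 : Qb) ^ ((P.p : ℤ) * i) := by
      have : fB P = ((P.b : ℤ) : Qb) ^ P.p := by simp only [fB]; push_cast; rfl
      rw [this, map_pow, hi, ← pow_mul, ← zpow_natCast, mul_comm]
      push_cast
      rfl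
    have h16 : A.valuation (16 : Qb) = A.valuation (2 : Qb) ^ (4 : ℤ) := by
      have : (16 : Qb) = 2 ^ 4 := by norm_num
      rw [this, map_pow, ← zpow_natCast]
      rfl
    rw [frey_a₄, map_div₀, map_mul, Valuation.map_neg, hfA, one_mul, hfB, h16,
      ← zpow_sub₀ h20]
  · intro h
    have h8 : (P.p : ℤ) ∣ 8 := by
      have e : (8 : ℤ) = (P.p : ℤ) * (2 * i) - 2 * ((P.p : ℤ) * i - 4) := by ring
      rw [e]
      exact dvd_sub (dvd_mul_right _ _) h
    have h8' : P.p ∣ 8 := by exact_mod_cast h8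
    have h2 : P.p ∣ 2 := P.pp.dvd_of_dvd_pow (show P.p ∣ 2 ^ 3 by norm_num; exact h8')
    have := Nat.le_of_dvd (by norm_num) h2
    have := P.hp5
    omega

/-- A Frobenius element at `A ∣ 2` is congruent to `z ↦ z²` on `A`. -/
lemma frob_two_cong {A : ValuationSubring Qb} {φ : Qb ≃ₐ[ℚ] Qb} (hφ : A.IsFrobeniusAt φ 2)
    (z : Qb) (hz : A.valuation z ≤ 1) : A.valuation (φ z - z ^ 2) < 1 := by
  have hzA : z ∈ A := (A.valuation_le_one_iff z).mp hz
  obtain ⟨hσ, hF⟩ := hφ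
  have h1 := hF (IsLocalRing.residue A ⟨z, hzA⟩)
  rw [← IsLocalRing.ResidueField.residue_smul, ← map_pow, ← sub_eq_zero, ← map_sub,
    IsLocalRing.residue_eq_zero_iff, ← ValuationSubring.coe_mem_nonunits_iff] at h1
  exact (A.mem_nonunits_iff).mp h1

/-- **The Frey representation is ramified at `2`.** -/
theorem freyRamifiedAtTwo_of (hPl : PlacesStatement) (hDet : DetFrobStatement)
    (hDim : TorsionRankStatement) : ¬ P.GaloisRepUnramifiedAt 2 := by
  intro hunr
  haveI : Fact P.p.Prime := ⟨P.pp⟩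
  obtain ⟨A, hA, φ, hφ⟩ := hPl 2 Nat.prime_two
  have hW : IntegralCoeffs (P.freyCurve⁄Qb) A.valuation := frey_integral_all P
  have hp2 : (2 : ℕ) ≠ P.p := by have := P.hp5; omega
  have hp : A.valuation (P.p : Qb) = 1 := val_p_eq_one (P := P) hA Nat.prime_two hp2
  have hC1 : KerTorsionFree (P.freyCurve⁄Qb) A.valuation P.p := fun Q hQ hQ0 =>
    Fermat.Agent.S05.C1b.eq_zero_of_inKer_of_nsmul_eq_zero hW P.p hp Q hQ hQ0
  obtain ⟨s, hs⟩ := IsAlgClosed.exists_pow_nat_eq (fB P - fA P) (n := 2) (by norm_num)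
  obtain ⟨t, ht, hpt⟩ := frey_val_a₄_zpow P hA
  have hv2 : A.valuation (2 : Qb) < 1 := by
    have := (A.mem_nonunits_iff).mp hA
    simpa using this
  have h20 : A.valuation (2 : Qb) ≠ 0 := (Valuation.ne_zero_iff _).mpr two_ne_zero
  -- Step A: every affine `p`-torsion point has a unit `x`-coordinate
  have hunit : ∀ (x y : Qb) (h : (P.freyCurve⁄Qb).Nonsingular x y),
      P.p • Point.some x y h = 0 → A.valuation x = 1 := by
    intro x y h hD
    have hxle : A.valuation x ≤ 1 := val_x_le_one_of_torsion hC1 h hD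
    refine le_antisymm hxle ?_
    have hmem : Point.some x y h ∈ Submodule.torsionBy ℤ (P.freyCurve⁄Qb).Point P.p := by
      rw [Submodule.mem_torsionBy_iff, natCast_zsmul]
      exact hD
    have hfix : ∀ σ ∈ A.inertiaSubgroupIn ℚ, σ x = x := by
      intro σ hσ
      have h1 := hunr A hA σ hσ ⟨Point.some x y h, hmem⟩
      have h2 : Point.map (W' := P.freyCurve) σ.toAlgHom (Point.some x y h) =
          Point.some x y h := congrArg Subtype.val h1
      rw [Point.map_some] at h2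
      simp only [Point.some.injEq] at h2
      exact h2.1
    have hMe : (freyNode P hA s hs).e = 0 := rfl
    have hMa : (freyNode P hA s hs).a = (P.freyCurve⁄Qb).a₄ := rfl
    by_cases hx0 : x = 0
    · exfalso
      have h0 : A.valuation (x - (freyNode P hA s hs).e) < 1 := by
        rw [hMe, sub_zero, hx0, _root_.map_zero]
        exact zero_lt_one
      have := ((freyNode P hA s hs).torsion_near_node P.hp_odd h hD h0).1
      rw [hMe, sub_zero, hx0, _root_.map_zero] at this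
      exact not_lt_zero this
    obtain ⟨m, hm⟩ := Fermat.Agent.S56.H66.vg0 2 Nat.prime_two A hA x hx0 hfix
    have hm' : A.valuation (x - (freyNode P hA s hs).e) = A.valuation (2 : Qb) ^ m := by
      rw [hMe, sub_zero, hm]
      norm_num
    have := one_le_of_val_zpow (freyNode P hA s hs) P.pp P.hp_odd h20 hv2 (t := t)
      (by rw [hMa]; exact ht) hpt h hD hm'
    rwa [hMe, sub_zero] at this
  -- the action of Frobenius on points
  have hτ : ∀ (x y : Qb) (h : (P.freyCurve⁄Qb).Nonsingular x y),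
      ∃ h' : (P.freyCurve⁄Qb).Nonsingular ((φ : Qb →+* Qb) x) ((φ : Qb →+* Qb) y),
        Point.map (W' := P.freyCurve) φ.toAlgHom (Point.some x y h) =
          Point.some ((φ : Qb →+* Qb) x) ((φ : Qb →+* Qb) y) h' := by
    intro x y h
    exact ⟨_, Point.map_some (W' := P.freyCurve) φ.toAlgHom h⟩
  have hfrob : ∀ z, A.valuation z ≤ 1 → A.valuation ((φ : Qb →+* Qb) z - z ^ 2) < 1 :=
    fun z hz => frob_two_cong hφ z hz
  have h4 : A.valuation (P.freyCurve⁄Qb).a₄ < 1 := frey_val_a₄_lt_one P hA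
  -- Step C/D: Frobenius is `c = ± 2`
  have hc : ∃ c : ℤ, c ^ 2 = 4 ∧ ∀ pt : (P.freyCurve⁄Qb).Point, P.p • pt = 0 →
      Point.map (W' := P.freyCurve) φ.toAlgHom pt = c • pt := by
    obtain ⟨k, hk⟩ := frey_a₂_int P
    rcases Int.even_or_odd k with hev | hodd
    · refine ⟨2, by norm_num, fun pt hD => ?_⟩
      have ha2 : A.valuation (P.freyCurve⁄Qb).a₂ < 1 := by
        rw [hk]
        exact val_int_lt_one hA (by exact_mod_cast hev.two_dvd)
      rcases pt with _ | ⟨x, y, h⟩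
      · change Point.map (W' := P.freyCurve) φ.toAlgHom 0 = (2 : ℤ) • (0 : (P.freyCurve⁄Qb).Point)
        rw [_root_.map_zero]
        exact (zsmul_zero _).symm
      · have := (frob_eq_of_unit hW hv2 (frey_a₁ P) (frey_a₃ P) (frey_a₆ P) h4 hfrob
          (Point.map (W' := P.freyCurve) φ.toAlgHom) hτ hC1 h hD (hunit x y h hD)).1 ha2
        rw [this]
        exact (ofNat_zsmul _ 2).symm
    · refine ⟨-2, by norm_num, fun pt hD => ?_⟩
      have ha2 : A.valuation ((P.freyCurve⁄Qb).a₂ - 1) < 1 := by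
        rw [hk]
        have : ((k : Qb) - 1) = ((k - 1 : ℤ) : Qb) := by push_cast; ring
        rw [this]
        apply val_int_lt_one hA
        obtain ⟨j, hj⟩ := hodd
        exact ⟨j, by rw [hj]; push_cast; ring⟩
      rcases pt with _ | ⟨x, y, h⟩
      · change Point.map (W' := P.freyCurve) φ.toAlgHom 0 =
          (-2 : ℤ) • (0 : (P.freyCurve⁄Qb).Point)
        rw [_root_.map_zero]
        exact (zsmul_zero _).symm
      · have := (frob_eq_of_unit hW hv2 (frey_a₁ P) (frey_a₃ P) (frey_a₆ P) h4 hfrob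
          (Point.map (W' := P.freyCurve) φ.toAlgHom) hτ hC1 h hD (hunit x y h hD)).2 ha2
        rw [this, neg_smul]
        congr 1
  obtain ⟨c, hc2, hcφ⟩ := hc
  -- Step E: the determinant
  have hsm : ∀ x : FreyTorsion P, φ • x = (c : ZMod P.p) • x := by
    intro x
    obtain ⟨pt, hpt⟩ := x
    apply Subtype.ext
    have hD : P.p • pt = 0 := by
      have := (Submodule.mem_torsionBy_iff _ _).mp hpt
      rwa [natCast_zsmul] at this
    rw [Int.cast_smul_eq_zsmul]
    exact hcφ pt hD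
  have hend : galoisRepModuleEnd (S := ℚ) (K := AlgebraicClosure ℚ) P.freyCurve P.p φ =
      (c : ZMod P.p) • (LinearMap.id : FreyTorsion P →ₗ[ZMod P.p] FreyTorsion P) := by
    apply LinearMap.ext
    intro x
    rw [galoisRepModuleEnd_apply, LinearMap.smul_apply, LinearMap.id_apply]
    exact hsm x
  have hdet := hDet P 2 Nat.prime_two hp2 A hA φ hφ
  rw [hend, LinearMap.det_smul, LinearMap.det_id, mul_one, hDim P] at hdet
  have h42 : ((4 : ℤ) : ZMod P.p) = ((2 : ℕ) : ZMod P.p) := by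
    rw [← hc2]
    push_cast
    exact hdet
  have h2z : ((2 : ℕ) : ZMod P.p) = 0 := by
    have e : ((4 : ℤ) : ZMod P.p) = ((2 : ℕ) : ZMod P.p) + ((2 : ℕ) : ZMod P.p) := by
      push_cast; norm_num
    rw [e] at h42
    exact left_eq_add.mp h42.symm |>.symm ▸ rfl
  have hdvd : P.p ∣ 2 := (ZMod.natCast_eq_zero_iff 2 P.p).mp h2z
  have := Nat.le_of_dvd (by norm_num) hdvd
  have := P.hp5
  omega

end Fermat.Agent.Ribet.H384

end
-- ===== PACK-END Ribet/H384/RamTwoMain.lean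

-- ===== PACK-BEGIN S15/H386/ModShapeExists.lean
section
/-
Row S15, node GEO (helper386): existence of a polynomial of modular shape vanishing at
`(j(q^d), j(q^{dp}))` — the classical modular polynomial `Φ_p` (row S28, `H807.nonempty_modPolyData`).
-/




set_option autoImplicit false

noncomputable section

open ModularCurve HahnSeries Polynomial
open Fermat.Agent.S28 Fermat.Agent.S28.H386 Fermat.Agent.S15.H962

universe u

namespace Fermat.Agent.S15.H386

/-- `eval2` commutes with ring homomorphisms of fields. -/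
theorem map_eval2 {K L : Type*} [Field K] [Field L] (φ : K →+* L) (Φ : ℤ[X][X]) (a b : K) :
    φ (eval2 Φ a b) = eval2 Φ (φ a) (φ b) := by
  unfold eval2
  rw [Polynomial.hom_eval₂]
  congr 1
  refine Polynomial.ringHom_ext (fun z => ?_) ?_
  · simp
  · simp

theorem eval2_eq_zero_iff_map {K L : Type*} [Field K] [Field L] (φ : K →+* L) (Φ : ℤ[X][X])
    (a b : K) : eval2 Φ (φ a) (φ b) = 0 ↔ eval2 Φ a b = 0 := by
  rw [← map_eval2, map_eq_zero]

section

variable {p : ℕ} [NeZero p] (D : ModPolyData p)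

theorem eval2_eq_eval_phiAt {K : Type*} [Field K] (Φ : ℤ[X][X]) (a b : K) :
    eval2 Φ a b = (phiAt Φ a).eval b := by
  rw [eval_phiAt]
  rfl

/-- `Φ_p(j(q^d), j(q^{dp})) = 0`. -/
theorem eval2_jd_jdp (k : Type*) [Field k] (d : ℕ) [NeZero d] :
    eval2 D.Φ (jd k d) (jd k (d * p)) = 0 := by
  rw [eval2_eq_eval_phiAt]
  exact eval_jdp D k d

/-- `Φ_p(j(q^{dp}), j(q^d)) = 0`. -/
theorem eval2_jdp_jd (k : Type*) [Field k] (d : ℕ) [NeZero d] :
    eval2 D.Φ (jd k (d * p)) (jd k d) = 0 := by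
  rw [eval2_eq_eval_phiAt]
  exact eval_jd D k d

end

/-- **Existence of the modular polynomial with its shape**: for `p` prime there is
`Φ ∈ ℤ[X][Y]` of modular shape with `Φ(j(q^d), j(q^{dp})) = 0 = Φ(j(q^{dp}), j(q^d))` in
`k((q))`, for every field `k` and every `d ≥ 1`. -/
theorem exists_isModularShape (p : ℕ) [NeZero p] (hp : p.Prime) :
    ∃ Φ : ℤ[X][X], IsModularShape p Φ ∧
      ∀ (k : Type u) [Field k] (d : ℕ) [NeZero d],
        eval2 Φ (qExpand k d (jqModC k)) (qExpand k (d * p) (jqModC k)) = 0 ∧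
        eval2 Φ (qExpand k (d * p) (jqModC k)) (qExpand k d (jqModC k)) = 0 := by
  obtain ⟨D⟩ := H807.nonempty_modPolyData p hp
  exact ⟨D.Φ, isModularShape_of_modPolyData D hp.one_lt, fun k _ d _ =>
    ⟨eval2_jd_jdp D k d, eval2_jdp_jd D k d⟩⟩

end Fermat.Agent.S15.H386

end
end
-- ===== PACK-END S15/H386/ModShapeExists.lean

-- ===== PACK-BEGIN A2/Mod/H485/Kron.lean
section






/-!
# A2 / MOD leaf L12 `Kron` (helper485): the Kronecker congruence, semilinear form

    theorem kron : KronStatement P E M q w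

For `a ∈ V∞_M` there is `a' ∈ V∞_M` with `β a ≡ (α a')^q mod w V∞` (level `M q`).

Proof.  Write `a = U₁ / U₂` with `U₂` primitive.  The reductions `ū₁, ū₂` lie in
`F_{M,k} = k(j̄_d : d ∣ M)` (S28 `CoreData M k`, H516 `red_mem_of_incl_mem`), and so does
`z' := Frob⁻¹(ū₁ / ū₂)` (coefficientwise inverse Frobenius; `k` is perfect because it is algebraic
over `𝔽_q`; H697 `coeffMap_mem_fullC`).  Lift `z' = w̄₁ / w̄₂` (`exists_lift`, induction on the
subfield generated by `k` and the `j̄_d`) and put `a' = W₁ / W₂`.  In characteristic `q`,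
`z'^q = (Frob z')(t^q) = (ū₁/ū₂)(t^q)` (H400 `laurent_pow_char`), so the integral series
`U₁(t^q) W₂^q − W₁^q U₂(t^q)` reduces to `0`, hence is divisible by `w`, while the denominator
`U₂(t^q) W₂^q` is primitive.
-/

set_option autoImplicit false
set_option linter.style.haveILetI false
set_option linter.unusedSectionVars false
set_option synthInstance.maxHeartbeats 400000
set_option maxHeartbeats 1600000

noncomputable section

namespace Fermat.Agent.A2.Mod.H485

open ModularCurve HahnSeries Polynomial Fermat.Agent.A2 Fermat.Agent.A2.Mod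

/-! ### the residue field of `R_E` -/

section residue

variable (P : ValuationSubring _root_.Fermat.Agent.A2.Mod.Qb) (E : IntermediateField ℚ _root_.Fermat.Agent.A2.Mod.Qb)

theorem liesOver_RE {q : ℕ} (hP : P.LiesOverPrime q) : (_root_.Fermat.Agent.A2.Mod.RE P E).LiesOverPrime q := by
  show (_root_.Fermat.Agent.A2.Mod.RE P E).valuation ((q : ℕ) : E) < 1
  have hmem : ((q : ℕ) : E) ∈ _root_.Fermat.Agent.A2.Mod.RE P E := natCast_mem _ q
  by_contra hcon
  have hle : (_root_.Fermat.Agent.A2.Mod.RE P E).valuation ((q : ℕ) : E) ≤ 1 :=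
    (ValuationSubring.valuation_le_one_iff _ _).mpr hmem
  have heq : (_root_.Fermat.Agent.A2.Mod.RE P E).valuation ((q : ℕ) : E) = 1 := le_antisymm hle (not_lt.mp hcon)
  have hu : IsUnit (⟨((q : ℕ) : E), hmem⟩ : _root_.Fermat.Agent.A2.Mod.RE P E) :=
    (ValuationSubring.valuation_eq_one_iff _ _).mpr heq
  obtain ⟨u, hu'⟩ := isUnit_iff_exists_inv.mp hu
  have h1 : ((q : ℕ) : _root_.Fermat.Agent.A2.Mod.Qb) * ((u : E) : _root_.Fermat.Agent.A2.Mod.Qb) = 1 := by
    have := congrArg (fun x : _root_.Fermat.Agent.A2.Mod.RE P E => ((x : E) : _root_.Fermat.Agent.A2.Mod.Qb)) hu'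
    simpa using this
  have hPq : P.valuation ((q : ℕ) : _root_.Fermat.Agent.A2.Mod.Qb) < 1 := hP
  have hu_mem : ((u : E) : _root_.Fermat.Agent.A2.Mod.Qb) ∈ P := u.2
  have h2 : P.valuation (((q : ℕ) : _root_.Fermat.Agent.A2.Mod.Qb) * ((u : E) : _root_.Fermat.Agent.A2.Mod.Qb)) < 1 := by
    rw [map_mul]
    exact mul_lt_one_of_lt_of_le hPq ((P.valuation_le_one_iff _).mpr hu_mem)
  rw [h1, map_one] at h2
  exact lt_irrefl _ h2

/-- every element of `R_E` is a root of a polynomial over `ℤ` which is nonzero mod `q` -/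
theorem exists_polynomial_residue (r : _root_.Fermat.Agent.A2.Mod.RE P E) {q : ℕ} (hq : q.Prime) :
    ∃ F : Polynomial ℤ, F.map (Int.castRingHom (ZMod q)) ≠ 0 ∧
      Polynomial.eval₂ (Int.castRingHom (_root_.Fermat.Agent.A2.Mod.RE P E)) r F = 0 := by
  have halgQ : IsAlgebraic ℚ ((r : E) : _root_.Fermat.Agent.A2.Mod.Qb) := (AlgebraicClosure.isAlgebraic ℚ).isAlgebraic _
  have halgZ : IsAlgebraic ℤ ((r : E) : _root_.Fermat.Agent.A2.Mod.Qb) := (IsFractionRing.isAlgebraic_iff ℤ ℚ _root_.Fermat.Agent.A2.Mod.Qb).mpr halgQ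
  obtain ⟨F, hF0, hF⟩ := halgZ
  have hprim : F.primPart.IsPrimitive := Polynomial.isPrimitive_primPart F
  have hev : Polynomial.aeval ((r : E) : _root_.Fermat.Agent.A2.Mod.Qb) F.primPart = 0 := by
    have h1 := F.eq_C_content_mul_primPart
    rw [h1, map_mul, Polynomial.aeval_C] at hF
    rcases mul_eq_zero.mp hF with h | h
    · exfalso
      have : (F.content : _root_.Fermat.Agent.A2.Mod.Qb) = 0 := by simpa using h
      have h2 : F.content = 0 := by exact_mod_cast this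
      exact hF0 (Polynomial.content_eq_zero_iff.mp h2)
    · exact h
  refine ⟨F.primPart, ?_, ?_⟩
  · intro h0
    have hdvd : Polynomial.C (q : ℤ) ∣ F.primPart := by
      rw [Polynomial.C_dvd_iff_dvd_coeff]
      intro i
      have := congrArg (fun Q : Polynomial (ZMod q) => Q.coeff i) h0
      simp only [Polynomial.coeff_map, Polynomial.coeff_zero, eq_intCast] at this
      exact (ZMod.intCast_zmod_eq_zero_iff_dvd _ _).mp this
    have hu := hprim _ hdvd
    have : IsUnit (q : ℤ) := hu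
    rw [Int.isUnit_iff] at this
    have hq2 := hq.two_le
    omega
  · have hinj : Function.Injective ((algebraMap E _root_.Fermat.Agent.A2.Mod.Qb).comp (_root_.Fermat.Agent.A2.Mod.RE P E).subtype) := by
      intro a b h
      exact Subtype.ext (Subtype.ext h)
    apply hinj
    rw [map_zero, Polynomial.hom_eval₂]
    have : (((algebraMap E _root_.Fermat.Agent.A2.Mod.Qb).comp (_root_.Fermat.Agent.A2.Mod.RE P E).subtype).comp (Int.castRingHom (_root_.Fermat.Agent.A2.Mod.RE P E))) =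
        algebraMap ℤ _root_.Fermat.Agent.A2.Mod.Qb := RingHom.ext_int _ _
    rw [this]
    exact hev

theorem charP_residue {q : ℕ} [Fact q.Prime] (hP : P.LiesOverPrime q) :
    CharP (IsLocalRing.ResidueField (_root_.Fermat.Agent.A2.Mod.RE P E)) q :=
  Fermat.Agent.S18.H516.charP_residue (_root_.Fermat.Agent.A2.Mod.RE P E) (liesOver_RE P E hP)

theorem perfectField_residue {q : ℕ} [Fact q.Prime] (hP : P.LiesOverPrime q) :
    PerfectField (IsLocalRing.ResidueField (_root_.Fermat.Agent.A2.Mod.RE P E)) := by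
  have hq : q.Prime := Fact.out
  haveI : CharP (IsLocalRing.ResidueField (_root_.Fermat.Agent.A2.Mod.RE P E)) q := charP_residue P E hP
  letI : Algebra (ZMod q) (IsLocalRing.ResidueField (_root_.Fermat.Agent.A2.Mod.RE P E)) := ZMod.algebra _ q
  haveI : Algebra.IsAlgebraic (ZMod q) (IsLocalRing.ResidueField (_root_.Fermat.Agent.A2.Mod.RE P E)) := by
    refine ⟨fun x => ?_⟩
    obtain ⟨r', rfl⟩ := IsLocalRing.residue_surjective x
    obtain ⟨F, hF0, hF⟩ := exists_polynomial_residue P E r' hq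
    refine ⟨F.map (Int.castRingHom (ZMod q)), hF0, ?_⟩
    rw [Polynomial.aeval_def, Polynomial.eval₂_map]
    have h1 : (algebraMap (ZMod q) (IsLocalRing.ResidueField (_root_.Fermat.Agent.A2.Mod.RE P E))).comp
        (Int.castRingHom (ZMod q)) =
        (IsLocalRing.residue (_root_.Fermat.Agent.A2.Mod.RE P E)).comp (Int.castRingHom (_root_.Fermat.Agent.A2.Mod.RE P E)) := RingHom.ext_int _ _
    rw [h1, ← Polynomial.hom_eval₂, hF, map_zero]
  exact Algebra.IsAlgebraic.perfectField (ZMod q)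

end residue

/-! ### lifting elements of `F_{N,k}` -/

section lift

variable (P : ValuationSubring _root_.Fermat.Agent.A2.Mod.Qb) (E : IntermediateField ℚ _root_.Fermat.Agent.A2.Mod.Qb) (N : ℕ) [NeZero N]

/-- `z` is a quotient of reductions of `R_E`-integral series lying in `F_N`. -/
def IsRedQuot (z : LaurentSeries (IsLocalRing.ResidueField (_root_.Fermat.Agent.A2.Mod.RE P E))) : Prop :=
  ∃ W₁ W₂ : LaurentSeries (_root_.Fermat.Agent.A2.Mod.RE P E),
    H708.incl (_root_.Fermat.Agent.A2.Mod.RE P E) W₁ ∈ _root_.Fermat.Agent.A2.Mod.FE E N ∧ H708.incl (_root_.Fermat.Agent.A2.Mod.RE P E) W₂ ∈ _root_.Fermat.Agent.A2.Mod.FE E N ∧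
    H708.red (_root_.Fermat.Agent.A2.Mod.RE P E) W₂ ≠ 0 ∧ z * H708.red (_root_.Fermat.Agent.A2.Mod.RE P E) W₂ = H708.red (_root_.Fermat.Agent.A2.Mod.RE P E) W₁

variable {P E N}

theorem isRedQuot_of_incl {W : LaurentSeries (_root_.Fermat.Agent.A2.Mod.RE P E)} (hW : H708.incl (_root_.Fermat.Agent.A2.Mod.RE P E) W ∈ _root_.Fermat.Agent.A2.Mod.FE E N) :
    IsRedQuot P E N (H708.red (_root_.Fermat.Agent.A2.Mod.RE P E) W) :=
  ⟨W, 1, hW, by rw [map_one]; exact one_mem _, by rw [map_one]; exact one_ne_zero,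
    by rw [map_one, mul_one]⟩

theorem IsRedQuot.add {z z' : LaurentSeries (IsLocalRing.ResidueField (_root_.Fermat.Agent.A2.Mod.RE P E))}
    (h : IsRedQuot P E N z) (h' : IsRedQuot P E N z') : IsRedQuot P E N (z + z') := by
  obtain ⟨a, b, ha, hb, hb0, hab⟩ := h
  obtain ⟨a', b', ha', hb', hb0', hab'⟩ := h'
  refine ⟨a * b' + a' * b, b * b', ?_, ?_, ?_, ?_⟩
  · rw [map_add, map_mul, map_mul]
    exact add_mem (mul_mem ha hb') (mul_mem ha' hb)
  · rw [map_mul]; exact mul_mem hb hb'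
  · rw [map_mul]; exact mul_ne_zero hb0 hb0'
  · rw [map_mul, map_add, map_mul, map_mul, ← hab, ← hab']
    ring

theorem IsRedQuot.mul {z z' : LaurentSeries (IsLocalRing.ResidueField (_root_.Fermat.Agent.A2.Mod.RE P E))}
    (h : IsRedQuot P E N z) (h' : IsRedQuot P E N z') : IsRedQuot P E N (z * z') := by
  obtain ⟨a, b, ha, hb, hb0, hab⟩ := h
  obtain ⟨a', b', ha', hb', hb0', hab'⟩ := h'
  refine ⟨a * a', b * b', ?_, ?_, ?_, ?_⟩
  · rw [map_mul]; exact mul_mem ha ha'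
  · rw [map_mul]; exact mul_mem hb hb'
  · rw [map_mul]; exact mul_ne_zero hb0 hb0'
  · rw [map_mul, map_mul, ← hab, ← hab']
    ring

theorem IsRedQuot.neg {z : LaurentSeries (IsLocalRing.ResidueField (_root_.Fermat.Agent.A2.Mod.RE P E))}
    (h : IsRedQuot P E N z) : IsRedQuot P E N (-z) := by
  obtain ⟨a, b, ha, hb, hb0, hab⟩ := h
  refine ⟨-a, b, ?_, hb, hb0, ?_⟩
  · rw [map_neg]; exact neg_mem ha
  · rw [map_neg, ← hab, neg_mul]

theorem IsRedQuot.inv {z : LaurentSeries (IsLocalRing.ResidueField (_root_.Fermat.Agent.A2.Mod.RE P E))}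
    (h : IsRedQuot P E N z) : IsRedQuot P E N z⁻¹ := by
  obtain ⟨a, b, ha, hb, hb0, hab⟩ := h
  by_cases hz : z = 0
  · rw [hz, inv_zero]
    exact ⟨0, 1, by rw [map_zero]; exact zero_mem _, by rw [map_one]; exact one_mem _,
      by rw [map_one]; exact one_ne_zero, by rw [map_zero, zero_mul]⟩
  · have ha0 : H708.red (_root_.Fermat.Agent.A2.Mod.RE P E) a ≠ 0 := by
      rw [← hab]; exact mul_ne_zero hz hb0
    refine ⟨b, a, hb, ha, ha0, ?_⟩
    rw [← hab, ← mul_assoc, inv_mul_cancel₀ hz, one_mul]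

theorem isRedQuot_const (c : IsLocalRing.ResidueField (_root_.Fermat.Agent.A2.Mod.RE P E)) :
    IsRedQuot P E N (algebraMap _ (LaurentSeries (IsLocalRing.ResidueField (_root_.Fermat.Agent.A2.Mod.RE P E))) c) := by
  obtain ⟨r, rfl⟩ := IsLocalRing.residue_surjective c
  have h := isRedQuot_of_incl (P := P) (E := E) (N := N) (W := H708.cstA (_root_.Fermat.Agent.A2.Mod.RE P E) r) (by
    rw [H708.incl_cstA]
    exact (_root_.Fermat.Agent.A2.Mod.FE E N).algebraMap_mem _)
  rw [H708.red_cstA] at h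
  rwa [algebraMap_laurentSeries_eq_single]

theorem isRedQuot_jd {d : ℕ} [NeZero d] (hd : d ∣ N) :
    IsRedQuot P E N (qExpand _ d (jqModC (IsLocalRing.ResidueField (_root_.Fermat.Agent.A2.Mod.RE P E)))) := by
  have h := isRedQuot_of_incl (P := P) (E := E) (N := N)
    (W := H708.castA (_root_.Fermat.Agent.A2.Mod.RE P E) (qExpand ℤ d (jqModC ℤ))) (by
      rw [H708.incl_castA]
      refine coeffEmb_mem_laurentBaseChange E ?_
      have : H708.castQ (qExpand ℤ d (jqModC ℤ)) = qExpand ℚ d jq := by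
        rw [H708.castQ, coeffMap_qExpand, coeffMap_jqModC, jqModC_rat]
      rw [this]
      exact jqd_mem_full N hd)
  have h2 : H708.red (_root_.Fermat.Agent.A2.Mod.RE P E) (H708.castA (_root_.Fermat.Agent.A2.Mod.RE P E) (qExpand ℤ d (jqModC ℤ))) =
      qExpand _ d (jqModC (IsLocalRing.ResidueField (_root_.Fermat.Agent.A2.Mod.RE P E))) := by
    rw [H708.red, H708.castA, coeffMap_coeffMap, coeffMap_qExpand, coeffMap_jqModC]
  rwa [h2] at h

/-- **Surjectivity of the reduction**: every element of `F_{N,k}` is a quotient of reductions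
of integral series of `F_N`. -/
theorem exists_lift {z : LaurentSeries (IsLocalRing.ResidueField (_root_.Fermat.Agent.A2.Mod.RE P E))}
    (hz : z ∈ modularFunctionFieldFullC (IsLocalRing.ResidueField (_root_.Fermat.Agent.A2.Mod.RE P E)) N) :
    IsRedQuot P E N z := by
  rw [Fermat.Agent.S37.H697.mem_fullC_iff] at hz
  induction hz using Subfield.closure_induction with
  | mem y hy =>
      rcases hy with ⟨a, rfl⟩ | ⟨d, hd, hdN, rfl⟩
      · exact isRedQuot_const a
      · haveI := hd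
        exact isRedQuot_jd hdN
  | one =>
      have h := isRedQuot_of_incl (P := P) (E := E) (N := N) (W := 1) (by
        rw [map_one]; exact one_mem _)
      rwa [map_one] at h
  | add x y _ _ hx hy => exact hx.add hy
  | neg x _ hx => exact hx.neg
  | inv x _ hx => exact hx.inv
  | mul x y _ _ hx hy => exact hx.mul hy

end lift

/-! ### the leaf -/

section kron

variable (P : ValuationSubring _root_.Fermat.Agent.A2.Mod.Qb) (E : IntermediateField ℚ _root_.Fermat.Agent.A2.Mod.Qb) (M q : ℕ) [NeZero M] [NeZero q]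
  (w : _root_.Fermat.Agent.A2.Mod.RE P E)

/-- a series over `R_E` with zero reduction is `w` times a series over `R_E` -/
theorem exists_incl_eq_cst_inv_mul (hdvr : IsDiscreteValuationRing (_root_.Fermat.Agent.A2.Mod.RE P E))
    (hw : Irreducible w) {X : LaurentSeries (_root_.Fermat.Agent.A2.Mod.RE P E)} (hX : H708.red (_root_.Fermat.Agent.A2.Mod.RE P E) X = 0) :
    ∃ X' : LaurentSeries (_root_.Fermat.Agent.A2.Mod.RE P E),
      H708.incl (_root_.Fermat.Agent.A2.Mod.RE P E) X' = H708.cst ((w : E)⁻¹) * H708.incl (_root_.Fermat.Agent.A2.Mod.RE P E) X := by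
  apply H708.exists_incl_eq
  intro n
  rw [H708.coeff_cst_mul, H708.coeff_incl]
  have h1 : X.coeff n ∈ IsLocalRing.maximalIdeal (_root_.Fermat.Agent.A2.Mod.RE P E) := by
    have := congrArg (fun z => z.coeff n) hX
    simpa only [coeffMap_coeff, HahnSeries.coeff_zero, IsLocalRing.residue_eq_zero_iff] using this
  rw [(IsDiscreteValuationRing.irreducible_iff_uniformizer w).mp hw,
    Ideal.mem_span_singleton'] at h1
  obtain ⟨y, hy⟩ := h1
  have hw0 : (w : E) ≠ 0 := fun h => hw.ne_zero (Subtype.ext h)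
  have h2 : ((X.coeff n : _root_.Fermat.Agent.A2.Mod.RE P E) : E) = (y : E) * (w : E) := by
    rw [← hy]; rfl
  rw [h2, mul_comm (y : E), ← mul_assoc, inv_mul_cancel₀ hw0, one_mul]
  exact y.2

/-- **L12 (Kronecker congruence, semilinear form).** -/
theorem kron : KronStatement P E M q w := by
  intro hS VM V hVM hV a ha
  haveI : Fact q.Prime := ⟨hS.q_prime⟩
  haveI : CharP (IsLocalRing.ResidueField (_root_.Fermat.Agent.A2.Mod.RE P E)) q := charP_residue P E hS.lies_over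
  haveI : PerfectField (IsLocalRing.ResidueField (_root_.Fermat.Agent.A2.Mod.RE P E)) :=
    perfectField_residue P E hS.lies_over
  haveI : ExpChar (IsLocalRing.ResidueField (_root_.Fermat.Agent.A2.Mod.RE P E)) q := ExpChar.prime hS.q_prime
  have core : Fermat.Agent.S28.CoreData M (IsLocalRing.ResidueField (_root_.Fermat.Agent.A2.Mod.RE P E)) :=
    Fermat.Agent.S18.H516.coreData_of_charP M q hS.q_not_dvd _
  -- the representation of `a`
  obtain ⟨U₁, U₂, hU₂r, hU₂m, hU⟩ := (hVM a).mp ha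
  have hU₁m : H708.incl (_root_.Fermat.Agent.A2.Mod.RE P E) U₁ ∈ _root_.Fermat.Agent.A2.Mod.FE E M := by
    rw [← hU]; exact mul_mem a.2 hU₂m
  have hu₁ := Fermat.Agent.S18.H516.red_mem_of_incl_mem (_root_.Fermat.Agent.A2.Mod.RE P E)
    (IsLocalRing.residue (_root_.Fermat.Agent.A2.Mod.RE P E)) M core hU₁m
  have hu₂ := Fermat.Agent.S18.H516.red_mem_of_incl_mem (_root_.Fermat.Agent.A2.Mod.RE P E)
    (IsLocalRing.residue (_root_.Fermat.Agent.A2.Mod.RE P E)) M core hU₂m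
  -- the twisted residue and its lift
  set u₁ := H708.red (_root_.Fermat.Agent.A2.Mod.RE P E) U₁ with hu₁def
  set u₂ := H708.red (_root_.Fermat.Agent.A2.Mod.RE P E) U₂ with hu₂def
  have hz : u₁ * u₂⁻¹ ∈ modularFunctionFieldFullC (IsLocalRing.ResidueField (_root_.Fermat.Agent.A2.Mod.RE P E)) M :=
    mul_mem hu₁ (inv_mem hu₂)
  set φ : IsLocalRing.ResidueField (_root_.Fermat.Agent.A2.Mod.RE P E) →+* IsLocalRing.ResidueField (_root_.Fermat.Agent.A2.Mod.RE P E) :=
    (frobeniusEquiv (IsLocalRing.ResidueField (_root_.Fermat.Agent.A2.Mod.RE P E)) q).symm.toRingHom with hφ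
  have hz' := Fermat.Agent.S37.H697.coeffMap_mem_fullC M φ hz
  obtain ⟨W₁, W₂, hW₁m, hW₂m, hW₂r, hW⟩ := exists_lift (P := P) (E := E) hz'
  set v₁ := H708.red (_root_.Fermat.Agent.A2.Mod.RE P E) W₁ with hv₁def
  set v₂ := H708.red (_root_.Fermat.Agent.A2.Mod.RE P E) W₂ with hv₂def
  have hW₂0 : H708.incl (_root_.Fermat.Agent.A2.Mod.RE P E) W₂ ≠ 0 :=
    H708.incl_ne_zero _ (H708.ne_zero_of_red_ne_zero _ hW₂r)
  -- the element `a'`
  refine ⟨⟨H708.incl (_root_.Fermat.Agent.A2.Mod.RE P E) W₁ * (H708.incl (_root_.Fermat.Agent.A2.Mod.RE P E) W₂)⁻¹,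
    mul_mem hW₁m (inv_mem hW₂m)⟩, (hVM _).mpr ⟨W₁, W₂, hW₂r, hW₂m, ?_⟩, ?_⟩
  · show H708.incl (_root_.Fermat.Agent.A2.Mod.RE P E) W₁ * (H708.incl (_root_.Fermat.Agent.A2.Mod.RE P E) W₂)⁻¹ * H708.incl (_root_.Fermat.Agent.A2.Mod.RE P E) W₂ = _
    rw [inv_mul_cancel_right₀ hW₂0]
  -- the congruence
  have hfrob : (ModularCurve.coeffMap φ (u₁ * u₂⁻¹)) ^ q = qExpand _ q (u₁ * u₂⁻¹) := by
    rw [Fermat.Agent.S37.H400.laurent_pow_char q, coeffMap_coeffMap]
    congr 1
    have : (frobenius (IsLocalRing.ResidueField (_root_.Fermat.Agent.A2.Mod.RE P E)) q).comp φ = RingHom.id _ := by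
      ext x
      simp [hφ]
    rw [this, coeffMap_id]
  have hred : H708.red (_root_.Fermat.Agent.A2.Mod.RE P E)
      (qExpand (_root_.Fermat.Agent.A2.Mod.RE P E) q U₁ * W₂ ^ q - W₁ ^ q * qExpand (_root_.Fermat.Agent.A2.Mod.RE P E) q U₂) = 0 := by
    rw [map_sub, map_mul, map_mul, map_pow, map_pow, coeffMap_qExpand, coeffMap_qExpand,
      ← hu₁def, ← hu₂def, ← hv₁def, ← hv₂def, ← hW, mul_pow, hfrob]
    have h1 : qExpand (IsLocalRing.ResidueField (_root_.Fermat.Agent.A2.Mod.RE P E)) q (u₁ * u₂⁻¹) *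
        qExpand _ q u₂ = qExpand _ q u₁ := by
      rw [← map_mul, inv_mul_cancel_right₀ hU₂r]
    rw [← h1]
    ring
  obtain ⟨X', hX'⟩ := exists_incl_eq_cst_inv_mul P E w hS.dvr hS.unif hred
  have hw0 : (w : E) ≠ 0 := fun h => hS.unif.ne_zero (Subtype.ext h)
  rw [InW, hV]
  refine ⟨X', qExpand (_root_.Fermat.Agent.A2.Mod.RE P E) q U₂ * W₂ ^ q, ?_, ?_, ?_⟩
  · rw [map_mul, map_pow, coeffMap_qExpand]
    exact mul_ne_zero (fun h => hU₂r (qExpand_injective q (h.trans (map_zero _).symm)))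
      (pow_ne_zero _ hW₂r)
  · rw [map_mul, map_pow, coeffMap_qExpand]
    refine mul_mem ?_ (pow_mem ?_ q)
    · exact (βE E M q ⟨_, hU₂m⟩).2
    · exact (αE E M q ⟨_, hW₂m⟩).2
  · rw [hX']
    simp only [map_sub, map_mul, map_pow, coeffMap_qExpand]
    have hAB : qExpand E q (a : LaurentSeries E) * qExpand E q (H708.incl (_root_.Fermat.Agent.A2.Mod.RE P E) U₂) =
        qExpand E q (H708.incl (_root_.Fermat.Agent.A2.Mod.RE P E) U₁) := by
      rw [← map_mul, hU]
    have h1 : (H708.incl (_root_.Fermat.Agent.A2.Mod.RE P E) W₁ * (H708.incl (_root_.Fermat.Agent.A2.Mod.RE P E) W₂)⁻¹) ^ q *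
        (H708.incl (_root_.Fermat.Agent.A2.Mod.RE P E) W₂) ^ q = (H708.incl (_root_.Fermat.Agent.A2.Mod.RE P E) W₁) ^ q := by
      rw [← mul_pow, inv_mul_cancel_right₀ hW₂0]
    have hc : ((cE P E (M * q) w : _root_.Fermat.Agent.A2.Mod.FE E (M * q)) : LaurentSeries E) = H708.cst (w : E) := rfl
    have hcinv : H708.cst ((w : E)⁻¹) = (H708.cst (w : E))⁻¹ := map_inv₀ _ _
    show (qExpand E q (a : LaurentSeries E) -
        (H708.incl (_root_.Fermat.Agent.A2.Mod.RE P E) W₁ * (H708.incl (_root_.Fermat.Agent.A2.Mod.RE P E) W₂)⁻¹) ^ q) *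
        ((cE P E (M * q) w : _root_.Fermat.Agent.A2.Mod.FE E (M * q)) : LaurentSeries E)⁻¹ * _ = _
    rw [hc, hcinv]
    linear_combination ((H708.cst (w : E))⁻¹ * (H708.incl (_root_.Fermat.Agent.A2.Mod.RE P E) W₂) ^ q) * hAB -
      ((H708.cst (w : E))⁻¹ * qExpand E q (H708.incl (_root_.Fermat.Agent.A2.Mod.RE P E) U₂)) * h1

end kron

end Fermat.Agent.A2.Mod.H485

end
end
-- ===== PACK-END A2/Mod/H485/Kron.lean

-- ===== PACK-BEGIN S35/H252/ExclGlue.lean
section
/-
S35, piece (X) (helper252): the tail glue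

  `ExclPolyStatement → Fermat.Agent.S35.H991.ExclTateStatement`.

Given a polynomial `t` in the Hecke operators away from `S` which kills the `p`-power torsion of
`J₀(M / q)` and with `t(a_ℓ(g)) ≠ 0`, an eigen-sequence `z n ∈ O' ⊗ J₀(M / q)` with the eigenvalues
of `g` satisfies `0 = t • z n = ι(t(a_ℓ(g))) • z n`; as `ι` is injective (integrality) the scalar is
a nonzero element of the discrete valuation ring `O'`, hence divides a power of `p`, and
`z n = p ^ k • z (n + k) = 0`.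
-/




set_option autoImplicit false

namespace Fermat.Agent.S35.H252

open TensorProduct CongruenceSubgroup

/-- A ring homomorphism from a domain which is integral over `ℤ` to a ring of characteristic
zero is injective. -/
theorem injective_of_isIntegral_int {A B : Type*} [CommRing A] [IsDomain A]
    [Algebra.IsIntegral ℤ A] [CommRing B] [CharZero B] (f : A →+* B) : Function.Injective f := by
  rw [RingHom.injective_iff_ker_eq_bot]
  apply Ideal.eq_bot_of_comap_eq_bot (R := ℤ)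
  rw [eq_bot_iff]
  intro n hn
  rw [Ideal.mem_comap, RingHom.mem_ker, eq_intCast, map_intCast] at hn
  rw [Ideal.mem_bot]
  exact_mod_cast hn

/-- In a discrete valuation ring every nonzero element divides a power of any element of the
maximal ideal. -/
theorem exists_pow_eq_mul_of_ne_zero {O : Type*} [CommRing O] [IsDomain O]
    [IsDiscreteValuationRing O] {π c : O} (hπ : π ∈ IsLocalRing.maximalIdeal O) (hc : c ≠ 0) :
    ∃ (k : ℕ) (d : O), π ^ k = d * c := by
  obtain ⟨ϖ, hϖ⟩ := IsDiscreteValuationRing.exists_irreducible O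
  obtain ⟨k, hk⟩ := IsDiscreteValuationRing.associated_pow_irreducible hc hϖ
  have h1 : ϖ ∣ π := by
    rw [hϖ.maximalIdeal_eq, Ideal.mem_span_singleton] at hπ
    exact hπ
  have h2 : c ∣ π ^ k := hk.dvd.trans (pow_dvd_pow_of_dvd h1 k)
  obtain ⟨d, hd⟩ := h2
  exact ⟨k, d, by rw [hd, mul_comm]⟩

/-- **(X), tail glue.** -/
theorem exclTate_of_poly (hX : ExclPolyStatement) :
    Fermat.Agent.S35.H991.ExclTateStatement := by
  classical
  intro M _ g hg q _ hq hqM p _ S O' _ _ _ _ _ _ hpO' chig hchig iota hpS hMS z hz0 hzs hzeig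
  have hp : p.Prime := Fact.out
  obtain ⟨h, t, hkill, htg⟩ := hX M g hg q hq hqM p S hp hpS hMS
  -- the index type and the good primes
  have hIM : ∀ i : {ℓ : Nat.Primes // (ℓ : ℕ) ∉ S}, ¬ ((i : Nat.Primes) : ℕ) ∣ M :=
    fun i hdvd => i.2 (hMS _ i.1.2 hdvd)
  have hIS : ∀ i : {ℓ : Nat.Primes // (ℓ : ℕ) ∉ S}, ((i : Nat.Primes) : ℕ) ∉ (↑S : Set ℕ) :=
    fun i hmem => i.2 (Finset.mem_coe.mp hmem)
  -- the evaluation at level `M`
  let evM : MvPolynomial {ℓ : Nat.Primes // (ℓ : ℕ) ∉ S} ℤ →ₐ[ℤ]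
      CuspForm.heckeAlgebra M 2 (↑S : Set ℕ) :=
    MvPolynomial.aeval fun i => CuspForm.heckeAlgebra.T i.1.2 (hIM i) (hIS i)
  let ψ : MvPolynomial {ℓ : Nat.Primes // (ℓ : ℕ) ∉ S} ℤ →+* O' :=
    (iota.comp chig.rangeRestrict).comp evM.toRingHom
  have hψX : ∀ i : {ℓ : Nat.Primes // (ℓ : ℕ) ∉ S},
      ψ (MvPolynomial.X i)
        = (iota.comp chig.rangeRestrict) (CuspForm.heckeAlgebra.T i.1.2 (hIM i) (hIS i)) := by
    intro i
    show (iota.comp chig.rangeRestrict) (evM (MvPolynomial.X i)) = _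
    rw [MvPolynomial.aeval_X]
  have hψC : ∀ a : ℤ, ψ (MvPolynomial.C a) = (a : O') := by
    intro a
    rw [← MvPolynomial.algebraMap_eq, eq_intCast, map_intCast]
  -- Claim 1: `t` acts on the eigen-sequence through `ψ`
  have claim1 : ∀ (s : MvPolynomial {ℓ : Nat.Primes // (ℓ : ℕ) ∉ S} ℤ) (n : ℕ),
      (ModularCurve.heckeEvalBar h (MvPolynomial.rename Subtype.val s)).baseChange O' (z n)
        = ψ s • z n := by
    intro s
    induction s using MvPolynomial.induction_on with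
    | C a =>
      intro n
      rw [MvPolynomial.rename_C, ModularCurve.heckeEvalBar_C, hψC]
      have h1 : ((a : Module.End ℤ (ModularCurve.JZero (M / q))))
          = a • (LinearMap.id : ModularCurve.JZero (M / q) →ₗ[ℤ] ModularCurve.JZero (M / q)) := by
        rw [← Module.End.one_eq_id, zsmul_one]
      rw [h1, LinearMap.baseChange_smul, LinearMap.baseChange_id, LinearMap.smul_apply,
        LinearMap.id_apply]
      exact (Int.cast_smul_eq_zsmul O' a (z n)).symm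
    | add s₁ s₂ h₁ h₂ =>
      intro n
      rw [map_add, map_add, LinearMap.baseChange_add, LinearMap.add_apply, h₁ n, h₂ n, map_add,
        add_smul]
    | mul_X s i hs =>
      intro n
      rw [map_mul, map_mul, MvPolynomial.rename_X]
      have h1 : ModularCurve.heckeEvalBar h (MvPolynomial.X (i : Nat.Primes))
          = ModularCurve.heckeOperatorBar (M / q) (i : Nat.Primes) :=
        ModularCurve.heckeEvalBar_heckeGen h (i : Nat.Primes)
      rw [h1, Module.End.mul_eq_comp, LinearMap.baseChange_comp, LinearMap.comp_apply]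
      have h2 : (ModularCurve.heckeOperatorBar (M / q) (i : Nat.Primes)).baseChange O' (z n)
          = (iota.comp chig.rangeRestrict)
              (CuspForm.heckeAlgebra.T i.1.2 (hIM i) (hIS i)) • z n :=
        hzeig i.1 i.1.2 (hIM i) (hIS i) n
      rw [h2, map_smul, hs n, map_mul, hψX i, smul_smul, mul_comm]
  -- Claim 2: `z n` is killed by `p ^ (n + 1)`
  have hzp : ∀ n : ℕ, ((p : O') ^ (n + 1)) • z n = 0 := by
    intro n
    induction n with
    | zero => rw [zero_add, pow_one]; exact hz0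
    | succ n ih => rw [pow_succ, mul_smul, hzs n]; exact ih
  have hzpZ : ∀ n : ℕ, ((p : ℤ) ^ (n + 1)) • z n = 0 := by
    intro n
    rw [← Int.cast_smul_eq_zsmul O' ((p : ℤ) ^ (n + 1)) (z n)]
    push_cast
    exact hzp n
  haveI : Module.Flat ℤ O' := inferInstance
  have claim2 : ∀ n : ℕ,
      (ModularCurve.heckeEvalBar h (MvPolynomial.rename Subtype.val t)).baseChange O' (z n)
        = 0 := fun n =>
    Fermat.Agent.S30.H529.baseChange_eq_zero_of_torsion O' ((p : ℤ) ^ (n + 1))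
      (ModularCurve.heckeEvalBar h (MvPolynomial.rename Subtype.val t))
      (fun y hy => hkill (n + 1) y hy) (z n) (hzpZ n)
  have hc0 : ∀ n : ℕ, ψ t • z n = 0 := fun n => by rw [← claim1 t n, claim2 n]
  -- `ψ t ≠ 0`
  have hchigev : ∀ s : MvPolynomial {ℓ : Nat.Primes // (ℓ : ℕ) ∉ S} ℤ,
      chig (evM s) = MvPolynomial.aeval (fun ℓ : {ℓ : Nat.Primes // (ℓ : ℕ) ∉ S} =>
        ModularFormClass.qCoeff g ((ℓ : Nat.Primes) : ℕ)) s := by
    intro s
    induction s using MvPolynomial.induction_on with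
    | C a =>
      rw [← MvPolynomial.algebraMap_eq, eq_intCast, map_intCast, map_intCast, map_intCast]
    | add s₁ s₂ h₁ h₂ => rw [map_add, map_add, map_add, h₁, h₂]
    | mul_X s i hs =>
      rw [map_mul, map_mul, map_mul, hs, MvPolynomial.aeval_X, MvPolynomial.aeval_X,
        hchig i.1 i.1.2 (hIM i) (hIS i)]
  haveI : Module.Finite ℤ (CuspForm.heckeAlgebra M 2 (↑S : Set ℕ)) :=
    Fermat.Agent.S22.result M 2 (↑S : Set ℕ)
  haveI : Algebra.IsIntegral ℤ (CuspForm.heckeAlgebra M 2 (↑S : Set ℕ)) := inferInstance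
  haveI : Algebra.IsIntegral ℤ chig.range := by
    refine ⟨fun y => ?_⟩
    obtain ⟨b, hb⟩ := chig.rangeRestrict_surjective y
    rw [← hb]
    exact (Algebra.IsIntegral.isIntegral (R := ℤ) b).map
      (chig.rangeRestrict.toIntAlgHom)
  have hinj : Function.Injective iota := injective_of_isIntegral_int iota
  have hψt : ψ t ≠ 0 := by
    intro h0
    have h1 : iota (chig.rangeRestrict (evM t)) = iota 0 := by rw [map_zero]; exact h0
    have h2 := hinj h1
    have h3 : chig (evM t) = 0 := congrArg Subtype.val h2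
    rw [hchigev t] at h3
    exact htg h3
  -- conclusion
  obtain ⟨k, d, hkd⟩ := exists_pow_eq_mul_of_ne_zero hpO' hψt
  have hpk : ∀ n : ℕ, ((p : O') ^ k) • z n = 0 := by
    intro n
    rw [hkd, mul_smul, hc0 n, smul_zero]
  have hshift : ∀ (j n : ℕ), ((p : O') ^ j) • z (n + j) = z n := by
    intro j
    induction j with
    | zero => intro n; rw [pow_zero, one_smul, add_zero]
    | succ j ih =>
      intro n
      rw [pow_succ, mul_smul, ← add_assoc, hzs (n + j)]
      exact ih n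
  funext n
  rw [← hshift k n, hpk (n + k)]
  rfl

end Fermat.Agent.S35.H252

end
-- ===== PACK-END S35/H252/ExclGlue.lean

-- ===== PACK-BEGIN S36/H630/ChartChange.lean
section



/-!
# S36 engine, LABEL core (helper630), part 12: change of chart

`B`, `B'` two charts of `F` (`B = chart R {x}`, `B' = chart R {x⁻¹}`), `y ∈ B'` (`y = x⁻¹`) such
that every element of `B` lands in `B'` after multiplication by a power of `y`
(`B[y] = B'[y⁻¹]`).  A closed point `n'` of `B'` with `y ∉ n'` is also a closed point of `B`: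

* `backIdeal`            : the ideal `n = {b ∈ B | y ^ k b ∈ n'}` of `B`;
* `mem_backIdeal_iff`    : `b ∈ n ↔ y ^ k b ∈ n'` for EVERY `k` with `y ^ k b ∈ B'`;
* `backIdeal_rat`        : `n` is rational if `n'` is;
* `backIdeal_isMaximal`  : `n` is maximal;
* `pure_back`            : a purity datum at `n'` gives a purity datum at `n`;
* `LabelAt.of_back`      : a label datum at `n` gives a label datum at `n'`.
-/

set_option autoImplicit false
set_option linter.unusedSectionVars false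

namespace Fermat.Agent.S36.H630

variable {R : Type*} [CommRing R] {F : Type*} [Field F] [Algebra R F]

section Back

variable {B B' : Subalgebra R F} {n' : Ideal B'} {y : F}

/-- transport of membership along an equality of underlying elements -/
theorem mem_congr_val {c c' : B'} (hcc : (c : F) = (c' : F)) (h : c ∈ n') : c' ∈ n' := by
  have : c = c' := Subtype.ext hcc
  rwa [← this]

/-- The closed point of `B` defined by the closed point `n'` of `B'`. -/
def backIdeal (B : Subalgebra R F) (n' : Ideal B') (y : F) (hy : y ∈ B')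
    (hclear : ∀ b : B, ∃ k : ℕ, y ^ k * (b : F) ∈ B') : Ideal B where
  carrier := {b | ∃ (k : ℕ) (h : y ^ k * (b : F) ∈ B'), (⟨_, h⟩ : B') ∈ n'}
  zero_mem' := by
    refine ⟨0, ?_, ?_⟩
    · rw [ZeroMemClass.coe_zero, mul_zero]
      exact B'.zero_mem
    · refine mem_congr_val ?_ n'.zero_mem
      show ((0 : B') : F) = y ^ 0 * ((0 : B) : F)
      rw [ZeroMemClass.coe_zero, ZeroMemClass.coe_zero, mul_zero]
  add_mem' := by
    rintro a b ⟨k₁, h₁, m₁⟩ ⟨k₂, h₂, m₂⟩
    have e : y ^ (k₁ + k₂) * ((a + b : B) : F)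
        = y ^ k₂ * (y ^ k₁ * (a : F)) + y ^ k₁ * (y ^ k₂ * (b : F)) := by
      push_cast
      ring
    have hmem : y ^ k₂ * (y ^ k₁ * (a : F)) + y ^ k₁ * (y ^ k₂ * (b : F)) ∈ B' :=
      B'.add_mem (B'.mul_mem (B'.pow_mem hy k₂) h₁) (B'.mul_mem (B'.pow_mem hy k₁) h₂)
    refine ⟨k₁ + k₂, by rw [e]; exact hmem, ?_⟩
    have h3 : (⟨y, hy⟩ : B') ^ k₂ * ⟨_, h₁⟩ + (⟨y, hy⟩ : B') ^ k₁ * ⟨_, h₂⟩ ∈ n' :=
      n'.add_mem (n'.mul_mem_left _ m₁) (n'.mul_mem_left _ m₂)
    refine mem_congr_val ?_ h3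
    show _ = y ^ (k₁ + k₂) * ((a + b : B) : F)
    rw [e]
    simp only [Subalgebra.coe_add, Subalgebra.coe_mul, Subalgebra.coe_pow]
  smul_mem' := by
    rintro c a ⟨k, h, hm⟩
    obtain ⟨j, hj⟩ := hclear c
    have e : y ^ (j + k) * ((c • a : B) : F) = (y ^ j * (c : F)) * (y ^ k * (a : F)) := by
      rw [smul_eq_mul]
      push_cast
      ring
    refine ⟨j + k, by rw [e]; exact B'.mul_mem hj h, ?_⟩
    have h3 : (⟨_, hj⟩ : B') * ⟨_, h⟩ ∈ n' := n'.mul_mem_left _ hm
    refine mem_congr_val ?_ h3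
    show _ = y ^ (j + k) * ((c • a : B) : F)
    rw [e]
    simp only [Subalgebra.coe_mul]

variable (hy : y ∈ B') (hclear : ∀ b : B, ∃ k : ℕ, y ^ k * (b : F) ∈ B')

/-- Membership in `backIdeal` can be tested with any exponent. -/
theorem mem_backIdeal_iff [hn' : n'.IsPrime] (hyn : (⟨y, hy⟩ : B') ∉ n') (b : B) (k : ℕ)
    (h : y ^ k * (b : F) ∈ B') :
    b ∈ backIdeal B n' y hy hclear ↔ (⟨_, h⟩ : B') ∈ n' := by
  constructor
  · rintro ⟨k', h', hm⟩
    have h3 : (⟨y, hy⟩ : B') ^ k * ⟨_, h'⟩ ∈ n' := n'.mul_mem_left _ hm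
    have h4 : (⟨y, hy⟩ : B') ^ k' * ⟨_, h⟩ ∈ n' := by
      refine mem_congr_val ?_ h3
      simp only [Subalgebra.coe_mul, Subalgebra.coe_pow]
      ring
    rcases hn'.mem_or_mem h4 with h5 | h5
    · exact absurd (hn'.mem_of_pow_mem k' h5) hyn
    · exact h5
  · intro hm
    exact ⟨k, h, hm⟩

/-- `R`-constants: `algebraMap R B r ∈ n ↔ algebraMap R B' r ∈ n'`. -/
theorem algebraMap_mem_backIdeal_iff [hn' : n'.IsPrime] (hyn : (⟨y, hy⟩ : B') ∉ n') (r : R) :
    algebraMap R B r ∈ backIdeal B n' y hy hclear ↔ algebraMap R B' r ∈ n' := by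
  have h : y ^ 0 * ((algebraMap R B r : B) : F) ∈ B' := by
    rw [pow_zero, one_mul]
    exact B'.algebraMap_mem r
  rw [mem_backIdeal_iff hy hclear hyn _ 0 h]
  constructor
  · intro h1
    refine mem_congr_val ?_ h1
    show y ^ 0 * ((algebraMap R B r : B) : F) = ((algebraMap R B' r : B') : F)
    rw [pow_zero, one_mul]
    rfl
  · intro h1
    refine mem_congr_val ?_ h1
    show ((algebraMap R B' r : B') : F) = y ^ 0 * ((algebraMap R B r : B) : F)
    rw [pow_zero, one_mul]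
    rfl

theorem backIdeal_ne_top [hn' : n'.IsPrime] (hyn : (⟨y, hy⟩ : B') ∉ n') :
    backIdeal B n' y hy hclear ≠ ⊤ := by
  intro htop
  have h1 : (1 : B) ∈ backIdeal B n' y hy hclear := by
    rw [htop]
    exact Submodule.mem_top
  have h : y ^ 0 * (((1 : B) : B) : F) ∈ B' := by
    rw [pow_zero, one_mul]
    exact B'.one_mem
  rw [mem_backIdeal_iff hy hclear hyn _ 0 h] at h1
  apply hn'.ne_top
  rw [Ideal.eq_top_iff_one]
  refine mem_congr_val ?_ h1
  show y ^ 0 * ((1 : B) : F) = ((1 : B') : F)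
  rw [pow_zero, one_mul]
  rfl

/-- **Rationality passes to the other chart.** -/
theorem backIdeal_rat [IsLocalRing R] [hn' : n'.IsPrime] (hyn : (⟨y, hy⟩ : B') ∉ n')
    (h𝔪n' : ∀ r ∈ IsLocalRing.maximalIdeal R, algebraMap R B' r ∈ n')
    (hrat' : ∀ c : B', ∃ r : R, c - algebraMap R B' r ∈ n') (b : B) :
    ∃ r : R, b - algebraMap R B r ∈ backIdeal B n' y hy hclear := by
  obtain ⟨k, h⟩ := hclear b
  obtain ⟨r, hr⟩ := hrat' ⟨_, h⟩
  obtain ⟨r₀, hr₀⟩ := hrat' ⟨y, hy⟩
  have hr₀u : IsUnit r₀ := by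
    by_contra hnu
    have h1 : r₀ ∈ IsLocalRing.maximalIdeal R := (IsLocalRing.mem_maximalIdeal r₀).2 hnu
    apply hyn
    have h2 : (⟨y, hy⟩ : B') = (⟨y, hy⟩ - algebraMap R B' r₀) + algebraMap R B' r₀ := by ring
    rw [h2]
    exact n'.add_mem hr₀ (h𝔪n' r₀ h1)
  obtain ⟨s₀, hs₀⟩ := hr₀u.exists_right_inv
  -- `s₀ y ≡ 1`
  have h1 : algebraMap R B' s₀ * (⟨y, hy⟩ : B') - 1 ∈ n' := by
    have : algebraMap R B' s₀ * (⟨y, hy⟩ : B') - 1
        = algebraMap R B' s₀ * (⟨y, hy⟩ - algebraMap R B' r₀) := by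
      have h2 : algebraMap R B' s₀ * algebraMap R B' r₀ = 1 := by
        rw [← map_mul, mul_comm, hs₀, map_one]
      linear_combination h2
    rw [this]
    exact n'.mul_mem_left _ hr₀
  have h2 : (algebraMap R B' s₀ * (⟨y, hy⟩ : B')) ^ k - 1 ∈ n' := by
    have := pow_sub_pow_mem_ideal n' h1 k
    rwa [one_pow] at this
  refine ⟨r * s₀ ^ k, ?_⟩
  have hmem : y ^ k * (((b - algebraMap R B (r * s₀ ^ k) : B) : B) : F) ∈ B' := by
    have e : y ^ k * (((b - algebraMap R B (r * s₀ ^ k) : B) : B) : F)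
        = y ^ k * (b : F) - algebraMap R F (r * s₀ ^ k) * y ^ k := by
      simp only [Subalgebra.coe_sub, Subalgebra.coe_algebraMap]
      ring
    rw [e]
    exact B'.sub_mem h (B'.mul_mem (B'.algebraMap_mem _) (B'.pow_mem hy k))
  rw [mem_backIdeal_iff hy hclear hyn _ k hmem]
  have h3 : ((⟨_, h⟩ : B') - algebraMap R B' r)
      - algebraMap R B' r * ((algebraMap R B' s₀ * (⟨y, hy⟩ : B')) ^ k - 1) ∈ n' :=
    n'.sub_mem hr (n'.mul_mem_left _ h2)
  refine mem_congr_val ?_ h3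
  simp only [Subalgebra.coe_sub, Subalgebra.coe_mul, Subalgebra.coe_pow,
    Subalgebra.coe_algebraMap, Subalgebra.coe_one, map_mul, map_pow]
  ring

/-- **The point of `B` is closed.** -/
theorem backIdeal_isMaximal [IsLocalRing R] [hn' : n'.IsPrime] (hyn : (⟨y, hy⟩ : B') ∉ n')
    (h𝔪n' : ∀ r ∈ IsLocalRing.maximalIdeal R, algebraMap R B' r ∈ n')
    (hrat' : ∀ c : B', ∃ r : R, c - algebraMap R B' r ∈ n') :
    (backIdeal B n' y hy hclear).IsMaximal := by
  rw [Ideal.isMaximal_iff]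
  refine ⟨fun h1 => backIdeal_ne_top hy hclear hyn ((Ideal.eq_top_iff_one _).2 h1), ?_⟩
  intro J b hle hbn hbJ
  obtain ⟨r, hr⟩ := backIdeal_rat hy hclear hyn h𝔪n' hrat' b
  have hrJ : algebraMap R B r ∈ J := by
    have : algebraMap R B r = b - (b - algebraMap R B r) := by ring
    rw [this]
    exact J.sub_mem hbJ (hle hr)
  have hru : IsUnit r := by
    by_contra hnu
    have h1 : r ∈ IsLocalRing.maximalIdeal R := (IsLocalRing.mem_maximalIdeal r).2 hnu
    apply hbn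
    have h2 : b = (b - algebraMap R B r) + algebraMap R B r := by ring
    rw [h2]
    exact Ideal.add_mem _ hr
      ((algebraMap_mem_backIdeal_iff hy hclear hyn r).2 (h𝔪n' r h1))
  obtain ⟨s, hs⟩ := hru.exists_right_inv
  have : (1 : B) = algebraMap R B r * algebraMap R B s := by
    rw [← map_mul, hs, map_one]
  rw [this]
  exact J.mul_mem_right _ hrJ

/-- A sheet through `n'` passes through the point of `B`. -/
theorem passThrough_back [hn' : n'.IsPrime] (hyn : (⟨y, hy⟩ : B') ∉ n')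
    {V : ValuationSubring F} (hyV : y ∈ V) (hth : PassThrough B' n' V) :
    PassThrough B (backIdeal B n' y hy hclear) V := by
  intro b hb
  obtain ⟨k, h⟩ := hclear b
  rw [mem_backIdeal_iff hy hclear hyn b k h]
  exact hth _ (vnu_mul_left V hb (V.pow_mem hyV k))

/-- **A purity datum at `n'` gives a purity datum at the point of `B`.** -/
theorem pure_back [hn' : n'.IsPrime] (hyn : (⟨y, hy⟩ : B') ∉ n')
    (hyinv : y⁻¹ ∈ B) (hclear' : ∀ c : B', ∃ k : ℕ, y⁻¹ ^ k * (c : F) ∈ B)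
    {m : ℕ} {u : F}
    (h : ∃ (d : F) (a₀ s₀ : B'), a₀ ∉ n' ∧ s₀ ∉ n' ∧ u * d ^ m * (s₀ : F) = a₀) :
    ∃ (d : F) (a₀ s₀ : B), a₀ ∉ backIdeal B n' y hy hclear ∧
      s₀ ∉ backIdeal B n' y hy hclear ∧ u * d ^ m * (s₀ : F) = a₀ := by
  obtain ⟨d, a₀, s₀, ha₀, hs₀, hpure⟩ := h
  have hy0 : y ≠ 0 := by
    rintro rfl
    apply hyn
    have : (⟨0, hy⟩ : B') = 0 := rfl
    rw [this]
    exact n'.zero_mem
  obtain ⟨k₁, h₁⟩ := hclear' a₀
  obtain ⟨k₂, h₂⟩ := hclear' s₀
  have ha : y⁻¹ ^ (k₁ + k₂) * (a₀ : F) ∈ B := by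
    have : y⁻¹ ^ (k₁ + k₂) * (a₀ : F) = y⁻¹ ^ k₂ * (y⁻¹ ^ k₁ * (a₀ : F)) := by ring
    rw [this]
    exact B.mul_mem (B.pow_mem hyinv k₂) h₁
  have hs : y⁻¹ ^ (k₁ + k₂) * (s₀ : F) ∈ B := by
    have : y⁻¹ ^ (k₁ + k₂) * (s₀ : F) = y⁻¹ ^ k₁ * (y⁻¹ ^ k₂ * (s₀ : F)) := by ring
    rw [this]
    exact B.mul_mem (B.pow_mem hyinv k₁) h₂
  have hcancel : ∀ c : F, y ^ (k₁ + k₂) * (y⁻¹ ^ (k₁ + k₂) * c) = c := by
    intro c
    rw [← mul_assoc, ← mul_pow, mul_inv_cancel₀ hy0, one_pow, one_mul]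
  refine ⟨d, ⟨_, ha⟩, ⟨_, hs⟩, ?_, ?_, ?_⟩
  · have h3 : y ^ (k₁ + k₂) * (((⟨_, ha⟩ : B) : B) : F) ∈ B' := by
      rw [hcancel]
      exact a₀.2
    rw [mem_backIdeal_iff hy hclear hyn _ (k₁ + k₂) h3]
    intro h4
    apply ha₀
    exact mem_congr_val (hcancel _) h4
  · have h3 : y ^ (k₁ + k₂) * (((⟨_, hs⟩ : B) : B) : F) ∈ B' := by
      rw [hcancel]
      exact s₀.2
    rw [mem_backIdeal_iff hy hclear hyn _ (k₁ + k₂) h3]
    intro h4
    apply hs₀
    exact mem_congr_val (hcancel _) h4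
  · show u * d ^ m * (y⁻¹ ^ (k₁ + k₂) * (s₀ : F)) = y⁻¹ ^ (k₁ + k₂) * (a₀ : F)
    rw [← hpure]
    ring

include hy hclear in
/-- two elements of `B` are moved into `B'` by a common power of `y` -/
theorem exists_clear₂ (a b : B) :
    ∃ k : ℕ, y ^ k * (a : F) ∈ B' ∧ y ^ k * (b : F) ∈ B' := by
  obtain ⟨k₁, h₁⟩ := hclear a
  obtain ⟨k₂, h₂⟩ := hclear b
  refine ⟨k₁ + k₂, ?_, ?_⟩
  · have : y ^ (k₁ + k₂) * (a : F) = y ^ k₂ * (y ^ k₁ * (a : F)) := by ring
    rw [this]
    exact B'.mul_mem (B'.pow_mem hy k₂) h₁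
  · have : y ^ (k₁ + k₂) * (b : F) = y ^ k₁ * (y ^ k₂ * (b : F)) := by ring
    rw [this]
    exact B'.mul_mem (B'.pow_mem hy k₁) h₂

/-- **Values pass to the other chart.** -/
theorem ValAt.of_back [hn' : n'.IsPrime] (hyn : (⟨y, hy⟩ : B') ∉ n')
    {V : ValuationSubring F} (hyV : y ∈ V) {d : F} {η : R}
    (h : ValAt B (backIdeal B n' y hy hclear) V d η) : ValAt B' n' V d η := by
  obtain ⟨a, b, hb, hV, hn⟩ := h
  obtain ⟨k, hka, hkb⟩ := exists_clear₂ hy hclear a b
  refine ⟨⟨_, hka⟩, ⟨_, hkb⟩, ?_, ?_, ?_⟩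
  · intro h1
    exact hb ((mem_backIdeal_iff hy hclear hyn b k hkb).2 h1)
  · have : y ^ k * (b : F) * d - y ^ k * (a : F) = y ^ k * ((b : F) * d - (a : F)) := by ring
    show y ^ k * (b : F) * d - y ^ k * (a : F) ∈ V.nonunits
    rw [this]
    exact vnu_mul_left V hV (V.pow_mem hyV k)
  · have hmem : y ^ k * (((a - algebraMap R B η * b : B) : B) : F) ∈ B' := by
      have e : y ^ k * (((a - algebraMap R B η * b : B) : B) : F)
          = y ^ k * (a : F) - algebraMap R F η * (y ^ k * (b : F)) := by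
        simp only [Subalgebra.coe_sub, Subalgebra.coe_mul, Subalgebra.coe_algebraMap]
        ring
      rw [e]
      exact B'.sub_mem hka (B'.mul_mem (B'.algebraMap_mem _) hkb)
    have h1 := (mem_backIdeal_iff hy hclear hyn _ k hmem).1 hn
    refine mem_congr_val ?_ h1
    simp only [Subalgebra.coe_sub, Subalgebra.coe_mul, Subalgebra.coe_algebraMap]
    ring

/-- **The label datum passes to the other chart.** -/
theorem LabelAt.of_back [hn' : n'.IsPrime] (hyn : (⟨y, hy⟩ : B') ∉ n')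
    {𝒱 : Set (ValuationSubring F)} (hyV : ∀ V ∈ 𝒱, y ∈ V) {m : ℕ} {u : F} {ζ : R}
    {κ : ValuationSubring F → ℕ}
    (h : LabelAt B (backIdeal B n' y hy hclear) 𝒱 m u ζ κ) : LabelAt B' n' 𝒱 m u ζ κ := by
  obtain ⟨d, a₀, s₀, η₀, hd0, hs₀, hpure, hη₀, hval⟩ := h
  obtain ⟨k, hka, hks⟩ := exists_clear₂ hy hclear a₀ s₀
  refine ⟨d, ⟨_, hka⟩, ⟨_, hks⟩, η₀, hd0, ?_, ?_, ?_, ?_⟩
  · intro h1
    exact hs₀ ((mem_backIdeal_iff hy hclear hyn s₀ k hks).2 h1)
  · show u * d ^ m * (y ^ k * (s₀ : F)) = y ^ k * (a₀ : F)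
    rw [← hpure]
    ring
  · intro h1
    exact hη₀ ((algebraMap_mem_backIdeal_iff hy hclear hyn η₀).2 h1)
  · intro V hV hth
    exact (hval V hV (passThrough_back hy hclear hyn (hyV V hV) hth)).of_back hy hclear hyn
      (hyV V hV)

end Back

end Fermat.Agent.S36.H630

end
-- ===== PACK-END S36/H630/ChartChange.lean

-- ===== PACK-BEGIN S36/H890/Haupt9.lean
section


/-!
# The Hauptmodul `t₉` of `Γ₀(9)` (helper890, S36 cell REG: elliptic points, `q = 2`)

`t₉ = η(z)³/η(9z)³ = t⁻¹ ∏ (1 - tⁿ)³/(1 - t⁹ⁿ)³ = t⁻¹ - 3 + 5 t² - 7 t⁵ + …`, obtained here WITHOUT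
any new modular input from helper637's level-3 relations (`Lib/Haupt`).  With `A = t₃`,
`B = t₃(t³)`:

  `t₉ := (A² B + 18 A B + 27 B + 1458 A) / (A B - 243 A + 9 B + 729)`.

Mirror of helper878's `S36/H878/Haupt4.lean` (level 4, odd `q`).  Write `Q(T) = T² + 9 T + 27`.

* `t9_cube`    : `t₃ · Q(t₉) = t₉³`;
* `t3e_eq`     : `t₃(t³) = t₉ · Q(t₉)`;
* `t9_mul`     : the definition, `t₉ · (A B - 243 A + 9 B + 729) = A² B + 18 A B + 27 B + 1458 A`;
* `jq_mul_t9`  : `j · t₉⁹ Q(t₉) = (t₉ + 9)³ (t₉³ + 243 Q(t₉))³`;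
* `jq_sub_1728_mul_t9` : `(j - 1728) · t₉⁹ Q(t₉) = (t₉⁶ - 486 t₉³ Q(t₉) - 19683 Q(t₉)²)²`;
* `t9_mul_cofactor`, `t9_quad_mul_cofactor` : `t₉ ∣ 3³⁰` and `Q(t₉) ∣ 3¹⁸` in `ℤ[j, t₉]`
  (so `t₉`, `Q(t₉)` are units of every chart on which `3` is invertible);
* `t9_mem_fullC`, `t9_mem_full`, `t9_mem_laurentBaseChange` : `t₉ ∈ K(j_d : d ∣ M)` for `9 ∣ M`;
* `coeffMap_t9` : compatibility with change of coefficients.

`X₀(9)` has no elliptic points, and `t₉` is a local coordinate at every non-cuspidal point of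
`X₀(9 M')` in every characteristic `≠ 3`: see `Theta9.lean` for `(θ t₉)⁶ t₉³ = Δ Q(t₉)⁵`.
-/

set_option autoImplicit false

noncomputable section

namespace Fermat.Agent.S36.H890

open PowerSeries ModularCurve Fermat.Agent.Lib.Haupt

/-! ## Integral power series -/

/-- `X³ · t₃(X³)`. -/
abbrev T3e : PowerSeries ℤ := ex 3 T3

theorem constantCoeff_T3e : constantCoeff T3e = 1 := by
  rw [T3e, constantCoeff_ex, constantCoeff_T3]

/-- `j(X³) · (X³ t₃(X³))³ = (X³ t₃(X³) + 27 X³) (X³ t₃(X³) + 243 X³)³`. -/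
theorem T3e_rel :
    ex 3 ModularCurve.jNum * T3e ^ 3 = (T3e + C 27 * X ^ 3) * (T3e + C 243 * X ^ 3) ^ 3 := by
  have h := congrArg (ex 3) T3_rel₁
  simp only [ex, map_mul, map_pow, map_add, PowerSeries.expand_X, PowerSeries.expand_C] at h
  exact h

theorem T3_mul_T3e_sub_ne_zero : T3 * T3e - C 729 * X ^ 4 ≠ 0 := by
  intro h
  have := congrArg constantCoeff h
  simp [constantCoeff_T3] at this

/-- The modular equation of `X₀(9)` in terms of `a = X t₃`, `b = X³ t₃(X³)`: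
`b³ = (a³ + 36 X a² + 270 X² a) b² + (729 X⁴ a² + 26244 X⁵ a) b + 531441 X⁸ a`. -/
theorem T3_T3e_rel :
    T3e ^ 3 = (T3 ^ 3 + C 36 * (X * T3 ^ 2) + C 270 * (X ^ 2 * T3)) * T3e ^ 2
      + (C 729 * (X ^ 4 * T3 ^ 2) + C 26244 * (X ^ 5 * T3)) * T3e
      + C 531441 * (X ^ 8 * T3) := by
  have h1 := T3_rel₂
  have h2 := T3e_rel
  have e3 : (C (3 : ℤ) : PowerSeries ℤ) = 3 := map_ofNat C 3
  have e27 : (C (27 : ℤ) : PowerSeries ℤ) = 27 := map_ofNat C 27
  have e36 : (C (36 : ℤ) : PowerSeries ℤ) = 36 := map_ofNat C 36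
  have e243 : (C (243 : ℤ) : PowerSeries ℤ) = 243 := map_ofNat C 243
  have e270 : (C (270 : ℤ) : PowerSeries ℤ) = 270 := map_ofNat C 270
  have e729 : (C (729 : ℤ) : PowerSeries ℤ) = 729 := map_ofNat C 729
  have e26244 : (C (26244 : ℤ) : PowerSeries ℤ) = 26244 := map_ofNat C 26244
  have e531441 : (C (531441 : ℤ) : PowerSeries ℤ) = 531441 := map_ofNat C 531441
  rw [e3, e27] at h1
  rw [e27, e243] at h2
  rw [e36, e270, e729, e26244, e531441]
  have hne := T3_mul_T3e_sub_ne_zero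
  rw [e729] at hne
  have key : (T3 * T3e - 729 * X ^ 4) *
      (T3e ^ 3 - ((T3 ^ 3 + 36 * (X * T3 ^ 2) + 270 * (X ^ 2 * T3)) * T3e ^ 2
        + (729 * (X ^ 4 * T3 ^ 2) + 26244 * (X ^ 5 * T3)) * T3e
        + 531441 * (X ^ 8 * T3))) = 0 := by
    linear_combination T3e ^ 3 * h1 - T3 * h2
  rcases mul_eq_zero.1 key with h | h
  · exact absurd h hne
  · exact sub_eq_zero.1 h

/-- Numerator of `X t₉`. -/
def N9 : PowerSeries ℤ :=
  T3 ^ 2 * T3e + C 18 * (X * (T3 * T3e)) + C 27 * (X ^ 2 * T3e) + C 1458 * (X ^ 4 * T3)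

/-- Denominator of `X t₉`. -/
def D9 : PowerSeries ℤ :=
  T3 * T3e - C 243 * (X ^ 3 * T3) + C 9 * (X * T3e) + C 729 * X ^ 4

theorem constantCoeff_N9 : constantCoeff N9 = 1 := by
  simp [N9, constantCoeff_T3]

theorem constantCoeff_D9 : constantCoeff D9 = 1 := by
  simp [D9, constantCoeff_T3]

theorem D9_ne_zero : D9 ≠ 0 := fun h => by
  have := constantCoeff_D9; rw [h, map_zero] at this; exact zero_ne_one this

/-- `X · t₉`, an integral power series with constant coefficient `1`. -/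
def T9 : PowerSeries ℤ := N9 * D9.invOfUnit 1

theorem T9_mul : T9 * D9 = N9 := by
  have hu : D9 * D9.invOfUnit 1 = 1 :=
    PowerSeries.mul_invOfUnit _ _ (by rw [constantCoeff_D9]; rfl)
  rw [T9]
  linear_combination N9 * hu

theorem constantCoeff_T9 : constantCoeff T9 = 1 := by
  have h := congrArg constantCoeff T9_mul
  simpa [constantCoeff_N9, constantCoeff_D9] using h

/-- `X² Q(t₉)`, `Q(T) = T² + 9 T + 27`. -/
abbrev Q9 : PowerSeries ℤ := T9 ^ 2 + C 9 * (X * T9) + C 27 * X ^ 2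

theorem constantCoeff_Q9 : constantCoeff Q9 = 1 := by
  simp [Q9, constantCoeff_T9]

/-- `t₃ · Q(t₉) = t₉³`. -/
theorem T9_cube : T3 * Q9 = T9 ^ 3 := by
  have h := T9_mul
  have hr := T3_T3e_rel
  have e9 : (C (9 : ℤ) : PowerSeries ℤ) = 9 := map_ofNat C 9
  have e18 : (C (18 : ℤ) : PowerSeries ℤ) = 18 := map_ofNat C 18
  have e27 : (C (27 : ℤ) : PowerSeries ℤ) = 27 := map_ofNat C 27
  have e36 : (C (36 : ℤ) : PowerSeries ℤ) = 36 := map_ofNat C 36
  have e243 : (C (243 : ℤ) : PowerSeries ℤ) = 243 := map_ofNat C 243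
  have e270 : (C (270 : ℤ) : PowerSeries ℤ) = 270 := map_ofNat C 270
  have e729 : (C (729 : ℤ) : PowerSeries ℤ) = 729 := map_ofNat C 729
  have e1458 : (C (1458 : ℤ) : PowerSeries ℤ) = 1458 := map_ofNat C 1458
  have e26244 : (C (26244 : ℤ) : PowerSeries ℤ) = 26244 := map_ofNat C 26244
  have e531441 : (C (531441 : ℤ) : PowerSeries ℤ) = 531441 := map_ofNat C 531441
  have hne := D9_ne_zero
  rw [N9, D9, e9, e18, e27, e243, e729, e1458] at h
  rw [D9, e9, e243, e729] at hne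
  rw [e36, e270, e729, e26244, e531441] at hr
  rw [Q9, e9, e27]
  apply mul_right_cancel₀ (pow_ne_zero 3 hne)
  generalize T9 = τ at h ⊢
  generalize T3 = a at h hr ⊢
  generalize T3e = b at h hr ⊢
  generalize (X : PowerSeries ℤ) = x at h hr ⊢
  linear_combination
    (a * (a * b - 243 * (x ^ 3 * a) + 9 * (x * b) + 729 * x ^ 4)
        * ((τ * (a * b - 243 * (x ^ 3 * a) + 9 * (x * b) + 729 * x ^ 4)
            + (a ^ 2 * b + 18 * (x * (a * b)) + 27 * (x ^ 2 * b) + 1458 * (x ^ 4 * a)))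
          + 9 * x * (a * b - 243 * (x ^ 3 * a) + 9 * (x * b) + 729 * x ^ 4))
      - ((τ * (a * b - 243 * (x ^ 3 * a) + 9 * (x * b) + 729 * x ^ 4)) ^ 2
          + (τ * (a * b - 243 * (x ^ 3 * a) + 9 * (x * b) + 729 * x ^ 4))
            * (a ^ 2 * b + 18 * (x * (a * b)) + 27 * (x ^ 2 * b) + 1458 * (x ^ 4 * a))
          + (a ^ 2 * b + 18 * (x * (a * b)) + 27 * (x ^ 2 * b) + 1458 * (x ^ 4 * a)) ^ 2)) * h
    - (-243 * x ^ 3 * a ^ 3 - 5103 * x ^ 4 * a ^ 2 - 6561 * x ^ 5 * a + 19683 * x ^ 6) * hr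

/-- `t₃(t³) = t₉ · Q(t₉)`. -/
theorem T3e_eq : T3e = T9 * Q9 := by
  have h := T9_mul
  have hr := T3_T3e_rel
  have e9 : (C (9 : ℤ) : PowerSeries ℤ) = 9 := map_ofNat C 9
  have e18 : (C (18 : ℤ) : PowerSeries ℤ) = 18 := map_ofNat C 18
  have e27 : (C (27 : ℤ) : PowerSeries ℤ) = 27 := map_ofNat C 27
  have e36 : (C (36 : ℤ) : PowerSeries ℤ) = 36 := map_ofNat C 36
  have e243 : (C (243 : ℤ) : PowerSeries ℤ) = 243 := map_ofNat C 243
  have e270 : (C (270 : ℤ) : PowerSeries ℤ) = 270 := map_ofNat C 270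
  have e729 : (C (729 : ℤ) : PowerSeries ℤ) = 729 := map_ofNat C 729
  have e1458 : (C (1458 : ℤ) : PowerSeries ℤ) = 1458 := map_ofNat C 1458
  have e26244 : (C (26244 : ℤ) : PowerSeries ℤ) = 26244 := map_ofNat C 26244
  have e531441 : (C (531441 : ℤ) : PowerSeries ℤ) = 531441 := map_ofNat C 531441
  have hne := D9_ne_zero
  rw [N9, D9, e9, e18, e27, e243, e729, e1458] at h
  rw [D9, e9, e243, e729] at hne
  rw [e36, e270, e729, e26244, e531441] at hr
  rw [Q9, e9, e27]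
  apply mul_right_cancel₀ (pow_ne_zero 3 hne)
  generalize T9 = τ at h ⊢
  generalize T3 = a at h hr ⊢
  generalize T3e = b at h hr ⊢
  generalize (X : PowerSeries ℤ) = x at h hr ⊢
  linear_combination
    (-((a ^ 2 * b + 18 * (x * (a * b)) + 27 * (x ^ 2 * b) + 1458 * (x ^ 4 * a)) ^ 2
        + (a ^ 2 * b + 18 * (x * (a * b)) + 27 * (x ^ 2 * b) + 1458 * (x ^ 4 * a))
          * (τ * (a * b - 243 * (x ^ 3 * a) + 9 * (x * b) + 729 * x ^ 4))
        + (τ * (a * b - 243 * (x ^ 3 * a) + 9 * (x * b) + 729 * x ^ 4)) ^ 2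
        + 9 * x * (a * b - 243 * (x ^ 3 * a) + 9 * (x * b) + 729 * x ^ 4)
          * ((a ^ 2 * b + 18 * (x * (a * b)) + 27 * (x ^ 2 * b) + 1458 * (x ^ 4 * a))
            + τ * (a * b - 243 * (x ^ 3 * a) + 9 * (x * b) + 729 * x ^ 4))
        + 27 * x ^ 2 * (a * b - 243 * (x ^ 3 * a) + 9 * (x * b) + 729 * x ^ 4) ^ 2)) * h
    - (-a ^ 3 * b - 27 * x * a ^ 2 * b - 243 * x ^ 2 * a * b - 729 * x ^ 3 * b
        - 1458 * x ^ 4 * a ^ 2 - 39366 * x ^ 6) * hr

/-- `t₉⁴ = t₃ · t₃(t³)`. -/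
theorem T9_pow_four : T9 ^ 4 = T3 * T3e := by
  have h1 := T9_cube
  have h2 := T3e_eq
  linear_combination (-T9) * h1 - T3 * h2

/-! ## Laurent series over an arbitrary commutative ring -/

section Laurent

variable (K : Type*) [CommRing K]

/-- The Hauptmodul of `Γ₀(9)`: `t₉ = η(z)³/η(9z)³ = t⁻¹ - 3 + 5 t² - 7 t⁵ + …`. -/
def t9 : LaurentSeries K := qinv K * lau K T9

theorem t9_add_const (c : ℤ) :
    t9 K + (c : LaurentSeries K) = qinv K * lau K (T9 + PowerSeries.C c * X) := by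
  rw [t9, t_add_const]

theorem t3_add_const (c : ℤ) :
    t3 K + (c : LaurentSeries K) = qinv K * lau K (T3 + PowerSeries.C c * X) := by
  rw [t3, t_add_const]

/-- `Q(t₉) = t⁻² · (X² Q(t₉))`. -/
theorem t9_quad_eq : t9 K ^ 2 + 9 * t9 K + 27 = qinv K ^ 2 * lau K Q9 := by
  have hx := qinv_mul_lau_X K
  rw [Q9, t9]
  simp only [lau_add, lau_mul, lau_pow, lau_C]
  push_cast
  linear_combination (-(9 * (qinv K * lau K T9) + 27 * (1 + qinv K * lau K X))) * hx

theorem qExpand_t3 : qExpand K 3 (t3 K) = qinv K ^ 3 * lau K T3e := by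
  rw [t3, map_mul, qExpand_qinv, qExpand_lau]

/-- `t₃ · Q(t₉) = t₉³`. -/
theorem t9_cube : t3 K * (t9 K ^ 2 + 9 * t9 K + 27) = t9 K ^ 3 := by
  have h := congrArg (fun f => qinv K ^ 3 * lau K f) T9_cube
  simp only [lau_mul, lau_pow] at h
  rw [t9_quad_eq, t9, t3]
  linear_combination h

/-- `t₃(t³) = t₉ · Q(t₉)`. -/
theorem t3e_eq : qExpand K 3 (t3 K) = t9 K * (t9 K ^ 2 + 9 * t9 K + 27) := by
  have h := congrArg (fun f => qinv K ^ 3 * lau K f) T3e_eq
  simp only [lau_mul] at h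
  rw [qExpand_t3, t9_quad_eq, t9]
  linear_combination h

/-- `t₉⁴ = t₃ · t₃(t³)`. -/
theorem t9_pow_four : t9 K ^ 4 = t3 K * qExpand K 3 (t3 K) := by
  linear_combination (-t9 K) * t9_cube K - t3 K * t3e_eq K

/-- The definition of `t₉`:
`t₉ · (A B - 243 A + 9 B + 729) = A² B + 18 A B + 27 B + 1458 A`, `A = t₃`, `B = t₃(t³)`. -/
theorem t9_mul :
    t9 K * (t3 K * qExpand K 3 (t3 K) - 243 * t3 K + 9 * qExpand K 3 (t3 K) + 729)
      = t3 K ^ 2 * qExpand K 3 (t3 K) + 18 * (t3 K * qExpand K 3 (t3 K))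
        + 27 * qExpand K 3 (t3 K) + 1458 * t3 K := by
  linear_combination
    (t9 K * t3 K + 9 * t9 K - t3 K ^ 2 - 18 * t3 K - 27) * t3e_eq K
      + (-(t9 K * t3 K) - 9 * t9 K - 54) * t9_cube K

/-- `(t₉ + 9)³ = (t₃ + 27) · Q(t₉)`. -/
theorem t9_add_9_cube : (t9 K + 9) ^ 3 = (t3 K + 27) * (t9 K ^ 2 + 9 * t9 K + 27) := by
  linear_combination -(t9_cube K)

/-- `(t₉ + 3)³ = t₃(t³) + 27`. -/
theorem t9_add_3_cube : (t9 K + 3) ^ 3 = qExpand K 3 (t3 K) + 27 := by
  linear_combination -(t3e_eq K)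

/-- `t₉³ + 243 Q(t₉) = (t₃ + 243) · Q(t₉)`. -/
theorem t9_cube_add : t9 K ^ 3 + 243 * (t9 K ^ 2 + 9 * t9 K + 27)
    = (t3 K + 243) * (t9 K ^ 2 + 9 * t9 K + 27) := by
  linear_combination -(t9_cube K)

/-- `t₉⁶ - 486 t₉³ Q(t₉) - 19683 Q(t₉)² = (t₃² - 486 t₃ - 19683) · Q(t₉)²`. -/
theorem t9_sextic_eq :
    t9 K ^ 6 - 486 * (t9 K ^ 3 * (t9 K ^ 2 + 9 * t9 K + 27))
        - 19683 * (t9 K ^ 2 + 9 * t9 K + 27) ^ 2
      = (t3 K ^ 2 - 486 * t3 K - 19683) * (t9 K ^ 2 + 9 * t9 K + 27) ^ 2 := by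
  linear_combination
    (-(t9 K ^ 3) - t3 K * (t9 K ^ 2 + 9 * t9 K + 27)
      + 486 * (t9 K ^ 2 + 9 * t9 K + 27)) * t9_cube K

theorem t9_pow_nine : t9 K ^ 9 = t3 K ^ 3 * (t9 K ^ 2 + 9 * t9 K + 27) ^ 3 := by
  have h := congrArg (fun x => x ^ 3) (t9_cube K)
  beta_reduce at h
  linear_combination -h

/-- `j · t₉⁹ Q(t₉) = (t₉ + 9)³ (t₉³ + 243 Q(t₉))³`. -/
theorem jq_mul_t9 :
    jqModC K * (t9 K ^ 9 * (t9 K ^ 2 + 9 * t9 K + 27))
      = (t9 K + 9) ^ 3 * (t9 K ^ 3 + 243 * (t9 K ^ 2 + 9 * t9 K + 27)) ^ 3 := by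
  rw [t9_add_9_cube, t9_cube_add, t9_pow_nine]
  linear_combination (t9 K ^ 2 + 9 * t9 K + 27) ^ 4 * jq_mul_t3_cube K

/-- `(j - 1728) · t₉⁹ Q(t₉) = (t₉⁶ - 486 t₉³ Q(t₉) - 19683 Q(t₉)²)²`. -/
theorem jq_sub_1728_mul_t9 :
    (jqModC K - 1728) * (t9 K ^ 9 * (t9 K ^ 2 + 9 * t9 K + 27))
      = (t9 K ^ 6 - 486 * (t9 K ^ 3 * (t9 K ^ 2 + 9 * t9 K + 27))
          - 19683 * (t9 K ^ 2 + 9 * t9 K + 27) ^ 2) ^ 2 := by
  rw [t9_sextic_eq, t9_pow_nine]
  linear_combination (t9 K ^ 2 + 9 * t9 K + 27) ^ 4 * jq_sub_1728_mul_t3_cube K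

/-- `t₉` is a root of the monic polynomial `(T + 9)³ (T³ + 243 Q(T))³ - j T⁹ Q(T)` of degree `12`
over `ℤ[j]`. -/
theorem t9_duodecic :
    (t9 K + 9) ^ 3 * (t9 K ^ 3 + 243 * (t9 K ^ 2 + 9 * t9 K + 27)) ^ 3
      - jqModC K * (t9 K ^ 9 * (t9 K ^ 2 + 9 * t9 K + 27)) = 0 := by
  rw [jq_mul_t9, sub_self]

/-- `t₉ ∣ 3³⁰` in `ℤ[j, t₉]`. -/
theorem t9_mul_cofactor :
    t9 K * (jqModC K * (t9 K ^ 8 * (t9 K ^ 2 + 9 * t9 K + 27))
      - (t9 K ^ 11 + 756 * t9 K ^ 10 + 203634 * t9 K ^ 9 + 22695228 * t9 K ^ 8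
        + 930553191 * t9 K ^ 7 + 20241524808 * t9 K ^ 6 + 272112672348 * t9 K ^ 5
        + 2426801943096 * t9 K ^ 4 + 14780479075839 * t9 K ^ 3 + 61381352595204 * t9 K ^ 2
        + 167763144669714 * t9 K + 274521509459532)) = 3 ^ 30 := by
  linear_combination jq_mul_t9 K

/-- `Q(t₉) ∣ 3¹⁸` in `ℤ[j, t₉]`. -/
theorem t9_quad_mul_cofactor :
    (t9 K ^ 2 + 9 * t9 K + 27) * (jqModC K * t9 K ^ 9
      - (t9 K ^ 10 + 747 * t9 K ^ 9 + 196884 * t9 K ^ 8 + 20903103 * t9 K ^ 7
        + 737109396 * t9 K ^ 6 + 13043156463 * t9 K ^ 5 + 134822310489 * t9 K ^ 4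
        + 861235924194 * t9 K ^ 3 + 3389153374890 * t9 K ^ 2 + 7625602267956 * t9 K
        + 7625583136080)) = 3 ^ 18 := by
  linear_combination jq_mul_t9 K

/-- `t₃ ∣ 3¹⁸` in `ℤ[j, t₃]`. -/
theorem t3_mul_cofactor :
    t3 K * (jqModC K * t3 K ^ 2
      - (t3 K ^ 3 + 756 * t3 K ^ 2 + 196830 * t3 K + 19131876)) = 3 ^ 18 := by
  linear_combination jq_mul_t3_cube K

/-! ### Basic properties -/

variable {K}

/-- `t₉` is compatible with every change of coefficients (base change, reduction mod `ℓ`). -/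
theorem coeffMap_t9 {K' : Type*} [CommRing K'] (φ : K →+* K') :
    coeffMap φ (t9 K) = t9 K' := by
  rw [t9, map_mul, coeffMap_qinv, coeffMap_lau, t9]

variable (K)

/-- `t₉ = t⁻¹ + …`. -/
theorem coeff_t9_neg_one : (t9 K).coeff (-1) = 1 := by
  rw [t9, coeff_qinv_mul_lau, show (-1 : ℤ) + 1 = ((0 : ℕ) : ℤ) by norm_num, coeff_lau_natCast,
    PowerSeries.coeff_zero_eq_constantCoeff, constantCoeff_T9, Int.cast_one]

theorem coeff_t9_of_lt {k : ℤ} (hk : k < -1) : (t9 K).coeff k = 0 := by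
  rw [t9, coeff_qinv_mul_lau, coeff_lau_of_neg K _ (by omega)]

theorem t9_ne_zero [Nontrivial K] : t9 K ≠ 0 := fun h => by
  have := coeff_t9_neg_one K
  rw [h] at this
  simp at this

theorem coeff_t3_add_neg_one (c : ℤ) : (t3 K + (c : LaurentSeries K)).coeff (-1) = 1 := by
  rw [t3_add_const, coeff_qinv_mul_lau, show (-1 : ℤ) + 1 = ((0 : ℕ) : ℤ) by norm_num,
    coeff_lau_natCast, PowerSeries.coeff_zero_eq_constantCoeff]
  simp [constantCoeff_T3]

theorem coeff_t9_add_neg_one (c : ℤ) : (t9 K + (c : LaurentSeries K)).coeff (-1) = 1 := by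
  rw [t9_add_const, coeff_qinv_mul_lau, show (-1 : ℤ) + 1 = ((0 : ℕ) : ℤ) by norm_num,
    coeff_lau_natCast, PowerSeries.coeff_zero_eq_constantCoeff]
  simp [constantCoeff_T9]

theorem t3_add_ne_zero [Nontrivial K] (c : ℤ) : t3 K + (c : LaurentSeries K) ≠ 0 := fun h => by
  have := coeff_t3_add_neg_one K c
  rw [h] at this
  simp at this

theorem t9_add_ne_zero [Nontrivial K] (c : ℤ) : t9 K + (c : LaurentSeries K) ≠ 0 := fun h => by
  have := coeff_t9_add_neg_one K c
  rw [h] at this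
  simp at this

/-- `Q(t₉) = t⁻² + …`. -/
theorem coeff_t9_quad_neg_two : (t9 K ^ 2 + 9 * t9 K + 27).coeff (-2) = 1 := by
  rw [t9_quad_eq, qinv, HahnSeries.single_pow, HahnSeries.coeff_single_mul]
  simp only [one_pow, one_mul]
  rw [show (-2 : ℤ) - (2 : ℕ) • (-1 : ℤ) = ((0 : ℕ) : ℤ) by norm_num, coeff_lau_natCast,
    PowerSeries.coeff_zero_eq_constantCoeff, constantCoeff_Q9, Int.cast_one]

theorem t9_quad_ne_zero [Nontrivial K] : t9 K ^ 2 + 9 * t9 K + 27 ≠ 0 := fun h => by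
  have := coeff_t9_quad_neg_two K
  rw [h] at this
  simp at this

end Laurent

/-! ## Membership in the function field of `X₀(M)`, `9 ∣ M` -/

section Field

variable (K : Type*) [Field K]

theorem h9_fullC_le_of_dvd {N M : ℕ} (h : N ∣ M) :
    modularFunctionFieldFullC K N ≤ modularFunctionFieldFullC K M := by
  rw [modularFunctionFieldFullC, IntermediateField.adjoin_le_iff]
  rintro x ⟨d, hne, hdvd, rfl⟩
  exact @jqModCd_mem_full K _ M d hne (hdvd.trans h)

theorem qExpand_t3_mem_fullC (M : ℕ) (h9 : 9 ∣ M) :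
    qExpand K 3 (t3 K) ∈ modularFunctionFieldFullC K M := by
  have h3 : t3 K ∈ modularFunctionFieldFullC K 3 := t3_mem_fullC K 3 dvd_rfl
  have h := full_degeneracyC_map_le K 3 3
    ((IntermediateField.mem_map _).2 ⟨t3 K, h3, rfl⟩)
  rw [qExpandAlgHomC_apply] at h
  exact h9_fullC_le_of_dvd K (N := 3 * 3) (M := M) (by simpa using h9) h

/-- The denominator of `t₉` is `t⁻⁴ · D9`. -/
theorem t9_den_mul :
    (t3 K * qExpand K 3 (t3 K) - 243 * t3 K + 9 * qExpand K 3 (t3 K) + 729) * lau K X ^ 4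
      = lau K D9 := by
  have hx := qinv_mul_lau_X K
  rw [D9, qExpand_t3, t3]
  simp only [lau_sub, lau_add, lau_mul, lau_pow, lau_C]
  push_cast
  linear_combination
    (lau K T3 * lau K T3e * (1 + qinv K * lau K X + (qinv K * lau K X) ^ 2
        + (qinv K * lau K X) ^ 3)
      - 243 * (lau K T3 * lau K X ^ 3)
      + 9 * (lau K T3e * lau K X) * (1 + qinv K * lau K X + (qinv K * lau K X) ^ 2)) * hx

theorem t9_den_ne_zero :
    t3 K * qExpand K 3 (t3 K) - 243 * t3 K + 9 * qExpand K 3 (t3 K) + 729 ≠ 0 :=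
  ne_zero_of_mul_eq_lau K (t9_den_mul K) constantCoeff_D9

/-- **`t₉ ∈ K(j_d : d ∣ M)` for `9 ∣ M`**, over every field `K`. -/
theorem t9_mem_fullC (M : ℕ) (h9 : 9 ∣ M) : t9 K ∈ modularFunctionFieldFullC K M := by
  have h3 : t3 K ∈ modularFunctionFieldFullC K M :=
    t3_mem_fullC K M ((by norm_num : (3 : ℕ) ∣ 9).trans h9)
  have h3e := qExpand_t3_mem_fullC K M h9
  have h : t9 K = (t3 K ^ 2 * qExpand K 3 (t3 K) + 18 * (t3 K * qExpand K 3 (t3 K))
        + 27 * qExpand K 3 (t3 K) + 1458 * t3 K)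
      / (t3 K * qExpand K 3 (t3 K) - 243 * t3 K + 9 * qExpand K 3 (t3 K) + 729) := by
    rw [eq_div_iff (t9_den_ne_zero K)]
    exact t9_mul K
  rw [h]
  exact div_mem
    (add_mem (add_mem (add_mem (mul_mem (pow_mem h3 2) h3e)
      (mul_mem (ofNat_mem _ 18) (mul_mem h3 h3e))) (mul_mem (ofNat_mem _ 27) h3e))
      (mul_mem (ofNat_mem _ 1458) h3))
    (add_mem (add_mem (sub_mem (mul_mem h3 h3e) (mul_mem (ofNat_mem _ 243) h3))
      (mul_mem (ofNat_mem _ 9) h3e)) (ofNat_mem _ 729))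

end Field

/-- `t₉ ∈ ℚ(j_d : d ∣ M)` for `9 ∣ M`. -/
theorem t9_mem_full (M : ℕ) (h9 : 9 ∣ M) : t9 ℚ ∈ modularFunctionFieldFull M :=
  t9_mem_fullC ℚ M h9

/-- `t₉ ∈ L(j_d : d ∣ M)` for `9 ∣ M`, in the base-changed function field. -/
theorem t9_mem_laurentBaseChange (L : Type*) [Field L] [Algebra ℚ L] (M : ℕ) (h9 : 9 ∣ M) :
    t9 L ∈ laurentBaseChange L (modularFunctionFieldFull M) := by
  have h := coeffEmb_mem_laurentBaseChange L (t9_mem_full M h9)
  rwa [coeffEmb, coeffMap_t9] at h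

end Fermat.Agent.S36.H890

end
end
-- ===== PACK-END S36/H890/Haupt9.lean

-- ===== PACK-BEGIN S59/MFree/Main.lean
section








/-!
# S59, block M-FREE — unconditional assembly (sub-architect helper761)

* `freeAbs : FreeAbsStatement`   (abstract form, any finite-index `Γ ≤ SL(2,ℤ)`);
* `free    : FreeStatement`      (`Γ = Γ₀(M)`, `t` a lift of `T_l`): for a projector `e` on
  `H = Hom(ker κ, O)` commuting with the diamond operators and with `t`, with `t - (l + 1)` bijective on `e H`,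
  the module `e H` has an `O`-basis `d • b i` (`d ∈ D`), i.e. is free over `O[D]`, the kernel of `cor` on `e H` is
  `I_D · e H`, and `cor` is onto.

Leaves: A, B `H761.kerCor`, `H761.corSurj` (also `H714.corSurj`); N `H57.resCor/corRes/corConj`;
D `H941.eisenstein` (also `H361.eisenstein`); E `H565.normCriterion`; ASM1 `H761.freeAbs_of_leaves`;
ASM2 `H587.freeOfAbs`.
-/

set_option autoImplicit false

namespace Fermat.Agent.S59.MFree

universe u

/-- **M-FREE, abstract form**, unconditional. -/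
theorem freeAbs : FreeAbsStatement.{u} :=
  H761.freeAbs_of_leaves H761.kerCor H761.corSurj H57.resCor H57.corRes H57.corConj
    H565.normCriterion

/-- **M-FREE** for `Γ₀(M)`, unconditional. -/
theorem free : FreeStatement.{u} :=
  H587.freeOfAbs freeAbs H941.eisenstein

end Fermat.Agent.S59.MFree

end
-- ===== PACK-END S59/MFree/Main.lean

-- ===== PACK-BEGIN S59/TW/H653/Bdry/Orbit.lean
section



/-!
# S59 / TW-HECKE (helper653), block BDRY: the orbits of a unipotent element on the cosets of `T_l`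

`l` prime, `M ∣ l - 1`, `K` between `Γ₁(M)` and `Γ₀(M)`, a coset system `ρ : I → GL(2, ℝ)` of `K`
with `l + 1` integral normalised representatives of determinant `l`, `g ∈ K` with
`g = uni τ h = τ * tz h * τ⁻¹`, `l ∤ h`.  Then `g` has exactly one fixed point on `I`, with cocycle
conjugate in `K` to `g ^ l`, and the other `l` points form one cycle, with cycle product conjugate
in `K` to `g`.  Hence

`transfer_uni : h.transfer φ g = (l + 1) • φ g` for every homomorphism `φ : K → A`.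
-/

set_option autoImplicit false

namespace Fermat.Agent.S59.TW.H653.Bdry

open CongruenceSubgroup Matrix.SpecialLinearGroup ModularCurve.Period ModularForm
open Fermat.Agent.S29.H642 Fermat.Agent.S41.H761 Fermat.Agent.S59.TW.H653
open P2MW.S_ModularForm_heckeT_slash_eq_self_of_mem_Gamma0.ModularForm.HeckeSlashInvariance
open scoped MatrixGroups

variable {M l : ℕ} {K : Subgroup SL(2, ℤ)} {I : Type*} {ρ : I → GL (Fin 2) ℝ}
variable {A : Type*} [AddCommGroup A]

theorem ιK_pow (g : K) (n : ℕ) : ιK K (g ^ n) = mapGL ℝ ((g : SL(2, ℤ)) ^ n) := by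
  rw [ιK_apply, Subgroup.coe_pow]

/-- A point of type `zP` is fixed, with cocycle `k * g ^ l * k⁻¹`. -/
theorem act_coc_of_zP (hsys : IsCosetSystem (ιK K) (ιK K) ρ) (hl : l ≠ 0) (τ : SL(2, ℤ)) (h : ℤ)
    (g : K) (hg : (g : SL(2, ℤ)) = uni τ h) (x : I) (k : K) (e : ρ x = ιK K k * zP τ l) :
    hsys.act x g = x ∧ hsys.coc x g = k * g ^ l * k⁻¹ := by
  apply hsys.unique
  have h1 : ιK K g = mapGL ℝ (uni τ h) := by rw [ιK_apply, hg]
  have h2 : ιK K (g ^ l) = mapGL ℝ (uni τ ((l : ℤ) * h)) := by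
    rw [ιK_pow, hg, uni_pow]
  rw [map_mul, map_mul, map_inv, h2, h1]
  nth_rewrite 1 [e]
  rw [mul_assoc, zP_mul_uni τ hl h, e]
  simp only [mul_assoc, inv_mul_cancel_left]

/-- A point of type `zM` is fixed by `g ^ l`, with cocycle `k * g * k⁻¹`. -/
theorem act_coc_of_zM (hsys : IsCosetSystem (ιK K) (ιK K) ρ) (hl : l ≠ 0) (τ : SL(2, ℤ)) (h : ℤ)
    (g : K) (hg : (g : SL(2, ℤ)) = uni τ h) (x : I) (α : ℕ) (k : K)
    (e : ρ x = ιK K k * zM τ l α) :
    hsys.act x (g ^ l) = x ∧ hsys.coc x (g ^ l) = k * g * k⁻¹ := by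
  apply hsys.unique
  have h1 : ιK K g = mapGL ℝ (uni τ h) := by rw [ιK_apply, hg]
  have h2 : ιK K (g ^ l) = mapGL ℝ (uni τ ((l : ℤ) * h)) := by
    rw [ιK_pow, hg, uni_pow]
  rw [map_mul, map_mul, map_inv, h2, h1]
  nth_rewrite 1 [e]
  rw [mul_assoc, zM_mul_uni τ hl α h, e]
  simp only [mul_assoc, inv_mul_cancel_left]

/-- A point of type `zM` is not fixed by `g`, if `l ∤ h`. -/
theorem act_ne_of_zM (hsys : IsCosetSystem (ιK K) (ιK K) ρ) (hl : l ≠ 0) (τ : SL(2, ℤ)) (h : ℤ)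
    (hh : ¬ (l : ℤ) ∣ h) (g : K) (hg : (g : SL(2, ℤ)) = uni τ h) (x : I) (α : ℕ) (k : K)
    (e : ρ x = ιK K k * zM τ l α) : hsys.act x g ≠ x := by
  intro hfix
  apply hh
  have hs := hsys.spec x g
  rw [hfix, e] at hs
  have h1 : ιK K g = mapGL ℝ (uni τ h) := by rw [ιK_apply, hg]
  rw [h1] at hs
  -- `zM * γ = (k⁻¹ c k) * zM`
  have h2 : zM τ l α * mapGL ℝ (uni τ h) =
      mapGL ℝ (((k⁻¹ * hsys.coc x g * k : K) : SL(2, ℤ))) * zM τ l α := by
    have h3 : mapGL ℝ (((k⁻¹ * hsys.coc x g * k : K) : SL(2, ℤ))) =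
        (ιK K k)⁻¹ * ιK K (hsys.coc x g) * ιK K k := by
      rw [← map_inv, ← map_mul, ← map_mul]
      rfl
    rw [h3]
    calc zM τ l α * mapGL ℝ (uni τ h)
        = (ιK K k)⁻¹ * (ιK K k * zM τ l α * mapGL ℝ (uni τ h)) := by
          simp only [mul_assoc, inv_mul_cancel_left]
      _ = (ιK K k)⁻¹ * (ιK K (hsys.coc x g) * (ιK K k * zM τ l α)) := by rw [hs]
      _ = _ := by simp only [mul_assoc]
  exact dvd_of_zM_mul_uni τ hl α h _ h2

/-- Two points of type `zP` coincide. -/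
theorem eq_of_zP (hsys : IsCosetSystem (ιK K) (ιK K) ρ) (τ : SL(2, ℤ)) (x y : I) (k k' : K)
    (e : ρ x = ιK K k * zP τ l) (e' : ρ y = ιK K k' * zP τ l) : x = y := by
  apply hsys.eq_of_mul x y (k * k'⁻¹)
  rw [e, e', map_mul, map_inv]
  simp only [mul_assoc, inv_mul_cancel_left]

section Count

variable [Fintype I]

/-- **The transfer at a unipotent element.** -/
theorem transfer_uni (hl : l.Prime) (hM : (M : ℤ) ∣ (l : ℤ) - 1) (hK : IsMid M K)
    (hsys : IsCosetSystem (ιK K) (ιK K) ρ) (hcard : Fintype.card I = l + 1)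
    (hρ : ∀ i, IsIntRep M l (ρ i)) (τ : SL(2, ℤ)) (h : ℤ) (hh : ¬ (l : ℤ) ∣ h) (g : K)
    (hg : (g : SL(2, ℤ)) = uni τ h) (φ : Additive K →+ A) :
    hsys.transfer φ (Additive.ofMul g) = (l + 1) • φ (Additive.ofMul g) := by
  classical
  have hl0 : l ≠ 0 := hl.ne_zero
  haveI : Fact l.Prime := ⟨hl⟩
  set σ : Equiv.Perm I := hsys.actEquiv g with hσ
  have hσact : ∀ x, σ x = hsys.act x g := fun x => rfl
  -- the two types of points
  have hdich := fun x => rep_dichotomy hl hM hK τ (hρ x)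
  have hP : ∀ x, (∃ k : K, ρ x = ιK K k * zP τ l) →
      σ x = x ∧ φ (Additive.ofMul (hsys.coc x g)) = l • φ (Additive.ofMul g) := by
    rintro x ⟨k, e⟩
    obtain ⟨h1, h2⟩ := act_coc_of_zP hsys hl0 τ h g hg x k e
    refine ⟨h1, ?_⟩
    rw [h2, ofMul_mul, ofMul_mul, ofMul_inv, ofMul_pow, map_add, map_add, map_neg, map_nsmul]
    abel
  have hC : ∀ x, (¬ ∃ k : K, ρ x = ιK K k * zP τ l) →
      σ x ≠ x ∧ (⇑σ)^[l] x = x ∧ φ (Additive.ofMul (hsys.coc x (g ^ l))) =
        φ (Additive.ofMul g) := by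
    intro x hx
    rcases hdich x with h1 | ⟨α, k, -, e⟩
    · exact absurd h1 hx
    · obtain ⟨h1, h2⟩ := act_coc_of_zM hsys hl0 τ h g hg x α k e
      refine ⟨act_ne_of_zM hsys hl0 τ h hh g hg x α k e, ?_, ?_⟩
      · rw [← act_pow]
        exact h1
      · rw [h2, ofMul_mul, ofMul_mul, ofMul_inv, map_add, map_add, map_neg]
        abel
  -- `σ ^ l = 1`
  have hpow : σ ^ l ^ 1 = 1 := by
    rw [pow_one]
    ext x
    rw [← Equiv.Perm.iterate_eq_pow, Equiv.Perm.coe_one, id]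
    by_cases hx : ∃ k : K, ρ x = ιK K k * zP τ l
    · exact Function.iterate_fixed (hP x hx).1 l
    · exact (hC x hx).2.1
  -- existence of a fixed point
  have hmod := Equiv.Perm.card_compl_support_modEq hpow
  rw [hcard] at hmod
  have hne : (σ.supportᶜ : Finset I).Nonempty := by
    rw [Finset.nonempty_iff_ne_empty]
    intro h0
    rw [h0, Finset.card_empty] at hmod
    have h1 : l ∣ l + 1 := (Nat.modEq_zero_iff_dvd).mp hmod.symm
    have h2 : l ∣ 1 := (Nat.dvd_add_right (dvd_refl l)).mp h1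
    exact hl.one_lt.ne' (Nat.dvd_one.mp h2)
  obtain ⟨x₀, hx₀⟩ := hne
  have hx₀fix : σ x₀ = x₀ := by
    rw [Finset.mem_compl, Equiv.Perm.mem_support, not_not] at hx₀
    exact hx₀
  have hx₀P : ∃ k : K, ρ x₀ = ιK K k * zP τ l := by
    by_contra hx
    exact (hC x₀ hx).1 hx₀fix
  have huniq : ∀ x, x ≠ x₀ → ¬ ∃ k : K, ρ x = ιK K k * zP τ l := by
    rintro x hx ⟨k, e⟩
    obtain ⟨k', e'⟩ := hx₀P
    exact hx (eq_of_zP hsys τ x x₀ k k' e e')
  -- another point
  obtain ⟨x₁, hx₁⟩ : ∃ x₁ : I, x₁ ≠ x₀ := by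
    by_contra hcon
    push_neg at hcon
    have : Fintype.card I ≤ 1 := Fintype.card_le_one_iff.mpr fun a b => by rw [hcon a, hcon b]
    rw [hcard] at this
    have := hl.one_lt
    omega
  have hx₁C := hC x₁ (huniq x₁ hx₁)
  have hper : Function.minimalPeriod (⇑σ) x₁ = l :=
    Function.minimalPeriod_eq_prime hx₁C.2.1 hx₁C.1
  -- the orbit of `x₁` is the complement of `x₀`
  have horb : (Finset.range l).image (fun k => (⇑σ)^[k] x₁) = Finset.univ.erase x₀ := by
    apply Finset.eq_of_subset_of_card_le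
    · intro y hy
      obtain ⟨k, -, rfl⟩ := Finset.mem_image.mp hy
      refine Finset.mem_erase.mpr ⟨?_, Finset.mem_univ _⟩
      intro hk
      apply hx₁
      have h1 : (⇑σ)^[k] x₀ = x₀ := Function.iterate_fixed hx₀fix k
      have h2 : (⇑σ)^[k] x₁ = (⇑σ)^[k] x₀ := by rw [hk, h1]
      exact (Function.Injective.iterate σ.injective k) h2
    · rw [Finset.card_erase_of_mem (Finset.mem_univ _), Finset.card_univ, hcard,
        Nat.add_sub_cancel, Finset.card_image_of_injOn, Finset.card_range]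
      intro a ha b hb hab
      rw [Finset.coe_range, Set.mem_Iio] at ha hb
      rw [← hper] at ha hb
      exact (Function.iterate_eq_iterate_iff_of_lt_minimalPeriod ha hb).mp hab
  -- the sum
  rw [hsys.transfer_apply, ← Finset.add_sum_erase Finset.univ _ (Finset.mem_univ x₀), ← horb,
    Finset.sum_image, ← map_coc_pow hsys φ x₁ g l, hx₁C.2.2, (hP x₀ hx₀P).2, add_smul, one_smul]
  intro a ha b hb hab
  rw [Finset.coe_range, Set.mem_Iio] at ha hb
  rw [← hper] at ha hb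
  exact (Function.iterate_eq_iterate_iff_of_lt_minimalPeriod ha hb).mp hab

end Count

end Fermat.Agent.S59.TW.H653.Bdry

end
-- ===== PACK-END S59/TW/H653/Bdry/Orbit.lean

-- ===== PACK-BEGIN S59/TW/H788/GalRLocal.lean
section




/-!
# Row S59 / row HARD, cell TW, layer 4, leaf GAL-R: the local step  (helper788)

At a Taylor–Wiles prime `q` (`p ∣ q - 1`, `ρ̄` unramified at `q`, Frobenius with distinct
eigenvalues) let `w` be an inertia value of `ρ` at `(φ, σ)`, where `σ` is an element of the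
inertia group at `P | q` acting on the `q`-th roots of unity through a primitive root modulo `q`.

* `exists_pow_cyclo788` : every `τ ∈ Gal(ℚ̄/ℚ)` acts on `μ_q` as a power of `σ`.
* `charpoly_map_inertia788` : if `ψ : A → B` is a ring homomorphism with `ψ w = 1`, then the image
  under `ψ` of the characteristic polynomial of `ρ(τ)` is `(X - 1)²` for EVERY `τ` in the inertia
  group at `P`.  (`H59.twGal1`: `ρ|_{D_P} = ξ₀ ⊕ ξ₁`, `w = ξ₀(σ)`, `ξ₀ ξ₁ = 1` on inertia;
  `H59.twGalCyc`: `ξ_i(τ) = ξ_i(σ)^k` if `τ = σ^k` on `μ_q`.)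
* `isUnipotentOnInertiaAt_baseChangeAlong788` : hence `ρ ⊗_ψ B` is unipotent on inertia at `q`
  (all valuation subrings over `q` are conjugate, `Lib.Cheb.H476.exists_conj_of_mem_inertia`).
-/

set_option autoImplicit false
set_option linter.unusedSectionVars false
set_option linter.unusedVariables false
set_option linter.style.haveILetI false

open Polynomial IsLocalRing

namespace Fermat.Agent.S59.TW.H788

open Fermat.Agent.S59.Arch Fermat.Agent.S59.TW Fermat.Agent.S59.TW.H959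

/-! ## The action on the `q`-th roots of unity -/

/-- Powers of `σ` act on `μ_q` through the powers of the exponent. -/
theorem cycloAt_pow788 {q : ℕ} {σ : AlgebraicClosure ℚ ≃ₐ[ℚ] AlgebraicClosure ℚ} {a : ℕ}
    (h : CycloAt q σ a) (k : ℕ) : CycloAt q (σ ^ k) (a ^ k) := by
  induction k with
  | zero =>
    intro μ hμ
    rw [pow_zero, pow_zero, pow_one]
    rfl
  | succ k ih =>
    intro μ hμ
    rw [pow_succ, AlgEquiv.mul_apply, h μ hμ, map_pow, ih μ hμ, ← pow_mul, pow_succ]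

/-- If `σ` acts on `μ_q` through a primitive root modulo `q`, every `τ` acts on `μ_q` as a power
of `σ`. -/
theorem exists_pow_cyclo788 {q : ℕ} (hq : q.Prime)
    {σ : AlgebraicClosure ℚ ≃ₐ[ℚ] AlgebraicClosure ℚ} (u : (ZMod q)ˣ)
    (hu : orderOf u = q - 1) (hcyc : CycloAt q σ (u : ZMod q).val)
    (τ : AlgebraicClosure ℚ ≃ₐ[ℚ] AlgebraicClosure ℚ) :
    ∃ k : ℕ, ∀ ζ : AlgebraicClosure ℚ, ζ ^ q = 1 → τ ζ = (σ ^ k) ζ := by
  haveI : Fact q.Prime := ⟨hq⟩
  haveI : NeZero q := ⟨hq.ne_zero⟩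
  obtain ⟨ζ₀, hζ₀⟩ := HasEnoughRootsOfUnity.exists_primitiveRoot (AlgebraicClosure ℚ) q
  have h1 : (τ ζ₀) ^ q = 1 := by rw [← map_pow, hζ₀.pow_eq_one, map_one]
  obtain ⟨i, hi, hiζ⟩ := hζ₀.eq_pow_of_pow_eq_one h1
  have hi0 : (i : ZMod q) ≠ 0 := by
    intro h0
    have hdvd : q ∣ i := (ZMod.natCast_eq_zero_iff i q).mp h0
    have hi' : i = 0 := Nat.eq_zero_of_dvd_of_lt hdvd hi
    subst hi'
    rw [pow_zero] at hiζ
    have h2 : ζ₀ = 1 := by
      apply τ.injective
      rw [← hiζ, map_one]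
    exact hζ₀.ne_one hq.one_lt h2
  have hcard : Nat.card (ZMod q)ˣ = q - 1 := by
    rw [Nat.card_eq_fintype_card, ZMod.card_units_eq_totient, Nat.totient_prime hq]
  have htop : Subgroup.zpowers u = ⊤ := by
    apply Subgroup.eq_top_of_card_eq
    rw [Nat.card_zpowers, hu, hcard]
  have hgen : Units.mk0 (i : ZMod q) hi0 ∈ Subgroup.zpowers u := by
    rw [htop]
    exact Subgroup.mem_top _
  obtain ⟨k, hk⟩ := (Submonoid.mem_powers_iff _ _).mp (mem_powers_iff_mem_zpowers.mpr hgen)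
  have hmod : (u : ZMod q).val ^ k ≡ i [MOD q] := by
    rw [← ZMod.natCast_eq_natCast_iff, Nat.cast_pow, ZMod.natCast_zmod_val]
    have h3 := congrArg (fun x : (ZMod q)ˣ => (x : ZMod q)) hk
    simpa using h3
  refine ⟨k, fun ζ hζ => ?_⟩
  obtain ⟨m, -, rfl⟩ := hζ₀.eq_pow_of_pow_eq_one hζ
  rw [cycloAt_pow788 hcyc k _ hζ, map_pow, ← hiζ, ← pow_mul, ← pow_mul,
    pow_eq_pow_mod (m * (u : ZMod q).val ^ k) hζ₀.pow_eq_one,
    pow_eq_pow_mod (i * m) hζ₀.pow_eq_one]
  congr 1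
  have : m * (u : ZMod q).val ^ k ≡ i * m [MOD q] := by
    rw [mul_comm i m]
    exact Nat.ModEq.mul_left m hmod
  exact this.symm

/-! ## The local step -/

/-- **GAL-R, local step.**  If the inertia value `w` at `(φ, σ)` is mapped to `1` by `ψ`, and
`σ` acts on `μ_q` through a primitive root, then the image under `ψ` of the characteristic
polynomial of `ρ(τ)` is `(X - 1)²` for every `τ` in the inertia group at `P`. -/
theorem charpoly_map_inertia788 (p : ℕ) [Fact p.Prime] (A : Type) [CommRing A] [IsLocalRing A]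
    [IsNoetherianRing A] [IsAdicComplete (maximalIdeal A) A]
    (hpA : (p : A) ∈ maximalIdeal A)
    (ρ : GaloisRepAdic A) (hdet : ρ.DetIsCyclotomic p)
    (q : ℕ) (hq : q.Prime) (hpq : p ∣ q - 1)
    (hunr : ρ.residual.IsUnramifiedAt q)
    (P : ValuationSubring (AlgebraicClosure ℚ)) (hP : P.LiesOverPrime q)
    (φ : AlgebraicClosure ℚ ≃ₐ[ℚ] AlgebraicClosure ℚ) (hφ : P.IsFrobeniusAt φ q)
    (σ : AlgebraicClosure ℚ ≃ₐ[ℚ] AlgebraicClosure ℚ) (hσ : σ ∈ P.inertiaSubgroupIn ℚ)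
    (u : (ZMod q)ˣ) (hu : orderOf u = q - 1) (hcyc : CycloAt q σ (u : ZMod q).val)
    (a₀ w : A) (hw : IsInertiaValue ρ φ σ a₀ w)
    {B : Type} [CommRing B] (ψ : A →+* B) (hψ : ψ w = 1)
    (τ : AlgebraicClosure ℚ ≃ₐ[ℚ] AlgebraicClosure ℚ) (hτ : τ ∈ P.inertiaSubgroupIn ℚ) :
    (LinearMap.charpoly (ρ.ρ τ)).map ψ = (X - 1) ^ 2 := by
  obtain ⟨a, b, ha₀, hab, hchar, hwab⟩ := hw
  -- the residual characteristic polynomial
  have hcharres : LinearMap.charpoly (ρ.residual.ρ φ) =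
      (X - C (residue A a)) * (X - C (residue A b)) := by
    have h1 : LinearMap.charpoly (ρ.residual.ρ φ) =
        LinearMap.charpoly ((ρ.ρ φ).baseChange (ResidueField A)) := rfl
    rw [h1, LinearMap.charpoly_baseChange, hchar, Polynomial.map_mul, Polynomial.map_sub,
      Polynomial.map_sub, Polynomial.map_X, Polynomial.map_C, Polynomial.map_C]
    rfl
  have hαβ : residue A a ≠ residue A b := by
    intro h
    have h0 : residue A (a - b) = 0 := by rw [map_sub, h, sub_self]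
    exact (residue_eq_zero_iff _).mp h0 hab
  obtain ⟨bs, ξ, hD⟩ := Fermat.Agent.S59.H59.twGal1 p q hq hpq A hpA ρ hdet hunr P hP φ hφ
    _ _ hαβ hcharres
  have hφD : φ ∈ P.decompositionSubgroup ℚ := hφ.mem_decompositionSubgroup
  have hσD : σ ∈ P.decompositionSubgroup ℚ :=
    Fermat.Agent.S59.TW.H123.mem_decomposition_of_mem_inertia123 hσ
  have hφb : ∀ i, ρ.ρ φ (bs i) = ξ i φ • bs i := hD.diag φ hφD
  have hσb : ∀ i, ρ.ρ σ (bs i) = ξ i σ • bs i := hD.diag σ hσD
  have hφσb : ∀ i, ρ.ρ (φ * σ) (bs i) = (ξ i φ * ξ i σ) • bs i := by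
    intro i
    rw [map_mul, Module.End.mul_apply, hσb, map_smul, hφb, smul_smul, mul_comm]
  have hcφ := Fermat.Agent.S59.TW.H123.charpoly_of_diag123 bs (ρ.ρ φ) (fun i => ξ i φ) hφb
  have hfac : (X - C (ξ 0 φ)) * (X - C (ξ 1 φ)) = (X - C a) * (X - C b) := by
    rw [← hchar]
    exact hcφ.symm
  have hx0 : ξ 0 φ - a ∈ maximalIdeal A := by
    rw [← residue_eq_zero_iff, map_sub, (hD.frob φ hφ).1, sub_self]
  obtain ⟨hξ0, hξ1⟩ := Fermat.Agent.S59.TW.H123.roots_eq_of_factor123 hfac hx0 hab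
  have htφσ : ρ.trace (φ * σ) = a * ξ 0 σ + b * ξ 1 σ := by
    have h1 := Fermat.Agent.S59.TW.H123.trace_of_diag123 bs (ρ.ρ (φ * σ))
      (fun i => ξ i φ * ξ i σ) hφσb
    simp only [hξ0, hξ1] at h1
    exact h1
  have htσ : ρ.trace σ = ξ 0 σ + ξ 1 σ :=
    Fermat.Agent.S59.TW.H123.trace_of_diag123 bs (ρ.ρ σ) (fun i => ξ i σ) hσb
  have hw : w = ξ 0 σ := by
    have h1 : (a - b) * w = (a - b) * ξ 0 σ := by
      rw [hwab, htφσ, htσ]
      ring
    exact hab.mul_left_cancel h1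
  -- the values at `σ` are killed by `ψ`
  have hψ0 : ψ (ξ 0 σ) = 1 := by rw [← hw]; exact hψ
  have hψ1 : ψ (ξ 1 σ) = 1 := by
    have h1 := congrArg ψ (hD.inertia_mul σ hσ)
    rw [map_mul, hψ0, one_mul, map_one] at h1
    exact h1
  have hψi : ∀ i, ψ (ξ i σ) = 1 := by
    intro i
    fin_cases i
    · exact hψ0
    · exact hψ1
  -- `τ = σ^k τ'` with `τ'` trivial on `μ_q`
  obtain ⟨k, hk⟩ := exists_pow_cyclo788 hq u hu hcyc τ
  have hσk : σ ^ k ∈ P.inertiaSubgroupIn ℚ := Subgroup.pow_mem _ hσ k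
  have hτ' : (σ ^ k)⁻¹ * τ ∈ P.inertiaSubgroupIn ℚ :=
    Subgroup.mul_mem _ (Subgroup.inv_mem _ hσk) hτ
  have hfix : ∀ ζ : AlgebraicClosure ℚ, ζ ^ q = 1 → ((σ ^ k)⁻¹ * τ) ζ = ζ := by
    intro ζ hζ
    rw [AlgEquiv.mul_apply, hk ζ hζ]
    exact (σ ^ k).symm_apply_apply ζ
  have hone : ∀ i, ξ i ((σ ^ k)⁻¹ * τ) = 1 :=
    Fermat.Agent.S59.H59.twGalCyc p q hq hpq A hpA ρ P hP _ _ hαβ bs ξ hD _ hτ' hfix
  have hτ'b : ∀ i, ρ.ρ ((σ ^ k)⁻¹ * τ) (bs i) = bs i := by
    intro i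
    rw [hD.diag _ (Fermat.Agent.S59.TW.H123.mem_decomposition_of_mem_inertia123 hτ') i,
      hone i, one_smul]
  have hσkb : ∀ (m : ℕ) (i : Fin 2), ρ.ρ (σ ^ m) (bs i) = (ξ i σ ^ m) • bs i := by
    intro m
    induction m with
    | zero =>
      intro i
      rw [pow_zero, pow_zero, map_one, one_smul]
      rfl
    | succ m ih =>
      intro i
      rw [pow_succ, map_mul, Module.End.mul_apply, hσb, map_smul, ih, smul_smul, pow_succ,
        mul_comm]
  have hτb : ∀ i, ρ.ρ τ (bs i) = (ξ i σ ^ k) • bs i := by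
    intro i
    have h1 : τ = σ ^ k * ((σ ^ k)⁻¹ * τ) := by group
    rw [h1, map_mul, Module.End.mul_apply, hτ'b, hσkb]
  have hcτ := Fermat.Agent.S59.TW.H123.charpoly_of_diag123 bs (ρ.ρ τ)
    (fun i => ξ i σ ^ k) hτb
  have hcτ' : LinearMap.charpoly (ρ.ρ τ) = (X - C (ξ 0 σ ^ k)) * (X - C (ξ 1 σ ^ k)) := hcτ
  have e0 : ψ (ξ 0 σ ^ k) = 1 := by rw [map_pow, hψ0, one_pow]
  have e1 : ψ (ξ 1 σ ^ k) = 1 := by rw [map_pow, hψ1, one_pow]
  rw [hcτ', Polynomial.map_mul, Polynomial.map_sub, Polynomial.map_sub, Polynomial.map_X,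
    Polynomial.map_C, Polynomial.map_C, e0, e1, map_one]
  ring

/-! ## All the valuation subrings over `q` -/

/-- The characteristic polynomial is invariant under conjugation. -/
theorem charpoly_conj788 {A : Type} [CommRing A] [IsLocalRing A] (ρ : GaloisRepAdic A)
    (g τ : AlgebraicClosure ℚ ≃ₐ[ℚ] AlgebraicClosure ℚ) :
    LinearMap.charpoly (ρ.ρ (g * τ * g⁻¹)) = LinearMap.charpoly (ρ.ρ τ) := by
  have h1 : ρ.ρ g * ρ.ρ g⁻¹ = 1 := by rw [← map_mul, mul_inv_cancel, map_one]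
  have h2 : ρ.ρ g⁻¹ * ρ.ρ g = 1 := by rw [← map_mul, inv_mul_cancel, map_one]
  let e : ρ.V ≃ₗ[A] ρ.V :=
    { toLinearMap := ρ.ρ g
      invFun := ρ.ρ g⁻¹
      left_inv := fun x => by
        show (ρ.ρ g⁻¹ * ρ.ρ g) x = x
        rw [h2]; rfl
      right_inv := fun x => by
        show (ρ.ρ g * ρ.ρ g⁻¹) x = x
        rw [h1]; rfl }
  have h3 : ρ.ρ (g * τ * g⁻¹) = e.conj (ρ.ρ τ) := by
    rw [map_mul, map_mul]
    rfl
  rw [h3, LinearEquiv.charpoly_conj]

/-- The characteristic polynomials of a base change. -/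
theorem charpoly_baseChangeAlong788 {A B : Type} [CommRing A] [IsLocalRing A] [CommRing B]
    [IsLocalRing B] (ψ : A →+* B) (hψ : IsLocalHom ψ) (ρ : GaloisRepAdic A)
    (τ : AlgebraicClosure ℚ ≃ₐ[ℚ] AlgebraicClosure ℚ) :
    LinearMap.charpoly ((ρ.baseChangeAlong ψ hψ).ρ τ) = (LinearMap.charpoly (ρ.ρ τ)).map ψ := by
  letI : Algebra A B := ψ.toAlgebra
  have h1 : LinearMap.charpoly ((ρ.baseChangeAlong ψ hψ).ρ τ) =
      LinearMap.charpoly ((ρ.ρ τ).baseChange B) := rfl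
  rw [h1, LinearMap.charpoly_baseChange]
  rfl

/-- **GAL-R, local step, global form.**  If the inertia value `w` at `(φ, σ)` is mapped to `1` by
the local homomorphism `ψ`, and `σ` acts on `μ_q` through a primitive root, then `ρ ⊗_ψ B` is
unipotent on inertia at `q`. -/
theorem isUnipotentOnInertiaAt_baseChangeAlong788 (p : ℕ) [Fact p.Prime] (A : Type) [CommRing A]
    [IsLocalRing A] [IsNoetherianRing A] [IsAdicComplete (maximalIdeal A) A]
    (hpA : (p : A) ∈ maximalIdeal A)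
    (ρ : GaloisRepAdic A) (hdet : ρ.DetIsCyclotomic p)
    (q : ℕ) (hq : q.Prime) (hpq : p ∣ q - 1)
    (hunr : ρ.residual.IsUnramifiedAt q)
    (P : ValuationSubring (AlgebraicClosure ℚ)) (hP : P.LiesOverPrime q)
    (φ : AlgebraicClosure ℚ ≃ₐ[ℚ] AlgebraicClosure ℚ) (hφ : P.IsFrobeniusAt φ q)
    (σ : AlgebraicClosure ℚ ≃ₐ[ℚ] AlgebraicClosure ℚ) (hσ : σ ∈ P.inertiaSubgroupIn ℚ)
    (u : (ZMod q)ˣ) (hu : orderOf u = q - 1) (hcyc : CycloAt q σ (u : ZMod q).val)
    (a₀ w : A) (hw : IsInertiaValue ρ φ σ a₀ w)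
    {B : Type} [CommRing B] [IsLocalRing B] (ψ : A →+* B) (hψloc : IsLocalHom ψ)
    (hψ : ψ w = 1) :
    (ρ.baseChangeAlong ψ hψloc).IsUnipotentOnInertiaAt q := by
  intro P' hP' τ' hτ'
  obtain ⟨g, τ, hτ, rfl⟩ :=
    Fermat.Agent.Lib.Cheb.H476.exists_conj_of_mem_inertia hq hP hP' hτ'
  rw [charpoly_conj788, charpoly_baseChangeAlong788]
  exact charpoly_map_inertia788 p A hpA ρ hdet q hq hpq hunr P hP φ hφ σ hσ u hu hcyc a₀ w hw
    ψ hψ τ hτ

end Fermat.Agent.S59.TW.H788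

end
-- ===== PACK-END S59/TW/H788/GalRLocal.lean

-- ===== PACK-BEGIN S59/TW/Aut/H673/Front.lean
section



/-!
# S59 / cell TW, AUT leaf CMP, part (R), FRONT — in the vocabulary of `Aut/Spec`  (helper673)

`front` : `V ⊆ X_{K_Q}(𝒪)` with `IsQPart PQ α V`, `a : T_Q → End_𝒪 V` with `IsQAction PQ V h a`,
`y ≠ 0` in `V` with PRIME annihilator in `T_Q`, killed by `∑_{k<n} ⟨u⟩_j^k` (`n = p` in (Rpt)).

Then there are a complete discrete valuation ring `𝒪'` (characteristic zero, finite residue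
field, local and injective over `𝒪`), a LOCAL `𝒪`-algebra homomorphism `x : T_Q → 𝒪'` with
`x s = 0 ↔ a s y = 0` (hence `x w = 1 ↔ a w y = y`) and a character `χ : ∏ (ℤ/q_j)ˣ → 𝒪'` with
`∑_{k<n} χ(u_j)^k = 0`, such that every `𝒪`-linear relation `∑ c_i a(s_i) ⟨g_i⟩ = 0` on `V`
holds for `(x, χ)`.  This is the "Betti point" consumed by the dictionary (DICT) of (Rpt).
-/

set_option autoImplicit false
set_option linter.style.haveILetI false
set_option linter.unusedSectionVars false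

open Polynomial IsLocalRing CongruenceSubgroup
open scoped MatrixGroups

namespace Fermat.Agent.S59.TW.Aut.H673

open Fermat.Agent.S59.Arch Fermat.Agent.S59.TW.H959 Fermat.Agent.S59.TW.H653
open Fermat.Agent.S59.TW.Aut

section

variable {p : ℕ} [hpF : Fact p.Prime]
  {𝒪 : Type} [CommRing 𝒪] [IsDomain 𝒪] [IsDiscreteValuationRing 𝒪]
  [IsAdicComplete (maximalIdeal 𝒪) 𝒪] [Finite (ResidueField 𝒪)] [CharZero 𝒪]
  {ρbar : ResidualGaloisRep (ResidueField 𝒪)} {t : PType} {Smin : Finset ℕ}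
  [NeZero (wilesLevel p t Smin Smin)]
  {r : ℕ} {qv : Fin r → ℕ}
  [NeZero (wilesLevel p t Smin (Smin ∪ Finset.univ.image qv))]
  (PQ : HeckePkg p 𝒪 ρbar t Smin (Smin ∪ Finset.univ.image qv)) (α : Fin r → 𝒪)
  (V : Submodule 𝒪 (XQ p t Smin qv 𝒪)) (h : ℕ) (a : PQ.T →ₐ[𝒪] Module.End 𝒪 V)

/-- `V ⊆ Hom(K_Q, 𝒪)` is torsion-free over the domain `𝒪`. -/
theorem torsionFree_h673 (c : 𝒪) (v : V) (hcv : c • v = 0) : c = 0 ∨ v = 0 := by
  by_cases hc : c = 0
  · exact Or.inl hc
  · right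
    apply Subtype.ext
    refine AddMonoidHom.ext fun k => ?_
    have h1 : ((c • v : V) : XQ p t Smin qv 𝒪) k = 0 := by rw [hcv]; rfl
    have h2 : c * (v : XQ p t Smin qv 𝒪) k = 0 := h1
    rcases mul_eq_zero.mp h2 with h3 | h3
    · exact absurd h3 hc
    · exact h3

/-- The diamond operators of `∏ (ℤ/q_j)ˣ` on `V`, as a monoid homomorphism. -/
noncomputable def diaHom (hinj : Function.Injective qv) (hprime : ∀ j, (qv j).Prime)
    (hV : IsQPart PQ α V) : (∀ j : Fin r, (ZMod (qv j))ˣ) →* Module.End 𝒪 V where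
  toFun u := diaV hV u
  map_one' := by
    haveI hM : NeZero (bLevel (wilesLevel p t Smin Smin) qv) :=
      ⟨Nat.mul_ne_zero (NeZero.ne _)
        (Finset.prod_ne_zero_iff.mpr fun j _ => (hprime j).ne_zero)⟩
    refine LinearMap.ext fun v => Subtype.ext ?_
    rw [coe_diaV]
    exact diaQ_one p t Smin qv 𝒪 _
  map_mul' u u' := by
    haveI hM : NeZero (bLevel (wilesLevel p t Smin Smin) qv) :=
      ⟨Nat.mul_ne_zero (NeZero.ne _)
        (Finset.prod_ne_zero_iff.mpr fun j _ => (hprime j).ne_zero)⟩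
    have hred := red_surjective (wilesLevel p t Smin Smin) qv (NeZero.ne _) hinj hprime
    refine LinearMap.ext fun v => Subtype.ext ?_
    rw [coe_diaV, Module.End.mul_apply, coe_diaV, coe_diaV]
    exact diaQ_mul p t Smin qv 𝒪 hred u u' _

@[simp] theorem diaHom_apply (hinj : Function.Injective qv) (hprime : ∀ j, (qv j).Prime)
    (hV : IsQPart PQ α V) (u : ∀ j : Fin r, (ZMod (qv j))ˣ) :
    diaHom PQ α V hinj hprime hV u = diaV hV u := rfl

include hpF in
/-- **(R), FRONT.**  The Betti point of an eigenvector with prime annihilator. -/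
theorem front (hS : ∀ q ∈ Smin, q.Prime) (hpS : p ∈ Smin)
    (hinj : Function.Injective qv) (hprime : ∀ j, (qv j).Prime)
    (hV : IsQPart PQ α V) (ha : IsQAction PQ V h a)
    (j : Fin r) (u : (ZMod (qv j))ˣ) (n : ℕ)
    (y : V) (hy : y ≠ 0)
    (hΦ : (∑ k ∈ Finset.range n, diaV hV (Pi.mulSingle j u) ^ k) y = 0)
    (hann : ∀ s t : PQ.T, a (s * t) y = 0 → a s y = 0 ∨ a t y = 0) :
    ∃ (𝒪' : Type) (_ : CommRing 𝒪') (_ : IsDomain 𝒪') (_ : IsDiscreteValuationRing 𝒪')
      (_ : IsAdicComplete (maximalIdeal 𝒪') 𝒪') (_ : Finite (ResidueField 𝒪')) (_ : CharZero 𝒪')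
      (_ : Algebra 𝒪 𝒪') (x : PQ.T →ₐ[𝒪] 𝒪') (χ : (∀ j : Fin r, (ZMod (qv j))ˣ) →* 𝒪'),
      IsLocalHom (algebraMap 𝒪 𝒪') ∧ Function.Injective (algebraMap 𝒪 𝒪') ∧
      IsLocalHom x.toRingHom ∧
      (∀ s, x s = 0 ↔ a s y = 0) ∧ (∀ w, x w = 1 ↔ a w y = y) ∧
      (∑ k ∈ Finset.range n, χ (Pi.mulSingle j u) ^ k = 0) ∧
      ∀ (ι : Type) (F : Finset ι) (c : ι → 𝒪) (s : ι → PQ.T)
        (g : ι → ∀ j : Fin r, (ZMod (qv j))ˣ),
        (∀ v : V, ∑ i ∈ F, c i • a (s i) (diaV hV (g i) v) = 0) →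
          ∑ i ∈ F, algebraMap 𝒪 𝒪' (c i) * x (s i) * χ (g i) = 0 := by
  classical
  have hcomm : ∀ (s : PQ.T) (g : ∀ j : Fin r, (ZMod (qv j))ˣ),
      Commute (a s) (diaHom PQ α V hinj hprime hV g) := by
    intro s g
    refine LinearMap.ext fun v => ?_
    rw [Module.End.mul_apply, Module.End.mul_apply, diaHom_apply]
    exact (diaV_comm PQ α V h a hS hpS hprime hV ha g s v).symm
  obtain ⟨𝒪', i1, i2, i3, i4, i5, i6, i7, x, χ, hloc, hinj', hx, hker, hχ, hrel⟩ :=
    front_abs 𝒪 PQ.T (∀ j : Fin r, (ZMod (qv j))ˣ) V (torsionFree_h673 V) a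
      (diaHom PQ α V hinj hprime hV) hcomm y hy hann (Pi.mulSingle j u) n hΦ
  refine ⟨𝒪', i1, i2, i3, i4, i5, i6, i7, x, χ, hloc, hinj', hx, hker, fun w => ?_, hχ, ?_⟩
  · have h1 := hker (w - 1)
    have h2 : x w = x (w - 1) + 1 := by
      rw [← map_one x, ← map_add, sub_add_cancel]
    have h3 : a w y = a (w - 1) y + y := by
      have h4 : a w = a (w - 1) + a 1 := by rw [← map_add, sub_add_cancel]
      rw [h4, map_one, LinearMap.add_apply, Module.End.one_apply]
    rw [h2, h3]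
    constructor
    · intro h5
      have h6 : x (w - 1) = 0 := add_eq_right.mp h5
      rw [h1.mp h6, zero_add]
    · intro h5
      have h6 : a (w - 1) y = 0 := add_eq_right.mp h5
      rw [h1.mpr h6, zero_add]
  · intro ι F c s g hv
    apply hrel ι F c s g
    refine LinearMap.ext fun v => ?_
    rw [LinearMap.sum_apply, LinearMap.zero_apply, ← hv v]
    refine Finset.sum_congr rfl fun i _ => ?_
    rw [LinearMap.smul_apply, Module.End.mul_apply, diaHom_apply]

end

end Fermat.Agent.S59.TW.Aut.H673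

end
-- ===== PACK-END S59/TW/Aut/H673/Front.lean

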