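import Fermat.Prelude.Thm_ModularCurve_coeffMap_qExpand
import Fermat.Agent.Pack.S43MC.G0E21L2
import Fermat.Agent.Pack.S43MC.G0E15L2
import Fermat.Agent.Pack.S43MC.G0E13L2
import Fermat.Agent.Pack.S43MC.G0E13L0
import Fermat.Agent.Pack.S43MC.G0E21L1
import Fermat.Agent.Pack.S43MC.G0E19L0
import Fermat.Agent.Pack.S44C.G0E9L3
import Fermat.Agent.Pack.S44C.G0E24L0
import Fermat.Agent.Pack.S43MC.G0E17L1
import Fermat.Agent.Pack.S44C.G0E20L2
import Fermat.Agent.Pack.S44C.G0E1L1
import Fermat.Agent.Pack.S43MC.G0E15L0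
import Fermat.Agent.Pack.S43MC.G0E21L0
import Fermat.Agent.Pack.S43GC.G0E7L2
import Fermat.Agent.Pack.S43MC.G0E3L1
import Fermat.Agent.Pack.S43MC.G0E21L3
import Fermat.Agent.Pack.S43MC.G0E18L2
import Fermat.Agent.Pack.S44C.G0E17L2
import Fermat.Agent.Pack.S44C.G0E23L1
import Fermat.Agent.Pack.S44C.G0E0L1
import Fermat.Agent.Pack.S43MC.G0E7L0
import Fermat.Agent.Pack.Fast891

-- ===== PACK-BEGIN S26/H70/CubeFinal.lean
section





/-!
# Row S26, block CUBE, leaf C5: `cube_of`, exact skeleton statement, and the integrated form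
(helper70)

* `cube_of` : VERBATIM the statement `Skel.cube_of` of `Skel/CubeSkel.lean` (row-lead helper987),
  C3 supplied by helper120's `H120.inH_of_curveCube` (on main);
* `cube_of_model` : `Stmt.Cube T K` from the inputs that depend on the Picard model only
  (`IsLocal`, `CurveCube`, `LocalOnBase`, `GenericTrivial`) and `CurvesGenerate`;
  geometric integrality and base change are supplied by `H60.hGI_all` and `H911.baseChange`.
-/

set_option autoImplicit false
universe u

open CategoryTheory CategoryTheory.Limits AlgebraicGeometry NeronModelInfra GoodReductionJacobian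

namespace Fermat.Agent.S26.H70

variable {K : Type u} [Field K] [IsAlgClosed K] {T : PicTheory.{u}}

/-- **C5.** The theorem of the cube (exact statement of `Skel.cube_of`). -/
theorem cube_of (hT : T.IsLocal)
    (hC1 : ∀ (K' : Type u) [Field K'] [IsAlgClosed K'], Stmt.CurveCube T K')
    (hGI : ∀ (K' : Type u) [Field K'] [IsAlgClosed K'] (X : AbVar K'),
      GeometricallyIntegral X.str)
    (hGen : ∀ (K' : Type u) [Field K'] [IsAlgClosed K'], Stmt.CurvesGenerate K')
    (hBC : Stmt.BaseChange K) (hP4 : Stmt.LocalOnBase T K) (hP5 : Stmt.GenericTrivial T K) :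
    Stmt.Cube T K :=
  cube_of' (fun _ _ _ hT' hC1' hGI' X M Γ p => H120.inH_of_curveCube hT' hC1' hGI' X M Γ p)
    hT hC1 hGI hGen hBC hP4 hP5

/-- The theorem of the cube from the model-dependent inputs and `CurvesGenerate`. -/
theorem cube_of_model (hT : T.IsLocal)
    (hC1 : ∀ (K' : Type u) [Field K'] [IsAlgClosed K'], Stmt.CurveCube T K')
    (hGen : ∀ (K' : Type u) [Field K'] [IsAlgClosed K'], Stmt.CurvesGenerate K')
    (hP4 : Stmt.LocalOnBase T K) (hP5 : Stmt.GenericTrivial T K) :
    Stmt.Cube T K :=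
  cube_of hT hC1 H60.hGI_all hGen H911.baseChange hP4 hP5

end Fermat.Agent.S26.H70

end
-- ===== PACK-END S26/H70/CubeFinal.lean

-- ===== PACK-BEGIN S27/H970/Rigid.lean
section



/-!
# S27 / PIC-CL tools (helper970): rigidity of rank-one lattices, exact orders

* `linearMap_eq_mul`, `bilinear_eq_mul` : linear (bilinear) maps between `R`-submodules of
  `F = Frac R` are multiplication by a constant.
* `exists_mem_LOff_ord_eq` : the order `-D v` is attained on `LOff T D` at every `v ∉ T`
  (strong approximation).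
-/

set_option autoImplicit false
set_option linter.unusedSectionVars false
set_option linter.style.haveILetI false

noncomputable section

open AlgebraicCurve

namespace Fermat.Agent.S27.H970

open Fermat.Agent.Lib.RR Fermat.Agent.Lib.RR.H638 Fermat.Agent.Lib.RR.H623

section Rigid

variable {R F : Type*} [CommRing R] [Field F] [Algebra R F] [IsDomain R] [IsFractionRing R F]

/-- A linear map from an `R`-submodule of `F = Frac R` to `F` is multiplication by a
constant. -/
theorem linearMap_eq_mul {N : Submodule R F} (φ : N →ₗ[R] F) :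
    ∃ c : F, ∀ f : N, φ f = c * (f : F) := by
  by_cases hN : ∃ f₀ : N, (f₀ : F) ≠ 0
  · obtain ⟨f₀, hf₀⟩ := hN
    refine ⟨φ f₀ / (f₀ : F), fun f => ?_⟩
    obtain ⟨a, b, hb, hab⟩ := IsFractionRing.div_surjective (A := R) ((f : F) / (f₀ : F))
    have hb0 : algebraMap R F b ≠ 0 := by
      intro h0
      exact nonZeroDivisors.ne_zero hb (IsFractionRing.injective R F (by rw [h0, map_zero]))
    have h1 : b • f = a • f₀ := by
      apply Subtype.ext
      show b • (f : F) = a • (f₀ : F)
      rw [Algebra.smul_def, Algebra.smul_def]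
      have hab' := hab
      field_simp at hab'
      exact hab'.symm
    have h2 := congrArg φ h1
    rw [map_smul, map_smul, Algebra.smul_def, Algebra.smul_def] at h2
    have h3 : φ f = algebraMap R F a / algebraMap R F b * φ f₀ := by
      field_simp
      rw [mul_comm, h2, mul_comm]
    rw [h3, hab]
    field_simp
  · push_neg at hN
    refine ⟨0, fun f => ?_⟩
    have : f = 0 := Subtype.ext (hN f)
    rw [this, map_zero, zero_mul]

/-- A bilinear map on `R`-submodules of `F = Frac R` with values in `F` is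
`(f, g) ↦ c f g`. -/
theorem bilinear_eq_mul {N N' : Submodule R F} (β : N →ₗ[R] N' →ₗ[R] F) :
    ∃ c : F, ∀ (f : N) (g : N'), β f g = c * (f : F) * (g : F) := by
  by_cases hN : ∃ g₀ : N', (g₀ : F) ≠ 0
  · obtain ⟨g₀, hg₀⟩ := hN
    obtain ⟨c, hc⟩ := linearMap_eq_mul (β.flip g₀)
    refine ⟨c / (g₀ : F), fun f g => ?_⟩
    obtain ⟨d, hd⟩ := linearMap_eq_mul (β f)
    have h1 : β f g₀ = c * (f : F) := hc f
    have h2 : β f g₀ = d * (g₀ : F) := hd g₀
    have h3 : d = c * (f : F) / (g₀ : F) := by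
      field_simp
      rw [← h2, h1]
    rw [hd g, h3]
    field_simp
  · push_neg at hN
    refine ⟨0, fun f g => ?_⟩
    have : g = 0 := Subtype.ext (hN g)
    rw [this, map_zero, zero_mul, zero_mul]

end Rigid

section Exact

variable {K F : Type*} [Field K] [Field F] [Algebra K F] [FF1 K F]

/-- **Exactness of the bound**: for `v ∉ T` (`T` finite nonempty) there is `f ∈ LOff T D` with
`ord_v f = -D v`. -/
theorem exists_mem_LOff_ord_eq (T : Finset (Place K F)) (hT : T.Nonempty) (D : Divisor K F)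
    (v : Place K F) (hv : v ∉ T) :
    ∃ f : F, f ∈ LOff (T : Set (Place K F)) D ∧ f ≠ 0 ∧ v.ord f = -D v := by
  classical
  have h1 : 1 ≤ T.card := Finset.card_pos.mpr hT
  set n : ℕ := (2 * (genusFF K F : ℤ) - Divisor.degree D + 1).toNat with hn
  set E : Divisor K F := D - prim v + n • divT T with hE
  have hdeg : 2 * (genusFF K F : ℤ) - 2 < Divisor.degree E := by
    rw [hE, map_add, map_sub, degree_prim', degree_nsmul_divT]
    have h3 : 2 * (genusFF K F : ℤ) - Divisor.degree D + 1 ≤ n := Int.self_le_toNat _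
    have h4 : (n : ℤ) ≤ n * T.card := by
      have : (1 : ℤ) ≤ T.card := by exact_mod_cast h1
      have : (0 : ℤ) ≤ n := Int.natCast_nonneg n
      nlinarith
    omega
  obtain ⟨t, ht0, ht⟩ := exists_ord_eq' v (-D v)
  obtain ⟨f, hf1, hf2⟩ := H439.exists_approx hdeg {v} (fun _ => t)
  have hEv : E v = D v - 1 := by
    rw [hE]
    simp only [Finsupp.coe_add, Finsupp.coe_sub, Pi.add_apply, Pi.sub_apply, prim_apply_self,
      Finsupp.coe_smul, Pi.smul_apply, divT_apply_not_mem hv, smul_zero, add_zero]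
  have hEw : ∀ w : Place K F, w ≠ v → w ∉ T → E w = D w := by
    intro w hwv hw
    rw [hE]
    simp only [Finsupp.coe_add, Finsupp.coe_sub, Pi.add_apply, Pi.sub_apply,
      prim_apply_of_ne hwv, Finsupp.coe_smul, Pi.smul_apply, divT_apply_not_mem hw, smul_zero,
      add_zero, sub_zero]
  have hfv := hf1 v (Finset.mem_singleton_self v)
  rw [hEv] at hfv
  -- `f = t + (f - t)` with `ord (f - t) > ord t`
  have hford : f ≠ 0 ∧ v.ord f = -D v := by
    rcases hfv with h0 | h0
    · have : f = t := sub_eq_zero.mp h0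
      rw [this]
      exact ⟨ht0, ht⟩
    · by_cases hft : f - t = 0
      · have : f = t := sub_eq_zero.mp hft
        rw [this]
        exact ⟨ht0, ht⟩
      · have hlt : v.ord t < v.ord (f - t) := by rw [ht]; omega
        have := ord_add_eq_of_lt v ht0 hft hlt
        rw [add_sub_cancel] at this
        refine ⟨?_, by rw [this, ht]⟩
        intro hf0
        rw [hf0, zero_sub, ord_neg] at hlt
        exact lt_irrefl _ hlt
  refine ⟨f, fun w hw => ?_, hford.1, hford.2⟩
  have hw' : w ∉ T := fun h => hw (Finset.mem_coe.mpr h)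
  by_cases hwv : w = v
  · subst hwv
    exact Or.inr (le_of_eq hford.2.symm)
  · have := hf2 w (by rw [Finset.mem_singleton]; exact hwv)
    rw [hEw w hwv hw'] at this
    exact this

end Exact

end Fermat.Agent.S27.H970

end
end
-- ===== PACK-END S27/H970/Rigid.lean

-- ===== PACK-BEGIN S35/G/H215/T0F.lean
section



/-!
# S35 (G'), leaf T0F: the Kummer dictionary for `(t - 1)² (t - Q)` (helper215)

`t0F : Fermat.Agent.S35.G.T0FStatement`.

* `normPow_of_push_eq_zero` : `x = [D]`, `m D = div f`, `φ_* x = 0` ⟹ `N_φ f = c · g ^ m`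
  (norm formula + "no zeros and poles ⟹ constant").
* `frobPolyAdd_mk_eq_zero` : `m D = div f`, `(φ - 1)² (φ - Q) f = c · y ^ m` ⟹
  `(g - 1)² (g - Q) [D] = 0` in `Pic⁰` (divisors are torsion-free).
-/

set_option autoImplicit false
set_option linter.style.haveILetI false

noncomputable section

namespace Fermat.Agent.S35.G.H215

open ModularCurve AlgebraicCurve Fermat.Agent.S35.G

section Abstract

variable {K F F' : Type*} [Field K] [Field F] [Field F'] [Algebra K F] [Algebra K F']

theorem ord_algebraMap_h215 (v : Place K F) (c : K) : v.ord (algebraMap K F c) = 0 := by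
  rcases eq_or_ne c 0 with rfl | hc
  · simp
  have h1 : algebraMap K F c ∈ v.toValuationSubring := v.algebraMap_mem' c
  have h2 : algebraMap K F c⁻¹ ∈ v.toValuationSubring := v.algebraMap_mem' c⁻¹
  have hu : IsUnit (⟨algebraMap K F c, h1⟩ : v.toValuationSubring) := by
    refine IsUnit.of_mul_eq_one (⟨algebraMap K F c⁻¹, h2⟩ : v.toValuationSubring) ?_
    ext
    show algebraMap K F c * algebraMap K F c⁻¹ = 1
    rw [← map_mul, mul_inv_cancel₀ hc, map_one]
  exact v.ord_coe_unit hu.unit

theorem ord_toRingAut_h215 (g : SemilinearAut K F) (w : Place K F) (f : F) :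
    w.ord (SemilinearAut.toRingAut g f) = (g⁻¹ • w).ord f := by
  have h := SemilinearAut.ord_smul g (g⁻¹ • w) f
  rw [smul_inv_smul] at h
  exact h

theorem ord_pow_h215 (v : Place K F) (y : F) (m : ℕ) : v.ord (y ^ m) = m * v.ord y := by
  have := v.ord_zpow y (m : ℤ)
  simpa using this

theorem frobSub_ne_zero_h215 (φ : F ≃+* F) (Q : ℕ) {f : F} (hf : f ≠ 0) : frobSub φ Q f ≠ 0 := by
  unfold frobSub
  exact mul_ne_zero (by simpa using hf) (inv_ne_zero (pow_ne_zero Q hf))

theorem ord_frobSub_h215 (g : SemilinearAut K F) (Q : ℕ) {h : F} (hh : h ≠ 0) (v : Place K F) :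
    v.ord (frobSub (SemilinearAut.toRingAut g) Q h) = (g⁻¹ • v).ord h - Q * v.ord h := by
  unfold frobSub
  have h1 : SemilinearAut.toRingAut g h ≠ 0 := by simpa using hh
  rw [v.ord_mul h1 (inv_ne_zero (pow_ne_zero Q hh)), v.ord_inv, ord_pow_h215, ord_toRingAut_h215,
    sub_eq_add_neg]

/-- **Norm side.**  `m D = div f` and `φ_* [D] = 0` ⟹ `N_φ f` is a constant times an `m`-th
power, provided functions on `F` without zeros and poles are constant. -/
theorem normPow_of_push_eq_zero (φ : F →ₐ[K] F') (hφ : φ.toRingHom.IsIntegral)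
    (hfin : FiniteAlong K φ) (hN : NormFormulaAlong K φ hfin)
    (hconst : ∀ u : F, u ≠ 0 → (∀ v : Place K F, v.ord u = 0) → ∃ c : K, u = algebraMap K F c)
    (m : ℕ) (D : Divisor.degZero (K := K) (F := F')) {f : F'} (hf : f ≠ 0)
    (hfD : ∀ w : Place K F', w.ord f = (m : ℤ) * (D : Divisor K F') w)
    (hx : pic0PushTotal φ (Pic0.mk D) = 0) : NormPow φ m f := by
  rw [pic0PushTotal_eq φ hφ hfin hN, pic0Push_mk, S29.H395.mk_eq_zero_iff] at hx
  obtain ⟨g, hg, hgD⟩ := hx
  have hgD' : ∀ v : Place K F, Divisor.pushforwardAlong φ hφ (D : Divisor K F') v = v.ord g :=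
    fun v => hgD v
  -- the push-forward of `m • D = div f`
  have hpush : ∀ v : Place K F,
      Divisor.pushforwardAlong φ hφ ((m : ℤ) • (D : Divisor K F')) v
        = v.ord (S29.H395.normAlong φ f) := fun v =>
    S29.H395.pushforwardAlong_apply_eq_ord φ hφ hfin hN hf
      (fun w => by rw [Finsupp.smul_apply, smul_eq_mul, hfD w]) v
  have hNf : S29.H395.normAlong φ f ≠ 0 := S29.H395.normAlong_ne_zero φ hfin hf
  have hord : ∀ v : Place K F, v.ord (S29.H395.normAlong φ f) = (m : ℤ) * v.ord g := by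
    intro v
    rw [← hpush v, map_zsmul, Finsupp.smul_apply, smul_eq_mul, hgD' v]
  have hgm : g ^ m ≠ 0 := pow_ne_zero m hg
  have hu0 : S29.H395.normAlong φ f * (g ^ m)⁻¹ ≠ 0 := mul_ne_zero hNf (inv_ne_zero hgm)
  obtain ⟨c, hc⟩ := hconst _ hu0 (fun v => by
    rw [v.ord_mul hNf (inv_ne_zero hgm), v.ord_inv, ord_pow_h215, hord v]; ring)
  refine ⟨c, g, ?_⟩
  rw [← hc, mul_assoc, inv_mul_cancel₀ hgm, mul_one]

/-- **Kummer side.**  `m D = div f` and `(φ - 1)² (φ - Q) f = c · y ^ m` ⟹
`(g - 1)² (g - Q) [D] = 0` in `Pic⁰`. -/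
theorem frobPolyAdd_mk_eq_zero (g : SemilinearAut K F) (m : ℕ) (hm : m ≠ 0) (Q : ℕ)
    (D : Divisor.degZero (K := K) (F := F)) {f : F} (hf : f ≠ 0)
    (hfD : ∀ w : Place K F, w.ord f = (m : ℤ) * (D : Divisor K F) w)
    {c : K} {y : F}
    (hyc : frobPoly (SemilinearAut.toRingAut g) Q f = algebraMap K F c * y ^ m) :
    g • (g • (g • Pic0.mk D - Pic0.mk D) - (g • Pic0.mk D - Pic0.mk D))
      - Q • (g • (g • Pic0.mk D - Pic0.mk D) - (g • Pic0.mk D - Pic0.mk D)) = 0 := by
  set τ := SemilinearAut.toRingAut g with hτ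
  have h1 : frobSub τ 1 f ≠ 0 := frobSub_ne_zero_h215 τ 1 hf
  have h2 : frobSub τ 1 (frobSub τ 1 f) ≠ 0 := frobSub_ne_zero_h215 τ 1 h1
  have h3 : frobPoly τ Q f ≠ 0 := frobSub_ne_zero_h215 τ Q h2
  have hy : y ≠ 0 := by
    rintro rfl
    rw [zero_pow hm, mul_zero] at hyc
    exact h3 hyc
  have hcF : algebraMap K F c ≠ 0 := by
    intro h0
    rw [h0, zero_mul] at hyc
    exact h3 hyc
  -- the divisor `E = (g - Q)(g - 1)² D`
  set U : Divisor.degZero (K := K) (F := F) := SemilinearAut.degZeroSMulHom g D - D with hU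
  set W : Divisor.degZero (K := K) (F := F) := SemilinearAut.degZeroSMulHom g U - U with hW
  set E : Divisor.degZero (K := K) (F := F) := SemilinearAut.degZeroSMulHom g W - Q • W with hE
  have hgoal : g • (g • (g • Pic0.mk D - Pic0.mk D) - (g • Pic0.mk D - Pic0.mk D))
      - Q • (g • (g • Pic0.mk D - Pic0.mk D) - (g • Pic0.mk D - Pic0.mk D)) = Pic0.mk E := by
    rw [SemilinearAut.pic0_smul_mk]
    rfl
  rw [hgoal]
  refine (QuotientAddGroup.eq_zero_iff E).2 ?_
  rw [AddSubgroup.mem_addSubgroupOf]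
  refine ⟨y, hy, fun w => ?_⟩
  have hUw : ∀ v : Place K F, (U : Divisor K F) v
      = (D : Divisor K F) (g⁻¹ • v) - (D : Divisor K F) v := by
    intro v
    simp only [hU, AddSubgroupClass.coe_sub, SemilinearAut.coe_degZeroSMulHom,
      Finsupp.sub_apply, SemilinearAut.divisor_smul_apply]
  have hWw : ∀ v : Place K F, (W : Divisor K F) v
      = (U : Divisor K F) (g⁻¹ • v) - (U : Divisor K F) v := by
    intro v
    simp only [hW, AddSubgroupClass.coe_sub, SemilinearAut.coe_degZeroSMulHom,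
      Finsupp.sub_apply, SemilinearAut.divisor_smul_apply]
  have hEw : (E : Divisor K F) w
      = (W : Divisor K F) (g⁻¹ • w) - (Q : ℤ) * (W : Divisor K F) w := by
    simp only [hE, AddSubgroupClass.coe_sub, SemilinearAut.coe_degZeroSMulHom,
      Finsupp.sub_apply, SemilinearAut.divisor_smul_apply, AddSubgroup.coe_nsmul,
      Finsupp.smul_apply, nsmul_eq_mul]
  have e1 : ∀ v : Place K F, v.ord (frobSub τ 1 f)
      = (m : ℤ) * (U : Divisor K F) v := by
    intro v
    rw [hτ, ord_frobSub_h215 g 1 hf v, hUw v, hfD, hfD]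
    push_cast; ring
  have e2 : ∀ v : Place K F, v.ord (frobSub τ 1 (frobSub τ 1 f))
      = (m : ℤ) * (W : Divisor K F) v := by
    intro v
    rw [hτ, ord_frobSub_h215 g 1 h1 v, hWw v, e1, e1]
    push_cast; ring
  have hord : w.ord (frobPoly τ Q f) = (m : ℤ) * (E : Divisor K F) w := by
    show w.ord (frobSub τ Q (frobSub τ 1 (frobSub τ 1 f))) = _
    rw [hτ, ord_frobSub_h215 g Q h2 w, hEw, e2, e2]
    ring
  have hord2 : w.ord (frobPoly τ Q f) = (m : ℤ) * w.ord y := by
    rw [hyc, w.ord_mul hcF (pow_ne_zero m hy), ord_algebraMap_h215, zero_add, ord_pow_h215]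
  have hm' : (m : ℤ) ≠ 0 := by exact_mod_cast hm
  exact mul_left_cancel₀ hm' (hord.symm.trans hord2)

end Abstract

/-- **Leaf T0F** of (G'): the Kummer dictionary. -/
theorem t0F : T0FStatement := by
  intro M q m _ _ _hq _hqM hm _hqm hα hβ H A hA s hs x hx ha hb
  obtain ⟨D, rfl⟩ := Pic0.mk_surjective x
  -- the Kummer generator
  have hprin : ((m • D : Divisor.degZero (K := Qb) (F := modularFunctionFieldBar (M * q))) :
      Divisor Qb (modularFunctionFieldBar (M * q))) ∈
      Divisor.principal (K := Qb) (F := modularFunctionFieldBar (M * q)) := by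
    have h0 : Pic0.mk (m • D) = 0 := hx
    have := (QuotientAddGroup.eq_zero_iff (m • D)).1 h0
    simpa [AddSubgroup.mem_addSubgroupOf] using this
  obtain ⟨f, hf, hfD⟩ := hprin
  have hfD' : ∀ v : Place Qb (modularFunctionFieldBar (M * q)),
      v.ord f = (m : ℤ) * (D : Divisor Qb (modularFunctionFieldBar (M * q))) v := by
    intro v
    rw [← hfD v]
    simp [Finsupp.smul_apply]
  have hconst := Fermat.Agent.S18.H504.constOfOrdZero_modularFunctionFieldBar M
  obtain ⟨hα1, hα2, hα3⟩ := hα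
  obtain ⟨hβ1, hβ2, hβ3⟩ := hβ
  have hNα : NormPow (heckeAlphaBar Qb M q) m f :=
    normPow_of_push_eq_zero _ hα1 hα2 hα3 hconst m D hf hfD' ha
  have hNβ : NormPow (heckeBetaBar Qb M q) m f :=
    normPow_of_push_eq_zero _ hβ1 hβ2 hβ3 hconst m D hf hfD' hb
  obtain ⟨c, y, _, hyc⟩ := H A hA s hs f hf (fun v => ⟨_, hfD' v⟩) hNα hNβ
  exact frobPolyAdd_mk_eq_zero
    (arithmeticGalois (modularFunctionFieldFull (M * q)) (s * s)) m hm.ne' (q ^ 2) D hf hfD' hyc

end Fermat.Agent.S35.G.H215

end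

end
-- ===== PACK-END S35/G/H215/T0F.lean

-- ===== PACK-BEGIN S35/G/H986/NotPow.lean
section





/-!
# S35, piece (G'), leaf TORIC, sub-leaf NOT-POW (helper986)

`notPow : H60.NotPowStatement A E M q w` : at level `M`, `j` is not a `q`-th power modulo `w`
in the Gauss valuation ring `V∞_M`.

Proof: write `a = U₁ / U₂` and `(a ^ q - j) / w = U₃ / U₄` with integral series, `U₂, U₄`
primitive.  Then `U₁ ^ q U₄ - J U₂ ^ q U₄ = w U₃ U₂ ^ q` as integral series; reducing modulo the
maximal ideal, `red J = (red U₁ / red U₂) ^ q` in `k((t))`, `char k = q`.  But a `q`-th power has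
no term of exponent `-1` (`S37.H400.laurent_pow_char`), while `red J = t⁻¹ + ⋯`.
-/

set_option autoImplicit false
set_option linter.style.haveILetI false
set_option linter.unusedSectionVars false
set_option synthInstance.maxHeartbeats 400000
set_option maxHeartbeats 1600000

noncomputable section

namespace Fermat.Agent.S35.G.H986

open ModularCurve HahnSeries Fermat.Agent.A2.H708

/-- In characteristic `q`, a `q`-th power in `k((t))` has no term of exponent prime to `q`. -/
theorem coeff_pow_char_of_not_dvd {k : Type*} [CommRing k] (q : ℕ) [Fact q.Prime] [CharP k q]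
    (f : LaurentSeries k) {n : ℤ} (hn : ¬ (q : ℤ) ∣ n) : (f ^ q).coeff n = 0 := by
  haveI : NeZero q := ⟨(Fact.out : q.Prime).ne_zero⟩
  have h := S37.H400.laurent_pow_char q f
  rw [h]
  exact qExpand_coeff_of_not_dvd q _ hn

/-- Abstract core of NOT-POW. -/
theorem notPow_core {L : Type*} [Field L] (A : ValuationSubring L) (q : ℕ) [Fact q.Prime]
    [CharP (IsLocalRing.ResidueField A) q] (w : A) (hw : IsLocalRing.residue A w = 0)
    (hw0 : (w : L) ≠ 0) (J U₁ U₂ U₃ U₄ : LaurentSeries A) (h2 : red A U₂ ≠ 0)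
    (h4 : red A U₄ ≠ 0) (hJ : (red A J).coeff (-1) ≠ 0) (a : LaurentSeries L)
    (e₁ : a * incl A U₂ = incl A U₁)
    (e₃ : (a ^ q - incl A J) * (cst (w : L))⁻¹ * incl A U₄ = incl A U₃) : False := by
  have hc : cst (w : L) ≠ 0 := cst_ne_zero hw0
  have key : U₁ ^ q * U₄ - J * U₂ ^ q * U₄ = cstA A w * U₃ * U₂ ^ q := by
    apply incl_injective A
    simp only [map_sub, map_mul, map_pow, incl_cstA]
    rw [← e₁, ← e₃]
    field_simp
    ring
  have hred := congrArg (red A) key
  simp only [map_sub, map_mul, map_pow, red_cstA, hw, HahnSeries.single_eq_zero, zero_mul]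
    at hred
  have h5 : red A U₁ ^ q = red A J * red A U₂ ^ q := by
    have h6 : (red A U₁ ^ q - red A J * red A U₂ ^ q) * red A U₄ = 0 := by
      rw [← hred]; ring
    rcases mul_eq_zero.mp h6 with h7 | h7
    · exact sub_eq_zero.mp h7
    · exact absurd h7 h4
  have h8 : red A J = (red A U₁ * (red A U₂)⁻¹) ^ q := by
    rw [mul_pow, h5, inv_pow, mul_assoc, mul_inv_cancel₀ (pow_ne_zero _ h2), mul_one]
  have hq : ¬ ((q : ℕ) : ℤ) ∣ (-1 : ℤ) := by
    intro h
    have h1 : ((q : ℕ) : ℤ) ∣ ((1 : ℕ) : ℤ) := by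
      simpa using (dvd_neg.mp h)
    have h2 : q ∣ 1 := Int.natCast_dvd_natCast.mp h1
    exact (Fact.out : q.Prime).one_lt.ne' (Nat.dvd_one.mp h2)
  have h9 := coeff_pow_char_of_not_dvd q (red A U₁ * (red A U₂)⁻¹) hq
  rw [← h8] at h9
  exact hJ h9

variable (A : ValuationSubring A2.Mod.Qb) (E : IntermediateField ℚ A2.Mod.Qb) (M q : ℕ)
  [NeZero M] [NeZero q] (w : A2.Mod.RE A E)

/-- **NOT-POW.** -/
theorem notPow : H60.NotPowStatement A E M q w := by
  intro hS VM hVM a ha hcon
  haveI : Fact q.Prime := ⟨hS.q_prime⟩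
  haveI : CharP (IsLocalRing.ResidueField (A2.Mod.RE A E)) q :=
    A2.Mod.H485.charP_residue A E hS.lies_over
  haveI := hS.dvr
  obtain ⟨U₁, U₂, h2, -, e₁⟩ := (hVM a).mp ha
  obtain ⟨U₃, U₄, h4, -, e₃⟩ := (hVM _).mp hcon
  have hw : IsLocalRing.residue (A2.Mod.RE A E) w = 0 := by
    rw [IsLocalRing.residue_eq_zero_iff]
    exact hS.unif.not_isUnit
  have hw0 : (w : E) ≠ 0 := A2.Mod.H378.w_ne_zero hS
  have hj : ((A2.Mod.jE E M 1 (one_dvd _) : A2.Mod.FE E M) : LaurentSeries E) =
      incl (A2.Mod.RE A E) (jqModC (A2.Mod.RE A E)) := by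
    show coeffEmb E (qExpand ℚ 1 jq) = _
    rw [qExpand_one_apply, incl, coeffMap_jqModC, coeffEmb, ← jqModC_rat, coeffMap_jqModC]
  have hJ : (red (A2.Mod.RE A E) (jqModC (A2.Mod.RE A E))).coeff (-1) ≠ 0 := by
    rw [red, coeffMap_jqModC, coeff_jqModC_neg_one]
    exact one_ne_zero
  refine notPow_core (A2.Mod.RE A E) q w hw hw0 (jqModC (A2.Mod.RE A E)) U₁ U₂ U₃ U₄ h2 h4 hJ
    ((a : A2.Mod.FE E M) : LaurentSeries E) e₁ ?_
  rw [← e₃, ← hj]
  rfl

end Fermat.Agent.S35.G.H986

end

end
-- ===== PACK-END S35/G/H986/NotPow.lean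

-- ===== PACK-BEGIN Lib/Newform/H803/MultOne.lean
section




/-!
# Multiplicity one for Prelude newforms (helper803)

Glue of the Atkin–Lehner main lemma (`H803.mainLemma`) with helper443's conditional strong
multiplicity one (`H443.IsNewform.eq_smul_of_mainLemma`) and helper863's degeneracy maps.

* `oldMap N p : S₂(Γ₀(N/p)) →ₗ S₂(Γ₀(N))`, `g ↦ g(p τ)`, for `p ∈ N.primeFactors`;
* `mem_oldSpace_of_coprime_coeff_eq_zero` : main lemma, submodule form;
* `IsNewform.eq_smul_of_eigen` : the good eigenspace of a newform is the line `ℂ f`;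
* `IsNewform.eq_of_eigenform` : a normalised eigenform of level `N` with the good eigenvalues of
  a newform `f` of level `N` equals `f`.
-/

set_option autoImplicit false

namespace Fermat.Agent.Lib.Newform.H803

open CongruenceSubgroup ModularFormClass UpperHalfPlane
open ModularForm (heckeDiagMatrix)
open Fermat.Agent.Lib.Newform.H863
open scoped MatrixGroups

/-- The old-space map `S₂(Γ₀(N/p)) → S₂(Γ₀(N))`, `g ↦ g(p τ)`. -/
noncomputable def oldMap (N : ℕ) (p : N.primeFactors) :
    CuspForm (Gamma0 (N / (p : ℕ))) 2 →ₗ[ℂ] CuspForm (Gamma0 N) 2 :=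
  haveI : NeZero (p : ℕ) := ⟨(Nat.prime_of_mem_primeFactors p.2).ne_zero⟩
  (levelIncl (dvd_of_eq (Nat.div_mul_cancel (Nat.dvd_of_mem_primeFactors p.2)))).comp
    (degen (p : ℕ))

theorem oldMap_apply (N : ℕ) (p : N.primeFactors) (g : CuspForm (Gamma0 (N / (p : ℕ))) 2)
    (τ : ℍ) : oldMap N p g τ = g (heckeDiagMatrix (p : ℕ) • τ) := by
  have : NeZero (p : ℕ) := ⟨(Nat.prime_of_mem_primeFactors p.2).ne_zero⟩
  exact degen_apply (p : ℕ) g τ

theorem div_dvd_of_mem_primeFactors {N : ℕ} (p : N.primeFactors) : N / (p : ℕ) ∣ N :=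
  Nat.div_dvd_of_dvd (Nat.dvd_of_mem_primeFactors p.2)

theorem div_ne_of_mem_primeFactors {N : ℕ} (p : N.primeFactors) : N / (p : ℕ) ≠ N := by
  have hp := Nat.prime_of_mem_primeFactors p.2
  have hpN := Nat.dvd_of_mem_primeFactors p.2
  have hN : 0 < N := Nat.pos_of_ne_zero (Nat.mem_primeFactors.mp p.2).2.2
  exact (Nat.div_lt_self hN hp.one_lt).ne

/-- `oldMap` commutes with the good Hecke operators. -/
theorem oldMap_heckeTLin (N : ℕ) (p : N.primeFactors) (ℓ : ℕ) (hℓ : ℓ.Prime) (hℓN : ¬ ℓ ∣ N)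
    (v : CuspForm (Gamma0 (N / (p : ℕ))) 2) :
    oldMap N p (CuspForm.heckeTLin 2 hℓ (fun hd => hℓN (hd.trans (div_dvd_of_mem_primeFactors p))) v) =
      CuspForm.heckeTLin 2 hℓ hℓN (oldMap N p v) := by
  have : NeZero (p : ℕ) := ⟨(Nat.prime_of_mem_primeFactors p.2).ne_zero⟩
  have hpN : N / (p : ℕ) * (p : ℕ) = N := Nat.div_mul_cancel (Nat.dvd_of_mem_primeFactors p.2)
  have hℓ' : ¬ ℓ ∣ N / (p : ℕ) * (p : ℕ) := by rw [hpN]; exact hℓN
  show levelIncl (dvd_of_eq hpN) (degen (p : ℕ) _) =
    CuspForm.heckeTLin 2 hℓ hℓN (levelIncl (dvd_of_eq hpN) (degen (p : ℕ) v))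
  rw [heckeTLin_levelIncl (dvd_of_eq hpN) hℓ hℓN, heckeTLin_degen hℓ hℓ']

theorem coe_sum_cuspForm {Γ : Subgroup (GL (Fin 2) ℝ)} {k : ℤ} {ι : Type*} (s : Finset ι)
    (F : ι → CuspForm Γ k) : (⇑(∑ i ∈ s, F i) : ℍ → ℂ) = ∑ i ∈ s, ⇑(F i) := by
  classical
  induction s using Finset.induction_on with
  | empty => simp
  | insert a s ha ih => rw [Finset.sum_insert ha, Finset.sum_insert ha, FunLike.coe_add, ih]

/-- **Main lemma, submodule form.** -/
theorem mem_oldSpace_of_coprime_coeff_eq_zero (N : ℕ) [NeZero N] (h : CuspForm (Gamma0 N) 2)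
    (h0 : ∀ n : ℕ, n.Coprime N → qCoeff h n = 0) :
    h ∈ ⨆ p : N.primeFactors, LinearMap.range (oldMap N p) := by
  obtain ⟨g, hg⟩ := _root_.Fermat.Agent.Lib.Newform.H803.mainLemma N 2 h h0
  have e : h = ∑ p : N.primeFactors, oldMap N p (g p) := by
    apply DFunLike.coe_injective
    funext τ
    rw [hg τ, ← Finset.sum_coe_sort]
    rw [coe_sum_cuspForm, Finset.sum_apply]
    exact Finset.sum_congr rfl fun p _ => (oldMap_apply N p (g p) τ).symm
  rw [e]
  exact Submodule.sum_mem _ fun p _ =>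
    Submodule.mem_iSup_of_mem p (LinearMap.mem_range_self _ _)

/-- **Multiplicity one.** The good eigenspace of a newform `f` of level `N` is the line `ℂ f`. -/
theorem IsNewform.eq_smul_of_eigen {N : ℕ} [NeZero N] {f : CuspForm (Gamma0 N) 2}
    (hf : CuspForm.IsNewform f) (g : CuspForm (Gamma0 N) 2)
    (heig : ∀ (ℓ : ℕ) (hℓ : ℓ.Prime) (hℓN : ¬ ℓ ∣ N), CuspForm.heckeTLin 2 hℓ hℓN g = qCoeff f ℓ • g) :
    g = qCoeff g 1 • f :=
  Fermat.Agent.Lib.Newform.H443.IsNewform.eq_smul_of_mainLemma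
    (fun p : N.primeFactors => N / (p : ℕ)) div_dvd_of_mem_primeFactors (oldMap N) hf
    div_ne_of_mem_primeFactors (oldMap_heckeTLin N)
    (mem_oldSpace_of_coprime_coeff_eq_zero N) g heig

/-- **Multiplicity one**, normalised form. -/
theorem IsNewform.eq_of_eigenform {N : ℕ} [NeZero N] {f : CuspForm (Gamma0 N) 2}
    (hf : CuspForm.IsNewform f) {g : CuspForm (Gamma0 N) 2} (hg : CuspForm.IsNormalizedEigenform g)
    (hgf : ∀ ℓ : ℕ, ℓ.Prime → ¬ ℓ ∣ N → qCoeff g ℓ = qCoeff f ℓ) : g = f :=
  Fermat.Agent.Lib.Newform.H443.IsNewform.eq_of_mainLemma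
    (fun p : N.primeFactors => N / (p : ℕ)) div_dvd_of_mem_primeFactors (oldMap N) hf
    div_ne_of_mem_primeFactors (oldMap_heckeTLin N)
    (mem_oldSpace_of_coprime_coeff_eq_zero N) hg hgf

end Fermat.Agent.Lib.Newform.H803

end
-- ===== PACK-END Lib/Newform/H803/MultOne.lean

-- ===== PACK-BEGIN Lib/Newform/H803/XMultOne.lean
section



/-!
# Leaf `MULT-ONE` of NEWFORM block X (helper803)

Same-level multiplicity one for Prelude newforms, in the frozen form `H958.X.MultOne`.
-/

set_option autoImplicit false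

namespace Fermat.Agent.Lib.Newform.H803

/-- **MULT-ONE** (unconditional). -/
theorem multOne : Fermat.Agent.Lib.Newform.H958.X.MultOne :=
  fun _ _ _ hf h heig => IsNewform.eq_smul_of_eigen hf h heig

end Fermat.Agent.Lib.Newform.H803

end
-- ===== PACK-END Lib/Newform/H803/XMultOne.lean

-- ===== PACK-BEGIN S36/H193/WallSheets.lean
section



/-!
# S36 engine, leaf CLOPEN (helper193), part 8: the CLOPEN theorems for the set of all sheets

Setting: `R` a noetherian domain with `R[X]` integrally closed, `w ∈ R` prime, `Z` a field of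
characteristic `0`, `x ∈ Z` transcendental over `R`, `Z` finite over `baseField R x`, `R`
integrally closed in `Z` (`hRF`: no new constants).  Sheets: `A2.H12.IsSheet w x W`.

The structural hypotheses of `Clopen.lean` / `ClopenGraph.lean` / `LabelWall.lean` (finiteness and
separation of the sheets, radical `q`-expansion principle for the three charts) are *theorems*
(`SheetsAll.lean`, `QepAll.lean`), so that only the local hypotheses remain:

* `clopen_sheets_all` : a property of sheets which propagates along sheets meeting at a closed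
  point of the special fibre of one of the two charts holds for all sheets or for none.
* `clopen_label_sheets` : a labelling of the sheets which agrees on any two sheets through a
  common closed point is constant.
* **`kummer_wall3_sheets`** : `Z / F` finite Galois, `x ∈ F`, `G ^ m ∈ F` split on every sheet of
  `Z`, normalised labels agree at every closed point ⟹ `G ∈ F`.
* **`kummer_wall3_sheets_of_values`** : the same with the local hypothesis `PureValuesAt`.
-/

set_option autoImplicit false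
set_option linter.style.haveILetI false
set_option linter.unusedSectionVars false

namespace Fermat.Agent.S36.H193

open Polynomial
open Fermat.Agent.A2.H12 (IsSheet)
open Fermat.Agent.S18.H138

universe u

section All

variable {R : Type u} [CommRing R] [IsDomain R] {Z : Type u} [Field Z] [Algebra R Z]
variable [IsNoetherianRing R] [IsIntegrallyClosed R[X]] [CharZero Z]

/-- **CLOPEN for all sheets, graph form.** -/
theorem clopen_sheets_all
    (hinjR : Function.Injective (algebraMap R Z))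
    (hRF : ∀ y : Z, IsIntegral R y → y ∈ Set.range (algebraMap R Z))
    {x : Z} (hx : Transcendental R x) [FiniteDimensional (baseField R x) Z]
    (w : R) (hw : Prime w)
    (P : ValuationSubring Z → Prop)
    (hloc_fin : ∀ 𝔫 : Ideal (chart R ({x} : Set Z)), 𝔫.IsMaximal →
      algebraMap R (chart R ({x} : Set Z)) w ∈ 𝔫 →
      ∀ W, IsSheet w x W → ∀ W', IsSheet w x W' →
        Through _ 𝔫 W → Through _ 𝔫 W' → P W → P W')
    (hloc_inf : ∀ 𝔫 : Ideal (chart R ({x⁻¹} : Set Z)), 𝔫.IsMaximal →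
      algebraMap R (chart R ({x⁻¹} : Set Z)) w ∈ 𝔫 →
      ∀ W, IsSheet w x W → ∀ W', IsSheet w x W' →
        Through _ 𝔫 W → Through _ 𝔫 W' → P W → P W') :
    (∀ W, IsSheet w x W → P W) ∨ (∀ W, IsSheet w x W → ¬ P W) := by
  obtain ⟨q1, q2, q3⟩ := qepRad_sheets w hw hx
  exact clopen_sheets hinjR hRF hx w hw (sheets_finite hinjR w hw hx) (sheets_sep hinjR w hw hx)
    (fun W hW => sheet_chart_mid_le (show IsSheet w x W from hW))
    (fun W hW => (show IsSheet w x W from hW).2.2.1) q1 q2 q3 P hloc_fin hloc_inf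

/-- **CLOPEN for all sheets, label form.** -/
theorem clopen_label_sheets
    (hinjR : Function.Injective (algebraMap R Z))
    (hRF : ∀ y : Z, IsIntegral R y → y ∈ Set.range (algebraMap R Z))
    {x : Z} (hx : Transcendental R x) [FiniteDimensional (baseField R x) Z]
    (w : R) (hw : Prime w)
    {α : Type*} (lab : ValuationSubring Z → α)
    (hloc_fin : ∀ 𝔫 : Ideal (chart R ({x} : Set Z)), 𝔫.IsMaximal →
      algebraMap R (chart R ({x} : Set Z)) w ∈ 𝔫 →
      ∀ W, IsSheet w x W → ∀ W', IsSheet w x W' →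
        Through _ 𝔫 W → Through _ 𝔫 W' → lab W = lab W')
    (hloc_inf : ∀ 𝔫 : Ideal (chart R ({x⁻¹} : Set Z)), 𝔫.IsMaximal →
      algebraMap R (chart R ({x⁻¹} : Set Z)) w ∈ 𝔫 →
      ∀ W, IsSheet w x W → ∀ W', IsSheet w x W' →
        Through _ 𝔫 W → Through _ 𝔫 W' → lab W = lab W') :
    ∀ W, IsSheet w x W → ∀ W', IsSheet w x W' → lab W = lab W' := by
  obtain ⟨q1, q2, q3⟩ := qepRad_sheets w hw hx
  exact clopen_label hinjR hRF hx w hw (sheets_finite hinjR w hw hx) (sheets_sep hinjR w hw hx)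
    (fun W hW => sheet_chart_mid_le (show IsSheet w x W from hW))
    (fun W hW => (show IsSheet w x W from hW).2.2.1) q1 q2 q3 lab hloc_fin hloc_inf

/-- There is at least one sheet. -/
theorem sheets_nonempty (w : R) (hw : Prime w) {x : Z} (hx : Transcendental R x) :
    {W : ValuationSubring Z | IsSheet w x W}.Nonempty := by
  set B := chart R ({x} : Set Z) with hB
  have hne : Ideal.span {algebraMap R B w} ≠ ⊤ := by
    intro htop
    -- `1 = w t` with `t` integral over `R[x]` is impossible: `w` is prime in `R[x]`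
    rw [Ideal.span_singleton_eq_top] at htop
    obtain ⟨t, ht⟩ := htop.exists_right_inv
    have hx0 : x ≠ 0 := ne_zero_of_transcendental hx
    have h1 : algebraMap R Z 1 = algebraMap R Z w * (t : Z) := by
      rw [map_one]
      exact (congrArg Subtype.val ht).symm
    -- use the `R / w → B / w` injectivity lemma of `S18.H138`
    have hinj : Function.Injective (algebraMap R Z) := by
      rw [injective_iff_map_eq_zero]
      intro r hr
      by_contra hr0
      have : aeval x (C r : R[X]) = 0 := by rw [aeval_C, hr]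
      have h2 := (transcendental_iff.1 hx) _ this
      exact hr0 (C_eq_zero.1 h2)
    have := dvd_of_algebraMap_eq_mul hinj hx w 1 t.2 h1
    exact hw.not_isUnit (isUnit_of_dvd_one this)
  obtain ⟨p, hp⟩ := Ideal.nonempty_minimalPrimes hne
  obtain ⟨V, hV, -⟩ := exists_sheet_of_minimal w hw hx p hp
  exact ⟨V, hV⟩

end All

section Wall

variable {R : Type u} [CommRing R] [IsDomain R] {Z : Type u} [Field Z] [Algebra R Z]
variable [IsNoetherianRing R] [IsIntegrallyClosed R[X]] [CharZero Z]
variable {F : Type u} [Field F] [Algebra R F] [Algebra F Z] [IsScalarTower R F Z]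

/-- The image of a sheet under an element of the Galois group is a sheet. -/
theorem isSheet_comap_symm {w : R} {x : F} (σ : Z ≃ₐ[F] Z) {W : ValuationSubring Z}
    (hW : IsSheet w (algebraMap F Z x) W) :
    IsSheet w (algebraMap F Z x) (W.comap ((σ.symm : Z ≃+* Z) : Z →+* Z)) := by
  have hσs : ∀ f : F, ((σ.symm : Z ≃+* Z) : Z →+* Z) (algebraMap F Z f) = algebraMap F Z f :=
    fun f => σ.symm.commutes f
  have hσR : ∀ r : R, ((σ.symm : Z ≃+* Z) : Z →+* Z) (algebraMap R Z r) = algebraMap R Z r := by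
    intro r
    rw [IsScalarTower.algebraMap_apply R F Z, hσs]
  refine ⟨?_, ?_, ?_, ?_⟩
  · intro r
    rw [ValuationSubring.mem_comap, hσR]
    exact hW.1 r
  · rw [ValuationSubring.mem_comap, hσs]
    exact hW.2.1
  · have := (mem_nonunits_comap_symm W σ (algebraMap R Z w)).2 hW.2.2.1
    have h2 : σ (algebraMap R Z w) = algebraMap R Z w := by
      rw [IsScalarTower.algebraMap_apply R F Z, σ.commutes]
    rwa [h2] at this
  · intro P hP
    rw [ValuationSubring.mem_comap, map_inv₀]
    have h1 : ((σ.symm : Z ≃+* Z) : Z →+* Z) (aeval (algebraMap F Z x) P) =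
        aeval (algebraMap F Z x) P := by
      have h2 : aeval (algebraMap F Z x) P = algebraMap F Z (aeval x P) := by
        rw [← aeval_algebraMap_apply]
      rw [h2, hσs]
    rw [h1]
    exact hW.2.2.2 P hP

/-- **The label wall for all sheets.** -/
theorem kummer_wall3_sheets
    (hinjR : Function.Injective (algebraMap R Z))
    (hRF : ∀ y : Z, IsIntegral R y → y ∈ Set.range (algebraMap R Z))
    {x : F} (hx : Transcendental R (algebraMap F Z x))
    [FiniteDimensional (baseField R (algebraMap F Z x)) Z]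
    (w : R) (hw : Prime w)
    [IsGalois F Z] [FiniteDimensional F Z]
    {m : ℕ} (hm : 0 < m) {mi : R} (hmi : (m : R) * mi = 1) {ζ : R} (hζ : IsPrimitiveRoot ζ m)
    {G : Z} (hGF : G ^ m ∈ Set.range (algebraMap F Z))
    (hG1 : ∀ W, IsSheet w (algebraMap F Z x) W → G ^ m - 1 ∈ W.nonunits)
    (κ : ValuationSubring F → ℕ)
    (hloc_fin : ∀ 𝔫 : Ideal (chart R ({algebraMap F Z x} : Set Z)), 𝔫.IsMaximal →
      algebraMap R (chart R ({algebraMap F Z x} : Set Z)) w ∈ 𝔫 →
      ∀ W, IsSheet w (algebraMap F Z x) W → ∀ W', IsSheet w (algebraMap F Z x) W' →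
        Through _ 𝔫 W → Through _ 𝔫 W' → ∀ a b : ℕ,
        G - algebraMap R Z (ζ ^ a) ∈ W.nonunits → G - algebraMap R Z (ζ ^ b) ∈ W'.nonunits →
        ζ ^ (a + κ (W'.comap (algebraMap F Z))) = ζ ^ (b + κ (W.comap (algebraMap F Z))))
    (hloc_inf : ∀ 𝔫 : Ideal (chart R ({(algebraMap F Z x)⁻¹} : Set Z)), 𝔫.IsMaximal →
      algebraMap R (chart R ({(algebraMap F Z x)⁻¹} : Set Z)) w ∈ 𝔫 →
      ∀ W, IsSheet w (algebraMap F Z x) W → ∀ W', IsSheet w (algebraMap F Z x) W' →
        Through _ 𝔫 W → Through _ 𝔫 W' → ∀ a b : ℕ,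
        G - algebraMap R Z (ζ ^ a) ∈ W.nonunits → G - algebraMap R Z (ζ ^ b) ∈ W'.nonunits →
        ζ ^ (a + κ (W'.comap (algebraMap F Z))) = ζ ^ (b + κ (W.comap (algebraMap F Z)))) :
    G ∈ Set.range (algebraMap F Z) := by
  obtain ⟨q1, q2, q3⟩ := qepRad_sheets w hw hx
  exact kummer_wall3 hinjR hRF hx w hw (sheets_finite hinjR w hw hx) (sheets_nonempty w hw hx)
    (sheets_sep hinjR w hw hx)
    (fun W hW => sheet_chart_mid_le (show IsSheet w (algebraMap F Z x) W from hW))
    (fun W hW => (show IsSheet w (algebraMap F Z x) W from hW).2.2.1) q1 q2 q3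
    (fun σ W hW => isSheet_comap_symm σ (show IsSheet w (algebraMap F Z x) W from hW))
    hm hmi hζ hGF hG1 κ hloc_fin hloc_inf

/-- **The label wall for all sheets, purity form.** -/
theorem kummer_wall3_sheets_of_values
    (hinjR : Function.Injective (algebraMap R Z))
    (hRF : ∀ y : Z, IsIntegral R y → y ∈ Set.range (algebraMap R Z))
    {x : F} (hx : Transcendental R (algebraMap F Z x))
    [FiniteDimensional (baseField R (algebraMap F Z x)) Z]
    (w : R) (hw : Prime w)
    [IsGalois F Z] [FiniteDimensional F Z]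
    {m : ℕ} (hm : 0 < m) {mi : R} (hmi : (m : R) * mi = 1) {ζ : R} (hζ : IsPrimitiveRoot ζ m)
    {G : Z} (hGF : G ^ m ∈ Set.range (algebraMap F Z))
    (hG1 : ∀ W, IsSheet w (algebraMap F Z x) W → G ^ m - 1 ∈ W.nonunits)
    (κ : ValuationSubring F → ℕ)
    (hpv_fin : ∀ 𝔫 : Ideal (chart R ({algebraMap F Z x} : Set Z)), 𝔫.IsMaximal →
      algebraMap R (chart R ({algebraMap F Z x} : Set Z)) w ∈ 𝔫 →
      PureValuesAt {W | IsSheet w (algebraMap F Z x) W} (chart R ({algebraMap F Z x} : Set Z))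
        𝔫 G ζ fun W => κ (W.comap (algebraMap F Z)))
    (hpv_inf : ∀ 𝔫 : Ideal (chart R ({(algebraMap F Z x)⁻¹} : Set Z)), 𝔫.IsMaximal →
      algebraMap R (chart R ({(algebraMap F Z x)⁻¹} : Set Z)) w ∈ 𝔫 →
      PureValuesAt {W | IsSheet w (algebraMap F Z x) W}
        (chart R ({(algebraMap F Z x)⁻¹} : Set Z)) 𝔫 G ζ
        fun W => κ (W.comap (algebraMap F Z))) :
    G ∈ Set.range (algebraMap F Z) := by
  obtain ⟨q1, q2, q3⟩ := qepRad_sheets w hw hx
  exact kummer_wall3_of_values hinjR hRF hx w hw (sheets_finite hinjR w hw hx)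
    (sheets_nonempty w hw hx) (sheets_sep hinjR w hw hx)
    (fun W hW => sheet_chart_mid_le (show IsSheet w (algebraMap F Z x) W from hW))
    (fun W hW => (show IsSheet w (algebraMap F Z x) W from hW).2.2.1) q1 q2 q3
    (fun σ W hW => isSheet_comap_symm σ (show IsSheet w (algebraMap F Z x) W from hW))
    hm hmi hζ hGF hG1 κ hpv_fin hpv_inf

end Wall

end Fermat.Agent.S36.H193

end
-- ===== PACK-END S36/H193/WallSheets.lean

-- ===== PACK-BEGIN S36/H193/WallBase.lean
section


/-!
# S36 engine, leaf CLOPEN (helper193), part 9: the label wall with hypotheses on the base only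

Setting of `WallSheets.lean`: base field `F ∋ x`, finite Galois cover `Z / F`, `G ∈ Z` with
`G ^ m = f ∈ F`, `R` integrally closed in `Z`.

* `BasePureValuesAt` : a purity datum for `f` at the closed point `𝔫` of a chart `B` of the BASE:
  `f = ε h ^ m` with `ε = e₁ / e₂` a unit at `𝔫`, and on every sheet `V` of `F` through `𝔫` the
  residue of `h` is regular at `𝔫` with value `ζ ^ κ V · v`.
* **`kummer_wall3_of_base`** : if `f ≡ 1` on every sheet of `F` and `f` has a purity datum with
  normalised values at every closed point of the special fibre of the two charts of `F`, then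
  every `m`-th root `G` of `f` in `Z` lies in `F`.

No hypothesis on the cover except "no new constants" (`hRF`), no hypothesis on the special fibre
of the base (non-reduced fibres, any number of branches through a point).
-/

set_option autoImplicit false
set_option linter.style.haveILetI false
set_option linter.unusedSectionVars false

namespace Fermat.Agent.S36.H193

open Polynomial
open Fermat.Agent.A2.H12 (IsSheet)
open Fermat.Agent.S18.H138

universe u

section Tower

variable {R : Type*} [CommRing R] {F : Type*} [Field F] [Algebra R F]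
variable {Z : Type*} [Field Z] [Algebra F Z] [Algebra R Z] [IsScalarTower R F Z]

/-- The chart of the base maps into the chart of the cover. -/
theorem algebraMap_mem_chart (T : Set F) {b : F} (hb : b ∈ chart R T) :
    algebraMap F Z b ∈ chart R (algebraMap F Z '' T) := by
  rw [mem_chart] at hb ⊢
  have h1 : IsIntegral (Algebra.adjoin R T) (algebraMap F Z b) :=
    hb.map (IsScalarTower.toAlgHom (Algebra.adjoin R T) F Z)
  exact Fermat.Agent.A2.H652.isIntegral_adjoin_image_of_isIntegral_adjoin T h1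

/-- The ring homomorphism from the chart of the base to the chart of the cover. -/
def chartMap (T : Set F) : chart R T →+* chart R (algebraMap F Z '' T : Set Z) where
  toFun b := ⟨algebraMap F Z b, algebraMap_mem_chart T b.2⟩
  map_one' := Subtype.ext (map_one _)
  map_mul' _ _ := Subtype.ext (map_mul _ _ _)
  map_zero' := Subtype.ext (map_zero _)
  map_add' _ _ := Subtype.ext (map_add _ _ _)

theorem coe_chartMap (T : Set F) (b : chart R T) :
    ((chartMap (Z := Z) T b : chart R (algebraMap F Z '' T : Set Z)) : Z) = algebraMap F Z b :=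
  rfl

theorem chartMap_algebraMap (T : Set F) (r : R) :
    chartMap (Z := Z) T (algebraMap R (chart R T) r) =
      algebraMap R (chart R (algebraMap F Z '' T : Set Z)) r := by
  apply Subtype.ext
  rw [coe_chartMap]
  exact (IsScalarTower.algebraMap_apply R F Z r).symm

/-- The chart of the cover is integral over the chart of the base. -/
theorem chartMap_isIntegral (T : Set F) : (chartMap (R := R) (Z := Z) T).IsIntegral := by
  intro c
  have hc : IsIntegral (Algebra.adjoin R T) (c : Z) :=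
    Fermat.Agent.A2.H652.isIntegral_adjoin_of_isIntegral_adjoin_image T (mem_chart.1 c.2)
  obtain ⟨P, hPm, hP⟩ := hc
  -- push the coefficients into the chart of the base
  let ι : Algebra.adjoin R T →+* chart R T :=
    (Subalgebra.inclusion (adjoin_le_chart T)).toRingHom
  refine ⟨P.map ι, hPm.map ι, ?_⟩
  rw [eval₂_map]
  apply Subtype.ext
  have h1 := Polynomial.hom_eval₂ P ((chartMap (Z := Z) T).comp ι)
    ((chart R (algebraMap F Z '' T : Set Z)).val : _ →+* Z) c
  rw [show (((chart R (algebraMap F Z '' T : Set Z)).val : _ →+* Z)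
    (eval₂ ((chartMap (Z := Z) T).comp ι) c P) : Z) =
      ((eval₂ ((chartMap (Z := Z) T).comp ι) c P : chart R (algebraMap F Z '' T : Set Z)) : Z)
    from rfl] at h1
  rw [h1]
  exact hP

/-- The closed point of the base below a closed point of the cover. -/
theorem comap_chartMap_isMaximal (T : Set F)
    (𝔫 : Ideal (chart R (algebraMap F Z '' T : Set Z))) [h𝔫 : 𝔫.IsMaximal] :
    (𝔫.comap (chartMap (Z := Z) T)).IsMaximal := by
  letI : Algebra (chart R T) (chart R (algebraMap F Z '' T : Set Z)) :=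
    (chartMap (Z := Z) T).toAlgebra
  haveI : Algebra.IsIntegral (chart R T) (chart R (algebraMap F Z '' T : Set Z)) :=
    ⟨chartMap_isIntegral T⟩
  exact Ideal.isMaximal_comap_of_isIntegral_of_isMaximal 𝔫

theorem mem_nonunits_comap_algebraMap (W : ValuationSubring Z) (b : F) :
    b ∈ (W.comap (algebraMap F Z)).nonunits ↔ algebraMap F Z b ∈ W.nonunits := by
  rw [ValuationSubring.mem_nonunits_iff_or, ValuationSubring.mem_nonunits_iff_or,
    ValuationSubring.mem_comap, map_inv₀, map_eq_zero]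

/-- A sheet of the cover through a closed point restricts to a sheet of the base through the
point below. -/
theorem through_comap (T : Set F) (𝔫 : Ideal (chart R (algebraMap F Z '' T : Set Z)))
    {W : ValuationSubring Z} (hth : Through _ 𝔫 W) :
    Through (chart R T) (𝔫.comap (chartMap (Z := Z) T)) (W.comap (algebraMap F Z)) := by
  intro c hc
  rw [Ideal.mem_comap]
  exact hth _ ((mem_nonunits_comap_algebraMap W _).1 hc)

/-- A **purity datum with normalised values on the base**: `f = (e₁ / e₂) h ^ m` with `e₂ ∉ 𝔫`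
(and `e₁ ∉ 𝔫` automatically if `f` is a unit on a sheet through `𝔫`), and on every sheet `V`
of `𝒱` through `𝔫` the residue of `h` is `t / s` with `s ∉ 𝔫` and value `ζ ^ κ V · v` at `𝔫`. -/
def BasePureValuesAt (𝒱 : Set (ValuationSubring F)) (B : Subalgebra R F) (𝔫 : Ideal B) (m : ℕ)
    (f : F) (ζ : R) (κ : ValuationSubring F → ℕ) : Prop :=
  ∃ (h : F) (e₁ e₂ v : B), h ≠ 0 ∧ e₂ ∉ 𝔫 ∧ v ∉ 𝔫 ∧ (e₂ : F) * f = e₁ * h ^ m ∧
    ∀ V ∈ 𝒱, Through B 𝔫 V → ∃ s t : B, s ∉ 𝔫 ∧ (s : F) * h - t ∈ V.nonunits ∧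
      t - algebraMap R B (ζ ^ κ V) * v * s ∈ 𝔫

/-- Transfer of a purity datum from the base to the cover. -/
theorem pureValuesAt_of_base (T : Set F) {𝒱 : Set (ValuationSubring F)}
    {𝒲 : Set (ValuationSubring Z)} (h𝒲 : ∀ W ∈ 𝒲, W.comap (algebraMap F Z) ∈ 𝒱)
    (𝔫 : Ideal (chart R (algebraMap F Z '' T : Set Z)))
    {m : ℕ} (hm : 0 < m) {f : F} {G : Z} (hG : G ^ m = algebraMap F Z f) {ζ : R}
    {κ : ValuationSubring F → ℕ}
    (hb : BasePureValuesAt 𝒱 (chart R T) (𝔫.comap (chartMap (Z := Z) T)) m f ζ κ) :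
    PureValuesAt 𝒲 (chart R (algebraMap F Z '' T : Set Z)) 𝔫 G ζ
      fun W => κ (W.comap (algebraMap F Z)) := by
  obtain ⟨h, e₁, e₂, v, hh0, he₂, hv, hf, hval⟩ := hb
  have hhZ : algebraMap F Z h ≠ 0 := by
    rwa [Ne, map_eq_zero]
  -- `a' = e₂ G / h` lies in the chart of the cover
  have ha' : algebraMap F Z e₂ * G * (algebraMap F Z h)⁻¹ ∈
      chart R (algebraMap F Z '' T : Set Z) := by
    rw [mem_chart]
    refine IsIntegral.of_pow hm ?_
    have h1 : (algebraMap F Z e₂ * G * (algebraMap F Z h)⁻¹) ^ m =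
        algebraMap F Z ((e₂ : F) ^ (m - 1) * e₁) := by
      have h2 : (e₂ : F) ^ m * f = (e₂ : F) ^ (m - 1) * e₁ * h ^ m := by
        have : (e₂ : F) ^ m = (e₂ : F) ^ (m - 1) * e₂ := by
          rw [← pow_succ, Nat.sub_add_cancel hm]
        rw [this, mul_assoc, hf]
        ring
      rw [mul_pow, mul_pow, hG, ← map_pow, ← map_mul, h2, inv_pow, ← map_pow, map_mul,
        mul_assoc, mul_inv_cancel₀ (by rw [map_pow]; exact pow_ne_zero _ hhZ), mul_one]
    rw [h1]
    exact mem_chart.1 (algebraMap_mem_chart T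
      (Subalgebra.mul_mem _ (Subalgebra.pow_mem _ e₂.2 _) e₁.2))
  refine ⟨algebraMap F Z h, ⟨_, ha'⟩, chartMap T e₂, chartMap T v, he₂, hv, ?_, ?_⟩
  · rw [coe_chartMap]
    field_simp
  · intro W hW hth
    obtain ⟨s, t, hs, hst, ht⟩ := hval _ (h𝒲 W hW) (through_comap T 𝔫 hth)
    refine ⟨chartMap T s, chartMap T t, hs, ?_, ?_⟩
    · rw [coe_chartMap, coe_chartMap, ← map_mul, ← map_sub]
      exact (mem_nonunits_comap_algebraMap W _).1 hst
    · rw [Ideal.mem_comap, map_sub, map_mul, map_mul, chartMap_algebraMap] at ht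
      exact ht

end Tower

section Wall

variable {R : Type u} [CommRing R] [IsDomain R] {Z : Type u} [Field Z] [Algebra R Z]
variable [IsNoetherianRing R] [IsIntegrallyClosed R[X]] [CharZero Z]
variable {F : Type u} [Field F] [Algebra R F] [Algebra F Z] [IsScalarTower R F Z]

/-- **The label wall, base form.**  `f ∈ F` split on every sheet of `F`, with a purity datum
with colour-normalised values at every closed point of the special fibre of the two charts of
`F`: then every `m`-th root of `f` in a finite Galois cover `Z / F` without new constants lies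
in `F`. -/
theorem kummer_wall3_of_base
    (hinjR : Function.Injective (algebraMap R Z))
    (hRF : ∀ y : Z, IsIntegral R y → y ∈ Set.range (algebraMap R Z))
    {x : F} (hx : Transcendental R (algebraMap F Z x))
    [FiniteDimensional (baseField R (algebraMap F Z x)) Z]
    (w : R) (hw : Prime w)
    [IsGalois F Z] [FiniteDimensional F Z]
    {m : ℕ} (hm : 0 < m) {mi : R} (hmi : (m : R) * mi = 1) {ζ : R} (hζ : IsPrimitiveRoot ζ m)
    {f : F} {G : Z} (hG : G ^ m = algebraMap F Z f)
    (hsplit : ∀ V, IsSheet w x V → f - 1 ∈ V.nonunits)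
    (κ : ValuationSubring F → ℕ)
    (hpure_fin : ∀ 𝔫 : Ideal (chart R ({x} : Set F)), 𝔫.IsMaximal →
      algebraMap R (chart R ({x} : Set F)) w ∈ 𝔫 →
      BasePureValuesAt {V | IsSheet w x V} (chart R ({x} : Set F)) 𝔫 m f ζ κ)
    (hpure_inf : ∀ 𝔫 : Ideal (chart R ({x⁻¹} : Set F)), 𝔫.IsMaximal →
      algebraMap R (chart R ({x⁻¹} : Set F)) w ∈ 𝔫 →
      BasePureValuesAt {V | IsSheet w x V} (chart R ({x⁻¹} : Set F)) 𝔫 m f ζ κ) :
    G ∈ Set.range (algebraMap F Z) := by
  have hcomap : ∀ W ∈ {W : ValuationSubring Z | IsSheet w (algebraMap F Z x) W},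
      W.comap (algebraMap F Z) ∈ {V : ValuationSubring F | IsSheet w x V} :=
    fun W hW => Fermat.Agent.A2.H12.IsSheet.comap_algebraMap hW
  have himg1 : (algebraMap F Z '' ({x} : Set F) : Set Z) = {algebraMap F Z x} :=
    Set.image_singleton
  have himg2 : (algebraMap F Z '' ({x⁻¹} : Set F) : Set Z) = {(algebraMap F Z x)⁻¹} := by
    rw [Set.image_singleton, map_inv₀]
  refine kummer_wall3_sheets_of_values hinjR hRF hx w hw hm hmi hζ ⟨f, hG.symm⟩ ?_ κ ?_ ?_
  · intro W hW
    have h1 := hsplit _ (hcomap W hW)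
    rw [mem_nonunits_comap_algebraMap, map_sub, map_one, ← hG] at h1
    exact h1
  · rw [← himg1]
    intro 𝔫 h𝔫 hw𝔫
    haveI := h𝔫
    refine pureValuesAt_of_base ({x} : Set F) hcomap 𝔫 hm hG
      (hpure_fin _ (comap_chartMap_isMaximal _ 𝔫) ?_)
    rw [Ideal.mem_comap, chartMap_algebraMap]
    exact hw𝔫
  · rw [← himg2]
    intro 𝔫 h𝔫 hw𝔫
    haveI := h𝔫
    refine pureValuesAt_of_base ({x⁻¹} : Set F) hcomap 𝔫 hm hG
      (hpure_inf _ (comap_chartMap_isMaximal _ 𝔫) ?_)
    rw [Ideal.mem_comap, chartMap_algebraMap]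
    exact hw𝔫

end Wall

end Fermat.Agent.S36.H193

end
-- ===== PACK-END S36/H193/WallBase.lean

-- ===== PACK-BEGIN S36/H919/SheetsBase.lean
section


/-!
# S36 engine, ALG3 gap lemma G2 (helper919), part 1: the base ring lies in every DVR

`R` a henselian local ring with algebraically closed residue field of characteristic `q`.

* `h919_exists_pow_eq_unit` : every unit of `R` is an `n`-th power for every `n` prime to `q`;
* `h919_unit_mem_of_dvr`    : every unit of `R` lies in every discrete valuation subring `V` of an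
                              `R`-field `F` (no hypothesis relating `V` and `R`);
* `h919_algebraMap_mem_of_dvr` : if moreover `R` is a DVR with uniformiser `w` and `w ∈ V`, then
                              `R ⊆ V`;
* `h919_chart_le_of_dvr`    : hence the charts `chart R {x}`, `chart R {x⁻¹}` lie in `V` as soon
                              as `x`, resp. `x⁻¹`, does;
* `h919_exists_pow_mul_inv_mem` : in a discrete valuation subring, a power of every non-unit is
                              divisible by a given non-zero element.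

Mathlib only (plus `A2.H12.mem_of_isIntegral_of_le`).
-/

set_option autoImplicit false
set_option linter.style.haveILetI false
set_option linter.unusedSectionVars false

namespace Fermat.Agent.S36.H919

open Polynomial
open Fermat.Agent.S18.H138

universe u

section Roots

variable {R : Type u} [CommRing R] [IsDomain R] [HenselianLocalRing R]
  [IsAlgClosed (IsLocalRing.ResidueField R)]

/-- A natural number prime to the residue characteristic is a unit. -/
theorem h919_isUnit_natCast {q : ℕ} (hq : (q : R) ∈ IsLocalRing.maximalIdeal R)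
    {n : ℕ} (hn : Nat.Coprime n q) : IsUnit (n : R) := by
  by_contra hnu
  have hnm : (n : R) ∈ IsLocalRing.maximalIdeal R := (IsLocalRing.mem_maximalIdeal _).2 hnu
  have hco : IsCoprime (n : ℤ) (q : ℤ) := Nat.isCoprime_iff_coprime.2 hn
  obtain ⟨a, b, hab⟩ := hco
  have h1 : ((a : R) * (n : R) + (b : R) * (q : R)) = 1 := by
    have := congrArg (fun z : ℤ => (z : R)) hab
    simpa using this
  have h2 : (1 : R) ∈ IsLocalRing.maximalIdeal R := by
    rw [← h1]
    exact Ideal.add_mem _ (Ideal.mul_mem_left _ _ hnm) (Ideal.mul_mem_left _ _ hq)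
  exact (Ideal.ne_top_iff_one _).1 (IsLocalRing.maximalIdeal.isMaximal R).ne_top h2

/-- Every unit is an `n`-th power, `n` prime to the residue characteristic. -/
theorem h919_exists_pow_eq_unit {q : ℕ} (hq : (q : R) ∈ IsLocalRing.maximalIdeal R)
    {n : ℕ} (hn0 : 0 < n) (hn : Nat.Coprime n q) {u : R} (hu : IsUnit u) :
    ∃ y : R, y ^ n = u := by
  obtain ⟨z, hz⟩ := IsAlgClosed.exists_pow_nat_eq (IsLocalRing.residue R u) hn0
  obtain ⟨a₀, rfl⟩ := IsLocalRing.residue_surjective z
  have hnunit : IsUnit (n : R) := h919_isUnit_natCast hq hn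
  have hres : IsLocalRing.residue R (a₀ ^ n - u) = 0 := by
    rw [map_sub, map_pow, hz, sub_self]
  have hmem : a₀ ^ n - u ∈ IsLocalRing.maximalIdeal R :=
    (IsLocalRing.residue_eq_zero_iff _).1 hres
  have ha₀ : IsUnit a₀ := by
    by_contra hna
    have h1 : a₀ ∈ IsLocalRing.maximalIdeal R := (IsLocalRing.mem_maximalIdeal _).2 hna
    have h2 : a₀ ^ n ∈ IsLocalRing.maximalIdeal R := Ideal.pow_mem_of_mem _ h1 n hn0
    have h3 : u ∈ IsLocalRing.maximalIdeal R := by
      have := Ideal.sub_mem _ h2 hmem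
      simpa using this
    exact (IsLocalRing.mem_maximalIdeal _).1 h3 hu
  obtain ⟨a, ha, -⟩ := HenselianLocalRing.is_henselian (X ^ n - C u : R[X])
    (monic_X_pow_sub_C u hn0.ne') a₀ (by simpa using hmem) (by
      simp only [derivative_sub, derivative_X_pow, derivative_C, sub_zero, eval_mul, eval_pow,
        eval_X, eval_C]
      exact (by simpa using hnunit.mul (ha₀.pow (n - 1))))
  refine ⟨a, ?_⟩
  have : eval a (X ^ n - C u : R[X]) = 0 := ha
  simpa [sub_eq_zero] using this

end Roots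

section Mem

variable {R : Type u} [CommRing R] [IsDomain R] [HenselianLocalRing R]
  [IsAlgClosed (IsLocalRing.ResidueField R)]
variable {F : Type u} [Field F] [Algebra R F]

/-- **Units of `R` are units of every discrete valuation subring.** -/
theorem h919_unit_mem_of_dvr {q : ℕ} (hq0 : 0 < q)
    (hq : (q : R) ∈ IsLocalRing.maximalIdeal R)
    (V : ValuationSubring F) [IsDiscreteValuationRing V] {u : R} (hu : IsUnit u) :
    algebraMap R F u ∈ V := by
  by_contra hnot
  have hu0 : algebraMap R F u ≠ 0 := fun h => hnot (h ▸ V.zero_mem)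
  -- `a = u⁻¹` is a non-unit of `V`
  have hinv : (algebraMap R F u)⁻¹ ∈ V := (V.mem_or_inv_mem _).resolve_left hnot
  set a : V := ⟨(algebraMap R F u)⁻¹, hinv⟩ with ha
  have ha0 : a ≠ 0 := by
    intro h
    have := congrArg Subtype.val h
    simp only [ha] at this
    exact (inv_ne_zero hu0) this
  -- `a ∈ 𝔪 ^ N` for all `N`
  have hall : ∀ N : ℕ, a ∈ (IsLocalRing.maximalIdeal V) ^ N := by
    intro N
    have hn0 : 0 < q * N + 1 := Nat.succ_pos _
    have hn : Nat.Coprime (q * N + 1) q := by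
      rw [Nat.coprime_comm]
      have : Nat.Coprime q (q * N + 1) := by
        rw [Nat.coprime_mul_left_add_right]
        exact Nat.coprime_one_right q
      exact this
    obtain ⟨y, hy⟩ := h919_exists_pow_eq_unit hq hn0 hn hu
    have hyF : (algebraMap R F y) ^ (q * N + 1) = algebraMap R F u := by
      rw [← map_pow, hy]
    have hy0 : algebraMap R F y ≠ 0 := by
      intro h
      rw [h, zero_pow hn0.ne'] at hyF
      exact hu0 hyF.symm
    -- `y ∉ V`
    have hyV : algebraMap R F y ∉ V := by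
      intro h
      exact hnot (hyF ▸ V.pow_mem h _)
    have hbV : (algebraMap R F y)⁻¹ ∈ V := (V.mem_or_inv_mem _).resolve_left hyV
    set b : V := ⟨(algebraMap R F y)⁻¹, hbV⟩ with hb
    have hbm : b ∈ IsLocalRing.maximalIdeal V := by
      rw [IsLocalRing.mem_maximalIdeal, mem_nonunits_iff]
      intro hbu
      obtain ⟨c, hc⟩ := hbu.exists_right_inv
      have h1 : (algebraMap R F y)⁻¹ * (c : F) = 1 := by
        have := congrArg Subtype.val hc
        simpa [hb] using this
      have h2 : (c : F) = algebraMap R F y := by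
        field_simp at h1
        exact h1
      exact hyV (h2 ▸ c.2)
    have hab : a = b ^ (q * N + 1) := by
      apply Subtype.ext
      simp only [ha, hb, SubmonoidClass.coe_pow, inv_pow, hyF]
    rw [hab]
    have h1 : b ^ (q * N + 1) ∈ (IsLocalRing.maximalIdeal V) ^ (q * N + 1) :=
      Ideal.pow_mem_pow hbm _
    have hNle : N ≤ q * N + 1 := by nlinarith
    exact Ideal.pow_le_pow_right hNle h1
  have hbot : a ∈ (⨅ N : ℕ, (IsLocalRing.maximalIdeal V) ^ N) := by
    rw [Ideal.mem_iInf]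
    exact hall
  rw [Ideal.iInf_pow_eq_bot_of_isLocalRing _ (IsLocalRing.maximalIdeal.isMaximal V).ne_top] at hbot
  exact ha0 ((Ideal.mem_bot).1 hbot)

/-- **`R ⊆ V`** for every discrete valuation subring `V` containing the uniformiser of `R`. -/
theorem h919_algebraMap_mem_of_dvr [IsDiscreteValuationRing R] {q : ℕ} (hq0 : 0 < q)
    (hq : (q : R) ∈ IsLocalRing.maximalIdeal R) {w : R} (hw : Irreducible w)
    (V : ValuationSubring F) [IsDiscreteValuationRing V] (hwV : algebraMap R F w ∈ V) (r : R) :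
    algebraMap R F r ∈ V := by
  by_cases hr : r = 0
  · subst hr
    rw [map_zero]
    exact V.zero_mem
  obtain ⟨n, u, hu⟩ := IsDiscreteValuationRing.eq_unit_mul_pow_irreducible hr hw
  rw [hu, map_mul, map_pow]
  exact V.mul_mem _ _ (h919_unit_mem_of_dvr hq0 hq V u.isUnit) (V.pow_mem hwV n)

/-- A chart lies in a valuation subring containing `R` and the coordinates. -/
theorem h919_chart_le (V : ValuationSubring F) (hR : ∀ r : R, algebraMap R F r ∈ V)
    {T : Set F} (hT : ∀ t ∈ T, t ∈ V) {c : F} (hc : c ∈ chart R T) : c ∈ V := by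
  refine Fermat.Agent.A2.H12.mem_of_isIntegral_of_le V (Algebra.adjoin R T) ?_ (mem_chart.1 hc)
  intro a ha
  induction ha using Algebra.adjoin_induction with
  | mem y hy => exact hT y hy
  | algebraMap r => exact hR r
  | add y z _ _ hy hz => exact V.add_mem _ _ hy hz
  | mul y z _ _ hy hz => exact V.mul_mem _ _ hy hz

/-- The charts lie in every discrete valuation subring containing `w` and `x`
(resp. `x⁻¹`). -/
theorem h919_chart_le_of_dvr [IsDiscreteValuationRing R] {q : ℕ} (hq0 : 0 < q)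
    (hq : (q : R) ∈ IsLocalRing.maximalIdeal R) {w : R} (hw : Irreducible w)
    (V : ValuationSubring F) [IsDiscreteValuationRing V] (hwV : algebraMap R F w ∈ V)
    {T : Set F} (hT : ∀ t ∈ T, t ∈ V) : ∀ c ∈ chart R T, c ∈ V := fun _ hc =>
  h919_chart_le V (h919_algebraMap_mem_of_dvr hq0 hq hw V hwV) hT hc

end Mem

section Div

variable {F : Type*} [Field F]

/-- In a discrete valuation subring, a fixed power of every non-unit is divisible by a given
non-zero element. -/
theorem h919_exists_pow_mul_inv_mem (V : ValuationSubring F) [IsDiscreteValuationRing V]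
    {c : F} (hc : c ≠ 0) : ∃ e : ℕ, ∀ f ∈ V.nonunits, f ^ e * c⁻¹ ∈ V := by
  by_cases hcV : c ∈ V
  · set c' : V := ⟨c, hcV⟩ with hc'
    have hc'0 : c' ≠ 0 := by
      intro h
      exact hc (congrArg Subtype.val h)
    have hex : ∃ e : ℕ, c' ∉ (IsLocalRing.maximalIdeal V) ^ e := by
      by_contra hcon
      rw [not_exists] at hcon
      have hcon : ∀ e : ℕ, c' ∈ (IsLocalRing.maximalIdeal V) ^ e := fun e => not_not.1 (hcon e)
      have hbot : c' ∈ (⨅ N : ℕ, (IsLocalRing.maximalIdeal V) ^ N) := by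
        rw [Ideal.mem_iInf]
        exact hcon
      rw [Ideal.iInf_pow_eq_bot_of_isLocalRing _
        (IsLocalRing.maximalIdeal.isMaximal V).ne_top] at hbot
      exact hc'0 ((Ideal.mem_bot).1 hbot)
    obtain ⟨e, he⟩ := hex
    refine ⟨e, fun f hf => ?_⟩
    have hfV : f ∈ V := V.nonunits_subset hf
    set f' : V := ⟨f, hfV⟩ with hf'
    have hfm : f' ∈ IsLocalRing.maximalIdeal V := by
      rw [ValuationSubring.mem_nonunits_iff_exists_mem_maximalIdeal] at hf
      obtain ⟨h1, h2⟩ := hf
      exact h2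
    rcases ValuationRing.dvd_total c' (f' ^ e) with h | h
    · obtain ⟨d, hd⟩ := h
      have h1 : f ^ e = c * (d : F) := by
        have := congrArg Subtype.val hd
        simpa [hf', hc'] using this
      rw [h1, mul_comm c, mul_assoc, mul_inv_cancel₀ hc, mul_one]
      exact d.2
    · exfalso
      obtain ⟨d, hd⟩ := h
      apply he
      rw [hd]
      exact Ideal.mul_mem_right _ _ (Ideal.pow_mem_pow hfm e)
  · refine ⟨0, fun f _ => ?_⟩
    rw [pow_zero, one_mul]
    exact (V.mem_or_inv_mem c).resolve_left hcV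

end Div

end Fermat.Agent.S36.H919

end
-- ===== PACK-END S36/H919/SheetsBase.lean

-- ===== PACK-BEGIN S36/H36/Wired.lean
section
/-
S36 (helper36): the frozen statement S36, FULLY WIRED.

`result_of_inputs` : the frozen statement S36 (binders as in the template) from
* the six inputs of row S30 in the unfolded lattice form shared with rows S34 / S35
  (`Fermat/Agent/S34/H789/Inputs.lean`),
* `NewPartInertiaStatement` (the Carayol engine: bounded inertia invariants on the `q`-new
  torsion at `q² ∥ M`),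
* `S35.H991.ExclTateStatement` (the eigensystem of a newform does not occur at level `M / q`).
-/


set_option autoImplicit false

namespace Fermat.Agent.S36.H36

open Polynomial TensorProduct Fermat.Agent.S30.H990 Fermat.Agent.S35.H991

theorem result_of_inputs
    (hfin : ∀ (N p : ℕ) [NeZero N], p.Prime →
      Finite {x : ModularCurve.JZero N // (p : ℤ) • x = 0})
    (hsm : ∀ (N p : ℕ) [NeZero N], ∀ x : ModularCurve.JZero N,
      (∃ n : ℕ, ((p : ℤ) ^ n) • x = 0) →
        ∃ L : IntermediateField ℚ (AlgebraicClosure ℚ), FiniteDimensional ℚ L ∧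
          ∀ σ : GQ, (∀ y ∈ L, σ y = y) → σ • x = x)
    (hgeq : ∀ (N : ℕ) [NeZero N] (ℓ : Nat.Primes) (σ : GQ) (x : ModularCurve.JZero N),
      ModularCurve.heckeOperatorBar N ℓ (σ • x) = σ • ModularCurve.heckeOperatorBar N ℓ x)
    (hunr : ∀ (N p : ℕ) [NeZero N], ∀ q : ℕ, q.Prime → ¬ q ∣ N * p →
      ∀ A : ValuationSubring (AlgebraicClosure ℚ), A.LiesOverPrime q →
        ∀ σ ∈ A.inertiaSubgroupIn ℚ, ∀ x : ModularCurve.JZero N,
          (∃ n : ℕ, ((p : ℤ) ^ n) • x = 0) → σ • x = x)
    (hes : ∀ (N p : ℕ) [NeZero N], ∀ (ℓ : ℕ) (hℓ : ℓ.Prime), ¬ ℓ ∣ N * p →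
      ∀ A : ValuationSubring (AlgebraicClosure ℚ), A.LiesOverPrime ℓ →
        ∀ σ : GQ, A.IsFrobeniusAt σ ℓ → ∀ x : ModularCurve.JZero N,
          (∃ n : ℕ, ((p : ℤ) ^ n) • x = 0) →
            σ • σ • x - ModularCurve.heckeOperatorBar N ⟨ℓ, hℓ⟩ (σ • x) + (ℓ : ℤ) • x = 0)
    (hlat : ∀ (N p : ℕ) [NeZero N], p.Prime →
      ∃ (Λ : Type) (_ : AddCommGroup Λ) (_ : Module.Free ℤ Λ) (_ : Module.Finite ℤ Λ)
        (TΛ : Nat.Primes → Λ →ₗ[ℤ] Λ) (κ : ℕ → Λ →ₗ[ℤ] ModularCurve.JZero N),
        (∀ (n : ℕ) (x : Λ), κ n x = 0 ↔ ∃ y : Λ, x = ((p : ℤ) ^ n) • y) ∧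
        (∀ (n : ℕ) (x : Λ), (p : ℤ) • κ (n + 1) x = κ n x) ∧
        (∀ ℓ : Nat.Primes, ¬ (ℓ : ℕ) ∣ N * p → ∀ (n : ℕ) (x : Λ),
          κ n (TΛ ℓ x) = ModularCurve.heckeOperatorBar N ℓ (κ n x)) ∧
        (∀ (S : Set ℕ) (R : Type) [CommRing R] [IsDomain R] [CharZero R]
          (χ : CuspForm.heckeAlgebra N 2 S →+* R),
          ∃ v : R ⊗[ℤ] Λ, v ≠ 0 ∧
            ∀ (ℓ : ℕ) (hℓ : ℓ.Prime) (hℓN : ¬ ℓ ∣ N) (hℓS : ℓ ∉ S),
              (TΛ ⟨ℓ, hℓ⟩).baseChange R v = χ (CuspForm.heckeAlgebra.T hℓ hℓN hℓS) • v))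
    (hN : NewPartInertiaStatement) (hX : ExclTateStatement)
    {M : ℕ} [NeZero M] {g : CuspForm (CongruenceSubgroup.Gamma0 M) 2} (hg : g.IsNewform)
    (lam : ℕ) [Fact lam.Prime]
    (S : Finset ℕ)
    (O' : Type) [CommRing O'] [IsDomain O'] [IsDiscreteValuationRing O']
    [IsAdicComplete (IsLocalRing.maximalIdeal O') O'] [Finite (IsLocalRing.ResidueField O')]
    [CharZero O'] (hlamO' : (lam : O') ∈ IsLocalRing.maximalIdeal O')
    (chig : CuspForm.heckeAlgebra M 2 (↑S : Set ℕ) →+* ℂ)
    (hchig : ∀ (ℓ : ℕ) (hℓ : ℓ.Prime) (hℓM : ¬ ℓ ∣ M) (hℓS : ℓ ∉ (↑S : Set ℕ)),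
      chig (CuspForm.heckeAlgebra.T hℓ hℓM hℓS) = ModularFormClass.qCoeff g ℓ)
    (iota : chig.range →+* O')
    (hlamS : lam ∈ S) (hMS : ∀ q : ℕ, q.Prime → q ∣ M → q ∈ S) :
    ∃ (O'' : Type) (_ : CommRing O'') (_ : IsDomain O'') (_ : IsDiscreteValuationRing O'')
      (_ : IsAdicComplete (IsLocalRing.maximalIdeal O'') O'') (_ : Finite (IsLocalRing.ResidueField O''))
      (_ : CharZero O'') (_ : Algebra O' O'') (_ : Module.Finite O' O'') (_ : IsLocalHom (algebraMap O' O'')),
      Function.Injective (algebraMap O' O'') ∧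
      ∃ ρ : GaloisRepAdic O'',
        (∀ (ℓ : ℕ) (hℓ : ℓ.Prime) (hℓM : ¬ ℓ ∣ M) (hℓS : ℓ ∉ (↑S : Set ℕ)),
          ∀ A : ValuationSubring (AlgebraicClosure ℚ), A.LiesOverPrime ℓ →
            ∀ σ : AlgebraicClosure ℚ ≃ₐ[ℚ] AlgebraicClosure ℚ, A.IsFrobeniusAt σ ℓ →
              LinearMap.charpoly (ρ.ρ σ) =
                X ^ 2 - C (algebraMap O' O'' ((iota.comp chig.rangeRestrict) (CuspForm.heckeAlgebra.T hℓ hℓM hℓS))) * X
                  + C ((ℓ : O''))) ∧
        (∀ q : ℕ, q.Prime → q ≠ lam → M.factorization q = 2 → ¬ ρ.IsUnipotentOnInertiaAt q) :=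
  _root_.Fermat.Agent.S36.H36.result_of (hasNewformEigenModulesNoInv_of_inputs hfin hsm hgeq hunr hes hlat hN hX)
    hg lam S O' hlamO' chig hchig iota hlamS hMS

end Fermat.Agent.S36.H36

end
-- ===== PACK-END S36/H36/Wired.lean

-- ===== PACK-BEGIN S36/Mod3/H27/QepAbs.lean
section



/-!
# S36 / MOD3, leaf QEP (helper27, independent owner): the abstract core, ROUTE B

Setting: `R` a noetherian domain with `R[X]` integrally closed, `w ∈ R` prime, `F` a field of
characteristic `0`, `x ∈ F` transcendental over `R`, `F` finite over `baseField R x`.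
The sheets are the valuation subrings `V` of `F` with `A2.H12.IsSheet w x V`.

* `mul_inv_mem_chart_of_sheets` : an element `b` of the chart with `b / w` in EVERY sheet is
  divisible by `w` in the chart (algebraic Hartogs `A2.H849` + every height-one prime of the chart
  containing `w` is the centre of a sheet, `S36.H193.isSheet_of_minimal`).
  No hypothesis on the special fibre (multiplicities, singularities): it is a statement about the
  normal noetherian chart only.
* `qep3_fin_of_complete`, `qep3_inf_of_complete`, `qep3_of_complete` : if every sheet is one of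
  `V₁, V₂, V₃` then `Eng.Qep3` holds for the finite chart AND for the chart at infinity
  (uniformly: no integrality of the chart at infinity over a smaller level is needed).
-/

set_option autoImplicit false
set_option linter.style.haveILetI false
set_option linter.unusedSectionVars false

namespace Fermat.Agent.S36.Mod3.H27

open Polynomial
open Fermat.Agent.A2.H12 (IsSheet)
open Fermat.Agent.A2.H849 (IsLocDVR mem_range_of_forall_isLocDVR)
open Fermat.Agent.S18.H138
open Fermat.Agent.S36.H193 (chart_inst isSheet_of_minimal isSheet_inv_iff)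
open Fermat.Agent.S36.Eng

universe u

section Hartogs

variable {R : Type u} [CommRing R] [IsDomain R] [IsNoetherianRing R] [IsIntegrallyClosed R[X]]
  {F : Type u} [Field F] [CharZero F] [Algebra R F]

/-- **Full `q`-expansion principle with respect to all sheets** (finite chart).  If `b` lies in
the chart and `b / w` lies in every sheet, then `b / w` lies in the chart. -/
theorem mul_inv_mem_chart_of_sheets (hinjR : Function.Injective (algebraMap R F)) {w : R}
    (hw : Prime w) {x : F} (hx : Transcendental R x) [FiniteDimensional (baseField R x) F]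
    {b : F} (hb : b ∈ chart R ({x} : Set F))
    (h : ∀ V : ValuationSubring F, IsSheet w x V → b * (algebraMap R F w)⁻¹ ∈ V) :
    b * (algebraMap R F w)⁻¹ ∈ chart R ({x} : Set F) := by
  classical
  obtain ⟨hnoeth, hic, hfrac⟩ := chart_inst (R := R) hx
  set C : Subalgebra R F := chart R ({x} : Set F) with hC
  haveI := hnoeth
  haveI := hic
  haveI : IsFractionRing C F := by
    refine IsFractionRing.of_field C F (fun z => ?_)
    obtain ⟨a, ha, c, hc, -, h⟩ := hfrac z
    exact ⟨⟨a, ha⟩, ⟨c, hc⟩, h⟩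
  have hw0 : algebraMap R F w ≠ 0 := fun h0 => hw.ne_zero (hinjR (by rw [h0, map_zero]))
  have hwC0 : algebraMap R C w ≠ 0 := by
    intro h0
    exact hw0 (congrArg Subtype.val h0)
  have hmem : b * (algebraMap R F w)⁻¹ ∈ (algebraMap C F).range := by
    apply mem_range_of_forall_isLocDVR
    intro O P hOP
    haveI := hOP.prime
    have hCO : ∀ c ∈ C, c ∈ O := fun c hc => hOP.le ⟨c, hc⟩
    by_cases hwP : algebraMap R C w ∈ P
    · -- `O` is a sheet
      have hmin : P ∈ (Ideal.span {algebraMap R C w}).minimalPrimes := by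
        refine ⟨⟨hOP.prime, ?_⟩, ?_⟩
        · rw [Ideal.span_le, Set.singleton_subset_iff]
          exact hwP
        · rintro Q ⟨hQ, hQw⟩ hQP
          have hQ0 : Q ≠ ⊥ := by
            intro hbot
            apply hwC0
            have : algebraMap R C w ∈ Q := hQw (Ideal.subset_span rfl)
            rw [hbot, Ideal.mem_bot] at this
            exact this
          exact (hOP.height_one Q hQ hQ0 hQP).ge
      have hV : ∀ c : C, (c : F) ∈ O.nonunits ↔ c ∈ P := by
        intro c
        constructor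
        · intro hc
          by_contra hcP
          have := hOP.inv_mem c hcP
          rw [ValuationSubring.mem_nonunits_iff_or] at hc
          rcases hc with hc | hc
          · apply hcP
            have : c = 0 := Subtype.ext hc
            rw [this]
            exact Ideal.zero_mem _
          · exact hc this
        · intro hcP
          rw [ValuationSubring.mem_nonunits_iff_or]
          by_cases hc0 : c = 0
          · left
            rw [hc0]
            rfl
          · right
            exact hOP.inv_not_mem c hcP hc0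
      exact h O (isSheet_of_minimal w hw hx C (fun _ => Iff.rfl) P hmin O hCO hV)
    · have h1 : (algebraMap R F w)⁻¹ ∈ O := hOP.inv_mem (algebraMap R C w) hwP
      exact O.mul_mem _ _ (hCO b hb) h1
  obtain ⟨c, hc⟩ := hmem
  rw [← hc]
  exact c.2

end Hartogs

section Qep3

variable {R : Type u} [CommRing R] [IsDomain R] [IsNoetherianRing R] [IsIntegrallyClosed R[X]]
  {F : Type u} [Field F] [CharZero F] [Algebra R F]

/-- `Qep3` for the finite chart from completeness of `{V₁, V₂, V₃}`. -/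
theorem qep3_fin_of_complete (hinjR : Function.Injective (algebraMap R F)) {w : R}
    (hw : Prime w) {x : F} (hx : Transcendental R x) [FiniteDimensional (baseField R x) F]
    (V₁ V₂ V₃ : ValuationSubring F)
    (hcomplete : ∀ V : ValuationSubring F, IsSheet w x V → V = V₁ ∨ V = V₂ ∨ V = V₃) :
    Qep3 w (chart R ({x} : Set F)) V₁ V₂ V₃ := by
  intro b h₁ h₂ h₃
  have := mul_inv_mem_chart_of_sheets hinjR hw hx b.2 (fun V hV => by
    rcases hcomplete V hV with rfl | rfl | rfl
    · exact h₁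
    · exact h₂
    · exact h₃)
  refine ⟨⟨_, this⟩, ?_⟩
  have hw0 : algebraMap R F w ≠ 0 := fun h0 => hw.ne_zero (hinjR (by rw [h0, map_zero]))
  apply Subtype.ext
  show (b : F) = algebraMap R F w * ((b : F) * (algebraMap R F w)⁻¹)
  field_simp

/-- `Qep3` for the chart at infinity from completeness of `{V₁, V₂, V₃}`. -/
theorem qep3_inf_of_complete (hinjR : Function.Injective (algebraMap R F)) {w : R}
    (hw : Prime w) {x : F} (hx : Transcendental R x) [FiniteDimensional (baseField R x) F]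
    (V₁ V₂ V₃ : ValuationSubring F)
    (hcomplete : ∀ V : ValuationSubring F, IsSheet w x V → V = V₁ ∨ V = V₂ ∨ V = V₃) :
    Qep3 w (chart R ({x⁻¹} : Set F)) V₁ V₂ V₃ := by
  have hx0 : x ≠ 0 := ne_zero_of_transcendental hx
  haveI : FiniteDimensional (baseField R x⁻¹) F := by
    rw [baseField_inv]
    infer_instance
  exact qep3_fin_of_complete hinjR hw (transcendental_inv hx) V₁ V₂ V₃
    (fun V hV => hcomplete V ((isSheet_inv_iff w hx0 V).1 hV))

/-- **`Qep3` for both charts from completeness.** -/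
theorem qep3_of_complete (hinjR : Function.Injective (algebraMap R F)) {w : R}
    (hw : Prime w) {x : F} (hx : Transcendental R x) [FiniteDimensional (baseField R x) F]
    (V₁ V₂ V₃ : ValuationSubring F)
    (hcomplete : ∀ V : ValuationSubring F, IsSheet w x V → V = V₁ ∨ V = V₂ ∨ V = V₃) :
    Qep3 w (chart R ({x} : Set F)) V₁ V₂ V₃ ∧ Qep3 w (chart R ({x⁻¹} : Set F)) V₁ V₂ V₃ :=
  ⟨qep3_fin_of_complete hinjR hw hx V₁ V₂ V₃ hcomplete,
    qep3_inf_of_complete hinjR hw hx V₁ V₂ V₃ hcomplete⟩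

end Qep3

end Fermat.Agent.S36.Mod3.H27

end
-- ===== PACK-END S36/Mod3/H27/QepAbs.lean

-- ===== PACK-BEGIN S36/Mod3/H27/Complete.lean
section


/-!
# S36 / MOD3, leaf QEP (helper27): completeness of the sheets from the tower, abstract part

* `chart_eq_of_mem` : `x ∈ chart R {y}`, `y ∈ chart R {x}` ⟹ the two charts coincide.
* `isSheet_of_chart_eq` : **change of coordinate** — a sheet of `x` is a sheet of `y` as soon as
  `x` and `y` have the same chart (going down, via `S36.H193.isSheet_of_minimal`).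
* `isSheet_comap` : `IsSheet w (α x') V → IsSheet w x' (V.comap α)`.
* `complete_of_tower` : if the sheets of the lower level are `V₁'`, `V₂'`, the restriction of a
  sheet is a sheet, and `V₁, V₂` (resp. `V₃`) are the only sheets over `V₁'` (resp. `V₂'`), then
  every sheet of the upper level is one of `V₁, V₂, V₃`.
* `qep3_of_tower` : the conclusion `Eng.Qep3` for both charts.
-/

set_option autoImplicit false
set_option linter.style.haveILetI false
set_option linter.unusedSectionVars false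

namespace Fermat.Agent.S36.Mod3.H27

open Polynomial
open Fermat.Agent.A2.H12 (IsSheet)
open Fermat.Agent.S18.H138
open Fermat.Agent.S36.H193 (isSheet_of_minimal centreW mem_centreW sheet_chart_le
  centre_mem_minimalPrimes)
open Fermat.Agent.S36.Eng

universe u

section Charts

variable {R : Type*} [CommRing R] {F : Type*} [Field F] [Algebra R F]

/-- An element integral over a chart lies in the chart. -/
theorem mem_chart_of_isIntegral_chart27 {S : Set F} {y : F} (hy : IsIntegral (chart R S) y) :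
    y ∈ chart R S := by
  rw [mem_chart]
  have h1 : IsIntegral (integralClosure (Algebra.adjoin R S) F) y := hy
  exact isIntegral_trans (R := Algebra.adjoin R S) (A := integralClosure (Algebra.adjoin R S) F)
    y h1

/-- If `S ⊆ chart R T` then `chart R S ≤ chart R T`. -/
theorem chart_le_of_subset {S T : Set F} (h : S ⊆ chart R T) : chart R S ≤ chart R T := by
  intro f hf
  apply mem_chart_of_isIntegral_chart27
  exact isIntegral_of_le (Algebra.adjoin_le h) (mem_chart.1 hf)

/-- Two coordinates, each integral over the other, have the same chart. -/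
theorem chart_eq_of_mem {x y : F} (hxy : x ∈ chart R ({y} : Set F))
    (hyx : y ∈ chart R ({x} : Set F)) : chart R ({x} : Set F) = chart R ({y} : Set F) :=
  le_antisymm (chart_le_of_subset (Set.singleton_subset_iff.2 hxy))
    (chart_le_of_subset (Set.singleton_subset_iff.2 hyx))

end Charts

section Coord

variable {R : Type u} [CommRing R] [IsDomain R] [IsIntegrallyClosed R[X]]
  {F : Type u} [Field F] [Algebra R F]

/-- **Change of coordinate for sheets.** -/
theorem isSheet_of_chart_eq {w : R} (hw : Prime w) {x y : F} (hy : Transcendental R y)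
    (hxy : x ∈ chart R ({y} : Set F)) (hyx : y ∈ chart R ({x} : Set F))
    {V : ValuationSubring F} (hV : IsSheet w x V) : IsSheet w y V := by
  have heq := chart_eq_of_mem hxy hyx
  refine isSheet_of_minimal w hw hy (chart R ({x} : Set F)) (fun f => ?_)
    (centreW V (chart R ({x} : Set F)) (sheet_chart_le hV)) (centre_mem_minimalPrimes hV) V
    (sheet_chart_le hV) (fun b => (mem_centreW V _ (sheet_chart_le hV) b).symm)
  rw [heq]
  exact mem_chart

end Coord

section Comap

variable {R : Type u} [CommRing R] {F F' : Type u} [Field F] [Algebra R F] [Field F']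
  [Algebra R F']

/-- The restriction of a sheet along a ring homomorphism over `R`. -/
theorem isSheet_comap (α : F' →+* F) (hα : ∀ r : R, α (algebraMap R F' r) = algebraMap R F r)
    {w : R} {x' : F'} {V : ValuationSubring F} (hV : IsSheet w (α x') V) :
    IsSheet w x' (V.comap α) := by
  have haev : ∀ P : R[X], α (aeval x' P) = aeval (α x') P := by
    intro P
    rw [aeval_def, aeval_def, hom_eval₂]
    congr 1
    ext r
    exact hα r
  obtain ⟨h1, h2, h3, h4⟩ := hV
  refine ⟨fun r => ?_, h2, ?_, fun P hP => ?_⟩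
  · show α (algebraMap R F' r) ∈ V
    rw [hα]
    exact h1 r
  · rw [ValuationSubring.mem_nonunits_iff_or] at h3 ⊢
    rcases h3 with h3 | h3
    · left
      rw [← hα] at h3
      exact (map_eq_zero α).1 h3
    · right
      intro hc
      apply h3
      have : α ((algebraMap R F' w)⁻¹) ∈ V := hc
      rwa [map_inv₀, hα] at this
  · show α ((aeval x' P)⁻¹) ∈ V
    rw [map_inv₀, haev]
    exact h4 P hP

end Comap

section Tower

variable {R : Type u} [CommRing R] [IsDomain R] [IsNoetherianRing R] [IsIntegrallyClosed R[X]]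
  {F F' : Type u} [Field F] [CharZero F] [Algebra R F] [Field F'] [Algebra R F']

/-- **Completeness from the tower.** -/
theorem complete_of_tower {w : R} (hw : Prime w) (α : F' →+* F)
    (hα : ∀ r : R, α (algebraMap R F' r) = algebraMap R F r) {x : F} {x' : F'}
    (hx' : Transcendental R (α x'))
    (hc₁ : x ∈ chart R ({α x'} : Set F)) (hc₂ : α x' ∈ chart R ({x} : Set F))
    (V₁ V₂ V₃ : ValuationSubring F) (V₁' V₂' : ValuationSubring F')
    (hS' : ∀ V' : ValuationSubring F', IsSheet w x' V' → V' = V₁' ∨ V' = V₂')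
    (hE₁ : ∀ V : ValuationSubring F, IsSheet w x V → V.comap α = V₁' → V = V₁ ∨ V = V₂)
    (hE₂ : ∀ V : ValuationSubring F, IsSheet w x V → V.comap α = V₂' → V = V₃) :
    ∀ V : ValuationSubring F, IsSheet w x V → V = V₁ ∨ V = V₂ ∨ V = V₃ := by
  intro V hV
  have h1 : IsSheet w (α x') V := isSheet_of_chart_eq hw hx' hc₁ hc₂ hV
  have h2 : IsSheet w x' (V.comap α) := isSheet_comap α hα h1
  rcases hS' _ h2 with h | h
  · rcases hE₁ V hV h with h | h
    · exact Or.inl h
    · exact Or.inr (Or.inl h)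
  · exact Or.inr (Or.inr (hE₂ V hV h))

/-- **`Qep3` for both charts from the tower.** -/
theorem qep3_of_tower (hinjR : Function.Injective (algebraMap R F)) {w : R} (hw : Prime w)
    (α : F' →+* F) (hα : ∀ r : R, α (algebraMap R F' r) = algebraMap R F r) {x : F} {x' : F'}
    (hx : Transcendental R x) [FiniteDimensional (baseField R x) F]
    (hx' : Transcendental R (α x'))
    (hc₁ : x ∈ chart R ({α x'} : Set F)) (hc₂ : α x' ∈ chart R ({x} : Set F))
    (V₁ V₂ V₃ : ValuationSubring F) (V₁' V₂' : ValuationSubring F')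
    (hS' : ∀ V' : ValuationSubring F', IsSheet w x' V' → V' = V₁' ∨ V' = V₂')
    (hE₁ : ∀ V : ValuationSubring F, IsSheet w x V → V.comap α = V₁' → V = V₁ ∨ V = V₂)
    (hE₂ : ∀ V : ValuationSubring F, IsSheet w x V → V.comap α = V₂' → V = V₃) :
    Qep3 w (chart R ({x} : Set F)) V₁ V₂ V₃ ∧ Qep3 w (chart R ({x⁻¹} : Set F)) V₁ V₂ V₃ :=
  qep3_of_complete hinjR hw hx V₁ V₂ V₃
    (complete_of_tower hw α hα hx' hc₁ hc₂ V₁ V₂ V₃ V₁' V₂' hS' hE₁ hE₂)

end Tower

end Fermat.Agent.S36.Mod3.H27

end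
-- ===== PACK-END S36/Mod3/H27/Complete.lean

-- ===== PACK-BEGIN S36/H922/UnitBar.lean
section





/-!
# S36 engine / cell REG, route R4 (MID-UNIT): the unit polynomial modulo `p`  — helper922

Formal `q`-series only (Mathlib + S28).  Let `Ψ ∈ ℤ[Y][X]` be the unit polynomial of level `p`
(`S15.H482.exists_unitPoly_int` / `S28.H589.descent`): monic of degree `p + 1` with

* `Ψ(j ; p¹² Δ(q^p)/Δ(q)) = 0`,
* `Ψ(j(q^p) ; Δ(q)/Δ(q^p)) = 0`.

Then modulo `p`

  `Ψ̄ = X ^ (p+1) - D(Y) · X`,   `D(j̄) = Δ̄ ^ (1 - p) = Δ̄ · (Δ̄⁻¹) ^ p`.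

Consequence (`h922_unit_roots_congr`): in ANY commutative ring `κ` of characteristic `p` which is
reduced, two UNIT roots `b, g` of `Ψ̄(y ; X)` (for the same `y`) are EQUAL.  Applied to the residue
field of the valuation `V_mid` of `X₀(p² M')`, `y = j_p`, `b = β(U')`, `g = α(p¹²/U')`:
`β(U') ≡ α(p¹²/U') mod 𝔪_mid` — the residue of the modular unit along `mid`, with no Fricke
involution on residue fields and no expansion at the cusp `1/p`.
-/

set_option autoImplicit false

noncomputable section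

open ModularCurve HahnSeries Polynomial

namespace Fermat.Agent.S36.H922

open Fermat.Agent.S28

section Order

variable (k : Type*) [Field k]

theorem h922_deltaL_coeff (n : ℤ) :
    (deltaL k).coeff n
      = (HahnSeries.ofPowerSeries ℤ k (dedekindEtaUnit.map (Int.castRingHom k))).coeff (n - 1) := by
  rw [deltaL, HahnSeries.coeff_single_mul, one_mul]

theorem h922_deltaL_coeff_one : (deltaL k).coeff 1 = 1 := by
  rw [h922_deltaL_coeff]
  have : ((1 : ℤ) - 1) = ((0 : ℕ) : ℤ) := by norm_num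
  rw [this, HahnSeries.ofPowerSeries_apply_coeff, PowerSeries.coeff_map,
    PowerSeries.coeff_zero_eq_constantCoeff_apply, constantCoeff_dedekindEtaUnit]
  simp

theorem h922_deltaL_ne_zero : deltaL k ≠ 0 := by
  intro h
  have := h922_deltaL_coeff_one k
  rw [h, HahnSeries.coeff_zero] at this
  exact zero_ne_one this

theorem h922_order_deltaL : (deltaL k).order = 1 := by
  refine le_antisymm (HahnSeries.order_le_of_coeff_ne_zero ?_) ?_
  · rw [h922_deltaL_coeff_one]; exact one_ne_zero
  · by_contra hlt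
    rw [not_le] at hlt
    refine (HahnSeries.coeff_order_eq_zero.not.mpr (h922_deltaL_ne_zero k)) ?_
    rw [h922_deltaL_coeff]
    exact ModularCurve.ofPowerSeries_coeff_of_neg _ (by omega)

/-- `ḡ = Δ(q)/Δ(q^p)` over `k`. -/
def h922_g (p : ℕ) [NeZero p] : LaurentSeries k := deltaL k * qExpand k p (deltaInvL k)

theorem h922_g_mul (p : ℕ) [NeZero p] : h922_g k p * qExpand k p (deltaL k) = deltaL k := by
  rw [h922_g, mul_assoc, ← map_mul, mul_comm (deltaInvL k), h88_deltaL_mul_deltaInvL, map_one,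
    mul_one]

theorem h922_g_ne_zero (p : ℕ) [NeZero p] : h922_g k p ≠ 0 := by
  intro h
  have := h922_g_mul k p
  rw [h, zero_mul] at this
  exact h922_deltaL_ne_zero k this.symm

theorem h922_g_order_coprime (p : ℕ) [NeZero p] : IsCoprime (h922_g k p).order (p : ℤ) := by
  have hV : qExpand k p (deltaL k) ≠ 0 := by
    intro h
    have := h922_g_mul k p
    rw [h, mul_zero] at this
    exact h922_deltaL_ne_zero k this.symm
  obtain ⟨m, hm⟩ := Fermat.Agent.S28.H145.dvd_order_qExpand (k := k) p (deltaL k)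
  have h1 : (h922_g k p * qExpand k p (deltaL k)).order
      = (h922_g k p).order + (qExpand k p (deltaL k)).order :=
    HahnSeries.order_mul (h922_g_ne_zero k p) hV
  rw [h922_g_mul, h922_order_deltaL, hm] at h1
  exact ⟨1, m, by rw [one_mul]; linarith⟩

end Order

section Main

variable (p : ℕ) [hp : Fact p.Prime] [NeZero p]

/-- Reduction of coefficients `ℤ((q)) → 𝔽_p((q))`. -/
abbrev h922_red : LaurentSeries ℤ →+* LaurentSeries (ZMod p) :=
  coeffMap (Int.castRingHom (ZMod p))

/-- `Ψ mod p ∈ 𝔽_p[Y][X]`. -/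
def h922_bar (Ψ : Polynomial (Polynomial ℤ)) : Polynomial (Polynomial (ZMod p)) :=
  Ψ.map (Polynomial.mapRingHom (Int.castRingHom (ZMod p)))

theorem h922_red_comp_evalAt (y : LaurentSeries ℤ) :
    (h922_red p).comp (evalAt y) = evalAt (h922_red p y) := by
  apply Polynomial.ringHom_ext
  · intro a
    simp [evalAt]
  · simp [evalAt]

theorem h922_bar_eval₂ (Ψ : Polynomial (Polynomial ℤ)) (Y x : LaurentSeries (ZMod p)) :
    (h922_bar p Ψ).eval₂ (Polynomial.aeval (R := ZMod p) Y).toRingHom x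
      = Ψ.eval₂ (evalAt Y) x := by
  rw [h922_bar, Polynomial.eval₂_map, h88_aeval_comp_mapRingHom]

theorem h922_red_eval₂ (Ψ : Polynomial (Polynomial ℤ)) (y x : LaurentSeries ℤ) :
    h922_red p (Ψ.eval₂ (evalAt y) x) = Ψ.eval₂ (evalAt (h922_red p y)) (h922_red p x) := by
  rw [Polynomial.hom_eval₂, h922_red_comp_evalAt]

theorem h922_red_unit : h922_red p ((p : LaurentSeries ℤ) ^ 12 * unitL ℤ p) = 0 := by
  have : CharP (LaurentSeries (ZMod p)) p := h88_charP_laurent (ZMod p) p
  rw [map_mul, map_pow, map_natCast, CharP.cast_eq_zero, zero_pow (by norm_num), zero_mul]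

theorem h922_red_jp :
    h922_red p (qExpand ℤ p (jqModC ℤ)) = jqModC (ZMod p) ^ p := by
  rw [h922_red, coeffMap_qExpand, coeffMap_jqModC, h88_qExpand_zmod]

theorem h922_red_unit' : h922_red p (H589.unitL' p) = h922_g (ZMod p) p := by
  rw [h922_red, H589.unitL', map_mul, coeffMap_qExpand, h88_coeffMap_deltaL,
    h88_coeffMap_deltaInvL, h922_g]

/-- **The unit polynomial modulo `p`.** -/
theorem h922_unitPoly_bar (Ψ : Polynomial (Polynomial ℤ)) (hΨ : Ψ.Monic)
    (hdeg : Ψ.natDegree = p + 1)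
    (h1 : Ψ.eval₂ (evalAt (jqModC ℤ)) ((p : LaurentSeries ℤ) ^ 12 * unitL ℤ p) = 0)
    (h2 : Ψ.eval₂ (evalAt (qExpand ℤ p (jqModC ℤ))) (H589.unitL' p) = 0) :
    ∃ D : Polynomial (ZMod p),
      h922_bar p Ψ = X ^ (p + 1) - Polynomial.C D * X ∧
      Polynomial.aeval (jqModC (ZMod p)) D = h922_g (ZMod p) p := by
  classical
  set J := jqModC (ZMod p) with hJ
  set g := h922_g (ZMod p) p with hg
  set Ψb := h922_bar p Ψ with hΨb
  have hpp : 2 ≤ p := hp.out.two_le
  have hΨbm : Ψb.Monic := hΨ.map _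
  have hΨbd : Ψb.natDegree = p + 1 := by rw [hΨb, h922_bar, hΨ.natDegree_map, hdeg]
  have hg0 : g ≠ 0 := h922_g_ne_zero (ZMod p) p
  -- the two relations modulo `p`
  have r1 : Ψb.eval₂ (Polynomial.aeval (R := ZMod p) J).toRingHom 0 = 0 := by
    have h := congrArg (h922_red p) h1
    rw [h922_red_eval₂, h922_red_unit, map_zero, coeffMap_jqModC] at h
    rw [h922_bar_eval₂]
    exact h
  have r2 : Ψb.eval₂ (Polynomial.aeval (R := ZMod p) (J ^ p)).toRingHom g = 0 := by
    have h := congrArg (h922_red p) h2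
    rw [h922_red_eval₂, h922_red_jp, h922_red_unit', map_zero] at h
    rw [h922_bar_eval₂]
    exact h
  -- coefficients
  set a : ℕ → LaurentSeries (ZMod p) := fun i => Polynomial.aeval J (Ψb.coeff i) with ha
  have ha0 : a 0 = 0 := by
    rw [Polynomial.eval₂_at_zero] at r1
    exact r1
  have hatop : a (p + 1) = 1 := by
    have : Ψb.coeff (p + 1) = 1 := by
      rw [← hΨbd]; exact hΨbm.coeff_natDegree
    simp only [ha, this, map_one]
  have hgp : g ^ p = qExpand (ZMod p) p g := (h88_qExpand_zmod p g).symm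
  have hsum : ∑ i ∈ Finset.range p, qExpand (ZMod p) p (a i) * g ^ i
      + qExpand (ZMod p) p (a p * g) + qExpand (ZMod p) p g * g = 0 := by
    rw [Polynomial.eval₂_eq_sum_range, hΨbd, Finset.sum_range_succ, Finset.sum_range_succ] at r2
    have e : ∀ i, (Polynomial.aeval (R := ZMod p) (J ^ p)).toRingHom (Ψb.coeff i)
        = qExpand (ZMod p) p (a i) := fun i => h88_aeval_pow_eq_qExpand p (Ψb.coeff i)
    simp only [e] at r2
    rw [hatop, map_one, one_mul, pow_succ, hgp] at r2
    rw [map_mul]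
    exact r2
  -- regroup
  set c : Fin p → LaurentSeries (ZMod p) := fun i =>
    a i + (if (i : ℕ) = 0 then a p * g else 0) + (if (i : ℕ) = 1 then g else 0) with hc
  have hsum' : ∑ i : Fin p, qExpand (ZMod p) p (c i) * g ^ (i : ℕ) = 0 := by
    have h0 : ∑ i : Fin p, qExpand (ZMod p) p (c i) * g ^ (i : ℕ)
        = ∑ i ∈ Finset.range p, qExpand (ZMod p) p
            (a i + (if i = 0 then a p * g else 0) + (if i = 1 then g else 0)) * g ^ i :=
      Fin.sum_univ_eq_sum_range (fun i => qExpand (ZMod p) p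
        (a i + (if i = 0 then a p * g else 0) + (if i = 1 then g else 0)) * g ^ i) p
    rw [h0]
    refine Eq.trans ?_ hsum
    simp only [map_add, add_mul, Finset.sum_add_distrib]
    have e0 : ∑ i ∈ Finset.range p,
        qExpand (ZMod p) p (if i = 0 then a p * g else 0) * g ^ i
        = qExpand (ZMod p) p (a p * g) := by
      rw [Finset.sum_eq_single 0]
      · simp
      · intro i _ hi
        simp [hi]
      · intro h
        exact absurd (Finset.mem_range.mpr (by omega)) h
    have e1 : ∑ i ∈ Finset.range p,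
        qExpand (ZMod p) p (if i = 1 then g else 0) * g ^ i
        = qExpand (ZMod p) p g * g := by
      rw [Finset.sum_eq_single 1]
      · simp
      · intro i _ hi
        simp [hi]
      · intro h
        exact absurd (Finset.mem_range.mpr (by omega)) h
    rw [e0, e1]
  have hc0 := Fermat.Agent.S28.H145.eq_zero_of_sum_qExpand_mul_pow_eq_zero (k := ZMod p) p g hg0
    (h922_g_order_coprime (ZMod p) p) c hsum'
  -- read off the coefficients
  have hap : a p = 0 := by
    have h := hc0 ⟨0, by omega⟩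
    simp only [hc, ha0, zero_add, if_true] at h
    have h' : a p * g = 0 := by simpa using h
    rcases mul_eq_zero.mp h' with h | h
    · exact h
    · exact absurd h hg0
  have ha1 : a 1 = -g := by
    have h := hc0 ⟨1, by omega⟩
    simp only [hc] at h
    have h' : a 1 + g = 0 := by simpa using h
    exact eq_neg_of_add_eq_zero_left h'
  have hai : ∀ i, i ≠ 1 → i ≠ p + 1 → a i = 0 := by
    intro i hi1 hip
    rcases Nat.lt_or_ge i p with hlt | hge
    · rcases Nat.eq_zero_or_pos i with h0 | hpos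
      · rw [h0]; exact ha0
      · have h := hc0 ⟨i, hlt⟩
        simp only [hc] at h
        have hi0 : i ≠ 0 := by omega
        simpa [hi0, hi1] using h
    · rcases Nat.eq_or_lt_of_le hge with h | h
      · rw [← h]; exact hap
      · have : Ψb.coeff i = 0 :=
          Polynomial.coeff_eq_zero_of_natDegree_lt (by rw [hΨbd]; omega)
        simp only [ha, this, map_zero]
  have hinj := h88_aeval_jqModC_injective (ZMod p)
  refine ⟨-Ψb.coeff 1, ?_, ?_⟩
  · ext1 n
    rw [Polynomial.coeff_sub, Polynomial.coeff_X_pow, Polynomial.coeff_C_mul_X]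
    by_cases hn1 : n = 1
    · subst hn1
      have : (1 : ℕ) ≠ p + 1 := by omega
      have hp0 : p ≠ 0 := by omega
      simp [this, hp0]
    · by_cases hnp : n = p + 1
      · subst hnp
        have : Ψb.coeff (p + 1) = 1 := by
          rw [← hΨbd]; exact hΨbm.coeff_natDegree
        have hp0 : p ≠ 0 := by omega
        simp [this, hp0]
      · have h0 : Ψb.coeff n = 0 := by
          apply hinj
          rw [map_zero]
          exact hai n hn1 hnp
        simp [h0, hn1, hnp]
  · rw [map_neg]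
    have : Polynomial.aeval J (Ψb.coeff 1) = a 1 := rfl
    rw [this, ha1, neg_neg]

open Fermat.Agent.S28.H589 in
/-- The unit polynomial `Ψ ∈ ℤ[Y][X]` of helper589, with its degree and both vanishing
relations (same proof as `S15.H482.exists_unitPoly_int`, keeping the degree). -/
theorem h922_exists_unitPoly (hp' : p.Prime) :
    ∃ Ψ : Polynomial (Polynomial ℤ), Ψ.Monic ∧ Ψ.natDegree = p + 1 ∧
      Ψ.eval₂ (evalAt (jqModC ℤ)) ((p : LaurentSeries ℤ) ^ 12 * unitL ℤ p) = 0 ∧
      Ψ.eval₂ (evalAt (qExpand ℤ p (jqModC ℤ))) (unitL' p) = 0 := by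
  obtain ⟨W, hWm, hWd, h1, h2⟩ := exists_unitPoly_complex p hp'
  obtain ⟨m, hm⟩ := exists_order_unitSeriesC' p
  have hord : (unitL' p).order = 1 - p * m := by
    rw [← order_iotaC, iotaC_unit', hm]
  have hf0 : unitL' p ≠ 0 := by
    intro h
    apply unitSeriesC'_ne_zero p
    rw [← iotaC_unit', h, map_zero]
  have hcop : IsCoprime (unitL' p).order (p : ℤ) := by
    rw [hord]
    exact ⟨1, m, by ring⟩
  have hne : unitL' p ≠ qExpand ℤ p ((p : LaurentSeries ℤ) ^ 12 * unitL ℤ p) := by
    intro h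
    have h3 := congrArg iotaC h
    rw [iotaC_unit', iotaC, coeffMap_qExpand] at h3
    obtain ⟨k, hk⟩ := Fermat.Agent.S28.H145.dvd_order_qExpand (k := ℂ) p
      (coeffMap (Int.castRingHom ℂ) ((p : LaurentSeries ℤ) ^ 12 * unitL ℤ p))
    rw [← h3, hm] at hk
    have hp2 : (2 : ℤ) ≤ p := by exact_mod_cast hp'.two_le
    have hdvd : (p : ℤ) ∣ 1 := ⟨k + m, by linarith⟩
    have := Int.le_of_dvd one_pos hdvd
    omega
  exact descent p W hWm (p + 1) hWd rfl
    ((p : LaurentSeries ℤ) ^ 12 * unitL ℤ p) (unitL' p) hf0 hcop hne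
    (by rw [iotaC_unit]; exact h1)
    (by rw [iotaC_unit']; exact h2)

/-- Evaluation `𝔽_p[Y] → κ`, `Y ↦ y`, for a ring `κ` of characteristic `p`. -/
def h922_evK (κ : Type*) [CommRing κ] [CharP κ p] (y : κ) : Polynomial (ZMod p) →+* κ :=
  Polynomial.eval₂RingHom (ZMod.castHom (dvd_refl p) κ) y

theorem h922_evK_comp (κ : Type*) [CommRing κ] [CharP κ p] (y : κ) :
    (h922_evK p κ y).comp (Polynomial.mapRingHom (Int.castRingHom (ZMod p)))
      = (Polynomial.aeval (R := ℤ) y).toRingHom := by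
  apply Polynomial.ringHom_ext
  · intro a
    simp [h922_evK]
  · simp [h922_evK]

/-- **Unit roots of the unit polynomial are unique in characteristic `p`.**
`κ` a reduced ring of characteristic `p` (e.g. a residue field), `Ψ` the unit polynomial;
if `b` and `g` are UNITS of `κ` with `Ψ(y ; b) = 0 = Ψ(y ; g)` then `b = g`. -/
theorem h922_unit_roots_eq (Ψ : Polynomial (Polynomial ℤ)) (hΨ : Ψ.Monic)
    (hdeg : Ψ.natDegree = p + 1)
    (h1 : Ψ.eval₂ (evalAt (jqModC ℤ)) ((p : LaurentSeries ℤ) ^ 12 * unitL ℤ p) = 0)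
    (h2 : Ψ.eval₂ (evalAt (qExpand ℤ p (jqModC ℤ))) (H589.unitL' p) = 0)
    (κ : Type*) [CommRing κ] [IsReduced κ] [CharP κ p] (y b g : κ)
    (hb : IsUnit b) (hg : IsUnit g)
    (hΨb : Ψ.eval₂ (Polynomial.aeval (R := ℤ) y).toRingHom b = 0)
    (hΨg : Ψ.eval₂ (Polynomial.aeval (R := ℤ) y).toRingHom g = 0) : b = g := by
  obtain ⟨D, hD, -⟩ := h922_unitPoly_bar p Ψ hΨ hdeg h1 h2
  have key : ∀ x : κ, IsUnit x → Ψ.eval₂ (Polynomial.aeval (R := ℤ) y).toRingHom x = 0 →
      x ^ p = h922_evK p κ y D := by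
    intro x hx h
    rw [← h922_evK_comp p κ y, ← Polynomial.eval₂_map] at h
    have h' : (h922_bar p Ψ).eval₂ (h922_evK p κ y) x = 0 := h
    rw [hD, Polynomial.eval₂_sub, Polynomial.eval₂_pow, Polynomial.eval₂_X, Polynomial.eval₂_mul,
      Polynomial.eval₂_C, Polynomial.eval₂_X, pow_succ, ← sub_mul] at h'
    have h3 := hx.mul_left_eq_zero.mp h'
    exact sub_eq_zero.mp h3
  have hbg : b ^ p = g ^ p := (key b hb hΨb).trans (key g hg hΨg).symm
  have hsub : (b - g) ^ p = 0 := by
    rw [sub_pow_char, hbg, sub_self]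
  have := IsReduced.eq_zero _ ⟨p, hsub⟩
  exact sub_eq_zero.mp this

end Main

end Fermat.Agent.S36.H922

end
end
-- ===== PACK-END S36/H922/UnitBar.lean

-- ===== PACK-BEGIN S36/H890/Gauss9.lean
section


/-!
# Gauss units of level `9` (helper890, S36 cell REG, `q = 2`)

Every function below is `t⁻ⁿ · P(t)` with `P ∈ ℤ⟦t⟧`, `P(0) = 1`, over EVERY commutative ring `K`;
so its `t`-expansion is integral with a coefficient `1`, and it is a unit of the Gauss valuation
ring `V∞` of every level and every residue characteristic (`A2.Mod.H553.mem_of_int`,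
`inv_mem_of_int`).  These are the unit hypotheses of helper934's `Congr9.t9_congr`
(`hU`, `hUe`, `hden`) and `Transfer9.hres_transfer9` (`hh₁`, `hQ₁`, `hj₁`, `hj₁'`):

| function | `n` | statement |
|---|---|---|
| `t₉` | `1` | `Haupt9.t9` (definition), `coeff_t9_neg_one` |
| `Q(t₉) = t₉² + 9 t₉ + 27` | `2` | `Haupt9.t9_quad_eq`, `coeff_t9_quad_neg_two` |
| `den₉ = A B - 243 A + 9 B + 729` | `4` | `den9_eq`, `coeff_den9` |
| `U₃(j, j₃)` | `9` | `u3_eq`, `coeff_u3` |
| `U₃(j₃, j₉)` | `27` | `u3e_eq`, `coeff_u3e` |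
| `j`, `j - 1728` | `1` | `jq_sub_eq`, `coeff_jq_sub` |
-/

set_option autoImplicit false

noncomputable section

namespace Fermat.Agent.S36.H890

open PowerSeries ModularCurve Fermat.Agent.Lib.Haupt

/-! ## Polynomials -/

/-- `U₃ ∈ ℤ[x, y]` (`= Lib.Haupt.U3` at `x = j`, `y = j₃`; same body as `H934.u3`). -/
def h9u3 {S : Type*} [CommRing S] (x y : S) : S :=
  729 * x ^ 2 * y + 196830 * x * y ^ 2 + y ^ 3 - 524880 * x ^ 2 + 18821147040 * x * y
    - 103456080 * y ^ 2 + 14229831680000 * x + 276373831680000 * y - 3623878656000000000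

/-- `W₃ ∈ ℤ[x, y]` (`= Lib.Haupt.W3` at `x = j`, `y = j₃`; same body as `H934.w3`). -/
def h9w3 {S : Type*} [CommRing S] (x y : S) : S :=
  x * y ^ 3 + 19129644 * x * y ^ 2 - 756 * y ^ 3 + 531440 * x ^ 2 + 76509442080 * x * y
    + 23150726640 * y ^ 2 - 48430448640000 * x - 14204206448640000 * y
    + 97844723712000000000

/-- `den₉ = A B - 243 A + 9 B + 729` (same body as `H934.den9`). -/
def h9den {S : Type*} [CommRing S] (A B : S) : S := A * B - 243 * A + 9 * B + 729

/-- `num₉ = A² B + 18 A B + 27 B + 1458 A` (same body as `H934.num9`). -/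
def h9num {S : Type*} [CommRing S] (A B : S) : S :=
  A ^ 2 * B + 18 * (A * B) + 27 * B + 1458 * A

theorem map_h9u3 {S T : Type*} [CommRing S] [CommRing T] (f : S →+* T) (x y : S) :
    f (h9u3 x y) = h9u3 (f x) (f y) := by
  simp only [h9u3, map_sub, map_add, map_mul, map_pow, map_ofNat]

theorem map_h9w3 {S T : Type*} [CommRing S] [CommRing T] (f : S →+* T) (x y : S) :
    f (h9w3 x y) = h9w3 (f x) (f y) := by
  simp only [h9w3, map_sub, map_add, map_mul, map_pow, map_ofNat]

theorem map_h9den {S T : Type*} [CommRing S] [CommRing T] (f : S →+* T) (x y : S) :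
    f (h9den x y) = h9den (f x) (f y) := by
  simp only [h9den, map_sub, map_add, map_mul, map_ofNat]

theorem map_h9num {S T : Type*} [CommRing S] [CommRing T] (f : S →+* T) (x y : S) :
    f (h9num x y) = h9num (f x) (f y) := by
  simp only [h9num, map_add, map_mul, map_pow, map_ofNat]

/-! ## Shifts -/

section Shift

variable (K : Type*) [CommRing K]

/-- `t⁻ⁿ · tᵏ = t^{-(n-k)}`. -/
theorem qinv_pow_mul_X_pow {n k : ℕ} (h : k ≤ n) :
    qinv K ^ n * lau K X ^ k = qinv K ^ (n - k) := by
  obtain ⟨m, rfl⟩ := Nat.exists_eq_add_of_le h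
  rw [Nat.add_sub_cancel_left, pow_add, mul_right_comm, ← mul_pow, qinv_mul_lau_X, one_pow,
    one_mul]

/-- The coefficient of `t⁻ⁿ` in `t⁻ⁿ · P` is `P(0)`. -/
theorem coeff_qinv_pow_mul_lau (n : ℕ) (P : PowerSeries ℤ) :
    (qinv K ^ n * lau K P).coeff (-(n : ℤ)) = ((constantCoeff P : ℤ) : K) := by
  rw [qinv, HahnSeries.single_pow, HahnSeries.coeff_single_mul]
  simp only [one_pow, one_mul]
  rw [show -(n : ℤ) - n • (-1 : ℤ) = ((0 : ℕ) : ℤ) by simp, coeff_lau_natCast,
    PowerSeries.coeff_zero_eq_constantCoeff]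

theorem qExpand_qinv_pow_mul_lau (d : ℕ) [NeZero d] (n : ℕ) (P : PowerSeries ℤ) :
    qExpand K d (qinv K ^ n * lau K P) = qinv K ^ (d * n) * lau K (ex d P) := by
  rw [map_mul, map_pow, qExpand_qinv, qExpand_lau, ← pow_mul]

end Shift

/-! ## The integral power series -/

/-- `X³ · j(X³)`. -/
abbrev J3 : PowerSeries ℤ := ex 3 ModularCurve.jNum

theorem constantCoeff_J3 : constantCoeff J3 = 1 := by
  rw [J3, constantCoeff_ex, ModularCurve.constantCoeff_jNum]

/-- `X⁹ · U₃(j, j₃)`. -/
def Pu3 : PowerSeries ℤ :=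
  C 729 * (X ^ 4 * (ModularCurve.jNum ^ 2 * J3)) + C 196830 * (X ^ 2 * (ModularCurve.jNum * J3 ^ 2))
    + J3 ^ 3 - C 524880 * (X ^ 7 * ModularCurve.jNum ^ 2)
    + C 18821147040 * (X ^ 5 * (ModularCurve.jNum * J3)) - C 103456080 * (X ^ 3 * J3 ^ 2)
    + C 14229831680000 * (X ^ 8 * ModularCurve.jNum) + C 276373831680000 * (X ^ 6 * J3)
    - C 3623878656000000000 * X ^ 9

theorem constantCoeff_Pu3 : constantCoeff Pu3 = 1 := by
  simp [Pu3]

section Laurent

variable (K : Type*) [CommRing K]

/-! ## `U₃(j, j₃)` and `U₃(j₃, j₉)` -/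

/-- `U₃(j, j₃) = t⁻⁹ · Pu3`. -/
theorem u3_eq :
    h9u3 (jqModC K) (qExpand K 3 (jqModC K)) = qinv K ^ 9 * lau K Pu3 := by
  have s2 := qinv_pow_mul_X_pow K (n := 9) (k := 2) (by norm_num)
  have s3 := qinv_pow_mul_X_pow K (n := 9) (k := 3) (by norm_num)
  have s4 := qinv_pow_mul_X_pow K (n := 9) (k := 4) (by norm_num)
  have s5 := qinv_pow_mul_X_pow K (n := 9) (k := 5) (by norm_num)
  have s6 := qinv_pow_mul_X_pow K (n := 9) (k := 6) (by norm_num)
  have s7 := qinv_pow_mul_X_pow K (n := 9) (k := 7) (by norm_num)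
  have s8 := qinv_pow_mul_X_pow K (n := 9) (k := 8) (by norm_num)
  have s9 := qinv_pow_mul_X_pow K (n := 9) (k := 9) (by norm_num)
  norm_num at s2 s3 s4 s5 s6 s7 s8 s9
  rw [h9u3, Pu3, qExpand_jqModC, jqModC_eq]
  simp only [lau_sub, lau_add, lau_mul, lau_pow, lau_C]
  push_cast
  generalize lau K ModularCurve.jNum = a at *
  generalize lau K J3 = b at *
  generalize lau K X = x at *
  generalize qinv K = q at *
  linear_combination (-(729 * (a ^ 2 * b))) * s4 + (-(196830 * (a * b ^ 2))) * s2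
    + (524880 * a ^ 2) * s7 + (-(18821147040 * (a * b))) * s5 + (103456080 * b ^ 2) * s3
    + (-(14229831680000 * a)) * s8 + (-(276373831680000 * b)) * s6
    + (3623878656000000000 : LaurentSeries K) * s9

theorem coeff_u3 : (h9u3 (jqModC K) (qExpand K 3 (jqModC K))).coeff (-9) = 1 := by
  have h := coeff_qinv_pow_mul_lau K 9 Pu3
  rw [← u3_eq, constantCoeff_Pu3] at h
  simpa using h

/-- `U₃(j₃, j₉) = t⁻²⁷ · Pu3(t³)`. -/
theorem u3e_eq :
    h9u3 (qExpand K 3 (jqModC K)) (qExpand K 9 (jqModC K))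
      = qinv K ^ 27 * lau K (ex 3 Pu3) := by
  have h := congrArg (qExpand K 3) (u3_eq K)
  rw [map_h9u3, qExpand_qinv_pow_mul_lau, qExpand_qExpand] at h
  exact h

theorem coeff_u3e :
    (h9u3 (qExpand K 3 (jqModC K)) (qExpand K 9 (jqModC K))).coeff (-27) = 1 := by
  have h := coeff_qinv_pow_mul_lau K 27 (ex 3 Pu3)
  rw [← u3e_eq, constantCoeff_ex, constantCoeff_Pu3] at h
  simpa using h

/-! ## `den₉` -/

/-- `den₉(t₃, t₃(t³)) = t⁻⁴ · D9`. -/
theorem den9_eq : h9den (t3 K) (qExpand K 3 (t3 K)) = qinv K ^ 4 * lau K D9 := by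
  have s1 := qinv_pow_mul_X_pow K (n := 4) (k := 1) (by norm_num)
  have s3 := qinv_pow_mul_X_pow K (n := 4) (k := 3) (by norm_num)
  have s4 := qinv_pow_mul_X_pow K (n := 4) (k := 4) (by norm_num)
  norm_num at s1 s3 s4
  rw [h9den, D9, qExpand_t3, t3]
  simp only [lau_sub, lau_add, lau_mul, lau_pow, lau_C]
  push_cast
  generalize lau K T3 = a at *
  generalize lau K T3e = b at *
  generalize lau K X = x at *
  generalize qinv K = q at *
  linear_combination (243 * a) * s3 + (-(9 * b)) * s1 + (-(729 : LaurentSeries K)) * s4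

theorem coeff_den9 : (h9den (t3 K) (qExpand K 3 (t3 K))).coeff (-4) = 1 := by
  have h := coeff_qinv_pow_mul_lau K 4 D9
  rw [← den9_eq, constantCoeff_D9] at h
  simpa using h

/-! ## `j - c` -/

/-- `j + c = t⁻¹ · (jNum + c X)`. -/
theorem jq_add_eq (c : ℤ) :
    jqModC K + (c : LaurentSeries K) = qinv K ^ 1 * lau K (ModularCurve.jNum + C c * X) := by
  rw [pow_one, jqModC_eq, t_add_const]

theorem coeff_jq_add (c : ℤ) : (jqModC K + (c : LaurentSeries K)).coeff (-1) = 1 := by
  have h := coeff_qinv_pow_mul_lau K 1 (ModularCurve.jNum + C c * X)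
  rw [← jq_add_eq] at h
  simpa [ModularCurve.constantCoeff_jNum] using h

theorem coeff_jq_sub_1728 : (jqModC K - 1728).coeff (-1) = 1 := by
  have h := coeff_jq_add K (-1728)
  have e : jqModC K + ((-1728 : ℤ) : LaurentSeries K) = jqModC K - 1728 := by
    push_cast; ring
  rwa [e] at h

/-! ## The relations `l1`, `l2`, `l3` of `Congr9.t9_congr`, over every FIELD -/

end Laurent

section Field

variable (K : Type*) [Field K]

theorem u3_eq_U3 : h9u3 (jqModC K) (qExpand K 3 (jqModC K)) = U3 K := rfl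

theorem w3_eq_W3 : h9w3 (jqModC K) (qExpand K 3 (jqModC K)) = W3 K := rfl

/-- `l1` : `U₃(j, j₃) · t₃ = W₃(j, j₃)`. -/
theorem t3_lin9 :
    h9u3 (jqModC K) (qExpand K 3 (jqModC K)) * t3 K = h9w3 (jqModC K) (qExpand K 3 (jqModC K)) :=
  t3_lin K

/-- `l2` : `U₃(j₃, j₉) · t₃(t³) = W₃(j₃, j₉)`. -/
theorem t3e_lin9 :
    h9u3 (qExpand K 3 (jqModC K)) (qExpand K 9 (jqModC K)) * qExpand K 3 (t3 K)
      = h9w3 (qExpand K 3 (jqModC K)) (qExpand K 9 (jqModC K)) := by
  have h := congrArg (qExpand K 3) (t3_lin9 K)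
  rw [map_mul, map_h9u3, map_h9w3, qExpand_qExpand] at h
  exact h

/-- `l3` : `t₉ · den₉(A, B) = num₉(A, B)`. -/
theorem t9_lin9 :
    t9 K * h9den (t3 K) (qExpand K 3 (t3 K)) = h9num (t3 K) (qExpand K 3 (t3 K)) :=
  t9_mul K

end Field

end Fermat.Agent.S36.H890

end
end
-- ===== PACK-END S36/H890/Gauss9.lean

-- ===== PACK-BEGIN S59/TW/H564/GenNil.lean
section




/-!
# S59 / TW, leaf GENNIL + the generic local action (helper564)

`Γ₁(M) ≤ K ≤ Γ₀(M)`, `V ⊆ X_K(𝒪) = Hom(K, 𝒪)` a localisation (`Aut.IsLocPart`) whose eigen-system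
contains the `(ℓ, c)`, `c` a lift of `θ(T_ℓ)`.  Let `Ψ : heckeAlgebra N' 2 S →+* End_𝒪 V` be a ring
homomorphism with `Ψ(T_ℓ) = ⟨u ℓ⟩ T_ℓ`, the diamond operators `⟨u ℓ⟩` being of `p`-power order
(`p` odd, `p ∈ 𝔪_𝒪`).  Then

* `genNil_of_locPart` : `GenNil N' S 𝒪 θ Ψ` (`Ψ(T_ℓ) - c` is nilpotent modulo `𝔪_𝒪`);
* `exists_locAction` : `Ψ` extends to `heckeLocal N' S 𝒪 θ →ₐ[𝒪] End_𝒪 V`.

This is the algebra step common to MOD0 (`u = 1`) and MODQ (`u ℓ = ℓ^h`) of `TW/Aut/Spec.lean`.
-/

set_option autoImplicit false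
set_option synthInstance.maxHeartbeats 400000
set_option maxHeartbeats 1000000
set_option linter.unusedSectionVars false
set_option linter.style.haveILetI false
set_option maxSynthPendingDepth 3

noncomputable section

namespace Fermat.Agent.S59.TW.H564

open CuspForm IsLocalRing CongruenceSubgroup
open Fermat.Agent.S59.TW.H653 Fermat.Agent.S59.TW.Aut
open scoped MatrixGroups

section Abstract

variable {𝒪 : Type*} [CommRing 𝒪] [IsLocalRing 𝒪] {V : Type*} [AddCommGroup V] [Module 𝒪 V]

/-- `D T - c` is nilpotent modulo `𝔪` if `T - c` and `D - 1` are, `D` and `T` commuting. -/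
theorem isNilpotent_redEnd_twist (D T : Module.End 𝒪 V) (c : 𝒪) (hDT : Commute D T)
    (hT : IsNilpotent (redEnd 𝒪 V (T - algebraMap 𝒪 (Module.End 𝒪 V) c)))
    (hD : IsNilpotent (redEnd 𝒪 V (D - 1))) :
    IsNilpotent (redEnd 𝒪 V (D * T - algebraMap 𝒪 (Module.End 𝒪 V) c)) := by
  set C : Module.End 𝒪 V := algebraMap 𝒪 (Module.End 𝒪 V) c with hC
  have hCD : Commute C D := Algebra.commutes c D
  have hCT : Commute C T := Algebra.commutes c T
  have e : D * T - C = D * (T - C) + C * (D - 1) := by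
    rw [mul_sub, mul_sub, mul_one, hCD.eq]
    abel
  rw [e, map_add, map_mul, map_mul]
  have h1 : Commute D (T - C) := hDT.sub_right hCD.symm
  have h2 : Commute C (D - 1) := hCD.sub_right (Commute.one_right C)
  have hA : IsNilpotent (redEnd 𝒪 V D * redEnd 𝒪 V (T - C)) :=
    (h1.map (redEnd 𝒪 V)).isNilpotent_mul_left hT
  have hB : IsNilpotent (redEnd 𝒪 V C * redEnd 𝒪 V (D - 1)) :=
    (h2.map (redEnd 𝒪 V)).isNilpotent_mul_left hD
  refine Commute.isNilpotent_add ?_ hA hB
  have h3 : Commute (D * (T - C)) (C * (D - 1)) := by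
    have a1 : Commute D (D - 1) := (Commute.refl D).sub_right (Commute.one_right D)
    have a2 : Commute (T - C) C := hCT.symm.sub_left (Commute.refl C)
    have a3 : Commute (T - C) (D - 1) :=
      (hDT.symm.sub_left hCD).sub_right (Commute.one_right _)
    exact (hCD.symm.mul_right a1).mul_left (a2.mul_right a3)
  rw [← map_mul, ← map_mul]
  exact h3.map (redEnd 𝒪 V)

end Abstract

section Ops

variable {M : ℕ} {K : Subgroup SL(2, ℤ)} (hK : IsMid M K) (𝒪 : Type*) [CommRing 𝒪]

/-- The diamond operator `⟨u⟩` as an `𝒪`-linear endomorphism of `Hom(K, 𝒪)`. -/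
def diaLin (u : (ZMod M)ˣ) : Module.End 𝒪 (Additive K →+ 𝒪) where
  toFun := diamondU hK u
  map_add' := diamondU_add hK u
  map_smul' c φ := by
    have e : ∀ ψ : Additive K →+ 𝒪, c • ψ = (AddMonoidHom.mulLeft c).comp ψ := fun ψ => rfl
    simp only [RingHom.id_apply]
    rw [e, e, diamondU_comp]

@[simp] theorem diaLin_apply (u : (ZMod M)ˣ) (φ : Additive K →+ 𝒪) :
    diaLin hK 𝒪 u φ = diamondU hK u φ := rfl

theorem diaLin_pow_apply [NeZero M] (u : (ZMod M)ˣ) (n : ℕ) (φ : Additive K →+ 𝒪) :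
    (diaLin hK 𝒪 u ^ n) φ = diamondU hK (u ^ n) φ := by
  induction n generalizing φ with
  | zero => rw [pow_zero, pow_zero, diamondU_one]; rfl
  | succ n ih =>
    rw [pow_succ', pow_succ', Module.End.mul_apply, ih, diaLin_apply, ← diamondU_mul]

end Ops

section Main

variable {M : ℕ} [NeZero M] {K : Subgroup SL(2, ℤ)} (hK : IsMid M K)
variable {𝒪 : Type} [CommRing 𝒪] [IsDomain 𝒪] [IsDiscreteValuationRing 𝒪]
  [IsAdicComplete (maximalIdeal 𝒪) 𝒪]
variable {N' : ℕ} [NeZero N'] {S : Set ℕ}
variable {θ : heckeAlgebra N' 2 S →+* ResidueField 𝒪}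
variable {Tset Uset : Set (ℕ × 𝒪)} {V : Submodule 𝒪 (Additive K →+ 𝒪)}

/-- **GENNIL.**  On a localisation `V` of `X_K(𝒪)`, a ring homomorphism `Ψ` with
`Ψ(T_ℓ) = ⟨u ℓ⟩ T_ℓ` (diamond operators of `p`-power order) satisfies the hypothesis `GenNil` of
LOCACT. -/
theorem genNil_of_locPart {p : ℕ} (hp : p.Prime) (hp2 : p ≠ 2)
    (hp𝒪 : (p : 𝒪) ∈ maximalIdeal 𝒪) (hMN : M ∣ N')
    (hS : ∀ q : ℕ, q.Prime → q ∣ N' → q ∈ S)
    (hV : IsLocPart hK Tset Uset V)
    (hT : ∀ (ℓ : ℕ) (hℓ : ℓ.Prime) (hℓN : ¬ ℓ ∣ N') (hℓS : ℓ ∉ S) (c : 𝒪),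
      residue 𝒪 c = θ (heckeAlgebra.T hℓ hℓN hℓS) → (ℓ, c) ∈ Tset)
    (u : ℕ → (ZMod M)ˣ) (k : ℕ)
    (hu : ∀ (ℓ : ℕ) (x : Additive K →+ 𝒪), diamondU hK (u ℓ ^ p ^ k) x = x)
    (Ψ : heckeAlgebra N' 2 S →+* Module.End 𝒪 V)
    (hΨ : ∀ (ℓ : ℕ) [Fact ℓ.Prime] (hℓN : ¬ ℓ ∣ N') (hℓS : ℓ ∉ S) (v : V),
      ((Ψ (heckeAlgebra.T (Fact.out : ℓ.Prime) hℓN hℓS) v : V) : Additive K →+ 𝒪) =
        diamondU hK (u ℓ) (TK M K ℓ (v : Additive K →+ 𝒪))) :
    GenNil (V := ↥V) N' S 𝒪 θ Ψ := by
  obtain ⟨e, -, he1, he2, heT, -, heD, -⟩ := hV.exists_proj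
  refine genNil_of_TU ?_ ?_
  · intro ℓ hℓ hℓN hℓS
    haveI : Fact ℓ.Prime := ⟨hℓ⟩
    have hℓM : ¬ ℓ ∣ M := fun h => hℓN (h.trans hMN)
    obtain ⟨c, hc⟩ := residue_surjective (θ (heckeAlgebra.T hℓ hℓN hℓS))
    refine ⟨c, hc, ?_⟩
    obtain ⟨m, hm⟩ := hV.nilp_T ℓ c (hT ℓ hℓ hℓN hℓS c hc)
    -- stability of `V`
    have hstT : ∀ v ∈ V, H324.TKLin hK 𝒪 hℓM v ∈ V := by
      intro v hv
      have : H324.TKLin hK 𝒪 hℓM v = e (TK M K ℓ v) := by
        rw [heT ℓ hℓM, he2 v hv]
        rfl
      rw [this]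
      exact he1 _
    have hstD : ∀ v ∈ V, diaLin hK 𝒪 (u ℓ) v ∈ V := by
      intro v hv
      have : diaLin hK 𝒪 (u ℓ) v = e (diamondU hK (u ℓ) v) := by
        rw [heD, he2 v hv]
        rfl
      rw [this]
      exact he1 _
    set TV : Module.End 𝒪 V := resEnd V (H324.TKLin hK 𝒪 hℓM) hstT with hTV
    set DV : Module.End 𝒪 V := resEnd V (diaLin hK 𝒪 (u ℓ)) hstD with hDV
    have hΨeq : Ψ (heckeAlgebra.T hℓ hℓN hℓS) = DV * TV := by
      refine LinearMap.ext fun v => Subtype.ext ?_
      rw [hΨ ℓ hℓN hℓS v]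
      rfl
    have hcomm : Commute DV TV := by
      change DV * TV = TV * DV
      refine LinearMap.ext fun v => Subtype.ext ?_
      change diamondU hK (u ℓ) (TK M K ℓ (v : Additive K →+ 𝒪)) =
        TK M K ℓ (diamondU hK (u ℓ) (v : Additive K →+ 𝒪))
      rw [diamondU_TK hK hℓM]
    -- `T - c`
    have hstTc : ∀ v ∈ V, (H324.TKLin hK 𝒪 hℓM -
        algebraMap 𝒪 (Module.End 𝒪 (Additive K →+ 𝒪)) c) v ∈ V := by
      intro v hv
      exact V.sub_mem (hstT v hv) (V.smul_mem c hv)
    have hnT : IsNilpotent (redEnd 𝒪 V (TV - algebraMap 𝒪 (Module.End 𝒪 V) c)) := by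
      have h1 : TV - algebraMap 𝒪 (Module.End 𝒪 V) c =
          resEnd V (H324.TKLin hK 𝒪 hℓM -
            algebraMap 𝒪 (Module.End 𝒪 (Additive K →+ 𝒪)) c) hstTc := by
        refine LinearMap.ext fun v => Subtype.ext ?_
        rfl
      rw [h1]
      refine isNilpotent_redEnd_resEnd V e he1 he2 _ hstTc m fun v hv => ?_
      rw [Module.End.pow_apply]
      exact hm v hv
    -- `D - 1`
    have hnD : IsNilpotent (redEnd 𝒪 V (DV - 1)) := by
      refine isNilpotent_redEnd_sub_one hp hp2 hp𝒪 DV k ?_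
      refine LinearMap.ext fun v => Subtype.ext ?_
      rw [resEnd_pow_apply, diaLin_pow_apply, hu]
      rfl
    rw [hΨeq]
    exact isNilpotent_redEnd_twist DV TV c hcomm hnT hnD
  · intro q hq hqN hqS
    exact absurd (hS q hq hqN) hqS

/-- **The generic local action** (GENNIL + LOCACT): the ring homomorphism `Ψ` extends to the
localisation `heckeLocal N' S 𝒪 θ`. -/
theorem exists_locAction [Fact (HasIntegralStructure N' 2)] {p : ℕ} (hp : p.Prime) (hp2 : p ≠ 2)
    (hp𝒪 : (p : 𝒪) ∈ maximalIdeal 𝒪) (hMN : M ∣ N')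
    (hS : ∀ q : ℕ, q.Prime → q ∣ N' → q ∈ S)
    (hV : IsLocPart hK Tset Uset V)
    (hT : ∀ (ℓ : ℕ) (hℓ : ℓ.Prime) (hℓN : ¬ ℓ ∣ N') (hℓS : ℓ ∉ S) (c : 𝒪),
      residue 𝒪 c = θ (heckeAlgebra.T hℓ hℓN hℓS) → (ℓ, c) ∈ Tset)
    (u : ℕ → (ZMod M)ˣ) (k : ℕ)
    (hu : ∀ (ℓ : ℕ) (x : Additive K →+ 𝒪), diamondU hK (u ℓ ^ p ^ k) x = x)
    (Ψ : heckeAlgebra N' 2 S →+* Module.End 𝒪 V)
    (hΨ : ∀ (ℓ : ℕ) [Fact ℓ.Prime] (hℓN : ¬ ℓ ∣ N') (hℓS : ℓ ∉ S) (v : V),
      ((Ψ (heckeAlgebra.T (Fact.out : ℓ.Prime) hℓN hℓS) v : V) : Additive K →+ 𝒪) =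
        diamondU hK (u ℓ) (TK M K ℓ (v : Additive K →+ 𝒪))) :
    ∃ a : heckeLocal N' S 𝒪 θ →ₐ[𝒪] Module.End 𝒪 V,
      ∀ t : ↥(heckeAlgebra N' 2 S), a (heckeLocal.π N' S 𝒪 θ t) = Ψ t := by
  have hfin : Module.Finite 𝒪 (Additive K →+ 𝒪) := H324.finite_hom hK 𝒪
  have hnoe : IsNoetherian 𝒪 (Additive K →+ 𝒪) := isNoetherian_of_isNoetherianRing_of_finite _ _
  have hfinV : Module.Finite 𝒪 V := Module.Finite.iff_fg.mpr (IsNoetherian.noetherian V)
  exact exists_heckeLocal_action (genNil_of_locPart hK hp hp2 hp𝒪 hMN hS hV hT u k hu Ψ hΨ)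

end Main

end Fermat.Agent.S59.TW.H564

end
end
-- ===== PACK-END S59/TW/H564/GenNil.lean

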