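import Mathlib
import Fermat.Prelude.Def_ModularCurve_ReductionModL
import Fermat.Agent.Pack.S43MC.G0E15L3
import Fermat.Agent.Pack.S43MC.G0E8L0
import Fermat.Agent.Pack.S43MC.G0E16L2
import Fermat.Agent.Pack.S43MC.G0E21L0
import Fermat.Agent.Pack.S43MC.G0E20L0
import Fermat.Agent.Pack.S43MC.G0E15L1
import Fermat.Agent.Pack.S43MC.G0E10L2
import Fermat.Agent.Pack.S43MC.G0E13L2
import Fermat.Agent.Pack.S43MC.G0E10L3
import Fermat.Agent.Pack.S43MC.G0E13L0
import Fermat.Agent.Pack.S43MC.G0E16L1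
import Fermat.Agent.Pack.S43MC.G0E13L1
import Fermat.Agent.Pack.S43MC.G0E15L0
import Fermat.Agent.Pack.S43MC.G0E15L2
import Fermat.Agent.Pack.S43MC.G0E18L0
import Fermat.Agent.Pack.S43MC.G0E18L2
import Fermat.Agent.Pack.S43MC.G0E19L1
import Fermat.Agent.Pack.S43MC.G0E19L2
import Fermat.Agent.Pack.S43MC.G0E20L1
import Fermat.Agent.Pack.S43MC.G0E11L3
import Fermat.Agent.Pack.S43MC.G0E16L3
import Fermat.Agent.Pack.S43MC.G0E20L2
import Fermat.Agent.Pack.S43MC.G0E19L3
import Fermat.Agent.Pack.S43MC.G0E18L1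
import Fermat.Agent.Pack.S44C.G0E22L2
import Fermat.Agent.Pack.S43MC.G0E11L0
import Fermat.Agent.Pack.S44C.G0E4L3
import Fermat.Agent.Pack.S44C.G0E17L1
import Fermat.Agent.Pack.S44C.G0E8L2
import Fermat.Agent.Pack.S43MC.G0E17L1
import Fermat.Agent.Pack.S43MC.G0E21L3
import Fermat.Agent.Pack.S44C.G0E15L0
import Fermat.Agent.Pack.S43MC.G0E20L3
import Fermat.Agent.Pack.S43MC.G0E3L0
import Fermat.Agent.Pack.S43MC.G0E3L1
import Fermat.Agent.Pack.S44C.G0E18L2
import Fermat.Agent.Pack.S43MC.G0E16L0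
import Fermat.Agent.Pack.S44C.G0E24L1
import Fermat.Agent.Pack.S44C.G0E15L2
import Fermat.Agent.Pack.S43MC.G0E21L2
import Fermat.Agent.Pack.S43MC.G0E14L2
import Fermat.Agent.Pack.S43GC.G0E7L1
import Fermat.Agent.Pack.S43MC.G0E21L1
import Fermat.Agent.Pack.Fast891

-- ===== PACK-BEGIN S25/Assembly/Final.lean
section

































/-!
# Row S25, final assembly

`result_final` : the frozen statement S25 (existence of the Jacobian of a proper smooth integral
curve with a rational point over an algebraically closed field), assembled from the blocks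
CHART, DICT, ALG-DEF, ALG-VAL, ALGCHARTS, SHEAF, ABEL proved in `Fermat/Agent/S25/H*/`.
-/

set_option autoImplicit false
universe u
open CategoryTheory CategoryTheory.Limits AlgebraicGeometry AlgebraicGeometry.RelPicard
  NeronModelInfra GoodReductionJacobian

namespace Fermat.Agent.S25.Assembly

/-- **S25**: the degree-zero relative Picard functor of a proper smooth integral curve with a
rational point over an algebraically closed field is representable by a smooth, proper,
geometrically connected scheme. -/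
theorem result_final (k : Type u) [Field k] [IsAlgClosed k] {C : Scheme.{u}}
    (c : C ⟶ Spec (CommRingCat.of k)) [IsProper c] [SmoothOfRelativeDimension 1 c] [IsIntegral C]
    (ε : SchemeHomOver (𝟙 (Spec (CommRingCat.of k))) c) :
    ∃ D : RelativePic0Designation k c,
      Nonempty (RepresentsRelSubPic c ε (algEquivZeroCut c ε) D) ∧
        Smooth D.toBase ∧ IsProper D.toBase ∧ GeometricallyConnected D.toBase := by
  obtain ⟨Ch⟩ := H507.stmt_chart k c ε
  have hSheafGlue : Stmt.SheafGlue c ε := H146.sheafGlue k c ε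
  have hPtIso : H11.Leaf.PointIso k Ch.B₀ Ch.B₁ Ch.B₀₁ :=
    fun _ _ _ hC i _ _ _ _ _ _ h h' => H490.pointCond_iso hC i h h'
  have hAlgCharts : Stmt.AlgCharts k Ch.B₀ Ch.B₁ Ch.B₀₁ :=
    H11.algCharts_of_leaves₈ H791.leaf_stage0 H791.leaf_stage1 H446.leaf_stage2
      (H611.stage3_of_stage2 H446.leaf_stage2) H791.leaf_pointBC H431.leaf_pointUnique hPtIso
      (H911.cover_of_stage2 H446.leaf_stage2)
  have hAA2 : H747.StmtAA2 k Ch.B₀ Ch.B₁ Ch.B₀₁ := H927.stmtAA2
  have hAA6 : H747.StmtAA6 k Ch.B₀ Ch.B₁ Ch.B₀₁ := H206.stmtAA6 k Ch.B₀ Ch.B₁ Ch.B₀₁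
  have hGlue : Stmt.DictGlue Ch := H505.dictGlue Ch
  have hSec : Stmt.DictSections Ch := H505.dictSections Ch
  have hUnit : H687.DictUnit Ch := fun A _ _ => H566.dictUnit Ch A
  have hIso : Stmt.DictIso Ch := H986.dictIso Ch
  have hBC : Stmt.DictBC Ch := H505.dictBC Ch
  have hEx : Stmt.AlgBCExists Ch := H265.algBCExists Ch
  have hId : H687.BCId k Ch.B₀ Ch.B₁ Ch.B₀₁ := fun A _ _ G => H265.curveGD_isBC_id G
  have hComp : H687.BCComp k Ch.B₀ Ch.B₁ Ch.B₀₁ :=
    fun A A' A'' _ _ _ _ _ _ φ ψ G G' G'' h h' => H265.curveGD_isBC_comp h h'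
  have hDegIso : H687.DegIso k Ch.B₀ Ch.B₁ Ch.B₀₁ :=
    fun K _ _ G G' h => H265.degree_eq_of_isIso h
  have hDegConst : H687.DegConst k Ch.B₀ Ch.B₁ Ch.B₀₁ := H550.degConst
  have hAA4 : H747.StmtAA4 k Ch.B₀ Ch.B₁ Ch.B₀₁ := fun x y e hC g A _ _ P 𝔭 h𝔭 =>
    H266.abelDatum_locRig_of_isBC e g A P (fun A' _ _ ψ => hAA2 x y e hC g A A' ψ P) 𝔭 h𝔭
  obtain ⟨𝔉⟩ := H747.algAbel_of_leaves hAA2 hAA4 hAA6 Ch.x Ch.y Ch.e Ch.isCurveChart
  have hAbelAlg : H687.AbelAlg Ch :=
    H567.abelAlg Ch 𝔉 hSheafGlue (H146.sheafSep k c ε) hGlue hIso hBC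
      (fun A _ _ => H566.dictUnit Ch A)
  have hDeg : Stmt.DictDeg Ch :=
    H687.dictDeg_final Ch hSec hIso hBC hEx hUnit hId hComp hDegIso hDegConst hAbelAlg
  have hAbel : Stmt.Abel c ε :=
    H687.abel_final Ch hSec hIso hBC hEx hUnit hId hComp hDegIso hDegConst hAbelAlg
  exact result_of_blocks Ch hSec hGlue hIso hBC hDeg hEx
    hAlgCharts (H971.algDef k Ch.B₀ Ch.B₁ Ch.B₀₁) (H551.rigLift205 Ch.B₀ Ch.B₁ Ch.B₀₁ Ch.e)
    H506.algVal hSheafGlue (H146.sheafSep k c ε) hAbel H130.rep_of_charts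

end Fermat.Agent.S25.Assembly

end
-- ===== PACK-END S25/Assembly/Final.lean

-- ===== PACK-BEGIN S18/H905/ConstInst.lean
section






/-!
# S18 / H905 — T2 / T3: CONST for the modular function fields (any characteristic)

* `transcendental_jqModC`        : `j` is transcendental over `k` in `k((q))` (any field `k`);
* `finiteDimensional_fullC`      : `F_{N,k} = k(j(q^d) : d ∣ N)` is finite over `k(j)` when the primes
  dividing `N` are invertible in `k` (from helper988's unconditional degree formula, S28);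
* `exists_place_ord_pos_fullC`, `exists_place_ord_neg_fullC` : zeros and poles exist in `F_{N,k}`;
* `const_fullC`  (**T3**, `CONST_Fk`) : `k` algebraically closed ⇒ a function of `F_{N,k}` without
  zeros and poles is constant;
* `const_bar`    (**T2**, `CONST_F`)  : the same for `modularFunctionFieldBar N` over `ℚ̄`.

The statements `const_fullC`, `const_bar` are `H94.ConstOfOrdZero` unfolded.
-/

set_option autoImplicit false

noncomputable section

open AlgebraicCurve IntermediateField Polynomial ModularCurve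

namespace Fermat.Agent.S18.H905

section AnyField

variable (k : Type*) [Field k]

/-- The `X`-adic valuation of `k((q))` is `≤ 1` on constants. -/
theorem laurent_val_algebraMap_le_one (c : k) :
    (Valued.v : Valuation (LaurentSeries k) _) (algebraMap k (LaurentSeries k) c) ≤ 1 := by
  have h := (LaurentSeries.valuation_le_iff_coeff_lt_eq_zero (K := k) (D := 0)
    (f := algebraMap k (LaurentSeries k) c)).mpr (by
      intro n hn
      rw [algebraMap_laurentSeries_eq_single, HahnSeries.coeff_single_of_ne hn.ne])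
  simpa using h

/-- `j = q⁻¹ + ⋯` is transcendental over `k`. -/
theorem transcendental_jqModC : Transcendental k (jqModC k) := by
  set v : Valuation (LaurentSeries k) _ := Valued.v with hv
  have hK := val_algebraMap_eq_one_of_le v (laurent_val_algebraMap_le_one k)
  have hj0 : jqModC k ≠ 0 := jqModC_ne_zero_of_nontrivial k
  have hgt : 1 < v (jqModC k) := by
    rw [← not_le]
    intro hle
    have h := (LaurentSeries.valuation_le_iff_coeff_lt_eq_zero (K := k) (D := 0)
      (f := jqModC k)).mp (by simpa using hle) (-1) (by norm_num)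
    rw [coeff_jqModC_neg_one] at h
    exact one_ne_zero h
  have hinv : v (jqModC k)⁻¹ < 1 := by
    rw [map_inv₀]
    exact inv_lt_one_of_one_lt₀ hgt
  have htr := transcendental_of_val_lt_one v hK (inv_ne_zero hj0) hinv
  intro halg
  exact htr halg.inv

variable (N : ℕ) [NeZero N]

/-- `j` as an element of `F_{N,k}`. -/
def jC : ↥(modularFunctionFieldFullC k N) := ⟨jqModC k, jqModC_mem_full k N⟩

omit [NeZero N] in
theorem transcendental_jC : Transcendental k (jC k N) := by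
  intro h
  exact transcendental_jqModC k
    ((isAlgebraic_algHom_iff (modularFunctionFieldFullC k N).val Subtype.val_injective).mpr h)

omit [NeZero N] in
/-- `k(j)` inside `F_{N,k}` is the pull-back of `jField k ⊆ k((q))`. -/
theorem adjoin_jC_eq_comap :
    k⟮jC k N⟯ = (Fermat.Agent.S28.jField k).comap (modularFunctionFieldFullC k N).val := by
  have h1 : (k⟮jC k N⟯).map (modularFunctionFieldFullC k N).val = Fermat.Agent.S28.jField k := by
    rw [IntermediateField.adjoin_map, Set.image_singleton]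
    rfl
  rw [← h1, IntermediateField.comap_map]

/-- `F_{N,k}` is finite over `k(j)` as soon as the primes dividing `N` are invertible in `k`. -/
theorem finiteDimensional_fullC (hchar : ∀ p : ℕ, p.Prime → p ∣ N → (p : k) ≠ 0) :
    FiniteDimensional k⟮jC k N⟯ ↥(modularFunctionFieldFullC k N) := by
  have hdeg := Fermat.Agent.S28.H988.relfinrank_jField_full_eq k N (NeZero.ne N) hchar
  have hpos := Fermat.Agent.S28.H988.dedekindPsi_pos N (NeZero.ne N)
  have hfr : Module.finrank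
      ↥((Fermat.Agent.S28.jField k).comap (modularFunctionFieldFullC k N).val)
      ↥(modularFunctionFieldFullC k N) = dedekindPsi N := by
    rw [IntermediateField.finrank_comap, IntermediateField.fieldRange_val, hdeg]
  have hfin : FiniteDimensional
      ↥((Fermat.Agent.S28.jField k).comap (modularFunctionFieldFullC k N).val)
      ↥(modularFunctionFieldFullC k N) :=
    Module.finite_of_finrank_pos (by rw [hfr]; exact hpos)
  rw [adjoin_jC_eq_comap]
  exact hfin

/-- Finiteness of `F_{N,k}` over `k(x)` for every transcendental `x`. -/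
theorem finite_fullC (hchar : ∀ p : ℕ, p.Prime → p ∣ N → (p : k) ≠ 0) :
    ∀ x : ↥(modularFunctionFieldFullC k N), Transcendental k x →
      FiniteDimensional k⟮x⟯ ↥(modularFunctionFieldFullC k N) :=
  haveI := finiteDimensional_fullC k N hchar
  finite_of_finite (transcendental_jC k N)

/-- Every non-algebraic function of `F_{N,k}` has a zero. -/
theorem exists_place_ord_pos_fullC (hchar : ∀ p : ℕ, p.Prime → p ∣ N → (p : k) ≠ 0)
    (u : ↥(modularFunctionFieldFullC k N)) (hu : Transcendental k u) :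
    ∃ v : Place k ↥(modularFunctionFieldFullC k N), 0 < v.ord u :=
  exists_place_ord_pos (finite_fullC k N hchar) u hu

/-- Every non-algebraic function of `F_{N,k}` has a pole. -/
theorem exists_place_ord_neg_fullC (hchar : ∀ p : ℕ, p.Prime → p ∣ N → (p : k) ≠ 0)
    (u : ↥(modularFunctionFieldFullC k N)) (hu : Transcendental k u) :
    ∃ v : Place k ↥(modularFunctionFieldFullC k N), v.ord u < 0 :=
  exists_place_ord_neg (finite_fullC k N hchar) u hu

/-- **T3 = CONST_Fk.** For `k` algebraically closed with the primes of `N` invertible, a function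
of `F_{N,k}` without zeros and poles is constant. -/
theorem const_fullC [IsAlgClosed k] (hchar : ∀ p : ℕ, p.Prime → p ∣ N → (p : k) ≠ 0)
    (u : ↥(modularFunctionFieldFullC k N)) (hu0 : u ≠ 0)
    (hu : ∀ v : Place k ↥(modularFunctionFieldFullC k N), v.ord u = 0) :
    ∃ c : k, u = algebraMap k ↥(modularFunctionFieldFullC k N) c :=
  haveI := finiteDimensional_fullC k N hchar
  constOfOrdZero_of_finite (transcendental_jC k N) u hu0 hu

end AnyField

/-- **T2 = CONST_F.** A function of `modularFunctionFieldBar N` without zeros and poles is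
constant. -/
theorem const_bar (N : ℕ) [NeZero N] (u : ↥(modularFunctionFieldBar N)) (hu0 : u ≠ 0)
    (hu : ∀ v : Place (AlgebraicClosure ℚ) ↥(modularFunctionFieldBar N), v.ord u = 0) :
    ∃ c : AlgebraicClosure ℚ, u = algebraMap (AlgebraicClosure ℚ) ↥(modularFunctionFieldBar N) c := by
  have key : ∀ (S : IntermediateField (AlgebraicClosure ℚ) (LaurentSeries (AlgebraicClosure ℚ))),
      S = modularFunctionFieldFullC (AlgebraicClosure ℚ) N →
      ∀ u : ↥S, u ≠ 0 → (∀ v : Place (AlgebraicClosure ℚ) ↥S, v.ord u = 0) →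
        ∃ c : AlgebraicClosure ℚ, u = algebraMap (AlgebraicClosure ℚ) ↥S c := by
    rintro S rfl u hu0 hu
    exact const_fullC (AlgebraicClosure ℚ) N
      (fun p hp _ => Fermat.Agent.S28.H988.natCast_ne_zero_bar hp.ne_zero) u hu0 hu
  exact key _ (Fermat.Agent.S28.H988.modularFunctionFieldBar_eq_fullC N) u hu0 hu

/-- The primes dividing `N` are invertible in the residue field of `A` when `A` lies over
`ℓ ∤ N`. -/
theorem hchar_residue (N : ℕ) {ℓ : ℕ} [Fact ℓ.Prime] (hℓN : ¬ ℓ ∣ N)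
    (A : ValuationSubring (AlgebraicClosure ℚ)) (hA : A.LiesOverPrime ℓ) :
    ∀ p : ℕ, p.Prime → p ∣ N → ((p : ℕ) : IsLocalRing.ResidueField A) ≠ 0 := fun _ _ hpN =>
  natCast_residue_ne_zero A (Fact.out : ℓ.Prime) hA (fun h => hℓN (h.trans hpN))

/-- **T3 = CONST_Fk for the residue field of `A`** (shape `H94.ConstOfOrdZero`). -/
theorem const_residue (N : ℕ) [NeZero N] {ℓ : ℕ} [Fact ℓ.Prime] (hℓN : ¬ ℓ ∣ N)
    (A : ValuationSubring (AlgebraicClosure ℚ)) (hA : A.LiesOverPrime ℓ)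
    (u : ↥(modularFunctionFieldFullC (IsLocalRing.ResidueField A) N)) (hu0 : u ≠ 0)
    (hu : ∀ v : Place (IsLocalRing.ResidueField A)
      ↥(modularFunctionFieldFullC (IsLocalRing.ResidueField A) N), v.ord u = 0) :
    ∃ c : IsLocalRing.ResidueField A,
      u = algebraMap (IsLocalRing.ResidueField A)
        ↥(modularFunctionFieldFullC (IsLocalRing.ResidueField A) N) c :=
  haveI := isAlgClosed_residueField A
  const_fullC (IsLocalRing.ResidueField A) N (hchar_residue N hℓN A hA) u hu0 hu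

end Fermat.Agent.S18.H905

end
end
-- ===== PACK-END S18/H905/ConstInst.lean

-- ===== PACK-BEGIN S37/H868/FullC.lean
section





/-!
# S37 / R-d instantiation (helper868): function-field inputs for `F_{N,K} = K(j(q^d) : d ∣ N)`

`K` algebraically closed of any characteristic in which the primes dividing `N` are invertible.
Everything is read off from the characteristic-free libraries on main (S24.FF, Lib/RR/H560,
S18/H905, S28/H988):

* `hval_fullC`  : regular functions have values;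
* `deg_fullC`   : places have degree one;
* `hpd_fullC`   : `HasPrincipalDivisors`;
* `finrank_fullC` : `[F_{N,K} : K(j)] = ψ(N)`;
* `sum_zero_inv_j_fullC` : the zero divisor of `1/j` has degree `ψ(N)`.
Transport to the Prelude's `laurentBaseChange L (modularFunctionFieldFull N)` in `Bar` section.
-/

set_option autoImplicit false
set_option linter.unusedSectionVars false

noncomputable section

namespace Fermat.Agent.S37.H868

open AlgebraicCurve ModularCurve IntermediateField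
open Fermat.Agent.S24.H504

section Generic

variable {K F : Type*} [Field K] [Field F] [Algebra K F] [IsAlgClosed K]

/-- regular functions have values (residue field `= K`) -/
theorem hval_of_finite {x : F} (hx : Transcendental K x) [FiniteDimensional K⟮x⟯ F]
    (v : Place K F) (f : F) (hf : 0 ≤ v.ord f) :
    ∃ c : K, InMax v (f - algebraMap K F c) := by
  obtain ⟨a, ha⟩ := Fermat.Agent.S24.FF.exists_const_sub_mem_nonunits v hx
    (Fermat.Agent.S24.FF.mem_of_ord_nonneg v hf)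
  exact ⟨a, (Fermat.Agent.S37.H940.inMax_iff_mem_nonunits (P := v)).mpr ha⟩

/-- The zero divisor of `t⁻¹` has degree `[F : K(t)]`. -/
theorem sum_max_ord_inv {x : F} (hx : Transcendental K x) [FiniteDimensional K⟮x⟯ F]
    (t : F) (ht : Transcendental K t) [FiniteDimensional K⟮t⟯ F]
    (D : Divisor K F) (hD : ∀ P, D P = P.ord t⁻¹) :
    ∑ P ∈ D.support, max (D P) 0 = (Module.finrank K⟮t⟯ F : ℤ) := by
  classical
  have hdeg : ∀ P : Place K F, P.deg = 1 := Fermat.Agent.Lib.RR.H560.hdeg_all x hx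
  rw [← Fermat.Agent.Lib.RR.H560.degree_poleD x hx t ht,
    Fermat.Agent.S37.H518.degree_eq_sum_of_deg_one _ hdeg]
  have hpole : ∀ P, Fermat.Agent.Lib.RR.H560.poleD x hx t P = max (D P) 0 := by
    intro P
    rw [Fermat.Agent.Lib.RR.H560.poleD_apply, hD, Place.ord_inv, max_comm]
  symm
  rw [Finset.sum_congr rfl fun P _ => hpole P]
  refine Finset.sum_subset ?_ ?_
  · intro P hP
    rw [Finsupp.mem_support_iff, hpole] at hP
    rw [Finsupp.mem_support_iff]
    intro h0
    rw [h0] at hP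
    simp at hP
  · intro P _ hP
    rw [Finsupp.notMem_support_iff, hpole] at hP
    exact hP

end Generic

section FullC

variable (K : Type*) [Field K] [IsAlgClosed K] (N : ℕ) [NeZero N]
variable (hchar : ∀ p : ℕ, p.Prime → p ∣ N → (p : K) ≠ 0)

open Fermat.Agent.S18.H905

include hchar

theorem hval_fullC (v : Place K (modularFunctionFieldFullC K N))
    (f : modularFunctionFieldFullC K N) (hf : 0 ≤ v.ord f) :
    ∃ c : K, InMax v (f - algebraMap K (modularFunctionFieldFullC K N) c) :=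
  haveI := finiteDimensional_fullC K N hchar
  hval_of_finite (transcendental_jC K N) v f hf

theorem deg_fullC (v : Place K (modularFunctionFieldFullC K N)) : v.deg = 1 :=
  haveI := finiteDimensional_fullC K N hchar
  Fermat.Agent.S24.FF.deg_eq_one v (transcendental_jC K N)

theorem hpd_fullC : HasPrincipalDivisors K (modularFunctionFieldFullC K N) :=
  haveI := finiteDimensional_fullC K N hchar
  Fermat.Agent.Lib.RR.H560.hasPrincipalDivisors (jC K N) (transcendental_jC K N)

theorem finrank_fullC :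
    Module.finrank K⟮jC K N⟯ (modularFunctionFieldFullC K N) = dedekindPsi N := by
  have hdeg := Fermat.Agent.S28.H988.relfinrank_jField_full_eq K N (NeZero.ne N) hchar
  rw [adjoin_jC_eq_comap, IntermediateField.finrank_comap, IntermediateField.fieldRange_val, hdeg]

/-- The zero divisor of `1/j` on `F_{N,K}` has degree `ψ(N)`. -/
theorem sum_zero_inv_j_fullC (u : modularFunctionFieldFullC K N)
    (hu : (u : LaurentSeries K) = (jqModC K)⁻¹)
    (D : Divisor K (modularFunctionFieldFullC K N)) (hD : ∀ P, D P = P.ord u) :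
    ∑ P ∈ D.support, max (D P) 0 = (dedekindPsi N : ℤ) := by
  have := finiteDimensional_fullC K N hchar
  have hu' : u = (jC K N)⁻¹ := Subtype.ext hu
  rw [← finrank_fullC K N hchar]
  exact sum_max_ord_inv (transcendental_jC K N) (jC K N) (transcendental_jC K N) D
    (fun P => by rw [hD, hu'])

end FullC

section Bar

variable (L : Type*) [Field L] [Algebra ℚ L] [IsAlgClosed L] (N : ℕ) [NeZero N]

theorem natCast_ne_zero_of_algebra {p : ℕ} (hp : p ≠ 0) : ((p : ℕ) : L) ≠ 0 := by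
  have : CharZero L := charZero_of_injective_algebraMap (algebraMap ℚ L).injective
  exact Nat.cast_ne_zero.mpr hp

theorem hval_bar (v : Place L (laurentBaseChange L (modularFunctionFieldFull N)))
    (f : laurentBaseChange L (modularFunctionFieldFull N)) (hf : 0 ≤ v.ord f) :
    ∃ c : L, InMax v (f - algebraMap L (laurentBaseChange L (modularFunctionFieldFull N)) c) := by
  have key : ∀ (S : IntermediateField L (LaurentSeries L)),
      S = modularFunctionFieldFullC L N → ∀ (v : Place L S) (f : S), 0 ≤ v.ord f →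
        ∃ c : L, InMax v (f - algebraMap L S c) := by
    rintro S rfl v f hf
    exact hval_fullC L N (fun p hp _ => natCast_ne_zero_of_algebra L hp.ne_zero) v f hf
  exact key _ (Fermat.Agent.S28.H988.laurentBaseChange_full_eq_fullC L N) v f hf

theorem deg_bar (v : Place L (laurentBaseChange L (modularFunctionFieldFull N))) : v.deg = 1 := by
  have key : ∀ (S : IntermediateField L (LaurentSeries L)),
      S = modularFunctionFieldFullC L N → ∀ (v : Place L S), v.deg = 1 := by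
    rintro S rfl v
    exact deg_fullC L N (fun p hp _ => natCast_ne_zero_of_algebra L hp.ne_zero) v
  exact key _ (Fermat.Agent.S28.H988.laurentBaseChange_full_eq_fullC L N) v

theorem hpd_bar : HasPrincipalDivisors L (laurentBaseChange L (modularFunctionFieldFull N)) := by
  have key : ∀ (S : IntermediateField L (LaurentSeries L)),
      S = modularFunctionFieldFullC L N → HasPrincipalDivisors L S := by
    rintro S rfl
    exact hpd_fullC L N (fun p hp _ => natCast_ne_zero_of_algebra L hp.ne_zero)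
  exact key _ (Fermat.Agent.S28.H988.laurentBaseChange_full_eq_fullC L N)

theorem sum_zero_inv_j_bar (u : laurentBaseChange L (modularFunctionFieldFull N))
    (hu : (u : LaurentSeries L) = (jqModC L)⁻¹)
    (D : Divisor L (laurentBaseChange L (modularFunctionFieldFull N))) (hD : ∀ P, D P = P.ord u) :
    ∑ P ∈ D.support, max (D P) 0 = (dedekindPsi N : ℤ) := by
  have key : ∀ (S : IntermediateField L (LaurentSeries L)),
      S = modularFunctionFieldFullC L N → ∀ (u : S), (u : LaurentSeries L) = (jqModC L)⁻¹ →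
        ∀ D : Divisor L S, (∀ P, D P = P.ord u) →
          ∑ P ∈ D.support, max (D P) 0 = (dedekindPsi N : ℤ) := by
    rintro S rfl u hu D hD
    exact sum_zero_inv_j_fullC L N (fun p hp _ => natCast_ne_zero_of_algebra L hp.ne_zero) u hu D hD
  exact key _ (Fermat.Agent.S28.H988.laurentBaseChange_full_eq_fullC L N) u hu D hD

end Bar

end Fermat.Agent.S37.H868

end
end
-- ===== PACK-END S37/H868/FullC.lean

-- ===== PACK-BEGIN S34/K789/Gate.lean
section
/-
Row S34 (helper789): the frozen statement S34, gated on the OPEN inputs only.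

Everything which is already on main is discharged here:
* SS (reducedness of the anemic Hecke algebra, Petersson): `Fermat.Agent.S31.H838.ssStatement`;
* CHEB Tier 1, S22, PTS, the S30 top extraction, the S34 top glue, T0 (`A2.T0.H669`).

Remaining hypotheses of `result_of_tower_wall`:
* the six inputs of the S30 skeleton (FIN, SMOOTH, GEQ, UNR, ES, LAT), in unfolded form;
* `hwall` : the wall A2 in the form `KummerTarget N q m` of `A2/Spec.lean` (row-lead helper13),
  UNFOLDED, for `q ‖ N`, `0 < m`, `q ∤ m`.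
The final `Fermat/Agent/S34.lean` is `result_of_tower_wall` applied to the six S30 inputs and to
`Fermat.Agent.A2.kummerTarget_of_parts` (Skel T1) as soon as they are on main.
-/




set_option autoImplicit false

namespace Fermat.Agent.S34.K789

open TensorProduct ModularCurve AlgebraicCurve

/-- The wall A2 (Kummer form of `A2/Spec.lean`, unfolded) gives `A2KummerStatement`. -/
theorem a2KummerStatement_of_kummerTarget
    (hwall : ∀ (N q m : ℕ), q.Prime → q ∣ N → ¬ q ^ 2 ∣ N → N ≠ 0 → 0 < m → ¬ q ∣ m →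
      ∀ P : ValuationSubring (AlgebraicClosure ℚ), P.LiesOverPrime q →
        ∀ τ ∈ P.inertiaSubgroupIn ℚ, ∀ f : modularFunctionFieldBar N, f ≠ 0 →
          (∀ v : Place (AlgebraicClosure ℚ) (modularFunctionFieldBar N), (m : ℤ) ∣ v.ord f) →
          ∃ h : modularFunctionFieldBar N, h ≠ 0 ∧
            arithmeticRingAut (modularFunctionFieldFull N) τ
                (arithmeticRingAut (modularFunctionFieldFull N) τ f) * f =
              h ^ m * (arithmeticRingAut (modularFunctionFieldFull N) τ f) ^ 2) :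
    A2KummerStatement := by
  intro N p q hp hq hqp hqN hq2 P hP σ hσ n
  have hN : N ≠ 0 := by
    rintro rfl
    exact hq2 (dvd_zero _)
  have hqm : ¬ q ∣ p ^ n := by
    intro h
    exact hqp ((Nat.prime_dvd_prime_iff_eq hq hp).1 (hq.dvd_of_dvd_pow h))
  exact Fermat.Agent.A2.T0.H669.a2Kummer_of_kummerTarget N q (p ^ n)
    (hwall N q (p ^ n) hq hqN hq2 hN (pow_pos hp.pos n) hqm) P hP σ hσ

/-- **The frozen statement S34** (binders as in the template) from the six inputs of the S30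
skeleton and the wall A2; SS and all glue are discharged from main. -/
theorem result_of_tower_wall
    (hfin : ∀ (N p : ℕ) [NeZero N], p.Prime →
      Finite {x : ModularCurve.JZero N // (p : ℤ) • x = 0})
    (hsm : ∀ (N p : ℕ) [NeZero N], ∀ x : ModularCurve.JZero N,
      (∃ n : ℕ, ((p : ℤ) ^ n) • x = 0) →
        ∃ L : IntermediateField ℚ (AlgebraicClosure ℚ), FiniteDimensional ℚ L ∧
          ∀ σ : GQ', (∀ y ∈ L, σ y = y) → σ • x = x)
    (hgeq : ∀ (N : ℕ) [NeZero N] (ℓ : Nat.Primes) (σ : GQ') (x : ModularCurve.JZero N),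
      ModularCurve.heckeOperatorBar N ℓ (σ • x) = σ • ModularCurve.heckeOperatorBar N ℓ x)
    (hunr : ∀ (N p : ℕ) [NeZero N], ∀ q : ℕ, q.Prime → ¬ q ∣ N * p →
      ∀ A : ValuationSubring (AlgebraicClosure ℚ), A.LiesOverPrime q →
        ∀ σ ∈ A.inertiaSubgroupIn ℚ, ∀ x : ModularCurve.JZero N,
          (∃ n : ℕ, ((p : ℤ) ^ n) • x = 0) → σ • x = x)
    (hes : ∀ (N p : ℕ) [NeZero N], ∀ (ℓ : ℕ) (hℓ : ℓ.Prime), ¬ ℓ ∣ N * p →
      ∀ A : ValuationSubring (AlgebraicClosure ℚ), A.LiesOverPrime ℓ →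
        ∀ σ : GQ', A.IsFrobeniusAt σ ℓ → ∀ x : ModularCurve.JZero N,
          (∃ n : ℕ, ((p : ℤ) ^ n) • x = 0) →
            σ • σ • x - ModularCurve.heckeOperatorBar N ⟨ℓ, hℓ⟩ (σ • x) + (ℓ : ℤ) • x = 0)
    (hlat : ∀ (N p : ℕ) [NeZero N], p.Prime →
      ∃ (Λ : Type) (_ : AddCommGroup Λ) (_ : Module.Free ℤ Λ) (_ : Module.Finite ℤ Λ)
        (TΛ : Nat.Primes → Λ →ₗ[ℤ] Λ) (κ : ℕ → Λ →ₗ[ℤ] ModularCurve.JZero N),
        (∀ (n : ℕ) (x : Λ), κ n x = 0 ↔ ∃ y : Λ, x = ((p : ℤ) ^ n) • y) ∧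
        (∀ (n : ℕ) (x : Λ), (p : ℤ) • κ (n + 1) x = κ n x) ∧
        (∀ ℓ : Nat.Primes, ¬ (ℓ : ℕ) ∣ N * p → ∀ (n : ℕ) (x : Λ),
          κ n (TΛ ℓ x) = ModularCurve.heckeOperatorBar N ℓ (κ n x)) ∧
        (∀ (S : Set ℕ) (R : Type) [CommRing R] [IsDomain R] [CharZero R]
          (χ : CuspForm.heckeAlgebra N 2 S →+* R),
          ∃ v : R ⊗[ℤ] Λ, v ≠ 0 ∧
            ∀ (ℓ : ℕ) (hℓ : ℓ.Prime) (hℓN : ¬ ℓ ∣ N) (hℓS : ℓ ∉ S),
              (TΛ ⟨ℓ, hℓ⟩).baseChange R v = χ (CuspForm.heckeAlgebra.T hℓ hℓN hℓS) • v))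
    (hwall : ∀ (N q m : ℕ), q.Prime → q ∣ N → ¬ q ^ 2 ∣ N → N ≠ 0 → 0 < m → ¬ q ∣ m →
      ∀ P : ValuationSubring (AlgebraicClosure ℚ), P.LiesOverPrime q →
        ∀ τ ∈ P.inertiaSubgroupIn ℚ, ∀ f : modularFunctionFieldBar N, f ≠ 0 →
          (∀ v : Place (AlgebraicClosure ℚ) (modularFunctionFieldBar N), (m : ℤ) ∣ v.ord f) →
          ∃ h : modularFunctionFieldBar N, h ≠ 0 ∧
            arithmeticRingAut (modularFunctionFieldFull N) τ
                (arithmeticRingAut (modularFunctionFieldFull N) τ f) * f =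
              h ^ m * (arithmeticRingAut (modularFunctionFieldFull N) τ f) ^ 2)
    {𝒪 : Type} [CommRing 𝒪] [IsDomain 𝒪] [IsDiscreteValuationRing 𝒪]
    [IsAdicComplete (IsLocalRing.maximalIdeal 𝒪) 𝒪] [Finite (IsLocalRing.ResidueField 𝒪)]
    [CharZero 𝒪]
    {p : ℕ} (hp : p.Prime) (hp𝒪 : (p : 𝒪) ∈ IsLocalRing.maximalIdeal 𝒪)
    {N : ℕ} [NeZero N] {S : Finset ℕ} (hpS : p ∈ S) (hNS : ∀ q : ℕ, q.Prime → q ∣ N → q ∈ S)
    {θ : CuspForm.heckeAlgebra N 2 (↑S : Set ℕ) →+* IsLocalRing.ResidueField 𝒪}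
    {T : Type} [CommRing T] [IsLocalRing T] [IsNoetherianRing T]
    [IsAdicComplete (IsLocalRing.maximalIdeal T) T] [Algebra 𝒪 T] [IsLocalHom (algebraMap 𝒪 T)]
    [Module.Finite 𝒪 T] [Module.Free 𝒪 T]
    (H : CuspForm.HeckeGaloisRepDatum N (↑S : Set ℕ) 𝒪 θ T)
    (q : ℕ) (hq : q.Prime) (hqp : q ≠ p) (hqN : q ∣ N) (hq2 : ¬ q ^ 2 ∣ N) :
    H.ρ.IsUnipotentOnInertiaAt q :=
  result_of_inputs hfin hsm hgeq hunr hes hlat (a2KummerStatement_of_kummerTarget hwall)
    Fermat.Agent.S31.H838.ssStatement hp hp𝒪 hpS hNS H q hq hqp hqN hq2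

end Fermat.Agent.S34.K789

end
-- ===== PACK-END S34/K789/Gate.lean

-- ===== PACK-BEGIN S34/K789/GateParts.lean
section
/-
Row S34 (helper789): the frozen statement S34 gated on the THREE open interface statements of the
wall A2 (`A2/Spec.lean`, `A2/ModDefs.lean`, row-lead helper13) and the six inputs of the S30
skeleton.

Discharged here from main: T1 + T2 (`A2.T1.H669.t1`), T0 (`A2.T0.H669`), SS (`S31.H838`), the S30
Tate piece with unipotency transfer, the S34 top glue.

The final `Fermat/Agent/S34.lean` is ONE application of `result_of_tower_parts` to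
* the six S30 inputs FIN, SMOOTH, GEQ, UNR, ES, LAT (unfolded helper49 `S30/Defs`), and
* proofs of `A2.AlgSSStatement`, `A2.IFStatement`, `A2.ModSSStatement`.
-/



set_option autoImplicit false

namespace Fermat.Agent.S34.K789

open TensorProduct ModularCurve AlgebraicCurve

/-- The wall in Kummer form from the three interface statements (T1 of helper669). -/
theorem kummerTarget_of_parts789 (hALG : Fermat.Agent.A2.AlgSSStatement)
    (hIF : Fermat.Agent.A2.IFStatement) (hMOD : Fermat.Agent.A2.ModSSStatement)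
    (N q m : ℕ) (hq : q.Prime) (hqN : q ∣ N) (hq2 : ¬ q ^ 2 ∣ N) (hN : N ≠ 0) (hm : 0 < m)
    (hqm : ¬ q ∣ m) : Fermat.Agent.A2.KummerTarget N q m :=
  Fermat.Agent.A2.T1.H669.t1 hALG hIF hMOD N q m hq hqN hq2 hN hm hqm

/-- The wall A2 in Prelude language (`A2.Target`) from the three interface statements. -/
theorem target_of_parts789 (hALG : Fermat.Agent.A2.AlgSSStatement)
    (hIF : Fermat.Agent.A2.IFStatement) (hMOD : Fermat.Agent.A2.ModSSStatement)
    (N q m : ℕ) (hq : q.Prime) (hqN : q ∣ N) (hq2 : ¬ q ^ 2 ∣ N) (hN : N ≠ 0) (hm : 0 < m)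
    (hqm : ¬ q ∣ m) : Fermat.Agent.A2.Target N q m := by
  intro P hP τ hτ x hx
  exact Fermat.Agent.A2.T0.H669.target_of_kummerTarget N q m hm
    (kummerTarget_of_parts789 hALG hIF hMOD N q m hq hqN hq2 hN hm hqm) P hP τ hτ x hx

/-- **The frozen statement S34** (binders as in the template) from the six inputs of the S30
skeleton and the three interface statements ALG, IF, MOD of the wall A2. -/
theorem result_of_tower_parts
    (hfin : ∀ (N p : ℕ) [NeZero N], p.Prime →
      Finite {x : ModularCurve.JZero N // (p : ℤ) • x = 0})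
    (hsm : ∀ (N p : ℕ) [NeZero N], ∀ x : ModularCurve.JZero N,
      (∃ n : ℕ, ((p : ℤ) ^ n) • x = 0) →
        ∃ L : IntermediateField ℚ (AlgebraicClosure ℚ), FiniteDimensional ℚ L ∧
          ∀ σ : GQ', (∀ y ∈ L, σ y = y) → σ • x = x)
    (hgeq : ∀ (N : ℕ) [NeZero N] (ℓ : Nat.Primes) (σ : GQ') (x : ModularCurve.JZero N),
      ModularCurve.heckeOperatorBar N ℓ (σ • x) = σ • ModularCurve.heckeOperatorBar N ℓ x)
    (hunr : ∀ (N p : ℕ) [NeZero N], ∀ q : ℕ, q.Prime → ¬ q ∣ N * p →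
      ∀ A : ValuationSubring (AlgebraicClosure ℚ), A.LiesOverPrime q →
        ∀ σ ∈ A.inertiaSubgroupIn ℚ, ∀ x : ModularCurve.JZero N,
          (∃ n : ℕ, ((p : ℤ) ^ n) • x = 0) → σ • x = x)
    (hes : ∀ (N p : ℕ) [NeZero N], ∀ (ℓ : ℕ) (hℓ : ℓ.Prime), ¬ ℓ ∣ N * p →
      ∀ A : ValuationSubring (AlgebraicClosure ℚ), A.LiesOverPrime ℓ →
        ∀ σ : GQ', A.IsFrobeniusAt σ ℓ → ∀ x : ModularCurve.JZero N,
          (∃ n : ℕ, ((p : ℤ) ^ n) • x = 0) →
            σ • σ • x - ModularCurve.heckeOperatorBar N ⟨ℓ, hℓ⟩ (σ • x) + (ℓ : ℤ) • x = 0)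
    (hlat : ∀ (N p : ℕ) [NeZero N], p.Prime →
      ∃ (Λ : Type) (_ : AddCommGroup Λ) (_ : Module.Free ℤ Λ) (_ : Module.Finite ℤ Λ)
        (TΛ : Nat.Primes → Λ →ₗ[ℤ] Λ) (κ : ℕ → Λ →ₗ[ℤ] ModularCurve.JZero N),
        (∀ (n : ℕ) (x : Λ), κ n x = 0 ↔ ∃ y : Λ, x = ((p : ℤ) ^ n) • y) ∧
        (∀ (n : ℕ) (x : Λ), (p : ℤ) • κ (n + 1) x = κ n x) ∧
        (∀ ℓ : Nat.Primes, ¬ (ℓ : ℕ) ∣ N * p → ∀ (n : ℕ) (x : Λ),
          κ n (TΛ ℓ x) = ModularCurve.heckeOperatorBar N ℓ (κ n x)) ∧
        (∀ (S : Set ℕ) (R : Type) [CommRing R] [IsDomain R] [CharZero R]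
          (χ : CuspForm.heckeAlgebra N 2 S →+* R),
          ∃ v : R ⊗[ℤ] Λ, v ≠ 0 ∧
            ∀ (ℓ : ℕ) (hℓ : ℓ.Prime) (hℓN : ¬ ℓ ∣ N) (hℓS : ℓ ∉ S),
              (TΛ ⟨ℓ, hℓ⟩).baseChange R v = χ (CuspForm.heckeAlgebra.T hℓ hℓN hℓS) • v))
    (hALG : Fermat.Agent.A2.AlgSSStatement)
    (hIF : Fermat.Agent.A2.IFStatement) (hMOD : Fermat.Agent.A2.ModSSStatement)
    {𝒪 : Type} [CommRing 𝒪] [IsDomain 𝒪] [IsDiscreteValuationRing 𝒪]
    [IsAdicComplete (IsLocalRing.maximalIdeal 𝒪) 𝒪] [Finite (IsLocalRing.ResidueField 𝒪)]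
    [CharZero 𝒪]
    {p : ℕ} (hp : p.Prime) (hp𝒪 : (p : 𝒪) ∈ IsLocalRing.maximalIdeal 𝒪)
    {N : ℕ} [NeZero N] {S : Finset ℕ} (hpS : p ∈ S) (hNS : ∀ q : ℕ, q.Prime → q ∣ N → q ∈ S)
    {θ : CuspForm.heckeAlgebra N 2 (↑S : Set ℕ) →+* IsLocalRing.ResidueField 𝒪}
    {T : Type} [CommRing T] [IsLocalRing T] [IsNoetherianRing T]
    [IsAdicComplete (IsLocalRing.maximalIdeal T) T] [Algebra 𝒪 T] [IsLocalHom (algebraMap 𝒪 T)]
    [Module.Finite 𝒪 T] [Module.Free 𝒪 T]
    (H : CuspForm.HeckeGaloisRepDatum N (↑S : Set ℕ) 𝒪 θ T)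
    (q : ℕ) (hq : q.Prime) (hqp : q ≠ p) (hqN : q ∣ N) (hq2 : ¬ q ^ 2 ∣ N) :
    H.ρ.IsUnipotentOnInertiaAt q :=
  result_of_tower_wall hfin hsm hgeq hunr hes hlat
    (fun N q m hq hqN hq2 hN hm hqm =>
      kummerTarget_of_parts789 hALG hIF hMOD N q m hq hqN hq2 hN hm hqm)
    hp hp𝒪 hpS hNS H q hq hqp hqN hq2

end Fermat.Agent.S34.K789

end
-- ===== PACK-END S34/K789/GateParts.lean

-- ===== PACK-BEGIN S35/H155/B2Spec.lean
section
/-
S35 / cell FROB, leaf B2 (helper155): adapter between `H155.IsQNew` (kernel of both degeneracy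
push-forwards) and the divisor form `H891.IsQNew` of the frozen interface `S35/H891/Spec.lean`.
-/



set_option autoImplicit false
set_option linter.style.haveILetI false

noncomputable section

namespace Fermat.Agent.S35.H155

open AlgebraicCurve ModularCurve Fermat.Agent.Lib.FF398

/-- The two notions of `q`-new classes agree. -/
theorem isQNew_iff_spec (N q : ℕ) [NeZero N] [NeZero q] (x : JZero (N * q)) :
    Fermat.Agent.S35.H891.IsQNew N q x ↔ IsQNew N q x := by
  constructor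
  · rintro ⟨hα, hβ, D, rfl, h1, h2⟩
    exact (isQNew_mk_iff D).mpr ⟨h1, h2⟩
  · intro h
    obtain ⟨D, rfl⟩ := Pic0.mk_surjective x
    obtain ⟨h1, h2⟩ := (isQNew_mk_iff D).mp h
    exact ⟨heckeAlphaBarIntegral N q, heckeBetaBarIntegral N q, D, rfl, h1, h2⟩

/-- Spec form of `isQNew_heckeEval`: KILLER ⇒ `q`-new (interface `H891.IsQNew`). -/
theorem isQNew_spec_heckeEval (N q : ℕ) [NeZero N] [NeZero q] {p : ℕ}
    (hT' : TorsRel (N * q) p) (hT : TorsRel N p)
    (hc' : HeckeOperatorsCommuteBar (N * q)) (hc : HeckeOperatorsCommuteBar N)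
    (t : HeckeAlg)
    (ht : t ∈ MvPolynomial.supported ℤ {ℓ : Nat.Primes | ¬ (ℓ : ℕ) ∣ N * q * p})
    (hkill : ∀ z : JZero N, (∃ n : ℕ, (p ^ n) • z = 0) → heckeEvalBar hc t z = 0)
    (y : JZero (N * q)) (hy : ∃ n : ℕ, (p ^ n) • y = 0) :
    Fermat.Agent.S35.H891.IsQNew N q (heckeEvalBar hc' t y) :=
  (isQNew_iff_spec N q _).mpr (isQNew_heckeEval hT' hT hc' hc t ht hkill y hy)

end Fermat.Agent.S35.H155

end

end
-- ===== PACK-END S35/H155/B2Spec.lean

-- ===== PACK-BEGIN Lib/Newform/H863/X8.lean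
section




/-!
# NEWFORM block X, piece X8 (helper863): local case analysis

From the local identity (`H958.X.LocalIdentity`, the output of X6 + X7) we derive the targets of
block X:

* `crossLevelSq_of : LocalIdentity → CrossLevelSq`  (what S36 needs; no strict bound);
* `crossLevel_of : LocalIdentity → StrictBound → CrossLevel`;
* `strongMultOne_of : LocalIdentity → StrictBound → StrongMultOne`.

Inputs from the core of the library (all on main, unconditional): `H958.badCoeff`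
(`a_q² = 1` if `q ∥ N`, `a_q = 0` if `q² ∣ N`) and `H958.descent`.
-/

set_option autoImplicit false

open CongruenceSubgroup Polynomial

namespace Fermat.Agent.Lib.Newform.H863.X8

open ModularFormClass Fermat.Agent.Lib.Newform.H958 Fermat.Agent.Lib.Newform.H958.X

/-- The three possible shapes of the local Euler factor of a newform. -/
theorem shape {N : ℕ} [NeZero N] {f : CuspForm (Gamma0 N) 2} (hf : f.IsNewform) {q : ℕ}
    (hq : q.Prime) :
    (N.factorization q = 0 ∧ ¬ q ∣ N ∧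
      eulerPoly N (qCoeff f) q = 1 - C (qCoeff f q) * X + C (q : ℂ) * X ^ 2 ∧
      eulerPolyRev N (qCoeff f) q =
        X ^ 2 - C (qCoeff f q * ((q : ℂ) ^ 2)⁻¹) * X + C (((q : ℂ) ^ 3)⁻¹)) ∨
    (N.factorization q = 1 ∧ qCoeff f q ^ 2 = 1 ∧
      eulerPoly N (qCoeff f) q = 1 - C (qCoeff f q) * X ∧
      eulerPolyRev N (qCoeff f) q = X ^ 2 - C (qCoeff f q * ((q : ℂ) ^ 2)⁻¹) * X) ∨
    (2 ≤ N.factorization q ∧ qCoeff f q = 0 ∧
      eulerPoly N (qCoeff f) q = 1 ∧ eulerPolyRev N (qCoeff f) q = X ^ 2) := by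
  have hN : N ≠ 0 := NeZero.ne N
  by_cases hqN : q ∣ N
  · have hbad := _root_.Fermat.Agent.Lib.Newform.H958.badCoeff N f hf q hq hqN
    have hpos : 0 < N.factorization q := hq.factorization_pos_of_dvd hN hqN
    by_cases hq2 : q ^ 2 ∣ N
    · right; right
      have ha := hbad.2 hq2
      refine ⟨(hq.pow_dvd_iff_le_factorization hN).mp hq2, ha, ?_, ?_⟩
      · rw [eulerPoly, if_pos hqN, ha]; simp
      · rw [eulerPolyRev, if_pos hqN, ha]; simp
    · right; left
      have ha := hbad.1 hq2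
      have hle : ¬ 2 ≤ N.factorization q := fun h =>
        hq2 ((hq.pow_dvd_iff_le_factorization hN).mpr h)
      refine ⟨by omega, ha, ?_, ?_⟩
      · rw [eulerPoly, if_pos hqN, add_zero]
      · rw [eulerPolyRev, if_pos hqN, add_zero]
  · left
    refine ⟨Nat.factorization_eq_zero_of_not_dvd hqN, hqN, ?_, ?_⟩
    · rw [eulerPoly, if_neg hqN]
    · rw [eulerPolyRev, if_neg hqN]

theorem cast_prime_ne_zero {q : ℕ} (hq : q.Prime) : (q : ℂ) ≠ 0 :=
  Nat.cast_ne_zero.mpr hq.ne_zero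

theorem cast_prime_ne_one {q : ℕ} (hq : q.Prime) : (q : ℂ) ≠ 1 := by
  intro h
  have : q = 1 := by exact_mod_cast h
  exact hq.ne_one this

theorem cast_prime_sq_ne_one {q : ℕ} (hq : q.Prime) : (q : ℂ) ^ 2 ≠ 1 := by
  intro h
  have h1 : q ^ 2 = 1 := by exact_mod_cast h
  have h2 : q = 1 := by
    rcases Nat.pow_eq_one.mp h1 with h3 | h3
    · exact h3
    · exact absurd h3 (by norm_num)
  exact hq.ne_one h2

/-- The local comparison at one prime: if two newforms satisfy the local identity at `q`, then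
either `v_q(N) ≤ v_q(N')`-type information or an exceptional equality `a_q(g)² = (q+1)²`. -/
theorem local_le {N N' : ℕ} [NeZero N] [NeZero N'] {f : CuspForm (Gamma0 N) 2}
    {g : CuspForm (Gamma0 N') 2} (hf : f.IsNewform) (hg : g.IsNewform) {q : ℕ} (hq : q.Prime)
    {c : ℂ} (hc : c ≠ 0)
    (hid : X ^ (N'.factorization q) * eulerPolyRev N (qCoeff f) q * eulerPoly N' (qCoeff g) q =
        C c * (X ^ (N.factorization q) * eulerPoly N (qCoeff f) q *
          eulerPolyRev N' (qCoeff g) q)) :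
    (2 ≤ N.factorization q → N.factorization q = N'.factorization q) ∧
    (N.factorization q = 1 → N'.factorization q = 0 →
      ¬ q ∣ N' ∧ qCoeff g q ^ 2 = ((q : ℂ) + 1) ^ 2) := by
  have hq0 := cast_prime_ne_zero hq
  have hq1 := cast_prime_ne_one hq
  have hq2 := cast_prime_sq_ne_one hq
  rcases shape hf hq with ⟨he, -, hP, hR⟩ | ⟨he, ha, hP, hR⟩ | ⟨he, -, hP, hR⟩
  · exact ⟨fun h => by omega, fun h => by omega⟩
  · refine ⟨fun h => by omega, fun _ he'0 => ?_⟩
    rcases shape hg hq with ⟨he', hqN', hP', hR'⟩ | ⟨he', -, -, -⟩ | ⟨he', -, -, -⟩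
    · rw [hP, hR, hP', hR', he, he'] at hid
      exact ⟨hqN', caseD _ _ _ _ hq0 hq1 ha hid⟩
    · omega
    · omega
  · refine ⟨fun _ => ?_, fun h => by omega⟩
    rcases shape hg hq with ⟨he', -, hP', hR'⟩ | ⟨he', ha', hP', hR'⟩ | ⟨he', -, hP', hR'⟩
    · rw [hP, hR, hP', hR', he'] at hid
      exact (caseA _ _ _ hq0 hq2 _ he hid).elim
    · rw [hP, hR, hP', hR', he'] at hid
      exact (caseB _ _ _ hq0 hq2 ha' _ he hid).elim
    · rw [hP, hR, hP', hR'] at hid
      exact caseC c hc _ _ hid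

/-- Equality of the `q`-th coefficients when the levels have the same `q`-adic valuation. -/
theorem local_eq {N N' : ℕ} [NeZero N] [NeZero N'] {f : CuspForm (Gamma0 N) 2}
    {g : CuspForm (Gamma0 N') 2} (hf : f.IsNewform) (hg : g.IsNewform) {q : ℕ} (hq : q.Prime)
    {c : ℂ}
    (hid : X ^ (N'.factorization q) * eulerPolyRev N (qCoeff f) q * eulerPoly N' (qCoeff g) q =
        C c * (X ^ (N.factorization q) * eulerPoly N (qCoeff f) q *
          eulerPolyRev N' (qCoeff g) q))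
    (hee : N.factorization q = N'.factorization q) : qCoeff f q = qCoeff g q := by
  have hq0 := cast_prime_ne_zero hq
  have hq1 := cast_prime_ne_one hq
  have hq2 := cast_prime_sq_ne_one hq
  rcases shape hf hq with ⟨he, -, hP, hR⟩ | ⟨he, ha, hP, hR⟩ | ⟨he, ha, hP, hR⟩ <;>
    rcases shape hg hq with ⟨he', -, hP', hR'⟩ | ⟨he', ha', hP', hR'⟩ | ⟨he', ha', hP', hR'⟩
  · rw [hP, hR, hP', hR', he, he'] at hid
    exact caseE _ _ _ _ hq0 hq1 hid
  · omega
  · omega
  · omega
  · rw [hP, hR, hP', hR', he, he'] at hid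
    exact caseF _ _ _ _ hq0 hq2 ha ha' hid
  · omega
  · omega
  · omega
  · rw [ha, ha']

/-- Passing from a normalized eigenform to the newform below it keeps the hypothesis
"same eigenvalues outside a finite set". -/
theorem exists_newform_same {N N' : ℕ} [NeZero N'] {f : CuspForm (Gamma0 N) 2}
    {g : CuspForm (Gamma0 N') 2} (hg : g.IsNormalizedEigenform) (S : Finset ℕ)
    (hS : ∀ ℓ : ℕ, ℓ.Prime → ℓ ∉ S → qCoeff f ℓ = qCoeff g ℓ) :
    ∃ (M' : ℕ) (_ : NeZero M') (_ : M' ∣ N') (g₀ : CuspForm (Gamma0 M') 2), g₀.IsNewform ∧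
      ∀ ℓ : ℕ, ℓ.Prime → ℓ ∉ S ∪ N'.primeFactors → qCoeff f ℓ = qCoeff g₀ ℓ := by
  obtain ⟨M', hM', g₀, hg₀, hgg⟩ := _root_.Fermat.Agent.Lib.Newform.H958.descent N' g hg
  have hN' : N' ≠ 0 := NeZero.ne N'
  have hM0 : M' ≠ 0 := fun h => by
    subst h
    exact hN' (zero_dvd_iff.mp hM')
  refine ⟨M', ⟨hM0⟩, hM', g₀, hg₀, fun ℓ hℓ hℓS => ?_⟩
  rw [Finset.mem_union, not_or] at hℓS
  have hℓN' : ¬ ℓ ∣ N' := fun h => hℓS.2 (Nat.mem_primeFactors.mpr ⟨hℓ, h, hN'⟩)
  rw [hS ℓ hℓ hℓS.1, hgg ℓ hℓ hℓN']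

/-- **X-SQ** from the local identity. -/
theorem crossLevelSq_of (hL : LocalIdentity) : CrossLevelSq := by
  intro N N' _ _ f g hf hg S hS q hq hq2
  obtain ⟨M', hM'0, hM', g₀, hg₀, hS'⟩ := exists_newform_same hg S hS
  obtain ⟨c, hc, hid⟩ := hL N M' f g₀ hf hg₀ _ hS' q hq
  have hN : N ≠ 0 := NeZero.ne N
  have hM0 : M' ≠ 0 := NeZero.ne M'
  have he : 2 ≤ N.factorization q := (hq.pow_dvd_iff_le_factorization hN).mp hq2
  have hee := (local_le hf hg₀ hq hc hid).1 he
  have : q ^ 2 ∣ M' := (hq.pow_dvd_iff_le_factorization hM0).mpr (hee ▸ he)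
  exact this.trans hM'

/-- **X-LEVEL** from the local identity and the strict trivial bound. -/
theorem crossLevel_of (hL : LocalIdentity) (hSB : StrictBound) : CrossLevel := by
  intro N N' _ _ f g hf hg S hS
  obtain ⟨M', hM'0, hM', g₀, hg₀, hS'⟩ := exists_newform_same hg S hS
  have hN : N ≠ 0 := NeZero.ne N
  have hM0 : M' ≠ 0 := NeZero.ne M'
  refine Dvd.dvd.trans ?_ hM'
  rw [← Nat.factorization_le_iff_dvd hN hM0]
  intro q
  by_cases hq : q.Prime
  · obtain ⟨c, hc, hid⟩ := hL N M' f g₀ hf hg₀ _ hS' q hq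
    have h := local_le hf hg₀ hq hc hid
    rcases Nat.lt_or_ge (N.factorization q) 2 with h2 | h2
    · rcases Nat.eq_zero_or_pos (N.factorization q) with h0 | h0
      · rw [h0]; exact Nat.zero_le _
      · have h1 : N.factorization q = 1 := by omega
        rcases Nat.eq_zero_or_pos (M'.factorization q) with h0' | h0'
        · obtain ⟨hqM', hsq⟩ := h.2 h1 h0'
          exact absurd hsq (hSB M' g₀ hg₀.1 q hq hqM')
        · omega
    · exact (h.1 h2).le
  · rw [Nat.factorization_eq_zero_of_not_prime N hq]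
    exact Nat.zero_le _

/-- Two normalized eigenforms of the same level with the same `a_p` for all primes `p` have the
same coefficients. -/
theorem qCoeff_eq_of_forall_prime {N : ℕ} {f g : CuspForm (Gamma0 N) 2}
    (hf : f.IsNormalizedEigenform) (hg : g.IsNormalizedEigenform)
    (h : ∀ p : ℕ, p.Prime → qCoeff f p = qCoeff g p) : ∀ n : ℕ, qCoeff f n = qCoeff g n := by
  have hpow : ∀ p : ℕ, p.Prime → ∀ r : ℕ, qCoeff f (p ^ r) = qCoeff g (p ^ r) ∧
      qCoeff f (p ^ (r + 1)) = qCoeff g (p ^ (r + 1)) := by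
    intro p hp r
    induction r with
    | zero =>
      refine ⟨?_, ?_⟩
      · rw [pow_zero, hf.qCoeff_one, hg.qCoeff_one]
      · simpa using h p hp
    | succ r ih =>
      refine ⟨ih.2, ?_⟩
      by_cases hpN : p ∣ N
      · rw [hf.qCoeff_prime_pow_of_dvd p r hp hpN, hg.qCoeff_prime_pow_of_dvd p r hp hpN,
          h p hp, ih.2]
      · rw [hf.qCoeff_prime_pow_of_not_dvd p r hp hpN,
          hg.qCoeff_prime_pow_of_not_dvd p r hp hpN, h p hp, ih.1, ih.2]
  intro n
  induction n using Nat.strong_induction_on with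
  | _ n ih =>
    rcases Nat.eq_zero_or_pos n with rfl | hpos
    · rw [Fermat.Agent.Lib.Newform.H683.qCoeff_zero_cusp,
        Fermat.Agent.Lib.Newform.H683.qCoeff_zero_cusp]
    rcases Nat.eq_or_lt_of_le (Nat.succ_le_of_lt hpos) with h1 | h1
    · have : n = 1 := h1.symm
      subst this
      rw [hf.qCoeff_one, hg.qCoeff_one]
    · obtain ⟨p, hp, hpn⟩ := Nat.exists_prime_and_dvd (show n ≠ 1 by omega)
      obtain ⟨r, m, hm, rfl⟩ := Nat.exists_eq_pow_mul_and_not_dvd hpos.ne' p hp.ne_one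
      have hr : r ≠ 0 := by
        rintro rfl
        rw [pow_zero, one_mul] at hpn
        exact hm hpn
      have hcop : (p ^ r).Coprime m :=
        Nat.Coprime.pow_left r ((Nat.Prime.coprime_iff_not_dvd hp).mpr hm)
      have hmlt : m < p ^ r * m := by
        have hmpos : 0 < m := Nat.pos_of_ne_zero (by rintro rfl; simp at hpos)
        have : 1 < p ^ r := Nat.one_lt_pow hr hp.one_lt
        nlinarith
      rw [hf.qCoeff_mul_of_coprime _ _ hcop, hg.qCoeff_mul_of_coprime _ _ hcop,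
        ih m hmlt, (hpow p hp r).1]

/-- **X-SMO** from the local identity and the strict trivial bound. -/
theorem strongMultOne_of (hL : LocalIdentity) (hSB : StrictBound) : StrongMultOne := by
  intro N N' _ _ f g hf hg S hS
  have h1 : N ∣ N' := crossLevel_of hL hSB N N' f g hf hg.1 S hS
  have h2 : N' ∣ N := crossLevel_of hL hSB N' N g f hg hf.1 S
    (fun ℓ hℓ hℓS => (hS ℓ hℓ hℓS).symm)
  have hNN : N = N' := Nat.dvd_antisymm h1 h2
  subst hNN
  refine ⟨rfl, ?_⟩
  apply qCoeff_eq_of_forall_prime hf.1 hg.1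
  intro p hp
  obtain ⟨c, -, hid⟩ := hL N N f g hf hg S hS p hp
  exact local_eq hf hg hp hid rfl

end Fermat.Agent.Lib.Newform.H863.X8

end
-- ===== PACK-END Lib/Newform/H863/X8.lean

-- ===== PACK-BEGIN S36/H987/PureCore.lean
section




/-!
# S36 engine, ALG3 gap lemma G3 (helper987), part 1: purity at a closed point, core

Setting: `R` a discrete valuation ring with uniformiser `w`, `E = Frac R`, `F / E` a function
field with coordinate `x`, `B = chart R {x}` (the integral closure of `R[x]` in `F`).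

* `isIntegrallyClosed_quotient_centre` : if the component of `B` cut out by a sheet `V` is normal
  in the ELEMENTWISE sense of `Eng.NormalAlong` (an element of `F` which is integral over `B`
  modulo `𝔪_V` is congruent modulo `𝔪_V` to an element of `B`), then `B ⧸ (B ∩ 𝔪_V)` is
  integrally closed.
* `divisibleDivisor_of_sheets` : `A2.DivisibleDiv E m u` and `u` a unit of EVERY sheet give
  `S18.H754.DivisibleDivisor B m u` (the vertical height-one primes of `B` are the centres of the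
  sheets; no hypothesis on the special fibre).
* **`pure_of_locReg`** : if some sheet `V` through the closed point `𝔪` has a centre which is
  principal locally at `𝔪` (`LocReg`, = `Eng.Through ∧ Eng.PrincipalAt`) and a normal component,
  then `u` has a purity datum at `𝔪`:  `u · d ^ m · s₀ = a₀` with `a₀, s₀ ∈ B ∖ 𝔪`
  (the exact purity input of `H630.basePureValuesAt_single / _triple`).
-/

set_option autoImplicit false
set_option linter.style.haveILetI false
set_option linter.unusedSectionVars false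
set_option linter.unusedVariables false
set_option synthInstance.maxHeartbeats 400000
set_option maxHeartbeats 1600000

noncomputable section

namespace Fermat.Agent.S36.H987

open Polynomial IsLocalRing
open Fermat.Agent.A2
open Fermat.Agent.A2.H12 (IsSheet)
open Fermat.Agent.S18.H138 (chart baseField)
open Fermat.Agent.S18.H754 (DivisibleDivisor)
open Fermat.Agent.A2.Alg.H754 (LocU)
open Fermat.Agent.S36.H193 (centreW mem_centreW sheet_chart_le)

universe u

/-- **Local regularity datum** at the closed point `𝔪` of the chart `B` along the valuation ring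
`V`: `V` passes through `𝔪` and its centre `B ∩ 𝔪_V` is principal locally at `𝔪`. -/
def LocReg {R F : Type*} [CommRing R] [Field F] [Algebra R F] (B : Subalgebra R F)
    (𝔪 : Ideal B) (V : ValuationSubring F) : Prop :=
  (∀ b : B, (b : F) ∈ V.nonunits → b ∈ 𝔪) ∧
    ∃ t : B, (t : F) ∈ V.nonunits ∧
      ∀ a : B, (a : F) ∈ V.nonunits → ∃ g c : B, g ∉ 𝔪 ∧ g * a = t * c

section Normal

variable {R : Type u} [CommRing R] [IsDomain R] {F : Type u} [Field F] [Algebra R F]

/-- Elementwise normality of the component cut out by `V` gives an integrally closed quotient. -/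
theorem isIntegrallyClosed_quotient_centre (B : Subalgebra R F) (V : ValuationSubring F)
    (hBV : ∀ c ∈ B, c ∈ V)
    (hnormal : ∀ (f : F) (P : Polynomial B), P.Monic → Polynomial.aeval f P ∈ V.nonunits →
      ∃ b : B, f - (b : F) ∈ V.nonunits) :
    IsIntegrallyClosed (B ⧸ centreW V B hBV) := by
  classical
  set p : Ideal B := centreW V B hBV with hp
  haveI hpp : p.IsPrime := inferInstance
  haveI hdom : IsDomain (B ⧸ p) := Ideal.Quotient.isDomain p
  let D := B ⧸ p
  haveI : IsDomain D := hdom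
  set π : B →+* D := Ideal.Quotient.mk p with hπ
  have hπs : Function.Surjective π := Ideal.Quotient.mk_surjective
  refine (isIntegrallyClosed_iff (FractionRing D)).2 fun {z} hz => ?_
  obtain ⟨ab, sb, hsb, rfl⟩ := IsFractionRing.div_surjective (A := D) z
  obtain ⟨a, rfl⟩ := hπs ab
  obtain ⟨s, rfl⟩ := hπs sb
  have hs0 : π s ≠ 0 := nonZeroDivisors.ne_zero hsb
  have hsp : s ∉ p := fun h => hs0 (Ideal.Quotient.eq_zero_iff_mem.2 h)
  have hsV : (s : F) ∉ V.nonunits := fun h => hsp ((mem_centreW V B hBV s).2 h)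
  have hsF0 : (s : F) ≠ 0 := by
    intro h
    apply hsV
    rw [h]
    rw [ValuationSubring.mem_nonunits_iff, map_zero]
    exact zero_lt_one
  have hsinv : (s : F)⁻¹ ∈ V := by
    have h1 : V.valuation (s : F) = 1 := by
      refine le_antisymm ((V.valuation_le_one_iff _).2 (hBV _ s.2)) ?_
      rw [ValuationSubring.mem_nonunits_iff, not_lt] at hsV
      exact hsV
    rw [← V.valuation_le_one_iff, map_inv₀, h1, inv_one]
  -- the integral equation, lifted
  obtain ⟨Pb, hPbm, hPb⟩ := hz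
  obtain ⟨P, hPmap, -, hPm⟩ := Polynomial.lifts_and_degree_eq_and_monic
    ((Polynomial.mem_lifts Pb).2 (Polynomial.map_surjective π hπs Pb)) hPbm
  -- the homogenised equation in `D`
  have h1 : Polynomial.eval₂ (algebraMap D (FractionRing D)) (algebraMap D (FractionRing D) (π a))
      (Polynomial.scaleRoots Pb (π s)) = 0 :=
    Polynomial.scaleRoots_eval₂_eq_zero_of_eval₂_div_eq_zero
      (IsFractionRing.injective D (FractionRing D)) hPb hsb
  have h2 : Polynomial.eval (π a) (Polynomial.scaleRoots Pb (π s)) = 0 := by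
    apply IsFractionRing.injective D (FractionRing D)
    rw [map_zero, ← h1, Polynomial.eval₂_at_apply]
  have h3 : Polynomial.scaleRoots Pb (π s) = (Polynomial.scaleRoots P s).map π := by
    rw [← hPmap]
    refine (Polynomial.map_scaleRoots P s π ?_).symm
    rw [hPm.leadingCoeff, map_one]
    exact one_ne_zero
  have h4 : Polynomial.eval a (Polynomial.scaleRoots P s) ∈ p := by
    rw [← Ideal.Quotient.eq_zero_iff_mem]
    show π (Polynomial.eval a (Polynomial.scaleRoots P s)) = 0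
    rw [← Polynomial.eval_map_apply, ← h3]
    exact h2
  -- in `F`
  have h5 : ((Polynomial.eval a (Polynomial.scaleRoots P s) : B) : F)
      = (s : F) ^ P.natDegree * Polynomial.aeval ((a : F) * (s : F)⁻¹) P := by
    have e1 := Polynomial.scaleRoots_eval₂_mul (p := P) (algebraMap B F)
      ((a : F) * (s : F)⁻¹) s
    have e2 : algebraMap B F s * ((a : F) * (s : F)⁻¹) = algebraMap B F a := by
      show (s : F) * ((a : F) * (s : F)⁻¹) = (a : F)
      field_simp
    rw [e2] at e1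
    rw [Polynomial.aeval_def]
    have e3 : (algebraMap B F s) = (s : F) := rfl
    rw [e3] at e1
    rw [← e1, Polynomial.eval₂_at_apply]
    rfl
  have h6 : Polynomial.aeval ((a : F) * (s : F)⁻¹) P ∈ V.nonunits := by
    have h7 : ((Polynomial.eval a (Polynomial.scaleRoots P s) : B) : F) ∈ V.nonunits :=
      (mem_centreW V B hBV _).1 h4
    have h8 : Polynomial.aeval ((a : F) * (s : F)⁻¹) P
        = ((s : F)⁻¹) ^ P.natDegree
          * ((Polynomial.eval a (Polynomial.scaleRoots P s) : B) : F) := by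
      rw [h5, ← mul_assoc, ← mul_pow, inv_mul_cancel₀ hsF0, one_pow, one_mul]
    rw [h8]
    rw [ValuationSubring.mem_nonunits_iff] at h7 ⊢
    rw [map_mul]
    have h9 : V.valuation (((s : F)⁻¹) ^ P.natDegree) ≤ 1 :=
      (V.valuation_le_one_iff _).2 (V.pow_mem hsinv _)
    calc V.valuation (((s : F)⁻¹) ^ P.natDegree) * V.valuation _
        ≤ 1 * V.valuation ((Polynomial.eval a (Polynomial.scaleRoots P s) : B) : F) := by
          gcongr
      _ = V.valuation ((Polynomial.eval a (Polynomial.scaleRoots P s) : B) : F) := one_mul _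
      _ < 1 := h7
  obtain ⟨b, hb⟩ := hnormal _ P hPm h6
  refine ⟨π b, ?_⟩
  -- `a - s b ∈ p`
  have h10 : a - s * b ∈ p := by
    rw [mem_centreW]
    have : ((a - s * b : B) : F) = (s : F) * ((a : F) * (s : F)⁻¹ - (b : F)) := by
      push_cast
      field_simp
    rw [this]
    rw [ValuationSubring.mem_nonunits_iff] at hb ⊢
    rw [map_mul]
    calc V.valuation (s : F) * V.valuation _ ≤ 1 * V.valuation ((a : F) * (s : F)⁻¹ - (b : F)) := by
          gcongr
          exact (V.valuation_le_one_iff _).2 (hBV _ s.2)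
      _ = _ := one_mul _
      _ < 1 := hb
  have h11 : π a = π s * π b := by
    rw [← map_mul]
    exact (Ideal.Quotient.eq.2 h10)
  have hs' : algebraMap D (FractionRing D) (π s) ≠ 0 := by
    intro h
    exact hs0 (IsFractionRing.injective D (FractionRing D) (by rw [h, map_zero]))
  show algebraMap D (FractionRing D) (π b)
    = algebraMap D (FractionRing D) (π a) / algebraMap D (FractionRing D) (π s)
  rw [h11, map_mul, mul_div_cancel_left₀ _ hs']

end Normal

section Core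

variable {R E F : Type u} [CommRing R] [IsDomain R] [IsDiscreteValuationRing R]
  [Field E] [CharZero E] [Algebra R E] [IsFractionRing R E]
  [Field F] [Algebra E F] [Algebra R F] [IsScalarTower R E F]

/-- `m ∣ div u` at every height-one prime of the chart, if `m ∣ div u` on the generic fibre and
`u` is a unit of every sheet. -/
theorem divisibleDivisor_of_sheets (w : R) (hw : Irreducible w) {x : F}
    (hx : Transcendental E x)
    (hfin : FiniteDimensional (IntermediateField.adjoin E ({x} : Set F)) F)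
    [IsNoetherianRing (chart R ({x} : Set F))] [IsIntegrallyClosed (chart R ({x} : Set F))]
    [IsFractionRing (chart R ({x} : Set F)) F]
    (m : ℕ) (u : F) (hu : u ≠ 0) (hdiv : DivisibleDiv E m u)
    (hus : ∀ V, IsSheet w x V → u ∈ V ∧ u⁻¹ ∈ V) :
    DivisibleDivisor (chart R ({x} : Set F)) m u := by
  classical
  set B := chart R ({x} : Set F) with hB
  intro 𝔭 h𝔭 hht
  haveI := h𝔭
  have hxR : Transcendental R x := Fermat.Agent.A2.Alg.H754.transcendental_base hx
  haveI : CharZero F := charZero_of_injective_algebraMap (algebraMap E F).injective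
  haveI := Fermat.Agent.A2.Alg.H754.finiteDimensional_baseField (R := R) x hfin
  have hinjRF : Function.Injective (algebraMap R F) :=
    Fermat.Agent.A2.Alg.H754.algebraMap_base_injective (E := E)
  have hinjB : Function.Injective (algebraMap R B) :=
    Fermat.Agent.A2.Alg.H754.algebraMap_chart_injective (E := E) B
  have hwB0 : algebraMap R B w ≠ 0 := fun h0 => hw.ne_zero (hinjB (by rw [h0, map_zero]))
  by_cases hw𝔭 : algebraMap R B w ∈ 𝔭
  · -- vertical prime: the centre of a sheet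
    have hmin : 𝔭 ∈ (Ideal.span {algebraMap R B w}).minimalPrimes := by
      refine ⟨⟨h𝔭, ?_⟩, ?_⟩
      · rw [Ideal.span_le, Set.singleton_subset_iff]
        exact hw𝔭
      · rintro q ⟨hq, hwq⟩ hq𝔭
        haveI := hq
        haveI : q.FiniteHeight := Ideal.finiteHeight_of_isNoetherianRing q
        have hq0 : q ≠ ⊥ := by
          intro h0
          have : algebraMap R B w ∈ q := hwq (Ideal.subset_span rfl)
          rw [h0, Ideal.mem_bot] at this
          exact hwB0 this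
        have : q = 𝔭 := by
          refine Ideal.eq_of_le_of_height_le (I := q) (J := 𝔭) hq𝔭 ?_
          rw [hht, Order.one_le_iff_pos, pos_iff_ne_zero, Ne, Ideal.height_eq_zero_iff_eq_bot]
          exact hq0
        rw [this]
    obtain ⟨V, hV, hVp⟩ := Fermat.Agent.S36.H193.exists_sheet_of_minimal w hw.prime hxR 𝔭 hmin
    obtain ⟨huV, huV'⟩ := hus V hV
    obtain ⟨a, s, hs, has⟩ :=
      (Fermat.Agent.S36.H193.sheet_mem_iff hinjRF hw.prime hxR hV u).1 huV
    have hs𝔭 : s ∉ 𝔭 := fun h => hs ((hVp s).2 h)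
    have hsF0 : (s : F) ≠ 0 := by
      intro h
      apply hs
      rw [h, ValuationSubring.mem_nonunits_iff, map_zero]
      exact zero_lt_one
    have hua : u * (s : F) = a := by
      rw [has, mul_assoc, inv_mul_cancel₀ hsF0, mul_one]
    refine ⟨1, a, s, ?_, hs𝔭, ?_⟩
    · intro ha
      have haV : (a : F) ∈ V.nonunits := (hVp a).2 ha
      -- `s = u⁻¹ a` would be a non-unit
      apply hs
      have : (s : F) = u⁻¹ * (a : F) := by
        rw [← hua, ← mul_assoc, inv_mul_cancel₀ hu, one_mul]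
      rw [this]
      rw [ValuationSubring.mem_nonunits_iff] at haV ⊢
      rw [map_mul]
      calc V.valuation u⁻¹ * V.valuation (a : F) ≤ 1 * V.valuation (a : F) := by
            gcongr
            exact (V.valuation_le_one_iff _).2 huV'
        _ = V.valuation (a : F) := one_mul _
        _ < 1 := haV
    · rw [one_pow, mul_one]
      exact hua
  · -- horizontal prime: `B_𝔭` is a DVR containing `E`
    obtain ⟨W, hdvr, hW⟩ := Fermat.Agent.S18.H438.exists_dvr_of_height_one (F := F) 𝔭 hht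
    have hE : ∀ e : E, algebraMap E F e ∈ W := by
      intro e
      obtain ⟨a, b, hb, rfl⟩ := IsFractionRing.div_surjective (A := R) e
      have hb0 : b ≠ 0 := nonZeroDivisors.ne_zero hb
      obtain ⟨k, υ, hbk⟩ := IsDiscreteValuationRing.eq_unit_mul_pow_irreducible hb0 hw
      have hb𝔭 : algebraMap R B b ∉ 𝔭 := by
        rw [hbk, map_mul, map_pow]
        intro h
        rcases h𝔭.mem_or_mem h with h | h
        · exact h𝔭.ne_top (Ideal.eq_top_of_isUnit_mem _ h (υ.isUnit.map (algebraMap R B)))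
        · exact hw𝔭 (h𝔭.mem_of_pow_mem k h)
      have hbF : algebraMap R F b ≠ 0 := fun h0 => hb0 (hinjRF (by rw [h0, map_zero]))
      refine (hW _).2 ⟨algebraMap R B a, algebraMap R B b, hb𝔭, ?_⟩
      rw [← IsScalarTower.algebraMap_apply R B F, ← IsScalarTower.algebraMap_apply R B F,
        map_div₀, ← IsScalarTower.algebraMap_apply R E F, ← IsScalarTower.algebraMap_apply R E F,
        div_mul_cancel₀ _ hbF]
    obtain ⟨h, u₀, hh, hu₀, hu₀', huh⟩ := hdiv W hdvr hE
    have hu₀0 : u₀ ≠ 0 := by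
      rintro rfl
      rw [zero_mul] at huh
      exact hu huh
    obtain ⟨a, s, ha, hs', has⟩ :=
      (Fermat.Agent.A2.Alg.H754.locU_iff_of_valuationSubring 𝔭 W hW hu₀0).2 ⟨hu₀, hu₀'⟩
    refine ⟨h⁻¹, a, s, ha, hs', ?_⟩
    rw [huh, inv_pow, mul_assoc u₀, mul_inv_cancel₀ (pow_ne_zero _ hh), mul_one]
    exact has

/-- **Purity at a closed point** from a local regularity datum along a sheet with normal
component. -/
theorem pure_of_locReg_aux (w : R) (hw : Irreducible w) {x : F} (hx : Transcendental E x)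
    (hfin : FiniteDimensional (IntermediateField.adjoin E ({x} : Set F)) F)
    {m : ℕ} (hm : 0 < m) {u : F} (hu : u ≠ 0) (hdiv : DivisibleDiv E m u)
    (hus : ∀ V, IsSheet w x V → u ∈ V ∧ u⁻¹ ∈ V)
    (V : ValuationSubring F) (hV : IsSheet w x V)
    (B : Subalgebra R F) (hBdef : B = chart R ({x} : Set F))
    (hnormal : ∀ (f : F) (P : Polynomial B), P.Monic →
      Polynomial.aeval f P ∈ V.nonunits → ∃ b : B, f - (b : F) ∈ V.nonunits)
    (𝔪 : Ideal B) (h𝔪 : 𝔪.IsMaximal)
    (hreg : LocReg B 𝔪 V) :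
    ∃ d : F, d ≠ 0 ∧ ∃ a₀ s₀ : B, a₀ ∉ 𝔪 ∧ s₀ ∉ 𝔪 ∧
      u * d ^ m * (s₀ : F) = a₀ := by
  classical
  subst hBdef
  have hxR : Transcendental R x := Fermat.Agent.A2.Alg.H754.transcendental_base hx
  haveI : CharZero F := charZero_of_injective_algebraMap (algebraMap E F).injective
  haveI := Fermat.Agent.A2.Alg.H754.finiteDimensional_baseField (R := R) x hfin
  obtain ⟨hN, hIC, hFr⟩ := Fermat.Agent.S18.H394.chart_instances (R := R) hxR
  haveI := hN
  haveI := hIC
  haveI := hFr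
  have hinjB : Function.Injective (algebraMap R (chart R ({x} : Set F))) :=
    Fermat.Agent.A2.Alg.H754.algebraMap_chart_injective (E := E) (chart R ({x} : Set F))
  have hwB0 : algebraMap R (chart R ({x} : Set F)) w ≠ 0 := fun h0 => hw.ne_zero (hinjB (by rw [h0, map_zero]))
  have hBV : ∀ c ∈ (chart R ({x} : Set F)), c ∈ V := sheet_chart_le hV
  set p : Ideal (chart R ({x} : Set F)) := centreW V (chart R ({x} : Set F)) hBV with hp
  haveI hpp : p.IsPrime := inferInstance
  have hwp : algebraMap R (chart R ({x} : Set F)) w ∈ p := (mem_centreW V (chart R ({x} : Set F)) hBV _).2 hV.2.2.1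
  have hp0 : p ≠ ⊥ := by
    intro h0
    rw [h0, Ideal.mem_bot] at hwp
    exact hwB0 hwp
  -- the component is Dedekind
  have hnorm : IsIntegrallyClosed ((chart R ({x} : Set F)) ⧸ p) := isIntegrallyClosed_quotient_centre (chart R ({x} : Set F)) V hBV hnormal
  haveI := Fermat.Agent.S18.H138.isNoetherianRing_adjoin_singleton (R := R) hxR
  letI : Algebra (Algebra.adjoin R ({x} : Set F)) (chart R ({x} : Set F)) :=
    inferInstanceAs (Algebra (Algebra.adjoin R ({x} : Set F))
      (integralClosure (Algebra.adjoin R ({x} : Set F)) F))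
  haveI : Algebra.IsIntegral (Algebra.adjoin R ({x} : Set F)) (chart R ({x} : Set F)) :=
    inferInstanceAs (Algebra.IsIntegral (Algebra.adjoin R ({x} : Set F))
      (integralClosure (Algebra.adjoin R ({x} : Set F)) F))
  have hD : IsDedekindDomain ((chart R ({x} : Set F)) ⧸ p) :=
    Fermat.Agent.A2.Alg.H754.isDedekindDomain_quotient_of_dim
      (A₀ := Algebra.adjoin R ({x} : Set F))
      (Fermat.Agent.A2.Alg.H754.ringKrullDim_adjoin_le x hxR) p hp0 hnorm
  have hDD : DivisibleDivisor (chart R ({x} : Set F)) m u := divisibleDivisor_of_sheets w hw hx hfin m u hu hdiv hus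
  obtain ⟨hth, t, htV, hgen⟩ := hreg
  have hpn : p ≤ 𝔪 := fun b hb => hth b ((mem_centreW V (chart R ({x} : Set F)) hBV b).1 hb)
  have htp : t ∈ p := (mem_centreW V (chart R ({x} : Set F)) hBV t).2 htV
  have ht0 : t ≠ 0 := by
    rintro rfl
    -- `p` would be locally zero, but `w ∈ p`, `w ≠ 0`
    obtain ⟨g, c, hg, hgc⟩ := hgen _ ((mem_centreW V (chart R ({x} : Set F)) hBV _).1 hwp)
    rw [zero_mul] at hgc
    rcases mul_eq_zero.1 hgc with h | h
    · exact hg (h ▸ 𝔪.zero_mem)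
    · exact hwB0 h
  have hgen' : ∀ a ∈ p, ∃ g : (chart R ({x} : Set F)), g ∉ 𝔪 ∧ ∃ c : (chart R ({x} : Set F)), g * a = t * c := by
    intro a ha
    obtain ⟨g, c, hg, hgc⟩ := hgen a ((mem_centreW V (chart R ({x} : Set F)) hBV a).1 ha)
    exact ⟨g, hg, c, hgc⟩
  obtain ⟨d, hd0, a, s, ha, hs, has⟩ :=
    pure_regular_abs987 t ht0 p 𝔪 h𝔪 hpn htp hgen' hD m hm u hu hDD
  exact ⟨d, hd0, a, s, ha, hs, has⟩

/-- **Purity at a closed point** of `chart R {x}` from a local regularity datum along a sheet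
with normal component. -/
theorem pure_of_locReg (w : R) (hw : Irreducible w) {x : F} (hx : Transcendental E x)
    (hfin : FiniteDimensional (IntermediateField.adjoin E ({x} : Set F)) F)
    {m : ℕ} (hm : 0 < m) {u : F} (hu : u ≠ 0) (hdiv : DivisibleDiv E m u)
    (hus : ∀ V, IsSheet w x V → u ∈ V ∧ u⁻¹ ∈ V)
    (V : ValuationSubring F) (hV : IsSheet w x V)
    (hnormal : ∀ (f : F) (P : Polynomial (chart R ({x} : Set F))), P.Monic →
      Polynomial.aeval f P ∈ V.nonunits → ∃ b : chart R ({x} : Set F), f - (b : F) ∈ V.nonunits)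
    (𝔪 : Ideal (chart R ({x} : Set F))) (h𝔪 : 𝔪.IsMaximal)
    (hreg : LocReg (chart R ({x} : Set F)) 𝔪 V) :
    ∃ d : F, d ≠ 0 ∧ ∃ a₀ s₀ : chart R ({x} : Set F), a₀ ∉ 𝔪 ∧ s₀ ∉ 𝔪 ∧
      u * d ^ m * (s₀ : F) = a₀ :=
  pure_of_locReg_aux w hw hx hfin hm hu hdiv hus V hV _ rfl hnormal 𝔪 h𝔪 hreg

end Core

end Fermat.Agent.S36.H987

end

end
-- ===== PACK-END S36/H987/PureCore.lean

-- ===== PACK-BEGIN S36/H987/Pure3.lean
section


/-!
# S36 engine, ALG3 gap lemma G3 (helper987), part 2: purity with three components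

Setting of `PureCore.lean`, with three sheets `V₁, V₂, V₃` of multiplicities `1, q - 1, 1`
(`Mult3`) which satisfy the `q`-expansion principle on the chart `B = chart R {x}`
(`Qep3F`, = `Eng.Qep3` unfolded).

* `three_dvd` : `g₁ g₂ ^ (q - 1) g₃ ∈ w B` if `gᵢ ∈ B ∩ 𝔪_{Vᵢ}`.
* `sheets_three` : every sheet is one of `V₁, V₂, V₃`.
* `locReg_of_three` : at a closed point `𝔪 ∋ w` of `B`, some component through `𝔪` is locally
  principal, provided this holds at the points of the MIDDLE component (`hreg`) and a point on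
  `V₁` and `V₃` is on `V₂` (`hinc`): off the middle component, `w` is a local generator.
* **`pure_of_three`** : the purity datum `u · d ^ m · s₀ = a₀`, `a₀, s₀ ∈ B ∖ 𝔪`, at every closed
  point `𝔪 ∋ w` of `B`, for `u` with `m ∣ div u` on the generic fibre, `u` a unit of `V₁, V₂, V₃`.
-/

set_option autoImplicit false
set_option linter.style.haveILetI false
set_option linter.unusedSectionVars false
set_option linter.unusedVariables false
set_option synthInstance.maxHeartbeats 400000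
set_option maxHeartbeats 1600000

noncomputable section

namespace Fermat.Agent.S36.H987

open Polynomial IsLocalRing
open Fermat.Agent.A2
open Fermat.Agent.A2.H12 (IsSheet)
open Fermat.Agent.S18.H138 (chart baseField)
open Fermat.Agent.S18.H754 (DivisibleDivisor)
open Fermat.Agent.S36.H193 (centreW mem_centreW sheet_chart_le)

universe u

section Vocab

variable {R F : Type*} [CommRing R] [Field F] [Algebra R F]

/-- The multiplicities `1, q - 1, 1` of the three components: `w` is a uniformiser of `V₁` and of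
`V₃`, and `w = unit · t ^ (q - 1)` at `V₂`, `t` a uniformiser. -/
structure Mult3 (w : R) (q : ℕ) (V₁ V₂ V₃ : ValuationSubring F) : Prop where
  w₁ : algebraMap R F w ∈ V₁.nonunits
  w₃ : algebraMap R F w ∈ V₃.nonunits
  unif₁ : ∀ a ∈ V₁.nonunits, a * (algebraMap R F w)⁻¹ ∈ V₁
  unif₃ : ∀ a ∈ V₃.nonunits, a * (algebraMap R F w)⁻¹ ∈ V₃
  ram₂ : ∃ t : F, t ≠ 0 ∧ (∀ a ∈ V₂.nonunits, a * t⁻¹ ∈ V₂) ∧
    t ^ (q - 1) * (algebraMap R F w)⁻¹ ∈ V₂

/-- `Eng.Qep3`, unfolded. -/
def Qep3F (w : R) (B : Subalgebra R F) (V₁ V₂ V₃ : ValuationSubring F) : Prop :=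
  ∀ b : B, (b : F) * (algebraMap R F w)⁻¹ ∈ V₁ → (b : F) * (algebraMap R F w)⁻¹ ∈ V₂ →
    (b : F) * (algebraMap R F w)⁻¹ ∈ V₃ → ∃ c : B, b = algebraMap R B w * c

/-- `Eng.Through`, unfolded. -/
def Thru (B : Subalgebra R F) (𝔪 : Ideal B) (V : ValuationSubring F) : Prop :=
  ∀ b : B, (b : F) ∈ V.nonunits → b ∈ 𝔪

/-- `Eng.NormalAlong`, unfolded. -/
def NormalF (B : Subalgebra R F) (V : ValuationSubring F) : Prop :=
  ∀ (f : F) (P : Polynomial B), P.Monic → Polynomial.aeval f P ∈ V.nonunits →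
    ∃ b : B, f - (b : F) ∈ V.nonunits

theorem three_dvd {B : Subalgebra R F} {w : R} {q : ℕ} {V₁ V₂ V₃ : ValuationSubring F}
    (hM : Mult3 w q V₁ V₂ V₃)
    (hB₁ : ∀ c ∈ B, c ∈ V₁) (hB₂ : ∀ c ∈ B, c ∈ V₂) (hB₃ : ∀ c ∈ B, c ∈ V₃)
    (qep : Qep3F w B V₁ V₂ V₃)
    (g₁ g₂ g₃ : B) (h₁ : (g₁ : F) ∈ V₁.nonunits) (h₂ : (g₂ : F) ∈ V₂.nonunits)
    (h₃ : (g₃ : F) ∈ V₃.nonunits) :
    ∃ c : B, g₁ * g₂ ^ (q - 1) * g₃ = algebraMap R B w * c := by
  obtain ⟨t, ht0, ht, htw⟩ := hM.ram₂
  refine qep _ ?_ ?_ ?_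
  · have e : ((g₁ * g₂ ^ (q - 1) * g₃ : B) : F) * (algebraMap R F w)⁻¹
        = ((g₁ : F) * (algebraMap R F w)⁻¹) * ((g₂ : F) ^ (q - 1) * (g₃ : F)) := by
      push_cast
      ring
    rw [e]
    exact V₁.mul_mem _ _ (hM.unif₁ _ h₁)
      (V₁.mul_mem _ _ (V₁.pow_mem (hB₁ _ g₂.2) _) (hB₁ _ g₃.2))
  · have e : ((g₁ * g₂ ^ (q - 1) * g₃ : B) : F) * (algebraMap R F w)⁻¹
        = (((g₂ : F) * t⁻¹) ^ (q - 1) * (t ^ (q - 1) * (algebraMap R F w)⁻¹))
          * ((g₁ : F) * (g₃ : F)) := by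
      push_cast
      rw [mul_pow, inv_pow]
      have ht' : t ^ (q - 1) ≠ 0 := pow_ne_zero _ ht0
      field_simp
    rw [e]
    exact V₂.mul_mem _ _ (V₂.mul_mem _ _ (V₂.pow_mem (ht _ h₂) _) htw)
      (V₂.mul_mem _ _ (hB₂ _ g₁.2) (hB₂ _ g₃.2))
  · have e : ((g₁ * g₂ ^ (q - 1) * g₃ : B) : F) * (algebraMap R F w)⁻¹
        = ((g₃ : F) * (algebraMap R F w)⁻¹) * ((g₁ : F) * (g₂ : F) ^ (q - 1)) := by
      push_cast
      ring
    rw [e]
    exact V₃.mul_mem _ _ (hM.unif₃ _ h₃)
      (V₃.mul_mem _ _ (hB₃ _ g₁.2) (V₃.pow_mem (hB₃ _ g₂.2) _))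

/-- At a point `𝔪 ∋ w`, some component through `𝔪` is locally principal. -/
theorem locReg_of_three {B : Subalgebra R F} {w : R} {q : ℕ} {V₁ V₂ V₃ : ValuationSubring F}
    (hM : Mult3 w q V₁ V₂ V₃)
    (hB₁ : ∀ c ∈ B, c ∈ V₁) (hB₂ : ∀ c ∈ B, c ∈ V₂) (hB₃ : ∀ c ∈ B, c ∈ V₃)
    (qep : Qep3F w B V₁ V₂ V₃)
    (𝔪 : Ideal B) [h𝔪 : 𝔪.IsPrime] (hw𝔪 : algebraMap R B w ∈ 𝔪)
    (hinc : Thru B 𝔪 V₁ → Thru B 𝔪 V₃ → Thru B 𝔪 V₂)
    (hreg : Thru B 𝔪 V₂ → LocReg B 𝔪 V₁ ∨ LocReg B 𝔪 V₂ ∨ LocReg B 𝔪 V₃) :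
    LocReg B 𝔪 V₁ ∨ LocReg B 𝔪 V₂ ∨ LocReg B 𝔪 V₃ := by
  classical
  by_cases h₂ : Thru B 𝔪 V₂
  · exact hreg h₂
  have h₂' := h₂
  unfold Thru at h₂'
  push Not at h₂'
  obtain ⟨g₂, hg₂, hg₂𝔪⟩ := h₂'
  have hg₂q : g₂ ^ (q - 1) ∉ 𝔪 := fun h => hg₂𝔪 (h𝔪.mem_of_pow_mem _ h)
  by_cases h₁ : Thru B 𝔪 V₁
  · by_cases h₃ : Thru B 𝔪 V₃
    · exact absurd (hinc h₁ h₃) h₂
    · have h₃' := h₃
      unfold Thru at h₃'
      push Not at h₃'
      obtain ⟨g₃, hg₃, hg₃𝔪⟩ := h₃'
      refine Or.inl ⟨h₁, algebraMap R B w, hM.w₁, fun a ha => ?_⟩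
      obtain ⟨c, hc⟩ := three_dvd hM hB₁ hB₂ hB₃ qep a g₂ g₃ ha hg₂ hg₃
      refine ⟨g₂ ^ (q - 1) * g₃, c, ?_, ?_⟩
      · intro h
        rcases h𝔪.mem_or_mem h with h | h
        · exact hg₂q h
        · exact hg₃𝔪 h
      · rw [← hc]
        ring
  · have h₁' := h₁
    unfold Thru at h₁'
    push Not at h₁'
    obtain ⟨g₁, hg₁, hg₁𝔪⟩ := h₁'
    by_cases h₃ : Thru B 𝔪 V₃
    · refine Or.inr (Or.inr ⟨h₃, algebraMap R B w, hM.w₃, fun a ha => ?_⟩)
      obtain ⟨c, hc⟩ := three_dvd hM hB₁ hB₂ hB₃ qep g₁ g₂ a hg₁ hg₂ ha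
      refine ⟨g₁ * g₂ ^ (q - 1), c, ?_, ?_⟩
      · intro h
        rcases h𝔪.mem_or_mem h with h | h
        · exact hg₁𝔪 h
        · exact hg₂q h
      · rw [← hc]
    · exfalso
      have h₃' := h₃
      unfold Thru at h₃'
      push Not at h₃'
      obtain ⟨g₃, hg₃, hg₃𝔪⟩ := h₃'
      obtain ⟨c, hc⟩ := three_dvd hM hB₁ hB₂ hB₃ qep g₁ g₂ g₃ hg₁ hg₂ hg₃
      have hmem : g₁ * g₂ ^ (q - 1) * g₃ ∈ 𝔪 := by
        rw [hc]
        exact 𝔪.mul_mem_right _ hw𝔪
      rcases h𝔪.mem_or_mem hmem with h | h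
      · rcases h𝔪.mem_or_mem h with h | h
        · exact hg₁𝔪 h
        · exact hg₂q h
      · exact hg₃𝔪 h

end Vocab

section Three

variable {R E F : Type u} [CommRing R] [IsDomain R] [IsDiscreteValuationRing R]
  [Field E] [CharZero E] [Algebra R E] [IsFractionRing R E]
  [Field F] [Algebra E F] [Algebra R F] [IsScalarTower R E F]

/-- **Every sheet is one of the three components** (from the `q`-expansion principle). -/
theorem sheets_three (w : R) (hw : Irreducible w) {x : F} (hx : Transcendental E x)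
    (hfin : FiniteDimensional (IntermediateField.adjoin E ({x} : Set F)) F)
    {q : ℕ} {V₁ V₂ V₃ : ValuationSubring F}
    (hV₁ : IsSheet w x V₁) (hV₂ : IsSheet w x V₂) (hV₃ : IsSheet w x V₃)
    (hM : Mult3 w q V₁ V₂ V₃)
    (qep : Qep3F w (chart R ({x} : Set F)) V₁ V₂ V₃) :
    ∀ V, IsSheet w x V → V = V₁ ∨ V = V₂ ∨ V = V₃ := by
  classical
  intro V hV
  by_contra hcon
  push Not at hcon
  obtain ⟨hne₁, hne₂, hne₃⟩ := hcon
  have hxR : Transcendental R x := Fermat.Agent.A2.Alg.H754.transcendental_base hx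
  haveI : CharZero F := charZero_of_injective_algebraMap (algebraMap E F).injective
  haveI := Fermat.Agent.A2.Alg.H754.finiteDimensional_baseField (R := R) x hfin
  have hinjRF : Function.Injective (algebraMap R F) :=
    Fermat.Agent.A2.Alg.H754.algebraMap_base_injective (E := E)
  -- a component different from `V` has an element of its centre which is a unit of `V`
  have key : ∀ W, IsSheet w x W → V ≠ W →
      ∃ g : chart R ({x} : Set F), (g : F) ∈ W.nonunits ∧ (g : F) ∉ V.nonunits := by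
    intro W hW hne
    by_contra hno
    push Not at hno
    apply hne
    refine Fermat.Agent.S36.H193.sheet_eq_of_centre_eq hinjRF hw.prime hxR hV hW ?_
    have hle : centreW W (chart R ({x} : Set F)) (sheet_chart_le hW)
        ≤ centreW V (chart R ({x} : Set F)) (sheet_chart_le hV) := by
      intro g hg
      rw [mem_centreW] at hg ⊢
      exact hno g hg
    have hminV := Fermat.Agent.S36.H193.centre_mem_minimalPrimes hV
    have hminW := Fermat.Agent.S36.H193.centre_mem_minimalPrimes hW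
    exact le_antisymm (hminV.2 hminW.1 hle) hle
  obtain ⟨g₁, hg₁, hg₁V⟩ := key V₁ hV₁ hne₁
  obtain ⟨g₂, hg₂, hg₂V⟩ := key V₂ hV₂ hne₂
  obtain ⟨g₃, hg₃, hg₃V⟩ := key V₃ hV₃ hne₃
  obtain ⟨c, hc⟩ := three_dvd hM (sheet_chart_le hV₁) (sheet_chart_le hV₂) (sheet_chart_le hV₃)
    qep g₁ g₂ g₃ hg₁ hg₂ hg₃
  set p := centreW V (chart R ({x} : Set F)) (sheet_chart_le hV) with hp
  haveI hpp : p.IsPrime := inferInstance
  have hwp : algebraMap R (chart R ({x} : Set F)) w ∈ p :=
    (mem_centreW V _ (sheet_chart_le hV) _).2 hV.2.2.1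
  have hmem : g₁ * g₂ ^ (q - 1) * g₃ ∈ p := by
    rw [hc]
    exact p.mul_mem_right _ hwp
  rcases hpp.mem_or_mem hmem with h | h
  · rcases hpp.mem_or_mem h with h | h
    · exact hg₁V ((mem_centreW V _ (sheet_chart_le hV) _).1 h)
    · exact hg₂V ((mem_centreW V _ (sheet_chart_le hV) _).1 (hpp.mem_of_pow_mem _ h))
  · exact hg₃V ((mem_centreW V _ (sheet_chart_le hV) _).1 h)

/-- **Purity at every closed point of the special fibre of a chart with three components.** -/
theorem pure_of_three (w : R) (hw : Irreducible w) {x : F} (hx : Transcendental E x)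
    (hfin : FiniteDimensional (IntermediateField.adjoin E ({x} : Set F)) F)
    {q : ℕ} {V₁ V₂ V₃ : ValuationSubring F}
    (hV₁ : IsSheet w x V₁) (hV₂ : IsSheet w x V₂) (hV₃ : IsSheet w x V₃)
    (hM : Mult3 w q V₁ V₂ V₃)
    (qep : Qep3F w (chart R ({x} : Set F)) V₁ V₂ V₃)
    (hn₁ : NormalF (chart R ({x} : Set F)) V₁) (hn₂ : NormalF (chart R ({x} : Set F)) V₂)
    (hn₃ : NormalF (chart R ({x} : Set F)) V₃)
    (𝔪 : Ideal (chart R ({x} : Set F))) (h𝔪 : 𝔪.IsMaximal)
    (hw𝔪 : algebraMap R (chart R ({x} : Set F)) w ∈ 𝔪)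
    (hinc : Thru _ 𝔪 V₁ → Thru _ 𝔪 V₃ → Thru _ 𝔪 V₂)
    (hreg : Thru _ 𝔪 V₂ → LocReg _ 𝔪 V₁ ∨ LocReg _ 𝔪 V₂ ∨ LocReg _ 𝔪 V₃)
    {m : ℕ} (hm : 0 < m) {u : F} (hu : u ≠ 0) (hdiv : DivisibleDiv E m u)
    (hu₁ : u ∈ V₁ ∧ u⁻¹ ∈ V₁) (hu₂ : u ∈ V₂ ∧ u⁻¹ ∈ V₂) (hu₃ : u ∈ V₃ ∧ u⁻¹ ∈ V₃) :
    ∃ d : F, d ≠ 0 ∧ ∃ a₀ s₀ : chart R ({x} : Set F), a₀ ∉ 𝔪 ∧ s₀ ∉ 𝔪 ∧
      u * d ^ m * (s₀ : F) = a₀ := by
  classical
  haveI := h𝔪.isPrime
  have hsheets := sheets_three w hw hx hfin hV₁ hV₂ hV₃ hM qep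
  have hus : ∀ V, IsSheet w x V → u ∈ V ∧ u⁻¹ ∈ V := by
    intro V hV
    rcases hsheets V hV with rfl | rfl | rfl
    · exact hu₁
    · exact hu₂
    · exact hu₃
  rcases locReg_of_three hM (sheet_chart_le hV₁) (sheet_chart_le hV₂) (sheet_chart_le hV₃) qep
    𝔪 hw𝔪 hinc hreg with h | h | h
  · exact pure_of_locReg w hw hx hfin hm hu hdiv hus V₁ hV₁ hn₁ 𝔪 h𝔪 h
  · exact pure_of_locReg w hw hx hfin hm hu hdiv hus V₂ hV₂ hn₂ 𝔪 h𝔪 h
  · exact pure_of_locReg w hw hx hfin hm hu hdiv hus V₃ hV₃ hn₃ 𝔪 h𝔪 h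

end Three

end Fermat.Agent.S36.H987

end

end
-- ===== PACK-END S36/H987/Pure3.lean

-- ===== PACK-BEGIN S36/H83/BetaDeg.lean
section
/-
S36 engine, MOD-3 (helper83): the degree of the `β`-structure at a level divisible by `ℓ`.

`L` a field of characteristic `0`, `E_M = L(j(q^d) : d ∣ M) ⊂ L((q))`, `V = (q ↦ q^ℓ)`.

* `h83_relfinrank_map_full` : `[E_{Nℓ} : V(E_N)] = ℓ` if `ℓ ∣ N`, `= ℓ + 1` otherwise;
* `h83_exists_beta_expansion` : for `ℓ ∣ N` every element of `E_{Nℓ}` is
  `∑_{i<ℓ} V(a_i) j^i` with `a_i ∈ E_N`  (`1, j, …, j^{ℓ-1}` is a basis of `E_{Nℓ}` over `V(E_N)`).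
-/



set_option autoImplicit false
set_option linter.unusedSectionVars false
set_option linter.style.haveILetI false

noncomputable section

open ModularCurve IntermediateField Polynomial

namespace Fermat.Agent.S36.H83

open Fermat.Agent.S28.H988 Fermat.Agent.S37.H988

section Degree

variable (L : Type*) [Field L] [CharZero L] {ℓ : ℕ}

/-- **Degree of the `β`-structure**, any level:
`[E_{Nℓ} : V(E_N)] = ℓ` if `ℓ ∣ N`, `ℓ + 1` if `ℓ ∤ N`. -/
theorem h83_relfinrank_map_full (hℓ : ℓ.Prime) {N : ℕ} (hN : N ≠ 0) :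
    ((modularFunctionFieldFullC L N).map (VAlg L ℓ)).relfinrank
      (modularFunctionFieldFullC L (N * ℓ)) = if ℓ ∣ N then ℓ else ℓ + 1 := by
  have hℓ0 : ℓ ≠ 0 := hℓ.ne_zero
  have hNℓ : N * ℓ ≠ 0 := Nat.mul_ne_zero hN hℓ0
  have h1ℓ : 1 * ℓ ≠ 0 := Nat.mul_ne_zero one_ne_zero hℓ0
  have hchar : ∀ (M : ℕ) (r : ℕ), r.Prime → r ∣ M → (r : L) ≠ 0 :=
    fun _ r hr _ => natCast_prime_ne_zero L r hr
  have hℓ1 : ¬ ℓ ∣ 1 := by simpa using hℓ.one_lt.ne'
  set J := modularFunctionFieldFullC L 1 with hJ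
  set Jl := J.map (VAlg L ℓ) with hJl
  set El := modularFunctionFieldFullC L (1 * ℓ) with hEl
  set K0 := (modularFunctionFieldFullC L N).map (VAlg L ℓ) with hK0
  set K1 := modularFunctionFieldFullC L (N * ℓ) with hK1
  have hJeq : J = Fermat.Agent.S28.jField L := full_one L
  -- inclusions
  have i1 : J ≤ El := full_mono L h1ℓ (one_dvd _)
  have i2 : El ≤ K1 := full_mono L hNℓ (Nat.mul_dvd_mul_right (one_dvd N) ℓ)
  have i3 : Jl ≤ El := map_full_le L (N := 1) one_ne_zero hℓ0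
  have i4 : Jl ≤ K0 := IntermediateField.map_mono _ (full_mono L hN (one_dvd N))
  have i5 : K0 ≤ K1 := map_full_le L hN hℓ0
  -- degrees
  have d1 : J.relfinrank El = ℓ + 1 := by
    rw [hJ, hEl, relfinrank_full_mul_prime L 1 ℓ one_ne_zero hℓ (hchar _), if_neg hℓ1]
  have d2 : J.relfinrank K1 = dedekindPsi (N * ℓ) := by
    rw [hJeq, relfinrank_jField_full_eq L (N * ℓ) hNℓ (hchar _)]
  have d3 : (ℓ + 1) * El.relfinrank K1 = dedekindPsi (N * ℓ) := by
    rw [← d1, ← d2]
    exact relfinrank_mul_relfinrank i1 i2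
  have d4 : Jl.relfinrank El = ℓ + 1 := relfinrank_map_full L hℓ one_ne_zero hℓ1
  have d5 : Jl.relfinrank K0 = dedekindPsi N := by
    rw [hJl, hK0, relfinrank_map_map, hJeq, relfinrank_jField_full_eq L N hN (hchar N)]
  have d6 : Jl.relfinrank K1 = dedekindPsi (N * ℓ) := by
    rw [← relfinrank_mul_relfinrank i3 i2, d4, d3]
  have h := relfinrank_mul_relfinrank i4 i5
  rw [d5, d6] at h
  have hpos := dedekindPsi_pos N hN
  by_cases hℓN : ℓ ∣ N
  · rw [if_pos hℓN]
    rw [Fermat.Agent.S28.H626.psi_mul_prime_of_dvd hN hℓ hℓN, mul_comm ℓ] at h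
    exact Nat.eq_of_mul_eq_mul_left hpos h
  · rw [if_neg hℓN]
    rw [Fermat.Agent.S28.H626.psi_mul_prime_of_not_dvd hN hℓ hℓN, mul_comm (ℓ + 1)] at h
    exact Nat.eq_of_mul_eq_mul_left hpos h

omit [CharZero L] in
/-- `1, j, …, j^{ℓ-1}` are linearly independent over `V(L((q)))`, `Fin`-indexed form. -/
theorem h83_linIndep_fin [NeZero ℓ] (a : Fin ℓ → LaurentSeries L)
    (h : ∑ i : Fin ℓ, qExpand L ℓ (a i) * jqModC L ^ (i : ℕ) = 0) : ∀ i, a i = 0 := by
  classical
  set c : ℕ → LaurentSeries L := fun i => if hi : i < ℓ then a ⟨i, hi⟩ else 0 with hc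
  have hsum : ∑ i ∈ Finset.range ℓ, qExpand L ℓ (c i) * jqModC L ^ i = 0 := by
    rw [← h, ← Fin.sum_univ_eq_sum_range (fun i => qExpand L ℓ (c i) * jqModC L ^ i) ℓ]
    refine Finset.sum_congr rfl fun i _ => ?_
    simp only [hc, dif_pos i.2, Fin.eta]
  have h0 := Fermat.Agent.S28.h88_linIndep_core L ℓ c hsum
  intro i
  have := h0 i (Finset.mem_range.mpr i.2)
  simpa only [hc, dif_pos i.2, Fin.eta] using this

/-- **Power basis of the `β`-structure**: for `ℓ ∣ N` every element of `E_{Nℓ}` is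
`∑_{i<ℓ} V(a_i) j^i` with `a_i ∈ E_N`. -/
theorem h83_exists_beta_expansion [NeZero ℓ] (hℓ : ℓ.Prime) {N : ℕ} (hN : N ≠ 0) (hℓN : ℓ ∣ N)
    {f : LaurentSeries L} (hf : f ∈ modularFunctionFieldFullC L (N * ℓ)) :
    ∃ a : Fin ℓ → LaurentSeries L, (∀ i, a i ∈ modularFunctionFieldFullC L N) ∧
      f = ∑ i : Fin ℓ, qExpand L ℓ (a i) * jqModC L ^ (i : ℕ) := by
  classical
  have hℓ0 : ℓ ≠ 0 := hℓ.ne_zero
  have hNℓ : N * ℓ ≠ 0 := Nat.mul_ne_zero hN hℓ0
  set K0 := (modularFunctionFieldFullC L N).map (VAlg L ℓ) with hK0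
  set K1 := modularFunctionFieldFullC L (N * ℓ) with hK1
  have i5 : K0 ≤ K1 := map_full_le L hN hℓ0
  have hdeg : K0.relfinrank K1 = ℓ := by
    rw [hK0, hK1, h83_relfinrank_map_full L hℓ hN, if_pos hℓN]
  rw [relfinrank_eq_finrank_of_le i5] at hdeg
  -- the family `j^i`
  have hj : jqModC L ∈ K1 := by
    have := jd_mem_full L hNℓ (one_dvd (N * ℓ))
    rwa [jd_one] at this
  set v : Fin ℓ → LaurentSeries L := fun i => jqModC L ^ (i : ℕ) with hv
  have hli : LinearIndependent K0 v := by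
    rw [Fintype.linearIndependent_iff]
    intro g hg i
    have hmem : ∀ i, ∃ b ∈ modularFunctionFieldFullC L N, VAlg L ℓ b = (g i : LaurentSeries L) :=
      fun i => (IntermediateField.mem_map _).mp (g i).2
    choose b hb hbg using hmem
    have hsum : ∑ i : Fin ℓ, qExpand L ℓ (b i) * jqModC L ^ (i : ℕ) = 0 := by
      rw [← hg]
      refine Finset.sum_congr rfl fun i _ => ?_
      rw [IntermediateField.smul_def, smul_eq_mul, ← hbg i, VAlg_apply, Vm_eq]
    have h0 := h83_linIndep_fin L b hsum i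
    apply Subtype.ext
    rw [← hbg i, h0, map_zero]
    rfl
  -- the span is everything
  set W : Submodule K0 (LaurentSeries L) := Submodule.span K0 (Set.range v) with hW
  set T : Submodule K0 (LaurentSeries L) :=
    (extendScalars i5).toSubalgebra.toSubmodule with hT
  have hWT : W ≤ T := by
    rw [hW, Submodule.span_le]
    rintro x ⟨i, rfl⟩
    show jqModC L ^ (i : ℕ) ∈ K1
    exact pow_mem hj _
  have hfinT : Module.finrank K0 T = ℓ := hdeg
  have hfinW : Module.finrank K0 W = ℓ := by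
    rw [hW, finrank_span_eq_card hli, Fintype.card_fin]
  haveI : Module.Finite K0 T := Module.finite_of_finrank_pos (by
    rw [hfinT]; exact Nat.pos_of_ne_zero hℓ0)
  have hEq : W = T := Submodule.eq_of_le_of_finrank_eq hWT (by rw [hfinW, hfinT])
  have hfT : f ∈ T := hf
  rw [← hEq, hW, Submodule.mem_span_range_iff_exists_fun] at hfT
  obtain ⟨g, hg⟩ := hfT
  have hmem : ∀ i, ∃ b ∈ modularFunctionFieldFullC L N, VAlg L ℓ b = (g i : LaurentSeries L) :=
    fun i => (IntermediateField.mem_map _).mp (g i).2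
  choose b hb hbg using hmem
  refine ⟨b, hb, ?_⟩
  rw [← hg]
  refine Finset.sum_congr rfl fun i _ => ?_
  rw [IntermediateField.smul_def, smul_eq_mul, ← hbg i, VAlg_apply, Vm_eq]

end Degree

end Fermat.Agent.S36.H83

end

end
-- ===== PACK-END S36/H83/BetaDeg.lean

-- ===== PACK-BEGIN S36/H994/Gauss4.lean
section


/-!
# Gauss units of level `4` (helper994, S36 cell REG, `q` odd)

Mirror of helper890's `Gauss9.lean` for the level-`4` tower of helper878's `Haupt4.lean`.
Every function below is `t⁻ⁿ · P(t)` with `P ∈ ℤ⟦t⟧`, `P(0) = 1`, over EVERY commutative ring `K`;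
so its `t`-expansion is integral with a coefficient `1`, and it is a unit of the Gauss valuation
ring `V∞` of every level and every residue characteristic (`A2.Mod.H553.mem_of_int`,
`inv_mem_of_int`).  These are the unit hypotheses of helper878's `Congr4.t4_congr`
(`hU`, `hUe`, `h16`) and `Transfer4.hres_transfer4` (`hh₁`, `hh₁'`, `hj₁`, `hj₁'`):

| function | `n` | statement |
|---|---|---|
| `t₄` | `1` | `H878.t4` (definition), `H878.coeff_t4_neg_one` |
| `t₄ + 16` | `1` | `H878.coeff_t4_add_neg_one` |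
| `t₂ + 16` | `1` | `H878.coeff_t2_add_neg_one` |
| `U₂(j, j₂)` | `3` | `u2_eq`, `coeff_u2` |
| `U₂(j₂, j₄)` | `6` | `u2e_eq`, `coeff_u2e` |
| `j`, `j - 1728` | `1` | `jq4_add_eq`, `coeff_jq4_sub_1728` |

and the relations `l1`, `l2`, `l3` of `Congr4.t4_congr` over every field (`t2_lin4`, `t2e_lin4`,
`t4_lin4`).
-/

set_option autoImplicit false
set_option linter.unusedSectionVars false

noncomputable section

namespace Fermat.Agent.S36.H994

open PowerSeries ModularCurve Fermat.Agent.Lib.Haupt Fermat.Agent.S36.H878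

/-! ## Polynomials -/

/-- `U₂ ∈ ℤ[x, y]` (`= Lib.Haupt.U2` at `x = j`, `y = j₂`; the shape of `Congr4.t4_congr`). -/
def h4u2 {S : Type*} [CommRing S] (x y : S) : S :=
  x * y - 720 * x - 720 * y - 16250625

/-- `W₂ ∈ ℤ[x, y]` (`= Lib.Haupt.W2` at `x = j`, `y = j₂`; the shape of `Congr4.t4_congr`). -/
def h4w2 {S : Type*} [CommRing S] (x y : S) : S :=
  y ^ 2 + 4095 * x + 195120 * y + 660960000

theorem h4u2_def {S : Type*} [CommRing S] (x y : S) :
    h4u2 x y = x * y - 720 * x - 720 * y - 16250625 := rfl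

theorem h4w2_def {S : Type*} [CommRing S] (x y : S) :
    h4w2 x y = y ^ 2 + 4095 * x + 195120 * y + 660960000 := rfl

theorem map_h4u2 {S T : Type*} [CommRing S] [CommRing T] (f : S →+* T) (x y : S) :
    f (h4u2 x y) = h4u2 (f x) (f y) := by
  simp only [h4u2, map_sub, map_mul, map_ofNat]

theorem map_h4w2 {S T : Type*} [CommRing S] [CommRing T] (f : S →+* T) (x y : S) :
    f (h4w2 x y) = h4w2 (f x) (f y) := by
  simp only [h4w2, map_add, map_mul, map_pow, map_ofNat]

/-! ## Shifts -/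

section Shift

variable (K : Type*) [CommRing K]

/-- `t⁻ⁿ · tᵏ = t^{-(n-k)}`. -/
theorem h4_qinv_pow_mul_X_pow {n k : ℕ} (h : k ≤ n) :
    qinv K ^ n * lau K X ^ k = qinv K ^ (n - k) := by
  obtain ⟨m, rfl⟩ := Nat.exists_eq_add_of_le h
  rw [Nat.add_sub_cancel_left, pow_add, mul_right_comm, ← mul_pow, qinv_mul_lau_X, one_pow,
    one_mul]

/-- The coefficient of `t⁻ⁿ` in `t⁻ⁿ · P` is `P(0)`. -/
theorem h4_coeff_qinv_pow_mul_lau (n : ℕ) (P : PowerSeries ℤ) :
    (qinv K ^ n * lau K P).coeff (-(n : ℤ)) = ((constantCoeff P : ℤ) : K) := by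
  rw [qinv, HahnSeries.single_pow, HahnSeries.coeff_single_mul]
  simp only [one_pow, one_mul]
  rw [show -(n : ℤ) - n • (-1 : ℤ) = ((0 : ℕ) : ℤ) by simp, coeff_lau_natCast,
    PowerSeries.coeff_zero_eq_constantCoeff]

theorem h4_qExpand_qinv_pow_mul_lau (d : ℕ) [NeZero d] (n : ℕ) (P : PowerSeries ℤ) :
    qExpand K d (qinv K ^ n * lau K P) = qinv K ^ (d * n) * lau K (ex d P) := by
  rw [map_mul, map_pow, qExpand_qinv, qExpand_lau, ← pow_mul]

end Shift

/-! ## The integral power series -/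

/-- `X² · j(X²)`. -/
abbrev J2 : PowerSeries ℤ := ex 2 ModularCurve.jNum

theorem constantCoeff_J2 : constantCoeff J2 = 1 := by
  rw [J2, constantCoeff_ex, ModularCurve.constantCoeff_jNum]

/-- `X³ · U₂(j, j₂)`. -/
def Pu2 : PowerSeries ℤ :=
  ModularCurve.jNum * J2 - C 720 * (X ^ 2 * ModularCurve.jNum) - C 720 * (X * J2)
    - C 16250625 * X ^ 3

theorem constantCoeff_Pu2 : constantCoeff Pu2 = 1 := by
  simp [Pu2, ModularCurve.constantCoeff_jNum]

section Laurent

variable (K : Type*) [CommRing K]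

/-! ## `U₂(j, j₂)` and `U₂(j₂, j₄)` -/

/-- `U₂(j, j₂) = t⁻³ · Pu2`. -/
theorem u2_eq :
    h4u2 (jqModC K) (qExpand K 2 (jqModC K)) = qinv K ^ 3 * lau K Pu2 := by
  have s1 := h4_qinv_pow_mul_X_pow K (n := 3) (k := 1) (by norm_num)
  have s2 := h4_qinv_pow_mul_X_pow K (n := 3) (k := 2) (by norm_num)
  have s3 := h4_qinv_pow_mul_X_pow K (n := 3) (k := 3) (by norm_num)
  norm_num at s1 s2 s3
  rw [h4u2, Pu2, qExpand_jqModC, jqModC_eq]
  simp only [lau_sub, lau_mul, lau_pow, lau_C]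
  push_cast
  generalize lau K ModularCurve.jNum = a at *
  generalize lau K J2 = b at *
  generalize lau K X = x at *
  generalize qinv K = q at *
  linear_combination (720 * a) * s2 + (720 * b) * s1 + (16250625 : LaurentSeries K) * s3

theorem coeff_u2 : (h4u2 (jqModC K) (qExpand K 2 (jqModC K))).coeff (-3) = 1 := by
  have h := h4_coeff_qinv_pow_mul_lau K 3 Pu2
  rw [← u2_eq, constantCoeff_Pu2] at h
  simpa using h

/-- `U₂(j₂, j₄) = t⁻⁶ · Pu2(t²)`. -/
theorem u2e_eq :
    h4u2 (qExpand K 2 (jqModC K)) (qExpand K 4 (jqModC K))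
      = qinv K ^ 6 * lau K (ex 2 Pu2) := by
  have h := congrArg (qExpand K 2) (u2_eq K)
  rw [map_h4u2, h4_qExpand_qinv_pow_mul_lau, qExpand_qExpand] at h
  exact h

theorem coeff_u2e :
    (h4u2 (qExpand K 2 (jqModC K)) (qExpand K 4 (jqModC K))).coeff (-6) = 1 := by
  have h := h4_coeff_qinv_pow_mul_lau K 6 (ex 2 Pu2)
  rw [← u2e_eq, constantCoeff_ex, constantCoeff_Pu2] at h
  simpa using h

/-! ## `t₂ + 16`, `t₄`, `t₄ + 16` -/

theorem coeff_t2_add_16 : (t2 K + 16).coeff (-1) = 1 := by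
  have h := coeff_t2_add_neg_one K 16
  simpa using h

theorem coeff_t4_add_16 : (t4 K + 16).coeff (-1) = 1 := by
  have h := coeff_t4_add_neg_one K 16
  simpa using h

/-! ## `j - c` -/

/-- `j + c = t⁻¹ · (jNum + c X)`. -/
theorem jq4_add_eq (c : ℤ) :
    jqModC K + (c : LaurentSeries K) = qinv K ^ 1 * lau K (ModularCurve.jNum + C c * X) := by
  rw [pow_one, jqModC_eq, t_add_const]

theorem coeff_jq4_add (c : ℤ) : (jqModC K + (c : LaurentSeries K)).coeff (-1) = 1 := by
  have h := h4_coeff_qinv_pow_mul_lau K 1 (ModularCurve.jNum + C c * X)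
  rw [← jq4_add_eq] at h
  simpa [ModularCurve.constantCoeff_jNum] using h

theorem coeff_jq4_sub_1728 : (jqModC K - 1728).coeff (-1) = 1 := by
  have h := coeff_jq4_add K (-1728)
  have e : jqModC K + ((-1728 : ℤ) : LaurentSeries K) = jqModC K - 1728 := by
    push_cast; ring
  rwa [e] at h

end Laurent

/-! ## The relations `l1`, `l2`, `l3` of `Congr4.t4_congr`, over every FIELD -/

section Field

variable (K : Type*) [Field K]

theorem u2_eq_U2 : h4u2 (jqModC K) (qExpand K 2 (jqModC K)) = U2 K := rfl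

theorem w2_eq_W2 : h4w2 (jqModC K) (qExpand K 2 (jqModC K)) = W2 K := rfl

/-- `l1` : `U₂(j, j₂) · t₂ = W₂(j, j₂)`. -/
theorem t2_lin4 :
    h4u2 (jqModC K) (qExpand K 2 (jqModC K)) * t2 K = h4w2 (jqModC K) (qExpand K 2 (jqModC K)) :=
  t2_lin K

/-- `l2` : `U₂(j₂, j₄) · t₂(t²) = W₂(j₂, j₄)`. -/
theorem t2e_lin4 :
    h4u2 (qExpand K 2 (jqModC K)) (qExpand K 4 (jqModC K)) * qExpand K 2 (t2 K)
      = h4w2 (qExpand K 2 (jqModC K)) (qExpand K 4 (jqModC K)) := by
  have h := congrArg (qExpand K 2) (t2_lin4 K)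
  rw [map_mul, map_h4u2, map_h4w2, qExpand_qExpand] at h
  exact h

/-- `l3` : `t₄ · (t₂ + 16) = t₂(t²) - 16 t₂`. -/
theorem t4_lin4 : t4 K * (t2 K + 16) = qExpand K 2 (t2 K) - 16 * t2 K :=
  t4_mul K

end Field

end Fermat.Agent.S36.H994

end
end
-- ===== PACK-END S36/H994/Gauss4.lean

-- ===== PACK-BEGIN S59/MFree/H587/HeckeKer.lean
section
/-
Row S59, block M-FREE, next layer (helper587): the Hecke operators on `H(Γ', A) = Hom(Γ', A)`,
`Γ' = kerSub κ`, `κ : Γ₀(M) →* D` trivial on `{d ≡ 1 mod M}` (so `Γ₁(M) ≤ Γ' ≤ Γ₀(M)`), `l ∤ M` prime.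

A family `w x ∈ Γ₀(M)`, `x ∈ ℙ¹(𝔽_l)`, is *normalising* with constant `c` if the lower right entry
of `w x * heckeRep l x` is `c` modulo `M` for every `x` (`IsNormalising`).  Then the representatives
`w x * heckeRep l x` form a coset system from `Γ'` to `Γ'` (`kerSystem`) and its transfer
`heckeKerOf` satisfies

* `cor_heckeKerOf`     : `cor ∘ t = T_l ∘ cor`;
* `heckeKerOf_res`     : `t ∘ res = res ∘ T_l`;
* `heckeKerOf_conjAct` : `t` commutes with the diamond operators `conjAct κ g`;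
* `heckeKerOf_congr`   : `t` only depends on the constant `c`.

`c = l` is the classical `T_l` (`heckeKer`, representatives `[[1,j],[0,l]]`, `σ_l [[l,0],[0,1]]`),
`c = 1` the dual operator `T_l^*` (`heckeKerDual`).  `heckeKerLin`, `heckeKerDualLin`: the `O`-linear
versions; `free_heckeKer`: the theorem `MFree.free` for `t = T_l`.
-/




set_option autoImplicit false
set_option linter.unusedSectionVars false

namespace Fermat.Agent.S59.MFree.H587

open CongruenceSubgroup Matrix.SpecialLinearGroup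
open Fermat.Agent.S41.Spec Fermat.Agent.S29.H642 Fermat.Agent.S41.H761
open Fermat.Agent.S59.MFree.H941
open P2MW.S_ModularForm_heckeT_slash_eq_self_of_mem_Gamma0.ModularForm.HeckeSlashInvariance
open scoped MatrixGroups

universe u

section Basic

variable {M l : ℕ} [Fact l.Prime] {D : Type} [Group D]

/-- `κ` only depends on the lower right entry modulo `M`. -/
theorem kappa_congr (κ : Gamma0 M →* D)
    (hΓ1 : ∀ γ : Gamma0 M, ((((γ : SL(2, ℤ)) 1 1 : ℤ)) : ZMod M) = 1 → κ γ = 1)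
    {γ γ' : Gamma0 M} (h : eisD M γ = eisD M γ') : κ γ = κ γ' := by
  have h1 : eisD M (γ⁻¹ * γ') = 1 := by rw [eisD_mul, ← h, eisD_inv_mul]
  have h2 := hΓ1 (γ⁻¹ * γ') h1
  rw [map_mul, map_inv, inv_mul_eq_one] at h2
  exact h2

/-- The lower right entries of the Hecke representatives are units modulo `M`. -/
theorem isUnit_eisU (hl : ¬ l ∣ M) (x : OnePoint (ZMod l)) :
    IsUnit ((eisU l x : ℕ) : ZMod M) := by
  induction x using OnePoint.rec with
  | infty =>
    rw [eisU_infty, Nat.cast_one]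
    exact isUnit_one
  | coe j =>
    rw [eisU_coe]
    exact (ZMod.isUnit_iff_coprime l M).2
      ((Nat.Prime.coprime_iff_not_dvd Fact.out).mpr hl)

/-- A family `w x ∈ Γ₀(M)` such that the lower right entry of `w x * heckeRep l x` is `c`
modulo `M`, for every `x`. -/
def IsNormalising (M l : ℕ) (w : OnePoint (ZMod l) → Gamma0 M) (c : ZMod M) : Prop :=
  ∀ x, eisD M (w x) * ((eisU l x : ℕ) : ZMod M) = c

/-- The twist of the Hecke system by a normalising family preserves `κ`. -/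
theorem preservesKappa_twist (hl : ¬ l ∣ M) (κ : Gamma0 M →* D)
    (hΓ1 : ∀ γ : Gamma0 M, ((((γ : SL(2, ℤ)) 1 1 : ℤ)) : ZMod M) = 1 → κ γ = 1)
    (w : OnePoint (ZMod l) → Gamma0 M) (c : ZMod M) (hw : IsNormalising M l w c) :
    PreservesKappa (twistSystem (heckeSystem hl) w) κ := by
  intro x γ
  rw [twistSystem_coc (heckeSystem hl) w, heckeSystem_coc hl, heckeSystem_act hl]
  apply kappa_congr κ hΓ1
  have h1 := eis_entry hl γ x
  have h2 := hw x
  have h3 := hw (hPerm l (γ : SL(2, ℤ)) x)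
  have hu := isUnit_eisU (M := M) hl (hPerm l (γ : SL(2, ℤ)) x)
  generalize hPerm l (γ : SL(2, ℤ)) x = y at h1 h3 hu ⊢
  have key : eisD M (w x) * eisD M (hElt hl γ x) = eisD M (w y) * eisD M γ := by
    apply (IsUnit.mul_left_inj hu).1
    calc eisD M (w x) * eisD M (hElt hl γ x) * ((eisU l y : ℕ) : ZMod M)
        = eisD M (w x) * (((eisU l x : ℕ) : ZMod M) * eisD M γ) := by rw [mul_assoc, ← h1]
      _ = c * eisD M γ := by rw [← mul_assoc, h2]
      _ = eisD M (w y) * eisD M γ * ((eisU l y : ℕ) : ZMod M) := by rw [← h3]; ring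
  rw [eisD_mul, eisD_mul, key]
  have h4 := eisD_inv_mul (w y)
  calc eisD M (w y) * eisD M γ * eisD M (w y)⁻¹
      = eisD M (w y)⁻¹ * eisD M (w y) * eisD M γ := by ring
    _ = eisD M γ := by rw [h4, one_mul]

end Basic

section Operator

variable {M l : ℕ} [Fact l.Prime] {D : Type} [Group D]
variable (hl : ¬ l ∣ M) (κ : Gamma0 M →* D)
variable (hΓ1 : ∀ γ : Gamma0 M, ((((γ : SL(2, ℤ)) 1 1 : ℤ)) : ZMod M) = 1 → κ γ = 1)
variable (w : OnePoint (ZMod l) → Gamma0 M) (c : ZMod M) (hw : IsNormalising M l w c)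

/-- The embedding `Γ' = ker κ → GL(2, ℝ)`. -/
noncomputable def ιKer : kerSub κ →* GL (Fin 2) ℝ :=
  (ιN M).comp (Subgroup.inclusion (kerSub_le κ))

include hl hΓ1 hw in
/-- The normalised Hecke representatives form a coset system from `Γ'` to `Γ'`. -/
theorem kerSystem : IsCosetSystem (ιKer κ) (ιKer κ) (fun x => ιN M (w x) * heckeRep l x) :=
  restrictSystem (twistSystem (heckeSystem hl) w) (preservesKappa_twist hl κ hΓ1 w c hw)
    (Subgroup.inclusion (kerSub_le κ)) (Subgroup.inclusion_injective _)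
    (mem_range_inclusion_iff κ)

theorem kerSystem_coc (x : OnePoint (ZMod l)) (k : kerSub κ) :
    Subgroup.inclusion (kerSub_le κ) ((kerSystem hl κ hΓ1 w c hw).coc x k) =
      w x * hElt hl (Subgroup.inclusion (kerSub_le κ) k) x *
        (w (hPerm l (k : SL(2, ℤ)) x))⁻¹ := by
  have h1 := restrictSystem_coc (twistSystem (heckeSystem hl) w)
    (preservesKappa_twist hl κ hΓ1 w c hw) (Subgroup.inclusion (kerSub_le κ))
    (Subgroup.inclusion_injective _) (mem_range_inclusion_iff κ) x k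
  rw [twistSystem_coc (heckeSystem hl) w, heckeSystem_coc hl, heckeSystem_act hl] at h1
  exact h1

variable {A : Type*} [AddCommGroup A]

/-- The Hecke operator on `H(Γ', A)` attached to a normalising family. -/
noncomputable def heckeKerOf :
    (Additive (kerSub κ) →+ A) →+ (Additive (kerSub κ) →+ A) where
  toFun φ := (kerSystem hl κ hΓ1 w c hw).transfer φ
  map_zero' := by
    have h := IsCosetSystem.transfer_add (kerSystem hl κ hΓ1 w c hw)
      (0 : Additive (kerSub κ) →+ A) 0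
    rw [add_zero] at h
    exact left_eq_add.mp h
  map_add' := IsCosetSystem.transfer_add (kerSystem hl κ hΓ1 w c hw)

theorem heckeKerOf_eq (φ : Additive (kerSub κ) →+ A) :
    heckeKerOf hl κ hΓ1 w c hw φ = (kerSystem hl κ hΓ1 w c hw).transfer φ := rfl

theorem heckeKerOf_apply (φ : Additive (kerSub κ) →+ A) (k : kerSub κ) :
    heckeKerOf hl κ hΓ1 w c hw φ (Additive.ofMul k) =
      ∑ x : OnePoint (ZMod l), φ (Additive.ofMul ((kerSystem hl κ hΓ1 w c hw).coc x k)) := rfl

/-- `t ∘ res = res ∘ T_l`. -/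
theorem heckeKerOf_res (y : Additive (Gamma0 M) →+ A) :
    heckeKerOf hl κ hΓ1 w c hw (res κ y) = res κ (heckeTransfer hl y) := by
  rw [heckeKerOf_eq, heckeTransfer_eq_transfer, ← twistSystem_transfer (heckeSystem hl) w y]
  exact restrict_transfer_res (twistSystem (heckeSystem hl) w)
    (preservesKappa_twist hl κ hΓ1 w c hw) (Subgroup.inclusion (kerSub_le κ))
    (Subgroup.inclusion_injective _) (mem_range_inclusion_iff κ) y

/-- `t` commutes with the diamond operators. -/
theorem heckeKerOf_conjAct (g : Gamma0 M) (φ : Additive (kerSub κ) →+ A) :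
    heckeKerOf hl κ hΓ1 w c hw (conjAct κ g φ) = conjAct κ g (heckeKerOf hl κ hΓ1 w c hw φ) := by
  rw [heckeKerOf_eq, heckeKerOf_eq]
  exact restrict_transfer_conj (twistSystem (heckeSystem hl) w)
    (preservesKappa_twist hl κ hΓ1 w c hw) (Subgroup.inclusion (kerSub_le κ))
    (Subgroup.inclusion_injective _) (mem_range_inclusion_iff κ) g (conjKer κ g)
    (fun k => rfl) φ

/-- The range of the inclusion `Γ' → Γ₀(M)` has finite index (`D` finite). -/
theorem finiteIndex_range_inclusion [Finite D] :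
    (Subgroup.inclusion (kerSub_le κ)).range.FiniteIndex := by
  have h1 : (Subgroup.inclusion (kerSub_le κ)).range = κ.ker := by
    ext g
    rw [mem_range_inclusion_iff, MonoidHom.mem_ker]
  rw [h1]
  infer_instance

/-- `cor ∘ t = T_l ∘ cor`. -/
theorem cor_heckeKerOf [Finite D] (φ : Additive (kerSub κ) →+ A) :
    cor κ (heckeKerOf hl κ hΓ1 w c hw φ) = heckeTransfer hl (cor κ φ) := by
  have := finiteIndex_range_inclusion κ
  rw [heckeKerOf_eq, heckeTransfer_eq_transfer,
    ← twistSystem_transfer (heckeSystem hl) w (cor κ φ)]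
  exact transferAlong_restrict (twistSystem (heckeSystem hl) w)
    (preservesKappa_twist hl κ hΓ1 w c hw) (Subgroup.inclusion (kerSub_le κ))
    (Subgroup.inclusion_injective _) (mem_range_inclusion_iff κ) φ

/-- The operator only depends on the constant `c`. -/
theorem heckeKerOf_congr (w' : OnePoint (ZMod l) → Gamma0 M) (hw' : IsNormalising M l w' c)
    (φ : Additive (kerSub κ) →+ A) :
    heckeKerOf hl κ hΓ1 w c hw φ = heckeKerOf hl κ hΓ1 w' c hw' φ := by
  rw [heckeKerOf_eq, heckeKerOf_eq]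
  refine IsCosetSystem.transfer_eq_of_le_of_card _ _ rfl ?_ φ
  intro x
  have h1 : eisD M (w x) = eisD M (w' x) := by
    apply (IsUnit.mul_left_inj (isUnit_eisU (M := M) hl x)).1
    rw [hw x, hw' x]
  have h2 : κ (w x * (w' x)⁻¹) = 1 := by
    rw [map_mul, map_inv, kappa_congr κ hΓ1 h1, mul_inv_cancel]
  refine ⟨x, ⟨((w x * (w' x)⁻¹ : Gamma0 M) : SL(2, ℤ)), mem_kerSub.mpr ⟨(w x * (w' x)⁻¹).2, h2⟩⟩,
    ?_⟩
  show ιN M (w x) * heckeRep l x = ιN M (w x * (w' x)⁻¹) * (ιN M (w' x) * heckeRep l x)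
  rw [← mul_assoc, ← map_mul, inv_mul_cancel_right]

end Operator

/-! ## Linear versions -/

section Linear

variable {M l : ℕ} [Fact l.Prime] {D : Type} [Group D]
variable (hl : ¬ l ∣ M) (κ : Gamma0 M →* D)
variable (hΓ1 : ∀ γ : Gamma0 M, ((((γ : SL(2, ℤ)) 1 1 : ℤ)) : ZMod M) = 1 → κ γ = 1)
variable (w : OnePoint (ZMod l) → Gamma0 M) (c : ZMod M) (hw : IsNormalising M l w c)
variable (O : Type*) [CommRing O]

/-- The `O`-linear Hecke operator on `H(Γ', O)` attached to a normalising family. -/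
noncomputable def heckeKerOfLin :
    (Additive (kerSub κ) →+ O) →ₗ[O] (Additive (kerSub κ) →+ O) where
  toFun φ := heckeKerOf hl κ hΓ1 w c hw φ
  map_add' := map_add _
  map_smul' a φ := by
    have h1 : a • φ = (AddMonoidHom.mulLeft a).comp φ := by
      ext h
      rfl
    have h2 : a • heckeKerOf hl κ hΓ1 w c hw φ =
        (AddMonoidHom.mulLeft a).comp (heckeKerOf hl κ hΓ1 w c hw φ) := by
      ext h
      rfl
    rw [RingHom.id_apply, h1, h2, heckeKerOf_eq, heckeKerOf_eq]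
    exact IsCosetSystem.transfer_comp_left _ _ _

@[simp] theorem heckeKerOfLin_apply (φ : Additive (kerSub κ) →+ O) :
    heckeKerOfLin hl κ hΓ1 w c hw O φ = heckeKerOf hl κ hΓ1 w c hw φ := rfl

end Linear

/-! ## The classical `T_l` and its dual -/

section Classical

variable {M l : ℕ} [Fact l.Prime] {D : Type} [Group D]

/-- An element of `Γ₀(M)` with lower right entry `l` modulo `M`. -/
noncomputable def lamElt (hl : ¬ l ∣ M) : Gamma0 M := (exists_eisD_eq (M := M) (l := l) hl).choose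

theorem eisD_lamElt (hl : ¬ l ∣ M) : eisD M (lamElt hl) = (l : ZMod M) :=
  (exists_eisD_eq (M := M) (l := l) hl).choose_spec

/-- The normalising family of the classical `T_l`: `w ∞ = σ_l`, `w j = 1`. -/
noncomputable def wStd (hl : ¬ l ∣ M) (x : OnePoint (ZMod l)) : Gamma0 M :=
  x.elim (lamElt hl) (fun _ => 1)

theorem isNormalising_wStd (hl : ¬ l ∣ M) : IsNormalising M l (wStd hl) (l : ZMod M) := by
  intro x
  induction x using OnePoint.rec with
  | infty =>
    show eisD M (lamElt hl) * ((eisU l OnePoint.infty : ℕ) : ZMod M) = _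
    rw [eisD_lamElt, eisU_infty, Nat.cast_one, mul_one]
  | coe j =>
    show eisD M (1 : Gamma0 M) * ((eisU l (j : OnePoint (ZMod l)) : ℕ) : ZMod M) = _
    rw [eisD_one, eisU_coe, one_mul]

/-- The normalising family of the dual operator `T_l^*`: `w ∞ = 1`, `w j = σ_l⁻¹`. -/
noncomputable def wDual (hl : ¬ l ∣ M) (x : OnePoint (ZMod l)) : Gamma0 M :=
  x.elim 1 (fun _ => (lamElt hl)⁻¹)

theorem isNormalising_wDual (hl : ¬ l ∣ M) : IsNormalising M l (wDual hl) 1 := by
  intro x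
  induction x using OnePoint.rec with
  | infty =>
    show eisD M (1 : Gamma0 M) * ((eisU l OnePoint.infty : ℕ) : ZMod M) = _
    rw [eisD_one, eisU_infty, Nat.cast_one, mul_one]
  | coe j =>
    show eisD M (lamElt hl)⁻¹ * ((eisU l (j : OnePoint (ZMod l)) : ℕ) : ZMod M) = _
    rw [eisU_coe, ← eisD_lamElt hl, eisD_inv_mul]

variable (hl : ¬ l ∣ M) (κ : Gamma0 M →* D)
variable (hΓ1 : ∀ γ : Gamma0 M, ((((γ : SL(2, ℤ)) 1 1 : ℤ)) : ZMod M) = 1 → κ γ = 1)

/-- **The Hecke operator `T_l`** on `H(Γ', A)` (representatives `≡ [[1, *], [0, l]] mod M`). -/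
noncomputable def heckeKer {A : Type*} [AddCommGroup A] :
    (Additive (kerSub κ) →+ A) →+ (Additive (kerSub κ) →+ A) :=
  heckeKerOf hl κ hΓ1 (wStd hl) (l : ZMod M) (isNormalising_wStd hl)

/-- **The dual Hecke operator `T_l^*`** on `H(Γ', A)` (representatives
`≡ [[l, *], [0, 1]] mod M`). -/
noncomputable def heckeKerDual {A : Type*} [AddCommGroup A] :
    (Additive (kerSub κ) →+ A) →+ (Additive (kerSub κ) →+ A) :=
  heckeKerOf hl κ hΓ1 (wDual hl) 1 (isNormalising_wDual hl)

/-- `T_l`, `O`-linear. -/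
noncomputable def heckeKerLin (O : Type*) [CommRing O] :
    (Additive (kerSub κ) →+ O) →ₗ[O] (Additive (kerSub κ) →+ O) :=
  heckeKerOfLin hl κ hΓ1 (wStd hl) (l : ZMod M) (isNormalising_wStd hl) O

/-- `T_l^*`, `O`-linear. -/
noncomputable def heckeKerDualLin (O : Type*) [CommRing O] :
    (Additive (kerSub κ) →+ O) →ₗ[O] (Additive (kerSub κ) →+ O) :=
  heckeKerOfLin hl κ hΓ1 (wDual hl) 1 (isNormalising_wDual hl) O

/-- `T_l = T_l^* ∘ ⟨σ_l⟩` where `⟨σ_l⟩ = conjAct κ σ_l⁻¹`. -/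
theorem heckeKer_eq_dual {A : Type*} [AddCommGroup A] (φ : Additive (kerSub κ) →+ A) :
    heckeKer hl κ hΓ1 φ = heckeKerDual hl κ hΓ1 (conjAct κ (lamElt hl)⁻¹ φ) := by
  refine AddMonoidHom.ext fun k' => ?_
  obtain ⟨k, rfl⟩ : ∃ k : kerSub κ, Additive.ofMul k = k' := ⟨Additive.toMul k', rfl⟩
  unfold heckeKer heckeKerDual
  rw [heckeKerOf_apply, heckeKerOf_apply]
  refine Finset.sum_congr rfl fun x _ => ?_
  rw [conjAct_apply]
  congr 2
  apply Subtype.ext
  rw [conjKer_coe]
  have h1 := congrArg (fun g : Gamma0 M => (g : SL(2, ℤ)))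
    (kerSystem_coc hl κ hΓ1 (wStd hl) (l : ZMod M) (isNormalising_wStd hl) x k)
  have h2 := congrArg (fun g : Gamma0 M => (g : SL(2, ℤ)))
    (kerSystem_coc hl κ hΓ1 (wDual hl) 1 (isNormalising_wDual hl) x k)
  simp only [Subgroup.coe_inclusion] at h1 h2
  rw [h1, h2]
  have hw : ∀ y : OnePoint (ZMod l), wStd hl y = lamElt hl * wDual hl y := by
    intro y
    induction y using OnePoint.rec with
    | infty => show lamElt hl = lamElt hl * 1; rw [mul_one]
    | coe j => show (1 : Gamma0 M) = lamElt hl * (lamElt hl)⁻¹; rw [mul_inv_cancel]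
  rw [hw x, hw (hPerm l (k : SL(2, ℤ)) x)]
  simp only [Subgroup.coe_mul, Subgroup.coe_inv, mul_inv_rev, inv_inv, mul_assoc]

end Classical

/-! ## `MFree.free` for `t = T_l` -/

/-- **M-FREE for the Hecke operator `T_l` on `H(Γ', O)`**: for a projector `e` commuting with
`T_l` and the diamond operators such that `T_l - (l + 1)` is bijective on `e H`, the module
`e H` is free over `O[D]` and `cor` induces `(e H)_D ≅ cor (e H)`. -/
theorem free_heckeKer (p M l : ℕ) [Fact p.Prime] [Fact l.Prime] (hl : ¬ l ∣ M) (hM : M ≠ 0)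
    (D : Type) [Group D] [Fintype D] (κ : Gamma0 M →* D)
    (hκ : Function.Surjective κ) (hcard : ∃ a : ℕ, Fintype.card D = p ^ a)
    (hell : ∀ g : Gamma0 M, IsOfFinOrder g → κ g = 1)
    (hΓ1 : ∀ γ : Gamma0 M, ((((γ : SL(2, ℤ)) 1 1 : ℤ)) : ZMod M) = 1 → κ γ = 1)
    (O : Type u) [CommRing O] [IsDomain O] [IsDiscreteValuationRing O] [CharZero O]
    (hp : ¬ IsUnit (p : O))
    (e : (Additive (kerSub κ) →+ O) →ₗ[O] (Additive (kerSub κ) →+ O))
    (he : ∀ x, e (e x) = e x)
    (het : ∀ x, e (heckeKerLin hl κ hΓ1 O x) = heckeKerLin hl κ hΓ1 O (e x))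
    (hec : ∀ (g : Gamma0 M) x, e (conjAct κ g x) = conjAct κ g (e x))
    (hsurj : ∀ y, e y = y → ∃ x, e x = x ∧ heckeKerLin hl κ hΓ1 O x - ((l : O) + 1) • x = y)
    (hinj : ∀ x, e x = x → heckeKerLin hl κ hΓ1 O x - ((l : O) + 1) • x = 0 → x = 0) :
    FreeConclusion κ O e :=
  free.{u} p M l hl hM D κ hκ hcard hell hΓ1 O hp e (heckeKerLin hl κ hΓ1 O) he het hec
    (fun g x => heckeKerOf_conjAct hl κ hΓ1 (wStd hl) (l : ZMod M) (isNormalising_wStd hl) g x)
    (fun x => cor_heckeKerOf hl κ hΓ1 (wStd hl) (l : ZMod M) (isNormalising_wStd hl) x)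
    hsurj hinj

end Fermat.Agent.S59.MFree.H587

end
-- ===== PACK-END S59/MFree/H587/HeckeKer.lean

-- ===== PACK-BEGIN S59/TW/H658/TwistDatum.lean
section


/-!
# S59 / TW-ES (helper658), leaf E5b: twisting the nebentypus components to `Γ₀(N')`

A `TwistDatum M N' χ` is a list `L` of primes `q ∥ M` at which `χ` is ramified, together with
non-trivial characters `ψ q` modulo `q`, such that `χ · ∏ ψ_q²` is trivial on the units modulo
`N'` (`M · ∏ L ∣ N'`).  Then (helper564, `H564.twistL`)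

* `nebTwist D : nebSub M χ →+ CuspForm (Γ₀(N')) 2` is INJECTIVE (`nebTwist_injective`), and
* `T_ℓ (nebTwist D F) = nebTwist D (psiL(ℓ) • ∑ₓ F ∣ repsT M ℓ x)` (`heckeTLin_nebTwist`).
-/

set_option autoImplicit false
set_option linter.unusedSectionVars false

noncomputable section

namespace Fermat.Agent.S59.TW.H658

open CongruenceSubgroup ModularForm
open UpperHalfPlane hiding I
open Matrix.SpecialLinearGroup Fermat.Agent.Lib.Newform.H803
open Fermat.Agent.S41.H761 Fermat.Agent.S29.H642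
open Fermat.Agent.S59.TW.H653 Fermat.Agent.S59.TW.H564
open scoped Manifold MatrixGroups ModularForm

/-- The data needed to twist the nebentypus-`χ` component of level `M` injectively and
Hecke-equivariantly into `S₂(Γ₀(N'))`. -/
structure TwistDatum (M N' : ℕ) (χ : DirichletCharacter ℂ M) where
  /-- the twisting characters -/
  ψ : (q : ℕ) → DirichletCharacter ℂ q
  /-- the primes at which one twists -/
  L : List ℕ
  nodup : L.Nodup
  prime : ∀ q ∈ L, q.Prime ∧ ∃ M' : ℕ, M = M' * q ∧ Nat.Coprime M' q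
  ψ_ne : ∀ q ∈ L, ψ q ≠ 1
  ram : ∀ q ∈ L, Ram q (chiZ χ)
  dvd : M * L.prod ∣ N'
  triv : ∀ d : ℤ, IsCoprime d (N' : ℤ) → chiL ψ (chiZ χ) L d = 1

namespace TwistDatum

variable {M N' : ℕ} {χ : DirichletCharacter ℂ M} (D : TwistDatum M N' χ)

theorem hL : ∀ q ∈ D.L, q ≠ 0 ∧ q ∣ M := fun q hq => by
  obtain ⟨hp, M', hM, -⟩ := D.prime q hq
  exact ⟨hp.ne_zero, ⟨M', by rw [hM, mul_comm]⟩⟩

theorem le : Gamma0 N' ≤ Gamma0 (M * D.L.prod) := by
  intro γ hγ
  exact mem_Gamma0_of_dvd ((Int.natCast_dvd_natCast.mpr D.dvd).trans (dvd_of_mem_Gamma0 hγ))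

theorem isCoprime_of_mem_Gamma0 {N : ℕ} {γ : SL(2, ℤ)} (hγ : γ ∈ Gamma0 N) :
    IsCoprime (γ 1 1) (N : ℤ) := by
  obtain ⟨c, hc⟩ := dvd_of_mem_Gamma0 hγ
  have hdet := Matrix.SpecialLinearGroup.det_coe γ
  rw [Matrix.det_fin_two] at hdet
  refine ⟨γ 0 0, -(γ 0 1 * c), ?_⟩
  rw [hc] at hdet
  linear_combination hdet

theorem h1 : ∀ γ ∈ Gamma0 N', chiL D.ψ (chiZ χ) D.L (γ 1 1) = 1 := fun _ hγ =>
  D.triv _ (isCoprime_of_mem_Gamma0 hγ)

/-- `psiL(ℓ)² · χ(ℓ) = 1` for `ℓ` prime to `N'`. -/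
theorem chi_mul_psiL_sq {ℓ : ℕ} (hℓ : Nat.Coprime ℓ N') :
    chiZ χ (ℓ : ℤ) * psiL D.ψ D.L ℓ ^ 2 = 1 := by
  have h := D.triv (ℓ : ℤ) (Nat.isCoprime_iff_coprime.mpr hℓ)
  rw [chiL_apply] at h
  rw [← h]
  congr 1
  rw [psiL]
  generalize D.L = L
  induction L with
  | nil => simp
  | cons q L ih =>
    rw [List.map_cons, List.prod_cons, List.map_cons, List.prod_cons, mul_pow, ih]
    simp

theorem isUnit_of_coprime {ℓ : ℕ} (hℓ : Nat.Coprime ℓ N') :
    ∀ q ∈ D.L, q ≠ 0 ∧ IsUnit (ℓ : ZMod q) := fun q hq => by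
  refine ⟨(D.hL q hq).1, ?_⟩
  have h1 : q ∣ N' := ((D.hL q hq).2.trans (Dvd.intro _ rfl)).trans D.dvd
  exact (ZMod.isUnit_iff_coprime ℓ q).mpr (Nat.Coprime.coprime_dvd_right h1 hℓ)

end TwistDatum

variable {M N' : ℕ} {χ : DirichletCharacter ℂ M}

/-- The twist of the nebentypus-`χ` component into `S₂(Γ₀(N'))`. -/
def nebTwist (D : TwistDatum M N' χ) : _root_.Fermat.Agent.S59.TW.H658.nebSub M χ →+ CuspForm (Gamma0 N') 2 where
  toFun F := twistLCuspForm (ψ := D.ψ) D.L D.hL (isCharMod_chiZ χ) (F : ℍ → ℂ) F.2.2 F.2.1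
    (Gamma0 N') D.le D.h1
  map_zero' := DFunLike.coe_injective <| by
    show twistL 2 D.ψ D.L (0 : ℍ → ℂ) = 0
    have := twistL_smul (k := 2) (ψ := D.ψ) D.L 0 (0 : ℍ → ℂ)
    rwa [zero_smul, zero_smul] at this
  map_add' F G := DFunLike.coe_injective <| by
    show twistL 2 D.ψ D.L ((F : ℍ → ℂ) + (G : ℍ → ℂ)) = _
    rw [twistL_add, FunLike.coe_add]
    rfl

@[simp] theorem coe_nebTwist (D : TwistDatum M N' χ) (F : _root_.Fermat.Agent.S59.TW.H658.nebSub M χ) :
    (⇑(nebTwist D F) : ℍ → ℂ) = twistL 2 D.ψ D.L (F : ℍ → ℂ) := rfl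

theorem nebTwist_injective (D : TwistDatum M N' χ) : Function.Injective (nebTwist D) := by
  rw [injective_iff_map_eq_zero]
  intro F hF
  have h0 : twistL 2 D.ψ D.L (F : ℍ → ℂ) = 0 := by
    rw [← coe_nebTwist, hF]
    rfl
  exact Subtype.ext (twistL_injective D.L D.nodup D.prime D.ψ_ne (isCharMod_chiZ χ) D.ram F.2.2 h0)

/-- **E4 on the `χ`-component**: `T_ℓ ∘ twist = twist ∘ (psiL(ℓ) • ∑ₓ · ∣ repsT M ℓ x)`. -/
theorem heckeTLin_nebTwist (D : TwistDatum M N' χ) {ℓ : ℕ} [Fact ℓ.Prime] (hℓN : ¬ ℓ ∣ N')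
    (hℓ : ¬ ℓ ∣ M) (F : _root_.Fermat.Agent.S59.TW.H658.nebSub M χ) :
    CuspForm.heckeTLin 2 (Fact.out : ℓ.Prime) hℓN (nebTwist D F) =
      nebTwist D (nebT χ hℓ (psiL D.ψ D.L ℓ) F) := by
  have hp : ℓ.Prime := Fact.out
  have hcopN : Nat.Coprime ℓ N' := (Nat.Prime.coprime_iff_not_dvd hp).mpr hℓN
  have hcopM : Nat.Coprime ℓ M := (Nat.Prime.coprime_iff_not_dvd hp).mpr hℓ
  apply DFunLike.coe_injective
  rw [CuspForm.coe_heckeTLin_apply, coe_nebTwist, coe_nebTwist, coe_nebT,
    heckeT_twistL' D.L hp.ne_zero (D.isUnit_of_coprime hcopN)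
      (F.2.2.isPer (isCharMod_chiZ χ)) (D.chi_mul_psiL_sq hcopN),
    famOp_repsT_eq χ hcopM F.2.2, twistL_smul]

end Fermat.Agent.S59.TW.H658

end
end
-- ===== PACK-END S59/TW/H658/TwistDatum.lean

-- ===== PACK-BEGIN A3/H799/LocalSpec2.lean
section


/-!
# A3 / LOCAL — FROZEN statements, second layer  (architect helper799)

Sub-leaves of ZTRI / ZNEG (both are the case `s = 2`, `s = 1` of one statement) and the
intermediate statement CHART between the leaves of `LocalSpec.lean` and `LocalStatement`.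

    GEO    `GeoStatement`    pointwise geometry: the section through the moving points has exactly
                             one further zero in each disc (hypothesis `hgeo` of `local_mem`)
    DET    `DetStatement`    integral functions `φ_j ∈ L((s+1)E)` whose jets of order `< s` along
                             the discs form a matrix of unit determinant (hypothesis `hdet`)
    CHART  `ChartStatement`  coordinates `z` on the kernel of reduction: injective, inertia
                             equivariant, addition algebraic for families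
-/

set_option autoImplicit false

noncomputable section

open AlgebraicCurve

namespace Fermat.Agent.A3.H799

variable (K F k Fk : Type*) [Field K] [Field F] [Algebra K F] [Field k] [Field Fk] [Algebra k Fk]

/-- **GEO.**  Pointwise geometric input of `local_mem`.  `E = polyDiv d 0`, `s` moving points
`zs r` and one further point `zw` with `Σ_r D_{zs r} + D_{zw} ∼ (s+1) E`.  If `φ ∈ L((s+1)E)` is
integral with reduction `1` and `t_i^{s+1} φ` is divisible by `∏_r (t_i - zs r i)` on every disc,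
then the quotient is `(t_i - zw i) · u` with `u` a unit at `zw i`. -/
def GeoStatement : Prop :=
  ∀ (𝓡 : GoodRed K F k Fk) (Qs : Fin (genusFF k Fk) → Place k Fk), Function.Injective Qs →
    @Lib.RR.ell k Fk _ _ _ (∑ i, Finsupp.single (Qs i) (1 : ℤ)) = 1 →
    ∀ (d : ∀ i, DiscData 𝓡 (Qs i)) (s : ℕ)
      (zs : Fin s → Fin (genusFF k Fk) → IsLocalRing.maximalIdeal 𝓡.V)
      (zw : Fin (genusFF k Fk) → IsLocalRing.maximalIdeal 𝓡.V),
      (∑ r, polyDiv d (zs r)) + polyDiv d zw - ((s : ℤ) + 1) • polyDiv d 0 ∈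
        Divisor.principal (K := K) (F := F) →
      ∀ φ : 𝓡.O, ((φ : 𝓡.O) : F) ∈ riemannRochSpace (((s : ℤ) + 1) • polyDiv d 0) →
        𝓡.red φ = 1 →
      ∀ G : ∀ i, (d i).ring,
        (∀ i, ((G i : (d i).ring) : F) =
          ((((d i).D.t : (d i).ring) : F)) ^ (s + 1) * ((φ : 𝓡.O) : F)) →
        (∀ i, ∃ h : (d i).ring,
          G i = Polynomial.aeval (d i).D.t (DiscAlg.nodal (List.ofFn fun r => zs r i)) * h) →
        ∀ i, ∃ u : (d i).ring, IsUnit ((d i).D.ev (zw i) u) ∧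
          G i = Polynomial.aeval (d i).D.t (DiscAlg.nodal (List.ofFn fun r => zs r i)) *
            ((d i).D.t - algebraMap 𝓡.V (d i).ring ((zw i : IsLocalRing.maximalIdeal 𝓡.V) : 𝓡.V)) * u

/-- **DET.**  For `s ≥ 1` there are integral `φ_j ∈ L((s+1)E)`, `j ∈ Fin g × Fin s`, such that the
Taylor coefficients of order `< s` of `t_i^{s+1} φ_j` in the disc algebras form a matrix with unit
determinant (it can be chosen `≡ 1` modulo `𝔪`: jets on the special fibre are independent because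
`ℓ(Ē) = 1`, i.e. `𝔸 = 𝔸(Ē) + Fk`). -/
def DetStatement : Prop :=
  ∀ (𝓡 : GoodRed K F k Fk) (Qs : Fin (genusFF k Fk) → Place k Fk), Function.Injective Qs →
    @Lib.RR.ell k Fk _ _ _ (∑ i, Finsupp.single (Qs i) (1 : ℤ)) = 1 →
    ∀ (d : ∀ i, DiscData 𝓡 (Qs i)) (s : ℕ), 0 < s →
      ∃ (φ : (Σ _ : Fin (genusFF k Fk), Fin s) → 𝓡.O)
        (f : (Σ _ : Fin (genusFF k Fk), Fin s) → ∀ i, (d i).ring)
        (P : (Σ _ : Fin (genusFF k Fk), Fin s) → Fin (genusFF k Fk) → Polynomial 𝓡.V)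
        (H : (Σ _ : Fin (genusFF k Fk), Fin s) → ∀ i, (d i).ring),
        (∀ j, ((φ j : 𝓡.O) : F) ∈ riemannRochSpace (((s : ℤ) + 1) • polyDiv d 0)) ∧
        (∀ j i, ((f j i : (d i).ring) : F) =
          ((((d i).D.t : (d i).ring) : F)) ^ (s + 1) * ((φ j : 𝓡.O) : F)) ∧
        (∀ j i, f j i = Polynomial.aeval (d i).D.t (P j i) + (d i).D.t ^ s * H j i) ∧
        ∀ [DecidableEq (Σ _ : Fin (genusFF k Fk), Fin s)],
          IsUnit (Matrix.of fun (c j : Σ _ : Fin (genusFF k Fk), Fin s) =>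
            (P j c.1).coeff (c.2 : ℕ)).det

/-- **ZGEN** (general number `s ≥ 1` of moving points; ZTRI is `s = 2`, ZNEG is `s = 1`). -/
def ZgenStatement.{w} : Prop :=
  ∀ (𝓡 : GoodRed K F k Fk) (Qs : Fin (genusFF k Fk) → Place k Fk), Function.Injective Qs →
    @Lib.RR.ell k Fk _ _ _ (∑ i, Finsupp.single (Qs i) (1 : ℤ)) = 1 →
    ∀ (d : ∀ i, DiscData 𝓡 (Qs i)) (T : Type w) [Finite T] (Λ : Subalgebra 𝓡.V (T → 𝓡.V))
      (s : ℕ), 0 < s →
      ∀ (zs : Fin s → T → Fin (genusFF k Fk) → IsLocalRing.maximalIdeal 𝓡.V)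
        (zw : T → Fin (genusFF k Fk) → IsLocalRing.maximalIdeal 𝓡.V),
      (∀ r j, (fun τ => ((zs r τ j : IsLocalRing.maximalIdeal 𝓡.V) : 𝓡.V)) ∈ Λ) →
      (∀ τ, (∑ r, polyDiv d (zs r τ)) + polyDiv d (zw τ) - ((s : ℤ) + 1) • polyDiv d 0 ∈
        Divisor.principal (K := K) (F := F)) →
      ∀ i, (fun τ => ((zw τ i : IsLocalRing.maximalIdeal 𝓡.V) : 𝓡.V)) ∈ Λ

/-- **CHART.**  Coordinates on the kernel of reduction: injective, inertia-equivariant, with
algebraic addition for families over a finite set. -/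
def ChartStatement.{w} : Prop :=
  ∀ (𝓡 : GoodRed K F k Fk),
    ∃ (n : ℕ) (z : 𝓡.kerRed → Fin n → IsLocalRing.maximalIdeal 𝓡.V),
      Function.Injective z ∧
      (∀ g ∈ 𝓡.I, ∀ (u : 𝓡.kerRed) (hgu : g • (u : Pic0 K F) ∈ 𝓡.kerRed) (i : Fin n),
        (((z ⟨g • (u : Pic0 K F), hgu⟩ i : IsLocalRing.maximalIdeal 𝓡.V) : 𝓡.V) : K) =
          SemilinearAut.baseAut g (((z u i : IsLocalRing.maximalIdeal 𝓡.V) : 𝓡.V) : K)) ∧
      ∀ (T : Type w) [Finite T] (Λ : Subalgebra 𝓡.V (T → 𝓡.V)) (a b : T → 𝓡.kerRed),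
        (∀ j, (fun τ => ((z (a τ) j : IsLocalRing.maximalIdeal 𝓡.V) : 𝓡.V)) ∈ Λ) →
        (∀ j, (fun τ => ((z (b τ) j : IsLocalRing.maximalIdeal 𝓡.V) : 𝓡.V)) ∈ Λ) →
        ∀ i, (fun τ => ((z (a τ + b τ) i : IsLocalRing.maximalIdeal 𝓡.V) : 𝓡.V)) ∈ Λ

/-- **KER-I.**  Inertia acts trivially modulo the kernel of reduction. -/
def KerInertiaStatement : Prop :=
  ∀ (𝓡 : GoodRed K F k Fk), ∀ g ∈ 𝓡.I, ∀ x : Pic0 K F, g • x - x ∈ 𝓡.kerRed

end Fermat.Agent.A3.H799

end
end
-- ===== PACK-END A3/H799/LocalSpec2.lean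

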