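import Mathlib
import Fermat.Agent.Pack.S44C.G0E18L2
import Fermat.Agent.Pack.S44C.G0E21L3
import Fermat.Agent.Pack.S43MC.G0E21L2
import Fermat.Agent.Pack.S44C.G0E4L1
import Fermat.Agent.Pack.S44C.G0E12L3
import Fermat.Agent.Pack.S43MC.G0E21L1
import Fermat.Agent.Pack.S43MC.G0E19L3
import Fermat.Agent.Pack.S43MC.G0E21L0
import Fermat.Agent.Pack.S43MC.G0E9L3
import Fermat.Agent.Pack.S43MC.G0E17L1
import Fermat.Agent.Pack.S44C.G0E21L1
import Fermat.Agent.Pack.S44C.G0E16L1
import Fermat.Agent.Pack.S43MC.G0E14L3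
import Fermat.Agent.Pack.S43MC.G0E2L3
import Fermat.Agent.Pack.S43MC.G0E20L2
import Fermat.Agent.Pack.S43MC.G0E21L3
import Fermat.Agent.Pack.S43MC.G0E20L0
import Fermat.Agent.Pack.S44C.G0E23L1
import Fermat.Agent.Pack.S44C.G0E19L3
import Fermat.Agent.Pack.S43MC.G0E19L1
import Fermat.Agent.Pack.S44C.G0E23L2
import Fermat.Agent.Pack.S43MC.G0E20L3
import Fermat.Agent.Pack.S43MC.G0E10L2
import Fermat.Agent.Pack.S43MC.G0E12L3
import Fermat.Agent.Pack.S43MC.G0E16L3
import Fermat.Agent.Pack.Fast891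

-- ===== PACK-BEGIN A2/Alg/H729/Glue.lean
section




/-!
# WALL A2 / ALG — leaf GLUE modulo constants (helper729)

`glue_of_hconst` is the leaf `glue` of `Fermat/Agent/A2/Alg/Skel.lean` (architect helper34),
VERBATIM, with ONE extra hypothesis `hconst`: the constants do not grow in the residue fields of
the Kummer algebra `F[X]/(X ^ m - u)` (exact form of
`H348.exists_pow_eq_of_local_factorisation`).

Proof: `V := H729.gaussO` (canonical Gauss ring; closedness, Jacobson radical, q-expansion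
principle on both charts are theorems), bridge `OneAt p₁ ∧ OneAt p₂ ⇒ 1 + w V`
(`H729.inW_sub_one_of_oneAt`, going-up), and `H348.exists_pow_eq_of_local_factorisation`.
-/

set_option autoImplicit false
set_option linter.unusedSectionVars false
set_option linter.style.haveILetI false
set_option linter.unusedVariables false

namespace Fermat.Agent.A2.Alg.H729

open Fermat.Agent.A2 Fermat.Agent.A2.Alg Fermat.Agent.A2.H729
open Fermat.Agent.S18.H138 (chart baseField)
open Polynomial

section OneAtLemmas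

variable {R F : Type*} [CommRing R] [Field F] [Algebra R F]

theorem oneAt_one {B : Subalgebra R F} {p : Ideal B} (hp : p.IsPrime) : OneAt B p 1 :=
  ⟨1, 1, fun h => hp.ne_top ((Ideal.eq_top_iff_one p).2 h), by simp, by simp⟩

theorem oneAt_mul {B : Subalgebra R F} {p : Ideal B} (hp : p.IsPrime) {g g' : F}
    (h : OneAt B p g) (h' : OneAt B p g') : OneAt B p (g * g') := by
  obtain ⟨a, b, hb, hab, e⟩ := h
  obtain ⟨a', b', hb', hab', e'⟩ := h'
  refine ⟨a * a', b * b', fun hmem => ?_, ?_, ?_⟩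
  · rcases hp.mem_or_mem hmem with h1 | h1
    · exact hb h1
    · exact hb' h1
  · have : a * a' - b * b' = a * (a' - b') + (a - b) * b' := by ring
    rw [this]
    exact p.add_mem (p.mul_mem_left _ hab') (p.mul_mem_right _ hab)
  · push_cast
    rw [← e, ← e']
    ring

theorem oneAt_pow {B : Subalgebra R F} {p : Ideal B} (hp : p.IsPrime) {g : F}
    (h : OneAt B p g) (n : ℕ) : OneAt B p (g ^ n) := by
  induction n with
  | zero => rw [pow_zero]; exact oneAt_one hp
  | succ n ih => rw [pow_succ]; exact oneAt_mul hp ih h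

theorem oneAt_inv {B : Subalgebra R F} {p : Ideal B} {g : F}
    (h : OneAt B p g) : OneAt B p g⁻¹ := by
  obtain ⟨a, b, hb, hab, e⟩ := h
  have ha : a ∉ p := by
    intro ha
    apply hb
    have : b = a - (a - b) := by ring
    rw [this]
    exact p.sub_mem ha hab
  have hg : g ≠ 0 := by
    rintro rfl
    rw [zero_mul] at e
    apply ha
    have : a = 0 := Subtype.ext e.symm
    rw [this]
    exact p.zero_mem
  refine ⟨b, a, ha, ?_, ?_⟩
  · have : b - a = -(a - b) := by ring
    rw [this]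
    exact p.neg_mem hab
  · rw [← e, ← mul_assoc, inv_mul_cancel₀ hg, one_mul]

theorem oneAt_of_locOne {B : Subalgebra R F} {n I p : Ideal B} (hpn : p ≤ n) (hIp : I ≤ p)
    {g : F} (h : LocOne B n I g) : OneAt B p g := by
  obtain ⟨a, b, hb, hab, e⟩ := h
  exact ⟨a, b, fun hmem => hb (hpn hmem), hIp hab, e⟩

end OneAtLemmas

section Glue

variable {R E F : Type*} [CommRing R] [IsDomain R] [IsDiscreteValuationRing R]
  [HenselianLocalRing R] [IsAlgClosed (IsLocalRing.ResidueField R)]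
  [Field E] [CharZero E] [Algebra R E] [IsFractionRing R E]
  [Field F] [Algebra E F] [Algebra R F] [IsScalarTower R E F]

/-- `m` is invertible in `R`. -/
theorem exists_inv_natCast (q m : ℕ) (hq : q.Prime)
    (hqR : (q : R) ∈ IsLocalRing.maximalIdeal R) (hqm : ¬ q ∣ m) :
    ∃ mi : R, (m : R) * mi = 1 := by
  have hmR : (m : R) ∉ IsLocalRing.maximalIdeal R := by
    intro hmem
    have hcop : Nat.Coprime m q := ((Nat.Prime.coprime_iff_not_dvd hq).2 hqm).symm
    obtain ⟨a, b, hab⟩ := Nat.isCoprime_iff_coprime.2 hcop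
    have h1 : ((a * (m : ℤ) + b * (q : ℤ) : ℤ) : R) = 1 := by rw [hab]; simp
    have h2 : (1 : R) ∈ IsLocalRing.maximalIdeal R := by
      rw [← h1]
      push_cast
      exact Ideal.add_mem _ (Ideal.mul_mem_left _ _ hmem) (Ideal.mul_mem_left _ _ hqR)
    exact (IsLocalRing.maximalIdeal.isMaximal R).ne_top ((Ideal.eq_top_iff_one _).2 h2)
  exact (IsLocalRing.notMem_maximalIdeal.1 hmR).exists_right_inv

/-- Local factorisations on one chart, in the form of `H729.exists_pow_eq_gaussO`. -/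
theorem loc_of_locallyFactored {w : R} (hw : Prime w) {x : F} (hx : Transcendental R x)
    (c : SSChart w (chart R ({x} : Set F))) (hc : Incomparable c) {m : ℕ} {u : F}
    (hf : LocallyFactored (chart R ({x} : Set F)) c m u) :
    ∀ 𝔪 : Ideal (chart R ({x} : Set F)), 𝔪.IsMaximal →
      algebraMap R (chart R ({x} : Set F)) w ∈ 𝔪 →
      ∃ h : F, (∃ t ∈ gaussO hw x, h = 1 + algebraMap R F w * t) ∧
        ∃ s a : chart R ({x} : Set F), s ∉ 𝔪 ∧
          u * (s : F) = h ^ m * ((s : F) + algebraMap R F w * (a : F)) := by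
  intro 𝔪 h𝔪 hw𝔪
  obtain ⟨h, hh0, ⟨a, b, hb, hab, e⟩, h1, h2⟩ := hf 𝔪 h𝔪 hw𝔪
  have hInW : InW (gaussO hw x) w (h - 1) :=
    inW_sub_one_of_oneAt hw hx c.prime₁ c.prime₂ c.inf_eq hc.1 hc.2 h1 h2
  obtain ⟨-, -, t, ht, htt⟩ := inW_inv_sub_one hw hx hInW
  obtain ⟨d, hd⟩ := Ideal.mem_span_singleton'.1 hab
  refine ⟨h⁻¹, ⟨t, ht, by rw [← htt]; ring⟩, b, d, hb, ?_⟩
  have hdF : (d : F) * algebraMap R F w = (a : F) - (b : F) :=
    congrArg (fun t : chart R ({x} : Set F) => (t : F)) hd
  have e1 : (b : F) + algebraMap R F w * (d : F) = (a : F) := by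
    rw [mul_comm, hdF]; ring
  rw [e1, ← e, inv_pow]
  field_simp

/-- `u ≡ 1 mod w · gaussO` from local factorisations at one closed point on each component. -/
theorem inW_of_locallyFactored {w : R} (hw : Prime w) {x : F} (hx : Transcendental R x)
    (c : SSChart w (chart R ({x} : Set F))) (hc : Incomparable c) {m : ℕ} {u : F}
    (hf : LocallyFactored (chart R ({x} : Set F)) c m u) :
    InW (gaussO hw x) w (u - 1) := by
  have hw₁₂ : algebraMap R (chart R ({x} : Set F)) w ∈ c.p₁ ⊓ c.p₂ := by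
    rw [c.inf_eq]; exact Ideal.mem_span_singleton_self _
  have hspan₁ : Ideal.span {algebraMap R (chart R ({x} : Set F)) w} ≤ c.p₁ := by
    rw [← c.inf_eq]; exact inf_le_left
  have hspan₂ : Ideal.span {algebraMap R (chart R ({x} : Set F)) w} ≤ c.p₂ := by
    rw [← c.inf_eq]; exact inf_le_right
  have key : ∀ p : Ideal (chart R ({x} : Set F)), p.IsPrime →
      Ideal.span {algebraMap R (chart R ({x} : Set F)) w} ≤ p →
      (∀ h : F, OneAt (chart R ({x} : Set F)) c.p₁ h → OneAt (chart R ({x} : Set F)) c.p₂ h →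
        OneAt (chart R ({x} : Set F)) p h) →
      OneAt (chart R ({x} : Set F)) p u := by
    intro p hp hwp hsel
    obtain ⟨𝔪, h𝔪, hp𝔪⟩ := Ideal.exists_le_maximal p hp.ne_top
    have hw𝔪 : algebraMap R (chart R ({x} : Set F)) w ∈ 𝔪 :=
      hp𝔪 (hwp (Ideal.mem_span_singleton_self _))
    obtain ⟨h, hh0, hloc, h1, h2⟩ := hf 𝔪 h𝔪 hw𝔪
    have hA : OneAt (chart R ({x} : Set F)) p (u * h ^ m) := oneAt_of_locOne hp𝔪 hwp hloc
    have hB : OneAt (chart R ({x} : Set F)) p (h ^ m)⁻¹ :=
      oneAt_inv (oneAt_pow hp (hsel h h1 h2) m)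
    have := oneAt_mul hp hA hB
    rwa [mul_assoc, mul_inv_cancel₀ (pow_ne_zero _ hh0), mul_one] at this
  exact inW_sub_one_of_oneAt hw hx c.prime₁ c.prime₂ c.inf_eq hc.1 hc.2
    (key c.p₁ c.prime₁ hspan₁ fun _ h1 _ => h1)
    (key c.p₂ c.prime₂ hspan₂ fun _ _ h2 => h2)

/-- **GLUE modulo constants** (leaf `glue` of `Alg/Skel.lean` + `hconst`). -/
theorem glue_of_hconst (q m : ℕ) (hq : q.Prime) (hqR : (q : R) ∈ IsLocalRing.maximalIdeal R)
    (hm : 0 < m) (hqm : ¬ q ∣ m)
    (w : R) (x : F) (Bf Bi : Subalgebra R F)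
    (hBf : ChartCtx E w x Bf) (hBi : ChartCtx E w x⁻¹ Bi)
    (cf : SSChart w Bf) (ci : SSChart w Bi) (hcf : Incomparable cf) (hci : Incomparable ci)
    (u : F) (hu : u ≠ 0) (hdiv : DivisibleDiv E m u)
    (hf : LocallyFactored Bf cf m u) (hi : LocallyFactored Bi ci m u)
    (hconst : ∀ 𝔫 : Ideal (AdjoinRoot (X ^ m - C u)), 𝔫.IsMaximal →
      ∀ y : AdjoinRoot (X ^ m - C u) ⧸ 𝔫, IsIntegral R y →
        y ∈ Set.range (algebraMap R (AdjoinRoot (X ^ m - C u) ⧸ 𝔫))) :
    ∃ y : F, y ≠ 0 ∧ u = y ^ m := by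
  obtain rfl := H34.chart_eq x Bf hBf.hB
  obtain rfl := H34.chart_eq x⁻¹ Bi hBi.hB
  haveI : CharZero F := H34.charZero_of_field (E := E)
  haveI := H34.finiteDimensional_baseField (R := R) x hBf.hfin
  have hinjR : Function.Injective (algebraMap R F) := H34.algebraMap_RF_injective E
  have hx : Transcendental R x := H34.transcendental_of_field hBf.hx
  have hx0 : x ≠ 0 := Fermat.Agent.S18.H138.ne_zero_of_transcendental hx
  have hxi : Transcendental R x⁻¹ := Fermat.Agent.S18.H138.transcendental_inv hx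
  have hw : Prime w := hBf.hw.prime
  obtain ⟨mi, hmi⟩ := exists_inv_natCast (R := R) q m hq hqR hqm
  have hu1 : InW (gaussO hw x) w (u - 1) := inW_of_locallyFactored hw hx cf hcf hf
  have hloc_fin := loc_of_locallyFactored hw hx cf hcf hf
  have hloc_inf := loc_of_locallyFactored hw hxi ci hci hi
  rw [gaussO_inv hw hx0] at hloc_inf
  obtain ⟨y, hy, -⟩ := exists_pow_eq_gaussO hinjR hx hw hmi hu1 hloc_fin hloc_inf hconst
  refine ⟨y, ?_, hy.symm⟩
  rintro rfl
  rw [zero_pow hm.ne'] at hy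
  exact hu hy.symm

end Glue

end Fermat.Agent.A2.Alg.H729

end
-- ===== PACK-END A2/Alg/H729/Glue.lean

-- ===== PACK-BEGIN A2/H876/D2.lean
section




/-!
# A2 / D2 : auxiliary-level descent of the Kummer form of the wall (helper876)

For `N ∣ M` with `[F̄_M : F̄_N]` prime to `m` the Kummer form of wall A2 descends from level `M`
to level `N`:

* `kummerTarget_descend_of_coprime`, `kummerTarget_descend_of_psi`, `kummerTarget_descend_prime`
  for `Spec.KummerTarget`;
* `a2Kummer_descend_of_coprime`, `a2Kummer_descend_of_psi`, `a2Kummer_descend_prime`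
  for `H129.A2Kummer` (one `σ`).

Consequence (`auxLevel`): for `q ∈ {2, 3}` the MODEL may assume that the good-reduction level
`N / q` is divisible by `3` resp. `2` (existence of the S18 coordinates `t₃`, `t₂`):

* `kummerTarget_aux`, `a2Kummer_aux` : level `auxLevel N q` ⟹ level `N` (`q ∤ m`);
* `kummerTarget_of_ready` : `KummerTarget` at all *ready* levels ⟹ `KummerTarget` everywhere.

Ingredients: restriction of places (`Place.ord_restrict`), the norm trick over the algebraically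
closed constant field (`S18.H876.exists_algebraMap_eq_of_pow_eq`), and the degree
`ψ(N) · [F̄_M : F̄_N] = ψ(M)` (`S18.H876.psi_mul_finrank`, from landed S24).
-/

set_option autoImplicit false
set_option linter.style.haveILetI false

noncomputable section

namespace Fermat.Agent.A2.H876

open ModularCurve AlgebraicCurve HahnSeries
open Fermat.Agent.S18.H876 (barIncl coe_barIncl barIncl_injective barAlgebra
  barAlgebra_isScalarTower exists_algebraMap_eq_of_pow_eq psi_mul_finrank finite_bar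
  dedekindPsi_pos')

/-! ### The tower `F̄_N ⊆ F̄_M` -/

section Tower

variable {N M : ℕ} [NeZero N] [NeZero M]

/-- The arithmetic Galois action commutes with the inclusion `F̄_N ⊆ F̄_M`. -/
theorem act_barIncl (h : N ∣ M) (τ : AlgebraicClosure ℚ ≃ₐ[ℚ] AlgebraicClosure ℚ)
    (f : modularFunctionFieldBar N) :
    arithmeticRingAut (modularFunctionFieldFull M) τ (barIncl h f) =
      barIncl h (arithmeticRingAut (modularFunctionFieldFull N) τ f) := by
  apply Subtype.ext
  rw [coe_barIncl, coe_arithmeticRingAut_apply, coe_arithmeticRingAut_apply, coe_barIncl]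

/-- `m ∣ div f` passes from `F̄_N` to `F̄_M`. -/
theorem dvd_ord_barIncl (h : N ∣ M) (m : ℤ) (f : modularFunctionFieldBar N)
    (hdiv : ∀ v : Place (AlgebraicClosure ℚ) (modularFunctionFieldBar N), m ∣ v.ord f)
    (w : Place (AlgebraicClosure ℚ) (modularFunctionFieldBar M)) :
    m ∣ w.ord (barIncl h f) := by
  letI := barAlgebra h
  haveI := barAlgebra_isScalarTower h
  haveI : FiniteDimensional (modularFunctionFieldBar N) (modularFunctionFieldBar M) :=
    finite_bar h
  haveI : Algebra.IsIntegral (modularFunctionFieldBar N) (modularFunctionFieldBar M) :=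
    Algebra.IsIntegral.of_finite _ _
  have h1 : w.ord (algebraMap (modularFunctionFieldBar N) (modularFunctionFieldBar M) f)
      = _ := w.ord_restrict f
  have h2 : algebraMap (modularFunctionFieldBar N) (modularFunctionFieldBar M) f = barIncl h f :=
    rfl
  rw [← h2, h1]
  exact Dvd.dvd.mul_left (hdiv (w.restrict (modularFunctionFieldBar N))) _

/-- Kummer descent along `F̄_N ⊆ F̄_M`: an element of `F̄_M` whose `m`-th power lies in `F̄_N`
lies in `F̄_N`, if `[F̄_M : F̄_N]` is prime to `m`. -/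
theorem exists_barIncl_eq_of_pow_eq (h : N ∣ M) (m : ℕ) (hm : 0 < m)
    (hcop : (@Module.finrank (modularFunctionFieldBar N) (modularFunctionFieldBar M) _ _
      (barAlgebra h).toModule).Coprime m)
    (y : modularFunctionFieldBar M) (e : modularFunctionFieldBar N)
    (hy : y ^ m = barIncl h e) : ∃ x : modularFunctionFieldBar N, barIncl h x = y := by
  letI := barAlgebra h
  haveI := barAlgebra_isScalarTower h
  haveI : FiniteDimensional (modularFunctionFieldBar N) (modularFunctionFieldBar M) :=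
    finite_bar h
  exact exists_algebraMap_eq_of_pow_eq (K := AlgebraicClosure ℚ) m hm hcop y e hy

end Tower

/-! ### Descent of `KummerTarget` -/

/-- **D2 for `KummerTarget`, degree as hypothesis.** -/
theorem kummerTarget_descend_of_coprime {N M : ℕ} [NeZero N] [NeZero M] (h : N ∣ M) (q m : ℕ)
    (hcop : (@Module.finrank (modularFunctionFieldBar N) (modularFunctionFieldBar M) _ _
      (barAlgebra h).toModule).Coprime m)
    (hM : KummerTarget M q m) : KummerTarget N q m := by
  intro P hP τ hτ f hf hdiv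
  have hinj := barIncl_injective h
  have hf' : barIncl h f ≠ 0 := fun h0 => hf (hinj (by rw [h0, map_zero]))
  obtain ⟨y, hy0, hy⟩ := hM P hP τ hτ (barIncl h f) hf'
    (fun w => dvd_ord_barIncl h (m : ℤ) f hdiv w)
  rw [act, act_barIncl, act_barIncl] at hy
  set g : modularFunctionFieldBar N := arithmeticRingAut (modularFunctionFieldFull N) τ f with hg
  set g2 : modularFunctionFieldBar N :=
    arithmeticRingAut (modularFunctionFieldFull N) τ g with hg2
  have hg0 : g ≠ 0 := fun h0 => hf ((arithmeticRingAut (modularFunctionFieldFull N) τ).injective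
    (by rw [← hg, h0, map_zero]))
  have hg0' : barIncl h g ≠ 0 := fun h0 => hg0 (hinj (by rw [h0, map_zero]))
  rcases Nat.eq_zero_or_pos m with hm0 | hmpos
  · subst hm0
    refine ⟨1, one_ne_zero, ?_⟩
    apply hinj
    rw [pow_zero, one_mul] at hy ⊢
    rw [map_mul, map_pow]
    exact hy
  · have hym : y ^ m = barIncl h (g2 * f / g ^ 2) := by
      rw [map_div₀, map_mul, map_pow, hy]
      field_simp
    obtain ⟨x, hx⟩ := exists_barIncl_eq_of_pow_eq h m hmpos hcop y _ hym
    refine ⟨x, ?_, ?_⟩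
    · rintro rfl
      exact hy0 (by rw [← hx, map_zero])
    · apply hinj
      rw [map_mul, map_mul, map_pow, map_pow, hx]
      exact hy

/-- The degree `[F̄_M : F̄_N]` from `ψ(M) = d · ψ(N)`. -/
theorem finrank_bar_eq_of_psi {N M : ℕ} [NeZero N] [NeZero M] (h : N ∣ M) (d : ℕ)
    (hd : dedekindPsi M = d * dedekindPsi N) :
    @Module.finrank (modularFunctionFieldBar N) (modularFunctionFieldBar M) _ _
      (barAlgebra h).toModule = d := by
  have h1 := psi_mul_finrank h
  have h2 := dedekindPsi_pos' N (NeZero.ne N)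
  rw [hd, mul_comm] at h1
  exact Nat.eq_of_mul_eq_mul_right h2 h1

/-- **D2 for `KummerTarget`, general form**: `N ∣ M`, `ψ(M) = d · ψ(N)`, `gcd(d, m) = 1`. -/
theorem kummerTarget_descend_of_psi {N M : ℕ} [NeZero N] [NeZero M] (h : N ∣ M) (q m d : ℕ)
    (hd : dedekindPsi M = d * dedekindPsi N) (hcop : d.Coprime m)
    (hM : KummerTarget M q m) : KummerTarget N q m := by
  refine kummerTarget_descend_of_coprime h q m ?_ hM
  rw [finrank_bar_eq_of_psi h d hd]
  exact hcop

/-- **D2 for `KummerTarget`, prime form**: `r ∤ N` prime, `gcd(r + 1, m) = 1`. -/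
theorem kummerTarget_descend_prime {N : ℕ} [NeZero N] (r : ℕ) (hr : r.Prime) (hrN : ¬ r ∣ N)
    (q m : ℕ) (hcop : (r + 1).Coprime m) (hM : KummerTarget (r * N) q m) :
    KummerTarget N q m := by
  haveI : NeZero (r * N) := ⟨mul_ne_zero hr.ne_zero (NeZero.ne N)⟩
  exact kummerTarget_descend_of_psi (Dvd.intro_left r rfl) q m (r + 1)
    (Fermat.Agent.S20.Comb694.dedekindPsi_prime_mul_of_not_dvd r N hr (NeZero.ne N) hrN) hcop hM

/-! ### Descent of `H129.A2Kummer` -/

/-- `tauSubOne` commutes with the inclusion `F̄_N ⊆ F̄_M`. -/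
theorem tauSubOne_barIncl {N M : ℕ} [NeZero N] [NeZero M] (h : N ∣ M)
    (σ : AlgebraicClosure ℚ ≃ₐ[ℚ] AlgebraicClosure ℚ) (f : modularFunctionFieldBar N) :
    H129.tauSubOne (arithmeticRingAut (modularFunctionFieldFull M) σ) (barIncl h f) =
      barIncl h (H129.tauSubOne (arithmeticRingAut (modularFunctionFieldFull N) σ) f) := by
  unfold H129.tauSubOne
  rw [act_barIncl, map_mul, map_inv₀]

/-- **D2 for `A2Kummer`, degree as hypothesis.** -/
theorem a2Kummer_descend_of_coprime {N M : ℕ} [NeZero N] [NeZero M] (h : N ∣ M) (m : ℕ)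
    (hm : 0 < m) (σ : AlgebraicClosure ℚ ≃ₐ[ℚ] AlgebraicClosure ℚ)
    (hcop : (@Module.finrank (modularFunctionFieldBar N) (modularFunctionFieldBar M) _ _
      (barAlgebra h).toModule).Coprime m)
    (hM : H129.A2Kummer M m σ) : H129.A2Kummer N m σ := by
  intro f hf hdiv
  have hinj := barIncl_injective h
  have hf' : barIncl h f ≠ 0 := fun h0 => hf (hinj (by rw [h0, map_zero]))
  obtain ⟨y, c, hc, hy⟩ := hM (barIncl h f) hf' (fun w => dvd_ord_barIncl h (m : ℤ) f hdiv w)
  rw [toRingAut_arithmeticGalois, tauSubOne_barIncl, tauSubOne_barIncl] at hy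
  rw [toRingAut_arithmeticGalois]
  set u : modularFunctionFieldBar N :=
    H129.tauSubOne (arithmeticRingAut (modularFunctionFieldFull N) σ)
      (H129.tauSubOne (arithmeticRingAut (modularFunctionFieldFull N) σ) f) with hu
  have hc' : algebraMap (AlgebraicClosure ℚ) (modularFunctionFieldBar M) c ≠ 0 := by
    simpa using hc
  have hym : y ^ m =
      barIncl h (u / algebraMap (AlgebraicClosure ℚ) (modularFunctionFieldBar N) c) := by
    rw [map_div₀, AlgHom.commutes, hy]
    field_simp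
  obtain ⟨x, hx⟩ := exists_barIncl_eq_of_pow_eq h m hm hcop y _ hym
  refine ⟨x, c, hc, ?_⟩
  apply hinj
  rw [map_mul, map_pow, hx, AlgHom.commutes]
  exact hy

/-- **D2 for `A2Kummer`, general form.** -/
theorem a2Kummer_descend_of_psi {N M : ℕ} [NeZero N] [NeZero M] (h : N ∣ M) (m d : ℕ)
    (hm : 0 < m) (σ : AlgebraicClosure ℚ ≃ₐ[ℚ] AlgebraicClosure ℚ)
    (hd : dedekindPsi M = d * dedekindPsi N) (hcop : d.Coprime m)
    (hM : H129.A2Kummer M m σ) : H129.A2Kummer N m σ := by
  refine a2Kummer_descend_of_coprime h m hm σ ?_ hM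
  rw [finrank_bar_eq_of_psi h d hd]
  exact hcop

/-- **D2 for `A2Kummer`, prime form.** -/
theorem a2Kummer_descend_prime {N : ℕ} [NeZero N] (r : ℕ) (hr : r.Prime) (hrN : ¬ r ∣ N)
    (m : ℕ) (hm : 0 < m) (σ : AlgebraicClosure ℚ ≃ₐ[ℚ] AlgebraicClosure ℚ)
    (hcop : (r + 1).Coprime m) (hM : H129.A2Kummer (r * N) m σ) : H129.A2Kummer N m σ := by
  haveI : NeZero (r * N) := ⟨mul_ne_zero hr.ne_zero (NeZero.ne N)⟩
  exact a2Kummer_descend_of_psi (Dvd.intro_left r rfl) m (r + 1) hm σ
    (Fermat.Agent.S20.Comb694.dedekindPsi_prime_mul_of_not_dvd r N hr (NeZero.ne N) hrN) hcop hM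

/-! ### The auxiliary level -/

/-- The auxiliary level: `lcm N 2` for `q = 3`, `lcm N 3` for `q = 2`, `N` otherwise. -/
def auxLevel (N q : ℕ) : ℕ :=
  if q = 3 then Nat.lcm N 2 else if q = 2 then Nat.lcm N 3 else N

/-- A level is *ready* for `q`: the S18 coordinate exists on the good-reduction level `N / q`
(`q ≥ 5`: `j`; `q = 3`: `t₂`, needs `2 ∣ N`; `q = 2`: `t₃`, needs `3 ∣ N`). -/
def Ready (N q : ℕ) : Prop :=
  (q ≠ 2 ∧ q ≠ 3) ∨ (q = 3 ∧ 2 ∣ N) ∨ (q = 2 ∧ 3 ∣ N)

theorem dvd_auxLevel (N q : ℕ) : N ∣ auxLevel N q := by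
  unfold auxLevel
  split_ifs
  · exact Nat.dvd_lcm_left N 2
  · exact Nat.dvd_lcm_left N 3
  · exact dvd_rfl

theorem auxLevel_ne_zero {N : ℕ} (hN : N ≠ 0) (q : ℕ) : auxLevel N q ≠ 0 := by
  unfold auxLevel
  split_ifs
  · exact Nat.lcm_ne_zero hN (by norm_num)
  · exact Nat.lcm_ne_zero hN (by norm_num)
  · exact hN

theorem ready_auxLevel (N q : ℕ) : Ready (auxLevel N q) q := by
  unfold auxLevel Ready
  split_ifs with h3 h2
  · exact Or.inr (Or.inl ⟨h3, Nat.dvd_lcm_right N 2⟩)
  · exact Or.inr (Or.inr ⟨h2, Nat.dvd_lcm_right N 3⟩)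
  · exact Or.inl ⟨h2, h3⟩

theorem auxLevel_of_ready {N q : ℕ} (h : Ready N q) : auxLevel N q = N := by
  unfold auxLevel
  rcases h with ⟨h2, h3⟩ | ⟨h3, hd⟩ | ⟨h2, hd⟩
  · rw [if_neg h3, if_neg h2]
  · rw [if_pos h3, Nat.lcm_eq_left hd]
  · subst h2
    rw [if_neg (by norm_num), if_pos rfl, Nat.lcm_eq_left hd]

theorem dvd_auxLevel_of_dvd {N q : ℕ} (h : q ∣ N) : q ∣ auxLevel N q :=
  h.trans (dvd_auxLevel N q)

/-- `q ‖ N` is preserved by passing to the auxiliary level. -/
theorem not_sq_dvd_auxLevel {N q : ℕ} (hq : q.Prime) (h : ¬ q ^ 2 ∣ N) :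
    ¬ q ^ 2 ∣ auxLevel N q := by
  unfold auxLevel
  split_ifs with h3 h2
  · subst h3
    intro hd
    have h1 : Nat.lcm N 2 ∣ N * 2 := Nat.lcm_dvd_mul N 2
    have h4 : (3 ^ 2).Coprime 2 := by norm_num
    exact h (h4.dvd_of_dvd_mul_right (hd.trans h1))
  · subst h2
    intro hd
    have h1 : Nat.lcm N 3 ∣ N * 3 := Nat.lcm_dvd_mul N 3
    have h4 : (2 ^ 2).Coprime 3 := by norm_num
    exact h (h4.dvd_of_dvd_mul_right (hd.trans h1))
  · exact h

/-- **D2, node form for `KummerTarget`.** -/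
theorem kummerTarget_aux (N : ℕ) [NeZero N] (q m : ℕ) (hm : ¬ q ∣ m) :
    KummerTarget (auxLevel N q) q m → KummerTarget N q m := by
  unfold auxLevel
  split_ifs with h3 h2
  · subst h3
    by_cases h : 2 ∣ N
    · rw [Nat.lcm_eq_left h]
      exact id
    · have hcop : Nat.Coprime N 2 :=
        (Nat.coprime_comm.1 ((Nat.Prime.coprime_iff_not_dvd Nat.prime_two).2 h))
      rw [hcop.lcm_eq_mul, mul_comm]
      refine kummerTarget_descend_prime 2 Nat.prime_two h 3 m ?_
      exact (Nat.Prime.coprime_iff_not_dvd Nat.prime_three).2 hm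
  · subst h2
    by_cases h : 3 ∣ N
    · rw [Nat.lcm_eq_left h]
      exact id
    · have hcop : Nat.Coprime N 3 :=
        (Nat.coprime_comm.1 ((Nat.Prime.coprime_iff_not_dvd Nat.prime_three).2 h))
      rw [hcop.lcm_eq_mul, mul_comm]
      refine kummerTarget_descend_prime 3 Nat.prime_three h 2 m ?_
      have h2m : Nat.Coprime 2 m := (Nat.Prime.coprime_iff_not_dvd Nat.prime_two).2 hm
      exact Nat.Coprime.pow_left 2 h2m
  · exact id

/-- **D2, node form for `A2Kummer`.** -/
theorem a2Kummer_aux (N : ℕ) [NeZero N] (q m : ℕ) (hm0 : 0 < m) (hm : ¬ q ∣ m)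
    (σ : AlgebraicClosure ℚ ≃ₐ[ℚ] AlgebraicClosure ℚ) :
    H129.A2Kummer (auxLevel N q) m σ → H129.A2Kummer N m σ := by
  unfold auxLevel
  split_ifs with h3 h2
  · subst h3
    by_cases h : 2 ∣ N
    · rw [Nat.lcm_eq_left h]
      exact id
    · have hcop : Nat.Coprime N 2 :=
        (Nat.coprime_comm.1 ((Nat.Prime.coprime_iff_not_dvd Nat.prime_two).2 h))
      rw [hcop.lcm_eq_mul, mul_comm]
      refine a2Kummer_descend_prime 2 Nat.prime_two h m hm0 σ ?_
      exact (Nat.Prime.coprime_iff_not_dvd Nat.prime_three).2 hm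
  · subst h2
    by_cases h : 3 ∣ N
    · rw [Nat.lcm_eq_left h]
      exact id
    · have hcop : Nat.Coprime N 3 :=
        (Nat.coprime_comm.1 ((Nat.Prime.coprime_iff_not_dvd Nat.prime_three).2 h))
      rw [hcop.lcm_eq_mul, mul_comm]
      refine a2Kummer_descend_prime 3 Nat.prime_three h m hm0 σ ?_
      have h2m : Nat.Coprime 2 m := (Nat.Prime.coprime_iff_not_dvd Nat.prime_two).2 hm
      exact Nat.Coprime.pow_left 2 h2m
  · exact id

/-- **Reduction to ready levels.**  If the Kummer form of the wall holds at all levels `N'` with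
`q ‖ N'` that are ready for `q`, it holds at all levels `N` with `q ‖ N`. -/
theorem kummerTarget_of_ready (q m : ℕ) (hq : q.Prime) (hm : ¬ q ∣ m)
    (hready : ∀ N' : ℕ, q ∣ N' → ¬ q ^ 2 ∣ N' → N' ≠ 0 → Ready N' q → KummerTarget N' q m)
    (N : ℕ) (hqN : q ∣ N) (hq2 : ¬ q ^ 2 ∣ N) (hN : N ≠ 0) : KummerTarget N q m := by
  haveI : NeZero N := ⟨hN⟩
  exact kummerTarget_aux N q m hm
    (hready (auxLevel N q) (dvd_auxLevel_of_dvd hqN) (not_sq_dvd_auxLevel hq hq2)
      (auxLevel_ne_zero hN q) (ready_auxLevel N q))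

/-- **Reduction to ready levels**, `A2Kummer` form (all inertia groups at `q`). -/
theorem a2Kummer_of_ready (q m : ℕ) (hq : q.Prime) (hm0 : 0 < m) (hm : ¬ q ∣ m)
    (hready : ∀ N' : ℕ, q ∣ N' → ¬ q ^ 2 ∣ N' → N' ≠ 0 → Ready N' q →
      ∀ P : ValuationSubring (AlgebraicClosure ℚ), P.LiesOverPrime q →
        ∀ σ ∈ P.inertiaSubgroupIn ℚ, H129.A2Kummer N' m σ)
    (N : ℕ) (hqN : q ∣ N) (hq2 : ¬ q ^ 2 ∣ N) (hN : N ≠ 0)
    (P : ValuationSubring (AlgebraicClosure ℚ)) (hP : P.LiesOverPrime q)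
    (σ : AlgebraicClosure ℚ ≃ₐ[ℚ] AlgebraicClosure ℚ) (hσ : σ ∈ P.inertiaSubgroupIn ℚ) :
    H129.A2Kummer N m σ := by
  haveI : NeZero N := ⟨hN⟩
  exact a2Kummer_aux N q m hm0 hm σ
    (hready (auxLevel N q) (dvd_auxLevel_of_dvd hqN) (not_sq_dvd_auxLevel hq hq2)
      (auxLevel_ne_zero hN q) (ready_auxLevel N q) P hP σ hσ)

end Fermat.Agent.A2.H876

end
end
-- ===== PACK-END A2/H876/D2.lean

-- ===== PACK-BEGIN S27/H386/Grp.lean
section
/-
Row S27, block GRP (helper386): **`Stmt.Grp k`**, unconditionally.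

The Jacobian of a proper smooth integral pointed curve over an algebraically closed field carries
a commutative relative group law which, on affine test schemes, is the tensor product of gluing
data.  `AffLaw` (the group law on affine points, from the S25 dictionary) + `H687.AffineLaw.extend`
(the formal extension lemma) + `DictAll` (the S25 dictionary).
-/




set_option autoImplicit false

open CategoryTheory CategoryTheory.Limits AlgebraicGeometry AlgebraicGeometry.RelPicard
  NeronModelInfra GoodReductionJacobian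
open scoped TensorProduct

universe u

namespace Fermat.Agent.S27.H386

open Fermat.Agent.S25

/-- **GRP** (exact shape of `Stmt.Grp` in `S27/Spec.lean`). -/
theorem grp (k : Type u) [Field k] : Stmt.Grp k := by
  intro _ C c _ _ _ ε Ch D hrep
  exact grp_of_dict (dict_all k c ε Ch) hrep

end Fermat.Agent.S27.H386

end
-- ===== PACK-END S27/H386/Grp.lean

-- ===== PACK-BEGIN S35/H433/LevelFrob.lean
section



/-!
# S35 / (G') — the level statement from the FROZEN modular leaves and the A2 wall leaves (helper433)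

`G.levelFrob_of_parts` (architect helper450, `S35/G/Top.lean`) consumes `G.AlgFrobStatement`,
which is false as frozen (`G.PowV` admits the root `g = 0`; note #8042).  This file gives the
same assembly with `G.AlgFrobStatement` replaced by

* `AlgFrobStatementT` (`AlgFrob.lean`): the frozen statement restricted to `h = ψ u / u`, or
* directly the three leaves of the A2 wall (`PuritySmoothLeaf`, `PurityNodeLeaf`, `GlueLeaf`).

ALL the other hypotheses are the frozen statements of `S35/G/SpecLevel.lean`, unchanged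
(`ModelStatement`, `StableStatement`, `NodeRatStatement`, `ToricStatement` with the frozen
`G.PowV`, `FrobResStatement`, `CoordStatement`): no leaf owner has to retarget.

* `levelFrob_of_partsT`  : `AlgFrobStatementT` + modular leaves `⟹ G.LevelFrobAt A E M q m`.
* `levelFrob_of_leaves`  : A2 wall leaves + modular leaves `⟹ G.LevelFrobAt A E M q m`.
-/

set_option autoImplicit false
set_option linter.style.haveILetI false
set_option linter.unusedSectionVars false
set_option linter.unusedVariables false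
set_option synthInstance.maxHeartbeats 400000
set_option maxHeartbeats 1600000

noncomputable section

namespace Fermat.Agent.S35.H433

open ModularCurve AlgebraicCurve
open Fermat.Agent.S35.G

/-- The assembly of `G.levelFrob_of_parts` with the corrected abstract input
`AlgFrobStatementT`; every modular input is the frozen statement of `S35/G/SpecLevel.lean`. -/
theorem levelFrob_of_partsT (A : ValuationSubring Qb) (E : IntermediateField ℚ Qb)
    (M q m : ℕ) [NeZero M] [NeZero q]
    (hq : q.Prime) (hqM : ¬ q ∣ M) (haux : HasAux M q) (hm : 0 < m) (hqm : ¬ q ∣ m)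
    (hALG : AlgFrobStatementT)
    (hMODEL : ∀ w, ModelStatement A E M q w)
    (hSTAB : StableStatement A E)
    (hNODE : ∀ w, NodeRatStatement A E M q w)
    (hTORIC : ∀ w, ToricStatement A E M q m w)
    (hRES : FrobResStatement A E q)
    (hCOORD : CoordStatement E M q) :
    LevelFrobAt A E M q m := by
  intro hA hE s hs hsF y hy hdiv hNα hNβ
  haveI : IsDiscreteValuationRing ↥(A2.Mod.RE A E) := hE.dvr
  haveI : HenselianLocalRing ↥(A2.Mod.RE A E) := hE.henselian
  haveI : IsAlgClosed (IsLocalRing.ResidueField ↥(A2.Mod.RE A E)) := hE.algClosed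
  obtain ⟨w, hw⟩ := IsDiscreteValuationRing.exists_irreducible ↥(A2.Mod.RE A E)
  have hS : A2.Mod.Setting A E M q w :=
    { q_prime := hq
      q_not_dvd := hqM
      M_ne_zero := NeZero.ne M
      lies_over := hA
      dvr := hE.dvr
      unif := hw }
  obtain ⟨V, W, VM, hV, hW, hVM, hg1, hg2, hDeg, sf, si, cf, ci, hcf, hci⟩ :=
    hMODEL w hS hE haux
  obtain ⟨hx, hfr, hconst⟩ := hDeg hq hqM
  have hpos : 0 < Module.finrank
      (IntermediateField.adjoin E ({A2.Mod.xE E M q} : Set (A2.Mod.FE E (M * q))))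
      (A2.Mod.FE E (M * q)) := by
    rw [hfr]
    have h1 := A2.Mod.dedekindPsi_pos_of_ne_zero M (NeZero.ne M)
    positivity
  have hfin : FiniteDimensional
      (IntermediateField.adjoin E ({A2.Mod.xE E M q} : Set (A2.Mod.FE E (M * q))))
      (A2.Mod.FE E (M * q)) := Module.finite_of_finrank_pos hpos
  obtain ⟨ψR, hψR, hQ⟩ := hRES hA hq s hs hsF
  have hsD : s ∈ A.decompositionSubgroup ℚ := hsF.mem_decompositionSubgroup
  have hN0 : M * q ≠ 0 := Nat.mul_ne_zero (NeZero.ne M) (NeZero.ne q)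
  obtain ⟨hcomm, hσV⟩ := hSTAB (M * q) hN0 hE.dvr V W hV hW s hs hsD
  -- `ψ = σ ∘ σ`
  have hψσ : ∀ f : A2.Mod.FE E (M * q), psiE E (M * q) s hs f =
      actE E (M * q) (A2.Mod.resE E s hs) (actE E (M * q) (A2.Mod.resE E s hs) f) :=
    fun f => actE_mul_apply E (M * q) _ _ f
  have hψV : ∀ f ∈ V, psiE E (M * q) s hs f ∈ V := fun f hf => by
    rw [hψσ]
    exact hσV _ (hσV _ hf)
  have hψV₀ : ∀ f ∈ V.comap (W : A2.Mod.FE E (M * q) →+* A2.Mod.FE E (M * q)),
      psiE E (M * q) s hs f ∈ V.comap (W : A2.Mod.FE E (M * q) →+* A2.Mod.FE E (M * q)) :=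
    fun f hf => by
      show W (psiE E (M * q) s hs f) ∈ V
      rw [hψσ, ← hcomm, ← hcomm]
      exact hσV _ (hσV _ hf)
  -- semilinearity
  have hψE : ∀ e : E, psiE E (M * q) s hs (algebraMap E (A2.Mod.FE E (M * q)) e) =
      algebraMap E (A2.Mod.FE E (M * q))
        ((A2.Mod.resE E s hs * A2.Mod.resE E s hs).toRingEquiv e) :=
    fun e => arithmeticRingAut_algebraMap (modularFunctionFieldFull (M * q)) _ e
  have hψRE : ∀ r : ↥(A2.Mod.RE A E),
      (A2.Mod.resE E s hs * A2.Mod.resE E s hs).toRingEquiv (algebraMap ↥(A2.Mod.RE A E) E r) =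
        algebraMap ↥(A2.Mod.RE A E) E (ψR r) := fun r => hψR r
  -- the function `(ψ - 1)² y`
  set h₁ := frobSub (psiE E (M * q) s hs) 1 y with hh₁
  set h₂ := frobSub (psiE E (M * q) s hs) 1 h₁ with hh₂
  have hh₁0 : h₁ ≠ 0 := frobSub_ne_zero _ 1 hy
  have hh₂0 : h₂ ≠ 0 := frobSub_ne_zero _ 1 hh₁0
  have hd₁ : A2.DivisibleDiv E m h₁ := divisibleDiv_frobSub_one _ _ hψE m y hdiv
  have hd₂ : A2.DivisibleDiv E m h₂ := divisibleDiv_frobSub_one _ _ hψE m h₁ hd₁
  obtain ⟨ht₁, ht₂⟩ := hTORIC w hS hE hm hqm V W hV hW s hs hsF y hy hNα hNβ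
  have hnf := hNODE w hS hE VM V W hVM hV hW _ _ (Or.inl ⟨rfl, rfl⟩) hg1 cf
    hcf.cut₁ hcf.cut₂ s hs hsF
  have hni := hNODE w hS hE VM V W hVM hV hW _ _ (Or.inr ⟨rfl, rfl⟩) hg2 ci
    hci.cut₁ hci.cut₂ s hs hsF
  obtain ⟨z, hz, hzz⟩ := hALG (R := ↥(A2.Mod.RE A E)) (E := E) (F := ↥(A2.Mod.FE E (M * q)))
    w hw q m (q ^ 2) hq (A2.T1.H669.natCast_mem_maximalIdeal_RE E hA) hm hqm
    (A2.Mod.xE E M q) hx hfin hconst
    (A2.Mod.chartAlg A E (M * q) (A2.Mod.xE E M q))
    (A2.Mod.chartAlg A E (M * q) (A2.Mod.xE E M q)⁻¹)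
    (fun _ => Iff.rfl) (fun _ => Iff.rfl) cf ci sf si V
    (V.comap (W : A2.Mod.FE E (M * q) →+* A2.Mod.FE E (M * q))) hcf hci
    (psiE E (M * q) s hs) (A2.Mod.resE E s hs * A2.Mod.resE E s hs).toRingEquiv ψR
    hψE hψRE (hCOORD _) hQ hψV hψV₀ hnf hni h₁ hh₁0 hd₂ ht₁ ht₂
  refine ⟨z, hz, ?_⟩
  show frobSub (psiE E (M * q) s hs) (q ^ 2) h₂ = z ^ m
  unfold frobSub
  have hzz' : psiE E (M * q) s hs h₂ = z ^ m * h₂ ^ (q ^ 2) := hzz
  rw [hzz', mul_assoc, mul_inv_cancel₀ (pow_ne_zero _ hh₂0), mul_one]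

/-- **The level statement of (G') from the three leaves of the A2 wall and the frozen modular
leaves of `S35/G/SpecLevel.lean`.** -/
theorem levelFrob_of_leaves (A : ValuationSubring Qb) (E : IntermediateField ℚ Qb)
    (M q m : ℕ) [NeZero M] [NeZero q]
    (hq : q.Prime) (hqM : ¬ q ∣ M) (haux : HasAux M q) (hm : 0 < m) (hqm : ¬ q ∣ m)
    (hPS : A2.Alg.H34.PuritySmoothLeaf) (hPN : A2.Alg.H34.PurityNodeLeaf)
    (hG : A2.Alg.H34.GlueLeaf)
    (hMODEL : ∀ w, ModelStatement A E M q w)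
    (hSTAB : StableStatement A E)
    (hNODE : ∀ w, NodeRatStatement A E M q w)
    (hTORIC : ∀ w, ToricStatement A E M q m w)
    (hRES : FrobResStatement A E q)
    (hCOORD : CoordStatement E M q) :
    LevelFrobAt A E M q m :=
  levelFrob_of_partsT A E M q m hq hqM haux hm hqm (algFrobT_of_leaves hPS hPN hG)
    hMODEL hSTAB hNODE hTORIC hRES hCOORD

end Fermat.Agent.S35.H433

end

end
-- ===== PACK-END S35/H433/LevelFrob.lean

-- ===== PACK-BEGIN S18/H208/Fibre.lean
section
/-
S18 / M1 (helper208): the function field of the special fibre.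

* `relfinrank_full`     : `[F_{N,k} : k(j)] = ψ(N)` for every field `k` with `N` invertible.
* `isSeparable_full`    : every element of `F_{N,k}` is separable over `k(j)`.
* `exists_lift`         : (res surjective) every element of `F_κ` is the reduction of an element
                          of `F_E ∩ V`, and is a quotient of reductions of elements integral
                          over `O[j]`.
-/



set_option autoImplicit false
set_option linter.unusedSectionVars false
set_option linter.style.haveILetI false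

noncomputable section

namespace Fermat.Agent.S18.H208

open ModularCurve HahnSeries Polynomial Fermat.Agent.S28 Fermat.Agent.S28.H86

section Degree

/-- **(T5)** `[F_{N,k} : k(j)] = ψ(N)`. -/
theorem relfinrank_full (A : AnalyticInputs) (k : Type) [Field k] (N : ℕ) [NeZero N]
    (hN : (N : k) ≠ 0) :
    (jField k).relfinrank (modularFunctionFieldFullC k N) = dedekindPsi N := by
  have h := (good_of_analytic A k N hN).degE_eq
  rw [S28.H867.gFun_eq_dedekindPsi (NeZero.ne N)] at h
  exact h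

end Degree

section Sep

variable (k : Type) [Field k]

/-- `Φ_p(X, j)` is a separable polynomial over `k((q))` when `p` is invertible in `k`. -/
theorem separable_modPoly {p : ℕ} [NeZero p] (hp : p.Prime) (D : ModPolyData p)
    (hpk : (p : k) ≠ 0) : (D.Φ.map (S28.H208.evZ (jqModC k))).Separable := by
  haveI : NeZero (p : k) := ⟨hpk⟩
  obtain ⟨ζ, hζ⟩ := HasEnoughRootsOfUnity.exists_primitiveRoot (AlgebraicClosure k) p
  have h1 : (D.Φ.map (S28.H208.evZ (qExpand (AlgebraicClosure k) p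
      (jqModC (AlgebraicClosure k))))).Separable := by
    rw [S28.H208.map_eq_prod_rootAt D hp.one_lt ζ hζ]
    exact Polynomial.separable_prod_X_sub_C_iff.mpr (S28.H208.rootAt_injective hp.one_lt ζ hζ)
  have h2 : (D.Φ.map (S28.H208.evZ (jqModC (AlgebraicClosure k)))).Separable := by
    rw [← S28.H208.map_map_evZ (qExpand (AlgebraicClosure k) p) D.Φ
      (jqModC (AlgebraicClosure k))] at h1
    exact (Polynomial.separable_map _).mp h1
  have h3 : (D.Φ.map (S28.H208.evZ (jqModC k))).map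
      (coeffMap (algebraMap k (AlgebraicClosure k))) =
      D.Φ.map (S28.H208.evZ (jqModC (AlgebraicClosure k))) := by
    rw [S28.H208.map_map_evZ, coeffMap_jqModC]
  rw [← h3] at h2
  exact (Polynomial.separable_map _).mp h2

/-- `Φ_p(X, j(q^m))` is separable over `k((q))`. -/
theorem separable_modPoly_qExpand {p : ℕ} [NeZero p] (hp : p.Prime) (D : ModPolyData p)
    (hpk : (p : k) ≠ 0) (m : ℕ) [NeZero m] :
    (D.Φ.map (S28.H208.evZ (qExpand k m (jqModC k)))).Separable := by
  rw [← S28.H208.map_map_evZ (qExpand k m) D.Φ (jqModC k)]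
  exact (Polynomial.separable_map _).mpr (separable_modPoly k hp D hpk)

/-- `j(q^d)` is separable over `k(j)` when `d` is invertible in `k`. -/
theorem jd_mem_separableClosure (A : AnalyticInputs) :
    ∀ (d : ℕ) (hd : d ≠ 0), (∀ p : ℕ, p.Prime → p ∣ d → (p : k) ≠ 0) →
      @qExpand k _ d ⟨hd⟩ (jqModC k) ∈ separableClosure (jField k) (LaurentSeries k) := by
  intro d
  induction d using induction_on_primes with
  | zero => intro hd; exact absurd rfl hd
  | one =>
    intro _ _
    rw [qExpand_one_apply]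
    exact (separableClosure (jField k) (LaurentSeries k)).algebraMap_mem
      (⟨jqModC k, S28.H145.jqModC_mem_jField⟩ : jField k)
  | prime_mul p m hp ih =>
    intro hd hchar
    have hm : m ≠ 0 := fun h => hd (by rw [h, mul_zero])
    haveI : NeZero p := ⟨hp.ne_zero⟩
    haveI : NeZero m := ⟨hm⟩
    haveI : NeZero (m * p) := ⟨Nat.mul_ne_zero hm hp.ne_zero⟩
    haveI : NeZero (p * m) := ⟨hd⟩
    obtain ⟨D⟩ := A.modPoly p hp
    have hjm := ih hm (fun r hr hrm => hchar r hr (hrm.mul_left p))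
    have hpk : (p : k) ≠ 0 := hchar p hp (dvd_mul_right p m)
    set Ks := separableClosure (jField k) (LaurentSeries k) with hKs
    -- the polynomial `Φ_p(X, j_m)` over `Ks`
    set jm : Ks := ⟨qExpand k m (jqModC k), hjm⟩ with hjmdef
    set P : Polynomial Ks := D.Φ.map (S28.H208.evZ jm) with hP
    have hPmap : P.map (algebraMap Ks (LaurentSeries k)) =
        D.Φ.map (S28.H208.evZ (qExpand k m (jqModC k))) := by
      rw [hP, S28.H208.map_map_evZ]
      rfl
    have hPsep : P.Separable := by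
      have := separable_modPoly_qExpand k hp D hpk m
      rw [← hPmap] at this
      exact (Polynomial.separable_map _).mp this
    have hroot : Polynomial.aeval (qExpand k (m * p) (jqModC k)) P = 0 := by
      rw [Polynomial.aeval_def, ← Polynomial.eval_map, hPmap, Polynomial.eval_map]
      exact S28.H208.eval_jp_ring_qExpand k D m
    have hsep : IsSeparable Ks (qExpand k (m * p) (jqModC k)) :=
      hPsep.of_dvd (minpoly.dvd Ks _ hroot)
    have hmem : qExpand k (m * p) (jqModC k) ∈ separableClosure Ks (LaurentSeries k) :=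
      mem_separableClosure_iff.mpr hsep
    rw [separableClosure.separableClosure_eq_bot, IntermediateField.mem_bot] at hmem
    obtain ⟨y, hy⟩ := hmem
    have hfin : qExpand k (m * p) (jqModC k) ∈ Ks := by
      rw [← hy]
      exact y.2
    have hcongr : @qExpand k _ (p * m) ⟨hd⟩ (jqModC k) = qExpand k (m * p) (jqModC k) :=
      qExpand_congr (mul_comm p m) _
    rw [hcongr]
    exact hfin

/-- **(T6)** Every element of `F_{N,k}` is separable over `k(j)` (`N` invertible in `k`). -/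
theorem isSeparable_full (A : AnalyticInputs) (N : ℕ) [NeZero N] (hN : (N : k) ≠ 0)
    {x : LaurentSeries k} (hx : x ∈ modularFunctionFieldFullC k N) :
    IsSeparable (jField k) x := by
  rw [← mem_separableClosure_iff]
  have hle : modularFunctionFieldFullC k N ≤
      (separableClosure (jField k) (LaurentSeries k)).restrictScalars k := by
    rw [modularFunctionFieldFullC, IntermediateField.adjoin_le_iff]
    rintro _ ⟨d, hd, hdN, rfl⟩
    exact jd_mem_separableClosure k A d hd.out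
      (fun p _ hpd => natCast_prime_ne_zero_of_dvd hN p (hpd.trans hdN))
  exact hle hx

end Sep

section Lift

variable {E : Type} [Field E] {O : Subring E} {κ : Type} [Field κ] {res : O →+* κ} {π : O}

theorem isFrac_top (κ : Type) [Field κ] : IsFrac (⊤ : Subring κ) := fun e =>
  ⟨⟨e, Subring.mem_top e⟩, 1, one_ne_zero, by simp⟩

theorem evE_top_eq_aeval (t : LaurentSeries κ) (P : Polynomial (⊤ : Subring κ)) :
    evE (⊤ : Subring κ) t P = Polynomial.aeval t (P.map (⊤ : Subring κ).subtype) := by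
  rw [Polynomial.aeval_def, Polynomial.eval₂_map]
  show Polynomial.eval₂ _ t P = _
  congr 1
  ext c : 1
  rw [RingHom.comp_apply, RingHom.comp_apply, algebraMap_laurentSeries_eq_single]
  rfl

theorem gaussRed_evE_j (P : Polynomial O) :
    gaussRed O res ⟨evE O (jqModC E) P, evE_mem_gaussRing (j_mem_gaussRing O res) P⟩ =
      Polynomial.aeval (jqModC κ) (P.map res) := by
  have : (⟨evE O (jqModC E) P, evE_mem_gaussRing (j_mem_gaussRing O res) P⟩ : gaussRing O res) =
      evV O res ⟨jqModC E, j_mem_gaussRing O res⟩ P :=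
    Subtype.ext (coe_evV (⟨jqModC E, j_mem_gaussRing O res⟩ : gaussRing O res) P).symm
  rw [this, gaussRed_evV, gaussRed_j]

/-- **(T3)** Every element of `F_κ` is a quotient of reductions of elements of `F_E` integral
over `O[j]`. -/
theorem exists_lift (A : AnalyticInputs) (hsurj : Function.Surjective res)
    (N : ℕ) [NeZero N] (hN : (N : κ) ≠ 0)
    {z : LaurentSeries κ} (hz : z ∈ modularFunctionFieldFullC κ N) :
    ∃ (a b : LaurentSeries E) (ha : a ∈ gaussRing O res) (hb : b ∈ gaussRing O res),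
      a ∈ modularFunctionFieldFullC E N ∧ b ∈ modularFunctionFieldFullC E N ∧
      (evE O (jqModC E)).IsIntegralElem a ∧ (evE O (jqModC E)).IsIntegralElem b ∧
      gaussRed O res ⟨b, hb⟩ ≠ 0 ∧ z * gaussRed O res ⟨b, hb⟩ = gaussRed O res ⟨a, ha⟩ := by
  obtain ⟨y, hy, hbasis⟩ := exists_uniform_basis A N
  obtain ⟨hspanκ, -⟩ := hbasis κ hN
  obtain ⟨g', f', hg', hrel'⟩ := exists_cleared_of_mem_span (isFrac_top κ) _ (hspanκ z hz)
  simp only [evE_top_eq_aeval] at hrel'
  obtain ⟨g, hg⟩ := Polynomial.map_surjective res hsurj (g'.map (⊤ : Subring κ).subtype)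
  have hf : ∀ i, ∃ P : Polynomial O, P.map res = (f' i).map (⊤ : Subring κ).subtype :=
    fun i => Polynomial.map_surjective res hsurj _
  choose f hf using hf
  have hgne : g.map res ≠ 0 := by
    rw [hg]
    exact (Polynomial.map_ne_zero_iff Subtype.val_injective).mpr hg'
  have hjE := j_mem_gaussRing O res (E := E)
  have hjF : jqModC E ∈ modularFunctionFieldFullC E N := jqModC_mem_full E N
  -- the numerator
  set a : LaurentSeries E := ∑ i, evE O (jqModC E) (f i) * coeffMap (Int.castRingHom E) (y i)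
    with ha_def
  have haV : a ∈ gaussRing O res :=
    sum_mem fun i _ => mul_mem (evE_mem_gaussRing hjE _) (intCast_mem_gaussRing O res _)
  have haF : a ∈ modularFunctionFieldFullC E N :=
    sum_mem fun i _ => mul_mem (evE_mem_full N hjF _) (coeffMap_intCast_mem_full E N (hy i))
  have haI : (evE O (jqModC E)).IsIntegralElem a := by
    letI : Algebra (Polynomial O) (LaurentSeries E) := (evE O (jqModC E)).toAlgebra
    show IsIntegral (Polynomial O) _
    refine IsIntegral.sum _ fun i _ => ?_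
    exact IsIntegral.mul (isIntegral_algebraMap (x := f i)) (isIntegralElem_basis A N (hy i))
  have hared : gaussRed O res ⟨a, haV⟩ =
      ∑ i, Polynomial.aeval (jqModC κ) ((f i).map res) * coeffMap (Int.castRingHom κ) (y i) := by
    have h1 := gaussRed_relation (res := res) y haV 1 f (by rw [map_one, one_mul])
    rwa [Polynomial.map_one, map_one, one_mul] at h1
  refine ⟨a, evE O (jqModC E) g, haV, evE_mem_gaussRing hjE g, haF, evE_mem_full N hjF g, haI,
    (evE O (jqModC E)).isIntegralElem_map, ?_, ?_⟩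
  · rw [gaussRed_evE_j]
    exact aeval_j_ne_zero hgne
  · rw [gaussRed_evE_j, hared, hg, mul_comm, hrel']
    refine Finset.sum_congr rfl fun i _ => ?_
    rw [hf i]

/-- **(T3')** The reduction `F_E ∩ V → F_κ` is surjective. -/
theorem exists_preimage (A : AnalyticInputs) (hsurj : Function.Surjective res)
    (N : ℕ) [NeZero N] (hN : (N : κ) ≠ 0)
    {z : LaurentSeries κ} (hz : z ∈ modularFunctionFieldFullC κ N) :
    ∃ (x : LaurentSeries E) (hx : x ∈ gaussRing O res),
      x ∈ modularFunctionFieldFullC E N ∧ gaussRed O res ⟨x, hx⟩ = z := by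
  obtain ⟨a, b, ha, hb, haF, hbF, -, -, hbne, hrel⟩ :=
    exists_lift (E := E) (O := O) A hsurj N hN hz
  have hbinv := inv_mem_gaussRing_of_gaussRed_ne_zero ⟨b, hb⟩ hbne
  have hb0 : b ≠ 0 := by
    rintro rfl
    apply hbne
    have : (⟨0, hb⟩ : gaussRing O res) = 0 := rfl
    rw [this, map_zero]
  refine ⟨a * b⁻¹, mul_mem ha hbinv, mul_mem haF (inv_mem hbF), ?_⟩
  have h1 : (⟨a * b⁻¹, mul_mem ha hbinv⟩ : gaussRing O res) * ⟨b, hb⟩ = ⟨a, ha⟩ := by
    apply Subtype.ext
    show a * b⁻¹ * b = a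
    rw [mul_assoc, inv_mul_cancel₀ hb0, mul_one]
  have h2 := congrArg (gaussRed O res) h1
  rw [map_mul, ← hrel] at h2
  exact mul_right_cancel₀ hbne h2

end Lift

section DVR

open IsLocalRing

variable {E : Type} [Field E] (O : Subring E) [IsDiscreteValuationRing O]

/-- A discrete valuation subring with its residue map and a uniformiser is `UnifData`. -/
theorem unifData_residue {ϖ : O} (hϖ : Irreducible ϖ) : UnifData O (residue O) ϖ := by
  have hmax : maximalIdeal O = Ideal.span {ϖ} := hϖ.maximalIdeal_eq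
  refine ⟨?_, hϖ.ne_zero, ?_⟩
  · intro x
    rw [residue_eq_zero_iff, hmax, Ideal.mem_span_singleton']
    constructor
    · rintro ⟨y, hy⟩
      exact ⟨y, by rw [← hy, mul_comm]⟩
    · rintro ⟨y, hy⟩
      exact ⟨y, by rw [hy, mul_comm]⟩
  · intro x hx
    obtain ⟨n, u, hu⟩ := IsDiscreteValuationRing.eq_unit_mul_pow_irreducible hx hϖ
    refine ⟨n, (u : O), by rw [hu, mul_comm], ?_⟩
    intro h0
    rw [residue_eq_zero_iff] at h0
    exact (IsLocalRing.mem_maximalIdeal _).mp h0 u.isUnit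

/-- A valuation subring has `E` as fraction field. -/
theorem isFrac_valuationSubring (V : ValuationSubring E) : IsFrac V.toSubring := by
  intro e
  rcases V.mem_or_inv_mem e with he | he
  · exact ⟨⟨e, he⟩, 1, one_ne_zero, by simp⟩
  · by_cases he0 : e = 0
    · subst he0
      exact ⟨0, 1, one_ne_zero, by simp⟩
    · refine ⟨1, ⟨e⁻¹, he⟩, ?_, ?_⟩
      · intro h0
        have := congrArg Subtype.val h0
        simp at this
        exact he0 this
      · show e * e⁻¹ = 1
        exact mul_inv_cancel₀ he0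

end DVR

end Fermat.Agent.S18.H208

end

end
-- ===== PACK-END S18/H208/Fibre.lean

-- ===== PACK-BEGIN S18/H208/M1.lean
section
/-
S18 / M1 (helper208): MOD piece M1 = the S28 outputs over a general discrete valuation ring.

SETTING.  `E` a field, `O : Subring E` a discrete valuation ring with fraction field `E`
(`IsFrac O`), `res : O →+* κ` a ring homomorphism to a field with kernel the maximal ideal
(NOT necessarily surjective: `κ` may be the residue field of a bigger valuation ring),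
`N ≥ 1` invertible in `κ`.  `F_E = modularFunctionFieldFullC E N ⊆ E((q))`,
`F_κ = modularFunctionFieldFullC κ N ⊆ κ((q))`.

`V = gaussRing O res ⊆ E((q))` is the Gauss valuation ring (helper86), with reduction
`gaussRed O res : V →+* κ((q))`.  Integrality over the chart ring `O[t]` (`t = j` or `j⁻¹`) is
expressed as `(evE O t).IsIntegralElem x`, `evE O t : O[X] →+* E((q))`, `P ↦ P(t)`.

RESULTS (all unconditional):
* `M1.mem_gaussRing_fin / _inf` : elements of `F_E` integral over `O[j]` / `O[j⁻¹]` lie in `V`.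
* `M1.gaussRed_mem`             : the reduction of `F_E ∩ V` lies in `F_κ`.
* `M1.qep_fin / qep_inf`        : QEP = kernel of the reduction on the chart is `ϖ · chart`.
* `M1.denominators_fin / _inf`  : `F_E ∩ V` is the localisation of the chart at `(ϖ)`.
* `M1.relfinrank_eq`            : `[F_k : k(j)] = ψ(N)` for `k = E` and `k = κ`.
* `M1.isSeparable`              : `F_κ / κ(j)` (and `F_E / E(j)`) is separable.
* `M1.exists_lift / exists_preimage` : (res surjective) `Frac(red(chart)) = F_κ`.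
-/





set_option autoImplicit false
set_option linter.unusedSectionVars false
set_option linter.style.haveILetI false

noncomputable section

namespace Fermat.Agent.S18.H208

open ModularCurve HahnSeries Polynomial Fermat.Agent.S28 Fermat.Agent.S28.H86 IsLocalRing

/-- The analytic inputs of S28, as proved on main. -/
theorem analyticInputs : AnalyticInputs where
  modPoly := fun p _ hp => S28.H807.nonempty_modPolyData p hp
  unitPoly := fun p _ hp => S28.H807.nonempty_unitPolyData p hp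
  theta := S28.H25.theta_identity

namespace M1

variable {E : Type} [Field E] {O : Subring E} [IsDiscreteValuationRing O]
  {κ : Type} [Field κ] {res : O →+* κ}

/-- `UnifData` from a DVR, a uniformiser and a residue map with kernel the maximal ideal. -/
theorem unifData (hker : ∀ x : O, res x = 0 ↔ x ∈ maximalIdeal O) {ϖ : O}
    (hϖ : Irreducible ϖ) : UnifData O res ϖ := by
  have h := unifData_residue O hϖ
  refine ⟨fun x => ?_, h.ne_zero, fun x hx => ?_⟩
  · rw [hker, ← residue_eq_zero_iff]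
    exact h.ker x
  · obtain ⟨n, y, hy, hres⟩ := h.prim x hx
    refine ⟨n, y, hy, fun h0 => hres ?_⟩
    rw [residue_eq_zero_iff, ← hker]
    exact h0

theorem natCast_ne_zero (res : O →+* κ) {N : ℕ} (hN : (N : κ) ≠ 0) : (N : E) ≠ 0 :=
  natCast_ne_zero_of_res res hN

variable (hker : ∀ x : O, res x = 0 ↔ x ∈ maximalIdeal O) (hfrac : IsFrac O)
  (N : ℕ) [NeZero N] (hN : (N : κ) ≠ 0)

include hker hfrac in
/-- Elements of `F_E` integral over `O[j]` lie in the Gauss ring. -/
theorem mem_gaussRing_fin {x : LaurentSeries E} (hxF : x ∈ modularFunctionFieldFullC E N)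
    (hint : (evE O (jqModC E)).IsIntegralElem x) : x ∈ gaussRing O res := by
  obtain ⟨ϖ, hϖ⟩ := IsDiscreteValuationRing.exists_irreducible O
  exact mem_gaussRing_of_isIntegralElem (unifData hker hϖ) (j_mem_gaussRing O res)
    (full_le_gaussFrac hfrac N hxF) hint

include hker hfrac in
/-- Elements of `F_E` integral over `O[j⁻¹]` lie in the Gauss ring. -/
theorem mem_gaussRing_inf {x : LaurentSeries E} (hxF : x ∈ modularFunctionFieldFullC E N)
    (hint : (evE O (jqModC E)⁻¹).IsIntegralElem x) : x ∈ gaussRing O res := by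
  obtain ⟨ϖ, hϖ⟩ := IsDiscreteValuationRing.exists_irreducible O
  exact mem_gaussRing_of_isIntegralElem (unifData hker hϖ) j_inv_mem_gaussRing
    (full_le_gaussFrac hfrac N hxF) hint

include hker hfrac hN in
/-- The reduction of `F_E ∩ V` lies in `F_κ`. -/
theorem gaussRed_mem {x : LaurentSeries E} (hxF : x ∈ modularFunctionFieldFullC E N)
    (hx : x ∈ gaussRing O res) : gaussRed O res ⟨x, hx⟩ ∈ modularFunctionFieldFullC κ N := by
  obtain ⟨ϖ, hϖ⟩ := IsDiscreteValuationRing.exists_irreducible O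
  exact gaussRed_mem_full analyticInputs (unifData hker hϖ) hfrac N hN hxF hx

include hker hfrac hN in
/-- **QEP, finite chart.** -/
theorem qep_fin {ϖ : O} (hϖ : Irreducible ϖ)
    {x : LaurentSeries E} (hxF : x ∈ modularFunctionFieldFullC E N)
    (hint : (evE O (jqModC E)).IsIntegralElem x)
    (hx : x ∈ gaussRing O res) (hred : gaussRed O res ⟨x, hx⟩ = 0) :
    ∃ x' : LaurentSeries E, x' ∈ modularFunctionFieldFullC E N ∧
      (evE O (jqModC E)).IsIntegralElem x' ∧ x = HahnSeries.C (ϖ : E) * x' :=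
  kernel_fin analyticInputs (unifData hker hϖ) hfrac N hN hxF hint hx hred

include hker hfrac hN in
/-- **QEP, chart at infinity.** -/
theorem qep_inf {ϖ : O} (hϖ : Irreducible ϖ)
    {x : LaurentSeries E} (hxF : x ∈ modularFunctionFieldFullC E N)
    (hint : (evE O (jqModC E)⁻¹).IsIntegralElem x)
    (hx : x ∈ gaussRing O res) (hred : gaussRed O res ⟨x, hx⟩ = 0) :
    ∃ x' : LaurentSeries E, x' ∈ modularFunctionFieldFullC E N ∧
      (evE O (jqModC E)⁻¹).IsIntegralElem x' ∧ x = HahnSeries.C (ϖ : E) * x' :=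
  kernel_inf analyticInputs (unifData hker hϖ) hfrac N hN hxF hint hx hred

include hker hfrac hN in
/-- **Denominators, finite chart**: `F_E ∩ V` is the localisation of the chart at `(ϖ)`. -/
theorem denominators_fin {x : LaurentSeries E} (hxF : x ∈ modularFunctionFieldFullC E N)
    (hx : x ∈ gaussRing O res) :
    ∃ s : Polynomial O, s.map res ≠ 0 ∧
      (evE O (jqModC E)).IsIntegralElem (evE O (jqModC E) s * x) := by
  obtain ⟨ϖ, hϖ⟩ := IsDiscreteValuationRing.exists_irreducible O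
  exact hasDenominators_j analyticInputs (unifData hker hϖ) hfrac N hN x hxF hx

include hker hfrac hN in
/-- **Denominators, chart at infinity.** -/
theorem denominators_inf {x : LaurentSeries E} (hxF : x ∈ modularFunctionFieldFullC E N)
    (hx : x ∈ gaussRing O res) :
    ∃ s : Polynomial O, s.map res ≠ 0 ∧
      (evE O (jqModC E)⁻¹).IsIntegralElem (evE O (jqModC E)⁻¹ s * x) := by
  obtain ⟨ϖ, hϖ⟩ := IsDiscreteValuationRing.exists_irreducible O
  exact (hasDenominators_j analyticInputs (unifData hker hϖ) hfrac N hN).inv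
    (S28.H145.jqModC_ne_zero' E) x hxF hx

/-- `[F_k : k(j)] = ψ(N)` for every field `k` in which `N` is invertible. -/
theorem relfinrank_eq (k : Type) [Field k] (N : ℕ) [NeZero N] (hN : (N : k) ≠ 0) :
    (jField k).relfinrank (modularFunctionFieldFullC k N) = dedekindPsi N :=
  relfinrank_full analyticInputs k N hN

/-- `F_k / k(j)` is separable for every field `k` in which `N` is invertible. -/
theorem isSeparable (k : Type) [Field k] (N : ℕ) [NeZero N] (hN : (N : k) ≠ 0)
    {x : LaurentSeries k} (hx : x ∈ modularFunctionFieldFullC k N) :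
    IsSeparable (jField k) x :=
  isSeparable_full k analyticInputs N hN hx

/-- The uniform integral basis. -/
theorem exists_basis (N : ℕ) [NeZero N] :
    ∃ y : Fin (dedekindPsi N) → LaurentSeries ℤ,
      (∀ i, y i ∈ Subring.closure (intDivisorExpansions N)) ∧
      ∀ (k : Type) [Field k], (N : k) ≠ 0 →
        (∀ x ∈ modularFunctionFieldFullC k N,
          x ∈ Submodule.span (jField k)
            (Set.range fun i => coeffMap (Int.castRingHom k) (y i))) ∧
        LinearIndependent (jField k) (fun i => coeffMap (Int.castRingHom k) (y i)) :=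
  exists_uniform_basis analyticInputs N

include hN in
/-- Every element of `F_κ` is a quotient of reductions of chart elements (`res` onto). -/
theorem exists_lift' (hsurj : Function.Surjective res)
    {z : LaurentSeries κ} (hz : z ∈ modularFunctionFieldFullC κ N) :
    ∃ (a b : LaurentSeries E) (ha : a ∈ gaussRing O res) (hb : b ∈ gaussRing O res),
      a ∈ modularFunctionFieldFullC E N ∧ b ∈ modularFunctionFieldFullC E N ∧
      (evE O (jqModC E)).IsIntegralElem a ∧ (evE O (jqModC E)).IsIntegralElem b ∧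
      gaussRed O res ⟨b, hb⟩ ≠ 0 ∧ z * gaussRed O res ⟨b, hb⟩ = gaussRed O res ⟨a, ha⟩ :=
  exists_lift analyticInputs hsurj N hN hz

include hN in
/-- The reduction `F_E ∩ V → F_κ` is surjective (`res` onto). -/
theorem exists_preimage' (hsurj : Function.Surjective res)
    {z : LaurentSeries κ} (hz : z ∈ modularFunctionFieldFullC κ N) :
    ∃ (x : LaurentSeries E) (hx : x ∈ gaussRing O res),
      x ∈ modularFunctionFieldFullC E N ∧ gaussRed O res ⟨x, hx⟩ = z :=
  exists_preimage analyticInputs hsurj N hN hz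

end M1

end Fermat.Agent.S18.H208

end

end
-- ===== PACK-END S18/H208/M1.lean

-- ===== PACK-BEGIN S35/H891/Mid3.lean
section
/-
S35 mid layer for the CUBIC relation (helper891): `S35.H991.HasNewformEigenModules` (the input of
the landed top glue `S35.H991.result_of`) from

* the inputs of row S30 in the unfolded lattice form (`hfin hsm hgeq hunr hes hlat`, exactly as in
  `S35/H991/Mid.lean`);
* `NewPartFrob3Statement` : for `q ∥ M` there are two GALOIS-equivariant additive maps
  `a b : J₀(M) → J₀(M/q)` such that every Frobenius lift `σ` at `q` satisfies the CUBIC relation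
  `(σ² - q²)(σ² - 1)² x = 0` on the torsion prime to `q` of `ker a ∩ ker b`;
* `S35.H991.ExclTateStatement`.

Differences with `S35.H991.hasNewformEigenModules_of_inputs`:
* the relation is cubic in `σ²` (this is what the norm-residue argument NR gives without
  normalising the Kummer generator; the quartic relation on the eigenmodule FOLLOWS, by the
  algebra of `Cubic.lean` and the quadratic relation with determinant `q`);
* no Hecke-equivariance of `a`, `b` is asked: on torsion it follows from the Galois-equivariance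
  and the Eichler–Shimura relations (`S35.H155.map_hecke_of_galois`).
-/





set_option autoImplicit false

namespace Fermat.Agent.S35.H891

open TensorProduct IsLocalRing Fermat.Agent.S30.H990 Fermat.Agent.S30.H529
  Fermat.Agent.S35.H991

/-- Bad Frobenius on the `q`-new torsion, cubic form, for degeneracy maps `J₀(M) → J₀(K)`. -/
def NewPartFrob3At (M K q : ℕ) [NeZero M] [NeZero K] : Prop :=
  ∃ a b : ModularCurve.JZero M →+ ModularCurve.JZero K,
    (∀ (γ : GQ) (x : ModularCurve.JZero M), a (γ • x) = γ • a x) ∧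
    (∀ (γ : GQ) (x : ModularCurve.JZero M), b (γ • x) = γ • b x) ∧
    ∀ A : ValuationSubring (AlgebraicClosure ℚ), A.LiesOverPrime q →
      ∀ σ : GQ, A.IsFrobeniusAt σ q →
        ∀ m : ℕ, ¬ q ∣ m → ∀ x : ModularCurve.JZero M, m • x = 0 → a x = 0 → b x = 0 →
          σ • σ • σ • σ • σ • σ • x + (1 + 2 * q ^ 2) • (σ • σ • x)
            = (2 + q ^ 2) • (σ • σ • σ • σ • x) + q ^ 2 • x

/-- **Bad Frobenius on the `q`-new torsion, cubic form.** -/
def NewPartFrob3Statement : Prop :=
  ∀ (M q : ℕ) [NeZero M] [NeZero (M / q)], q.Prime → q ∣ M → ¬ q ^ 2 ∣ M →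
    NewPartFrob3At M (M / q) q

/-- **The newform eigenmodules from the inputs of row S30, the cubic relation and (X).** -/
theorem hasNewformEigenModules_of_cubic
    (hfin : ∀ (N p : ℕ) [NeZero N], p.Prime →
      Finite {x : ModularCurve.JZero N // (p : ℤ) • x = 0})
    (hsm : ∀ (N p : ℕ) [NeZero N], ∀ x : ModularCurve.JZero N,
      (∃ n : ℕ, ((p : ℤ) ^ n) • x = 0) →
        ∃ L : IntermediateField ℚ (AlgebraicClosure ℚ), FiniteDimensional ℚ L ∧
          ∀ σ : GQ, (∀ y ∈ L, σ y = y) → σ • x = x)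
    (hgeq : ∀ (N : ℕ) [NeZero N] (ℓ : Nat.Primes) (σ : GQ) (x : ModularCurve.JZero N),
      ModularCurve.heckeOperatorBar N ℓ (σ • x) = σ • ModularCurve.heckeOperatorBar N ℓ x)
    (hunr : ∀ (N p : ℕ) [NeZero N], ∀ q : ℕ, q.Prime → ¬ q ∣ N * p →
      ∀ A : ValuationSubring (AlgebraicClosure ℚ), A.LiesOverPrime q →
        ∀ σ ∈ A.inertiaSubgroupIn ℚ, ∀ x : ModularCurve.JZero N,
          (∃ n : ℕ, ((p : ℤ) ^ n) • x = 0) → σ • x = x)
    (hes : ∀ (N p : ℕ) [NeZero N], ∀ (ℓ : ℕ) (hℓ : ℓ.Prime), ¬ ℓ ∣ N * p →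
      ∀ A : ValuationSubring (AlgebraicClosure ℚ), A.LiesOverPrime ℓ →
        ∀ σ : GQ, A.IsFrobeniusAt σ ℓ → ∀ x : ModularCurve.JZero N,
          (∃ n : ℕ, ((p : ℤ) ^ n) • x = 0) →
            σ • σ • x - ModularCurve.heckeOperatorBar N ⟨ℓ, hℓ⟩ (σ • x) + (ℓ : ℤ) • x = 0)
    (hlat : ∀ (N p : ℕ) [NeZero N], p.Prime →
      ∃ (Λ : Type) (_ : AddCommGroup Λ) (_ : Module.Free ℤ Λ) (_ : Module.Finite ℤ Λ)
        (TΛ : Nat.Primes → Λ →ₗ[ℤ] Λ) (κ : ℕ → Λ →ₗ[ℤ] ModularCurve.JZero N),
        (∀ (n : ℕ) (x : Λ), κ n x = 0 ↔ ∃ y : Λ, x = ((p : ℤ) ^ n) • y) ∧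
        (∀ (n : ℕ) (x : Λ), (p : ℤ) • κ (n + 1) x = κ n x) ∧
        (∀ ℓ : Nat.Primes, ¬ (ℓ : ℕ) ∣ N * p → ∀ (n : ℕ) (x : Λ),
          κ n (TΛ ℓ x) = ModularCurve.heckeOperatorBar N ℓ (κ n x)) ∧
        (∀ (S : Set ℕ) (R : Type) [CommRing R] [IsDomain R] [CharZero R]
          (χ : CuspForm.heckeAlgebra N 2 S →+* R),
          ∃ v : R ⊗[ℤ] Λ, v ≠ 0 ∧
            ∀ (ℓ : ℕ) (hℓ : ℓ.Prime) (hℓN : ¬ ℓ ∣ N) (hℓS : ℓ ∉ S),
              (TΛ ⟨ℓ, hℓ⟩).baseChange R v = χ (CuspForm.heckeAlgebra.T hℓ hℓN hℓS) • v))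
    (hG : NewPartFrob3Statement) (hX : ExclTateStatement) :
    HasNewformEigenModules := by
  classical
  intro M _ g hg p _ S O' _ _ _ _ _ _ hpO' chig hchig iota hpS hMS
  have hp : p.Prime := Fact.out
  set χ : CuspForm.heckeAlgebra M 2 (↑S : Set ℕ) →+* O' := iota.comp chig.rangeRestrict with hχ
  obtain ⟨Λ, i1, i2, i3, TΛ, κ, hκ0, hκs, hκT, hocc⟩ := hlat M p hp
  obtain ⟨v, hv, hva⟩ := hocc (↑S : Set ℕ) O' χ
  -- good primes
  have hNp : ∀ ℓ : ℕ, ℓ.Prime → ¬ ℓ ∣ M → ℓ ≠ p → ¬ ℓ ∣ M * p := by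
    intro ℓ hℓ hℓN hℓp h
    rcases (Nat.Prime.dvd_mul hℓ).1 h with h | h
    · exact hℓN h
    · exact hℓp ((Nat.prime_dvd_prime_iff_eq hℓ hp).1 h)
  have hιp : ∀ i : {ℓ : Nat.Primes // ¬ (ℓ : ℕ) ∣ M ∧ (ℓ : ℕ) ∉ (↑S : Set ℕ)},
      ((i.1 : Nat.Primes) : ℕ) ≠ p := by
    intro i h
    exact i.2.2 (by rw [h]; exact hpS)
  -- conversions between `ℤ`- and `ℕ`-torsion
  have hpow : ∀ (N : ℕ) (n : ℕ) (x : ModularCurve.JZero N),
      ((p : ℤ) ^ n) • x = p ^ n • x := by
    intro N n x
    rw [← Nat.cast_pow, natCast_zsmul]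
  -- the torsion relations in the form of helper155
  have hTors : ∀ (N : ℕ) [NeZero N], Fermat.Agent.S35.H155.TorsRel N p := by
    intro N _ ℓ hℓ hℓN A hA
    refine ⟨fun σ hσ x hx => hunr N p ℓ hℓ hℓN A hA σ hσ x ?_, fun σ hσ x hx => ?_⟩
    · obtain ⟨n, hn⟩ := hx
      exact ⟨n, by rw [hpow]; exact hn⟩
    · have h := hes N p ℓ hℓ hℓN A hA σ hσ x (by
        obtain ⟨n, hn⟩ := hx
        exact ⟨n, by rw [hpow]; exact hn⟩)
      rw [natCast_zsmul] at h
      exact h
  -- the operators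
  let T : {ℓ : Nat.Primes // ¬ (ℓ : ℕ) ∣ M ∧ (ℓ : ℕ) ∉ (↑S : Set ℕ)} →
      ModularCurve.JZero M →+ ModularCurve.JZero M :=
    fun i => (ModularCurve.heckeOperatorBar M i.1).toAddMonoidHom
  let a : {ℓ : Nat.Primes // ¬ (ℓ : ℕ) ∣ M ∧ (ℓ : ℕ) ∉ (↑S : Set ℕ)} → O' :=
    fun i => χ (CuspForm.heckeAlgebra.T i.1.2 i.2.1 i.2.2)
  have hT' : ∀ i, (T i).toIntLinearMap = ModularCurve.heckeOperatorBar M i.1 :=
    fun i => LinearMap.ext fun _ => rfl
  have hfin' : {x : ModularCurve.JZero M | p • x = 0}.Finite := by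
    have h1 : {x : ModularCurve.JZero M | (p : ℤ) • x = 0}.Finite :=
      Set.finite_coe_iff.mp (hfin M p hp)
    refine h1.subset fun x hx => ?_
    show (p : ℤ) • x = 0
    rw [natCast_zsmul]
    exact hx
  -- the Kummer sequence (as in `S30.H649.exists_adicFrobModule_of_lattice`)
  have hκzero : ∀ w : O' ⊗[ℤ] Λ, (κ 0).baseChange O' w = 0 := by
    have h0 : κ 0 = 0 := by
      apply LinearMap.ext
      intro x
      rw [LinearMap.zero_apply, hκ0 0 x]
      exact ⟨x, by rw [pow_zero, one_smul]⟩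
    intro w
    rw [h0, LinearMap.baseChange_zero, LinearMap.zero_apply]
  have hκsucc : ∀ (n : ℕ) (w : O' ⊗[ℤ] Λ),
      (p : O') • (κ (n + 1)).baseChange O' w = (κ n).baseChange O' w := by
    intro n w
    have h1 : (p : ℤ) • κ (n + 1) = κ n := LinearMap.ext fun x => hκs n x
    have h2 : ((p : ℤ) : O') • (κ (n + 1)).baseChange O' w
        = (p : ℤ) • (κ (n + 1)).baseChange O' w := Fermat.Agent.S30.H649.intCast_smul_tensor _ _
    rw [Int.cast_natCast] at h2
    rw [h2, ← LinearMap.smul_apply, ← LinearMap.baseChange_smul, h1]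
  obtain ⟨n₀, hn₀⟩ := Fermat.Agent.S30.H649.exists_baseChange_ne_zero (𝒪 := O') hpO' κ hκ0 v hv
  obtain ⟨m₀, rfl⟩ : ∃ m₀, n₀ = m₀ + 1 := by
    cases n₀ with
    | zero => exact absurd (hκzero v) hn₀
    | succ m => exact ⟨m, rfl⟩
  let seq : ℕ → O' ⊗[ℤ] ModularCurve.JZero M := fun n => (κ (n + 1)).baseChange O' v
  have hseq0 : (p : O') • seq 0 = 0 := by
    show (p : O') • (κ (0 + 1)).baseChange O' v = 0
    rw [hκsucc 0 v, hκzero v]
  have hseqs : ∀ n, (p : O') • seq (n + 1) = seq n := fun n => hκsucc (n + 1) v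
  have hseqne : seq ≠ 0 := fun h => hn₀ (congrFun h m₀)
  have hseqeig : ∀ i n, tensorOp O' T i (seq n) = a i • seq n := by
    intro i n
    show ((T i).toIntLinearMap.baseChange O') ((κ (n + 1)).baseChange O' v)
      = a i • (κ (n + 1)).baseChange O' v
    have h1 : ModularCurve.heckeOperatorBar M i.1 ∘ₗ κ (n + 1) = κ (n + 1) ∘ₗ TΛ i.1 :=
      LinearMap.ext fun x => (hκT i.1 (hNp _ i.1.2 i.2.1 (hιp i)) (n + 1) x).symm
    have hva' : (TΛ i.1).baseChange O' v = a i • v := hva i.1 i.1.2 i.2.1 i.2.2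
    rw [hT' i, ← LinearMap.comp_apply, ← LinearMap.baseChange_comp, h1,
      LinearMap.baseChange_comp, LinearMap.comp_apply, hva', map_smul]
  -- the degeneracy maps at the primes `q ∥ M`, `q ≠ p`
  let Q : Type := {q : ℕ // q.Prime ∧ q ≠ p ∧ q ∣ M ∧ ¬ q ^ 2 ∣ M}
  have hne0 : ∀ q : Q, NeZero (M / q.1) := by
    intro q
    refine ⟨?_⟩
    have hM : M ≠ 0 := NeZero.ne M
    intro h0
    have h1 := Nat.div_mul_cancel q.2.2.2.1
    rw [h0, zero_mul] at h1
    exact hM h1.symm
  have hab : ∀ q : Q, ∃ a b : ModularCurve.JZero M →+ ModularCurve.JZero (M / q.1),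
      (∀ (γ : GQ) (x : ModularCurve.JZero M), a (γ • x) = γ • a x) ∧
      (∀ (γ : GQ) (x : ModularCurve.JZero M), b (γ • x) = γ • b x) ∧
      ∀ A : ValuationSubring (AlgebraicClosure ℚ), A.LiesOverPrime q.1 →
        ∀ σ : GQ, A.IsFrobeniusAt σ q.1 →
          ∀ m : ℕ, ¬ q.1 ∣ m → ∀ x : ModularCurve.JZero M, m • x = 0 → a x = 0 → b x = 0 →
            σ • σ • σ • σ • σ • σ • x + (1 + 2 * q.1 ^ 2) • (σ • σ • x)
              = (2 + q.1 ^ 2) • (σ • σ • σ • σ • x) + q.1 ^ 2 • x :=
    fun q => @hG M q.1 _ (hne0 q) q.2.1 q.2.2.2.1 q.2.2.2.2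
  choose da db hda hdb hfrobq using hab
  let J' : Q × Bool → Type := fun c => ModularCurve.JZero (M / c.1.1)
  let f : ∀ c : Q × Bool, ModularCurve.JZero M →+ J' c := fun c =>
    match c with
    | (q, true) => da q
    | (q, false) => db q
  let T'' : ∀ c : Q × Bool, {ℓ : Nat.Primes // ¬ (ℓ : ℕ) ∣ M ∧ (ℓ : ℕ) ∉ (↑S : Set ℕ)} →
      J' c →+ J' c :=
    fun c i => (@ModularCurve.heckeOperatorBar (M / c.1.1) (hne0 c.1) i.1).toAddMonoidHom
  have hdivp : ∀ (q : Q) (ℓ : ℕ), ℓ.Prime → ¬ ℓ ∣ M → ℓ ≠ p → ¬ ℓ ∣ (M / q.1) * p := by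
    intro q ℓ hℓ hℓN hℓp h
    rcases (Nat.Prime.dvd_mul hℓ).1 h with h | h
    · exact hℓN (h.trans (Nat.div_dvd_of_dvd q.2.2.2.1))
    · exact hℓp ((Nat.prime_dvd_prime_iff_eq hℓ hp).1 h)
  have hf : ∀ (c : Q × Bool) (i : {ℓ : Nat.Primes // ¬ (ℓ : ℕ) ∣ M ∧ (ℓ : ℕ) ∉ (↑S : Set ℕ)})
      (x : ModularCurve.JZero M), (∃ n : ℕ, p ^ n • x = 0) → f c (T i x) = T'' c i (f c x) := by
    rintro ⟨q, b⟩ i x hx
    cases b with
    | true =>
      exact @Fermat.Agent.S35.H155.map_hecke_of_galois M (M / q.1) _ (hne0 q) p (da q) (hda q)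
        (hTors M) (@hTors (M / q.1) (hne0 q)) i.1.1 i.1.2 (hNp _ i.1.2 i.2.1 (hιp i))
        (hdivp q _ i.1.2 i.2.1 (hιp i)) x hx
    | false =>
      exact @Fermat.Agent.S35.H155.map_hecke_of_galois M (M / q.1) _ (hne0 q) p (db q) (hdb q)
        (hTors M) (@hTors (M / q.1) (hne0 q)) i.1.1 i.1.2 (hNp _ i.1.2 i.2.1 (hιp i))
        (hdivp q _ i.1.2 i.2.1 (hιp i)) x hx
  have hexcl : ∀ (c : Q × Bool) (z : ℕ → O' ⊗[ℤ] J' c), (p : O') • z 0 = 0 →
      (∀ n, (p : O') • z (n + 1) = z n) →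
      (∀ i n, tensorOp O' (T'' c) i (z n) = a i • z n) → z = 0 := by
    intro c z hz0 hzs hzeig
    exact @hX M _ g hg c.1.1 (hne0 c.1) c.1.2.1 c.1.2.2.2.1 p _ S O' _ _ _ _ _ _ hpO' chig hchig
      iota hpS hMS z hz0 hzs (fun ℓ hℓ hℓM hℓS n => hzeig ⟨⟨ℓ, hℓ⟩, hℓM, hℓS⟩ n)
  -- the eigenmodule of the new part
  obtain ⟨E, j1, j2, j3, j4, ρ, hnt, hcont, hone, hquad, hcub⟩ :=
    exists_adic_eigenmodule_new3 (O := O') hpO' hp.ne_zero (J := ModularCurve.JZero M) T a
      (fun i γ x => hgeq M i.1 γ x) hfin'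
      (fun x hx => hsm M p x (by
        obtain ⟨n, hn⟩ := hx
        exact ⟨n, by rw [hpow]; exact hn⟩))
      T'' f hf hexcl seq hseq0 hseqs hseqne hseqeig
  -- the adic eigenmodule
  let EM : AdicEigenModule p M S O' χ :=
    { M := E
      ρ := ρ
      cont := hcont
      unram := fun q hq hqN hqp P hP σ hσ =>
        hone σ fun x hx _ => hunr M p q hq (hNp q hq hqN hqp) P hP σ hσ x (by
          obtain ⟨n, hn⟩ := hx
          exact ⟨n, by rw [hpow]; exact hn⟩)
      frob := fun ℓ hℓ hℓN hℓS A hA σ hσ => by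
        have hℓp : ℓ ≠ p := fun h => hℓS (Finset.mem_coe.mpr (h ▸ hpS))
        have h := hquad σ ⟨⟨ℓ, hℓ⟩, hℓN, hℓS⟩ ((ℓ : ℕ) : ℤ)
          (fun x hx _ => hes M p ℓ hℓ (hNp ℓ hℓ hℓN hℓp) A hA σ hσ x (by
            obtain ⟨n, hn⟩ := hx
            exact ⟨n, by rw [hpow]; exact hn⟩))
        simpa using h }
  refine ⟨EM, ?_⟩
  -- the bad-Frobenius relation: cubic on the module, then quartic by algebra
  intro q hq hqp hqM hq2 A hA σ hσ
  have hqpn : ∀ n : ℕ, ¬ q ∣ p ^ n := by
    intro n h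
    exact hqp ((Nat.prime_dvd_prime_iff_eq hq hp).1 (hq.dvd_of_dvd_pow h))
  have hc := hcub (σ * σ) (-(2 + (q : ℤ) ^ 2)) (1 + 2 * (q : ℤ) ^ 2) (-((q : ℤ) ^ 2)) (by
    rintro x ⟨n, hn⟩ hnew
    have h1 := hfrobq ⟨q, hq, hqp, hqM, hq2⟩ A hA σ hσ (p ^ n) (hqpn n) x hn
      (by simpa using hnew 1 (⟨q, hq, hqp, hqM, hq2⟩, true))
      (by simpa using hnew 1 (⟨q, hq, hqp, hqM, hq2⟩, false))
    simp only [mul_smul]
    have h2 : σ • σ • σ • σ • σ • σ • x + (1 + 2 * q ^ 2) • (σ • σ • x)
        = (2 + q ^ 2) • (σ • σ • σ • σ • x) + q ^ 2 • x := h1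
    generalize σ • σ • σ • σ • σ • σ • x = X6 at h2 ⊢
    generalize σ • σ • σ • σ • x = X4 at h2 ⊢
    generalize σ • σ • x = X2 at h2 ⊢
    linear_combination (norm := module) h2)
  -- the quadratic relation with determinant `q`
  obtain ⟨d, hdfrob, -, -, hdcont⟩ := exists_cyclo p O' hpO'
  have hcheb : ChebWeak :=
    chebWeak_of_frobeniusDivision Fermat.Agent.Lib.Cheb.frobeniusDivision
  obtain ⟨tr, htr⟩ : ∃ tr, S30.H990.Rel EM.ρ d σ tr :=
    exists_rel_of_mod EM.ρ d σ (fun n => exists_rel_mod hcheb hpS hMS EM d hdfrob hdcont σ n)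
  have hdσ : ((d σ : O'ˣ) : O') = (q : O') := hdfrob q hq hqp A hA σ hσ
  have hq0 : (q : O') ≠ 0 := Nat.cast_ne_zero.mpr hq.ne_zero
  have hquad' : ∀ w : EM.M, EM.ρ σ (EM.ρ σ w) - tr • EM.ρ σ w + (q : O') • w = 0 := by
    intro w
    have := rel_apply EM.ρ d htr w
    rwa [hdσ] at this
  have hcubic : CubicFrobRel (q : O') (EM.ρ σ) := by
    intro w
    have h2 := hc w
    have hmul : ∀ u : E, ρ (σ * σ) u = ρ σ (ρ σ u) := by
      intro u
      rw [map_mul]
      rfl
    rw [hmul, hmul, hmul] at h2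
    show ρ σ (ρ σ (ρ σ (ρ σ (ρ σ (ρ σ w))))) - (2 + (q : O') ^ 2) • ρ σ (ρ σ (ρ σ (ρ σ w)))
      + (1 + 2 * (q : O') ^ 2) • ρ σ (ρ σ w) - ((q : O') ^ 2) • w = 0
    have e1 : ((-(2 + (q : ℤ) ^ 2) : ℤ) : O') = -(2 + (q : O') ^ 2) := by push_cast; ring
    have e2 : ((1 + 2 * (q : ℤ) ^ 2 : ℤ) : O') = 1 + 2 * (q : O') ^ 2 := by push_cast; ring
    have e3 : ((-((q : ℤ) ^ 2) : ℤ) : O') = -((q : O') ^ 2) := by push_cast; ring
    rw [e1, e2, e3] at h2
    rw [← h2]
    module
  intro w
  exact quartic_of_cubicFrob hq0 hquad' hcubic w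

end Fermat.Agent.S35.H891

end
-- ===== PACK-END S35/H891/Mid3.lean

-- ===== PACK-BEGIN S35/H891/Wired3.lean
section
/-
S35 (helper891): the frozen statement S35 from the CUBIC bad-Frobenius relation.

`result_of_cubic` : the frozen statement S35 (binders as in the template) from
* the six inputs of row S30 in the unfolded lattice form (`S34/H789/Inputs.lean` shapes, exactly
  as in `S35/H991/Wired.lean`),
* `NewPartFrob3Statement` (cubic relation on the `q`-new torsion, Galois-equivariant degeneracy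
  maps),
* `S35.H991.ExclTateStatement`.
-/


set_option autoImplicit false

namespace Fermat.Agent.S35.H891

open Polynomial TensorProduct Fermat.Agent.S30.H990 Fermat.Agent.S35.H991

theorem result_of_cubic
    (hfin : ∀ (N p : ℕ) [NeZero N], p.Prime →
      Finite {x : ModularCurve.JZero N // (p : ℤ) • x = 0})
    (hsm : ∀ (N p : ℕ) [NeZero N], ∀ x : ModularCurve.JZero N,
      (∃ n : ℕ, ((p : ℤ) ^ n) • x = 0) →
        ∃ L : IntermediateField ℚ (AlgebraicClosure ℚ), FiniteDimensional ℚ L ∧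
          ∀ σ : GQ, (∀ y ∈ L, σ y = y) → σ • x = x)
    (hgeq : ∀ (N : ℕ) [NeZero N] (ℓ : Nat.Primes) (σ : GQ) (x : ModularCurve.JZero N),
      ModularCurve.heckeOperatorBar N ℓ (σ • x) = σ • ModularCurve.heckeOperatorBar N ℓ x)
    (hunr : ∀ (N p : ℕ) [NeZero N], ∀ q : ℕ, q.Prime → ¬ q ∣ N * p →
      ∀ A : ValuationSubring (AlgebraicClosure ℚ), A.LiesOverPrime q →
        ∀ σ ∈ A.inertiaSubgroupIn ℚ, ∀ x : ModularCurve.JZero N,
          (∃ n : ℕ, ((p : ℤ) ^ n) • x = 0) → σ • x = x)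
    (hes : ∀ (N p : ℕ) [NeZero N], ∀ (ℓ : ℕ) (hℓ : ℓ.Prime), ¬ ℓ ∣ N * p →
      ∀ A : ValuationSubring (AlgebraicClosure ℚ), A.LiesOverPrime ℓ →
        ∀ σ : GQ, A.IsFrobeniusAt σ ℓ → ∀ x : ModularCurve.JZero N,
          (∃ n : ℕ, ((p : ℤ) ^ n) • x = 0) →
            σ • σ • x - ModularCurve.heckeOperatorBar N ⟨ℓ, hℓ⟩ (σ • x) + (ℓ : ℤ) • x = 0)
    (hlat : ∀ (N p : ℕ) [NeZero N], p.Prime →
      ∃ (Λ : Type) (_ : AddCommGroup Λ) (_ : Module.Free ℤ Λ) (_ : Module.Finite ℤ Λ)
        (TΛ : Nat.Primes → Λ →ₗ[ℤ] Λ) (κ : ℕ → Λ →ₗ[ℤ] ModularCurve.JZero N),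
        (∀ (n : ℕ) (x : Λ), κ n x = 0 ↔ ∃ y : Λ, x = ((p : ℤ) ^ n) • y) ∧
        (∀ (n : ℕ) (x : Λ), (p : ℤ) • κ (n + 1) x = κ n x) ∧
        (∀ ℓ : Nat.Primes, ¬ (ℓ : ℕ) ∣ N * p → ∀ (n : ℕ) (x : Λ),
          κ n (TΛ ℓ x) = ModularCurve.heckeOperatorBar N ℓ (κ n x)) ∧
        (∀ (S : Set ℕ) (R : Type) [CommRing R] [IsDomain R] [CharZero R]
          (χ : CuspForm.heckeAlgebra N 2 S →+* R),
          ∃ v : R ⊗[ℤ] Λ, v ≠ 0 ∧
            ∀ (ℓ : ℕ) (hℓ : ℓ.Prime) (hℓN : ¬ ℓ ∣ N) (hℓS : ℓ ∉ S),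
              (TΛ ⟨ℓ, hℓ⟩).baseChange R v = χ (CuspForm.heckeAlgebra.T hℓ hℓN hℓS) • v))
    (hG : NewPartFrob3Statement) (hX : ExclTateStatement)
    {M : ℕ} [NeZero M] {g : CuspForm (CongruenceSubgroup.Gamma0 M) 2} (hg : g.IsNewform)
    (lam : ℕ) [Fact lam.Prime]
    (S : Finset ℕ)
    (O' : Type) [CommRing O'] [IsDomain O'] [IsDiscreteValuationRing O']
    [IsAdicComplete (IsLocalRing.maximalIdeal O') O'] [Finite (IsLocalRing.ResidueField O')]
    [CharZero O'] (hlamO' : (lam : O') ∈ IsLocalRing.maximalIdeal O')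
    (chig : CuspForm.heckeAlgebra M 2 (↑S : Set ℕ) →+* ℂ)
    (hchig : ∀ (ℓ : ℕ) (hℓ : ℓ.Prime) (hℓM : ¬ ℓ ∣ M) (hℓS : ℓ ∉ (↑S : Set ℕ)),
      chig (CuspForm.heckeAlgebra.T hℓ hℓM hℓS) = ModularFormClass.qCoeff g ℓ)
    (iota : chig.range →+* O')
    (hlamS : lam ∈ S) (hMS : ∀ q : ℕ, q.Prime → q ∣ M → q ∈ S) :
    ∃ (O'' : Type) (_ : CommRing O'') (_ : IsDomain O'') (_ : IsDiscreteValuationRing O'')
      (_ : IsAdicComplete (IsLocalRing.maximalIdeal O'') O'') (_ : Finite (IsLocalRing.ResidueField O''))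
      (_ : CharZero O'') (_ : Algebra O' O'') (_ : Module.Finite O' O'') (_ : IsLocalHom (algebraMap O' O'')),
      Function.Injective (algebraMap O' O'') ∧
      ∃ ρ : GaloisRepAdic O'',
        (∀ (ℓ : ℕ) (hℓ : ℓ.Prime) (hℓM : ¬ ℓ ∣ M) (hℓS : ℓ ∉ (↑S : Set ℕ)),
          ∀ A : ValuationSubring (AlgebraicClosure ℚ), A.LiesOverPrime ℓ →
            ∀ σ : AlgebraicClosure ℚ ≃ₐ[ℚ] AlgebraicClosure ℚ, A.IsFrobeniusAt σ ℓ →
              LinearMap.charpoly (ρ.ρ σ) =
                X ^ 2 - C (algebraMap O' O'' ((iota.comp chig.rangeRestrict) (CuspForm.heckeAlgebra.T hℓ hℓM hℓS))) * X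
                  + C ((ℓ : O''))) ∧
        (∀ q : ℕ, q.Prime → q ≠ lam → q ∣ M → ¬ q ^ 2 ∣ M →
          ∀ A : ValuationSubring (AlgebraicClosure ℚ), A.LiesOverPrime q →
            ∀ σ : AlgebraicClosure ℚ ≃ₐ[ℚ] AlgebraicClosure ℚ, A.IsFrobeniusAt σ q →
              LinearMap.charpoly (ρ.ρ σ) = X ^ 2 - C ((q : O'') + 1) * X + C ((q : O'')) ∨
              LinearMap.charpoly (ρ.ρ σ) = X ^ 2 + C ((q : O'') + 1) * X + C ((q : O''))) :=
  _root_.Fermat.Agent.S35.H991.result_of (hasNewformEigenModules_of_cubic hfin hsm hgeq hunr hes hlat hG hX)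
    hg lam S O' hlamO' chig hchig iota hlamS hMS

end Fermat.Agent.S35.H891

end
-- ===== PACK-END S35/H891/Wired3.lean

-- ===== PACK-BEGIN S36/H586/G1Table.lean
section




/-!
# S36 engine, ALG3 leaf STEP-A (helper586), part 3: the norm table of a three-component context

Adapters from the elementwise vocabulary of `Eng/Spec.lean` (`UnitAt`, `UnifAt`, the fields of
`Eng.TripleCtx` passed one by one) to the valuation vocabulary of `StepAB.lean`
(`IsOrd`, `PU`, `NormTable`).

* `unitAt_iff`, `isOrd_iff_unitAt`, `pu_iff`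
* `over_of_comap`, `over_isOrd_down`
* `res_lift_of_chart` : chart-level residue lifts (`res_α₁`, …) ⟹ valuation-level residue lifts
                        (a sheet is the localisation of the chart);
* `normAlong_map`     : `N_φ (φ a) = a ^ [F : φ F']`;
* `normTable_of_fields` : the `NormTable` of one degeneracy map.
-/

set_option autoImplicit false
set_option linter.style.haveILetI false
set_option linter.unusedSectionVars false
set_option linter.unusedVariables false

noncomputable section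

namespace Fermat.Agent.S36.H586

open Fermat.Agent.S36.Eng
open Fermat.Agent.S18.H138 (chart baseField)
open Fermat.Agent.A2.H12 (IsSheet)
open AlgebraicCurve

section Vocab

variable {F : Type*} [Field F]

theorem unitAt_iff {V : ValuationSubring F} {y : F} : UnitAt V y ↔ V.valuation y = 1 := by
  constructor
  · rintro ⟨h0, h1, h2⟩
    have a1 := (ValuationSubring.valuation_le_one_iff V _).2 h1
    have a2 := (ValuationSubring.valuation_le_one_iff V _).2 h2
    rw [map_inv₀] at a2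
    have hv0 : 0 < V.valuation y := zero_lt_iff.2 ((Valuation.ne_zero_iff _).2 h0)
    exact le_antisymm a1 ((inv_le_one₀ hv0).1 a2)
  · intro h
    have h0 : y ≠ 0 := by
      rintro rfl
      rw [map_zero] at h
      exact zero_ne_one h
    refine ⟨h0, (ValuationSubring.valuation_le_one_iff V _).1 h.le, ?_⟩
    rw [← ValuationSubring.valuation_le_one_iff, map_inv₀, h, inv_one]

theorem isOrd_iff_unitAt {V : ValuationSubring F} {t : F} (ht0 : t ≠ 0) (y : F) (a : ℤ) :
    IsOrd V t y a ↔ UnitAt V (y * (t ^ a)⁻¹) := by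
  rw [unitAt_iff, map_mul, map_inv₀, map_zpow₀]
  have h0 : V.valuation t ^ a ≠ 0 := zpow_ne_zero a (val_ne_zero_of_ne_zero ht0)
  unfold IsOrd
  constructor
  · intro h
    rw [h]
    exact mul_inv_cancel₀ h0
  · intro h
    have := congrArg (fun z => z * V.valuation t ^ a) h
    simpa [mul_assoc, inv_mul_cancel₀ h0] using this

theorem pu_iff {V : ValuationSubring F} {u : F} : PU V u ↔ u - 1 ∈ V.nonunits :=
  (ValuationSubring.mem_nonunits_iff V).symm

theorem val_lt_one_iff_mem_nonunits {V : ValuationSubring F} {u : F} :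
    V.valuation u < 1 ↔ u ∈ V.nonunits :=
  (ValuationSubring.mem_nonunits_iff V).symm

theorem UnifAt.val_lt_one {V : ValuationSubring F} {t : F} (h : UnifAt V t) :
    V.valuation t < 1 := val_lt_one_of_mem_nonunits h.2.1

/-- Orders exist at a discrete valuation subring with a uniformiser in the sense of
`Eng.UnifAt`. -/
theorem exists_isOrd_of_unifAt (V : ValuationSubring F) [IsDiscreteValuationRing V] {t : F}
    (h : UnifAt V t) (y : F) (hy : y ≠ 0) : ∃ a : ℤ, IsOrd V t y a :=
  exists_isOrd_of_dvr V h.1 h.2.1 h.2.2 y hy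

end Vocab

section OverDown

variable {F' F : Type*} [Field F'] [Field F] {φ : F' →+* F} {O : ValuationSubring F'}
  {V : ValuationSubring F}

theorem over_of_comap (h : V.comap φ = O) : ∀ a : F', φ a ∈ V ↔ a ∈ O := by
  intro a
  rw [← h, ValuationSubring.mem_comap]

theorem over_isOrd_down (hov : ∀ a : F', φ a ∈ V ↔ a ∈ O) {t : F'} (ht0 : t ≠ 0) (a : F')
    (n : ℤ) (h : IsOrd V (φ t) (φ a) n) : IsOrd O t a n := by
  have hφt : φ t ≠ 0 := (map_ne_zero φ).2 ht0
  have h1 : V.valuation (φ (a * (t ^ n)⁻¹)) = 1 := by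
    rw [map_mul, map_inv₀, map_zpow₀]
    exact unitAt_iff.1 ((isOrd_iff_unitAt hφt _ _).1 h)
  have h2 := (over_val_eq_one hov _).1 h1
  exact (isOrd_iff_unitAt ht0 _ _).2 (unitAt_iff.2 h2)

end OverDown

/-! ## Residue lifts: from the chart to the valuation ring -/

section ResLift

universe u

variable {R : Type u} [CommRing R] [IsDomain R] [IsNoetherianRing R]
  [IsIntegrallyClosed (Polynomial R)]
variable {F : Type u} [Field F] [Algebra R F] [CharZero F]
variable {F' : Type*} [Field F']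

/-- If every element of the chart is congruent modulo `𝔪_V` to an element of `φ F'`, so is every
unit of the sheet `V`. -/
theorem res_lift_of_chart (hinjR : Function.Injective (algebraMap R F)) {w : R} (hw : Prime w)
    {x : F} (hx : Transcendental R x) [FiniteDimensional (baseField R x) F]
    {V : ValuationSubring F} (hV : IsSheet w x V) (φ : F' →+* F)
    (hres : ∀ b ∈ chart R ({x} : Set F), ∃ b' : F', b - φ b' ∈ V.nonunits)
    (y : F) (hy : V.valuation y = 1) : ∃ a : F', V.valuation (y - φ a) < 1 := by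
  have hyV : y ∈ V := (ValuationSubring.valuation_le_one_iff V _).1 hy.le
  obtain ⟨a, s, hs, hya⟩ := (Fermat.Agent.S36.H193.sheet_mem_iff hinjR hw hx hV y).1 hyV
  have haV : (a : F) ∈ V := Fermat.Agent.S36.H193.sheet_chart_le hV _ a.2
  have hsV : (s : F) ∈ V := Fermat.Agent.S36.H193.sheet_chart_le hV _ s.2
  have hs1 : V.valuation (s : F) = 1 := by
    refine le_antisymm ((ValuationSubring.valuation_le_one_iff V _).2 hsV) (not_lt.1 ?_)
    intro h
    exact hs ((ValuationSubring.mem_nonunits_iff V).2 h)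
  obtain ⟨a', ha'⟩ := hres a a.2
  obtain ⟨s', hs'⟩ := hres s s.2
  have ha'' : V.valuation ((a : F) - φ a') < 1 := (ValuationSubring.mem_nonunits_iff V).1 ha'
  have hs'' : V.valuation ((s : F) - φ s') < 1 := (ValuationSubring.mem_nonunits_iff V).1 hs'
  have hφs1 : V.valuation (φ s') = 1 := by
    have e : φ s' = (s : F) + -((s : F) - φ s') := by ring
    rw [e, Valuation.map_add_eq_of_lt_left _ (by rw [Valuation.map_neg, hs1]; exact hs''), hs1]
  have hs0 : (s : F) ≠ 0 := by
    intro h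
    rw [h, map_zero] at hs1
    exact zero_ne_one hs1
  have hφs0 : φ s' ≠ 0 := by
    intro h
    rw [h, map_zero] at hφs1
    exact zero_ne_one hφs1
  refine ⟨a' * s'⁻¹, ?_⟩
  have e : y - φ (a' * s'⁻¹) =
      (((a : F) - φ a') * (s : F) + -((a : F) * ((s : F) - φ s'))) * ((s : F) * φ s')⁻¹ := by
    rw [hya, map_mul, map_inv₀]
    field_simp
    ring
  rw [e, map_mul, map_inv₀, map_mul, hs1, hφs1, mul_one, inv_one, mul_one]
  refine Valuation.map_add_lt _ ?_ ?_
  · rw [map_mul, hs1, mul_one]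
    exact ha''
  · rw [Valuation.map_neg, map_mul]
    calc V.valuation (a : F) * V.valuation ((s : F) - φ s')
        ≤ 1 * V.valuation ((s : F) - φ s') := by
          gcongr
          exact (ValuationSubring.valuation_le_one_iff V _).2 haV
      _ = V.valuation ((s : F) - φ s') := one_mul _
      _ < 1 := hs''

end ResLift

/-! ## The norm table -/

section Table

variable {E F F' : Type*} [Field E] [Field F] [Field F'] [Algebra E F] [Algebra E F']

/-- `N_φ (φ a) = a ^ [F : φ F']`. -/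
theorem normAlong_map (φ : F' →ₐ[E] F) (a : F') :
    S29.H395.normAlong φ (φ a) =
      a ^ (letI := algebraAlong φ; Module.finrank F' F) := by
  letI := algebraAlong φ
  exact Algebra.norm_algebraMap a

/-- **The norm table of one degeneracy map**, from the fields of `Eng.TripleCtx`. -/
theorem normTable_of_fields (φ : F' →ₐ[E] F) (q : ℕ) (hq : 0 < q) (w' : F') (w π : F)
    (hφw : φ w' = w) (Os Oi : ValuationSubring F') (Vu Vr Vi : ValuationSubring F)
    [IsDiscreteValuationRing Vu] [IsDiscreteValuationRing Vr] [IsDiscreteValuationRing Vi]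
    (hu : UnifAt Vu w) (hi : UnifAt Vi w) (hπ : UnifAt Vr π)
    (hram : UnitAt Vr (w * (π ^ (q - 1))⁻¹))
    (cu : Vu.comap (φ : F' →+* F) = Os) (cr : Vr.comap (φ : F' →+* F) = Os)
    (ci : Vi.comap (φ : F' →+* F) = Oi)
    (resu : ∀ y : F, Vu.valuation y = 1 → ∃ a : F', Vu.valuation (y - φ a) < 1)
    (resr : ∀ y : F, Vr.valuation y = 1 → ∃ a : F', Vr.valuation (y - φ a) < 1)
    (nv : ∀ (y : F) (a₁ a₂ a₃ : ℤ), y ≠ 0 → UnitAt Vu (y * (w ^ a₁)⁻¹) →
      UnitAt Vr (y * (π ^ a₂)⁻¹) → UnitAt Vi (y * (w ^ a₃)⁻¹) →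
      UnitAt Os (S29.H395.normAlong φ y * (w' ^ (a₁ + a₂))⁻¹) ∧
        UnitAt Oi (S29.H395.normAlong φ y * (w' ^ ((q : ℤ) * a₃))⁻¹))
    (nrs : ∀ y : F, UnitAt Vu y → UnitAt Vr y → ∀ x₁ x₂ : F',
      φ x₁ - y ∈ Vu.nonunits → φ x₂ - y ∈ Vr.nonunits →
      S29.H395.normAlong φ y - x₁ * x₂ ^ (q - 1) ∈ Os.nonunits)
    (nri : ∀ y : F, UnitAt Vi y → φ (S29.H395.normAlong φ y) - y ^ q ∈ Vi.nonunits) :
    NormTable (φ : F' →+* F) (S29.H395.normAlong φ) q w' π Os Oi Vu Vr Vi := by
  have hw0 : w ≠ 0 := hu.1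
  have hw'0 : w' ≠ 0 := by
    rintro rfl
    rw [map_zero] at hφw
    exact hw0 hφw.symm
  have hπ0 : π ≠ 0 := hπ.1
  have ovu := over_of_comap cu
  have ovr := over_of_comap cr
  have ovi := over_of_comap ci
  have hφw' : (φ : F' →+* F) w' = w := hφw
  -- `w'` is small at `Os`
  have hw's : Os.valuation w' < 1 := by
    rw [← over_val_lt_one ovu, hφw']
    exact UnifAt.val_lt_one hu
  -- the order of `w` at `Vr`
  have hramO : IsOrd Vr π w ((q - 1 : ℕ) : ℤ) := by
    rw [isOrd_iff_unitAt hπ0, zpow_natCast]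
    exact hram
  -- the two valuation formulas
  have val_s : ∀ (y : F) (a b : ℤ), IsOrd Vu w y a → IsOrd Vr π y b →
      IsOrd Os w' (S29.H395.normAlong φ y) (a + b) := by
    intro y a b ha hb
    have hy0 : y ≠ 0 := ha.ne_zero hw0
    obtain ⟨c, hc⟩ := exists_isOrd_of_unifAt Vi hi y hy0
    rw [isOrd_iff_unitAt hw'0]
    exact (nv y a b c hy0 ((isOrd_iff_unitAt hw0 _ _).1 ha) ((isOrd_iff_unitAt hπ0 _ _).1 hb)
      ((isOrd_iff_unitAt hw0 _ _).1 hc)).1
  -- the degree
  have hdeg : (letI := algebraAlong φ; Module.finrank F' F) = q := by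
    have h1 : IsOrd Os w' (S29.H395.normAlong φ w) ((1 : ℤ) + ((q - 1 : ℕ) : ℤ)) :=
      val_s w 1 _ IsOrd.self hramO
    have h2 : IsOrd Os w' (S29.H395.normAlong φ w)
        (((letI := algebraAlong φ; Module.finrank F' F : ℕ) : ℤ) * 1) := by
      rw [← hφw, normAlong_map]
      exact IsOrd.self.pow _
    have h3 := IsOrd.unique hw'0 hw's h1 h2
    have h4 : ((q - 1 : ℕ) : ℤ) = (q : ℤ) - 1 := by
      rw [Nat.cast_sub hq]
      simp
    rw [h4] at h3
    have h5 : ((letI := algebraAlong φ; Module.finrank F' F : ℕ) : ℤ) = (q : ℤ) := by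
      linarith
    exact_mod_cast h5
  refine
    { norm_one := S29.H395.normAlong_one φ
      norm_mul := S29.H395.normAlong_mul φ
      norm_w := ?_
      over_u := ovu
      over_r := ovr
      over_i := ovi
      res_u := resu
      res_r := resr
      res_i := ?_
      norm_s := ?_
      norm_i := ?_
      val_s := ?_
      val_i := ?_ }
  · show S29.H395.normAlong φ (φ w') = w' ^ q
    rw [normAlong_map, hdeg]
  · intro y hy
    refine ⟨S29.H395.normAlong φ y, ?_⟩
    have h := nri y (unitAt_iff.2 hy)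
    rw [← Valuation.map_neg, neg_sub]
    exact (ValuationSubring.mem_nonunits_iff Vi).1 h
  · intro y a b hyu hyr ha hb
    refine (ValuationSubring.mem_nonunits_iff Os).1
      (nrs y (unitAt_iff.2 hyu) (unitAt_iff.2 hyr) a b ?_ ?_)
    · rw [ValuationSubring.mem_nonunits_iff, ← Valuation.map_neg, neg_sub]
      exact ha
    · rw [ValuationSubring.mem_nonunits_iff, ← Valuation.map_neg, neg_sub]
      exact hb
  · intro y c hy hyc
    have h := (ValuationSubring.mem_nonunits_iff Vi).1 (nri y (unitAt_iff.2 hy))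
    have h2 : Vi.valuation ((φ : F' →+* F) (S29.H395.normAlong φ y - c)) < 1 := by
      have e : (φ : F' →+* F) (S29.H395.normAlong φ y - c) =
          (φ (S29.H395.normAlong φ y) - y ^ q) + (y ^ q - φ c) := by
        rw [map_sub]
        show φ (S29.H395.normAlong φ y) - φ c = _
        ring
      rw [e]
      exact Valuation.map_add_lt _ h hyc
    exact (over_val_lt_one ovi _).1 h2
  · intro y a b ha hb
    rw [hφw'] at ha
    exact val_s y a b ha hb
  · intro y c hc
    rw [hφw'] at hc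
    have hy0 : y ≠ 0 := hc.ne_zero hw0
    obtain ⟨a, ha⟩ := exists_isOrd_of_unifAt Vu hu y hy0
    obtain ⟨b, hb⟩ := exists_isOrd_of_unifAt Vr hπ y hy0
    rw [isOrd_iff_unitAt hw'0]
    exact (nv y a b c hy0 ((isOrd_iff_unitAt hw0 _ _).1 ha) ((isOrd_iff_unitAt hπ0 _ _).1 hb)
      ((isOrd_iff_unitAt hw0 _ _).1 hc)).2

end Table

end Fermat.Agent.S36.H586

end

end
-- ===== PACK-END S36/H586/G1Table.lean

-- ===== PACK-BEGIN S59/H667/CRInputs.lean
section






/-!
# S59 / layer E — discharge of the finite-level inputs `CR-F` and `CR-D` of helper127's assembly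

`Fermat.Agent.S59.H127.Inputs` freezes the finite-level inputs of `Arch.CurveRep`.  This file
proves two of them in the exact shapes:

* `frobRelInput p W : H127.FrobRelInput p W`  (unconditional: every good prime `ℓ ≠ p`,
  including `ℓ = 2, 3`; from helper545's `Lib.Frob.Small.frobRelationAll`);
* `detInput_of_irreducible : W.Δ ≠ 0 → W.ModRepIsIrreducible p → H127.DetInput p W`
  (the hypotheses are those of `Arch.CurveRepStatement`);
* `unramInput p W : H127.UnramInput p W`  (unconditional; helper899's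
  `H899.inertia_smul_eq_self_of_good` in the `H127` shape).

With helper240's `unipInput_of_semistable` these are four of the six inputs of `CR-ASM`
(`H127/AsmZp.lean`); the remaining two are `FlatInput` (CR-FLAT) and `OrdInput` (CR-ORD).
-/

set_option autoImplicit false
set_option linter.style.haveILetI false

open WeierstrassCurve WeierstrassCurve.Affine WeierstrassCurve.Affine.Point

namespace Fermat.Agent.S59.H667

/-- **CR-F**: the Frobenius relation on `E[p^∞]` at every good prime `ℓ ≠ p`. -/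
theorem frobRelInput (p : ℕ) (hp : p.Prime) (W : WeierstrassCurve ℤ) :
    Fermat.Agent.S59.H127.FrobRelInput p W := by
  intro ℓ hℓ hgood hℓp A hA σ hσ n x hx
  exact Fermat.Agent.Lib.Frob.Small.frobRelationAll W ℓ hℓ hgood A σ hA hσ (p ^ n)
    (pow_pos hp.pos n) (not_dvd_pow_of_prime_ne hp hℓ hℓp n) x hx

/-- **CR-D**: the determinant on `E[p^n]` is the cyclotomic character, for irreducible `E[p]`. -/
theorem detInput_of_irreducible (p : ℕ) [Fact p.Prime] (W : WeierstrassCurve ℤ) (hΔ : W.Δ ≠ 0)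
    (hirr : W.ModRepIsIrreducible p) : Fermat.Agent.S59.H127.DetInput p W := by
  intro n σ a ha
  have hE := isElliptic_of_Δ_ne_zero W hΔ
  obtain ⟨cb⟩ : Nonempty (Fermat.Agent.S59.H127.CompatBasis (PtsE W) p 2) :=
    Fermat.Agent.S59.H127.nonempty_compatBasis_point _ p
  exact det_rhoFin_eq_natCast' W hΔ p hirr cb n σ a ha

/-- **CR-U**: inertia at a good prime `ℓ ≠ p` acts trivially on `E[p^∞]`. -/
theorem unramInput (p : ℕ) (hp : p.Prime) (W : WeierstrassCurve ℤ) :
    Fermat.Agent.S59.H127.UnramInput p W := by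
  intro ℓ hℓ hgood hℓp A hA σ hσ n x hx
  exact Fermat.Agent.S59.H899.inertia_smul_eq_self_of_good W hℓ hgood
    (not_dvd_pow_of_prime_ne hp hℓ hℓp n) A hA σ hσ x hx

end Fermat.Agent.S59.H667

end
-- ===== PACK-END S59/H667/CRInputs.lean

-- ===== PACK-BEGIN S59/TW/H658/Hodge.lean
section





/-!
# S59 / TW-ES (helper658): Hodge existence and Eichler–Shimura surjectivity for a general level

For a level `L : Lev` (a subgroup `L.Γ ≤ SL(2,ℤ)` containing `-1` and some `Γ(N)`):

* `exists_cuspForm_re_perG_eq` (**Hodge existence**): every real parabolic homomorphism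
  `φ : L.Γ → ℝ` is the real part of the period homomorphism `perG f` of a weight-2 cusp form `f`
  on `L.Γ`;
* `exists_perG_add_conj` (**Eichler–Shimura surjectivity**): every complex parabolic
  homomorphism `ψ : L.Γ → ℂ` is `perG f₁ + conj ∘ perG f₂` for cusp forms `f₁ f₂`.

Port of the `Γ₀(N)` proof of S21 (`Fermat.Agent.S21.exists_cuspForm_re_period_eq`).
-/

set_option autoImplicit false

open ModularCurve ModularCurve.Period UpperHalfPlane CongruenceSubgroup Filter Topology
open MeasureTheory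
open scoped MatrixGroups ComplexConjugate ContDiff

namespace Fermat.Agent.S59.TW.H658

open Fermat.Agent.S21

/-- **Hodge existence** for a general level: every real parabolic homomorphism is the real part
of the period homomorphism of a cusp form. -/
theorem exists_cuspForm_re_perG_eq (L : Lev) (φ : Additive (L.Γ) →+ ℝ)
    (hφ : IsParabolicHom (L.Γ) φ) :
    ∃ f : CuspForm (L.Γ) 2, ∀ γ : L.Γ,
      (perG f (Additive.ofMul γ)).re = φ (Additive.ofMul γ) := by
  obtain ⟨u, hu_smooth, hu_per, hu_cauchy, hu_weak, hu_cusp⟩ :=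
    _root_.Fermat.Agent.S59.TW.H658.exists_minimizing_sequence L φ hφ
  have hu1 : ∀ n, ContDiffOn ℝ 1 (u n) Uhp := fun n => (hu_smooth n).of_le (by norm_cast)
  have hg_cont : ∀ n, ContinuousOn (dz (u n)) Uhp := fun n => continuousOn_dz (hu1 n)
  obtain ⟨f, hf_diff, hf_conv⟩ :=
    weyl_lemma (fun n => dz (u n)) hg_cont hu_cauchy (asm_weak hu_smooth hu_weak)
  have hf_cont : ContinuousOn f Uhp := hf_diff.continuousOn
  have hf_inv : ∀ (γ : L.Γ) (z : ℍ),
      f ↑((γ : SL(2, ℤ)) • z) = (cd (γ : SL(2, ℤ)) z) ^ 2 * f ↑z := by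
    intro γ z
    have := asm_f_inv hg_cont hf_cont hf_conv (γ : SL(2, ℤ))
      (fun n w hw => asm_dz_inv (hu1 n) _ _ (hu_per n γ) hw) (coe_mem_Uhp z)
    rwa [mob_coe] at this
  have hf_cusp : ∀ δ : SL(2, ℤ), ∃ C : ℝ, ∀ Y : ℝ,
      ∫ z in strip Y, ‖f (mob δ z)‖ ^ 2 / ‖cd δ z‖ ^ 4 ≤ C := by
    intro δ
    obtain ⟨C, hC⟩ := hu_cusp δ
    exact ⟨C, fun Y => asm_f_cusp hg_cont hf_cont hf_conv δ C Y (fun n => hC n Y)⟩
  obtain ⟨fc, hfc⟩ := _root_.Fermat.Agent.S59.TW.H658.exists_cuspForm_of_energy L f hf_diff hf_inv hf_cusp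
  obtain ⟨F, hF⟩ := exists_isPrimG fc
  refine ⟨fc, fun γ => ?_⟩
  rw [perG_apply fc hF γ UpperHalfPlane.I]
  -- periods
  set v : ℕ → ℂ → ℝ := fun n z => u n z - (F (ofComplex z)).re with hv
  have hQ : ∀ z ∈ Uhp, HasDerivAt (F ∘ ofComplex) (f z) z := by
    intro z hz
    have := hF ⟨z, hz⟩
    rw [hfc] at this
    exact this
  have hQdiff : DifferentiableOn ℂ (F ∘ ofComplex) Uhp := fun z hz =>
    (hQ z hz).differentiableAt.differentiableWithinAt
  have hQsmooth : ContDiffOn ℝ 1 (fun z => (F (ofComplex z)).re) Uhp := by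
    have h1 : ContDiffOn ℂ 1 (F ∘ ofComplex) Uhp := hQdiff.contDiffOn isOpen_Uhp
    have h2 : ContDiffOn ℝ 1 (F ∘ ofComplex) Uhp := h1.restrict_scalars ℝ
    exact Complex.reCLM.contDiff.comp_contDiffOn h2
  have hv1 : ∀ n, ContDiffOn ℝ 1 (v n) Uhp := fun n => (hu1 n).sub hQsmooth
  have hdzv : ∀ n, ∀ z ∈ Uhp, dz (v n) z = dz (u n) z - f z := by
    intro n z hz
    have hU := isOpen_Uhp.mem_nhds hz
    have d1 : DifferentiableAt ℝ (u n) z :=
      ((hu1 n).differentiableOn one_ne_zero).differentiableAt hU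
    have d2 : DifferentiableAt ℝ (fun z => (F (ofComplex z)).re) z :=
      (hQsmooth.differentiableOn one_ne_zero).differentiableAt hU
    have e := dz_sub d1 d2
    have e2 : dz (fun z => (F (ofComplex z)).re) z = f z := dz_re_of_hasDerivAt (hQ z hz)
    rw [e2] at e
    exact e
  have hconv : ∀ K : Set ℂ, IsCompact K → K ⊆ Uhp →
      Tendsto (fun n => ∫ z in K, ‖dz (v n) z‖ ^ 2) atTop (𝓝 0) := by
    intro K hK hKU
    refine (hf_conv K hK hKU).congr fun n => ?_
    refine setIntegral_congr_fun hK.measurableSet fun z hz => ?_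
    show ‖dz (u n) z - f z‖ ^ 2 = ‖dz (v n) z‖ ^ 2
    rw [hdzv n z (hKU hz)]
  have hE := hF.isEquivariant fc
  have hper : ∀ n (z : ℍ), v n ↑((γ : SL(2, ℤ)) • z) = v n ↑z + (φ (Additive.ofMul γ)
      - (F ((γ : SL(2, ℤ)) • UpperHalfPlane.I) - F UpperHalfPlane.I).re) := by
    intro n z
    have h1 := hu_per n γ z
    have h2 := hE.sub_eq_period γ z
    have h3 := hE.sub_eq_period γ UpperHalfPlane.I
    simp only [hv, ofComplex_apply]
    have : F ((γ : SL(2, ℤ)) • z)
        = F z + (F ((γ : SL(2, ℤ)) • UpperHalfPlane.I) - F UpperHalfPlane.I) := by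
      rw [h3, ← h2]; ring
    rw [h1, this, Complex.add_re]
    ring
  have := period_eq_zero_of_tendsto v hv1 hconv (γ : SL(2, ℤ)) _ hper
  linarith

/-- Complex conjugate of a homomorphism to `ℂ`. -/
noncomputable def conjHom {G : Type*} [AddZeroClass G] (ψ : G →+ ℂ) : G →+ ℂ :=
  (starRingEnd ℂ).toAddMonoidHom.comp ψ

@[simp] theorem conjHom_apply {G : Type*} [AddZeroClass G] (ψ : G →+ ℂ) (x : G) :
    conjHom ψ x = conj (ψ x) := rfl

/-- The real part of a homomorphism to `ℂ`. -/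
noncomputable def reHom {G : Type*} [AddZeroClass G] (ψ : G →+ ℂ) : G →+ ℝ :=
  Complex.reLm.toAddMonoidHom.comp ψ

/-- The imaginary part of a homomorphism to `ℂ`. -/
noncomputable def imHom {G : Type*} [AddZeroClass G] (ψ : G →+ ℂ) : G →+ ℝ :=
  Complex.imLm.toAddMonoidHom.comp ψ

@[simp] theorem reHom_apply {G : Type*} [AddZeroClass G] (ψ : G →+ ℂ) (x : G) :
    _root_.Fermat.Agent.S59.TW.H658.reHom ψ x = (ψ x).re := rfl

@[simp] theorem imHom_apply {G : Type*} [AddZeroClass G] (ψ : G →+ ℂ) (x : G) :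
    _root_.Fermat.Agent.S59.TW.H658.imHom ψ x = (ψ x).im := rfl

theorem es_aux (x a b : ℂ) (h1 : a.re = x.re) (h2 : b.re = x.im) :
    x = ((1 / 2 : ℂ) * a + (Complex.I / 2) * b)
      + conj ((1 / 2 : ℂ) * a - (Complex.I / 2) * b) := by
  apply Complex.ext
  · simp only [Complex.add_re, Complex.mul_re, Complex.sub_re, Complex.conj_re,
      Complex.div_ofNat_re, Complex.div_ofNat_im, Complex.one_re, Complex.one_im, Complex.I_re,
      Complex.I_im]
    rw [← h1]; ring
  · simp only [Complex.add_im, Complex.mul_im, Complex.sub_im, Complex.conj_im,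
      Complex.div_ofNat_re, Complex.div_ofNat_im, Complex.one_re, Complex.one_im, Complex.I_re,
      Complex.I_im]
    rw [← h2]; ring

/-- **Eichler–Shimura surjectivity** for a general level: every complex parabolic homomorphism
on `L.Γ` is of the form `perG f₁ + conj ∘ perG f₂`. -/
theorem exists_perG_add_conj (L : Lev) (ψ : Additive (L.Γ) →+ ℂ)
    (hψ : IsParabolicHom (L.Γ) ψ) :
    ∃ f₁ f₂ : CuspForm (L.Γ) 2, ψ = perG f₁ + conjHom (perG f₂) := by
  have hre : IsParabolicHom (L.Γ) (_root_.Fermat.Agent.S59.TW.H658.reHom ψ) := fun γ hγ => by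
    rw [reHom_apply, hψ γ hγ, Complex.zero_re]
  have him : IsParabolicHom (L.Γ) (_root_.Fermat.Agent.S59.TW.H658.imHom ψ) := fun γ hγ => by
    rw [imHom_apply, hψ γ hγ, Complex.zero_im]
  obtain ⟨g₁, hg₁⟩ := exists_cuspForm_re_perG_eq L _ hre
  obtain ⟨g₂, hg₂⟩ := exists_cuspForm_re_perG_eq L _ him
  refine ⟨(1 / 2 : ℂ) • g₁ + (Complex.I / 2) • g₂, (1 / 2 : ℂ) • g₁ - (Complex.I / 2) • g₂, ?_⟩
  refine AddMonoidHom.ext fun γ => ?_
  obtain ⟨γ, rfl⟩ : ∃ γ' : L.Γ, Additive.ofMul γ' = γ := ⟨Additive.toMul γ, rfl⟩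
  have e1 := hg₁ γ
  have e2 := hg₂ γ
  rw [reHom_apply] at e1
  rw [imHom_apply] at e2
  rw [AddMonoidHom.add_apply, conjHom_apply, ← perGL_apply, ← perGL_apply, map_add, map_sub,
    map_smul, map_smul, perGL_apply, perGL_apply]
  simp only [AddMonoidHom.add_apply, AddMonoidHom.sub_apply, AddMonoidHom.smul_apply,
    smul_eq_mul]
  exact es_aux _ _ _ e1 e2

/-- The complex parabolic homomorphisms of a level are exactly the sums
`perG f₁ + conj ∘ perG f₂`. -/
theorem isParabolicHom_iff_exists_perG (L : Lev) (ψ : Additive (L.Γ) →+ ℂ) :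
    IsParabolicHom (L.Γ) ψ ↔ ∃ f₁ f₂ : CuspForm (L.Γ) 2, ψ = perG f₁ + conjHom (perG f₂) := by
  refine ⟨exists_perG_add_conj L ψ, ?_⟩
  rintro ⟨f₁, f₂, rfl⟩ γ hγ
  rw [AddMonoidHom.add_apply, conjHom_apply, perG_parabolic f₁ γ hγ, perG_parabolic f₂ γ hγ]
  simp

end Fermat.Agent.S59.TW.H658

end
-- ===== PACK-END S59/TW/H658/Hodge.lean

-- ===== PACK-BEGIN S19/H979/RankOne.lean
section


/-!
# Cell A3 (S19) — RANK ONE  (helper979)

`rankOneStatement : RankOneStatement`: a valuation ring `V` of `Q̄` in which the prime `ℓ` is not a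
unit has rank one, in the form used by the abstract LOCAL theorem:
`a ∈ 𝔪_V`, `b ≠ 0`  ⟹  `a ^ n / b ∈ V` for some `n`.

Consequence: `localStatement_of_abs_gr' : AbsLocalStatement → GrStatement → S19.LocalStatement`.
-/

set_option autoImplicit false

noncomputable section

namespace Fermat.Agent.S19.H979

open Polynomial Fermat.Agent.S19

section LocalRing

variable {A : Type*} [CommRing A] [IsLocalRing A]

/-- An integer prime to `ℓ` is a unit in a local ring in which `ℓ` is not a unit. -/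
theorem isUnit_intCast_of_not_dvd {ℓ : ℕ} (hℓ : ℓ.Prime) (hℓA : ((ℓ : ℤ) : A) ∈ nonunits A)
    {u : ℤ} (hu : ¬ (ℓ : ℤ) ∣ u) : IsUnit ((u : ℤ) : A) := by
  have hcop : IsCoprime (ℓ : ℤ) u :=
    (Prime.coprime_iff_not_dvd (Nat.prime_iff_prime_int.1 hℓ)).2 hu
  obtain ⟨x, y, hxy⟩ := hcop
  have h1 : ((y : ℤ) : A) * ((u : ℤ) : A) = 1 - ((x : ℤ) : A) * ((ℓ : ℤ) : A) := by
    have := congrArg (Int.cast : ℤ → A) hxy
    push_cast at this
    push_cast
    linear_combination this
  have h2 : ((x : ℤ) : A) * ((ℓ : ℤ) : A) ∈ nonunits A := by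
    rw [← IsLocalRing.mem_maximalIdeal] at hℓA ⊢
    exact Ideal.mul_mem_left _ _ hℓA
  have h3 : IsUnit (((y : ℤ) : A) * ((u : ℤ) : A)) := by
    rw [h1]
    exact IsLocalRing.isUnit_one_sub_self_of_mem_nonunits _ h2
  exact isUnit_of_mul_isUnit_right h3

/-- Newton-polygon step: if `p ∈ ℤ[X]` has its first `ℓ`-unit coefficient in degree `n` and
`ℓ ∣ p(a) a^k` for a non-unit `a`, then `ℓ ∣ a ^ (n + k)`. -/
theorem dvd_pow_of_aeval {ℓ : ℕ} (hℓ : ℓ.Prime) (hℓA : ((ℓ : ℤ) : A) ∈ nonunits A)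
    (a : A) (ha : a ∈ nonunits A) :
    ∀ (n k : ℕ) (p : ℤ[X]), (∀ i < n, (ℓ : ℤ) ∣ p.coeff i) → ¬ (ℓ : ℤ) ∣ p.coeff n →
      ((ℓ : ℤ) : A) ∣ aeval a p * a ^ k → ((ℓ : ℤ) : A) ∣ a ^ (n + k) := by
  intro n
  induction n with
  | zero =>
    intro k p _ h0 hdiv
    have hp : aeval a p = aeval a p.divX * a + ((p.coeff 0 : ℤ) : A) := by
      conv_lhs => rw [← divX_mul_X_add p]
      simp
    have hu : IsUnit (aeval a p) := by
      by_contra hnu
      have h1 : aeval a p.divX * a ∈ nonunits A := by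
        rw [← IsLocalRing.mem_maximalIdeal] at ha ⊢
        exact Ideal.mul_mem_left _ _ ha
      have h2 : ((p.coeff 0 : ℤ) : A) ∈ nonunits A := by
        have h3 : ((p.coeff 0 : ℤ) : A) = aeval a p - aeval a p.divX * a := by
          rw [hp]; ring
        rw [h3]
        rw [← IsLocalRing.mem_maximalIdeal] at h1 ⊢
        exact Ideal.sub_mem _ ((IsLocalRing.mem_maximalIdeal _).2 hnu) h1
      exact h2 (isUnit_intCast_of_not_dvd hℓ hℓA h0)
    rw [zero_add]
    exact (hu.dvd_mul_left).1 hdiv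
  | succ n ih =>
    intro k p hlow hn hdiv
    have hp : aeval a p = aeval a p.divX * a + ((p.coeff 0 : ℤ) : A) := by
      conv_lhs => rw [← divX_mul_X_add p]
      simp
    have h0 : ((ℓ : ℤ) : A) ∣ ((p.coeff 0 : ℤ) : A) := by
      obtain ⟨c, hc⟩ := hlow 0 (Nat.succ_pos n)
      exact ⟨(c : A), by rw [hc]; push_cast; ring⟩
    have h1 : ((ℓ : ℤ) : A) ∣ aeval a p.divX * a ^ (k + 1) := by
      have h2 : aeval a p.divX * a ^ (k + 1) =
          aeval a p * a ^ k - ((p.coeff 0 : ℤ) : A) * a ^ k := by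
        rw [hp]; ring
      rw [h2]
      exact dvd_sub hdiv (Dvd.dvd.mul_right h0 _)
    have h3 := ih (k + 1) p.divX
      (fun i hi => by rw [coeff_divX]; exact hlow (i + 1) (Nat.succ_lt_succ hi))
      (by rw [coeff_divX]; exact hn) h1
    have h4 : n + 1 + k = n + (k + 1) := by ring
    rw [h4]
    exact h3

end LocalRing

/-- Every element of `Q̄` is algebraic over `ℤ`. -/
theorem isAlgebraic_int_qb (x : Qb) : IsAlgebraic ℤ x :=
  (IsFractionRing.isAlgebraic_iff ℤ ℚ Qb).2 ((AlgebraicClosure.isAlgebraic ℚ).isAlgebraic x)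

/-- Step B: a power of a non-unit is divisible by `ℓ`. -/
theorem exists_pow_eq_ell_mul {ℓ : ℕ} (hℓ : ℓ.Prime) (V : ValuationSubring Qb)
    (hℓV : (ℓ : Qb) ∈ V.nonunits) (a : Qb) (ha : a ∈ V.nonunits) :
    ∃ (j : ℕ) (s : Qb), s ∈ V ∧ a ^ j = (ℓ : Qb) * s := by
  by_cases ha0 : a = 0
  · exact ⟨1, 0, V.zero_mem, by rw [ha0]; simp⟩
  obtain ⟨haV, ham⟩ := (V.mem_nonunits_iff_exists_mem_maximalIdeal).1 ha
  obtain ⟨hℓmem, hℓm⟩ := (V.mem_nonunits_iff_exists_mem_maximalIdeal).1 hℓV
  obtain ⟨p, hp0, hpa⟩ := isAlgebraic_int_qb a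
  have hq : aeval a p.primPart = 0 := aeval_primPart_eq_zero hp0 hpa
  have hprim : p.primPart.IsPrimitive := isPrimitive_primPart p
  have hex : ∃ i, ¬ (ℓ : ℤ) ∣ p.primPart.coeff i := by
    by_contra hcon
    push Not at hcon
    have h1 : C (ℓ : ℤ) ∣ p.primPart := (C_dvd_iff_dvd_coeff _ _).2 hcon
    have h2 : IsUnit (ℓ : ℤ) := hprim _ h1
    exact (Nat.prime_iff_prime_int.1 hℓ).not_isUnit h2
  classical
  let n := Nat.find hex
  have hn : ¬ (ℓ : ℤ) ∣ p.primPart.coeff n := Nat.find_spec hex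
  have hlow : ∀ i < n, (ℓ : ℤ) ∣ p.primPart.coeff i := fun i hi => by
    have := Nat.find_min hex hi
    push Not at this
    exact this
  -- transfer to the local ring `V`
  let a' : V := ⟨a, haV⟩
  have ha' : a' ∈ nonunits V := (IsLocalRing.mem_maximalIdeal _).1 ham
  have hℓ' : (((ℓ : ℤ) : V)) ∈ nonunits V := by
    have h : (((ℓ : ℤ) : V)) = ⟨(ℓ : Qb), hℓmem⟩ := Subtype.ext (by simp)
    rw [h]
    exact (IsLocalRing.mem_maximalIdeal _).1 hℓm
  have haev : aeval a' p.primPart = 0 := by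
    have h1 : algebraMap V Qb (aeval a' p.primPart) = aeval (algebraMap V Qb a') p.primPart :=
      (aeval_algebraMap_apply Qb a' p.primPart).symm
    have h2 : aeval (algebraMap V Qb a') p.primPart = 0 := hq
    rw [h2] at h1
    exact (FaithfulSMul.algebraMap_injective V Qb) (by rw [h1, map_zero])
  have hdiv : (((ℓ : ℤ) : V)) ∣ aeval a' p.primPart * a' ^ 0 := by
    rw [haev, zero_mul]
    exact dvd_zero _
  obtain ⟨s, hs⟩ := dvd_pow_of_aeval hℓ hℓ' a' ha' n 0 p.primPart hlow hn hdiv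
  refine ⟨n, (s : Qb), s.2, ?_⟩
  have := congrArg (fun x : V => (x : Qb)) hs
  simpa using this

/-- Step A: every nonzero element divides a power of `ℓ`. -/
theorem exists_ell_pow_div_mem {ℓ : ℕ} (hℓ : ℓ.Prime) (V : ValuationSubring Qb)
    (hℓV : (ℓ : Qb) ∈ V.nonunits) (b : Qb) :
    ∃ m : ℕ, (ℓ : Qb) ^ m / b ∈ V := by
  obtain ⟨hℓmem, hℓm⟩ := (V.mem_nonunits_iff_exists_mem_maximalIdeal).1 hℓV
  have hℓ' : (((ℓ : ℤ) : V)) ∈ nonunits V := by
    have h : (((ℓ : ℤ) : V)) = ⟨(ℓ : Qb), hℓmem⟩ := Subtype.ext (by simp)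
    rw [h]
    exact (IsLocalRing.mem_maximalIdeal _).1 hℓm
  obtain ⟨d, hd0, hd⟩ := (isAlgebraic_int_qb b⁻¹).exists_integral_multiple
  -- `d • b⁻¹ ∈ V`
  have hdV : (d : Qb) * b⁻¹ ∈ V := by
    have h1 : IsIntegral V (d • b⁻¹ : Qb) := hd.tower_top
    obtain ⟨y, hy⟩ := (IsIntegrallyClosed.isIntegral_iff (R := V) (K := Qb)).1 h1
    have h2 : (d • b⁻¹ : Qb) = (d : Qb) * b⁻¹ := by simp [zsmul_eq_mul]
    rw [← h2, ← hy]
    exact y.2
  -- `d = ℓ ^ m * u` with `u` prime to `ℓ`
  have hfin : FiniteMultiplicity (ℓ : ℤ) d :=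
    Int.finiteMultiplicity_iff.2 ⟨by simpa using hℓ.ne_one, hd0⟩
  obtain ⟨u, hdu, hu⟩ := hfin.exists_eq_pow_mul_and_not_dvd
  have huV : IsUnit ((u : ℤ) : V) := isUnit_intCast_of_not_dvd hℓ hℓ' hu
  obtain ⟨w, hw⟩ := huV.exists_left_inv
  refine ⟨multiplicity (ℓ : ℤ) d, ?_⟩
  have hwu : (w : Qb) * (u : Qb) = 1 := by
    have := congrArg (fun x : V => (x : Qb)) hw
    simpa using this
  have key : (ℓ : Qb) ^ multiplicity (ℓ : ℤ) d / b = (w : Qb) * ((d : Qb) * b⁻¹) := by
    have hdq : (d : Qb) = (ℓ : Qb) ^ multiplicity (ℓ : ℤ) d * (u : Qb) := by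
      conv_lhs => rw [hdu]
      push_cast
      ring
    rw [hdq, div_eq_mul_inv]
    calc (ℓ : Qb) ^ multiplicity (ℓ : ℤ) d * b⁻¹
        = ((w : Qb) * (u : Qb)) * ((ℓ : Qb) ^ multiplicity (ℓ : ℤ) d * b⁻¹) := by
          rw [hwu, one_mul]
      _ = (w : Qb) * ((ℓ : Qb) ^ multiplicity (ℓ : ℤ) d * (u : Qb) * b⁻¹) := by ring
  rw [key]
  exact V.mul_mem _ _ w.2 hdV

/-- **RANK ONE.** -/
theorem rankOneStatement : RankOneStatement := by
  intro ℓ hfact V hℓV a b ha _
  obtain ⟨j, s, hs, hjs⟩ := exists_pow_eq_ell_mul hfact.out V hℓV a ha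
  obtain ⟨m, hm⟩ := exists_ell_pow_div_mem hfact.out V hℓV b
  refine ⟨j * m, ?_⟩
  have key : a ^ (j * m) / b = s ^ m * ((ℓ : Qb) ^ m / b) := by
    rw [pow_mul, hjs, mul_pow]
    ring
  rw [key]
  exact V.mul_mem _ _ (V.pow_mem hs m) hm

/-- **Glue, final form**: LOCAL from the abstract LOCAL theorem and the good-reduction
instance. -/
theorem localStatement_of_abs_gr' (hD : AbsLocalStatement) (hG : GrStatement) :
    LocalStatement :=
  localStatement_of_abs_gr hD hG rankOneStatement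

end Fermat.Agent.S19.H979

end

end
-- ===== PACK-END S19/H979/RankOne.lean

-- ===== PACK-BEGIN A3/H555/Lifti.lean
section
/-
helper555 — cell A3 (S19), block LOCAL, leaf LIFTI.

`LiftiStatement K F k Fk` (frozen in `Fermat/Agent/A3/H799/LocalSpec.lean`): every class of
`Pic0` is congruent modulo the kernel of reduction to an inertia-invariant class.

Proved here from the leaves DISC and DISC-I: the point with parameter value `0` of a residue disc
with inertia-invariant parameter is fixed by inertia; replacing every point of a divisor by the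
fixed point of its residue disc gives an inertia-invariant divisor with the same reduction.
-/


set_option autoImplicit false

noncomputable section

open AlgebraicCurve

namespace Fermat.Agent.A3.H555

open Fermat.Agent.A3.H799 Fermat.Agent.Lib.RR

variable {K F k Fk : Type*} [Field K] [Field F] [Algebra K F] [Field k] [Field Fk] [Algebra k Fk]

/-- A map of places which preserves degrees preserves degrees of divisors. -/
theorem degree_mapDomain_of_deg {K' F' : Type*} [Field K'] [Field F'] [Algebra K' F']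
    (φ : Place K F → Place K' F') (hφ : ∀ v, (φ v).deg = v.deg) (D : Divisor K F) :
    Divisor.degree (Finsupp.mapDomain φ D) = Divisor.degree D := by
  induction D using Finsupp.induction with
  | zero => simp
  | single_add P n D _ _ ih =>
    rw [Finsupp.mapDomain_add, map_add, map_add, ih, Finsupp.mapDomain_single,
      Divisor.degree_single, Divisor.degree_single, hφ]

/-- **Inertia-fixed points.**  Every point of the special fibre is the reduction of a place fixed
by inertia (the centre of its residue disc for an inertia-invariant parameter). -/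
theorem exists_fixed_place (hdisc : DiscStatement K F k Fk)
    (hequiv : DiscEquivStatement K F k Fk) (𝓡 : GoodRed K F k Fk) (Q : Place k Fk) :
    ∃ P : Place K F, 𝓡.r P = Q ∧ ∀ g ∈ 𝓡.I, g • P = P := by
  obtain ⟨d, hd⟩ := hdisc 𝓡 Q
  refine ⟨d.pt 0, d.r_pt 0, fun g hg => ?_⟩
  obtain ⟨h, h', e⟩ := hequiv 𝓡 Q d hd g hg 0
  rw [e]
  congr 1
  exact Subtype.ext (Subtype.ext (map_zero _))

/-- The reduction map of places is onto (consequence of DISC). -/
theorem r_surjective (hdisc : DiscStatement K F k Fk) (𝓡 : GoodRed K F k Fk) :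
    Function.Surjective 𝓡.r := fun Q => by
  obtain ⟨d, -⟩ := hdisc 𝓡 Q
  exact ⟨d.pt 0, d.r_pt 0⟩

/-- **Inertia-invariant lifts of divisors**: if every residue disc which contains a place
contains an inertia-fixed place, then for every divisor `D` there is an inertia-invariant divisor
`D'` of the same degree with the same reduction. -/
theorem exists_invariant_divisor (𝓡 : GoodRed K F k Fk)
    (hfixed : ∀ P₀ : Place K F, ∃ P : Place K F, 𝓡.r P = 𝓡.r P₀ ∧ ∀ g ∈ 𝓡.I, g • P = P)
    (D : Divisor K F) :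
    ∃ D' : Divisor K F, (∀ g ∈ 𝓡.I, g • D' = D') ∧
      Divisor.degree D' = Divisor.degree D ∧
      Finsupp.mapDomain 𝓡.r D' = Finsupp.mapDomain 𝓡.r D := by
  choose lift hr hfix using hfixed
  have := 𝓡.ff1
  refine ⟨Finsupp.mapDomain lift D, fun g hg => ?_, ?_, ?_⟩
  · rw [SemilinearAut.divisor_smul_def, ← Finsupp.mapDomain_comp]
    congr 1
    funext P
    exact hfix P g hg
  · exact degree_mapDomain_of_deg _ (fun v => by rw [FF1.deg_eq_one, FF1.deg_eq_one]) D
  · rw [← Finsupp.mapDomain_comp]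
    congr 1
    funext P
    exact hr P

/-- **LIFTI** for one good-reduction datum, from inertia-fixed places in every residue disc. -/
theorem lifti_of_fixed (𝓡 : GoodRed K F k Fk)
    (hfixed : ∀ P₀ : Place K F, ∃ P : Place K F, 𝓡.r P = 𝓡.r P₀ ∧ ∀ g ∈ 𝓡.I, g • P = P)
    (x : Pic0 K F) :
    ∃ y : Pic0 K F, (∀ g ∈ 𝓡.I, g • y = y) ∧ x - y ∈ 𝓡.kerRed := by
  obtain ⟨D, rfl⟩ := Pic0.mk_surjective x
  obtain ⟨D', hinv, hdeg, hred⟩ := exists_invariant_divisor 𝓡 hfixed (D : Divisor K F)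
  have hD' : D' ∈ Divisor.degZero (K := K) (F := F) := by
    rw [Divisor.mem_degZero, hdeg]
    exact D.2
  refine ⟨Pic0.mk ⟨D', hD'⟩, fun g hg => ?_, ⟨D - ⟨D', hD'⟩, rfl, ?_⟩⟩
  · rw [SemilinearAut.pic0_smul_mk]
    exact congrArg Pic0.mk (Subtype.ext (hinv g hg))
  · have : Finsupp.mapDomain 𝓡.r
        ((D - ⟨D', hD'⟩ : Divisor.degZero (K := K) (F := F)) : Divisor K F) = 0 := by
      rw [AddSubgroup.coe_sub, Finsupp.mapDomain_sub, hred, sub_self]
    rw [this]
    exact AddSubgroup.zero_mem _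

/-- **LIFTI** from DISC and DISC-I. -/
theorem liftiStatement_of_disc (hdisc : DiscStatement K F k Fk)
    (hequiv : DiscEquivStatement K F k Fk) : LiftiStatement K F k Fk :=
  fun 𝓡 x => lifti_of_fixed 𝓡
    (fun P₀ => exists_fixed_place hdisc hequiv 𝓡 (𝓡.r P₀)) x

end Fermat.Agent.A3.H555

end
end
-- ===== PACK-END A3/H555/Lifti.lean

-- ===== PACK-BEGIN A3/H75/DiscDataOfParam.lean
section



/-!
# A3 / LOCAL / DISC (helper75): `DiscData` of a `GoodRed` from a parameter

* `toConsInput` : a `GoodRed` is a `ConsInput` (conservation of zeros = `div_red`);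
* `discData_of_param` : for a place `Q` of the special fibre and a parameter `t` (a function of
  `𝓡.O`, regular on the disc of `Q`, with `ord_Q (red t) = 1`) the frozen `DiscData 𝓡 Q` of
  `Fermat/Agent/A3/H799/LocalSpec.lean`, with `D.t = t`.

So the leaf `DiscStatement` is reduced to the existence of an inertia-invariant parameter at every
place of the special fibre (`disc_of_param`).
-/

set_option autoImplicit false
set_option linter.unusedSectionVars false

noncomputable section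

namespace Fermat.Agent.A3.H75

open AlgebraicCurve Fermat.Agent.Lib.RR Fermat.Agent.A3.H799

variable {K F k Fk : Type*} [Field K] [Field F] [Algebra K F] [Field k] [Field Fk] [Algebra k Fk]

theorem red_eq_zero_iff (𝓡 : GoodRed K F k Fk) (x : 𝓡.O) :
    𝓡.red x = 0 ↔ (x : F) ∈ 𝓡.O.nonunits := by
  have hmax : (RingHom.ker 𝓡.red).IsMaximal := RingHom.ker_isMaximal_of_surjective _ 𝓡.red_surjective
  have heq : RingHom.ker 𝓡.red = IsLocalRing.maximalIdeal 𝓡.O := IsLocalRing.eq_maximalIdeal hmax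
  rw [← RingHom.mem_ker, heq, IsLocalRing.mem_maximalIdeal]
  exact (ValuationSubring.coe_mem_nonunits_iff (A := 𝓡.O)).symm

theorem algebraMap_mem_nonunits_of_mem (𝓡 : GoodRed K F k Fk) (a : K) (ha : a ∈ 𝓡.V.nonunits) :
    algebraMap K F a ∈ 𝓡.O.nonunits := by
  rw [ValuationSubring.mem_nonunits_iff_or] at ha ⊢
  rcases ha with rfl | ha
  · left
    exact map_zero _
  · right
    rw [← map_inv₀, 𝓡.algebraMap_mem]
    exact ha

/-- A `GoodRed` is a `ConsInput`. -/
def toConsInput (𝓡 : GoodRed K F k Fk) :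
    ConsInput 𝓡.V F k Fk where
  V := 𝓡.O
  algebraMap_mem a ha := (𝓡.algebraMap_mem a).mpr ha
  algebraMap_mem_nonunits := algebraMap_mem_nonunits_of_mem 𝓡
  π := 𝓡.res
  π_eq_zero a ha := (𝓡.res_eq_zero a).mp ha
  ρ := 𝓡.red
  ρ_eq_zero := red_eq_zero_iff 𝓡
  ρ_algebraMap a ha := 𝓡.red_algebraMap ⟨a, ha⟩ _
  r := 𝓡.r
  cons := 𝓡.div_red

/-- The frozen `DiscData` from a parameter. -/
def discData_of_param (𝓡 : GoodRed K F k Fk) (Q : Place k Fk) (T : DiscParam (toConsInput 𝓡) Q) :
    DiscData 𝓡 Q :=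
  haveI : FF1 K F := 𝓡.ff1
  { ring := (toConsInput 𝓡).discRing Q
    ring_le := fun f hf => hf.1
    ring_reg := fun f hf => hf.2
    mem_ring := fun f hf hreg => ⟨hf, hreg⟩
    D := T.discAlg
    pt := T.center
    r_pt := T.r_center
    pt_surj := T.exists_center_eq
    ord_t := T.ord_t
    ev_spec := by
      intro a f
      have h := T.hasVal_evVal a f
      rcases (mem_nonunits_iff_ord _ _).mp h with h0 | hpos
      · left
        exact sub_eq_zero.mp h0
      · right
        exact hpos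
    red_ev := by
      intro a f
      have h := (toConsInput 𝓡).hasVal_red Q ((toConsInput 𝓡).toV Q f) ((toConsInput 𝓡).regOn_coe Q f)
        (T.center a) (T.r_center a) (T.evVal a f) (T.hasVal_evVal a f)
      rcases (mem_nonunits_iff_ord _ _).mp h with h0 | hpos
      · left
        exact sub_eq_zero.mp h0
      · right
        exact hpos }

theorem discData_of_param_t (𝓡 : GoodRed K F k Fk) (Q : Place k Fk)
    (T : DiscParam (toConsInput 𝓡) Q) :
    (((discData_of_param 𝓡 Q T).D.t : (discData_of_param 𝓡 Q T).ring) : F) = (T.t : F) := rfl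

/-- **DISC from PAR.**  The leaf `DiscStatement` follows from the existence, at every place `Q` of
the special fibre, of an inertia-invariant function of `𝓡.O`, regular on the disc of `Q`, whose
reduction is a uniformiser at `Q`. -/
theorem disc_of_param
    (hpar : ∀ (𝓡 : GoodRed K F k Fk) (Q : Place k Fk), ∃ t : 𝓡.O,
      (∀ P : Place K F, 𝓡.r P = Q → (t : F) ∈ P.toValuationSubring) ∧
      Q.ord (𝓡.red t) = 1 ∧ ∀ g ∈ 𝓡.I, g • (t : F) = (t : F)) :
    DiscStatement K F k Fk := by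
  intro 𝓡 Q
  obtain ⟨t, hreg, hord, hinv⟩ := hpar 𝓡 Q
  exact ⟨discData_of_param 𝓡 Q ⟨t, hreg, hord⟩, hinv⟩

end Fermat.Agent.A3.H75

end
end
-- ===== PACK-END A3/H75/DiscDataOfParam.lean

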