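import Mathlib
import Fermat.Prelude.Def_EllipticCurve_FrobeniusTrace
import Fermat.Prelude.Def_CuspForm_HeckeAlgebra
import Fermat.Agent.Pack.S43MC.G0E19L2
import Fermat.Agent.Pack.S43MC.G0E13L2
import Fermat.Agent.Pack.S43MC.G0E19L0
import Fermat.Agent.Pack.S43MC.G0E22L0
import Fermat.Agent.Pack.S43MC.G0E14L2
import Fermat.Agent.Pack.S44C.G0E21L2
import Fermat.Agent.Pack.S44C.G0E22L1
import Fermat.Agent.Pack.S44C.G0E24L1
import Fermat.Agent.Pack.S44C.G0E22L2
import Fermat.Agent.Pack.S44C.G0E17L0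
import Fermat.Agent.Pack.S44C.G0E6L3
import Fermat.Agent.Pack.S44C.G0E25L0
import Fermat.Agent.Pack.S43MC.G0E17L1
import Fermat.Agent.Pack.S43MC.G0E22L1
import Fermat.Agent.Pack.S44C.G0E15L0
import Fermat.Agent.Pack.S44C.G0E23L2
import Fermat.Agent.Pack.S43MC.G0E3L2
import Fermat.Agent.Pack.S44C.G0E5L3
import Fermat.Agent.Pack.S44C.G0E24L2
import Fermat.Agent.Pack.S44C.G0E9L3
import Fermat.Agent.Pack.S43MC.G0E22L3
import Fermat.Agent.Pack.S43MC.G0E4L0
import Fermat.Agent.Pack.S43MC.G0E22L2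
import Fermat.Agent.Pack.Fast891

-- ===== PACK-BEGIN S26/Pic/Top.lean
section





/-!
# Row S26, blocks PIC + CUBE: assembly of `Stmt.PicCube` (sub-architect helper347)

`picCube_of : S25Statement → (∀ K', CurvesGenerate K') → GenericTrivial cechPic K → PicCube K`.
Closed inputs (all on main): `cechPic_isLocal` (P1), `H582.cdivDict` (P3), `localOnBase` (P4),
`H326.curveCube_cechPic` (DICT26 + C1), `H70.cube_of_model` (C5).
Open inputs: row S25 (existence of Jacobians), C4 (`Stmt.CurvesGenerate`), P5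
(`Stmt.GenericTrivial cechPic`).
-/

set_option autoImplicit false

open AlgebraicGeometry CategoryTheory

universe u

namespace Fermat.Agent.S26.Pic

/-- The theorem of the cube for the Čech Picard theory, from S25, C4 and P5. -/
theorem cube_cechPic (hS25 : H687.S25Statement.{u})
    (hGen : ∀ (K' : Type u) [Field K'] [IsAlgClosed K'], Stmt.CurvesGenerate K')
    (K : Type u) [Field K] [IsAlgClosed K] (hP5 : Stmt.GenericTrivial cechPic.{u} K) :
    Stmt.Cube cechPic.{u} K :=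
  H70.cube_of_model cechPic_isLocal (fun K' _ _ => H326.curveCube_cechPic hS25 K') hGen
    (localOnBase K) hP5

/-- Output of blocks PIC + CUBE, from S25, C4 and P5. -/
theorem picCube_of (hS25 : H687.S25Statement.{u})
    (hGen : ∀ (K' : Type u) [Field K'] [IsAlgClosed K'], Stmt.CurvesGenerate K')
    (K : Type u) [Field K] [IsAlgClosed K] (hP5 : Stmt.GenericTrivial cechPic.{u} K) :
    Stmt.PicCube K :=
  ⟨cechPic, cechPic_isLocal, H582.cdivDict, cube_cechPic hS25 hGen K hP5⟩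

end Fermat.Agent.S26.Pic

end
-- ===== PACK-END S26/Pic/Top.lean

-- ===== PACK-BEGIN S37/H155/Pull.lean
section
/-
S37 / [PULL] (helper155), modular part: the interface `Core.PullData N (N * a) ℓ`.

For primes `a ≠ ℓ` with `a ∤ N` and `a + 1` a power of `ℓ` (e.g. `(ℓ, a) = (3, 2)` or `(2, 3)`)
the pullback `π^* : J₀(N) → J₀(N a)` along the degeneracy map `X₀(N a) → X₀(N)`
(`= heckeAlphaBar ℚ̄ N a` on function fields) is Galois equivariant, injective on torsion prime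
to `ℓ` and commutes with `T_ℓ`.
-/









set_option autoImplicit false
set_option linter.style.haveILetI false
set_option linter.unusedSectionVars false

noncomputable section

namespace Fermat.Agent.S37.H155

open ModularCurve AlgebraicCurve IntermediateField Fermat.Agent.S37.H818
open Fermat.Agent.S24 Fermat.Agent.Lib.FF398 Fermat.Agent.Lib.X0Deg

/-! ### Spanning in a simple extension -/

section Span

variable {K E : Type*} [Field K] [Field E] [Algebra K E]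

/-- If `D = C(x)` with `x ∈ B` integral over `C`, then the image of `B` spans `D` over `C`. -/
theorem mem_span_range_inclusion {B C D : IntermediateField K E} (hBD : B ≤ D) (hCD : C ≤ D)
    (x : E) (hxB : x ∈ B) (hx : IsIntegral C x)
    (hD : ∀ d ∈ D, d ∈ IntermediateField.adjoin C {x}) (g : D) :
    g ∈ (letI := algebraAlong (IntermediateField.inclusion hCD);
      Submodule.span C (Set.range (IntermediateField.inclusion hBD))) := by
  letI := algebraAlong (IntermediateField.inclusion hCD)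
  have h1 : (g : E) ∈ (IntermediateField.adjoin C {x}).toSubalgebra := hD g g.2
  rw [IntermediateField.adjoin_simple_toSubalgebra_of_isAlgebraic hx.isAlgebraic,
    Algebra.adjoin_singleton_eq_range_aeval] at h1
  obtain ⟨p, hp⟩ := h1
  have hp' : (g : E) = ∑ k ∈ Finset.range (p.natDegree + 1), ((p.coeff k : C) : E) * x ^ k := by
    rw [← hp]
    show Polynomial.aeval x p = _
    rw [Polynomial.aeval_eq_sum_range]
    refine Finset.sum_congr rfl fun k _ => ?_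
    rw [Algebra.smul_def]
    rfl
  have hg : g = ∑ k ∈ Finset.range (p.natDegree + 1),
      (p.coeff k : C) • IntermediateField.inclusion hBD ⟨x ^ k, pow_mem hxB k⟩ := by
    apply Subtype.ext
    rw [hp']
    have hval : ∀ (s : Finset ℕ) (f : ℕ → D), ((∑ k ∈ s, f k : D) : E) = ∑ k ∈ s, (f k : E) :=
      fun s f => map_sum D.val f s
    rw [hval]
    refine Finset.sum_congr rfl fun k _ => ?_
    rw [Algebra.smul_def]
    rfl
  rw [hg]
  exact Submodule.sum_mem _ fun k _ =>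
    Submodule.smul_mem _ _ (Submodule.subset_span ⟨_, rfl⟩)

end Span

/-! ### The modular relations at all primes -/

open Classical in
/-- A choice of modular polynomials at all primes. -/
def phiAll (r : ℕ) : Polynomial (Polynomial ℤ) :=
  if h : r.Prime then
    haveI : NeZero r := ⟨h.ne_zero⟩
    (Classical.choice (Fermat.Agent.S28.H807.nonempty_modPolyData r h)).Φ
  else 0

theorem phiRel_phiAll (k : Type*) [Field k] (r : ℕ) (hr : r.Prime) :
    Fermat.Agent.S28.H988.PhiRel k r (phiAll r) := by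
  haveI : NeZero r := ⟨hr.ne_zero⟩
  rw [phiAll, dif_pos hr]
  exact Fermat.Agent.S28.H988.phiRel_of_modPolyData k r _

/-! ### Generation: `F̄_{Mℓ} = F̄_M(j(q^{ℓ^e}))` -/

section Gen

open Fermat.Agent.S28.H988

variable (M ℓ : ℕ)

theorem mem_adjoin_topGen (hM : M ≠ 0) (hℓ : ℓ.Prime)
    (C : IntermediateField Kbar (LaurentSeries Kbar))
    (hC : C = modularFunctionFieldFullC Kbar M)
    (d : LaurentSeries Kbar) (hd : d ∈ modularFunctionFieldBar (M * ℓ)) :
    d ∈ IntermediateField.adjoin C {topGen Kbar M ℓ} := by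
  subst hC
  rw [modularFunctionFieldBar_eq_fullC,
    full_mul_eq phiAll hM hℓ (fun r hr _ => phiRel_phiAll Kbar r hr),
    IntermediateField.mem_restrictScalars] at hd
  exact hd

theorem isIntegral_topGen (hM : M ≠ 0) (hℓ : ℓ.Prime)
    (C : IntermediateField Kbar (LaurentSeries Kbar))
    (hC : C = modularFunctionFieldFullC Kbar M) :
    IsIntegral C (topGen Kbar M ℓ) := by
  subst hC
  obtain ⟨Q, hQm, -, hQr⟩ :=
    exists_monic_root_topGen (phiAll ℓ) hM hℓ (phiRel_phiAll Kbar ℓ hℓ)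
  exact ⟨Q, hQm, by rwa [← Polynomial.aeval_def]⟩

theorem topGen_mem_bar (N a : ℕ) (hN : N ≠ 0) (ha : a ≠ 0) (hℓ : ℓ.Prime) (hℓa : ¬ ℓ ∣ a) :
    topGen Kbar (N * a) ℓ ∈ modularFunctionFieldBar (N * ℓ) := by
  rw [modularFunctionFieldBar_eq_fullC]
  have hNℓ : N * ℓ ≠ 0 := Nat.mul_ne_zero hN hℓ.ne_zero
  refine jd_mem_full Kbar hNℓ ?_
  rw [pow_dvd_mul_iff hN hℓ, topExp, topExp, Nat.factorization_mul hN ha]
  simp only [Finsupp.coe_add, Pi.add_apply]
  rw [Nat.factorization_eq_zero_of_not_dvd hℓa]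

end Gen

/-! ### The square -/

section Square

variable (N a ℓ : ℕ) [NeZero N] [NeZero a] [NeZero ℓ]

theorem le_top_level : modularFunctionFieldBar (N * ℓ) ≤ modularFunctionFieldBar (N * a * ℓ) :=
  modularFunctionFieldBar_mono ⟨a, by ring⟩

/-- The inclusion `F̄_{Nℓ} ⊆ F̄_{Naℓ}`. -/
def iTop : modularFunctionFieldBar (N * ℓ) →ₐ[Kbar] modularFunctionFieldBar (N * a * ℓ) :=
  IntermediateField.inclusion (le_top_level N a ℓ)

theorem coe_iTop (x : modularFunctionFieldBar (N * ℓ)) :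
    ((iTop N a ℓ x : modularFunctionFieldBar (N * a * ℓ)) : LaurentSeries Kbar)
      = (x : LaurentSeries Kbar) :=
  IntermediateField.coe_inclusion _ x

theorem sq_alpha : (iTop N a ℓ).comp (heckeAlphaBar Kbar N ℓ)
    = (heckeAlphaBar Kbar (N * a) ℓ).comp (heckeAlphaBar Kbar N a) := by
  apply AlgHom.ext
  intro x
  apply Subtype.ext
  rw [AlgHom.comp_apply, AlgHom.comp_apply, coe_iTop, coe_heckeAlphaBar, coe_heckeAlphaBar,
    coe_heckeAlphaBar]

theorem sq_beta : (iTop N a ℓ).comp (heckeBetaBar Kbar N ℓ)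
    = (heckeBetaBar Kbar (N * a) ℓ).comp (heckeAlphaBar Kbar N a) := by
  apply AlgHom.ext
  intro x
  apply Subtype.ext
  rw [AlgHom.comp_apply, AlgHom.comp_apply, coe_iTop, coe_heckeBetaBar, coe_heckeBetaBar,
    coe_heckeAlphaBar]

theorem iTop_isIntegral : (iTop N a ℓ).toRingHom.IsIntegral := by
  have hfin : FiniteAlong Kbar (iTop N a ℓ) :=
    finiteAlong_of_functionField _ (jF (N * ℓ)) (transcendental_jF (N * ℓ)) (jF (N * a * ℓ))
      (transcendental_jF (N * a * ℓ))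
  letI := algebraAlong (iTop N a ℓ)
  haveI : Module.Finite (FF (N * ℓ)) (FF (N * a * ℓ)) := hfin
  exact fun x => Algebra.IsIntegral.isIntegral (R := FF (N * ℓ)) x

theorem sumRamificationInertiaAlong_alpha :
    SumRamificationInertiaAlong (heckeAlphaBar Kbar N a) (heckeAlphaBarIntegral N a) := by
  letI := algebraAlong (heckeAlphaBar Kbar N a)
  haveI := isScalarTower_along (heckeAlphaBar Kbar N a)
  haveI : Module.Finite (FF N) (FF (N * a)) := finiteAlong_alpha N a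
  haveI : CharZero (FF N) :=
    charZero_of_injective_algebraMap (algebraMap Kbar (FF N)).injective
  exact sumRamificationInertia (K := Kbar) (F := FF N) (F' := FF (N * a)) (deg_eq_one_FF (N * a))

theorem normCompat_square (hℓ : ℓ.Prime) (ha : a.Prime) (hne : a ≠ ℓ) :
    NormCompat (heckeAlphaBar Kbar N ℓ) (heckeAlphaBar Kbar N a)
      (heckeAlphaBar Kbar (N * a) ℓ) (iTop N a ℓ) := by
  refine normCompat_of_span _ _ _ _ (sq_alpha N a ℓ) (finiteAlong_alpha N ℓ)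
    (finrankAlong_heckeAlphaBar_square N a ℓ ha hℓ hne) ?_
  have hℓa : ¬ ℓ ∣ a := fun h => hne ((Nat.prime_dvd_prime_iff_eq hℓ ha).mp h).symm
  have hM : N * a ≠ 0 := NeZero.ne _
  intro g
  exact mem_span_range_inclusion (le_top_level N a ℓ) (le_mul (N * a) ℓ)
    (Fermat.Agent.S28.H988.topGen Kbar (N * a) ℓ)
    (topGen_mem_bar ℓ N a (NeZero.ne N) (NeZero.ne a) hℓ hℓa)
    (isIntegral_topGen (N * a) ℓ hM hℓ _
      (Fermat.Agent.S28.H988.modularFunctionFieldBar_eq_fullC (N * a)))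
    (fun d hd => mem_adjoin_topGen (N * a) ℓ hM hℓ _
      (Fermat.Agent.S28.H988.modularFunctionFieldBar_eq_fullC (N * a)) d hd) g

end Square

/-! ### The pull datum -/

section PullData

variable (N a ℓ : ℕ) [NeZero N] [NeZero a] [NeZero ℓ]

/-- The pullback `π^* : J₀(N) → J₀(N a)`. -/
def pullHom : JZero N →+ JZero (N * a) :=
  pullbackPic0Along (heckeAlphaBar Kbar N a) (heckeAlphaBarIntegral N a)
    (fundamentalIdentityAlong_alpha N a)

theorem pullHom_galois (σ : Kbar ≃ₐ[ℚ] Kbar) (x : JZero N) :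
    pullHom N a (σ • x) = σ • pullHom N a x := by
  rw [galois_smul_pic0_def, galois_smul_pic0_def]
  exact _root_.Fermat.Agent.S37.H155.pullbackPic0Along_smul _ _ _ (Fermat.Agent.S29.H571.intertwines_heckeAlphaBar N a σ) x

theorem pullHom_inj_torsion (ha : a.Prime) (haN : ¬ a ∣ N) (m : ℕ)
    (hcop : Nat.Coprime m (a + 1)) (x : JZero N) (hm : m • x = 0) (hx : pullHom N a x = 0) :
    x = 0 := by
  refine pullbackPic0Along_eq_zero (heckeAlphaBar Kbar N a) (heckeAlphaBarIntegral N a)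
    (fundamentalIdentityAlong_alpha N a) (sumRamificationInertiaAlong_alpha N a)
    (finiteAlong_alpha N a) (normFormulaAlong_alpha N a) m ?_ x hm hx
  rw [finrankAlong_heckeAlphaBar_of_not_dvd N a ha haN]
  exact hcop

theorem pullHom_hecke (hℓ : ℓ.Prime) (ha : a.Prime) (hne : a ≠ ℓ) (x : JZero N) :
    pullHom N a (heckeOperatorAlong Kbar N ℓ x)
      = heckeOperatorAlong Kbar (N * a) ℓ (pullHom N a x) := by
  rw [heckeOperatorAlong_eq_heckePic0Bar N ℓ, heckeOperatorAlong_eq_heckePic0Bar (N * a) ℓ]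
  exact pullbackPic0Along_correspondence (heckeAlphaBar Kbar N ℓ) (heckeBetaBar Kbar N ℓ)
    (heckeAlphaBar Kbar N a) (heckeAlphaBar Kbar (N * a) ℓ) (heckeBetaBar Kbar (N * a) ℓ)
    (iTop N a ℓ) (heckeAlphaBarIntegral N ℓ) (heckeBetaBarIntegral N ℓ)
    (heckeAlphaBarIntegral N a) (heckeAlphaBarIntegral (N * a) ℓ)
    (heckeBetaBarIntegral (N * a) ℓ) (iTop_isIntegral N a ℓ) (sq_alpha N a ℓ) (sq_beta N a ℓ)
    (fundamentalIdentityAlong_beta N ℓ) (finiteAlong_alpha N ℓ) (normFormulaAlong_alpha N ℓ)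
    (fundamentalIdentityAlong_beta (N * a) ℓ) (finiteAlong_alpha (N * a) ℓ)
    (normFormulaAlong_alpha (N * a) ℓ) (fundamentalIdentityAlong_alpha N a)
    (normCompat_square N a ℓ hℓ ha hne)
    (_root_.Fermat.Agent.S37.H155.hasLocalGenerators (heckeAlphaBar Kbar N ℓ) (heckeAlphaBarIntegral N ℓ)) x

/-- **[PULL]**: for primes `a ≠ ℓ`, `a ∤ N`, `a + 1` a power of `ℓ`. -/
def pullData (hℓ : ℓ.Prime) (ha : a.Prime) (hne : a ≠ ℓ) (haN : ¬ a ∣ N)
    (hpow : ∃ k : ℕ, a + 1 = ℓ ^ k) : Fermat.Agent.S37.Core.PullData N (N * a) ℓ where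
  pull := pullHom N a
  galois := pullHom_galois N a
  inj_torsion := by
    intro m hm x hmx hx
    obtain ⟨k, hk⟩ := hpow
    refine pullHom_inj_torsion N a ha haN m ?_ x hmx hx
    rw [hk]
    exact Nat.Coprime.pow_right k ((Nat.Prime.coprime_iff_not_dvd hℓ).mpr hm).symm
  hecke := pullHom_hecke N a ℓ hℓ ha hne

/-- `ℓ = 3`, auxiliary prime `2 ∤ N`. -/
def pullData_three (hN : ¬ 2 ∣ N) : Fermat.Agent.S37.Core.PullData N (N * 2) 3 :=
  pullData N 2 3 Nat.prime_three Nat.prime_two (by decide) hN ⟨1, by norm_num⟩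

/-- `ℓ = 2`, auxiliary prime `3 ∤ N`. -/
def pullData_two (hN : ¬ 3 ∣ N) : Fermat.Agent.S37.Core.PullData N (N * 3) 2 :=
  pullData N 3 2 Nat.prime_two Nat.prime_three (by decide) hN ⟨2, by norm_num⟩

end PullData

end Fermat.Agent.S37.H155

end

end
-- ===== PACK-END S37/H155/Pull.lean

-- ===== PACK-BEGIN A2/IF/H558/DecompStable.lean
section



/-!
# A2 / IF (helper558): the good levels of helper429 are stable under the DECOMPOSITION group

`P` a valuation subring of `ℚ̄`, `D = P.decompositionSubgroup ℚ`, `I = P.inertiaSubgroupIn ℚ`,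
`E_I = ℚ̄^I` the inertia field, `level P S = E_I(all ℚ-conjugates of S)` (helper429).

* `conj_mem_inertia`            : `σ ∈ D`, `τ ∈ I`  ⟹  `σ⁻¹ τ σ ∈ I` and `σ τ σ⁻¹ ∈ I`;
* `map_mem_inertiaField`        : `D` preserves the inertia field;
* `level_stable_decomp`         : `D` preserves `level P S`;
* `level_stable_frobenius`      : every Frobenius lift at `P` preserves `level P S`
                                  (and so does its inverse, and all powers);
* `exists_goodField_decompStable` : IF with the extra clause "stable under `D`"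
                                  (= leaf IFF of S35/FROB, G5 of S35/(G)).
-/

set_option autoImplicit false
set_option linter.style.haveILetI false
set_option linter.unusedSectionVars false

namespace Fermat.Agent.A2.IF.H558

open Fermat.Agent.A2 Fermat.Agent.A2.IF.H429
open Fermat.Agent.S55.Bridge Fermat.Agent.S55.Bridge.H594

local notation "Qb" => AlgebraicClosure ℚ

variable (P : ValuationSubring Qb)

/-- The inertia group is normal in the decomposition group (elementwise form). -/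
theorem conj_mem_inertia {σ τ : Qb ≃ₐ[ℚ] Qb} (hσ : σ ∈ P.decompositionSubgroup ℚ)
    (hτ : τ ∈ P.inertiaSubgroupIn ℚ) : σ⁻¹ * τ * σ ∈ P.inertiaSubgroupIn ℚ := by
  rw [mem_inertiaSubgroupIn_iff_forall] at hτ ⊢
  have hσi : σ⁻¹ ∈ P.decompositionSubgroup ℚ := inv_mem hσ
  refine ⟨mul_mem (mul_mem hσi hτ.1) hσ, fun x hx => ?_⟩
  have hσx : σ x ∈ P := mem_of_mem_decomp P hσ hx
  have h1 : τ (σ x) - σ x ∈ P.nonunits := hτ.2 (σ x) hσx
  have h2 : σ⁻¹ (τ (σ x) - σ x) ∈ P.nonunits := mem_nonunits_of_mem_decomp P hσi h1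
  have h3 : (σ⁻¹ * τ * σ) x - x = σ⁻¹ (τ (σ x) - σ x) := by
    rw [map_sub]
    show σ⁻¹ (τ (σ x)) - x = σ⁻¹ (τ (σ x)) - σ⁻¹ (σ x)
    congr 1
    exact (AlgEquiv.symm_apply_apply σ x).symm
  rw [h3]
  exact h2

/-- The decomposition group preserves the inertia field. -/
theorem map_mem_inertiaField {σ : Qb ≃ₐ[ℚ] Qb} (hσ : σ ∈ P.decompositionSubgroup ℚ)
    {e : Qb} (he : e ∈ inertiaField P) : σ e ∈ inertiaField P := by
  rw [mem_inertiaField_iff] at he ⊢
  intro τ hτ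
  have h1 := he (σ⁻¹ * τ * σ) (conj_mem_inertia P hσ hτ)
  have h2 : (σ⁻¹ * τ * σ) e = σ⁻¹ (τ (σ e)) := rfl
  rw [h2] at h1
  have h3 : σ (σ⁻¹ (τ (σ e))) = τ (σ e) := AlgEquiv.apply_symm_apply σ _
  rw [← h3, h1]

/-- The decomposition group preserves the level `level P S`. -/
theorem level_stable_decomp (S : Finset Qb) {σ : Qb ≃ₐ[ℚ] Qb}
    (hσ : σ ∈ P.decompositionSubgroup ℚ) {x : Qb} (hx : x ∈ level P S) :
    σ x ∈ level P S := by
  rw [mem_level_iff] at hx ⊢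
  unfold level₁ at hx ⊢
  induction hx using IntermediateField.adjoin_induction with
  | mem y hy => exact IntermediateField.subset_adjoin _ _ (map_mem_conjSet S σ hy)
  | algebraMap e =>
    have h1 : σ (algebraMap (inertiaField P) Qb e) ∈ inertiaField P :=
      map_mem_inertiaField P hσ e.2
    exact (IntermediateField.adjoin (inertiaField P) (conjSet S)).algebraMap_mem ⟨_, h1⟩
  | add y z _ _ hy hz => rw [map_add]; exact add_mem hy hz
  | inv y _ hy => rw [map_inv₀]; exact inv_mem hy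
  | mul y z _ _ hy hz => rw [map_mul]; exact mul_mem hy hz

/-- The level is mapped ONTO itself by the decomposition group. -/
theorem level_stable_decomp_iff (S : Finset Qb) {σ : Qb ≃ₐ[ℚ] Qb}
    (hσ : σ ∈ P.decompositionSubgroup ℚ) (x : Qb) : σ x ∈ level P S ↔ x ∈ level P S := by
  refine ⟨fun h => ?_, fun h => level_stable_decomp P S hσ h⟩
  have h1 := level_stable_decomp P S (inv_mem hσ) h
  have h2 : σ⁻¹ (σ x) = x := AlgEquiv.symm_apply_apply σ x
  rwa [h2] at h1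

/-- Every Frobenius lift at `P` preserves the level. -/
theorem level_stable_frobenius (S : Finset Qb) {σ : Qb ≃ₐ[ℚ] Qb} {q : ℕ}
    (hσ : P.IsFrobeniusAt σ q) {x : Qb} (hx : x ∈ level P S) : σ x ∈ level P S :=
  level_stable_decomp P S hσ.mem_decompositionSubgroup hx

/-- All powers (positive and negative) of an element of the decomposition group preserve the
level. -/
theorem level_stable_zpow (S : Finset Qb) {σ : Qb ≃ₐ[ℚ] Qb}
    (hσ : σ ∈ P.decompositionSubgroup ℚ) (n : ℤ) {x : Qb} (hx : x ∈ level P S) :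
    (σ ^ n) x ∈ level P S :=
  level_stable_decomp P S (zpow_mem hσ n) hx

/-- **IFF** (S35/FROB leaf; G5 of S35/(G)).  Every finite set of algebraic numbers lies in a good
level for `P` which is stable under the whole decomposition group of `P`, in particular under
every Frobenius lift at `P` and its inverse. -/
theorem exists_goodField_decompStable (q : ℕ) (hq : q.Prime) (P : ValuationSubring Qb)
    (hP : P.LiesOverPrime q) (S : Finset Qb) :
    ∃ E : IntermediateField ℚ Qb, (∀ s ∈ S, s ∈ E) ∧ GoodField P E ∧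
      (∀ σ ∈ P.decompositionSubgroup ℚ, ∀ e : Qb, e ∈ E ↔ σ e ∈ E) ∧
      inertiaField P ≤ E :=
  ⟨level P S, fun _ hs => mem_level_of_mem P S hs, goodField_level q hq P hP S,
    fun _ hσ e => (level_stable_decomp_iff P S hσ e).symm, inertiaField_le_level P S⟩

end Fermat.Agent.A2.IF.H558

end
-- ===== PACK-END A2/IF/H558/DecompStable.lean

-- ===== PACK-BEGIN S36/H987/PureCtx.lean
section



/-!
# S36 engine, ALG3 gap lemma G3 (helper987), part 3: purity from the frozen `Eng.TripleCtx`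

In a three-component context (`Eng.TripleCtx`, `Eng/Spec.lean` v1.3), for `u ≠ 0` with
`m ∣ div u` on the generic fibre (`A2.DivisibleDiv E m u`) which is a unit of `V₁, V₂, V₃`:

* `ctx_isSheet₁/₂/₃`, `ctx_mult3`, `ctx_sheets` : the `Vᵢ` are sheets, with multiplicities
  `1, q - 1, 1`, and every sheet is one of them.
* **`ctx_pure_fin`** : the purity datum `u · d ^ m · s₀ = a₀`, `a₀, s₀ ∈ Bf ∖ 𝔪`, at EVERY closed
  point `𝔪 ∋ w` of the finite chart `Bf = chart R {x}`.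
* **`ctx_pure_cusp`** : the same at every closed point `𝔪 ∋ w, x⁻¹` (cusp) of `Bi = chart R {x⁻¹}`.

These are exactly the purity inputs `(d, a₀, s₀, ha₀, hs₀, hpure)` of
`H630.basePureValuesAt_single / _triple`.
-/

set_option autoImplicit false
set_option linter.style.haveILetI false
set_option linter.unusedSectionVars false
set_option linter.unusedVariables false
set_option synthInstance.maxHeartbeats 400000
set_option maxHeartbeats 1600000

noncomputable section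

namespace Fermat.Agent.S36.H987

open Polynomial IsLocalRing
open Fermat.Agent.A2
open Fermat.Agent.A2.H12 (IsSheet)
open Fermat.Agent.S18.H138 (chart baseField)

universe u

section Adjoin

variable {E F : Type*} [Field E] [Field F] [Algebra E F]

theorem adjoin_inv_eq987 (x : F) :
    IntermediateField.adjoin E ({x⁻¹} : Set F) = IntermediateField.adjoin E ({x} : Set F) := by
  apply le_antisymm
  · rw [IntermediateField.adjoin_le_iff, Set.singleton_subset_iff]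
    exact (IntermediateField.adjoin E ({x} : Set F)).inv_mem
      (IntermediateField.subset_adjoin E _ rfl)
  · rw [IntermediateField.adjoin_le_iff, Set.singleton_subset_iff]
    have h := (IntermediateField.adjoin E ({x⁻¹} : Set F)).inv_mem
      (IntermediateField.subset_adjoin E _ rfl)
    rwa [inv_inv] at h

theorem finiteDimensional_adjoin_inv987 {x : F}
    (hfin : FiniteDimensional (IntermediateField.adjoin E ({x} : Set F)) F) :
    FiniteDimensional (IntermediateField.adjoin E ({x⁻¹} : Set F)) F := by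
  rw [adjoin_inv_eq987]
  exact hfin

end Adjoin

section Ctx

variable {R E F F' : Type u} [CommRing R] [IsDomain R] [IsDiscreteValuationRing R]
  [Field E] [CharZero E] [Algebra R E] [IsFractionRing R E]
  [Field F] [Algebra E F] [Algebra R F] [IsScalarTower R E F]
  [Field F'] [Algebra E F'] [Algebra R F']
variable {w : R} {q : ℕ} {α β : F' →ₐ[E] F} {x : F} {x' : F'}
  {V₁ V₂ V₃ : ValuationSubring F} {V₁' V₂' : ValuationSubring F'}

omit [IsDomain R] [IsDiscreteValuationRing R] [CharZero E] [IsFractionRing R E]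
  [IsScalarTower R E F] in
theorem ctx_w_mem₂ (hq : q.Prime) (ctx : Eng.TripleCtx w q α β x x' V₁ V₂ V₃ V₁' V₂') :
    algebraMap R F w ∈ V₂.nonunits := by
  obtain ⟨t, ⟨ht0, htn, -⟩, ⟨-, hy, -⟩⟩ := ctx.ram₂
  have hq1 : q - 1 ≠ 0 := by
    have := hq.two_le
    omega
  have e : algebraMap R F w = (algebraMap R F w * (t ^ (q - 1))⁻¹) * t ^ (q - 1) := by
    rw [mul_assoc, inv_mul_cancel₀ (pow_ne_zero _ ht0), mul_one]
  rw [e]
  exact Fermat.Agent.S36.H193.nu_mul_left V₂ (Fermat.Agent.S36.H193.nu_pow V₂ htn hq1) hy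

omit [IsDomain R] [IsDiscreteValuationRing R] [CharZero E] [IsFractionRing R E]
  [IsScalarTower R E F] in
theorem ctx_isSheet₁ (ctx : Eng.TripleCtx w q α β x x' V₁ V₂ V₃ V₁' V₂') : IsSheet w x V₁ :=
  ⟨ctx.base₁, ctx.x_unit₁.2.1, ctx.unif₁.2.1, ctx.gauss₁⟩

omit [IsDomain R] [IsDiscreteValuationRing R] [CharZero E] [IsFractionRing R E]
  [IsScalarTower R E F] in
theorem ctx_isSheet₂ (hq : q.Prime) (ctx : Eng.TripleCtx w q α β x x' V₁ V₂ V₃ V₁' V₂') :
    IsSheet w x V₂ :=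
  ⟨ctx.base₂, ctx.x_unit₂.2.1, ctx_w_mem₂ hq ctx, ctx.gauss₂⟩

omit [IsDomain R] [IsDiscreteValuationRing R] [CharZero E] [IsFractionRing R E]
  [IsScalarTower R E F] in
theorem ctx_isSheet₃ (ctx : Eng.TripleCtx w q α β x x' V₁ V₂ V₃ V₁' V₂') : IsSheet w x V₃ :=
  ⟨ctx.base₃, ctx.x_unit₃.2.1, ctx.unif₃.2.1, ctx.gauss₃⟩

omit [IsDomain R] [IsDiscreteValuationRing R] [CharZero E] [IsFractionRing R E]
  [IsScalarTower R E F] in
theorem ctx_mult3 (ctx : Eng.TripleCtx w q α β x x' V₁ V₂ V₃ V₁' V₂') :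
    Mult3 w q V₁ V₂ V₃ where
  w₁ := ctx.unif₁.2.1
  w₃ := ctx.unif₃.2.1
  unif₁ := ctx.unif₁.2.2
  unif₃ := ctx.unif₃.2.2
  ram₂ := by
    obtain ⟨t, ⟨ht0, -, ht⟩, ⟨-, -, hy⟩⟩ := ctx.ram₂
    refine ⟨t, ht0, ht, ?_⟩
    have e : t ^ (q - 1) * (algebraMap R F w)⁻¹ = (algebraMap R F w * (t ^ (q - 1))⁻¹)⁻¹ := by
      rw [mul_inv, inv_inv, mul_comm]
    rw [e]
    exact hy

/-- Every sheet is one of `V₁, V₂, V₃`. -/
theorem ctx_sheets (hw : Irreducible w) (hq : q.Prime)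
    (ctx : Eng.TripleCtx w q α β x x' V₁ V₂ V₃ V₁' V₂') :
    ∀ V, IsSheet w x V → V = V₁ ∨ V = V₂ ∨ V = V₃ :=
  sheets_three w hw ctx.hx ctx.hfin (ctx_isSheet₁ ctx) (ctx_isSheet₂ hq ctx) (ctx_isSheet₃ ctx)
    (ctx_mult3 ctx) ctx.qep_f

/-- **Purity at every closed point of the special fibre of the finite chart.** -/
theorem ctx_pure_fin (hw : Irreducible w) (hq : q.Prime)
    (ctx : Eng.TripleCtx w q α β x x' V₁ V₂ V₃ V₁' V₂')
    (𝔪 : Ideal (chart R ({x} : Set F))) (h𝔪 : 𝔪.IsMaximal)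
    (hw𝔪 : algebraMap R (chart R ({x} : Set F)) w ∈ 𝔪)
    {m : ℕ} (hm : 0 < m) {u : F} (hdiv : DivisibleDiv E m u)
    (hu₁ : Eng.UnitAt V₁ u) (hu₂ : Eng.UnitAt V₂ u) (hu₃ : Eng.UnitAt V₃ u) :
    ∃ d : F, d ≠ 0 ∧ ∃ a₀ s₀ : chart R ({x} : Set F), a₀ ∉ 𝔪 ∧ s₀ ∉ 𝔪 ∧
      u * d ^ m * (s₀ : F) = a₀ := by
  refine pure_of_three w hw ctx.hx ctx.hfin (ctx_isSheet₁ ctx) (ctx_isSheet₂ hq ctx)
    (ctx_isSheet₃ ctx) (ctx_mult3 ctx) ctx.qep_f ctx.normal_f₁ ctx.normal_f₂ ctx.normal_f₃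
    𝔪 h𝔪 hw𝔪 ?_ ?_ hm hu₁.1 hdiv hu₁.2 hu₂.2 hu₃.2
  · intro h₁ h₃
    exact (ctx.incidence 𝔪 h𝔪 (Or.inr (Or.inl ⟨h₁, h₃⟩))).2.1
  · intro h₂
    rcases ctx.regular_f 𝔪 h𝔪 h₂ with ⟨h₁, hp⟩ | hp | ⟨h₃, hp⟩
    · exact Or.inl ⟨h₁, hp⟩
    · exact Or.inr (Or.inl ⟨h₂, hp⟩)
    · exact Or.inr (Or.inr ⟨h₃, hp⟩)

/-- **Purity at the cusps** (closed points `𝔪 ∋ w, x⁻¹` of the chart at infinity). -/
theorem ctx_pure_cusp (hw : Irreducible w) (hq : q.Prime)
    (ctx : Eng.TripleCtx w q α β x x' V₁ V₂ V₃ V₁' V₂')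
    (𝔪 : Ideal (chart R ({x⁻¹} : Set F))) (h𝔪 : 𝔪.IsMaximal)
    (hw𝔪 : algebraMap R (chart R ({x⁻¹} : Set F)) w ∈ 𝔪)
    (hx𝔪 : (⟨x⁻¹, Fermat.Agent.S18.H138.mem_chart_of_mem rfl⟩ : chart R ({x⁻¹} : Set F)) ∈ 𝔪)
    {m : ℕ} (hm : 0 < m) {u : F} (hdiv : DivisibleDiv E m u)
    (hu₁ : Eng.UnitAt V₁ u) (hu₂ : Eng.UnitAt V₂ u) (hu₃ : Eng.UnitAt V₃ u) :
    ∃ d : F, d ≠ 0 ∧ ∃ a₀ s₀ : chart R ({x⁻¹} : Set F), a₀ ∉ 𝔪 ∧ s₀ ∉ 𝔪 ∧
      u * d ^ m * (s₀ : F) = a₀ := by
  have hx0 : x ≠ 0 := ctx.x_unit₁.1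
  have hxi : Transcendental E x⁻¹ := Fermat.Agent.S18.H138.transcendental_inv ctx.hx
  have hfini := finiteDimensional_adjoin_inv987 ctx.hfin
  have hs₁ : IsSheet w x⁻¹ V₁ := (Fermat.Agent.S36.H193.isSheet_inv_iff w hx0 V₁).2 (ctx_isSheet₁ ctx)
  have hs₂ : IsSheet w x⁻¹ V₂ :=
    (Fermat.Agent.S36.H193.isSheet_inv_iff w hx0 V₂).2 (ctx_isSheet₂ hq ctx)
  have hs₃ : IsSheet w x⁻¹ V₃ := (Fermat.Agent.S36.H193.isSheet_inv_iff w hx0 V₃).2 (ctx_isSheet₃ ctx)
  obtain ⟨hc₁₂, hc₁₃, hc₂₃⟩ := ctx.cusp_single 𝔪 h𝔪 hw𝔪 hx𝔪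
  refine pure_of_three w hw hxi hfini hs₁ hs₂ hs₃ (ctx_mult3 ctx) ctx.qep_i
    ctx.normal_i₁ ctx.normal_i₂ ctx.normal_i₃ 𝔪 h𝔪 hw𝔪 ?_ ?_ hm hu₁.1 hdiv hu₁.2 hu₂.2 hu₃.2
  · intro h₁ h₃
    exact absurd ⟨h₁, h₃⟩ hc₁₃
  · intro h₂
    exact Or.inr (Or.inl ⟨h₂, ctx.regular_i 𝔪 h𝔪 hx𝔪 h₂⟩)

end Ctx

end Fermat.Agent.S36.H987

end

end
-- ===== PACK-END S36/H987/PureCtx.lean

-- ===== PACK-BEGIN A2/Mod/H816/L8Val.lean
section







/-!
# A2 / MOD leaf L8, part 2 (helper816): the two cuspidal valuations of `F_{q,E}`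

* `vInf E N` : the `t`-adic valuation of `F_{N,E} ⊆ E((t))`, `vInf (j_d) = -d`;
* `vZero E q` : `vInf ∘ W ∘ ι` at prime level `q` (`W` = `H528.wF` over `ℚ̄`, `ι` = `H849.iota`),
  `vZero j = -q`, `vZero j_q = -1`;
* `transcendental_xE`, `mem_range_of_isAlgebraic` : parts (a), (c) of `DegStatement`;
* `linearIndependent_pow` : `j_q, …, j_q^(q+1), j, …, j^(q+1)` are linearly independent over
  `E(x)`, `x = j j_q` (level `q`).
-/

set_option autoImplicit false
set_option linter.unusedSectionVars false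
set_option synthInstance.maxHeartbeats 400000
set_option maxHeartbeats 1600000

noncomputable section

namespace Fermat.Agent.A2.Mod.H816

open ModularCurve HahnSeries Polynomial

/-! ## Laurent series -/

section Laurent

variable (k : Type*) [Field k]

theorem addVal_algebraMap_laurent {c : k} (hc : c ≠ 0) :
    HahnSeries.addVal ℤ k (algebraMap k (LaurentSeries k) c) = 0 := by
  rw [HahnSeries.addVal_apply, algebraMap_laurentSeries_eq_single, HahnSeries.orderTop_single hc]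
  rfl

theorem coeff_jd_of_lt (d : ℕ) [NeZero d] {n : ℤ} (hn : n < -(d : ℤ)) :
    (qExpand k d (jqModC k)).coeff n = 0 := by
  by_cases hdvd : (d : ℤ) ∣ n
  · obtain ⟨m, rfl⟩ := hdvd
    rw [qExpand_coeff_mul]
    apply coeff_jqModC_of_lt
    have hd : (0 : ℤ) < d := by exact_mod_cast Nat.pos_of_ne_zero (NeZero.ne d)
    nlinarith
  · exact qExpand_coeff_of_not_dvd _ _ hdvd

theorem coeff_jd_neg (d : ℕ) [NeZero d] : (qExpand k d (jqModC k)).coeff (-(d : ℤ)) = 1 := by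
  have h := qExpand_coeff_mul (R := k) d (jqModC k) (-1)
  rw [coeff_jqModC_neg_one] at h
  rw [← h]
  congr 1
  ring

theorem addVal_jd (d : ℕ) [NeZero d] :
    HahnSeries.addVal ℤ k (qExpand k d (jqModC k)) = ((-(d : ℤ) : ℤ) : WithTop ℤ) := by
  have h1 : (qExpand k d (jqModC k)).coeff (-(d : ℤ)) ≠ 0 := by
    rw [coeff_jd_neg]; exact one_ne_zero
  have hne := ne_zero_of_polar h1
  rw [HahnSeries.addVal_apply_of_ne hne,
    order_eq_of_polar (fun n hn => coeff_jd_of_lt k d hn) h1]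

/-- a series algebraic over the constants is constant -/
theorem eq_algebraMap_of_isAlgebraic {f : LaurentSeries k} (hf : IsAlgebraic k f) :
    f = algebraMap k (LaurentSeries k) (f.coeff 0) := by
  set g := f - algebraMap k (LaurentSeries k) (f.coeff 0) with hg
  have hgalg : IsAlgebraic k g := hf.sub (isAlgebraic_algebraMap _)
  by_contra hne
  have hg0 : g ≠ 0 := fun h => hne (sub_eq_zero.mp h)
  have hval : HahnSeries.addVal ℤ k g = ((g.order : ℤ) : WithTop ℤ) :=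
    HahnSeries.addVal_apply_of_ne hg0
  have hcoeff0 : g.coeff 0 = 0 := by
    rw [hg, HahnSeries.coeff_sub, algebraMap_laurentSeries_eq_single,
      HahnSeries.coeff_single_same, sub_self]
  have hord : g.order ≠ 0 := by
    intro h0
    have := HahnSeries.coeff_order_eq_zero.not.mpr hg0
    rw [h0] at this
    exact this hcoeff0
  exact transcendental_of_addVal_ne_zero (HahnSeries.addVal ℤ k)
    (fun c hc => addVal_algebraMap_laurent k hc) hord hval hgalg

end Laurent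

/-! ## The valuation at `∞` -/

section VInf

variable (E : IntermediateField ℚ _root_.Fermat.Agent.A2.Mod.Qb) (N : ℕ)

/-- the `t`-adic valuation of `F_{N,E}` -/
def vInf : AddValuation (_root_.Fermat.Agent.A2.Mod.FE E N) (WithTop ℤ) :=
  (HahnSeries.addVal ℤ E).comap (algebraMap (_root_.Fermat.Agent.A2.Mod.FE E N) (LaurentSeries E))

theorem vInf_apply (f : _root_.Fermat.Agent.A2.Mod.FE E N) :
    vInf E N f = HahnSeries.addVal ℤ E (f : LaurentSeries E) := rfl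

theorem vInf_algebraMap {c : E} (hc : c ≠ 0) : vInf E N (algebraMap E (_root_.Fermat.Agent.A2.Mod.FE E N) c) = 0 := by
  rw [vInf_apply]
  exact addVal_algebraMap_laurent E hc

theorem vInf_jE (d : ℕ) [NeZero d] (hd : d ∣ N) :
    vInf E N (jE E N d hd) = ((-(d : ℤ) : ℤ) : WithTop ℤ) := by
  rw [vInf_apply, H873.coe_jE]
  exact addVal_jd E d

end VInf

/-! ## The valuation at `0` (prime level) -/

section VZero

variable (E : IntermediateField ℚ _root_.Fermat.Agent.A2.Mod.Qb) (q : ℕ) [NeZero q]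

/-- `W ∘ ι : F_{q,E} → F_{q,ℚ̄}` -/
def wIota : _root_.Fermat.Agent.A2.Mod.FE E q →+* Fermat.Agent.S24.FF q :=
  ((Fermat.Agent.A2.H528.wF q : Fermat.Agent.S24.FF q ≃ₐ[_root_.Fermat.Agent.A2.Mod.Qb] Fermat.Agent.S24.FF q) :
      Fermat.Agent.S24.FF q →+* Fermat.Agent.S24.FF q).comp
    (Fermat.Agent.A2.T1.H849.iota E (modularFunctionFieldFull q))

theorem wIota_apply (f : _root_.Fermat.Agent.A2.Mod.FE E q) :
    wIota E q f = Fermat.Agent.A2.H528.wF q
      (Fermat.Agent.A2.T1.H849.iota E (modularFunctionFieldFull q) f) := rfl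

/-- the valuation at the cusp `0`: `vInf ∘ W` -/
def vZero : AddValuation (_root_.Fermat.Agent.A2.Mod.FE E q) (WithTop ℤ) :=
  (HahnSeries.addVal ℤ _root_.Fermat.Agent.A2.Mod.Qb).comap
    ((algebraMap (Fermat.Agent.S24.FF q) (LaurentSeries _root_.Fermat.Agent.A2.Mod.Qb)).comp (wIota E q))

theorem vZero_apply (f : _root_.Fermat.Agent.A2.Mod.FE E q) :
    vZero E q f =
      HahnSeries.addVal ℤ _root_.Fermat.Agent.A2.Mod.Qb ((wIota E q f : Fermat.Agent.S24.FF q) : LaurentSeries _root_.Fermat.Agent.A2.Mod.Qb) := rfl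

theorem iota_jE (d : ℕ) [NeZero d] (hd : d ∣ q) :
    Fermat.Agent.A2.T1.H849.iota E (modularFunctionFieldFull q) (jE E q d hd) =
      Fermat.Agent.A2.H528.jFd q d hd := by
  apply Subtype.ext
  rw [Fermat.Agent.A2.T1.H849.coe_iota, Fermat.Agent.A2.H528.coe_jFd]
  show coeffMap (algebraMap E _root_.Fermat.Agent.A2.Mod.Qb) (coeffEmb E (qExpand ℚ d jq)) = coeffEmb _root_.Fermat.Agent.A2.Mod.Qb (qExpand ℚ d jq)
  ext n
  simp only [coeffMap_coeff, coeffEmb_coeff]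
  exact (IsScalarTower.algebraMap_apply ℚ E _root_.Fermat.Agent.A2.Mod.Qb _).symm

theorem coe_jFd_eq (d : ℕ) [NeZero d] (hd : d ∣ q) :
    ((Fermat.Agent.A2.H528.jFd q d hd : Fermat.Agent.S24.FF q) : LaurentSeries _root_.Fermat.Agent.A2.Mod.Qb) =
      qExpand _root_.Fermat.Agent.A2.Mod.Qb d (jqModC _root_.Fermat.Agent.A2.Mod.Qb) := by
  rw [Fermat.Agent.A2.H528.coe_jFd, coeffEmb, coeffMap_qExpand, ← jqModC_rat, coeffMap_jqModC]

theorem wIota_algebraMap (c : E) :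
    wIota E q (algebraMap E (_root_.Fermat.Agent.A2.Mod.FE E q) c) = algebraMap _root_.Fermat.Agent.A2.Mod.Qb (Fermat.Agent.S24.FF q) (c : _root_.Fermat.Agent.A2.Mod.Qb) := by
  rw [wIota_apply, Fermat.Agent.A2.T1.H849.iota_algebraMap]
  exact (Fermat.Agent.A2.H528.wF q).commutes _

theorem vZero_algebraMap {c : E} (hc : c ≠ 0) : vZero E q (algebraMap E (_root_.Fermat.Agent.A2.Mod.FE E q) c) = 0 := by
  rw [vZero_apply, wIota_algebraMap]
  have hc' : (c : _root_.Fermat.Agent.A2.Mod.Qb) ≠ 0 := fun h => hc (Subtype.ext h)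
  exact addVal_algebraMap_laurent _root_.Fermat.Agent.A2.Mod.Qb hc'

theorem wIota_jE_one :
    wIota E q (jE E q 1 (one_dvd q)) = Fermat.Agent.A2.H528.jFd q q dvd_rfl := by
  rw [wIota_apply, iota_jE]
  have := Fermat.Agent.A2.H528.neZero_div q (one_dvd q)
  rw [Fermat.Agent.A2.H528.wF_jFd q 1 (one_dvd q)]
  exact Fermat.Agent.A2.H528.jFd_congr q _ _ (Nat.div_one q)

theorem wIota_jE_self :
    wIota E q (jE E q q dvd_rfl) = Fermat.Agent.A2.H528.jFd q 1 (one_dvd q) := by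
  rw [wIota_apply, iota_jE]
  have := Fermat.Agent.A2.H528.neZero_div q (dvd_refl q)
  rw [Fermat.Agent.A2.H528.wF_jFd q q dvd_rfl]
  exact Fermat.Agent.A2.H528.jFd_congr q _ _ (Nat.div_self (Nat.pos_of_ne_zero (NeZero.ne q)))

theorem vZero_jE_one :
    vZero E q (jE E q 1 (one_dvd q)) = ((-(q : ℤ) : ℤ) : WithTop ℤ) := by
  rw [vZero_apply, wIota_jE_one, coe_jFd_eq]
  exact addVal_jd _root_.Fermat.Agent.A2.Mod.Qb q

theorem vZero_jE_self :
    vZero E q (jE E q q dvd_rfl) = ((-((1 : ℕ) : ℤ) : ℤ) : WithTop ℤ) := by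
  rw [vZero_apply, wIota_jE_self, coe_jFd_eq]
  exact addVal_jd _root_.Fermat.Agent.A2.Mod.Qb 1

end VZero

/-! ## Consequences -/

section Cons

theorem addVal_pow_coe {R : Type*} [Ring R] (v : AddValuation R (WithTop ℤ)) {y : R} {b : ℤ}
    (hy : v y = (b : WithTop ℤ)) (n : ℕ) : v (y ^ n) = (((n : ℤ) * b : ℤ) : WithTop ℤ) := by
  rw [AddValuation.map_pow, hy, ← WithTop.coe_nsmul, nsmul_eq_mul]

theorem addVal_mul_coe {R : Type*} [Ring R] (v : AddValuation R (WithTop ℤ)) {y z : R} {b c : ℤ}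
    (hy : v y = (b : WithTop ℤ)) (hz : v z = (c : WithTop ℤ)) :
    v (y * z) = ((b + c : ℤ) : WithTop ℤ) := by
  rw [AddValuation.map_mul, hy, hz, WithTop.coe_add]

variable (E : IntermediateField ℚ _root_.Fermat.Agent.A2.Mod.Qb)

/-- `vInf x = -(q+1)` at level `M q`. -/
theorem vInf_xE (M q : ℕ) [NeZero M] [NeZero q] :
    vInf E (M * q) (xE E M q) = ((-((q : ℤ) + 1) : ℤ) : WithTop ℤ) := by
  rw [xE, addVal_mul_coe _ (vInf_jE E (M * q) 1 (one_dvd _))
    (vInf_jE E (M * q) q (dvd_mul_left q M))]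
  congr 1
  push_cast
  ring

/-- **L8 (a).** `x = j j_q` is transcendental over `E`. -/
theorem transcendental_xE (M q : ℕ) [NeZero M] [NeZero q] : Transcendental E (xE E M q) := by
  refine transcendental_of_addVal_neg (vInf E (M * q)) (fun c hc => vInf_algebraMap E _ hc)
    (a := -((q : ℤ) + 1)) ?_ (vInf_xE E M q)
  have : (0 : ℤ) ≤ q := Int.natCast_nonneg q
  omega

/-- **L8 (c).** `E` is algebraically closed in `F_{N,E}`. -/
theorem mem_range_of_isAlgebraic (N : ℕ) (f : _root_.Fermat.Agent.A2.Mod.FE E N) (hf : IsAlgebraic E f) :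
    f ∈ (algebraMap E (_root_.Fermat.Agent.A2.Mod.FE E N)).range := by
  have hf' : IsAlgebraic E (f : LaurentSeries E) :=
    (IntermediateField.isAlgebraic_iff (S := _root_.Fermat.Agent.A2.Mod.FE E N)).mp hf
  refine ⟨(f : LaurentSeries E).coeff 0, ?_⟩
  apply Subtype.ext
  exact (eq_algebraMap_of_isAlgebraic E hf').symm

/-- the product `x_q = j j_q` at level `q` -/
def xq (q : ℕ) [NeZero q] : _root_.Fermat.Agent.A2.Mod.FE E q := jE E q 1 (one_dvd q) * jE E q q dvd_rfl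

theorem vInf_xq (q : ℕ) [NeZero q] :
    vInf E q (xq E q) = ((-((q : ℤ) + 1) : ℤ) : WithTop ℤ) := by
  rw [xq, addVal_mul_coe _ (vInf_jE E q 1 (one_dvd _)) (vInf_jE E q q dvd_rfl)]
  congr 1
  push_cast
  ring

theorem vZero_xq (q : ℕ) [NeZero q] :
    vZero E q (xq E q) = ((-((q : ℤ) + 1) : ℤ) : WithTop ℤ) := by
  rw [xq, addVal_mul_coe _ (vZero_jE_one E q) (vZero_jE_self E q)]
  congr 1
  push_cast
  ring

/-- **Lower bound, level `q`.** `j_q, …, j_q^(q+1), j, …, j^(q+1)` are linearly independent over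
`E(x)`. -/
theorem linearIndependent_pow (q : ℕ) [NeZero q] (hq : 2 ≤ q) :
    LinearIndependent (IntermediateField.adjoin E ({xq E q} : Set (_root_.Fermat.Agent.A2.Mod.FE E q)))
      (Sum.elim (fun i : Fin (q + 1) => jE E q q dvd_rfl ^ ((i : ℕ) + 1))
        (fun i : Fin (q + 1) => jE E q 1 (one_dvd q) ^ ((i : ℕ) + 1))) := by
  have hq0 : (2 : ℤ) ≤ q := by exact_mod_cast hq
  refine linearIndependent_of_two_addVal (vInf E q) (vZero E q)
    (fun c hc => vInf_algebraMap E q hc) (fun c hc => vZero_algebraMap E q hc)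
    (a := -((q : ℤ) + 1)) (by omega) (vInf_xq E q) (vZero_xq E q)
    (fun i : Fin (q + 1) => (((i : ℕ) : ℤ) + 1) * (-(q : ℤ))) ?_ _ _ ?_ ?_ ?_ ?_
  · intro i i' m m' h
    have hi := i.2
    have hi' := i'.2
    set d : ℤ := ((i : ℕ) : ℤ) - ((i' : ℕ) : ℤ) with hd
    have hdvd : ((q : ℤ) + 1) ∣ d := by
      refine ⟨d - (m' - m), ?_⟩
      rw [hd]
      linear_combination h
    have habs : |d| < (q : ℤ) + 1 := by
      rw [abs_lt]
      constructor <;> omega
    have hd0 : d = 0 := Int.eq_zero_of_abs_lt_dvd hdvd habs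
    apply Fin.ext
    omega
  · intro i
    rw [addVal_pow_coe _ (vInf_jE E q q dvd_rfl)]
    congr 1
  · intro i
    rw [addVal_pow_coe _ (vZero_jE_self E q)]
    have h1 : ((((i : ℕ) : ℤ) + 1) * (-(q : ℤ)) : ℤ) + 1 ≤ (((i : ℕ) + 1 : ℕ) : ℤ) * (-((1 : ℕ) : ℤ)) := by
      push_cast
      have : (0 : ℤ) ≤ ((i : ℕ) : ℤ) := Int.natCast_nonneg _
      nlinarith
    calc ((((((i : ℕ) : ℤ) + 1) * (-(q : ℤ)) : ℤ)) : WithTop ℤ) + 1
        = (((((i : ℕ) : ℤ) + 1) * (-(q : ℤ)) + 1 : ℤ) : WithTop ℤ) := by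
          push_cast; rfl
      _ ≤ _ := WithTop.coe_le_coe.mpr h1
  · intro i
    rw [addVal_pow_coe _ (vZero_jE_one E q)]
    congr 1
  · intro i
    rw [addVal_pow_coe _ (vInf_jE E q 1 (one_dvd q))]
    have h1 : ((((i : ℕ) : ℤ) + 1) * (-(q : ℤ)) : ℤ) + 1 ≤ (((i : ℕ) + 1 : ℕ) : ℤ) * (-((1 : ℕ) : ℤ)) := by
      push_cast
      have : (0 : ℤ) ≤ ((i : ℕ) : ℤ) := Int.natCast_nonneg _
      nlinarith
    calc ((((((i : ℕ) : ℤ) + 1) * (-(q : ℤ)) : ℤ)) : WithTop ℤ) + 1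
        = (((((i : ℕ) : ℤ) + 1) * (-(q : ℤ)) + 1 : ℤ) : WithTop ℤ) := by
          push_cast; rfl
      _ ≤ _ := WithTop.coe_le_coe.mpr h1

end Cons

end Fermat.Agent.A2.Mod.H816

end

end
-- ===== PACK-END A2/Mod/H816/L8Val.lean

-- ===== PACK-BEGIN S36/H922/UnitRes.lean
section


/-!
# S36 engine / cell REG, route R4 (MID-UNIT): the residue of `β(U')` along `mid` — helper922

`V` a valuation subring of a field `L` of residue characteristic `p`; `Ψ ∈ ℤ[Y][X]` the unit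
polynomial of level `p`.  If `b, g ∈ Vˣ` and `y ∈ V` satisfy `Ψ(y ; b) = 0 = Ψ(y ; g)`, then
`b ≡ g` modulo `𝔪_V`.

Application: `L = F_{p² M'}`, `V = V_mid`, `y = j_p`, `b = β(U') = p¹² Δ(t^{p²})/Δ(t^p)`
(`Ψ(j_p ; β U') = β(Ψ(j ; U')) = 0`), `g = α(p¹²/U') = Δ(t)/Δ(t^p)` (second relation of
`h922_exists_unitPoly`).  Both are units of `V_mid` (`V_mid ∘ β = V₂'`, `V_mid ∘ α = V₁'`).
So `β(U') ≡ Δ(t)/Δ(t^p)` modulo `𝔪_mid`: hypothesis `h2'` of `h922_hres_abs` with `u = Δ(t^p)/Δ(t)`.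
-/

set_option autoImplicit false

noncomputable section

open ModularCurve HahnSeries Polynomial

namespace Fermat.Agent.S36.H922

open Fermat.Agent.S28

variable (p : ℕ) [hp : Fact p.Prime] [NeZero p]

/-- A field in which `p = 0` has characteristic `p`. -/
theorem h922_charP_of_cast_eq_zero (κ : Type*) [Field κ] (h : (p : κ) = 0) : CharP κ p := by
  obtain ⟨c, hc⟩ := CharP.exists κ
  have hdvd : c ∣ p := (CharP.cast_eq_zero_iff κ c p).1 h
  rcases (Nat.dvd_prime hp.out).1 hdvd with h1 | h1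
  · exfalso
    subst h1
    exact CharP.char_ne_one κ 1 rfl
  · subst h1
    exact hc

/-- **Unit roots of the unit polynomial are congruent modulo `𝔪_V`.** -/
theorem h922_unit_roots_congr {L : Type*} [Field L] (V : ValuationSubring L)
    (hpV : (p : L) ∈ V.nonunits)
    (Ψ : Polynomial (Polynomial ℤ)) (hΨ : Ψ.Monic) (hdeg : Ψ.natDegree = p + 1)
    (h1 : Ψ.eval₂ (evalAt (jqModC ℤ)) ((p : LaurentSeries ℤ) ^ 12 * unitL ℤ p) = 0)
    (h2 : Ψ.eval₂ (evalAt (qExpand ℤ p (jqModC ℤ))) (H589.unitL' p) = 0)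
    (y b g : L) (hy : y ∈ V) (hb : b ∈ V) (hb' : b⁻¹ ∈ V) (hg : g ∈ V) (hg' : g⁻¹ ∈ V)
    (hb0 : b ≠ 0) (hg0 : g ≠ 0)
    (hΨb : Ψ.eval₂ (Polynomial.aeval (R := ℤ) y).toRingHom b = 0)
    (hΨg : Ψ.eval₂ (Polynomial.aeval (R := ℤ) y).toRingHom g = 0) :
    b - g ∈ V.nonunits := by
  classical
  set κ := IsLocalRing.ResidueField V with hκ
  set res : V →+* κ := IsLocalRing.residue V with hres
  -- characteristic
  have hpm : ((p : V)) ∈ IsLocalRing.maximalIdeal V := by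
    rw [IsLocalRing.mem_maximalIdeal, mem_nonunits_iff]
    intro hu
    have h3 : V.valuation ((p : V) : L) = 1 := (V.valuation_eq_one_iff (p : V)).1 hu
    have h4 : V.valuation (p : L) < 1 := (V.mem_nonunits_iff).1 hpV
    have h5 : ((p : V) : L) = (p : L) := by push_cast; rfl
    rw [h5] at h3
    rw [h3] at h4
    exact lt_irrefl _ h4
  have hp0 : (p : κ) = 0 := by
    have : res (p : V) = 0 := (IsLocalRing.residue_eq_zero_iff _).2 hpm
    rwa [map_natCast] at this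
  haveI : CharP κ p := h922_charP_of_cast_eq_zero p κ hp0
  -- elements of `V`
  set yV : V := ⟨y, hy⟩ with hyV
  set bV : V := ⟨b, hb⟩ with hbV
  set gV : V := ⟨g, hg⟩ with hgV
  have hcomp : (V.subtype : V →+* L).comp (Polynomial.aeval (R := ℤ) yV).toRingHom
      = (Polynomial.aeval (R := ℤ) y).toRingHom := by
    apply Polynomial.ringHom_ext
    · intro a
      simp
    · simp [hyV]
  have hcomp' : res.comp (Polynomial.aeval (R := ℤ) yV).toRingHom
      = (Polynomial.aeval (R := ℤ) (res yV)).toRingHom := by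
    apply Polynomial.ringHom_ext
    · intro a
      simp
    · simp
  have key : ∀ x : L, ∀ hx : x ∈ V,
      Ψ.eval₂ (Polynomial.aeval (R := ℤ) y).toRingHom x = 0 →
      Ψ.eval₂ (Polynomial.aeval (R := ℤ) (res yV)).toRingHom (res ⟨x, hx⟩) = 0 := by
    intro x hx h
    have h3 : Ψ.eval₂ (Polynomial.aeval (R := ℤ) yV).toRingHom (⟨x, hx⟩ : V) = 0 := by
      apply Subtype.val_injective
      have := Polynomial.hom_eval₂ Ψ (Polynomial.aeval (R := ℤ) yV).toRingHom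
        (V.subtype : V →+* L) (⟨x, hx⟩ : V)
      rw [hcomp] at this
      show (V.subtype : V →+* L) _ = _
      rw [this]
      exact h
    have h4 := congrArg res h3
    rwa [Polynomial.hom_eval₂, hcomp', map_zero] at h4
  have hunit : ∀ x : L, ∀ hx : x ∈ V, x ≠ 0 → x⁻¹ ∈ V → IsUnit (res ⟨x, hx⟩) := by
    intro x hx hx0 hx'
    apply IsUnit.map
    exact IsUnit.of_mul_eq_one ⟨x⁻¹, hx'⟩ (Subtype.ext (mul_inv_cancel₀ hx0))
  have heq : res bV = res gV :=
    h922_unit_roots_eq p Ψ hΨ hdeg h1 h2 κ (res yV) (res bV) (res gV)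
      (hunit b hb hb0 hb') (hunit g hg hg0 hg') (key b hb hΨb) (key g hg hΨg)
  have hmem : bV - gV ∈ IsLocalRing.maximalIdeal V := by
    rw [← IsLocalRing.residue_eq_zero_iff, map_sub, ← hres, heq, sub_self]
  rw [IsLocalRing.mem_maximalIdeal, mem_nonunits_iff] at hmem
  rw [ValuationSubring.mem_nonunits_iff]
  have hle : V.valuation (b - g) ≤ 1 := (V.valuation_le_one_iff _).2 (sub_mem hb hg)
  rcases lt_or_eq_of_le hle with h | h
  · exact h
  · exfalso
    apply hmem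
    exact (V.valuation_eq_one_iff (bV - gV)).2 h

end Fermat.Agent.S36.H922

end
end
-- ===== PACK-END S36/H922/UnitRes.lean

-- ===== PACK-BEGIN S36/H890/T9E.lean
section



/-!
# The level-`9` Hauptmodul in the function fields `F_{N,E}` (helper890, S36 cell REG, `q = 2`)

`A2.Mod` vocabulary: `FE E N = E(j_d : d ∣ N) ⊆ E((t))`.  For `9 ∣ N`:

* `t3E`, `t3eE`, `t9E : FE E N` — `t₃`, `t₃(t³)`, `t₉`, with INTEGRAL `t`-expansions
  (`coe_t9E_int` …: `= coeffEmb E (castQ g)`, `g : LaurentSeries ℤ`, the shape of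
  `A2.Mod.H553.mem_of_int` / `inv_mem_of_int`);
* the relations in `FE E N`: `jE_mul_t9E` (`j t₉⁹ Q = (t₉ + 9)³ (t₉³ + 243 Q)³`),
  `t3E_mul_quad`, `t3eE_eq`, and `l1`, `l2`, `l3` of helper934's `Congr9.t9_congr`
  (`t3E_lin`, `t3eE_lin`, `t9E_lin`);
* `αE_t9E`, `coe_βE_t9E` : the images under the two degeneracy maps.
-/

set_option autoImplicit false
set_option synthInstance.maxHeartbeats 400000
set_option maxHeartbeats 1600000
set_option linter.unusedSectionVars false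

noncomputable section

namespace Fermat.Agent.S36.H890

open ModularCurve HahnSeries Fermat.Agent.Lib.Haupt Fermat.Agent.A2.Mod
open Fermat.Agent.A2

variable (E : IntermediateField ℚ _root_.Fermat.Agent.A2.Mod.Qb) (N : ℕ)

/-! ## Membership -/

theorem t3_mem_laurentBaseChange (L : Type*) [Field L] [Algebra ℚ L] (M : ℕ) (h3 : 3 ∣ M) :
    t3 L ∈ laurentBaseChange L (modularFunctionFieldFull M) := by
  have h := coeffEmb_mem_laurentBaseChange L (t3_mem_full M h3)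
  rwa [coeffEmb, coeffMap_t3] at h

theorem qExpand_t3_mem_laurentBaseChange (L : Type*) [Field L] [Algebra ℚ L] (M : ℕ)
    (h9 : 9 ∣ M) :
    qExpand L 3 (t3 L) ∈ laurentBaseChange L (modularFunctionFieldFull M) := by
  have h0 : qExpand ℚ 3 (t3 ℚ) ∈ modularFunctionFieldFull M := qExpand_t3_mem_fullC ℚ M h9
  have h := coeffEmb_mem_laurentBaseChange L h0
  rwa [coeffEmb, coeffMap_qExpand, coeffMap_t3] at h

/-- `t₃ ∈ F_{N,E}`, `3 ∣ N`. -/
def t3E (h3 : 3 ∣ N) : _root_.Fermat.Agent.A2.Mod.FE E N := ⟨t3 E, t3_mem_laurentBaseChange E N h3⟩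

/-- `t₃(t³) ∈ F_{N,E}`, `9 ∣ N`. -/
def t3eE (h9 : 9 ∣ N) : _root_.Fermat.Agent.A2.Mod.FE E N := ⟨qExpand E 3 (t3 E), qExpand_t3_mem_laurentBaseChange E N h9⟩

/-- `t₉ ∈ F_{N,E}`, `9 ∣ N`. -/
def t9E (h9 : 9 ∣ N) : _root_.Fermat.Agent.A2.Mod.FE E N := ⟨t9 E, t9_mem_laurentBaseChange E N h9⟩

theorem coe_t3E (h3 : 3 ∣ N) : ((t3E E N h3 : _root_.Fermat.Agent.A2.Mod.FE E N) : LaurentSeries E) = t3 E := rfl

theorem coe_t3eE (h9 : 9 ∣ N) :
    ((t3eE E N h9 : _root_.Fermat.Agent.A2.Mod.FE E N) : LaurentSeries E) = qExpand E 3 (t3 E) := rfl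

theorem coe_t9E (h9 : 9 ∣ N) : ((t9E E N h9 : _root_.Fermat.Agent.A2.Mod.FE E N) : LaurentSeries E) = t9 E := rfl

/-! ## Integral expansions -/

theorem coeffEmb_castQ_eq (g : LaurentSeries ℤ) :
    coeffEmb E (H708.castQ g) = coeffMap (Int.castRingHom E) g := by
  rw [coeffEmb, H708.castQ, coeffMap_coeffMap]
  exact coeffMap_congr (RingHom.ext_int _ _) g

theorem coe_t3E_int (h3 : 3 ∣ N) :
    ((t3E E N h3 : _root_.Fermat.Agent.A2.Mod.FE E N) : LaurentSeries E) = coeffEmb E (H708.castQ (t3 ℤ)) := by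
  rw [coe_t3E, coeffEmb_castQ_eq, coeffMap_t3]

theorem coe_t3eE_int (h9 : 9 ∣ N) :
    ((t3eE E N h9 : _root_.Fermat.Agent.A2.Mod.FE E N) : LaurentSeries E)
      = coeffEmb E (H708.castQ (qExpand ℤ 3 (t3 ℤ))) := by
  rw [coe_t3eE, coeffEmb_castQ_eq, coeffMap_qExpand, coeffMap_t3]

theorem coe_t9E_int (h9 : 9 ∣ N) :
    ((t9E E N h9 : _root_.Fermat.Agent.A2.Mod.FE E N) : LaurentSeries E) = coeffEmb E (H708.castQ (t9 ℤ)) := by
  rw [coe_t9E, coeffEmb_castQ_eq, coeffMap_t9]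

theorem h9_coe_jE (d : ℕ) [NeZero d] (hd : d ∣ N) :
    ((jE E N d hd : _root_.Fermat.Agent.A2.Mod.FE E N) : LaurentSeries E) = qExpand E d (jqModC E) := by
  show coeffEmb E (qExpand ℚ d jq) = _
  rw [coeffEmb, coeffMap_qExpand, ← jqModC_rat, coeffMap_jqModC]

theorem h9_coe_jE_one :
    ((jE E N 1 (one_dvd N) : _root_.Fermat.Agent.A2.Mod.FE E N) : LaurentSeries E) = jqModC E := by
  rw [h9_coe_jE, qExpand_one_apply]

/-! ## Relations in `F_{N,E}` -/

/-- `j · t₉⁹ Q(t₉) = (t₉ + 9)³ (t₉³ + 243 Q(t₉))³` in `F_{N,E}`. -/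
theorem jE_mul_t9E (h9 : 9 ∣ N) :
    jE E N 1 (one_dvd N)
        * (t9E E N h9 ^ 9 * (t9E E N h9 ^ 2 + 9 * t9E E N h9 + 27))
      = (t9E E N h9 + 9) ^ 3
        * (t9E E N h9 ^ 3 + 243 * (t9E E N h9 ^ 2 + 9 * t9E E N h9 + 27)) ^ 3 := by
  apply Subtype.ext
  have h := jq_mul_t9 E
  rw [← h9_coe_jE_one E N, ← coe_t9E E N h9] at h
  exact h

/-- `t₃ · Q(t₉) = t₉³` in `F_{N,E}`. -/
theorem t3E_mul_quad (h9 : 9 ∣ N) :
    t3E E N (Dvd.dvd.trans (by norm_num) h9) * (t9E E N h9 ^ 2 + 9 * t9E E N h9 + 27)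
      = t9E E N h9 ^ 3 :=
  Subtype.ext (t9_cube E)

/-- `t₃(t³) = t₉ · Q(t₉)` in `F_{N,E}`. -/
theorem t3eE_eq (h9 : 9 ∣ N) :
    t3eE E N h9 = t9E E N h9 * (t9E E N h9 ^ 2 + 9 * t9E E N h9 + 27) :=
  Subtype.ext (t3e_eq E)

/-- `l3` : `t₉ · den₉(t₃, t₃(t³)) = num₉(t₃, t₃(t³))` in `F_{N,E}`. -/
theorem t9E_lin (h9 : 9 ∣ N) :
    t9E E N h9 * h9den (t3E E N (Dvd.dvd.trans (by norm_num) h9)) (t3eE E N h9)
      = h9num (t3E E N (Dvd.dvd.trans (by norm_num) h9)) (t3eE E N h9) :=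
  Subtype.ext (t9_mul E)

/-- `l1` : `U₃(j, j₃) · t₃ = W₃(j, j₃)` in `F_{N,E}`. -/
theorem t3E_lin (h3 : 3 ∣ N) :
    h9u3 (jE E N 1 (one_dvd N)) (jE E N 3 h3) * t3E E N h3
      = h9w3 (jE E N 1 (one_dvd N)) (jE E N 3 h3) := by
  apply Subtype.ext
  have h := t3_lin9 E
  rw [← h9_coe_jE E N 3 h3, ← h9_coe_jE_one E N, ← coe_t3E E N h3] at h
  exact h

/-- `l2` : `U₃(j₃, j₉) · t₃(t³) = W₃(j₃, j₉)` in `F_{N,E}`. -/
theorem t3eE_lin (h9 : 9 ∣ N) :
    h9u3 (jE E N 3 (Dvd.dvd.trans (by norm_num) h9)) (jE E N 9 h9) * t3eE E N h9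
      = h9w3 (jE E N 3 (Dvd.dvd.trans (by norm_num) h9)) (jE E N 9 h9) := by
  apply Subtype.ext
  have h := t3e_lin9 E
  rw [← h9_coe_jE E N 3 (Dvd.dvd.trans (by norm_num) h9), ← h9_coe_jE E N 9 h9,
    ← coe_t3eE E N h9] at h
  exact h

/-! ## The degeneracy maps -/

section Deg

variable [NeZero N] (q : ℕ) [NeZero q]

theorem αE_t9E (h9 : 9 ∣ N) :
    αE E N q (t9E E N h9) = t9E E (N * q) (Dvd.dvd.mul_right h9 q) :=
  Subtype.ext (coe_heckeAlphaBar N q _)

theorem coe_βE_t9E (h9 : 9 ∣ N) :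
    ((βE E N q (t9E E N h9) : _root_.Fermat.Agent.A2.Mod.FE E (N * q)) : LaurentSeries E) = qExpand E q (t9 E) := rfl

theorem coe_βE_t9E_int (h9 : 9 ∣ N) :
    ((βE E N q (t9E E N h9) : _root_.Fermat.Agent.A2.Mod.FE E (N * q)) : LaurentSeries E)
      = coeffEmb E (H708.castQ (qExpand ℤ q (t9 ℤ))) := by
  rw [coe_βE_t9E, coeffEmb_castQ_eq, coeffMap_qExpand, coeffMap_t9]

theorem αE_jE (d : ℕ) [NeZero d] (hd : d ∣ N) :
    αE E N q (jE E N d hd) = jE E (N * q) d (Dvd.dvd.mul_right hd q) :=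
  Subtype.ext (coe_heckeAlphaBar N q _)

end Deg

end Fermat.Agent.S36.H890

end
end
-- ===== PACK-END S36/H890/T9E.lean

-- ===== PACK-BEGIN S36/H890/Vinf9.lean
section



/-!
# The level-`9` Gauss units are units of `V∞` (helper890, S36 cell REG, `q = 2`)

`V` the Gauss valuation ring of `F_{N,E}` (`A2.Mod.IsVinf P E N V`), `9 ∣ N`, ANY residue
characteristic.  The following elements of `F_{N,E}` and their inverses lie in `V`:

  `t₉`, `Q(t₉) = t₉² + 9 t₉ + 27`, `den₉(t₃, t₃(t³))`, `U₃(j, j₃)`, `U₃(j₃, j₉)`, `j`, `j - 1728`,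

and they are nonzero (statements in the shape `f ≠ 0 ∧ f ∈ V ∧ f⁻¹ ∈ V` of `Eng.UnitAt`),

and `t₃`, `t₃(t³)`, `num₉`, `W₃(j, j₃)`, `W₃(j₃, j₉)` lie in `V`.  (Units of `V_mid`, `V_FF`
at level `N q²` follow by `α (V∞') ⊆ V`.)
-/

set_option autoImplicit false
set_option synthInstance.maxHeartbeats 400000
set_option maxHeartbeats 1600000
set_option linter.unusedSectionVars false

noncomputable section

namespace Fermat.Agent.S36.H890

open ModularCurve HahnSeries Fermat.Agent.Lib.Haupt Fermat.Agent.A2.Mod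
open Fermat.Agent.A2

variable (P : ValuationSubring _root_.Fermat.Agent.A2.Mod.Qb) (E : IntermediateField ℚ _root_.Fermat.Agent.A2.Mod.Qb) (N : ℕ)

/-- The ring homomorphism `ℤ((t)) → E((t))`. -/
def castE : LaurentSeries ℤ →+* LaurentSeries E := (coeffEmb E).comp H708.castQ

theorem castE_apply (g : LaurentSeries ℤ) : castE E g = coeffEmb E (H708.castQ g) := rfl

theorem castE_eq (g : LaurentSeries ℤ) : castE E g = coeffMap (Int.castRingHom E) g :=
  coeffEmb_castQ_eq E g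

theorem castE_t9 : castE E (t9 ℤ) = t9 E := by rw [castE_eq, coeffMap_t9]

theorem castE_t3 : castE E (t3 ℤ) = t3 E := by rw [castE_eq, coeffMap_t3]

theorem castE_jq : castE E (jqModC ℤ) = jqModC E := by rw [castE_eq, coeffMap_jqModC]

theorem castE_qExpand (d : ℕ) [NeZero d] (g : LaurentSeries ℤ) :
    castE E (qExpand ℤ d g) = qExpand E d (castE E g) := by
  rw [castE_eq, castE_eq, coeffMap_qExpand]

variable {P E N}

/-- An element of `F_{N,E}` whose expansion is an integral series with a coefficient `1` is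
nonzero. -/
theorem ne_zero_of_int {f : _root_.Fermat.Agent.A2.Mod.FE E N} {g : LaurentSeries ℤ} {k : ℤ}
    (hfg : (f : LaurentSeries E) = castE E g) (hk : g.coeff k = 1) : f ≠ 0 := by
  intro h
  have h1 : (castE E g).coeff k = 1 := by
    rw [castE_eq, coeffMap_coeff, hk, map_one]
  rw [← hfg, h] at h1
  have h2 : (((0 : _root_.Fermat.Agent.A2.Mod.FE E N) : LaurentSeries E)).coeff k = 0 := rfl
  rw [h2] at h1
  exact zero_ne_one h1

/-- An element of `F_{N,E}` whose expansion is an integral series with a coefficient `1` is a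
unit of `V∞` (in the form of `Eng.UnitAt`). -/
theorem unit_of_int {V : ValuationSubring (_root_.Fermat.Agent.A2.Mod.FE E N)} (hV : IsVinf P E N V) {f : _root_.Fermat.Agent.A2.Mod.FE E N}
    {g : LaurentSeries ℤ} {k : ℤ} (hfg : (f : LaurentSeries E) = castE E g)
    (hk : g.coeff k = 1) : f ≠ 0 ∧ f ∈ V ∧ f⁻¹ ∈ V :=
  ⟨ne_zero_of_int hfg hk, H553.mem_of_int hV hfg, H553.inv_mem_of_int hV hfg (Or.inl hk)⟩

variable (P E N)

section Level9

variable {V : ValuationSubring (_root_.Fermat.Agent.A2.Mod.FE E N)} (hV : IsVinf P E N V) (h9 : 9 ∣ N)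

include hV

theorem t9E_unit : t9E E N h9 ≠ 0 ∧ t9E E N h9 ∈ V ∧ (t9E E N h9)⁻¹ ∈ V :=
  unit_of_int hV (g := t9 ℤ) (k := -1) (by rw [coe_t9E, castE_t9]) (coeff_t9_neg_one ℤ)

theorem t9E_quad_unit :
    t9E E N h9 ^ 2 + 9 * t9E E N h9 + 27 ≠ 0 ∧ t9E E N h9 ^ 2 + 9 * t9E E N h9 + 27 ∈ V
      ∧ (t9E E N h9 ^ 2 + 9 * t9E E N h9 + 27)⁻¹ ∈ V := by
  refine unit_of_int hV (g := t9 ℤ ^ 2 + 9 * t9 ℤ + 27) (k := -2) ?_
    (coeff_t9_quad_neg_two ℤ)
  rw [map_add, map_add, map_mul, map_pow, map_ofNat, map_ofNat, castE_t9]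
  rfl

theorem t3E_mem : t3E E N (Dvd.dvd.trans (by norm_num) h9) ∈ V :=
  H553.mem_of_int hV (g := t3 ℤ) (by rw [coe_t3E, ← castE_apply, castE_t3])

theorem t3eE_mem : t3eE E N h9 ∈ V :=
  H553.mem_of_int hV (g := qExpand ℤ 3 (t3 ℤ))
    (by rw [coe_t3eE, ← castE_apply, castE_qExpand, castE_t3])

theorem den9E_unit :
    h9den (t3E E N (Dvd.dvd.trans (by norm_num) h9)) (t3eE E N h9) ≠ 0
      ∧ h9den (t3E E N (Dvd.dvd.trans (by norm_num) h9)) (t3eE E N h9) ∈ V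
      ∧ (h9den (t3E E N (Dvd.dvd.trans (by norm_num) h9)) (t3eE E N h9))⁻¹ ∈ V := by
  refine unit_of_int hV (g := h9den (t3 ℤ) (qExpand ℤ 3 (t3 ℤ))) (k := -4) ?_ (coeff_den9 ℤ)
  rw [map_h9den, castE_qExpand, castE_t3]
  exact (map_h9den (_root_.Fermat.Agent.A2.Mod.FE E N).val.toRingHom _ _)

theorem u3E_unit :
    h9u3 (jE E N 1 (one_dvd N)) (jE E N 3 (Dvd.dvd.trans (by norm_num) h9)) ≠ 0
      ∧ h9u3 (jE E N 1 (one_dvd N)) (jE E N 3 (Dvd.dvd.trans (by norm_num) h9)) ∈ V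
      ∧ (h9u3 (jE E N 1 (one_dvd N)) (jE E N 3 (Dvd.dvd.trans (by norm_num) h9)))⁻¹ ∈ V := by
  refine unit_of_int hV (g := h9u3 (jqModC ℤ) (qExpand ℤ 3 (jqModC ℤ))) (k := -9) ?_
    (coeff_u3 ℤ)
  rw [map_h9u3, castE_qExpand, castE_jq, ← h9_coe_jE E N 3 (Dvd.dvd.trans (by norm_num) h9),
    ← h9_coe_jE_one E N]
  exact (map_h9u3 (_root_.Fermat.Agent.A2.Mod.FE E N).val.toRingHom _ _)

theorem u3eE_unit :
    h9u3 (jE E N 3 (Dvd.dvd.trans (by norm_num) h9)) (jE E N 9 h9) ≠ 0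
      ∧ h9u3 (jE E N 3 (Dvd.dvd.trans (by norm_num) h9)) (jE E N 9 h9) ∈ V
      ∧ (h9u3 (jE E N 3 (Dvd.dvd.trans (by norm_num) h9)) (jE E N 9 h9))⁻¹ ∈ V := by
  refine unit_of_int hV (g := h9u3 (qExpand ℤ 3 (jqModC ℤ)) (qExpand ℤ 9 (jqModC ℤ)))
    (k := -27) ?_ (coeff_u3e ℤ)
  rw [map_h9u3, castE_qExpand, castE_qExpand, castE_jq,
    ← h9_coe_jE E N 3 (Dvd.dvd.trans (by norm_num) h9), ← h9_coe_jE E N 9 h9]
  exact (map_h9u3 (_root_.Fermat.Agent.A2.Mod.FE E N).val.toRingHom _ _)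

end Level9

section AnyLevel

variable {V : ValuationSubring (_root_.Fermat.Agent.A2.Mod.FE E N)} (hV : IsVinf P E N V)

include hV

theorem jE_one_unit :
    jE E N 1 (one_dvd N) ≠ 0 ∧ jE E N 1 (one_dvd N) ∈ V ∧ (jE E N 1 (one_dvd N))⁻¹ ∈ V :=
  unit_of_int hV (g := jqModC ℤ) (k := -1) (by rw [h9_coe_jE_one, castE_jq])
    (coeff_jqModC_neg_one ℤ)

theorem jE_sub_1728_unit :
    jE E N 1 (one_dvd N) - 1728 ≠ 0 ∧ jE E N 1 (one_dvd N) - 1728 ∈ V
      ∧ (jE E N 1 (one_dvd N) - 1728)⁻¹ ∈ V := by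
  refine unit_of_int hV (g := jqModC ℤ - 1728) (k := -1) ?_ (coeff_jq_sub_1728 ℤ)
  rw [map_sub, map_ofNat, castE_jq, ← h9_coe_jE_one E N]
  rfl

end AnyLevel

end Fermat.Agent.S36.H890

end
end
-- ===== PACK-END S36/H890/Vinf9.lean

-- ===== PACK-BEGIN S59/TW/H658/HeckeRel.lean
section





/-!
# S59 / TW-ES (helper658), leaf E5c: the Hecke relations on `Hom_par(K, ℂ)` and `Hom_par(K, ℤ)`

`K` a subgroup with `Γ₁(M) ≤ K ≤ Γ₀(M)` (`H653.IsMid M K`), `-1 ∈ K`, `M ∣ N'`, and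
`u : ℕ → (ℤ/M)ˣ` (think `u ℓ = ℓ^(-1/2)` in `Δ`).  On `X_K(A) = Hom(K, A)` let
`t_ℓ := ⟨u ℓ⟩ ∘ T_ℓ` (`tHom`, `tFam`).  Under `EmbHyp K N' u` (for every character `χ` trivial on
`K`, the nebentypus-`χ` component embeds into `S₂(Γ₀(N'))`, intertwining `χ(u ℓ) T_ℓ` with `T_ℓ`;
this follows from `TwistHyp K N' u`: every such `χ` has a `TwistDatum` with `psiL(ℓ) = χ(u ℓ)`):

* `rel_complex` : every noncommutative polynomial relation `P(T_ℓ) = 0` on `S₂(Γ₀(N'))` holds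
  for the `t_ℓ` on the parabolic classes in `Hom(K, ℂ)`;
* `rel_int` : the same on the parabolic classes in `Hom(K, ℤ)`;
* `isParabolicHom_tHom_complex`, `isParabolicHom_tHom_int` : `t_ℓ` preserves parabolic classes.
-/

set_option autoImplicit false
set_option linter.unusedSectionVars false
set_option linter.style.haveILetI false

noncomputable section

namespace Fermat.Agent.S59.TW.H658

open CongruenceSubgroup ModularForm ModularCurve ModularCurve.Period
open UpperHalfPlane hiding I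
open Matrix.SpecialLinearGroup Fermat.Agent.Lib.Newform.H803
open Fermat.Agent.S41.H761 Fermat.Agent.S29.H642
open Fermat.Agent.S59.TW.H653 Fermat.Agent.S59.TW.H564
open scoped Manifold MatrixGroups ModularForm

/-- The primes `ℓ ∤ N'`, `ℓ ∉ S`. -/
abbrev GoodPrime (N' : ℕ) (S : Set ℕ) : Type := {ℓ : ℕ // ℓ.Prime ∧ ¬ ℓ ∣ N' ∧ ℓ ∉ S}

section Fam

variable (N' : ℕ) [NeZero N'] (S : Set ℕ)

/-- The family of the `T_ℓ` on `S₂(Γ₀(N'))`. -/
def heckeFam (i : GoodPrime N' S) : Module.End ℂ (CuspForm (Gamma0 N') 2) :=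
  CuspForm.heckeTLin 2 i.2.1 i.2.2.1

theorem heckeGenerators_eq_range (hS : ∀ q : ℕ, q.Prime → q ∣ N' → q ∈ S) :
    CuspForm.heckeGenerators N' 2 S = Set.range (heckeFam N' S) := by
  ext T
  constructor
  · rintro (⟨ℓ, hℓ, hℓN, hℓS, rfl⟩ | ⟨q, hqN, hq, hqS, rfl⟩)
    · exact ⟨⟨ℓ, hℓ, hℓN, hℓS⟩, rfl⟩
    · exact absurd (hS q hq hqN) hqS
  · rintro ⟨i, rfl⟩
    exact CuspForm.heckeTLin_mem_heckeGenerators i.2.1 i.2.2.1 i.2.2.2

theorem heckeAlgebra_eq_adjoin (hS : ∀ q : ℕ, q.Prime → q ∣ N' → q ∈ S) :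
    CuspForm.heckeAlgebra N' 2 S = Algebra.adjoin ℤ (Set.range (heckeFam N' S)) := by
  rw [CuspForm.heckeAlgebra, heckeGenerators_eq_range N' S hS]

end Fam

variable {M : ℕ} {K : Subgroup SL(2, ℤ)}

section Ops

variable (hK : IsMid M K) (A : Type*) [AddCommGroup A]

/-- `t_ℓ = ⟨u⟩ ∘ T_ℓ` as an additive endomorphism of `X_K(A) = Hom(K, A)`. -/
def tHom (u : (ZMod M)ˣ) {ℓ : ℕ} [Fact ℓ.Prime] (hℓ : ¬ ℓ ∣ M) :
    (Additive K →+ A) →+ (Additive K →+ A) :=
  (AddMonoidHom.mk' (diamondU hK u) (diamondU_add hK u)).comp (TKHom hK A hℓ)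

variable {A}

@[simp] theorem tHom_apply (u : (ZMod M)ˣ) {ℓ : ℕ} [Fact ℓ.Prime] (hℓ : ¬ ℓ ∣ M)
    (φ : Additive K →+ A) : tHom hK A u hℓ φ = diamondU hK u (TK M K ℓ φ) := rfl

theorem tHom_comp {B : Type*} [AddCommGroup B] (u : (ZMod M)ˣ) {ℓ : ℕ} [Fact ℓ.Prime]
    (hℓ : ¬ ℓ ∣ M) (π : A →+ B) (φ : Additive K →+ A) :
    tHom hK B u hℓ (π.comp φ) = π.comp (tHom hK A u hℓ φ) := by
  rw [tHom_apply, tHom_apply, TK_comp hK hℓ, diamondU_comp]

variable (A)

/-- The family of the `t_ℓ`, `ℓ ∤ N'`, `ℓ ∉ S`, as `ℤ`-linear endomorphisms of `X_K(A)`. -/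
def tFam {N' : ℕ} (hMN : M ∣ N') (u : ℕ → (ZMod M)ˣ) {S : Set ℕ} (i : GoodPrime N' S) :
    Module.End ℤ (Additive K →+ A) :=
  haveI : Fact i.1.Prime := ⟨i.2.1⟩
  (tHom hK A (u i.1) (fun h => i.2.2.1 (h.trans hMN))).toIntLinearMap

variable {A}

theorem tFam_apply {N' : ℕ} (hMN : M ∣ N') (u : ℕ → (ZMod M)ˣ) {S : Set ℕ} {ℓ : ℕ}
    [Fact ℓ.Prime] (hℓ : ℓ.Prime ∧ ¬ ℓ ∣ N' ∧ ℓ ∉ S) (φ : Additive K →+ A) :
    tFam hK A hMN u (⟨ℓ, hℓ⟩ : GoodPrime N' S) φ = diamondU hK (u ℓ) (TK M K ℓ φ) := rfl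

theorem tFam_comp {B : Type*} [AddCommGroup B] {N' : ℕ} (hMN : M ∣ N') (u : ℕ → (ZMod M)ˣ)
    {S : Set ℕ} (i : GoodPrime N' S) (π : A →+ B) (φ : Additive K →+ A) :
    tFam hK B hMN u i (π.comp φ) = π.comp (tFam hK A hMN u i φ) := by
  haveI : Fact i.1.Prime := ⟨i.2.1⟩
  exact tHom_comp hK (u i.1) (fun h => i.2.2.1 (h.trans hMN)) π φ

end Ops

/-- The hypothesis of the transfer: every character trivial on `K` can be twisted to `Γ₀(N')`,
the twisting characters being "`χ ∘ u`". -/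
structure TwistHyp (K : Subgroup SL(2, ℤ)) (N' : ℕ) (u : ℕ → (ZMod M)ˣ) : Prop where
  dvd : M ∣ N'
  neg : (-1 : SL(2, ℤ)) ∈ K
  twist : ∀ χ : DirichletCharacter ℂ M, _root_.Fermat.Agent.S59.TW.H658.TrivOn K χ → ∃ D : TwistDatum M N' χ,
    ∀ ℓ : ℕ, ℓ.Prime → ¬ ℓ ∣ N' → psiL D.ψ D.L ℓ = χ ((u ℓ : (ZMod M)ˣ) : ZMod M)

/-- The hypothesis of the transfer, in its abstract form: for every character `χ` trivial on `K`
the nebentypus-`χ` component embeds into `S₂(Γ₀(N'))`, intertwining `χ(u ℓ) • T_ℓ` with `T_ℓ`. -/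
structure EmbHyp (K : Subgroup SL(2, ℤ)) (N' : ℕ) (u : ℕ → (ZMod M)ˣ) : Prop where
  dvd : M ∣ N'
  neg : (-1 : SL(2, ℤ)) ∈ K
  emb : ∀ χ : DirichletCharacter ℂ M, _root_.Fermat.Agent.S59.TW.H658.TrivOn K χ →
    ∃ J : _root_.Fermat.Agent.S59.TW.H658.nebSub M χ →+ CuspForm (Gamma0 N') 2, Function.Injective J ∧
      ∀ (ℓ : ℕ) [Fact ℓ.Prime] (hℓ : ¬ ℓ ∣ M) (hℓN : ¬ ℓ ∣ N') (F : _root_.Fermat.Agent.S59.TW.H658.nebSub M χ),
        CuspForm.heckeTLin 2 (Fact.out : ℓ.Prime) hℓN (J F) =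
          J (nebT χ hℓ (χ ((u ℓ : (ZMod M)ˣ) : ZMod M)) F)

theorem TwistHyp.embHyp {N' : ℕ} {u : ℕ → (ZMod M)ˣ} (H : TwistHyp K N' u) : EmbHyp K N' u where
  dvd := H.dvd
  neg := H.neg
  emb := fun χ hχ => by
    obtain ⟨D, hD⟩ := H.twist χ hχ
    refine ⟨nebTwist D, nebTwist_injective D, ?_⟩
    intro ℓ _ hℓ hℓN F
    rw [heckeTLin_nebTwist D hℓN hℓ F, hD ℓ Fact.out hℓN]

theorem Gamma_le_of_isMid (hK : IsMid M K) : Gamma M ≤ K := by
  refine le_trans (fun γ hγ => ?_) hK.ge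
  rw [Gamma_mem] at hγ
  rw [Gamma1_mem]
  exact ⟨hγ.1, hγ.2.2.2, hγ.2.2.1⟩

/-- Post-composition with complex conjugation. -/
def conjAdd (G : Type*) [AddZeroClass G] : (G →+ ℂ) →+ (G →+ ℂ) :=
  AddMonoidHom.mk' conjHom (fun _ _ => AddMonoidHom.ext fun _ => by simp)

@[simp] theorem conjAdd_apply {G : Type*} [AddZeroClass G] (ψ : G →+ ℂ) :
    conjAdd G ψ = conjHom ψ := rfl

variable [NeZero M] [K.FiniteIndex]

/-- Eichler–Shimura surjectivity (`exists_perG_add_conj`) for `Γ₁(M) ≤ K ≤ Γ₀(M)`, `-1 ∈ K`. -/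
theorem exists_perG_add_conj_of_isMid (hK : IsMid M K) (hneg : (-1 : SL(2, ℤ)) ∈ K)
    (ψ : Additive K →+ ℂ) (hψ : IsParabolicHom K ψ) :
    ∃ f₁ f₂ : CuspForm K 2, ψ = perG f₁ + conjHom (perG f₂) :=
  exists_perG_add_conj (Lev.ofSubgroup K M (NeZero.ne M) (Gamma_le_of_isMid hK) hneg) ψ hψ

/-- **E5, complex coefficients.**  Relations among the `T_ℓ` on `S₂(Γ₀(N'))` hold for the
`t_ℓ = ⟨u ℓ⟩ T_ℓ` on the parabolic classes of `K`. -/
theorem rel_complex (hK : IsMid M K) {N' : ℕ} [NeZero N'] {u : ℕ → (ZMod M)ˣ}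
    (H : EmbHyp K N' u) (S : Set ℕ) (P : FreeAlgebra ℤ (GoodPrime N' S))
    (hP : FreeAlgebra.lift ℤ (heckeFam N' S) P = 0)
    (y : Additive K →+ ℂ) (hy : IsParabolicHom K y) :
    FreeAlgebra.lift ℤ (tFam hK ℂ H.dvd u) P y = 0 := by
  classical
  choose J hJi hJ using H.emb
  have hℓM : ∀ i : GoodPrime N' S, ¬ i.1 ∣ M := fun i h => i.2.2.1 (h.trans H.dvd)
  refine rel_of_intertwiners (heckeFam N' S) (tFam hK ℂ H.dvd u)
    (parabolicHoms ℤ K ℂ).toAddSubgroup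
    (W := fun e : {χ : DirichletCharacter ℂ M // _root_.Fermat.Agent.S59.TW.H658.TrivOn K χ} => _root_.Fermat.Agent.S59.TW.H658.nebSub M e.1)
    (fun e i => haveI : Fact i.1.Prime := ⟨i.2.1⟩
      endToInt ℂ _ (nebT e.1 (hℓM i) (e.1 ((u i.1 : (ZMod M)ˣ) : ZMod M))))
    (fun e => J e.1 e.2) (fun e => hJi e.1 e.2) ?_
    (fun e => (perGL K).toAddMonoidHom.comp (nebForm hK e.1 e.2).toAddMonoidHom) ?_
    (conjAdd _) ?_ ?_ P hP y hy
  · intro e i w
    haveI : Fact i.1.Prime := ⟨i.2.1⟩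
    exact (hJ e.1 e.2 i.1 (hℓM i) i.2.2.1 w).symm
  · intro e i w
    haveI : Fact i.1.Prime := ⟨i.2.1⟩
    exact perG_nebForm_nebT hK e.1 e.2 (hℓM i) (u i.1) w
  · intro i x
    exact tFam_comp hK H.dvd u i (starRingEnd ℂ).toAddMonoidHom x
  · intro y hy
    obtain ⟨f₁, f₂, rfl⟩ := exists_perG_add_conj_of_isMid hK H.neg y hy
    obtain ⟨w₁, hw₁⟩ := exists_nebForm_sum hK f₁
    obtain ⟨w₂, hw₂⟩ := exists_nebForm_sum hK f₂
    refine AddSubgroup.add_mem _ ?_ ?_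
    · have : perG f₁ = ∑ χ : {χ : DirichletCharacter ℂ M // _root_.Fermat.Agent.S59.TW.H658.TrivOn K χ},
          perG (nebForm hK χ.1 χ.2 (w₁ χ)) := by
        conv_lhs => rw [hw₁]
        rw [← perGL_apply, map_sum]
        rfl
      rw [this]
      exact AddSubgroup.sum_mem _ fun χ _ => AddSubgroup.subset_closure ⟨χ, w₁ χ, Or.inl rfl⟩
    · have : conjHom (perG f₂) = ∑ χ : {χ : DirichletCharacter ℂ M // _root_.Fermat.Agent.S59.TW.H658.TrivOn K χ},
          conjHom (perG (nebForm hK χ.1 χ.2 (w₂ χ))) := by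
        conv_lhs => rw [hw₂]
        rw [← perGL_apply, map_sum, ← conjAdd_apply, map_sum]
        rfl
      rw [this]
      exact AddSubgroup.sum_mem _ fun χ _ => AddSubgroup.subset_closure ⟨χ, w₂ χ, Or.inr rfl⟩

/-- `t_ℓ` preserves the complex parabolic classes. -/
theorem isParabolicHom_tFam_complex (hK : IsMid M K) {N' : ℕ} (hMN : M ∣ N')
    (hneg : (-1 : SL(2, ℤ)) ∈ K) (u : ℕ → (ZMod M)ˣ) {S : Set ℕ} (i : GoodPrime N' S)
    (y : Additive K →+ ℂ) (hy : IsParabolicHom K y) :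
    IsParabolicHom K (tFam hK ℂ hMN u i y) := by
  haveI : Fact i.1.Prime := ⟨i.2.1⟩
  have hℓ : ¬ i.1 ∣ M := fun h => i.2.2.1 (h.trans hMN)
  obtain ⟨f₁, f₂, rfl⟩ := exists_perG_add_conj_of_isMid hK hneg y hy
  have h1 : ∀ f : CuspForm K 2, tFam hK ℂ hMN u i (perG f) =
      perG (diaForm hK (sg (u i.1)) (TForm hK hℓ f)) := by
    intro f
    rw [perG_diaForm, perG_TForm, ← diamondU_eq hK (dUnit_sg (u i.1))]
    rfl
  have h2 : tFam hK ℂ hMN u i (conjHom (perG f₂)) = conjHom (tFam hK ℂ hMN u i (perG f₂)) :=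
    tFam_comp hK hMN u i (starRingEnd ℂ).toAddMonoidHom _
  rw [map_add, h2, h1, h1]
  intro γ hγ
  rw [AddMonoidHom.add_apply, conjHom_apply, perG_parabolic _ γ hγ, perG_parabolic _ γ hγ]
  simp

/-- Post-composition with `ℤ → ℂ`. -/
def castHom (G : Type*) [AddZeroClass G] : (G →+ ℤ) →+ (G →+ ℂ) :=
  AddMonoidHom.mk' (fun φ => (Int.castAddHom ℂ).comp φ)
    (fun _ _ => AddMonoidHom.ext fun _ => by simp)

@[simp] theorem castHom_apply {G : Type*} [AddZeroClass G] (φ : G →+ ℤ) (x : G) :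
    castHom G φ x = ((φ x : ℤ) : ℂ) := rfl

theorem castHom_injective (G : Type*) [AddZeroClass G] : Function.Injective (castHom G) := by
  intro φ ψ h
  refine AddMonoidHom.ext fun x => ?_
  have := DFunLike.congr_fun h x
  simpa using this

theorem isParabolicHom_castHom {φ : Additive K →+ ℤ} :
    IsParabolicHom K (castHom _ φ) ↔ IsParabolicHom K φ := by
  constructor
  · intro h γ hγ
    have := h γ hγ
    simpa using this
  · intro h γ hγ
    rw [castHom_apply, h γ hγ, Int.cast_zero]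

/-- `t_ℓ` preserves the integral parabolic classes. -/
theorem isParabolicHom_tFam_int (hK : IsMid M K) {N' : ℕ} (hMN : M ∣ N')
    (hneg : (-1 : SL(2, ℤ)) ∈ K) (u : ℕ → (ZMod M)ˣ) {S : Set ℕ} (i : GoodPrime N' S)
    (y : Additive K →+ ℤ) (hy : IsParabolicHom K y) :
    IsParabolicHom K (tFam hK ℤ hMN u i y) := by
  rw [← isParabolicHom_castHom]
  have h1 : castHom _ (tFam hK ℤ hMN u i y) = tFam hK ℂ hMN u i (castHom _ y) :=
    (tFam_comp hK hMN u i (Int.castAddHom ℂ) y).symm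
  rw [h1]
  exact isParabolicHom_tFam_complex hK hMN hneg u i _ (isParabolicHom_castHom.mpr hy)

/-- **E5, integral coefficients.** -/
theorem rel_int (hK : IsMid M K) {N' : ℕ} [NeZero N'] {u : ℕ → (ZMod M)ˣ}
    (H : EmbHyp K N' u) (S : Set ℕ) (P : FreeAlgebra ℤ (GoodPrime N' S))
    (hP : FreeAlgebra.lift ℤ (heckeFam N' S) P = 0)
    (y : Additive K →+ ℤ) (hy : IsParabolicHom K y) :
    FreeAlgebra.lift ℤ (tFam hK ℤ H.dvd u) P y = 0 := by
  apply castHom_injective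
  rw [lift_intertwine (tFam hK ℤ H.dvd u) (tFam hK ℂ H.dvd u) (castHom _)
    (fun i m => (tFam_comp hK H.dvd u i (Int.castAddHom ℂ) m).symm) P y, map_zero]
  exact rel_complex hK H S P hP _ (isParabolicHom_castHom.mpr hy)

end Fermat.Agent.S59.TW.H658

end
end
-- ===== PACK-END S59/TW/H658/HeckeRel.lean

-- ===== PACK-BEGIN S59/TW/H658/HeckeAction.lean
section


/-!
# S59 / TW-ES + TW-TWIST (helper658), leaf E5: the Hecke algebra of `Γ₀(N')` acts on `Hom_par(K, ℤ)`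

`Γ₁(M) ≤ K ≤ Γ₀(M)`, `-1 ∈ K`, `M ∣ N'`, `S` a set of primes containing the primes dividing `N'`,
`u : ℕ → (ℤ/M)ˣ`, `EmbHyp K N' u` (e.g. from `TwistHyp.embHyp` or `EmbH.embHyp_of_odd`).  Then there is a ring homomorphism

  `Φ : CuspForm.heckeAlgebra N' 2 S →+* End_ℤ (parabolicHoms ℤ K ℤ)`,  `T_ℓ ↦ ⟨u ℓ⟩ ∘ T_ℓ`

(`exists_heckeAction_int`); the same with complex coefficients (`exists_heckeAction_complex`).
-/

set_option autoImplicit false
set_option linter.unusedSectionVars false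
set_option linter.style.haveILetI false

noncomputable section

namespace Fermat.Agent.S59.TW.H658

open CongruenceSubgroup ModularForm ModularCurve ModularCurve.Period
open UpperHalfPlane hiding I
open Matrix.SpecialLinearGroup
open Fermat.Agent.S59.TW.H653 Fermat.Agent.S59.TW.H564
open scoped Manifold MatrixGroups ModularForm

variable {M : ℕ} {K : Subgroup SL(2, ℤ)}

section Abstract

variable (hK : IsMid M K) {A : Type*} [AddCommGroup A]

/-- The restriction of `t_ℓ` to the parabolic classes, given stability. -/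
def sFam {N' : ℕ} (hMN : M ∣ N') (u : ℕ → (ZMod M)ˣ) {S : Set ℕ}
    (hst : ∀ (i : GoodPrime N' S) (y : Additive K →+ A), IsParabolicHom K y →
      IsParabolicHom K (tFam hK A hMN u i y)) (i : GoodPrime N' S) :
    Module.End ℤ (parabolicHoms ℤ K A) :=
  (((tFam hK A hMN u i).toAddMonoidHom.comp
    (parabolicHoms ℤ K A).subtype.toAddMonoidHom).codRestrict
      (parabolicHoms ℤ K A).toAddSubgroup (fun y => hst i y y.2)).toIntLinearMap

@[simp] theorem coe_sFam {N' : ℕ} (hMN : M ∣ N') (u : ℕ → (ZMod M)ˣ) {S : Set ℕ}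
    (hst : ∀ (i : GoodPrime N' S) (y : Additive K →+ A), IsParabolicHom K y →
      IsParabolicHom K (tFam hK A hMN u i y)) (i : GoodPrime N' S)
    (y : parabolicHoms ℤ K A) :
    ((sFam hK hMN u hst i y : parabolicHoms ℤ K A) : Additive K →+ A) =
      tFam hK A hMN u i (y : Additive K →+ A) := rfl

theorem coe_lift_sFam {N' : ℕ} (hMN : M ∣ N') (u : ℕ → (ZMod M)ˣ) {S : Set ℕ}
    (hst : ∀ (i : GoodPrime N' S) (y : Additive K →+ A), IsParabolicHom K y →
      IsParabolicHom K (tFam hK A hMN u i y)) (P : FreeAlgebra ℤ (GoodPrime N' S))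
    (y : parabolicHoms ℤ K A) :
    ((FreeAlgebra.lift ℤ (sFam hK hMN u hst) P y : parabolicHoms ℤ K A) : Additive K →+ A) =
      FreeAlgebra.lift ℤ (tFam hK A hMN u) P (y : Additive K →+ A) :=
  lift_intertwine (sFam hK hMN u hst) (tFam hK A hMN u)
    (parabolicHoms ℤ K A).subtype.toAddMonoidHom (fun _ _ => rfl) P y

/-- **From relations to the action.**  If `t_ℓ` preserves the parabolic classes with values in
`A` and the relations of the `T_ℓ` on `S₂(Γ₀(N'))` hold for the `t_ℓ` on them, the Hecke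
algebra acts. -/
theorem exists_heckeAction_of_rel {N' : ℕ} [NeZero N'] (hMN : M ∣ N') (u : ℕ → (ZMod M)ˣ)
    (S : Set ℕ) (hS : ∀ q : ℕ, q.Prime → q ∣ N' → q ∈ S)
    (hst : ∀ (i : GoodPrime N' S) (y : Additive K →+ A), IsParabolicHom K y →
      IsParabolicHom K (tFam hK A hMN u i y))
    (hrel : ∀ P : FreeAlgebra ℤ (GoodPrime N' S), FreeAlgebra.lift ℤ (heckeFam N' S) P = 0 →
      ∀ y : Additive K →+ A, IsParabolicHom K y → FreeAlgebra.lift ℤ (tFam hK A hMN u) P y = 0) :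
    ∃ Φ : CuspForm.heckeAlgebra N' 2 S →+* Module.End ℤ (parabolicHoms ℤ K A),
      ∀ (ℓ : ℕ) [Fact ℓ.Prime] (hℓN : ¬ ℓ ∣ N') (hℓS : ℓ ∉ S) (φ : parabolicHoms ℤ K A),
        ((Φ (CuspForm.heckeAlgebra.T (Fact.out : ℓ.Prime) hℓN hℓS) φ : parabolicHoms ℤ K A) :
          Additive K →+ A) = diamondU hK (u ℓ) (TK M K ℓ (φ : Additive K →+ A)) := by
  obtain ⟨Φ₀, hΦ₀, -⟩ := exists_ringHom_of_rel_gen (heckeFam N' S) (sFam hK hMN u hst)
    (fun P hP => LinearMap.ext fun y => Subtype.ext (by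
      rw [coe_lift_sFam]
      exact hrel P hP y y.2))
  have heq := heckeAlgebra_eq_adjoin N' S hS
  refine ⟨Φ₀.comp (Subalgebra.equivOfEq _ _ heq).toRingEquiv.toRingHom, ?_⟩
  intro ℓ _ hℓN hℓS φ
  have h1 : (Subalgebra.equivOfEq _ _ heq).toRingEquiv.toRingHom
      (CuspForm.heckeAlgebra.T (Fact.out : ℓ.Prime) hℓN hℓS) =
      ⟨heckeFam N' S ⟨ℓ, Fact.out, hℓN, hℓS⟩, Algebra.subset_adjoin ⟨_, rfl⟩⟩ := rfl
  rw [RingHom.comp_apply, h1, hΦ₀]
  rfl

end Abstract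

variable [NeZero M] [K.FiniteIndex]

/-- **E5 (TW-ES + TW-TWIST), integral form.**  The Hecke algebra of `Γ₀(N')` (away from `S`)
acts on the parabolic classes `Hom_par(K, ℤ)` through `T_ℓ ↦ ⟨u ℓ⟩ ∘ T_ℓ`. -/
theorem exists_heckeAction_int (hK : IsMid M K) {N' : ℕ} [NeZero N'] {u : ℕ → (ZMod M)ˣ}
    (H : EmbHyp K N' u) (S : Set ℕ) (hS : ∀ q : ℕ, q.Prime → q ∣ N' → q ∈ S) :
    ∃ Φ : CuspForm.heckeAlgebra N' 2 S →+* Module.End ℤ (parabolicHoms ℤ K ℤ),
      ∀ (ℓ : ℕ) [Fact ℓ.Prime] (hℓN : ¬ ℓ ∣ N') (hℓS : ℓ ∉ S) (φ : parabolicHoms ℤ K ℤ),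
        ((Φ (CuspForm.heckeAlgebra.T (Fact.out : ℓ.Prime) hℓN hℓS) φ : parabolicHoms ℤ K ℤ) :
          Additive K →+ ℤ) = diamondU hK (u ℓ) (TK M K ℓ (φ : Additive K →+ ℤ)) :=
  exists_heckeAction_of_rel hK H.dvd u S hS
    (fun i y hy => isParabolicHom_tFam_int hK H.dvd H.neg u i y hy)
    (fun P hP y hy => rel_int hK H S P hP y hy)

/-- **E5 (TW-ES + TW-TWIST), complex form.** -/
theorem exists_heckeAction_complex (hK : IsMid M K) {N' : ℕ} [NeZero N'] {u : ℕ → (ZMod M)ˣ}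
    (H : EmbHyp K N' u) (S : Set ℕ) (hS : ∀ q : ℕ, q.Prime → q ∣ N' → q ∈ S) :
    ∃ Φ : CuspForm.heckeAlgebra N' 2 S →+* Module.End ℤ (parabolicHoms ℤ K ℂ),
      ∀ (ℓ : ℕ) [Fact ℓ.Prime] (hℓN : ¬ ℓ ∣ N') (hℓS : ℓ ∉ S) (φ : parabolicHoms ℤ K ℂ),
        ((Φ (CuspForm.heckeAlgebra.T (Fact.out : ℓ.Prime) hℓN hℓS) φ : parabolicHoms ℤ K ℂ) :
          Additive K →+ ℂ) = diamondU hK (u ℓ) (TK M K ℓ (φ : Additive K →+ ℂ)) :=
  exists_heckeAction_of_rel hK H.dvd u S hS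
    (fun i y hy => isParabolicHom_tFam_complex hK H.dvd H.neg u i y hy)
    (fun P hP y hy => rel_complex hK H S P hP y hy)

end Fermat.Agent.S59.TW.H658

end
end
-- ===== PACK-END S59/TW/H658/HeckeAction.lean

-- ===== PACK-BEGIN A3/H799/Asm.lean
section


/-!
# A3 / LOCAL — assembly: CHART + KER-I + LIFTI ⟹ `LocalStatement`  (helper799)

Coordinates on a finite inertia-stable subgroup `T ⊆ Pic0`:

* the indicator functions of the classes of `T` modulo the kernel of reduction `J`;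
* on every class `c` the chart coordinates `z_i (x - yt_c)`, where `yt_c` is an inertia-invariant
  class congruent to `c` modulo `J` (LIFTI), extended by `0`.

Addition is algebraic: on the box `c₁ × c₂` one has
`x + y - yt_{c₁+c₂} = (x - yt_{c₁}) + (y - yt_{c₂}) + const`, two applications of the chart addition
property for the algebra `Λ = {f | 1_box · f ∈ 𝒜}`.
-/

set_option autoImplicit false

noncomputable section

open AlgebraicCurve

namespace Fermat.Agent.A3.H799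

universe u₁ u₂ u₃ u₄

variable {K : Type u₁} {F : Type u₂} {k : Type u₃} {Fk : Type u₄}
  [Field K] [Field F] [Algebra K F] [Field k] [Field Fk] [Algebra k Fk]

section BoxAlg

variable {V : Type*} [CommRing V] {X : Type*} {K' : Type*} [CommRing K'] [Algebra V K']

/-- For an idempotent `e` of a subalgebra `𝒜` of `K'`-valued functions: the algebra of `V`-valued
functions `f` with `e · f ∈ 𝒜`. -/
def boxAlg (𝒜 : Subalgebra V (X → K')) (e : X → K') (he : e * e = e) (heA : e ∈ 𝒜) :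
    Subalgebra V (X → V) where
  carrier := {f | (fun p => e p * algebraMap V K' (f p)) ∈ 𝒜}
  mul_mem' := by
    intro f g hf hg
    have h : (fun p => e p * algebraMap V K' ((f * g) p)) =
        (fun p => e p * algebraMap V K' (f p)) * (fun p => e p * algebraMap V K' (g p)) := by
      funext p
      have := congrFun he p
      simp only [Pi.mul_apply] at this ⊢
      rw [map_mul]
      calc e p * (algebraMap V K' (f p) * algebraMap V K' (g p))
          = (e p * e p) * (algebraMap V K' (f p) * algebraMap V K' (g p)) := by rw [this]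
        _ = _ := by ring
    show (fun p => e p * algebraMap V K' ((f * g) p)) ∈ 𝒜
    rw [h]
    exact 𝒜.mul_mem hf hg
  add_mem' := by
    intro f g hf hg
    have h : (fun p => e p * algebraMap V K' ((f + g) p)) =
        (fun p => e p * algebraMap V K' (f p)) + (fun p => e p * algebraMap V K' (g p)) := by
      funext p
      simp only [Pi.add_apply, map_add]
      ring
    show (fun p => e p * algebraMap V K' ((f + g) p)) ∈ 𝒜
    rw [h]
    exact 𝒜.add_mem hf hg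
  algebraMap_mem' := by
    intro v
    have h : (fun p => e p * algebraMap V K' ((algebraMap V (X → V) v) p)) = v • e := by
      funext p
      simp only [Pi.smul_apply, Algebra.smul_def]
      rw [mul_comm]
      rfl
    show (fun p => e p * algebraMap V K' ((algebraMap V (X → V) v) p)) ∈ 𝒜
    rw [h]
    exact 𝒜.smul_mem heA v

theorem mem_boxAlg {𝒜 : Subalgebra V (X → K')} {e : X → K'} {he : e * e = e} {heA : e ∈ 𝒜}
    {f : X → V} : f ∈ boxAlg 𝒜 e he heA ↔ (fun p => e p * algebraMap V K' (f p)) ∈ 𝒜 := Iff.rfl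

end BoxAlg

section Classes

variable (𝓡 : GoodRed K F k Fk) (T : AddSubgroup (Pic0 K F))

/-- The kernel of reduction inside `T`. -/
def tKer : AddSubgroup T := 𝓡.kerRed.comap T.subtype

variable {𝓡 T}

theorem mk_eq_mk_iff (x y : T) :
    (QuotientAddGroup.mk x : T ⧸ tKer 𝓡 T) = QuotientAddGroup.mk y ↔
      (x : Pic0 K F) - (y : Pic0 K F) ∈ 𝓡.kerRed := by
  rw [QuotientAddGroup.eq]
  show -(x : Pic0 K F) + (y : Pic0 K F) ∈ 𝓡.kerRed ↔ _
  rw [← neg_mem_iff (H := 𝓡.kerRed)]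
  have h : -(-(x : Pic0 K F) + (y : Pic0 K F)) = (x : Pic0 K F) - (y : Pic0 K F) := by abel
  rw [h]

theorem sub_out_mem (x : T) (c : T ⧸ tKer 𝓡 T) (h : (QuotientAddGroup.mk x : T ⧸ tKer 𝓡 T) = c) :
    (x : Pic0 K F) - ((Quotient.out c : T) : Pic0 K F) ∈ 𝓡.kerRed := by
  rw [← mk_eq_mk_iff, h]
  exact (QuotientAddGroup.out_eq' c).symm

end Classes

section Coordinates

variable {𝓡 : GoodRed K F k Fk} {T : AddSubgroup (Pic0 K F)} {n : ℕ}
  (z : 𝓡.kerRed → Fin n → IsLocalRing.maximalIdeal 𝓡.V) (yt : T ⧸ tKer 𝓡 T → Pic0 K F)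
  (hmem : ∀ (x : T) (c : T ⧸ tKer 𝓡 T), (QuotientAddGroup.mk x : T ⧸ tKer 𝓡 T) = c →
    (x : Pic0 K F) - yt c ∈ 𝓡.kerRed)

open Classical in
/-- The coordinates: class indicators and chart coordinates on each class. -/
def psi₀ (x : T) : (T ⧸ tKer 𝓡 T) ⊕ (T ⧸ tKer 𝓡 T) × Fin n → K
  | Sum.inl c => if (QuotientAddGroup.mk x : T ⧸ tKer 𝓡 T) = c then 1 else 0
  | Sum.inr (c, i) =>
      if h : (QuotientAddGroup.mk x : T ⧸ tKer 𝓡 T) = c then
        (((z ⟨(x : Pic0 K F) - yt c, hmem x c h⟩ i : IsLocalRing.maximalIdeal 𝓡.V) : 𝓡.V) : K)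
      else 0

open Classical in
theorem psi₀_inl (x : T) (c : T ⧸ tKer 𝓡 T) :
    psi₀ z yt hmem x (Sum.inl c) =
      if (QuotientAddGroup.mk x : T ⧸ tKer 𝓡 T) = c then 1 else 0 := by
  simp only [psi₀]

open Classical in
theorem psi₀_inr (x : T) (c : T ⧸ tKer 𝓡 T) (i : Fin n) :
    psi₀ z yt hmem x (Sum.inr (c, i)) =
      if h : (QuotientAddGroup.mk x : T ⧸ tKer 𝓡 T) = c then
        (((z ⟨(x : Pic0 K F) - yt c, hmem x c h⟩ i : IsLocalRing.maximalIdeal 𝓡.V) : 𝓡.V) : K)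
      else 0 := by
  simp only [psi₀]

open Classical in
theorem psi₀_inr_pos (x : T) (c : T ⧸ tKer 𝓡 T) (i : Fin n)
    (h : (QuotientAddGroup.mk x : T ⧸ tKer 𝓡 T) = c) :
    psi₀ z yt hmem x (Sum.inr (c, i)) =
      (((z ⟨(x : Pic0 K F) - yt c, hmem x c h⟩ i : IsLocalRing.maximalIdeal 𝓡.V) : 𝓡.V) : K) := by
  rw [psi₀_inr, dif_pos h]

open Classical in
theorem psi₀_inr_neg (x : T) (c : T ⧸ tKer 𝓡 T) (i : Fin n)
    (h : ¬ (QuotientAddGroup.mk x : T ⧸ tKer 𝓡 T) = c) :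
    psi₀ z yt hmem x (Sum.inr (c, i)) = 0 := by
  rw [psi₀_inr, dif_neg h]

open Classical in
theorem psi₀_mem (x : T) (j : (T ⧸ tKer 𝓡 T) ⊕ (T ⧸ tKer 𝓡 T) × Fin n) :
    psi₀ z yt hmem x j ∈ 𝓡.V := by
  rcases j with c | ⟨c, i⟩
  · rw [psi₀_inl]
    split_ifs
    · exact 𝓡.V.one_mem
    · exact 𝓡.V.zero_mem
  · rw [psi₀_inr]
    split_ifs
    · exact Subtype.coe_prop _
    · exact 𝓡.V.zero_mem

open Classical in
theorem psi₀_injective (hz : Function.Injective z) : Function.Injective (psi₀ z yt hmem) := by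
  intro x x' h
  have h1 := congrFun h (Sum.inl (QuotientAddGroup.mk x))
  rw [psi₀_inl, psi₀_inl, if_pos rfl] at h1
  have hc : (QuotientAddGroup.mk x' : T ⧸ tKer 𝓡 T) = QuotientAddGroup.mk x := by
    by_contra hne
    rw [if_neg hne] at h1
    exact one_ne_zero h1
  have h2 : z ⟨(x : Pic0 K F) - yt (QuotientAddGroup.mk x), hmem x _ rfl⟩ =
      z ⟨(x' : Pic0 K F) - yt (QuotientAddGroup.mk x), hmem x' _ hc⟩ := by
    funext i
    have h3 := congrFun h (Sum.inr (QuotientAddGroup.mk x, i))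
    rw [psi₀_inr_pos z yt hmem x _ i rfl, psi₀_inr_pos z yt hmem x' _ i hc] at h3
    exact Subtype.ext (Subtype.ext h3)
  have h4 := congrArg Subtype.val (hz h2)
  simp only [sub_left_inj] at h4
  exact Subtype.ext h4

open Classical in
theorem psi₀_smul (hker : ∀ g ∈ 𝓡.I, ∀ x : Pic0 K F, g • x - x ∈ 𝓡.kerRed)
    (hyI : ∀ c, ∀ g ∈ 𝓡.I, g • yt c = yt c)
    (hzeq : ∀ g ∈ 𝓡.I, ∀ (u : 𝓡.kerRed) (hgu : g • (u : Pic0 K F) ∈ 𝓡.kerRed) (i : Fin n),
      (((z ⟨g • (u : Pic0 K F), hgu⟩ i : IsLocalRing.maximalIdeal 𝓡.V) : 𝓡.V) : K) =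
        SemilinearAut.baseAut g (((z u i : IsLocalRing.maximalIdeal 𝓡.V) : 𝓡.V) : K))
    (g : SemilinearAut K F) (hg : g ∈ 𝓡.I) (x : T) (hgx : g • (x : Pic0 K F) ∈ T)
    (j : (T ⧸ tKer 𝓡 T) ⊕ (T ⧸ tKer 𝓡 T) × Fin n) :
    psi₀ z yt hmem ⟨g • (x : Pic0 K F), hgx⟩ j =
      SemilinearAut.baseAut g (psi₀ z yt hmem x j) := by
  have hmk : (QuotientAddGroup.mk (⟨g • (x : Pic0 K F), hgx⟩ : T) : T ⧸ tKer 𝓡 T) =
      QuotientAddGroup.mk x := by
    rw [mk_eq_mk_iff]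
    exact hker g hg _
  rcases j with c | ⟨c, i⟩
  · rw [psi₀_inl, psi₀_inl, hmk]
    split_ifs
    · rw [map_one]
    · rw [map_zero]
  · by_cases h : (QuotientAddGroup.mk x : T ⧸ tKer 𝓡 T) = c
    · have h' : (QuotientAddGroup.mk (⟨g • (x : Pic0 K F), hgx⟩ : T) : T ⧸ tKer 𝓡 T) = c := by
        rw [hmk, h]
      rw [psi₀_inr_pos z yt hmem _ c i h', psi₀_inr_pos z yt hmem x c i h]
      have heq : g • ((x : Pic0 K F) - yt c) = g • (x : Pic0 K F) - yt c := by
        rw [smul_sub, hyI c g hg]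
      have hgu : g • ((x : Pic0 K F) - yt c) ∈ 𝓡.kerRed := by
        rw [heq]
        exact hmem _ c h'
      rw [← hzeq g hg ⟨(x : Pic0 K F) - yt c, hmem x c h⟩ hgu i]
      congr 4
      exact heq.symm
    · have h' : ¬ (QuotientAddGroup.mk (⟨g • (x : Pic0 K F), hgx⟩ : T) : T ⧸ tKer 𝓡 T) = c := by
        rw [hmk]; exact h
      rw [psi₀_inr_neg z yt hmem _ c i h', psi₀_inr_neg z yt hmem x c i h, map_zero]

open Classical in
/-- Partition of unity by the boxes. -/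
theorem mem_of_forall_box [Finite T] (𝒜 : Subalgebra 𝓡.V (T × T → K)) (G : T × T → K)
    (h : ∀ c₁ c₂ : T ⧸ tKer 𝓡 T, (fun p : T × T =>
      ((if (QuotientAddGroup.mk p.1 : T ⧸ tKer 𝓡 T) = c₁ then (1 : K) else 0) *
        (if (QuotientAddGroup.mk p.2 : T ⧸ tKer 𝓡 T) = c₂ then (1 : K) else 0)) * G p) ∈ 𝒜) :
    G ∈ 𝒜 := by
  haveI : Fintype (T ⧸ tKer 𝓡 T) := Fintype.ofFinite _
  have hG : G = ∑ c₁ : T ⧸ tKer 𝓡 T, ∑ c₂ : T ⧸ tKer 𝓡 T, (fun p : T × T =>
      ((if (QuotientAddGroup.mk p.1 : T ⧸ tKer 𝓡 T) = c₁ then (1 : K) else 0) *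
        (if (QuotientAddGroup.mk p.2 : T ⧸ tKer 𝓡 T) = c₂ then (1 : K) else 0)) * G p) := by
    funext p
    simp only [Finset.sum_apply]
    simp only [← Finset.sum_mul, ← Finset.mul_sum]
    simp
  rw [hG]
  exact Subalgebra.sum_mem _ fun c₁ _ => Subalgebra.sum_mem _ fun c₂ _ => h c₁ c₂

open Classical in
theorem psi₀_add_mem [Finite T]
    (hzadd : ∀ (Λ : Subalgebra 𝓡.V (T × T → 𝓡.V)) (a b : T × T → 𝓡.kerRed),
      (∀ j, (fun τ => ((z (a τ) j : IsLocalRing.maximalIdeal 𝓡.V) : 𝓡.V)) ∈ Λ) →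
      (∀ j, (fun τ => ((z (b τ) j : IsLocalRing.maximalIdeal 𝓡.V) : 𝓡.V)) ∈ Λ) →
      ∀ i, (fun τ => ((z (a τ + b τ) i : IsLocalRing.maximalIdeal 𝓡.V) : 𝓡.V)) ∈ Λ)
    (j : (T ⧸ tKer 𝓡 T) ⊕ (T ⧸ tKer 𝓡 T) × Fin n) :
    (fun p : T × T => psi₀ z yt hmem (p.1 + p.2) j) ∈
      Algebra.adjoin 𝓡.V ({f | ∃ j, f = fun p : T × T => psi₀ z yt hmem p.1 j} ∪
        {f | ∃ j, f = fun p : T × T => psi₀ z yt hmem p.2 j}) := by
  set 𝒜 := Algebra.adjoin 𝓡.V ({f | ∃ j, f = fun p : T × T => psi₀ z yt hmem p.1 j} ∪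
        {f | ∃ j, f = fun p : T × T => psi₀ z yt hmem p.2 j}) with h𝒜
  have g1 : ∀ j, (fun p : T × T => psi₀ z yt hmem p.1 j) ∈ 𝒜 :=
    fun j => Algebra.subset_adjoin (Or.inl ⟨j, rfl⟩)
  have g2 : ∀ j, (fun p : T × T => psi₀ z yt hmem p.2 j) ∈ 𝒜 :=
    fun j => Algebra.subset_adjoin (Or.inr ⟨j, rfl⟩)
  -- the box idempotents
  have hbox : ∀ c₁ c₂ : T ⧸ tKer 𝓡 T, (fun p : T × T =>
      (if (QuotientAddGroup.mk p.1 : T ⧸ tKer 𝓡 T) = c₁ then (1 : K) else 0) *
        (if (QuotientAddGroup.mk p.2 : T ⧸ tKer 𝓡 T) = c₂ then (1 : K) else 0)) ∈ 𝒜 := by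
    intro c₁ c₂
    have := 𝒜.mul_mem (g1 (Sum.inl c₁)) (g2 (Sum.inl c₂))
    simp only [psi₀_inl] at this
    exact this
  have hidem : ∀ c₁ c₂ : T ⧸ tKer 𝓡 T, (fun p : T × T =>
      (if (QuotientAddGroup.mk p.1 : T ⧸ tKer 𝓡 T) = c₁ then (1 : K) else 0) *
        (if (QuotientAddGroup.mk p.2 : T ⧸ tKer 𝓡 T) = c₂ then (1 : K) else 0)) *
      (fun p : T × T =>
      (if (QuotientAddGroup.mk p.1 : T ⧸ tKer 𝓡 T) = c₁ then (1 : K) else 0) *
        (if (QuotientAddGroup.mk p.2 : T ⧸ tKer 𝓡 T) = c₂ then (1 : K) else 0)) =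
      (fun p : T × T =>
      (if (QuotientAddGroup.mk p.1 : T ⧸ tKer 𝓡 T) = c₁ then (1 : K) else 0) *
        (if (QuotientAddGroup.mk p.2 : T ⧸ tKer 𝓡 T) = c₂ then (1 : K) else 0)) := by
    intro c₁ c₂
    funext p
    simp only [Pi.mul_apply]
    split_ifs <;> simp
  -- the key lemma on a box
  have hkey : ∀ (c₁ c₂ : T ⧸ tKer 𝓡 T) (i : Fin n), (fun p : T × T =>
      ((if (QuotientAddGroup.mk p.1 : T ⧸ tKer 𝓡 T) = c₁ then (1 : K) else 0) *
        (if (QuotientAddGroup.mk p.2 : T ⧸ tKer 𝓡 T) = c₂ then (1 : K) else 0)) *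
        psi₀ z yt hmem (p.1 + p.2) (Sum.inr (c₁ + c₂, i))) ∈ 𝒜 := by
    intro c₁ c₂ i
    set Λ := boxAlg 𝒜 _ (hidem c₁ c₂) (hbox c₁ c₂) with hΛ
    -- the families
    let a : T × T → 𝓡.kerRed := fun p =>
      if h : (QuotientAddGroup.mk p.1 : T ⧸ tKer 𝓡 T) = c₁ then
        ⟨(p.1 : Pic0 K F) - yt c₁, hmem p.1 c₁ h⟩ else 0
    let b : T × T → 𝓡.kerRed := fun p =>
      if h : (QuotientAddGroup.mk p.2 : T ⧸ tKer 𝓡 T) = c₂ then
        ⟨(p.2 : Pic0 K F) - yt c₂, hmem p.2 c₂ h⟩ else 0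
    have hc₀ : yt c₁ + yt c₂ - yt (c₁ + c₂) ∈ 𝓡.kerRed := by
      have h1 := hmem (Quotient.out c₁) c₁ (QuotientAddGroup.out_eq' c₁)
      have h2 := hmem (Quotient.out c₂) c₂ (QuotientAddGroup.out_eq' c₂)
      have h3 := hmem (Quotient.out c₁ + Quotient.out c₂) (c₁ + c₂) (by
        rw [QuotientAddGroup.mk_add, QuotientAddGroup.out_eq', QuotientAddGroup.out_eq'])
      have h4 : yt c₁ + yt c₂ - yt (c₁ + c₂) =
          (((Quotient.out c₁ + Quotient.out c₂ : T) : Pic0 K F) - yt (c₁ + c₂)) -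
            (((Quotient.out c₁ : T) : Pic0 K F) - yt c₁) -
            (((Quotient.out c₂ : T) : Pic0 K F) - yt c₂) := by
        rw [AddSubgroup.coe_add]
        abel
      rw [h4]
      exact sub_mem (sub_mem h3 h1) h2
    let c₀ : T × T → 𝓡.kerRed := fun _ => ⟨yt c₁ + yt c₂ - yt (c₁ + c₂), hc₀⟩
    have ha : ∀ j, (fun τ => ((z (a τ) j : IsLocalRing.maximalIdeal 𝓡.V) : 𝓡.V)) ∈ Λ := by
      intro j
      rw [hΛ, mem_boxAlg]
      have := 𝒜.mul_mem (g2 (Sum.inl c₂)) (g1 (Sum.inr (c₁, j)))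
      convert this using 1
      funext p
      simp only [Pi.mul_apply, psi₀_inl]
      by_cases h : (QuotientAddGroup.mk p.1 : T ⧸ tKer 𝓡 T) = c₁
      · rw [psi₀_inr_pos z yt hmem p.1 c₁ j h, if_pos h, one_mul]
        simp only [a, dif_pos h]
        rfl
      · rw [psi₀_inr_neg z yt hmem p.1 c₁ j h, if_neg h]
        simp
    have hb : ∀ j, (fun τ => ((z (b τ) j : IsLocalRing.maximalIdeal 𝓡.V) : 𝓡.V)) ∈ Λ := by
      intro j
      rw [hΛ, mem_boxAlg]
      have := 𝒜.mul_mem (g1 (Sum.inl c₁)) (g2 (Sum.inr (c₂, j)))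
      convert this using 1
      funext p
      simp only [Pi.mul_apply, psi₀_inl]
      by_cases h : (QuotientAddGroup.mk p.2 : T ⧸ tKer 𝓡 T) = c₂
      · rw [psi₀_inr_pos z yt hmem p.2 c₂ j h, if_pos h, mul_one]
        simp only [b, dif_pos h]
        rfl
      · rw [psi₀_inr_neg z yt hmem p.2 c₂ j h, if_neg h]
        simp
    have hc : ∀ j, (fun τ => ((z (c₀ τ) j : IsLocalRing.maximalIdeal 𝓡.V) : 𝓡.V)) ∈ Λ := by
      intro j
      exact Λ.algebraMap_mem ((z ⟨yt c₁ + yt c₂ - yt (c₁ + c₂), hc₀⟩ j :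
        IsLocalRing.maximalIdeal 𝓡.V) : 𝓡.V)
    have hab := hzadd Λ a b ha hb
    have habc := hzadd Λ (fun τ => a τ + b τ) c₀ hab hc i
    rw [hΛ, mem_boxAlg] at habc
    convert habc using 1
    funext p
    by_cases h1 : (QuotientAddGroup.mk p.1 : T ⧸ tKer 𝓡 T) = c₁
    · by_cases h2 : (QuotientAddGroup.mk p.2 : T ⧸ tKer 𝓡 T) = c₂
      · have h12 : (QuotientAddGroup.mk (p.1 + p.2) : T ⧸ tKer 𝓡 T) = c₁ + c₂ := by
          rw [QuotientAddGroup.mk_add, h1, h2]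
        rw [psi₀_inr_pos z yt hmem _ _ i h12]
        congr 5
        simp only [a, b, c₀, dif_pos h1, dif_pos h2, AddSubgroup.coe_add]
        abel
      · simp [h2]
    · simp [h1]
  -- conclusion
  apply mem_of_forall_box
  intro c₁ c₂
  rcases j with c | ⟨c, i⟩
  · have hfun : (fun p : T × T =>
        ((if (QuotientAddGroup.mk p.1 : T ⧸ tKer 𝓡 T) = c₁ then (1 : K) else 0) *
          (if (QuotientAddGroup.mk p.2 : T ⧸ tKer 𝓡 T) = c₂ then (1 : K) else 0)) *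
          psi₀ z yt hmem (p.1 + p.2) (Sum.inl c)) =
        if c₁ + c₂ = c then (fun p : T × T =>
          (if (QuotientAddGroup.mk p.1 : T ⧸ tKer 𝓡 T) = c₁ then (1 : K) else 0) *
            (if (QuotientAddGroup.mk p.2 : T ⧸ tKer 𝓡 T) = c₂ then (1 : K) else 0)) else 0 := by
      funext p
      rw [psi₀_inl, QuotientAddGroup.mk_add]
      by_cases hcc : c₁ + c₂ = c
      · rw [if_pos hcc]
        by_cases h1 : (QuotientAddGroup.mk p.1 : T ⧸ tKer 𝓡 T) = c₁
        · by_cases h2 : (QuotientAddGroup.mk p.2 : T ⧸ tKer 𝓡 T) = c₂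
          · simp [h1, h2, hcc]
          · simp [h2]
        · simp [h1]
      · rw [if_neg hcc]
        by_cases h1 : (QuotientAddGroup.mk p.1 : T ⧸ tKer 𝓡 T) = c₁
        · by_cases h2 : (QuotientAddGroup.mk p.2 : T ⧸ tKer 𝓡 T) = c₂
          · simp [h1, h2, hcc]
          · simp [h2]
        · simp [h1]
    rw [hfun]
    split_ifs
    · exact hbox c₁ c₂
    · exact 𝒜.zero_mem
  · by_cases hcc : c₁ + c₂ = c
    · subst hcc
      exact hkey c₁ c₂ i
    · have hfun : (fun p : T × T =>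
        ((if (QuotientAddGroup.mk p.1 : T ⧸ tKer 𝓡 T) = c₁ then (1 : K) else 0) *
          (if (QuotientAddGroup.mk p.2 : T ⧸ tKer 𝓡 T) = c₂ then (1 : K) else 0)) *
          psi₀ z yt hmem (p.1 + p.2) (Sum.inr (c, i))) = 0 := by
        funext p
        by_cases h1 : (QuotientAddGroup.mk p.1 : T ⧸ tKer 𝓡 T) = c₁
        · by_cases h2 : (QuotientAddGroup.mk p.2 : T ⧸ tKer 𝓡 T) = c₂
          · have h12 : ¬ (QuotientAddGroup.mk (p.1 + p.2) : T ⧸ tKer 𝓡 T) = c := by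
              rw [QuotientAddGroup.mk_add, h1, h2]; exact hcc
            rw [psi₀_inr_neg z yt hmem _ _ i h12]
            simp
          · simp [h2]
        · simp [h1]
      rw [hfun]
      exact 𝒜.zero_mem

end Coordinates

section Main

variable [IsAlgClosed K] [IsAlgClosed k] [CharZero K]

/-- **Assembly.**  CHART + KER-I + LIFTI ⟹ `LocalStatement`. -/
theorem local_of_chart (hchart : ChartStatement.{u₁, u₂, u₃, u₄, u₂} K F k Fk)
    (hker : KerInertiaStatement K F k Fk) (hlift : LiftiStatement K F k Fk) :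
    LocalStatement K F k Fk := by
  classical
  intro 𝓡 _ T _ hT
  obtain ⟨n, z, hzinj, hzeq, hzadd⟩ := hchart 𝓡
  have hl : ∀ c : T ⧸ tKer 𝓡 T, ∃ y : Pic0 K F, (∀ g ∈ 𝓡.I, g • y = y) ∧
      ((Quotient.out c : T) : Pic0 K F) - y ∈ 𝓡.kerRed := fun c => hlift 𝓡 _
  choose yt hyI hyJ using hl
  have hmem : ∀ (x : T) (c : T ⧸ tKer 𝓡 T), (QuotientAddGroup.mk x : T ⧸ tKer 𝓡 T) = c →
      (x : Pic0 K F) - yt c ∈ 𝓡.kerRed := by
    intro x c h
    have h1 := sub_out_mem x c h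
    have h2 : (x : Pic0 K F) - yt c = ((x : Pic0 K F) - ((Quotient.out c : T) : Pic0 K F)) +
        (((Quotient.out c : T) : Pic0 K F) - yt c) := by abel
    rw [h2]
    exact add_mem h1 (hyJ c)
  -- the index type
  haveI : Finite (T ⧸ tKer 𝓡 T) := inferInstance
  haveI : Finite ((T ⧸ tKer 𝓡 T) ⊕ (T ⧸ tKer 𝓡 T) × Fin n) := inferInstance
  obtain ⟨m, ⟨e⟩⟩ := Finite.exists_equiv_fin ((T ⧸ tKer 𝓡 T) ⊕ (T ⧸ tKer 𝓡 T) × Fin n)
  refine ⟨Fin m, inferInstance, fun x i => psi₀ z yt hmem x (e.symm i), ?_, ?_, ?_, ?_⟩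
  · intro x x' h
    apply psi₀_injective z yt hmem hzinj
    funext j
    have := congrFun h (e j)
    simpa using this
  · intro x i
    exact psi₀_mem z yt hmem x _
  · intro g hg x i
    exact psi₀_smul z yt hmem (hker 𝓡) hyI hzeq g hg x _ _
  · intro i
    have := psi₀_add_mem z yt hmem (fun Λ a b => hzadd (T × T) Λ a b) (e.symm i)
    refine Algebra.adjoin_mono ?_ this
    rintro f (⟨j, rfl⟩ | ⟨j, rfl⟩)
    · left
      exact ⟨e j, by simp⟩
    · right
      exact ⟨e j, by simp⟩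

end Main

end Fermat.Agent.A3.H799

end
end
-- ===== PACK-END A3/H799/Asm.lean

-- ===== PACK-BEGIN A3/H799/Chart.lean
section



/-!
# A3 / LOCAL — ZADD and CHART from the leaves  (helper799)

* `zadd_of  : CoordStatement → ZtriStatement → ZnegStatement → ZaddStatement`
* `chart_of : NspStatement → DiscStatement → DiscEquivStatement → CoordStatement →
              ZaddStatement → ChartStatement`
-/

set_option autoImplicit false

noncomputable section

open AlgebraicCurve Fermat.Agent.Lib.RR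

namespace Fermat.Agent.A3.H799

universe u₁ u₂ u₃ u₄ w

variable {K : Type u₁} {F : Type u₂} {k : Type u₃} {Fk : Type u₄}
  [Field K] [Field F] [Algebra K F] [Field k] [Field Fk] [Algebra k Fk]

theorem pic0_mk_eq_zero_iff (D : Divisor.degZero (K := K) (F := F)) :
    Pic0.mk D = 0 ↔ (D : Divisor K F) ∈ Divisor.principal (K := K) (F := F) := by
  unfold Pic0.mk
  rw [QuotientAddGroup.eq_zero_iff, AddSubgroup.mem_addSubgroupOf]

section Cls

variable {𝓡 : GoodRed K F k Fk} {ι : Type*} [Fintype ι] {Qs : ι → Place k Fk}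
  (d : ∀ i, DiscData 𝓡 (Qs i))

/-- The degree-zero divisor `D_z - E`. -/
def polyDivZ (z : ι → IsLocalRing.maximalIdeal 𝓡.V) : Divisor.degZero (K := K) (F := F) :=
  ⟨polyDiv d z - polyDiv d 0, by
    rw [Divisor.mem_degZero, map_sub, H255.degree_polyDiv, H255.degree_polyDiv, sub_self]⟩

@[simp] theorem coe_polyDivZ (z : ι → IsLocalRing.maximalIdeal 𝓡.V) :
    ((polyDivZ d z : Divisor.degZero (K := K) (F := F)) : Divisor K F) =
      polyDiv d z - polyDiv d 0 := rfl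

/-- The class `[D_z - E]`. -/
def cls (z : ι → IsLocalRing.maximalIdeal 𝓡.V) : Pic0 K F := Pic0.mk (polyDivZ d z)

theorem exists_iff_cls (z : ι → IsLocalRing.maximalIdeal 𝓡.V) (x : Pic0 K F) :
    (∃ D : Divisor.degZero (K := K) (F := F),
      (D : Divisor K F) = polyDiv d z - polyDiv d 0 ∧ Pic0.mk D = x) ↔ cls d z = x := by
  constructor
  · rintro ⟨D, hD, hx⟩
    have : D = polyDivZ d z := Subtype.ext hD
    rw [← hx, this]
    rfl
  · intro h
    exact ⟨polyDivZ d z, rfl, h⟩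

theorem cls_add_sub_eq_zero_iff (zx zy zs : ι → IsLocalRing.maximalIdeal 𝓡.V) :
    cls d zx + cls d zy - cls d zs = 0 ↔
      polyDiv d zx + polyDiv d zy - polyDiv d zs - polyDiv d 0 ∈
        Divisor.principal (K := K) (F := F) := by
  have h : cls d zx + cls d zy - cls d zs =
      Pic0.mk (polyDivZ d zx + polyDivZ d zy - polyDivZ d zs) := rfl
  rw [h, pic0_mk_eq_zero_iff]
  have h2 : ((polyDivZ d zx + polyDivZ d zy - polyDivZ d zs :
      Divisor.degZero (K := K) (F := F)) : Divisor K F) =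
      polyDiv d zx + polyDiv d zy - polyDiv d zs - polyDiv d 0 := by
    push_cast
    simp only [coe_polyDivZ]
    abel
  rw [h2]

theorem cls_add_add_eq_zero_iff (zx zy zw : ι → IsLocalRing.maximalIdeal 𝓡.V) :
    cls d zx + cls d zy + cls d zw = 0 ↔
      polyDiv d zx + polyDiv d zy + polyDiv d zw - (3 : ℤ) • polyDiv d 0 ∈
        Divisor.principal (K := K) (F := F) := by
  have h : cls d zx + cls d zy + cls d zw =
      Pic0.mk (polyDivZ d zx + polyDivZ d zy + polyDivZ d zw) := rfl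
  rw [h, pic0_mk_eq_zero_iff]
  have h2 : ((polyDivZ d zx + polyDivZ d zy + polyDivZ d zw :
      Divisor.degZero (K := K) (F := F)) : Divisor K F) =
      polyDiv d zx + polyDiv d zy + polyDiv d zw - (3 : ℤ) • polyDiv d 0 := by
    push_cast
    simp only [coe_polyDivZ]
    have : (3 : ℤ) • polyDiv d 0 = polyDiv d 0 + polyDiv d 0 + polyDiv d 0 := by
      rw [show (3 : ℤ) = 1 + 1 + 1 by norm_num, add_smul, add_smul, one_smul]
    rw [this]
    abel
  rw [h2]

theorem cls_add_eq_zero_iff (zx zn : ι → IsLocalRing.maximalIdeal 𝓡.V) :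
    cls d zx + cls d zn = 0 ↔
      polyDiv d zx + polyDiv d zn - (2 : ℤ) • polyDiv d 0 ∈
        Divisor.principal (K := K) (F := F) := by
  have h : cls d zx + cls d zn = Pic0.mk (polyDivZ d zx + polyDivZ d zn) := rfl
  rw [h, pic0_mk_eq_zero_iff]
  have h2 : ((polyDivZ d zx + polyDivZ d zn :
      Divisor.degZero (K := K) (F := F)) : Divisor K F) =
      polyDiv d zx + polyDiv d zn - (2 : ℤ) • polyDiv d 0 := by
    push_cast
    simp only [coe_polyDivZ]
    have : (2 : ℤ) • polyDiv d 0 = polyDiv d 0 + polyDiv d 0 := by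
      rw [show (2 : ℤ) = 1 + 1 by norm_num, add_smul, one_smul]
    rw [this]
    abel
  rw [h2]

end Cls

/-- **ZADD** from COORD, ZTRI and ZNEG. -/
theorem zadd_of (hcoord : CoordStatement K F k Fk)
    (htri : ZtriStatement.{u₁, u₂, u₃, u₄, w} K F k Fk)
    (hneg : ZnegStatement.{u₁, u₂, u₃, u₄, w} K F k Fk) :
    ZaddStatement.{u₁, u₂, u₃, u₄, w} K F k Fk := by
  intro 𝓡 Qs hinj hnsp d T _ Λ zx zy zs hzx hzy hprin
  obtain ⟨hC1, hC2⟩ := hcoord 𝓡 Qs hinj hnsp d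
  have hmemc : ∀ z, cls d z ∈ 𝓡.kerRed := fun z => hC2 z (polyDivZ d z) rfl
  -- the third point `w = -(x + y)`
  have hw : ∀ τ, ∃ zw : Fin (genusFF k Fk) → IsLocalRing.maximalIdeal 𝓡.V,
      cls d zw = -(cls d (zx τ) + cls d (zy τ)) := by
    intro τ
    obtain ⟨zw, hzw, -⟩ := hC1 _ (neg_mem (add_mem (hmemc (zx τ)) (hmemc (zy τ))))
    exact ⟨zw, (exists_iff_cls d zw _).mp hzw⟩
  choose zw hzw using hw
  have h1 : ∀ i, (fun τ => ((zw τ i : IsLocalRing.maximalIdeal 𝓡.V) : 𝓡.V)) ∈ Λ := by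
    refine htri 𝓡 Qs hinj hnsp d T Λ zx zy zw hzx hzy fun τ => ?_
    rw [← cls_add_add_eq_zero_iff, hzw τ]
    abel
  refine hneg 𝓡 Qs hinj hnsp d T Λ zw zs h1 fun τ => ?_
  rw [← cls_add_eq_zero_iff, hzw τ]
  have h2 := (cls_add_sub_eq_zero_iff d (zx τ) (zy τ) (zs τ)).mpr (hprin τ)
  have h3 : cls d (zs τ) = cls d (zx τ) + cls d (zy τ) := (sub_eq_zero.mp h2).symm
  rw [h3]
  abel

section Chart

variable [IsAlgClosed k]

/-- **CHART** from the leaves. -/
theorem chart_of (hnsp : NspStatement k Fk) (hdisc : DiscStatement K F k Fk)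
    (hequiv : DiscEquivStatement K F k Fk) (hcoord : CoordStatement K F k Fk)
    (hzadd : ZaddStatement.{u₁, u₂, u₃, u₄, w} K F k Fk) :
    ChartStatement.{u₁, u₂, u₃, u₄, w} K F k Fk := by
  intro 𝓡
  haveI := 𝓡.ff1k
  haveI := 𝓡.ff1
  obtain ⟨Qs, hinj, hell⟩ := hnsp
  have hd : ∀ i, ∃ d : DiscData 𝓡 (Qs i),
      ∀ g ∈ 𝓡.I, g • ((d.D.t : d.ring) : F) = ((d.D.t : d.ring) : F) := fun i => hdisc 𝓡 (Qs i)
  choose d hdI using hd
  obtain ⟨hC1, hC2⟩ := hcoord 𝓡 Qs hinj hell d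
  have hex : ∀ u : 𝓡.kerRed, ∃ z : Fin (genusFF k Fk) → IsLocalRing.maximalIdeal 𝓡.V,
      cls d z = (u : Pic0 K F) ∧ ∀ z', cls d z' = (u : Pic0 K F) → z' = z := by
    intro u
    obtain ⟨z, hz, huniq⟩ := hC1 (u : Pic0 K F) u.2
    exact ⟨z, (exists_iff_cls d z _).mp hz, fun z' hz' => huniq z' ((exists_iff_cls d z' _).mpr hz')⟩
  choose z hz hzuniq using hex
  refine ⟨genusFF k Fk, z, ?_, ?_, ?_⟩
  · -- injective
    intro u u' h
    apply Subtype.ext
    rw [← hz u, ← hz u', h]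
  · -- inertia equivariance
    intro g hg u hgu i
    -- the transformed polydisc point
    have hpt : ∀ (j : Fin (genusFF k Fk)) (a : IsLocalRing.maximalIdeal 𝓡.V),
        ∃ a' : IsLocalRing.maximalIdeal 𝓡.V,
          (((a' : IsLocalRing.maximalIdeal 𝓡.V) : 𝓡.V) : K) =
            SemilinearAut.baseAut g (((a : IsLocalRing.maximalIdeal 𝓡.V) : 𝓡.V) : K) ∧
          g • (d j).pt a = (d j).pt a' := by
      intro j a
      obtain ⟨h, h', hpt⟩ := hequiv 𝓡 (Qs j) (d j) (hdI j) g hg a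
      exact ⟨⟨⟨_, h⟩, h'⟩, rfl, hpt⟩
    choose σ hσ hσpt using hpt
    have hσ0 : ∀ j, σ j 0 = 0 := by
      intro j
      apply Subtype.ext
      apply Subtype.ext
      rw [hσ j 0]
      simp
    have hsmul : ∀ z₀ : Fin (genusFF k Fk) → IsLocalRing.maximalIdeal 𝓡.V,
        g • polyDiv d z₀ = polyDiv d (fun j => σ j (z₀ j)) := by
      intro z₀
      unfold polyDiv
      rw [Finset.smul_sum]
      refine Finset.sum_congr rfl fun j _ => ?_
      rw [SemilinearAut.smul_single, hσpt]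
    have hcls : cls d (fun j => σ j (z u j)) = g • (u : Pic0 K F) := by
      rw [← hz u]
      show _ = g • Pic0.mk (polyDivZ d (z u))
      rw [SemilinearAut.pic0_smul_mk]
      unfold cls
      congr 1
      apply Subtype.ext
      rw [SemilinearAut.coe_degZeroSMulHom, coe_polyDivZ, coe_polyDivZ, smul_sub, hsmul, hsmul]
      congr 2
      funext j
      exact (hσ0 j).symm
    have := hzuniq ⟨g • (u : Pic0 K F), hgu⟩ _ hcls
    rw [← this]
    exact hσ i (z u i)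
  · -- addition
    intro T _ Λ a b ha hb
    refine hzadd 𝓡 Qs hinj hell d T Λ (fun τ => z (a τ)) (fun τ => z (b τ))
      (fun τ => z (a τ + b τ)) ha hb fun τ => ?_
    rw [← cls_add_sub_eq_zero_iff, hz, hz, hz]
    simp

end Chart

end Fermat.Agent.A3.H799

end
end
-- ===== PACK-END A3/H799/Chart.lean

-- ===== PACK-BEGIN A3/H555/DiscEquiv.lean
section
/-
helper555 — cell A3 (S19), block LOCAL, leaf DISC-I.

`DiscEquivStatement K F k Fk` (frozen in `Fermat/Agent/A3/H799/LocalSpec.lean`): for residue-disc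
data with an inertia-invariant parameter `t`, inertia permutes the points of the disc through
their parameter values, `g • pt a = pt (g a)`.

Proof: `pt a` is the unique place of the disc at which `t - a` vanishes; `g` maps it to a place
of the same disc at which `g • (t - a) = t - g a` vanishes.
-/


set_option autoImplicit false

noncomputable section

open AlgebraicCurve

namespace Fermat.Agent.A3.H555

open Fermat.Agent.A3.H799 Fermat.Agent.Lib.RR

variable {K F k Fk : Type*} [Field K] [Field F] [Algebra K F] [Field k] [Field Fk] [Algebra k Fk]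

/-- Elements of the maximal ideal of `V` reduce to zero. -/
theorem res_eq_zero_of_mem (𝓡 : GoodRed K F k Fk) (a : IsLocalRing.maximalIdeal 𝓡.V) :
    𝓡.res (a : 𝓡.V) = 0 :=
  (𝓡.res_eq_zero _).mpr (ValuationSubring.coe_mem_nonunits_iff.mpr a.2)

/-- The parameter of a residue disc minus the value `a` vanishes at the point `pt a`. -/
theorem one_le_ord_pt_sub (𝓡 : GoodRed K F k Fk) {Q : Place k Fk} (d : DiscData 𝓡 Q)
    (a : IsLocalRing.maximalIdeal 𝓡.V) :
    1 ≤ (d.pt a).ord (((d.D.t : d.ring) : F) - algebraMap K F (((a : 𝓡.V) : K))) := by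
  have h := d.ev_spec a d.D.t
  rw [d.D.ev_t] at h
  rcases h with h | h
  · exfalso
    have hmem : algebraMap K F (((a : 𝓡.V) : K)) ∈ 𝓡.O := (𝓡.algebraMap_mem _).mpr (a : 𝓡.V).2
    have e : (⟨((d.D.t : d.ring) : F), d.ring_le _ d.D.t.2⟩ : 𝓡.O) =
        ⟨algebraMap K F (((a : 𝓡.V) : K)), hmem⟩ := Subtype.ext h
    have h1 := d.ord_t
    rw [e, 𝓡.red_algebraMap (a : 𝓡.V) hmem, res_eq_zero_of_mem, map_zero, Place.ord_zero] at h1
    exact zero_ne_one h1
  · exact h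

/-- A place at which both `t - a` and `t - b` vanish forces `a = b`. -/
theorem eq_of_one_le_ord_sub (P : Place K F) (t : F) {a b : K}
    (ha : 1 ≤ P.ord (t - algebraMap K F a)) (hb : 1 ≤ P.ord (t - algebraMap K F b)) : a = b := by
  have hb' : 1 ≤ P.ord (-(t - algebraMap K F b)) := by rwa [ord_neg]
  have h := ord_add_of_le P (Or.inr ha) (Or.inr hb')
  have e : t - algebraMap K F a + -(t - algebraMap K F b) = algebraMap K F (b - a) := by
    rw [map_sub]; ring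
  rw [e, ord_algebraMap] at h
  rcases h with h | h
  · have := (algebraMap K F).injective (h.trans (map_zero _).symm)
    exact (sub_eq_zero.mp this).symm
  · omega

/-- The points of a residue disc are parametrised injectively. -/
theorem pt_injective (𝓡 : GoodRed K F k Fk) {Q : Place k Fk} (d : DiscData 𝓡 Q) :
    Function.Injective d.pt := by
  intro a b hab
  have ha := one_le_ord_pt_sub 𝓡 d a
  have hb := one_le_ord_pt_sub 𝓡 d b
  rw [← hab] at hb
  exact Subtype.ext (Subtype.ext (eq_of_one_le_ord_sub _ _ ha hb))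

/-- `pt a` is the unique place of the disc at which `t - a` vanishes. -/
theorem pt_eq_of_one_le_ord_sub (𝓡 : GoodRed K F k Fk) {Q : Place k Fk} (d : DiscData 𝓡 Q)
    (a : IsLocalRing.maximalIdeal 𝓡.V) {P : Place K F} (hP : 𝓡.r P = Q)
    (h : 1 ≤ P.ord (((d.D.t : d.ring) : F) - algebraMap K F (((a : 𝓡.V) : K)))) :
    d.pt a = P := by
  obtain ⟨b, rfl⟩ := d.pt_surj P hP
  have hb := one_le_ord_pt_sub 𝓡 d b
  exact congrArg d.pt (Subtype.ext (Subtype.ext (eq_of_one_le_ord_sub _ _ h hb)))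

/-- **DISC-I.** -/
theorem discEquivStatement : DiscEquivStatement K F k Fk := by
  intro 𝓡 Q d ht g hg a
  obtain ⟨h, hres⟩ := 𝓡.I_base g hg (a : 𝓡.V)
  have h' : (⟨SemilinearAut.baseAut g (((a : 𝓡.V) : K)), h⟩ : 𝓡.V) ∈
      IsLocalRing.maximalIdeal 𝓡.V := by
    rw [← ValuationSubring.coe_mem_nonunits_iff, ← 𝓡.res_eq_zero, hres]
    exact res_eq_zero_of_mem 𝓡 a
  refine ⟨h, h', ?_⟩
  symm
  apply pt_eq_of_one_le_ord_sub 𝓡 d
  · rw [𝓡.I_place g hg, d.r_pt]
  · have h1 := one_le_ord_pt_sub 𝓡 d a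
    rw [← SemilinearAut.ord_smul g, smul_sub, ht g hg, SemilinearAut.smul_algebraMap] at h1
    exact h1

/-- **LIFTI** from DISC alone. -/
theorem liftiStatement_of_discStatement (hdisc : DiscStatement K F k Fk) :
    LiftiStatement K F k Fk :=
  liftiStatement_of_disc hdisc discEquivStatement

end Fermat.Agent.A3.H555

end
end
-- ===== PACK-END A3/H555/DiscEquiv.lean

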