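import Mathlib
import Fermat.Agent.Pack.S43MC.G0E21L1
import Fermat.Agent.Pack.S43MC.G0E17L0
import Fermat.Agent.Pack.S44C.G0E17L1
import Fermat.Agent.Pack.S43MC.G0E9L2
import Fermat.Agent.Pack.S43MC.G0E12L0
import Fermat.Agent.Pack.S43MC.G0E21L0
import Fermat.Agent.Pack.S43MC.G0E21L3
import Fermat.Agent.Pack.S43MC.G0E17L2
import Fermat.Agent.Pack.S43MC.G0E15L1
import Fermat.Agent.Pack.S43GC.G0E2L0
import Fermat.Agent.Pack.S44C.G0E22L3
import Fermat.Agent.Pack.S43MC.G0E16L2
import Fermat.Agent.Pack.S44C.G0E13L0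
import Fermat.Agent.Pack.S44C.G0E22L2
import Fermat.Agent.Pack.S43MC.G0E21L2
import Fermat.Agent.Pack.Fast891

-- ===== PACK-BEGIN S27/H970/ChartSingle.lean
section




/-!
# S27 / one chart of a function field (helper970)

`B` a `K`-algebra domain with fraction field `F`, finite over `K[t]` (`t ∈ B`), `t` transcendental.

* `finiteDimensional_adjoin_of_finite_aeval` : `F` is finite over `K(t)`;
* `ff1_of_finite_aeval` : `Lib.RR.FF1 K F` (for `K` algebraically closed);
* `mem_range_iff_of_finite_aeval` : for `B` integrally closed, the image of `B` in `F` is the ring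
  of functions regular at all places where `t` is regular.
-/

set_option autoImplicit false
set_option linter.unusedSectionVars false
set_option linter.style.haveILetI false
universe u

noncomputable section

open AlgebraicCurve Polynomial IntermediateField

namespace Fermat.Agent.S27.H970

open Fermat.Agent.Lib.RR

section Single

variable {K F B : Type u} [Field K] [Field F] [Algebra K F] [CommRing B] [Algebra K B]
  [Algebra B F] [IsScalarTower K B F]

/-- An element integral over a subring of a valuation ring lies in the valuation ring. -/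
theorem mem_valuationSubring_of_isIntegral {L : Type*} [Field L] (O : ValuationSubring L)
    (S : Subring L) (hS : S ≤ O.toSubring) {b : L} (hb : IsIntegral S b) : b ∈ O := by
  obtain ⟨p, hp, hev⟩ := hb
  let φ : S →+* O := Subring.inclusion hS
  have hcomp : (algebraMap O L).comp φ = algebraMap S L := by
    ext s
    rfl
  have hint : IsIntegral O b := by
    refine ⟨p.map φ, hp.map φ, ?_⟩
    rw [Polynomial.eval₂_map, hcomp]
    exact hev
  obtain ⟨y, hy⟩ := IsIntegrallyClosed.isIntegral_iff.mp hint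
  rw [← hy]
  exact y.2

theorem isIntegral_adjoin_of_finite_aeval (t : B)
    (hfin : (Polynomial.aeval t : K[X] →ₐ[K] B).Finite) (b : B) :
    IsIntegral (Algebra.adjoin K {algebraMap B F t}) (algebraMap B F b) := by
  have hint : (Polynomial.aeval t : K[X] →ₐ[K] B).toRingHom.IsIntegral :=
    RingHom.IsIntegral.of_finite hfin
  obtain ⟨p, hp, hev⟩ := hint b
  let ψ : K[X] →+* Algebra.adjoin K {algebraMap B F t} :=
    (Polynomial.aeval (⟨algebraMap B F t, Algebra.self_mem_adjoin_singleton K _⟩ :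
      Algebra.adjoin K {algebraMap B F t})).toRingHom
  have hcomp : (algebraMap (Algebra.adjoin K {algebraMap B F t}) F).comp ψ =
      (algebraMap B F).comp (Polynomial.aeval t : K[X] →ₐ[K] B).toRingHom := by
    apply Polynomial.ringHom_ext
    · intro a
      simp only [RingHom.comp_apply, AlgHom.toRingHom_eq_coe, RingHom.coe_coe, ψ,
        Polynomial.aeval_C]
      rw [← IsScalarTower.algebraMap_apply K B F]
      rfl
    · simp only [RingHom.comp_apply, AlgHom.toRingHom_eq_coe, RingHom.coe_coe, ψ,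
        Polynomial.aeval_X]
      rfl
  refine ⟨p.map ψ, hp.map ψ, ?_⟩
  rw [Polynomial.eval₂_map, hcomp, ← Polynomial.hom_eval₂, hev, map_zero]

/-- Elements of `B` are regular wherever `t` is. -/
theorem ord_nonneg_of_finite_aeval (t : B)
    (hfin : (Polynomial.aeval t : K[X] →ₐ[K] B).Finite) (b : B) (v : Place K F)
    (hv : 0 ≤ v.ord (algebraMap B F t)) : 0 ≤ v.ord (algebraMap B F b) := by
  rw [← mem_iff_ord_nonneg]
  let Ov : Subalgebra K F :=
    { v.toValuationSubring.toSubring with algebraMap_mem' := v.algebraMap_mem' }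
  have hle : Algebra.adjoin K {algebraMap B F t} ≤ Ov :=
    Algebra.adjoin_le (Set.singleton_subset_iff.mpr ((mem_iff_ord_nonneg v _).mpr hv))
  refine mem_valuationSubring_of_isIntegral v.toValuationSubring
    (Algebra.adjoin K {algebraMap B F t}).toSubring (fun z hz => hle hz) ?_
  exact isIntegral_adjoin_of_finite_aeval t hfin b

open IntermediateField.algebraAdjoinAdjoin in
/-- `F = Frac B` is finite over `K(t)` if `B` is finite over `K[t]`. -/
theorem finiteDimensional_adjoin_of_finite_aeval [IsDomain B] [IsFractionRing B F] (t : B)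
    (hfin : (Polynomial.aeval t : K[X] →ₐ[K] B).Finite) :
    FiniteDimensional K⟮algebraMap B F t⟯ F := by
  classical
  letI alg : Algebra K[X] B := (Polynomial.aeval t : K[X] →ₐ[K] B).toRingHom.toAlgebra
  haveI hmf : Module.Finite K[X] B := hfin
  obtain ⟨S, hS⟩ := hmf.fg_top
  set L := K⟮algebraMap B F t⟯ with hL
  set E : IntermediateField L F := IntermediateField.adjoin L ((algebraMap B F) '' (S : Set B))
    with hE
  have hpoly : ∀ p : K[X], algebraMap B F (Polynomial.aeval t p) ∈ E := by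
    intro p
    rw [← Polynomial.aeval_algebraMap_apply]
    have : Polynomial.aeval (algebraMap B F t) p ∈ L := by
      have h1 : Polynomial.aeval (algebraMap B F t) p ∈ Algebra.adjoin K {algebraMap B F t} := by
        rw [Algebra.adjoin_singleton_eq_range_aeval]
        exact ⟨p, rfl⟩
      exact IntermediateField.algebra_adjoin_le_adjoin K _ h1
    exact E.algebraMap_mem ⟨_, this⟩
  have h1 : ∀ b : B, algebraMap B F b ∈ E := by
    intro b
    have hb : b ∈ Submodule.span K[X] (S : Set B) := by rw [hS]; trivial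
    induction hb using Submodule.span_induction with
    | mem x hx => exact IntermediateField.subset_adjoin L _ ⟨x, hx, rfl⟩
    | zero => rw [map_zero]; exact E.zero_mem
    | add x y _ _ hx hy => rw [map_add]; exact E.add_mem hx hy
    | smul p x _ hx =>
      have : p • x = Polynomial.aeval t p * x := rfl
      rw [this, map_mul]
      exact E.mul_mem (hpoly p) hx
  have h2 : E = ⊤ := by
    rw [eq_top_iff]
    intro f _
    obtain ⟨a, b, hb, rfl⟩ := IsFractionRing.div_surjective (A := B) f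
    exact E.div_mem (h1 a) (h1 b)
  have h3 : FiniteDimensional L E := by
    haveI : Finite ((algebraMap B F) '' (S : Set B)) := (S.finite_toSet.image _).to_subtype
    apply IntermediateField.finiteDimensional_adjoin
    rintro _ ⟨s, _, rfl⟩
    have := isIntegral_adjoin_of_finite_aeval (K := K) (F := F) t hfin s
    exact IsIntegral.tower_top (A := L) this
  rw [h2] at h3
  exact Module.Finite.equiv (IntermediateField.topEquiv (F := L) (E := F)).toLinearEquiv

/-- Integrality over a smaller subring implies integrality over a bigger one. -/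
theorem isIntegral_subring_mono {L : Type*} [Field L] {S S' : Subring L} (hS : S ≤ S') {b : L}
    (hb : IsIntegral S b) : IsIntegral S' b := by
  obtain ⟨p, hp, hev⟩ := hb
  let φ : S →+* S' := Subring.inclusion hS
  have hcomp : (algebraMap S' L).comp φ = algebraMap S L := by
    ext s
    rfl
  refine ⟨p.map φ, hp.map φ, ?_⟩
  rw [Polynomial.eval₂_map, hcomp]
  exact hev

/-- An element of `F` integral over the image of `B` is integral over `B`. -/
theorem isIntegral_of_isIntegral_range {f : F}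
    (hf : IsIntegral (algebraMap B F).range f) : IsIntegral B f := by
  letI alg : Algebra B (algebraMap B F).range := (algebraMap B F).rangeRestrict.toAlgebra
  haveI : IsScalarTower B (algebraMap B F).range F :=
    IsScalarTower.of_algebraMap_eq (fun _ => rfl)
  haveI : Algebra.IsIntegral B (algebraMap B F).range :=
    Algebra.IsIntegral.of_surjective (Algebra.ofId B (algebraMap B F).range)
      (algebraMap B F).rangeRestrict_surjective
  exact isIntegral_trans f hf

theorem ff1_of_finite_aeval [IsAlgClosed K] [IsDomain B] [IsFractionRing B F] (t : B)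
    (hfin : (Polynomial.aeval t : K[X] →ₐ[K] B).Finite)
    (htr : Transcendental K (algebraMap B F t)) : FF1 K F :=
  haveI := finiteDimensional_adjoin_of_finite_aeval (K := K) (F := F) t hfin
  H560.ff1 _ htr

/-- **The image of `B` in `F`** is the ring of functions regular wherever `t` is. -/
theorem mem_range_iff_of_finite_aeval [IsDomain B] [IsIntegrallyClosed B] [IsFractionRing B F]
    (t : B) (hfin : (Polynomial.aeval t : K[X] →ₐ[K] B).Finite)
    (htr : Transcendental K (algebraMap B F t)) (f : F) :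
    f ∈ Set.range (algebraMap B F) ↔
      ∀ v : Place K F, 0 ≤ v.ord (algebraMap B F t) → 0 ≤ v.ord f := by
  constructor
  · rintro ⟨b, rfl⟩ v hv
    exact ord_nonneg_of_finite_aeval t hfin b v hv
  · intro hf
    haveI := finiteDimensional_adjoin_of_finite_aeval (K := K) (F := F) t hfin
    have h1 : IsIntegral (Algebra.adjoin K {algebraMap B F t}) f :=
      Fermat.Agent.S37.H459.isIntegral_of_forall_ord_nonneg htr hf
    have hle : (Algebra.adjoin K {algebraMap B F t}).toSubring ≤ (algebraMap B F).range := by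
      intro z hz
      have hz' : z ∈ Algebra.adjoin K {algebraMap B F t} := hz
      rw [Algebra.adjoin_singleton_eq_range_aeval] at hz'
      obtain ⟨p, rfl⟩ := hz'
      exact ⟨Polynomial.aeval t p, by
        rw [← Polynomial.aeval_algebraMap_apply]; rfl⟩
    have h2 : IsIntegral (algebraMap B F).range f :=
      isIntegral_subring_mono hle h1
    exact IsIntegrallyClosed.isIntegral_iff.mp (isIntegral_of_isIntegral_range h2)

end Single

end Fermat.Agent.S27.H970

end
end
-- ===== PACK-END S27/H970/ChartSingle.lean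

-- ===== PACK-BEGIN S30/H330/AdicTorsionRel.lean
section
/-
S30 -- ADIC MODULE LAYER, input (T) from the interfaces of the S37 row (helper330).

`TorsionRelations N p` (inertia at `ℓ ∤ N p` acts trivially on `J₀(N)(ℚ̄)[p^∞]`, every Frobenius
at `ℓ` satisfies `σ² - T_ℓ σ + ℓ = 0` on it) from each of the interfaces of the S37 row:
* `torsionRelations_of_redData`     : reduction data `H99.RedData`;
* `torsionRelations_of_pieces`      : [S18] `Core.InjTorsionModL` + [PR] `Core.PlaceRed`;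
* `torsionRelations_of_weakRedData` : `Core.WeakRedData` + `Core.PullData` (final interface);
* `torsionRelations_of_rawAll`      : an abstract raw Eichler–Shimura statement on the
  `m`-torsion for all `m` prime to `ℓ`.
The pointwise lemmas of helper98 / helper999 hold for every modulus prime to `ℓ`; they are applied
to the moduli `p ^ n`.
-/




set_option autoImplicit false

noncomputable section

namespace Fermat.Agent.S30.H330

open Fermat.Agent.S29 ModularCurve ValuationSubring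

theorem not_dvd_pow_of_not_dvd_mul {ℓ N p : ℕ} (hℓ : ℓ.Prime) (h : ¬ ℓ ∣ N * p) (n : ℕ) :
    ¬ ℓ ∣ p ^ n := fun hd => h (Dvd.dvd.mul_left (hℓ.dvd_of_dvd_pow hd) N)

/-- The raw Eichler–Shimura statement at the level `N` on the `m`-torsion, for all `m` prime to
the prime `ℓ ∤ N`. -/
def RawESAll (N : ℕ) [NeZero N] : Prop :=
  ∀ (ℓ : ℕ) (hℓ : ℓ.Prime), ¬ ℓ ∣ N → ∀ A : VQ, A.LiesOverPrime ℓ → ∀ m : ℕ, ¬ ℓ ∣ m →
    (∀ σ ∈ A.inertiaSubgroupIn ℚ, ∀ x : JZero N, m • x = 0 → σ • x = x) ∧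
    (∀ σ : GQ, A.IsFrobeniusAt σ ℓ → ∀ x : JZero N, m • x = 0 →
      σ • σ • x - heckeOperatorBar N ⟨ℓ, hℓ⟩ (σ • x) + ℓ • x = 0)

/-- (T) from the raw Eichler–Shimura statement on all prime-to-`ℓ` torsion. -/
theorem torsionRelations_of_rawAll {N : ℕ} [NeZero N] (p : ℕ) (h : RawESAll N) :
    TorsionRelations N p := by
  intro ℓ hℓ hdvd A hA
  have hℓN : ¬ ℓ ∣ N := fun h => hdvd (Dvd.dvd.mul_right h p)
  refine ⟨fun σ hσ x hx => ?_, fun σ hσ x hx => ?_⟩
  · obtain ⟨n, hn⟩ := hx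
    exact (h ℓ hℓ hℓN A hA (p ^ n) (not_dvd_pow_of_not_dvd_mul hℓ hdvd n)).1 σ hσ x hn
  · obtain ⟨n, hn⟩ := hx
    exact (h ℓ hℓ hℓN A hA (p ^ n) (not_dvd_pow_of_not_dvd_mul hℓ hdvd n)).2 σ hσ x hn

/-- Raw Eichler–Shimura on all prime-to-`ℓ` torsion, from reduction data. -/
theorem rawESAll_of_redData {N : ℕ} [NeZero N]
    (H : ∀ (ℓ : ℕ) (hℓ : ℓ.Prime), ¬ ℓ ∣ N →
      ∀ A : ValuationSubring (AlgebraicClosure ℚ), A.LiesOverPrime ℓ →
        Nonempty (Fermat.Agent.S37.H99.RedData N A ℓ hℓ)) :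
    RawESAll N := by
  intro ℓ hℓ hℓN A hA m hm
  obtain ⟨D⟩ := H ℓ hℓ hℓN A hA
  have h := Fermat.Agent.S37.H98.rawES_at_of_redData D m
    (Nat.coprime_comm.mp ((Nat.Prime.coprime_iff_not_dvd hℓ).mpr hm))
  refine ⟨fun σ hσ x hx => h.1 σ hσ x (by rw [natCast_zsmul]; exact hx),
    fun σ hσ x hx => ?_⟩
  have := h.2 σ hσ x (by rw [natCast_zsmul]; exact hx)
  rwa [natCast_zsmul] at this

/-- (T) from reduction data. -/
theorem torsionRelations_of_redData {N : ℕ} [NeZero N] (p : ℕ)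
    (H : ∀ (ℓ : ℕ) (hℓ : ℓ.Prime), ¬ ℓ ∣ N →
      ∀ A : ValuationSubring (AlgebraicClosure ℚ), A.LiesOverPrime ℓ →
        Nonempty (Fermat.Agent.S37.H99.RedData N A ℓ hℓ)) :
    TorsionRelations N p :=
  torsionRelations_of_rawAll p (rawESAll_of_redData H)

open Fermat.Agent.S37.Core in
/-- Raw Eichler–Shimura on all prime-to-`ℓ` torsion, from the pieces [S18] and [PR]. -/
theorem rawESAll_of_pieces {N : ℕ} [NeZero N]
    (hS18 : ∀ (ℓ : ℕ), ℓ.Prime → ¬ ℓ ∣ N →
      ∀ A : ValuationSubring (AlgebraicClosure ℚ), A.LiesOverPrime ℓ → InjTorsionModL N ℓ A)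
    (hPR : ∀ (ℓ : ℕ) (hℓ : ℓ.Prime), ¬ ℓ ∣ N →
      ∀ A : ValuationSubring (AlgebraicClosure ℚ), A.LiesOverPrime ℓ →
        ∀ σ₀ : AlgebraicClosure ℚ ≃ₐ[ℚ] AlgebraicClosure ℚ, A.IsFrobeniusAt σ₀ ℓ →
          haveI : NeZero ℓ := ⟨hℓ.ne_zero⟩; Nonempty (PlaceRed N A ℓ σ₀)) :
    RawESAll N := by
  intro ℓ hℓ hℓN A hA m hm
  refine ⟨fun σ hσ x hx => ?_, fun σ hσ x hx => ?_⟩
  · obtain ⟨σ₀, hσ₀⟩ := Fermat.Agent.S37.H99.exists_isFrobeniusAt ℓ hℓ A hA
    obtain ⟨D⟩ := hPR ℓ hℓ hℓN A hA σ₀ hσ₀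
    exact (Fermat.Agent.S37.H98.rawES_at_of_placeRed hℓ D (hS18 ℓ hℓ hℓN A hA) m hm).1 σ hσ x
      (by rw [natCast_zsmul]; exact hx)
  · obtain ⟨D⟩ := hPR ℓ hℓ hℓN A hA σ hσ
    have := (Fermat.Agent.S37.H98.rawES_at_of_placeRed hℓ D (hS18 ℓ hℓ hℓN A hA) m hm).2 x
      (by rw [natCast_zsmul]; exact hx)
    rwa [natCast_zsmul] at this

open Fermat.Agent.S37.Core in
/-- (T) from the pieces [S18] and [PR] of the S37 row plan. -/
theorem torsionRelations_of_pieces {N : ℕ} [NeZero N] (p : ℕ)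
    (hS18 : ∀ (ℓ : ℕ), ℓ.Prime → ¬ ℓ ∣ N →
      ∀ A : ValuationSubring (AlgebraicClosure ℚ), A.LiesOverPrime ℓ → InjTorsionModL N ℓ A)
    (hPR : ∀ (ℓ : ℕ) (hℓ : ℓ.Prime), ¬ ℓ ∣ N →
      ∀ A : ValuationSubring (AlgebraicClosure ℚ), A.LiesOverPrime ℓ →
        ∀ σ₀ : AlgebraicClosure ℚ ≃ₐ[ℚ] AlgebraicClosure ℚ, A.IsFrobeniusAt σ₀ ℓ →
          haveI : NeZero ℓ := ⟨hℓ.ne_zero⟩; Nonempty (PlaceRed N A ℓ σ₀)) :
    TorsionRelations N p :=
  torsionRelations_of_rawAll p (rawESAll_of_pieces hS18 hPR)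

open Fermat.Agent.S37.Core Fermat.Agent.S37.H99 in
/-- Raw Eichler–Shimura on all prime-to-`ℓ` torsion, from the final interface of the S37 row. -/
theorem rawESAll_of_weakRedData {N : ℕ} [NeZero N]
    (H : ∀ (ℓ : ℕ) (hℓ : ℓ.Prime), ¬ ℓ ∣ N →
      ∀ A : ValuationSubring (AlgebraicClosure ℚ), A.LiesOverPrime ℓ →
        ∀ σ₀ : AlgebraicClosure ℚ ≃ₐ[ℚ] AlgebraicClosure ℚ, A.IsFrobeniusAt σ₀ ℓ →
          haveI : NeZero ℓ := ⟨hℓ.ne_zero⟩
          ∃ (M : ℕ) (_ : NeZero M), Nonempty (WeakRedData M A ℓ σ₀) ∧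
            Nonempty (PullData N M ℓ)) :
    RawESAll N := by
  intro ℓ hℓ hℓN A hA m hm
  have : NeZero ℓ := ⟨hℓ.ne_zero⟩
  refine ⟨fun σ hσ x hx => ?_, fun σ hσ x hx => ?_⟩
  · obtain ⟨σ₀, hσ₀⟩ := exists_isFrobeniusAt ℓ hℓ A hA
    obtain ⟨M, hM, ⟨W⟩, ⟨Pd⟩⟩ := H ℓ hℓ hℓN A hA σ₀ hσ₀
    exact Fermat.Agent.S37.H999.inertia_smul_eq_of_weakRedData W Pd hm hσ hx
  · obtain ⟨M, hM, ⟨W⟩, ⟨Pd⟩⟩ := H ℓ hℓ hℓN A hA σ hσ
    exact Fermat.Agent.S37.H999.frobenius_relation_of_weakRedData W Pd hm hx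

open Fermat.Agent.S37.Core in
/-- (T) from the final interface of the S37 row. -/
theorem torsionRelations_of_weakRedData {N : ℕ} [NeZero N] (p : ℕ)
    (H : ∀ (ℓ : ℕ) (hℓ : ℓ.Prime), ¬ ℓ ∣ N →
      ∀ A : ValuationSubring (AlgebraicClosure ℚ), A.LiesOverPrime ℓ →
        ∀ σ₀ : AlgebraicClosure ℚ ≃ₐ[ℚ] AlgebraicClosure ℚ, A.IsFrobeniusAt σ₀ ℓ →
          haveI : NeZero ℓ := ⟨hℓ.ne_zero⟩
          ∃ (M : ℕ) (_ : NeZero M), Nonempty (WeakRedData M A ℓ σ₀) ∧
            Nonempty (PullData N M ℓ)) :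
    TorsionRelations N p :=
  torsionRelations_of_rawAll p (rawESAll_of_weakRedData H)

end Fermat.Agent.S30.H330

end
end
-- ===== PACK-END S30/H330/AdicTorsionRel.lean

-- ===== PACK-BEGIN Lib/Newform/H958/X/Global.lean
section



/-!
# NEWFORM block X — step X6: the global identity between Euler polynomials
-/

set_option autoImplicit false

open CongruenceSubgroup Complex Polynomial
open UpperHalfPlane hiding I
open scoped MatrixGroups ModularForm

namespace Fermat.Agent.Lib.Newform.H958.X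

open ModularFormClass ModularForm

/-- The product of the Euler polynomials at the primes of `T`, evaluated at `p ^ (-s)`. -/
noncomputable def eulerProd (N : ℕ) (a : ℕ → ℂ) (T : Finset ℕ) (s : ℂ) : ℂ :=
  ∏ p ∈ T, (eulerPoly N a p).eval ((p : ℂ) ^ (-s))

theorem differentiable_cpow_neg (p : ℕ) (hp : p ≠ 0) :
    Differentiable ℂ (fun s : ℂ => (p : ℂ) ^ (-s)) := by
  have hpc : (p : ℂ) ≠ 0 := Nat.cast_ne_zero.mpr hp
  intro s
  exact (differentiableAt_id.neg).const_cpow (Or.inl hpc)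

theorem differentiable_eulerProd (N : ℕ) (a : ℕ → ℂ) (T : Finset ℕ) (hT : ∀ p ∈ T, p.Prime) :
    Differentiable ℂ (eulerProd N a T) := by
  unfold eulerProd
  apply Differentiable.fun_finsetProd
  intro p hp
  exact (Polynomial.differentiable _).comp (differentiable_cpow_neg p (hT p hp).ne_zero)

theorem differentiable_natCast_cpow (N : ℕ) [NeZero N] :
    Differentiable ℂ (fun s : ℂ => (N : ℂ) ^ (s - 1)) := by
  have hNc : (N : ℂ) ≠ 0 := Nat.cast_ne_zero.mpr (NeZero.ne N)
  intro s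
  exact (differentiableAt_id.sub_const 1).const_cpow (Or.inl hNc)

variable {N N' : ℕ} [NeZero N] [NeZero N']

/-- Step (a): the depleted coefficients agree. -/
theorem depleted_eq {f : CuspForm (Gamma0 N) 2} {g : CuspForm (Gamma0 N') 2}
    (hf : f.IsNormalizedEigenform) (hg : g.IsNormalizedEigenform)
    (T : Finset ℕ) (hT : ∀ p ∈ T, p.Prime)
    (hTN : N.primeFactors ⊆ T) (hTN' : N'.primeFactors ⊆ T)
    (hagree : ∀ ℓ : ℕ, ℓ.Prime → ℓ ∉ T → qCoeff f ℓ = qCoeff g ℓ) (n : ℕ)
    (hn : ∀ p ∈ T, ¬ p ∣ n) : qCoeff f n = qCoeff g n := by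
  have hN : N ≠ 0 := NeZero.ne N
  have hN' : N' ≠ 0 := NeZero.ne N'
  -- every prime factor of `D` lies in `T`
  have hD : ∀ p : ℕ, p.Prime → p ∣ N * N' * ∏ t ∈ T, t → p ∈ T := by
    intro p hp hpD
    rcases (Nat.Prime.dvd_mul hp).mp hpD with h | h
    · rcases (Nat.Prime.dvd_mul hp).mp h with h | h
      · exact hTN (Nat.mem_primeFactors.mpr ⟨hp, h, hN⟩)
      · exact hTN' (Nat.mem_primeFactors.mpr ⟨hp, h, hN'⟩)
    · obtain ⟨t, htT, hpt⟩ := (Prime.dvd_finsetProd_iff hp.prime _).mp h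
      rw [(Nat.prime_dvd_prime_iff_eq hp (hT t htT)).mp hpt]
      exact htT
  symm
  refine Fermat.Agent.Lib.Newform.H443.qCoeff_eq_of_prime_eq (D := N * N' * ∏ t ∈ T, t)
    ((dvd_mul_right N N').mul_right _) ((dvd_mul_left N' N).mul_right _) hf hg ?_ n ?_
  · intro ℓ hℓ hℓD
    refine (hagree ℓ hℓ fun hℓT => hℓD ?_).symm
    exact (Finset.dvd_prod_of_mem _ hℓT).mul_left _
  · exact Nat.coprime_of_dvd fun p hp hpn hpD => hn p (hD p hp hpD) hpn

theorem Gammaℂ_ne_zero_of_pos {s : ℂ} (hs : 0 < s.re) : Gammaℂ s ≠ 0 := by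
  rw [Gammaℂ_def]
  have h1 : ((2 : ℂ) * (Real.pi : ℂ)) ≠ 0 :=
    mul_ne_zero two_ne_zero (ofReal_ne_zero.mpr Real.pi_ne_zero)
  exact mul_ne_zero (mul_ne_zero two_ne_zero ((cpow_ne_zero_iff_of_exponent_ne_zero
    (by
      intro h
      rw [neg_eq_zero] at h
      rw [h] at hs
      simp at hs)).mpr h1)) (Complex.Gamma_ne_zero_of_re_pos hs)

/-- An entire function vanishing on the half-plane `Re s > 2` vanishes identically. -/
theorem eq_zero_of_eq_zero_on_halfplane {F : ℂ → ℂ} (hF : Differentiable ℂ F)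
    (h : ∀ s : ℂ, 2 < s.re → F s = 0) : ∀ s : ℂ, F s = 0 := by
  have han : AnalyticOnNhd ℂ F Set.univ :=
    (hF.differentiableOn).analyticOnNhd isOpen_univ
  have hev : F =ᶠ[nhds (3 : ℂ)] 0 := by
    have hopen : IsOpen {s : ℂ | 2 < s.re} := isOpen_lt continuous_const continuous_re
    have hmem : (3 : ℂ) ∈ {s : ℂ | 2 < s.re} := by
      show (2 : ℝ) < (3 : ℂ).re
      simp only [re_ofNat]
      norm_num
    filter_upwards [hopen.mem_nhds hmem] with s hs
    exact h s hs
  have := han.eqOn_zero_of_preconnected_of_eventuallyEq_zero isPreconnected_univ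
    (Set.mem_univ (3 : ℂ)) hev
  intro s
  exact this (Set.mem_univ s)

/-- Step (b)+(c): `Λ_f P_f = Λ_g P_g` everywhere. -/
theorem Lam_mul_eulerProd_eq (hDep : Deplete)
    {f : CuspForm (Gamma0 N) 2} {g : CuspForm (Gamma0 N') 2}
    (hf : f.IsNormalizedEigenform) (hg : g.IsNormalizedEigenform)
    (T : Finset ℕ) (hT : ∀ p ∈ T, p.Prime)
    (hTN : N.primeFactors ⊆ T) (hTN' : N'.primeFactors ⊆ T)
    (hagree : ∀ ℓ : ℕ, ℓ.Prime → ℓ ∉ T → qCoeff f ℓ = qCoeff g ℓ) (s : ℂ) :
    Lam f s * eulerProd N (qCoeff f) T s = Lam g s * eulerProd N' (qCoeff g) T s := by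
  have key : ∀ s : ℂ, 2 < s.re →
      Lam f s * eulerProd N (qCoeff f) T s - Lam g s * eulerProd N' (qCoeff g) T s = 0 := by
    intro s hs
    have h1 := hDep N f hf T hT s hs
    have h2 := hDep N' g hg T hT s hs
    have hfun : (fun n : ℕ => (if ∀ p ∈ T, ¬ p ∣ n then qCoeff f n else 0) / (n : ℂ) ^ s) =
        fun n : ℕ => (if ∀ p ∈ T, ¬ p ∣ n then qCoeff g n else 0) / (n : ℂ) ^ s := by
      funext n
      by_cases hn : ∀ p ∈ T, ¬ p ∣ n
      · rw [if_pos hn, if_pos hn, depleted_eq hf hg T hT hTN hTN' hagree n hn]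
      · rw [if_neg hn, if_neg hn]
    rw [hfun] at h1
    have h3 := h1.unique h2
    have hG : (2 : ℂ) / Gammaℂ s ≠ 0 :=
      div_ne_zero two_ne_zero (Gammaℂ_ne_zero_of_pos (by linarith))
    have h4 : (2 / Gammaℂ s) * (Lam f s * eulerProd N (qCoeff f) T s) =
        (2 / Gammaℂ s) * (Lam g s * eulerProd N' (qCoeff g) T s) := by
      unfold eulerProd
      linear_combination h3
    rw [sub_eq_zero]
    exact mul_left_cancel₀ hG h4
  have hdiff : Differentiable ℂ (fun s : ℂ =>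
      Lam f s * eulerProd N (qCoeff f) T s - Lam g s * eulerProd N' (qCoeff g) T s) :=
    ((differentiable_Lam f).mul (differentiable_eulerProd N _ T hT)).sub
      ((differentiable_Lam g).mul (differentiable_eulerProd N' _ T hT))
  exact sub_eq_zero.mp (eq_zero_of_eq_zero_on_halfplane hdiff key s)

/-- **X6**: the global identity between the Euler polynomials of two newforms with the same
eigenvalues outside `T`. -/
theorem globalIdentity_of (hD : DirichletSeries) (hDep : Deplete)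
    {f : CuspForm (Gamma0 N) 2} {g : CuspForm (Gamma0 N') 2}
    (hf : f.IsNormalizedEigenform) (hg : g.IsNormalizedEigenform) {wf wg : ℂ}
    (hFEf : ∀ s : ℂ, Lam f (2 - s) = -(wf * (N : ℂ) ^ (s - 1)) * Lam f s)
    (hFEg : ∀ s : ℂ, Lam g (2 - s) = -(wg * (N' : ℂ) ^ (s - 1)) * Lam g s)
    (T : Finset ℕ) (hT : ∀ p ∈ T, p.Prime)
    (hTN : N.primeFactors ⊆ T) (hTN' : N'.primeFactors ⊆ T)
    (hagree : ∀ ℓ : ℕ, ℓ.Prime → ℓ ∉ T → qCoeff f ℓ = qCoeff g ℓ) (s : ℂ) :
    wf * (N : ℂ) ^ (s - 1) * eulerProd N (qCoeff f) T (2 - s) * eulerProd N' (qCoeff g) T s =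
      wg * (N' : ℂ) ^ (s - 1) * eulerProd N (qCoeff f) T s * eulerProd N' (qCoeff g) T (2 - s) := by
  have hI := Lam_mul_eulerProd_eq hDep hf hg T hT hTN hTN' hagree
  -- `Λ_f · U = 0`
  have hprod : ∀ s : ℂ, Lam f s *
      (wf * (N : ℂ) ^ (s - 1) * eulerProd N (qCoeff f) T (2 - s) * eulerProd N' (qCoeff g) T s -
        wg * (N' : ℂ) ^ (s - 1) * eulerProd N (qCoeff f) T s *
          eulerProd N' (qCoeff g) T (2 - s)) = 0 := by
    intro s
    have h1 := hI s
    have h2 := hI (2 - s)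
    rw [hFEf s, hFEg s] at h2
    linear_combination (-eulerProd N' (qCoeff g) T s) * h2 -
      (wg * (N' : ℂ) ^ (s - 1) * eulerProd N' (qCoeff g) T (2 - s)) * h1
  -- analyticity
  have hLan : AnalyticOnNhd ℂ (Lam f) Set.univ :=
    ((differentiable_Lam f).differentiableOn).analyticOnNhd isOpen_univ
  have hsub : Differentiable ℂ (fun s : ℂ => (2 : ℂ) - s) :=
    (differentiable_const _).sub differentiable_id
  have hUd : Differentiable ℂ (fun s : ℂ =>
      wf * (N : ℂ) ^ (s - 1) * eulerProd N (qCoeff f) T (2 - s) * eulerProd N' (qCoeff g) T s -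
        wg * (N' : ℂ) ^ (s - 1) * eulerProd N (qCoeff f) T s *
          eulerProd N' (qCoeff g) T (2 - s)) := by
    have e1 := differentiable_eulerProd N (qCoeff f) T hT
    have e2 := differentiable_eulerProd N' (qCoeff g) T hT
    have c1 := differentiable_natCast_cpow N
    have c2 := differentiable_natCast_cpow N'
    exact ((((differentiable_const wf).mul c1).mul (e1.comp hsub)).mul e2).sub
      ((((differentiable_const wg).mul c2).mul e1).mul (e2.comp hsub))
  have hUan := (hUd.differentiableOn).analyticOnNhd isOpen_univ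
  rcases AnalyticOnNhd.eq_zero_or_eq_zero_of_mul_eq_zero hLan hUan
    (fun s _ => hprod s) isPreconnected_univ with h | h
  · exfalso
    obtain ⟨s₀, -, hs₀⟩ := exists_Lam_ne_zero hD f hf.qCoeff_one
    exact hs₀ (h s₀ (Set.mem_univ s₀))
  · exact sub_eq_zero.mp (h s (Set.mem_univ s))

end Fermat.Agent.Lib.Newform.H958.X

end
-- ===== PACK-END Lib/Newform/H958/X/Global.lean

-- ===== PACK-BEGIN Lib/Newform/H958/X/Local.lean
section


/-!
# NEWFORM block X — from the global identity to the local identities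
-/

set_option autoImplicit false

open CongruenceSubgroup Complex Polynomial
open UpperHalfPlane hiding I
open scoped MatrixGroups ModularForm

namespace Fermat.Agent.Lib.Newform.H958.X

open ModularFormClass ModularForm

/-- `(∏_{p ∈ T} p ^ k p) ^ z = ∏_{p ∈ T} (p ^ z) ^ k p`. -/
theorem natCast_prod_pow_cpow (T : Finset ℕ) (k : ℕ → ℕ) (z : ℂ) :
    (((∏ p ∈ T, p ^ k p : ℕ) : ℂ)) ^ z = ∏ p ∈ T, ((p : ℂ) ^ z) ^ k p := by
  classical
  induction T using Finset.induction_on with
  | empty => simp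
  | insert a T ha ih =>
    rw [Finset.prod_insert ha, Finset.prod_insert ha, Nat.cast_mul, natCast_mul_natCast_cpow, ih]
    congr 1
    rw [Nat.cast_pow, ← natCast_cpow_natCast_mul, Complex.cpow_nat_mul]

/-- `N = ∏_{p ∈ T} p ^ v_p(N)` if `T` is a set of primes containing the prime factors of `N`. -/
theorem prod_pow_factorization_eq {N : ℕ} (hN : N ≠ 0) (T : Finset ℕ)
    (hTN : N.primeFactors ⊆ T) : ∏ p ∈ T, p ^ N.factorization p = N := by
  have h1 : ∏ p ∈ T, p ^ N.factorization p = ∏ p ∈ N.primeFactors, p ^ N.factorization p := by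
    refine (Finset.prod_subset hTN fun p _ hp => ?_).symm
    have : N.factorization p = 0 := by
      rw [← Finsupp.notMem_support_iff, Nat.support_factorization]
      exact hp
    rw [this, pow_zero]
  rw [h1]
  exact Nat.prod_factorization_pow_eq_self hN

theorem natCast_cpow_eq_prod {N : ℕ} (hN : N ≠ 0) (T : Finset ℕ)
    (hTN : N.primeFactors ⊆ T) (z : ℂ) :
    (N : ℂ) ^ z = ∏ p ∈ T, ((p : ℂ) ^ z) ^ N.factorization p := by
  rw [← natCast_prod_pow_cpow, prod_pow_factorization_eq hN T hTN]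

/-- `p ^ (-(2 - s)) = p⁻² / p ^ (-s)`. -/
theorem cpow_neg_two_sub {p : ℕ} (hp : p ≠ 0) (s : ℂ) :
    (p : ℂ) ^ (-(2 - s)) = ((p : ℂ) ^ 2)⁻¹ / (p : ℂ) ^ (-s) := by
  have hpc : (p : ℂ) ≠ 0 := Nat.cast_ne_zero.mpr hp
  rw [show -(2 - s) = (-(2 : ℕ) : ℂ) + s by push_cast; ring, Complex.cpow_add _ _ hpc,
    Complex.cpow_neg, Complex.cpow_natCast, Complex.cpow_neg, div_eq_mul_inv, inv_inv]

theorem eulerProd_two_sub (N : ℕ) (a : ℕ → ℂ) (T : Finset ℕ) (hT : ∀ p ∈ T, p.Prime) (s : ℂ) :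
    (∏ p ∈ T, ((p : ℂ) ^ (-s)) ^ 2) * eulerProd N a T (2 - s) =
      ∏ p ∈ T, (eulerPolyRev N a p).eval ((p : ℂ) ^ (-s)) := by
  unfold eulerProd
  rw [← Finset.prod_mul_distrib]
  refine Finset.prod_congr rfl fun p hp => ?_
  have hp0 : p ≠ 0 := (hT p hp).ne_zero
  have hpc : (p : ℂ) ≠ 0 := Nat.cast_ne_zero.mpr hp0
  have hx : (p : ℂ) ^ (-s) ≠ 0 := (Complex.cpow_ne_zero_iff).mpr (Or.inl hpc)
  rw [eval_eulerPolyRev N a hp0 hx, cpow_neg_two_sub hp0]

/-- From the global identity to the local identity at a prime `q ∈ T`. -/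
theorem localIdentity_of_global (hIL : IndepLocal)
    {N N' : ℕ} [NeZero N] [NeZero N'] (a b : ℕ → ℂ) {wf wg : ℂ} (hwf : wf ≠ 0) (hwg : wg ≠ 0)
    (T : Finset ℕ) (hT : ∀ p ∈ T, p.Prime)
    (hTN : N.primeFactors ⊆ T) (hTN' : N'.primeFactors ⊆ T)
    (hglob : ∀ s : ℂ, wf * (N : ℂ) ^ (s - 1) * eulerProd N a T (2 - s) * eulerProd N' b T s =
      wg * (N' : ℂ) ^ (s - 1) * eulerProd N a T s * eulerProd N' b T (2 - s))
    (q : ℕ) (hq : q ∈ T) :
    ∃ c : ℂ, c ≠ 0 ∧
      X ^ (N'.factorization q) * eulerPolyRev N a q * eulerPoly N' b q =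
        C c * (X ^ (N.factorization q) * eulerPoly N a q * eulerPolyRev N' b q) := by
  classical
  have hN : N ≠ 0 := NeZero.ne N
  have hN' : N' ≠ 0 := NeZero.ne N'
  have hNc : (N : ℂ) ≠ 0 := Nat.cast_ne_zero.mpr hN
  have hN'c : (N' : ℂ) ≠ 0 := Nat.cast_ne_zero.mpr hN'
  set c₀ : ℂ := wg * N / (wf * N') with hc₀
  have hc₀ne : c₀ ≠ 0 := div_ne_zero (mul_ne_zero hwg hNc) (mul_ne_zero hwf hN'c)
  let A : ℕ → ℂ[X] := fun p =>
    X ^ (N'.factorization p) * eulerPolyRev N a p * eulerPoly N' b p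
  let B : ℕ → ℂ[X] := fun p =>
    X ^ (N.factorization p) * eulerPoly N a p * eulerPolyRev N' b p
  let B' : ℕ → ℂ[X] := fun p => (if p = q then C c₀ else 1) * B p
  have hA : ∀ p ∈ T, A p ≠ 0 := fun p _ =>
    mul_ne_zero (mul_ne_zero (pow_ne_zero _ X_ne_zero) (eulerPolyRev_ne_zero N a p))
      (eulerPoly_ne_zero N' b p)
  have hB : ∀ p, B p ≠ 0 := fun p =>
    mul_ne_zero (mul_ne_zero (pow_ne_zero _ X_ne_zero) (eulerPoly_ne_zero N a p))
      (eulerPolyRev_ne_zero N' b p)
  have hB' : ∀ p ∈ T, B' p ≠ 0 := by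
    intro p _
    refine mul_ne_zero ?_ (hB p)
    split_ifs
    · exact C_ne_zero.mpr hc₀ne
    · exact one_ne_zero
  have hid : ∀ s : ℂ, ∏ p ∈ T, (A p).eval ((p : ℂ) ^ (-s)) =
      ∏ p ∈ T, (B' p).eval ((p : ℂ) ^ (-s)) := by
    intro s
    have hL : ∏ p ∈ T, (A p).eval ((p : ℂ) ^ (-s)) =
        (N' : ℂ) ^ (-s) * ((∏ p ∈ T, ((p : ℂ) ^ (-s)) ^ 2) * eulerProd N a T (2 - s)) *
          eulerProd N' b T s := by
      rw [eulerProd_two_sub N a T hT, natCast_cpow_eq_prod hN' T hTN', eulerProd,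
        ← Finset.prod_mul_distrib, ← Finset.prod_mul_distrib]
      refine Finset.prod_congr rfl fun p _ => ?_
      simp only [A, eval_mul, eval_pow, eval_X]
    have hR : ∏ p ∈ T, (B' p).eval ((p : ℂ) ^ (-s)) =
        c₀ * ((N : ℂ) ^ (-s) * eulerProd N a T s *
          ((∏ p ∈ T, ((p : ℂ) ^ (-s)) ^ 2) * eulerProd N' b T (2 - s))) := by
      rw [eulerProd_two_sub N' b T hT, natCast_cpow_eq_prod hN T hTN, eulerProd,
        ← Finset.prod_mul_distrib, ← Finset.prod_mul_distrib]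
      have h1 : ∏ p ∈ T, (B' p).eval ((p : ℂ) ^ (-s)) =
          (∏ p ∈ T, (if p = q then c₀ else 1)) * ∏ p ∈ T, (B p).eval ((p : ℂ) ^ (-s)) := by
        rw [← Finset.prod_mul_distrib]
        refine Finset.prod_congr rfl fun p _ => ?_
        simp only [B', eval_mul]
        split_ifs <;> simp
      rw [h1, Finset.prod_ite_eq' T q (fun _ => c₀), if_pos hq]
      congr 1
      refine Finset.prod_congr rfl fun p _ => ?_
      simp only [B, eval_mul, eval_pow, eval_X]
    rw [hL, hR]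
    have hg := hglob s
    rw [Complex.cpow_sub _ _ hNc, Complex.cpow_sub _ _ hN'c, Complex.cpow_one,
      Complex.cpow_one] at hg
    rw [Complex.cpow_neg, Complex.cpow_neg]
    have hu : (N : ℂ) ^ s ≠ 0 := (Complex.cpow_ne_zero_iff).mpr (Or.inl hNc)
    have hv : (N' : ℂ) ^ s ≠ 0 := (Complex.cpow_ne_zero_iff).mpr (Or.inl hN'c)
    rw [hc₀]
    field_simp
    field_simp at hg
    linear_combination (∏ p ∈ T, ((p : ℂ) ^ (-s)) ^ 2) * hg
  obtain ⟨c, hc, hAB⟩ := hIL T hT A B' hA hB' hid q hq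
  refine ⟨c * c₀, mul_ne_zero hc hc₀ne, ?_⟩
  have : A q = C c * B' q := hAB
  simp only [A, B', B, ↓reduceIte] at this
  rw [this, C_mul]
  ring

end Fermat.Agent.Lib.Newform.H958.X

end
-- ===== PACK-END Lib/Newform/H958/X/Local.lean

-- ===== PACK-BEGIN S29/H871/Restrict.lean
section


/-!
# S29 / E3, part 4: restriction of a place of `F'/K'` to `F`, and the dichotomy

A place `w` of `F'/K'` is either trivial on `F` (all orders of elements of `F` vanish) or it is
the base change `placeBC` of its restriction to `F`.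

(helper871)
-/

set_option autoImplicit false
set_option linter.unusedSectionVars false

noncomputable section

namespace Fermat.Agent.S29.H871

open AlgebraicCurve TensorProduct
open Fermat.Agent.S24.H117 (mem_iff_ord_nonneg ord_pow)

variable {K F K' F' : Type*} [Field K] [Field F] [Field K'] [Field F']
  [Algebra K F] [Algebra K' F'] [Algebra K K'] [Algebra F F'] [Algebra K F']
  [IsScalarTower K F F'] [IsScalarTower K K' F']

section Rord

variable (w : Place K' F')

/-- The order at `w` of an element of `F`. -/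
def rord (f : F) : ℤ := w.ord (algebraMap F F' f)

theorem rord_zero : rord w (0 : F) = 0 := by simp [rord]

theorem rord_one : rord w (1 : F) = 0 := by simp [rord]

theorem rord_mul {f g : F} (hf : f ≠ 0) (hg : g ≠ 0) : rord w (f * g) = rord w f + rord w g := by
  unfold rord
  rw [map_mul, w.ord_mul (by simpa using hf) (by simpa using hg)]

theorem rord_inv (f : F) : rord w f⁻¹ = -rord w f := by
  unfold rord
  rw [map_inv₀, w.ord_inv]

theorem rord_pow (f : F) (n : ℕ) : rord w (f ^ n) = n * rord w f := by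
  unfold rord
  rw [map_pow, ord_pow]

theorem rord_zpow (f : F) (n : ℤ) : rord w (f ^ n) = n * rord w f := by
  unfold rord
  rw [map_zpow₀, w.ord_zpow]

/-- The restriction of the valuation ring of `w` to `F`. -/
def restrictRing : ValuationSubring F := w.toValuationSubring.comap (algebraMap F F')

theorem mem_restrictRing {f : F} : f ∈ restrictRing (F := F) w ↔ 0 ≤ rord w f := by
  unfold restrictRing rord
  rw [ValuationSubring.mem_comap]
  exact mem_iff_ord_nonneg w

theorem coe_ne_zero_restrictRing {a : restrictRing (F := F) w} (ha : a ≠ 0) : (a : F) ≠ 0 :=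
  fun h => ha (Subtype.ext h)

theorem isUnit_restrictRing_iff {a : restrictRing (F := F) w} (ha : a ≠ 0) :
    IsUnit a ↔ rord w (a : F) = 0 := by
  have ha0 : (a : F) ≠ 0 := coe_ne_zero_restrictRing w ha
  constructor
  · intro h
    obtain ⟨b, hb⟩ := isUnit_iff_exists_inv.mp h
    have hb' : (a : F) * (b : F) = 1 := congrArg Subtype.val hb
    have hbne : (b : F) ≠ 0 := by
      intro h0
      rw [h0, mul_zero] at hb'
      exact zero_ne_one hb'
    have hsum := rord_mul w ha0 hbne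
    rw [hb', rord_one] at hsum
    have h1 : 0 ≤ rord w (a : F) := (mem_restrictRing w).mp a.2
    have h2 : 0 ≤ rord w (b : F) := (mem_restrictRing w).mp b.2
    omega
  · intro h0
    have hinv : (a : F)⁻¹ ∈ restrictRing (F := F) w := by
      rw [mem_restrictRing, rord_inv]; omega
    exact ⟨⟨a, ⟨(a : F)⁻¹, hinv⟩, Subtype.ext (mul_inv_cancel₀ ha0),
      Subtype.ext (inv_mul_cancel₀ ha0)⟩, rfl⟩

theorem exists_min_pos_rord (hnt : ∃ t : F, rord w t ≠ 0) :
    ∃ (k : ℕ) (π : F), 0 < k ∧ π ≠ 0 ∧ rord w π = k ∧ ∀ f : F, (k : ℤ) ∣ rord w f := by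
  classical
  obtain ⟨t, ht⟩ := hnt
  have hex : ∃ n : ℕ, 0 < n ∧ ∃ f : F, rord w f = n := by
    rcases lt_or_gt_of_ne ht with h | h
    · refine ⟨(rord w t⁻¹).toNat, ?_, t⁻¹, ?_⟩
      · rw [rord_inv]; omega
      · rw [rord_inv]; omega
    · exact ⟨(rord w t).toNat, by omega, t, by omega⟩
  let k := Nat.find hex
  obtain ⟨hk0, π, hπ⟩ := Nat.find_spec hex
  have hmin : ∀ n : ℕ, 0 < n → (∃ f : F, rord w f = n) → k ≤ n := fun n hn hf =>
    Nat.find_min' hex ⟨hn, hf⟩
  have hπ0 : π ≠ 0 := by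
    rintro rfl
    rw [rord_zero] at hπ
    have : (k : ℤ) = 0 := hπ.symm
    have hk0' : 0 < k := hk0
    omega
  refine ⟨k, π, hk0, hπ0, hπ, fun f => ?_⟩
  rcases eq_or_ne f 0 with rfl | hf
  · simp [rord_zero]
  set q := rord w f / (k : ℤ) with hq
  set r := rord w f % (k : ℤ) with hr
  have hk0' : (0 : ℤ) < k := by exact_mod_cast hk0
  have hr0 : 0 ≤ r := Int.emod_nonneg _ hk0'.ne'
  have hrk : r < k := Int.emod_lt_of_pos _ hk0'
  have hdecomp : rord w f = k * q + r := (Int.mul_ediv_add_emod _ _).symm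
  have hg : rord w (f * π ^ (-q)) = r := by
    rw [rord_mul w hf (zpow_ne_zero _ hπ0), rord_zpow, hπ, hdecomp]
    ring
  by_cases hr' : r = 0
  · exact Int.dvd_of_emod_eq_zero hr'
  · exfalso
    have := hmin r.toNat (by omega) ⟨_, by rw [hg]; omega⟩
    have hk0'' : 0 < k := hk0
    omega

theorem isDiscreteValuationRing_restrictRing (hnt : ∃ t : F, rord w t ≠ 0) :
    IsDiscreteValuationRing (restrictRing (F := F) w) := by
  obtain ⟨k, π, hk0, hπ0, hπ, hdvd⟩ := exists_min_pos_rord w hnt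
  have hπmem : π ∈ restrictRing (F := F) w := by rw [mem_restrictRing, hπ]; positivity
  have hk0' : (0 : ℤ) < k := by exact_mod_cast hk0
  apply IsDiscreteValuationRing.ofHasUnitMulPowIrreducibleFactorization
  refine ⟨⟨π, hπmem⟩, ?_, ?_⟩
  · have hπne : (⟨π, hπmem⟩ : restrictRing (F := F) w) ≠ 0 :=
      fun h => hπ0 (congrArg Subtype.val h)
    refine ⟨fun hu => ?_, fun a b hab => ?_⟩
    · have := (isUnit_restrictRing_iff w hπne).mp hu
      simp only at this
      omega
    · have hab' : π = (a : F) * (b : F) := congrArg Subtype.val hab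
      have ha0 : a ≠ 0 := by
        rintro rfl
        apply hπ0
        simpa using hab'
      have hb0 : b ≠ 0 := by
        rintro rfl
        apply hπ0
        simpa using hab'
      have ha0' : (a : F) ≠ 0 := coe_ne_zero_restrictRing w ha0
      have hb0' : (b : F) ≠ 0 := coe_ne_zero_restrictRing w hb0
      have hsum := rord_mul w ha0' hb0'
      rw [← hab', hπ] at hsum
      obtain ⟨ca, hca⟩ := hdvd (a : F)
      obtain ⟨cb, hcb⟩ := hdvd (b : F)
      have h1 : 0 ≤ rord w (a : F) := (mem_restrictRing w).mp a.2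
      have h2 : 0 ≤ rord w (b : F) := (mem_restrictRing w).mp b.2
      rw [isUnit_restrictRing_iff w ha0, isUnit_restrictRing_iff w hb0]
      have hca0 : 0 ≤ ca := by
        by_contra hneg
        push Not at hneg
        rw [hca] at h1
        nlinarith
      have hcb0 : 0 ≤ cb := by
        by_contra hneg
        push Not at hneg
        rw [hcb] at h2
        nlinarith
      have hsum' : (k : ℤ) * (ca + cb) = k * 1 := by rw [hca, hcb] at hsum; linarith
      have h3 : ca + cb = 1 := mul_left_cancel₀ hk0'.ne' hsum'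
      rcases (show ca = 0 ∨ cb = 0 by omega) with h | h
      · left; rw [hca, h, mul_zero]
      · right; rw [hcb, h, mul_zero]
  · intro x hx
    have hx0 : (x : F) ≠ 0 := coe_ne_zero_restrictRing w hx
    obtain ⟨c, hc⟩ := hdvd (x : F)
    have hxnn : 0 ≤ rord w (x : F) := (mem_restrictRing w).mp x.2
    have hc0 : 0 ≤ c := by
      by_contra hneg
      push Not at hneg
      rw [hc] at hxnn
      nlinarith
    refine ⟨c.toNat, ?_⟩
    have hu : rord w ((x : F) * (π ^ c.toNat)⁻¹) = 0 := by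
      rw [rord_mul w hx0 (inv_ne_zero (pow_ne_zero _ hπ0)), rord_inv, rord_pow, hπ, hc]
      have : ((c.toNat : ℕ) : ℤ) = c := Int.toNat_of_nonneg hc0
      rw [this]; ring
    have hmem : (x : F) * (π ^ c.toNat)⁻¹ ∈ restrictRing (F := F) w := by
      rw [mem_restrictRing, hu]
    have hne : (⟨_, hmem⟩ : restrictRing (F := F) w) ≠ 0 := fun h =>
      (mul_ne_zero hx0 (inv_ne_zero (pow_ne_zero _ hπ0))) (congrArg Subtype.val h)
    have hunit : IsUnit (⟨_, hmem⟩ : restrictRing (F := F) w) :=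
      (isUnit_restrictRing_iff w hne).mpr hu
    refine ⟨hunit.unit, ?_⟩
    apply Subtype.ext
    have hπpow : π ^ c.toNat ≠ 0 := pow_ne_zero _ hπ0
    show π ^ c.toNat * ((x : F) * (π ^ c.toNat)⁻¹) = (x : F)
    field_simp

/-- The restriction to `F` of a place of `F'/K'` that is nontrivial on `F`. -/
def restrictPlace (hnt : ∃ t : F, rord w t ≠ 0) : Place K F where
  toValuationSubring := restrictRing (F := F) w
  algebraMap_mem' := by
    intro a
    rw [mem_restrictRing, rord, ← IsScalarTower.algebraMap_apply K F F',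
      IsScalarTower.algebraMap_apply K K' F', Fermat.Agent.S24.FF.ord_algebraMap]
  ne_top' := by
    intro htop
    obtain ⟨t, ht⟩ := hnt
    have h1 : t ∈ restrictRing (F := F) w := htop ▸ ValuationSubring.mem_top t
    have h2 : t⁻¹ ∈ restrictRing (F := F) w := htop ▸ ValuationSubring.mem_top _
    rw [mem_restrictRing] at h1 h2
    rw [rord_inv] at h2
    omega
  isPrincipalIdealRing' := by
    have := isDiscreteValuationRing_restrictRing w hnt
    infer_instance

@[simp]
theorem restrictPlace_toValuationSubring (hnt : ∃ t : F, rord w t ≠ 0) :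
    (restrictPlace (K := K) w hnt).toValuationSubring = restrictRing (F := F) w := rfl

theorem ord_restrictPlace_nonneg_iff (hnt : ∃ t : F, rord w t ≠ 0) (f : F) :
    0 ≤ (restrictPlace (K := K) w hnt).ord f ↔ 0 ≤ rord w f := by
  rw [← mem_iff_ord_nonneg, restrictPlace_toValuationSubring, mem_restrictRing]

end Rord

end Fermat.Agent.S29.H871

end
end
-- ===== PACK-END S29/H871/Restrict.lean

-- ===== PACK-BEGIN S29/H871/Dichotomy.lean
section


/-!
# S29 / E3, part 5: uniqueness of the base-changed place and the dichotomy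

(helper871)
-/

set_option autoImplicit false
set_option linter.unusedSectionVars false

noncomputable section

namespace Fermat.Agent.S29.H871

open AlgebraicCurve TensorProduct
open Fermat.Agent.S24.H117 (mem_iff_ord_nonneg ord_pow ord_add_eq_of_lt place_ext_of_le
  mem_of_ord_nonneg ord_nonneg_of_mem)

variable {K F K' F' : Type*} [Field K] [Field F] [Field K'] [Field F']
  [Algebra K F] [Algebra K' F'] [Algebra K K'] [Algebra F F'] [Algebra K F']
  [IsScalarTower K F F'] [IsScalarTower K K' F']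

section Unique

variable {v : Place K F} (hv : IsRationalPlace v) (w : Place K' F')

theorem muA_mem_of_le (h1 : ∀ f ∈ v.toValuationSubring, 0 ≤ w.ord (algebraMap F F' f))
    (x : v.toValuationSubring ⊗[K] K') : muA K' F' v x ∈ w.toValuationSubring := by
  induction x using TensorProduct.induction_on with
  | zero => rw [map_zero]; exact zero_mem _
  | tmul a c =>
    rw [muA_tmul]
    exact mul_mem (mem_of_ord_nonneg w (h1 a a.2)) (w.algebraMap_mem' c)
  | add x y hx hy => rw [map_add]; exact add_mem hx hy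

theorem epsHom_one_tmul (c : K') :
    epsHom hv ((1 : v.toValuationSubring) ⊗ₜ[K] c) = c := by
  rw [epsHom_tmul, map_one, map_one, one_mul]

theorem ord_muA_eq_zero_of_eps_ne_zero
    (h1 : ∀ f ∈ v.toValuationSubring, 0 ≤ w.ord (algebraMap F F' f))
    {π : v.toValuationSubring} (hπ : Irreducible π)
    (h2 : 0 < w.ord (algebraMap F F' (π : F)))
    {s : v.toValuationSubring ⊗[K] K'} (hs : epsHom hv s ≠ 0) :
    w.ord (muA K' F' v s) = 0 := by
  set c := epsHom hv s with hc
  have hker : epsHom hv (s - (1 : v.toValuationSubring) ⊗ₜ[K] c) = 0 := by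
    rw [map_sub, epsHom_one_tmul, sub_self]
  obtain ⟨t, ht⟩ := exists_eq_piT_mul_of_epsHom_eq_zero hv hπ hker
  have hs' : s = (1 : v.toValuationSubring) ⊗ₜ[K] c + piT π * t := by
    rw [← ht]; ring
  have hμ : muA K' F' v s = algebraMap K' F' c + algebraMap F F' (π : F) * muA K' F' v t := by
    conv_lhs => rw [hs']
    rw [map_add, map_mul, muA_piT, muA_tmul]
    simp
  have hc0 : algebraMap K' F' c ≠ 0 := by
    intro h
    exact hs ((algebraMap K' F').injective (by rw [h, map_zero]))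
  have hordc : w.ord (algebraMap K' F' c) = 0 := Fermat.Agent.S24.FF.ord_algebraMap w c
  rw [hμ]
  by_cases hzero : algebraMap F F' (π : F) * muA K' F' v t = 0
  · rw [hzero, add_zero, hordc]
  · have hπ0 : algebraMap F F' (π : F) ≠ 0 := left_ne_zero_of_mul hzero
    have ht0 : muA K' F' v t ≠ 0 := right_ne_zero_of_mul hzero
    have hordt : 0 ≤ w.ord (muA K' F' v t) := ord_nonneg_of_mem w (muA_mem_of_le w h1 t)
    have hlt : w.ord (algebraMap K' F' c) <
        w.ord (algebraMap F F' (π : F) * muA K' F' v t) := by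
      rw [w.ord_mul hπ0 ht0, hordc]
      omega
    rw [ord_add_eq_of_lt w hlt hc0, hordc]

variable [IsConstExt K F K' F']

/-- **Uniqueness**: a place of `F'/K'` whose valuation ring contains `O_v` and whose maximal
ideal contains a uniformizer of `v` is the base change of `v`. -/
theorem placeBC_eq_of_le (h1 : ∀ f ∈ v.toValuationSubring, 0 ≤ w.ord (algebraMap F F' f))
    {π : v.toValuationSubring} (hπ : Irreducible π)
    (h2 : 0 < w.ord (algebraMap F F' (π : F))) : placeBC K' F' hv = w := by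
  apply place_ext_of_le
  intro z hz
  have hz' : IsIntegralBC K' F' hv z := mem_of_ord_nonneg (placeBC K' F' hv) hz
  obtain ⟨x, s, hs, hxs⟩ := hz'
  have hs0 : muA K' F' v s ≠ 0 := muA_ne_zero (eps_ne_zero_ne_zero hv hs)
  rcases eq_or_ne z 0 with rfl | hz0
  · simp
  have hords := ord_muA_eq_zero_of_eps_ne_zero hv w h1 hπ h2 hs
  have hordx : 0 ≤ w.ord (muA K' F' v x) := ord_nonneg_of_mem w (muA_mem_of_le w h1 x)
  rw [← hxs, w.ord_mul hz0 hs0, hords, add_zero] at hordx
  exact hordx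

end Unique

section Dichotomy

variable [IsConstExt K F K' F'] (w : Place K' F')

/-- **Dichotomy**: a place of `F'/K'` which is nontrivial on `F` and whose restriction to `F` is
rational is the base change of its restriction. -/
theorem placeBC_restrictPlace (hnt : ∃ t : F, rord w t ≠ 0)
    (hrat : IsRationalPlace (restrictPlace (K := K) w hnt)) :
    placeBC K' F' hrat = w := by
  obtain ⟨π, hπ⟩ := IsDiscreteValuationRing.exists_irreducible
    (restrictPlace (K := K) w hnt).toValuationSubring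
  refine placeBC_eq_of_le hrat w ?_ hπ ?_
  · intro f hf
    exact (mem_restrictRing w).mp hf
  · have hπ0 : (π : F) ≠ 0 := fun h => hπ.ne_zero (Subtype.ext h)
    have hmem : 0 ≤ rord w (π : F) := (mem_restrictRing w).mp π.2
    by_contra hcon
    have h0 : rord w (π : F) = 0 := le_antisymm (not_lt.mp hcon) hmem
    have hπne : π ≠ 0 := hπ.ne_zero
    exact hπ.not_isUnit ((isUnit_restrictRing_iff w hπne).mpr h0)

/-- The restriction of `placeBC v` to `F` is `v`. -/
theorem rord_placeBC {v : Place K F} (hv : IsRationalPlace v) (f : F) :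
    rord (placeBC K' F' hv) f = v.ord f :=
  ord_placeBC_algebraMap hv f

end Dichotomy

end Fermat.Agent.S29.H871

end
end
-- ===== PACK-END S29/H871/Dichotomy.lean

-- ===== PACK-BEGIN S59/TW/H564/Neb.lean
section



/-!
# S59 / TW leaf E3 NEB (helper564): nebentypus decomposition at the level of forms

For `K : Subgroup SL(2, ℤ)` with `Γ₁(M) ≤ K ≤ Γ₀(M)` (e.g. `K = H653.GammaH M H`):

* `resG1 hge : CuspForm K k →ₗ[ℂ] CuspForm (Gamma1 M) k` (restriction; injective);
* `nebK k K ε : Submodule ℂ (CuspForm K k)` : the forms on `K` with nebentypus `ε`;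
* `TrivOn K ε` : `ε(d_γ) = 1` for `γ ∈ K`;  `liftK` : `nebSub k M ε → CuspForm K k`;
* `neProj_resG1_eq_zero` : the `ε`-component of a form on `K` vanishes unless `TrivOn K ε`;
* `exists_neb_decomp` : **E3**, `f = ∑_ε c_ε`, `c_ε ∈ nebK k K ε`, `c_ε = 0` unless `TrivOn K ε`;
* `exists_twistEmbeddingK` : **E3 + E4**, an injective `J : nebK k K ε →ₗ[ℂ] CuspForm (Gamma0 M₂) k`
  with `T_ℓ (J f) = J g` whenever `g = ε(ℓ)^m • (U_ℓ f + ε(ℓ) • f ∣ diag(ℓ, 1))` as functions.
-/

set_option autoImplicit false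
set_option linter.deprecated false
set_option linter.unusedSectionVars false

noncomputable section

namespace Fermat.Agent.S59.TW.H564

open Matrix Matrix.SpecialLinearGroup CongruenceSubgroup UpperHalfPlane ModularForm
open Fermat.Agent.Lib.Newform.H803
open scoped MatrixGroups ModularForm

variable {k : ℤ} {M : ℕ} [NeZero M] {K : Subgroup SL(2, ℤ)}

theorem finiteIndex_of_Gamma1_le (hge : Gamma1 M ≤ K) : K.FiniteIndex :=
  Subgroup.finiteIndex_of_le hge

theorem isCuspidal_coe_of_le (hge : Gamma1 M ≤ K) (f : CuspForm K k) :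
    IsCuspidal k (⇑f : ℍ → ℂ) := by
  have : K.FiniteIndex := finiteIndex_of_Gamma1_le hge
  exact isCuspidal_of_cuspForm f

/-- Restriction of cusp forms from `K ⊇ Γ₁(M)` to `Γ₁(M)`. -/
def resG1 (hge : Gamma1 M ≤ K) : CuspForm K k →ₗ[ℂ] CuspForm (Gamma1 M) k where
  toFun f := cuspFormOfIsCuspidal (Gamma1 M) ⇑f (isCuspidal_coe_of_le hge f)
    (fun γ hγ => slInv_of_cuspForm f γ (hge hγ))
  map_add' f g := by
    apply DFunLike.coe_injective
    show (⇑(f + g) : ℍ → ℂ) = ⇑f + ⇑g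
    exact CuspForm.coe_add f g
  map_smul' c f := by
    apply DFunLike.coe_injective
    show (⇑(c • f) : ℍ → ℂ) = c • ⇑f
    rw [CuspForm.IsGLPos.coe_smul]

@[simp] theorem coe_resG1 (hge : Gamma1 M ≤ K) (f : CuspForm K k) :
    (⇑(resG1 hge f) : ℍ → ℂ) = ⇑f := rfl

theorem resG1_injective (hge : Gamma1 M ≤ K) :
    Function.Injective (resG1 (k := k) hge) := fun f g h => by
  apply DFunLike.coe_injective
  rw [← coe_resG1 hge f, h, coe_resG1]

/-- The nebentypus-`ε` subspace of `S_k(K)`. -/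
def nebK (k : ℤ) {M : ℕ} [NeZero M] (K : Subgroup SL(2, ℤ)) (ε : DirichletCharacter ℂ M) :
    Submodule ℂ (CuspForm K k) where
  carrier := {f | S48.H548.HasNeb (⇑ε) (⇑f) k}
  add_mem' := fun {f g} hf hg => by
    show S48.H548.HasNeb (⇑ε) (⇑(f + g)) k
    rw [CuspForm.coe_add]
    exact S48.H548.HasNeb.add hf hg
  zero_mem' := by
    show S48.H548.HasNeb (⇑ε) (⇑(0 : CuspForm K k)) k
    rw [CuspForm.coe_zero]
    exact S48.H548.HasNeb.zero
  smul_mem' := fun c f hf => by
    show S48.H548.HasNeb (⇑ε) (⇑(c • f)) k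
    rw [CuspForm.IsGLPos.coe_smul]
    exact S48.H548.HasNeb.smul c hf

theorem mem_nebK {ε : DirichletCharacter ℂ M} {f : CuspForm K k} :
    f ∈ nebK k K ε ↔ S48.H548.HasNeb (⇑ε) (⇑f) k := Iff.rfl

/-- `ε` is trivial on `K` (through `γ ↦ d_γ mod M`). -/
def TrivOn (K : Subgroup SL(2, ℤ)) (ε : DirichletCharacter ℂ M) : Prop :=
  ∀ γ ∈ K, ε (((γ 1 1 : ℤ)) : ZMod M) = 1

/-- A form on `Γ₁(M)` with nebentypus `ε` trivial on `K ≤ Γ₀(M)` is a form on `K`. -/
def liftK (hle : K ≤ Gamma0 M) {ε : DirichletCharacter ℂ M} (hε : TrivOn K ε) :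
    nebSub k M ε →ₗ[ℂ] CuspForm K k where
  toFun g := cuspFormOfIsCuspidal K ⇑g.1 (isCuspidal_of_cuspForm g.1)
    (fun γ hγ => by
      rw [sl_slash_mapGL, g.2 γ (hle hγ), hε γ hγ, one_smul])
  map_add' f g := by
    apply DFunLike.coe_injective
    show (⇑(f + g).1 : ℍ → ℂ) = ⇑f.1 + ⇑g.1
    rw [Submodule.coe_add, CuspForm.coe_add]
  map_smul' c f := by
    apply DFunLike.coe_injective
    show (⇑(c • f).1 : ℍ → ℂ) = c • ⇑f.1
    rw [Submodule.coe_smul, CuspForm.IsGLPos.coe_smul]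

@[simp] theorem coe_liftK (hle : K ≤ Gamma0 M) {ε : DirichletCharacter ℂ M} (hε : TrivOn K ε)
    (g : nebSub k M ε) : (⇑(liftK hle hε g) : ℍ → ℂ) = ⇑g.1 := rfl

theorem liftK_mem (hle : K ≤ Gamma0 M) {ε : DirichletCharacter ℂ M} (hε : TrivOn K ε)
    (g : nebSub k M ε) : liftK hle hε g ∈ nebK k K ε := g.2

/-- `neProj ε` kills the restriction of a form on `K` unless `ε` is trivial on `K`. -/
theorem neProj_resG1_eq_zero (hge : Gamma1 M ≤ K) (hle : K ≤ Gamma0 M)
    (ε : DirichletCharacter ℂ M) (hε : ¬ TrivOn K ε) (f : CuspForm K k) :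
    S48.H548.neProj ε (resG1 hge f) = 0 := by
  obtain ⟨γ, hγ, hne⟩ : ∃ γ ∈ K, ε (((γ 1 1 : ℤ)) : ZMod M) ≠ 1 := by
    by_contra h
    exact hε fun γ hγ => by_contra fun hne => h ⟨γ, hγ, hne⟩
  have h1 : S48.H548.diaL γ (hle hγ) (resG1 hge f) = resG1 hge f := by
    apply DFunLike.coe_injective
    rw [S48.H548.coe_diaL, coe_resG1, ← sl_slash_mapGL]
    exact slInv_of_cuspForm f γ hγ
  have h2 : S48.H548.diaL γ (hle hγ) (S48.H548.neProj ε (resG1 hge f)) =
      S48.H548.neProj ε (S48.H548.diaL γ (hle hγ) (resG1 hge f)) := by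
    rw [S48.H548.neProj_apply, S48.H548.neProj_apply, map_smul, map_sum]
    congr 1
    refine Finset.sum_congr rfl fun d _ => ?_
    rw [map_smul]
    congr 1
    exact (S48.H548.diaL_comm γ _ (hle hγ) (S48.H548.diaRep_mem d) (resG1 hge f)).symm
  rw [h1, S48.H548.diaL_neProj] at h2
  have h3 : (ε (((γ 1 1 : ℤ)) : ZMod M) - 1) • S48.H548.neProj ε (resG1 hge f) = 0 := by
    rw [sub_smul, one_smul, h2, sub_self]
  rcases smul_eq_zero.mp h3 with h | h
  · exact absurd (sub_eq_zero.mp h) hne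
  · exact h

/-- **E3 NEB.**  Every cusp form on `K` (`Γ₁(M) ≤ K ≤ Γ₀(M)`) is the sum of its nebentypus
components, over the characters `ε` trivial on `K`. -/
theorem exists_neb_decomp (hge : Gamma1 M ≤ K) (hle : K ≤ Gamma0 M) (f : CuspForm K k) :
    ∃ c : DirichletCharacter ℂ M → CuspForm K k,
      (∀ ε, c ε ∈ nebK k K ε) ∧ (∀ ε, ¬ TrivOn K ε → c ε = 0) ∧ ∑ ε, c ε = f := by
  classical
  refine ⟨fun ε => if h : TrivOn K ε then
      liftK hle h ⟨S48.H548.neProj ε (resG1 hge f), S48.H548.hasNeb_neProj ε _⟩ else 0,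
    fun ε => ?_, fun ε h => ?_, ?_⟩
  · by_cases h : TrivOn K ε
    · simp only [dif_pos h]
      exact liftK_mem hle h _
    · simp only [dif_neg h]
      exact Submodule.zero_mem _
  · simp only [dif_neg h]
  · apply resG1_injective hge
    rw [map_sum]
    conv_rhs => rw [← S48.H548.sum_neProj (resG1 hge f)]
    refine Finset.sum_congr rfl fun ε _ => ?_
    by_cases h : TrivOn K ε
    · simp only [dif_pos h]
      apply DFunLike.coe_injective
      rw [coe_resG1, coe_liftK]
    · simp only [dif_neg h, map_zero]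
      exact (neProj_resG1_eq_zero hge hle ε h f).symm


/-- Restriction `nebK k K ε → nebSub k M ε`. -/
def resNeb (hge : Gamma1 M ≤ K) (ε : DirichletCharacter ℂ M) :
    nebK k K ε →ₗ[ℂ] nebSub k M ε :=
  LinearMap.codRestrict (nebSub k M ε) ((resG1 hge).domRestrict (nebK k K ε)) fun f => f.2

@[simp] theorem coe_resNeb (hge : Gamma1 M ≤ K) (ε : DirichletCharacter ℂ M)
    (f : nebK k K ε) : (⇑(resNeb hge ε f).1 : ℍ → ℂ) = ⇑f.1 := rfl

theorem resNeb_injective (hge : Gamma1 M ≤ K) (ε : DirichletCharacter ℂ M) :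
    Function.Injective (resNeb (k := k) hge ε) := fun f g h => by
  apply Subtype.ext
  apply DFunLike.coe_injective
  rw [← coe_resNeb hge ε f, h, coe_resNeb]

/-- **E3 + E4.**  The twist embedding on the nebentypus-`ε` part of `S_k(K)`. -/
theorem exists_twistEmbeddingK (k : ℤ) {M : ℕ} [NeZero M] {K : Subgroup SL(2, ℤ)}
    (hge : Gamma1 M ≤ K) (Qs : List ℕ) (hnd : Qs.Nodup)
    (hQs : ∀ q ∈ Qs, q.Prime ∧ ∃ M' : ℕ, M = M' * q ∧ Nat.Coprime M' q)
    (ε : DirichletCharacter ℂ M)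
    (hε : ∀ d : ℤ, ((Qs.prod : ℕ) : ℤ) ∣ d - 1 → IsUnit ((d : ℤ) : ZMod M) →
      ε ((d : ℤ) : ZMod M) = 1)
    (m : ℕ) (hm : ε ^ (2 * m + 1) = 1) (M₂ : ℕ) (hM₂ : M * Qs.prod ∣ M₂) :
    ∃ J : nebK k K ε →ₗ[ℂ] CuspForm (Gamma0 M₂) k,
      Function.Injective J ∧
      ∀ (ℓ : ℕ) [Fact ℓ.Prime] (_ : ¬ ℓ ∣ M) (hℓ₂ : ¬ ℓ ∣ M₂) (f g : nebK k K ε),
        (⇑g.1 : ℍ → ℂ) = ε ((ℓ : ℕ) : ZMod M) ^ m •
          (heckeU k ℓ ⇑f.1 +
            ε ((ℓ : ℕ) : ZMod M) • ((⇑f.1 : ℍ → ℂ) ∣[k] heckeDiagMatrix ℓ)) →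
        CuspForm.heckeTLin k (Fact.out : ℓ.Prime) hℓ₂ (J f) = J g := by
  obtain ⟨j, hj, hT⟩ := exists_twistEmbedding' k Qs hnd hQs ε hε m hm M₂ hM₂
  refine ⟨j ∘ₗ resNeb hge ε, hj.comp (resNeb_injective hge ε), ?_⟩
  intro ℓ _ hℓ hℓ₂ f g hfg
  rw [LinearMap.comp_apply, LinearMap.comp_apply, hT ℓ hℓ hℓ₂ (resNeb hge ε f)]
  congr 1
  apply Subtype.ext
  apply DFunLike.coe_injective
  rw [coe_resNeb, hfg, Submodule.coe_smul, CuspForm.IsGLPos.coe_smul, coe_TpNeb,
    S48.H548.coe_TpL_of_hasNeb hℓ _ (resNeb hge ε f).2, coe_resNeb]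

end Fermat.Agent.S59.TW.H564

end
end
-- ===== PACK-END S59/TW/H564/Neb.lean

-- ===== PACK-BEGIN S59/TW/H653/Cross/Conj.lean
section



/-!
# S59 / TW-HECKE (helper653), block CROSS: the hypotheses on `c` for the restriction of
`S41.Spec.conjDelta`

`K' = K ⊓ Γ₀(N q)` (hypotheses `hK' : IsMid (N q) K'`, `hmem`), `c : K' →* K` ANY homomorphism with

  `hcoe : ∀ k : K', (c k : SL(2, ℤ)) = (conjDelta N q ⟨k, _⟩ : SL(2, ℤ))`

(for the maps `conjDeltaK` of `TW/H62/KLevelSpec.lean` and `TW/H201/KDegDefs.lean` this is `rfl`).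
Then `c` satisfies the hypotheses `hc`, `hrange` of `Cross/Main.lean`, hence

* `TK_r₂`, `UK_r₂` : `T_ℓ`, `U_q'` commute with `r₂ φ = φ ∘ c`;
* `TK_t₂`, `UK_t₂` : `T_ℓ`, `U_q'` commute with `t₂ = transferAlong c`.
-/

set_option autoImplicit false

namespace Fermat.Agent.S59.TW.H653.Cross

open CongruenceSubgroup Matrix.SpecialLinearGroup ModularCurve.Period ModularForm
open Fermat.Agent.S29.H642 Fermat.Agent.S41.Spec Fermat.Agent.S41.H761
open Fermat.Agent.S59.TW.H653
open P2MW.S_ModularForm_heckeT_slash_eq_self_of_mem_Gamma0.ModularForm.HeckeSlashInvariance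
open scoped MatrixGroups

variable {N q : ℕ} {K K' : Subgroup SL(2, ℤ)} {A : Type*} [AddCommGroup A]

section

variable (hK : IsMid N K) (hK' : IsMid (N * q) K')
  (hmem : ∀ k : SL(2, ℤ), k ∈ K → k ∈ Gamma0 (N * q) → k ∈ K')
  (hq : q ≠ 0) (c : K' →* K)
  (hcoe : ∀ k : K', ((c k : K) : SL(2, ℤ)) =
    ((conjDelta N q (Subgroup.inclusion hK'.le k) : Gamma0 N) : SL(2, ℤ)))
include hq hcoe

omit hq in
theorem ιK_eq_of_coe (k : K') :
    ιK K (c k) = ιN N (conjDelta N q (Subgroup.inclusion hK'.le k)) := by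
  rw [ιK_apply, hcoe k]
  rfl

/-- `δ k = c(k) δ`. -/
theorem hc_of_coe (k : K') :
    heckeDiagMatrix q * ιK K' k = ιK K (c k) * heckeDiagMatrix q := by
  rw [ιK_eq_of_coe hK' c hcoe k]
  exact diag_rel (N := N) hq (Subgroup.inclusion hK'.le k)

include hK hmem

/-- The range of `c` contains every `m ∈ K` with `q ∣ m₀₁`. -/
theorem hrange_of_coe (m : K) (hm : (q : ℤ) ∣ (m : SL(2, ℤ)) 0 1) : m ∈ c.range := by
  obtain ⟨g, hg⟩ := (Fermat.Agent.S41.H105.mem_range_conjDelta_iff N hq (inclK hK m)).mpr hm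
  have hgK : ((incl N q g : Gamma0 N) : SL(2, ℤ)) ∈ K := by
    refine hK.mem_of_dUnit_eq (k := inclK hK m) m.2 ?_
    rw [← hg]
    apply Units.ext
    rw [coe_dUnit, coe_dUnit]
    rfl
  have hgK' : (g : SL(2, ℤ)) ∈ K' := hmem _ hgK g.2
  refine ⟨⟨(g : SL(2, ℤ)), hgK'⟩, ?_⟩
  apply Subtype.ext
  rw [hcoe]
  have : Subgroup.inclusion hK'.le (⟨(g : SL(2, ℤ)), hgK'⟩ : K') = g := Subtype.ext rfl
  rw [this, hg]
  rfl

/-- `T_ℓ r₂ = r₂ T_ℓ`. -/
theorem TK_r₂ {ℓ : ℕ} [Fact ℓ.Prime] (hℓ : ¬ ℓ ∣ N * q) (φ : Additive K →+ A) :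
    TK (N * q) K' ℓ (φ.comp (MonoidHom.toAdditive c)) =
      (TK N K ℓ φ).comp (MonoidHom.toAdditive c) :=
  TK_comp_conj hK hK' hq c (hc_of_coe hK' hq c hcoe) (hrange_of_coe hK hK' hmem hq c hcoe) hℓ φ

/-- `U_q' r₂ = r₂ U_q'`. -/
theorem UK_r₂ {q' : ℕ} [Fact q'.Prime] (hq' : q' ∣ N) (hcop : Nat.Coprime q' q)
    (φ : Additive K →+ A) :
    UK K' q' (φ.comp (MonoidHom.toAdditive c)) =
      (UK K q' φ).comp (MonoidHom.toAdditive c) :=
  UK_comp_conj hK hK' hq c (hc_of_coe hK' hq c hcoe) (hrange_of_coe hK hK' hmem hq c hcoe)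
    hq' hcop φ

/-- `T_ℓ t₂ = t₂ T_ℓ`. -/
theorem TK_t₂ {ℓ : ℕ} [Fact ℓ.Prime] (hℓ : ¬ ℓ ∣ N * q) (ψ : Additive K' →+ A) :
    TK N K ℓ (transferAlong c ψ) = transferAlong c (TK (N * q) K' ℓ ψ) :=
  TK_transferAlong_conj hK hK' hq c (hc_of_coe hK' hq c hcoe)
    (hrange_of_coe hK hK' hmem hq c hcoe) hℓ ψ

/-- `U_q' t₂ = t₂ U_q'`. -/
theorem UK_t₂ {q' : ℕ} [Fact q'.Prime] (hq' : q' ∣ N) (ψ : Additive K' →+ A) :
    UK K q' (transferAlong c ψ) = transferAlong c (UK K' q' ψ) :=
  UK_transferAlong_conj hK hK' hq c (hc_of_coe hK' hq c hcoe)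
    (hrange_of_coe hK hK' hmem hq c hcoe) hq' ψ

end

end Fermat.Agent.S59.TW.H653.Cross

end
-- ===== PACK-END S59/TW/H653/Cross/Conj.lean

-- ===== PACK-BEGIN A3/H619/OrdStatement.lean
section
/-
A3 / piece ORD (helper619): **the ORD block** `Fermat.Agent.S19.OrdStatement`.

An `OrderDatum ℓ M act` (frozen interface `Fermat/Agent/S19/Defs.lean`) on a finite module `M`
gives a `HopfModel ℓ M act`.  The order is `H = ℤ_(ℓ)[gens] ⊆ (M → ℚ̄)`:

* (O0) equivariance and integrality of values pass from `gens` to `H`;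
* (O1) `H` is finitely generated (`fg_of_equivariant_integral`);
* (O2) `H` separates points;
* (O3) descent from `Z̄_(ℓ)` to `ℤ_(ℓ)`: `f (s + t)` is a `Z̄_(ℓ)`-combination of a `ℤ_(ℓ)`-basis of
  `H ⊗ H`, which is `ℚ̄`-independent, so the coefficients are Galois-fixed and integral.
-/




set_option autoImplicit false

noncomputable section

namespace Fermat.Agent.A3.H619

open GaloisRep TensorProduct Module

variable {p : ℕ} {T : Type}

/-- The diagonal action on pairs. -/
def act₂ (act : GQ → T → T) (σ : GQ) (st : T × T) : T × T := (act σ st.1, act σ st.2)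

section Mu

variable (H : Subalgebra (ratLocalizedAt p) (T → Qb))

/-- Every element of the image of `H ⊗ H` is a finite sum of products. -/
theorem exists_sum_of_tensor (x : ↥H ⊗[ratLocalizedAt p] ↥H) :
    ∃ (n : ℕ) (a b : Fin n → (T → Qb)), (∀ i, a i ∈ H) ∧ (∀ i, b i ∈ H) ∧
      ∀ s t, mu H x (s, t) = ∑ i, a i s * b i t := by
  induction x using TensorProduct.induction_on with
  | zero =>
    exact ⟨0, Fin.elim0, Fin.elim0, fun i => i.elim0, fun i => i.elim0, fun s t => by simp⟩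
  | tmul a b =>
    exact ⟨1, fun _ => a, fun _ => b, fun _ => a.2, fun _ => b.2, fun s t => by simp⟩
  | add x y hx hy =>
    obtain ⟨n, a, b, ha, hb, hab⟩ := hx
    obtain ⟨m, a', b', ha', hb', hab'⟩ := hy
    refine ⟨n + m, Fin.append a a', Fin.append b b', ?_, ?_, ?_⟩
    · intro i
      refine Fin.addCases (fun j => ?_) (fun j => ?_) i
      · rw [Fin.append_left]; exact ha j
      · rw [Fin.append_right]; exact ha' j
    · intro i
      refine Fin.addCases (fun j => ?_) (fun j => ?_) i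
      · rw [Fin.append_left]; exact hb j
      · rw [Fin.append_right]; exact hb' j
    · intro s t
      rw [map_add, Pi.add_apply, hab, hab', Fin.sum_univ_add]
      simp only [Fin.append_left, Fin.append_right]

/-- Functions in the image of `H ⊗ H` are equivariant for the diagonal action. -/
theorem isEquivFun_mu {act : GQ → T → T} (hequiv : ∀ f ∈ H, IsEquivFun act f)
    (x : ↥H ⊗[ratLocalizedAt p] ↥H) : IsEquivFun (act₂ act) (mu H x) := by
  induction x using TensorProduct.induction_on with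
  | zero => intro σ st; simp
  | tmul a b =>
    intro σ st
    rw [mu_tmul, mu_tmul, map_mul]
    show (a : T → Qb) (act σ st.1) * (b : T → Qb) (act σ st.2) = _
    rw [hequiv a.1 a.2, hequiv b.1 b.2]
  | add x y hx hy =>
    intro σ st
    rw [map_add, Pi.add_apply, Pi.add_apply, hx, hy, map_add]

end Mu

theorem algebraMap_ratLoc_fixed (r : ratLocalizedAt p) (σ : GQ) :
    σ (algebraMap (ratLocalizedAt p) Qb r) = algebraMap (ratLocalizedAt p) Qb r := by
  rw [IsScalarTower.algebraMap_apply (ratLocalizedAt p) ℚ Qb]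
  exact σ.commutes _

section Datum

variable {ℓ : ℕ} {M : Type} [AddCommGroup M] {act : GQ → M → M}
  (D : Fermat.Agent.S19.OrderDatum ℓ M act)

/-- The order generated by the generators of an order datum. -/
def orderOf : Subalgebra (ratLocalizedAt ℓ) (M → Qb) :=
  Algebra.adjoin (ratLocalizedAt ℓ) D.gens

include D

theorem datum_act_one (m : M) : act 1 m = m :=
  D.separates _ _ fun f hf => by rw [D.equivariant f hf]; rfl

theorem datum_act_mul (σ τ : GQ) (m : M) : act (σ * τ) m = act σ (act τ m) :=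
  D.separates _ _ fun f hf => by
    rw [D.equivariant f hf, D.equivariant f hf, D.equivariant f hf]; rfl

theorem datum_act_zero (σ : GQ) : act σ 0 = 0 := by
  have := D.act_add σ 0 0
  rw [add_zero] at this
  simpa using this

theorem datum_equiv : ∀ f ∈ orderOf D, IsEquivFun act f := by
  intro f hf
  induction hf using Algebra.adjoin_induction with
  | mem f hf => exact D.equivariant f hf
  | algebraMap r =>
    intro σ m
    rw [Pi.algebraMap_apply, Pi.algebraMap_apply, algebraMap_ratLoc_fixed]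
  | add f g _ _ hf hg =>
    intro σ m
    rw [Pi.add_apply, Pi.add_apply, hf, hg, map_add]
  | mul f g _ _ hf hg =>
    intro σ m
    rw [Pi.mul_apply, Pi.mul_apply, hf, hg, map_mul]

theorem datum_integral : ∀ f ∈ orderOf D, ∀ m, IsIntegral (ratLocalizedAt ℓ) (f m) := by
  intro f hf
  induction hf using Algebra.adjoin_induction with
  | mem f hf => exact D.integral f hf
  | algebraMap r =>
    intro m
    rw [Pi.algebraMap_apply]
    exact isIntegral_algebraMap
  | add f g _ _ hf hg =>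
    intro m
    rw [Pi.add_apply]
    exact (hf m).add (hg m)
  | mul f g _ _ hf hg =>
    intro m
    rw [Pi.mul_apply]
    exact (hf m).mul (hg m)

theorem datum_sep (s t : M) (hst : s ≠ t) : ∃ f ∈ orderOf D, f s ≠ f t := by
  by_contra hne
  push Not at hne
  exact hst (D.separates s t fun f hf => hne f (Algebra.subset_adjoin hf))

theorem datum_preOrderHyp [Finite M] : PreOrderHyp ℓ M act (orderOf D) where
  act_one := datum_act_one D
  act_mul := datum_act_mul D
  equiv := datum_equiv D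
  fg := fg_of_equivariant_integral act (datum_act_one D) (datum_act_mul D) _ (datum_equiv D)
    (datum_integral D)
  sep := datum_sep D

/-- `f (s + t)` lies in the `Z̄_(ℓ)`-span of the image of `H ⊗ H`. -/
theorem datum_add_mem_span (f : M → Qb) (hf : f ∈ D.gens) :
    (fun st : M × M => f (st.1 + st.2)) ∈
      Submodule.span (Fermat.Agent.S19.Zb ℓ) (Set.range (mu (orderOf D))) := by
  set Λ : Submodule (Fermat.Agent.S19.Zb ℓ) (M × M → Qb) :=
    Submodule.span (Fermat.Agent.S19.Zb ℓ) (Set.range (mu (orderOf D))) with hΛ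
  have hone : (1 : M × M → Qb) ∈ Λ :=
    Submodule.subset_span ⟨1, map_one _⟩
  have hmul : ∀ x ∈ Λ, ∀ y ∈ Λ, x * y ∈ Λ := by
    intro x hx y hy
    have h1 : x * y ∈ Λ * Λ := Submodule.mul_mem_mul hx hy
    have h2 : Λ * Λ ≤ Λ := by
      rw [hΛ, Submodule.span_mul_span]
      apply Submodule.span_mono
      rintro _ ⟨_, ⟨a, rfl⟩, _, ⟨b, rfl⟩, rfl⟩
      exact ⟨a * b, map_mul _ _ _⟩
    exact h2 h1
  have key : ∀ g ∈ Algebra.adjoin (Fermat.Agent.S19.Zb ℓ) (Fermat.Agent.S19.coordFunctions D.gens),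
      g ∈ Λ := by
    intro g hg
    induction hg using Algebra.adjoin_induction with
    | mem g hg =>
      rcases hg with ⟨h, hh, rfl⟩ | ⟨h, hh, rfl⟩
      · refine Submodule.subset_span
          ⟨(⟨h, Algebra.subset_adjoin hh⟩ : ↥(orderOf D)) ⊗ₜ[ratLocalizedAt ℓ] 1, ?_⟩
        funext st
        rw [mu_tmul]
        simp
      · refine Submodule.subset_span
          ⟨(1 : ↥(orderOf D)) ⊗ₜ[ratLocalizedAt ℓ] ⟨h, Algebra.subset_adjoin hh⟩, ?_⟩
        funext st
        rw [mu_tmul]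
        simp
    | algebraMap r =>
      rw [Algebra.algebraMap_eq_smul_one]
      exact Λ.smul_mem r hone
    | add x y _ _ hx hy => exact Λ.add_mem hx hy
    | mul x y _ _ hx hy => exact hmul x hx y hy
  exact key _ (D.add_mem f hf)

variable [Finite M]

/-- (O3) for the generators: descent of the coefficients from `Z̄_(ℓ)` to `ℤ_(ℓ)`. -/
theorem datum_add_mem_range (f : M → Qb) (hf : f ∈ D.gens) :
    (fun st : M × M => f (st.1 + st.2)) ∈ (mu (orderOf D)).range := by
  have hpre := datum_preOrderHyp D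
  obtain ⟨κ, _, B, hB⟩ := hpre.isGood_val.box hpre.isGood_val
  rw [← mu_toLinearMap] at hB
  let e : κ → (M × M → Qb) := fun k => mu (orderOf D) (B k)
  have hBe : LinearIndependent Qb e := hB
  have he : ∀ k, IsEquivFun (act₂ act) (e k) := fun k => isEquivFun_mu _ (datum_equiv D) (B k)
  -- the diagonal action is an action
  have h1 : ∀ st : M × M, act₂ act 1 st = st := fun st =>
    Prod.ext (datum_act_one D st.1) (datum_act_one D st.2)
  have hm : ∀ (σ τ : GQ) (st : M × M), act₂ act (σ * τ) st = act₂ act σ (act₂ act τ st) :=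
    fun σ τ st => Prod.ext (datum_act_mul D σ τ st.1) (datum_act_mul D σ τ st.2)
  -- `F` is equivariant
  set F : M × M → Qb := fun st => f (st.1 + st.2) with hF
  have hFeq : IsEquivFun (act₂ act) F := by
    intro σ st
    show f (act σ st.1 + act σ st.2) = σ (f (st.1 + st.2))
    rw [← D.act_add, D.equivariant f hf]
  -- integral coefficients
  have hcoef : ∀ g ∈ Submodule.span (Fermat.Agent.S19.Zb ℓ) (Set.range (mu (orderOf D))),
      ∃ c : κ → Qb, (∀ k, IsIntegral (ratLocalizedAt ℓ) (c k)) ∧ g = ∑ k, c k • e k := by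
    intro g hg
    induction hg using Submodule.span_induction with
    | mem g hg =>
      obtain ⟨x, rfl⟩ := hg
      refine ⟨fun k => algebraMap (ratLocalizedAt ℓ) Qb (B.repr x k),
        fun k => isIntegral_algebraMap, ?_⟩
      conv_lhs => rw [← B.sum_repr x]
      rw [map_sum]
      refine Finset.sum_congr rfl fun k _ => ?_
      rw [map_smul, algebraMap_smul]
    | zero => exact ⟨fun _ => 0, fun _ => isIntegral_zero, by simp⟩
    | add x y _ _ hx hy =>
      obtain ⟨c, hc, rfl⟩ := hx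
      obtain ⟨c', hc', rfl⟩ := hy
      refine ⟨fun k => c k + c' k, fun k => (hc k).add (hc' k), ?_⟩
      simp only [add_smul, Finset.sum_add_distrib]
    | smul a x _ hx =>
      obtain ⟨c, hc, rfl⟩ := hx
      refine ⟨fun k => (a : Qb) * c k, fun k => a.2.mul (hc k), ?_⟩
      rw [Subalgebra.smul_def, Finset.smul_sum]
      refine Finset.sum_congr rfl fun k _ => ?_
      rw [smul_smul]
  obtain ⟨c, hc, hFc⟩ := hcoef F (datum_add_mem_span D f hf)
  obtain ⟨r, hr⟩ := coeff_int (act₂ act) h1 hm e he hBe F hFeq c hFc hc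
  refine (AlgHom.mem_range _).mpr ⟨∑ k, r k • B k, ?_⟩
  rw [hr, map_sum]
  refine Finset.sum_congr rfl fun k _ => ?_
  rw [map_smul]

/-- (O3) for all of `H`. -/
theorem datum_comul_mem_range : ∀ f ∈ orderOf D,
    (fun st : M × M => f (st.1 + st.2)) ∈ (mu (orderOf D)).range := by
  have hle : orderOf D ≤ Subalgebra.comap (pullAlg ℓ (fun st : M × M => st.1 + st.2))
      (mu (orderOf D)).range := by
    refine Algebra.adjoin_le ?_
    intro f hf
    exact datum_add_mem_range D f hf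
  exact fun f hf => hle hf

/-- The order of an order datum satisfies the hypotheses of piece ORD. -/
theorem datum_orderHyp : OrderHyp ℓ M act (orderOf D) where
  toPreOrderHyp := datum_preOrderHyp D
  act_zero := datum_act_zero D
  comul := by
    intro f hf
    obtain ⟨x, hx⟩ := (AlgHom.mem_range _).mp (datum_comul_mem_range D f hf)
    obtain ⟨n, a, b, ha, hb, hab⟩ := exists_sum_of_tensor (orderOf D) x
    refine ⟨n, a, b, ha, hb, fun s t => ?_⟩
    rw [← hab, hx]

end Datum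

/-- **ORD block.**  An order datum on a finite module gives a Hopf model. -/
theorem ord : Fermat.Agent.S19.OrdStatement := by
  intro ℓ _ M _ _ act hD
  obtain ⟨D⟩ := hD
  exact (datum_orderHyp D).hasFlatModel

end Fermat.Agent.A3.H619

end
end
-- ===== PACK-END A3/H619/OrdStatement.lean

-- ===== PACK-BEGIN A3/H799/Red195.lean
section



/-!
# A3 / LOCAL — integral Riemann–Roch for `GoodRed`  (helper799)

Adapter `GoodRed → H195.RedDatum` and the three facts used by ZTRI/ZNEG/COORD: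

* `GoodRed.ell_le`      : `ℓ(D) ≤ ℓ(r_* D)` (upper semicontinuity);
* `GoodRed.exists_lift` : for `deg D > 2g - 2` every element of `L(r_* D)` is the reduction of an
                          integral element of `L(D)`;
* `GoodRed.red_mem_L`   : the reduction of an integral element of `L(D)` lies in `L(r_* D)`.
-/

set_option autoImplicit false

noncomputable section

open AlgebraicCurve Fermat.Agent.Lib.RR

namespace Fermat.Agent.A3.H799

variable {K F k Fk : Type*} [Field K] [Field F] [Algebra K F] [Field k] [Field Fk] [Algebra k Fk]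

namespace GoodRed

variable (𝓡 : GoodRed K F k Fk)

theorem mem_V_of_algebraMap_mem {a : K} (h : algebraMap K F a ∈ 𝓡.O) : a ∈ 𝓡.V :=
  (𝓡.algebraMap_mem a).mp h

/-- The adapter to helper195's `RedDatum`. -/
def toRed195 : Fermat.Agent.S19.H195.RedDatum K F k Fk where
  V := 𝓡.O.toSubring
  red := 𝓡.red
  r := 𝓡.r
  const_total a := by
    rcases 𝓡.O.mem_or_inv_mem (algebraMap K F a) with h | h
    · exact Or.inl h
    · right
      rw [map_inv₀]
      exact h
  red_const a h := ⟨𝓡.res ⟨a, (𝓡.algebraMap_mem a).mp h⟩,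
    𝓡.red_algebraMap ⟨a, (𝓡.algebraMap_mem a).mp h⟩ h⟩
  red_const_surj b := by
    obtain ⟨a, ha⟩ := 𝓡.res_surjective b
    refine ⟨(a : K), (𝓡.algebraMap_mem _).mpr a.2, ?_⟩
    rw [← ha]
    exact 𝓡.red_algebraMap a _
  red_const_unit a h hne := by
    have haV : a ∈ 𝓡.V := (𝓡.algebraMap_mem a).mp h
    have h1 : 𝓡.res ⟨a, haV⟩ ≠ 0 := by
      intro h0
      apply hne
      have := 𝓡.red_algebraMap ⟨a, haV⟩ h
      rw [h0, map_zero] at this
      exact this
    have h2 : a ∉ 𝓡.V.nonunits := fun hn => h1 ((𝓡.res_eq_zero ⟨a, haV⟩).mpr hn)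
    have h3 : a⁻¹ ∈ 𝓡.V := by
      by_contra hinv
      apply h2
      rw [ValuationSubring.mem_nonunits_iff_exists_mem_maximalIdeal]
      refine ⟨haV, ?_⟩
      rw [IsLocalRing.mem_maximalIdeal, mem_nonunits_iff]
      rintro ⟨u, hu⟩
      apply hinv
      have h4 : ((u⁻¹ : 𝓡.Vˣ) : K) = a⁻¹ := by
        have h5 : ((u : 𝓡.V) : K) = a := congrArg Subtype.val hu
        have h6 : ((u : 𝓡.V) : K) * ((u⁻¹ : 𝓡.Vˣ) : K) = 1 := by
          exact_mod_cast congrArg Subtype.val (u.mul_inv)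
        rw [h5] at h6
        exact eq_inv_of_mul_eq_one_right h6
      rw [← h4]
      exact Subtype.mem _
    exact (𝓡.algebraMap_mem _).mpr h3
  ord_red u hu hne D hD Q := 𝓡.div_red ⟨u, hu⟩ hne D hD Q

/-- Every Riemann–Roch space has an orthonormal basis. -/
theorem orthOn (D : Divisor K F) : 𝓡.toRed195.OrthOn (riemannRochSpace D) := by
  obtain ⟨n, b, hli, hmem, hspan, -⟩ := 𝓡.orthonormal D
  exact ⟨n, fun i => ((b i : 𝓡.O) : F), fun i => (b i).2, hmem, hspan.ge, hli⟩

/-- Upper semicontinuity `ℓ(D) ≤ ℓ(r_* D)`. -/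
theorem ell_le (D : Divisor K F) :
    @ell K F _ _ _ D ≤ @ell k Fk _ _ _ (Finsupp.mapDomain 𝓡.r D) := by
  have := 𝓡.ff1
  have := 𝓡.ff1k
  exact 𝓡.toRed195.ell_le_ell_mapDomain D (𝓡.orthOn D)

/-- Reduction of divisors preserves the degree. -/
theorem degree_mapDomain (D : Divisor K F) :
    Divisor.degree (Finsupp.mapDomain 𝓡.r D) = Divisor.degree D := by
  have := 𝓡.ff1
  have := 𝓡.ff1k
  exact 𝓡.toRed195.degree_mapDomain D

/-- The reduction of an integral element of `L(D)` lies in `L(r_* D)`. -/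
theorem red_mem_L (D : Divisor K F) {f : F} (hf : f ∈ 𝓡.O) (hfD : f ∈ riemannRochSpace D) :
    𝓡.red ⟨f, hf⟩ ∈ riemannRochSpace (Finsupp.mapDomain 𝓡.r D) := by
  have := 𝓡.ff1
  exact 𝓡.toRed195.redL_le D (𝓡.toRed195.red_mem_redL hf hfD)

/-- **Integral Riemann–Roch (LIFT).** -/
theorem exists_lift (D : Divisor K F) (hD : 2 * (genusFF k Fk : ℤ) - 2 < Divisor.degree D)
    {ψ : Fk} (hψ : ψ ∈ riemannRochSpace (Finsupp.mapDomain 𝓡.r D)) :
    ∃ (f : F) (hf : f ∈ 𝓡.O), f ∈ riemannRochSpace D ∧ 𝓡.red ⟨f, hf⟩ = ψ := by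
  have := 𝓡.ff1
  have := 𝓡.ff1k
  have h := 𝓡.toRed195.redL_eq (le_of_eq 𝓡.genus_eq) D hD (𝓡.orthOn D)
  have hψ' : ψ ∈ 𝓡.toRed195.redL D := by
    rw [h]; exact hψ
  exact hψ'

end GoodRed

end Fermat.Agent.A3.H799

end
end
-- ===== PACK-END A3/H799/Red195.lean

-- ===== PACK-BEGIN A3/H255/Coord.lean
section




/-!
# A3 / LOCAL, leaf COORD (helper255): the kernel of reduction is the polydisc `(𝔪_V)^g`

`coordStatement : CoordStatement K F k Fk` (frozen leaf of `A3/H799/LocalSpec.lean`).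

Proof.  Let `E = polyDiv d 0`, `Ē = Σ Q_i = r_* E`, `ℓ_k(Ē) = 1`.
* existence: `x = [D₀]`, `r_* D₀ = div φ`.  Riemann on `F` gives `f ≠ 0` in `L(D₀ + E)`
  (`deg = g`, equal genus); normalise `f` by `gauss`; then `D' = D₀ + E + div f ≥ 0` and
  `r_* D' = Ē + div (φ · red f)` is effective, so `φ · red f ∈ L_k(Ē) = k`, `r_* D' = Ē`.  Hence
  over every `Q_i` there is a point `P_i` of `D'`; `D' - Σ P_i ≥ 0` has degree `0`, so
  `D' = Σ P_i`, and `P_i = pt_i (z_i)` by `pt_surj`.
* uniqueness: semicontinuity `ℓ(D) ≤ ℓ_k(r_* D)` (from `orthonormal` + `div_red`) gives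
  `ℓ(polyDiv d z) = 1`, so linearly equivalent polydisc divisors are equal; `pt_i` is injective
  by `ev_spec` for the parameter `t`.
* the converse is `r_* (polyDiv d z - polyDiv d 0) = 0`.

All proofs complete.
-/

set_option autoImplicit false
set_option linter.style.haveILetI false

noncomputable section

open AlgebraicCurve

namespace Fermat.Agent.A3.H255

open Fermat.Agent.Lib.RR Fermat.Agent.A3.H799

/-! ### Generalities on `Finsupp.mapDomain` -/

section MapDomain

variable {α β : Type*}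

open scoped Classical in
theorem mapDomain_apply_eq_sum (r : α → β) (D : α →₀ ℤ) (b : β) :
    Finsupp.mapDomain r D b = ∑ a ∈ D.support, if r a = b then D a else 0 := by
  rw [Finsupp.mapDomain, Finsupp.sum_apply, Finsupp.sum]
  refine Finset.sum_congr rfl fun a _ => ?_
  rw [Finsupp.single_apply]

theorem mapDomain_nonneg (r : α → β) {D : α →₀ ℤ} (hD : 0 ≤ D) :
    0 ≤ Finsupp.mapDomain r D := by
  classical
  rw [Finsupp.le_def]
  intro b
  rw [mapDomain_apply_eq_sum]
  refine Finset.sum_nonneg fun a _ => ?_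
  have := Finsupp.le_def.mp hD a
  split_ifs
  · simpa using this
  · exact le_rfl

theorem exists_of_mapDomain_ne_zero (r : α → β) {D : α →₀ ℤ} {b : β}
    (h : Finsupp.mapDomain r D b ≠ 0) : ∃ a, r a = b ∧ D a ≠ 0 := by
  classical
  by_contra hcon
  push Not at hcon
  apply h
  rw [mapDomain_apply_eq_sum]
  refine Finset.sum_eq_zero fun a _ => ?_
  split_ifs with hab
  · exact hcon a hab
  · rfl

theorem mapDomain_sub' (r : α → β) (D D' : α →₀ ℤ) :
    Finsupp.mapDomain r (D - D') = Finsupp.mapDomain r D - Finsupp.mapDomain r D' := by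
  rw [← Finsupp.mapDomain.addMonoidHom_apply, map_sub, Finsupp.mapDomain.addMonoidHom_apply,
    Finsupp.mapDomain.addMonoidHom_apply]

theorem mapDomain_sum_single {ι : Type*} [Fintype ι] (r : α → β) (P : ι → α) :
    Finsupp.mapDomain r (∑ i, Finsupp.single (P i) (1 : ℤ)) =
      ∑ i, Finsupp.single (r (P i)) (1 : ℤ) := by
  rw [Finsupp.mapDomain_finsetSum]
  refine Finset.sum_congr rfl fun i _ => ?_
  rw [Finsupp.mapDomain_single]

theorem sum_single_apply_of_injective {ι : Type*} [Fintype ι] {P : ι → α}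
    (hP : Function.Injective P) (i : ι) :
    (∑ j, Finsupp.single (P j) (1 : ℤ)) (P i) = 1 := by
  classical
  rw [Finsupp.finsetSum_apply]
  simp only [Finsupp.single_apply]
  rw [Finset.sum_eq_single i]
  · simp
  · intro j _ hji
    rw [if_neg]
    exact fun h => hji (hP h)
  · intro h
    exact absurd (Finset.mem_univ i) h

theorem sum_single_apply_of_forall_ne {ι : Type*} [Fintype ι] {P : ι → α} {a : α}
    (h : ∀ i, P i ≠ a) : (∑ j, Finsupp.single (P j) (1 : ℤ)) a = 0 := by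
  classical
  rw [Finsupp.finsetSum_apply]
  refine Finset.sum_eq_zero fun j _ => ?_
  rw [Finsupp.single_apply, if_neg (h j)]

theorem sum_single_nonneg {ι : Type*} [Fintype ι] (P : ι → α) :
    (0 : α →₀ ℤ) ≤ ∑ j, Finsupp.single (P j) (1 : ℤ) := by
  classical
  rw [Finsupp.le_def]
  intro a
  rw [Finsupp.finsetSum_apply]
  refine Finset.sum_nonneg fun j _ => ?_
  rw [Finsupp.single_apply]
  split_ifs <;> simp

theorem one_le_sum_single_apply {ι : Type*} [Fintype ι] (P : ι → α) (i : ι) :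
    1 ≤ (∑ j, Finsupp.single (P j) (1 : ℤ)) (P i) := by
  classical
  rw [Finsupp.finsetSum_apply]
  have h1 : (Finsupp.single (P i) (1 : ℤ)) (P i) ≤
      ∑ j, (Finsupp.single (P j) (1 : ℤ)) (P i) := by
    refine Finset.single_le_sum (f := fun j => (Finsupp.single (P j) (1 : ℤ)) (P i))
      (fun j _ => ?_) (Finset.mem_univ i)
    show 0 ≤ (Finsupp.single (P j) (1 : ℤ)) (P i)
    rw [Finsupp.single_apply]
    split_ifs <;> simp
  simpa using h1

end MapDomain

variable {K F k Fk : Type*} [Field K] [Field F] [Algebra K F] [Field k] [Field Fk] [Algebra k Fk]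

/-! ### Divisors of degree zero -/

/-- An effective divisor of degree `0` is `0`. -/
theorem eq_zero_of_nonneg_of_degree_eq_zero [FF1 K F] {D : Divisor K F} (hD : 0 ≤ D)
    (hdeg : Divisor.degree D = 0) : D = 0 := by
  rw [degree_eq_sum] at hdeg
  have h0 : ∀ v ∈ D.support, D v * (v.deg : ℤ) = 0 := by
    refine (Finset.sum_eq_zero_iff_of_nonneg fun v _ => ?_).mp hdeg
    have := Finsupp.le_def.mp hD v
    rw [deg_eq_one v]
    simpa using this
  ext v
  by_cases hv : v ∈ D.support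
  · have := h0 v hv
    rw [deg_eq_one v] at this
    simpa using this
  · simpa using Finsupp.notMem_support_iff.mp hv

theorem degree_sum_single [FF1 K F] {ι : Type*} [Fintype ι] (P : ι → Place K F) :
    Divisor.degree (∑ i, Finsupp.single (P i) (1 : ℤ)) = Fintype.card ι := by
  rw [map_sum]
  simp only [Divisor.degree_single, deg_eq_one, Nat.cast_one, mul_one]
  simp

/-! ### Reduction of principal divisors and semicontinuity -/

/-- Push-forward of the divisor of a function of norm one. -/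
theorem mapDomain_divOf (𝓡 : GoodRed K F k Fk) (f : 𝓡.O) (hred : 𝓡.red f ≠ 0)
    (D : Divisor K F) (hD : ∀ P : Place K F, D P = P.ord (f : F)) (Q : Place k Fk) :
    Finsupp.mapDomain 𝓡.r D Q = Q.ord (𝓡.red f) :=
  𝓡.div_red f hred D hD Q

/-- If `f ∈ L(D)` has norm one, then `red f ∈ L_k(r_* D)`. -/
theorem red_mem_L (𝓡 : GoodRed K F k Fk) (D : Divisor K F) (f : 𝓡.O) (hred : 𝓡.red f ≠ 0)
    (hf : (f : F) ∈ riemannRochSpace D) :
    𝓡.red f ∈ riemannRochSpace (Finsupp.mapDomain 𝓡.r D) := by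
  haveI := 𝓡.ff1
  have hf0 : (f : F) ≠ 0 := by
    intro h
    apply hred
    have : f = 0 := Subtype.ext h
    rw [this, map_zero]
  rw [mem_L_iff]
  intro Q
  right
  have h1 := mapDomain_divOf 𝓡 f hred (divOf (K := K) (f : F) hf0)
    (fun P => divOf_apply _ _ P) Q
  have h2 : (0 : Divisor K F) ≤ D + divOf (K := K) (f : F) hf0 := by
    rw [Finsupp.le_def]
    intro P
    have := (mem_L_iff.mp hf P).resolve_left hf0
    simp only [Finsupp.coe_zero, Pi.zero_apply, Finsupp.coe_add, Pi.add_apply, divOf_apply]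
    omega
  have h3 := Finsupp.le_def.mp (mapDomain_nonneg 𝓡.r h2) Q
  rw [Finsupp.mapDomain_add] at h3
  simp only [Finsupp.coe_zero, Pi.zero_apply, Finsupp.coe_add, Pi.add_apply] at h3
  omega

/-- **Semicontinuity**: `ℓ(D) ≤ ℓ_k(r_* D)`. -/
theorem ell_le_ell_mapDomain (𝓡 : GoodRed K F k Fk) (D : Divisor K F) :
    ell D ≤ ell (Finsupp.mapDomain 𝓡.r D) := by
  haveI := 𝓡.ff1
  haveI := 𝓡.ff1k
  obtain ⟨n, b, hli, hmem, hspan, -⟩ := 𝓡.orthonormal D
  have h1 : ell D ≤ n := by
    unfold ell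
    rw [← hspan]
    have := finrank_range_le_card (R := K) (fun i => ((b i : 𝓡.O) : F))
    simpa [Set.finrank] using this
  have h2 : n ≤ ell (Finsupp.mapDomain 𝓡.r D) := by
    have hmemk : ∀ i, 𝓡.red (b i) ∈ riemannRochSpace (Finsupp.mapDomain 𝓡.r D) :=
      fun i => red_mem_L 𝓡 D (b i) (hli.ne_zero i) (hmem i)
    let c : Fin n → riemannRochSpace (Finsupp.mapDomain 𝓡.r D) :=
      fun i => ⟨𝓡.red (b i), hmemk i⟩
    have hc : LinearIndependent k c := by
      apply LinearIndependent.of_comp (riemannRochSpace (Finsupp.mapDomain 𝓡.r D)).subtype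
      exact hli
    have := hc.fintype_card_le_finrank
    simpa [ell] using this
  exact h1.trans h2

/-! ### The polydisc divisors -/

section Poly

variable {𝓡 : GoodRed K F k Fk} {ι : Type*} [Fintype ι] {Qs : ι → Place k Fk}

theorem mapDomain_polyDiv (d : ∀ i, DiscData 𝓡 (Qs i))
    (z : ι → IsLocalRing.maximalIdeal 𝓡.V) :
    Finsupp.mapDomain 𝓡.r (polyDiv d z) = ∑ i, Finsupp.single (Qs i) (1 : ℤ) := by
  unfold polyDiv
  rw [mapDomain_sum_single]
  refine Finset.sum_congr rfl fun i _ => ?_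
  rw [(d i).r_pt]

theorem polyDiv_nonneg (d : ∀ i, DiscData 𝓡 (Qs i))
    (z : ι → IsLocalRing.maximalIdeal 𝓡.V) : 0 ≤ polyDiv d z :=
  sum_single_nonneg _

theorem degree_polyDiv (d : ∀ i, DiscData 𝓡 (Qs i))
    (z : ι → IsLocalRing.maximalIdeal 𝓡.V) :
    Divisor.degree (polyDiv d z) = Fintype.card ι := by
  haveI := 𝓡.ff1
  exact degree_sum_single _

/-- The points of a disc are determined by their parameter values. -/
theorem pt_injective {Q : Place k Fk} (d : DiscData 𝓡 Q) : Function.Injective d.pt := by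
  intro a a' h
  have h1 := d.ev_spec a d.D.t
  have h2 := d.ev_spec a' d.D.t
  rw [d.D.ev_t] at h1 h2
  rw [← h] at h2
  have b1 : H623.Big (d.pt a) 1 (((d.D.t : d.ring) : F) - algebraMap K F ((a : 𝓡.V) : K)) := by
    rcases h1 with h1 | h1
    · left; rw [h1, sub_self]
    · exact Or.inr h1
  have b2 : H623.Big (d.pt a) 1 (((d.D.t : d.ring) : F) - algebraMap K F ((a' : 𝓡.V) : K)) := by
    rcases h2 with h2 | h2
    · left; rw [h2, sub_self]
    · exact Or.inr h2
  have b3 := b2.sub b1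
  have e : ((d.D.t : d.ring) : F) - algebraMap K F ((a' : 𝓡.V) : K) -
      (((d.D.t : d.ring) : F) - algebraMap K F ((a : 𝓡.V) : K)) =
      algebraMap K F (((a : 𝓡.V) : K) - ((a' : 𝓡.V) : K)) := by
    rw [map_sub]; ring
  rw [e] at b3
  rcases b3 with h0 | h0
  · have : ((a : 𝓡.V) : K) - ((a' : 𝓡.V) : K) = 0 :=
      (map_eq_zero (algebraMap K F)).mp h0
    exact Subtype.ext (Subtype.ext (sub_eq_zero.mp this))
  · rw [ord_algebraMap] at h0
    omega

/-- Equal polydisc divisors have equal parameters. -/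
theorem polyDiv_injective (hQs : Function.Injective Qs) (d : ∀ i, DiscData 𝓡 (Qs i))
    {z z' : ι → IsLocalRing.maximalIdeal 𝓡.V} (h : polyDiv d z = polyDiv d z') : z = z' := by
  funext i
  apply pt_injective (d i)
  by_contra hne
  have h1 : 1 ≤ (polyDiv d z) ((d i).pt (z i)) :=
    one_le_sum_single_apply (fun j => (d j).pt (z j)) i
  have h2 : (polyDiv d z') ((d i).pt (z i)) = 0 := by
    apply sum_single_apply_of_forall_ne
    intro j hj
    have hr : Qs j = Qs i := by rw [← (d j).r_pt (z' j), hj, (d i).r_pt]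
    have hji : j = i := hQs hr
    subst hji
    exact hne hj.symm
  rw [h, h2] at h1
  omega

end Poly

/-! ### The leaf -/

section Leaf

variable (𝓡 : GoodRed K F k Fk) (Qs : Fin (genusFF k Fk) → Place k Fk)
  (hQs : Function.Injective Qs)
  (hell : @Lib.RR.ell k Fk _ _ _ (∑ i, Finsupp.single (Qs i) (1 : ℤ)) = 1)
  (d : ∀ i, DiscData 𝓡 (Qs i))

include hell in
/-- `ℓ(polyDiv d z) = 1`. -/
theorem ell_polyDiv (z : Fin (genusFF k Fk) → IsLocalRing.maximalIdeal 𝓡.V) :
    ell (polyDiv d z) = 1 := by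
  haveI := 𝓡.ff1
  have h1 := ell_le_ell_mapDomain 𝓡 (polyDiv d z)
  rw [_root_.Fermat.Agent.A3.H255.mapDomain_polyDiv, hell] at h1
  have h2 : ell (0 : Divisor K F) ≤ ell (polyDiv d z) := ell_mono (_root_.Fermat.Agent.A3.H255.polyDiv_nonneg d z)
  rw [ell_zero] at h2
  omega

/-- The converse direction: polydisc classes lie in the kernel of reduction. -/
theorem mem_kerRed_of_polyDiv (z : Fin (genusFF k Fk) → IsLocalRing.maximalIdeal 𝓡.V)
    (D : Divisor.degZero (K := K) (F := F))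
    (hD : (D : Divisor K F) = polyDiv d z - polyDiv d 0) : Pic0.mk D ∈ 𝓡.kerRed := by
  refine ⟨D, rfl, ?_⟩
  rw [hD, mapDomain_sub', _root_.Fermat.Agent.A3.H255.mapDomain_polyDiv, _root_.Fermat.Agent.A3.H255.mapDomain_polyDiv, sub_self]
  exact zero_mem _

include hQs hell in
/-- Uniqueness of the polydisc point. -/
theorem polyDiv_unique {z z' : Fin (genusFF k Fk) → IsLocalRing.maximalIdeal 𝓡.V}
    (h : polyDiv d z' - polyDiv d z ∈ Divisor.principal (K := K) (F := F)) : z = z' := by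
  haveI := 𝓡.ff1
  obtain ⟨u, hu0, hu⟩ := h
  have huL : u ∈ riemannRochSpace (polyDiv d z) := by
    rw [mem_L_iff]
    intro P
    right
    have h1 := hu P
    have h2 := Finsupp.le_def.mp (_root_.Fermat.Agent.A3.H255.polyDiv_nonneg d z') P
    simp only [Finsupp.coe_sub, Pi.sub_apply, Finsupp.coe_zero, Pi.zero_apply] at h1 h2
    omega
  have hL := H638.L_eq_range_of_ell_eq_one (_root_.Fermat.Agent.A3.H255.polyDiv_nonneg d z) (ell_polyDiv 𝓡 Qs hell d z)
  rw [hL] at huL
  obtain ⟨c, hc⟩ := huL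
  have hc' : u = algebraMap K F c := hc.symm
  apply polyDiv_injective hQs d
  ext P
  have h1 := hu P
  rw [hc', ord_algebraMap] at h1
  simp only [Finsupp.coe_sub, Pi.sub_apply] at h1
  omega

include hQs hell in
/-- Existence of the polydisc point. -/
theorem exists_polyDiv (x : Pic0 K F) (hx : x ∈ 𝓡.kerRed) :
    ∃ z : Fin (genusFF k Fk) → IsLocalRing.maximalIdeal 𝓡.V,
      ∃ D : Divisor.degZero (K := K) (F := F),
        (D : Divisor K F) = polyDiv d z - polyDiv d 0 ∧ Pic0.mk D = x := by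
  haveI := 𝓡.ff1
  haveI := 𝓡.ff1k
  obtain ⟨D₀, rfl, φ, hφ0, hφ⟩ := hx
  have hD₀ : Divisor.degree (D₀ : Divisor K F) = 0 := D₀.2
  -- a nonzero function in `L(D₀ + E)`
  have hdeg : (genusFF K F : ℤ) ≤ Divisor.degree ((D₀ : Divisor K F) + polyDiv d 0) := by
    rw [map_add, hD₀, degree_polyDiv, 𝓡.genus_eq]
    simp
  have h1 := riemann_inequality_genusFF (K := K) (F := F) ((D₀ : Divisor K F) + polyDiv d 0)
  have hpos : 0 < Module.finrank K (riemannRochSpace ((D₀ : Divisor K F) + polyDiv d 0)) := by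
    have h2 : Module.finrank K (riemannRochSpace ((D₀ : Divisor K F) + polyDiv d 0)) =
        ell ((D₀ : Divisor K F) + polyDiv d 0) := rfl
    have : (0 : ℤ) < (ell ((D₀ : Divisor K F) + polyDiv d 0) : ℤ) := by omega
    rw [h2]
    exact_mod_cast this
  obtain ⟨f₀, hf₀⟩ := Module.finrank_pos_iff_exists_ne_zero.mp hpos
  have hf₀F : (f₀ : F) ≠ 0 := fun h => hf₀ (Subtype.ext h)
  -- normalise
  obtain ⟨a, ha0, hmem, hred⟩ := 𝓡.gauss (f₀ : F) hf₀F
  have haF : algebraMap K F a ≠ 0 := (map_ne_zero (algebraMap K F)).mpr ha0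
  have hf0 : algebraMap K F a * (f₀ : F) ≠ 0 := mul_ne_zero haF hf₀F
  have hord : ∀ P : Place K F, P.ord (algebraMap K F a * (f₀ : F)) = P.ord (f₀ : F) := by
    intro P
    rw [P.ord_mul haF hf₀F, ord_algebraMap, zero_add]
  set Df : Divisor K F := divOf (K := K) (algebraMap K F a * (f₀ : F)) hf0 with hDf
  set D' : Divisor K F := (D₀ : Divisor K F) + polyDiv d 0 + Df with hD'
  have hD'0 : 0 ≤ D' := by
    rw [Finsupp.le_def]
    intro P
    have := (mem_L_iff.mp f₀.2 P).resolve_left hf₀F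
    simp only [hD', hDf, Finsupp.coe_zero, Pi.zero_apply, Finsupp.coe_add, Pi.add_apply,
      divOf_apply, hord] at this ⊢
    omega
  have hrDf : ∀ Q : Place k Fk, Finsupp.mapDomain 𝓡.r Df Q =
      Q.ord (𝓡.red ⟨algebraMap K F a * (f₀ : F), hmem⟩) :=
    fun Q => mapDomain_divOf 𝓡 ⟨_, hmem⟩ hred Df (fun P => divOf_apply _ _ P) Q
  have hrD' : ∀ Q : Place k Fk, Finsupp.mapDomain 𝓡.r D' Q =
      Q.ord φ + (∑ i, Finsupp.single (Qs i) (1 : ℤ)) Q +
        Q.ord (𝓡.red ⟨algebraMap K F a * (f₀ : F), hmem⟩) := by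
    intro Q
    rw [hD', Finsupp.mapDomain_add, Finsupp.mapDomain_add, _root_.Fermat.Agent.A3.H255.mapDomain_polyDiv]
    simp only [Finsupp.coe_add, Pi.add_apply]
    rw [hrDf Q, hφ Q]
  -- `φ · red f` is a constant
  have hcL : φ * 𝓡.red ⟨algebraMap K F a * (f₀ : F), hmem⟩ ∈
      riemannRochSpace (∑ i, Finsupp.single (Qs i) (1 : ℤ)) := by
    rw [mem_L_iff]
    intro Q
    right
    rw [Q.ord_mul hφ0 hred]
    have h3 := Finsupp.le_def.mp (mapDomain_nonneg 𝓡.r hD'0) Q
    rw [hrD' Q] at h3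
    simp only [Finsupp.coe_zero, Pi.zero_apply] at h3
    omega
  rw [H638.L_eq_range_of_ell_eq_one (sum_single_nonneg _) hell] at hcL
  obtain ⟨c, hc⟩ := hcL
  have hc0 : c ≠ 0 := by
    intro h0
    have hc' : algebraMap k Fk c = φ * 𝓡.red ⟨algebraMap K F a * (f₀ : F), hmem⟩ := hc
    rw [h0, map_zero] at hc'
    exact mul_ne_zero hφ0 hred hc'.symm
  have hsum0 : ∀ Q : Place k Fk,
      Q.ord φ + Q.ord (𝓡.red ⟨algebraMap K F a * (f₀ : F), hmem⟩) = 0 := by
    intro Q
    rw [← Q.ord_mul hφ0 hred]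
    have hc' : algebraMap k Fk c = φ * 𝓡.red ⟨algebraMap K F a * (f₀ : F), hmem⟩ := hc
    rw [← hc', ord_algebraMap]
  -- a point of `D'` over every `Q_i`
  have hP : ∀ i, ∃ P : Place K F, 𝓡.r P = Qs i ∧ 1 ≤ D' P := by
    intro i
    have h3 : Finsupp.mapDomain 𝓡.r D' (Qs i) ≠ 0 := by
      rw [hrD' (Qs i)]
      have := one_le_sum_single_apply Qs i
      have := hsum0 (Qs i)
      omega
    obtain ⟨P, hP1, hP2⟩ := exists_of_mapDomain_ne_zero 𝓡.r h3
    refine ⟨P, hP1, ?_⟩
    have := Finsupp.le_def.mp hD'0 P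
    simp only [Finsupp.coe_zero, Pi.zero_apply] at this
    omega
  choose P hPr hPD using hP
  have hPinj : Function.Injective P := fun i j h => hQs (by rw [← hPr i, ← hPr j, h])
  -- `D' = Σ P_i`
  have hD'eq : D' = ∑ i, Finsupp.single (P i) (1 : ℤ) := by
    have hnn : 0 ≤ D' - ∑ i, Finsupp.single (P i) (1 : ℤ) := by
      rw [Finsupp.le_def]
      intro P'
      simp only [Finsupp.coe_zero, Pi.zero_apply, Finsupp.coe_sub, Pi.sub_apply]
      by_cases hex : ∃ i, P i = P'
      · obtain ⟨i, rfl⟩ := hex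
        rw [sum_single_apply_of_injective hPinj i]
        have := hPD i
        omega
      · push Not at hex
        rw [sum_single_apply_of_forall_ne hex]
        have := Finsupp.le_def.mp hD'0 P'
        simpa using this
    have hdeg0 : Divisor.degree (D' - ∑ i, Finsupp.single (P i) (1 : ℤ)) = 0 := by
      rw [map_sub, degree_sum_single, hD', map_add, map_add, hD₀, degree_polyDiv, hDf,
        degree_divOf]
      simp
    have := eq_zero_of_nonneg_of_degree_eq_zero hnn hdeg0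
    exact sub_eq_zero.mp this
  -- the parameters
  have hz : ∀ i, ∃ b, (d i).pt b = P i := fun i => (d i).pt_surj (P i) (hPr i)
  choose z hz using hz
  have hpoly : polyDiv d z = D' := by
    rw [hD'eq]
    unfold polyDiv
    refine Finset.sum_congr rfl fun i _ => ?_
    rw [hz i]
  have hdegz : Divisor.degree (polyDiv d z - polyDiv d 0) = 0 := by
    rw [map_sub, degree_polyDiv, degree_polyDiv, sub_self]
  refine ⟨z, ⟨polyDiv d z - polyDiv d 0, hdegz⟩, rfl, ?_⟩
  -- the class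
  show (QuotientAddGroup.mk _ : Pic0 K F) = QuotientAddGroup.mk _
  rw [QuotientAddGroup.eq, AddSubgroup.mem_addSubgroupOf]
  refine ⟨(algebraMap K F a * (f₀ : F))⁻¹, inv_ne_zero hf0, fun v => ?_⟩
  rw [v.ord_inv]
  have e : (((-(⟨polyDiv d z - polyDiv d 0, hdegz⟩ : Divisor.degZero (K := K) (F := F)) + D₀ :
      Divisor.degZero (K := K) (F := F)) : Divisor K F)) =
      -(polyDiv d z - polyDiv d 0) + (D₀ : Divisor K F) := rfl
  rw [e, hpoly, hD']
  simp only [Finsupp.coe_add, Finsupp.coe_neg, Finsupp.coe_sub, Pi.add_apply, Pi.neg_apply,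
    Pi.sub_apply, hDf, divOf_apply]
  ring

end Leaf

/-- **COORD**: the frozen leaf `CoordStatement` of `A3/H799/LocalSpec.lean`. -/
theorem coordStatement : CoordStatement K F k Fk := by
  intro 𝓡 Qs hQs hell d
  refine ⟨fun x hx => ?_, fun z D hD => mem_kerRed_of_polyDiv 𝓡 Qs d z D hD⟩
  obtain ⟨z, D, hD, hDx⟩ := exists_polyDiv 𝓡 Qs hQs hell d x hx
  refine ⟨z, ⟨D, hD, hDx⟩, ?_⟩
  rintro z' ⟨D', hD', hD'x⟩
  symm
  apply polyDiv_unique 𝓡 Qs hQs hell d
  -- `D' - D` is principal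
  have h1 : Pic0.mk D = Pic0.mk D' := by rw [hDx, hD'x]
  have h2 : (QuotientAddGroup.mk D : Pic0 K F) = QuotientAddGroup.mk D' := h1
  rw [QuotientAddGroup.eq, AddSubgroup.mem_addSubgroupOf] at h2
  have e : ((-D + D' : Divisor.degZero (K := K) (F := F)) : Divisor K F) =
      polyDiv d z' - polyDiv d z := by
    show -(D : Divisor K F) + (D' : Divisor K F) = _
    rw [hD, hD']
    abel
  rwa [e] at h2

end Fermat.Agent.A3.H255

end
end
-- ===== PACK-END A3/H255/Coord.lean

-- ===== PACK-BEGIN A3/H255/Nsp.lean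
section



/-!
# A3 / LOCAL, leaf NSP (helper255): non-special reduced divisors on the special fibre

`nspStatement : NspStatement k Fk` (frozen leaf of `A3/H799/LocalSpec.lean`), from
`exists_reduced_nonspecial` (`S19/H255/NSP.lean`, on `Lib/RR/H638`).  Also the version avoiding a
finite set of places.

All proofs complete.
-/

set_option autoImplicit false
set_option linter.style.haveILetI false

noncomputable section

open AlgebraicCurve

namespace Fermat.Agent.A3.H255

open Fermat.Agent.Lib.RR Fermat.Agent.A3.H799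

variable {k Fk : Type*} [Field k] [Field Fk] [Algebra k Fk]

/-- `g` distinct places outside a finite set `S` with `ℓ(Σ Q_i) = 1`, as a family. -/
theorem exists_nonspecial_family [FF1 k Fk] [Infinite k] (S : Finset (Place k Fk)) :
    ∃ Qs : Fin (genusFF k Fk) → Place k Fk, Function.Injective Qs ∧ (∀ i, Qs i ∉ S) ∧
      ell (∑ i, Finsupp.single (Qs i) (1 : ℤ)) = 1 := by
  classical
  obtain ⟨T, hcard, hdisj, hell⟩ := Fermat.Agent.S19.H255.exists_reduced_nonspecial S
  let e : Fin (genusFF k Fk) ≃ T := (T.equivFinOfCardEq hcard).symm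
  refine ⟨fun i => (e i : Place k Fk), ?_, ?_, ?_⟩
  · intro i j h
    exact e.injective (Subtype.ext h)
  · intro i hi
    exact (Finset.disjoint_left.mp hdisj) (e i).2 hi
  · have h1 : (∑ i, Finsupp.single ((e i : T) : Place k Fk) (1 : ℤ)) = H638.divT T := by
      unfold H638.divT prim
      rw [Equiv.sum_comp e (fun v : T => Finsupp.single (v : Place k Fk) (1 : ℤ))]
      exact Finset.sum_coe_sort T (fun v => Finsupp.single v (1 : ℤ))
    rw [h1]
    exact hell

/-- **NSP**: the frozen leaf `NspStatement` of `A3/H799/LocalSpec.lean`. -/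
theorem nspStatement : NspStatement k Fk := by
  intro _ _
  haveI : Infinite k := IsAlgClosed.instInfinite
  obtain ⟨Qs, hinj, -, hell⟩ := exists_nonspecial_family (k := k) (Fk := Fk) ∅
  exact ⟨Qs, hinj, hell⟩

end Fermat.Agent.A3.H255

end
end
-- ===== PACK-END A3/H255/Nsp.lean

-- ===== PACK-BEGIN S19/H195/GoodRedD12.lean
section



/-!
# A3 / LOCAL D1–D2 for the frozen interface `GoodRed` (helper195)

`GoodRed K F k Fk` (architect helper799, `Fermat/Agent/A3/H799/GoodRed.lean`) is converted into the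
lighter `RedDatum` of `RedDatum.lean`, and the results D1–D2 of the LOCAL plan
(origin/helper979:coord/A3-helper979.md §3) are stated for `GoodRed`:

* `GoodRed.max_principle`   **D1**: `f ∈ O` without poles in the residue disc of `P`, `f(P) = c`
  ⟹ `c ∈ V` and `(red f)(r P) = res c`;
* `GoodRed.r_surjective`    **D2**: `r` is onto;
* `GoodRed.sp`              **D2**: specialisation `Pic0 K F →+ Pic0 k Fk`, `sp [D] = [r_* D]`;
* `GoodRed.ell_le`          **D2**: `ℓ(D) ≤ ℓ(r_* D)`;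
* `GoodRed.exists_lift`     **D2**: for `deg D > 2g - 2` every element of `L(r_* D)` is the
  reduction of an element of `L(D) ∩ O`;  `GoodRed.ell_eq`: then `ℓ(D) = ℓ(r_* D)`;
* `GoodRed.exists_lattice_basis`  orthonormal basis of `L(D)` reducing to a basis of `L(r_* D)`,
  with the lattice property (`L(D) ∩ O = ⊕ V wᵢ`).
-/

set_option autoImplicit false

noncomputable section

open AlgebraicCurve Fermat.Agent.Lib.RR

namespace Fermat.Agent.S19.H195

open Fermat.Agent.A3.H799

universe u₁ u₂ u₃ u₄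

variable {K : Type u₁} {F : Type u₂} {k : Type u₃} {Fk : Type u₄}
  [Field K] [Field F] [Algebra K F] [Field k] [Field Fk] [Algebra k Fk]

/-- The `RedDatum` underlying a `GoodRed`. -/
def ofGoodRed (𝓡 : GoodRed K F k Fk) : RedDatum K F k Fk where
  V := 𝓡.O.toSubring
  red := 𝓡.red
  r := 𝓡.r
  const_total := fun a => by
    rcases 𝓡.O.mem_or_inv_mem (algebraMap K F a) with h | h
    · exact Or.inl h
    · right
      rw [map_inv₀]
      exact h
  red_const := fun a h =>
    ⟨𝓡.res ⟨a, (𝓡.algebraMap_mem a).mp h⟩, 𝓡.red_algebraMap ⟨a, (𝓡.algebraMap_mem a).mp h⟩ h⟩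
  red_const_surj := fun b => by
    obtain ⟨a, ha⟩ := 𝓡.res_surjective b
    have h : algebraMap K F (a : K) ∈ 𝓡.O := (𝓡.algebraMap_mem a).mpr a.2
    exact ⟨a, h, by rw [← ha]; exact 𝓡.red_algebraMap a h⟩
  red_const_unit := fun a h hne => by
    have haV : a ∈ 𝓡.V := (𝓡.algebraMap_mem a).mp h
    have hres : 𝓡.res ⟨a, haV⟩ ≠ 0 := by
      intro h0
      apply hne
      have := 𝓡.red_algebraMap ⟨a, haV⟩ h
      rw [h0, map_zero] at this
      exact this
    have hnu : a ∉ 𝓡.V.nonunits := fun hn => hres ((𝓡.res_eq_zero ⟨a, haV⟩).mpr hn)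
    rw [ValuationSubring.mem_nonunits_iff_exists_mem_maximalIdeal] at hnu
    have hunit : IsUnit (⟨a, haV⟩ : 𝓡.V) := by
      by_contra hnot
      exact hnu ⟨haV, (IsLocalRing.mem_maximalIdeal _).mpr hnot⟩
    obtain ⟨u, hu⟩ := hunit
    have hinv : a⁻¹ ∈ 𝓡.V := by
      have h1 : ((u⁻¹ : (𝓡.V)ˣ) : 𝓡.V) * ⟨a, haV⟩ = 1 := by
        rw [← hu]; exact Units.inv_mul u
      have h2 : (((u⁻¹ : (𝓡.V)ˣ) : 𝓡.V) : K) * a = 1 := congrArg Subtype.val h1
      have ha0 : a ≠ 0 := by
        rintro rfl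
        rw [mul_zero] at h2
        exact zero_ne_one h2
      have h3 : a⁻¹ = (((u⁻¹ : (𝓡.V)ˣ) : 𝓡.V) : K) :=
        (eq_inv_of_mul_eq_one_left h2).symm
      rw [h3]
      exact Subtype.mem _
    exact (𝓡.algebraMap_mem a⁻¹).mpr hinv
  ord_red := fun u hu hne D hD Q => 𝓡.div_red ⟨u, hu⟩ hne D hD Q


namespace GoodRedLemmas

variable (𝓡 : GoodRed K F k Fk)

/-- The scaling axiom of `RedDatum` lemmas, from `gauss`. -/
theorem hscale : ∀ f : F, f ≠ 0 → ∃ c : K, c ≠ 0 ∧
    ∃ h : algebraMap K F c * f ∈ (ofGoodRed 𝓡).V, (ofGoodRed 𝓡).red ⟨_, h⟩ ≠ 0 :=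
  fun f hf => 𝓡.gauss f hf

/-- Every Riemann–Roch space has an orthonormal basis. -/
theorem orthOn (D : Divisor K F) : (ofGoodRed 𝓡).OrthOn (riemannRochSpace D) := by
  obtain ⟨n, b, hli, hmem, hspan, -⟩ := 𝓡.orthonormal D
  exact ⟨n, fun i => ((b i : 𝓡.O) : F), fun i => (b i).2, hmem, hspan.ge, hli⟩

/-- **D1, maximum principle.** -/
theorem max_principle (P : Place K F) (f : 𝓡.O)
    (hreg : ∀ Q, 𝓡.r Q = 𝓡.r P → 0 ≤ Q.ord (f : F)) {c : K}
    (hc : (f : F) - algebraMap K F c = 0 ∨ 0 < P.ord ((f : F) - algebraMap K F c)) :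
    ∃ hcV : c ∈ 𝓡.V,
      𝓡.red f - algebraMap k Fk (𝓡.res ⟨c, hcV⟩) = 0 ∨
        0 < (𝓡.r P).ord (𝓡.red f - algebraMap k Fk (𝓡.res ⟨c, hcV⟩)) := by
  have := 𝓡.ff1
  obtain ⟨hcO, h⟩ := (ofGoodRed 𝓡).max_principle P f.2 hreg hc
  have hcV : c ∈ 𝓡.V := (𝓡.algebraMap_mem c).mp hcO
  refine ⟨hcV, ?_⟩
  have h1 : (ofGoodRed 𝓡).red ⟨_, hcO⟩ = algebraMap k Fk (𝓡.res ⟨c, hcV⟩) :=
    𝓡.red_algebraMap ⟨c, hcV⟩ hcO
  rw [h1] at h
  exact h

/-- **D2**: `r` is onto. -/
theorem r_surjective : Function.Surjective 𝓡.r := by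
  have := 𝓡.ff1
  exact (ofGoodRed 𝓡).r_surjective 𝓡.red_surjective

/-- **D2**: principal divisors specialise to principal divisors. -/
theorem mapDomain_mem_principal {D : Divisor K F}
    (hD : D ∈ Divisor.principal (K := K) (F := F)) :
    Finsupp.mapDomain 𝓡.r D ∈ Divisor.principal (K := k) (F := Fk) :=
  (ofGoodRed 𝓡).mapDomain_mem_principal (hscale 𝓡) hD

/-- **D2**: reduction preserves degrees. -/
theorem degree_mapDomain (D : Divisor K F) :
    Divisor.degree (Finsupp.mapDomain 𝓡.r D) = Divisor.degree D := by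
  have := 𝓡.ff1
  have := 𝓡.ff1k
  exact (ofGoodRed 𝓡).degree_mapDomain D

/-- **D2**: the specialisation homomorphism `sp : Pic0 K F →+ Pic0 k Fk`. -/
def sp : Pic0 K F →+ Pic0 k Fk :=
  haveI := 𝓡.ff1
  haveI := 𝓡.ff1k
  (ofGoodRed 𝓡).sp (hscale 𝓡)

theorem sp_mk (D : Divisor.degZero (K := K) (F := F)) :
    ((sp 𝓡 (Pic0.mk D) : Pic0 k Fk)) =
      Pic0.mk ⟨Finsupp.mapDomain 𝓡.r (D : Divisor K F), by
        rw [Divisor.mem_degZero, degree_mapDomain]; exact D.2⟩ := rfl

/-- **D2**: `red (L(D) ∩ O) ⊆ L(r_* D)`. -/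
theorem red_mem (D : Divisor K F) (f : 𝓡.O) (hf : (f : F) ∈ riemannRochSpace D) :
    𝓡.red f ∈ riemannRochSpace (Finsupp.mapDomain 𝓡.r D) := by
  have := 𝓡.ff1
  exact (ofGoodRed 𝓡).redL_le D ((ofGoodRed 𝓡).red_mem_redL f.2 hf)

/-- **D2, semicontinuity**: `ℓ(D) ≤ ℓ(r_* D)`. -/
theorem ell_le (D : Divisor K F) :
    haveI := 𝓡.ff1
    haveI := 𝓡.ff1k
    ell D ≤ ell (Finsupp.mapDomain 𝓡.r D) := by
  have := 𝓡.ff1
  have := 𝓡.ff1k
  exact (ofGoodRed 𝓡).ell_le_ell_mapDomain D (orthOn 𝓡 D)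

/-- **D2, integral Riemann–Roch**: for `deg D > 2g - 2` every element of `L(r_* D)` is the
reduction of an integral function of `L(D)`. -/
theorem exists_lift (D : Divisor K F) (hD : 2 * (genusFF k Fk : ℤ) - 2 < Divisor.degree D)
    (g : Fk) (hg : g ∈ riemannRochSpace (Finsupp.mapDomain 𝓡.r D)) :
    ∃ f : 𝓡.O, (f : F) ∈ riemannRochSpace D ∧ 𝓡.red f = g := by
  have := 𝓡.ff1
  have := 𝓡.ff1k
  have hg' : g ∈ (ofGoodRed 𝓡).redL D := by
    rw [(ofGoodRed 𝓡).redL_eq 𝓡.genus_eq.le D hD (orthOn 𝓡 D)]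
    exact hg
  obtain ⟨f, hf, hfD, rfl⟩ := hg'
  exact ⟨⟨f, hf⟩, hfD, rfl⟩

/-- **D2**: for `deg D > 2g - 2`, `ℓ(D) = ℓ(r_* D) = deg D + 1 - g`. -/
theorem ell_eq (D : Divisor K F) (hD : 2 * (genusFF k Fk : ℤ) - 2 < Divisor.degree D) :
    haveI := 𝓡.ff1
    haveI := 𝓡.ff1k
    ell D = ell (Finsupp.mapDomain 𝓡.r D) ∧
      (ell D : ℤ) = Divisor.degree D + 1 - (genusFF k Fk : ℤ) := by
  have := 𝓡.ff1
  have := 𝓡.ff1k
  exact (ofGoodRed 𝓡).ell_eq 𝓡.genus_eq.le D hD (orthOn 𝓡 D)

/-- **Lattice property** of an orthonormal family: if `∑ cᵢ bᵢ ∈ O` and the `red bᵢ` are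
`k`-independent, then all `cᵢ ∈ V`. -/
theorem coeff_mem {ι : Type*} (b : ι → 𝓡.O) (hli : LinearIndependent k (fun i => 𝓡.red (b i)))
    (s : Finset ι) (c : ι → K) (hf : ∑ i ∈ s, c i • ((b i : 𝓡.O) : F) ∈ 𝓡.O) :
    ∀ i ∈ s, c i ∈ 𝓡.V := fun i hi =>
  (𝓡.algebraMap_mem (c i)).mp
    ((ofGoodRed 𝓡).coeff_mem_of_red (fun i => ((b i : 𝓡.O) : F)) (fun i => (b i).2) hli s c hf i hi)

/-- **D2, basis form**: for `deg D > 2g - 2` there is a `K`-basis of `L(D)` in `O` whose
reductions form a `k`-basis of `L(r_* D)`, and `L(D) ∩ O = ⊕ V wᵢ`. -/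
theorem exists_lattice_basis (D : Divisor K F)
    (hD : 2 * (genusFF k Fk : ℤ) - 2 < Divisor.degree D) :
    ∃ (n : ℕ) (w : Fin n → 𝓡.O), (∀ i, ((w i : 𝓡.O) : F) ∈ riemannRochSpace D) ∧
      LinearIndependent K (fun i => ((w i : 𝓡.O) : F)) ∧
      Submodule.span K (Set.range fun i => ((w i : 𝓡.O) : F)) = riemannRochSpace D ∧
      LinearIndependent k (fun i => 𝓡.red (w i)) ∧
      Submodule.span k (Set.range fun i => 𝓡.red (w i))
        = riemannRochSpace (Finsupp.mapDomain 𝓡.r D) ∧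
      ∀ f : 𝓡.O, (f : F) ∈ riemannRochSpace D →
        ∃ c : Fin n → 𝓡.V, (f : F) = ∑ i, ((c i : 𝓡.V) : K) • ((w i : 𝓡.O) : F) := by
  have := 𝓡.ff1
  have := 𝓡.ff1k
  obtain ⟨w, hw, h1, h2, h3, h4, h5, h6⟩ :=
    (ofGoodRed 𝓡).exists_lattice_basis 𝓡.genus_eq.le D hD (orthOn 𝓡 D)
  refine ⟨_, fun i => ⟨w i, hw i⟩, h1, h2, h3, h4, h5, fun f hf => ?_⟩
  obtain ⟨c, hc, hfc⟩ := h6 f hf f.2
  exact ⟨fun i => ⟨c i, (𝓡.algebraMap_mem (c i)).mp (hc i)⟩, hfc⟩

end GoodRedLemmas

end Fermat.Agent.S19.H195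

end
end
-- ===== PACK-END S19/H195/GoodRedD12.lean

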