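import Mathlib
import Fermat.Prelude.Def_CuspForm_HeckeLocal
import Fermat.Agent.Pack.S44C.G0E19L1
import Fermat.Agent.Pack.S43MC.G0E22L3
import Fermat.Agent.Pack.S44C.G0E25L2
import Fermat.Agent.Pack.S44C.G0E20L2
import Fermat.Agent.Pack.S43MC.G0E9L1
import Fermat.Agent.Pack.S43MC.G0E22L1
import Fermat.Agent.Pack.S43MC.G0E5L3
import Fermat.Agent.Pack.S44C.G0E15L0
import Fermat.Agent.Pack.S44C.G0E8L3
import Fermat.Agent.Pack.S44C.G0E21L0
import Fermat.Agent.Pack.S43MC.G0E12L1
import Fermat.Agent.Pack.S43MC.G0E22L0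
import Fermat.Agent.Pack.S43MC.G0E7L2
import Fermat.Agent.Pack.S44C.G0E23L2
import Fermat.Agent.Pack.S44C.G0E24L1
import Fermat.Agent.Pack.S44C.G0E9L0
import Fermat.Agent.Pack.S43MC.G0E18L2
import Fermat.Agent.Pack.S44C.G0E25L1
import Fermat.Agent.Pack.S44C.G1E0L0
import Fermat.Agent.Pack.S43MC.G0E19L0
import Fermat.Agent.Pack.S43GC.G0E13L3
import Fermat.Agent.Pack.S43MC.G0E17L0
import Fermat.Agent.Pack.S44C.G0E24L3
import Fermat.Agent.Pack.S43GC.G0E5L0
import Fermat.Agent.Pack.S43MC.G0E12L2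
import Fermat.Agent.Pack.S43GC.G0E9L0
import Fermat.Agent.Pack.S43GC.G0E19L2
import Fermat.Agent.Pack.S43MC.G0E22L2
import Fermat.Agent.Pack.Fast891

-- ===== PACK-BEGIN A2/H876/D2Wall.lean
section



/-!
# A2 / D2 in the exact shape of `Top.H994.Wall` (helper876)

* `d2Statement : Top.H994.D2Statement` (verbatim; discharges the hypothesis `hD2` of
  `Top.H994.kummerTarget_all` and `Top.H994.wall`);
* `kummerTarget_all`, `wall` : the same theorems with `hD2` removed:
  `AlgSSStatement → IFStatement → ModSSGoodStatement → Target N q m` for all `q ‖ N`, `q ∤ m`.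
-/

set_option autoImplicit false
set_option linter.style.haveILetI false

noncomputable section

namespace Fermat.Agent.A2.H876

open Fermat.Agent.A2 Fermat.Agent.A2.Top.H994

/-- **D2**, verbatim statement of `Top.H994.Wall`. -/
theorem d2Statement : D2Statement := by
  intro N q m _hq _hqN _hq2 hN _hm hqm h
  haveI : NeZero N := ⟨hN⟩
  exact kummerTarget_aux N q m hqm h

/-- The Kummer form of the wall for all `q`, from ALG, IF and MOD at the ready levels. -/
theorem kummerTarget_all (hALG : AlgSSStatement) (hIF : IFStatement)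
    (hMOD : ModSSGoodStatement)
    (N q m : ℕ) (hq : q.Prime) (hqN : q ∣ N) (hq2 : ¬ q ^ 2 ∣ N) (hN : N ≠ 0) (hm : 0 < m)
    (hqm : ¬ q ∣ m) : KummerTarget N q m :=
  Top.H994.kummerTarget_all hALG hIF hMOD d2Statement N q m hq hqN hq2 hN hm hqm

/-- **The wall A2 for all `q`**, from ALG, IF and MOD at the ready levels. -/
theorem wall (hALG : AlgSSStatement) (hIF : IFStatement) (hMOD : ModSSGoodStatement)
    (N q m : ℕ) (hq : q.Prime) (hqN : q ∣ N) (hq2 : ¬ q ^ 2 ∣ N) (hN : N ≠ 0) (hm : 0 < m)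
    (hqm : ¬ q ∣ m) : Target N q m :=
  Top.H994.wall hALG hIF hMOD d2Statement N q m hq hqN hq2 hN hm hqm

end Fermat.Agent.A2.H876

end
end
-- ===== PACK-END A2/H876/D2Wall.lean

-- ===== PACK-BEGIN S35/G/H558/Surj.lean
section



/-!
# S35 / (G') leaf NODE-RAT, step (e) (helper558): `B = α(B_M) + p∞`

The chart `B = chartAlg y` of level `M q` (`y = x` or `x⁻¹`, `x = j · j_q`) is generated modulo
the component `p∞ = B ∩ w V∞` by the image under `α` of the level-`M` chart `B_M = chartAlg y_M`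
(`y_M = j` resp. `j⁻¹`):

* `exists_map_sub_of_normal` : abstract form (the proof of `A2.Mod.H142.normalIn_transfer`,
                               keeping the witness `γ b₀`);
* `surj_side`                : chart form (hypotheses of `A2.Mod.H142.normal_side`);
* `surj_inf`                 : `∀ b ∈ B, ∃ a ∈ B_M, b - α a ∈ w V∞`, from L11 (`ResInf`) and
                               good reduction at level `M`.
-/

set_option autoImplicit false
set_option synthInstance.maxHeartbeats 400000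
set_option maxHeartbeats 1600000
set_option linter.unusedSectionVars false
set_option linter.style.haveILetI false

noncomputable section

namespace Fermat.Agent.S35.G.H558

open ModularCurve HahnSeries Polynomial
open Fermat.Agent.A2.Mod

section Transfer

variable {R F₀ F : Type*} [CommRing R] [Field F₀] [Field F] [Algebra R F₀] [Algebra R F]

/-- The proof of `H142.normalIn_transfer`, keeping the witness: every element of `B` is
congruent modulo `𝔪_V` to `γ b₀` with `b₀ ∈ B₀`. -/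
theorem exists_map_sub_of_normal (γ : F₀ →+* F)
    (V₀ : ValuationSubring F₀) (V : ValuationSubring F)
    (hγV : ∀ g ∈ V₀, γ g ∈ V)
    (hγp : ∀ g : F₀, V₀.valuation g < 1 → V.valuation (γ g) < 1)
    (B₀ : Subalgebra R F₀) (B : Subalgebra R F)
    (hB₀ : ∀ b ∈ B₀, b ∈ V₀) (hB : ∀ b ∈ B, b ∈ V)
    (hγB : ∀ b ∈ B₀, γ b ∈ B)
    (hres : ∀ f ∈ V, ∃ g ∈ V₀, V.valuation (f - γ g) < 1)
    (hint : ∀ b : B, ((H142.resMap V B hB).comp (H142.mapSub γ B₀ B hγB)).IsIntegralElem
      (H142.resMap V B hB b))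
    (hnorm₀ : H142.NormalIn V₀ (B₀ : Set F₀)) {f : F} (hf : f ∈ B) :
    ∃ b₀ ∈ B₀, V.valuation (f - γ b₀) < 1 := by
  classical
  set ρ := H142.resMap V B hB with hρ
  set ρ₀ : B₀ →+* IsLocalRing.ResidueField V := ρ.comp (H142.mapSub γ B₀ B hγB) with hρ₀
  have h2 : ρ₀.IsIntegralElem (IsLocalRing.residue V ⟨f, hB f hf⟩) := hint ⟨f, hf⟩
  obtain ⟨g, hg, hfg⟩ := hres f (hB f hf)
  have hfg' : IsLocalRing.residue V ⟨f, hB f hf⟩ = IsLocalRing.residue V ⟨γ g, hγV g hg⟩ := by
    rw [H142.residue_eq_iff_val]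
    exact hfg
  rw [hfg'] at h2
  obtain ⟨m, d, hrel₀⟩ := H142.exists_fin_of_isIntegralElem _ h2
  have hmem₀ : g ^ m + ∑ i : Fin m, (d i : F₀) * g ^ (i : ℕ) ∈ V₀ :=
    V₀.add_mem _ _ (V₀.pow_mem hg m)
      (V₀.toSubring.sum_mem fun i _ => V₀.mul_mem _ _ (hB₀ _ (d i).2) (V₀.pow_mem hg _))
  have hval : V.valuation (γ (g ^ m + ∑ i : Fin m, (d i : F₀) * g ^ (i : ℕ))) < 1 := by
    have hv : (⟨γ g, hγV g hg⟩ ^ m + ∑ i : Fin m,
        (⟨γ (d i), hB _ (hγB _ (d i).2)⟩ : V) * ⟨γ g, hγV g hg⟩ ^ (i : ℕ) : V) =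
        (⟨γ (g ^ m + ∑ i : Fin m, (d i : F₀) * g ^ (i : ℕ)), hγV _ hmem₀⟩ : V) := by
      apply Subtype.ext
      push_cast
      simp only [map_add, map_pow, map_sum, map_mul]
    have h3 : IsLocalRing.residue V (⟨γ g, hγV g hg⟩ ^ m + ∑ i : Fin m,
        (⟨γ (d i), hB _ (hγB _ (d i).2)⟩ : V) * ⟨γ g, hγV g hg⟩ ^ (i : ℕ)) = 0 := by
      rw [map_add, map_pow, map_sum]
      simp only [map_mul, map_pow]
      exact hrel₀
    rw [hv, H142.residue_eq_zero_iff_val] at h3
    exact h3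
  obtain ⟨b₀, hb₀, hgb⟩ := hnorm₀ g hg ⟨m, fun i => (d i : F₀), fun i => (d i).2,
    H142.val_lt_one_of_map γ V₀ V hγV hmem₀ hval⟩
  refine ⟨b₀, hb₀, ?_⟩
  have hpres : V.valuation (γ (g - b₀)) < 1 := hγp _ hgb
  have : f - γ b₀ = (f - γ g) + γ (g - b₀) := by
    rw [map_sub]
    ring
  rw [this]
  exact lt_of_le_of_lt (Valuation.map_add _ _ _) (max_lt hfg hpres)

end Transfer

variable (P : ValuationSubring (AlgebraicClosure ℚ))
  (E : IntermediateField ℚ (AlgebraicClosure ℚ))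
variable (M q : ℕ) [NeZero M] [NeZero q] (w : RE P E)

/-- **One component is parametrised by level `M`** (hypotheses of `H142.normal_side`):
`chartAlg y = γ (chartAlg y_M) + (chartAlg y ∩ w V')`, together with `γ (chartAlg y_M) ⊆ chartAlg y`
and `chartAlg y_M ⊆ V_M`, `chartAlg y ⊆ V'`. -/
theorem surj_side (hS : Setting P E M q w)
    (VM : ValuationSubring (FE E M)) (hVM : IsVinf P E M VM)
    (V' : ValuationSubring (FE E (M * q))) (hU' : A2.H48.IsUnif V' (cE P E (M * q) w))
    (hRV' : ∀ r : RE P E, algebraMap (RE P E) (FE E (M * q)) r ∈ V')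
    (γ : FE E M →ₐ[E] FE E (M * q))
    (hγV : ∀ g ∈ VM, γ g ∈ V')
    (hres : ∀ f ∈ V', ∃ g ∈ VM, InW P E (M * q) V' w (f - γ g))
    (yM : FE E M) (y : FE E (M * q))
    (hyM : yM ∈ VM) (hy : y ∈ V')
    (hcong : InW P E (M * q) V' w (y - γ (yM ^ (q + 1))))
    (hγy : γ yM ∈ chartAlg P E (M * q) y)
    (hgood : GoodRedAt P E M w VM yM) :
    (∀ b ∈ chartAlg P E M yM, b ∈ VM) ∧
    (∀ b ∈ chartAlg P E (M * q) y, b ∈ V') ∧
    (∀ b ∈ chartAlg P E M yM, γ b ∈ chartAlg P E (M * q) y) ∧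
    ∀ b ∈ chartAlg P E (M * q) y, ∃ a ∈ chartAlg P E M yM, InW P E (M * q) V' w (b - γ a) := by
  have hdvr := hS.dvr
  have hL2M := H553.vinfBasic P E w M hS.M_ne_zero hdvr hS.unif VM hVM
  have hUM : A2.H48.IsUnif VM (cE P E M w) := hL2M.1
  have hRVM : ∀ r : RE P E, algebraMap (RE P E) (FE E M) r ∈ VM := fun r =>
    (hL2M.2.1 (r : E)).mpr r.2
  have hγR : ∀ r : RE P E, (γ : FE E M →+* FE E (M * q)) (algebraMap (RE P E) (FE E M) r) =
      algebraMap (RE P E) (FE E (M * q)) r := fun r => γ.commutes (r : E)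
  have hγc : γ (cE P E M w) = cE P E (M * q) w := γ.commutes (w : E)
  have hB₀ : ∀ b ∈ chartAlg P E M yM, b ∈ VM := fun b hb =>
    H142.mem_valuationSubring_of_isIntegral_adjoin VM hRVM hyM ((mem_chartAlg P E M).1 hb)
  have hB : ∀ b ∈ chartAlg P E (M * q) y, b ∈ V' := fun b hb =>
    H142.mem_valuationSubring_of_isIntegral_adjoin V' hRV' hy ((mem_chartAlg P E (M * q)).1 hb)
  have hγB : ∀ b ∈ chartAlg P E M yM, (γ : FE E M →+* FE E (M * q)) b ∈ chartAlg P E (M * q) y :=
    fun b hb => (mem_chartAlg P E (M * q)).2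
      (H142.isIntegral_adjoin_map (γ : FE E M →+* FE E (M * q)) hγR
        ((mem_chartAlg P E (M * q)).1 hγy) ((mem_chartAlg P E M).1 hb))
  have hγp : ∀ g : FE E M, VM.valuation g < 1 →
      V'.valuation ((γ : FE E M →+* FE E (M * q)) g) < 1 := by
    intro g hg
    rw [← H142.inW_iff hUM] at hg
    rw [← H142.inW_iff hU']
    unfold InW at hg ⊢
    have h1 := hγV _ hg
    rw [map_mul, map_inv₀, hγc] at h1
    exact h1
  have hres' : ∀ f ∈ V', ∃ g ∈ VM,
      V'.valuation (f - (γ : FE E M →+* FE E (M * q)) g) < 1 := by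
    intro f hf
    obtain ⟨g, hg, hfg⟩ := hres f hf
    exact ⟨g, hg, (H142.inW_iff hU' _).1 hfg⟩
  have hnorm₀ : H142.NormalIn VM
      ((chartAlg P E M yM : Subalgebra (RE P E) (FE E M)) : Set (FE E M)) := by
    intro f hf ⟨n, c, hc, hrel⟩
    obtain ⟨b, hb, hfb⟩ := hgood.normal f hf
      ⟨n, c, fun i => (H142.mem_chart_iff P E M yM (c i)).2 (hc i), (H142.inW_iff hUM _).2 hrel⟩
    exact ⟨b, (H142.mem_chart_iff P E M yM b).1 hb, (H142.inW_iff hUM _).1 hfb⟩
  have hint := H142.isIntegralElem_of_coord (γ : FE E M →+* FE E (M * q)) hγR V'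
    (chartAlg P E M yM) (chartAlg P E (M * q) y) hB hγB y (H142.self_mem_chartAlg P E (M * q) y)
    (yM ^ (q + 1)) (pow_mem (H142.self_mem_chartAlg P E M yM) _) ((H142.inW_iff hU' _).1 hcong)
    (fun b hb => (mem_chartAlg P E (M * q)).1 hb)
  refine ⟨hB₀, hB, hγB, fun b hb => ?_⟩
  obtain ⟨a, ha, hba⟩ := exists_map_sub_of_normal (γ : FE E M →+* FE E (M * q)) VM V' hγV hγp
    (chartAlg P E M yM) (chartAlg P E (M * q) y) hB₀ hB hγB hres' hint hnorm₀ hb
  exact ⟨a, ha, (H142.inW_iff hU' _).2 hba⟩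

/-- **Step (e) of NODE-RAT**: `B = α(B_M) + p∞` on both charts; also `B_M ⊆ V∞_M`, `B ⊆ V∞`,
`α(B_M) ⊆ B`. -/
theorem surj_inf (hS : Setting P E M q w)
    (VM : ValuationSubring (FE E M)) (V : ValuationSubring (FE E (M * q)))
    (hVM : IsVinf P E M VM) (hV : IsVinf P E (M * q) V)
    (yM : FE E M) (y : FE E (M * q)) (hy : IsCoordPair E M q yM y)
    (hgood : GoodRedAt P E M w VM yM) :
    (∀ b ∈ chartAlg P E M yM, b ∈ VM) ∧
    (∀ b ∈ chartAlg P E (M * q) y, b ∈ V) ∧
    (∀ b ∈ chartAlg P E M yM, αE E M q b ∈ chartAlg P E (M * q) y) ∧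
    ∀ b ∈ chartAlg P E (M * q) y, ∃ a ∈ chartAlg P E M yM,
      InW P E (M * q) V w (b - αE E M q a) := by
  have hL11 := H378.resInf P E M q w
  have hN : M * q ≠ 0 := Nat.mul_ne_zero hS.M_ne_zero hS.q_prime.ne_zero
  haveI : NeZero (M * q) := ⟨hN⟩
  haveI : NeZero (1 * q) := ⟨by rw [one_mul]; exact hS.q_prime.ne_zero⟩
  have hL2 := H553.vinfBasic P E w (M * q) hN hS.dvr hS.unif V hV
  have hL2M := H553.vinfBasic P E w M hS.M_ne_zero hS.dvr hS.unif VM hVM
  have hL13 := H873.chartCompat P E M q hS.q_prime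
  have hRV : ∀ r : RE P E, algebraMap (RE P E) (FE E (M * q)) r ∈ V := fun r =>
    (hL2.2.1 (r : E)).mpr r.2
  obtain ⟨j, hj⟩ : ∃ j : FE E (M * q), j = jE E (M * q) 1 (one_dvd _) := ⟨_, rfl⟩
  obtain ⟨jq, hjq⟩ : ∃ jq : FE E (M * q), jq = jE E (M * q) q (dvd_mul_left q M) := ⟨_, rfl⟩
  have hjV : j ∈ V ∧ j⁻¹ ∈ V := hj ▸ hL2.2.2 1 (one_dvd _)
  have hjqV : jq ∈ V ∧ jq⁻¹ ∈ V := hjq ▸ hL2.2.2 q (dvd_mul_left q M)
  have hx : xE E M q = j * jq := by rw [hj, hjq]; rfl
  have hαj : αE E M q (jE E M 1 (one_dvd _)) = j := by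
    rw [hj]
    exact H751.alpha_jE E M q 1 (one_dvd M)
  have hfrob : InW P E (M * q) V w (jq - j ^ q) := by
    have h := H142.frobCong (P := P) (E := E) (w := w) hS.q_prime hS.dvr hS.unif hS.lies_over
      hN hV 1 (one_dvd _) (by rw [one_mul]; exact dvd_mul_left q M)
    rw [hj, hjq]
    have h1 : jE E (M * q) (1 * q) (by rw [one_mul]; exact dvd_mul_left q M) =
        jE E (M * q) q (dvd_mul_left q M) := H751.jE_congr E (M * q) (one_mul q) _ _
    rwa [h1] at h
  have hj0 : j ≠ 0 := hj ▸ H873.jE_ne_zero E (M * q) 1 (one_dvd _)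
  have hjq0 : jq ≠ 0 := hjq ▸ H873.jE_ne_zero E (M * q) q (dvd_mul_left q M)
  have hcinv : (j * jq)⁻¹ - j⁻¹ ^ (q + 1) = -(jq - j ^ q) * (j⁻¹ * jq⁻¹ * j⁻¹ ^ q) := by
    have hjqb : jq * jq⁻¹ = 1 := mul_inv_cancel₀ hjq0
    have hpow : j ^ q * j⁻¹ ^ q = 1 := by rw [← mul_pow, mul_inv_cancel₀ hj0, one_pow]
    have h1 : -(jq - j ^ q) * (j⁻¹ * jq⁻¹ * j⁻¹ ^ q) =
        (j ^ q * j⁻¹ ^ q) * (j⁻¹ * jq⁻¹) - (jq * jq⁻¹) * j⁻¹ ^ (q + 1) := by ring
    rw [h1, hpow, hjqb, mul_inv]
    ring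
  rcases hy with ⟨rfl, rfl⟩ | ⟨rfl, rfl⟩
  · -- finite chart
    refine surj_side P E M q w hS VM hVM V hL2.1 hRV (αE E M q)
      (fun g hg => H142.alpha_mem P E M q hVM hV hg) (hL11 hS VM V hVM hV) _ _
      (hL2M.2.2 1 (one_dvd M)).1 ?_ ?_ ?_ hgood
    · rw [hx]
      exact V.mul_mem _ _ hjV.1 hjqV.1
    · rw [map_pow, hαj, hx]
      have : j * jq - j ^ (q + 1) = (jq - j ^ q) * j := by ring
      rw [this]
      exact H142.inW_mul_right hfrob hjV.1
    · rw [hαj, hj]
      exact (H142.mem_chart_iff P E (M * q) _ _).1 hL13.1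
  · -- chart at infinity
    refine surj_side P E M q w hS VM hVM V hL2.1 hRV (αE E M q)
      (fun g hg => H142.alpha_mem P E M q hVM hV hg) (hL11 hS VM V hVM hV) _ _
      (hL2M.2.2 1 (one_dvd M)).2 ?_ ?_ ?_ hgood
    · rw [hx, mul_inv]
      exact V.mul_mem _ _ hjV.2 hjqV.2
    · rw [map_pow, map_inv₀, hαj, hx]
      rw [hcinv]
      exact H142.inW_mul_right (H142.inW_neg hfrob)
        (V.mul_mem _ _ (V.mul_mem _ _ hjV.2 hjqV.2) (pow_mem hjV.2 q))
    · rw [map_inv₀, hαj, hj]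
      exact (H142.mem_chart_iff P E (M * q) _ _).1 hL13.2.2.1

end Fermat.Agent.S35.G.H558

end

end
-- ===== PACK-END S35/G/H558/Surj.lean

-- ===== PACK-BEGIN S27/H446/PtsDictA.lean
section




/-!
# Row S27, block DIM, leaf PTS-DICT-A (helper446)

`ptsDictA k : Dim.Stmt.PtsDictA k` : for every `k`-algebra `A`, the `A`-points of the Jacobian
are the rigidifiable gluing data of degree zero over `A` up to isomorphism, compatibly with
base change; the zero section is the unit datum.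

Formal from the S25 dictionary on main (`H505.dictSections`, `H505.dictGlue`, `H986.dictIso`,
`H505.dictBC`, `H566.dictUnit`, `Stmt.DictDeg` re-derived as in `S25/Assembly/Final.lean`) and
the universal property `hrep.univ` of the representing object.

Reusable:
* `sectionsAddEquiv`, `corr_of_iso` : `Corr` is invariant under isomorphisms of the module;
* `dictDeg Ch : Stmt.DictDeg Ch` (unconditional);
* `nonempty_iso_zero` : the Poincaré bundle pulled back along the zero section over any base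
  map `s = 𝟙` is trivial.
-/

set_option autoImplicit false
universe u
open CategoryTheory CategoryTheory.Limits AlgebraicGeometry AlgebraicGeometry.RelPicard
  NeronModelInfra GoodReductionJacobian
open scoped TensorProduct

namespace Fermat.Agent.S27.H446

open Fermat.Agent.S25 Fermat.Agent.S27.Dim

noncomputable section

variable {k : Type u} [Field k] {C : Scheme.{u}} {c : C ⟶ Spec (CommRingCat.of k)}
  {ε : SchemeHomOver (𝟙 (Spec (CommRingCat.of k))) c}

/-! ## `Corr` is invariant under isomorphisms of the module -/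

/-- The additive equivalence on sections induced by an isomorphism of modules. -/
def sectionsAddEquiv {X : Scheme.{u}} {L L' : X.Modules} (φ : L ≅ L') (V : X.Opens) :
    Γ(L, V) ≃+ Γ(L', V) where
  toFun s := φ.hom.app V s
  invFun s := φ.inv.app V s
  left_inv s := by
    change φ.inv.app V (φ.hom.app V s) = s
    rw [← ConcreteCategory.comp_apply, ← Scheme.Modules.Hom.comp_app, Iso.hom_inv_id]
    rfl
  right_inv s := by
    change φ.hom.app V (φ.inv.app V s) = s
    rw [← ConcreteCategory.comp_apply, ← Scheme.Modules.Hom.comp_app, Iso.inv_hom_id]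
    rfl
  map_add' s t := map_add _ s t

@[simp]
theorem sectionsAddEquiv_apply {X : Scheme.{u}} {L L' : X.Modules} (φ : L ≅ L') (V : X.Opens)
    (s : Γ(L, V)) : sectionsAddEquiv φ V s = φ.hom.app V s := rfl

section CorrIso

variable (Ch : ChartOf c ε) {A : Type u} [CommRing A] [Algebra k A]

theorem isSectionsIso_of_iso {L L' : (pullback c (specStr k A)).Modules} (φ : L' ≅ L)
    (U : C.Opens) {B : Type u} [CommRing B] [Algebra k B] (i : Γ(C, U) ≃+* B)
    {N : Type u} [AddCommGroup N] [Module (A ⊗[k] B) N]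
    (e : Γ(L, preimageOpen (c := c) A U) ≃+ N) (he : IsSectionsIso A L U i e) :
    IsSectionsIso A L' U i ((sectionsAddEquiv φ (preimageOpen (c := c) A U)).trans e) := by
  refine ⟨fun a s => ?_, fun f s => ?_⟩
  · rw [AddEquiv.trans_apply, AddEquiv.trans_apply, sectionsAddEquiv_apply,
      sectionsAddEquiv_apply, Scheme.Modules.Hom.app_smul, he.1]
  · rw [AddEquiv.trans_apply, AddEquiv.trans_apply, sectionsAddEquiv_apply,
      sectionsAddEquiv_apply, Scheme.Modules.Hom.app_smul, he.2]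

/-- **`Corr` is invariant under isomorphisms of the module.** -/
theorem corr_of_iso {L L' : (pullback c (specStr k A)).Modules}
    (G : CurveGD k Ch.B₀ Ch.B₁ Ch.B₀₁ A) (hG : Corr Ch A L G) (φ : L' ≅ L) :
    Corr Ch A L' G := by
  obtain ⟨e₀, e₁, e₀₁, h₀, h₁, h₀₁, hr₀, hr₁⟩ := hG
  refine ⟨(sectionsAddEquiv φ _).trans e₀, (sectionsAddEquiv φ _).trans e₁,
    (sectionsAddEquiv φ _).trans e₀₁, isSectionsIso_of_iso φ _ _ _ h₀,
    isSectionsIso_of_iso φ _ _ _ h₁, isSectionsIso_of_iso φ _ _ _ h₀₁, fun s => ?_, fun s => ?_⟩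
  · rw [AddEquiv.trans_apply, AddEquiv.trans_apply, sectionsAddEquiv_apply,
      sectionsAddEquiv_apply, H986.app_resMod, hr₀]
  · rw [AddEquiv.trans_apply, AddEquiv.trans_apply, sectionsAddEquiv_apply,
      sectionsAddEquiv_apply, H986.app_resMod, hr₁]

end CorrIso

/-! ## `Stmt.DictDeg`, unconditionally (as in `S25/Assembly/Final.lean`) -/

/-- **DICT-DEG** for every chart: `FibrewiseAlgEquivZero` is fibrewise degree zero of the gluing
datum. -/
theorem dictDeg [IsAlgClosed k] [IsProper c] [SmoothOfRelativeDimension 1 c] [IsIntegral C]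
    (Ch : ChartOf c ε) : Stmt.DictDeg Ch := by
  have hSheafGlue : Stmt.SheafGlue c ε := H146.sheafGlue k c ε
  have hAA2 : H747.StmtAA2 k Ch.B₀ Ch.B₁ Ch.B₀₁ := H927.stmtAA2
  have hAA6 : H747.StmtAA6 k Ch.B₀ Ch.B₁ Ch.B₀₁ := H206.stmtAA6 k Ch.B₀ Ch.B₁ Ch.B₀₁
  have hGlue : Stmt.DictGlue Ch := H505.dictGlue Ch
  have hSec : Stmt.DictSections Ch := H505.dictSections Ch
  have hUnit : H687.DictUnit Ch := fun A _ _ => H566.dictUnit Ch A
  have hIso : Stmt.DictIso Ch := H986.dictIso Ch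
  have hBC : Stmt.DictBC Ch := H505.dictBC Ch
  have hEx : Stmt.AlgBCExists Ch := H265.algBCExists Ch
  have hId : H687.BCId k Ch.B₀ Ch.B₁ Ch.B₀₁ := fun A _ _ G => H265.curveGD_isBC_id G
  have hComp : H687.BCComp k Ch.B₀ Ch.B₁ Ch.B₀₁ :=
    fun A A' A'' _ _ _ _ _ _ φ ψ G G' G'' h h' => H265.curveGD_isBC_comp h h'
  have hDegIso : H687.DegIso k Ch.B₀ Ch.B₁ Ch.B₀₁ :=
    fun K _ _ G G' h => H265.degree_eq_of_isIso h
  have hDegConst : H687.DegConst k Ch.B₀ Ch.B₁ Ch.B₀₁ := H550.degConst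
  have hAA4 : H747.StmtAA4 k Ch.B₀ Ch.B₁ Ch.B₀₁ := fun x y e hC g A _ _ P 𝔭 h𝔭 =>
    H266.abelDatum_locRig_of_isBC e g A P (fun A' _ _ ψ => hAA2 x y e hC g A A' ψ P) 𝔭 h𝔭
  obtain ⟨𝔉⟩ := H747.algAbel_of_leaves hAA2 hAA4 hAA6 Ch.x Ch.y Ch.e Ch.isCurveChart
  have hAbelAlg : H687.AbelAlg Ch :=
    H567.abelAlg Ch 𝔉 hSheafGlue (H146.sheafSep k c ε) hGlue hIso hBC
      (fun A _ _ => H566.dictUnit Ch A)
  exact H687.dictDeg_final Ch hSec hIso hBC hEx hUnit hId hComp hDegIso hDegConst hAbelAlg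

/-! ## The zero section -/

/-- The Poincaré bundle pulled back along the zero section, over any base map `s = 𝟙`, is
trivial. -/
theorem nonempty_iso_zero {D : RelativePic0Designation k c}
    (hrep : RepresentsRelSubPic c ε (algEquivZeroCut c ε) D)
    (s : Spec (CommRingCat.of k) ⟶ Spec (CommRingCat.of k)) (hs : s = 𝟙 _)
    (z : SchemeHomOver s D.toBase) (hz : z.1 = D.zeroSection) :
    Nonempty ((hrep.poincare.pullbackAlong z).L ≅
      (RigidifiedLineBundle.unit (c := c) (ε := ε) s).L) := by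
  subst hs
  have hz' : z = ⟨D.zeroSection, D.zeroSection_toBase⟩ := Subtype.ext hz
  subst hz'
  exact hrep.zero

theorem specStr_self : specStr k k = 𝟙 (Spec (CommRingCat.of k)) := by
  rw [specStr, Algebra.algebraMap_self]
  exact Spec.map_id _

/-! ## The leaf -/

/-- **PTS-DICT-A.** -/
theorem ptsDictA (k : Type u) [Field k] : Dim.Stmt.PtsDictA k := by
  intro _ C c _ _ _ ε Ch D hrep
  have hSec : Stmt.DictSections Ch := H505.dictSections Ch
  have hGlue : Stmt.DictGlue Ch := H505.dictGlue Ch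
  have hIso : Stmt.DictIso Ch := H986.dictIso Ch
  have hBC : Stmt.DictBC Ch := H505.dictBC Ch
  have hDeg : Stmt.DictDeg Ch := dictDeg Ch
  refine ⟨fun A _ _ t => ?_, fun A _ _ G hrig hdeg => ?_, fun A _ _ t t' G G' hG hG' => ?_,
    fun A A' _ _ _ _ φ t G G' hG hbc => ?_, ?_⟩
  · obtain ⟨G, hG, -⟩ := hSec A (hrep.poincare.pullbackAlong t)
    exact ⟨G, hG⟩
  · obtain ⟨M, hM⟩ := hGlue A G hrig
    have hfaez : FibrewiseAlgEquivZero M := (hDeg A M G hM).mpr hdeg
    refine ⟨hrep.classify (specStr k A) M hfaez, ?_⟩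
    obtain ⟨φ⟩ := hrep.classify_spec (specStr k A) M hfaez
    exact corr_of_iso Ch G hM φ
  · constructor
    · rintro rfl
      exact (hIso A _ _ G G' hG hG').mp ⟨Iso.refl _⟩
    · intro h
      exact hrep.ext_of_iso (specStr k A) t t' ((hIso A _ _ G G' hG hG').mpr h)
  · have h1 := hBC A A' φ (hrep.poincare.pullbackAlong t) G G' hG hbc
    exact corr_of_iso Ch G' h1 (H927.pullbackAlongCompIso hrep.poincare t (specHomOver k φ)).symm
  · obtain ⟨φ⟩ := nonempty_iso_zero hrep (specStr k k) _root_.Fermat.Agent.S27.H446.specStr_self (zeroPt D) rfl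
    exact corr_of_iso Ch _ (H566.dictUnit Ch k) φ

end

end Fermat.Agent.S27.H446

end
-- ===== PACK-END S27/H446/PtsDictA.lean

-- ===== PACK-BEGIN A2/Mod/H454/L7.lean
section




/-!
# A2 / MOD leaf L7 `FrickeStable` (helper454)

At level `M` prime to the residue characteristic the Fricke involution `W` of
`F_{M,E} = E(j_d : d ∣ M)` preserves the Gauss valuation ring `V∞`.

Proof.  `F_M` has the uniform integral basis `y_i` over `E(j)` (S18 H208 `M1.exists_basis`), whose
reductions are independent over `κ(j)`; hence every `f ∈ V∞` satisfies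
`g(j) f = Σ f_i(j) y_i` with `g, f_i ∈ R[X]`, `g ≢ 0 mod w` (`exists_denominator`).  Apply `W`:
`g(j_M) W f = Σ f_i(j_M) W y_i`; `W y_i` has an integral `t`-expansion (polynomial in the `j_d`
with integer coefficients) and `g(j_M)` is a primitive integral series, because `j_M` mod `w` is
transcendental over `κ`.

* `frickeStable : FrickeStableStatement P E M q w`.
-/

set_option autoImplicit false
set_option synthInstance.maxHeartbeats 400000
set_option maxHeartbeats 1600000
set_option linter.unusedSectionVars false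
set_option linter.style.haveILetI false

noncomputable section

namespace Fermat.Agent.A2.Mod.H454

open ModularCurve HahnSeries Polynomial
open Fermat.Agent.A2 Fermat.Agent.A2.Mod
open Fermat.Agent.S28 Fermat.Agent.S28.H86 Fermat.Agent.S18.H208

variable (P : ValuationSubring _root_.Fermat.Agent.A2.Mod.Qb) (E : IntermediateField ℚ _root_.Fermat.Agent.A2.Mod.Qb)

/-- the integer series `j(t^d)` in `E((t))` -/
theorem coe_jE_eq (N d : ℕ) [NeZero d] (hd : d ∣ N) :
    ((jE E N d hd : ↥(_root_.Fermat.Agent.A2.Mod.FE E N)) : LaurentSeries ↥E) =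
      coeffMap (Int.castRingHom ↥E) (qExpand ℤ d (jqModC ℤ)) := by
  rw [← jd_eq_intCast]
  exact Fermat.Agent.S18.H602.coeffEmb_qExpand_jq (↥E) d

theorem castE_mem_FE (N : ℕ) {y : LaurentSeries ℤ}
    (hy : y ∈ Subring.closure (intDivisorExpansions N)) :
    coeffMap (Int.castRingHom ↥E) y ∈ _root_.Fermat.Agent.A2.Mod.FE E N := by
  show _ ∈ laurentBaseChange (↥E) (modularFunctionFieldFull N)
  rw [Fermat.Agent.S18.H602.laurentBaseChange_full_eq]
  exact coeffMap_intCast_mem_full (↥E) N hy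

variable {E}

/-- `W` maps functions with integral expansion (in `ℤ[j_d : d ∣ M]`) to such functions. -/
theorem exists_int_image {M : ℕ} [NeZero M] {W : _root_.Fermat.Agent.A2.Mod.FE E M ≃ₐ[↥E] _root_.Fermat.Agent.A2.Mod.FE E M} (hW : IsFricke E M W)
    {y : LaurentSeries ℤ} (hy : y ∈ Subring.closure (intDivisorExpansions M)) :
    ∃ y' : LaurentSeries ℤ, ∀ Y : ↥(_root_.Fermat.Agent.A2.Mod.FE E M),
      (Y : LaurentSeries ↥E) = coeffMap (Int.castRingHom ↥E) y →
      ((W Y : ↥(_root_.Fermat.Agent.A2.Mod.FE E M)) : LaurentSeries ↥E) = coeffMap (Int.castRingHom ↥E) y' := by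
  induction hy using Subring.closure_induction with
  | mem x hx =>
    obtain ⟨d, hd, hdM, rfl⟩ := hx
    haveI := hd
    obtain ⟨d', hd'⟩ := hdM
    have hd'0 : d' ≠ 0 := by
      rintro rfl
      exact NeZero.ne M (by rw [hd', mul_zero])
    haveI : NeZero d' := ⟨hd'0⟩
    refine ⟨qExpand ℤ d' (jqModC ℤ), fun Y hY => ?_⟩
    have hY' : Y = jE E M d ⟨d', hd'⟩ := Subtype.ext (by rw [hY, coe_jE_eq])
    rw [hY', hW.1 d d' ⟨d', hd'⟩ ⟨d, by rw [hd', mul_comm]⟩ hd'.symm, coe_jE_eq]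
  | zero =>
    refine ⟨0, fun Y hY => ?_⟩
    have hY' : Y = 0 := Subtype.ext (by rw [hY, map_zero]; rfl)
    rw [hY', map_zero, map_zero]
    rfl
  | one =>
    refine ⟨1, fun Y hY => ?_⟩
    have hY' : Y = 1 := Subtype.ext (by rw [hY, map_one]; rfl)
    rw [hY', map_one, map_one]
    rfl
  | add a b ha hb iha ihb =>
    obtain ⟨a', ha'⟩ := iha
    obtain ⟨b', hb'⟩ := ihb
    refine ⟨a' + b', fun Y hY => ?_⟩
    have hY' : Y = (⟨_, castE_mem_FE E M ha⟩ : ↥(_root_.Fermat.Agent.A2.Mod.FE E M)) + ⟨_, castE_mem_FE E M hb⟩ :=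
      Subtype.ext (by rw [hY, map_add]; rfl)
    have hA := ha' ⟨_, castE_mem_FE E M ha⟩ rfl
    have hB := hb' ⟨_, castE_mem_FE E M hb⟩ rfl
    rw [hY', map_add, map_add, ← hA, ← hB]
    rfl
  | neg a ha iha =>
    obtain ⟨a', ha'⟩ := iha
    refine ⟨-a', fun Y hY => ?_⟩
    have hY' : Y = -(⟨_, castE_mem_FE E M ha⟩ : ↥(_root_.Fermat.Agent.A2.Mod.FE E M)) :=
      Subtype.ext (by rw [hY, map_neg]; rfl)
    have hA := ha' ⟨_, castE_mem_FE E M ha⟩ rfl
    rw [hY', map_neg, map_neg, ← hA]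
    rfl
  | mul a b ha hb iha ihb =>
    obtain ⟨a', ha'⟩ := iha
    obtain ⟨b', hb'⟩ := ihb
    refine ⟨a' * b', fun Y hY => ?_⟩
    have hY' : Y = (⟨_, castE_mem_FE E M ha⟩ : ↥(_root_.Fermat.Agent.A2.Mod.FE E M)) * ⟨_, castE_mem_FE E M hb⟩ :=
      Subtype.ext (by rw [hY, map_mul]; rfl)
    have hA := ha' ⟨_, castE_mem_FE E M ha⟩ rfl
    have hB := hb' ⟨_, castE_mem_FE E M hb⟩ rfl
    rw [hY', map_mul, map_mul, ← hA, ← hB]
    rfl


/-! ### evaluation of polynomials with `R`-coefficients -/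

section Eval

variable (O : Subring ↥E)

/-- `inclL` commutes with evaluation of polynomials. -/
theorem inclL_evO_eq (J : LaurentSeries ↥O) (p : Polynomial ↥O) :
    inclL O (evO J p) = evE O (inclL O J) p := by
  rw [evO_apply, Polynomial.hom_eval₂]
  show _ = Polynomial.eval₂ _ _ p
  congr 1
  ext c : 1
  rw [RingHom.comp_apply, RingHom.comp_apply, inclL_C]
  rfl

/-- coercion `F → E((t))` commutes with evaluation of polynomials. -/
theorem coe_eval₂_FE (N : ℕ) (t : ↥(_root_.Fermat.Agent.A2.Mod.FE E N)) (p : Polynomial ↥O) :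
    ((p.eval₂ ((algebraMap ↥E ↥(_root_.Fermat.Agent.A2.Mod.FE E N)).comp O.subtype) t : ↥(_root_.Fermat.Agent.A2.Mod.FE E N)) : LaurentSeries ↥E) =
      evE O (t : LaurentSeries ↥E) p := by
  show (_root_.Fermat.Agent.A2.Mod.FE E N).val.toRingHom (p.eval₂ ((algebraMap ↥E ↥(_root_.Fermat.Agent.A2.Mod.FE E N)).comp O.subtype) t) = _
  rw [Polynomial.hom_eval₂]
  show _ = Polynomial.eval₂ _ _ p
  congr 1
  ext c : 1
  rw [RingHom.comp_apply, RingHom.comp_apply, RingHom.comp_apply]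
  show algebraMap ↥E (LaurentSeries ↥E) (c : ↥E) = _
  rw [algebraMap_laurentSeries_eq_single]
  rfl

/-- an `E`-algebra automorphism commutes with evaluation of polynomials. -/
theorem map_eval₂_FE (N : ℕ) (W : _root_.Fermat.Agent.A2.Mod.FE E N ≃ₐ[↥E] _root_.Fermat.Agent.A2.Mod.FE E N) (t : ↥(_root_.Fermat.Agent.A2.Mod.FE E N)) (p : Polynomial ↥O) :
    W (p.eval₂ ((algebraMap ↥E ↥(_root_.Fermat.Agent.A2.Mod.FE E N)).comp O.subtype) t) =
      p.eval₂ ((algebraMap ↥E ↥(_root_.Fermat.Agent.A2.Mod.FE E N)).comp O.subtype) (W t) := by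
  show (W : ↥(_root_.Fermat.Agent.A2.Mod.FE E N) →+* ↥(_root_.Fermat.Agent.A2.Mod.FE E N)) _ = _
  rw [Polynomial.hom_eval₂]
  congr 1
  ext c : 1
  rw [RingHom.comp_apply, RingHom.comp_apply]
  show W (algebraMap ↥E ↥(_root_.Fermat.Agent.A2.Mod.FE E N) (c : ↥E)) = _
  rw [AlgEquiv.commutes]
  rfl

end Eval

/-! ### the residue characteristic -/

section Char

variable {P}

theorem natCast_mem_maximalIdeal {q : ℕ} (hq : q.Prime) (hP : P.LiesOverPrime q) :
    ((q : ℕ) : ↥(_root_.Fermat.Agent.A2.Mod.RE P E)) ∈ IsLocalRing.maximalIdeal ↥(_root_.Fermat.Agent.A2.Mod.RE P E) := by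
  rw [← ValuationSubring.coe_mem_nonunits_iff, ValuationSubring.mem_nonunits_iff_or]
  right
  intro hmem
  have h1 : (((((q : ℕ) : ↥(_root_.Fermat.Agent.A2.Mod.RE P E)) : ↥E))⁻¹ : ↥E) = ((q : ℕ) : ↥E)⁻¹ := by
    congr 1
  rw [h1] at hmem
  have h2 : algebraMap ↥E _root_.Fermat.Agent.A2.Mod.Qb (((q : ℕ) : ↥E)⁻¹) ∈ P := hmem
  rw [map_inv₀, map_natCast] at h2
  rcases (ValuationSubring.mem_nonunits_iff_or (A := P)).mp hP with h0 | h0
  · exact hq.ne_zero (Nat.cast_eq_zero.mp h0)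
  · exact h0 h2

theorem natCast_residue_ne_zero {M q : ℕ} (hq : q.Prime) (hqM : ¬ q ∣ M)
    (hP : P.LiesOverPrime q) : ((M : ℕ) : IsLocalRing.ResidueField ↥(_root_.Fermat.Agent.A2.Mod.RE P E)) ≠ 0 := by
  have hq0 : ((q : ℕ) : IsLocalRing.ResidueField ↥(_root_.Fermat.Agent.A2.Mod.RE P E)) = 0 := by
    have := (IsLocalRing.residue_eq_zero_iff ((q : ℕ) : ↥(_root_.Fermat.Agent.A2.Mod.RE P E))).mpr
      (natCast_mem_maximalIdeal hq hP)
    simpa using this
  haveI : CharP (IsLocalRing.ResidueField ↥(_root_.Fermat.Agent.A2.Mod.RE P E)) q :=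
    (CharP.charP_iff_prime_eq_zero hq).mpr hq0
  exact fun h0 => hqM ((CharP.cast_eq_zero_iff _ q M).mp h0)

end Char

/-! ### transcendence of `j(t^M)` -/

theorem aeval_jd_ne_zero (k : Type) [Field k] (d : ℕ) [NeZero d] {Q : Polynomial k}
    (hQ : Q ≠ 0) : Polynomial.aeval (qExpand k d (jqModC k)) Q ≠ 0 := by
  have h1 : Polynomial.aeval (qExpand k d (jqModC k)) Q =
      qExpandAlgHomC k d (Polynomial.aeval (jqModC k) Q) := by
    rw [← Polynomial.aeval_algHom_apply]
    rfl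
  rw [h1]
  intro h0
  apply aeval_j_ne_zero hQ
  apply qExpand_injective (R := k) (N := d)
  rw [map_zero]
  exact h0


/-! ### L7 -/

section Main

variable (E)
variable (M q : ℕ) [NeZero M] [NeZero q] (w : _root_.Fermat.Agent.A2.Mod.RE P E)

/-- **L7.** At level `M` prime to the residue characteristic the Fricke involution preserves
the Gauss valuation ring `V∞`. -/
theorem frickeStable : FrickeStableStatement P E M q w := by
  intro hS V W hV hW f hf
  rw [hV (W f)]
  -- the discrete valuation ring `O = R_E`, as a subring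
  obtain ⟨O, hO⟩ : ∃ O : Subring ↥E, O = (_root_.Fermat.Agent.A2.Mod.RE P E).toSubring := ⟨_, rfl⟩
  subst hO
  haveI hdvr : IsDiscreteValuationRing ↥(_root_.Fermat.Agent.A2.Mod.RE P E).toSubring := hS.dvr
  have hwirr : Irreducible (w : ↥(_root_.Fermat.Agent.A2.Mod.RE P E).toSubring) := hS.unif
  have hu : UnifData (_root_.Fermat.Agent.A2.Mod.RE P E).toSubring (IsLocalRing.residue ↥(_root_.Fermat.Agent.A2.Mod.RE P E).toSubring) w :=
    unifData_residue (_root_.Fermat.Agent.A2.Mod.RE P E).toSubring hwirr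
  have hfrac : IsFrac (_root_.Fermat.Agent.A2.Mod.RE P E).toSubring := isFrac_valuationSubring (_root_.Fermat.Agent.A2.Mod.RE P E)
  have hMκ : ((M : ℕ) : IsLocalRing.ResidueField ↥(_root_.Fermat.Agent.A2.Mod.RE P E).toSubring) ≠ 0 :=
    natCast_residue_ne_zero (E := E) hS.q_prime hS.q_not_dvd hS.lies_over
  have hME : ((M : ℕ) : ↥E) ≠ 0 := Nat.cast_ne_zero.mpr (NeZero.ne M)
  obtain ⟨y, hy, hbasis⟩ := M1.exists_basis M
  obtain ⟨hspanE, -⟩ := hbasis ↥E hME
  obtain ⟨-, hliκ⟩ := hbasis (IsLocalRing.ResidueField ↥(_root_.Fermat.Agent.A2.Mod.RE P E).toSubring) hMκ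
  have hfF : (f : LaurentSeries ↥E) ∈ modularFunctionFieldFullC ↥E M := by
    rw [← Fermat.Agent.S18.H602.laurentBaseChange_full_eq]
    exact f.2
  have hfG : (f : LaurentSeries ↥E) ∈
      gaussRing (_root_.Fermat.Agent.A2.Mod.RE P E).toSubring (IsLocalRing.residue ↥(_root_.Fermat.Agent.A2.Mod.RE P E).toSubring) := by
    obtain ⟨U₁, U₂, h0, -, he⟩ := (hV f).mp hf
    exact ⟨U₁, U₂, h0, he⟩
  obtain ⟨g, fi, hg, hrel⟩ := exists_denominator hu hfrac y hliκ (hspanE _ hfF) hfG
  -- the relation in `F`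
  have hJ1 : ((jE E M 1 (one_dvd M) : ↥(_root_.Fermat.Agent.A2.Mod.FE E M)) : LaurentSeries ↥E) = jqModC ↥E := by
    rw [coe_jE_eq, qExpand_one_apply, coeffMap_jqModC]
  have hrelF : g.eval₂ ((algebraMap ↥E ↥(_root_.Fermat.Agent.A2.Mod.FE E M)).comp (_root_.Fermat.Agent.A2.Mod.RE P E).toSubring.subtype)
        (jE E M 1 (one_dvd M)) * f =
      ∑ i, (fi i).eval₂ ((algebraMap ↥E ↥(_root_.Fermat.Agent.A2.Mod.FE E M)).comp (_root_.Fermat.Agent.A2.Mod.RE P E).toSubring.subtype)
        (jE E M 1 (one_dvd M)) * ⟨_, castE_mem_FE E M (hy i)⟩ := by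
    apply Subtype.ext
    have h1 : (((∑ i, (fi i).eval₂ ((algebraMap ↥E ↥(_root_.Fermat.Agent.A2.Mod.FE E M)).comp (_root_.Fermat.Agent.A2.Mod.RE P E).toSubring.subtype)
        (jE E M 1 (one_dvd M)) * ⟨_, castE_mem_FE E M (hy i)⟩ : ↥(_root_.Fermat.Agent.A2.Mod.FE E M))) : LaurentSeries ↥E) =
        ∑ i, evE (_root_.Fermat.Agent.A2.Mod.RE P E).toSubring (jqModC ↥E) (fi i) *
          coeffMap (Int.castRingHom ↥E) (y i) := by
      show (_root_.Fermat.Agent.A2.Mod.FE E M).val _ = _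
      rw [map_sum]
      refine Finset.sum_congr rfl fun i _ => ?_
      rw [map_mul]
      show ((_ : ↥(_root_.Fermat.Agent.A2.Mod.FE E M)) : LaurentSeries ↥E) * _ = _
      rw [coe_eval₂_FE, hJ1]
      rfl
    rw [h1, ← hrel]
    show ((_ : ↥(_root_.Fermat.Agent.A2.Mod.FE E M)) : LaurentSeries ↥E) * _ = _
    rw [coe_eval₂_FE, hJ1]
  -- apply `W`
  choose y' hy' using fun i => exists_int_image hW (hy i)
  have hWJ : W (jE E M 1 (one_dvd M)) = jE E M M dvd_rfl :=
    hW.1 1 M (one_dvd M) dvd_rfl (one_mul M)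
  have hrelW := congrArg W hrelF
  rw [map_mul, map_sum, map_eval₂_FE, hWJ] at hrelW
  have hrelW' : evE (_root_.Fermat.Agent.A2.Mod.RE P E).toSubring
        (coeffMap (Int.castRingHom ↥E) (qExpand ℤ M (jqModC ℤ))) g * (W f : LaurentSeries ↥E) =
      ∑ i, evE (_root_.Fermat.Agent.A2.Mod.RE P E).toSubring
        (coeffMap (Int.castRingHom ↥E) (qExpand ℤ M (jqModC ℤ))) (fi i) *
          coeffMap (Int.castRingHom ↥E) (y' i) := by
    have h2 := congrArg Subtype.val hrelW
    have h3 : (((∑ i, W ((fi i).eval₂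
        ((algebraMap ↥E ↥(_root_.Fermat.Agent.A2.Mod.FE E M)).comp (_root_.Fermat.Agent.A2.Mod.RE P E).toSubring.subtype)
        (jE E M 1 (one_dvd M)) * ⟨_, castE_mem_FE E M (hy i)⟩) : ↥(_root_.Fermat.Agent.A2.Mod.FE E M))) :
          LaurentSeries ↥E) =
        ∑ i, evE (_root_.Fermat.Agent.A2.Mod.RE P E).toSubring
          (coeffMap (Int.castRingHom ↥E) (qExpand ℤ M (jqModC ℤ))) (fi i) *
            coeffMap (Int.castRingHom ↥E) (y' i) := by
      show (_root_.Fermat.Agent.A2.Mod.FE E M).val _ = _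
      rw [map_sum]
      refine Finset.sum_congr rfl fun i _ => ?_
      rw [map_mul W, map_eval₂_FE, hWJ, map_mul]
      show ((_ : ↥(_root_.Fermat.Agent.A2.Mod.FE E M)) : LaurentSeries ↥E) * ((_ : ↥(_root_.Fermat.Agent.A2.Mod.FE E M)) : LaurentSeries ↥E) = _
      rw [coe_eval₂_FE, coe_jE_eq, hy' i _ rfl]
    rw [h3] at h2
    rw [← h2]
    show _ = ((_ : ↥(_root_.Fermat.Agent.A2.Mod.FE E M)) : LaurentSeries ↥E) * _
    rw [coe_eval₂_FE, coe_jE_eq]
  -- the integral series
  set jA : LaurentSeries ↥(_root_.Fermat.Agent.A2.Mod.RE P E).toSubring :=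
    intO (_root_.Fermat.Agent.A2.Mod.RE P E).toSubring (qExpand ℤ M (jqModC ℤ)) with hjA
  have hjA' : inclL (_root_.Fermat.Agent.A2.Mod.RE P E).toSubring jA =
      coeffMap (Int.castRingHom ↥E) (qExpand ℤ M (jqModC ℤ)) := inclL_intO _ _
  have hred : redL (IsLocalRing.residue ↥(_root_.Fermat.Agent.A2.Mod.RE P E).toSubring) (evO jA g) ≠ 0 := by
    rw [redL_evO, hjA, redL_intO, ← jd_eq_intCast]
    exact aeval_jd_ne_zero _ M hg
  have hmem : inclL (_root_.Fermat.Agent.A2.Mod.RE P E).toSubring (evO jA g) ∈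
      laurentBaseChange (↥E) (modularFunctionFieldFull M) := by
    rw [inclL_evO_eq, hjA', ← coe_jE_eq E M M dvd_rfl, ← coe_eval₂_FE]
    exact Subtype.mem _
  refine ⟨∑ i, evO jA (fi i) * intO (_root_.Fermat.Agent.A2.Mod.RE P E).toSubring (y' i), evO jA g, hred, hmem, ?_⟩
  show _ * inclL (_root_.Fermat.Agent.A2.Mod.RE P E).toSubring (evO jA g) = inclL (_root_.Fermat.Agent.A2.Mod.RE P E).toSubring _
  rw [map_sum, inclL_evO_eq, hjA', mul_comm, hrelW']
  refine Finset.sum_congr rfl fun i _ => ?_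
  rw [map_mul, inclL_evO_eq, hjA', inclL_intO]

end Main

end Fermat.Agent.A2.Mod.H454

end

end
-- ===== PACK-END A2/Mod/H454/L7.lean

-- ===== PACK-BEGIN A2/Alg/H34/Glue.lean
section




/-!
# WALL A2 / ALG — leaf GLUE (helper34): `glue` VERBATIM

`glue` = `H729.glue_of_hconst` (helper729) + `H552.hconst_of_henselian` (helper552) applied to the
valuation subring `compVal = B_{p₁}` of `F` (a discrete valuation ring with uniformiser `w`,
constructed elementwise from `exists_decomp`).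
-/

set_option autoImplicit false
set_option linter.unusedSectionVars false
set_option linter.style.haveILetI false
set_option linter.unusedVariables false

namespace Fermat.Agent.A2.Alg.H34

open Fermat.Agent.A2 Fermat.Agent.A2.Alg
open Polynomial

section Val

variable {R F : Type*} [CommRing R] [Field F] [Algebra R F]

/-- The valuation subring `B_p` of `F` (`p` a component of the special fibre). -/
def compVal (w : R) (B : Subalgebra R F) [IsNoetherianRing B] [IsFractionRing B F]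
    (p q : Ideal B) (hp : p.IsPrime) (hpq : p ⊓ q = Ideal.span {algebraMap R B w})
    (hqp : ¬ q ≤ p) (hw0 : algebraMap R F w ≠ 0) : ValuationSubring F where
  carrier := {f | ∃ a b : B, b ∉ p ∧ f * (b : F) = (a : F)}
  mul_mem' := by
    rintro f g ⟨a, b, hb, hab⟩ ⟨a', b', hb', hab'⟩
    refine ⟨a * a', b * b', fun h => ?_, ?_⟩
    · rcases hp.mem_or_mem h with h | h
      · exact hb h
      · exact hb' h
    · push_cast
      rw [← hab, ← hab']
      ring
  one_mem' := ⟨1, 1, fun h => hp.ne_top ((Ideal.eq_top_iff_one p).2 h), by simp⟩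
  add_mem' := by
    rintro f g ⟨a, b, hb, hab⟩ ⟨a', b', hb', hab'⟩
    refine ⟨a * b' + a' * b, b * b', fun h => ?_, ?_⟩
    · rcases hp.mem_or_mem h with h | h
      · exact hb h
      · exact hb' h
    · push_cast
      rw [← hab, ← hab']
      ring
  zero_mem' := ⟨0, 1, fun h => hp.ne_top ((Ideal.eq_top_iff_one p).2 h), by simp⟩
  neg_mem' := by
    rintro f ⟨a, b, hb, hab⟩
    refine ⟨-a, b, hb, ?_⟩
    push_cast
    rw [← hab]
    ring
  mem_or_inv_mem' := by
    intro f
    by_cases hf : f = 0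
    · left
      subst hf
      exact ⟨0, 1, fun h => hp.ne_top ((Ideal.eq_top_iff_one p).2 h), by simp⟩
    · obtain ⟨k₁, k₂, A, D, hA, hD, h⟩ := exists_decomp w B p q hp hpq hqp f hf
      rcases le_total k₂ k₁ with hk | hk
      · left
        obtain ⟨j, rfl⟩ := Nat.exists_eq_add_of_le hk
        refine ⟨algebraMap R B w ^ j * A, D, hD, ?_⟩
        have h1 : algebraMap R F w ^ k₂ * (f * (D : F)) =
            algebraMap R F w ^ k₂ * (algebraMap R F w ^ j * (A : F)) := by
          rw [pow_add] at h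
          linear_combination h
        have h2 := mul_left_cancel₀ (pow_ne_zero k₂ hw0) h1
        rw [h2]
        push_cast
        rfl
      · right
        obtain ⟨j, rfl⟩ := Nat.exists_eq_add_of_le hk
        refine ⟨algebraMap R B w ^ j * D, A, hA, ?_⟩
        have h1 : algebraMap R F w ^ k₁ * (f * (algebraMap R F w ^ j * (D : F))) =
            algebraMap R F w ^ k₁ * (A : F) := by
          rw [pow_add] at h
          linear_combination h
        have h2 := mul_left_cancel₀ (pow_ne_zero k₁ hw0) h1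
        have h3 : f⁻¹ * (A : F) = algebraMap R F w ^ j * (D : F) := by
          rw [← h2]
          field_simp
        rw [h3]
        push_cast
        rfl

variable (w : R) (B : Subalgebra R F) [IsNoetherianRing B] [IsFractionRing B F]
  (p q : Ideal B) (hp : p.IsPrime) (hpq : p ⊓ q = Ideal.span {algebraMap R B w})
  (hqp : ¬ q ≤ p) (hw0 : algebraMap R F w ≠ 0)

theorem mem_compVal {f : F} :
    f ∈ compVal w B p q hp hpq hqp hw0 ↔ ∃ a b : B, b ∉ p ∧ f * (b : F) = (a : F) := Iff.rfl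

include hpq in
theorem w_mem_p : algebraMap R B w ∈ p := by
  have : algebraMap R B w ∈ p ⊓ q := by
    rw [hpq]
    exact Ideal.mem_span_singleton_self _
  exact this.1

theorem algebraMap_mem_compVal (r : R) : algebraMap R F r ∈ compVal w B p q hp hpq hqp hw0 :=
  ⟨algebraMap R B r, 1, fun h => hp.ne_top ((Ideal.eq_top_iff_one p).2 h), by simp⟩

theorem inv_w_notMem_compVal : (algebraMap R F w)⁻¹ ∉ compVal w B p q hp hpq hqp hw0 := by
  rintro ⟨a, b, hb, hab⟩
  apply hb
  have h1 : (b : F) = algebraMap R F w * (a : F) := by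
    rw [← hab]
    field_simp
  have h2 : b = algebraMap R B w * a := Subtype.ext (by rw [h1]; rfl)
  rw [h2]
  exact p.mul_mem_right _ (w_mem_p w B p q hpq)

theorem exists_pow_mul_mem_compVal (c : F) :
    ∃ k : ℕ, algebraMap R F w ^ k * c ∈ compVal w B p q hp hpq hqp hw0 := by
  by_cases hc : c = 0
  · exact ⟨0, by rw [hc, mul_zero]; exact (compVal w B p q hp hpq hqp hw0).zero_mem⟩
  · obtain ⟨k₁, k₂, A, D, hA, hD, h⟩ := exists_decomp w B p q hp hpq hqp c hc
    refine ⟨k₂, algebraMap R B w ^ k₁ * A, D, hD, ?_⟩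
    push_cast
    have : ((algebraMap R B w : B) : F) = algebraMap R F w := rfl
    linear_combination h

theorem mul_inv_w_mem_compVal {a : F} (ha : a ∈ compVal w B p q hp hpq hqp hw0)
    (ha' : a⁻¹ ∉ compVal w B p q hp hpq hqp hw0) :
    a * (algebraMap R F w)⁻¹ ∈ compVal w B p q hp hpq hqp hw0 := by
  have ha0 : a ≠ 0 := by
    rintro rfl
    rw [inv_zero] at ha'
    exact ha' (compVal w B p q hp hpq hqp hw0).zero_mem
  obtain ⟨k₁, k₂, A, D, hA, hD, h⟩ := exists_decomp w B p q hp hpq hqp a ha0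
  have hA0 : (A : F) ≠ 0 := fun h' => hA (by
    have : A = 0 := Subtype.ext h'
    rw [this]; exact p.zero_mem)
  have hD0 : (D : F) ≠ 0 := fun h' => hD (by
    have : D = 0 := Subtype.ext h'
    rw [this]; exact p.zero_mem)
  rcases Nat.lt_or_ge k₂ k₁ with hk | hk
  · obtain ⟨j, rfl⟩ := Nat.exists_eq_add_of_lt hk
    refine ⟨algebraMap R B w ^ j * A, D, hD, ?_⟩
    push_cast
    have h1 : algebraMap R F w ^ (k₂ + 1) * (a * (algebraMap R F w)⁻¹ * (D : F)) =
        algebraMap R F w ^ (k₂ + 1) * (algebraMap R F w ^ j * (A : F)) := by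
      have e : algebraMap R F w ^ (k₂ + j + 1) =
          algebraMap R F w ^ (k₂ + 1) * algebraMap R F w ^ j := by
        rw [← pow_add]; congr 1; omega
      rw [e] at h
      have e2 : algebraMap R F w ^ (k₂ + 1) * (a * (algebraMap R F w)⁻¹ * (D : F)) =
          (a * (algebraMap R F w ^ k₂ * (D : F))) * (algebraMap R F w * (algebraMap R F w)⁻¹) := by
        rw [pow_succ]; ring
      rw [e2, h, mul_inv_cancel₀ hw0, mul_one, mul_assoc]
    exact mul_left_cancel₀ (pow_ne_zero _ hw0) h1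
  · exfalso
    apply ha'
    obtain ⟨j, rfl⟩ := Nat.exists_eq_add_of_le hk
    refine ⟨algebraMap R B w ^ j * D, A, hA, ?_⟩
    push_cast
    have h1 : algebraMap R F w ^ k₁ * (a * (algebraMap R F w ^ j * (D : F))) =
        algebraMap R F w ^ k₁ * (A : F) := by
      rw [pow_add] at h
      linear_combination h
    have h2 := mul_left_cancel₀ (pow_ne_zero k₁ hw0) h1
    rw [← h2]
    field_simp

/-- `u ≡ 1` on the component `p`  ⟹  `u = 1 + w t`, `t ∈ B_p`. -/
theorem exists_eq_one_add_of_oneAt {u : F} (hu : OneAt B p u) :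
    ∃ t ∈ compVal w B p q hp hpq hqp hw0, u = 1 + algebraMap R F w * t := by
  obtain ⟨a, b, hb, hab, e⟩ := hu
  obtain ⟨s, hsq, hsp⟩ := SetLike.not_le_iff_exists.1 hqp
  have h1 : (a - b) * s ∈ p ⊓ q := ⟨p.mul_mem_right _ hab, q.mul_mem_left _ hsq⟩
  rw [hpq, Ideal.mem_span_singleton'] at h1
  obtain ⟨a', ha'⟩ := h1
  have hb0 : (b : F) ≠ 0 := fun h' => hb (by
    have : b = 0 := Subtype.ext h'
    rw [this]; exact p.zero_mem)
  have hs0 : (s : F) ≠ 0 := fun h' => hsp (by
    have : s = 0 := Subtype.ext h'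
    rw [this]; exact p.zero_mem)
  have e' : (a' : F) * algebraMap R F w = ((a : F) - (b : F)) * (s : F) := by
    have := congrArg (fun z : B => (z : F)) ha'
    simpa using this
  refine ⟨(a' : F) * ((s : F) * (b : F))⁻¹, ⟨a', s * b, fun h => ?_, ?_⟩, ?_⟩
  · rcases hp.mem_or_mem h with h | h
    · exact hsp h
    · exact hb h
  · push_cast
    field_simp
  · have hu' : u = (a : F) * (b : F)⁻¹ := by
      field_simp
      exact e
    rw [hu']
    field_simp
    linear_combination -e'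

end Val

section Main

variable {R E F : Type*} [CommRing R] [IsDomain R] [IsDiscreteValuationRing R]
  [HenselianLocalRing R] [IsAlgClosed (IsLocalRing.ResidueField R)]
  [Field E] [CharZero E] [Algebra R E] [IsFractionRing R E]
  [Field F] [Algebra E F] [Algebra R F] [IsScalarTower R E F]

/-- `u ≡ 1` on the first component, from the local factorisation at one closed point of it. -/
theorem oneAt_of_locallyFactored (w : R) (B : Subalgebra R F) (c : SSChart w B) (m : ℕ) (u : F)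
    (hf : LocallyFactored B c m u) : OneAt B c.p₁ u := by
  haveI := c.prime₁
  obtain ⟨n, hn, hpn⟩ := Ideal.exists_le_maximal c.p₁ c.prime₁.ne_top
  have hw₁ : algebraMap R B w ∈ c.p₁ := by
    have : algebraMap R B w ∈ c.p₁ ⊓ c.p₂ := by
      rw [c.inf_eq]
      exact Ideal.mem_span_singleton_self _
    exact this.1
  have hspan : Ideal.span {algebraMap R B w} ≤ c.p₁ := by
    rw [Ideal.span_le, Set.singleton_subset_iff]
    exact hw₁
  obtain ⟨h, hh, h1, h2, -⟩ := hf n hn (hpn hw₁)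
  have h3 : OneAt B c.p₁ (u * h ^ m) := H729.oneAt_of_locOne hpn hspan h1
  have h4 : OneAt B c.p₁ (h ^ m)⁻¹ := H729.oneAt_inv (H729.oneAt_pow c.prime₁ h2 m)
  have h5 := H729.oneAt_mul c.prime₁ h3 h4
  have h6 : u * h ^ m * (h ^ m)⁻¹ = u := by
    rw [mul_assoc, mul_inv_cancel₀ (pow_ne_zero m hh), mul_one]
  rwa [h6] at h5

/-- **GLUE.**  A Kummer class which is locally factored at every closed point of the special
fibre of both charts is trivial. -/
theorem glue (q m : ℕ) (hq : q.Prime) (hqR : (q : R) ∈ IsLocalRing.maximalIdeal R)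
    (hm : 0 < m) (hqm : ¬ q ∣ m)
    (w : R) (x : F) (Bf Bi : Subalgebra R F)
    (hBf : ChartCtx E w x Bf) (hBi : ChartCtx E w x⁻¹ Bi)
    (cf : SSChart w Bf) (ci : SSChart w Bi) (hcf : Incomparable cf) (hci : Incomparable ci)
    (u : F) (hu : u ≠ 0) (hdiv : DivisibleDiv E m u)
    (hf : LocallyFactored Bf cf m u) (hi : LocallyFactored Bi ci m u) :
    ∃ y : F, y ≠ 0 ∧ u = y ^ m := by
  refine H729.glue_of_hconst q m hq hqR hm hqm w x Bf Bi hBf hBi cf ci hcf hci u hu hdiv hf hi ?_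
  obtain ⟨hN, -, hFr⟩ := chart_instances' w x Bf hBf
  haveI := hN
  haveI := hFr
  have hw0 : algebraMap R F w ≠ 0 := by
    intro h
    exact hBf.hw.ne_zero (algebraMap_RF_injective E (by rw [h, map_zero]))
  obtain ⟨t, ht, hut⟩ := exists_eq_one_add_of_oneAt w Bf cf.p₁ cf.p₂ cf.prime₁ cf.inf_eq hcf.2 hw0
    (oneAt_of_locallyFactored w Bf cf m u hf)
  have hmk : (m : IsLocalRing.ResidueField R) ≠ 0 := by
    obtain ⟨mi, hmi⟩ := H729.exists_inv_natCast (R := R) q m hq hqR hqm
    intro h0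
    have h1 : IsLocalRing.residue R (m : R) = 0 := by
      rw [map_natCast]
      exact h0
    have h2 : (m : R) ∈ IsLocalRing.maximalIdeal R := (IsLocalRing.residue_eq_zero_iff _).1 h1
    exact (IsLocalRing.mem_maximalIdeal _).1 h2 (IsUnit.of_mul_eq_one mi hmi)
  exact Fermat.Agent.A2.H552.hconst_of_henselian E w hBf.hw
    (compVal w Bf cf.p₁ cf.p₂ cf.prime₁ cf.inf_eq hcf.2 hw0)
    (algebraMap_mem_compVal w Bf cf.p₁ cf.p₂ cf.prime₁ cf.inf_eq hcf.2 hw0)
    (inv_w_notMem_compVal w Bf cf.p₁ cf.p₂ cf.prime₁ cf.inf_eq hcf.2 hw0)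
    (fun a ha ha' => mul_inv_w_mem_compVal w Bf cf.p₁ cf.p₂ cf.prime₁ cf.inf_eq hcf.2 hw0 ha ha')
    (exists_pow_mul_mem_compVal w Bf cf.p₁ cf.p₂ cf.prime₁ cf.inf_eq hcf.2 hw0)
    m hmk t ht u hut

end Main

/-- The leaf GLUE in the packaged form consumed by `algSS_of_leaves`. -/
theorem glueLeaf : GlueLeaf :=
  fun {R E F} _ _ _ _ _ _ _ _ _ _ _ _ _ q m hq hqR hm hqm w x Bf Bi hBf hBi cf ci hcf hci u hu
      hdiv hf hi =>
    glue (E := E) q m hq hqR hm hqm w x Bf Bi hBf hBi cf ci hcf hci u hu hdiv hf hi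

/-- ALG (route S) reduced to the two purity leaves. -/
theorem algSS_of_purity (hS : PuritySmoothLeaf) (hN : PurityNodeLeaf) :
    Fermat.Agent.A2.AlgSSStatement :=
  algSS_of_leaves hS hN glueLeaf

end Fermat.Agent.A2.Alg.H34

end
-- ===== PACK-END A2/Alg/H34/Glue.lean

-- ===== PACK-BEGIN S36/Mod3/H27/SheetsTwo.lean
section


/-!
# S36 / MOD3, leaf QEP (helper27): the sheets of a chart with two reduced components (abstract)

`complete_of_inf_eq` : chart `B = chart R {x}`, primes `p₁, p₂` of `B` with `p₁ ⊓ p₂ = w B`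
(reduced special fibre with two components), sheets `V₁, V₂` with `p_i ⊆ B ∩ w V_i`.
Then every sheet is `V₁` or `V₂`.
-/

set_option autoImplicit false
set_option linter.style.haveILetI false
set_option linter.unusedSectionVars false

namespace Fermat.Agent.S36.Mod3.H27

open Polynomial
open Fermat.Agent.A2.H12 (IsSheet)
open Fermat.Agent.S18.H138
open Fermat.Agent.S36.H193 (centreW mem_centreW sheet_chart_le centre_mem_minimalPrimes
  sheet_eq_of_centre_eq nu_mul_right)

universe u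

section Two

variable {R : Type u} [CommRing R] [IsDomain R] {F : Type u} [Field F] [Algebra R F]

/-- The centre of a sheet `V₁` is the prime `p₁` as soon as `p₁ ⊆ B ∩ w V₁`, `p₁` is prime and
contains `w`. -/
theorem centre_eq_of_le {w : R} (hw0 : algebraMap R F w ≠ 0) {x : F} {V₁ : ValuationSubring F}
    (hs₁ : IsSheet w x V₁)
    (p₁ : Ideal (chart R ({x} : Set F))) (hp₁ : p₁.IsPrime)
    (hw₁ : algebraMap R (chart R ({x} : Set F)) w ∈ p₁)
    (hc₁ : ∀ b : chart R ({x} : Set F), b ∈ p₁ → (b : F) * (algebraMap R F w)⁻¹ ∈ V₁) :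
    centreW V₁ (chart R ({x} : Set F)) (sheet_chart_le hs₁) = p₁ := by
  have hle : p₁ ≤ centreW V₁ (chart R ({x} : Set F)) (sheet_chart_le hs₁) := by
    intro b hb
    rw [mem_centreW]
    have h1 := hc₁ b hb
    have hwn : algebraMap R F w ∈ V₁.nonunits := hs₁.2.2.1
    have : (b : F) = algebraMap R F w * ((b : F) * (algebraMap R F w)⁻¹) := by
      field_simp
    rw [this]
    exact nu_mul_right V₁ hwn h1
  have hmin := centre_mem_minimalPrimes hs₁
  have hspan : Ideal.span {algebraMap R (chart R ({x} : Set F)) w} ≤ p₁ := by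
    rw [Ideal.span_le, Set.singleton_subset_iff]
    exact hw₁
  exact le_antisymm (hmin.2 ⟨hp₁, hspan⟩ hle) hle

variable [IsNoetherianRing R] [IsIntegrallyClosed R[X]] [CharZero F]

/-- **Two reduced components ⟹ two sheets.** -/
theorem complete_of_inf_eq (hinjR : Function.Injective (algebraMap R F)) {w : R} (hw : Prime w)
    {x : F} (hx : Transcendental R x) [FiniteDimensional (baseField R x) F]
    (V₁ V₂ : ValuationSubring F) (hs₁ : IsSheet w x V₁) (hs₂ : IsSheet w x V₂)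
    (p₁ p₂ : Ideal (chart R ({x} : Set F))) (hp₁ : p₁.IsPrime) (hp₂ : p₂.IsPrime)
    (hinf : p₁ ⊓ p₂ = Ideal.span {algebraMap R (chart R ({x} : Set F)) w})
    (hc₁ : ∀ b : chart R ({x} : Set F), b ∈ p₁ → (b : F) * (algebraMap R F w)⁻¹ ∈ V₁)
    (hc₂ : ∀ b : chart R ({x} : Set F), b ∈ p₂ → (b : F) * (algebraMap R F w)⁻¹ ∈ V₂) :
    ∀ V : ValuationSubring F, IsSheet w x V → V = V₁ ∨ V = V₂ := by
  intro V hV
  have hw0 : algebraMap R F w ≠ 0 := fun h0 => hw.ne_zero (hinjR (by rw [h0, map_zero]))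
  have hwinf : algebraMap R (chart R ({x} : Set F)) w ∈ p₁ ⊓ p₂ := by
    rw [hinf]
    exact Ideal.subset_span rfl
  have h₁ := centre_eq_of_le hw0 hs₁ p₁ hp₁ hwinf.1 hc₁
  have h₂ := centre_eq_of_le hw0 hs₂ p₂ hp₂ hwinf.2 hc₂
  set p := centreW V (chart R ({x} : Set F)) (sheet_chart_le hV) with hp
  have hmin := centre_mem_minimalPrimes hV
  have hpp : p.IsPrime := hmin.1.1
  have hle : p₁ ⊓ p₂ ≤ p := by
    rw [hinf]
    exact hmin.1.2
  have hspan₁ : Ideal.span {algebraMap R (chart R ({x} : Set F)) w} ≤ p₁ := by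
    rw [← hinf]; exact inf_le_left
  have hspan₂ : Ideal.span {algebraMap R (chart R ({x} : Set F)) w} ≤ p₂ := by
    rw [← hinf]; exact inf_le_right
  rcases (Ideal.IsPrime.inf_le hpp).1 hle with h | h
  · left
    have : p = p₁ := le_antisymm (hmin.2 ⟨hp₁, hspan₁⟩ h) h
    exact sheet_eq_of_centre_eq hinjR hw hx hV hs₁ (by rw [← hp, this, h₁])
  · right
    have : p = p₂ := le_antisymm (hmin.2 ⟨hp₂, hspan₂⟩ h) h
    exact sheet_eq_of_centre_eq hinjR hw hx hV hs₂ (by rw [← hp, this, h₂])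

end Two

end Fermat.Agent.S36.Mod3.H27

end
-- ===== PACK-END S36/Mod3/H27/SheetsTwo.lean

-- ===== PACK-BEGIN S36/Mod3/H189/Chart3.lean
section





/-!
# S36 / MOD3, cell CHART3 (helper189) — the chart fields of `TripleCtx` at level `M q²`

Level `N' = M q` (`F' = F_E(M q)`), level `N = M q q` (`F = F_E(M q q)`), degeneracy maps
`α = A2.Mod.αE E (M q) q`, `β = A2.Mod.βE E (M q) q : F' → F`.  Coordinates

* `x' = A2.Mod.xE E M q = j · j_q`            (the A2 coordinate of level `M q`),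
* `x  = x3 E M q = j · j_q · j_{q²}`   (the coordinate of level `M q²` suggested by the architect).

Results (all from the monicity of `Φ_q` and its two vanishing properties, `S28.ModPolyData q`):

* `j_mem_chart`, `jq_mem_chart`, `jqq_mem_chart`           : `j, j_q, j_{q²} ∈ chart R {x}`;
* `j_inv_mem_chart`, `jq_inv_mem_chart`, `jqq_inv_mem_chart` : their inverses lie in `chart R {x⁻¹}`;
* `chart_α`, `chart_β`  : the fields `chart_α`, `chart_β` of `S36.Eng.TripleCtx`;
* `int_α`, `int_β`      : the fields `int_α`, `int_β` of `S36.Eng.TripleCtx`.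

No hypothesis on `P`, `E`, `M`, `q` beyond `q` prime.
-/

set_option autoImplicit false
set_option synthInstance.maxHeartbeats 400000
set_option maxHeartbeats 1600000

noncomputable section

namespace Fermat.Agent.S36.Mod3.H189

open ModularCurve Polynomial
open Fermat.Agent.S18.H138 (chart mem_chart mem_chart_of_mem)
open Fermat.Agent

/-- transport of a vanishing statement `Φ(a; b) = 0` along a ring homomorphism -/
theorem eval₂_aeval_map {K L : Type*} [CommRing K] [CommRing L] (φ : K →+* L)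
    (Φ : Polynomial (Polynomial ℤ)) (a b : K)
    (h : Φ.eval₂ (Polynomial.aeval (R := ℤ) b).toRingHom a = 0) :
    Φ.eval₂ (Polynomial.aeval (R := ℤ) (φ b)).toRingHom (φ a) = 0 := by
  have h1 := Polynomial.hom_eval₂ Φ (Polynomial.aeval (R := ℤ) b).toRingHom φ a
  have hcomp : φ.comp (Polynomial.aeval (R := ℤ) b).toRingHom =
      (Polynomial.aeval (R := ℤ) (φ b)).toRingHom := by
    apply Polynomial.ringHom_ext
    · intro n
      simp
    · simp
  rw [hcomp, h, map_zero] at h1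
  exact h1.symm

variable (P : ValuationSubring A2.Qb) (E : IntermediateField ℚ A2.Qb) (M q : ℕ)
  [NeZero M] [NeZero q] [NeZero (M * q)]

/-! ## The generators -/

/-- `j` at level `M q`. -/
abbrev j' : A2.Mod.FE E (M * q) := A2.Mod.jE E (M * q) 1 (one_dvd _)

/-- `j_q` at level `M q`. -/
abbrev jq' : A2.Mod.FE E (M * q) := A2.Mod.jE E (M * q) q (dvd_mul_left q M)

/-- `j` at level `M q q`. -/
abbrev j3 : A2.Mod.FE E (M * q * q) := A2.Mod.jE E (M * q * q) 1 (one_dvd _)

/-- `j_q` at level `M q q`. -/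
abbrev jq3 : A2.Mod.FE E (M * q * q) := A2.Mod.jE E (M * q * q) q (dvd_mul_left q (M * q))

/-- `j_{q²}` at level `M q q`. -/
abbrev jqq3 : A2.Mod.FE E (M * q * q) :=
  A2.Mod.jE E (M * q * q) (q * q) (by rw [mul_assoc]; exact dvd_mul_left (q * q) M)

/-- **The coordinate of level `M q²`**: `x = j · j_q · j_{q²}`. -/
def x3 : A2.Mod.FE E (M * q * q) := j3 E M q * jq3 E M q * jqq3 E M q

theorem x3_def : x3 E M q = j3 E M q * jq3 E M q * jqq3 E M q := rfl

theorem xE_eq : A2.Mod.xE E M q = j' E M q * jq' E M q := rfl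

/-! ## The degeneracy maps on the generators -/

theorem alpha_j' : A2.Mod.αE E (M * q) q (j' E M q) = j3 E M q :=
  A2.Mod.H751.alpha_jE E (M * q) q 1 (one_dvd _)

theorem alpha_jq' : A2.Mod.αE E (M * q) q (jq' E M q) = jq3 E M q :=
  A2.Mod.H751.alpha_jE E (M * q) q q (dvd_mul_left q M)

theorem beta_j' : A2.Mod.βE E (M * q) q (j' E M q) = jq3 E M q := by
  rw [A2.Mod.H751.beta_jE E (M * q) q 1 (one_dvd _)]
  exact A2.Mod.H751.jE_congr E (M * q * q) (mul_one q) _ _

theorem beta_jq' : A2.Mod.βE E (M * q) q (jq' E M q) = jqq3 E M q :=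
  A2.Mod.H751.beta_jE E (M * q) q q (dvd_mul_left q M)

theorem alpha_xE : A2.Mod.αE E (M * q) q (A2.Mod.xE E M q) = j3 E M q * jq3 E M q := by
  rw [xE_eq, map_mul, alpha_j', alpha_jq']

theorem beta_xE : A2.Mod.βE E (M * q) q (A2.Mod.xE E M q) = jq3 E M q * jqq3 E M q := by
  rw [xE_eq, map_mul, beta_j', beta_jq']

/-! ## The modular equations -/

section ModEq

variable (D : S28.ModPolyData q)

/-- `Φ_q(X = j; Y = j_q) = 0` at level `M q`. -/
theorem modEq_j' : D.Φ.eval₂ (Polynomial.aeval (R := ℤ) (jq' E M q)).toRingHom (j' E M q) = 0 :=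
  A2.Mod.H873.eval₂_eq_zero_of_int E (M * q) D.Φ _ _ _ _ (A2.Mod.H873.coe_jE_one E (M * q))
    (A2.Mod.H873.coe_jE_int E (M * q) q (dvd_mul_left q M)) D.eval_j

/-- `Φ_q(X = j_q; Y = j) = 0` at level `M q`. -/
theorem modEq_jq' : D.Φ.eval₂ (Polynomial.aeval (R := ℤ) (j' E M q)).toRingHom (jq' E M q) = 0 :=
  A2.Mod.H873.eval₂_eq_zero_of_int E (M * q) D.Φ _ _ _ _
    (A2.Mod.H873.coe_jE_int E (M * q) q (dvd_mul_left q M)) (A2.Mod.H873.coe_jE_one E (M * q)) D.eval_jp

/-- `Φ_q(X = j; Y = j_q) = 0` at level `M q q`. -/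
theorem modEq_j_jq : D.Φ.eval₂ (Polynomial.aeval (R := ℤ) (jq3 E M q)).toRingHom (j3 E M q) = 0 := by
  have := eval₂_aeval_map (A2.Mod.αE E (M * q) q : A2.Mod.FE E (M * q) →+* A2.Mod.FE E (M * q * q)) D.Φ _ _
    (modEq_j' E M q D)
  rwa [AlgHom.coe_toRingHom, alpha_j', alpha_jq'] at this

/-- `Φ_q(X = j_q; Y = j) = 0` at level `M q q`. -/
theorem modEq_jq_j : D.Φ.eval₂ (Polynomial.aeval (R := ℤ) (j3 E M q)).toRingHom (jq3 E M q) = 0 := by
  have := eval₂_aeval_map (A2.Mod.αE E (M * q) q : A2.Mod.FE E (M * q) →+* A2.Mod.FE E (M * q * q)) D.Φ _ _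
    (modEq_jq' E M q D)
  rwa [AlgHom.coe_toRingHom, alpha_j', alpha_jq'] at this

/-- `Φ_q(X = j_q; Y = j_{q²}) = 0` at level `M q q`. -/
theorem modEq_jq_jqq :
    D.Φ.eval₂ (Polynomial.aeval (R := ℤ) (jqq3 E M q)).toRingHom (jq3 E M q) = 0 := by
  have := eval₂_aeval_map (A2.Mod.βE E (M * q) q : A2.Mod.FE E (M * q) →+* A2.Mod.FE E (M * q * q)) D.Φ _ _
    (modEq_j' E M q D)
  rwa [AlgHom.coe_toRingHom, beta_j', beta_jq'] at this

/-- `Φ_q(X = j_{q²}; Y = j_q) = 0` at level `M q q`. -/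
theorem modEq_jqq_jq :
    D.Φ.eval₂ (Polynomial.aeval (R := ℤ) (jq3 E M q)).toRingHom (jqq3 E M q) = 0 := by
  have := eval₂_aeval_map (A2.Mod.βE E (M * q) q : A2.Mod.FE E (M * q) →+* A2.Mod.FE E (M * q * q)) D.Φ _ _
    (modEq_jq' E M q D)
  rwa [AlgHom.coe_toRingHom, beta_j', beta_jq'] at this

end ModEq

/-! ## The generators lie in the charts -/

section Mem

variable (hq : q.Prime)
include hq

/-- valuation subrings containing `x = j j_q j_{q²}` contain `j`, `j_q`, `j_{q²}` -/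
theorem mem_of_x3_mem (V : ValuationSubring (A2.Mod.FE E (M * q * q))) (hx : x3 E M q ∈ V) :
    j3 E M q ∈ V ∧ jq3 E M q ∈ V ∧ jqq3 E M q ∈ V := by
  obtain ⟨D⟩ := S28.H807.nonempty_modPolyData q hq
  exact mem_triple V
    (fun h => mem_valuationSubring_of_monic D.Φ D.monic (modEq_jq_j E M q D) V h)
    (fun h => mem_valuationSubring_of_monic D.Φ D.monic (modEq_j_jq E M q D) V h)
    (fun h => mem_valuationSubring_of_monic D.Φ D.monic (modEq_jqq_jq E M q D) V h)
    (fun h => mem_valuationSubring_of_monic D.Φ D.monic (modEq_jq_jqq E M q D) V h) hx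

/-- valuation subrings containing `x⁻¹` contain `j⁻¹`, `j_q⁻¹`, `j_{q²}⁻¹` -/
theorem inv_mem_of_x3_inv_mem (V : ValuationSubring (A2.Mod.FE E (M * q * q)))
    (hx : (x3 E M q)⁻¹ ∈ V) :
    (j3 E M q)⁻¹ ∈ V ∧ (jq3 E M q)⁻¹ ∈ V ∧ (jqq3 E M q)⁻¹ ∈ V := by
  obtain ⟨D⟩ := S28.H807.nonempty_modPolyData q hq
  exact inv_mem_triple (A2.Mod.H873.jE_ne_zero E _ _ _) (A2.Mod.H873.jE_ne_zero E _ _ _)
    (A2.Mod.H873.jE_ne_zero E _ _ _) V
    (fun h => mem_valuationSubring_of_monic D.Φ D.monic (modEq_jq_j E M q D) V h)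
    (fun h => mem_valuationSubring_of_monic D.Φ D.monic (modEq_j_jq E M q D) V h)
    (fun h => mem_valuationSubring_of_monic D.Φ D.monic (modEq_jqq_jq E M q D) V h)
    (fun h => mem_valuationSubring_of_monic D.Φ D.monic (modEq_jq_jqq E M q D) V h) hx

theorem j_mem_chart : j3 E M q ∈ chart (A2.RE P E) ({x3 E M q} : Set (A2.Mod.FE E (M * q * q))) :=
  mem_chart_of_forall_valuationSubring fun V hx => (mem_of_x3_mem E M q hq V hx).1

theorem jq_mem_chart : jq3 E M q ∈ chart (A2.RE P E) ({x3 E M q} : Set (A2.Mod.FE E (M * q * q))) :=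
  mem_chart_of_forall_valuationSubring fun V hx => (mem_of_x3_mem E M q hq V hx).2.1

theorem jqq_mem_chart : jqq3 E M q ∈ chart (A2.RE P E) ({x3 E M q} : Set (A2.Mod.FE E (M * q * q))) :=
  mem_chart_of_forall_valuationSubring fun V hx => (mem_of_x3_mem E M q hq V hx).2.2

theorem j_inv_mem_chart :
    (j3 E M q)⁻¹ ∈ chart (A2.RE P E) ({(x3 E M q)⁻¹} : Set (A2.Mod.FE E (M * q * q))) :=
  mem_chart_of_forall_valuationSubring fun V hx => (inv_mem_of_x3_inv_mem E M q hq V hx).1

theorem jq_inv_mem_chart :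
    (jq3 E M q)⁻¹ ∈ chart (A2.RE P E) ({(x3 E M q)⁻¹} : Set (A2.Mod.FE E (M * q * q))) :=
  mem_chart_of_forall_valuationSubring fun V hx => (inv_mem_of_x3_inv_mem E M q hq V hx).2.1

theorem jqq_inv_mem_chart :
    (jqq3 E M q)⁻¹ ∈ chart (A2.RE P E) ({(x3 E M q)⁻¹} : Set (A2.Mod.FE E (M * q * q))) :=
  mem_chart_of_forall_valuationSubring fun V hx => (inv_mem_of_x3_inv_mem E M q hq V hx).2.2

/-- `j ∈ chart R {x'}` at level `M q`. -/
theorem j'_mem_chart : j' E M q ∈ chart (A2.RE P E) ({A2.Mod.xE E M q} : Set (A2.Mod.FE E (M * q))) := by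
  obtain ⟨D⟩ := S28.H807.nonempty_modPolyData q hq
  exact mem_chart_of_isIntegral_closure
    (A2.Mod.H873.isIntegral_closure_mul D.Φ D.monic (modEq_j' E M q D))

/-- `j_q ∈ chart R {x'}` at level `M q`. -/
theorem jq'_mem_chart : jq' E M q ∈ chart (A2.RE P E) ({A2.Mod.xE E M q} : Set (A2.Mod.FE E (M * q))) := by
  obtain ⟨D⟩ := S28.H807.nonempty_modPolyData q hq
  have h := A2.Mod.H873.isIntegral_closure_mul D.Φ D.monic (modEq_jq' E M q D)
  rw [mul_comm (jq' E M q) (j' E M q)] at h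
  exact mem_chart_of_isIntegral_closure h

/-! ## The fields `chart_α`, `chart_β`, `int_α`, `int_β` of `TripleCtx` -/

/-- **`chart_α`.** -/
theorem chart_α : ∀ b ∈ chart (A2.RE P E) ({A2.Mod.xE E M q} : Set (A2.Mod.FE E (M * q))),
    A2.Mod.αE E (M * q) q b ∈ chart (A2.RE P E) ({x3 E M q} : Set (A2.Mod.FE E (M * q * q))) := by
  apply chart_map
  rw [alpha_xE]
  exact Subalgebra.mul_mem _ (j_mem_chart P E M q hq) (jq_mem_chart P E M q hq)

/-- **`chart_β`.** -/
theorem chart_β : ∀ b ∈ chart (A2.RE P E) ({A2.Mod.xE E M q} : Set (A2.Mod.FE E (M * q))),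
    A2.Mod.βE E (M * q) q b ∈ chart (A2.RE P E) ({x3 E M q} : Set (A2.Mod.FE E (M * q * q))) := by
  apply chart_map
  rw [beta_xE]
  exact Subalgebra.mul_mem _ (jq_mem_chart P E M q hq) (jqq_mem_chart P E M q hq)

/-- **`int_α`.** -/
theorem int_α : ∀ b ∈ chart (A2.RE P E) ({x3 E M q} : Set (A2.Mod.FE E (M * q * q))),
    ∃ p : Polynomial (A2.Mod.FE E (M * q)), p.Monic ∧
      (∀ i, p.coeff i ∈ chart (A2.RE P E) ({A2.Mod.xE E M q} : Set (A2.Mod.FE E (M * q)))) ∧
      (p.map (A2.Mod.αE E (M * q) q : A2.Mod.FE E (M * q) →+* A2.Mod.FE E (M * q * q))).eval b = 0 := by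
  obtain ⟨D⟩ := S28.H807.nonempty_modPolyData q hq
  apply int_map
  -- `x = α x' · j_{q²}`
  have hx : x3 E M q = A2.Mod.αE E (M * q) q (A2.Mod.xE E M q) * jqq3 E M q := by
    rw [alpha_xE, x3_def]
  rw [hx]
  have h1 : A2.Mod.αE E (M * q) q (A2.Mod.xE E M q) ∈ imgChart (R := A2.RE P E) (A2.Mod.αE E (M * q) q) (A2.Mod.xE E M q) :=
    mem_imgChart.mpr ⟨A2.Mod.xE E M q, mem_chart_of_mem rfl, rfl⟩
  have h2 : jq3 E M q ∈ imgChart (R := A2.RE P E) (A2.Mod.αE E (M * q) q) (A2.Mod.xE E M q) :=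
    mem_imgChart.mpr ⟨jq' E M q, jq'_mem_chart P E M q hq, alpha_jq' E M q⟩
  exact (isIntegral_algebraMap (R := imgChart (R := A2.RE P E) (A2.Mod.αE E (M * q) q) (A2.Mod.xE E M q))
    (x := ⟨_, h1⟩)).mul (isIntegral_of_monic_eval₂ D.Φ D.monic (modEq_jqq_jq E M q D) h2)

/-- **`int_β`.** -/
theorem int_β : ∀ b ∈ chart (A2.RE P E) ({x3 E M q} : Set (A2.Mod.FE E (M * q * q))),
    ∃ p : Polynomial (A2.Mod.FE E (M * q)), p.Monic ∧
      (∀ i, p.coeff i ∈ chart (A2.RE P E) ({A2.Mod.xE E M q} : Set (A2.Mod.FE E (M * q)))) ∧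
      (p.map (A2.Mod.βE E (M * q) q : A2.Mod.FE E (M * q) →+* A2.Mod.FE E (M * q * q))).eval b = 0 := by
  obtain ⟨D⟩ := S28.H807.nonempty_modPolyData q hq
  apply int_map
  -- `x = j · β x'`
  have hx : x3 E M q = j3 E M q * A2.Mod.βE E (M * q) q (A2.Mod.xE E M q) := by
    rw [beta_xE, x3_def]
    exact mul_assoc (j3 E M q) (jq3 E M q) (jqq3 E M q)
  rw [hx]
  have h1 : A2.Mod.βE E (M * q) q (A2.Mod.xE E M q) ∈ imgChart (R := A2.RE P E) (A2.Mod.βE E (M * q) q) (A2.Mod.xE E M q) :=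
    mem_imgChart.mpr ⟨A2.Mod.xE E M q, mem_chart_of_mem rfl, rfl⟩
  have h2 : jq3 E M q ∈ imgChart (R := A2.RE P E) (A2.Mod.βE E (M * q) q) (A2.Mod.xE E M q) :=
    mem_imgChart.mpr ⟨j' E M q, j'_mem_chart P E M q hq, beta_j' E M q⟩
  exact (isIntegral_of_monic_eval₂ D.Φ D.monic (modEq_j_jq E M q D) h2).mul
    (isIntegral_algebraMap (R := imgChart (R := A2.RE P E) (A2.Mod.βE E (M * q) q) (A2.Mod.xE E M q))
      (x := ⟨_, h1⟩))

end Mem

end Fermat.Agent.S36.Mod3.H189

end

end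
-- ===== PACK-END S36/Mod3/H189/Chart3.lean

-- ===== PACK-BEGIN S36/Mod3/H189/ChartLeaf.lean
section



/-!
# S36 / MOD3, leaf CHART (helper189): the integrality half of `LeafChart`, in the frozen shape

`Mod3.LeafChart` (= `PartChart` at the concrete objects of `Mod3/Spec.lean`) has eight fields.
The four integrality fields `chart_α`, `chart_β`, `int_α`, `int_β` are proved in
`Mod3/H189/Chart3.lean` (monicity of `Φ_q` + valuative criterion, no hypothesis beyond `q` prime).
The four residue fields `res_α₁`, `res_α₂`, `res_β₃`, `res_β₂` are collected in `LeafRes`: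

* `x3_eq_x3E`            : the coordinate of `Chart3.lean` is `Mod3.x3E` (`rfl`);
* `chart_α_x3E`, `chart_β_x3E`, `int_α_x3E`, `int_β_x3E` : the four fields at `x3E`, VERBATIM;
* `j1_mem_chart` … `jqq_inv_mem_chart` : `j, j_q, j_{q²} ∈ chart R {x3E}`, inverses in
  `chart R {x3E⁻¹}`;
* `LeafRes`, `leafChart_of_res : LeafRes → LeafChart`.
-/

set_option autoImplicit false
set_option linter.style.haveILetI false
set_option linter.unusedSectionVars false
set_option synthInstance.maxHeartbeats 400000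
set_option maxHeartbeats 1600000

noncomputable section

namespace Fermat.Agent.S36.Mod3.H189

open ModularCurve
open Fermat.Agent.S18.H138 (chart)
open Fermat.Agent Fermat.Agent.S36.Eng

section Concrete

variable (P : ValuationSubring A2.Qb) (E : IntermediateField ℚ A2.Qb) (M q : ℕ)
  [NeZero M] [NeZero q] [NeZero (M * q)]

theorem x3_eq_x3E : x3 E M q = Mod3.x3E E M q := rfl

theorem j3_eq_j1 : j3 E M q = Mod3.j1 E M q := rfl

theorem jq3_eq_jq : jq3 E M q = Mod3.jq E M q := rfl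

theorem jqq3_eq_jqq : jqq3 E M q = Mod3.jqq E M q := rfl

variable (hq : q.Prime)
include hq

theorem j1_mem_chart :
    Mod3.j1 E M q ∈ chart (A2.RE P E) ({Mod3.x3E E M q} : Set (A2.Mod.FE E (M * q * q))) :=
  j_mem_chart P E M q hq

theorem jq_mem_chart' :
    Mod3.jq E M q ∈ chart (A2.RE P E) ({Mod3.x3E E M q} : Set (A2.Mod.FE E (M * q * q))) :=
  jq_mem_chart P E M q hq

theorem jqq_mem_chart' :
    Mod3.jqq E M q ∈ chart (A2.RE P E) ({Mod3.x3E E M q} : Set (A2.Mod.FE E (M * q * q))) :=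
  jqq_mem_chart P E M q hq

theorem j1_inv_mem_chart :
    (Mod3.j1 E M q)⁻¹ ∈
      chart (A2.RE P E) ({(Mod3.x3E E M q)⁻¹} : Set (A2.Mod.FE E (M * q * q))) :=
  j_inv_mem_chart P E M q hq

theorem jq_inv_mem_chart' :
    (Mod3.jq E M q)⁻¹ ∈
      chart (A2.RE P E) ({(Mod3.x3E E M q)⁻¹} : Set (A2.Mod.FE E (M * q * q))) :=
  jq_inv_mem_chart P E M q hq

theorem jqq_inv_mem_chart' :
    (Mod3.jqq E M q)⁻¹ ∈
      chart (A2.RE P E) ({(Mod3.x3E E M q)⁻¹} : Set (A2.Mod.FE E (M * q * q))) :=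
  jqq_inv_mem_chart P E M q hq

/-- **`chart_α`** at the frozen objects. -/
theorem chart_α_x3E : ∀ b ∈ chart (A2.RE P E) ({A2.Mod.xE E M q} : Set (A2.Mod.FE E (M * q))),
    A2.Mod.αE E (M * q) q b ∈
      chart (A2.RE P E) ({Mod3.x3E E M q} : Set (A2.Mod.FE E (M * q * q))) :=
  chart_α P E M q hq

/-- **`chart_β`** at the frozen objects. -/
theorem chart_β_x3E : ∀ b ∈ chart (A2.RE P E) ({A2.Mod.xE E M q} : Set (A2.Mod.FE E (M * q))),
    A2.Mod.βE E (M * q) q b ∈
      chart (A2.RE P E) ({Mod3.x3E E M q} : Set (A2.Mod.FE E (M * q * q))) :=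
  chart_β P E M q hq

/-- **`int_α`** at the frozen objects. -/
theorem int_α_x3E :
    ∀ b ∈ chart (A2.RE P E) ({Mod3.x3E E M q} : Set (A2.Mod.FE E (M * q * q))),
    ∃ p : Polynomial (A2.Mod.FE E (M * q)), p.Monic ∧
      (∀ i, p.coeff i ∈ chart (A2.RE P E) ({A2.Mod.xE E M q} : Set (A2.Mod.FE E (M * q)))) ∧
      (p.map (A2.Mod.αE E (M * q) q : A2.Mod.FE E (M * q) →+* A2.Mod.FE E (M * q * q))).eval b
        = 0 :=
  int_α P E M q hq

/-- **`int_β`** at the frozen objects. -/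
theorem int_β_x3E :
    ∀ b ∈ chart (A2.RE P E) ({Mod3.x3E E M q} : Set (A2.Mod.FE E (M * q * q))),
    ∃ p : Polynomial (A2.Mod.FE E (M * q)), p.Monic ∧
      (∀ i, p.coeff i ∈ chart (A2.RE P E) ({A2.Mod.xE E M q} : Set (A2.Mod.FE E (M * q)))) ∧
      (p.map (A2.Mod.βE E (M * q) q : A2.Mod.FE E (M * q) →+* A2.Mod.FE E (M * q * q))).eval b
        = 0 :=
  int_β P E M q hq

end Concrete

/-- The residue half of `PartChart` (residue degree one in chart form), generic. -/
structure PartRes (R : Type*) [CommRing R] {E F F' : Type*} [Field E] [Field F] [Algebra E F]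
    [Algebra R F] [Field F'] [Algebra E F'] [Algebra R F']
    (α β : F' →ₐ[E] F) (x : F) (x' : F') (V₁ V₂ V₃ : ValuationSubring F) : Prop where
  res_α₁ : ∀ b ∈ chart R ({x} : Set F), ∃ b' ∈ chart R ({x'} : Set F'), b - α b' ∈ V₁.nonunits
  res_α₂ : ∀ b ∈ chart R ({x} : Set F), ∃ b' ∈ chart R ({x'} : Set F'), b - α b' ∈ V₂.nonunits
  res_β₃ : ∀ b ∈ chart R ({x} : Set F), ∃ b' ∈ chart R ({x'} : Set F'), b - β b' ∈ V₃.nonunits
  res_β₂ : ∀ b ∈ chart R ({x} : Set F), ∃ b' ∈ chart R ({x'} : Set F'), b - β b' ∈ V₂.nonunits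

/-- **RES (leaf)**: the residue half of `LeafChart`. -/
def LeafRes : Prop :=
  Mod3.Leaf fun P E M q _ _ _ _ _ _ V₁ V₂ V₃ =>
    PartRes (A2.RE P E) (A2.Mod.αE E (M * q) q) (A2.Mod.βE E (M * q) q)
      (Mod3.x3E E M q) (A2.Mod.xE E M q) V₁ V₂ V₃

/-- **`LeafChart` from its residue half.** -/
theorem leafChart_of_res (h : LeafRes) : Mod3.LeafChart := by
  intro P E M q _ _ _ w hS V₁' V₂' V₁ V₂ V₃ W' W hO
  have hr := h P E M q w hS V₁' V₂' V₁ V₂ V₃ W' W hO
  exact
    { chart_α := chart_α_x3E P E M q hS.q_prime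
      chart_β := chart_β_x3E P E M q hS.q_prime
      int_α := int_α_x3E P E M q hS.q_prime
      int_β := int_β_x3E P E M q hS.q_prime
      res_α₁ := hr.res_α₁
      res_α₂ := hr.res_α₂
      res_β₃ := hr.res_β₃
      res_β₂ := hr.res_β₂ }

end Fermat.Agent.S36.Mod3.H189

end

end
-- ===== PACK-END S36/Mod3/H189/ChartLeaf.lean

-- ===== PACK-BEGIN S36/Mod3/H933/FFCore.lean
section



/-!
# S36 / MOD3 leaf FF, core (helper933) — imports only files on main

For `x = j · j_q · j_{q²}` at level `N = M q q` over ANY intermediate field `E ⊆ ℚ̄`: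
`x` is transcendental over `E`, `F = F_E(N)` is finite over `E(x)`, and `E` is algebraically
closed in `F`.  (`ffCore` = the body of `Mod3.LeafFF` with `x3E`, `PartFF` unfolded; no hypothesis
on `q`, `M` beyond `NeZero`.)

Route (as L8 of A2/Mod, helper31): `F ⊆ E((t))`; a Laurent series with a pole is transcendental,
an algebraic Laurent series is constant; `[F : E(j)] = ψ(N)` (helper988) and the exchange
lemma of S24 give finiteness over `E(x)`.
-/

set_option autoImplicit false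
set_option linter.style.haveILetI false
set_option linter.unusedSectionVars false
set_option synthInstance.maxHeartbeats 400000
set_option maxHeartbeats 1600000

noncomputable section

namespace Fermat.Agent.S36.Mod3.H933

open ModularCurve HahnSeries Polynomial IntermediateField
open Fermat.Agent.A2.Mod

variable (E : IntermediateField ℚ Fermat.Agent.A2.Mod.Qb)

/-- transcendence passes from the `t`-expansion to `F_N`. -/
theorem transcendental_of_coe (N : ℕ) (f : FE E N)
    (hf : Transcendental E ((f : FE E N) : LaurentSeries E)) : Transcendental E f := by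
  intro h
  exact hf ((isAlgebraic_algHom_iff (FE E N).val Subtype.val_injective).mpr h)

/-- an element of `F_N` algebraic over `E` is a constant (any level). -/
theorem mem_range_of_isAlgebraic (N : ℕ) (f : FE E N) (hf : IsAlgebraic E f) :
    f ∈ (algebraMap E (FE E N)).range := by
  have h2 : IsAlgebraic E ((f : FE E N) : LaurentSeries E) :=
    (isAlgebraic_algHom_iff (FE E N).val Subtype.val_injective).mpr hf
  obtain ⟨c, hc⟩ := H31.laurent_const_of_isAlgebraic _ h2
  exact ⟨c, Subtype.ext hc.symm⟩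

theorem transcendental_jE_one (N : ℕ) : Transcendental E (jE E N 1 (one_dvd _)) := by
  apply transcendental_of_coe
  rw [H31.coe_jE, qExpand_one_apply]
  exact H31.transcendental_jqModC E

/-- `F_N` is finite over `E(j)` (any level `N ≠ 0`). -/
theorem finiteDimensional_jE_one (N : ℕ) (hN : N ≠ 0) :
    FiniteDimensional (adjoin E ({jE E N 1 (one_dvd _)} : Set (FE E N))) (FE E N) := by
  have hchar : ∀ p : ℕ, p.Prime → p ∣ N → ((p : ℕ) : E) ≠ 0 :=
    fun p hp _ => Nat.cast_ne_zero.mpr hp.ne_zero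
  have h1 : adjoin E {jE E N 1 (one_dvd _)}
      = (adjoin E {((jE E N 1 (one_dvd _) : FE E N) : LaurentSeries E)}).comap
          (FE E N).val := by
    have h0 : (adjoin E {jE E N 1 (one_dvd _)}).map (FE E N).val
        = adjoin E {((jE E N 1 (one_dvd _) : FE E N) : LaurentSeries E)} := by
      rw [adjoin_map, Set.image_singleton]
      rfl
    rw [← h0, comap_map]
  have h2 : Module.finrank (adjoin E ({jE E N 1 (one_dvd _)} : Set (FE E N))) (FE E N)
      = dedekindPsi N := by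
    rw [h1, finrank_comap, fieldRange_val, H31.coe_jE, qExpand_one_apply, H31.FE_eq_fullC]
    exact S28.H988.relfinrank_jField_full_eq E N hN hchar
  apply Module.finite_of_finrank_pos
  rw [h2]
  exact S28.H988.dedekindPsi_pos N hN

/-- `F_N` is finite over `E(y)` for EVERY transcendental `y ∈ F_N` (any level `N ≠ 0`). -/
theorem finiteDimensional_of_transcendental (N : ℕ) (hN : N ≠ 0) (y : FE E N)
    (hy : Transcendental E y) :
    FiniteDimensional (adjoin E ({y} : Set (FE E N))) (FE E N) := by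
  haveI := finiteDimensional_jE_one E N hN
  exact Fermat.Agent.S24.FF.finiteDimensional_adjoin_of_transcendental
    (transcendental_jE_one E N) hy

variable (M q : ℕ) [NeZero M] [NeZero q] [NeZero (M * q)]

/-- `x = j j_q j_{q²}` has a pole at `t = 0`. -/
theorem order_x3_neg :
    (jqModC E * qExpand E q (jqModC E) * qExpand E (q * q) (jqModC E)).order < 0 := by
  have h1 := H31.order_jqModC_neg E
  have h2 := H31.order_qExpand_jqModC_neg E q
  have h3 := H31.order_qExpand_jqModC_neg E (q * q)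
  have hj : jqModC E ≠ 0 := by
    intro h
    rw [h] at h1
    simp at h1
  have hjq : qExpand E q (jqModC E) ≠ 0 := by
    intro h
    rw [h] at h2
    simp at h2
  have hjqq : qExpand E (q * q) (jqModC E) ≠ 0 := by
    intro h
    rw [h] at h3
    simp at h3
  rw [HahnSeries.order_mul (mul_ne_zero hj hjq) hjqq, HahnSeries.order_mul hj hjq]
  omega

/-- `x = j j_q j_{q²}` is transcendental over `E`. -/
theorem transcendental_x3 (h1 : 1 ∣ M * q * q) (hq : q ∣ M * q * q) (hqq : q * q ∣ M * q * q) :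
    Transcendental E (jE E (M * q * q) 1 h1 * jE E (M * q * q) q hq *
      jE E (M * q * q) (q * q) hqq) := by
  apply transcendental_of_coe
  rw [MulMemClass.coe_mul, MulMemClass.coe_mul, H31.coe_jE, H31.coe_jE, H31.coe_jE,
    qExpand_one_apply]
  exact H31.transcendental_of_order_neg (order_x3_neg E q)

/-- **Leaf FF, unfolded.**  The three fields of `Mod3.PartFF E (Mod3.x3E E M q)`. -/
theorem ffCore (h1 : 1 ∣ M * q * q) (hq : q ∣ M * q * q) (hqq : q * q ∣ M * q * q) :
    Transcendental E (jE E (M * q * q) 1 h1 * jE E (M * q * q) q hq *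
        jE E (M * q * q) (q * q) hqq) ∧
      FiniteDimensional
        (adjoin E ({jE E (M * q * q) 1 h1 * jE E (M * q * q) q hq *
          jE E (M * q * q) (q * q) hqq} : Set (FE E (M * q * q)))) (FE E (M * q * q)) ∧
      ∀ f : FE E (M * q * q), IsAlgebraic E f → f ∈ (algebraMap E (FE E (M * q * q))).range := by
  have hN : M * q * q ≠ 0 := mul_ne_zero (NeZero.ne (M * q)) (NeZero.ne q)
  exact ⟨transcendental_x3 E M q h1 hq hqq,
    finiteDimensional_of_transcendental E (M * q * q) hN _ (transcendental_x3 E M q h1 hq hqq),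
    mem_range_of_isAlgebraic E (M * q * q)⟩

end Fermat.Agent.S36.Mod3.H933

end

end
-- ===== PACK-END S36/Mod3/H933/FFCore.lean

-- ===== PACK-BEGIN S59/TW/H653/Bridge587.lean
section





/-!
# S59 / TW-HECKE (helper653): bridge to block M-FREE (`MFree.kerSub κ`, `H587.heckeKer`)

For `κ : Γ₀(M) →* D` trivial on `{d ≡ 1 mod M}` and `Γ' = MFree.kerSub κ`:

* `isMid_kerSub`       : `Γ₁(M) ≤ Γ' ≤ Γ₀(M)`;
* `heckeKer_eq_TK`     : helper587's `T_l` on `Hom(Γ', A)` is `TK M Γ' l`;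
* `conjAct_eq_diamond` : `MFree.conjAct κ g = diamond _ g⁻¹`;
* `heckeKer_comm`      : **the operators `H587.heckeKer` commute**; `heckeKerLin_comm`;
* `heckeKer_UK_comm`   : they commute with `U_q`, `q ∣ M`.
-/

set_option autoImplicit false

namespace Fermat.Agent.S59.TW.H653

open CongruenceSubgroup Matrix.SpecialLinearGroup ModularCurve.Period ModularForm
open Fermat.Agent.S29.H642 Fermat.Agent.S41.H761
open Fermat.Agent.S59.MFree Fermat.Agent.S59.MFree.H587 Fermat.Agent.S59.MFree.H941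
open P2MW.S_ModularForm_heckeT_slash_eq_self_of_mem_Gamma0.ModularForm.HeckeSlashInvariance
open scoped MatrixGroups

section General

variable {𝒢 Γ Γ' : Type*} [Group 𝒢] [Group Γ] [Group Γ'] {I : Type*} [Fintype I]
variable {A : Type*} [AddCommGroup A]

/-- The transfer of a coset system only depends on the values of the embeddings and of the
representatives. -/
theorem transfer_congr {ι κ : Γ →* 𝒢} {ι' κ' : Γ' →* 𝒢} {ρ ρ' : I → 𝒢}
    (h : IsCosetSystem ι ι' ρ) (h' : IsCosetSystem κ κ' ρ') (e : ∀ g, ι g = κ g)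
    (e' : ∀ g, ι' g = κ' g) (eρ : ∀ i, ρ i = ρ' i) (φ : Additive Γ →+ A) :
    h.transfer φ = h'.transfer φ := by
  refine AddMonoidHom.ext fun g' => ?_
  obtain ⟨g, rfl⟩ : ∃ g : Γ', Additive.ofMul g = g' := ⟨Additive.toMul g', rfl⟩
  rw [IsCosetSystem.transfer_apply, IsCosetSystem.transfer_apply]
  refine Finset.sum_congr rfl fun i _ => ?_
  congr 2
  symm
  apply h'.coc_eq (j := h.act i g)
  rw [← eρ, ← eρ, ← e, ← e']
  exact h.spec i g

end General

variable {M : ℕ} {D : Type} [Group D]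

theorem isMid_kerSub (κ : Gamma0 M →* D)
    (hΓ1 : ∀ γ : Gamma0 M, ((((γ : SL(2, ℤ)) 1 1 : ℤ)) : ZMod M) = 1 → κ γ = 1) :
    IsMid M (kerSub κ) :=
  isMid_of_ker κ (fun γ hγ => hΓ1 γ ((Gamma1_mem M _).mp hγ).2.1)

variable {l : ℕ} [Fact l.Prime]

theorem isNormalising_tauT (hl : ¬ l ∣ M) : IsNormalising M l (tauT M l) (l : ZMod M) := by
  have hcop : Nat.Coprime l M := (Nat.Prime.coprime_iff_not_dvd Fact.out).mpr hl
  intro x
  induction x using OnePoint.rec with
  | infty =>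
    show eisD M (sigma M l) * ((eisU l OnePoint.infty : ℕ) : ZMod M) = _
    rw [eisU_infty, Nat.cast_one, mul_one]
    exact dUnit_sigma hcop
  | coe j =>
    show eisD M (1 : Gamma0 M) * ((eisU l (j : OnePoint (ZMod l)) : ℕ) : ZMod M) = _
    rw [eisD_one, eisU_coe, one_mul]

variable (hl : ¬ l ∣ M) (κ : Gamma0 M →* D)
variable (hΓ1 : ∀ γ : Gamma0 M, ((((γ : SL(2, ℤ)) 1 1 : ℤ)) : ZMod M) = 1 → κ γ = 1)
variable {A : Type*} [AddCommGroup A]

/-- **helper587's `T_l` on `Hom(ker κ, A)` is `TK M (ker κ) l`.** -/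
theorem heckeKer_eq_TK (φ : Additive (kerSub κ) →+ A) :
    heckeKer hl κ hΓ1 φ = TK M (kerSub κ) l φ := by
  unfold heckeKer
  rw [heckeKerOf_congr hl κ hΓ1 (wStd hl) (l : ZMod M) (isNormalising_wStd hl) (tauT M l)
    (isNormalising_tauT hl) φ, heckeKerOf_eq, TK_eq (isMid_kerSub κ hΓ1) hl]
  exact transfer_congr _ _ (fun _ => rfl) (fun _ => rfl)
    (fun i => (congrFun (repsT_eq_twist M l) i).symm) φ

/-- The diamond operators of block M-FREE are those of TW-HECKE (inverse convention). -/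
theorem conjAct_eq_diamond (g : Gamma0 M) (φ : Additive (kerSub κ) →+ A) :
    conjAct κ g φ = diamond (isMid_kerSub κ hΓ1) g⁻¹ φ := by
  refine AddMonoidHom.ext fun k' => ?_
  obtain ⟨k, rfl⟩ : ∃ k : kerSub κ, Additive.ofMul k = k' := ⟨Additive.toMul k', rfl⟩
  rw [conjAct_apply, diamond_apply]
  congr 2
  apply Subtype.ext
  simp

/-- **The Hecke operators `H587.heckeKer` commute.** -/
theorem heckeKer_comm {l' : ℕ} [Fact l'.Prime] (hl' : ¬ l' ∣ M)
    (φ : Additive (kerSub κ) →+ A) :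
    heckeKer hl' κ hΓ1 (heckeKer hl κ hΓ1 φ) = heckeKer hl κ hΓ1 (heckeKer hl' κ hΓ1 φ) := by
  simp only [heckeKer_eq_TK]
  exact TK_comm (isMid_kerSub κ hΓ1) hl hl' φ

/-- The `O`-linear Hecke operators `H587.heckeKerLin` commute. -/
theorem heckeKerLin_comm {l' : ℕ} [Fact l'.Prime] (hl' : ¬ l' ∣ M) (O : Type*) [CommRing O]
    (φ : Additive (kerSub κ) →+ O) :
    heckeKerLin hl' κ hΓ1 O (heckeKerLin hl κ hΓ1 O φ) =
      heckeKerLin hl κ hΓ1 O (heckeKerLin hl' κ hΓ1 O φ) :=
  heckeKer_comm hl κ hΓ1 hl' φ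

/-- `H587.heckeKer` commutes with `U_q`, `q ∣ M`. -/
theorem heckeKer_UK_comm {q : ℕ} [Fact q.Prime] (hq : q ∣ M) (φ : Additive (kerSub κ) →+ A) :
    UK (kerSub κ) q (heckeKer hl κ hΓ1 φ) = heckeKer hl κ hΓ1 (UK (kerSub κ) q φ) := by
  simp only [heckeKer_eq_TK]
  exact TK_UK_comm (isMid_kerSub κ hΓ1) hl hq φ

end Fermat.Agent.S59.TW.H653

end
-- ===== PACK-END S59/TW/H653/Bridge587.lean

-- ===== PACK-BEGIN S59/TW/H653/UqKer.lean
section



/-!
# S59 / TW-HECKE (helper653): `U_q` on `Hom(ker κ, A)` in the vocabulary of block M-FREE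

`κ : Γ₀(M) →* D` trivial on `{d ≡ 1 mod M}`, `Γ' = MFree.kerSub κ`, `q ∣ M` prime.

* `UqKer q κ` = `UK (kerSub κ) q` : `U_q` on `Hom(Γ', A)` (representatives `[[1, j], [0, q]]`),
  as an additive endomorphism; `UqKerLin` : the `O`-linear version;
* `cor_UqKer`      : `cor ∘ U_q = U_q ∘ cor` (`U_q` on `Hom(Γ₀(M), A)` is `UK (Gamma0 M) q`);
* `UqKer_res`      : `U_q ∘ res = res ∘ U_q`;
* `UqKer_conjAct`  : `U_q` commutes with the diamond operators `conjAct κ g`;
* `UqKer_heckeKer` : `U_q` commutes with `H587.heckeKer` (`T_l`, `l ∤ M`);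
* `UqKer_comm`     : `U_q U_q' = U_q' U_q`;
* `cor_transfer`   : the general statement for every normalised coset system of `Γ₀(M)`.
-/

set_option autoImplicit false

namespace Fermat.Agent.S59.TW.H653

open CongruenceSubgroup Matrix.SpecialLinearGroup ModularCurve.Period ModularForm
open Fermat.Agent.S29.H642 Fermat.Agent.S41.H761
open Fermat.Agent.S59.MFree Fermat.Agent.S59.MFree.H587 Fermat.Agent.S59.MFree.H941
open P2MW.S_ModularForm_heckeT_slash_eq_self_of_mem_Gamma0.ModularForm.HeckeSlashInvariance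
open scoped MatrixGroups

variable {M : ℕ} {D : Type} [Group D]
variable (κ : Gamma0 M →* D)
variable (hΓ1 : ∀ γ : Gamma0 M, ((((γ : SL(2, ℤ)) 1 1 : ℤ)) : ZMod M) = 1 → κ γ = 1)
variable {A : Type*} [AddCommGroup A]

section General

variable {I : Type*} {ρ : I → GL (Fin 2) ℝ}

include hΓ1 in
/-- The cocycle of a normalised coset system of `Γ₀(M)` preserves `κ`. -/
theorem preservesKappa_of_normRep (h₀ : IsCosetSystem (ιN M) (ιN M) ρ)
    (hρ : ∀ i, IsNormRep M (ρ i)) : PreservesKappa h₀ κ :=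
  fun i g => kappa_congr κ hΓ1 (congrArg Units.val (dUnit_coc h₀ hρ i g))

variable [Fintype I]

/-- **`cor` commutes with the transfer of every normalised coset system of `Γ₀(M)`.** -/
theorem cor_transfer [Finite D] (h₀ : IsCosetSystem (ιN M) (ιN M) ρ)
    (hρ : ∀ i, IsNormRep M (ρ i)) (φ : Additive (kerSub κ) →+ A) :
    cor κ ((system_of_gamma0 (isMid_kerSub κ hΓ1) h₀ hρ).transfer φ) =
      h₀.transfer (cor κ φ) := by
  have := finiteIndex_range_inclusion κ
  have key := transferAlong_restrict h₀ (preservesKappa_of_normRep κ hΓ1 h₀ hρ)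
    (Subgroup.inclusion (kerSub_le κ)) (Subgroup.inclusion_injective _)
    (mem_range_inclusion_iff κ) φ
  rw [← transfer_congr (restrictSystem h₀ (preservesKappa_of_normRep κ hΓ1 h₀ hρ)
    (Subgroup.inclusion (kerSub_le κ)) (Subgroup.inclusion_injective _)
    (mem_range_inclusion_iff κ)) (system_of_gamma0 (isMid_kerSub κ hΓ1) h₀ hρ)
    (fun _ => rfl) (fun _ => rfl) (fun _ => rfl) φ]
  exact key

end General

variable {q : ℕ} [Fact q.Prime]

/-- `U_q` on `Hom(Γ₀(M), A)` is the transfer of the system `repsU_system0`. -/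
theorem UK_Gamma0_eq (hq : q ∣ M) (ψ : Additive (Gamma0 M) →+ A) :
    UK (Gamma0 M) q ψ = (repsU_system0 hq).transfer ψ :=
  sysOp_eq (repsU_system0 hq) ψ

/-- **`U_q`** on `Hom(ker κ, A)` as an additive endomorphism. -/
noncomputable def UqKer (hq : q ∣ M) :
    (Additive (kerSub κ) →+ A) →+ (Additive (kerSub κ) →+ A) :=
  UKHom (isMid_kerSub κ hΓ1) A hq

@[simp] theorem UqKer_apply (hq : q ∣ M) (φ : Additive (kerSub κ) →+ A) :
    UqKer κ hΓ1 hq φ = UK (kerSub κ) q φ := rfl

/-- `cor ∘ U_q = U_q ∘ cor`. -/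
theorem cor_UqKer [Finite D] (hq : q ∣ M) (φ : Additive (kerSub κ) →+ A) :
    cor κ (UqKer κ hΓ1 hq φ) = UK (Gamma0 M) q (cor κ φ) := by
  rw [UqKer_apply, UK_eq (isMid_kerSub κ hΓ1) hq, UK_Gamma0_eq hq]
  exact cor_transfer κ hΓ1 (repsU_system0 hq) (isNormRep_repsU q) φ

/-- `U_q ∘ res = res ∘ U_q`. -/
theorem UqKer_res (hq : q ∣ M) (y : Additive (Gamma0 M) →+ A) :
    UqKer κ hΓ1 hq (res κ y) = res κ (UK (Gamma0 M) q y) :=
  resK_UK (isMid_Gamma0 M) (isMid_kerSub κ hΓ1) (kerSub_le κ) hq y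

/-- `U_q` commutes with the diamond operators. -/
theorem UqKer_conjAct (hq : q ∣ M) (g : Gamma0 M) (φ : Additive (kerSub κ) →+ A) :
    UqKer κ hΓ1 hq (conjAct κ g φ) = conjAct κ g (UqKer κ hΓ1 hq φ) := by
  rw [conjAct_eq_diamond κ hΓ1, conjAct_eq_diamond κ hΓ1]
  exact diamond_UK (isMid_kerSub κ hΓ1) hq g⁻¹ φ

/-- `U_q` commutes with `T_l`. -/
theorem UqKer_heckeKer (hq : q ∣ M) {l : ℕ} [Fact l.Prime] (hl : ¬ l ∣ M)
    (φ : Additive (kerSub κ) →+ A) :
    UqKer κ hΓ1 hq (heckeKer hl κ hΓ1 φ) = heckeKer hl κ hΓ1 (UqKer κ hΓ1 hq φ) :=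
  heckeKer_UK_comm hl κ hΓ1 hq φ

/-- `U_q` and `U_q'` commute. -/
theorem UqKer_comm (hq : q ∣ M) {q' : ℕ} [Fact q'.Prime] (hq' : q' ∣ M)
    (φ : Additive (kerSub κ) →+ A) :
    UqKer κ hΓ1 hq' (UqKer κ hΓ1 hq φ) = UqKer κ hΓ1 hq (UqKer κ hΓ1 hq' φ) :=
  UK_comm (isMid_kerSub κ hΓ1) hq hq' φ

/-- **`U_q`**, `O`-linear. -/
noncomputable def UqKerLin (hq : q ∣ M) (O : Type*) [CommRing O] :
    (Additive (kerSub κ) →+ O) →ₗ[O] (Additive (kerSub κ) →+ O) where
  toFun φ := UqKer κ hΓ1 hq φ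
  map_add' := map_add _
  map_smul' a φ := by
    have h1 : a • φ = (AddMonoidHom.mulLeft a).comp φ := by
      ext h
      rfl
    have h2 : a • UqKer κ hΓ1 hq φ = (AddMonoidHom.mulLeft a).comp (UqKer κ hΓ1 hq φ) := by
      ext h
      rfl
    rw [RingHom.id_apply, h1, h2, UqKer_apply, UqKer_apply]
    exact UK_comp (isMid_kerSub κ hΓ1) hq _ φ

@[simp] theorem UqKerLin_apply (hq : q ∣ M) (O : Type*) [CommRing O]
    (φ : Additive (kerSub κ) →+ O) : UqKerLin κ hΓ1 hq O φ = UqKer κ hΓ1 hq φ := rfl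

/-- `U_q` on `Hom(Γ₀(M), O)`, `O`-linear. -/
noncomputable def Uq0Lin (hq : q ∣ M) (O : Type*) [CommRing O] :
    (Additive (Gamma0 M) →+ O) →ₗ[O] (Additive (Gamma0 M) →+ O) where
  toFun φ := UK (Gamma0 M) q φ
  map_add' := UK_add (isMid_Gamma0 M) hq
  map_smul' a φ := by
    have h1 : a • φ = (AddMonoidHom.mulLeft a).comp φ := by
      ext h
      rfl
    have h2 : a • UK (Gamma0 M) q φ = (AddMonoidHom.mulLeft a).comp (UK (Gamma0 M) q φ) := by
      ext h
      rfl
    rw [RingHom.id_apply, h1, h2]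
    exact UK_comp (isMid_Gamma0 M) hq _ φ

@[simp] theorem Uq0Lin_apply (hq : q ∣ M) (O : Type*) [CommRing O]
    (φ : Additive (Gamma0 M) →+ O) : Uq0Lin hq O φ = UK (Gamma0 M) q φ := rfl

end Fermat.Agent.S59.TW.H653

end
-- ===== PACK-END S59/TW/H653/UqKer.lean

-- ===== PACK-BEGIN S59/NM/H709/Factor.lean
section





/-!
# S59 / cell NM, leaf ETAB (helper709): cuspidal classes factor through the period lattice

`Λ = S30.H709.perLattice N` is the lattice of period functionals `λ_γ` on `S₂(Γ₀(N))`,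
`perClsHom N : Γ₀(N) → Λ` the (surjective) class map.

* `real_eq_zero_of_perCls_eq_zero` : a real parabolic character vanishes on the kernel of the class
  map (Eichler–Shimura, `S21.exists_re_periodMap_eq`);
* `eq_zero_of_perCls_eq_zero` : the same for parabolic characters with values in a domain of
  characteristic `0` (separation by a `ℚ`-linear functional on the fraction field);
* `ofCls x hx : Λ →+ O` with `toCls (ofCls x hx) = x` for a cuspidal class `x`;
  `toCls u = u ∘ perClsHom` is cuspidal and `toCls` is injective;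
* `toCls_comp_perRho` : the transposed action of `T_ℓ` on `Λ` induces the Hecke transfer.
-/

set_option autoImplicit false

noncomputable section

namespace Fermat.Agent.S59.NM.H709

open CongruenceSubgroup ModularCurve ModularCurve.Period
open Fermat.Agent.S30.H709 Fermat.Agent.S41.Spec Fermat.Agent.S29
open scoped MatrixGroups

variable {N : ℕ} [NeZero N]

/-- The class map `γ ↦ λ_γ` as an additive homomorphism. -/
def perClsHom (N : ℕ) [NeZero N] : Additive (Gamma0 N) →+ perLattice N where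
  toFun γ := perCls N (Additive.toMul γ)
  map_zero' := perCls_one
  map_add' γ δ := perCls_mul (Additive.toMul γ) (Additive.toMul δ)

@[simp] theorem perClsHom_apply (γ : Gamma0 N) :
    perClsHom N (Additive.ofMul γ) = perCls N γ := rfl

theorem perClsHom_surjective : Function.Surjective (perClsHom N) := by
  intro x
  induction x using perCls_induction with
  | h0 => exact ⟨0, map_zero _⟩
  | hadd x y hx hy =>
    obtain ⟨a, rfl⟩ := hx
    obtain ⟨b, rfl⟩ := hy
    exact ⟨a + b, map_add _ _ _⟩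
  | hneg x hx =>
    obtain ⟨a, rfl⟩ := hx
    exact ⟨-a, map_neg _ _⟩
  | hcls γ => exact ⟨Additive.ofMul γ, rfl⟩

/-- **Eichler–Shimura**: a real parabolic character kills the kernel of the class map. -/
theorem real_eq_zero_of_perCls_eq_zero (φ : Additive (Gamma0 N) →+ ℝ)
    (hφ : IsParabolicHom (Gamma0 N) φ) {γ : Gamma0 N} (hγ : perCls N γ = 0) :
    φ (Additive.ofMul γ) = 0 := by
  obtain ⟨f, hf⟩ := Fermat.Agent.S21.exists_re_periodMap_eq φ hφ
  rw [← hf γ, ← perFun_apply N γ f]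
  have h0 : perFun N γ = 0 := congrArg Subtype.val hγ
  rw [h0]
  rfl

/-- A parabolic character with values in a `ℚ`-vector space kills the kernel of the class map. -/
theorem rat_eq_zero_of_perCls_eq_zero {V : Type*} [AddCommGroup V] [Module ℚ V]
    (φ : Additive (Gamma0 N) →+ V)
    (hφ : IsParabolicHom (Gamma0 N) φ) {γ : Gamma0 N} (hγ : perCls N γ = 0) :
    φ (Additive.ofMul γ) = 0 := by
  by_contra hne
  obtain ⟨g, hg⟩ := Module.Projective.exists_dual_ne_zero ℚ hne
  let ψ : Additive (Gamma0 N) →+ ℝ :=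
    (((Rat.castHom ℝ).toAddMonoidHom).comp (g : V →+ ℚ)).comp φ
  have hψ : IsParabolicHom (Gamma0 N) ψ := by
    intro δ hδ
    show ((g (φ (Additive.ofMul δ)) : ℚ) : ℝ) = 0
    rw [hφ δ hδ, map_zero, Rat.cast_zero]
  have h := real_eq_zero_of_perCls_eq_zero ψ hψ hγ
  have h' : ((g (φ (Additive.ofMul γ)) : ℚ) : ℝ) = 0 := h
  exact hg (by exact_mod_cast h')

/-- A parabolic character with values in a domain of characteristic `0` kills the kernel of the
class map. -/
theorem eq_zero_of_perCls_eq_zero {O : Type*} [CommRing O] [IsDomain O] [CharZero O]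
    (x : Additive (Gamma0 N) →+ O)
    (hx : IsParabolicHom (Gamma0 N) x) {γ : Gamma0 N} (hγ : perCls N γ = 0) :
    x (Additive.ofMul γ) = 0 := by
  have : CharZero (FractionRing O) :=
    charZero_of_injective_algebraMap (IsFractionRing.injective O (FractionRing O))
  let ι : O →+ FractionRing O := (algebraMap O (FractionRing O)).toAddMonoidHom
  have hι : IsParabolicHom (Gamma0 N) (ι.comp x) := by
    intro δ hδ
    show algebraMap O (FractionRing O) (x (Additive.ofMul δ)) = 0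
    rw [hx δ hδ, map_zero]
  have h := rat_eq_zero_of_perCls_eq_zero (ι.comp x) hι hγ
  have h' : algebraMap O (FractionRing O) (x (Additive.ofMul γ)) = 0 := h
  exact (IsFractionRing.injective O (FractionRing O)) (h'.trans (map_zero _).symm)

section Cls

variable {O : Type*} [CommRing O]

/-- The character of `Γ₀(N)` attached to a functional on the period lattice. -/
def toCls (u : perLattice N →+ O) : Additive (Gamma0 N) →+ O := u.comp (perClsHom N)

@[simp] theorem toCls_apply (u : perLattice N →+ O) (γ : Gamma0 N) :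
    toCls u (Additive.ofMul γ) = u (perCls N γ) := rfl

theorem toCls_add (u v : perLattice N →+ O) : toCls (u + v) = toCls u + toCls v := rfl

theorem toCls_smul (c : O) (u : perLattice N →+ O) : toCls (c • u) = c • toCls u := rfl

theorem toCls_zero : toCls (0 : perLattice N →+ O) = 0 := rfl

theorem toCls_injective : Function.Injective (toCls : (perLattice N →+ O) → _) := by
  intro u v h
  refine AddMonoidHom.ext fun x => ?_
  obtain ⟨γ, rfl⟩ := perClsHom_surjective x
  exact DFunLike.congr_fun h γ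

theorem isCuspidal_toCls [IsDomain O] [CharZero O] (u : perLattice N →+ O) :
    IsCuspidal (toCls u) := by
  refine ⟨fun γ hγ => ?_, fun γ hγ => ?_⟩
  · rw [toCls_apply, perCls_eq_zero_of_trace γ hγ, map_zero]
  · obtain ⟨n, hn, hpow⟩ := isOfFinOrder_iff_pow_eq_one.mp hγ
    rw [toCls_apply, perCls_eq_zero_of_pow hn hpow, map_zero]

variable [IsDomain O] [CharZero O]

/-- The functional on the period lattice attached to a parabolic character. -/
def ofCls (x : Additive (Gamma0 N) →+ O) (hx : IsParabolicHom (Gamma0 N) x) :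
    perLattice N →+ O :=
  (perClsHom N).liftOfRightInverse (Function.surjInv perClsHom_surjective)
    (Function.rightInverse_surjInv perClsHom_surjective)
    ⟨x, fun γ hγ => by
      obtain ⟨γ, rfl⟩ := Additive.ofMul.surjective γ
      rw [AddMonoidHom.mem_ker] at hγ ⊢
      exact eq_zero_of_perCls_eq_zero x hx hγ⟩

theorem toCls_ofCls (x : Additive (Gamma0 N) →+ O) (hx : IsParabolicHom (Gamma0 N) x) :
    toCls (ofCls x hx) = x := by
  unfold toCls ofCls
  exact AddMonoidHom.liftOfRightInverse_comp _ _ _ _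

theorem ofCls_toCls (u : perLattice N →+ O) (h : IsParabolicHom (Gamma0 N) (toCls u)) :
    ofCls (toCls u) h = u :=
  toCls_injective (toCls_ofCls _ h)

end Cls

end Fermat.Agent.S59.NM.H709

end
end
-- ===== PACK-END S59/NM/H709/Factor.lean

-- ===== PACK-BEGIN S59/NM/H709/Action.lean
section



/-!
# S59 / cell NM, leaf ETAB (helper709): the Hecke algebra acts on the cuspidal classes

`W = Hom(Λ, O)`, `Λ` the period lattice.  The Hecke algebra `𝕋 = heckeAlgebra N 2 S` acts on `Λ` by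
transposes (`S30.H709.perRho`), hence on `W`; `heckeBaseAlgebra N S O = O ⊗ 𝕋_lat` acts on `W` by
`Phi`, and the generator `1 ⊗ T_ℓ` acts as the Hecke transfer (`toCls_Phi_gen`).

* `base_induction` : `heckeBaseAlgebra N S O` is generated as an `O`-algebra by the `gen ℓ = 1 ⊗ T_ℓ`
  (when `S` contains the primes dividing `N`).
-/

set_option autoImplicit false

noncomputable section

namespace Fermat.Agent.S59.NM.H709

open CongruenceSubgroup ModularCurve ModularCurve.Period CuspForm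
open Fermat.Agent.S30.H709 Fermat.Agent.S41.Spec Fermat.Agent.S29 Fermat.Agent.S29.H642
open scoped MatrixGroups TensorProduct

variable {N : ℕ} [NeZero N] {S : Set ℕ}

/-- The transposed action of the Hecke algebra on the period lattice. -/
def rhoL (hNS : ∀ q : ℕ, q.Prime → q ∣ N → q ∈ S) :
    heckeAlgebra N 2 S →+* Module.End ℤ (_root_.Fermat.Agent.S30.H709.perLattice N) :=
  perRho (periodHecke_facCoh N) hNS

theorem rhoL_T_perCls (hNS : ∀ q : ℕ, q.Prime → q ∣ N → q ∈ S) {l : ℕ} (hl : l.Prime)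
    (hlN : ¬ l ∣ N) (hlS : l ∉ S) (γ : Gamma0 N) :
    rhoL hNS (heckeAlgebra.T hl hlN hlS) (perCls N γ) = ((facCoh N l γ).map (perCls N)).sum :=
  perRho_perCls (periodHecke_facCoh N) hNS hl hlN hlS γ

variable (O : Type) [CommRing O]

/-- The action of a Hecke operator on `W = Hom(Λ, O)`: `u ↦ u ∘ ᵗt`. -/
def actW (hNS : ∀ q : ℕ, q.Prime → q ∣ N → q ∈ S) (t : heckeAlgebra N 2 S) :
    Module.End O (_root_.Fermat.Agent.S30.H709.perLattice N →+ O) where
  toFun u := u.comp (rhoL hNS t : _root_.Fermat.Agent.S30.H709.perLattice N →ₗ[ℤ] _root_.Fermat.Agent.S30.H709.perLattice N).toAddMonoidHom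
  map_add' _ _ := rfl
  map_smul' _ _ := rfl

theorem actW_apply (hNS : ∀ q : ℕ, q.Prime → q ∣ N → q ∈ S) (t : heckeAlgebra N 2 S)
    (u : _root_.Fermat.Agent.S30.H709.perLattice N →+ O) (x : _root_.Fermat.Agent.S30.H709.perLattice N) : actW O hNS t u x = u (rhoL hNS t x) := rfl

/-- The action of the Hecke algebra on `W`. -/
def actHom (hNS : ∀ q : ℕ, q.Prime → q ∣ N → q ∈ S) :
    heckeAlgebra N 2 S →+* Module.End O (_root_.Fermat.Agent.S30.H709.perLattice N →+ O) where
  toFun := actW O hNS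
  map_one' := by
    refine LinearMap.ext fun u => AddMonoidHom.ext fun x => ?_
    rw [actW_apply, map_one]
    rfl
  map_mul' t s := by
    refine LinearMap.ext fun u => AddMonoidHom.ext fun x => ?_
    rw [Module.End.mul_apply, actW_apply, actW_apply, actW_apply, mul_comm t s, map_mul]
    rfl
  map_zero' := by
    refine LinearMap.ext fun u => AddMonoidHom.ext fun x => ?_
    rw [actW_apply, map_zero]
    simp
  map_add' t s := by
    refine LinearMap.ext fun u => AddMonoidHom.ext fun x => ?_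
    rw [LinearMap.add_apply, AddMonoidHom.add_apply, actW_apply, actW_apply, actW_apply, map_add,
      LinearMap.add_apply, map_add]

theorem actHom_apply (hNS : ∀ q : ℕ, q.Prime → q ∣ N → q ∈ S) (t : heckeAlgebra N 2 S)
    (u : _root_.Fermat.Agent.S30.H709.perLattice N →+ O) (x : _root_.Fermat.Agent.S30.H709.perLattice N) : actHom O hNS t u x = u (rhoL hNS t x) := rfl

/-- **(F1)** `T_ℓ` acts on `W` as the Hecke transfer acts on the classes. -/
theorem toCls_actHom_T (hNS : ∀ q : ℕ, q.Prime → q ∣ N → q ∈ S) {l : ℕ} [Fact l.Prime]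
    (hlN : ¬ l ∣ N) (hlS : l ∉ S) (u : _root_.Fermat.Agent.S30.H709.perLattice N →+ O) :
    toCls (actHom O hNS (heckeAlgebra.T Fact.out hlN hlS) u) = heckeTransfer hlN (toCls u) := by
  refine AddMonoidHom.ext fun γ => ?_
  obtain ⟨γ, rfl⟩ := Additive.ofMul.surjective γ
  have h1 := congrFun (Fermat.Agent.Ribet.H883.funOf_heckeTransfer hlN (toCls u)) γ
  rw [Fermat.Agent.Ribet.H883.funOf_apply] at h1
  rw [h1, ← sum_map_facCoh, toCls_apply, actHom_apply, rhoL_T_perCls, map_multiset_sum,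
    Multiset.map_map]
  rfl

section Base

variable [hint : Fact (HasIntegralStructure N 2)]

/-- `𝕋 ≃ 𝕋_lat`. -/
def latEquiv (N : ℕ) [NeZero N] (S : Set ℕ) [Fact (HasIntegralStructure N 2)] :
    heckeAlgebra N 2 S ≃ₐ[ℤ] heckeLatticeAlgebra N S :=
  AlgEquiv.ofBijective (latticeRestrictHom N S) (latticeRestrictHom_bijective N S Fact.out)

theorem latEquiv_apply (t : heckeAlgebra N 2 S) : latEquiv N S t = latticeRestrictHom N S t := rfl

/-- The action of `𝕋_lat` on `W`. -/
def latAct (hNS : ∀ q : ℕ, q.Prime → q ∣ N → q ∈ S) :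
    heckeLatticeAlgebra N S →ₐ[ℤ] Module.End O (_root_.Fermat.Agent.S30.H709.perLattice N →+ O) where
  toRingHom := (actHom O hNS).comp ((latEquiv N S).symm : heckeLatticeAlgebra N S →+* _)
  commutes' n := by
    show ((actHom O hNS).comp ((latEquiv N S).symm : heckeLatticeAlgebra N S →+* _))
      (algebraMap ℤ _ n) = algebraMap ℤ _ n
    rw [Algebra.algebraMap_eq_smul_one, map_zsmul, map_one, Algebra.algebraMap_eq_smul_one]

theorem latAct_lat (hNS : ∀ q : ℕ, q.Prime → q ∣ N → q ∈ S) (t : heckeAlgebra N 2 S) :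
    latAct O hNS (latticeRestrictHom N S t) = actHom O hNS t := by
  show actHom O hNS ((latEquiv N S).symm (latEquiv N S t)) = _
  rw [AlgEquiv.symm_apply_apply]

/-- Pure tensors of `heckeBaseAlgebra N S O = O ⊗ 𝕋_lat`. -/
def tm (o : O) (t : heckeLatticeAlgebra N S) : heckeBaseAlgebra N S O :=
  (o ⊗ₜ[ℤ] t : O ⊗[ℤ] ↥(heckeLatticeAlgebra N S))

theorem tm_add (o : O) (t t' : heckeLatticeAlgebra N S) :
    tm O o (t + t') = tm O o t + tm O o t' :=
  TensorProduct.tmul_add o t t'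

theorem tm_mul (o o' : O) (t t' : heckeLatticeAlgebra N S) :
    tm O (o * o') (t * t') = tm O o t * tm O o' t' :=
  (Algebra.TensorProduct.tmul_mul_tmul o o' t t').symm

theorem tm_one_mul (t t' : heckeLatticeAlgebra N S) :
    tm O 1 (t * t') = tm O 1 t * tm O 1 t' := by
  rw [← tm_mul, one_mul]

theorem algebraMap_eq_tm (o : O) :
    algebraMap O (heckeBaseAlgebra N S O) o = tm O o (1 : heckeLatticeAlgebra N S) :=
  Algebra.TensorProduct.algebraMap_apply (R := ℤ) (A := O) (B := ↥(heckeLatticeAlgebra N S)) o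

theorem tm_eq_smul (o : O) (t : heckeLatticeAlgebra N S) : tm O o t = o • tm O 1 t := by
  have h : (o ⊗ₜ[ℤ] t : O ⊗[ℤ] ↥(heckeLatticeAlgebra N S)) = o • ((1 : O) ⊗ₜ[ℤ] t) := by
    rw [TensorProduct.smul_tmul', smul_eq_mul, mul_one]
  exact h

theorem tm_intCast (n : ℤ) :
    tm O 1 (algebraMap ℤ (heckeLatticeAlgebra N S) n) =
      algebraMap O (heckeBaseAlgebra N S O) (n : O) := by
  rw [algebraMap_eq_tm]
  have h : ((1 : O) ⊗ₜ[ℤ] (algebraMap ℤ (heckeLatticeAlgebra N S) n) :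
      O ⊗[ℤ] ↥(heckeLatticeAlgebra N S)) = ((n : O) ⊗ₜ[ℤ] (1 : heckeLatticeAlgebra N S)) := by
    rw [Algebra.algebraMap_eq_smul_one, TensorProduct.tmul_smul, TensorProduct.smul_tmul',
      zsmul_eq_mul, mul_one]
  exact h

/-- **The action of `O ⊗ 𝕋_lat` on `W = Hom(Λ, O)`.** -/
def Phi (hNS : ∀ q : ℕ, q.Prime → q ∣ N → q ∈ S) :
    heckeBaseAlgebra N S O →ₐ[O] Module.End O (_root_.Fermat.Agent.S30.H709.perLattice N →+ O) :=
  Algebra.TensorProduct.lift (Algebra.ofId O (Module.End O (_root_.Fermat.Agent.S30.H709.perLattice N →+ O)))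
    (latAct O hNS) (fun o _ => Algebra.commute_algebraMap_left o _)

/-- The generators `1 ⊗ T_ℓ` of `O ⊗ 𝕋_lat`. -/
def gen {l : ℕ} (hl : l.Prime) (hlN : ¬ l ∣ N) (hlS : l ∉ S) : heckeBaseAlgebra N S O :=
  tm O 1 (latticeRestrictHom N S (heckeAlgebra.T hl hlN hlS))

theorem Phi_tm (hNS : ∀ q : ℕ, q.Prime → q ∣ N → q ∈ S) (o : O)
    (t : heckeLatticeAlgebra N S) :
    Phi O hNS (tm O o t) = o • latAct O hNS t := by
  have h := Algebra.TensorProduct.lift_tmul
    (Algebra.ofId O (Module.End O (_root_.Fermat.Agent.S30.H709.perLattice N →+ O))) (latAct O hNS)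
    (fun o _ => Algebra.commute_algebraMap_left o _) o t
  have h2 : Phi O hNS (tm O o t) = Algebra.ofId O (Module.End O (_root_.Fermat.Agent.S30.H709.perLattice N →+ O)) o *
      latAct O hNS t := h
  rw [h2, Algebra.ofId_apply, Algebra.algebraMap_eq_smul_one, smul_mul_assoc, one_mul]

theorem Phi_gen (hNS : ∀ q : ℕ, q.Prime → q ∣ N → q ∈ S) {l : ℕ} (hl : l.Prime)
    (hlN : ¬ l ∣ N) (hlS : l ∉ S) :
    Phi O hNS (gen O hl hlN hlS) = actHom O hNS (heckeAlgebra.T hl hlN hlS) := by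
  unfold gen
  rw [Phi_tm, one_smul, latAct_lat]

/-- **(F1)** for `Phi`. -/
theorem toCls_Phi_gen (hNS : ∀ q : ℕ, q.Prime → q ∣ N → q ∈ S) {l : ℕ} [Fact l.Prime]
    (hlN : ¬ l ∣ N) (hlS : l ∉ S) (u : _root_.Fermat.Agent.S30.H709.perLattice N →+ O) :
    toCls (Phi O hNS (gen O Fact.out hlN hlS) u) = heckeTransfer hlN (toCls u) := by
  rw [Phi_gen]
  exact toCls_actHom_T O hNS hlN hlS u

theorem Phi_add_apply (hNS : ∀ q : ℕ, q.Prime → q ∣ N → q ∈ S) (α β : heckeBaseAlgebra N S O)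
    (u : _root_.Fermat.Agent.S30.H709.perLattice N →+ O) : Phi O hNS (α + β) u = Phi O hNS α u + Phi O hNS β u := by
  have h : Phi O hNS (α + β) = Phi O hNS α + Phi O hNS β := map_add (Phi O hNS) α β
  rw [h, LinearMap.add_apply]

theorem Phi_mul_apply (hNS : ∀ q : ℕ, q.Prime → q ∣ N → q ∈ S) (α β : heckeBaseAlgebra N S O)
    (u : _root_.Fermat.Agent.S30.H709.perLattice N →+ O) : Phi O hNS (α * β) u = Phi O hNS α (Phi O hNS β u) := by
  have h : Phi O hNS (α * β) = Phi O hNS α * Phi O hNS β := map_mul (Phi O hNS) α β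
  rw [h, Module.End.mul_apply]

theorem Phi_algebraMap_apply (hNS : ∀ q : ℕ, q.Prime → q ∣ N → q ∈ S) (o : O)
    (u : _root_.Fermat.Agent.S30.H709.perLattice N →+ O) :
    Phi O hNS (algebraMap O (heckeBaseAlgebra N S O) o) u = o • u := by
  have h : Phi O hNS (algebraMap O (heckeBaseAlgebra N S O) o) =
      algebraMap O (Module.End O (_root_.Fermat.Agent.S30.H709.perLattice N →+ O)) o := AlgHom.commutes (Phi O hNS) o
  rw [h, Module.algebraMap_end_apply]

theorem Phi_smul (hNS : ∀ q : ℕ, q.Prime → q ∣ N → q ∈ S) (α : heckeBaseAlgebra N S O) (c : O)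
    (u : _root_.Fermat.Agent.S30.H709.perLattice N →+ O) : Phi O hNS α (c • u) = c • Phi O hNS α u :=
  map_smul (Phi O hNS α) c u

/-- The set of generators. -/
def genSet (N : ℕ) [NeZero N] (S : Set ℕ) (O : Type) [CommRing O]
    [Fact (HasIntegralStructure N 2)] : Set (heckeBaseAlgebra N S O) :=
  {α | ∃ (l : ℕ) (hl : l.Prime) (hlN : ¬ l ∣ N) (hlS : l ∉ S), α = gen O hl hlN hlS}

/-- `1 ⊗ t` lies in the `O`-subalgebra generated by the `gen ℓ`. -/
theorem one_tm_mem_adjoin (hNS : ∀ q : ℕ, q.Prime → q ∣ N → q ∈ S)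
    (t : Module.End ℂ (CuspForm (Gamma0 N) 2)) (ht : t ∈ heckeAlgebra N 2 S) :
    tm O 1 (latticeRestrictHom N S ⟨t, ht⟩) ∈ Algebra.adjoin O (genSet N S O) := by
  induction ht using Algebra.adjoin_induction with
  | mem t ht =>
    rcases ht with ⟨l, hl, hlN, hlS, rfl⟩ | ⟨q, hqN, hq, hqS, rfl⟩
    · exact Algebra.subset_adjoin ⟨l, hl, hlN, hlS, rfl⟩
    · exact absurd (hNS q hq hqN) hqS
  | algebraMap n =>
    have h1 : (⟨algebraMap ℤ (Module.End ℂ (CuspForm (Gamma0 N) 2)) n,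
        Subalgebra.algebraMap_mem _ n⟩ : heckeAlgebra N 2 S) = algebraMap ℤ _ n := rfl
    rw [h1, AlgHom.commutes, tm_intCast]
    exact Subalgebra.algebraMap_mem _ _
  | add t s ht hs iht ihs =>
    have h1 : (⟨t + s, Subalgebra.add_mem _ ht hs⟩ : heckeAlgebra N 2 S) = ⟨t, ht⟩ + ⟨s, hs⟩ := rfl
    rw [h1, map_add, tm_add]
    exact Subalgebra.add_mem _ iht ihs
  | mul t s ht hs iht ihs =>
    have h1 : (⟨t * s, Subalgebra.mul_mem _ ht hs⟩ : heckeAlgebra N 2 S) = ⟨t, ht⟩ * ⟨s, hs⟩ := rfl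
    rw [h1, map_mul, tm_one_mul]
    exact Subalgebra.mul_mem _ iht ihs

/-- The identity `O ⊗ 𝕋_lat → heckeBaseAlgebra N S O` (to fix the type). -/
def ofT (α : O ⊗[ℤ] ↥(heckeLatticeAlgebra N S)) : heckeBaseAlgebra N S O := α

theorem mem_adjoin_genSet (hNS : ∀ q : ℕ, q.Prime → q ∣ N → q ∈ S)
    (α : heckeBaseAlgebra N S O) : α ∈ Algebra.adjoin O (genSet N S O) := by
  have key : ∀ α : O ⊗[ℤ] ↥(heckeLatticeAlgebra N S),
      ofT O α ∈ Algebra.adjoin O (genSet N S O) := by
    intro α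
    induction α using TensorProduct.induction_on with
    | zero => exact Subalgebra.zero_mem _
    | tmul o t =>
      obtain ⟨t', rfl⟩ := latticeRestrictHom_surjective N S t
      have h1 : tm O o (latticeRestrictHom N S t') ∈ Algebra.adjoin O (genSet N S O) := by
        rw [tm_eq_smul]
        exact Subalgebra.smul_mem _ (one_tm_mem_adjoin O hNS t'.1 t'.2) o
      exact h1
    | add x y hx hy =>
      have h2 : ofT O x + ofT O y ∈ Algebra.adjoin O (genSet N S O) := Subalgebra.add_mem _ hx hy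
      exact h2
  exact key α

/-- **Generation**: an induction principle for `heckeBaseAlgebra N S O` (`S` contains the primes
dividing `N`). -/
theorem base_induction (hNS : ∀ q : ℕ, q.Prime → q ∣ N → q ∈ S)
    {P : heckeBaseAlgebra N S O → Prop}
    (hgen : ∀ (l : ℕ) (hl : l.Prime) (hlN : ¬ l ∣ N) (hlS : l ∉ S), P (gen O hl hlN hlS))
    (halg : ∀ o : O, P (algebraMap O (heckeBaseAlgebra N S O) o))
    (hadd : ∀ α β, P α → P β → P (α + β))
    (hmul : ∀ α β, P α → P β → P (α * β)) (α : heckeBaseAlgebra N S O) : P α := by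
  have h := mem_adjoin_genSet O hNS α
  induction h using Algebra.adjoin_induction with
  | mem x hx =>
    obtain ⟨l, hl, hlN, hlS, rfl⟩ := hx
    exact hgen l hl hlN hlS
  | algebraMap o => exact halg o
  | add x y _ _ hx hy => exact hadd x y hx hy
  | mul x y _ _ hx hy => exact hmul x y hx hy

end Base

end Fermat.Agent.S59.NM.H709

end
end
-- ===== PACK-END S59/NM/H709/Action.lean

-- ===== PACK-BEGIN S59/H601/ResidualBC.lean
section



/-!
# S59 / cell BC (subtask 704, helper601): base change of the residual data `𝔽_p → k`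

`residualBC : Arch.ResidualBCStatement` — for a residual representation `ρ̄` over `𝔽_p`, a finite
field `k` and `ι : 𝔽_p → k`:

* `ρ̄ ⊗ k` is unramified at `q` iff `ρ̄` is (`v ↦ 1 ⊗ v` is injective);
* `ρ̄ ⊗ k` is flat at `p` iff `ρ̄` is (descent / ascent of Hopf models along `ι`:
  `H779.FlatLevel.comap`, `H779.FlatLevel.baseChange`, with the Raynaud closure
  `H659.hopfSubquot_closed`, `H659.hopfProd_closed`; the ideals of a field are `⊥` and `⊤`).
-/

set_option autoImplicit false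
set_option linter.style.haveILetI false
set_option linter.unusedSectionVars false

open scoped TensorProduct

namespace Fermat.Agent.S59.H601

open Fermat.Agent.S59 Fermat.Agent.S19

/-- Over a field, `v ↦ 1 ⊗ v` is injective. -/
theorem one_tmul_injective601 {F K V : Type} [Field F] [Field K] [Algebra F K]
    [AddCommGroup V] [Module F V] : Function.Injective (fun v : V => (1 : K) ⊗ₜ[F] v) := by
  have h := Module.FaithfullyFlat.tensorProduct_mk_injective (A := F) (B := K) V
  exact h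

/-- A linear endomorphism over a field is the identity as soon as its base change is. -/
theorem eq_one_of_baseChange_eq_one601 {F K V : Type} [Field F] [Field K] [Algebra F K]
    [AddCommGroup V] [Module F V] (f : Module.End F V)
    (h : f.baseChange K = 1) : f = 1 := by
  refine LinearMap.ext fun v => ?_
  apply one_tmul_injective601 (F := F) (K := K)
  have := congrArg (fun g : Module.End K (K ⊗[F] V) => g ((1 : K) ⊗ₜ[F] v)) h
  simpa [LinearMap.baseChange_tmul] using this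

/-- The unramified part. -/
theorem isUnramifiedAt_baseChangeAlong_iff601 {F K : Type} [Field F] [Field K] (ι : F →+* K)
    (ρbar : ResidualGaloisRep F) (q : ℕ) :
    (ρbar.baseChangeAlong ι).IsUnramifiedAt q ↔ ρbar.IsUnramifiedAt q := by
  letI : Algebra F K := ι.toAlgebra
  constructor
  · intro h A hA σ hσ
    have h1 : (ρbar.ρ σ).baseChange K = 1 := h A hA σ hσ
    exact eq_one_of_baseChange_eq_one601 (K := K) _ h1
  · intro h A hA σ hσ
    show (ρbar.ρ σ).baseChange K = 1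
    rw [h A hA σ hσ]
    exact LinearMap.baseChange_one F ρbar.V

end Fermat.Agent.S59.H601

namespace Fermat.Agent.S59.H601

open Fermat.Agent.S59 Fermat.Agent.S19

/-- The flat part. -/
theorem isFlatAt_ofResidual_baseChangeAlong_iff601 (p : ℕ) [Fact p.Prime]
    (ρbar : ResidualGaloisRep (ZMod p)) (k : Type) [Field k] [Finite k] (ι : ZMod p →+* k) :
    (GaloisRepAdic.ofResidualGaloisRep (ρbar.baseChangeAlong ι)).IsFlatAt p ↔
      (GaloisRepAdic.ofResidualGaloisRep ρbar).IsFlatAt p := by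
  have hι : IsLocalHom ι := inferInstance
  have hSub := H659.hopfSubquot_closed p
  have hProd := H659.hopfProd_closed p
  have hfin : ∀ J : Ideal k, Finite (k ⧸ J) := fun J =>
    Finite.of_surjective (Ideal.Quotient.mk J) Ideal.Quotient.mk_surjective
  have hfinp : ∀ I : Ideal (ZMod p), Finite (ZMod p ⧸ I) := fun I =>
    Finite.of_surjective (Ideal.Quotient.mk I) Ideal.Quotient.mk_surjective
  have hres : Finite (IsLocalRing.ResidueField k) :=
    Finite.of_surjective (IsLocalRing.residue k) IsLocalRing.residue_surjective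
  have hresp : Finite (IsLocalRing.ResidueField (ZMod p)) :=
    Finite.of_surjective (IsLocalRing.residue (ZMod p)) IsLocalRing.residue_surjective
  have hdef : GaloisRepAdic.ofResidualGaloisRep (ρbar.baseChangeAlong ι) =
      (GaloisRepAdic.ofResidualGaloisRep ρbar).baseChangeAlong ι hι := rfl
  rw [hdef, H779.isFlatAt_iff_flatLevel, H779.isFlatAt_iff_flatLevel]
  constructor
  · rintro ⟨-, h⟩
    refine ⟨hresp, fun I _ => ?_⟩
    rcases Ideal.eq_bot_or_top I with rfl | rfl
    · have h1 := H779.FlatLevel.comap hSub ι hι (h ⊥ (hfin ⊥))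
      have h2 : (⊥ : Ideal k).comap ι = ⊥ := by
        rw [← RingHom.ker_eq_comap_bot]
        exact (RingHom.injective_iff_ker_eq_bot ι).1 ι.injective
      rwa [h2] at h1
    · have h1 := H779.FlatLevel.comap hSub ι hι (h ⊤ (hfin ⊤))
      rwa [Ideal.comap_top] at h1
  · rintro ⟨-, h⟩
    refine ⟨hres, fun J hJ => ?_⟩
    exact H779.FlatLevel.baseChange hSub hProd ι hι (h (J.comap ι) (hfinp _))

/-- **Cell BC** (`Arch.ResidualBCStatement`). -/
theorem residualBC : Arch.ResidualBCStatement := by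
  intro p _ ρbar k _ _ ι
  exact ⟨fun q _ => isUnramifiedAt_baseChangeAlong_iff601 ι ρbar q,
    isFlatAt_ofResidual_baseChangeAlong_iff601 p ρbar k ι⟩

end Fermat.Agent.S59.H601

end
-- ===== PACK-END S59/H601/ResidualBC.lean

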