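import Fermat.Statements.S25
import Fermat.Agent.Pack.S43MC.G0E22L3
import Fermat.Agent.Pack.S43MC.G0E19L3
import Fermat.Agent.Pack.S44C.G0E21L0
import Fermat.Agent.Pack.S44C.G0E25L2
import Fermat.Agent.Pack.S43MC.G0E19L1
import Fermat.Agent.Pack.S44C.G0E20L0
import Fermat.Agent.Pack.S44C.G0E26L0
import Fermat.Agent.Pack.S44C.G0E25L1
import Fermat.Agent.Pack.S44C.G0E23L3
import Fermat.Agent.Pack.S44C.G0E25L0
import Fermat.Agent.Pack.S44C.G0E19L0
import Fermat.Agent.Pack.S43MC.G0E22L1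
import Fermat.Agent.Pack.S43MC.G0E22L2
import Fermat.Agent.Pack.S43MC.G0E13L2
import Fermat.Agent.Pack.S43MC.G0E5L2
import Fermat.Agent.Pack.S43MC.G0E13L1
import Fermat.Agent.Pack.S43MC.G0E22L0
import Fermat.Agent.Pack.S44C.G0E15L0
import Fermat.Agent.Pack.S44C.G0E17L0
import Fermat.Agent.Pack.S43MC.G0E20L1
import Fermat.Agent.Pack.Fast891

-- ===== PACK-BEGIN A2/Alg/H348/GlueLeaf.lean
section



/-!
# WALL A2 / ALG — leaf GLUE (`glue` of `Alg/Skel.lean`, architect helper34), VERBATIM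

`glue` = `Alg.H729.glue_of_hconst` (helper729: Gauss ring, bridge `SSChart` ↔ Gauss ring, local
factorisations, `H348.exists_pow_eq_of_local_factorisation`) + `hconst_of_locallyFactored`
(helper348: `B_{p₁}` is a discrete valuation ring with uniformiser `w`, unramified in the Kummer
cover, hence the constants do not grow: Chevalley + `H93.CoverSplit` + `H313.hens_integral`).
-/

set_option autoImplicit false

namespace Fermat.Agent.A2.Alg.H348

open Fermat.Agent.A2 Fermat.Agent.A2.Alg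

variable {R E F : Type*} [CommRing R] [IsDomain R] [IsDiscreteValuationRing R]
  [HenselianLocalRing R] [IsAlgClosed (IsLocalRing.ResidueField R)]
  [Field E] [CharZero E] [Algebra R E] [IsFractionRing R E]
  [Field F] [Algebra E F] [Algebra R F] [IsScalarTower R E F]

/-- **GLUE.**  A Kummer class which is locally factored at every closed point of the special
fibre of both charts is trivial. -/
theorem glue (q m : ℕ) (hq : q.Prime) (hqR : (q : R) ∈ IsLocalRing.maximalIdeal R)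
    (hm : 0 < m) (hqm : ¬ q ∣ m)
    (w : R) (x : F) (Bf Bi : Subalgebra R F)
    (hBf : ChartCtx E w x Bf) (hBi : ChartCtx E w x⁻¹ Bi)
    (cf : SSChart w Bf) (ci : SSChart w Bi) (hcf : Incomparable cf) (hci : Incomparable ci)
    (u : F) (hu : u ≠ 0) (hdiv : DivisibleDiv E m u)
    (hf : LocallyFactored Bf cf m u) (hi : LocallyFactored Bi ci m u) :
    ∃ y : F, y ≠ 0 ∧ u = y ^ m :=
  Fermat.Agent.A2.Alg.H729.glue_of_hconst q m hq hqR hm hqm w x Bf Bi hBf hBi cf ci hcf hci u hu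
    hdiv hf hi (hconst_of_locallyFactored q m hq hqR hm hqm w x Bf hBf cf u hf)

end Fermat.Agent.A2.Alg.H348

end
-- ===== PACK-END A2/Alg/H348/GlueLeaf.lean

-- ===== PACK-BEGIN A2/Top/H96/AlgNoSep.lean
section





/-!
# WALL A2 / ALG without `SepCoord` (helper96; insurance against MODASM S4)

The frozen interface `AlgSSStatement` (`A2/Spec.lean`) carries the two hypotheses
`SepCoord R E x Bf`, `SepCoord R E x⁻¹ Bi`.  Route S of ALG does not use them:

* leaf P-S : `Alg.H754.puritySmoothLeaf` (no `SepCoord` in the statement),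
* leaf P-N : `Alg.H609.purity_node` (universe polymorphic, no `SepCoord`),
* leaf GLUE: `Alg.H348.glue` (no `SepCoord`).

`algSS_noSep` is `AlgSSStatement` with the two `SepCoord` hypotheses (and the unused `τ x = x`,
finite order of `τ`) removed; it is UNCONDITIONAL.  Same proof as `Alg.H34.algSS_of_leaves`.
-/

set_option autoImplicit false

namespace Fermat.Agent.A2.Top.H96

open Fermat.Agent.A2 Fermat.Agent.A2.Alg

section Asm

variable {R E F : Type} [CommRing R] [IsDomain R] [IsDiscreteValuationRing R]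
  [HenselianLocalRing R] [IsAlgClosed (IsLocalRing.ResidueField R)]
  [Field E] [CharZero E] [Algebra R E] [IsFractionRing R E]
  [Field F] [Algebra E F] [Algebra R F] [IsScalarTower R E F]

/-- Purity at every closed point of the special fibre (no separating coordinate needed). -/
theorem purity_noSep
    (q m : ℕ) (hq : q.Prime) (hqR : (q : R) ∈ IsLocalRing.maximalIdeal R)
    (hm : 0 < m) (hqm : ¬ q ∣ m)
    (w : R) (x : F) (B : Subalgebra R F) (hB : ChartCtx E w x B)
    (c : SSChart w B)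
    (u : F) (hu : u ≠ 0) (hdiv : DivisibleDiv E m u) (hs : IsSplit B c u)
    (n : Ideal B) (hn : n.IsMaximal) (hwn : algebraMap R B w ∈ n) : PureAt B c m u n := by
  by_cases h1 : c.p₁ ≤ n ∧ c.p₂ ≤ n
  · exact Alg.H609.purity_node m hm w x B hB c u hdiv hs n hn.isPrime h1.1 h1.2
  · exact Alg.H754.puritySmoothLeaf q m hq hqR hm hqm w x B hB c
      (H34.incomparable_of_ssChart c) u hu hdiv hs n hn hwn h1

/-- **Step II** without `SepCoord`: a split Kummer class is fixed by `τ`. -/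
theorem stepII_noSep
    (q m : ℕ) (hq : q.Prime) (hqR : (q : R) ∈ IsLocalRing.maximalIdeal R)
    (hm : 0 < m) (hqm : ¬ q ∣ m)
    (w : R) (x : F) (Bf Bi : Subalgebra R F)
    (hBf : ChartCtx E w x Bf) (hBi : ChartCtx E w x⁻¹ Bi)
    (cf : SSChart w Bf) (ci : SSChart w Bi)
    (τ : F ≃+* F) (τE : E ≃+* E) (τR : R ≃+* R)
    (hτf : TauCtx w Bf τ τE τR) (hτi : TauCtx w Bi τ τE τR)
    (u : F) (hu : u ≠ 0) (hdiv : DivisibleDiv E m u)
    (hsf : IsSplit Bf cf u) (hsi : IsSplit Bi ci u) :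
    ∃ h : F, h ≠ 0 ∧ τ u = h ^ m * u := by
  have hτu : τ u ≠ 0 := (map_ne_zero τ).2 hu
  have hu' : τ u * u⁻¹ ≠ 0 := mul_ne_zero hτu (inv_ne_zero hu)
  have hdiv' : DivisibleDiv E m (τ u * u⁻¹) :=
    H34.divisibleDiv_mul_inv m _ _ (H34.divisibleDiv_tau τ τE hτf.hτE m u hdiv) hdiv
  have hf : LocallyFactored Bf cf m (τ u * u⁻¹) := fun n hn hwn =>
    H34.localFactor_of_pureAt w Bf cf τ τE τR hτf m u hu n hn.isPrime hwn
      (purity_noSep q m hq hqR hm hqm w x Bf hBf cf u hu hdiv hsf n hn hwn)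
  have hi : LocallyFactored Bi ci m (τ u * u⁻¹) := fun n hn hwn =>
    H34.localFactor_of_pureAt w Bi ci τ τE τR hτi m u hu n hn.isPrime hwn
      (purity_noSep q m hq hqR hm hqm w x⁻¹ Bi hBi ci u hu hdiv hsi n hn hwn)
  obtain ⟨y, hy, hyu⟩ := Alg.H348.glue q m hq hqR hm hqm w x Bf Bi hBf hBi cf ci
    (H34.incomparable_of_ssChart cf) (H34.incomparable_of_ssChart ci) _ hu' hdiv' hf hi
  refine ⟨y, hy, ?_⟩
  rw [← hyu, mul_assoc, inv_mul_cancel₀ hu, mul_one]

/-- **ALG without `SepCoord`** (unconditional): the conclusion of the frozen interface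
`AlgSSStatement` from its hypotheses minus `SepCoord` (both charts), `τ x = x` and the finite
order of `τ`. -/
theorem algSS_noSep
    (w : R) (hw : Irreducible w) (q m : ℕ) (hq : q.Prime)
    (hqR : (q : R) ∈ IsLocalRing.maximalIdeal R) (hm : 0 < m) (hqm : ¬ q ∣ m)
    (x : F) (hx : Transcendental E x)
    (hfin : FiniteDimensional (IntermediateField.adjoin E ({x} : Set F)) F)
    (hconst : ∀ f : F, IsAlgebraic E f → f ∈ (algebraMap E F).range)
    (Bf Bi : Subalgebra R F)
    (hBf : ∀ f : F, f ∈ Bf ↔ IsIntegral (Algebra.adjoin R ({x} : Set F)) f)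
    (hBi : ∀ f : F, f ∈ Bi ↔ IsIntegral (Algebra.adjoin R ({x⁻¹} : Set F)) f)
    (cf : SSChart w Bf) (ci : SSChart w Bi)
    (τ : F ≃+* F) (τE : E ≃+* E) (τR : R ≃+* R)
    (hτE : ∀ e : E, τ (algebraMap E F e) = algebraMap E F (τE e))
    (hτR : ∀ r : R, τE (algebraMap R E r) = algebraMap R E (τR r))
    (hτf : ∀ b ∈ Bf, ∃ c ∈ Bf, τ b - b = algebraMap R F w * c)
    (hτi : ∀ b ∈ Bi, ∃ c ∈ Bi, τ b - b = algebraMap R F w * c) :
    AlgSSConclusion E m τ := by
  have hCf : ChartCtx E w x Bf := ⟨hw, hx, hfin, hconst, hBf⟩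
  have hCi : ChartCtx E w x⁻¹ Bi := H34.chartCtx_inv w hw x hx hfin hconst Bi hBi
  have hTf : TauCtx w Bf τ τE τR := ⟨hτE, hτR, hτf⟩
  have hTi : TauCtx w Bi τ τE τR := ⟨hτE, hτR, hτi⟩
  intro f hf hdiv
  have hτf0 : τ f ≠ 0 := (map_ne_zero τ).2 hf
  have hu : τ f * f⁻¹ ≠ 0 := mul_ne_zero hτf0 (inv_ne_zero hf)
  have hdivu : DivisibleDiv E m (τ f * f⁻¹) :=
    H34.divisibleDiv_mul_inv m _ _ (H34.divisibleDiv_tau τ τE hτE m f hdiv) hdiv
  obtain ⟨h, hh, hh2⟩ := stepII_noSep q m hq hqR hm hqm w x Bf Bi hCf hCi cf ci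
    τ τE τR hTf hTi (τ f * f⁻¹) hu hdivu
    (H34.stepI w x Bf hCf cf (H34.incomparable_of_ssChart cf) τ τE τR hTf f hf)
    (H34.stepI w x⁻¹ Bi hCi ci (H34.incomparable_of_ssChart ci) τ τE τR hTi f hf)
  refine ⟨h, hh, ?_⟩
  rw [map_mul, map_inv₀] at hh2
  have h3 : τ (τ f) = h ^ m * (τ f * f⁻¹) * τ f := by
    rw [← hh2, mul_assoc, inv_mul_cancel₀ hτf0, mul_one]
  rw [h3]
  field_simp

end Asm

end Fermat.Agent.A2.Top.H96

end
-- ===== PACK-END A2/Top/H96/AlgNoSep.lean

-- ===== PACK-BEGIN Ribet/H279/FrickeSwap.lean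
section







/-!
# RIBET, wall at `p`, norm contraction: FRICKE versus SWAP (helper279)

Level `N = M * q`, `q ∤ M` prime, `E` a level, `V = V∞` the Gauss valuation ring of `F_{N,E}`
(`A2.Mod.IsVinf`), `W` the full Fricke involution `w_N` (`A2.Mod.IsFricke`), so that the second
component of the special fibre is `V₀ = V.comap W` (`A2/Mod/Spec.lean`).

The norm-contraction cores (`Ribet/H400/NCAbs.lean`, `Ribet/H279/NCInst.lean`) work with the
Atkin–Lehner SWAP `s = w_q` (`s ∘ α = β`, `s ∘ β = α`) and produce depth at `V∞` and at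
`V∞ ∘ s`.  This file identifies the two:

* `eq_or_eq_of_isGaussOver` : a valuation subring of `F_{N,E}` inducing the Gauss valuation on
  `E(x)`, `x = j · j_q`, is `V∞` or `V₀` (from `H489.TwoExtHyp.only` and the landed leaves
  L2, L3, L6, L8, L9, L10 of A2 MOD);
* `comap_swap_eq_comap_fricke` : `V.comap s = V.comap W` for EVERY ring endomorphism `s` of
  `F_{N,E}` with `s ∘ α = β` and `s ∘ β = α`;
* `swap_mem_iff_fricke_mem`, `inW_swap_iff_inW_fricke` : elementwise forms.
-/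

set_option autoImplicit false
set_option linter.unusedSectionVars false
set_option linter.style.haveILetI false
set_option synthInstance.maxHeartbeats 400000
set_option maxHeartbeats 1600000

noncomputable section

namespace Fermat.Agent.Ribet.H279

open ModularCurve HahnSeries Polynomial IntermediateField
open Fermat.Agent.A2.Mod

variable {P : ValuationSubring Qb} {E : IntermediateField ℚ Qb} {M q : ℕ} [NeZero M] [NeZero q]
  {w : RE P E}

/-! ### Only two valuation rings induce the Gauss valuation on `E(x)` -/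

/-- **Third valuation.**  A valuation subring of `F_{Mq,E}` which induces the Gauss valuation on
`E(x)`, `x = j · j_q`, is `V∞` or `V₀ = V∞ ∘ W`. -/
theorem eq_or_eq_of_isGaussOver (hS : Setting P E M q w)
    {V : ValuationSubring (FE E (M * q))} {W : FE E (M * q) ≃ₐ[E] FE E (M * q)}
    (hV : IsVinf P E (M * q) V) (hW : IsFricke E (M * q) W)
    {V' : ValuationSubring (FE E (M * q))}
    (hV' : haveI := hS.dvr; A2.H489.IsGaussOver (RE P E) V' (xE E M q)) :
    V' = V ∨ V' = V.comap (W : FE E (M * q) →+* FE E (M * q)) := by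
  haveI := hS.dvr
  obtain ⟨htr, hfr, -⟩ := H31.deg E M q hS.q_prime hS.q_not_dvd
  have hpos : 0 < Module.finrank (IntermediateField.adjoin E ({xE E M q} : Set (FE E (M * q))))
      (FE E (M * q)) := by
    rw [hfr]
    have h1 := dedekindPsi_pos_of_ne_zero M (NeZero.ne M)
    positivity
  haveI hfin : FiniteDimensional (IntermediateField.adjoin E ({xE E M q} : Set (FE E (M * q))))
      (FE E (M * q)) := Module.finite_of_finrank_pos hpos
  obtain ⟨b, c, hdvr, hT⟩ := H13.twoExtHyp_of_leaves hS V W hV hW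
    (H553.vzeroNe P E M q w) (H31.deg E M q) (H753.indInf P E M q w) (H753.indZero P E M q w)
  haveI := hdvr
  have hG₁ := H13.isGaussOver_xE hS.unif hV htr
  have hover : A2.H489.IsOver (A2.H489.gaussRing E V (xE E M q)) V' :=
    { mem := fun a => (hG₁.mem_iff_mem (E := E) hV' (a : E⟮xE E M q⟯).2).mp a.2
      nonunit := fun a ha =>
        (hG₁.mem_nonunits_iff_mem (E := E) hV' (a : E⟮xE E M q⟯).2).mp
          ((A2.H489.mem_maximalIdeal_gaussRing a).mp ha) }
  exact hT.only hover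

/-! ### The swap -/

section Swap

variable (s : FE E (M * q) →+* FE E (M * q))
  (hsα : ∀ a : FE E M, s (αE E M q a) = βE E M q a)
  (hsβ : ∀ a : FE E M, s (βE E M q a) = αE E M q a)

include hsα in
/-- a swap fixes the constants -/
theorem swapE_algebraMap (e : E) :
    s (algebraMap E (FE E (M * q)) e) = algebraMap E (FE E (M * q)) e := by
  have h1 : algebraMap E (FE E (M * q)) e = αE E M q (algebraMap E (FE E M) e) :=
    ((αE E M q).commutes e).symm
  have h2 : algebraMap E (FE E (M * q)) e = βE E M q (algebraMap E (FE E M) e) :=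
    ((βE E M q).commutes e).symm
  rw [h1, hsα, ← h2, ← h1]

include hsα in
/-- `s j = j_q` -/
theorem swapE_j :
    s (jE E (M * q) 1 (one_dvd _)) = jE E (M * q) q (dvd_mul_left q M) := by
  have h1 : jE E (M * q) 1 (one_dvd _) = αE E M q (jE E M 1 (one_dvd _)) :=
    (H553.αE_jE E M q 1 (one_dvd _)).symm
  have h2 : βE E M q (jE E M 1 (one_dvd _)) = jE E (M * q) q (dvd_mul_left q M) := by
    rw [H553.βE_jE E M q 1 (one_dvd _)]
    apply Subtype.ext
    show coeffEmb E (qExpand ℚ (1 * q) jq) = coeffEmb E (qExpand ℚ q jq)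
    rw [qExpand_congr (one_mul q) jq]
  rw [h1, hsα, h2]

include hsβ in
/-- `s j_q = j` -/
theorem swapE_jq :
    s (jE E (M * q) q (dvd_mul_left q M)) = jE E (M * q) 1 (one_dvd _) := by
  have h1 : jE E (M * q) 1 (one_dvd _) = αE E M q (jE E M 1 (one_dvd _)) :=
    (H553.αE_jE E M q 1 (one_dvd _)).symm
  have h2 : βE E M q (jE E M 1 (one_dvd _)) = jE E (M * q) q (dvd_mul_left q M) := by
    rw [H553.βE_jE E M q 1 (one_dvd _)]
    apply Subtype.ext
    show coeffEmb E (qExpand ℚ (1 * q) jq) = coeffEmb E (qExpand ℚ q jq)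
    rw [qExpand_congr (one_mul q) jq]
  rw [← h2, hsβ, h1]

include hsα hsβ in
/-- a swap fixes the coordinate `x = j · j_q` -/
theorem swapE_xE : s (xE E M q) = xE E M q := by
  rw [xE, map_mul, swapE_j s hsα, swapE_jq s hsβ]
  exact mul_comm _ _

/-- a swap as an `E`-algebra endomorphism -/
def swapEAlg : FE E (M * q) →ₐ[E] FE E (M * q) :=
  { s with commutes' := fun e => swapE_algebraMap s hsα e }

theorem swapEAlg_apply (f : FE E (M * q)) : swapEAlg s hsα f = s f := rfl

include hsα in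
theorem swapE_aeval [IsDiscreteValuationRing (RE P E)] (u : FE E (M * q))
    (p : Polynomial (RE P E)) : s (aeval u p) = aeval (s u) p := by
  have := Polynomial.aeval_algHom_apply ((swapEAlg s hsα).restrictScalars (RE P E)) u p
  exact this.symm

include hsα in
/-- `V∞ ∘ s` lies over `R_E` -/
theorem isOver_comap_swap [IsDiscreteValuationRing (RE P E)]
    {V : ValuationSubring (FE E (M * q))} (hV : IsVinf P E (M * q) V) :
    A2.H489.IsOver (RE P E) (V.comap s) where
  mem := fun r => by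
    rw [ValuationSubring.mem_comap]
    show s (algebraMap (RE P E) (FE E (M * q)) r) ∈ V
    rw [H13.algebraMap_RE_eq, swapE_algebraMap s hsα]
    exact (H13.isOver_of_isVinf hV).mem r
  nonunit := fun r hr => by
    rw [H13.mem_nonunits_comap]
    show s (algebraMap (RE P E) (FE E (M * q)) r) ∈ V.nonunits
    rw [H13.algebraMap_RE_eq, swapE_algebraMap s hsα]
    exact (H13.isOver_of_isVinf hV).nonunit r hr

include hsα hsβ in
/-- `V∞ ∘ s` induces the Gauss valuation on `E(x)` -/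
theorem isGaussOver_comap_swap (hS : Setting P E M q w)
    {V : ValuationSubring (FE E (M * q))} (hV : IsVinf P E (M * q) V) :
    haveI := hS.dvr
    A2.H489.IsGaussOver (RE P E) (V.comap s) (xE E M q) := by
  haveI := hS.dvr
  obtain ⟨htr, -, -⟩ := H31.deg E M q hS.q_prime hS.q_not_dvd
  have hG₁ := H13.isGaussOver_xE hS.unif hV htr
  refine ⟨isOver_comap_swap s hsα hV, ?_, ?_⟩
  · show s (xE E M q) ∈ V
    rw [swapE_xE s hsα hsβ]
    exact hG₁.mem
  · intro p hp
    apply hG₁.prim p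
    rw [H13.mem_nonunits_comap, swapE_aeval s hsα, swapE_xE s hsα hsβ] at hp
    exact hp

/-! ### `V∞ ∘ s ≠ V∞` -/

include hsα hsβ in
/-- the expansion of `s u = j - j_q ^ q`, `u = j_q - j ^ q` the Frobenius element -/
theorem coe_swap_frobE :
    ((s (H553.frobE E M q) : FE E (M * q)) : LaurentSeries E) =
      coeffEmb E (A2.H708.castQ (A2.H708.jInt 1 - A2.H708.jInt q ^ q)) := by
  have h1 : s (H553.frobE E M q) =
      jE E (M * q) 1 (one_dvd _) - jE E (M * q) q (dvd_mul_left q M) ^ q := by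
    rw [H553.frobE, map_sub, map_pow, swapE_j s hsα, swapE_jq s hsβ]
  rw [h1, map_sub, map_sub, map_pow, map_pow, ← H553.coe_jE (E := E) (M * q) 1 (one_dvd _),
    ← H553.coe_jE (E := E) (M * q) q (dvd_mul_left q M)]
  rfl

theorem coeff_swap_frob (hq : q.Prime) :
    (A2.H708.jInt 1 - A2.H708.jInt q ^ q).coeff (-((q * q : ℕ) : ℤ)) = -1 := by
  have hq1 : 1 < q := hq.one_lt
  have e1 : A2.H708.jInt 1 = A2.H528.jZ 1 := rfl
  have e2 : A2.H708.jInt q = A2.H528.jZ q := rfl
  rw [HahnSeries.coeff_sub, e1, e2, A2.H528.coeff_jZ_pow_top, A2.H528.coeff_jZ_of_lt, zero_sub]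
  have h2 : 1 < q * q := by nlinarith
  have h3 : ((1 : ℕ) : ℤ) < ((q * q : ℕ) : ℤ) := by exact_mod_cast h2
  linarith

include hsα hsβ in
/-- `V∞ ∘ s ≠ V∞`: the Frobenius element `j_q - j ^ q` is a non-unit of `V∞` and a unit of
`V∞ ∘ s`. -/
theorem comap_swap_ne (hS : Setting P E M q w)
    {V : ValuationSubring (FE E (M * q))} {W : FE E (M * q) ≃ₐ[E] FE E (M * q)}
    (hV : IsVinf P E (M * q) V) (hW : IsFricke E (M * q) W) :
    V.comap s ≠ V := by
  intro heq
  haveI : Fact q.Prime := ⟨hS.q_prime⟩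
  haveI := hS.dvr
  have hWu0 : W (H553.frobE E M q) ≠ 0 := H553.W_frobE_ne_zero hW
  have hu0 : H553.frobE E M q ≠ 0 := fun h0 => hWu0 (by rw [h0, map_zero])
  have h1 : (H553.frobE E M q)⁻¹ ∈ V.comap s := by
    show s ((H553.frobE E M q)⁻¹) ∈ V
    rw [map_inv₀]
    exact H553.inv_mem_of_int hV (coe_swap_frobE s hsα hsβ) (Or.inr (coeff_swap_frob hS.q_prime))
  rw [heq] at h1
  exact H553.inv_frobE_not_mem hS.lies_over hV hu0 h1

/-! ### FRICKE = SWAP on valuation rings -/

include hsα hsβ in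
/-- **FRICKE-SWAP.**  For every ring endomorphism `s` of `F_{Mq,E}` exchanging `α` and `β`
(the Atkin–Lehner involution `w_q`), `V∞ ∘ s = V∞ ∘ W = V₀`, `W` the full Fricke involution. -/
theorem comap_swap_eq_comap_fricke (hS : Setting P E M q w)
    {V : ValuationSubring (FE E (M * q))} {W : FE E (M * q) ≃ₐ[E] FE E (M * q)}
    (hV : IsVinf P E (M * q) V) (hW : IsFricke E (M * q) W) :
    V.comap s = V.comap (W : FE E (M * q) →+* FE E (M * q)) :=
  (eq_or_eq_of_isGaussOver hS hV hW (isGaussOver_comap_swap s hsα hsβ hS hV)).resolve_left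
    (comap_swap_ne s hsα hsβ hS hV hW)

include hsα hsβ in
/-- elementwise form -/
theorem swap_mem_iff_fricke_mem (hS : Setting P E M q w)
    {V : ValuationSubring (FE E (M * q))} {W : FE E (M * q) ≃ₐ[E] FE E (M * q)}
    (hV : IsVinf P E (M * q) V) (hW : IsFricke E (M * q) W) (f : FE E (M * q)) :
    s f ∈ V ↔ W f ∈ V := by
  have h := comap_swap_eq_comap_fricke s hsα hsβ hS hV hW
  have h1 : f ∈ V.comap s ↔ f ∈ V.comap (W : FE E (M * q) →+* FE E (M * q)) := by rw [h]
  exact h1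

include hsα hsβ in
/-- `s f ∈ c · V∞ ⟺ f ∈ c · V₀` for every constant `c ∈ E`. -/
theorem swap_mul_const_mem_iff (hS : Setting P E M q w)
    {V : ValuationSubring (FE E (M * q))} {W : FE E (M * q) ≃ₐ[E] FE E (M * q)}
    (hV : IsVinf P E (M * q) V) (hW : IsFricke E (M * q) W) (f : FE E (M * q)) (c : E) :
    s f * algebraMap E (FE E (M * q)) c ∈ V ↔
      f * algebraMap E (FE E (M * q)) c ∈ V.comap (W : FE E (M * q) →+* FE E (M * q)) := by
  rw [← comap_swap_eq_comap_fricke s hsα hsβ hS hV hW, ValuationSubring.mem_comap, map_mul,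
    swapE_algebraMap s hsα]

include hsα hsβ in
/-- `s f ∈ w V∞ ⟺ f ∈ w V₀`. -/
theorem inW_swap_iff_inW_fricke (hS : Setting P E M q w)
    {V : ValuationSubring (FE E (M * q))} {W : FE E (M * q) ≃ₐ[E] FE E (M * q)}
    (hV : IsVinf P E (M * q) V) (hW : IsFricke E (M * q) W) (f : FE E (M * q)) :
    InW P E (M * q) V w (s f) ↔
      InW P E (M * q) (V.comap (W : FE E (M * q) →+* FE E (M * q))) w f := by
  unfold InW
  rw [← comap_swap_eq_comap_fricke s hsα hsβ hS hV hW, ValuationSubring.mem_comap, map_mul,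
    map_inv₀]
  have h : s (cE P E (M * q) w) = cE P E (M * q) w := swapE_algebraMap s hsα _
  rw [h]

end Swap

end Fermat.Agent.Ribet.H279

end

end
-- ===== PACK-END Ribet/H279/FrickeSwap.lean

-- ===== PACK-BEGIN S35/G/H305/IFs.lean
section



/-!
# S35, piece (G') — leaf IFs (helper305, subtask 676): Frobenius-stable good levels

`ifsStatement : IFsStatement`.  The good level of helper429, `level A S = ℚ̄^{I_A}(conjugates of S)`
(`A2.IF.H429.goodField_level`), is stable under every element `s` of the decomposition group of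
`A`: the inertia group is normal in the decomposition group, so `s` preserves the inertia field,
and the set of all `ℚ`-conjugates of `S` is stable under every automorphism.
-/

set_option autoImplicit false
set_option linter.style.haveILetI false

namespace Fermat.Agent.S35.G.H305

open Fermat.Agent.A2 Fermat.Agent.A2.IF.H429
open Fermat.Agent.S55.Bridge Fermat.Agent.S55.Bridge.H594

attribute [local instance] isAlgebraic_Qbar isGalois_Qbar

local notation "Qb" => AlgebraicClosure ℚ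

variable (P : ValuationSubring Qb)

/-- The inertia group is normal in the decomposition group. -/
theorem conj_mem_inertia_of_decomp {s τ : Qb ≃ₐ[ℚ] Qb} (hs : s ∈ P.decompositionSubgroup ℚ)
    (hτ : τ ∈ P.inertiaSubgroupIn ℚ) : s * τ * s⁻¹ ∈ P.inertiaSubgroupIn ℚ := by
  rw [mem_inertiaSubgroupIn_iff_forall P]
  have hsi : s⁻¹ ∈ P.decompositionSubgroup ℚ := inv_mem hs
  refine ⟨mul_mem (mul_mem hs (decomp_of_inertia P hτ)) hsi, fun x hx => ?_⟩
  have h1 : s⁻¹ x ∈ P := mem_of_mem_decomp P hsi hx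
  have h2 : τ (s⁻¹ x) - s⁻¹ x ∈ P.nonunits := sub_mem_nonunits_of_inertia P hτ h1
  have h3 := mem_nonunits_of_mem_decomp P hs h2
  have h4 : s (τ (s⁻¹ x) - s⁻¹ x) = (s * τ * s⁻¹) x - x := by
    rw [map_sub]
    have : s (s⁻¹ x) = x := by
      show (s * s⁻¹) x = x
      rw [mul_inv_cancel]
      rfl
    rw [this]
    rfl
  rwa [h4] at h3

/-- The decomposition group preserves the inertia field. -/
theorem map_mem_inertiaField {s : Qb ≃ₐ[ℚ] Qb} (hs : s ∈ P.decompositionSubgroup ℚ) {x : Qb}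
    (hx : x ∈ inertiaField P) : s x ∈ inertiaField P := by
  rw [mem_inertiaField_iff] at hx ⊢
  intro τ hτ
  have h1 : s⁻¹ * τ * s⁻¹⁻¹ ∈ P.inertiaSubgroupIn ℚ :=
    conj_mem_inertia_of_decomp P (inv_mem hs) hτ
  rw [inv_inv] at h1
  have h2 := hx _ h1
  have h3 : τ (s x) = s ((s⁻¹ * τ * s) x) := by
    show τ (s x) = (s * (s⁻¹ * τ * s)) x
    rw [mul_assoc, mul_inv_cancel_left]
    rfl
  rw [h3, h2]

/-- The level of helper429 is stable under the decomposition group. -/
theorem level_stable_decomp (S : Finset Qb) {s : Qb ≃ₐ[ℚ] Qb}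
    (hs : s ∈ P.decompositionSubgroup ℚ) {x : Qb} (hx : x ∈ level P S) : s x ∈ level P S := by
  rw [mem_level_iff] at hx ⊢
  unfold level₁ at hx ⊢
  induction hx using IntermediateField.adjoin_induction with
  | mem x hx => exact IntermediateField.subset_adjoin _ _ (map_mem_conjSet S s hx)
  | algebraMap x =>
    exact (IntermediateField.adjoin (inertiaField P) (conjSet S)).algebraMap_mem
      ⟨s x, map_mem_inertiaField P hs x.2⟩
  | add x y _ _ hx hy => rw [map_add]; exact add_mem hx hy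
  | inv x _ hx => rw [map_inv₀]; exact inv_mem hx
  | mul x y _ _ hx hy => rw [map_mul]; exact mul_mem hx hy

end Fermat.Agent.S35.G.H305

namespace Fermat.Agent.S35.G.H305

open Fermat.Agent.A2 Fermat.Agent.A2.IF.H429

/-- **IFs** (interface statement of `S35/G/SpecLevel.lean`). -/
theorem ifsStatement : Fermat.Agent.S35.G.IFsStatement := fun q hq A hA _ hs S =>
  ⟨level A S, fun _ hx => mem_level_of_mem A S hx, goodField_level q hq A hA S,
    fun _ he => ⟨level_stable_decomp A S hs he, level_stable_decomp A S (inv_mem hs) he⟩⟩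

end Fermat.Agent.S35.G.H305

end
-- ===== PACK-END S35/G/H305/IFs.lean

-- ===== PACK-BEGIN S25.lean
section



set_option autoImplicit false
set_option autoImplicit false
universe u
open CategoryTheory CategoryTheory.Limits AlgebraicGeometry AlgebraicGeometry.RelPicard NeronModelInfra
  GoodReductionJacobian
open AlgebraicGeometry AlgebraicGeometry.RelPicard

namespace Fermat.Agent.S25

theorem result
    (k : Type u) [Field k] [IsAlgClosed k] {C : Scheme.{u}} (c : C ⟶ Spec (CommRingCat.of k))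
    [IsProper c] [SmoothOfRelativeDimension 1 c] [IsIntegral C]
    (ε : SchemeHomOver (𝟙 (Spec (CommRingCat.of k))) c) :
    ∃ D : RelativePic0Designation k c,
      Nonempty (RepresentsRelSubPic c ε (algEquivZeroCut c ε) D) ∧
        Smooth D.toBase ∧ IsProper D.toBase ∧ GeometricallyConnected D.toBase :=
  Assembly.result_final k c ε

end Fermat.Agent.S25

end
-- ===== PACK-END S25.lean

-- ===== PACK-BEGIN S27/H970/ChartCospan.lean
section





/-!
# S27 / a curve chart is a function-field cospan (helper970)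

For a curve chart `(B₀, B₁, B₀₁, x, y, e)` over an algebraically closed field `K` and a fraction
field `F` of `B₀₁`, the cospan `K ⊗[K] B₀ → K ⊗[K] B₀₁ ← K ⊗[K] B₁` (the one of
`CurveGD K B₀ B₁ B₀₁ K`) is a function-field cospan (`IsFFCospan`).  Consequences:

* `ff1_of_chart`        : `Lib.RR.FF1 K F`;
* `genusFF_eq_genus`    : **GENUS** `genusFF K F = S25.H747.genus K B₀ B₁ B₀₁`.
-/

set_option autoImplicit false
set_option linter.unusedSectionVars false
set_option linter.style.haveILetI false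
universe u

noncomputable section

open AlgebraicCurve Polynomial
open scoped TensorProduct

namespace Fermat.Agent.S27.H970

open Fermat.Agent.S25 Fermat.Agent.Lib.RR

section Tensor

variable {K : Type u} [Field K] {F : Type u} [Field F] [Algebra K F]

/-- `K ⊗[K] B → F`, through `K ⊗[K] B ≃ B`. -/
def tensorAlgF (B : Type u) [CommRing B] [Algebra K B] [Algebra B F] : Algebra (K ⊗[K] B) F :=
  ((algebraMap B F).comp (Algebra.TensorProduct.lid K B : K ⊗[K] B →+* B)).toAlgebra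

attribute [local instance] tensorAlgF

theorem tensorAlgF_apply (B : Type u) [CommRing B] [Algebra K B] [Algebra B F]
    (z : K ⊗[K] B) :
    algebraMap (K ⊗[K] B) F z = algebraMap B F (Algebra.TensorProduct.lid K B z) := rfl

theorem tensorAlgF_tmul (B : Type u) [CommRing B] [Algebra K B] [Algebra B F]
    (a : K) (b : B) :
    algebraMap (K ⊗[K] B) F (a ⊗ₜ[K] b) = algebraMap B F (a • b) := by
  rw [tensorAlgF_apply, Algebra.TensorProduct.lid_tmul]

theorem tensorAlgF_one_tmul (B : Type u) [CommRing B] [Algebra K B] [Algebra B F] (b : B) :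
    algebraMap (K ⊗[K] B) F ((1 : K) ⊗ₜ[K] b) = algebraMap B F b := by
  rw [tensorAlgF_tmul, one_smul]

theorem range_tensorAlgF (B : Type u) [CommRing B] [Algebra K B] [Algebra B F] :
    Set.range (algebraMap (K ⊗[K] B) F) = Set.range (algebraMap B F) := by
  ext f
  constructor
  · rintro ⟨z, rfl⟩
    exact ⟨_, rfl⟩
  · rintro ⟨b, rfl⟩
    exact ⟨(1 : K) ⊗ₜ[K] b, tensorAlgF_one_tmul B b⟩

theorem tensorTowerF (B : Type u) [CommRing B] [Algebra K B] [Algebra B F]
    [IsScalarTower K B F] : IsScalarTower K (K ⊗[K] B) F :=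
  IsScalarTower.of_algebraMap_eq (R := K) (S := K ⊗[K] B) (A := F) (fun a => by
    have h1 : algebraMap K (K ⊗[K] B) a = a ⊗ₜ[K] (1 : B) := rfl
    rw [h1, tensorAlgF_tmul, ← Algebra.algebraMap_eq_smul_one,
      ← IsScalarTower.algebraMap_apply K B F])

theorem tensorTowerFF (B B' : Type u) [CommRing B] [Algebra K B] [Algebra B F]
    [CommRing B'] [Algebra K B'] [Algebra B' F] [Algebra B B'] [IsScalarTower K B B']
    [IsScalarTower B B' F] : IsScalarTower (K ⊗[K] B) (K ⊗[K] B') F :=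
  IsScalarTower.of_algebraMap_eq (R := K ⊗[K] B) (S := K ⊗[K] B') (A := F) (fun z => by
    induction z using TensorProduct.induction_on with
    | zero => simp
    | add a b ha hb => simp only [map_add, ha, hb]
    | tmul a b =>
      rw [H747.algebraMap_tensor_apply, tensorAlgF_tmul, tensorAlgF_tmul,
        IsScalarTower.algebraMap_apply B B' F, Algebra.smul_def, Algebra.smul_def, map_mul,
        ← IsScalarTower.algebraMap_apply K B B'])

attribute [local instance] tensorTowerF tensorTowerFF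

theorem injective_tensorAlgF (B : Type u) [CommRing B] [Algebra K B] [Algebra B F]
    (hinj : Function.Injective (algebraMap B F)) :
    Function.Injective (algebraMap (K ⊗[K] B) F) :=
  hinj.comp (Algebra.TensorProduct.lid K B).injective

theorem isFractionRing_tensorAlgF (B : Type u) [CommRing B] [Algebra K B] [Algebra B F]
    [IsDomain B] [IsFractionRing B F] : IsFractionRing (K ⊗[K] B) F := by
  haveI : FaithfulSMul (K ⊗[K] B) F :=
    (faithfulSMul_iff_algebraMap_injective _ _).mpr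
      (injective_tensorAlgF B (IsFractionRing.injective B F))
  refine IsFractionRing.of_field _ _ fun z => ?_
  obtain ⟨a, b, _, rfl⟩ := IsFractionRing.div_surjective (A := B) z
  exact ⟨(1 : K) ⊗ₜ[K] a, (1 : K) ⊗ₜ[K] b, by
    rw [tensorAlgF_one_tmul, tensorAlgF_one_tmul]⟩

end Tensor

section Chart

attribute [local instance] tensorAlgF tensorTowerF tensorTowerFF

variable {K : Type u} [Field K] [IsAlgClosed K]
  {B₀ B₁ B₀₁ : Type u} [CommRing B₀] [CommRing B₁] [CommRing B₀₁]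
  [Algebra K B₀] [Algebra K B₁] [Algebra K B₀₁] [Algebra B₀ B₀₁] [Algebra B₁ B₀₁]
  [IsScalarTower K B₀ B₀₁] [IsScalarTower K B₁ B₀₁]
  {x : B₀} {y : B₁} {e : B₁ →ₐ[K] K}
  {F : Type u} [Field F] [Algebra K F] [Algebra B₀₁ F] [IsScalarTower K B₀₁ F]
  [IsFractionRing B₀₁ F]
  [Algebra B₀ F] [Algebra B₁ F] [IsScalarTower B₀ B₀₁ F] [IsScalarTower B₁ B₀₁ F]
  [IsScalarTower K B₀ F] [IsScalarTower K B₁ F]

omit [IsAlgClosed K] in
/-- `Frac B = F` if `B[1/t] = B'` and `Frac B' = F`. -/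
theorem isFractionRing_of_away {B B' : Type u} [CommRing B] [CommRing B'] [IsDomain B]
    [Algebra B B'] [Algebra B' F] [Algebra B F] [IsScalarTower B B' F] [IsDomain B']
    [IsFractionRing B' F] (t : B) (ht : t ≠ 0) [IsLocalization.Away t B'] :
    IsFractionRing B F := by
  have hinj' : Function.Injective (algebraMap B B') :=
    IsLocalization.injective B' (M := Submonoid.powers t)
      (Submonoid.powers_le.2 (mem_nonZeroDivisors_of_ne_zero ht))
  have hinj : Function.Injective (algebraMap B F) := by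
    rw [IsScalarTower.algebraMap_eq B B' F]
    exact (IsFractionRing.injective B' F).comp hinj'
  haveI : FaithfulSMul B F := (faithfulSMul_iff_algebraMap_injective _ _).mpr hinj
  have hlift : ∀ a : B', ∃ (a' : B) (n : ℕ),
      algebraMap B' F a * algebraMap B F t ^ n = algebraMap B F a' := by
    intro a
    obtain ⟨⟨a', s⟩, hs⟩ := IsLocalization.surj (Submonoid.powers t) a
    obtain ⟨n, hn⟩ := s.2
    refine ⟨a', n, ?_⟩
    have := congrArg (algebraMap B' F) hs
    rw [map_mul, ← IsScalarTower.algebraMap_apply B B' F,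
      ← IsScalarTower.algebraMap_apply B B' F, ← hn, map_pow] at this
    exact this
  have htF : algebraMap B F t ≠ 0 := fun h0 => ht (hinj (by rw [h0, map_zero]))
  refine IsFractionRing.of_field _ _ fun z => ?_
  obtain ⟨a, b, hb, rfl⟩ := IsFractionRing.div_surjective (A := B') z
  obtain ⟨a', n, ha⟩ := hlift a
  obtain ⟨b', m, hb'⟩ := hlift b
  have hb0 : algebraMap B' F b ≠ 0 := by
    intro h0
    have : b = 0 := IsFractionRing.injective B' F (by rw [h0, map_zero])
    exact nonZeroDivisors.ne_zero hb this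
  refine ⟨a' * t ^ m, b' * t ^ n, ?_⟩
  rw [map_mul, map_mul, map_pow, map_pow, ← ha, ← hb']
  field_simp

theorem isFractionRing_chart₀ (hC : IsCurveChart K B₀ B₁ B₀₁ x y e) : IsFractionRing B₀ F :=
  haveI := hC.isDomain₀
  haveI := H207.isDomain_chart₀₁ hC
  haveI := hC.away₀
  isFractionRing_of_away (B' := B₀₁) x (H250.x_ne_zero hC)

theorem isFractionRing_chart₁ (hC : IsCurveChart K B₀ B₁ B₀₁ x y e) : IsFractionRing B₁ F :=
  haveI := hC.isDomain₁
  haveI := H207.isDomain_chart₀₁ hC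
  haveI := hC.away₁
  isFractionRing_of_away (B' := B₀₁) y (H250.y_ne_zero hC)

theorem chart_mul_eq_one_F (hC : IsCurveChart K B₀ B₁ B₀₁ x y e) :
    algebraMap B₀ F x * algebraMap B₁ F y = 1 := by
  rw [IsScalarTower.algebraMap_apply B₀ B₀₁ F, IsScalarTower.algebraMap_apply B₁ B₀₁ F,
    ← map_mul, hC.mul_eq_one, map_one]

theorem transcendental_xF (hC : IsCurveChart K B₀ B₁ B₀₁ x y e) :
    Transcendental K (algebraMap B₀ F x) := by
  haveI := hC.isDomain₀
  haveI : IsFractionRing B₀ F := isFractionRing_chart₀ hC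
  exact (transcendental_algebraMap_iff (IsFractionRing.injective B₀ F)).mpr
    (H250.transcendental_x hC)

theorem transcendental_yF (hC : IsCurveChart K B₀ B₁ B₀₁ x y e) :
    Transcendental K (algebraMap B₁ F y) := by
  haveI := hC.isDomain₁
  haveI : IsFractionRing B₁ F := isFractionRing_chart₁ hC
  exact (transcendental_algebraMap_iff (IsFractionRing.injective B₁ F)).mpr
    (H250.transcendental_y hC)

theorem ff1_of_chart' (hC : IsCurveChart K B₀ B₁ B₀₁ x y e) : FF1 K F :=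
  haveI := hC.isDomain₀
  haveI : IsFractionRing B₀ F := isFractionRing_chart₀ hC
  ff1_of_finite_aeval x hC.finite₀ (transcendental_xF hC)

/-- **A curve chart is a function-field cospan.** -/
theorem isFFCospan_chart (hC : IsCurveChart K B₀ B₁ B₀₁ x y e) :
    IsFFCospan K F (K ⊗[K] B₀₁) ((1 : K) ⊗ₜ[K] x) ((1 : K) ⊗ₜ[K] y) := by
  haveI := hC.isDomain₀
  haveI := hC.isDomain₁
  haveI d₀ := H207.isDedekindDomain_chart₀ hC
  haveI d₁ := H207.isDedekindDomain_chart₁ hC
  haveI f₀ : IsFractionRing B₀ F := isFractionRing_chart₀ hC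
  haveI f₁ : IsFractionRing B₁ F := isFractionRing_chart₁ hC
  have hxy := chart_mul_eq_one_F (F := F) hC
  have hy : algebraMap B₁ F y = (algebraMap B₀ F x)⁻¹ := eq_inv_of_mul_eq_one_right hxy
  refine
    { ff1 := ff1_of_chart' hC
      x_nonconst := ?_
      mul_eq_one := ?_
      range₀ := ?_
      range₁ := ?_
      dedekind₀ := H207.isDedekindDomain_tensor_chart₀ hC K
      dedekind₁ := H207.isDedekindDomain_tensor_chart₁ hC K
      frac₀ := isFractionRing_tensorAlgF B₀
      frac₁ := isFractionRing_tensorAlgF B₁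
      away₀ := ?_
      away₁ := ?_ }
  · rw [tensorAlgF_one_tmul]
    rintro ⟨a, ha⟩
    exact transcendental_xF (F := F) hC (ha ▸ isAlgebraic_algebraMap a)
  · rw [tensorAlgF_one_tmul, tensorAlgF_one_tmul]
    exact hxy
  · intro f
    rw [range_tensorAlgF, tensorAlgF_one_tmul]
    exact mem_range_iff_of_finite_aeval x hC.finite₀ (transcendental_xF hC) f
  · intro f
    rw [range_tensorAlgF, tensorAlgF_one_tmul,
      mem_range_iff_of_finite_aeval y hC.finite₁ (transcendental_yF hC) f]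
    refine forall_congr' fun v => ?_
    rw [hy, v.ord_inv]
    constructor
    · intro h1 h2; exact h1 (by omega)
    · intro h1 h2; exact h1 (by omega)
  · haveI := hC.away₀
    exact H747.isLocalization_away_tensor K B₀ B₀₁ x
  · haveI := hC.away₁
    exact H747.isLocalization_away_tensor K B₁ B₀₁ y

end Chart

section Final

attribute [local instance] tensorAlgF tensorTowerF tensorTowerFF

variable {K : Type u} [Field K] [IsAlgClosed K]
  {B₀ B₁ B₀₁ : Type u} [CommRing B₀] [CommRing B₁] [CommRing B₀₁]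
  [Algebra K B₀] [Algebra K B₁] [Algebra K B₀₁] [Algebra B₀ B₀₁] [Algebra B₁ B₀₁]
  [IsScalarTower K B₀ B₀₁] [IsScalarTower K B₁ B₀₁]
  {x : B₀} {y : B₁} {e : B₁ →ₐ[K] K}
  (F : Type u) [Field F] [Algebra K F] [Algebra B₀₁ F] [IsScalarTower K B₀₁ F]
  [IsFractionRing B₀₁ F]

/-- The composite algebra structure `B → B₀₁ → F`. -/
def chartAlgF (B : Type u) [CommRing B] [Algebra B B₀₁] : Algebra B F :=
  ((algebraMap B₀₁ F).comp (algebraMap B B₀₁)).toAlgebra

omit [IsAlgClosed K] [IsFractionRing B₀₁ F] in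
theorem chartTowerF (B : Type u) [CommRing B] [Algebra B B₀₁] :
    letI := chartAlgF (B₀₁ := B₀₁) F B
    IsScalarTower B B₀₁ F :=
  letI := chartAlgF (B₀₁ := B₀₁) F B
  IsScalarTower.of_algebraMap_eq (fun _ => rfl)

omit [IsAlgClosed K] [IsFractionRing B₀₁ F] in
theorem chartTowerKF (B : Type u) [CommRing B] [Algebra K B] [Algebra B B₀₁]
    [IsScalarTower K B B₀₁] :
    letI := chartAlgF (B₀₁ := B₀₁) F B
    IsScalarTower K B F :=
  letI := chartAlgF (B₀₁ := B₀₁) F B
  IsScalarTower.of_algebraMap_eq (fun a => by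
    rw [IsScalarTower.algebraMap_apply K B₀₁ F, IsScalarTower.algebraMap_apply K B B₀₁]
    rfl)

/-- **`FF1 K F` for the function field of a curve chart.** -/
theorem ff1_of_chart (hC : IsCurveChart K B₀ B₁ B₀₁ x y e) : FF1 K F := by
  letI := chartAlgF (B₀₁ := B₀₁) F B₀
  letI := chartAlgF (B₀₁ := B₀₁) F B₁
  haveI := chartTowerF (B₀₁ := B₀₁) F B₀
  haveI := chartTowerF (B₀₁ := B₀₁) F B₁
  haveI := chartTowerKF (K := K) (B₀₁ := B₀₁) F B₀
  haveI := chartTowerKF (K := K) (B₀₁ := B₀₁) F B₁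
  exact ff1_of_chart' hC

/-- **GENUS**: the genus of the function field (prelude: `dim_K 𝔸/(𝔸(0) + F)`) equals the
Čech genus `dim_K Ȟ¹(O)` of the chart. -/
theorem genusFF_eq_genus (hC : IsCurveChart K B₀ B₁ B₀₁ x y e) :
    genusFF K F = H747.genus K B₀ B₁ B₀₁ := by
  letI := chartAlgF (B₀₁ := B₀₁) F B₀
  letI := chartAlgF (B₀₁ := B₀₁) F B₁
  haveI := chartTowerF (B₀₁ := B₀₁) F B₀
  haveI := chartTowerF (B₀₁ := B₀₁) F B₁
  haveI := chartTowerKF (K := K) (B₀₁ := B₀₁) F B₀
  haveI := chartTowerKF (K := K) (B₀₁ := B₀₁) F B₁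
  exact ((isFFCospan_chart (F := F) hC).finrank_H1_unit).symm

omit F [Field F] [Algebra K F] [Algebra B₀₁ F] [IsScalarTower K B₀₁ F] [IsFractionRing B₀₁ F] in
/-- `Ȟ¹(O)` of a curve chart is finite-dimensional. -/
theorem finite_H1_unit_chart (hC : IsCurveChart K B₀ B₁ B₀₁ x y e) :
    Module.Finite K (GlueDatum.unit K (K ⊗[K] B₀) (K ⊗[K] B₁) (K ⊗[K] B₀₁)).H1 := by
  haveI := H207.isDomain_chart₀₁ hC
  let F := FractionRing B₀₁
  letI := chartAlgF (B₀₁ := B₀₁) F B₀
  letI := chartAlgF (B₀₁ := B₀₁) F B₁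
  haveI := chartTowerF (B₀₁ := B₀₁) F B₀
  haveI := chartTowerF (B₀₁ := B₀₁) F B₁
  haveI := chartTowerKF (K := K) (B₀₁ := B₀₁) F B₀
  haveI := chartTowerKF (K := K) (B₀₁ := B₀₁) F B₁
  exact (isFFCospan_chart (F := F) hC).finite_H1_unit

end Final

end Fermat.Agent.S27.H970

end
end
-- ===== PACK-END S27/H970/ChartCospan.lean

-- ===== PACK-BEGIN S35/H891/Bridge3.lean
section
/-
S35 (helper891): from the interface statement `QNewFrobStatement` of `S35/H891/Spec.lean`
(level `M' * q`, divisor form of "`q`-new") to `NewPartFrob3Statement` (level `M`, `q ∥ M`,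
kernel of the two degeneracy push-forwards of helper155), and the frozen statement S35 from the
six inputs of row S30, `QNewFrobStatement` and `ExclTateStatement`.
-/



set_option autoImplicit false

namespace Fermat.Agent.S35.H891

open Fermat.Agent.S35.H155

/-- `QNewFrobStatement` at level `M' * q`, with target level `K = M'`. -/
theorem newPartFrob3At_of_qNew (h : QNewFrobStatement) (M' q K : ℕ) (hK : K = M')
    [NeZero (M' * q)] [NeZero K] (hq : q.Prime) (hqM' : ¬ q ∣ M') :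
    NewPartFrob3At (M' * q) K q := by
  subst hK
  haveI : NeZero q := ⟨hq.ne_zero⟩
  refine ⟨pushA K q, pushB K q, pushA_galois K q, pushB_galois K q, ?_⟩
  intro A hA σ hσ m hm x hx ha hb
  have hm0 : 0 < m := Nat.pos_of_ne_zero (fun h0 => hm (h0 ▸ dvd_zero q))
  exact h K q m hq hqM' hm0 hm A hA σ hσ x hx ((isQNew_iff_spec K q x).mpr ⟨ha, hb⟩)

/-- **`QNewFrobStatement ⟹ NewPartFrob3Statement`**, with `a = α_*`, `b = β_*`. -/
theorem newPartFrob3_of_qNew (h : QNewFrobStatement) : NewPartFrob3Statement := by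
  intro M q instM instMq hq hqM hq2
  obtain ⟨M', rfl⟩ : ∃ M', M = M' * q := ⟨M / q, (Nat.div_mul_cancel hqM).symm⟩
  have hM' : M' * q / q = M' := Nat.mul_div_cancel M' hq.pos
  have hqM' : ¬ q ∣ M' := fun hd => hq2 (by
    rw [pow_two]
    exact Nat.mul_dvd_mul hd (dvd_refl q))
  exact newPartFrob3At_of_qNew h M' q (M' * q / q) hM' hq hqM'

/-- **The frozen statement S35** from the six inputs of row S30, `QNewFrobStatement` (cell FROB)
and `ExclTateStatement` (cell X). -/
theorem result_of_qNew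
    (hfin : ∀ (N p : ℕ) [NeZero N], p.Prime →
      Finite {x : ModularCurve.JZero N // (p : ℤ) • x = 0})
    (hsm : ∀ (N p : ℕ) [NeZero N], ∀ x : ModularCurve.JZero N,
      (∃ n : ℕ, ((p : ℤ) ^ n) • x = 0) →
        ∃ L : IntermediateField ℚ (AlgebraicClosure ℚ), FiniteDimensional ℚ L ∧
          ∀ σ : S30.H990.GQ, (∀ y ∈ L, σ y = y) → σ • x = x)
    (hgeq : ∀ (N : ℕ) [NeZero N] (ℓ : Nat.Primes) (σ : S30.H990.GQ) (x : ModularCurve.JZero N),
      ModularCurve.heckeOperatorBar N ℓ (σ • x) = σ • ModularCurve.heckeOperatorBar N ℓ x)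
    (hunr : ∀ (N p : ℕ) [NeZero N], ∀ q : ℕ, q.Prime → ¬ q ∣ N * p →
      ∀ A : ValuationSubring (AlgebraicClosure ℚ), A.LiesOverPrime q →
        ∀ σ ∈ A.inertiaSubgroupIn ℚ, ∀ x : ModularCurve.JZero N,
          (∃ n : ℕ, ((p : ℤ) ^ n) • x = 0) → σ • x = x)
    (hes : ∀ (N p : ℕ) [NeZero N], ∀ (ℓ : ℕ) (hℓ : ℓ.Prime), ¬ ℓ ∣ N * p →
      ∀ A : ValuationSubring (AlgebraicClosure ℚ), A.LiesOverPrime ℓ →
        ∀ σ : S30.H990.GQ, A.IsFrobeniusAt σ ℓ → ∀ x : ModularCurve.JZero N,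
          (∃ n : ℕ, ((p : ℤ) ^ n) • x = 0) →
            σ • σ • x - ModularCurve.heckeOperatorBar N ⟨ℓ, hℓ⟩ (σ • x) + (ℓ : ℤ) • x = 0)
    (hlat : ∀ (N p : ℕ) [NeZero N], p.Prime →
      ∃ (Λ : Type) (_ : AddCommGroup Λ) (_ : Module.Free ℤ Λ) (_ : Module.Finite ℤ Λ)
        (TΛ : Nat.Primes → Λ →ₗ[ℤ] Λ) (κ : ℕ → Λ →ₗ[ℤ] ModularCurve.JZero N),
        (∀ (n : ℕ) (x : Λ), κ n x = 0 ↔ ∃ y : Λ, x = ((p : ℤ) ^ n) • y) ∧
        (∀ (n : ℕ) (x : Λ), (p : ℤ) • κ (n + 1) x = κ n x) ∧
        (∀ ℓ : Nat.Primes, ¬ (ℓ : ℕ) ∣ N * p → ∀ (n : ℕ) (x : Λ),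
          κ n (TΛ ℓ x) = ModularCurve.heckeOperatorBar N ℓ (κ n x)) ∧
        (∀ (S : Set ℕ) (R : Type) [CommRing R] [IsDomain R] [CharZero R]
          (χ : CuspForm.heckeAlgebra N 2 S →+* R),
          ∃ v : TensorProduct ℤ R Λ, v ≠ 0 ∧
            ∀ (ℓ : ℕ) (hℓ : ℓ.Prime) (hℓN : ¬ ℓ ∣ N) (hℓS : ℓ ∉ S),
              (TΛ ⟨ℓ, hℓ⟩).baseChange R v = χ (CuspForm.heckeAlgebra.T hℓ hℓN hℓS) • v))
    (hQ : QNewFrobStatement) (hX : Fermat.Agent.S35.H991.ExclTateStatement)
    {M : ℕ} [NeZero M] {g : CuspForm (CongruenceSubgroup.Gamma0 M) 2} (hg : g.IsNewform)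
    (lam : ℕ) [Fact lam.Prime]
    (S : Finset ℕ)
    (O' : Type) [CommRing O'] [IsDomain O'] [IsDiscreteValuationRing O']
    [IsAdicComplete (IsLocalRing.maximalIdeal O') O'] [Finite (IsLocalRing.ResidueField O')]
    [CharZero O'] (hlamO' : (lam : O') ∈ IsLocalRing.maximalIdeal O')
    (chig : CuspForm.heckeAlgebra M 2 (↑S : Set ℕ) →+* ℂ)
    (hchig : ∀ (ℓ : ℕ) (hℓ : ℓ.Prime) (hℓM : ¬ ℓ ∣ M) (hℓS : ℓ ∉ (↑S : Set ℕ)),
      chig (CuspForm.heckeAlgebra.T hℓ hℓM hℓS) = ModularFormClass.qCoeff g ℓ)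
    (iota : chig.range →+* O')
    (hlamS : lam ∈ S) (hMS : ∀ q : ℕ, q.Prime → q ∣ M → q ∈ S) :
    ∃ (O'' : Type) (_ : CommRing O'') (_ : IsDomain O'') (_ : IsDiscreteValuationRing O'')
      (_ : IsAdicComplete (IsLocalRing.maximalIdeal O'') O'') (_ : Finite (IsLocalRing.ResidueField O''))
      (_ : CharZero O'') (_ : Algebra O' O'') (_ : Module.Finite O' O'') (_ : IsLocalHom (algebraMap O' O'')),
      Function.Injective (algebraMap O' O'') ∧
      ∃ ρ : GaloisRepAdic O'',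
        (∀ (ℓ : ℕ) (hℓ : ℓ.Prime) (hℓM : ¬ ℓ ∣ M) (hℓS : ℓ ∉ (↑S : Set ℕ)),
          ∀ A : ValuationSubring (AlgebraicClosure ℚ), A.LiesOverPrime ℓ →
            ∀ σ : AlgebraicClosure ℚ ≃ₐ[ℚ] AlgebraicClosure ℚ, A.IsFrobeniusAt σ ℓ →
              LinearMap.charpoly (ρ.ρ σ) =
                Polynomial.X ^ 2 - Polynomial.C (algebraMap O' O'' ((iota.comp chig.rangeRestrict) (CuspForm.heckeAlgebra.T hℓ hℓM hℓS))) * Polynomial.X
                  + Polynomial.C ((ℓ : O''))) ∧
        (∀ q : ℕ, q.Prime → q ≠ lam → q ∣ M → ¬ q ^ 2 ∣ M →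
          ∀ A : ValuationSubring (AlgebraicClosure ℚ), A.LiesOverPrime q →
            ∀ σ : AlgebraicClosure ℚ ≃ₐ[ℚ] AlgebraicClosure ℚ, A.IsFrobeniusAt σ q →
              LinearMap.charpoly (ρ.ρ σ) = Polynomial.X ^ 2 - Polynomial.C ((q : O'') + 1) * Polynomial.X + Polynomial.C ((q : O'')) ∨
              LinearMap.charpoly (ρ.ρ σ) = Polynomial.X ^ 2 + Polynomial.C ((q : O'') + 1) * Polynomial.X + Polynomial.C ((q : O''))) :=
  result_of_cubic hfin hsm hgeq hunr hes hlat (newPartFrob3_of_qNew hQ) hX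
    hg lam S O' hlamO' chig hchig iota hlamS hMS

end Fermat.Agent.S35.H891

end
-- ===== PACK-END S35/H891/Bridge3.lean

-- ===== PACK-BEGIN Lib/Newform/H958/X/MainOf.lean
section


/-!
# NEWFORM block X — `LocalIdentity` from the leaves
-/

set_option autoImplicit false

open CongruenceSubgroup Complex Polynomial
open UpperHalfPlane hiding I
open scoped MatrixGroups ModularForm

namespace Fermat.Agent.Lib.Newform.H958.X

open ModularFormClass ModularForm

theorem localIdentity_of (hIL : IndepLocal) (hD : DirichletSeries) (hDep : Deplete)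
    (hO : FrickeOp) (hI : FrickeInvol) (hH : FrickeHecke) (hM : MultOne)
    (hET : Fermat.Agent.Lib.Newform.H958.EigenT) : LocalIdentity := by
  intro N N' _ _ f g hf hg S hagree q hq
  classical
  let T : Finset ℕ := (S ∪ N.primeFactors ∪ N'.primeFactors ∪ {q}).filter Nat.Prime
  have hT : ∀ p ∈ T, p.Prime := fun p hp => (Finset.mem_filter.mp hp).2
  have hqT : q ∈ T := Finset.mem_filter.mpr ⟨by simp, hq⟩
  have hTN : N.primeFactors ⊆ T := fun p hp =>
    Finset.mem_filter.mpr ⟨by simp [hp], (Nat.mem_primeFactors.mp hp).1⟩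
  have hTN' : N'.primeFactors ⊆ T := fun p hp =>
    Finset.mem_filter.mpr ⟨by simp [hp], (Nat.mem_primeFactors.mp hp).1⟩
  have hag : ∀ ℓ : ℕ, ℓ.Prime → ℓ ∉ T → qCoeff f ℓ = qCoeff g ℓ := fun ℓ hℓ hℓT =>
    hagree ℓ hℓ fun hS => hℓT (Finset.mem_filter.mpr ⟨by simp [hS], hℓ⟩)
  obtain ⟨wf, hwf, hFEf⟩ := functionalEq_newform_of hO hI hH hM hET hf
  obtain ⟨wg, hwg, hFEg⟩ := functionalEq_newform_of hO hI hH hM hET hg
  have hwf0 : wf ≠ 0 := by
    rintro rfl
    simp at hwf
  have hwg0 : wg ≠ 0 := by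
    rintro rfl
    simp at hwg
  have hglob := globalIdentity_of hD hDep hf.1 hg.1 hFEf hFEg T hT hTN hTN' hag
  exact localIdentity_of_global hIL _ _ hwf0 hwg0 T hT hTN hTN' hglob q hqT

end Fermat.Agent.Lib.Newform.H958.X

end
-- ===== PACK-END Lib/Newform/H958/X/MainOf.lean

-- ===== PACK-BEGIN S36/H919/Sheets.lean
section


/-!
# S36 engine, ALG3 gap lemma G2 (helper919), part 2: every sheet is one of `V₁`, `V₂`, `V₃`

Setting of `S36/H193/SheetsAll.lean`: `R` a noetherian domain with `R[X]` integrally closed,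
`w ∈ R` prime, `F` a field of characteristic `0`, `x ∈ F` transcendental over `R`, `F` finite over
`baseField R x`.  A *sheet* is a valuation subring `W` of `F` with `A2.H12.IsSheet w x W`.

* `h919_eq_sheet_of_centre_le` : a valuation subring `V ⊇ chart R {x}` with `w ∈ 𝔪_V` whose centre
  on the chart is contained in the centre of a sheet `W` is equal to `W`;
* `h919_sheet_cases` : if `V₁, V₂, V₃` are discrete valuation subrings containing the chart, with
  `w ∈ 𝔪_{V_i}`, satisfying the `q`-expansion principle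
  `B ∩ w (V₁ ∩ V₂ ∩ V₃) ⊆ w B` (`Eng.Qep3`), then every sheet is one of `V₁, V₂, V₃`.
-/

set_option autoImplicit false
set_option linter.style.haveILetI false
set_option linter.unusedSectionVars false

namespace Fermat.Agent.S36.H919

open Polynomial
open Fermat.Agent.A2.H12 (IsSheet)
open Fermat.Agent.S18.H138
open Fermat.Agent.S36.H193

universe u

section Val

variable {F : Type u} [Field F]

theorem h919_mem_nonunits_mul (V : ValuationSubring F) {a c : F} (ha : a ∈ V.nonunits)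
    (hc : c ∈ V) : a * c ∈ V.nonunits := by
  rw [ValuationSubring.mem_nonunits_iff] at ha ⊢
  rw [map_mul]
  have h1 : V.valuation c ≤ 1 := (ValuationSubring.valuation_le_one_iff V c).2 hc
  calc V.valuation a * V.valuation c ≤ V.valuation a * 1 := by gcongr
    _ < 1 := by rwa [mul_one]

theorem h919_inv_mem_of_not_nonunits (V : ValuationSubring F) {s : F} (hs : s ∈ V)
    (hs' : s ∉ V.nonunits) : s⁻¹ ∈ V := by
  rw [ValuationSubring.mem_nonunits_iff, not_lt] at hs'
  have h1 : V.valuation s ≤ 1 := (ValuationSubring.valuation_le_one_iff V s).2 hs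
  have h2 : V.valuation s = 1 := le_antisymm h1 hs'
  rw [← ValuationSubring.valuation_le_one_iff, map_inv₀, h2, inv_one]

theorem h919_one_not_mem_nonunits (V : ValuationSubring F) : (1 : F) ∉ V.nonunits := by
  rw [ValuationSubring.mem_nonunits_iff, map_one]
  exact lt_irrefl _

theorem h919_inv_mem_nonunits_of_not_mem (V : ValuationSubring F) {z : F} (hz : z ∉ V) :
    z⁻¹ ∈ V.nonunits := by
  rw [ValuationSubring.mem_nonunits_iff, map_inv₀]
  rw [← ValuationSubring.valuation_le_one_iff, not_le] at hz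
  exact inv_lt_one_of_one_lt₀ hz

end Val

section Cases

variable {R : Type u} [CommRing R] [IsDomain R] {F : Type u} [Field F] [Algebra R F]
variable [IsNoetherianRing R] [IsIntegrallyClosed R[X]] [CharZero F]

/-- A valuation subring containing the chart, with `w` in its maximal ideal, whose centre on the
chart is contained in the centre of a sheet `W`, is `W`. -/
theorem h919_eq_sheet_of_centre_le (hinjR : Function.Injective (algebraMap R F)) {w : R}
    (hw : Prime w) {x : F} (hx : Transcendental R x) [FiniteDimensional (baseField R x) F]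
    {W : ValuationSubring F} (hW : IsSheet w x W) (V : ValuationSubring F)
    (hV : ∀ c ∈ chart R ({x} : Set F), c ∈ V) (hwV : algebraMap R F w ∈ V.nonunits)
    (hle : ∀ b : chart R ({x} : Set F), (b : F) ∈ V.nonunits → (b : F) ∈ W.nonunits) :
    V = W := by
  set B := chart R ({x} : Set F) with hB
  have hWB : ∀ c ∈ B, c ∈ W := sheet_chart_le hW
  -- the centres agree
  have hmin := centre_mem_minimalPrimes hW
  have hcle : centreW V B hV ≤ centreW W B hWB := by
    intro b hb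
    rw [mem_centreW] at hb ⊢
    exact hle b hb
  have hspan : Ideal.span {algebraMap R B w} ≤ centreW V B hV := by
    rw [Ideal.span_le, Set.singleton_subset_iff, SetLike.mem_coe, mem_centreW]
    exact hwV
  have hge : centreW W B hWB ≤ centreW V B hV :=
    hmin.2 ⟨centreW_isPrime V B hV, hspan⟩ hcle
  have hiff : ∀ b : B, (b : F) ∈ W.nonunits → (b : F) ∈ V.nonunits := by
    intro b hb
    have := hge ((mem_centreW W B hWB b).2 hb)
    exact (mem_centreW V B hV b).1 this
  apply le_antisymm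
  · -- `V ≤ W`
    intro z hz
    by_contra hzW
    have h1 : z⁻¹ ∈ W.nonunits := h919_inv_mem_nonunits_of_not_mem W hzW
    have h1W : z⁻¹ ∈ W := W.nonunits_subset h1
    obtain ⟨a, s, hs, hzas⟩ := (sheet_mem_iff hinjR hw hx hW z⁻¹).1 h1W
    have hsW : (s : F) ∈ W := hWB s s.2
    have hs0 : (s : F) ≠ 0 := by
      intro h0
      apply hs
      rw [h0, ValuationSubring.mem_nonunits_iff, map_zero]
      exact zero_lt_one
    have ha : (a : F) = z⁻¹ * s := by
      rw [hzas, mul_assoc, inv_mul_cancel₀ hs0, mul_one]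
    have haW : (a : F) ∈ W.nonunits := by
      rw [ha]
      exact h919_mem_nonunits_mul W h1 hsW
    have haV : (a : F) ∈ V.nonunits := hiff a haW
    have hsV : (s : F)⁻¹ ∈ V :=
      h919_inv_mem_of_not_nonunits V (hV s s.2) (fun h => hs (hle s h))
    have hzV : z⁻¹ ∈ V.nonunits := by
      rw [hzas]
      exact h919_mem_nonunits_mul V haV hsV
    have h2 := h919_mem_nonunits_mul V hzV hz
    have hz0 : z ≠ 0 := by
      intro h0
      exact hzW (h0 ▸ W.zero_mem)
    rw [inv_mul_cancel₀ hz0] at h2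
    exact h919_one_not_mem_nonunits V h2
  · -- `W ≤ V`
    intro z hz
    obtain ⟨a, s, hs, hzas⟩ := (sheet_mem_iff hinjR hw hx hW z).1 hz
    rw [hzas]
    exact V.mul_mem _ _ (hV a a.2)
      (h919_inv_mem_of_not_nonunits V (hV s s.2) (fun h => hs (hle s h)))

/-- **Every sheet is one of `V₁`, `V₂`, `V₃`** (from the `q`-expansion principle `Qep3`). -/
theorem h919_sheet_cases (hinjR : Function.Injective (algebraMap R F)) {w : R}
    (hw : Prime w) {x : F} (hx : Transcendental R x) [FiniteDimensional (baseField R x) F]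
    (V₁ V₂ V₃ : ValuationSubring F)
    [IsDiscreteValuationRing V₁] [IsDiscreteValuationRing V₂] [IsDiscreteValuationRing V₃]
    (hV₁ : ∀ c ∈ chart R ({x} : Set F), c ∈ V₁) (hV₂ : ∀ c ∈ chart R ({x} : Set F), c ∈ V₂)
    (hV₃ : ∀ c ∈ chart R ({x} : Set F), c ∈ V₃)
    (hw₁ : algebraMap R F w ∈ V₁.nonunits) (hw₂ : algebraMap R F w ∈ V₂.nonunits)
    (hw₃ : algebraMap R F w ∈ V₃.nonunits)
    (hqep : ∀ b : chart R ({x} : Set F), (b : F) * (algebraMap R F w)⁻¹ ∈ V₁ →
      (b : F) * (algebraMap R F w)⁻¹ ∈ V₂ → (b : F) * (algebraMap R F w)⁻¹ ∈ V₃ →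
      ∃ c : chart R ({x} : Set F), b = algebraMap R (chart R ({x} : Set F)) w * c)
    {W : ValuationSubring F} (hW : IsSheet w x W) : W = V₁ ∨ W = V₂ ∨ W = V₃ := by
  set B := chart R ({x} : Set F) with hB
  have hWB : ∀ c ∈ B, c ∈ W := sheet_chart_le hW
  by_contra hcon
  rw [not_or, not_or] at hcon
  obtain ⟨h1, h2, h3⟩ := hcon
  have hw0 : algebraMap R F w ≠ 0 := by
    intro h0
    exact hw.ne_zero (hinjR (h0.trans (map_zero _).symm))
  -- separating elements
  have hsep : ∀ V : ValuationSubring F, (∀ c ∈ B, c ∈ V) → algebraMap R F w ∈ V.nonunits →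
      W ≠ V → ∃ b : B, (b : F) ∈ V.nonunits ∧ (b : F) ∉ W.nonunits := by
    intro V hV hwV hne
    by_contra hno
    apply hne
    symm
    refine h919_eq_sheet_of_centre_le hinjR hw hx hW V hV hwV (fun b hb => ?_)
    by_contra hbW
    exact hno ⟨b, hb, hbW⟩
  obtain ⟨b₁, hb₁, hb₁W⟩ := hsep V₁ hV₁ hw₁ h1
  obtain ⟨b₂, hb₂, hb₂W⟩ := hsep V₂ hV₂ hw₂ h2
  obtain ⟨b₃, hb₃, hb₃W⟩ := hsep V₃ hV₃ hw₃ h3
  obtain ⟨e₁, he₁⟩ := h919_exists_pow_mul_inv_mem V₁ hw0
  obtain ⟨e₂, he₂⟩ := h919_exists_pow_mul_inv_mem V₂ hw0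
  obtain ⟨e₃, he₃⟩ := h919_exists_pow_mul_inv_mem V₃ hw0
  set b : B := b₁ ^ e₁ * b₂ ^ e₂ * b₃ ^ e₃ with hb
  have hbF : (b : F) = (b₁ : F) ^ e₁ * (b₂ : F) ^ e₂ * (b₃ : F) ^ e₃ := by
    simp [hb]
  have hq₁ : (b : F) * (algebraMap R F w)⁻¹ ∈ V₁ := by
    have : (b : F) * (algebraMap R F w)⁻¹ =
        ((b₁ : F) ^ e₁ * (algebraMap R F w)⁻¹) * ((b₂ : F) ^ e₂ * (b₃ : F) ^ e₃) := by
      rw [hbF]; ring
    rw [this]
    exact V₁.mul_mem _ _ (he₁ _ hb₁)
      (V₁.mul_mem _ _ (V₁.pow_mem (hV₁ b₂ b₂.2) _) (V₁.pow_mem (hV₁ b₃ b₃.2) _))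
  have hq₂ : (b : F) * (algebraMap R F w)⁻¹ ∈ V₂ := by
    have : (b : F) * (algebraMap R F w)⁻¹ =
        ((b₂ : F) ^ e₂ * (algebraMap R F w)⁻¹) * ((b₁ : F) ^ e₁ * (b₃ : F) ^ e₃) := by
      rw [hbF]; ring
    rw [this]
    exact V₂.mul_mem _ _ (he₂ _ hb₂)
      (V₂.mul_mem _ _ (V₂.pow_mem (hV₂ b₁ b₁.2) _) (V₂.pow_mem (hV₂ b₃ b₃.2) _))
  have hq₃ : (b : F) * (algebraMap R F w)⁻¹ ∈ V₃ := by
    have : (b : F) * (algebraMap R F w)⁻¹ =
        ((b₃ : F) ^ e₃ * (algebraMap R F w)⁻¹) * ((b₁ : F) ^ e₁ * (b₂ : F) ^ e₂) := by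
      rw [hbF]; ring
    rw [this]
    exact V₃.mul_mem _ _ (he₃ _ hb₃)
      (V₃.mul_mem _ _ (V₃.pow_mem (hV₃ b₁ b₁.2) _) (V₃.pow_mem (hV₃ b₂ b₂.2) _))
  obtain ⟨c, hc⟩ := hqep b hq₁ hq₂ hq₃
  -- `b` is a non-unit of `W`
  have hbW : (b : F) ∈ W.nonunits := by
    have : (b : F) = algebraMap R F w * (c : F) := by
      have := congrArg (fun z : B => (z : F)) hc
      simpa using this
    rw [this]
    exact h919_mem_nonunits_mul W hW.2.2.1 (hWB c c.2)
  -- but it is a unit
  have hunit : ∀ b' : B, (b' : F) ∉ W.nonunits → W.valuation (b' : F) = 1 := by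
    intro b' hb'
    rw [ValuationSubring.mem_nonunits_iff, not_lt] at hb'
    exact le_antisymm ((ValuationSubring.valuation_le_one_iff W _).2 (hWB b' b'.2)) hb'
  rw [ValuationSubring.mem_nonunits_iff, hbF, map_mul, map_mul, map_pow, map_pow, map_pow,
    hunit b₁ hb₁W, hunit b₂ hb₂W, hunit b₃ hb₃W, one_pow, one_pow, one_pow, mul_one,
    mul_one] at hbW
  exact lt_irrefl _ hbW

end Cases

end Fermat.Agent.S36.H919

end
-- ===== PACK-END S36/H919/Sheets.lean

-- ===== PACK-BEGIN S36/H994/T4E.lean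
section



/-!
# The level-`4` Hauptmodul in the function fields `F_{N,E}` (helper994, S36 cell REG, `q` odd)

Mirror of helper890's `T9E.lean`.  `A2.Mod` vocabulary: `FE E N = E(j_d : d ∣ N) ⊆ E((t))`.
For `4 ∣ N`:

* `t2E`, `t2eE`, `t4E : FE E N` — `t₂`, `t₂(t²)`, `t₄`, with INTEGRAL `t`-expansions
  (`coe_t4E_int` …: `= coeffEmb E (castQ g)`, `g : LaurentSeries ℤ`, the shape of
  `A2.Mod.H553.mem_of_int` / `inv_mem_of_int`);
* the relations in `FE E N`: `jE_mul_t4E` (`j t₄⁴ (t₄ + 16) = (t₄² + 256 t₄ + 4096)³`),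
  `jE_sub_1728_mul_t4E`, `t4E_sq`, `t2eE_eq`, and `l1`, `l2`, `l3` of helper878's
  `Congr4.t4_congr` (`t2E_lin`, `t2eE_lin`, `t4E_lin`);
* `αE_t4E`, `coe_βE_t4E` : the images under the two degeneracy maps.
-/

set_option autoImplicit false
set_option synthInstance.maxHeartbeats 400000
set_option maxHeartbeats 1600000
set_option linter.unusedSectionVars false

noncomputable section

namespace Fermat.Agent.S36.H994

open ModularCurve HahnSeries Fermat.Agent.Lib.Haupt Fermat.Agent.A2.Mod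
open Fermat.Agent.A2 Fermat.Agent.S36.H878

variable (E : IntermediateField ℚ _root_.Fermat.Agent.A2.Mod.Qb) (N : ℕ)

/-! ## Membership -/

theorem t2_mem_laurentBaseChange4 (L : Type*) [Field L] [Algebra ℚ L] (M : ℕ) (h2 : 2 ∣ M) :
    t2 L ∈ laurentBaseChange L (modularFunctionFieldFull M) := by
  have h := coeffEmb_mem_laurentBaseChange L (t2_mem_full M h2)
  rwa [coeffEmb, coeffMap_t2] at h

theorem qExpand_t2_mem_laurentBaseChange4 (L : Type*) [Field L] [Algebra ℚ L] (M : ℕ)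
    (h4 : 4 ∣ M) :
    qExpand L 2 (t2 L) ∈ laurentBaseChange L (modularFunctionFieldFull M) := by
  have h0 : qExpand ℚ 2 (t2 ℚ) ∈ modularFunctionFieldFull M := qExpand_t2_mem_fullC ℚ M h4
  have h := coeffEmb_mem_laurentBaseChange L h0
  rwa [coeffEmb, coeffMap_qExpand, coeffMap_t2] at h

/-- `t₂ ∈ F_{N,E}`, `2 ∣ N`. -/
def t2E (h2 : 2 ∣ N) : _root_.Fermat.Agent.A2.Mod.FE E N := ⟨t2 E, t2_mem_laurentBaseChange4 E N h2⟩

/-- `t₂(t²) ∈ F_{N,E}`, `4 ∣ N`. -/
def t2eE (h4 : 4 ∣ N) : _root_.Fermat.Agent.A2.Mod.FE E N := ⟨qExpand E 2 (t2 E), qExpand_t2_mem_laurentBaseChange4 E N h4⟩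

/-- `t₄ ∈ F_{N,E}`, `4 ∣ N`. -/
def t4E (h4 : 4 ∣ N) : _root_.Fermat.Agent.A2.Mod.FE E N := ⟨t4 E, t4_mem_laurentBaseChange E N h4⟩

theorem coe_t2E (h2 : 2 ∣ N) : ((t2E E N h2 : _root_.Fermat.Agent.A2.Mod.FE E N) : LaurentSeries E) = t2 E := rfl

theorem coe_t2eE (h4 : 4 ∣ N) :
    ((t2eE E N h4 : _root_.Fermat.Agent.A2.Mod.FE E N) : LaurentSeries E) = qExpand E 2 (t2 E) := rfl

theorem coe_t4E (h4 : 4 ∣ N) : ((t4E E N h4 : _root_.Fermat.Agent.A2.Mod.FE E N) : LaurentSeries E) = t4 E := rfl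

theorem two_dvd_of_four_dvd {N : ℕ} (h4 : 4 ∣ N) : 2 ∣ N :=
  Dvd.dvd.trans (by norm_num) h4

/-! ## Integral expansions -/

theorem coeffEmb_castQ_eq4 (g : LaurentSeries ℤ) :
    coeffEmb E (H708.castQ g) = coeffMap (Int.castRingHom E) g := by
  rw [coeffEmb, H708.castQ, coeffMap_coeffMap]
  exact coeffMap_congr (RingHom.ext_int _ _) g

theorem coe_t2E_int (h2 : 2 ∣ N) :
    ((t2E E N h2 : _root_.Fermat.Agent.A2.Mod.FE E N) : LaurentSeries E) = coeffEmb E (H708.castQ (t2 ℤ)) := by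
  rw [coe_t2E, coeffEmb_castQ_eq4, coeffMap_t2]

theorem coe_t2eE_int (h4 : 4 ∣ N) :
    ((t2eE E N h4 : _root_.Fermat.Agent.A2.Mod.FE E N) : LaurentSeries E)
      = coeffEmb E (H708.castQ (qExpand ℤ 2 (t2 ℤ))) := by
  rw [coe_t2eE, coeffEmb_castQ_eq4, coeffMap_qExpand, coeffMap_t2]

theorem coe_t4E_int (h4 : 4 ∣ N) :
    ((t4E E N h4 : _root_.Fermat.Agent.A2.Mod.FE E N) : LaurentSeries E) = coeffEmb E (H708.castQ (t4 ℤ)) := by
  rw [coe_t4E, coeffEmb_castQ_eq4, coeffMap_t4]

theorem h4_coe_jE (d : ℕ) [NeZero d] (hd : d ∣ N) :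
    ((jE E N d hd : _root_.Fermat.Agent.A2.Mod.FE E N) : LaurentSeries E) = qExpand E d (jqModC E) := by
  show coeffEmb E (qExpand ℚ d jq) = _
  rw [coeffEmb, coeffMap_qExpand, ← jqModC_rat, coeffMap_jqModC]

theorem h4_coe_jE_one :
    ((jE E N 1 (one_dvd N) : _root_.Fermat.Agent.A2.Mod.FE E N) : LaurentSeries E) = jqModC E := by
  rw [h4_coe_jE, qExpand_one_apply]

/-! ## Relations in `F_{N,E}` -/

/-- `j · t₄⁴ (t₄ + 16) = (t₄² + 256 t₄ + 4096)³` in `F_{N,E}`. -/
theorem jE_mul_t4E (h4 : 4 ∣ N) :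
    jE E N 1 (one_dvd N) * (t4E E N h4 ^ 4 * (t4E E N h4 + 16))
      = (t4E E N h4 ^ 2 + 256 * t4E E N h4 + 4096) ^ 3 := by
  apply Subtype.ext
  have h := jq_mul_t4 E
  rw [← h4_coe_jE_one E N, ← coe_t4E E N h4] at h
  exact h

/-- `(j - 1728) · t₄⁴ (t₄ + 16) = (t₄ + 32)² (t₄² - 512 t₄ - 8192)²` in `F_{N,E}`. -/
theorem jE_sub_1728_mul_t4E (h4 : 4 ∣ N) :
    (jE E N 1 (one_dvd N) - 1728) * (t4E E N h4 ^ 4 * (t4E E N h4 + 16))
      = (t4E E N h4 + 32) ^ 2 * (t4E E N h4 ^ 2 - 512 * t4E E N h4 - 8192) ^ 2 := by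
  apply Subtype.ext
  have h := jq_sub_1728_mul_t4 E
  rw [← h4_coe_jE_one E N, ← coe_t4E E N h4] at h
  exact h

/-- `t₄² = t₂ (t₄ + 16)` in `F_{N,E}`. -/
theorem t4E_sq (h4 : 4 ∣ N) :
    t4E E N h4 ^ 2 = t2E E N (two_dvd_of_four_dvd h4) * (t4E E N h4 + 16) :=
  Subtype.ext (t4_sq E)

/-- `t₂(t²) = t₄ (t₄ + 16)` in `F_{N,E}`. -/
theorem t2eE_eq (h4 : 4 ∣ N) :
    t2eE E N h4 = t4E E N h4 * (t4E E N h4 + 16) :=
  Subtype.ext (t2e_eq E)

/-- `l3` : `t₄ · (t₂ + 16) = t₂(t²) - 16 t₂` in `F_{N,E}`. -/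
theorem t4E_lin (h4 : 4 ∣ N) :
    t4E E N h4 * (t2E E N (two_dvd_of_four_dvd h4) + 16)
      = t2eE E N h4 - 16 * t2E E N (two_dvd_of_four_dvd h4) :=
  Subtype.ext (t4_mul E)

/-- `l1` : `U₂(j, j₂) · t₂ = W₂(j, j₂)` in `F_{N,E}`. -/
theorem t2E_lin (h2 : 2 ∣ N) :
    h4u2 (jE E N 1 (one_dvd N)) (jE E N 2 h2) * t2E E N h2
      = h4w2 (jE E N 1 (one_dvd N)) (jE E N 2 h2) := by
  apply Subtype.ext
  have h := t2_lin4 E
  rw [← h4_coe_jE E N 2 h2, ← h4_coe_jE_one E N, ← coe_t2E E N h2] at h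
  exact h

/-- `l2` : `U₂(j₂, j₄) · t₂(t²) = W₂(j₂, j₄)` in `F_{N,E}`. -/
theorem t2eE_lin (h4 : 4 ∣ N) :
    h4u2 (jE E N 2 (two_dvd_of_four_dvd h4)) (jE E N 4 h4) * t2eE E N h4
      = h4w2 (jE E N 2 (two_dvd_of_four_dvd h4)) (jE E N 4 h4) := by
  apply Subtype.ext
  have h := t2e_lin4 E
  rw [← h4_coe_jE E N 2 (two_dvd_of_four_dvd h4), ← h4_coe_jE E N 4 h4,
    ← coe_t2eE E N h4] at h
  exact h

/-! ## The degeneracy maps -/

section Deg

variable [NeZero N] (q : ℕ) [NeZero q]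

theorem αE_t4E (h4 : 4 ∣ N) :
    αE E N q (t4E E N h4) = t4E E (N * q) (Dvd.dvd.mul_right h4 q) :=
  Subtype.ext (coe_heckeAlphaBar N q _)

theorem αE_t2E (h2 : 2 ∣ N) :
    αE E N q (t2E E N h2) = t2E E (N * q) (Dvd.dvd.mul_right h2 q) :=
  Subtype.ext (coe_heckeAlphaBar N q _)

theorem αE_t2eE (h4 : 4 ∣ N) :
    αE E N q (t2eE E N h4) = t2eE E (N * q) (Dvd.dvd.mul_right h4 q) :=
  Subtype.ext (coe_heckeAlphaBar N q _)

theorem coe_βE_t4E (h4 : 4 ∣ N) :
    ((βE E N q (t4E E N h4) : _root_.Fermat.Agent.A2.Mod.FE E (N * q)) : LaurentSeries E) = qExpand E q (t4 E) := rfl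

theorem coe_βE_t4E_int (h4 : 4 ∣ N) :
    ((βE E N q (t4E E N h4) : _root_.Fermat.Agent.A2.Mod.FE E (N * q)) : LaurentSeries E)
      = coeffEmb E (H708.castQ (qExpand ℤ q (t4 ℤ))) := by
  rw [coe_βE_t4E, coeffEmb_castQ_eq4, coeffMap_qExpand, coeffMap_t4]

theorem coe_βE_t2E (h2 : 2 ∣ N) :
    ((βE E N q (t2E E N h2) : _root_.Fermat.Agent.A2.Mod.FE E (N * q)) : LaurentSeries E) = qExpand E q (t2 E) := rfl

theorem coe_βE_t2eE (h4 : 4 ∣ N) :
    ((βE E N q (t2eE E N h4) : _root_.Fermat.Agent.A2.Mod.FE E (N * q)) : LaurentSeries E)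
      = qExpand E q (qExpand E 2 (t2 E)) := rfl

theorem αE_jE4 (d : ℕ) [NeZero d] (hd : d ∣ N) :
    αE E N q (jE E N d hd) = jE E (N * q) d (Dvd.dvd.mul_right hd q) :=
  Subtype.ext (coe_heckeAlphaBar N q _)

end Deg

end Fermat.Agent.S36.H994

end
end
-- ===== PACK-END S36/H994/T4E.lean

-- ===== PACK-BEGIN S36/H994/Vinf4.lean
section



/-!
# The level-`4` Gauss units are units of `V∞` (helper994, S36 cell REG, `q` odd)

Mirror of helper890's `Vinf9.lean`.  `V` the Gauss valuation ring of `F_{N,E}`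
(`A2.Mod.IsVinf P E N V`), `4 ∣ N`, ANY residue characteristic.  The following elements of
`F_{N,E}` and their inverses lie in `V`:

  `t₄`, `t₄ + 16`, `t₂ + 16`, `U₂(j, j₂)`, `U₂(j₂, j₄)`, `j`, `j - 1728`,

and `t₂`, `t₂(t²)` lie in `V`.  (Units of `V_mid`, `V_FF` at level `N q` follow by
`V.comap α = V∞'`: `valuation_α_eq_one`.)
-/

set_option autoImplicit false
set_option synthInstance.maxHeartbeats 400000
set_option maxHeartbeats 1600000
set_option linter.unusedSectionVars false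

noncomputable section

namespace Fermat.Agent.S36.H994

open ModularCurve HahnSeries Fermat.Agent.Lib.Haupt Fermat.Agent.A2.Mod
open Fermat.Agent.A2 Fermat.Agent.S36.H878

variable (P : ValuationSubring _root_.Fermat.Agent.A2.Mod.Qb) (E : IntermediateField ℚ _root_.Fermat.Agent.A2.Mod.Qb) (N : ℕ)

/-- The ring homomorphism `ℤ((t)) → E((t))`. -/
def castE4 : LaurentSeries ℤ →+* LaurentSeries E := (coeffEmb E).comp H708.castQ

theorem castE4_apply (g : LaurentSeries ℤ) : castE4 E g = coeffEmb E (H708.castQ g) := rfl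

theorem castE4_eq (g : LaurentSeries ℤ) : castE4 E g = coeffMap (Int.castRingHom E) g :=
  coeffEmb_castQ_eq4 E g

theorem castE4_t4 : castE4 E (t4 ℤ) = t4 E := by rw [castE4_eq, coeffMap_t4]

theorem castE4_t2 : castE4 E (t2 ℤ) = t2 E := by rw [castE4_eq, coeffMap_t2]

theorem castE4_jq : castE4 E (jqModC ℤ) = jqModC E := by rw [castE4_eq, coeffMap_jqModC]

theorem castE4_qExpand (d : ℕ) [NeZero d] (g : LaurentSeries ℤ) :
    castE4 E (qExpand ℤ d g) = qExpand E d (castE4 E g) := by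
  rw [castE4_eq, castE4_eq, coeffMap_qExpand]

variable {P E N}

/-- An element of `F_{N,E}` whose expansion is an integral series with a coefficient `1` is a
unit of `V∞`. -/
theorem unit_of_int4 {V : ValuationSubring (_root_.Fermat.Agent.A2.Mod.FE E N)} (hV : IsVinf P E N V) {f : _root_.Fermat.Agent.A2.Mod.FE E N}
    {g : LaurentSeries ℤ} {k : ℤ} (hfg : (f : LaurentSeries E) = castE4 E g)
    (hk : g.coeff k = 1) : f ∈ V ∧ f⁻¹ ∈ V :=
  ⟨H553.mem_of_int hV hfg, H553.inv_mem_of_int hV hfg (Or.inl hk)⟩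

variable (P E N)

section Level4

variable {V : ValuationSubring (_root_.Fermat.Agent.A2.Mod.FE E N)} (hV : IsVinf P E N V) (h4 : 4 ∣ N)

include hV

theorem t4E_unit : t4E E N h4 ∈ V ∧ (t4E E N h4)⁻¹ ∈ V :=
  unit_of_int4 hV (g := t4 ℤ) (k := -1) (by rw [coe_t4E, castE4_t4]) (coeff_t4_neg_one ℤ)

theorem t4E_add_unit : t4E E N h4 + 16 ∈ V ∧ (t4E E N h4 + 16)⁻¹ ∈ V := by
  refine unit_of_int4 hV (g := t4 ℤ + 16) (k := -1) ?_ (coeff_t4_add_16 ℤ)
  rw [map_add, map_ofNat, castE4_t4]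
  rfl

theorem t2E_mem : t2E E N (two_dvd_of_four_dvd h4) ∈ V :=
  H553.mem_of_int hV (g := t2 ℤ) (by rw [coe_t2E, ← castE4_apply, castE4_t2])

theorem t2eE_mem : t2eE E N h4 ∈ V :=
  H553.mem_of_int hV (g := qExpand ℤ 2 (t2 ℤ))
    (by rw [coe_t2eE, ← castE4_apply, castE4_qExpand, castE4_t2])

theorem t2E_add_unit :
    t2E E N (two_dvd_of_four_dvd h4) + 16 ∈ V
      ∧ (t2E E N (two_dvd_of_four_dvd h4) + 16)⁻¹ ∈ V := by
  refine unit_of_int4 hV (g := t2 ℤ + 16) (k := -1) ?_ (coeff_t2_add_16 ℤ)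
  rw [map_add, map_ofNat, castE4_t2]
  rfl

theorem u2E_unit :
    h4u2 (jE E N 1 (one_dvd N)) (jE E N 2 (two_dvd_of_four_dvd h4)) ∈ V
      ∧ (h4u2 (jE E N 1 (one_dvd N)) (jE E N 2 (two_dvd_of_four_dvd h4)))⁻¹ ∈ V := by
  refine unit_of_int4 hV (g := h4u2 (jqModC ℤ) (qExpand ℤ 2 (jqModC ℤ))) (k := -3) ?_
    (coeff_u2 ℤ)
  rw [map_h4u2, castE4_qExpand, castE4_jq, ← h4_coe_jE E N 2 (two_dvd_of_four_dvd h4),
    ← h4_coe_jE_one E N]
  exact (map_h4u2 (_root_.Fermat.Agent.A2.Mod.FE E N).val.toRingHom _ _)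

theorem u2eE_unit :
    h4u2 (jE E N 2 (two_dvd_of_four_dvd h4)) (jE E N 4 h4) ∈ V
      ∧ (h4u2 (jE E N 2 (two_dvd_of_four_dvd h4)) (jE E N 4 h4))⁻¹ ∈ V := by
  refine unit_of_int4 hV (g := h4u2 (qExpand ℤ 2 (jqModC ℤ)) (qExpand ℤ 4 (jqModC ℤ)))
    (k := -6) ?_ (coeff_u2e ℤ)
  rw [map_h4u2, castE4_qExpand, castE4_qExpand, castE4_jq,
    ← h4_coe_jE E N 2 (two_dvd_of_four_dvd h4), ← h4_coe_jE E N 4 h4]
  exact (map_h4u2 (_root_.Fermat.Agent.A2.Mod.FE E N).val.toRingHom _ _)

end Level4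

section AnyLevel

variable {V : ValuationSubring (_root_.Fermat.Agent.A2.Mod.FE E N)} (hV : IsVinf P E N V)

include hV

theorem jE_one_unit4 : jE E N 1 (one_dvd N) ∈ V ∧ (jE E N 1 (one_dvd N))⁻¹ ∈ V :=
  unit_of_int4 hV (g := jqModC ℤ) (k := -1) (by rw [h4_coe_jE_one, castE4_jq])
    (coeff_jqModC_neg_one ℤ)

theorem jE_sub_1728_unit4 :
    jE E N 1 (one_dvd N) - 1728 ∈ V ∧ (jE E N 1 (one_dvd N) - 1728)⁻¹ ∈ V := by
  refine unit_of_int4 hV (g := jqModC ℤ - 1728) (k := -1) ?_ (coeff_jq4_sub_1728 ℤ)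
  rw [map_sub, map_ofNat, castE4_jq, ← h4_coe_jE_one E N]
  rfl

/-- `j_d ∈ V∞` for every `d ∣ N`. -/
theorem jE_mem4 (d : ℕ) [NeZero d] (hd : d ∣ N) : jE E N d hd ∈ V :=
  H553.mem_of_int hV (g := qExpand ℤ d (jqModC ℤ))
    (by rw [h4_coe_jE, ← castE4_apply, castE4_qExpand, castE4_jq])

end AnyLevel

end Fermat.Agent.S36.H994

end
end
-- ===== PACK-END S36/H994/Vinf4.lean

-- ===== PACK-BEGIN A3/H799/DiscLemmas.lean
section


/-!
# A3 / LOCAL — consequences of `DiscData`  (helper799)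

Dictionary between the disc algebra of a `DiscData` and orders of functions at the points of the
residue disc: `t - a` has a simple zero at `pt a` and no other zero in the disc; `pt` is
injective; `ev a f = 0 ↔ ord_{pt a} f ≥ 1`; division by `t - a`; values of `polyDiv`.
-/

set_option autoImplicit false

noncomputable section

open AlgebraicCurve Fermat.Agent.Lib.RR

namespace Fermat.Agent.A3.H799

variable {K F k Fk : Type*} [Field K] [Field F] [Algebra K F] [Field k] [Field Fk] [Algebra k Fk]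

section Finsupp

/-- A point of the fibre contributes at most the total, if all contributions are `≥ 0`. -/
theorem le_mapDomain_apply {α β : Type*} (r : α → β) (D : α →₀ ℤ) (b : β)
    (hnn : ∀ a, r a = b → 0 ≤ D a) (a₀ : α) (h₀ : r a₀ = b) :
    D a₀ ≤ Finsupp.mapDomain r D b := by
  classical
  rw [Finsupp.mapDomain, Finsupp.sum_apply]
  simp only [Finsupp.sum, Finsupp.single_apply]
  by_cases hmem : a₀ ∈ D.support
  · have h1 : (if r a₀ = b then D a₀ else 0) ≤
        ∑ a ∈ D.support, if r a = b then D a else 0 := by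
      refine Finset.single_le_sum (f := fun a => if r a = b then D a else 0) ?_ hmem
      intro a _
      show 0 ≤ if r a = b then D a else 0
      split_ifs with h
      · exact hnn a h
      · exact le_rfl
    rwa [if_pos h₀] at h1
  · have h0 : D a₀ = 0 := Finsupp.notMem_support_iff.mp hmem
    rw [h0]
    refine Finset.sum_nonneg fun a _ => ?_
    split_ifs with h
    · exact hnn a h
    · exact le_rfl

/-- Two distinct points of the fibre contribute at most the total. -/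
theorem add_le_mapDomain_apply {α β : Type*} (r : α → β) (D : α →₀ ℤ) (b : β)
    (hnn : ∀ a, r a = b → 0 ≤ D a) (a₀ a₁ : α) (h₀ : r a₀ = b) (h₁ : r a₁ = b)
    (hne : a₀ ≠ a₁) : D a₀ + D a₁ ≤ Finsupp.mapDomain r D b := by
  classical
  -- remove the point `a₀`
  set D' : α →₀ ℤ := D - Finsupp.single a₀ (D a₀) with hD'
  have hD : D = D' + Finsupp.single a₀ (D a₀) := by rw [hD']; abel
  have hnn' : ∀ a, r a = b → 0 ≤ D' a := by
    intro a ha
    rw [hD', Finsupp.sub_apply, Finsupp.single_apply]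
    split_ifs with h
    · subst h; simp
    · simpa using hnn a ha
  have h1 := le_mapDomain_apply r D' b hnn' a₁ h₁
  have h2 : D' a₁ = D a₁ := by
    rw [hD', Finsupp.sub_apply, Finsupp.single_apply, if_neg hne, sub_zero]
  have h3 : Finsupp.mapDomain r D b = Finsupp.mapDomain r D' b + D a₀ := by
    conv_lhs => rw [hD]
    rw [Finsupp.mapDomain_add, Finsupp.add_apply, Finsupp.mapDomain_single,
      Finsupp.single_apply, if_pos h₀]
  rw [h3, ← h2]
  linarith

end Finsupp

namespace DiscData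

variable {𝓡 : GoodRed K F k Fk} {Q : Place k Fk} (d : DiscData 𝓡 Q)

/-- The parameter as an element of `F`. -/
def tF : F := ((d.D.t : d.ring) : F)

/-- Reduction on the disc ring. -/
def redHom : d.ring →+* Fk :=
  𝓡.red.comp
    { toFun := fun f => (⟨(f : F), d.ring_le _ f.2⟩ : 𝓡.O)
      map_one' := rfl
      map_mul' := fun _ _ => rfl
      map_zero' := rfl
      map_add' := fun _ _ => rfl }

theorem redHom_apply (f : d.ring) : d.redHom f = 𝓡.red ⟨(f : F), d.ring_le _ f.2⟩ := rfl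

theorem coe_algebraMap (a : 𝓡.V) : ((algebraMap 𝓡.V d.ring a : d.ring) : F) =
    algebraMap K F (a : K) := rfl

theorem redHom_algebraMap (a : 𝓡.V) :
    d.redHom (algebraMap 𝓡.V d.ring a) = algebraMap k Fk (𝓡.res a) := by
  rw [redHom_apply]
  exact 𝓡.red_algebraMap a _

theorem redHom_algebraMap_of_mem (a : IsLocalRing.maximalIdeal 𝓡.V) :
    d.redHom (algebraMap 𝓡.V d.ring (a : 𝓡.V)) = 0 := by
  rw [redHom_algebraMap]
  have h : 𝓡.res (a : 𝓡.V) = 0 := by
    rw [𝓡.res_eq_zero, ValuationSubring.mem_nonunits_iff_exists_mem_maximalIdeal]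
    exact ⟨(a : 𝓡.V).2, a.2⟩
  rw [h, map_zero]

theorem ord_redHom_t : Q.ord (d.redHom d.D.t) = 1 := d.ord_t

theorem redHom_t_ne_zero : d.redHom d.D.t ≠ 0 := by
  intro h
  have := d.ord_redHom_t
  rw [h, Place.ord_zero] at this
  exact zero_ne_one this

/-- `t - a` as an element of the disc ring. -/
def tSub (a : IsLocalRing.maximalIdeal 𝓡.V) : d.ring :=
  d.D.t - algebraMap 𝓡.V d.ring (a : 𝓡.V)

theorem coe_tSub (a : IsLocalRing.maximalIdeal 𝓡.V) :
    ((d.tSub a : d.ring) : F) = d.tF - algebraMap K F (((a : 𝓡.V) : K)) := rfl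

theorem redHom_tSub (a : IsLocalRing.maximalIdeal 𝓡.V) : d.redHom (d.tSub a) = d.redHom d.D.t := by
  rw [tSub, map_sub, redHom_algebraMap_of_mem, sub_zero]

theorem tSub_ne_zero (a : IsLocalRing.maximalIdeal 𝓡.V) : ((d.tSub a : d.ring) : F) ≠ 0 := by
  intro h
  have h1 : d.tSub a = 0 := Subtype.ext h
  have := d.redHom_tSub a
  rw [h1, map_zero] at this
  exact d.redHom_t_ne_zero this.symm

theorem ev_tSub (a : IsLocalRing.maximalIdeal 𝓡.V) : d.D.ev a (d.tSub a) = 0 := by
  rw [tSub, map_sub, d.D.ev_t, AlgHom.commutes]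
  simp

theorem ord_nonneg (f : d.ring) (P : Place K F) (hP : 𝓡.r P = Q) : 0 ≤ P.ord (f : F) :=
  ord_nonneg_of_mem P (d.ring_reg _ f.2 P hP)

/-- `t - a` has a simple zero at `pt a`. -/
theorem ord_pt_tSub (a : IsLocalRing.maximalIdeal 𝓡.V) :
    (d.pt a).ord ((d.tSub a : d.ring) : F) = 1 := by
  haveI := 𝓡.ff1
  have hne := d.tSub_ne_zero a
  -- lower bound from `ev_spec`
  have h1 : 1 ≤ (d.pt a).ord ((d.tSub a : d.ring) : F) := by
    have := d.ev_spec a (d.tSub a)
    rw [d.ev_tSub a] at this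
    simp only [ZeroMemClass.coe_zero, map_zero, sub_zero] at this
    rcases this with h | h
    · exact absurd h hne
    · exact h
  -- upper bound from conservation
  have h2 := 𝓡.div_red ⟨((d.tSub a : d.ring) : F), d.ring_le _ (d.tSub a).2⟩
    (by
      have := d.redHom_tSub a
      rw [redHom_apply] at this
      rw [this]
      exact d.redHom_t_ne_zero)
    (divOf _ hne) (fun P => divOf_apply _ hne P) Q
  have h3 : 𝓡.red ⟨((d.tSub a : d.ring) : F), d.ring_le _ (d.tSub a).2⟩ = d.redHom d.D.t :=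
    d.redHom_tSub a
  rw [h3, d.ord_redHom_t] at h2
  have h4 := le_mapDomain_apply 𝓡.r (divOf ((d.tSub a : d.ring) : F) hne) Q
    (fun P hP => by rw [divOf_apply]; exact d.ord_nonneg _ P hP) (d.pt a) (d.r_pt a)
  rw [h2, divOf_apply] at h4
  exact le_antisymm h4 h1

/-- `t - a` does not vanish at `pt b` for `b ≠ a`. -/
theorem ord_pt_tSub_of_ne {a b : IsLocalRing.maximalIdeal 𝓡.V} (hab : b ≠ a) :
    (d.pt b).ord ((d.tSub a : d.ring) : F) = 0 := by
  have h1 : ((d.tSub a : d.ring) : F) =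
      algebraMap K F ((((b : 𝓡.V) : K)) - (((a : 𝓡.V) : K))) + ((d.tSub b : d.ring) : F) := by
    rw [coe_tSub, coe_tSub, map_sub]; ring
  have hc : algebraMap K F ((((b : 𝓡.V) : K)) - (((a : 𝓡.V) : K))) ≠ 0 := by
    rw [Ne, map_eq_zero_iff _ (algebraMap K F).injective, sub_eq_zero]
    intro h
    exact hab (Subtype.ext (Subtype.ext h))
  rw [h1, ord_add_eq_of_lt _ hc (d.tSub_ne_zero b), ord_algebraMap]
  rw [ord_algebraMap, d.ord_pt_tSub b]
  exact zero_lt_one

theorem pt_injective : Function.Injective d.pt := by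
  intro a b hab
  by_contra hne
  have h1 := d.ord_pt_tSub a
  rw [hab, d.ord_pt_tSub_of_ne (a := a) (b := b) (Ne.symm hne)] at h1
  exact zero_ne_one h1

open Classical in
/-- The order of `t - a` at the points of the disc. -/
theorem ord_pt_tSub_eq (a b : IsLocalRing.maximalIdeal 𝓡.V) :
    (d.pt b).ord ((d.tSub a : d.ring) : F) = if b = a then 1 else 0 := by
  split_ifs with h
  · subst h; exact d.ord_pt_tSub b
  · exact d.ord_pt_tSub_of_ne h

/-- `ev a f = 0` iff `f` vanishes at `pt a`. -/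
theorem ev_eq_zero_iff (a : IsLocalRing.maximalIdeal 𝓡.V) (f : d.ring) (hf : f ≠ 0) :
    d.D.ev a f = 0 ↔ 1 ≤ (d.pt a).ord (f : F) := by
  have hfF : (f : F) ≠ 0 := fun h => hf (Subtype.ext h)
  constructor
  · intro h
    have := d.ev_spec a f
    rw [h] at this
    simp only [ZeroMemClass.coe_zero, map_zero, sub_zero] at this
    exact this.resolve_left hfF
  · intro h
    by_contra hc
    have hcK : algebraMap K F (((d.D.ev a f : 𝓡.V) : K)) ≠ 0 := by
      rw [Ne, map_eq_zero_iff _ (algebraMap K F).injective]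
      intro h0
      exact hc (Subtype.ext h0)
    rcases d.ev_spec a f with h1 | h1
    · rw [h1, ord_algebraMap] at h
      exact absurd h (by norm_num)
    · -- the constant is `f - (f - c)`
      have h2 : algebraMap K F (((d.D.ev a f : 𝓡.V) : K)) =
          (f : F) + -((f : F) - algebraMap K F (((d.D.ev a f : 𝓡.V) : K))) := by ring
      have h3 := ord_add_of_le (d.pt a) (n := 1) (Or.inr h)
        (Or.inr (by rw [ord_neg]; exact h1) :
          -((f : F) - algebraMap K F (((d.D.ev a f : 𝓡.V) : K))) = 0 ∨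
          1 ≤ (d.pt a).ord (-((f : F) - algebraMap K F (((d.D.ev a f : 𝓡.V) : K)))))
      rw [← h2] at h3
      rcases h3 with h3 | h3
      · exact hcK h3
      · rw [ord_algebraMap] at h3
        exact absurd h3 (by norm_num)

/-- Division by `t - a` in the disc ring. -/
theorem exists_eq_mul_of_ev_eq_zero (a : IsLocalRing.maximalIdeal 𝓡.V) (f : d.ring)
    (h : d.D.ev a f = 0) : ∃ f' : d.ring, f = d.tSub a * f' := by
  obtain ⟨f', hf'⟩ := d.D.taylor a f
  refine ⟨f', ?_⟩
  rw [hf', h, map_zero, zero_add]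
  rfl

end DiscData

section PolyDiv

variable {𝓡 : GoodRed K F k Fk} {ι : Type*} [Fintype ι] {Qs : ι → Place k Fk}
  (d : ∀ i, DiscData 𝓡 (Qs i))

open Classical in
/-- Value of `polyDiv` at a point of the `i`-th disc. -/
theorem polyDiv_apply_pt (hQ : Function.Injective Qs)
    (z : ι → IsLocalRing.maximalIdeal 𝓡.V) (i : ι) (a : IsLocalRing.maximalIdeal 𝓡.V) :
    polyDiv d z ((d i).pt a) = if z i = a then 1 else 0 := by
  classical
  rw [polyDiv, Finsupp.finset_sum_apply]
  simp only [Finsupp.single_apply]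
  have h : ∀ l : ι, ((d l).pt (z l) = (d i).pt a) ↔ (l = i ∧ z i = a) := by
    intro l
    constructor
    · intro hl
      have h1 : Qs l = Qs i := by
        rw [← (d l).r_pt (z l), ← (d i).r_pt a, hl]
      have h2 : l = i := hQ h1
      subst h2
      exact ⟨rfl, (d l).pt_injective hl⟩
    · rintro ⟨rfl, h2⟩
      rw [h2]
  simp only [h]
  split_ifs with hz
  · rw [Finset.sum_eq_single i]
    · simp [hz]
    · intro l _ hl; simp [hl]
    · intro hi; exact absurd (Finset.mem_univ i) hi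
  · apply Finset.sum_eq_zero
    intro l _
    simp [hz]

/-- `polyDiv` vanishes outside the discs. -/
theorem polyDiv_apply_of_not_mem (z : ι → IsLocalRing.maximalIdeal 𝓡.V) (P : Place K F)
    (hP : ∀ i, 𝓡.r P ≠ Qs i) : polyDiv d z P = 0 := by
  classical
  rw [polyDiv, Finsupp.finset_sum_apply]
  apply Finset.sum_eq_zero
  intro l _
  rw [Finsupp.single_apply, if_neg]
  intro h
  exact hP l (by rw [← h, (d l).r_pt])

theorem polyDiv_nonneg (z : ι → IsLocalRing.maximalIdeal 𝓡.V) : 0 ≤ polyDiv d z := by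
  classical
  rw [Finsupp.le_def]
  intro P
  rw [polyDiv, Finsupp.finset_sum_apply]
  refine Finset.sum_nonneg fun l _ => ?_
  rw [Finsupp.single_apply]
  split_ifs <;> simp

theorem mapDomain_polyDiv (z : ι → IsLocalRing.maximalIdeal 𝓡.V) :
    Finsupp.mapDomain 𝓡.r (polyDiv d z) = ∑ i, Finsupp.single (Qs i) (1 : ℤ) := by
  rw [polyDiv, Finsupp.mapDomain_finset_sum]
  refine Finset.sum_congr rfl fun i _ => ?_
  rw [Finsupp.mapDomain_single, (d i).r_pt]

end PolyDiv

end Fermat.Agent.A3.H799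

end
end
-- ===== PACK-END A3/H799/DiscLemmas.lean

-- ===== PACK-BEGIN A3/H799/Zgen.lean
section



/-!
# A3 / LOCAL — ZGEN from GEO and DET  (helper799)

`zgen_of : GeoStatement → DetStatement → ZgenStatement` is one application of the abstract LOCAL
theorem `local_mem`; `ZtriStatement` (`s = 2`) and `ZnegStatement` (`s = 1`) are special cases.
-/

set_option autoImplicit false

noncomputable section

open AlgebraicCurve Fermat.Agent.Lib.RR Polynomial

namespace Fermat.Agent.A3.H799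

universe u₁ u₂ u₃ u₄ w

variable {K : Type u₁} {F : Type u₂} {k : Type u₃} {Fk : Type u₄}
  [Field K] [Field F] [Algebra K F] [Field k] [Field Fk] [Algebra k Fk]

/-- Constants of `V` as integral functions. -/
def GoodRed.constO (𝓡 : GoodRed K F k Fk) (a : 𝓡.V) : 𝓡.O :=
  ⟨algebraMap K F (a : K), (𝓡.algebraMap_mem _).2 a.2⟩

theorem GoodRed.red_constO (𝓡 : GoodRed K F k Fk) (a : 𝓡.V) :
    𝓡.red (𝓡.constO a) = algebraMap k Fk (𝓡.res a) :=
  𝓡.red_algebraMap a _

theorem GoodRed.res_eq_zero_of_mem (𝓡 : GoodRed K F k Fk) (a : IsLocalRing.maximalIdeal 𝓡.V) :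
    𝓡.res (a : 𝓡.V) = 0 := by
  rw [𝓡.res_eq_zero, ValuationSubring.mem_nonunits_iff_exists_mem_maximalIdeal]
  exact ⟨(a : 𝓡.V).2, a.2⟩

theorem one_mem_L_of_nonneg [FF1 K F] {D : Divisor K F} (hD : 0 ≤ D) :
    (1 : F) ∈ riemannRochSpace D := by
  apply L_mono hD
  rw [L_zero]
  exact ⟨1, by simp⟩

theorem zsmul_polyDiv_nonneg {𝓡 : GoodRed K F k Fk} {ι : Type*} [Fintype ι]
    {Qs : ι → Place k Fk} (d : ∀ i, DiscData 𝓡 (Qs i)) (z : ι → IsLocalRing.maximalIdeal 𝓡.V)
    (s : ℕ) : 0 ≤ ((s : ℤ) + 1) • polyDiv d z :=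
  smul_nonneg (by positivity) (polyDiv_nonneg d z)

/-- **ZGEN** from GEO and DET. -/
theorem zgen_of (hgeo : GeoStatement K F k Fk) (hdet : DetStatement K F k Fk) :
    ZgenStatement.{u₁, u₂, u₃, u₄, w} K F k Fk := by
  intro 𝓡 Qs hinj hnsp d T _ Λ s hs zs zw hzs hprin
  classical
  haveI := 𝓡.ff1
  obtain ⟨φ, f, P, H, hφL, hfφ, hfP, hdetP⟩ := hdet 𝓡 Qs hinj hnsp d s hs
  refine local_mem (A := 𝓡.V) (T := T) (ι := Fin (genusFF k Fk)) (𝒪 := fun i => (d i).ring)
    Λ (fun i => (d i).D) (fun _ => s)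
    (fun i r => ⟨⟨fun τ => ((zs r τ i : IsLocalRing.maximalIdeal 𝓡.V) : 𝓡.V), hzs r i⟩,
      fun τ => (zs r τ i).2⟩)
    (fun i => (d i).D.t ^ (s + 1)) f (fun _ => X ^ (s + 1)) (fun _ => 0) ?_ P H hfP hdetP ?_
    (fun i τ => zw τ i) ?_
  · intro i
    simp
  · intro i r
    rw [coeff_X_pow, if_neg (by have := r.2; omega)]
    exact zero_mem _
  · intro τ a hdiv
    -- the section `φ_a = 1 + Σ a_j φ_j`
    set φa : 𝓡.O := 1 + ∑ j, 𝓡.constO (a j : 𝓡.V) * φ j with hφa
    have hφaF : ((φa : 𝓡.O) : F) =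
        1 + ∑ j, algebraMap K F (((a j : IsLocalRing.maximalIdeal 𝓡.V) : 𝓡.V) : K) *
          ((φ j : 𝓡.O) : F) := by
      rw [hφa]
      push_cast
      rfl
    have hφaL : ((φa : 𝓡.O) : F) ∈ riemannRochSpace (((s : ℤ) + 1) • polyDiv d 0) := by
      rw [hφaF]
      refine Submodule.add_mem _ (one_mem_L_of_nonneg (zsmul_polyDiv_nonneg d 0 s)) ?_
      refine Submodule.sum_mem _ fun j _ => ?_
      have := Submodule.smul_mem _ ((((a j : IsLocalRing.maximalIdeal 𝓡.V) : 𝓡.V) : K)) (hφL j)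
      rwa [Algebra.smul_def] at this
    have hred : 𝓡.red φa = 1 := by
      rw [hφa, map_add, map_one, map_sum]
      rw [Finset.sum_eq_zero, add_zero]
      intro j _
      rw [map_mul, 𝓡.red_constO, 𝓡.res_eq_zero_of_mem, map_zero, zero_mul]
    have hG : ∀ i, (((d i).D.t ^ (s + 1) +
        ∑ j, ((a j : IsLocalRing.maximalIdeal 𝓡.V) : 𝓡.V) • f j i : (d i).ring) : F) =
          ((((d i).D.t : (d i).ring) : F)) ^ (s + 1) * ((φa : 𝓡.O) : F) := by
      intro i
      rw [hφaF, mul_add, mul_one, Finset.mul_sum]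
      push_cast
      congr 1
      refine Finset.sum_congr rfl fun j _ => ?_
      rw [hfφ, Algebra.smul_def]
      show algebraMap K F (((a j : IsLocalRing.maximalIdeal 𝓡.V) : 𝓡.V) : K) * _ = _
      ring
    have hlist : ∀ i, (List.ofFn fun r : Fin s =>
        (⟨⟨fun τ => ((zs r τ i : IsLocalRing.maximalIdeal 𝓡.V) : 𝓡.V), hzs r i⟩,
          fun τ => (zs r τ i).2⟩ : radIdeal Λ)).map (ptAt Λ τ) =
        List.ofFn fun r => zs r τ i := by
      intro i
      rw [List.map_ofFn]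
      rfl
    simp only [hlist] at hdiv ⊢
    exact hgeo 𝓡 Qs hinj hnsp d s (fun r => zs r τ) (zw τ) (hprin τ) φa hφaL hred
      (fun i => (d i).D.t ^ (s + 1) + ∑ j, ((a j : IsLocalRing.maximalIdeal 𝓡.V) : 𝓡.V) • f j i)
      hG hdiv

/-- ZTRI is ZGEN with two moving points. -/
theorem ztri_of_zgen (h : ZgenStatement.{u₁, u₂, u₃, u₄, w} K F k Fk) : ZtriStatement.{u₁, u₂, u₃, u₄, w} K F k Fk := by
  intro 𝓡 Qs hinj hnsp d T _ Λ zx zy zw hzx hzy hprin
  refine h 𝓡 Qs hinj hnsp d T Λ 2 (by norm_num) ![zx, zy] zw ?_ ?_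
  · intro r j
    fin_cases r
    · exact hzx j
    · exact hzy j
  · intro τ
    have := hprin τ
    rw [Fin.sum_univ_two]
    have h3 : ((2 : ℕ) : ℤ) + 1 = 3 := by norm_num
    rw [h3]
    exact this

/-- ZNEG is ZGEN with one moving point. -/
theorem zneg_of_zgen (h : ZgenStatement.{u₁, u₂, u₃, u₄, w} K F k Fk) : ZnegStatement.{u₁, u₂, u₃, u₄, w} K F k Fk := by
  intro 𝓡 Qs hinj hnsp d T _ Λ zx zn hzx hprin
  refine h 𝓡 Qs hinj hnsp d T Λ 1 (by norm_num) ![zx] zn ?_ ?_
  · intro r j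
    fin_cases r
    exact hzx j
  · intro τ
    have := hprin τ
    rw [Fin.sum_univ_one]
    have h2 : ((1 : ℕ) : ℤ) + 1 = 2 := by norm_num
    rw [h2]
    exact this

end Fermat.Agent.A3.H799

end
end
-- ===== PACK-END A3/H799/Zgen.lean

-- ===== PACK-BEGIN A3/H255/Geo.lean
section




/-!
# A3 / LOCAL, leaf GEO (helper255): the section through the moving points has exactly one
further zero in each disc

`geoStatement : GeoStatement K F k Fk` (frozen leaf of `A3/H799/LocalSpec2.lean`).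

Proof.  `E = polyDiv d 0`, `D_r = polyDiv d (zs r)`, `D_w = polyDiv d zw`,
`div ψ = Σ D_r + D_w - (s+1) E`.
* `G_i = t_i^{s+1} φ = ∏_r (t_i - zs r i) · h_i` with `h_i` regular on the disc gives
  `φ ∈ L((s+1) E - Σ D_r)`, so `φ / ψ ∈ L(D_w) = K` (`ℓ(D_w) = 1`, leaf COORD), i.e.
  `div φ = div ψ`.
* Hence `ord h_i = 1` at `pt_i (zw i)`, so `h_i = (t_i - zw i) · u` in the disc ring.
* Reduction: `t̄^{s+1} = t̄^s · t̄ · red u`, so `red u = 1` and `ev u` is a unit (`red_ev`).

All proofs complete.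
-/

set_option autoImplicit false
set_option linter.style.haveILetI false

noncomputable section

open AlgebraicCurve

namespace Fermat.Agent.A3.H255.Geo

open Fermat.Agent.Lib.RR Fermat.Agent.A3.H799

variable {K F k Fk : Type*} [Field K] [Field F] [Algebra K F] [Field k] [Field Fk] [Algebra k Fk]

section Disc

variable {𝓡 : GoodRed K F k Fk} {Q : Place k Fk} (d : DiscData 𝓡 Q)

theorem aeval_nodal_cons' (a : IsLocalRing.maximalIdeal 𝓡.V)
    (l : List (IsLocalRing.maximalIdeal 𝓡.V)) :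
    Polynomial.aeval d.D.t (DiscAlg.nodal (a :: l)) =
      d.tSub a * Polynomial.aeval d.D.t (DiscAlg.nodal l) :=
  d.D.aeval_nodal_cons a l

theorem coe_aeval_nodal_ne_zero (l : List (IsLocalRing.maximalIdeal 𝓡.V)) :
    ((Polynomial.aeval d.D.t (DiscAlg.nodal l) : d.ring) : F) ≠ 0 := by
  induction l with
  | nil => simp
  | cons a l ih =>
    rw [aeval_nodal_cons']
    exact mul_ne_zero (d.tSub_ne_zero a) ih

open scoped Classical in
theorem ord_pt_aeval_nodal (l : List (IsLocalRing.maximalIdeal 𝓡.V))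
    (b : IsLocalRing.maximalIdeal 𝓡.V) :
    (d.pt b).ord ((Polynomial.aeval d.D.t (DiscAlg.nodal l) : d.ring) : F) =
      (l.map fun a => if a = b then (1 : ℤ) else 0).sum := by
  induction l with
  | nil => simp
  | cons a l ih =>
    rw [aeval_nodal_cons']
    have h1 : (((d.tSub a * Polynomial.aeval d.D.t (DiscAlg.nodal l) : d.ring)) : F) =
        ((d.tSub a : d.ring) : F) * ((Polynomial.aeval d.D.t (DiscAlg.nodal l) : d.ring) : F) :=
      rfl
    rw [h1, (d.pt b).ord_mul (d.tSub_ne_zero a) (coe_aeval_nodal_ne_zero d l), ih,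
      d.ord_pt_tSub_eq a b, List.map_cons, List.sum_cons]
    congr 1
    by_cases h : a = b
    · rw [if_pos h, if_pos h.symm]
    · rw [if_neg h, if_neg (Ne.symm h)]

theorem redHom_aeval_nodal (l : List (IsLocalRing.maximalIdeal 𝓡.V)) :
    d.redHom (Polynomial.aeval d.D.t (DiscAlg.nodal l)) = d.redHom d.D.t ^ l.length := by
  induction l with
  | nil => simp
  | cons a l ih =>
    rw [aeval_nodal_cons', map_mul, ih, d.redHom_tSub, List.length_cons, pow_succ, mul_comm]

open scoped Classical in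
theorem ord_pt_t (b : IsLocalRing.maximalIdeal 𝓡.V) :
    (d.pt b).ord ((d.D.t : d.ring) : F) = if (0 : IsLocalRing.maximalIdeal 𝓡.V) = b then 1 else 0 := by
  have h : d.D.t = d.tSub 0 := by
    unfold DiscData.tSub
    simp
  have h2 := d.ord_pt_tSub_eq 0 b
  rw [← h] at h2
  rw [h2]
  by_cases hb : b = 0
  · rw [if_pos hb, if_pos hb.symm]
  · rw [if_neg hb, if_neg (Ne.symm hb)]

/-- If the reduction of `u` is `1`, every value of `u` is a unit. -/
theorem isUnit_ev_of_redHom_eq_one (u : d.ring) (hu : d.redHom u = 1)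
    (a : IsLocalRing.maximalIdeal 𝓡.V) : IsUnit (d.D.ev a u) := by
  haveI := 𝓡.ff1k
  have h := d.red_ev a u
  have hu' : 𝓡.red ⟨(u : F), d.ring_le _ u.2⟩ = 1 := hu
  rw [hu'] at h
  have hres : 𝓡.res (d.D.ev a u) = 1 := by
    have e : (1 : Fk) - algebraMap k Fk (𝓡.res (d.D.ev a u)) =
        algebraMap k Fk (1 - 𝓡.res (d.D.ev a u)) := by
      rw [map_sub, map_one]
    rcases h with h | h
    · have : algebraMap k Fk 1 = algebraMap k Fk (𝓡.res (d.D.ev a u)) := by
        rw [map_one]; exact h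
      exact ((algebraMap k Fk).injective this).symm
    · rw [e] at h
      by_contra hne
      have hc : (1 : k) - 𝓡.res (d.D.ev a u) ≠ 0 := fun h0 => hne (sub_eq_zero.mp h0).symm
      rw [ord_algebraMap] at h
      omega
  rw [← IsLocalRing.notMem_maximalIdeal]
  intro hmem
  have h1 : ((d.D.ev a u : 𝓡.V) : K) ∈ 𝓡.V.nonunits :=
    ValuationSubring.coe_mem_nonunits_iff.mpr hmem
  rw [← 𝓡.res_eq_zero, hres] at h1
  exact one_ne_zero h1

end Disc

section Sum

variable {𝓡 : GoodRed K F k Fk} {ι : Type*} [Fintype ι] {Qs : ι → Place k Fk}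
  (d : ∀ i, DiscData 𝓡 (Qs i))

open scoped Classical in
theorem sum_polyDiv_apply_pt (hQ : Function.Injective Qs) {s : ℕ}
    (zs : Fin s → ι → IsLocalRing.maximalIdeal 𝓡.V) (i : ι)
    (a : IsLocalRing.maximalIdeal 𝓡.V) :
    (∑ r, polyDiv d (zs r)) ((d i).pt a) = ∑ r, if zs r i = a then (1 : ℤ) else 0 := by
  rw [Finsupp.finsetSum_apply]
  refine Finset.sum_congr rfl fun r _ => ?_
  exact polyDiv_apply_pt d hQ (zs r) i a

theorem sum_polyDiv_apply_of_not_mem {s : ℕ}
    (zs : Fin s → ι → IsLocalRing.maximalIdeal 𝓡.V) (P : Place K F)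
    (hP : ∀ i, 𝓡.r P ≠ Qs i) : (∑ r, polyDiv d (zs r)) P = 0 := by
  rw [Finsupp.finsetSum_apply]
  refine Finset.sum_eq_zero fun r _ => ?_
  exact polyDiv_apply_of_not_mem d (zs r) P hP

open scoped Classical in
theorem sum_map_ofFn {s : ℕ} (f : Fin s → IsLocalRing.maximalIdeal 𝓡.V)
    (a : IsLocalRing.maximalIdeal 𝓡.V) :
    ((List.ofFn f).map fun b => if b = a then (1 : ℤ) else 0).sum =
      ∑ r, if f r = a then (1 : ℤ) else 0 := by
  rw [List.map_ofFn, List.sum_ofFn]
  rfl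

end Sum

/-- **GEO**: the frozen leaf `GeoStatement` of `A3/H799/LocalSpec2.lean`. -/
theorem geoStatement : GeoStatement K F k Fk := by
  classical
  intro 𝓡 Qs hQs hell d s zs zw hprin φ hφL hφred G hG hdiv i
  haveI := 𝓡.ff1
  haveI := 𝓡.ff1k
  -- `φ ≠ 0`
  have hφ0 : ((φ : 𝓡.O) : F) ≠ 0 := by
    intro h
    have : φ = 0 := Subtype.ext h
    rw [this, map_zero] at hφred
    exact zero_ne_one hφred
  -- the quotients `h_i`
  choose h hh using hdiv
  have hGF : ∀ j, ((G j : (d j).ring) : F) ≠ 0 := by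
    intro j
    rw [hG j]
    refine mul_ne_zero (pow_ne_zero _ ?_) hφ0
    have := (d j).tSub_ne_zero 0
    rw [DiscData.coe_tSub] at this
    simpa [DiscData.tF] using this
  have hGF' : ∀ j, ((G j : (d j).ring) : F) =
      ((Polynomial.aeval (d j).D.t (DiscAlg.nodal (List.ofFn fun r => zs r j)) : (d j).ring) : F) *
        ((h j : (d j).ring) : F) := by
    intro j
    rw [hh j]
    rfl
  have hh0 : ∀ j, ((h j : (d j).ring) : F) ≠ 0 := by
    intro j h0
    apply hGF j
    rw [hGF' j, h0, mul_zero]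
  -- orders of `φ` on the discs
  have hordφ : ∀ (j : Fin (genusFF k Fk)) (a : IsLocalRing.maximalIdeal 𝓡.V),
      ((s : ℤ) + 1) * (if (0 : IsLocalRing.maximalIdeal 𝓡.V) = a then 1 else 0) +
        ((d j).pt a).ord ((φ : 𝓡.O) : F) =
      (∑ r, if zs r j = a then (1 : ℤ) else 0) + ((d j).pt a).ord ((h j : (d j).ring) : F) := by
    intro j a
    have e1 := congrArg ((d j).pt a).ord (hGF' j)
    rw [hG j, ((d j).pt a).ord_mul (pow_ne_zero _ (by
        have := (d j).tSub_ne_zero 0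
        rw [DiscData.coe_tSub] at this
        simpa [DiscData.tF] using this)) hφ0,
      ord_pow, ord_pt_t (d j) a,
      ((d j).pt a).ord_mul (coe_aeval_nodal_ne_zero (d j) _) (hh0 j),
      ord_pt_aeval_nodal (d j), sum_map_ofFn] at e1
    push_cast at e1
    exact e1
  -- `φ ∈ L((s+1) E - Σ D_r)`
  have hφB : ∀ P : Place K F,
      (∑ r, polyDiv d (zs r)) P - ((s : ℤ) + 1) * polyDiv d 0 P ≤ P.ord ((φ : 𝓡.O) : F) := by
    intro P
    by_cases hP : ∃ j, 𝓡.r P = Qs j
    · obtain ⟨j, hj⟩ := hP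
      obtain ⟨a, rfl⟩ := (d j).pt_surj P hj
      rw [sum_polyDiv_apply_pt d hQs zs j a, polyDiv_apply_pt d hQs 0 j a]
      have e := hordφ j a
      have hnn := (d j).ord_nonneg (h j) ((d j).pt a) ((d j).r_pt a)
      have hz : ((0 : Fin (genusFF k Fk) → IsLocalRing.maximalIdeal 𝓡.V) j = a) ↔
          ((0 : IsLocalRing.maximalIdeal 𝓡.V) = a) := Iff.rfl
      simp only [hz]
      linarith
    · push Not at hP
      rw [sum_polyDiv_apply_of_not_mem d zs P hP, polyDiv_apply_of_not_mem d 0 P hP]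
      have := (mem_L_iff.mp hφL P).resolve_left hφ0
      have h0 : (((s : ℤ) + 1) • polyDiv d (0 : Fin (genusFF k Fk) →
          IsLocalRing.maximalIdeal 𝓡.V)) P = 0 := by
        rw [Finsupp.smul_apply, polyDiv_apply_of_not_mem d 0 P hP, smul_zero]
      rw [h0] at this
      simpa using this
  -- `div φ = div ψ`
  obtain ⟨ψ, hψ0, hψ⟩ := hprin
  have hψ' : ∀ P : Place K F, P.ord ψ =
      (∑ r, polyDiv d (zs r)) P + polyDiv d zw P - ((s : ℤ) + 1) * polyDiv d 0 P := by
    intro P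
    rw [← hψ P]
    simp only [Finsupp.coe_sub, Finsupp.coe_add, Pi.sub_apply, Pi.add_apply, Finsupp.smul_apply,
      smul_eq_mul]
  have hquot : ((φ : 𝓡.O) : F) * ψ⁻¹ ∈ riemannRochSpace (polyDiv d zw) := by
    rw [mem_L_iff]
    intro P
    right
    rw [P.ord_mul hφ0 (inv_ne_zero hψ0), P.ord_inv, hψ' P]
    have := hφB P
    linarith
  rw [H638.L_eq_range_of_ell_eq_one (Fermat.Agent.A3.H255.polyDiv_nonneg d zw)
    (Fermat.Agent.A3.H255.ell_polyDiv 𝓡 Qs hell d zw)] at hquot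
  obtain ⟨c, hc⟩ := hquot
  have hc' : algebraMap K F c = ((φ : 𝓡.O) : F) * ψ⁻¹ := hc
  have hc0 : algebraMap K F c ≠ 0 := by
    rw [hc']
    exact mul_ne_zero hφ0 (inv_ne_zero hψ0)
  have hφψ : ∀ P : Place K F, P.ord ((φ : 𝓡.O) : F) = P.ord ψ := by
    intro P
    have e : ((φ : 𝓡.O) : F) = algebraMap K F c * ψ := by
      rw [hc']
      field_simp
    rw [e, P.ord_mul hc0 hψ0, ord_algebraMap, zero_add]
  -- `h_i` vanishes at `pt_i (zw i)`
  have hordh : ((d i).pt (zw i)).ord ((h i : (d i).ring) : F) = 1 := by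
    have e := hordφ i (zw i)
    rw [hφψ, hψ', sum_polyDiv_apply_pt d hQs zs i (zw i), polyDiv_apply_pt d hQs zw i (zw i),
      polyDiv_apply_pt d hQs 0 i (zw i), if_pos rfl] at e
    have hz : ((0 : Fin (genusFF k Fk) → IsLocalRing.maximalIdeal 𝓡.V) i = zw i) ↔
        ((0 : IsLocalRing.maximalIdeal 𝓡.V) = zw i) := Iff.rfl
    simp only [hz] at e
    linarith
  have hhi0 : h i ≠ 0 := fun h0 => hh0 i (by rw [h0]; rfl)
  have hev : (d i).D.ev (zw i) (h i) = 0 :=
    ((d i).ev_eq_zero_iff (zw i) (h i) hhi0).mpr (by rw [hordh])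
  obtain ⟨u, hu⟩ := (d i).exists_eq_mul_of_ev_eq_zero (zw i) (h i) hev
  -- the reduction of `u` is `1`
  have hred1 : (d i).redHom (G i) = (d i).redHom (d i).D.t ^ (s + 1) := by
    have e : (⟨((G i : (d i).ring) : F), (d i).ring_le _ (G i).2⟩ : 𝓡.O) =
        (⟨(((d i).D.t : (d i).ring) : F), (d i).ring_le _ (d i).D.t.2⟩ : 𝓡.O) ^ (s + 1) * φ := by
      apply Subtype.ext
      rw [hG i]
      rfl
    rw [DiscData.redHom_apply, e, map_mul, map_pow, hφred, mul_one, DiscData.redHom_apply]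
  have hred2 : (d i).redHom (G i) = (d i).redHom (d i).D.t ^ (s + 1) * (d i).redHom u := by
    rw [hh i, hu, map_mul, map_mul, redHom_aeval_nodal, (d i).redHom_tSub, List.length_ofFn,
      pow_succ]
    ring
  have hu1 : (d i).redHom u = 1 := by
    have h0 : (d i).redHom (d i).D.t ^ (s + 1) ≠ 0 := pow_ne_zero _ (d i).redHom_t_ne_zero
    have e : (d i).redHom (d i).D.t ^ (s + 1) * (d i).redHom u =
        (d i).redHom (d i).D.t ^ (s + 1) * 1 := by
      rw [← hred2, hred1, mul_one]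
    exact mul_left_cancel₀ h0 e
  refine ⟨u, isUnit_ev_of_redHom_eq_one (d i) u hu1 (zw i), ?_⟩
  rw [hh i, hu, mul_assoc]
  rfl

end Fermat.Agent.A3.H255.Geo

end
end
-- ===== PACK-END A3/H255/Geo.lean

-- ===== PACK-BEGIN A3/H75/Par.lean
section




/-!
# A3 / LOCAL / DISC (helper75): inertia-invariant parameters; the leaf `DiscStatement`

For a `GoodRed 𝓡` (frozen interface, `Fermat/Agent/A3/H799/GoodRed.lean`):

* `exists_lift_inv` : for an inertia-invariant divisor `D` of degree `> 2g - 2`, every element of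
  `L(r_* D)` is the reduction of an inertia-invariant function of `L(D) ∩ O`;
* `exists_param_of_place` : if `P₁` is an inertia-invariant place with `r P₁ ≠ Q` there is an
  inertia-invariant parameter at `Q` (a function of `O`, regular on the disc of `Q`, whose
  reduction is a uniformiser at `Q`), with poles only at `P₁`;
* `exists_place_ne` : a function field with `FF1` has at least two places;
* `exists_inv_place` : over every place `Q' ≠ r P∞` there is an inertia-invariant place;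
* `exists_param` (PAR) : every place of the special fibre has an inertia-invariant parameter;
* `discStatement : DiscStatement K F k Fk` : the frozen leaf DISC of
  `Fermat/Agent/A3/H799/LocalSpec.lean`.
-/

set_option autoImplicit false
set_option linter.unusedSectionVars false

noncomputable section

namespace Fermat.Agent.A3.H75

open AlgebraicCurve Fermat.Agent.Lib.RR Fermat.Agent.A3.H799 Fermat.Agent.S19.H195

variable {K F k Fk : Type*} [Field K] [Field F] [Algebra K F] [Field k] [Field Fk] [Algebra k Fk]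

/-- the constants of `V`, as elements of `O` -/
def constO (𝓡 : GoodRed K F k Fk) (a : 𝓡.V) : 𝓡.O :=
  ⟨algebraMap K F (a : K), (𝓡.algebraMap_mem _).mpr a.2⟩

@[simp] theorem coe_constO (𝓡 : GoodRed K F k Fk) (a : 𝓡.V) :
    ((constO 𝓡 a : 𝓡.O) : F) = algebraMap K F (a : K) := rfl

theorem red_constO (𝓡 : GoodRed K F k Fk) (a : 𝓡.V) :
    𝓡.red (constO 𝓡 a) = algebraMap k Fk (𝓡.res a) :=
  𝓡.red_algebraMap a _

/-- **Inertia-invariant integral Riemann–Roch.** -/
theorem exists_lift_inv (𝓡 : GoodRed K F k Fk) (D : Divisor K F)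
    (hD : 2 * (genusFF k Fk : ℤ) - 2 < Divisor.degree D) (hinv : ∀ g ∈ 𝓡.I, g • D = D)
    (gb : Fk) (hgb : gb ∈ riemannRochSpace (Finsupp.mapDomain 𝓡.r D)) :
    ∃ f : 𝓡.O, (f : F) ∈ riemannRochSpace D ∧ 𝓡.red f = gb ∧
      ∀ g ∈ 𝓡.I, g • (f : F) = (f : F) := by
  have := 𝓡.ff1
  have := 𝓡.ff1k
  obtain ⟨n, b, hli, hmem, hspan, hbinv⟩ := 𝓡.orthonormal D
  have hbI := hbinv hinv
  -- `b` is a `K`-basis of `L(D)`, hence `n = ℓ(D)`
  have hliK : LinearIndependent K (fun i => ((b i : 𝓡.O) : F)) :=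
    (ofGoodRed 𝓡).linearIndependent_of_red (fun i => ((b i : 𝓡.O) : F)) (fun i => (b i).2) hli
  have hn : ell D = n := by
    unfold ell
    rw [← hspan, finrank_span_eq_card hliK, Fintype.card_fin]
  have hell := (GoodRedLemmas.ell_eq 𝓡 D hD).1
  -- the reductions form a basis of `L(r_* D)`
  set W := riemannRochSpace (Finsupp.mapDomain 𝓡.r D) with hW
  let b' : Fin n → W := fun i => ⟨𝓡.red (b i), GoodRedLemmas.red_mem 𝓡 D (b i) (hmem i)⟩
  have hli' : LinearIndependent k b' := by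
    apply LinearIndependent.of_comp W.subtype
    exact hli
  have hcard : Fintype.card (Fin n) = Module.finrank k W := by
    rw [Fintype.card_fin, ← hn, hell]
    rfl
  have htop : Submodule.span k (Set.range b') = ⊤ :=
    hli'.span_eq_top_of_card_eq_finrank' hcard
  have hmemtop : (⟨gb, hgb⟩ : W) ∈ Submodule.span k (Set.range b') := by
    rw [htop]
    exact Submodule.mem_top
  obtain ⟨c, hc⟩ := (Submodule.mem_span_range_iff_exists_fun k).mp hmemtop
  have hc' : ∑ i, c i • 𝓡.red (b i) = gb := by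
    have := congrArg (W.subtype) hc
    simpa [b'] using this
  -- inertia-invariant lifts of the coefficients
  choose a ha hainv using fun i => 𝓡.I_lift_const (c i)
  refine ⟨∑ i, constO 𝓡 (a i) * b i, ?_, ?_, ?_⟩
  · have h1 : ((∑ i, constO 𝓡 (a i) * b i : 𝓡.O) : F) =
        ∑ i, ((a i : 𝓡.V) : K) • ((b i : 𝓡.O) : F) := by
      rw [← 𝓡.O.subtype_apply, map_sum]
      refine Finset.sum_congr rfl fun i _ => ?_
      rw [Algebra.smul_def]
      rfl
    rw [h1]
    exact Submodule.sum_mem _ fun i _ => Submodule.smul_mem _ _ (hmem i)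
  · rw [map_sum, ← hc']
    refine Finset.sum_congr rfl fun i _ => ?_
    rw [map_mul, red_constO, ha i, Algebra.smul_def]
  · intro g hg
    have h1 : ((∑ i, constO 𝓡 (a i) * b i : 𝓡.O) : F) =
        ∑ i, algebraMap K F ((a i : 𝓡.V) : K) * ((b i : 𝓡.O) : F) := by
      rw [← 𝓡.O.subtype_apply, map_sum]
      rfl
    rw [h1, Finset.smul_sum]
    refine Finset.sum_congr rfl fun i _ => ?_
    rw [smul_mul', SemilinearAut.smul_algebraMap, hainv i g hg, hbI i g hg]

/-- **A parameter at `Q` with poles only at an inertia-invariant place `P₁` off the disc.** -/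
theorem exists_param_of_place (𝓡 : GoodRed K F k Fk) (Q : Place k Fk) (P₁ : Place K F)
    (hP₁ : ∀ g ∈ 𝓡.I, g • P₁ = P₁) (hne : 𝓡.r P₁ ≠ Q) :
    ∃ t : 𝓡.O, (∀ P : Place K F, 𝓡.r P = Q → (t : F) ∈ P.toValuationSubring) ∧
      Q.ord (𝓡.red t) = 1 ∧ ∀ g ∈ 𝓡.I, g • (t : F) = (t : F) := by
  classical
  have := 𝓡.ff1
  have := 𝓡.ff1k
  set m : ℤ := 2 * (genusFF k Fk : ℤ) + 2 with hm
  set D : Divisor K F := Finsupp.single P₁ m with hD
  have hdegD : Divisor.degree D = m := by
    rw [hD, Divisor.degree_single, deg_eq_one P₁]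
    simp
  have hrD : Finsupp.mapDomain 𝓡.r D = Finsupp.single (𝓡.r P₁) m := by
    rw [hD, Finsupp.mapDomain_single]
  set E : Divisor k Fk := Finsupp.single (𝓡.r P₁) m - prim Q with hE
  have hdegE : Divisor.degree E = m - 1 := by
    rw [hE, map_sub, Divisor.degree_single, deg_eq_one (𝓡.r P₁), degree_prim']
    simp
  obtain ⟨tb, htb, htb0, hord⟩ := H439.exists_mem_L_ord_eq (E := E)
    (by rw [hdegE, hm]; omega) Q
  have hEQ : E Q = -1 := by
    rw [hE, Finsupp.sub_apply, Finsupp.single_apply, if_neg hne, prim_apply_self]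
    ring
  rw [hEQ, neg_neg] at hord
  have htb' : tb ∈ riemannRochSpace (Finsupp.mapDomain 𝓡.r D) := by
    rw [hrD]
    exact L_mono (H439.sub_prim_le _ Q) htb
  have hDinv : ∀ g ∈ 𝓡.I, g • D = D := by
    intro g hg
    rw [hD, SemilinearAut.smul_single, hP₁ g hg]
  obtain ⟨t, htD, hred, htinv⟩ := exists_lift_inv 𝓡 D (by rw [hdegD, hm]; omega) hDinv tb htb'
  refine ⟨t, fun P hP => ?_, by rw [hred]; exact hord, htinv⟩
  have hPne : P ≠ P₁ := by
    rintro rfl
    exact hne hP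
  rcases (mem_L_iff.mp htD) P with h0 | h
  · rw [h0]
    exact P.toValuationSubring.zero_mem
  · apply mem_of_ord_nonneg
    rw [hD, Finsupp.single_apply, if_neg (Ne.symm hPne), neg_zero] at h
    exact h

/-- A function field of one variable (`FF1`) has at least two places. -/
theorem exists_place_ne {K' F' : Type*} [Field K'] [Field F'] [Algebra K' F'] [FF1 K' F']
    (Q₀ : Place K' F') : ∃ Q : Place K' F', Q ≠ Q₀ := by
  classical
  by_contra hcon
  push Not at hcon
  set n : ℤ := 2 * (genusFF K' F' : ℤ) + 1 with hn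
  set D : Divisor K' F' := Finsupp.single Q₀ n with hD
  have hdegD : Divisor.degree D = n := by
    rw [hD, Divisor.degree_single, deg_eq_one Q₀]
    simp
  have hell : (ell D : ℤ) = Divisor.degree D + 1 - (genusFF K' F' : ℤ) :=
    ell_eq_of_degree_gt (by rw [hdegD, hn]; omega)
  have hle : riemannRochSpace D ≤ riemannRochSpace (0 : Divisor K' F') := by
    intro f hf
    rw [mem_L_iff]
    intro v
    by_cases hf0 : f = 0
    · exact Or.inl hf0
    right
    have hv : v = Q₀ := hcon v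
    have hdeg := degree_divOf (K := K') f hf0
    have hdiv : divOf (K := K') f hf0 = Finsupp.single Q₀ (Q₀.ord f) := by
      ext w
      rw [divOf_apply, hcon w, Finsupp.single_apply, if_pos rfl]
    rw [hdiv, Divisor.degree_single, deg_eq_one Q₀] at hdeg
    have h0 : Q₀.ord f = 0 := by simpa using hdeg
    rw [hv, h0]
    simp
  have h1 := Submodule.finrank_mono hle
  have h2 : ell (0 : Divisor K' F') = 1 := ell_zero
  unfold ell at h2 hell
  rw [hdegD, hn] at hell
  omega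

/-- the zero of the maximal ideal -/
def zeroMax (𝓡 : GoodRed K F k Fk) : IsLocalRing.maximalIdeal 𝓡.V := 0

/-- **An inertia-invariant place in the disc of `Q'`**, from an inertia-invariant parameter. -/
theorem exists_inv_place_of_param (𝓡 : GoodRed K F k Fk) (Q' : Place k Fk) (t : 𝓡.O)
    (hreg : ∀ P : Place K F, 𝓡.r P = Q' → (t : F) ∈ P.toValuationSubring)
    (hord : Q'.ord (𝓡.red t) = 1) (hinv : ∀ g ∈ 𝓡.I, g • (t : F) = (t : F)) :
    ∃ P' : Place K F, 𝓡.r P' = Q' ∧ ∀ g ∈ 𝓡.I, g • P' = P' := by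
  have := 𝓡.ff1
  let T : DiscParam (toConsInput 𝓡) Q' := ⟨t, hreg, hord⟩
  refine ⟨T.center 0, T.r_center 0, fun g hg => ?_⟩
  symm
  apply T.center_eq 0 (g • T.center 0)
  · show 𝓡.r (g • T.center 0) = Q'
    rw [𝓡.I_place g hg]
    exact T.r_center 0
  · have h0 := T.hasVal_center 0
    have hval : HasVal (T.center 0) (t : F) 0 := by simpa using h0
    have hval' : HasVal (g • T.center 0) (t : F) 0 := by
      rw [hasVal_zero_iff] at hval ⊢
      rcases hval with h | h
      · exact Or.inl h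
      · right
        have := SemilinearAut.ord_smul g (T.center 0) (t : F)
        rw [hinv g hg] at this
        rw [this]
        exact h
    simpa using hval'

/-- **PAR.**  Every place of the special fibre has an inertia-invariant parameter. -/
theorem exists_param (𝓡 : GoodRed K F k Fk) (Q : Place k Fk) :
    ∃ t : 𝓡.O, (∀ P : Place K F, 𝓡.r P = Q → (t : F) ∈ P.toValuationSubring) ∧
      Q.ord (𝓡.red t) = 1 ∧ ∀ g ∈ 𝓡.I, g • (t : F) = (t : F) := by
  have := 𝓡.ff1
  have := 𝓡.ff1k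
  obtain ⟨Pinf, hPinf⟩ := 𝓡.I_fixed_place
  by_cases hQ : 𝓡.r Pinf = Q
  · obtain ⟨Q', hQ'⟩ := exists_place_ne Q
    obtain ⟨t', hreg', hord', hinv'⟩ := exists_param_of_place 𝓡 Q' Pinf hPinf (by
      rw [hQ]
      exact Ne.symm hQ')
    obtain ⟨P', hP', hP'inv⟩ := exists_inv_place_of_param 𝓡 Q' t' hreg' hord' hinv'
    exact exists_param_of_place 𝓡 Q P' hP'inv (by rw [hP']; exact hQ')
  · exact exists_param_of_place 𝓡 Q Pinf hPinf hQ

variable (K F k Fk)

/-- **The frozen leaf DISC** of `Fermat/Agent/A3/H799/LocalSpec.lean`. -/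
theorem discStatement : DiscStatement K F k Fk :=
  disc_of_param fun 𝓡 Q => exists_param 𝓡 Q

end Fermat.Agent.A3.H75

end
end
-- ===== PACK-END A3/H75/Par.lean

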