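import Mathlib
import Fermat.Statements.S26
import Fermat.Prelude.Def_EllipticCurve_FrobeniusTrace
import Fermat.Prelude.Thm_ModularCurve_coeffMap_qExpand
import Fermat.Agent.Pack.S44C.G0E19L0
import Fermat.Agent.Pack.S43MC.G0E23L3
import Fermat.Agent.Pack.S44C.G0E23L0
import Fermat.Agent.Pack.S43MC.G0E0L2
import Fermat.Agent.Pack.S44C.G0E26L2
import Fermat.Agent.Pack.S44C.G0E24L1
import Fermat.Agent.Pack.S43MC.G0E23L0
import Fermat.Agent.Pack.S43MC.G0E6L3
import Fermat.Agent.Pack.S43MC.G0E8L3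
import Fermat.Agent.Pack.S43MC.G0E13L0
import Fermat.Agent.Pack.S43MC.G0E9L0
import Fermat.Agent.Pack.S43MC.G0E9L3
import Fermat.Agent.Pack.S43MC.G0E11L2
import Fermat.Agent.Pack.S43MC.G0E9L2
import Fermat.Agent.Pack.S43MC.G0E23L2
import Fermat.Agent.Pack.S43MC.G0E17L3
import Fermat.Agent.Pack.S43MC.G0E20L3
import Fermat.Agent.Pack.S43MC.G0E15L2
import Fermat.Agent.Pack.S43MC.G0E19L2
import Fermat.Agent.Pack.S43MC.G0E6L2
import Fermat.Agent.Pack.S44C.G0E7L1
import Fermat.Agent.Pack.S43MC.G0E21L0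
import Fermat.Agent.Pack.S44C.G0E25L2
import Fermat.Agent.Pack.S43MC.G0E2L0
import Fermat.Agent.Pack.S44C.G0E17L1
import Fermat.Agent.Pack.S44C.G0E26L0
import Fermat.Agent.Pack.S44C.G0E23L2
import Fermat.Agent.Pack.S43MC.G0E17L1
import Fermat.Agent.Pack.S44C.G0E20L2
import Fermat.Agent.Pack.S44C.G0E24L3
import Fermat.Agent.Pack.S43MC.G0E6L1
import Fermat.Agent.Pack.S43MC.G0E12L0
import Fermat.Agent.Pack.S43MC.G0E12L3
import Fermat.Agent.Pack.S43MC.G0E9L1
import Fermat.Agent.Pack.S43MC.G0E22L0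
import Fermat.Agent.Pack.S43MC.G0E22L1
import Fermat.Agent.Pack.S43MC.G0E12L1
import Fermat.Agent.Pack.S43MC.G0E18L3
import Fermat.Agent.Pack.S44C.G0E23L3
import Fermat.Agent.Pack.S43MC.G0E7L2
import Fermat.Agent.Pack.S43MC.G0E3L2
import Fermat.Agent.Pack.S43MC.G0E3L1
import Fermat.Agent.Pack.S44C.G0E20L0
import Fermat.Agent.Pack.S43MC.G0E10L1
import Fermat.Agent.Pack.S43MC.G0E16L3
import Fermat.Agent.Pack.S43MC.G0E20L1
import Fermat.Agent.Pack.S43MC.G0E10L3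
import Fermat.Agent.Pack.S43MC.G0E14L0
import Fermat.Agent.Pack.Fast891

-- ===== PACK-BEGIN S35/G/H558/NodeRat.lean
section





/-!
# S35 / (G') leaf NODE-RAT (helper558)

`nodeRat : KronFrobStatement A E M q w → StableStatement A E → NodeRatStatement A E M q w`
(all three statements VERBATIM from helper450's `S35/G/SpecLevel.lean`).

*The crossing points of the two components of the special fibre of `X₀(M q)` are fixed by the
square of a Frobenius lift* (the supersingular points are `𝔽_{q²}`-rational).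

Proof (`σ` = action of the Frobenius lift `s` on coefficients, `ψ = σ²`, `B = chartAlg y`,
`B_M = chartAlg y_M`, `n ⊇ p∞ + p₀` a crossing point):

* (e)  `B = α(B_M) + p∞`                       (`surj_inf`: L11 + good reduction at level `M`);
* (K1) `β(σ a) ≡ (α a)^q  mod p∞`              (KRON-FROB, hypothesis);
* (K2) `α(σ a) ≡ (β a)^q  mod p₀`              (K1 + Fricke: L5, L7, STABLE);
* `b ≡ α a mod p∞`  ⟹  `ψ b ≡ α(σ² a) mod p∞` (STABLE; `α` commutes with `σ`);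
* `α(σ² a) ≡ (β(σ a))^q ≡ (α a)^(q²) ≡ b^(q²)  mod n`, so `ψ b ≡ b^(q²) mod n`.

The leaves L2 (H553), L4/L5 (H751), L7 (H900), L11 (H378), L13 (H873) are taken from main.
-/

set_option autoImplicit false
set_option synthInstance.maxHeartbeats 400000
set_option maxHeartbeats 1600000
set_option linter.unusedSectionVars false
set_option linter.style.haveILetI false

noncomputable section

namespace Fermat.Agent.S35.G.H558

open ModularCurve HahnSeries Polynomial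
open Fermat.Agent.A2.Mod
open scoped Pointwise

/-! ### Generalities on the coefficient action -/

section Act

variable (E : IntermediateField ℚ (AlgebraicClosure ℚ)) (N : ℕ)

theorem actE_mul_apply (t₁ t₂ : E ≃ₐ[ℚ] E) (f : FE E N) :
    actE E N (t₁ * t₂) f = actE E N t₁ (actE E N t₂ f) := by
  apply Subtype.ext
  show coeffMap ((t₁ * t₂ : E ≃ₐ[ℚ] E) : E →+* E) (f : LaurentSeries E)
      = coeffMap (t₁ : E →+* E) (coeffMap (t₂ : E →+* E) (f : LaurentSeries E))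
  rw [coeffMap_coeffMap]
  exact coeffMap_congr (RingHom.ext fun _ => rfl) _

theorem actE_cancel (t₁ t₂ : E ≃ₐ[ℚ] E) (h : ∀ e : E, t₁ (t₂ e) = e) (f : FE E N) :
    actE E N t₁ (actE E N t₂ f) = f := by
  apply Subtype.ext
  show coeffMap (t₁ : E →+* E) (coeffMap (t₂ : E →+* E) (f : LaurentSeries E))
      = (f : LaurentSeries E)
  rw [coeffMap_coeffMap,
    coeffMap_congr (g := RingHom.id E) (RingHom.ext fun a => h a) (f : LaurentSeries E),
    coeffMap_id]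

theorem actE_jE (d : ℕ) [NeZero d] (hd : d ∣ N) (t : E ≃ₐ[ℚ] E) :
    actE E N t (jE E N d hd) = jE E N d hd :=
  Subtype.ext (coeffMap_coeffEmb t _)

theorem alpha_actE (M q : ℕ) [NeZero M] [NeZero q] (t : E ≃ₐ[ℚ] E) (a : FE E M) :
    αE E M q (actE E M t a) = actE E (M * q) t (αE E M q a) := by
  apply Subtype.ext
  rw [coe_heckeAlphaBar, coe_arithmeticRingAut_apply, coe_arithmeticRingAut_apply,
    coe_heckeAlphaBar]

end Act

/-- A ring endomorphism `σ` of `F`, semilinear over `ρ : R →+* R` and fixing `y`, preserves the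
integral closure of `R[y]`. -/
theorem isIntegral_adjoin_semilinear {R F : Type*} [CommRing R] [Field F] [Algebra R F]
    (σ : F →+* F) (ρ : R →+* R)
    (hσ : ∀ r : R, σ (algebraMap R F r) = algebraMap R F (ρ r)) {y : F} (hy : σ y = y) {b : F}
    (hb : IsIntegral (Algebra.adjoin R ({y} : Set F)) b) :
    IsIntegral (Algebra.adjoin R ({y} : Set F)) (σ b) := by
  have hle : ∀ a ∈ Algebra.adjoin R ({y} : Set F), σ a ∈ Algebra.adjoin R ({y} : Set F) := by
    intro a ha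
    induction ha using Algebra.adjoin_induction with
    | mem z hz =>
        rw [Set.mem_singleton_iff] at hz
        rw [hz, hy]
        exact Algebra.subset_adjoin (Set.mem_singleton y)
    | algebraMap r =>
        rw [hσ]
        exact Subalgebra.algebraMap_mem _ _
    | add a c _ _ ha hc =>
        rw [map_add]
        exact add_mem ha hc
    | mul a c _ _ ha hc =>
        rw [map_mul]
        exact mul_mem ha hc
  let φ : ↥(Algebra.adjoin R ({y} : Set F)) →+* ↥(Algebra.adjoin R ({y} : Set F)) :=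
    { toFun := fun a => ⟨σ (a : F), hle a a.2⟩
      map_one' := Subtype.ext (map_one σ)
      map_mul' := fun a c => Subtype.ext (map_mul σ (a : F) (c : F))
      map_zero' := Subtype.ext (map_zero σ)
      map_add' := fun a c => Subtype.ext (map_add σ (a : F) (c : F)) }
  exact IsIntegral.map_of_comp_eq φ σ (RingHom.ext fun _ => rfl) hb

/-! ### The decomposition group acts on the level structures -/

section Decomp

variable (A : ValuationSubring (AlgebraicClosure ℚ))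
  (E : IntermediateField ℚ (AlgebraicClosure ℚ))

/-- `E` is stable under `s⁻¹` as well. -/
theorem stableUnder_inv {s : AlgebraicClosure ℚ ≃ₐ[ℚ] AlgebraicClosure ℚ}
    (hs : StableUnder E s) : StableUnder E s⁻¹ :=
  fun e he => ⟨(hs e he).2, (hs e he).1⟩

/-- The restriction to `E` of an element of the decomposition group preserves `R_E`. -/
theorem resE_mem_RE_of_decomp {s : AlgebraicClosure ℚ ≃ₐ[ℚ] AlgebraicClosure ℚ}
    (hs : StableUnder E s) (hsD : s ∈ A.decompositionSubgroup ℚ) :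
    ∀ r : E, r ∈ RE A E → resE E s hs r ∈ RE A E := by
  intro r hr
  rw [ValuationSubring.mem_comap] at hr ⊢
  have h : s • A = A := MulAction.mem_stabilizer_iff.mp hsD
  have h1 : s • (algebraMap E (AlgebraicClosure ℚ) r) ∈ s • A :=
    ValuationSubring.smul_mem_pointwise_smul s _ A hr
  rw [h] at h1
  exact h1

/-- The restriction of `s ∈ D_A` to `R_E`, as a ring endomorphism. -/
def resRE {s : AlgebraicClosure ℚ ≃ₐ[ℚ] AlgebraicClosure ℚ}
    (hs : StableUnder E s) (hsD : s ∈ A.decompositionSubgroup ℚ) : RE A E →+* RE A E where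
  toFun r := ⟨resE E s hs (r : E), resE_mem_RE_of_decomp A E hs hsD r r.2⟩
  map_one' := Subtype.ext (map_one (resE E s hs))
  map_mul' a b := Subtype.ext (map_mul (resE E s hs) (a : E) (b : E))
  map_zero' := Subtype.ext (map_zero (resE E s hs))
  map_add' a b := Subtype.ext (map_add (resE E s hs) (a : E) (b : E))

/-- The chart of a coordinate fixed by `σ` is `σ`-stable. -/
theorem chartAlg_actE (N : ℕ) {s : AlgebraicClosure ℚ ≃ₐ[ℚ] AlgebraicClosure ℚ}
    (hs : StableUnder E s) (hsD : s ∈ A.decompositionSubgroup ℚ) (y : FE E N)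
    (hy : actE E N (resE E s hs) y = y) {b : FE E N} (hb : b ∈ chartAlg A E N y) :
    actE E N (resE E s hs) b ∈ chartAlg A E N y := by
  rw [mem_chartAlg] at hb ⊢
  exact isIntegral_adjoin_semilinear
    ((actE E N (resE E s hs) : FE E N ≃+* FE E N) : FE E N →+* FE E N) (resRE A E hs hsD)
    (fun r => arithmeticRingAut_algebraMap (modularFunctionFieldFull N) (resE E s hs) (r : E))
    hy hb

variable (w : RE A E)

/-- `σ (w V) ⊆ w V` for `σ` in the decomposition group (from STABLE for `s` and `s⁻¹`). -/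
theorem inW_actE (hSt : StableStatement A E) (N : ℕ) (hN : N ≠ 0)
    (hdvr : IsDiscreteValuationRing (RE A E)) (hw : Irreducible w)
    (V : ValuationSubring (FE E N)) (W : FE E N ≃ₐ[E] FE E N)
    (hV : IsVinf A E N V) (hW : IsFricke E N W)
    {s : AlgebraicClosure ℚ ≃ₐ[ℚ] AlgebraicClosure ℚ}
    (hs : StableUnder E s) (hsD : s ∈ A.decompositionSubgroup ℚ)
    {f : FE E N} (hf : InW A E N V w f) :
    InW A E N V w (actE E N (resE E s hs) f) := by
  have hU : A2.H48.IsUnif V (cE A E N w) := (H553.vinfBasic A E w N hN hdvr hw V hV).1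
  rw [H142.inW_iff hU] at hf ⊢
  have hσV := (hSt N hN hdvr V W hV hW s hs hsD).2
  have hσV' := (hSt N hN hdvr V W hV hW s⁻¹ (stableUnder_inv E hs) (inv_mem hsD)).2
  have hcancel : ∀ g : FE E N,
      actE E N (resE E s⁻¹ (stableUnder_inv E hs)) (actE E N (resE E s hs) g) = g :=
    fun g => actE_cancel E N _ _ (fun e => Subtype.ext (s.symm_apply_apply (e : _))) g
  have hfV : f ∈ V := (V.valuation_le_one_iff f).1 hf.le
  have hσf : actE E N (resE E s hs) f ∈ V := hσV f hfV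
  by_contra hcon
  rw [not_lt] at hcon
  have hone : V.valuation (actE E N (resE E s hs) f) = 1 :=
    le_antisymm ((V.valuation_le_one_iff _).2 hσf) hcon
  have hinv : (actE E N (resE E s hs) f)⁻¹ ∈ V := by
    rw [← V.valuation_le_one_iff, map_inv₀, hone, inv_one]
  have h2 := hσV' _ hinv
  rw [map_inv₀, hcancel] at h2
  have h3 : V.valuation f⁻¹ ≤ 1 := (V.valuation_le_one_iff _).2 h2
  have hf0 : f ≠ 0 := by
    rintro rfl
    rw [map_zero, map_zero] at hone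
    exact zero_ne_one hone
  have hne : V.valuation f ≠ 0 := (Valuation.ne_zero_iff _).2 hf0
  rw [map_inv₀, inv_le_one₀ (zero_lt_iff.2 hne)] at h3
  exact absurd hf (not_lt.2 h3)

end Decomp

/-! ### NODE-RAT -/

section Main

variable (A : ValuationSubring (AlgebraicClosure ℚ))
  (E : IntermediateField ℚ (AlgebraicClosure ℚ)) (M q : ℕ) [NeZero M] [NeZero q] (w : RE A E)

/-- `β` maps the level-`M` chart into the level-`M q` chart. -/
theorem beta_mem_chartAlg (hS : Setting A E M q w) (yM : FE E M) (y : FE E (M * q))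
    (hy : IsCoordPair E M q yM y) {g : FE E M} (hg : g ∈ chartAlg A E M yM) :
    βE E M q g ∈ chartAlg A E (M * q) y := by
  have hL13 := H873.chartCompat A E M q hS.q_prime
  have hβR : ∀ r : RE A E, (βE E M q : FE E M →+* FE E (M * q)) (algebraMap (RE A E) (FE E M) r) =
      algebraMap (RE A E) (FE E (M * q)) r := fun r => (βE E M q).commutes (r : E)
  haveI : NeZero (q * 1) := ⟨by rw [mul_one]; exact hS.q_prime.ne_zero⟩
  have hβj : βE E M q (jE E M 1 (one_dvd _)) = jE E (M * q) q (dvd_mul_left q M) := by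
    rw [H751.beta_jE E M q 1 (one_dvd M)]
    exact H751.jE_congr E (M * q) (mul_one q) _ _
  have hβy : βE E M q yM ∈ chartAlg A E (M * q) y := by
    rcases hy with ⟨rfl, rfl⟩ | ⟨rfl, rfl⟩
    · rw [hβj]
      exact (H142.mem_chart_iff A E (M * q) _ _).1 hL13.2.1
    · rw [map_inv₀, hβj]
      exact (H142.mem_chart_iff A E (M * q) _ _).1 hL13.2.2.2
  exact (mem_chartAlg A E (M * q)).2
    (H142.isIntegral_adjoin_map (βE E M q : FE E M →+* FE E (M * q)) hβR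
      ((mem_chartAlg A E (M * q)).1 hβy) ((mem_chartAlg A E M).1 hg))

/-- **NODE-RAT** from KRON-FROB and STABLE. -/
theorem nodeRat (hK : KronFrobStatement A E M q w) (hSt : StableStatement A E) :
    NodeRatStatement A E M q w := by
  intro hS _ VM V W hVM hV hW yM y hy hgoodM c hcut₁ hcut₂ s hs hFrob n _ hp₁ hp₂ b hbn b' hb'
  have hN : M * q ≠ 0 := Nat.mul_ne_zero hS.M_ne_zero hS.q_prime.ne_zero
  haveI : NeZero (M * q) := ⟨hN⟩
  have hsD : s ∈ A.decompositionSubgroup ℚ := hFrob.mem_decompositionSubgroup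
  have hWM := H751.isFricke_frickeE E M
  obtain ⟨hcommM, -⟩ :=
    hSt M hS.M_ne_zero hS.dvr VM (H751.frickeE E M) hVM hWM s hs hsD
  -- step (e): `b ≡ α a mod p∞`
  obtain ⟨hBM, -, hαB, hsurj⟩ := surj_inf A E M q w hS VM V hVM hV yM y hy hgoodM
  obtain ⟨a, ha, hba⟩ := hsurj (b : FE E (M * q)) b.2
  -- the level-`M` chart is `σ`-stable
  have hσy : actE E M (resE E s hs) yM = yM := by
    rcases hy with ⟨rfl, -⟩ | ⟨rfl, -⟩
    · exact actE_jE E M 1 (one_dvd _) _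
    · rw [map_inv₀, actE_jE]
  obtain ⟨a₁, ha₁⟩ : ∃ a₁ : FE E M, a₁ = actE E M (resE E s hs) a := ⟨_, rfl⟩
  obtain ⟨a₂, ha₂⟩ : ∃ a₂ : FE E M, a₂ = actE E M (resE E s hs) a₁ := ⟨_, rfl⟩
  have ha₁B : a₁ ∈ chartAlg A E M yM := ha₁ ▸ chartAlg_actE A E M hs hsD yM hσy ha
  have ha₂B : a₂ ∈ chartAlg A E M yM := ha₂ ▸ chartAlg_actE A E M hs hsD yM hσy ha₁B
  -- (K1) at `a`
  have e1 : InW A E (M * q) V w (βE E M q a₁ - (αE E M q a) ^ q) := by
    rw [ha₁]
    exact hK hS VM V hVM hV s hs hFrob a (hBM a ha)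
  -- (K2) at `a₁`
  have e2 : InW A E (M * q) (V.comap (W : FE E (M * q) →+* FE E (M * q))) w
      (αE E M q a₂ - (βE E M q a₁) ^ q) := by
    rw [H142.inW_comap_iff]
    have hL5 := H751.frickeCompat E M q (H751.frickeE E M) W hWM hW
    have hL7 := H900.frickeStable A E M q w hS VM (H751.frickeE E M) hVM hWM
    have h1 := hK hS VM V hVM hV s hs hFrob (H751.frickeE E M a₁) (hL7 a₁ (hBM a₁ ha₁B))
    rw [map_sub, map_pow, (hL5 a₂).1, (hL5 a₁).2, ha₂, ← hcommM a₁]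
    exact h1
  -- `ψ b ≡ α (σ² a) mod p∞`
  have e3 : InW A E (M * q) V w ((b' : FE E (M * q)) - αE E M q a₂) := by
    have h1 := inW_actE A E w hSt (M * q) hN hS.dvr hS.unif V W hV hW hs hsD
      (inW_actE A E w hSt (M * q) hN hS.dvr hS.unif V W hV hW hs hsD hba)
    rw [map_sub, map_sub, ← alpha_actE, ← alpha_actE, ← ha₁, ← ha₂, ← _root_.Fermat.Agent.S35.G.H558.actE_mul_apply] at h1
    rw [hb']
    exact h1
  -- the computation in `B / n`
  have hαa : αE E M q a ∈ chartAlg A E (M * q) y := hαB a ha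
  have hβa₁ : βE E M q a₁ ∈ chartAlg A E (M * q) y :=
    beta_mem_chartAlg A E M q w hS yM y hy ha₁B
  have hαa₂ : αE E M q a₂ ∈ chartAlg A E (M * q) y := hαB a₂ ha₂B
  obtain ⟨ua, hua⟩ : ∃ u : chartAlg A E (M * q) y, (u : FE E (M * q)) = αE E M q a :=
    ⟨⟨_, hαa⟩, rfl⟩
  obtain ⟨ub, hub⟩ : ∃ u : chartAlg A E (M * q) y, (u : FE E (M * q)) = βE E M q a₁ :=
    ⟨⟨_, hβa₁⟩, rfl⟩
  obtain ⟨uc, huc⟩ : ∃ u : chartAlg A E (M * q) y, (u : FE E (M * q)) = αE E M q a₂ :=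
    ⟨⟨_, hαa₂⟩, rfl⟩
  have m1 : b - ua ∈ n := hp₁ ((hcut₁ _).2 (by
    rw [← hua] at hba
    exact hba))
  have m2 : ub - ua ^ q ∈ n := hp₁ ((hcut₁ _).2 (by
    rw [← hua, ← hub] at e1
    exact e1))
  have m3 : uc - ub ^ q ∈ n := hp₂ ((hcut₂ _).2 (by
    rw [← huc, ← hub] at e2
    exact e2))
  have m4 : b' - uc ∈ n := hp₁ ((hcut₁ _).2 (by
    rw [← huc] at e3
    exact e3))
  have m5 : ub ^ q - (ua ^ q) ^ q ∈ n := Fermat.Agent.S35.H558.pow_sub_pow_mem_fix m2 q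
  have m6 : (b ^ q) ^ q - (ua ^ q) ^ q ∈ n := by
    rw [← pow_mul, ← pow_mul]
    exact Fermat.Agent.S35.H558.pow_sub_pow_mem_fix m1 (q * q)
  have m7 : (b ^ q) ^ q ∈ n :=
    n.pow_mem_of_mem (n.pow_mem_of_mem hbn q hS.q_prime.pos) q hS.q_prime.pos
  have key : b' = (b' - uc) + (uc - ub ^ q) + (ub ^ q - (ua ^ q) ^ q)
      - ((b ^ q) ^ q - (ua ^ q) ^ q) + (b ^ q) ^ q := by ring
  rw [key]
  exact n.add_mem (n.sub_mem (n.add_mem (n.add_mem m4 m3) m5) m6) m7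

end Main

end Fermat.Agent.S35.G.H558

end

end
-- ===== PACK-END S35/G/H558/NodeRat.lean

-- ===== PACK-BEGIN Ribet/H801/ALSwapGen.lean
section
/-
RIBET / WALL-q, W-AL (helper801), part 4: uniqueness and involutivity of the Atkin–Lehner swap
over ANY field `L ⊇ ℚ` (in particular at a level `E ⊆ ℚ̄`, `F_{N,E} = A2.Mod.FE E N`).

* `ringHom_ext_alpha_beta_gen` : a ring homomorphism out of `F_{Mp,L}` is determined by its
                                 values on `α F_{M,L}` and `β F_{M,L}`;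
* `swap_unique_gen`            : two swaps (`s ∘ α = β`, `s ∘ β = α`) agree;
* `swap_involutive_gen`        : a swap is an involution;
* `swap_bijective_gen`, `swapEquivGen` : a swap as a ring automorphism.
-/




set_option autoImplicit false
set_option linter.style.haveILetI false
set_option linter.unusedSectionVars false
set_option synthInstance.maxHeartbeats 400000
set_option maxHeartbeats 1000000

noncomputable section

namespace Fermat.Agent.Ribet.H801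

open AlgebraicCurve ModularCurve

section Gen

variable (L : Type*) [Field L] [Algebra ℚ L] (M p : ℕ) [NeZero M] [NeZero p]

/-- underlying series of the generator `j_d` over `L` -/
theorem coe_jK_eq_gd_gen (N d : ℕ) [NeZero d] (hd : d ∣ N) :
    ((Fermat.Agent.A2.Mod.H751.jK L N d hd :
        ↥(laurentBaseChange L (modularFunctionFieldFull N))) : LaurentSeries L) =
      Fermat.Agent.S37.H88.gd L d := by
  show coeffEmb L (qExpand ℚ d jq) = qExpand L d (jqModC L)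
  have h3 : coeffMap (algebraMap ℚ L) jq = jqModC L := by
    rw [← jqModC_rat]
    exact coeffMap_jqModC (algebraMap ℚ L)
  rw [coeffEmb, ModularCurve.coeffMap_qExpand, h3]

/-- every generator of `F_{Mp,L}` is an `α`-image or a `β`-image. -/
theorem jK_eq_alpha_or_beta_gen (hp : p.Prime) (d : ℕ) [NeZero d] (hd : d ∣ M * p) :
    ∃ a : ↥(laurentBaseChange L (modularFunctionFieldFull M)),
      heckeAlphaBar L M p a = Fermat.Agent.A2.Mod.H751.jK L (M * p) d hd ∨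
      heckeBetaBar L M p a = Fermat.Agent.A2.Mod.H751.jK L (M * p) d hd := by
  obtain ⟨a, ha | ha⟩ :=
    Fermat.Agent.S37.H88.gd_eq_alpha_or_beta (L := L) (N := M) (ℓ := p) hp hd
  · exact ⟨a, Or.inl (Subtype.ext (ha.trans (coe_jK_eq_gd_gen L (M * p) d hd).symm))⟩
  · exact ⟨a, Or.inr (Subtype.ext (ha.trans (coe_jK_eq_gd_gen L (M * p) d hd).symm))⟩

variable {L M p}

/-- A ring homomorphism out of `F_{Mp,L}` is determined by its values on `α F_M` and `β F_M`. -/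
theorem ringHom_ext_alpha_beta_gen (hp : p.Prime) {T : Type*} [DivisionRing T]
    (w w' : ↥(laurentBaseChange L (modularFunctionFieldFull (M * p))) →+* T)
    (hα : ∀ a : ↥(laurentBaseChange L (modularFunctionFieldFull M)),
      w (heckeAlphaBar L M p a) = w' (heckeAlphaBar L M p a))
    (hβ : ∀ a : ↥(laurentBaseChange L (modularFunctionFieldFull M)),
      w (heckeBetaBar L M p a) = w' (heckeBetaBar L M p a)) :
    ∀ x, w x = w' x := by
  refine Fermat.Agent.A2.Mod.H751.ringHom_ext_FE (K := L) (M * p) w w' ?_ ?_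
  · intro e
    have h1 : algebraMap L ↥(laurentBaseChange L (modularFunctionFieldFull (M * p))) e =
        heckeAlphaBar L M p (algebraMap L _ e) := (AlgHom.commutes _ e).symm
    rw [h1, hα]
  · intro d _ hd
    obtain ⟨a, ha | ha⟩ := jK_eq_alpha_or_beta_gen L M p hp d hd
    · rw [← ha, hα]
    · rw [← ha, hβ]

/-- **Uniqueness of the swap** over any field. -/
theorem swap_unique_gen (hp : p.Prime)
    (s s' : ↥(laurentBaseChange L (modularFunctionFieldFull (M * p))) →+*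
      ↥(laurentBaseChange L (modularFunctionFieldFull (M * p))))
    (hα : ∀ a, s (heckeAlphaBar L M p a) = heckeBetaBar L M p a)
    (hβ : ∀ a, s (heckeBetaBar L M p a) = heckeAlphaBar L M p a)
    (hα' : ∀ a, s' (heckeAlphaBar L M p a) = heckeBetaBar L M p a)
    (hβ' : ∀ a, s' (heckeBetaBar L M p a) = heckeAlphaBar L M p a) :
    ∀ x, s x = s' x :=
  ringHom_ext_alpha_beta_gen hp s s' (fun a => by rw [hα, hα']) (fun a => by rw [hβ, hβ'])

/-- **A swap is an involution** (any field). -/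
theorem swap_involutive_gen (hp : p.Prime)
    (s : ↥(laurentBaseChange L (modularFunctionFieldFull (M * p))) →+*
      ↥(laurentBaseChange L (modularFunctionFieldFull (M * p))))
    (hα : ∀ a, s (heckeAlphaBar L M p a) = heckeBetaBar L M p a)
    (hβ : ∀ a, s (heckeBetaBar L M p a) = heckeAlphaBar L M p a) :
    ∀ x, s (s x) = x :=
  ringHom_ext_alpha_beta_gen hp (s.comp s) (RingHom.id _)
    (fun a => by
      show s (s _) = _
      rw [hα, hβ]; rfl)
    (fun a => by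
      show s (s _) = _
      rw [hβ, hα]; rfl)

/-- A swap as a ring automorphism. -/
def swapEquivGen (hp : p.Prime)
    (s : ↥(laurentBaseChange L (modularFunctionFieldFull (M * p))) →+*
      ↥(laurentBaseChange L (modularFunctionFieldFull (M * p))))
    (hα : ∀ a, s (heckeAlphaBar L M p a) = heckeBetaBar L M p a)
    (hβ : ∀ a, s (heckeBetaBar L M p a) = heckeAlphaBar L M p a) :
    ↥(laurentBaseChange L (modularFunctionFieldFull (M * p))) ≃+*
      ↥(laurentBaseChange L (modularFunctionFieldFull (M * p))) where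
  toFun := s
  invFun := s
  left_inv := swap_involutive_gen hp s hα hβ
  right_inv := swap_involutive_gen hp s hα hβ
  map_mul' := map_mul s
  map_add' := map_add s

@[simp] theorem swapEquivGen_apply (hp : p.Prime)
    (s : ↥(laurentBaseChange L (modularFunctionFieldFull (M * p))) →+*
      ↥(laurentBaseChange L (modularFunctionFieldFull (M * p))))
    (hα : ∀ a, s (heckeAlphaBar L M p a) = heckeBetaBar L M p a)
    (hβ : ∀ a, s (heckeBetaBar L M p a) = heckeAlphaBar L M p a) (x) :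
    swapEquivGen hp s hα hβ x = s x := rfl

end Gen

end Fermat.Agent.Ribet.H801

end

end
-- ===== PACK-END Ribet/H801/ALSwapGen.lean

-- ===== PACK-BEGIN S26.lean
section



















set_option autoImplicit false
set_option autoImplicit false
open CategoryTheory CategoryTheory.Limits AlgebraicGeometry NeronModelInfra GoodReductionJacobian
universe u
open GoodReductionJacobian GoodReductionJacobian.RelativeGroupLaw

namespace Fermat.Agent.S26

theorem result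
    (K : Type u) [Field K] [IsAlgClosed K] {A : Scheme.{u}} (f : A ⟶ Spec (CommRingCat.of K))
    (L : RelativeGroupLaw K f) (hc : L.IsCommutative) (hA : AbelianSchemePropertyBundle K f)
    (g : ℕ) [SmoothOfRelativeDimension g f] (n : ℕ) (hn : (n : K) ≠ 0) :
    Nat.card {x : SchemeHomOver (𝟙 (Spec (CommRingCat.of K))) f //
        L.IsTorsionPoint (𝟙 (Spec (CommRingCat.of K))) n x} = n ^ (2 * g) := by
  -- row S25 (existence of Jacobians), consumed by the cube for curves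
  have hS25 : H687.S25Statement.{u} := fun k _ _ _ c _ _ _ ε => Fermat.Agent.S25.result k c ε
  -- blocks PIC + CUBE: the theorem of the cube for the Cech Picard functor
  have hGen : ∀ (K' : Type u) [Field K'] [IsAlgClosed K'], Stmt.CurvesGenerate K' :=
    fun K' _ _ => C4.curvesGenerate_of_c4b K' (H626.c4b K')
  have hPC : Stmt.PicCube K := Pic.picCube_of hS25 hGen K (H605.genericTrivial K)
  have hSq : Stmt.SquareLS K := squareLS_of hPC H164.cDivOps
  have hQ : Stmt.NQuad K := nquad_of hPC H164.lsDiv H164.cDivOps H164.lsDivOps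
  -- block AMPLE
  have hα : Stmt.Alpha K := Ample.alpha_of_squareLS K hSq
  -- block SOFT
  have hSoft : Stmt.Soft K := Soft.H746.soft K
  -- the degree of `[n]`
  have hDeg : Stmt.Deg K :=
    deg_of_blocks K (H687.integral K) (H478.generic_of_soft K hSoft) (FF.H660.ffRank660 K) hα hQ
      Beta.H867.beta (H219.lsPullback K) (LS.H798.lsPow K) (LS.H798.lsScale K)
  exact result_of_blocks K hSoft hDeg f L hc hA g n hn

end Fermat.Agent.S26

end
-- ===== PACK-END S26.lean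

-- ===== PACK-BEGIN S18/Integ/Final.lean
section









/-!
# S18 — final chain (row-lead helper18): frozen S18 from the two nodes `node_mod` and `node_alg`

    S18(N) ⟸ prime m [H694] ⟸ Top [Integ/Top, H665] ⟸ CONST_Fk [H144] + CORE(N)
    CORE(N) ⟸ D2 [H568] ⟸ CORE(M), M = levelM N ℓ ⟸ GLUE [H965] ⟸ COORD [H634] + MOD + ALG

* `coreStatement_of_mod_alg` : the hub `CoreStatement N A m` (prime `m`, `ℓ ∤ m`) from
  `Mod.GoodModelStatement (levelM N ℓ) ℓ A` and `Mod.AlgStatement (levelM N ℓ)`;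
* `s18_of_mod_alg` : the frozen statement S18 from the same two inputs (for all primes `m`).

Sorry-free; the two inputs are hypotheses.
-/

set_option autoImplicit false

noncomputable section

namespace Fermat.Agent.S18.Integ

open ModularCurve AlgebraicCurve

/-- The level at which good reduction is proved. -/
def levelM (N ℓ : ℕ) : ℕ := if ℓ = 3 then Nat.lcm N 2 else if ℓ = 2 then Nat.lcm N 3 else N

theorem levelM_ne_zero (N ℓ : ℕ) [NeZero N] : levelM N ℓ ≠ 0 := by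
  unfold levelM
  split_ifs <;> simp [NeZero.ne N]

theorem not_dvd_levelM (N : ℕ) {ℓ : ℕ} [Fact ℓ.Prime] (hℓN : ¬ ℓ ∣ N) : ¬ ℓ ∣ levelM N ℓ := by
  have hp : ℓ.Prime := Fact.out
  unfold levelM
  split_ifs with h3 h2
  · subst h3
    intro h
    have := (Nat.Prime.dvd_mul (by norm_num : Nat.Prime 3)).mp (h.trans (Nat.lcm_dvd_mul N 2))
    rcases this with h | h
    · exact hℓN h
    · omega
  · subst h2
    intro h
    have := (Nat.Prime.dvd_mul (by norm_num : Nat.Prime 2)).mp (h.trans (Nat.lcm_dvd_mul N 3))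
    rcases this with h | h
    · exact hℓN h
    · omega
  · exact hℓN

theorem two_dvd_levelM (N : ℕ) {ℓ : ℕ} (h : ℓ = 3) : 2 ∣ levelM N ℓ := by
  unfold levelM
  rw [if_pos h]
  exact Nat.dvd_lcm_right N 2

theorem three_dvd_levelM (N : ℕ) {ℓ : ℕ} (h : ℓ = 2) : 3 ∣ levelM N ℓ := by
  unfold levelM
  rw [if_neg (by omega), if_pos h]
  exact Nat.dvd_lcm_right N 3

/-- **The hub at level `N`** (prime `m`, `ℓ ∤ m`) from MOD and ALG at level `levelM N ℓ`. -/
theorem coreStatement_of_mod_alg (N : ℕ) [NeZero N] {ℓ : ℕ} [Fact ℓ.Prime] (hℓN : ¬ ℓ ∣ N)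
    (A : ValuationSubring Qb) (hA : A.LiesOverPrime ℓ) (m : ℕ) (hmp : m.Prime) (hm : ¬ ℓ ∣ m)
    (hmod : Mod.GoodModelStatement (levelM N ℓ) ℓ A) (halg : Mod.AlgStatement (levelM N ℓ)) :
    CoreStatement N A m := by
  have hM0 : NeZero (levelM N ℓ) := ⟨levelM_ne_zero N ℓ⟩
  have hℓM := not_dvd_levelM N hℓN
  have hcoreM : CoreStatement (levelM N ℓ) A m :=
    H965.node_glue (levelM N ℓ) hℓM A hA m hmp hm
      (H634.node_coord (levelM N ℓ) hℓM (two_dvd_levelM N) (three_dvd_levelM N)) hmod halg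
  exact H568.node_d2 N hℓN A hA m hm hcoreM

/-- **Frozen S18 from `node_mod` and `node_alg`.** -/
theorem s18_of_mod_alg (N : ℕ) [NeZero N] {ℓ : ℕ} [Fact ℓ.Prime] (hℓN : ¬ ℓ ∣ N)
    (A : ValuationSubring Qb) (hA : A.LiesOverPrime ℓ)
    (hmod : Mod.GoodModelStatement (levelM N ℓ) ℓ A) (halg : Mod.AlgStatement (levelM N ℓ))
    (h : ModularCurve.ReductionInputsModL A N) (m : ℕ) (hm : ¬ ℓ ∣ m)
    (z : ModularCurve.JZero N) (hmz : m • z = 0)
    (hz : ModularCurve.reductionModL A N z = 0) : z = 0 := by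
  refine H694.s18_of_prime_case N A (fun p hp hℓp z hpz hz => ?_) m hm z hmz hz
  exact s18_of_coreStatement h p hℓp (H144.node_constFk N hℓN A hA)
    (coreStatement_of_mod_alg N hℓN A hA p hp hℓp hmod halg) z hpz hz

end Fermat.Agent.S18.Integ

end
end
-- ===== PACK-END S18/Integ/Final.lean

-- ===== PACK-BEGIN A2/Mod/H994/S2.lean
section







/-!
# WALL A2 / MODASM — S2 (components normal), concrete part (helper994)

`s2_of_resInf : ResInfStatement P E M q w → S2Statement P E M q w`.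

Inputs from main: L2 (`H553.vinfBasic`), L5 (`H553.frickeCompat`), L7 (`H900.frickeStable`),
L13 (`H873.chartCompat`), Frobenius congruence (`H528.exists_frobCong`), and the abstract core
`isIntegrallyClosed_quotient_of_residue` (`S2Abs.lean`).  The only open input is L11 (`ResInf`).
-/

set_option autoImplicit false
set_option linter.unusedSectionVars false
set_option linter.style.haveILetI false
set_option synthInstance.maxHeartbeats 400000
set_option maxHeartbeats 1600000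

noncomputable section

namespace Fermat.Agent.A2.Mod.H994

open ModularCurve HahnSeries Polynomial
open Fermat.Agent.A2 Fermat.Agent.A2.Mod

section Prelim

variable {P : ValuationSubring _root_.Fermat.Agent.A2.Mod.Qb} {E : IntermediateField ℚ _root_.Fermat.Agent.A2.Mod.Qb}

/-- `InW` in terms of the valuation. -/
theorem inW_iff_val {N : ℕ} {V : ValuationSubring (_root_.Fermat.Agent.A2.Mod.FE E N)} {w : _root_.Fermat.Agent.A2.Mod.RE P E}
    (hU : H48.IsUnif V (cE P E N w)) {f : _root_.Fermat.Agent.A2.Mod.FE E N} :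
    InW P E N V w f ↔ V.valuation f < 1 :=
  hU.mul_inv_mem_iff

/-- Transport of a uniformiser along an automorphism fixing it. -/
theorem isUnif_comap {F : Type*} [Field F] {V : ValuationSubring F} {ϖ : F}
    (hU : H48.IsUnif V ϖ) (W : F →+* F) (hW : W ϖ = ϖ) : H48.IsUnif (V.comap W) ϖ where
  mem := by
    rw [ValuationSubring.mem_comap, hW]
    exact hU.mem
  inv_not_mem := by
    rw [ValuationSubring.mem_comap, map_inv₀, hW]
    exact hU.inv_not_mem
  gen := by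
    intro f hf hfinv
    rw [ValuationSubring.mem_comap] at hf hfinv ⊢
    rw [map_mul, map_inv₀, hW]
    rw [map_inv₀] at hfinv
    exact hU.gen _ hf hfinv

theorem val_comap_lt_one_iff {F : Type*} [Field F] {V : ValuationSubring F} {ϖ : F}
    (hU : H48.IsUnif V ϖ) (W : F →+* F) (hW : W ϖ = ϖ) {f : F} :
    (V.comap W).valuation f < 1 ↔ V.valuation (W f) < 1 := by
  rw [← (isUnif_comap hU W hW).mul_inv_mem_iff, ← hU.mul_inv_mem_iff,
    ValuationSubring.mem_comap, map_mul, map_inv₀, hW]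

/-- `α` maps `V∞` of level `M` into `V∞` of level `M q`. -/
theorem alpha_mem {M q : ℕ} [NeZero M] [NeZero q] {VM : ValuationSubring (_root_.Fermat.Agent.A2.Mod.FE E M)}
    {V : ValuationSubring (_root_.Fermat.Agent.A2.Mod.FE E (M * q))} (hVM : IsVinf P E M VM) (hV : IsVinf P E (M * q) V)
    {g : _root_.Fermat.Agent.A2.Mod.FE E M} (hg : g ∈ VM) : αE E M q g ∈ V := by
  rw [hV, coe_heckeAlphaBar]
  obtain ⟨U₁, U₂, hred, hmem, heq⟩ := (hVM g).1 hg
  refine ⟨U₁, U₂, hred, ?_, heq⟩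
  have h1 := (αE E M q ⟨_, hmem⟩).2
  rw [coe_heckeAlphaBar] at h1
  exact h1

end Prelim

section Frob

variable {P : ValuationSubring _root_.Fermat.Agent.A2.Mod.Qb} {E : IntermediateField ℚ _root_.Fermat.Agent.A2.Mod.Qb}

/-- the residue characteristic is a non-unit of `V∞` -/
theorem val_natCast_lt_one {N q : ℕ} [NeZero q] [IsNoetherianRing ↥(_root_.Fermat.Agent.A2.Mod.RE P E)]
    (hP : P.LiesOverPrime q) {V : ValuationSubring (_root_.Fermat.Agent.A2.Mod.FE E N)} (hV : IsVinf P E N V) :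
    V.valuation (algebraMap ↥E ↥(_root_.Fermat.Agent.A2.Mod.FE E N) (q : ↥E)) < 1 := by
  by_contra hcon
  have hq0 : (q : ↥E) ≠ 0 := by exact_mod_cast NeZero.ne q
  have hqF : algebraMap ↥E ↥(_root_.Fermat.Agent.A2.Mod.FE E N) (q : ↥E) ≠ 0 :=
    (map_ne_zero_iff _ (algebraMap ↥E ↥(_root_.Fermat.Agent.A2.Mod.FE E N)).injective).mpr hq0
  have h1 : 1 ≤ V.valuation (algebraMap ↥E ↥(_root_.Fermat.Agent.A2.Mod.FE E N) (q : ↥E)) := not_lt.1 hcon
  have h2 : (algebraMap ↥E ↥(_root_.Fermat.Agent.A2.Mod.FE E N) (q : ↥E))⁻¹ ∈ V := by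
    rw [← V.valuation_le_one_iff, map_inv₀]
    exact inv_le_one_of_one_le₀ h1
  have h3 : (algebraMap ↥E ↥(_root_.Fermat.Agent.A2.Mod.FE E N) (q : ↥E))⁻¹ =
      algebraMap ↥E ↥(_root_.Fermat.Agent.A2.Mod.FE E N) ((q : ↥E)⁻¹) := (map_inv₀ _ _).symm
  rw [h3] at h2
  have h4 : ((q : ↥E)⁻¹) ∈ _root_.Fermat.Agent.A2.Mod.RE P E := (H553.algebraMap_mem_iff P E hV _).mp h2
  have h5 : ((q : _root_.Fermat.Agent.A2.Mod.Qb)⁻¹) ∈ P := by
    have : (((q : ↥E)⁻¹ : ↥E) : _root_.Fermat.Agent.A2.Mod.Qb) ∈ P := h4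
    simpa using this
  have h6 : (q : _root_.Fermat.Agent.A2.Mod.Qb) ∈ P.nonunits := hP
  rw [ValuationSubring.mem_nonunits_iff] at h6
  have h7 : P.valuation ((q : _root_.Fermat.Agent.A2.Mod.Qb)⁻¹) ≤ 1 := (P.valuation_le_one_iff _).mpr h5
  rw [map_inv₀] at h7
  have hq0' : P.valuation (q : _root_.Fermat.Agent.A2.Mod.Qb) ≠ 0 := by
    rw [Valuation.ne_zero_iff]
    exact_mod_cast NeZero.ne q
  have h8 : 1 ≤ P.valuation (q : _root_.Fermat.Agent.A2.Mod.Qb) := (inv_le_one₀ (zero_lt_iff.mpr hq0')).mp h7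
  exact absurd h6 (not_lt.mpr h8)

/-- **Frobenius congruence in `V∞`**: a function whose expansion is `x(t^q) - x(t)^q`,
`x` an integral series, is a non-unit of `V∞`. -/
theorem val_frob_lt_one {N q : ℕ} [NeZero q] [Fact q.Prime] [IsNoetherianRing ↥(_root_.Fermat.Agent.A2.Mod.RE P E)]
    (hP : P.LiesOverPrime q) {V : ValuationSubring (_root_.Fermat.Agent.A2.Mod.FE E N)} (hV : IsVinf P E N V)
    (x : LaurentSeries ℤ) {f : _root_.Fermat.Agent.A2.Mod.FE E N}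
    (hf : (f : LaurentSeries ↥E) = coeffEmb (↥E) (H708.castQ (qExpand ℤ q x - x ^ q))) :
    V.valuation f < 1 := by
  obtain ⟨g, hg⟩ := H528.exists_frobCong q x
  have hq0 : (q : ↥E) ≠ 0 := by exact_mod_cast NeZero.ne q
  have hqF : algebraMap ↥E ↥(_root_.Fermat.Agent.A2.Mod.FE E N) (q : ↥E) ≠ 0 :=
    (map_ne_zero_iff _ (algebraMap ↥E ↥(_root_.Fermat.Agent.A2.Mod.FE E N)).injective).mpr hq0
  have hqS : algebraMap (↥E) (LaurentSeries ↥E) (q : ↥E) ≠ 0 :=
    (map_ne_zero_iff _ (algebraMap (↥E) (LaurentSeries ↥E)).injective).mpr hq0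
  have hf' : (f : LaurentSeries ↥E) =
      algebraMap (↥E) (LaurentSeries ↥E) (q : ↥E) * coeffEmb (↥E) (H708.castQ g) := by
    rw [hf, hg, map_mul, map_mul]
    congr 1
    ext n
    simp [coeffEmb, H708.castQ]
  set g' : ↥(_root_.Fermat.Agent.A2.Mod.FE E N) := (algebraMap ↥E ↥(_root_.Fermat.Agent.A2.Mod.FE E N) (q : ↥E))⁻¹ * f with hg'
  have hcoe : ((g' : ↥(_root_.Fermat.Agent.A2.Mod.FE E N)) : LaurentSeries ↥E) = coeffEmb (↥E) (H708.castQ g) := by
    have h1 : ((g' : ↥(_root_.Fermat.Agent.A2.Mod.FE E N)) : LaurentSeries ↥E) =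
        (algebraMap (↥E) (LaurentSeries ↥E) (q : ↥E))⁻¹ * (f : LaurentSeries ↥E) := by
      rw [hg', IntermediateField.coe_mul, IntermediateField.coe_inv]
      rfl
    rw [h1, hf', ← mul_assoc, inv_mul_cancel₀ hqS, one_mul]
  have hg'V : g' ∈ V := H553.mem_of_int hV hcoe
  have hfeq : f = algebraMap ↥E ↥(_root_.Fermat.Agent.A2.Mod.FE E N) (q : ↥E) * g' := by
    rw [hg', ← mul_assoc, mul_inv_cancel₀ hqF, one_mul]
  rw [hfeq, map_mul]
  calc V.valuation (algebraMap ↥E ↥(_root_.Fermat.Agent.A2.Mod.FE E N) (q : ↥E)) * V.valuation g'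
      ≤ V.valuation (algebraMap ↥E ↥(_root_.Fermat.Agent.A2.Mod.FE E N) (q : ↥E)) * 1 :=
        mul_le_mul' le_rfl ((V.valuation_le_one_iff _).2 hg'V)
    _ = V.valuation (algebraMap ↥E ↥(_root_.Fermat.Agent.A2.Mod.FE E N) (q : ↥E)) := mul_one _
    _ < 1 := val_natCast_lt_one hP hV

end Frob

section Kron

variable {P : ValuationSubring _root_.Fermat.Agent.A2.Mod.Qb} {E : IntermediateField ℚ _root_.Fermat.Agent.A2.Mod.Qb} {M q : ℕ} [NeZero M] [NeZero q]
  [NeZero (M * q)]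

/-- `j_q ≡ j^q` modulo `𝔪_{V∞}` -/
theorem val_frobInf [Fact q.Prime] [IsNoetherianRing ↥(_root_.Fermat.Agent.A2.Mod.RE P E)] (hP : P.LiesOverPrime q)
    {V : ValuationSubring (_root_.Fermat.Agent.A2.Mod.FE E (M * q))} (hV : IsVinf P E (M * q) V) :
    V.valuation (jE E (M * q) q (dvd_mul_left q M) - jE E (M * q) 1 (one_dvd _) ^ q) < 1 := by
  refine val_frob_lt_one hP hV (H708.jInt 1) ?_
  rw [← H553.jInt_eq_qExpand q]
  exact H553.coe_frobE E M q

/-- `j_{Mq} ≡ j_M^q` modulo `𝔪_{V∞}` -/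
theorem val_frobZero [Fact q.Prime] [IsNoetherianRing ↥(_root_.Fermat.Agent.A2.Mod.RE P E)] (hP : P.LiesOverPrime q)
    {V : ValuationSubring (_root_.Fermat.Agent.A2.Mod.FE E (M * q))} (hV : IsVinf P E (M * q) V) :
    V.valuation (jE E (M * q) (M * q) dvd_rfl - jE E (M * q) M (dvd_mul_right M q) ^ q) < 1 := by
  refine val_frob_lt_one hP hV (H708.jInt M) ?_
  have h1 : qExpand ℤ q (H708.jInt M) = H708.jInt (M * q) := by
    rw [H553.jInt_eq_qExpand M, qExpand_qExpand, H553.jInt_eq_qExpand (M * q)]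
    exact qExpand_congr (mul_comm q M) _
  rw [h1, map_sub, map_sub, map_pow, map_pow, ← H553.coe_jE (E := E) (M * q) (M * q) dvd_rfl,
    ← H553.coe_jE (E := E) (M * q) M (dvd_mul_right M q)]
  rfl

theorem βE_jE_one :
    βE E M q (jE E M 1 (one_dvd _)) = jE E (M * q) q (dvd_mul_left q M) := by
  apply Subtype.ext
  show qExpand (↥E) q (coeffEmb (↥E) (qExpand ℚ 1 jq)) = coeffEmb (↥E) (qExpand ℚ q jq)
  rw [qExpand_one_apply, coeffEmb, ← coeffMap_qExpand]

theorem αE_jE_one :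
    αE E M q (jE E M 1 (one_dvd _)) = jE E (M * q) 1 (one_dvd _) :=
  Subtype.ext rfl

/-- units `a ≡ b` have `a⁻¹ ≡ b⁻¹` -/
theorem val_inv_sub_inv_lt_one {F : Type*} [Field F] (V : ValuationSubring F) {a b : F}
    (ha : a⁻¹ ∈ V) (hb : b⁻¹ ∈ V) (ha0 : a ≠ 0) (hb0 : b ≠ 0)
    (h : V.valuation (a - b) < 1) : V.valuation (a⁻¹ - b⁻¹) < 1 := by
  have h1 : a⁻¹ - b⁻¹ = -((a - b) * (a⁻¹ * b⁻¹)) := by
    field_simp
    ring
  rw [h1, Valuation.map_neg, map_mul]
  calc V.valuation (a - b) * V.valuation (a⁻¹ * b⁻¹)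
      ≤ V.valuation (a - b) * 1 :=
        mul_le_mul' le_rfl ((V.valuation_le_one_iff _).2 (V.mul_mem _ _ ha hb))
    _ = V.valuation (a - b) := mul_one _
    _ < 1 := h

theorem val_mul_lt_one {F : Type*} [Field F] (V : ValuationSubring F) {a b : F}
    (ha : a ∈ V) (h : V.valuation b < 1) : V.valuation (a * b) < 1 := by
  rw [map_mul]
  calc V.valuation a * V.valuation b ≤ 1 * V.valuation b :=
        mul_le_mul' ((V.valuation_le_one_iff _).2 ha) le_rfl
    _ = V.valuation b := one_mul _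
    _ < 1 := h

end Kron

section Core

variable {P : ValuationSubring _root_.Fermat.Agent.A2.Mod.Qb} {E : IntermediateField ℚ _root_.Fermat.Agent.A2.Mod.Qb} {M q : ℕ} [NeZero M] [NeZero q]
  {w : _root_.Fermat.Agent.A2.Mod.RE P E}

/-- chart membership in `IsIntegral` form -/
theorem isIntegral_of_mem_chart {N : ℕ} {y b : _root_.Fermat.Agent.A2.Mod.FE E N} (hb : b ∈ chart P E N y) :
    IsIntegral (Algebra.adjoin (_root_.Fermat.Agent.A2.Mod.RE P E) ({y} : Set (_root_.Fermat.Agent.A2.Mod.FE E N))) b := by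
  obtain ⟨p, hp, hpb⟩ := hb
  refine isIntegral_adjoin_of_eval₂_self p hp ?_
  have h : (Polynomial.aeval (R := _root_.Fermat.Agent.A2.Mod.RE P E) y).toRingHom =
      Polynomial.eval₂RingHom ((algebraMap E (_root_.Fermat.Agent.A2.Mod.FE E N)).comp (_root_.Fermat.Agent.A2.Mod.RE P E).subtype) y := by
    apply Polynomial.ringHom_ext
    · intro r
      simp
      rfl
    · simp
  rw [h]
  exact hpb

theorem mem_chartAlg_of_mem_chart {N : ℕ} {y b : _root_.Fermat.Agent.A2.Mod.FE E N} (hb : b ∈ chart P E N y) :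
    b ∈ chartAlg P E N y :=
  isIntegral_of_mem_chart hb

/-- the image of `R_E[y]` lies in the chart -/
theorem aeval_mem_chart {N : ℕ} (y : _root_.Fermat.Agent.A2.Mod.FE E N) (a : Polynomial (_root_.Fermat.Agent.A2.Mod.RE P E)) :
    Polynomial.aeval (R := _root_.Fermat.Agent.A2.Mod.RE P E) y a ∈ chart P E N y := by
  refine ⟨Polynomial.X - Polynomial.C a, Polynomial.monic_X_sub_C a, ?_⟩
  rw [Polynomial.eval₂_sub, Polynomial.eval₂_X, Polynomial.eval₂_C, sub_eq_zero]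
  rfl

/-- **S2 for one component**, from the data of that component. -/
theorem normal_of_data
    {VM : ValuationSubring (_root_.Fermat.Agent.A2.Mod.FE E M)} {V' : ValuationSubring (_root_.Fermat.Agent.A2.Mod.FE E (M * q))}
    (hUM : H48.IsUnif VM (cE P E M w)) (hU' : H48.IsUnif V' (cE P E (M * q) w))
    (hRVM : ∀ e : E, e ∈ _root_.Fermat.Agent.A2.Mod.RE P E → algebraMap E (_root_.Fermat.Agent.A2.Mod.FE E M) e ∈ VM)
    (hRV' : ∀ e : E, e ∈ _root_.Fermat.Agent.A2.Mod.RE P E → algebraMap E (_root_.Fermat.Agent.A2.Mod.FE E (M * q)) e ∈ V')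
    (φ : _root_.Fermat.Agent.A2.Mod.FE E M →ₐ[E] _root_.Fermat.Agent.A2.Mod.FE E (M * q))
    (hφV : ∀ g ∈ VM, φ g ∈ V')
    (hres : ∀ f ∈ V', ∃ g ∈ VM, V'.valuation (f - φ g) < 1)
    (yM : _root_.Fermat.Agent.A2.Mod.FE E M) (y : _root_.Fermat.Agent.A2.Mod.FE E (M * q))
    (hyM : yM ∈ VM) (hyV : y ∈ V')
    (hkron : V'.valuation (y - φ yM ^ (q + 1)) < 1)
    (hφy : φ yM ∈ chartAlg P E (M * q) y)
    (hgood : GoodRedAt P E M w VM yM)
    (p : Ideal (chartAlg P E (M * q) y))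
    (hp : IsCut P E (M * q) w V' (chartAlg P E (M * q) y) p) :
    IsIntegrallyClosed (chartAlg P E (M * q) y ⧸ p) := by
  refine isIntegrallyClosed_quotient_of_residue (R := _root_.Fermat.Agent.A2.Mod.RE P E) VM V'
    (φ.restrictScalars (_root_.Fermat.Agent.A2.Mod.RE P E)) yM y (q + 1) (chartAlg P E (M * q) y) (fun f => Iff.rfl) p
    (fun b => (hp b).trans (inW_iff_val hU')) (fun r => hRVM r.1 r.2) hyM
    (fun r => hRV' r.1 r.2) hyV hφV ?_ hkron hres ?_
  · -- `φ` maps non-units to non-units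
    intro g hg
    have h1 : g * (cE P E M w)⁻¹ ∈ VM := hUM.mul_inv_mem_iff.2 hg
    have h2 := hφV _ h1
    rw [map_mul, map_inv₀] at h2
    have h3 : φ (cE P E M w) = cE P E (M * q) w := φ.commutes _
    rw [h3] at h2
    exact hU'.mul_inv_mem_iff.1 h2
  · -- level-`M` normality
    intro g hg Q hQ hz
    have hsum := monic_eval₂_eq_sum (Polynomial.aeval (R := _root_.Fermat.Agent.A2.Mod.RE P E) yM).toRingHom Q hQ g
    rw [hsum] at hz
    obtain ⟨b, hb, hbW⟩ := hgood.normal g hg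
      ⟨Q.natDegree, fun i => Polynomial.aeval (R := _root_.Fermat.Agent.A2.Mod.RE P E) yM (Q.coeff i),
        fun i => aeval_mem_chart yM _, (inW_iff_val hUM).2 hz⟩
    refine ⟨b, ?_, (inW_iff_val hUM).1 hbW⟩
    obtain ⟨p', hp', hpb⟩ := hb
    refine isIntegral_adjoin_of_eval₂ (R := _root_.Fermat.Agent.A2.Mod.RE P E) (y := y) (z := φ yM) hφy p' hp' ?_
    have h1 : (φ : _root_.Fermat.Agent.A2.Mod.FE E M →+* _root_.Fermat.Agent.A2.Mod.FE E (M * q))
        (Polynomial.eval₂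
          (Polynomial.eval₂RingHom ((algebraMap E (_root_.Fermat.Agent.A2.Mod.FE E M)).comp (_root_.Fermat.Agent.A2.Mod.RE P E).subtype) yM) b p') = 0 := by
      rw [hpb, map_zero]
    rw [Polynomial.hom_eval₂] at h1
    have h2 : (φ : _root_.Fermat.Agent.A2.Mod.FE E M →+* _root_.Fermat.Agent.A2.Mod.FE E (M * q)).comp
        (Polynomial.eval₂RingHom ((algebraMap E (_root_.Fermat.Agent.A2.Mod.FE E M)).comp (_root_.Fermat.Agent.A2.Mod.RE P E).subtype) yM) =
        (Polynomial.aeval (R := _root_.Fermat.Agent.A2.Mod.RE P E) (φ yM)).toRingHom := by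
      apply Polynomial.ringHom_ext
      · intro r
        simp
        rfl
      · simp
    rw [← h2]
    exact h1

end Core

section Final

variable (P : ValuationSubring _root_.Fermat.Agent.A2.Mod.Qb) (E : IntermediateField ℚ _root_.Fermat.Agent.A2.Mod.Qb) (M q : ℕ) [NeZero M] [NeZero q]
  (w : _root_.Fermat.Agent.A2.Mod.RE P E)

/-- **MODASM S2 (components normal)** from L11 (`ResInf`); all other inputs are on main. -/
theorem s2_of_resInf (hL11 : ResInfStatement P E M q w) : S2Statement P E M q w := by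
  intro hS VM V W hVM hV hW yM y hy hgood p₁ p₂ hp₁ hp₂
  haveI : NeZero (M * q) := ⟨mul_ne_zero (NeZero.ne M) (NeZero.ne q)⟩
  haveI : Fact q.Prime := ⟨hS.q_prime⟩
  haveI := hS.dvr
  have hN0 : M * q ≠ 0 := NeZero.ne _
  obtain ⟨hUM, hEM, hjM⟩ := H553.vinfBasic P E w M hS.M_ne_zero hS.dvr hS.unif VM hVM
  obtain ⟨hU, hEV, hjV⟩ := H553.vinfBasic P E w (M * q) hN0 hS.dvr hS.unif V hV
  obtain ⟨WM, hWM⟩ := H553.frickeExists E M hS.M_ne_zero
  have hL5 := H553.frickeCompat E M q WM W hWM hW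
  have hL7 := H900.frickeStable P E M q w hS VM WM hVM hWM
  obtain ⟨hc1, hc2, hc3, hc4⟩ := H873.chartCompat P E M q hS.q_prime
  have hWc : (W : _root_.Fermat.Agent.A2.Mod.FE E (M * q) →+* _root_.Fermat.Agent.A2.Mod.FE E (M * q)) (cE P E (M * q) w) = cE P E (M * q) w :=
    W.commutes _
  have hU₀ : H48.IsUnif (V.comap (W : _root_.Fermat.Agent.A2.Mod.FE E (M * q) →+* _root_.Fermat.Agent.A2.Mod.FE E (M * q))) (cE P E (M * q) w) :=
    isUnif_comap hU _ hWc
  -- generators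
  set j1 : _root_.Fermat.Agent.A2.Mod.FE E (M * q) := jE E (M * q) 1 (one_dvd _) with hj1
  set jq : _root_.Fermat.Agent.A2.Mod.FE E (M * q) := jE E (M * q) q (dvd_mul_left q M) with hjq
  set jM : _root_.Fermat.Agent.A2.Mod.FE E (M * q) := jE E (M * q) M (dvd_mul_right M q) with hjMdef
  set jN : _root_.Fermat.Agent.A2.Mod.FE E (M * q) := jE E (M * q) (M * q) dvd_rfl with hjN
  have hx : xE E M q = j1 * jq := rfl
  have hWj1 : W j1 = jN := hW.1 1 (M * q) (one_dvd _) dvd_rfl (one_mul _)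
  have hWjq : W jq = jM := hW.1 q M (dvd_mul_left q M) (dvd_mul_right M q) (mul_comm q M)
  have hj1ne : j1 ≠ 0 := H873.jE_ne_zero E (M * q) 1 (one_dvd _)
  have hjqne : jq ≠ 0 := H873.jE_ne_zero E (M * q) q (dvd_mul_left q M)
  have hjMne : jM ≠ 0 := H873.jE_ne_zero E (M * q) M (dvd_mul_right M q)
  have hjNne : jN ≠ 0 := H873.jE_ne_zero E (M * q) (M * q) dvd_rfl
  have hαj : αE E M q (jE E M 1 (one_dvd _)) = j1 := αE_jE_one
  have hβj : βE E M q (jE E M 1 (one_dvd _)) = jq := βE_jE_one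
  -- Kronecker congruences for the generators
  have hk1 : V.valuation (j1 * jq - j1 ^ (q + 1)) < 1 := by
    have : j1 * jq - j1 ^ (q + 1) = j1 * (jq - j1 ^ q) := by ring
    rw [this]
    exact val_mul_lt_one V (hjV 1 (one_dvd _)).1 (val_frobInf hS.lies_over hV)
  have hk2 : V.valuation (jN * jM - jM ^ (q + 1)) < 1 := by
    have : jN * jM - jM ^ (q + 1) = jM * (jN - jM ^ q) := by ring
    rw [this]
    exact val_mul_lt_one V (hjV M (dvd_mul_right M q)).1 (val_frobZero hS.lies_over hV)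
  -- common data
  have hRVM : ∀ e : E, e ∈ _root_.Fermat.Agent.A2.Mod.RE P E → algebraMap E (_root_.Fermat.Agent.A2.Mod.FE E M) e ∈ VM := fun e he => (hEM e).2 he
  have hRV : ∀ e : E, e ∈ _root_.Fermat.Agent.A2.Mod.RE P E → algebraMap E (_root_.Fermat.Agent.A2.Mod.FE E (M * q)) e ∈ V := fun e he => (hEV e).2 he
  have hRV₀ : ∀ e : E, e ∈ _root_.Fermat.Agent.A2.Mod.RE P E → algebraMap E (_root_.Fermat.Agent.A2.Mod.FE E (M * q)) e ∈
      V.comap (W : _root_.Fermat.Agent.A2.Mod.FE E (M * q) →+* _root_.Fermat.Agent.A2.Mod.FE E (M * q)) := by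
    intro e he
    rw [ValuationSubring.mem_comap]
    have : (W : _root_.Fermat.Agent.A2.Mod.FE E (M * q) →+* _root_.Fermat.Agent.A2.Mod.FE E (M * q)) (algebraMap E (_root_.Fermat.Agent.A2.Mod.FE E (M * q)) e) =
        algebraMap E (_root_.Fermat.Agent.A2.Mod.FE E (M * q)) e := W.commutes e
    rw [this]
    exact hRV e he
  have hαV : ∀ g ∈ VM, αE E M q g ∈ V := fun g hg => alpha_mem hVM hV hg
  have hβV : ∀ g ∈ VM, βE E M q g ∈ V.comap (W : _root_.Fermat.Agent.A2.Mod.FE E (M * q) →+* _root_.Fermat.Agent.A2.Mod.FE E (M * q)) := by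
    intro g hg
    rw [ValuationSubring.mem_comap]
    have : (W : _root_.Fermat.Agent.A2.Mod.FE E (M * q) →+* _root_.Fermat.Agent.A2.Mod.FE E (M * q)) (βE E M q g) = αE E M q (WM g) := (hL5 g).2
    rw [this]
    exact hαV _ (hL7 g hg)
  have hresα : ∀ f ∈ V, ∃ g ∈ VM, V.valuation (f - αE E M q g) < 1 := by
    intro f hf
    obtain ⟨g, hg, h⟩ := hL11 hS VM V hVM hV f hf
    exact ⟨g, hg, (inW_iff_val hU).1 h⟩
  have hresβ : ∀ f ∈ V.comap (W : _root_.Fermat.Agent.A2.Mod.FE E (M * q) →+* _root_.Fermat.Agent.A2.Mod.FE E (M * q)), ∃ g ∈ VM,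
      (V.comap (W : _root_.Fermat.Agent.A2.Mod.FE E (M * q) →+* _root_.Fermat.Agent.A2.Mod.FE E (M * q))).valuation (f - βE E M q g) < 1 := by
    intro f hf
    rw [ValuationSubring.mem_comap] at hf
    obtain ⟨g, hg, h⟩ := hresα _ hf
    refine ⟨WM g, hL7 g hg, ?_⟩
    rw [val_comap_lt_one_iff hU _ hWc, map_sub]
    have h1 : (W : _root_.Fermat.Agent.A2.Mod.FE E (M * q) →+* _root_.Fermat.Agent.A2.Mod.FE E (M * q)) (βE E M q (WM g)) = αE E M q g := by
      have := (hL5 (WM g)).2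
      rw [hWM.2 g] at this
      exact this
    rw [h1]
    exact h
  rcases hy with ⟨rfl, rfl⟩ | ⟨rfl, rfl⟩
  · -- the finite chart
    refine ⟨?_, ?_⟩
    · refine normal_of_data hUM hU hRVM hRV (αE E M q) hαV hresα _ _
        (hjM 1 (one_dvd _)).1 ?_ ?_ ?_ hgood p₁ hp₁
      · rw [hx]
        exact V.mul_mem _ _ (hjV 1 (one_dvd _)).1 (hjV q (dvd_mul_left q M)).1
      · rw [hαj, hx]
        exact hk1
      · rw [hαj]
        exact mem_chartAlg_of_mem_chart hc1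
    · refine normal_of_data hUM hU₀ hRVM hRV₀ (βE E M q) hβV hresβ _ _
        (hjM 1 (one_dvd _)).1 ?_ ?_ ?_ hgood p₂ hp₂
      · rw [ValuationSubring.mem_comap, hx, map_mul]
        have e1 : (W : _root_.Fermat.Agent.A2.Mod.FE E (M * q) →+* _root_.Fermat.Agent.A2.Mod.FE E (M * q)) j1 = jN := hWj1
        have e2 : (W : _root_.Fermat.Agent.A2.Mod.FE E (M * q) →+* _root_.Fermat.Agent.A2.Mod.FE E (M * q)) jq = jM := hWjq
        rw [e1, e2]
        exact V.mul_mem _ _ (hjV (M * q) dvd_rfl).1 (hjV M (dvd_mul_right M q)).1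
      · rw [val_comap_lt_one_iff hU _ hWc, hβj, hx, map_sub, map_mul, map_pow]
        have e1 : (W : _root_.Fermat.Agent.A2.Mod.FE E (M * q) →+* _root_.Fermat.Agent.A2.Mod.FE E (M * q)) j1 = jN := hWj1
        have e2 : (W : _root_.Fermat.Agent.A2.Mod.FE E (M * q) →+* _root_.Fermat.Agent.A2.Mod.FE E (M * q)) jq = jM := hWjq
        rw [e1, e2]
        exact hk2
      · rw [hβj]
        exact mem_chartAlg_of_mem_chart hc2
  · -- the chart at infinity
    have hxne : xE E M q ≠ 0 := by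
      rw [hx]
      exact mul_ne_zero hj1ne hjqne
    refine ⟨?_, ?_⟩
    · refine normal_of_data hUM hU hRVM hRV (αE E M q) hαV hresα _ _
        (hjM 1 (one_dvd _)).2 ?_ ?_ ?_ hgood p₁ hp₁
      · rw [hx, mul_inv]
        exact V.mul_mem _ _ (hjV 1 (one_dvd _)).2 (hjV q (dvd_mul_left q M)).2
      · rw [map_inv₀, hαj, inv_pow, hx]
        refine val_inv_sub_inv_lt_one V ?_ ?_ (mul_ne_zero hj1ne hjqne)
          (pow_ne_zero _ hj1ne) hk1
        · rw [mul_inv]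
          exact V.mul_mem _ _ (hjV 1 (one_dvd _)).2 (hjV q (dvd_mul_left q M)).2
        · rw [← inv_pow]
          exact V.pow_mem (hjV 1 (one_dvd _)).2 _
      · rw [map_inv₀, hαj]
        exact mem_chartAlg_of_mem_chart hc3
    · refine normal_of_data hUM hU₀ hRVM hRV₀ (βE E M q) hβV hresβ _ _
        (hjM 1 (one_dvd _)).2 ?_ ?_ ?_ hgood p₂ hp₂
      · rw [ValuationSubring.mem_comap, hx, map_inv₀, map_mul, mul_inv]
        have e1 : (W : _root_.Fermat.Agent.A2.Mod.FE E (M * q) →+* _root_.Fermat.Agent.A2.Mod.FE E (M * q)) j1 = jN := hWj1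
        have e2 : (W : _root_.Fermat.Agent.A2.Mod.FE E (M * q) →+* _root_.Fermat.Agent.A2.Mod.FE E (M * q)) jq = jM := hWjq
        rw [e1, e2]
        exact V.mul_mem _ _ (hjV (M * q) dvd_rfl).2 (hjV M (dvd_mul_right M q)).2
      · rw [val_comap_lt_one_iff hU _ hWc, map_inv₀, hβj, inv_pow, hx, map_sub, map_inv₀,
          map_inv₀, map_mul, map_pow]
        have e1 : (W : _root_.Fermat.Agent.A2.Mod.FE E (M * q) →+* _root_.Fermat.Agent.A2.Mod.FE E (M * q)) j1 = jN := hWj1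
        have e2 : (W : _root_.Fermat.Agent.A2.Mod.FE E (M * q) →+* _root_.Fermat.Agent.A2.Mod.FE E (M * q)) jq = jM := hWjq
        rw [e1, e2]
        refine val_inv_sub_inv_lt_one V ?_ ?_ (mul_ne_zero hjNne hjMne)
          (pow_ne_zero _ hjMne) hk2
        · rw [mul_inv]
          exact V.mul_mem _ _ (hjV (M * q) dvd_rfl).2 (hjV M (dvd_mul_right M q)).2
        · rw [← inv_pow]
          exact V.pow_mem (hjV M (dvd_mul_right M q)).2 _
      · rw [map_inv₀, hβj]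
        exact mem_chartAlg_of_mem_chart hc4

end Final

end Fermat.Agent.A2.Mod.H994

end

end
-- ===== PACK-END A2/Mod/H994/S2.lean

-- ===== PACK-BEGIN S35/G/H60/NormRed.lean
section






/-!
# S35 (G') / TORIC / NORM-RED (helper60): norm reduction along `α`

`normRedAsm : NotPowStatement A E M q w → NormRedStatement A E M q w`.

`K = F_M`, `F = F_{Mq}` (algebra along `α`), `O = V∞_M`, `V₁ = V∞`, `V₂ = V₀ = V∞ ∘ W`;
`[F : K] = q + 1` (`S37.H818.finrankAlong_heckeAlphaBar`), `z = j_q`, `c = j`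
(`j_q ^ q ≡ j` at `V₀`: `A2.Mod.H994.val_frobZero` after `W`), abstract theorem `norm_red_abs`.
-/

set_option autoImplicit false
set_option linter.style.haveILetI false
set_option linter.unusedSectionVars false
set_option synthInstance.maxHeartbeats 400000
set_option maxHeartbeats 1600000

noncomputable section

namespace Fermat.Agent.S35.G.H60

open ModularCurve AlgebraicCurve HahnSeries
open Fermat.Agent.A2.Mod Fermat.Agent.S35.H253

section Generic

variable {K F : Type*} [Field K] [Field F] [Algebra K F]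

/-- `V` lies over `O` as soon as `O` maps into `V` and the maximal ideal into the maximal ideal. -/
theorem over_of_map {O : ValuationSubring K} {V : ValuationSubring F}
    (hmem : ∀ a ∈ O, algebraMap K F a ∈ V)
    (hsmall : ∀ a : K, O.valuation a < 1 → V.valuation (algebraMap K F a) < 1) : Over O V := by
  intro a
  refine ⟨fun ha => ?_, hmem a⟩
  by_contra hcon
  have h1 : 1 < O.valuation a := by
    rw [← not_le, O.valuation_le_one_iff]
    exact hcon
  have ha0 : a ≠ 0 := by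
    rintro rfl
    rw [map_zero] at h1
    exact not_lt.2 zero_le_one h1
  have h2 : O.valuation a⁻¹ < 1 := by
    rw [map_inv₀]
    exact inv_lt_one_of_one_lt₀ h1
  have h3 := hsmall _ h2
  rw [map_inv₀, map_inv₀] at h3
  have h4 : V.valuation (algebraMap K F a) ≤ 1 := (V.valuation_le_one_iff _).2 ha
  have h5 : 0 < V.valuation (algebraMap K F a) := by
    rw [Valuation.pos_iff]
    exact (map_ne_zero _).2 ha0
  have h6 : 1 < V.valuation (algebraMap K F a) := (inv_lt_one₀ h5).1 h3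
  exact absurd h4 (not_le.2 h6)

end Generic

section Series

theorem coeffMap_qExpand_h60 {R S : Type*} [CommRing R] [CommRing S] (f : R →+* S) (n : ℕ)
    [NeZero n] (x : LaurentSeries R) : coeffMap f (qExpand R n x) = qExpand S n (coeffMap f x) := by
  ext k
  by_cases hk : (n : ℤ) ∣ k
  · obtain ⟨m, rfl⟩ := hk
    rw [coeffMap_coeff, qExpand_coeff_mul, qExpand_coeff_mul, coeffMap_coeff]
  · rw [coeffMap_coeff, qExpand_coeff_of_not_dvd n _ hk, qExpand_coeff_of_not_dvd n _ hk,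
      map_zero]

end Series

section Concrete

variable {A : ValuationSubring _root_.Fermat.Agent.S35.G.Qb} {E : IntermediateField ℚ _root_.Fermat.Agent.S35.G.Qb} {M q : ℕ} [NeZero M] [NeZero q]
  {w : RE A E}

/-- `β` maps `V∞` of level `M` into `V∞` of level `M q`. -/
theorem beta_mem_h60 {VM : ValuationSubring (FE E M)} {V : ValuationSubring (FE E (M * q))}
    (hVM : IsVinf A E M VM) (hV : IsVinf A E (M * q) V) {g : FE E M} (hg : g ∈ VM) :
    βE E M q g ∈ V := by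
  rw [hV, coe_heckeBetaBar]
  obtain ⟨U₁, U₂, hred, hmem, heq⟩ := (hVM g).1 hg
  refine ⟨qExpand _ q U₁, qExpand _ q U₂, ?_, ?_, ?_⟩
  · have e : A2.H708.red (RE A E) (qExpand _ q U₂) = qExpand _ q (A2.H708.red (RE A E) U₂) :=
      coeffMap_qExpand_h60 _ q U₂
    rw [e]
    exact fun h => hred (qExpand_injective q (h.trans (map_zero _).symm))
  · have h1 := (βE E M q ⟨_, hmem⟩).2
    rw [coe_heckeBetaBar] at h1
    have e : A2.H708.incl (RE A E) (qExpand _ q U₂) = qExpand _ q (A2.H708.incl (RE A E) U₂) :=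
      coeffMap_qExpand_h60 _ q U₂
    rw [e]
    exact h1
  · have e₁ : A2.H708.incl (RE A E) (qExpand _ q U₁) = qExpand _ q (A2.H708.incl (RE A E) U₁) :=
      coeffMap_qExpand_h60 _ q U₁
    have e₂ : A2.H708.incl (RE A E) (qExpand _ q U₂) = qExpand _ q (A2.H708.incl (RE A E) U₂) :=
      coeffMap_qExpand_h60 _ q U₂
    rw [e₁, e₂, ← map_mul, heq]

/-- `α` maps `V∞` of level `M` into `V₀ = V∞ ∘ W`. -/
theorem fricke_alpha_mem_h60 (hS : Setting A E M q w) {VM : ValuationSubring (FE E M)}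
    {V : ValuationSubring (FE E (M * q))} {W : FE E (M * q) ≃ₐ[E] FE E (M * q)}
    (hVM : IsVinf A E M VM) (hV : IsVinf A E (M * q) V) (hW : IsFricke E (M * q) W)
    {g : FE E M} (hg : g ∈ VM) : W (αE E M q g) ∈ V := by
  obtain ⟨WM, hWM⟩ := H553.frickeExists E M (NeZero.ne M)
  rw [(H553.frickeCompat E M q WM W hWM hW g).1]
  exact beta_mem_h60 hVM hV (H900.frickeStable A E M q w hS VM WM hVM hWM g hg)

theorem normRedAsm (A : ValuationSubring _root_.Fermat.Agent.S35.G.Qb) (E : IntermediateField ℚ _root_.Fermat.Agent.S35.G.Qb) (M q : ℕ) [NeZero M]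
    [NeZero q] (w : RE A E) : NormRedAsmStatement A E M q w := by
  intro hNP hS VM V W hVM hV hW y hy hWy U hU T hT h1 h2
  haveI := hS.dvr
  have hq := hS.q_prime
  haveI : Fact q.Prime := ⟨hq⟩
  have hN0 : M * q ≠ 0 := Nat.mul_ne_zero (NeZero.ne M) (NeZero.ne q)
  have hL2 := H553.vinfBasic A E w (M * q) hN0 hS.dvr hS.unif V hV
  have hL2M := H553.vinfBasic A E w M (NeZero.ne M) hS.dvr hS.unif VM hVM
  have hWc : (W : FE E (M * q) →+* FE E (M * q)) (cE A E (M * q) w) = cE A E (M * q) w :=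
    W.commutes _
  have hU0 : A2.H48.IsUnif (V.comap (W : FE E (M * q) →+* FE E (M * q))) (cE A E (M * q) w) :=
    H994.isUnif_comap hL2.1 _ hWc
  letI : Algebra (FE E M) (FE E (M * q)) := algebraAlong (αE E M q)
  -- the two extensions
  have hO₁ : Over VM V := fun a => H378.alpha_mem_iff hS hVM hV a
  have hO₂ : Over VM (V.comap (W : FE E (M * q) →+* FE E (M * q))) := by
    refine over_of_map (fun a ha => fricke_alpha_mem_h60 hS hVM hV hW ha) (fun a ha => ?_)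
    rw [H994.val_comap_lt_one_iff hL2.1 _ hWc]
    have ha' : InW A E M VM w a := (H994.inW_iff_val hL2M.1).2 ha
    have hcw : cE A E M w ≠ 0 := H378.cE_ne_zero hS M
    have e : a = cE A E M w * (a * (cE A E M w)⁻¹) := by
      field_simp
    have e2 : (W : FE E (M * q) →+* FE E (M * q)) (algebraMap (FE E M) (FE E (M * q)) a) =
        cE A E (M * q) w * W (αE E M q (a * (cE A E M w)⁻¹)) := by
      conv_lhs => rw [e]
      show W (αE E M q (cE A E M w * (a * (cE A E M w)⁻¹))) = _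
      rw [map_mul, map_mul, H378.alpha_cE]
      congr 1
    rw [e2, mul_comm (cE A E (M * q) w)]
    exact H994.val_mul_lt_one V (fricke_alpha_mem_h60 hS hVM hV hW ha') hL2.1.val_lt_one
  have hne : V.comap (W : FE E (M * q) →+* FE E (M * q)) ≠ V :=
    H553.vzeroNe A E M q w hS V W hV hW
  have hne₁ : ¬ V ≤ V.comap (W : FE E (M * q) →+* FE E (M * q)) :=
    A2.H48.not_le_of_ne hL2.1 hU0 (Ne.symm hne)
  have hne₂ : ¬ V.comap (W : FE E (M * q) →+* FE E (M * q)) ≤ V :=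
    A2.H48.not_le_of_ne hU0 hL2.1 hne
  have hdeg : Module.finrank (FE E M) (FE E (M * q)) = q + 1 :=
    S37.H818.finrankAlong_heckeAlphaBar (L := E) M q hq hS.q_not_dvd
  have hqO : VM.valuation ((q : ℕ) : FE E M) < 1 := by
    have h := H994.val_natCast_lt_one (N := M) (q := q) hS.lies_over hVM
    rwa [map_natCast] at h
  -- the element `z = j_q` and `c = j`
  have hz : jE E (M * q) q (dvd_mul_left q M) ∈
      V.comap (W : FE E (M * q) →+* FE E (M * q)) := by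
    rw [ValuationSubring.mem_comap]
    show W (jE E (M * q) q (dvd_mul_left q M)) ∈ V
    rw [hW.1 q M (dvd_mul_left q M) (dvd_mul_right M q) (mul_comm q M)]
    exact (hL2.2.2 M (dvd_mul_right M q)).1
  have hc : jE E M 1 (one_dvd _) ∈ VM := (hL2M.2.2 1 (one_dvd _)).1
  have hzc : (V.comap (W : FE E (M * q) →+* FE E (M * q))).valuation
      (jE E (M * q) q (dvd_mul_left q M) ^ q -
        algebraMap (FE E M) (FE E (M * q)) (jE E M 1 (one_dvd _))) < 1 := by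
    rw [H994.val_comap_lt_one_iff hL2.1 _ hWc]
    have e : (W : FE E (M * q) →+* FE E (M * q))
        (jE E (M * q) q (dvd_mul_left q M) ^ q -
          algebraMap (FE E M) (FE E (M * q)) (jE E M 1 (one_dvd _))) =
        jE E (M * q) M (dvd_mul_right M q) ^ q - jE E (M * q) (M * q) dvd_rfl := by
      show W (jE E (M * q) q (dvd_mul_left q M) ^ q - αE E M q (jE E M 1 (one_dvd _))) = _
      rw [map_sub, map_pow, hW.1 q M (dvd_mul_left q M) (dvd_mul_right M q) (mul_comm q M),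
        H994.αE_jE_one, hW.1 1 (M * q) (one_dvd _) dvd_rfl (one_mul _)]
    rw [e, Valuation.map_sub_swap]
    exact H994.val_frobZero hS.lies_over hV
  have hnp : ∀ a ∈ VM, ¬ VM.valuation (a ^ q - jE E M 1 (one_dvd _)) < 1 := fun a ha h =>
    hNP hS VM hVM a ha ((H994.inW_iff_val hL2M.1).2 h)
  have hyU : V.valuation (y - algebraMap (FE E M) (FE E (M * q)) U) < 1 :=
    (H994.inW_iff_val hL2.1).1 h1
  have hyT : (V.comap (W : FE E (M * q) →+* FE E (M * q))).valuation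
      (y ^ q - algebraMap (FE E M) (FE E (M * q)) T) < 1 :=
    (H994.inW_iff_val hU0).1 h2
  obtain ⟨-, hN⟩ := norm_red_abs q hq hdeg hO₁ hO₂ hne₁ hne₂ hqO hz hc hzc hnp hy
    (show y ∈ V.comap (W : FE E (M * q) →+* FE E (M * q)) from hWy) hU hT hyU hyT
  exact (H994.inW_iff_val hL2M.1).2 hN

end Concrete

end Fermat.Agent.S35.G.H60

end

end
-- ===== PACK-END S35/G/H60/NormRed.lean

-- ===== PACK-BEGIN Lib/Newform/H958/X/Final.lean
section









/-!
# NEWFORM block X — unconditional results (consumer API, part 2)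

Cross-level strong multiplicity one for Prelude-newforms of weight 2 on `Γ₀(N)`, proved with the
functional equation of the Hecke `L`-function (Mathlib) and the strict trivial bound.

* `crossLevelSq` : a newform of level `N` and a normalized eigenform of level `N'` with the
  same `a_ℓ` outside a finite set of primes satisfy `q² ∣ N → q² ∣ N'`  (input of S36);
* `crossLevel` : under the same hypotheses `N ∣ N'`;
* `strongMultOne` : two newforms with the same `a_ℓ` outside a finite set of primes have the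
  same level and the same `q`-expansion;
* `localIdentity` : the local identity between Euler polynomials at every prime.

Leaves: helper16 (Fricke), helper683 (depletion, independence, `EigenT`), helper803
(same-level multiplicity one), helper863 (local case analysis), helper263 (strict bound),
helper958 (functional equation, Dirichlet series, global identity, assembly).
-/

set_option autoImplicit false

open CongruenceSubgroup

namespace Fermat.Agent.Lib.Newform.H958.X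

theorem localIdentity : LocalIdentity :=
  localIdentity_of Fermat.Agent.Lib.Newform.H683.indepLocal dirichletSeries
    Fermat.Agent.Lib.Newform.H683.deplete Fermat.Agent.Lib.Newform.H16.frickeOp
    Fermat.Agent.Lib.Newform.H16.frickeInvol Fermat.Agent.Lib.Newform.H16.frickeHecke
    Fermat.Agent.Lib.Newform.H803.multOne Fermat.Agent.Lib.Newform.H683.eigenT

theorem crossLevelSq : CrossLevelSq :=
  Fermat.Agent.Lib.Newform.H863.X8.crossLevelSq_of localIdentity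

theorem crossLevel : CrossLevel :=
  Fermat.Agent.Lib.Newform.H863.X8.crossLevel_of localIdentity
    Fermat.Agent.Lib.Newform.H263.strictBound

theorem strongMultOne : StrongMultOne :=
  Fermat.Agent.Lib.Newform.H863.X8.strongMultOne_of localIdentity
    Fermat.Agent.Lib.Newform.H263.strictBound

end Fermat.Agent.Lib.Newform.H958.X

end
-- ===== PACK-END Lib/Newform/H958/X/Final.lean

-- ===== PACK-BEGIN S36/H370/Mod3Kron.lean
section
/-
S36 / MOD3, rows FF and VV of the `(e, f)` table (helper370).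

Level `N` ARBITRARY (`q ∣ N` allowed), `V∞(N)`, `V∞(N q)` the Gauss valuation rings
(`A2.Mod.IsVinf`), `α, β : F_N → F_{Nq}` the two degeneracy maps.

* `isGaussInt_qExpand`   : `t ↦ t^q` preserves Gauss-integrality (`F_N → F_{Nq}`);
* `beta_mem_iffQ`        : `β g ∈ V∞(N q) ↔ g ∈ V∞(N)`;
* `comap_beta_vinfQ`     : `V∞(N q).comap β = V∞(N)`              (field `comap_β₁` of `TripleCtx`);
* `beta_inWQ`, `alpha_inWQ` : `α`, `β` map `w V∞(N)` into `w V∞(N q)`;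
* `beta_alpha_commQ`     : `β_{Mq} ∘ α_M = α_{Mq} ∘ β_M` on `F_M`;
* `kronQ`                : **Kronecker congruence at level `M q → M q²`** (`q ∤ M`):
      for `a ∈ V∞(M q)` there is `a' ∈ V∞(M q)` with `β a ≡ (α a')^q  mod w V∞(M q²)`
  (from leaves L11 and L12 of A2/MOD at level `M`);
* `comap_alpha_vzeroQ`, `comap_beta_vzeroQ` : the rows of `V₀ := V∞ ∘ W` (Fricke, leaf L5):
      `V₀(N q).comap α = V₀(N)`, `V₀(N q).comap β = V₀(N)`   (fields `comap_α₃`, `comap_β₃`);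
* `resZeroQ`, `kronZeroQ` : residue degree one along `β` on `V₀`, Kronecker along `α` on `V₀`.
-/





set_option autoImplicit false
set_option linter.unusedSectionVars false
set_option linter.style.haveILetI false
set_option synthInstance.maxHeartbeats 400000
set_option maxHeartbeats 1600000

noncomputable section

namespace Fermat.Agent.S36.H370

open ModularCurve HahnSeries Fermat.Agent.A2 Fermat.Agent.A2.Mod Fermat.Agent.A2.H708
  Fermat.Agent.S28 Fermat.Agent.A2.Mod.H378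

/-! ## `t ↦ t^q` and Gauss-integrality -/

section Generic

variable {L : Type*} [Field L] [Algebra ℚ L] (A : ValuationSubring L)

theorem incl_qExpand (q : ℕ) [NeZero q] (U : LaurentSeries A) :
    incl A (qExpand A q U) = qExpand L q (incl A U) :=
  coeffMap_qExpand _ q U

theorem red_qExpand (q : ℕ) [NeZero q] (U : LaurentSeries A) :
    red A (qExpand A q U) = qExpand (IsLocalRing.ResidueField A) q (red A U) :=
  coeffMap_qExpand _ q U

theorem red_qExpand_ne_zero (q : ℕ) [NeZero q] {U : LaurentSeries A} (hU : red A U ≠ 0) :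
    red A (qExpand A q U) ≠ 0 := by
  rw [red_qExpand]
  intro h
  exact hU (qExpand_injective q (h.trans (map_zero _).symm))

theorem qExpand_cst (q : ℕ) [NeZero q] (c : L) : qExpand L q (cst c) = cst c := by
  rw [cst, algebraMap_laurentSeries_eq_single, qExpand_single, mul_zero]

theorem qExpand_mem_full (N q : ℕ) [NeZero N] [NeZero q] {x : LaurentSeries L}
    (hx : x ∈ laurentBaseChange L (modularFunctionFieldFull N)) :
    qExpand L q x ∈ laurentBaseChange L (modularFunctionFieldFull (N * q)) :=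
  (heckeBetaBar L N q ⟨x, hx⟩).2

/-- `t ↦ t^q` preserves Gauss-integrality. -/
theorem isGaussInt_qExpand (N q : ℕ) [NeZero N] [NeZero q] {f : LaurentSeries L}
    (hf : IsGaussInt A (modularFunctionFieldFull N) f) :
    IsGaussInt A (modularFunctionFieldFull (N * q)) (qExpand L q f) := by
  obtain ⟨U₁, U₂, h0, hm, he⟩ := hf
  refine ⟨qExpand A q U₁, qExpand A q U₂, red_qExpand_ne_zero A q h0, ?_, ?_⟩
  · rw [incl_qExpand]
    exact qExpand_mem_full N q hm
  · rw [incl_qExpand, incl_qExpand, ← map_mul, he]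

/-- … and reflects it. -/
theorem isGaussInt_of_qExpand (N q : ℕ) [NeZero N] [NeZero q]
    (hmax : AttainsMax A (modularFunctionFieldFull N)) {f : LaurentSeries L}
    (hfF : f ∈ laurentBaseChange L (modularFunctionFieldFull N))
    (hf : IsGaussInt A (modularFunctionFieldFull (N * q)) (qExpand L q f)) :
    IsGaussInt A (modularFunctionFieldFull N) f := by
  by_cases hf0 : f = 0
  · rw [hf0]
    exact IsGaussInt.zero
  obtain ⟨c, U₁, U₂, hc, h₁, h₂, hm₁, hm₂, he⟩ :=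
    exists_normal_form (intGen_full N) hmax hfF hf0
  have he' : qExpand L q f * incl A (qExpand A q U₂) = cst c * incl A (qExpand A q U₁) := by
    rw [incl_qExpand, incl_qExpand, ← map_mul, he, map_mul, qExpand_cst]
  have hm₂' : incl A (qExpand A q U₂) ∈
      laurentBaseChange L (modularFunctionFieldFull (N * q)) := by
    rw [incl_qExpand]
    exact qExpand_mem_full N q hm₂
  have hcA : c ∈ A :=
    (isGaussInt_iff_of_normal_form (red_qExpand_ne_zero A q h₁) (red_qExpand_ne_zero A q h₂)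
      hm₂' he').mp hf
  exact (isGaussInt_iff_of_normal_form h₁ h₂ hm₂ he).mpr hcA

end Generic

/-! ## The rows of `V∞` -/

section Concrete

variable {P : ValuationSubring _root_.Fermat.Agent.A2.Mod.Qb} {E : IntermediateField ℚ _root_.Fermat.Agent.A2.Mod.Qb} {M q : ℕ} [NeZero M] [NeZero q]
  {w : _root_.Fermat.Agent.A2.Mod.RE P E}

/-- `β g ∈ V∞(M q) ↔ g ∈ V∞(M)` (any level `M`). -/
theorem beta_mem_iffQ (hS : SettingQ P E q w) {VM : ValuationSubring (_root_.Fermat.Agent.A2.Mod.FE E M)}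
    {V : ValuationSubring (_root_.Fermat.Agent.A2.Mod.FE E (M * q))} (hVM : IsVinf P E M VM) (hV : IsVinf P E (M * q) V)
    (g : _root_.Fermat.Agent.A2.Mod.FE E M) : βE E M q g ∈ V ↔ g ∈ VM := by
  rw [hV (βE E M q g), hVM g, coe_heckeBetaBar]
  constructor
  · exact isGaussInt_of_qExpand (_root_.Fermat.Agent.A2.Mod.RE P E) M q (attainsQ hS M) g.2
  · exact isGaussInt_qExpand (_root_.Fermat.Agent.A2.Mod.RE P E) M q

/-- `V∞(M q)` lies over `V∞(M)` along `β` (any level). -/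
theorem comap_beta_vinfQ (hS : SettingQ P E q w) {VM : ValuationSubring (_root_.Fermat.Agent.A2.Mod.FE E M)}
    {V : ValuationSubring (_root_.Fermat.Agent.A2.Mod.FE E (M * q))} (hVM : IsVinf P E M VM) (hV : IsVinf P E (M * q) V) :
    V.comap (βE E M q : _root_.Fermat.Agent.A2.Mod.FE E M →+* _root_.Fermat.Agent.A2.Mod.FE E (M * q)) = VM := by
  ext g
  rw [ValuationSubring.mem_comap]
  exact beta_mem_iffQ hS hVM hV g

theorem beta_cE (r : _root_.Fermat.Agent.A2.Mod.RE P E) : βE E M q (cE P E M r) = cE P E (M * q) r :=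
  (βE E M q).commutes (r : E)

/-- `α` maps `w V∞(M)` into `w V∞(M q)`. -/
theorem alpha_inWQ (hS : SettingQ P E q w) {VM : ValuationSubring (_root_.Fermat.Agent.A2.Mod.FE E M)}
    {V : ValuationSubring (_root_.Fermat.Agent.A2.Mod.FE E (M * q))} (hVM : IsVinf P E M VM) (hV : IsVinf P E (M * q) V)
    {g : _root_.Fermat.Agent.A2.Mod.FE E M} (hg : InW P E M VM w g) : InW P E (M * q) V w (αE E M q g) := by
  have h1 : αE E M q g * (cE P E (M * q) w)⁻¹ = αE E M q (g * (cE P E M w)⁻¹) := by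
    rw [map_mul, map_inv₀, alpha_cE]
  show αE E M q g * (cE P E (M * q) w)⁻¹ ∈ V
  rw [h1]
  exact (alpha_mem_iffQ hS hVM hV _).mpr hg

/-- `β` maps `w V∞(M)` into `w V∞(M q)`. -/
theorem beta_inWQ (hS : SettingQ P E q w) {VM : ValuationSubring (_root_.Fermat.Agent.A2.Mod.FE E M)}
    {V : ValuationSubring (_root_.Fermat.Agent.A2.Mod.FE E (M * q))} (hVM : IsVinf P E M VM) (hV : IsVinf P E (M * q) V)
    {g : _root_.Fermat.Agent.A2.Mod.FE E M} (hg : InW P E M VM w g) : InW P E (M * q) V w (βE E M q g) := by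
  have h1 : βE E M q g * (cE P E (M * q) w)⁻¹ = βE E M q (g * (cE P E M w)⁻¹) := by
    rw [map_mul, map_inv₀, beta_cE]
  show βE E M q g * (cE P E (M * q) w)⁻¹ ∈ V
  rw [h1]
  exact (beta_mem_iffQ hS hVM hV _).mpr hg

theorem inW_add {N : ℕ} {V : ValuationSubring (_root_.Fermat.Agent.A2.Mod.FE E N)} {f g : _root_.Fermat.Agent.A2.Mod.FE E N}
    (hf : InW P E N V w f) (hg : InW P E N V w g) : InW P E N V w (f + g) := by
  show (f + g) * (cE P E N w)⁻¹ ∈ V
  rw [add_mul]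
  exact V.add_mem _ _ hf hg

/-- `β_{Mq} ∘ α_M = α_{Mq} ∘ β_M`. -/
theorem beta_alpha_commQ (g : _root_.Fermat.Agent.A2.Mod.FE E M) :
    βE E (M * q) q (αE E M q g) = αE E (M * q) q (βE E M q g) := by
  apply Subtype.ext
  rw [coe_heckeBetaBar, coe_heckeAlphaBar, coe_heckeAlphaBar, coe_heckeBetaBar]

/-- **Kronecker congruence at level `M q → M q²`**, `q ∤ M`:
for `a ∈ V∞(M q)` there is `a' ∈ V∞(M q)` with `β a ≡ (α a')^q mod w V∞(M q²)`.
Moreover `a' = α a''` comes from level `M`. -/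
theorem kronQ (hS : Setting P E M q w) {VM : ValuationSubring (_root_.Fermat.Agent.A2.Mod.FE E M)}
    {VN : ValuationSubring (_root_.Fermat.Agent.A2.Mod.FE E (M * q))} {V : ValuationSubring (_root_.Fermat.Agent.A2.Mod.FE E (M * q * q))}
    (hVM : IsVinf P E M VM) (hVN : IsVinf P E (M * q) VN) (hV : IsVinf P E (M * q * q) V)
    {a : _root_.Fermat.Agent.A2.Mod.FE E (M * q)} (ha : a ∈ VN) :
    ∃ a' ∈ VN, (∃ a'' ∈ VM, a' = αE E M q a'') ∧
      InW P E (M * q * q) V w (βE E (M * q) q a - (αE E (M * q) q a') ^ q) := by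
  have hQ : SettingQ P E q w := SettingQ.of_setting hS
  obtain ⟨g, hg, h1⟩ := resInfQ hQ hVM hVN ha
  obtain ⟨g', hg', h2⟩ := H96.kron P E M q w hS VM VN hVM hVN g hg
  refine ⟨αE E M q g', (alpha_mem_iffQ hQ hVM hVN g').mpr hg', ⟨g', hg', rfl⟩, ?_⟩
  have e1 : βE E (M * q) q a - (αE E (M * q) q (αE E M q g')) ^ q
      = βE E (M * q) q (a - αE E M q g)
        + αE E (M * q) q (βE E M q g - (αE E M q g') ^ q) := by
    rw [map_sub, map_sub, map_pow, beta_alpha_commQ]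
    ring
  rw [e1]
  exact inW_add (beta_inWQ hQ hVN hV h1) (alpha_inWQ hQ hVN hV h2)

/-! ## The rows of `V₀ = V∞ ∘ W` -/

/-- `V₀(M q).comap α = V₀(M)` (any level `M`). -/
theorem comap_alpha_vzeroQ (hS : SettingQ P E q w) {VM : ValuationSubring (_root_.Fermat.Agent.A2.Mod.FE E M)}
    {V : ValuationSubring (_root_.Fermat.Agent.A2.Mod.FE E (M * q))} (hVM : IsVinf P E M VM) (hV : IsVinf P E (M * q) V)
    {WM : _root_.Fermat.Agent.A2.Mod.FE E M ≃ₐ[E] _root_.Fermat.Agent.A2.Mod.FE E M} {W : _root_.Fermat.Agent.A2.Mod.FE E (M * q) ≃ₐ[E] _root_.Fermat.Agent.A2.Mod.FE E (M * q)}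
    (hWM : IsFricke E M WM) (hW : IsFricke E (M * q) W) :
    (V.comap (W : _root_.Fermat.Agent.A2.Mod.FE E (M * q) →+* _root_.Fermat.Agent.A2.Mod.FE E (M * q))).comap (αE E M q : _root_.Fermat.Agent.A2.Mod.FE E M →+* _root_.Fermat.Agent.A2.Mod.FE E (M * q))
      = VM.comap (WM : _root_.Fermat.Agent.A2.Mod.FE E M →+* _root_.Fermat.Agent.A2.Mod.FE E M) := by
  ext g
  rw [ValuationSubring.mem_comap, ValuationSubring.mem_comap, ValuationSubring.mem_comap]
  have h := (H553.frickeCompat E M q WM W hWM hW g).1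
  show W (αE E M q g) ∈ V ↔ WM g ∈ VM
  rw [h]
  exact beta_mem_iffQ hS hVM hV (WM g)

/-- `V₀(M q).comap β = V₀(M)` (any level `M`). -/
theorem comap_beta_vzeroQ (hS : SettingQ P E q w) {VM : ValuationSubring (_root_.Fermat.Agent.A2.Mod.FE E M)}
    {V : ValuationSubring (_root_.Fermat.Agent.A2.Mod.FE E (M * q))} (hVM : IsVinf P E M VM) (hV : IsVinf P E (M * q) V)
    {WM : _root_.Fermat.Agent.A2.Mod.FE E M ≃ₐ[E] _root_.Fermat.Agent.A2.Mod.FE E M} {W : _root_.Fermat.Agent.A2.Mod.FE E (M * q) ≃ₐ[E] _root_.Fermat.Agent.A2.Mod.FE E (M * q)}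
    (hWM : IsFricke E M WM) (hW : IsFricke E (M * q) W) :
    (V.comap (W : _root_.Fermat.Agent.A2.Mod.FE E (M * q) →+* _root_.Fermat.Agent.A2.Mod.FE E (M * q))).comap (βE E M q : _root_.Fermat.Agent.A2.Mod.FE E M →+* _root_.Fermat.Agent.A2.Mod.FE E (M * q))
      = VM.comap (WM : _root_.Fermat.Agent.A2.Mod.FE E M →+* _root_.Fermat.Agent.A2.Mod.FE E M) := by
  ext g
  rw [ValuationSubring.mem_comap, ValuationSubring.mem_comap, ValuationSubring.mem_comap]
  have h := (H553.frickeCompat E M q WM W hWM hW g).2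
  show W (βE E M q g) ∈ V ↔ WM g ∈ VM
  rw [h]
  exact alpha_mem_iffQ hS hVM hV (WM g)

theorem fricke_cE {N : ℕ} (W : _root_.Fermat.Agent.A2.Mod.FE E N ≃ₐ[E] _root_.Fermat.Agent.A2.Mod.FE E N) (r : _root_.Fermat.Agent.A2.Mod.RE P E) :
    W (cE P E N r) = cE P E N r :=
  W.commutes (r : E)

/-- membership in `w V₀` -/
theorem inW_comap_iff {N : ℕ} (V : ValuationSubring (_root_.Fermat.Agent.A2.Mod.FE E N)) (W : _root_.Fermat.Agent.A2.Mod.FE E N ≃ₐ[E] _root_.Fermat.Agent.A2.Mod.FE E N)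
    (f : _root_.Fermat.Agent.A2.Mod.FE E N) :
    InW P E N (V.comap (W : _root_.Fermat.Agent.A2.Mod.FE E N →+* _root_.Fermat.Agent.A2.Mod.FE E N)) w f ↔ InW P E N V w (W f) := by
  show f * (cE P E N w)⁻¹ ∈ V.comap (W : _root_.Fermat.Agent.A2.Mod.FE E N →+* _root_.Fermat.Agent.A2.Mod.FE E N) ↔ W f * (cE P E N w)⁻¹ ∈ V
  rw [ValuationSubring.mem_comap]
  have h1 : (W : _root_.Fermat.Agent.A2.Mod.FE E N →+* _root_.Fermat.Agent.A2.Mod.FE E N) (f * (cE P E N w)⁻¹) = W f * (cE P E N w)⁻¹ := by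
    show W (f * (cE P E N w)⁻¹) = W f * (cE P E N w)⁻¹
    rw [map_mul, map_inv₀, fricke_cE]
  rw [h1]

/-- **Residue degree one along `β` on `V₀`** (any level):
`V₀(M q) = β (V₀(M)) + w V₀(M q)`. -/
theorem resZeroQ (hS : SettingQ P E q w) {VM : ValuationSubring (_root_.Fermat.Agent.A2.Mod.FE E M)}
    {V : ValuationSubring (_root_.Fermat.Agent.A2.Mod.FE E (M * q))} (hVM : IsVinf P E M VM) (hV : IsVinf P E (M * q) V)
    {WM : _root_.Fermat.Agent.A2.Mod.FE E M ≃ₐ[E] _root_.Fermat.Agent.A2.Mod.FE E M} {W : _root_.Fermat.Agent.A2.Mod.FE E (M * q) ≃ₐ[E] _root_.Fermat.Agent.A2.Mod.FE E (M * q)}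
    (hWM : IsFricke E M WM) (hW : IsFricke E (M * q) W)
    {f : _root_.Fermat.Agent.A2.Mod.FE E (M * q)} (hf : f ∈ V.comap (W : _root_.Fermat.Agent.A2.Mod.FE E (M * q) →+* _root_.Fermat.Agent.A2.Mod.FE E (M * q))) :
    ∃ g ∈ VM.comap (WM : _root_.Fermat.Agent.A2.Mod.FE E M →+* _root_.Fermat.Agent.A2.Mod.FE E M),
      InW P E (M * q) (V.comap (W : _root_.Fermat.Agent.A2.Mod.FE E (M * q) →+* _root_.Fermat.Agent.A2.Mod.FE E (M * q))) w (f - βE E M q g) := by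
  have hf' : W f ∈ V := hf
  obtain ⟨g0, hg0, h⟩ := resInfQ hS hVM hV hf'
  refine ⟨WM g0, ?_, ?_⟩
  · rw [ValuationSubring.mem_comap]
    show WM (WM g0) ∈ VM
    rw [hWM.2]
    exact hg0
  · rw [inW_comap_iff, map_sub, (H553.frickeCompat E M q WM W hWM hW (WM g0)).2, hWM.2]
    exact h

end Concrete

end Fermat.Agent.S36.H370

end
end
-- ===== PACK-END S36/H370/Mod3Kron.lean

-- ===== PACK-BEGIN S36/H994/Plug4.lean
section





/-!
# The level-`4` plug for R4 (helper994, S36 cell REG, `q` odd)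

`N` a level with `4 ∣ N`, `q` a prime (any natural number `≠ 0` here), `F = F_E(N q q)`,

  `φ = α ∘ α : F_E(N) → F`   (inclusion),        `γ = β ∘ β : F_E(N) → F`   (`f(t) ↦ f(t^{q²})`).

* `t4E_congr_of_hom`   : helper878's `Congr4.t4_congr` for two ring homomorphisms `φ, ψ` out of
  `F_E(N)`:  `ψ(j_d) ≡ φ(j_d)` (`d ∣ 4`) and Gauss units ⟹ `ψ(t₄) ≡ φ(t₄)`;
* `hres_transfer4_of_hom` : helper878's `Transfer4.hres_transfer4` in the same form;
* `φ4`, `γ4` and their values on `j_d`, `t₄` (`φ4_jE`, `γ4_jE`, `φ4_t4E`, `coe_γ4_t4E`);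
* `valuation_φ4_eq_one` : a unit of `V∞(N q)` is a unit of every valuation ring `V` of `F` with
  `V.comap α = V∞(N q)` (in particular of `V_mid` and `V_FF`);
* `reg4_congr`, `reg4_hres` : the two statements at `V` with ALL unit hypotheses discharged:
  from `γ(j_d) - φ(j_d) ∈ 𝔪_V` (`d = 1, 2, 4`; FROB) get `γ(t₄) - t₄ ∈ 𝔪_V`, and `hres` for
  `(π_j, (j⁴ (j - 1728)³)^k)` gives `hres` for `(π_{t₄}, (t₄² (t₄ + 16)⁵)^k)`.
-/

set_option autoImplicit false
set_option synthInstance.maxHeartbeats 400000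
set_option maxHeartbeats 1600000
set_option linter.unusedSectionVars false

noncomputable section

namespace Fermat.Agent.S36.H994

open ModularCurve HahnSeries Fermat.Agent.Lib.Haupt Fermat.Agent.A2.Mod
open Fermat.Agent.A2 Fermat.Agent.S36.H878

/-! ## Generic form: two ring homomorphisms out of `F_E(N)` -/

section Hom

variable (E : IntermediateField ℚ _root_.Fermat.Agent.A2.Mod.Qb) (N : ℕ) {L : Type*} [Field L]

/-- **`ψ(t₄) ≡ φ(t₄)` modulo `𝔪_V`** from `ψ(j_d) ≡ φ(j_d)`, `d ∈ {1, 2, 4}`. -/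
theorem t4E_congr_of_hom (φ ψ : _root_.Fermat.Agent.A2.Mod.FE E N →+* L) (V : ValuationSubring L) (h4 : 4 ∣ N)
    (hj : φ (jE E N 1 (one_dvd N)) ∈ V)
    (hj2 : φ (jE E N 2 (two_dvd_of_four_dvd h4)) ∈ V)
    (hj4 : φ (jE E N 4 h4) ∈ V)
    (c1 : ψ (jE E N 1 (one_dvd N)) - φ (jE E N 1 (one_dvd N)) ∈ V.nonunits)
    (c2 : ψ (jE E N 2 (two_dvd_of_four_dvd h4)) - φ (jE E N 2 (two_dvd_of_four_dvd h4))
      ∈ V.nonunits)
    (c4 : ψ (jE E N 4 h4) - φ (jE E N 4 h4) ∈ V.nonunits)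
    (hU : V.valuation
      (φ (h4u2 (jE E N 1 (one_dvd N)) (jE E N 2 (two_dvd_of_four_dvd h4)))) = 1)
    (hUe : V.valuation (φ (h4u2 (jE E N 2 (two_dvd_of_four_dvd h4)) (jE E N 4 h4))) = 1)
    (h16 : V.valuation (φ (t2E E N (two_dvd_of_four_dvd h4) + 16)) = 1) :
    φ (t4E E N h4) ∈ V ∧ ψ (t4E E N h4) ∈ V ∧
      ψ (t4E E N h4) - φ (t4E E N h4) ∈ V.nonunits := by
  have l1 := congrArg φ (t2E_lin E N (two_dvd_of_four_dvd h4))
  have l2 := congrArg φ (t2eE_lin E N h4)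
  have l3 := congrArg φ (t4E_lin E N h4)
  have l1' := congrArg ψ (t2E_lin E N (two_dvd_of_four_dvd h4))
  have l2' := congrArg ψ (t2eE_lin E N h4)
  have l3' := congrArg ψ (t4E_lin E N h4)
  rw [map_mul, map_h4u2, map_h4w2] at l1 l2 l1' l2'
  simp only [map_mul, map_add, map_sub, map_ofNat] at l3 l3'
  rw [map_h4u2] at hU hUe
  rw [map_add, map_ofNat] at h16
  exact t4_congr V hj hj2 hj4 c1 c2 c4 hU hUe h16 l1 l2 l3 l1' l2' l3'

/-- **Transfer of `hres` from `j` to `t₄`**, for two ring homomorphisms out of `F_E(N)`. -/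
theorem hres_transfer4_of_hom (φ ψ : _root_.Fermat.Agent.A2.Mod.FE E N →+* L) (V : ValuationSubring L) (h4 : 4 ∣ N)
    (U : L) (k : ℕ)
    (hh₁ : V.valuation (φ (t4E E N h4)) = 1)
    (hh₁' : V.valuation (φ (t4E E N h4) + 16) = 1)
    (hj₁ : V.valuation (φ (jE E N 1 (one_dvd N))) = 1)
    (hj₁' : V.valuation (φ (jE E N 1 (one_dvd N)) - 1728) = 1)
    (hh₂ : ψ (t4E E N h4) ∈ V)
    (hx : ψ (t4E E N h4) - φ (t4E E N h4) ∈ V.nonunits)
    (hres : ((ψ (jE E N 1 (one_dvd N)) - φ (jE E N 1 (one_dvd N))) ^ (6 * k)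
        - (φ (jE E N 1 (one_dvd N)) ^ 4 * (φ (jE E N 1 (one_dvd N)) - 1728) ^ 3) ^ k * U)
          * U⁻¹ ∈ V.nonunits) :
    ((ψ (t4E E N h4) - φ (t4E E N h4)) ^ (6 * k)
        - (φ (t4E E N h4) ^ 2 * (φ (t4E E N h4) + 16) ^ 5) ^ k * U) * U⁻¹ ∈ V.nonunits := by
  have hJ₁ := congrArg φ (jE_mul_t4E E N h4)
  have hJ₂ := congrArg ψ (jE_mul_t4E E N h4)
  simp only [map_mul, map_pow, map_add, map_ofNat] at hJ₁ hJ₂
  exact hres_transfer4 V _ _ _ _ U k hJ₁ hJ₂ hh₁ hh₁' hj₁ hj₁' hh₂ hx hres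

end Hom

/-! ## The two maps `F_E(N) → F_E(N q q)` -/

section Maps

variable (E : IntermediateField ℚ _root_.Fermat.Agent.A2.Mod.Qb) (N q : ℕ) [NeZero N] [NeZero q] [NeZero (N * q)]

/-- The inclusion `φ = α ∘ α : F_E(N) → F_E(N q q)`. -/
def φ4 : _root_.Fermat.Agent.A2.Mod.FE E N →+* _root_.Fermat.Agent.A2.Mod.FE E (N * q * q) :=
  ((αE E (N * q) q : _root_.Fermat.Agent.A2.Mod.FE E (N * q) →+* _root_.Fermat.Agent.A2.Mod.FE E (N * q * q))).comp
    (αE E N q : _root_.Fermat.Agent.A2.Mod.FE E N →+* _root_.Fermat.Agent.A2.Mod.FE E (N * q))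

/-- `γ = β ∘ β : F_E(N) → F_E(N q q)`, `f(t) ↦ f(t^{q²})`. -/
def γ4 : _root_.Fermat.Agent.A2.Mod.FE E N →+* _root_.Fermat.Agent.A2.Mod.FE E (N * q * q) :=
  ((βE E (N * q) q : _root_.Fermat.Agent.A2.Mod.FE E (N * q) →+* _root_.Fermat.Agent.A2.Mod.FE E (N * q * q))).comp
    (βE E N q : _root_.Fermat.Agent.A2.Mod.FE E N →+* _root_.Fermat.Agent.A2.Mod.FE E (N * q))

theorem φ4_apply (f : _root_.Fermat.Agent.A2.Mod.FE E N) : φ4 E N q f = αE E (N * q) q (αE E N q f) := rfl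

theorem γ4_apply (f : _root_.Fermat.Agent.A2.Mod.FE E N) : γ4 E N q f = βE E (N * q) q (βE E N q f) := rfl

theorem coe_φ4 (f : _root_.Fermat.Agent.A2.Mod.FE E N) : ((φ4 E N q f : _root_.Fermat.Agent.A2.Mod.FE E (N * q * q)) : LaurentSeries E) = f := by
  rw [φ4_apply]
  show ((heckeAlphaBar E (N * q) q (heckeAlphaBar E N q f) : _) : LaurentSeries E) = f
  rw [coe_heckeAlphaBar, coe_heckeAlphaBar]

theorem coe_γ4 (f : _root_.Fermat.Agent.A2.Mod.FE E N) :
    ((γ4 E N q f : _root_.Fermat.Agent.A2.Mod.FE E (N * q * q)) : LaurentSeries E)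
      = qExpand E q (qExpand E q (f : LaurentSeries E)) := rfl

theorem dvd_mul_mul {d : ℕ} (hd : d ∣ N) : d ∣ N * q * q :=
  Dvd.dvd.mul_right (Dvd.dvd.mul_right hd q) q

theorem φ4_jE (d : ℕ) [NeZero d] (hd : d ∣ N) :
    φ4 E N q (jE E N d hd) = jE E (N * q * q) d (dvd_mul_mul N q hd) := by
  rw [φ4_apply, αE_jE4, αE_jE4]

theorem φ4_t4E (h4 : 4 ∣ N) :
    φ4 E N q (t4E E N h4) = t4E E (N * q * q) (dvd_mul_mul N q h4) := by
  rw [φ4_apply, αE_t4E, αE_t4E]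

theorem coe_γ4_t4E (h4 : 4 ∣ N) :
    ((γ4 E N q (t4E E N h4) : _root_.Fermat.Agent.A2.Mod.FE E (N * q * q)) : LaurentSeries E)
      = qExpand E (q * q) (t4 E) := by
  rw [coe_γ4, coe_t4E, qExpand_qExpand]

theorem coe_γ4_jE (d : ℕ) [NeZero d] (hd : d ∣ N) :
    ((γ4 E N q (jE E N d hd) : _root_.Fermat.Agent.A2.Mod.FE E (N * q * q)) : LaurentSeries E)
      = qExpand E (q * q) (qExpand E d (jqModC E)) := by
  rw [coe_γ4, h4_coe_jE, qExpand_qExpand]

end Maps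

/-! ## Units of `V∞(N q)` are units of `V` when `V.comap α = V∞(N q)` -/

section Pull

variable {P : ValuationSubring _root_.Fermat.Agent.A2.Mod.Qb} {E : IntermediateField ℚ _root_.Fermat.Agent.A2.Mod.Qb} {N q : ℕ}
  [NeZero N] [NeZero q] [NeZero (N * q)]

theorem valuation_eq_one_of_mem_inv_mem {L : Type*} [Field L] (V : ValuationSubring L) {u : L}
    (hu0 : u ≠ 0) (hu : u ∈ V) (hui : u⁻¹ ∈ V) : V.valuation u = 1 := by
  refine le_antisymm ((V.valuation_le_one_iff _).2 hu) ?_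
  have h1 : V.valuation u⁻¹ ≤ 1 := (V.valuation_le_one_iff _).2 hui
  rw [map_inv₀] at h1
  exact (inv_le_one₀ (by rw [zero_lt_iff]; exact (_root_.map_ne_zero _).2 hu0)).1 h1

theorem mem_α_of_mem {V : ValuationSubring (_root_.Fermat.Agent.A2.Mod.FE E (N * q * q))}
    {V' : ValuationSubring (_root_.Fermat.Agent.A2.Mod.FE E (N * q))}
    (hcomap : V.comap (αE E (N * q) q : _root_.Fermat.Agent.A2.Mod.FE E (N * q) →+* _root_.Fermat.Agent.A2.Mod.FE E (N * q * q)) = V')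
    {u : _root_.Fermat.Agent.A2.Mod.FE E (N * q)} (hu : u ∈ V') : αE E (N * q) q u ∈ V := by
  subst hcomap
  have h := (ValuationSubring.mem_comap).1 hu
  rwa [RingHom.coe_coe] at h

theorem inv_mem_α_of_inv_mem {V : ValuationSubring (_root_.Fermat.Agent.A2.Mod.FE E (N * q * q))}
    {V' : ValuationSubring (_root_.Fermat.Agent.A2.Mod.FE E (N * q))}
    (hcomap : V.comap (αE E (N * q) q : _root_.Fermat.Agent.A2.Mod.FE E (N * q) →+* _root_.Fermat.Agent.A2.Mod.FE E (N * q * q)) = V')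
    {u : _root_.Fermat.Agent.A2.Mod.FE E (N * q)} (hu : u⁻¹ ∈ V') : (αE E (N * q) q u)⁻¹ ∈ V := by
  have h := mem_α_of_mem hcomap hu
  rwa [map_inv₀] at h

/-- A unit of `V' = V.comap α` maps to a unit of `V`. -/
theorem valuation_α_eq_one {V : ValuationSubring (_root_.Fermat.Agent.A2.Mod.FE E (N * q * q))}
    {V' : ValuationSubring (_root_.Fermat.Agent.A2.Mod.FE E (N * q))}
    (hcomap : V.comap (αE E (N * q) q : _root_.Fermat.Agent.A2.Mod.FE E (N * q) →+* _root_.Fermat.Agent.A2.Mod.FE E (N * q * q)) = V')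
    {u : _root_.Fermat.Agent.A2.Mod.FE E (N * q)} (hu0 : u ≠ 0) (hu : u ∈ V' ∧ u⁻¹ ∈ V') :
    V.valuation (αE E (N * q) q u) = 1 :=
  valuation_eq_one_of_mem_inv_mem V ((_root_.map_ne_zero (αE E (N * q) q)).2 hu0)
    (mem_α_of_mem hcomap hu.1) (inv_mem_α_of_inv_mem hcomap hu.2)

/-- An element with an integral expansion with a coefficient `1` is not zero. -/
theorem ne_zero_of_int4 {M : ℕ} {f : _root_.Fermat.Agent.A2.Mod.FE E M} {g : LaurentSeries ℤ} {k : ℤ}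
    (hfg : (f : LaurentSeries E) = castE4 E g) (hk : g.coeff k = 1) : f ≠ 0 := by
  rintro rfl
  rw [ZeroMemClass.coe_zero, castE4_eq] at hfg
  have h0 := congrArg (fun x : LaurentSeries E => x.coeff k) hfg
  simp only [HahnSeries.coeff_zero, coeffMap_coeff, hk, map_one] at h0
  exact zero_ne_one h0

/-- Gauss units (integral expansion with a coefficient `1`) of level `N q` are units of `V`. -/
theorem valuation_α_eq_one_of_int {V : ValuationSubring (_root_.Fermat.Agent.A2.Mod.FE E (N * q * q))}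
    {V' : ValuationSubring (_root_.Fermat.Agent.A2.Mod.FE E (N * q))} (hV' : IsVinf P E (N * q) V')
    (hcomap : V.comap (αE E (N * q) q : _root_.Fermat.Agent.A2.Mod.FE E (N * q) →+* _root_.Fermat.Agent.A2.Mod.FE E (N * q * q)) = V')
    {f : _root_.Fermat.Agent.A2.Mod.FE E (N * q)} {g : LaurentSeries ℤ} {k : ℤ}
    (hfg : (f : LaurentSeries E) = castE4 E g) (hk : g.coeff k = 1) :
    V.valuation (αE E (N * q) q f) = 1 :=
  valuation_α_eq_one hcomap (ne_zero_of_int4 hfg hk) (unit_of_int4 hV' hfg hk)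

end Pull

/-! ## The concrete statements at `V` with `V.comap α = V∞(N q)` -/

section Concrete

variable {P : ValuationSubring _root_.Fermat.Agent.A2.Mod.Qb} {E : IntermediateField ℚ _root_.Fermat.Agent.A2.Mod.Qb} {N q : ℕ}
  [NeZero N] [NeZero q] [NeZero (N * q)]
  {V : ValuationSubring (_root_.Fermat.Agent.A2.Mod.FE E (N * q * q))} {V' : ValuationSubring (_root_.Fermat.Agent.A2.Mod.FE E (N * q))}

theorem four_dvd_mul {N : ℕ} (q : ℕ) (h4 : 4 ∣ N) : 4 ∣ N * q := Dvd.dvd.mul_right h4 q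

/-- `φ(j_d) ∈ V`. -/
theorem φ4_jE_mem (hV' : IsVinf P E (N * q) V')
    (hcomap : V.comap (αE E (N * q) q : _root_.Fermat.Agent.A2.Mod.FE E (N * q) →+* _root_.Fermat.Agent.A2.Mod.FE E (N * q * q)) = V')
    (d : ℕ) [NeZero d] (hd : d ∣ N) : φ4 E N q (jE E N d hd) ∈ V := by
  rw [φ4_apply, αE_jE4]
  exact mem_α_of_mem hcomap (jE_mem4 P E (N * q) hV' d _)

/-- `v(φ t₄) = 1`. -/
theorem valuation_φ4_t4E (hV' : IsVinf P E (N * q) V')
    (hcomap : V.comap (αE E (N * q) q : _root_.Fermat.Agent.A2.Mod.FE E (N * q) →+* _root_.Fermat.Agent.A2.Mod.FE E (N * q * q)) = V')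
    (h4 : 4 ∣ N) : V.valuation (φ4 E N q (t4E E N h4)) = 1 := by
  rw [φ4_apply, αE_t4E]
  exact valuation_α_eq_one_of_int hV' hcomap (g := t4 ℤ) (k := -1)
    (by rw [coe_t4E, castE4_t4]) (coeff_t4_neg_one ℤ)

/-- `v(φ t₄ + 16) = 1`. -/
theorem valuation_φ4_t4E_add (hV' : IsVinf P E (N * q) V')
    (hcomap : V.comap (αE E (N * q) q : _root_.Fermat.Agent.A2.Mod.FE E (N * q) →+* _root_.Fermat.Agent.A2.Mod.FE E (N * q * q)) = V')
    (h4 : 4 ∣ N) : V.valuation (φ4 E N q (t4E E N h4) + 16) = 1 := by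
  have e : φ4 E N q (t4E E N h4) + 16
      = αE E (N * q) q (t4E E (N * q) (four_dvd_mul q h4) + 16) := by
    rw [φ4_apply, αE_t4E, map_add, map_ofNat]
  rw [e]
  refine valuation_α_eq_one_of_int hV' hcomap (g := t4 ℤ + 16) (k := -1) ?_ (coeff_t4_add_16 ℤ)
  rw [map_add, map_ofNat, castE4_t4]
  rfl

/-- `v(φ (t₂ + 16)) = 1`. -/
theorem valuation_φ4_t2E_add (hV' : IsVinf P E (N * q) V')
    (hcomap : V.comap (αE E (N * q) q : _root_.Fermat.Agent.A2.Mod.FE E (N * q) →+* _root_.Fermat.Agent.A2.Mod.FE E (N * q * q)) = V')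
    (h4 : 4 ∣ N) :
    V.valuation (φ4 E N q (t2E E N (two_dvd_of_four_dvd h4) + 16)) = 1 := by
  have e : φ4 E N q (t2E E N (two_dvd_of_four_dvd h4) + 16)
      = αE E (N * q) q (t2E E (N * q) (two_dvd_of_four_dvd (four_dvd_mul q h4)) + 16) := by
    rw [φ4_apply, map_add, map_ofNat, αE_t2E, map_add, map_ofNat]
  rw [e]
  refine valuation_α_eq_one_of_int hV' hcomap (g := t2 ℤ + 16) (k := -1) ?_ (coeff_t2_add_16 ℤ)
  rw [map_add, map_ofNat, castE4_t2]
  rfl

/-- `v(φ j) = 1`. -/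
theorem valuation_φ4_jE_one (hV' : IsVinf P E (N * q) V')
    (hcomap : V.comap (αE E (N * q) q : _root_.Fermat.Agent.A2.Mod.FE E (N * q) →+* _root_.Fermat.Agent.A2.Mod.FE E (N * q * q)) = V') :
    V.valuation (φ4 E N q (jE E N 1 (one_dvd N))) = 1 := by
  rw [φ4_apply, αE_jE4]
  exact valuation_α_eq_one_of_int hV' hcomap (g := jqModC ℤ) (k := -1)
    (by rw [h4_coe_jE, qExpand_one_apply, castE4_jq]) (coeff_jqModC_neg_one ℤ)

/-- `v(φ j - 1728) = 1`. -/
theorem valuation_φ4_jE_sub (hV' : IsVinf P E (N * q) V')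
    (hcomap : V.comap (αE E (N * q) q : _root_.Fermat.Agent.A2.Mod.FE E (N * q) →+* _root_.Fermat.Agent.A2.Mod.FE E (N * q * q)) = V') :
    V.valuation (φ4 E N q (jE E N 1 (one_dvd N)) - 1728) = 1 := by
  have e : φ4 E N q (jE E N 1 (one_dvd N)) - 1728
      = αE E (N * q) q (jE E (N * q) 1 (one_dvd _) - 1728) := by
    rw [φ4_apply, αE_jE4, map_sub, map_ofNat]
  rw [e]
  refine valuation_α_eq_one_of_int hV' hcomap (g := jqModC ℤ - 1728) (k := -1) ?_
    (coeff_jq4_sub_1728 ℤ)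
  rw [map_sub, map_ofNat, castE4_jq, ← h4_coe_jE_one E (N * q)]
  rfl

/-- `v(φ U₂(j, j₂)) = 1`. -/
theorem valuation_φ4_u2 (hV' : IsVinf P E (N * q) V')
    (hcomap : V.comap (αE E (N * q) q : _root_.Fermat.Agent.A2.Mod.FE E (N * q) →+* _root_.Fermat.Agent.A2.Mod.FE E (N * q * q)) = V')
    (h4 : 4 ∣ N) :
    V.valuation (φ4 E N q
      (h4u2 (jE E N 1 (one_dvd N)) (jE E N 2 (two_dvd_of_four_dvd h4)))) = 1 := by
  have e : φ4 E N q (h4u2 (jE E N 1 (one_dvd N)) (jE E N 2 (two_dvd_of_four_dvd h4)))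
      = αE E (N * q) q (h4u2 (jE E (N * q) 1 (one_dvd _))
          (jE E (N * q) 2 (two_dvd_of_four_dvd (four_dvd_mul q h4)))) := by
    rw [map_h4u2, φ4_jE, φ4_jE]
    have h := map_h4u2 (αE E (N * q) q : _root_.Fermat.Agent.A2.Mod.FE E (N * q) →+* _root_.Fermat.Agent.A2.Mod.FE E (N * q * q))
      (jE E (N * q) 1 (one_dvd _)) (jE E (N * q) 2 (two_dvd_of_four_dvd (four_dvd_mul q h4)))
    rw [RingHom.coe_coe] at h
    rw [h, αE_jE4, αE_jE4]
  rw [e]
  refine valuation_α_eq_one_of_int hV' hcomap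
    (g := h4u2 (jqModC ℤ) (qExpand ℤ 2 (jqModC ℤ))) (k := -3) ?_ (coeff_u2 ℤ)
  rw [map_h4u2, castE4_qExpand, castE4_jq,
    ← h4_coe_jE E (N * q) 2 (two_dvd_of_four_dvd (four_dvd_mul q h4)),
    ← h4_coe_jE_one E (N * q)]
  exact (map_h4u2 (_root_.Fermat.Agent.A2.Mod.FE E (N * q)).val.toRingHom _ _)

/-- `v(φ U₂(j₂, j₄)) = 1`. -/
theorem valuation_φ4_u2e (hV' : IsVinf P E (N * q) V')
    (hcomap : V.comap (αE E (N * q) q : _root_.Fermat.Agent.A2.Mod.FE E (N * q) →+* _root_.Fermat.Agent.A2.Mod.FE E (N * q * q)) = V')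
    (h4 : 4 ∣ N) :
    V.valuation (φ4 E N q
      (h4u2 (jE E N 2 (two_dvd_of_four_dvd h4)) (jE E N 4 h4))) = 1 := by
  have e : φ4 E N q (h4u2 (jE E N 2 (two_dvd_of_four_dvd h4)) (jE E N 4 h4))
      = αE E (N * q) q (h4u2 (jE E (N * q) 2 (two_dvd_of_four_dvd (four_dvd_mul q h4)))
          (jE E (N * q) 4 (four_dvd_mul q h4))) := by
    rw [map_h4u2, φ4_jE, φ4_jE]
    have h := map_h4u2 (αE E (N * q) q : _root_.Fermat.Agent.A2.Mod.FE E (N * q) →+* _root_.Fermat.Agent.A2.Mod.FE E (N * q * q))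
      (jE E (N * q) 2 (two_dvd_of_four_dvd (four_dvd_mul q h4)))
      (jE E (N * q) 4 (four_dvd_mul q h4))
    rw [RingHom.coe_coe] at h
    rw [h, αE_jE4, αE_jE4]
  rw [e]
  refine valuation_α_eq_one_of_int hV' hcomap
    (g := h4u2 (qExpand ℤ 2 (jqModC ℤ)) (qExpand ℤ 4 (jqModC ℤ))) (k := -6) ?_ (coeff_u2e ℤ)
  rw [map_h4u2, castE4_qExpand, castE4_qExpand, castE4_jq,
    ← h4_coe_jE E (N * q) 2 (two_dvd_of_four_dvd (four_dvd_mul q h4)),
    ← h4_coe_jE E (N * q) 4 (four_dvd_mul q h4)]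
  exact (map_h4u2 (_root_.Fermat.Agent.A2.Mod.FE E (N * q)).val.toRingHom _ _)

/-- **R4, congruence for `t₄`** (all unit hypotheses discharged): if `γ(j_d) ≡ φ(j_d)` modulo
`𝔪_V` for `d = 1, 2, 4` (FROB), then `φ t₄, γ t₄ ∈ V` and `γ(t₄) ≡ φ(t₄)` modulo `𝔪_V`. -/
theorem reg4_congr (hV' : IsVinf P E (N * q) V')
    (hcomap : V.comap (αE E (N * q) q : _root_.Fermat.Agent.A2.Mod.FE E (N * q) →+* _root_.Fermat.Agent.A2.Mod.FE E (N * q * q)) = V')
    (h4 : 4 ∣ N)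
    (c1 : γ4 E N q (jE E N 1 (one_dvd N)) - φ4 E N q (jE E N 1 (one_dvd N)) ∈ V.nonunits)
    (c2 : γ4 E N q (jE E N 2 (two_dvd_of_four_dvd h4))
      - φ4 E N q (jE E N 2 (two_dvd_of_four_dvd h4)) ∈ V.nonunits)
    (c4 : γ4 E N q (jE E N 4 h4) - φ4 E N q (jE E N 4 h4) ∈ V.nonunits) :
    φ4 E N q (t4E E N h4) ∈ V ∧ γ4 E N q (t4E E N h4) ∈ V ∧
      γ4 E N q (t4E E N h4) - φ4 E N q (t4E E N h4) ∈ V.nonunits :=
  t4E_congr_of_hom E N (φ4 E N q) (γ4 E N q) V h4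
    (φ4_jE_mem hV' hcomap 1 _) (φ4_jE_mem hV' hcomap 2 _) (φ4_jE_mem hV' hcomap 4 _)
    c1 c2 c4 (valuation_φ4_u2 hV' hcomap h4) (valuation_φ4_u2e hV' hcomap h4)
    (valuation_φ4_t2E_add hV' hcomap h4)

/-- **R4, transfer of `hres` from `j` to `t₄`** (all unit hypotheses discharged):
`x_j = γ j - φ j`, `g_j = (j⁴ (j - 1728)³)^k`  ⟹  `x = γ t₄ - φ t₄`, `g = (t₄² (t₄ + 16)⁵)^k`. -/
theorem reg4_hres (hV' : IsVinf P E (N * q) V')
    (hcomap : V.comap (αE E (N * q) q : _root_.Fermat.Agent.A2.Mod.FE E (N * q) →+* _root_.Fermat.Agent.A2.Mod.FE E (N * q * q)) = V')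
    (h4 : 4 ∣ N)
    (c1 : γ4 E N q (jE E N 1 (one_dvd N)) - φ4 E N q (jE E N 1 (one_dvd N)) ∈ V.nonunits)
    (c2 : γ4 E N q (jE E N 2 (two_dvd_of_four_dvd h4))
      - φ4 E N q (jE E N 2 (two_dvd_of_four_dvd h4)) ∈ V.nonunits)
    (c4 : γ4 E N q (jE E N 4 h4) - φ4 E N q (jE E N 4 h4) ∈ V.nonunits)
    (U : _root_.Fermat.Agent.A2.Mod.FE E (N * q * q)) (k : ℕ)
    (hres : ((γ4 E N q (jE E N 1 (one_dvd N)) - φ4 E N q (jE E N 1 (one_dvd N))) ^ (6 * k)
        - (φ4 E N q (jE E N 1 (one_dvd N)) ^ 4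
            * (φ4 E N q (jE E N 1 (one_dvd N)) - 1728) ^ 3) ^ k * U) * U⁻¹ ∈ V.nonunits) :
    ((γ4 E N q (t4E E N h4) - φ4 E N q (t4E E N h4)) ^ (6 * k)
        - (φ4 E N q (t4E E N h4) ^ 2 * (φ4 E N q (t4E E N h4) + 16) ^ 5) ^ k * U) * U⁻¹
      ∈ V.nonunits := by
  obtain ⟨-, h2, hx⟩ := reg4_congr hV' hcomap h4 c1 c2 c4
  exact hres_transfer4_of_hom E N (φ4 E N q) (γ4 E N q) V h4 U k
    (valuation_φ4_t4E hV' hcomap h4) (valuation_φ4_t4E_add hV' hcomap h4)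
    (valuation_φ4_jE_one hV' hcomap) (valuation_φ4_jE_sub hV' hcomap) h2 hx hres

end Concrete

end Fermat.Agent.S36.H994

end
end
-- ===== PACK-END S36/H994/Plug4.lean

-- ===== PACK-BEGIN S36/H816/SymBase.lean
section




/-!
# S36 / MOD3-SYM, part 1 (helper816): the `(α, β)` table of the Gauss valuations

Levels `N' = M q` and `N = M q²` (`A2/Mod/Spec` vocabulary; in this file the levels are
arbitrary: `N` and `N ℓ`).  `α = heckeAlphaBar E N ℓ` (inclusion), `β = heckeBetaBar E N ℓ`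
(`t ↦ t^ℓ`).

* `isGaussInt_qExpand`, `isGaussInt_of_qExpand` : `f` is Gauss-integral iff `f(t^ℓ)` is;
* `alpha_mem_iff`, `beta_mem_iff` : `V∞(Nℓ).comap α = V∞(N) = V∞(Nℓ).comap β`   (table, row FF);
* `alpha_mem_comap_iff`, `beta_mem_comap_iff` : the same for `V₀ = V∞ ∘ W`       (table, row VV);
* `alpha_beta_comm` : the commuting square `β_{Nℓ} ∘ α_N = α_{Nℓ} ∘ β_N`;
* nonunit versions.
-/

set_option autoImplicit false
set_option linter.unusedSectionVars false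
set_option linter.style.haveILetI false
set_option synthInstance.maxHeartbeats 400000
set_option maxHeartbeats 1600000

noncomputable section

namespace Fermat.Agent.S36.H816

open ModularCurve HahnSeries Polynomial
open Fermat.Agent Fermat.Agent.A2.Mod Fermat.Agent.A2.H708

/-! ## Generic: Gauss-integrality and `t ↦ t^ℓ` -/

section Generic

variable {L : Type*} [Field L] [Algebra ℚ L] (A : ValuationSubring L)
variable {F₀ F₁ : IntermediateField ℚ (LaurentSeries ℚ)}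

theorem incl_qExpand (ℓ : ℕ) [NeZero ℓ] (U : LaurentSeries A) :
    incl A (qExpand A ℓ U) = qExpand L ℓ (incl A U) :=
  ModularCurve.coeffMap_qExpand A.subtype ℓ U

theorem red_qExpand (ℓ : ℕ) [NeZero ℓ] (U : LaurentSeries A) :
    red A (qExpand A ℓ U) = qExpand _ ℓ (red A U) :=
  ModularCurve.coeffMap_qExpand (IsLocalRing.residue A) ℓ U

theorem red_qExpand_ne_zero (ℓ : ℕ) [NeZero ℓ] {U : LaurentSeries A} (hU : red A U ≠ 0) :
    red A (qExpand A ℓ U) ≠ 0 := by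
  rw [red_qExpand]
  intro h
  apply hU
  apply qExpand_injective (R := IsLocalRing.ResidueField A) (N := ℓ)
  rw [h, map_zero]

theorem qExpand_cst (ℓ : ℕ) [NeZero ℓ] (c : L) : qExpand L ℓ (cst c) = cst c := by
  show qExpand L ℓ (algebraMap L (LaurentSeries L) c) = algebraMap L (LaurentSeries L) c
  rw [algebraMap_laurentSeries_eq_single, qExpand_single, mul_zero]

/-- `f` Gauss-integral ⟹ `f(t^ℓ)` Gauss-integral. -/
theorem isGaussInt_qExpand (ℓ : ℕ) [NeZero ℓ]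
    (hF : ∀ x ∈ laurentBaseChange L F₀, qExpand L ℓ x ∈ laurentBaseChange L F₁)
    {f : LaurentSeries L} (hf : IsGaussInt A F₀ f) : IsGaussInt A F₁ (qExpand L ℓ f) := by
  obtain ⟨U₁, U₂, h0, hm, he⟩ := hf
  refine ⟨qExpand A ℓ U₁, qExpand A ℓ U₂, red_qExpand_ne_zero A ℓ h0, ?_, ?_⟩
  · rw [incl_qExpand]
    exact hF _ hm
  · rw [incl_qExpand, incl_qExpand, ← map_mul, he]

/-- `f(t^ℓ)` Gauss-integral ⟹ `f` Gauss-integral. -/
theorem isGaussInt_of_qExpand (ℓ : ℕ) [NeZero ℓ] (hgen : IntGen F₀) (hmax : AttainsMax A F₀)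
    (hF : ∀ x ∈ laurentBaseChange L F₀, qExpand L ℓ x ∈ laurentBaseChange L F₁)
    {f : LaurentSeries L} (hfF : f ∈ laurentBaseChange L F₀)
    (hf : IsGaussInt A F₁ (qExpand L ℓ f)) : IsGaussInt A F₀ f := by
  by_cases hf0 : f = 0
  · rw [hf0]; exact IsGaussInt.zero
  obtain ⟨c, U₁, U₂, hc, h₁, h₂, hm₁, hm₂, he⟩ := exists_normal_form hgen hmax hfF hf0
  have he' : qExpand L ℓ f * incl A (qExpand A ℓ U₂) = cst c * incl A (qExpand A ℓ U₁) := by
    rw [incl_qExpand, incl_qExpand, ← map_mul, he, map_mul, qExpand_cst]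
  have hm₂' : incl A (qExpand A ℓ U₂) ∈ laurentBaseChange L F₁ := by
    rw [incl_qExpand]
    exact hF _ hm₂
  have hcA : c ∈ A :=
    (isGaussInt_iff_of_normal_form (red_qExpand_ne_zero A ℓ h₁) (red_qExpand_ne_zero A ℓ h₂)
      hm₂' he').mp hf
  exact (isGaussInt_iff_of_normal_form h₁ h₂ hm₂ he).mpr hcA

end Generic

/-! ## The table for `V∞` and `V₀` -/

section Table

variable {P : ValuationSubring Qb} {E : IntermediateField ℚ Qb}
variable (N ℓ : ℕ) [NeZero N] [NeZero ℓ]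

theorem qExpand_mem_FE {x : LaurentSeries E} (hx : x ∈ FE E N) : qExpand E ℓ x ∈ FE E (N * ℓ) := by
  have h := (heckeBetaBar E N ℓ ⟨x, hx⟩).2
  rw [coe_heckeBetaBar] at h
  exact h

variable {N ℓ}

/-- Row FF, column `α`: `V∞(Nℓ).comap α = V∞(N)`. -/
theorem alpha_mem_iff [IsDiscreteValuationRing (RE P E)] {VN : ValuationSubring (FE E N)}
    {V : ValuationSubring (FE E (N * ℓ))} (hVN : IsVinf P E N VN) (hV : IsVinf P E (N * ℓ) V)
    (g : FE E N) : heckeAlphaBar E N ℓ g ∈ V ↔ g ∈ VN := by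
  rw [hV (heckeAlphaBar E N ℓ g), hVN g, coe_heckeAlphaBar]
  constructor
  · exact H378.isGaussInt_descend (RE P E) (intGen_full N)
      (attainsMax_of_isNoetherianRing _ _) (H378.FE_le E N ℓ) g.2
  · exact H378.isGaussInt_mono (RE P E) (H378.FE_le E N ℓ)

/-- Row FF, column `β`: `V∞(Nℓ).comap β = V∞(N)`. -/
theorem beta_mem_iff [IsDiscreteValuationRing (RE P E)] {VN : ValuationSubring (FE E N)}
    {V : ValuationSubring (FE E (N * ℓ))} (hVN : IsVinf P E N VN) (hV : IsVinf P E (N * ℓ) V)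
    (g : FE E N) : heckeBetaBar E N ℓ g ∈ V ↔ g ∈ VN := by
  rw [hV (heckeBetaBar E N ℓ g), hVN g, coe_heckeBetaBar]
  constructor
  · exact isGaussInt_of_qExpand (RE P E) ℓ (intGen_full N)
      (attainsMax_of_isNoetherianRing _ _) (fun x hx => qExpand_mem_FE N ℓ hx) g.2
  · exact isGaussInt_qExpand (RE P E) ℓ (fun x hx => qExpand_mem_FE N ℓ hx)

/-- A field homomorphism `φ` with `V.comap φ = V'` also matches the nonunits. -/
theorem mem_nonunits_iff_of_comap {F F' : Type*} [Field F] [Field F'] (φ : F' →+* F)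
    {V : ValuationSubring F} {V' : ValuationSubring F'} (h : ∀ g, φ g ∈ V ↔ g ∈ V') (g : F') :
    φ g ∈ V.nonunits ↔ g ∈ V'.nonunits := by
  rw [ValuationSubring.mem_nonunits_iff_or, ValuationSubring.mem_nonunits_iff_or,
    map_eq_zero, ← map_inv₀, h]

/-- Row VV: `V₀(Nℓ).comap α = V₀(N)` and `V₀(Nℓ).comap β = V₀(N)`, `V₀ = V∞ ∘ W`. -/
theorem alpha_mem_comap_iff [IsDiscreteValuationRing (RE P E)]
    {VN : ValuationSubring (FE E N)} {V : ValuationSubring (FE E (N * ℓ))}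
    (hVN : IsVinf P E N VN) (hV : IsVinf P E (N * ℓ) V)
    {WN : FE E N ≃ₐ[E] FE E N} {W : FE E (N * ℓ) ≃ₐ[E] FE E (N * ℓ)}
    (hWN : IsFricke E N WN) (hW : IsFricke E (N * ℓ) W) (g : FE E N) :
    heckeAlphaBar E N ℓ g ∈ V.comap (W : FE E (N * ℓ) →+* FE E (N * ℓ)) ↔
      g ∈ VN.comap (WN : FE E N →+* FE E N) := by
  rw [ValuationSubring.mem_comap, ValuationSubring.mem_comap]
  show W (heckeAlphaBar E N ℓ g) ∈ V ↔ WN g ∈ VN
  rw [(H553.frickeCompat E N ℓ WN W hWN hW g).1]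
  exact beta_mem_iff hVN hV (WN g)

theorem beta_mem_comap_iff [IsDiscreteValuationRing (RE P E)]
    {VN : ValuationSubring (FE E N)} {V : ValuationSubring (FE E (N * ℓ))}
    (hVN : IsVinf P E N VN) (hV : IsVinf P E (N * ℓ) V)
    {WN : FE E N ≃ₐ[E] FE E N} {W : FE E (N * ℓ) ≃ₐ[E] FE E (N * ℓ)}
    (hWN : IsFricke E N WN) (hW : IsFricke E (N * ℓ) W) (g : FE E N) :
    heckeBetaBar E N ℓ g ∈ V.comap (W : FE E (N * ℓ) →+* FE E (N * ℓ)) ↔
      g ∈ VN.comap (WN : FE E N →+* FE E N) := by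
  rw [ValuationSubring.mem_comap, ValuationSubring.mem_comap]
  show W (heckeBetaBar E N ℓ g) ∈ V ↔ WN g ∈ VN
  rw [(H553.frickeCompat E N ℓ WN W hWN hW g).2]
  exact alpha_mem_iff hVN hV (WN g)

/-- The commuting square `β_{Nℓ} ∘ α_N = α_{Nℓ} ∘ β_N` (both are `t ↦ t^ℓ`). -/
theorem alpha_beta_comm (g : FE E N) :
    heckeBetaBar E (N * ℓ) ℓ (heckeAlphaBar E N ℓ g) =
      heckeAlphaBar E (N * ℓ) ℓ (heckeBetaBar E N ℓ g) := by
  apply Subtype.ext
  rw [coe_heckeBetaBar, coe_heckeAlphaBar, coe_heckeAlphaBar, coe_heckeBetaBar]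

end Table

end Fermat.Agent.S36.H816

end

end
-- ===== PACK-END S36/H816/SymBase.lean

-- ===== PACK-BEGIN S36/Mod3/H276/CuspChart.lean
section




/-!
# S36 / MOD3, cell REG (R-I): the chart at infinity at the cusps (helper276)

Concrete objects of `Mod3/Spec.lean`: `j = j1`, `j_q = jq`, `j_{q²} = jqq`, `x = x3E = j j_q j_{q²}`
at level `M q q`; `Bi = chart R {x⁻¹}`.

* `tcusp = (j_{q²} - j) j_q / (j ^ q j_{q²})` — the local parameter of the middle component at its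
  cusps; `tcusp_mem_chart : tcusp ∈ Bi`;
* `zcusp = j_q / (j ^ (q - 1) j_{q²})`, `eab = j_q / j ^ q`, `eba = j / j_q ^ q`,
  `ebc = j_{q²} / j_q ^ q`, `ecb = j_q / j_{q²} ^ q` : all in `Bi`; `tcusp = eab - zcusp`;
* `inv_mem_of_cusp` : a closed point `𝔪` of `Bi` with `x⁻¹ ∈ 𝔪` contains `j⁻¹`, `j_q⁻¹`,
  `j_{q²}⁻¹`;
* `one_add_not_mem_of_cusp` : hence `1 + j⁻¹ c ∉ 𝔪` for every `c ∈ Bi`
  (`(1 - 1728 / j) ^ n ∉ 𝔪`, `H(j) / j ^ (q - 1) ∉ 𝔪` for `H` monic of degree `q - 1`).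

Only `q` prime is used (`S28.H807.nonempty_modPolyData`, `S15.H386.isModularShape_of_modPolyData`,
`S15.H962.val_root_of_isModularShape`).
-/

set_option autoImplicit false
set_option linter.style.haveILetI false
set_option linter.unusedSectionVars false
set_option synthInstance.maxHeartbeats 400000
set_option maxHeartbeats 1600000

noncomputable section

namespace Fermat.Agent.S36.Mod3.H276

open ModularCurve Polynomial
open Fermat.Agent.S18.H138 (chart mem_chart_of_mem)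
open Fermat.Agent
open Fermat.Agent.S15.H962 (IsModularShape eval2)

variable (P : ValuationSubring A2.Qb) (E : IntermediateField ℚ A2.Qb) (M q : ℕ)
  [NeZero M] [NeZero q] [NeZero (M * q)]

/-! ## The elements -/

/-- The local parameter of the middle component at its cusps. -/
def tcusp : A2.Mod.FE E (M * q * q) :=
  (jqq E M q - j1 E M q) * jq E M q * (j1 E M q ^ q * jqq E M q)⁻¹

/-- `j_q / (j ^ (q - 1) j_{q²})`. -/
def zcusp : A2.Mod.FE E (M * q * q) :=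
  jq E M q * (j1 E M q ^ (q - 1) * jqq E M q)⁻¹

/-- `j_q / j ^ q`. -/
def eab : A2.Mod.FE E (M * q * q) := jq E M q * (j1 E M q ^ q)⁻¹

/-- `j / j_q ^ q`. -/
def eba : A2.Mod.FE E (M * q * q) := j1 E M q * (jq E M q ^ q)⁻¹

/-- `j_{q²} / j_q ^ q`. -/
def ebc : A2.Mod.FE E (M * q * q) := jqq E M q * (jq E M q ^ q)⁻¹

/-- `j_q / j_{q²} ^ q`. -/
def ecb : A2.Mod.FE E (M * q * q) := jq E M q * (jqq E M q ^ q)⁻¹

theorem j1_ne_zero : j1 E M q ≠ 0 := A2.Mod.H873.jE_ne_zero E _ _ _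

theorem jq_ne_zero : jq E M q ≠ 0 := A2.Mod.H873.jE_ne_zero E _ _ _

theorem jqq_ne_zero : jqq E M q ≠ 0 :=
  haveI : NeZero (q * q) := ⟨Nat.mul_ne_zero (NeZero.ne q) (NeZero.ne q)⟩
  A2.Mod.H873.jE_ne_zero E _ _ _

theorem x3E_ne_zero : x3E E M q ≠ 0 :=
  mul_ne_zero (mul_ne_zero (j1_ne_zero E M q) (jq_ne_zero E M q)) (jqq_ne_zero E M q)

theorem tcusp_eq (hq : 0 < q) : tcusp E M q = eab E M q - zcusp E M q := by
  have h1 := j1_ne_zero E M q
  have h3 := jqq_ne_zero E M q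
  have hqq : j1 E M q ^ q = j1 E M q ^ (q - 1) * j1 E M q := by
    rw [← pow_succ]
    congr 1
    omega
  unfold tcusp eab zcusp
  rw [hqq]
  field_simp

/-! ## The modular equations in the `eval2` convention -/

section ModEq

variable (D : S28.ModPolyData q)

theorem eval2_j1_jq : eval2 D.Φ (j1 E M q) (jq E M q) = 0 :=
  (eval2_eq_aeval D.Φ _ _).trans (H189.modEq_jq_j E M q D)

theorem eval2_jq_j1 : eval2 D.Φ (jq E M q) (j1 E M q) = 0 :=
  (eval2_eq_aeval D.Φ _ _).trans (H189.modEq_j_jq E M q D)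

theorem eval2_jq_jqq : eval2 D.Φ (jq E M q) (jqq E M q) = 0 :=
  (eval2_eq_aeval D.Φ _ _).trans (H189.modEq_jqq_jq E M q D)

theorem eval2_jqq_jq : eval2 D.Φ (jqq E M q) (jq E M q) = 0 :=
  (eval2_eq_aeval D.Φ _ _).trans (H189.modEq_jq_jqq E M q D)

end ModEq

/-! ## Membership in the chart at infinity -/

section Mem

variable (hq : q.Prime)
include hq

/-- the inverses of `j`, `j_q`, `j_{q²}` lie in every valuation ring containing `x⁻¹` -/
theorem inv_mem_of_inv_mem (V : ValuationSubring (A2.Mod.FE E (M * q * q)))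
    (hV : (x3E E M q)⁻¹ ∈ V) :
    (j1 E M q)⁻¹ ∈ V ∧ (jq E M q)⁻¹ ∈ V ∧ (jqq E M q)⁻¹ ∈ V :=
  H189.inv_mem_of_x3_inv_mem E M q hq V hV

/-- **`tcusp ∈ Bi`.** -/
theorem tcusp_mem_chart :
    tcusp E M q ∈ chart (A2.RE P E) ({(x3E E M q)⁻¹} : Set (A2.Mod.FE E (M * q * q))) := by
  obtain ⟨D⟩ := S28.H807.nonempty_modPolyData q hq
  have hΦ := S15.H386.isModularShape_of_modPolyData D hq.one_lt
  refine H189.mem_chart_of_forall_valuationSubring fun V hV => ?_
  obtain ⟨hu, -, hr⟩ := inv_mem_of_inv_mem E M q hq V hV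
  exact tcusp_mem hq.two_le hΦ (eval2_j1_jq E M q D) (eval2_jq_jqq E M q D) V hu hr

/-- `j_q / j ^ q ∈ Bi`. -/
theorem eab_mem_chart :
    eab E M q ∈ chart (A2.RE P E) ({(x3E E M q)⁻¹} : Set (A2.Mod.FE E (M * q * q))) := by
  obtain ⟨D⟩ := S28.H807.nonempty_modPolyData q hq
  have hΦ := S15.H386.isModularShape_of_modPolyData D hq.one_lt
  refine H189.mem_chart_of_forall_valuationSubring fun V hV => ?_
  obtain ⟨hu, -, -⟩ := inv_mem_of_inv_mem E M q hq V hV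
  exact pair_mem hq.pos hΦ (eval2_j1_jq E M q D) V hu

/-- `j / j_q ^ q ∈ Bi`. -/
theorem eba_mem_chart :
    eba E M q ∈ chart (A2.RE P E) ({(x3E E M q)⁻¹} : Set (A2.Mod.FE E (M * q * q))) := by
  obtain ⟨D⟩ := S28.H807.nonempty_modPolyData q hq
  have hΦ := S15.H386.isModularShape_of_modPolyData D hq.one_lt
  refine H189.mem_chart_of_forall_valuationSubring fun V hV => ?_
  obtain ⟨-, hs, -⟩ := inv_mem_of_inv_mem E M q hq V hV
  exact pair_mem' hq.pos hΦ (eval2_j1_jq E M q D) V hs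

/-- `j_{q²} / j_q ^ q ∈ Bi`. -/
theorem ebc_mem_chart :
    ebc E M q ∈ chart (A2.RE P E) ({(x3E E M q)⁻¹} : Set (A2.Mod.FE E (M * q * q))) := by
  obtain ⟨D⟩ := S28.H807.nonempty_modPolyData q hq
  have hΦ := S15.H386.isModularShape_of_modPolyData D hq.one_lt
  refine H189.mem_chart_of_forall_valuationSubring fun V hV => ?_
  obtain ⟨-, hs, -⟩ := inv_mem_of_inv_mem E M q hq V hV
  exact pair_mem hq.pos hΦ (eval2_jq_jqq E M q D) V hs

/-- `j_q / j_{q²} ^ q ∈ Bi`. -/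
theorem ecb_mem_chart :
    ecb E M q ∈ chart (A2.RE P E) ({(x3E E M q)⁻¹} : Set (A2.Mod.FE E (M * q * q))) := by
  obtain ⟨D⟩ := S28.H807.nonempty_modPolyData q hq
  have hΦ := S15.H386.isModularShape_of_modPolyData D hq.one_lt
  refine H189.mem_chart_of_forall_valuationSubring fun V hV => ?_
  obtain ⟨-, -, hr⟩ := inv_mem_of_inv_mem E M q hq V hV
  exact pair_mem' hq.pos hΦ (eval2_jq_jqq E M q D) V hr

/-- `j_q / (j ^ (q - 1) j_{q²}) ∈ Bi`. -/
theorem zcusp_mem_chart :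
    zcusp E M q ∈ chart (A2.RE P E) ({(x3E E M q)⁻¹} : Set (A2.Mod.FE E (M * q * q))) := by
  have h1 : zcusp E M q = eab E M q - tcusp E M q := by
    rw [tcusp_eq E M q hq.pos]
    ring
  rw [h1]
  exact sub_mem (eab_mem_chart P E M q hq) (tcusp_mem_chart P E M q hq)

/-! ## The cusps -/

/-- **At a cusp `j⁻¹`, `j_q⁻¹`, `j_{q²}⁻¹` vanish.** -/
theorem inv_mem_of_cusp
    (𝔪 : Ideal (chart (A2.RE P E) ({(x3E E M q)⁻¹} : Set (A2.Mod.FE E (M * q * q)))))
    (h𝔪 : 𝔪.IsMaximal)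
    (hx : (⟨(x3E E M q)⁻¹, mem_chart_of_mem rfl⟩ :
      chart (A2.RE P E) ({(x3E E M q)⁻¹} : Set (A2.Mod.FE E (M * q * q)))) ∈ 𝔪) :
    (⟨(j1 E M q)⁻¹, H189.j1_inv_mem_chart P E M q hq⟩ :
        chart (A2.RE P E) ({(x3E E M q)⁻¹} : Set (A2.Mod.FE E (M * q * q)))) ∈ 𝔪 ∧
      (⟨(jq E M q)⁻¹, H189.jq_inv_mem_chart' P E M q hq⟩ :
        chart (A2.RE P E) ({(x3E E M q)⁻¹} : Set (A2.Mod.FE E (M * q * q)))) ∈ 𝔪 ∧
      (⟨(jqq E M q)⁻¹, H189.jqq_inv_mem_chart' P E M q hq⟩ :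
        chart (A2.RE P E) ({(x3E E M q)⁻¹} : Set (A2.Mod.FE E (M * q * q)))) ∈ 𝔪 := by
  obtain ⟨D⟩ := S28.H807.nonempty_modPolyData q hq
  have hΦ := S15.H386.isModularShape_of_modPolyData D hq.one_lt
  obtain ⟨V, -, hV⟩ := exists_dominating _ 𝔪 h𝔪
  have hxV : (j1 E M q * jq E M q * jqq E M q)⁻¹ ∈ V.nonunits := (hV _).mp hx
  obtain ⟨h1, h2, h3⟩ := inv_mem_nonunits_of_cusp hq.pos hΦ (eval2_j1_jq E M q D)
    (eval2_jq_jqq E M q D) (x3E_ne_zero E M q) V hxV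
  exact ⟨(hV _).mpr h1, (hV _).mpr h2, (hV _).mpr h3⟩

/-- **Units at the cusps**: `1 + j⁻¹ c ∉ 𝔪`. -/
theorem one_add_not_mem_of_cusp
    (𝔪 : Ideal (chart (A2.RE P E) ({(x3E E M q)⁻¹} : Set (A2.Mod.FE E (M * q * q)))))
    (h𝔪 : 𝔪.IsMaximal)
    (hx : (⟨(x3E E M q)⁻¹, mem_chart_of_mem rfl⟩ :
      chart (A2.RE P E) ({(x3E E M q)⁻¹} : Set (A2.Mod.FE E (M * q * q)))) ∈ 𝔪)
    (g c : chart (A2.RE P E) ({(x3E E M q)⁻¹} : Set (A2.Mod.FE E (M * q * q))))
    (hg : (g : A2.Mod.FE E (M * q * q)) = 1 + (j1 E M q)⁻¹ * c) : g ∉ 𝔪 := by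
  intro hgm
  have hu := (inv_mem_of_cusp P E M q hq 𝔪 h𝔪 hx).1
  have e : g = 1 + (⟨(j1 E M q)⁻¹, H189.j1_inv_mem_chart P E M q hq⟩ :
      chart (A2.RE P E) ({(x3E E M q)⁻¹} : Set (A2.Mod.FE E (M * q * q)))) * c :=
    Subtype.ext (by rw [hg]; rfl)
  have h1 : (1 : chart (A2.RE P E) ({(x3E E M q)⁻¹} : Set (A2.Mod.FE E (M * q * q)))) ∈ 𝔪 := by
    have : (1 : chart (A2.RE P E) ({(x3E E M q)⁻¹} : Set (A2.Mod.FE E (M * q * q)))) =
        g - (⟨(j1 E M q)⁻¹, H189.j1_inv_mem_chart P E M q hq⟩ :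
          chart (A2.RE P E) ({(x3E E M q)⁻¹} : Set (A2.Mod.FE E (M * q * q)))) * c := by
      rw [e]
      ring
    rw [this]
    exact 𝔪.sub_mem hgm (𝔪.mul_mem_right _ hu)
  exact h𝔪.ne_top ((Ideal.eq_top_iff_one _).mpr h1)

/-! ## `tcusp` is a uniformiser of the middle component -/

/-- `j`, `j_q`, `j_{q²}` are units of every valuation ring at which `x` is a unit. -/
theorem unitAt_of_x_unit (V : ValuationSubring (A2.Mod.FE E (M * q * q)))
    (hxV : Eng.UnitAt V (x3E E M q)) :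
    Eng.UnitAt V (j1 E M q) ∧ Eng.UnitAt V (jq E M q) ∧ Eng.UnitAt V (jqq E M q) := by
  obtain ⟨h1, h2, h3⟩ := H189.mem_of_x3_mem E M q hq V hxV.2.1
  obtain ⟨h1', h2', h3'⟩ := H189.inv_mem_of_x3_inv_mem E M q hq V hxV.2.2
  exact ⟨⟨j1_ne_zero E M q, h1, h1'⟩, ⟨jq_ne_zero E M q, h2, h2'⟩,
    ⟨jqq_ne_zero E M q, h3, h3'⟩⟩

/-- The unit `ε = j_q / (j ^ q j_{q²})` with `tcusp = (j_{q²} - j) ε`. -/
theorem tcusp_eq_mul : tcusp E M q =
    (jqq E M q - j1 E M q) * (jq E M q * (j1 E M q ^ q * jqq E M q)⁻¹) := by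
  unfold tcusp
  ring

theorem eps_unitAt (V : ValuationSubring (A2.Mod.FE E (M * q * q)))
    (hxV : Eng.UnitAt V (x3E E M q)) :
    Eng.UnitAt V (jq E M q * (j1 E M q ^ q * jqq E M q)⁻¹) := by
  obtain ⟨⟨a0, a1, a2⟩, ⟨b0, b1, b2⟩, ⟨c0, c1, c2⟩⟩ := unitAt_of_x_unit E M q hq V hxV
  refine ⟨mul_ne_zero b0 (inv_ne_zero (mul_ne_zero (pow_ne_zero q a0) c0)), ?_, ?_⟩
  · rw [mul_inv, ← inv_pow]
    exact V.mul_mem _ _ b1 (V.mul_mem _ _ (V.pow_mem a2 q) c2)
  · rw [mul_inv, inv_inv]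
    exact V.mul_mem _ _ b2 (V.mul_mem _ _ (V.pow_mem a1 q) c1)

end Mem

/-- A uniformiser times a unit is a uniformiser. -/
theorem unifAt_mul_unit {F : Type*} [Field F] {V : ValuationSubring F} {t ε : F}
    (ht : Eng.UnifAt V t) (hε : Eng.UnitAt V ε) : Eng.UnifAt V (t * ε) := by
  obtain ⟨t0, t1, t2⟩ := ht
  obtain ⟨e0, e1, e2⟩ := hε
  refine ⟨mul_ne_zero t0 e0, ?_, fun f hf => ?_⟩
  · rw [V.mem_nonunits_iff] at t1 ⊢
    rw [map_mul]
    have h1 : V.valuation ε ≤ 1 := (V.valuation_le_one_iff _).mpr e1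
    calc V.valuation t * V.valuation ε ≤ V.valuation t * 1 := by gcongr
      _ = V.valuation t := mul_one _
      _ < 1 := t1
  · have e : f * (t * ε)⁻¹ = f * t⁻¹ * ε⁻¹ := by
      rw [mul_inv, mul_assoc]
    rw [e]
    exact V.mul_mem _ _ (t2 f hf) e2

/-- **`tcusp` is a uniformiser of the middle component** (from `PartVal.x_unit₂` and
`PartVT.pi_unif`). -/
theorem tcusp_unifAt (hq : q.Prime) (V₂ : ValuationSubring (A2.Mod.FE E (M * q * q)))
    (hxV : Eng.UnitAt V₂ (x3E E M q)) (hπ : Eng.UnifAt V₂ (jqq E M q - j1 E M q)) :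
    Eng.UnifAt V₂ (tcusp E M q) := by
  rw [tcusp_eq_mul E M q hq]
  exact unifAt_mul_unit hπ (eps_unitAt E M q hq V₂ hxV)

end Fermat.Agent.S36.Mod3.H276

end

end
-- ===== PACK-END S36/Mod3/H276/CuspChart.lean

-- ===== PACK-BEGIN S59/H105/OpsComm.lean
section






/-!
# Row S59, cell TW, leaf CTRL (helper105): the generators `T_ℓ - c`, `U_q - α` and the
degeneracy maps

* `tOpL`, `uOpL` : `T_ℓ - c`, `U_q - α` on `X_K(𝒪)` with the primality as an explicit argument;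
  they commute with each other;
* `CrossStatement` : `U_q'` (`q' ∣ N`) commutes with `r₁, r₂, t₁, t₂` between the levels `N` and
  `N q` (leaf of helper719);
* `tOpL_r₁`, …, `uOpL_t₂` : the degeneracy maps intertwine the generators;
* the dictionary `TKL = TlL`, `UKL = UqL` at `K = Γ₀(M)`.
-/

set_option autoImplicit false

namespace Fermat.Agent.S59.H105

open IsLocalRing CongruenceSubgroup
open Fermat.Agent.S29.H642 Fermat.Agent.S41 Fermat.Agent.S41.Spec
open Fermat.Agent.S59.TW.H653 Fermat.Agent.S59.TW.Aut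
open scoped MatrixGroups

section Ops

variable {M : ℕ} {K : Subgroup SL(2, ℤ)} (hK : IsMid M K) (𝒪 : Type) [CommRing 𝒪]

/-- `T_ℓ - c`. -/
noncomputable def tOpL (ℓ : ℕ) (hℓ : ℓ.Prime) (hℓM : ¬ ℓ ∣ M) (c : 𝒪) :
    (Additive K →+ 𝒪) →ₗ[𝒪] (Additive K →+ 𝒪) :=
  haveI : Fact ℓ.Prime := ⟨hℓ⟩
  shiftE 𝒪 (TKL hK 𝒪 hℓM) c

/-- `U_q - α`. -/
noncomputable def uOpL (q : ℕ) (hq : q.Prime) (hqM : q ∣ M) (α : 𝒪) :
    (Additive K →+ 𝒪) →ₗ[𝒪] (Additive K →+ 𝒪) :=
  haveI : Fact q.Prime := ⟨hq⟩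
  shiftE 𝒪 (UKL hK 𝒪 hqM) α

variable {𝒪}

theorem tOpL_eq (ℓ : ℕ) [Fact ℓ.Prime] (hℓM : ¬ ℓ ∣ M) (c : 𝒪) :
    tOpL hK 𝒪 ℓ Fact.out hℓM c = shiftE 𝒪 (TKL hK 𝒪 hℓM) c := rfl

theorem uOpL_eq (q : ℕ) [Fact q.Prime] (hqM : q ∣ M) (α : 𝒪) :
    uOpL hK 𝒪 q Fact.out hqM α = shiftE 𝒪 (UKL hK 𝒪 hqM) α := rfl

theorem tOpL_tOpL (ℓ ℓ' : ℕ) (hℓ : ℓ.Prime) (hℓ' : ℓ'.Prime) (hℓM : ¬ ℓ ∣ M) (hℓM' : ¬ ℓ' ∣ M)
    (c c' : 𝒪) (x : Additive K →+ 𝒪) :
    tOpL hK 𝒪 ℓ hℓ hℓM c (tOpL hK 𝒪 ℓ' hℓ' hℓM' c' x) =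
      tOpL hK 𝒪 ℓ' hℓ' hℓM' c' (tOpL hK 𝒪 ℓ hℓ hℓM c x) := by
  haveI : Fact ℓ.Prime := ⟨hℓ⟩
  haveI : Fact ℓ'.Prime := ⟨hℓ'⟩
  exact shiftE_comm _ _ c c' (fun y => TK_comm hK hℓM' hℓM y) x

theorem uOpL_tOpL (q ℓ : ℕ) (hq : q.Prime) (hℓ : ℓ.Prime) (hqM : q ∣ M) (hℓM : ¬ ℓ ∣ M)
    (α c : 𝒪) (x : Additive K →+ 𝒪) :
    uOpL hK 𝒪 q hq hqM α (tOpL hK 𝒪 ℓ hℓ hℓM c x) =
      tOpL hK 𝒪 ℓ hℓ hℓM c (uOpL hK 𝒪 q hq hqM α x) := by
  haveI : Fact ℓ.Prime := ⟨hℓ⟩
  haveI : Fact q.Prime := ⟨hq⟩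
  exact shiftE_comm _ _ α c (fun y => TK_UK_comm hK hℓM hqM y) x

theorem uOpL_uOpL (q q' : ℕ) (hq : q.Prime) (hq' : q'.Prime) (hqM : q ∣ M) (hqM' : q' ∣ M)
    (α α' : 𝒪) (x : Additive K →+ 𝒪) :
    uOpL hK 𝒪 q hq hqM α (uOpL hK 𝒪 q' hq' hqM' α' x) =
      uOpL hK 𝒪 q' hq' hqM' α' (uOpL hK 𝒪 q hq hqM α x) := by
  haveI : Fact q.Prime := ⟨hq⟩
  haveI : Fact q'.Prime := ⟨hq'⟩
  exact shiftE_comm _ _ α α' (fun y => UK_comm hK hqM' hqM y) x

/-- A linear map commuting with `f` commutes with `f - c`. -/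
theorem comm_shiftE {X : Type*} [AddCommGroup X] [Module 𝒪 X] (e f : X →ₗ[𝒪] X) (c : 𝒪)
    (h : ∀ x, e (f x) = f (e x)) (x : X) : e (shiftE 𝒪 f c x) = shiftE 𝒪 f c (e x) := by
  simp only [shiftE_apply, map_sub, map_smul, h]

end Ops

section Dict

variable (𝒪 : Type) [CommRing 𝒪] {M : ℕ}

theorem TKL_eq_TlL {ℓ : ℕ} [Fact ℓ.Prime] (hℓ : ¬ ℓ ∣ M) :
    TKL (isMid_Gamma0 M) 𝒪 hℓ = TlL 𝒪 𝒪 hℓ :=
  LinearMap.ext fun φ => TK_Gamma0 hℓ φ

theorem UKL_eq_UqL {q : ℕ} [Fact q.Prime] (hq : q ∣ M) :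
    UKL (isMid_Gamma0 M) 𝒪 hq = UqL 𝒪 𝒪 hq :=
  LinearMap.ext fun φ => by
    rw [UKL_apply, UK_Gamma0_eq hq]
    rfl

end Dict

/-- **CROSS** (leaf of helper719): `U_q'`, `q' ∣ N`, commutes with the degeneracy maps between the
levels `N` and `N q`. -/
def CrossStatement : Prop :=
  ∀ (N q q' : ℕ) [Fact q.Prime] [Fact q'.Prime], ¬ q ∣ N → q' ∣ N →
    ∀ (A : Type) [AddCommGroup A],
      (∀ φ : Additive (Gamma0 N) →+ A,
        UK (Gamma0 (N * q)) q' (r₁ N q φ) = r₁ N q (UK (Gamma0 N) q' φ) ∧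
        UK (Gamma0 (N * q)) q' (r₂ N q φ) = r₂ N q (UK (Gamma0 N) q' φ)) ∧
      (∀ ψ : Additive (Gamma0 (N * q)) →+ A,
        UK (Gamma0 N) q' (t₁ N q ψ) = t₁ N q (UK (Gamma0 (N * q)) q' ψ) ∧
        UK (Gamma0 N) q' (t₂ N q ψ) = t₂ N q (UK (Gamma0 (N * q)) q' ψ))

section Inter

variable (𝒪 : Type) [CommRing 𝒪] {N q : ℕ}

theorem tOpL_r₁ (ℓ : ℕ) (hℓ : ℓ.Prime) (hℓN : ¬ ℓ ∣ N) (hℓNq : ¬ ℓ ∣ N * q) (c : 𝒪)
    (φ : Additive (Gamma0 N) →+ 𝒪) :
    r₁L 𝒪 𝒪 N q (tOpL (isMid_Gamma0 N) 𝒪 ℓ hℓ hℓN c φ) =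
      tOpL (isMid_Gamma0 (N * q)) 𝒪 ℓ hℓ hℓNq c (r₁L 𝒪 𝒪 N q φ) := by
  haveI : Fact ℓ.Prime := ⟨hℓ⟩
  show r₁L 𝒪 𝒪 N q (shiftE 𝒪 (TKL _ 𝒪 hℓN) c φ) = shiftE 𝒪 (TKL _ 𝒪 hℓNq) c (r₁L 𝒪 𝒪 N q φ)
  rw [shiftE_apply, shiftE_apply, map_sub, map_smul, TKL_apply, TKL_apply, TK_Gamma0 hℓN,
    TK_Gamma0 hℓNq, r₁L_apply, r₁L_apply, (H281.heckeRestrict N q ℓ hℓN hℓNq 𝒪 φ).1]

theorem tOpL_r₂ (ℓ : ℕ) (hℓ : ℓ.Prime) (hℓN : ¬ ℓ ∣ N) (hℓNq : ¬ ℓ ∣ N * q) (c : 𝒪)
    (φ : Additive (Gamma0 N) →+ 𝒪) :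
    r₂L 𝒪 𝒪 N q (tOpL (isMid_Gamma0 N) 𝒪 ℓ hℓ hℓN c φ) =
      tOpL (isMid_Gamma0 (N * q)) 𝒪 ℓ hℓ hℓNq c (r₂L 𝒪 𝒪 N q φ) := by
  haveI : Fact ℓ.Prime := ⟨hℓ⟩
  show r₂L 𝒪 𝒪 N q (shiftE 𝒪 (TKL _ 𝒪 hℓN) c φ) = shiftE 𝒪 (TKL _ 𝒪 hℓNq) c (r₂L 𝒪 𝒪 N q φ)
  rw [shiftE_apply, shiftE_apply, map_sub, map_smul, TKL_apply, TKL_apply, TK_Gamma0 hℓN,
    TK_Gamma0 hℓNq, r₂L_apply, r₂L_apply, (H281.heckeRestrict N q ℓ hℓN hℓNq 𝒪 φ).2]

theorem tOpL_t₁ (hNq : N * q ≠ 0) (ℓ : ℕ) (hℓ : ℓ.Prime) (hℓN : ¬ ℓ ∣ N) (hℓNq : ¬ ℓ ∣ N * q)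
    (c : 𝒪) (ψ : Additive (Gamma0 (N * q)) →+ 𝒪) :
    t₁L 𝒪 𝒪 N q (tOpL (isMid_Gamma0 (N * q)) 𝒪 ℓ hℓ hℓNq c ψ) =
      tOpL (isMid_Gamma0 N) 𝒪 ℓ hℓ hℓN c (t₁L 𝒪 𝒪 N q ψ) := by
  haveI : Fact ℓ.Prime := ⟨hℓ⟩
  show t₁L 𝒪 𝒪 N q (shiftE 𝒪 (TKL _ 𝒪 hℓNq) c ψ) = shiftE 𝒪 (TKL _ 𝒪 hℓN) c (t₁L 𝒪 𝒪 N q ψ)
  rw [shiftE_apply, shiftE_apply, map_sub, map_smul, TKL_apply, TKL_apply, TK_Gamma0 hℓN,
    TK_Gamma0 hℓNq, t₁L_apply, t₁L_apply, (H761.heckeTransferComm N q ℓ hℓN hℓNq hNq 𝒪 ψ).1]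

theorem tOpL_t₂ (hNq : N * q ≠ 0) (ℓ : ℕ) (hℓ : ℓ.Prime) (hℓN : ¬ ℓ ∣ N) (hℓNq : ¬ ℓ ∣ N * q)
    (c : 𝒪) (ψ : Additive (Gamma0 (N * q)) →+ 𝒪) :
    t₂L 𝒪 𝒪 N q (tOpL (isMid_Gamma0 (N * q)) 𝒪 ℓ hℓ hℓNq c ψ) =
      tOpL (isMid_Gamma0 N) 𝒪 ℓ hℓ hℓN c (t₂L 𝒪 𝒪 N q ψ) := by
  haveI : Fact ℓ.Prime := ⟨hℓ⟩
  show t₂L 𝒪 𝒪 N q (shiftE 𝒪 (TKL _ 𝒪 hℓNq) c ψ) = shiftE 𝒪 (TKL _ 𝒪 hℓN) c (t₂L 𝒪 𝒪 N q ψ)
  rw [shiftE_apply, shiftE_apply, map_sub, map_smul, TKL_apply, TKL_apply, TK_Gamma0 hℓN,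
    TK_Gamma0 hℓNq, t₂L_apply, t₂L_apply, (H761.heckeTransferComm N q ℓ hℓN hℓNq hNq 𝒪 ψ).2]

variable [Fact q.Prime]

theorem uOpL_r₁ (hcross : CrossStatement) (hqN : ¬ q ∣ N) (q' : ℕ) (hq' : q'.Prime)
    (hq'N : q' ∣ N) (hq'Nq : q' ∣ N * q) (α : 𝒪) (φ : Additive (Gamma0 N) →+ 𝒪) :
    r₁L 𝒪 𝒪 N q (uOpL (isMid_Gamma0 N) 𝒪 q' hq' hq'N α φ) =
      uOpL (isMid_Gamma0 (N * q)) 𝒪 q' hq' hq'Nq α (r₁L 𝒪 𝒪 N q φ) := by
  haveI : Fact q'.Prime := ⟨hq'⟩
  show r₁L 𝒪 𝒪 N q (shiftE 𝒪 (UKL _ 𝒪 hq'N) α φ) = shiftE 𝒪 (UKL _ 𝒪 hq'Nq) α (r₁L 𝒪 𝒪 N q φ)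
  rw [shiftE_apply, shiftE_apply, map_sub, map_smul, UKL_apply, UKL_apply, r₁L_apply,
    r₁L_apply, ((hcross N q q' hqN hq'N 𝒪).1 φ).1]

theorem uOpL_r₂ (hcross : CrossStatement) (hqN : ¬ q ∣ N) (q' : ℕ) (hq' : q'.Prime)
    (hq'N : q' ∣ N) (hq'Nq : q' ∣ N * q) (α : 𝒪) (φ : Additive (Gamma0 N) →+ 𝒪) :
    r₂L 𝒪 𝒪 N q (uOpL (isMid_Gamma0 N) 𝒪 q' hq' hq'N α φ) =
      uOpL (isMid_Gamma0 (N * q)) 𝒪 q' hq' hq'Nq α (r₂L 𝒪 𝒪 N q φ) := by
  haveI : Fact q'.Prime := ⟨hq'⟩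
  show r₂L 𝒪 𝒪 N q (shiftE 𝒪 (UKL _ 𝒪 hq'N) α φ) = shiftE 𝒪 (UKL _ 𝒪 hq'Nq) α (r₂L 𝒪 𝒪 N q φ)
  rw [shiftE_apply, shiftE_apply, map_sub, map_smul, UKL_apply, UKL_apply, r₂L_apply,
    r₂L_apply, ((hcross N q q' hqN hq'N 𝒪).1 φ).2]

theorem uOpL_t₁ (hcross : CrossStatement) (hqN : ¬ q ∣ N) (q' : ℕ) (hq' : q'.Prime)
    (hq'N : q' ∣ N) (hq'Nq : q' ∣ N * q) (α : 𝒪) (ψ : Additive (Gamma0 (N * q)) →+ 𝒪) :
    t₁L 𝒪 𝒪 N q (uOpL (isMid_Gamma0 (N * q)) 𝒪 q' hq' hq'Nq α ψ) =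
      uOpL (isMid_Gamma0 N) 𝒪 q' hq' hq'N α (t₁L 𝒪 𝒪 N q ψ) := by
  haveI : Fact q'.Prime := ⟨hq'⟩
  show t₁L 𝒪 𝒪 N q (shiftE 𝒪 (UKL _ 𝒪 hq'Nq) α ψ) = shiftE 𝒪 (UKL _ 𝒪 hq'N) α (t₁L 𝒪 𝒪 N q ψ)
  rw [shiftE_apply, shiftE_apply, map_sub, map_smul, UKL_apply, UKL_apply, t₁L_apply,
    t₁L_apply, ((hcross N q q' hqN hq'N 𝒪).2 ψ).1]

theorem uOpL_t₂ (hcross : CrossStatement) (hqN : ¬ q ∣ N) (q' : ℕ) (hq' : q'.Prime)
    (hq'N : q' ∣ N) (hq'Nq : q' ∣ N * q) (α : 𝒪) (ψ : Additive (Gamma0 (N * q)) →+ 𝒪) :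
    t₂L 𝒪 𝒪 N q (uOpL (isMid_Gamma0 (N * q)) 𝒪 q' hq' hq'Nq α ψ) =
      uOpL (isMid_Gamma0 N) 𝒪 q' hq' hq'N α (t₂L 𝒪 𝒪 N q ψ) := by
  haveI : Fact q'.Prime := ⟨hq'⟩
  show t₂L 𝒪 𝒪 N q (shiftE 𝒪 (UKL _ 𝒪 hq'Nq) α ψ) = shiftE 𝒪 (UKL _ 𝒪 hq'N) α (t₂L 𝒪 𝒪 N q ψ)
  rw [shiftE_apply, shiftE_apply, map_sub, map_smul, UKL_apply, UKL_apply, t₂L_apply,
    t₂L_apply, ((hcross N q q' hqN hq'N 𝒪).2 ψ).2]

end Inter

end Fermat.Agent.S59.H105

end
-- ===== PACK-END S59/H105/OpsComm.lean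

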