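import Fermat.Prelude.Def_ModularCurve_ArithmeticGalois
import Fermat.Agent.Pack.S43MC.G0E22L0
import Fermat.Agent.Pack.S44C.G0E6L0
import Fermat.Agent.Pack.S44C.G0E25L3
import Fermat.Agent.Pack.S44C.G0E4L1
import Fermat.Agent.Pack.S43MC.G0E14L2
import Fermat.Agent.Pack.S44C.G0E22L1
import Fermat.Agent.Pack.S44C.G0E24L1
import Fermat.Agent.Pack.S44C.G0E6L3
import Fermat.Agent.Pack.S43MC.G0E17L2
import Fermat.Agent.Pack.S44C.G0E20L2
import Fermat.Agent.Pack.S43MC.G0E16L0
import Fermat.Agent.Pack.S43MC.G0E20L3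
import Fermat.Agent.Pack.S43MC.G0E22L2
import Fermat.Agent.Pack.S43MC.G0E22L1
import Fermat.Agent.Pack.S44C.G0E17L0
import Fermat.Agent.Pack.S44C.G0E23L3
import Fermat.Agent.Pack.S44C.G0E24L0
import Fermat.Agent.Pack.S43MC.G0E3L2
import Fermat.Agent.Pack.S43MC.G0E4L2
import Fermat.Agent.Pack.S43GC.G0E9L0
import Fermat.Agent.Pack.S43MC.G0E21L1
import Fermat.Agent.Pack.S43MC.G0E22L3
import Fermat.Agent.Pack.S43MC.G0E3L1
import Fermat.Agent.Pack.S43MC.G0E18L0
import Fermat.Agent.Pack.S44C.G0E11L0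
import Fermat.Agent.Pack.S44C.G0E24L2
import Fermat.Agent.Pack.S44C.G0E20L0
import Fermat.Agent.Pack.S44C.G0E18L0
import Fermat.Agent.Pack.S44C.G0E23L2
import Fermat.Agent.Pack.S44C.G0E6L2
import Fermat.Agent.Pack.Fast891

-- ===== PACK-BEGIN S27/H970/PicIso.lean
section


/-!
# S27 / PIC-CL (helper970): isomorphisms and tensor products of the gluing data `O(D)`

* `ofDivisor_isIso_of_sub_mem_principal` : `D - D'` principal `⇒ O(D) ≅ O(D')`;
* `sub_mem_principal_of_isIso` : `O(D) ≅ O(D') ⇒ D - D'` principal;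
-/

set_option autoImplicit false
set_option linter.unusedSectionVars false
set_option linter.style.haveILetI false
universe u

noncomputable section

open AlgebraicCurve

namespace Fermat.Agent.S27.H970

open Fermat.Agent.S25 Fermat.Agent.Lib.RR Fermat.Agent.Lib.RR.H638 Fermat.Agent.Lib.RR.H623

section Orders

variable {K F : Type*} [Field K] [Field F] [Algebra K F] [FF1 K F]

/-- If `c • LOff T D = LOff T D'` then `D' = D - (c)` off `T`. -/
theorem eq_sub_ord_of_mul (T : Finset (Place K F)) (hT : T.Nonempty) (D D' : Divisor K F)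
    (c : F) (hc : c ≠ 0)
    (h1 : ∀ f ∈ LOff (T : Set (Place K F)) D, c * f ∈ LOff (T : Set (Place K F)) D')
    (h2 : ∀ g ∈ LOff (T : Set (Place K F)) D', ∃ f ∈ LOff (T : Set (Place K F)) D, c * f = g)
    (v : Place K F) (hv : v ∉ T) : D' v = D v - v.ord c := by
  have hv' : v ∉ (T : Set (Place K F)) := fun h => hv (Finset.mem_coe.mp h)
  obtain ⟨f, hf, hf0, hfv⟩ := exists_mem_LOff_ord_eq T hT D v hv
  obtain ⟨g, hg, hg0, hgv⟩ := exists_mem_LOff_ord_eq T hT D' v hv
  have e1 := (h1 f hf v hv').le_ord (mul_ne_zero hc hf0)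
  rw [v.ord_mul hc hf0, hfv] at e1
  obtain ⟨f', hf', rfl⟩ := h2 g hg
  have hf'0 : f' ≠ 0 := fun h0 => hg0 (by rw [h0, mul_zero])
  have e2 := (hf' v hv').le_ord hf'0
  rw [v.ord_mul hc hf'0] at hgv
  omega

/-- If `c • LOff T D • LOff T D'` spans `LOff T D''` then `D'' = D + D' - (c)` off `T`. -/
theorem eq_add_sub_ord_of_mul (T : Finset (Place K F)) (hT : T.Nonempty)
    (D D' D'' : Divisor K F) (c : F) (hc : c ≠ 0)
    (h1 : ∀ f ∈ LOff (T : Set (Place K F)) D, ∀ g ∈ LOff (T : Set (Place K F)) D',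
      c * f * g ∈ LOff (T : Set (Place K F)) D'')
    (h2 : ∀ z ∈ LOff (T : Set (Place K F)) D'', z ∈ AddSubgroup.closure
      {z : F | ∃ f ∈ LOff (T : Set (Place K F)) D, ∃ g ∈ LOff (T : Set (Place K F)) D',
        z = c * f * g})
    (v : Place K F) (hv : v ∉ T) : D'' v = D v + D' v - v.ord c := by
  have hv' : v ∉ (T : Set (Place K F)) := fun h => hv (Finset.mem_coe.mp h)
  obtain ⟨f, hf, hf0, hfv⟩ := exists_mem_LOff_ord_eq T hT D v hv
  obtain ⟨g, hg, hg0, hgv⟩ := exists_mem_LOff_ord_eq T hT D' v hv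
  obtain ⟨z, hz, hz0, hzv⟩ := exists_mem_LOff_ord_eq T hT D'' v hv
  have e1 := (h1 f hf g hg v hv').le_ord (mul_ne_zero (mul_ne_zero hc hf0) hg0)
  rw [v.ord_mul (mul_ne_zero hc hf0) hg0, v.ord_mul hc hf0, hfv, hgv] at e1
  have e2 : Big v (v.ord c - D v - D' v) z := by
    refine AddSubgroup.closure_induction (p := fun z _ => Big v (v.ord c - D v - D' v) z)
      ?_ (Big.zero v _) (fun _ _ _ _ ha hb => ha.add hb) (fun _ _ ha => ha.neg) (h2 z hz)
    rintro _ ⟨f', hf', g', hg', rfl⟩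
    have h3 : Big v (v.ord c) c := Big.self v c
    have := (h3.mul (hf' v hv')).mul (hg' v hv')
    exact this.mono (by omega)
  have e3 := e2.le_ord hz0
  omega

end Orders

section Mul

variable {K F : Type u} [Field K] [Field F] [Algebra K F]

/-- Multiplication by `c ≠ 0` as an equivalence `LOff T D ≃ LOff T D'`, `D' = D - (c)`. -/
def mulEquivNR {R : Type u} [CommRing R] [Algebra R F] (T : Set (Place K F))
    (hT : ∀ (r : R) (v : Place K F), v ∉ T → 0 ≤ v.ord (algebraMap R F r))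
    (D D' : Divisor K F) (c : F) (hc : c ≠ 0)
    (hD : ∀ v : Place K F, v ∉ T → D' v = D v - v.ord c) :
    ↥(NR R T hT D) ≃ₗ[R] ↥(NR R T hT D') where
  toFun f := ⟨c * f.1, fun v hv => by
    have := (Big.self v c).mul (f.2 v hv)
    exact this.mono (by rw [hD v hv]; omega)⟩
  invFun g := ⟨c⁻¹ * g.1, fun v hv => by
    have := (Big.self v c⁻¹).mul (g.2 v hv)
    rw [v.ord_inv] at this
    exact this.mono (by rw [hD v hv]; omega)⟩
  left_inv f := Subtype.ext (inv_mul_cancel_left₀ hc _)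
  right_inv g := Subtype.ext (mul_inv_cancel_left₀ hc _)
  map_add' f g := Subtype.ext (mul_add c _ _)
  map_smul' r f := Subtype.ext (by
    show c * (r • (f : F)) = r • (c * (f : F))
    rw [Algebra.smul_def, Algebra.smul_def, mul_left_comm])

@[simp] theorem mulEquivNR_coe {R : Type u} [CommRing R] [Algebra R F] (T : Set (Place K F))
    (hT : ∀ (r : R) (v : Place K F), v ∉ T → 0 ≤ v.ord (algebraMap R F r))
    (D D' : Divisor K F) (c : F) (hc : c ≠ 0)
    (hD : ∀ v : Place K F, v ∉ T → D' v = D v - v.ord c) (f : ↥(NR R T hT D)) :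
    ((mulEquivNR T hT D D' c hc hD f : ↥(NR R T hT D')) : F) = c * (f : F) := rfl

end Mul

section Cospan

variable {K F R₀ R₁ R₀₁ : Type u} [Field K] [Field F] [Algebra K F]
  [CommRing R₀] [CommRing R₁] [CommRing R₀₁] [Algebra K R₀] [Algebra K R₁] [Algebra K R₀₁]
  [Algebra R₀ R₀₁] [Algebra R₁ R₀₁] [IsScalarTower K R₀ R₀₁] [IsScalarTower K R₁ R₀₁]
  [Algebra R₀ F] [Algebra R₁ F] [Algebra R₀₁ F]
  [IsScalarTower R₀ R₀₁ F] [IsScalarTower R₁ R₀₁ F]
  [IsScalarTower K R₀ F] [IsScalarTower K R₁ F] [IsScalarTower K R₀₁ F]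
  {x₀ : R₀} {y₁ : R₁} (h : IsFFCospan K F R₀₁ x₀ y₁)

namespace IsFFCospan

/-- Multiplication by `c`: `O(D) ≅ O(D')` if `D' = D - (c)`. -/
def mulIso (D D' : Divisor K F) (c : F) (hc : c ≠ 0)
    (hD : ∀ v : Place K F, D' v = D v - v.ord c) :
    GlueDatum.Iso (h.ofDivisor D) (h.ofDivisor D') where
  e₀ := mulEquivNR _ h.reg₀ D D' c hc (fun v _ => hD v)
  e₁ := mulEquivNR _ h.reg₁ D D' c hc (fun v _ => hD v)
  e₀₁ := mulEquivNR _ h.reg₀₁ D D' c hc (fun v _ => hD v)
  comm₀ := fun _ => rfl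
  comm₁ := fun _ => rfl

/-- `D - D'` principal `⇒ O(D) ≅ O(D')`. -/
theorem ofDivisor_isIso_of_sub_mem_principal {D D' : Divisor K F}
    (hDD : D - D' ∈ Divisor.principal (K := K) (F := F)) :
    (h.ofDivisor D).IsIso (h.ofDivisor D') := by
  obtain ⟨c, hc, hcv⟩ := hDD
  refine ⟨h.mulIso D D' c hc fun v => ?_⟩
  have := hcv v
  rw [Finsupp.sub_apply] at this
  omega

include h in
theorem isDomain₀₁ : IsDomain R₀₁ :=
  h.inj₀₁.isDomain (algebraMap R₀₁ F)

include h in
theorem frac₀₁ : IsFractionRing R₀₁ F := by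
  haveI := h.dedekind₀
  haveI := h.frac₀
  haveI : FaithfulSMul R₀₁ F := (faithfulSMul_iff_algebraMap_injective _ _).mpr h.inj₀₁
  refine IsFractionRing.of_field _ _ fun z => ?_
  obtain ⟨a, b, _, rfl⟩ := IsFractionRing.div_surjective (A := R₀) z
  exact ⟨algebraMap R₀ R₀₁ a, algebraMap R₀ R₀₁ b, by
    rw [← IsScalarTower.algebraMap_apply R₀ R₀₁ F, ← IsScalarTower.algebraMap_apply R₀ R₀₁ F]⟩

include h in
theorem not_mem_Ti_or_not_mem_Tz (v : Place K F) : v ∉ h.Ti ∨ v ∉ h.Tz := by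
  by_cases hv : v ∈ h.Ti
  · exact Or.inr (Finset.disjoint_right.mp h.disjoint hv)
  · exact Or.inl hv

/-- The value in `F` of sections of `O(D)`: coherence with the restriction maps. -/
theorem val₀₁_r₀ (D : Divisor K F) (s : (h.ofDivisor D).N₀) :
    h.val₀₁ D ((h.ofDivisor D).r₀ s) = h.val₀ D s := rfl

theorem val₀₁_r₁ (D : Divisor K F) (s : (h.ofDivisor D).N₁) :
    h.val₀₁ D ((h.ofDivisor D).r₁ s) = h.val₁ D s := rfl

theorem val₀_mem (D : Divisor K F) (s : (h.ofDivisor D).N₀) :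
    h.val₀ D s ∈ LOff (h.Ti : Set (Place K F)) D :=
  (s : ↥(NR R₀ (h.Ti : Set (Place K F)) h.reg₀ D)).2

theorem val₁_mem (D : Divisor K F) (s : (h.ofDivisor D).N₁) :
    h.val₁ D s ∈ LOff (h.Tz : Set (Place K F)) D :=
  (s : ↥(NR R₁ (h.Tz : Set (Place K F)) h.reg₁ D)).2

/-- Sections of `O(D)` over the chart `0` from elements of `LOff Ti D`. -/
def mk₀ (D : Divisor K F) (f : F) (hf : f ∈ LOff (h.Ti : Set (Place K F)) D) :
    (h.ofDivisor D).N₀ := (⟨f, hf⟩ : ↥(NR R₀ (h.Ti : Set (Place K F)) h.reg₀ D))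

/-- Sections of `O(D)` over the chart `1` from elements of `LOff Tz D`. -/
def mk₁ (D : Divisor K F) (f : F) (hf : f ∈ LOff (h.Tz : Set (Place K F)) D) :
    (h.ofDivisor D).N₁ := (⟨f, hf⟩ : ↥(NR R₁ (h.Tz : Set (Place K F)) h.reg₁ D))

@[simp] theorem val₀_mk₀ (D : Divisor K F) (f : F) (hf : f ∈ LOff (h.Ti : Set (Place K F)) D) :
    h.val₀ D (h.mk₀ D f hf) = f := rfl

@[simp] theorem val₁_mk₁ (D : Divisor K F) (f : F) (hf : f ∈ LOff (h.Tz : Set (Place K F)) D) :
    h.val₁ D (h.mk₁ D f hf) = f := rfl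

/-- An isomorphism `O(D) ≅ O(D')` is multiplication by a constant. -/
theorem exists_iso_eq_mul {D D' : Divisor K F}
    (e : GlueDatum.Iso (h.ofDivisor D) (h.ofDivisor D')) :
    ∃ c : F, c ≠ 0 ∧ (∀ s, h.val₀₁ D' (e.e₀₁ s) = c * h.val₀₁ D s) ∧
      (∀ s, h.val₀ D' (e.e₀ s) = c * h.val₀ D s) ∧
      (∀ s, h.val₁ D' (e.e₁ s) = c * h.val₁ D s) := by
  haveI := h.isDomain₀₁
  haveI := h.frac₀₁
  haveI := h.ff1
  let φ : ↥(NR R₀₁ ((h.Tz : Set (Place K F)) ∪ h.Ti) h.reg₀₁ D) →ₗ[R₀₁] F :=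
    (NR R₀₁ ((h.Tz : Set (Place K F)) ∪ h.Ti) h.reg₀₁ D').subtype.comp e.e₀₁.toLinearMap
  obtain ⟨c, hc⟩ := linearMap_eq_mul φ
  have h01 : ∀ s, h.val₀₁ D' (e.e₀₁ s) = c * h.val₀₁ D s := hc
  have hc0 : c ≠ 0 := by
    rintro rfl
    obtain ⟨f, hf0, hf⟩ := exists_ne_zero_mem_LOff h.Ti h.Ti_nonempty D
    have h1 := h01 ((h.ofDivisor D).r₀ (h.mk₀ D f hf))
    rw [zero_mul] at h1
    have h2 : e.e₀₁ ((h.ofDivisor D).r₀ (h.mk₀ D f hf)) = 0 :=
      h.val₀₁_injective D' (by rw [h1, map_zero])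
    have h3 : (h.ofDivisor D).r₀ (h.mk₀ D f hf) = 0 := by
      have := e.e₀₁.injective (h2.trans (map_zero e.e₀₁).symm)
      exact this
    have h4 := congrArg (h.val₀₁ D) h3
    rw [h.val₀₁_r₀, val₀_mk₀, map_zero] at h4
    exact hf0 h4
  refine ⟨c, hc0, h01, fun s => ?_, fun s => ?_⟩
  · rw [← h.val₀₁_r₀ D' (e.e₀ s), ← e.comm₀ s, h01, h.val₀₁_r₀]
  · rw [← h.val₀₁_r₁ D' (e.e₁ s), ← e.comm₁ s, h01, h.val₀₁_r₁]

/-- `O(D) ≅ O(D') ⇒ D - D'` principal. -/
theorem sub_mem_principal_of_isIso {D D' : Divisor K F}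
    (hiso : (h.ofDivisor D).IsIso (h.ofDivisor D')) :
    D - D' ∈ Divisor.principal (K := K) (F := F) := by
  haveI := h.ff1
  obtain ⟨e⟩ := hiso
  obtain ⟨c, hc0, -, h0, h1⟩ := h.exists_iso_eq_mul e
  refine ⟨c, hc0, fun v => ?_⟩
  rw [Finsupp.sub_apply]
  rcases h.not_mem_Ti_or_not_mem_Tz v with hv | hv
  · have := eq_sub_ord_of_mul h.Ti h.Ti_nonempty D D' c hc0
      (fun f hf => by
        have := h.val₀_mem D' (e.e₀ (h.mk₀ D f hf))
        rwa [h0, val₀_mk₀] at this)
      (fun g hg => by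
        refine ⟨h.val₀ D (e.e₀.symm (h.mk₀ D' g hg)), h.val₀_mem D _, ?_⟩
        rw [← h0, LinearEquiv.apply_symm_apply, val₀_mk₀]) v hv
    omega
  · have := eq_sub_ord_of_mul h.Tz h.Tz_nonempty D D' c hc0
      (fun f hf => by
        have := h.val₁_mem D' (e.e₁ (h.mk₁ D f hf))
        rwa [h1, val₁_mk₁] at this)
      (fun g hg => by
        refine ⟨h.val₁ D (e.e₁.symm (h.mk₁ D' g hg)), h.val₁_mem D _, ?_⟩
        rw [← h1, LinearEquiv.apply_symm_apply, val₁_mk₁]) v hv
    omega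

theorem ofDivisor_isIso_iff {D D' : Divisor K F} :
    (h.ofDivisor D).IsIso (h.ofDivisor D') ↔ D - D' ∈ Divisor.principal (K := K) (F := F) :=
  ⟨h.sub_mem_principal_of_isIso, h.ofDivisor_isIso_of_sub_mem_principal⟩

end IsFFCospan

end Cospan

end Fermat.Agent.S27.H970

end
end
-- ===== PACK-END S27/H970/PicIso.lean

-- ===== PACK-BEGIN S29/M3.lean
section
/-
S29 row, PIECE `M3` (helper126): the Galois action on `J₀(N)(ℚ̄)` is smooth.
Statement exactly as in `SkeletonM.lean`; proof in `Fermat/Agent/S29/H126/M3.lean`.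
-/



set_option autoImplicit false

noncomputable section

namespace Fermat.Agent.S29

open ModularCurve AlgebraicCurve

variable (N : ℕ) [NeZero N]

/-- PIECE `M3`: the Galois action on `J₀(N)(ℚ̄)` is smooth. -/
theorem jZero_smooth (x : JZero N) :
    ∃ L : IntermediateField ℚ (AlgebraicClosure ℚ), FiniteDimensional ℚ L ∧
      ∀ σ : GQ, (∀ y ∈ L, σ y = y) → σ • x = x :=
  H126.M3_jZero_smooth N x

end Fermat.Agent.S29

end
end
-- ===== PACK-END S29/M3.lean

-- ===== PACK-BEGIN A2/H155/PullTarget.lean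
section
/-
A2 / PULL step at `Target` level (helper155).

`Target (N * a) q m → Target N q m` for a prime `a ∤ N` with `gcd(m, a + 1) = 1`:
the pullback `π^* : J₀(N) → J₀(N a)` (S37 piece [PULL], `S37.H155.pullHom`) is Galois equivariant
and injective on `m`-torsion.

Use: the semistable model at `q = 3` (resp. `q = 2`) needs `2 ∣ N` (resp. `3 ∣ N`); for the other
levels apply the wall at level `N * 2` (resp. `N * 3`) and descend by `target_three` / `target_two`.
-/






set_option autoImplicit false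
set_option linter.style.haveILetI false

noncomputable section

namespace Fermat.Agent.A2.H155

open ModularCurve AlgebraicCurve Fermat.Agent.A2 Fermat.Agent.S37.H155 Fermat.Agent.S37.H818
open Fermat.Agent.S24 Fermat.Agent.Lib.FF398 Fermat.Agent.Lib.X0Deg

/-- The pullback `π^* : J₀(N) → J₀(N a)` (same map as `S37.H155.pullHom`; restated here to keep
the import closure small). -/
def pullHom (N a : ℕ) [NeZero N] [NeZero a] : JZero N →+ JZero (N * a) :=
  pullbackPic0Along (heckeAlphaBar Kbar N a) (heckeAlphaBarIntegral N a)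
    (fundamentalIdentityAlong_alpha N a)

theorem pullHom_galois (N a : ℕ) [NeZero N] [NeZero a] (σ : Kbar ≃ₐ[ℚ] Kbar) (x : JZero N) :
    _root_.Fermat.Agent.A2.H155.pullHom N a (σ • x) = σ • _root_.Fermat.Agent.A2.H155.pullHom N a x := by
  rw [galois_smul_pic0_def, galois_smul_pic0_def]
  exact _root_.Fermat.Agent.S37.H155.pullbackPic0Along_smul _ _ _ (Fermat.Agent.S29.H571.intertwines_heckeAlphaBar N a σ) x

theorem sumRamificationInertiaAlong_alpha (N a : ℕ) [NeZero N] [NeZero a] :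
    SumRamificationInertiaAlong (heckeAlphaBar Kbar N a) (heckeAlphaBarIntegral N a) := by
  letI := algebraAlong (heckeAlphaBar Kbar N a)
  haveI := isScalarTower_along (heckeAlphaBar Kbar N a)
  haveI : Module.Finite (FF N) (FF (N * a)) := finiteAlong_alpha N a
  haveI : CharZero (FF N) :=
    charZero_of_injective_algebraMap (algebraMap Kbar (FF N)).injective
  exact sumRamificationInertia (K := Kbar) (F := FF N) (F' := FF (N * a)) (deg_eq_one_FF (N * a))

theorem pullHom_inj_torsion (N a : ℕ) [NeZero N] [NeZero a] (ha : a.Prime) (haN : ¬ a ∣ N)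
    (m : ℕ) (hcop : Nat.Coprime m (a + 1)) (x : JZero N) (hm : m • x = 0)
    (hx : _root_.Fermat.Agent.A2.H155.pullHom N a x = 0) : x = 0 := by
  refine pullbackPic0Along_eq_zero (heckeAlphaBar Kbar N a) (heckeAlphaBarIntegral N a)
    (fundamentalIdentityAlong_alpha N a) (_root_.Fermat.Agent.A2.H155.sumRamificationInertiaAlong_alpha N a)
    (finiteAlong_alpha N a) (normFormulaAlong_alpha N a) m ?_ x hm hx
  rw [finrankAlong_heckeAlphaBar_of_not_dvd N a ha haN]
  exact hcop

/-- **PULL step for the wall A2.** -/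
theorem target_of_target_mul (N a q m : ℕ) [NeZero N] [NeZero a] (ha : a.Prime)
    (haN : ¬ a ∣ N) (hcop : Nat.Coprime m (a + 1)) (h : Target (N * a) q m) :
    Target N q m := by
  intro P hP τ hτ x hx
  have hy : m • _root_.Fermat.Agent.A2.H155.pullHom N a x = 0 := by
    rw [← map_nsmul, hx, map_zero]
  have h1 := h P hP τ hτ (_root_.Fermat.Agent.A2.H155.pullHom N a x) hy
  rw [← _root_.Fermat.Agent.A2.H155.pullHom_galois, ← _root_.Fermat.Agent.A2.H155.pullHom_galois, ← map_add, ← map_nsmul] at h1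
  have hsm : ∀ y : JZero N, m • y = 0 → m • (τ • y) = 0 := by
    intro y hy0
    have e : m • (τ • y) = τ • (m • y) :=
      (map_nsmul (DistribSMul.toAddMonoidHom (JZero N) τ) m y).symm
    rw [e, hy0]
    exact map_zero (DistribSMul.toAddMonoidHom (JZero N) τ)
  have hτx : m • (τ • x) = 0 := hsm x hx
  have hττx : m • (τ • (τ • x)) = 0 := hsm _ hτx
  have hz : m • (τ • (τ • x) + x - 2 • (τ • x)) = 0 := by
    rw [nsmul_sub, nsmul_add, hττx, hx, ← mul_nsmul', mul_comm, mul_nsmul', hτx, nsmul_zero,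
      add_zero, sub_zero]
  have hpz : _root_.Fermat.Agent.A2.H155.pullHom N a (τ • (τ • x) + x - 2 • (τ • x)) = 0 := by
    rw [map_sub, h1, sub_self]
  have := _root_.Fermat.Agent.A2.H155.pullHom_inj_torsion N a ha haN m hcop _ hz hpz
  exact sub_eq_zero.mp this

/-- The wall at `q = 3` for levels `N` with `2 ∤ N`, from the wall at level `N * 2`. -/
theorem target_three (N m : ℕ) [NeZero N] (hN : ¬ 2 ∣ N) (hm : ¬ 3 ∣ m)
    (h : Target (N * 2) 3 m) : Target N 3 m :=
  target_of_target_mul N 2 3 m Nat.prime_two hN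
    ((Nat.Prime.coprime_iff_not_dvd Nat.prime_three).mpr hm).symm h

/-- The wall at `q = 2` for levels `N` with `3 ∤ N`, from the wall at level `N * 3`. -/
theorem target_two (N m : ℕ) [NeZero N] (hN : ¬ 3 ∣ N) (hm : ¬ 2 ∣ m)
    (h : Target (N * 3) 2 m) : Target N 2 m := by
  refine target_of_target_mul N 3 2 m Nat.prime_three hN ?_ h
  have h2 : Nat.Coprime m 2 := ((Nat.Prime.coprime_iff_not_dvd Nat.prime_two).mpr hm).symm
  have : Nat.Coprime m (2 ^ 2) := Nat.Coprime.pow_right 2 h2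
  simpa using this

/-- `q = 3`, torsion of `p`-power order, `p ≠ 3` prime. -/
theorem target_three_pow (N p n : ℕ) [NeZero N] (hN : ¬ 2 ∣ N) (hp : p.Prime) (hp3 : p ≠ 3)
    (h : Target (N * 2) 3 (p ^ n)) : Target N 3 (p ^ n) :=
  target_three N (p ^ n) hN
    (fun hd => hp3 ((Nat.prime_dvd_prime_iff_eq Nat.prime_three hp).mp
      (Nat.prime_three.dvd_of_dvd_pow hd)).symm) h

/-- `q = 2`, torsion of `p`-power order, `p` an odd prime. -/
theorem target_two_pow (N p n : ℕ) [NeZero N] (hN : ¬ 3 ∣ N) (hp : p.Prime) (hp2 : p ≠ 2)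
    (h : Target (N * 3) 2 (p ^ n)) : Target N 2 (p ^ n) :=
  target_two N (p ^ n) hN
    (fun hd => hp2 ((Nat.prime_dvd_prime_iff_eq Nat.prime_two hp).mp
      (Nat.prime_two.dvd_of_dvd_pow hd)).symm) h

end Fermat.Agent.A2.H155

end

end
-- ===== PACK-END A2/H155/PullTarget.lean

-- ===== PACK-BEGIN S36/H193/WallPow.lean
section





/-!
# S36 engine, leaf CLOPEN (helper193), part 10: the label wall, final form (no cover in sight)

`R` a Henselian discrete valuation ring with algebraically closed residue field, uniformiser `w`,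
fraction field `E` of characteristic `0`; `F` a field over `E`, `x ∈ F` transcendental over `R`,
`F` finite over `Frac R (x)`; `m` invertible in `R`, `ζ ∈ R` a primitive `m`-th root of unity.
Sheets of `F`: `A2.H12.IsSheet w x V`.

**Theorem** (`exists_pow_eq_of_base`).  Let `f ∈ F^×` be such that
* `f ≡ 1` on every sheet of `F` (`f` is split),
* some sheet `V₀` of `F` is unramified over `R` (`w` generates its maximal ideal) and discrete,
* at every closed point `𝔫` of the special fibre of the two charts of `F` there is a purity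
  datum `f = ε h ^ m` (`ε` a unit at `𝔫`) such that on every sheet `V` through `𝔫` the residue of
  `h` has the value `ζ ^ κ V · v` at `𝔫` (`BasePureValuesAt`; `κ` = normalising exponents,
  depending on the sheet only).
Then `f` is an `m`-th power in `F`.

The special fibre may be non-reduced and any number of sheets may pass through a closed point
(level `q²`: `q B = p_FF ∩ p_mid^(q-1) ∩ p_VV`, triple points; `V₀ = V_FF`).
The Kummer cover `Z = F(f^(1/m))` is constructed inside the proof; "no new constants" in `Z` is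
`A2.H552.isIntegral_mem_range_of_unramified` applied to a sheet of `Z` over `V₀`
(`A2.H93.CoverSplit`).
-/

set_option autoImplicit false
set_option linter.style.haveILetI false
set_option linter.unusedSectionVars false

namespace Fermat.Agent.S36.H193

open Polynomial
open Fermat.Agent.A2.H12 (IsSheet)
open Fermat.Agent.S18.H138

universe u

section Pow

variable {R : Type u} [CommRing R] [IsDomain R] [IsDiscreteValuationRing R]
  [HenselianLocalRing R] [IsAlgClosed (IsLocalRing.ResidueField R)] [IsIntegrallyClosed R[X]]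
variable (E : Type u) [Field E] [CharZero E] [Algebra R E] [IsFractionRing R E]
variable {F : Type u} [Field F] [Algebra E F] [Algebra R F] [IsScalarTower R E F]

include E in

/-- **The label wall, final form.** -/
theorem exists_pow_eq_of_base (w : R) (hw : Irreducible w)
    {x : F} (hx : Transcendental R x) [FiniteDimensional (baseField R x) F]
    {m : ℕ} (hm : 0 < m) {mi : R} (hmi : (m : R) * mi = 1) {ζ : R} (hζ : IsPrimitiveRoot ζ m)
    {f : F} (hf0 : f ≠ 0)
    (hsplit : ∀ V, IsSheet w x V → f - 1 ∈ V.nonunits)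
    (V₀ : ValuationSubring F) (hV₀ : IsSheet w x V₀)
    (hunif : ∀ a ∈ V₀.nonunits, ∃ b ∈ V₀, a = algebraMap R F w * b)
    (hdisc : ∀ g : F, ∃ k : ℕ, g * algebraMap R F w ^ k ∈ V₀)
    (κ : ValuationSubring F → ℕ)
    (hpure_fin : ∀ 𝔫 : Ideal (chart R ({x} : Set F)), 𝔫.IsMaximal →
      algebraMap R (chart R ({x} : Set F)) w ∈ 𝔫 →
      BasePureValuesAt {V | IsSheet w x V} (chart R ({x} : Set F)) 𝔫 m f ζ κ)
    (hpure_inf : ∀ 𝔫 : Ideal (chart R ({x⁻¹} : Set F)), 𝔫.IsMaximal →
      algebraMap R (chart R ({x⁻¹} : Set F)) w ∈ 𝔫 →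
      BasePureValuesAt {V | IsSheet w x V} (chart R ({x⁻¹} : Set F)) 𝔫 m f ζ κ) :
    ∃ g : F, g ^ m = f := by
  classical
  have hwp : Prime w := hw.prime
  have hinjRE : Function.Injective (algebraMap R E) := IsFractionRing.injective R E
  have hinjRF : Function.Injective (algebraMap R F) := by
    rw [IsScalarTower.algebraMap_eq R E F]
    exact (algebraMap E F).injective.comp hinjRE
  haveI : CharZero F := charZero_of_injective_algebraMap (algebraMap E F).injective
  have hmF : (m : F) ≠ 0 := Nat.cast_ne_zero.2 hm.ne'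
  -- the cover
  let Z := (X ^ m - C f : F[X]).SplittingField
  haveI : FiniteDimensional F Z := IsSplittingField.finiteDimensional Z (X ^ m - C f : F[X])
  haveI : IsGalois F Z := IsGalois.of_separable_splitting_field (p := (X ^ m - C f : F[X]))
    (separable_X_pow_sub_C f hmF hf0)
  haveI : IsScalarTower R E Z := by
    refine IsScalarTower.of_algebraMap_eq (fun r => ?_)
    rw [IsScalarTower.algebraMap_apply R F Z, IsScalarTower.algebraMap_apply E F Z,
      ← IsScalarTower.algebraMap_apply R E F]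
  haveI : CharZero Z := charZero_of_injective_algebraMap (algebraMap F Z).injective
  have hinjRZ : Function.Injective (algebraMap R Z) := by
    rw [IsScalarTower.algebraMap_eq R F Z]
    exact (algebraMap F Z).injective.comp hinjRF
  have hxZ : Transcendental R (algebraMap F Z x) :=
    (transcendental_algebraMap_iff (algebraMap F Z).injective).2 hx
  haveI : FiniteDimensional (baseField R (algebraMap F Z x)) Z :=
    Fermat.Agent.A2.H313.finiteDimensional_baseField_tower (R := R) (L := Z) x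
  -- a root
  have hdeg : (((X ^ m - C f : F[X])).map (algebraMap F Z)).degree ≠ 0 := by
    rw [degree_map, degree_X_pow_sub_C hm]
    exact_mod_cast hm.ne'
  obtain ⟨G, hGroot⟩ := (SplittingField.splits (X ^ m - C f : F[X])).exists_eval_eq_zero hdeg
  have hG : G ^ m = algebraMap F Z f := by
    simp only [Polynomial.map_sub, Polynomial.map_pow, map_X, map_C, eval_sub, eval_pow, eval_X,
      eval_C] at hGroot
    exact sub_eq_zero.1 hGroot
  have hG0 : G ≠ 0 := by
    rintro rfl
    rw [zero_pow hm.ne'] at hG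
    exact hf0 ((map_eq_zero (algebraMap F Z)).1 hG.symm)
  -- the cover is generated by `G`
  have hζZ : IsPrimitiveRoot (algebraMap R Z ζ) m := hζ.map_of_injective hinjRZ
  have hgen : Algebra.adjoin F (Set.range fun _ : Unit => G) = ⊤ := by
    rw [eq_top_iff, ← SplittingField.adjoin_rootSet (X ^ m - C f : F[X])]
    refine Algebra.adjoin_le ?_
    intro r hr
    rw [mem_rootSet] at hr
    have hr1 : r ^ m = algebraMap F Z f := by
      have := hr.2
      simp only [map_sub, map_pow, aeval_X, aeval_C] at this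
      exact sub_eq_zero.1 this
    have hpow : (r / G) ^ m = 1 := by
      rw [div_pow, hr1, hG, div_self]
      rw [← hG]
      exact pow_ne_zero _ hG0
    haveI : NeZero m := ⟨hm.ne'⟩
    obtain ⟨i, -, hi⟩ := hζZ.eq_pow_of_pow_eq_one hpow
    have hrG : r = algebraMap R Z ζ ^ i * G := by
      rw [hi]
      field_simp
    rw [hrG]
    refine Subalgebra.mul_mem _ (Subalgebra.pow_mem _ ?_ i) (Algebra.subset_adjoin ⟨(), rfl⟩)
    rw [IsScalarTower.algebraMap_apply R F Z]
    exact Subalgebra.algebraMap_mem _ _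
  -- a sheet of the cover over `V₀`, unramified
  obtain ⟨W, hWV⟩ := Fermat.Agent.A2.H93.exists_comap_eq_of_unif (L := Z) V₀
    (algebraMap R F w) hV₀.2.2.1 hunif
  have hwF0 : algebraMap R F w ≠ 0 := fun h => hw.ne_zero (hinjRF (by rw [h, map_zero]))
  have hfV₀ : f ∈ V₀ := by
    have : f = (f - 1) + 1 := by ring
    rw [this]
    exact V₀.add_mem _ _ (nu_mem V₀ (hsplit V₀ hV₀)) V₀.one_mem
  have hfnu : f ∉ V₀.nonunits := by
    intro h
    have h1 := nu_sub V₀ h (hsplit V₀ hV₀)
    have : f - (f - 1) = 1 := by ring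
    rw [this] at h1
    exact nu_one_not V₀ h1
  have hgenV₀ : ∀ a ∈ V₀, a⁻¹ ∉ V₀ → a * (algebraMap R F w)⁻¹ ∈ V₀ := by
    intro a ha hainv
    have han : a ∈ V₀.nonunits := by
      rw [ValuationSubring.mem_nonunits_iff_or]
      exact Or.inr hainv
    obtain ⟨b, hb, rfl⟩ := hunif a han
    rw [mul_comm, ← mul_assoc, inv_mul_cancel₀ hwF0, one_mul]
    exact hb
  have hD : Fermat.Agent.A2.H93.CoverSplit V₀ W (algebraMap R F w) m (algebraMap R F ζ)
      (fun _ : Unit => G) (fun _ => f) (fun _ => 1) := by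
    refine ⟨?_, ?_, hgenV₀, hdisc, hζ.map_of_injective hinjRF, hm, ?_, fun _ => hG,
      fun _ => hfV₀, fun _ => hf0, fun _ => nu_unit_inv V₀ hfV₀ hfnu, fun _ => V₀.one_mem, ?_,
      hgen⟩
    · intro a
      rw [← hWV, ValuationSubring.mem_comap]
    · intro h
      have h1 := nu_mul_left V₀ hV₀.2.2.1 h
      rw [inv_mul_cancel₀ hwF0] at h1
      exact nu_one_not V₀ h1
    · have h1 : (m : F)⁻¹ = algebraMap R F mi := by
        have := congrArg (algebraMap R F) hmi
        rw [map_mul, map_natCast, map_one] at this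
        exact inv_eq_of_mul_eq_one_right this
      rw [h1]
      exact hV₀.1 mi
    · intro _
      rw [one_pow]
      by_cases h0 : f - 1 = 0
      · rw [h0, zero_mul]
        exact V₀.zero_mem
      · have h1 := hsplit V₀ hV₀
        refine hgenV₀ _ (nu_mem V₀ h1) ?_
        rw [ValuationSubring.mem_nonunits_iff_or] at h1
        exact h1.resolve_left h0
  have hRW : ∀ r : R, algebraMap R Z r ∈ W := by
    intro r
    have : algebraMap F Z (algebraMap R F r) ∈ W := by
      rw [← ValuationSubring.mem_comap, hWV]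
      exact hV₀.1 r
    exact this
  have hwW : algebraMap R Z w ∈ W.nonunits := by
    have : algebraMap F Z (algebraMap R F w) ∈ W.nonunits := by
      rw [← mem_nonunits_comap_algebraMap, hWV]
      exact hV₀.2.2.1
    exact this
  have hunifW : ∀ a ∈ W.nonunits, ∃ b ∈ W, a = algebraMap R Z w * b := by
    intro a ha
    have hwZ0 : algebraMap R Z w ≠ 0 := fun h => hw.ne_zero (hinjRZ (by rw [h, map_zero]))
    by_cases ha0 : a = 0
    · exact ⟨0, W.zero_mem, by rw [ha0, mul_zero]⟩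
    · have hainv : a⁻¹ ∉ W := by
        have := (ValuationSubring.mem_nonunits_iff_or W).1 ha
        exact this.resolve_left ha0
      refine ⟨a * (algebraMap R Z w)⁻¹, hD.mul_inv_mem (nu_mem W ha) hainv, ?_⟩
      rw [mul_comm a, ← mul_assoc, mul_inv_cancel₀ hwZ0, one_mul]
  have hRF : ∀ y : Z, IsIntegral R y → y ∈ Set.range (algebraMap R Z) := fun y hy =>
    Fermat.Agent.A2.H552.isIntegral_mem_range_of_unramified E w hw W hRW hwW hunifW y hy
  -- the wall
  obtain ⟨g, hg⟩ := kummer_wall3_of_base hinjRZ hRF hxZ w hwp hm hmi hζ hG hsplit κ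
    hpure_fin hpure_inf
  refine ⟨g, (algebraMap F Z).injective ?_⟩
  rw [map_pow, hg, hG]

end Pow

end Fermat.Agent.S36.H193

end
-- ===== PACK-END S36/H193/WallPow.lean

-- ===== PACK-BEGIN S36/H630/ToBase.lean
section



/-!
# S36 engine, LABEL core (helper630), part 7: from `LabelAt` to `H193.BasePureValuesAt`

`H193.kummer_wall3_of_base` (main) needs, at every closed point `𝔫` of the special fibre of the
two charts of the base, the datum `H193.BasePureValuesAt`.  This file produces it from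
`H630.LabelAt`, i.e. (via `labelAt_of_one`, `labelAt_of_three`) from

* purity at `𝔫` (cell REG),
* the values of the purity datum along the sheets through `𝔫` (`ExistVal.lean`),
* at triple points: the two label equations (`LabEq.label_eq_of_norm`, or `H203.label_rel`).
-/

set_option autoImplicit false
set_option linter.unusedSectionVars false

namespace Fermat.Agent.S36.H630

open Fermat.Agent.S36.H193

variable {R : Type*} [CommRing R] {F : Type*} [Field F] [Algebra R F]

/-- **`LabelAt ⟹ BasePureValuesAt`.** -/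
theorem basePureValuesAt_of_labelAt {B : Subalgebra R F} {n : Ideal B} [hn : n.IsMaximal]
    {𝒱 : Set (ValuationSubring F)} (hBV : ∀ V ∈ 𝒱, ChartLe B V)
    {m : ℕ} (hm : 0 < m) {ζ : R} (hζ : ζ ^ m = 1) {κ : ValuationSubring F → ℕ} {u : F}
    (h : LabelAt B n 𝒱 m u ζ κ) : BasePureValuesAt 𝒱 B n m u ζ κ := by
  have : n.IsPrime := hn.isPrime
  obtain ⟨d, a₀, s₀, η₀, hd0, hs₀, hpure, hη₀, hval⟩ := h
  -- an inverse of `η₀` modulo `n`
  obtain ⟨v, i, hi, hvi⟩ := hn.exists_inv hη₀
  have hvn : v ∉ n := by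
    intro hv
    apply hn.ne_top
    rw [Ideal.eq_top_iff_one, ← hvi]
    exact n.add_mem (n.mul_mem_right _ hv) hi
  have hv1 : v * algebraMap R B η₀ - 1 ∈ n := by
    have : v * algebraMap R B η₀ - 1 = -i := by rw [← hvi]; ring
    rw [this]
    exact n.neg_mem hi
  have hm1 : m - 1 + 1 = m := Nat.sub_add_cancel hm
  refine ⟨d⁻¹, a₀, s₀, v, inv_ne_zero hd0, hs₀, hvn, ?_, ?_⟩
  · rw [← hpure, inv_pow]
    field_simp
  · intro V hV hth
    have hth' : PassThrough B n V := hth
    have hval' := hval V hV hth'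
    -- the value is a unit modulo `n`
    have hηV : algebraMap R B (η₀ * ζ ^ ((m - 1) * κ V)) ∉ n := by
      intro h1
      apply hη₀
      have h2 : algebraMap R B η₀
          = algebraMap R B (η₀ * ζ ^ ((m - 1) * κ V)) * algebraMap R B (ζ ^ κ V) := by
        rw [← map_mul, mul_assoc, ← pow_add]
        have : (m - 1) * κ V + κ V = m * κ V := by
          calc (m - 1) * κ V + κ V = (m - 1 + 1) * κ V := by ring
            _ = m * κ V := by rw [hm1]
        rw [this, pow_mul, hζ, one_pow, mul_one]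
      rw [h2]
      exact n.mul_mem_right _ h1
    have hdV : d ∈ V := hval'.mem (hBV V hV) hth'
    have hdu : d ∉ V.nonunits := hval'.not_nonunits (hBV V hV) hth' hηV
    obtain ⟨a, b, hb, hVab, hnab⟩ := hval'
    have han : a ∉ n := by
      intro ha
      have h3 : algebraMap R B (η₀ * ζ ^ ((m - 1) * κ V)) * b ∈ n := by
        have : algebraMap R B (η₀ * ζ ^ ((m - 1) * κ V)) * b
            = a - (a - algebraMap R B (η₀ * ζ ^ ((m - 1) * κ V)) * b) := by ring
        rw [this]
        exact n.sub_mem ha hnab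
      rcases (Ideal.IsPrime.mem_or_mem ‹n.IsPrime› h3) with h5 | h5
      · exact hηV h5
      · exact hb h5
    refine ⟨a, b, han, ?_, ?_⟩
    · have : (a : F) * d⁻¹ - b = -(((b : F) * d - a) * d⁻¹) := by
        field_simp
        ring
      rw [this]
      exact vnu_neg V (vnu_mul_right V hVab (vnu_inv_mem V hdV hdu))
    · -- `b - ζ^κ v a = -(ζ^κ v (a - η_V b)) - (v η₀ - 1) b` using `ζ^κ ζ^((m-1)κ) = 1`
      have hz : ζ ^ κ V * ζ ^ ((m - 1) * κ V) = 1 := by
        rw [← pow_add]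
        have : κ V + (m - 1) * κ V = m * κ V := by
          calc κ V + (m - 1) * κ V = (m - 1 + 1) * κ V := by ring
            _ = m * κ V := by rw [hm1]
        rw [this, pow_mul, hζ, one_pow]
      have hz' : algebraMap R B (ζ ^ κ V) * algebraMap R B (ζ ^ ((m - 1) * κ V)) = 1 := by
        rw [← map_mul, hz, map_one]
      have : b - algebraMap R B (ζ ^ κ V) * v * a
          = -(algebraMap R B (ζ ^ κ V) * v * (a - algebraMap R B (η₀ * ζ ^ ((m - 1) * κ V)) * b))
            - (v * algebraMap R B η₀ - 1) * b := by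
        rw [map_mul]
        linear_combination (-(v * algebraMap R B η₀ * b)) * hz'
      rw [this]
      exact n.sub_mem (n.neg_mem (n.mul_mem_left _ hnab)) (n.mul_mem_right _ hv1)

end Fermat.Agent.S36.H630

end
-- ===== PACK-END S36/H630/ToBase.lean

-- ===== PACK-BEGIN S29/H871/FunctionField.lean
section


/-!
# S29 / E3, part 6: the constant field extension of a function field is a function field

If `F/K` is a function field with coordinate `t` (`K` algebraically closed of characteristic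
zero) and `F'/K'` is its constant field extension, then `t` is still transcendental over `K'`
and `F'` is finite over `K'(t)`.

(helper871)
-/

set_option autoImplicit false
set_option linter.unusedSectionVars false

noncomputable section

namespace Fermat.Agent.S29.H871

open AlgebraicCurve TensorProduct IntermediateField

variable {K F K' F' : Type*} [Field K] [Field F] [Field K'] [Field F']
  [Algebra K F] [Algebra K' F'] [Algebra K K'] [Algebra F F'] [Algebra K F']
  [IsScalarTower K F F'] [IsScalarTower K K' F']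

section Zero

variable [IsAlgClosed K] [CharZero K]

/-- A nonconstant function has a zero. -/
theorem exists_ord_pos {t : F} (ht : Transcendental K t) [FiniteDimensional K⟮t⟯ F] :
    ∃ v : Place K F, 0 < v.ord t := by
  classical
  have hfin := Fermat.Agent.S24.FF.finite_setOf_ord_pos (K := K) ht
  have hsum := Fermat.Agent.S24.FF.sum_ord_eq_finrank (K := K) ht hfin.toFinset
    (fun v => by simp)
  by_contra hcon
  have hempty : hfin.toFinset = ∅ := by
    ext v
    simp only [Set.Finite.mem_toFinset, Set.mem_ofPred_eq, Finset.notMem_empty, iff_false]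
    intro hv
    exact hcon ⟨v, hv⟩
  rw [hempty, Finset.sum_empty] at hsum
  have hpos : 0 < Module.finrank K⟮t⟯ F := Module.finrank_pos
  omega

/-- A function without zeros is constant. -/
theorem mem_range_of_forall_ord_le {f : F} {t : F} (ht : Transcendental K t)
    [FiniteDimensional K⟮t⟯ F] (hf : ∀ v : Place K F, v.ord f ≤ 0) :
    f ∈ (algebraMap K F).range := by
  by_contra hcon
  have hftr : Transcendental K f := Fermat.Agent.S24.FF.transcendental_of_not_mem_range hcon
  have : FiniteDimensional K⟮f⟯ F :=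
    Fermat.Agent.S24.FF.finiteDimensional_adjoin_of_transcendental ht hftr
  obtain ⟨v, hv⟩ := exists_ord_pos (K := K) hftr
  have := hf v
  omega

end Zero

section Transc

variable [IsConstExt K F K' F'] [IsAlgClosed K] [CharZero K] [IsAlgClosed K']

theorem isRationalPlace_all {t : F} (ht : Transcendental K t) [FiniteDimensional K⟮t⟯ F]
    (v : Place K F) : IsRationalPlace v :=
  isRationalPlace_of_isAlgClosed v ht

/-- The coordinate stays transcendental after constant field extension. -/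
theorem transcendental_algebraMap {t : F} (ht : Transcendental K t) [FiniteDimensional K⟮t⟯ F] :
    Transcendental K' (algebraMap F F' t) := by
  intro halg
  obtain ⟨c, hc⟩ := Fermat.Agent.S24.FF.mem_range_of_isAlgebraic halg
  obtain ⟨v, hv⟩ := exists_ord_pos (K := K) ht
  have hrat := isRationalPlace_all ht v
  have h1 := ord_placeBC_algebraMap (K' := K') (F' := F') hrat t
  rw [← hc, Fermat.Agent.S24.FF.ord_algebraMap] at h1
  omega

end Transc

section Finite

variable [IsConstExt K F K' F']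

theorem algebraMap_mem_adjoin_of_mem_adjoin {t : F} {r : F} (hr : r ∈ K⟮t⟯) :
    algebraMap F F' r ∈ K'⟮algebraMap F F' t⟯ := by
  induction hr using IntermediateField.adjoin_induction with
  | mem x hx =>
    rw [Set.mem_singleton_iff] at hx
    rw [hx]
    exact mem_adjoin_simple_self K' _
  | algebraMap x =>
    rw [← IsScalarTower.algebraMap_apply K F F', IsScalarTower.algebraMap_apply K K' F']
    exact IntermediateField.algebraMap_mem _ _
  | add x y _ _ hx hy => rw [map_add]; exact add_mem hx hy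
  | inv x _ hx => rw [map_inv₀]; exact inv_mem hx
  | mul x y _ _ hx hy => rw [map_mul]; exact mul_mem hx hy

/-- The ring homomorphism `K(t) → K'(t)`. -/
def adjoinMap (t : F) : K⟮t⟯ →+* K'⟮algebraMap F F' t⟯ where
  toFun r := ⟨algebraMap F F' (r : F), algebraMap_mem_adjoin_of_mem_adjoin r.2⟩
  map_one' := Subtype.ext (by simp)
  map_mul' x y := Subtype.ext (by simp)
  map_zero' := Subtype.ext (by simp)
  map_add' x y := Subtype.ext (by simp)

theorem isIntegral_algebraMap {t : F} [FiniteDimensional K⟮t⟯ F] (f : F) :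
    IsIntegral K'⟮algebraMap F F' t⟯ (algebraMap F F' f) := by
  have hf : IsIntegral K⟮t⟯ f := Algebra.IsIntegral.isIntegral f
  exact IsIntegral.map_of_comp_eq (adjoinMap (K := K) (K' := K') (F' := F') t)
    (algebraMap F F') (RingHom.ext fun r => rfl) hf

/-- The constant field extension is finite over `K'(t)`. -/
theorem finiteDimensional_adjoin_algebraMap (t : F) [FiniteDimensional K⟮t⟯ F] :
    FiniteDimensional K'⟮algebraMap F F' t⟯ F' := by
  classical
  obtain ⟨S, hS⟩ := (Module.Finite.fg_top : (⊤ : Submodule K⟮t⟯ F).FG)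
  set t' := algebraMap F F' t with ht'
  let S' : Set F' := (algebraMap F F') '' (S : Set F)
  have hS'fin : Finite S' := (S.finite_toSet.image _).to_subtype
  let E : IntermediateField K'⟮t'⟯ F' := IntermediateField.adjoin K'⟮t'⟯ S'
  have hEfin : FiniteDimensional K'⟮t'⟯ E := by
    apply IntermediateField.finiteDimensional_adjoin
    rintro x ⟨f, _, rfl⟩
    exact isIntegral_algebraMap (K := K) (K' := K') f
  -- `E` contains the image of `F`
  have hF : ∀ f : F, algebraMap F F' f ∈ E := by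
    intro f
    have hf : f ∈ Submodule.span K⟮t⟯ (S : Set F) := by rw [hS]; trivial
    induction hf using Submodule.span_induction with
    | mem x hx => exact IntermediateField.subset_adjoin _ _ ⟨x, hx, rfl⟩
    | zero => rw [map_zero]; exact zero_mem _
    | add x y _ _ hx hy => rw [map_add]; exact add_mem hx hy
    | smul a x _ hx =>
      rw [Algebra.smul_def, map_mul]
      refine mul_mem ?_ hx
      have h1 : algebraMap F F' (algebraMap K⟮t⟯ F a) ∈ K'⟮t'⟯ :=
        algebraMap_mem_adjoin_of_mem_adjoin a.2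
      exact IntermediateField.algebraMap_mem E (⟨_, h1⟩ : K'⟮t'⟯)
  have hK' : ∀ c : K', algebraMap K' F' c ∈ E := by
    intro c
    have h1 : algebraMap K' F' c ∈ K'⟮t'⟯ := IntermediateField.algebraMap_mem _ _
    exact IntermediateField.algebraMap_mem E (⟨_, h1⟩ : K'⟮t'⟯)
  have hμ : ∀ x : F ⊗[K] K', mulMapF K F K' F' x ∈ E := by
    intro x
    induction x using TensorProduct.induction_on with
    | zero => rw [map_zero]; exact zero_mem _
    | tmul f c => rw [mulMapF_tmul]; exact mul_mem (hF f) (hK' c)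
    | add x y hx hy => rw [map_add]; exact add_mem hx hy
  have htop : E = ⊤ := by
    rw [eq_top_iff]
    intro z _
    obtain ⟨x, y, hy, hxy⟩ := IsConstExt.gen (K := K) (F := F) (K' := K') z
    have hz : z = mulMapF K F K' F' x * (mulMapF K F K' F' y)⁻¹ := by
      rw [← hxy]; field_simp
    rw [hz]
    exact mul_mem (hμ x) (inv_mem (hμ y))
  have hfin_top : FiniteDimensional K'⟮t'⟯ (⊤ : IntermediateField K'⟮t'⟯ F') := htop ▸ hEfin
  exact Module.Finite.equiv (IntermediateField.topEquiv (F := K'⟮t'⟯) (E := F')).toLinearEquiv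

end Finite

end Fermat.Agent.S29.H871

end
end
-- ===== PACK-END S29/H871/FunctionField.lean

-- ===== PACK-BEGIN S36/H83/BetaVal.lean
section
/-
S36 engine, MOD-3 (helper83): the Gauss valuation `V∞` of level `M q` over the `β`-structure
(`β : F_M → F_{Mq}`, `t ↦ t^q`), in the vocabulary of `A2/Mod/Spec.lean`.

* `h83_beta_mem_iff`   : `β f ∈ V∞_{Mq} ↔ f ∈ V∞_M`                       (`V∞_{Mq}` lies over `β V∞_M`);
* `h83_beta_indep`     : `∑_{i<q} β(a_i) j^i ∈ w V∞_{Mq}`, `a_i ∈ V∞_M` `⟹` `a_i ∈ w V∞_M`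
                         (the residues of `1, j, …, j^{q-1}` are independent over `κ(β V∞_M)`).
-/





set_option autoImplicit false
set_option linter.unusedSectionVars false
set_option linter.style.haveILetI false
set_option synthInstance.maxHeartbeats 400000
set_option maxHeartbeats 1600000

noncomputable section

namespace Fermat.Agent.S36.H83

open ModularCurve Fermat.Agent.A2 Fermat.Agent.A2.Mod

section BetaVal

variable (P : ValuationSubring _root_.Fermat.Agent.A2.Mod.Qb) (E : IntermediateField ℚ _root_.Fermat.Agent.A2.Mod.Qb) (M q : ℕ) [NeZero M] [NeZero q]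

variable {P E M q}

/-- `incl` commutes with `t ↦ t^q`. -/
theorem h83_incl_qExpand (U : LaurentSeries (_root_.Fermat.Agent.A2.Mod.RE P E)) :
    H708.incl (_root_.Fermat.Agent.A2.Mod.RE P E) (qExpand _ q U) = qExpand E q (H708.incl (_root_.Fermat.Agent.A2.Mod.RE P E) U) :=
  coeffMap_qExpand _ q U

/-- `red` commutes with `t ↦ t^q`. -/
theorem h83_red_qExpand (U : LaurentSeries (_root_.Fermat.Agent.A2.Mod.RE P E)) :
    H708.red (_root_.Fermat.Agent.A2.Mod.RE P E) (qExpand _ q U) = qExpand _ q (H708.red (_root_.Fermat.Agent.A2.Mod.RE P E) U) :=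
  coeffMap_qExpand _ q U

theorem h83_red_qExpand_ne_zero {U : LaurentSeries (_root_.Fermat.Agent.A2.Mod.RE P E)} (hU : H708.red (_root_.Fermat.Agent.A2.Mod.RE P E) U ≠ 0) :
    H708.red (_root_.Fermat.Agent.A2.Mod.RE P E) (qExpand _ q U) ≠ 0 := by
  rw [h83_red_qExpand]
  intro h
  exact hU (qExpand_injective q (by rw [h, map_zero]))

/-- `β` maps `V∞_M` into `V∞_{Mq}`. -/
theorem h83_beta_mem {VM : ValuationSubring (_root_.Fermat.Agent.A2.Mod.FE E M)} {V : ValuationSubring (_root_.Fermat.Agent.A2.Mod.FE E (M * q))}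
    (hVM : IsVinf P E M VM) (hV : IsVinf P E (M * q) V) {f : _root_.Fermat.Agent.A2.Mod.FE E M} (hf : f ∈ VM) :
    βE E M q f ∈ V := by
  obtain ⟨U₁, U₂, hU₂, hU₂F, he⟩ := (hVM f).mp hf
  rw [hV]
  refine ⟨qExpand _ q U₁, qExpand _ q U₂, h83_red_qExpand_ne_zero hU₂, ?_, ?_⟩
  · rw [h83_incl_qExpand]
    have := (βE E M q ⟨H708.incl (_root_.Fermat.Agent.A2.Mod.RE P E) U₂, hU₂F⟩).2
    rwa [coe_heckeBetaBar] at this
  · rw [coe_heckeBetaBar, h83_incl_qExpand, h83_incl_qExpand, ← map_mul, he]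

/-- **`V∞_{Mq}` lies over `β(V∞_M)`.** -/
theorem h83_beta_mem_iff (hdvr : IsDiscreteValuationRing (_root_.Fermat.Agent.A2.Mod.RE P E))
    {VM : ValuationSubring (_root_.Fermat.Agent.A2.Mod.FE E M)} {V : ValuationSubring (_root_.Fermat.Agent.A2.Mod.FE E (M * q))}
    (hVM : IsVinf P E M VM) (hV : IsVinf P E (M * q) V) (f : _root_.Fermat.Agent.A2.Mod.FE E M) :
    βE E M q f ∈ V ↔ f ∈ VM := by
  have := hdvr
  refine ⟨fun h => ?_, fun h => h83_beta_mem hVM hV h⟩
  by_cases hf0 : f = 0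
  · rw [hf0]; exact VM.zero_mem
  obtain ⟨c, hc, hu⟩ := H708.exists_const_mul_unit_of_isVinf hVM hf0
  set u : _root_.Fermat.Agent.A2.Mod.FE E M := f * (algebraMap E (_root_.Fermat.Agent.A2.Mod.FE E M) c)⁻¹ with hudef
  have hcF : algebraMap E (_root_.Fermat.Agent.A2.Mod.FE E M) c ≠ 0 := by
    rw [Ne, map_eq_zero]; exact hc
  have hu1 : u ∈ VM := (VM.valuation_le_one_iff u).mp hu.le
  have hu2 : u⁻¹ ∈ VM := by
    rw [← VM.valuation_le_one_iff, map_inv₀, hu, inv_one]
  have hfu : f = u * algebraMap E (_root_.Fermat.Agent.A2.Mod.FE E M) c := by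
    rw [hudef, mul_assoc, inv_mul_cancel₀ hcF, mul_one]
  have hu0 : u ≠ 0 := by
    intro h0
    rw [h0, map_zero] at hu
    exact zero_ne_one hu
  -- `c = β f · β u⁻¹ ∈ V`
  have hβc : algebraMap E (_root_.Fermat.Agent.A2.Mod.FE E (M * q)) c = βE E M q f * βE E M q u⁻¹ := by
    rw [← map_mul, hfu, mul_comm u, mul_assoc, mul_inv_cancel₀ hu0, mul_one]
    exact ((βE E M q).commutes c).symm
  have hcV : algebraMap E (_root_.Fermat.Agent.A2.Mod.FE E (M * q)) c ∈ V := by
    rw [hβc]
    exact V.mul_mem _ _ h (h83_beta_mem hVM hV hu2)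
  have hcR : c ∈ _root_.Fermat.Agent.A2.Mod.RE P E := (H708.algebraMap_mem_iff_of_isVinf hV c).mp hcV
  rw [hfu]
  exact VM.mul_mem _ _ hu1 ((H708.algebraMap_mem_iff_of_isVinf hVM c).mpr hcR)

/-- the integral series of `j`. -/
abbrev h83_JR (P : ValuationSubring _root_.Fermat.Agent.A2.Mod.Qb) (E : IntermediateField ℚ _root_.Fermat.Agent.A2.Mod.Qb) : LaurentSeries (_root_.Fermat.Agent.A2.Mod.RE P E) :=
  H708.castA (_root_.Fermat.Agent.A2.Mod.RE P E) (H708.jInt 1)

theorem h83_red_JR :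
    H708.red (_root_.Fermat.Agent.A2.Mod.RE P E) (h83_JR P E) = jqModC (IsLocalRing.ResidueField (_root_.Fermat.Agent.A2.Mod.RE P E)) := by
  show coeffMap _ (coeffMap _ (jqNModC ℤ 1)) = _
  rw [coeffMap_jqNModC, coeffMap_jqNModC, jqNModC_one]

/-- a finite family of elements of `V∞` has a common primitive denominator. -/
theorem h83_exists_common_denom {N n : ℕ} {V : ValuationSubring (_root_.Fermat.Agent.A2.Mod.FE E N)}
    (hV : IsVinf P E N V) (a : Fin n → _root_.Fermat.Agent.A2.Mod.FE E N) (ha : ∀ i, a i ∈ V) :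
    ∃ (D : LaurentSeries (_root_.Fermat.Agent.A2.Mod.RE P E)) (A : Fin n → LaurentSeries (_root_.Fermat.Agent.A2.Mod.RE P E)),
      H708.red (_root_.Fermat.Agent.A2.Mod.RE P E) D ≠ 0 ∧ H708.incl (_root_.Fermat.Agent.A2.Mod.RE P E) D ∈ _root_.Fermat.Agent.A2.Mod.FE E N ∧
      ∀ i, (a i : LaurentSeries E) * H708.incl (_root_.Fermat.Agent.A2.Mod.RE P E) D = H708.incl (_root_.Fermat.Agent.A2.Mod.RE P E) (A i) := by
  classical
  have hrep : ∀ i, ∃ U₁ U₂ : LaurentSeries (_root_.Fermat.Agent.A2.Mod.RE P E), H708.red (_root_.Fermat.Agent.A2.Mod.RE P E) U₂ ≠ 0 ∧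
      H708.incl (_root_.Fermat.Agent.A2.Mod.RE P E) U₂ ∈ _root_.Fermat.Agent.A2.Mod.FE E N ∧
      (a i : LaurentSeries E) * H708.incl (_root_.Fermat.Agent.A2.Mod.RE P E) U₂ = H708.incl (_root_.Fermat.Agent.A2.Mod.RE P E) U₁ :=
    fun i => (hV (a i)).mp (ha i)
  choose U₁ U₂ hU₂ hU₂F he using hrep
  refine ⟨∏ i, U₂ i, fun i => U₁ i * ∏ l ∈ Finset.univ.erase i, U₂ l, ?_, ?_, ?_⟩
  · rw [map_prod]
    exact Finset.prod_ne_zero_iff.mpr fun i _ => hU₂ i
  · rw [map_prod]
    exact prod_mem fun i _ => hU₂F i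
  · intro i
    rw [← Finset.mul_prod_erase Finset.univ U₂ (Finset.mem_univ i), map_mul, map_mul,
      ← mul_assoc, he i]

/-- **Independence of `1, j, …, j^{q-1}` modulo `w` over `β(V∞_M)`.** -/
theorem h83_beta_indep (hdvr : IsDiscreteValuationRing (_root_.Fermat.Agent.A2.Mod.RE P E)) {w : _root_.Fermat.Agent.A2.Mod.RE P E}
    (hw : Irreducible w)
    {VM : ValuationSubring (_root_.Fermat.Agent.A2.Mod.FE E M)} {V : ValuationSubring (_root_.Fermat.Agent.A2.Mod.FE E (M * q))}
    (hVM : IsVinf P E M VM) (hV : IsVinf P E (M * q) V)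
    (a : Fin q → _root_.Fermat.Agent.A2.Mod.FE E M) (ha : ∀ i, a i ∈ VM)
    (h : InW P E (M * q) V w
      (∑ i : Fin q, βE E M q (a i) * jE E (M * q) 1 (one_dvd _) ^ (i : ℕ))) :
    ∀ i, InW P E M VM w (a i) := by
  classical
  have := hdvr
  obtain ⟨D, A, hD, hDF, hA⟩ := h83_exists_common_denom hVM a ha
  have hw0 : w ≠ 0 := hw.ne_zero
  have hwm : w ∈ IsLocalRing.maximalIdeal (_root_.Fermat.Agent.A2.Mod.RE P E) :=
    (IsLocalRing.mem_maximalIdeal _).mpr hw.not_isUnit
  -- the element `β D`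
  set Dm : _root_.Fermat.Agent.A2.Mod.FE E M := ⟨H708.incl (_root_.Fermat.Agent.A2.Mod.RE P E) D, hDF⟩ with hDm
  have hDmV : Dm ∈ VM := H708.mem_of_isVinf_of_incl hVM D rfl
  have hβD : βE E M q Dm ∈ V := h83_beta_mem hVM hV hDmV
  set S : _root_.Fermat.Agent.A2.Mod.FE E (M * q) :=
    ∑ i : Fin q, βE E M q (a i) * jE E (M * q) 1 (one_dvd _) ^ (i : ℕ) with hS
  set T : LaurentSeries (_root_.Fermat.Agent.A2.Mod.RE P E) := ∑ i : Fin q, qExpand _ q (A i) * h83_JR P E ^ (i : ℕ)
    with hT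
  have hcoe : ((S * βE E M q Dm : _root_.Fermat.Agent.A2.Mod.FE E (M * q)) : LaurentSeries E) = H708.incl (_root_.Fermat.Agent.A2.Mod.RE P E) T := by
    rw [hS, Finset.sum_mul, hT, map_sum]
    rw [show (((∑ i : Fin q, βE E M q (a i) * jE E (M * q) 1 (one_dvd _) ^ (i : ℕ)
          * βE E M q Dm : _root_.Fermat.Agent.A2.Mod.FE E (M * q))) : LaurentSeries E)
        = ∑ i : Fin q, (((βE E M q (a i) * jE E (M * q) 1 (one_dvd _) ^ (i : ℕ)
          * βE E M q Dm : _root_.Fermat.Agent.A2.Mod.FE E (M * q))) : LaurentSeries E) from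
      map_sum (algebraMap (_root_.Fermat.Agent.A2.Mod.FE E (M * q)) (LaurentSeries E)) _ _]
    refine Finset.sum_congr rfl fun i _ => ?_
    rw [IntermediateField.coe_mul, IntermediateField.coe_mul, IntermediateField.coe_pow,
      coe_heckeBetaBar, coe_heckeBetaBar, H708.coe_jE_eq (P := P) (M * q) 1 (one_dvd _),
      map_mul, map_pow, h83_incl_qExpand, ← hA i, map_mul]
    ring
  have hInW : InW P E (M * q) V w (S * βE E M q Dm) := by
    unfold InW at h ⊢
    rw [mul_right_comm]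
    exact V.mul_mem _ _ h hβD
  have hred : H708.red (_root_.Fermat.Agent.A2.Mod.RE P E) T = 0 :=
    H753.red_eq_zero_of_inW hV hw0 hwm hcoe hInW
  rw [hT, map_sum] at hred
  have hred' : ∑ i : Fin q, qExpand _ q (H708.red (_root_.Fermat.Agent.A2.Mod.RE P E) (A i))
      * jqModC (IsLocalRing.ResidueField (_root_.Fermat.Agent.A2.Mod.RE P E)) ^ (i : ℕ) = 0 := by
    rw [← hred]
    refine Finset.sum_congr rfl fun i _ => ?_
    rw [map_mul, map_pow, h83_red_qExpand, h83_red_JR]
  have hzero := h83_linIndep_fin (IsLocalRing.ResidueField (_root_.Fermat.Agent.A2.Mod.RE P E))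
    (fun i => H708.red (_root_.Fermat.Agent.A2.Mod.RE P E) (A i)) hred'
  intro i
  obtain ⟨U', hU'⟩ := H96.exists_incl_eq_inv_mul (_root_.Fermat.Agent.A2.Mod.RE P E) hw (hzero i)
  unfold InW
  rw [hVM]
  refine ⟨U', D, hD, hDF, ?_⟩
  rw [hU', ← hA i, IntermediateField.coe_mul, IntermediateField.coe_inv, H753.coe_cE]
  have hwE : H708.cst ((w : E))⁻¹ = (H708.cst (w : E))⁻¹ := map_inv₀ _ _
  rw [hwE]
  ring

/-! ### The integral power basis `1, j, …, j^{q-1}` of `V∞_{Mq}` over `β(V∞_M)`, `q ∣ M` -/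

theorem h83_coe_jE (N d : ℕ) [NeZero d] (hd : d ∣ N) :
    ((jE E N d hd : _root_.Fermat.Agent.A2.Mod.FE E N) : LaurentSeries E) = qExpand E d (jqModC E) := by
  show coeffEmb E (qExpand ℚ d jq) = _
  rw [coeffEmb, ← jqModC_rat, coeffMap_qExpand, coeffMap_jqModC]

theorem h83_coe_sum {N n : ℕ} (g : Fin n → _root_.Fermat.Agent.A2.Mod.FE E N) :
    ((∑ i, g i : _root_.Fermat.Agent.A2.Mod.FE E N) : LaurentSeries E) = ∑ i, (g i : LaurentSeries E) :=
  map_sum (algebraMap (_root_.Fermat.Agent.A2.Mod.FE E N) (LaurentSeries E)) g _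

theorem h83_coe_betaSum (a : Fin q → _root_.Fermat.Agent.A2.Mod.FE E M) :
    ((∑ i : Fin q, βE E M q (a i) * jE E (M * q) 1 (one_dvd _) ^ (i : ℕ) : _root_.Fermat.Agent.A2.Mod.FE E (M * q)) :
        LaurentSeries E)
      = ∑ i : Fin q, qExpand E q (a i : LaurentSeries E) * jqModC E ^ (i : ℕ) := by
  rw [h83_coe_sum]
  refine Finset.sum_congr rfl fun i _ => ?_
  rw [IntermediateField.coe_mul, IntermediateField.coe_pow, coe_heckeBetaBar, h83_coe_jE,
    qExpand_one_apply]

/-- **Spanning**: for `q ∣ M` every element of `F_{Mq}` is `∑_{i<q} β(a_i) j^i`. -/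
theorem h83_exists_beta_expansion_FE (hq : q.Prime) (hqM : q ∣ M) (f : _root_.Fermat.Agent.A2.Mod.FE E (M * q)) :
    ∃ a : Fin q → _root_.Fermat.Agent.A2.Mod.FE E M,
      f = ∑ i : Fin q, βE E M q (a i) * jE E (M * q) 1 (one_dvd _) ^ (i : ℕ) := by
  have hf : (f : LaurentSeries E) ∈ modularFunctionFieldFullC E (M * q) := by
    rw [← S28.H988.laurentBaseChange_full_eq_fullC]
    exact f.2
  obtain ⟨a', ha', hfa⟩ := h83_exists_beta_expansion E hq (NeZero.ne M) hqM hf
  have ha'' : ∀ i, a' i ∈ _root_.Fermat.Agent.A2.Mod.FE E M := fun i => by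
    show a' i ∈ laurentBaseChange E (modularFunctionFieldFull M)
    rw [S28.H988.laurentBaseChange_full_eq_fullC]
    exact ha' i
  refine ⟨fun i => ⟨a' i, ha'' i⟩, Subtype.ext ?_⟩
  rw [h83_coe_betaSum, hfa]

/-- **Integral power basis**: for `q ∣ M` every element of `V∞_{Mq}` is `∑_{i<q} β(a_i) j^i`
with `a_i ∈ V∞_M`. -/
theorem h83_beta_integral_basis (hdvr : IsDiscreteValuationRing (_root_.Fermat.Agent.A2.Mod.RE P E)) {w : _root_.Fermat.Agent.A2.Mod.RE P E}
    (hw : Irreducible w) (hq : q.Prime) (hqM : q ∣ M)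
    {VM : ValuationSubring (_root_.Fermat.Agent.A2.Mod.FE E M)} {V : ValuationSubring (_root_.Fermat.Agent.A2.Mod.FE E (M * q))}
    (hVM : IsVinf P E M VM) (hV : IsVinf P E (M * q) V) {f : _root_.Fermat.Agent.A2.Mod.FE E (M * q)} (hf : f ∈ V) :
    ∃ a : Fin q → _root_.Fermat.Agent.A2.Mod.FE E M, (∀ i, a i ∈ VM) ∧
      f = ∑ i : Fin q, βE E M q (a i) * jE E (M * q) 1 (one_dvd _) ^ (i : ℕ) := by
  classical
  have := hdvr
  obtain ⟨a, hfa⟩ := h83_exists_beta_expansion_FE hq hqM f
  refine ⟨a, ?_, hfa⟩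
  by_contra hcon
  rw [not_forall] at hcon
  obtain ⟨i₁, hi₁⟩ := hcon
  obtain ⟨i₀, -, hmax⟩ := Finset.exists_max_image Finset.univ
    (fun i => VM.valuation (a i)) ⟨i₁, Finset.mem_univ _⟩
  have h1 : 1 < VM.valuation (a i₀) :=
    lt_of_lt_of_le (by rwa [← not_le, VM.valuation_le_one_iff]) (hmax i₁ (Finset.mem_univ _))
  have ha0 : a i₀ ≠ 0 := by
    intro h
    rw [h, map_zero] at h1
    exact absurd h1 (not_lt.mpr zero_le_one)
  obtain ⟨c, hc, hu⟩ := H708.exists_const_mul_unit_of_isVinf hVM ha0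
  set cM : _root_.Fermat.Agent.A2.Mod.FE E M := algebraMap E (_root_.Fermat.Agent.A2.Mod.FE E M) c with hcM
  set cN : _root_.Fermat.Agent.A2.Mod.FE E (M * q) := algebraMap E (_root_.Fermat.Agent.A2.Mod.FE E (M * q)) c with hcN
  have hcM0 : cM ≠ 0 := by
    rw [hcM, Ne, map_eq_zero]; exact hc
  have hcN0 : cN ≠ 0 := by
    rw [hcN, Ne, map_eq_zero]; exact hc
  have hvcM0 : VM.valuation cM ≠ 0 := (Valuation.ne_zero_iff _).mpr hcM0
  have hvc : VM.valuation cM = VM.valuation (a i₀) := by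
    rw [map_mul, map_inv₀] at hu
    calc VM.valuation cM = 1 * VM.valuation cM := (one_mul _).symm
      _ = VM.valuation (a i₀) * (VM.valuation cM)⁻¹ * VM.valuation cM := by rw [hu]
      _ = VM.valuation (a i₀) := by rw [mul_assoc, inv_mul_cancel₀ hvcM0, mul_one]
  -- the rescaled coefficients
  have hb : ∀ i, a i * cM⁻¹ ∈ VM := by
    intro i
    rw [← VM.valuation_le_one_iff, map_mul, map_inv₀]
    exact (mul_inv_le_iff₀ (zero_lt_iff.2 hvcM0)).2
      (by rw [one_mul, hvc]; exact hmax i (Finset.mem_univ _))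
  -- `c⁻¹ = w d`
  have hcMnot : cM ∉ VM := by
    rw [← VM.valuation_le_one_iff, hvc]; exact not_le.mpr h1
  have hcMinv : cM⁻¹ ∈ VM := (VM.mem_or_inv_mem cM).resolve_left hcMnot
  have hcR : c⁻¹ ∈ _root_.Fermat.Agent.A2.Mod.RE P E := by
    rw [← H708.algebraMap_mem_iff_of_isVinf hVM, map_inv₀]; exact hcMinv
  have hcnotR : c ∉ _root_.Fermat.Agent.A2.Mod.RE P E := fun h =>
    hcMnot ((H708.algebraMap_mem_iff_of_isVinf hVM c).mpr h)
  have hnu : ¬ IsUnit (⟨c⁻¹, hcR⟩ : _root_.Fermat.Agent.A2.Mod.RE P E) := by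
    intro hunit
    obtain ⟨d, hd⟩ := hunit.exists_right_inv
    apply hcnotR
    have h3 : c⁻¹ * (d : E) = 1 := congrArg Subtype.val hd
    have h4 : c = (d : E) := by
      have := inv_eq_of_mul_eq_one_right h3
      rw [inv_inv] at this
      exact this
    rw [h4]; exact d.2
  have hmem : (⟨c⁻¹, hcR⟩ : _root_.Fermat.Agent.A2.Mod.RE P E) ∈ IsLocalRing.maximalIdeal (_root_.Fermat.Agent.A2.Mod.RE P E) :=
    (IsLocalRing.mem_maximalIdeal _).mpr hnu
  rw [(IsDiscreteValuationRing.irreducible_iff_uniformizer w).mp hw,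
    Ideal.mem_span_singleton] at hmem
  obtain ⟨d, hd⟩ := hmem
  have hcd : c⁻¹ = (w : E) * (d : E) := congrArg Subtype.val hd
  have hw0 : (w : E) ≠ 0 := fun h => hw.ne_zero (Subtype.ext h)
  -- `f c⁻¹ ∈ w V`
  have hsum : ∑ i : Fin q, βE E M q (a i * cM⁻¹) * jE E (M * q) 1 (one_dvd _) ^ (i : ℕ)
      = f * cN⁻¹ := by
    rw [hfa, Finset.sum_mul]
    refine Finset.sum_congr rfl fun i _ => ?_
    rw [map_mul, map_inv₀, hcM, (βE E M q).commutes c]
    ring
  have hInW : InW P E (M * q) V w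
      (∑ i : Fin q, βE E M q (a i * cM⁻¹) * jE E (M * q) 1 (one_dvd _) ^ (i : ℕ)) := by
    rw [hsum]
    unfold InW
    have hcNinv : cN⁻¹ = cE P E (M * q) w * algebraMap E (_root_.Fermat.Agent.A2.Mod.FE E (M * q)) (d : E) := by
      rw [hcN, ← map_inv₀, hcd, map_mul]; rfl
    have hwN0 : cE P E (M * q) w ≠ 0 := by
      rw [cE, Ne, map_eq_zero]; exact hw0
    have : f * cN⁻¹ * (cE P E (M * q) w)⁻¹ = f * algebraMap E (_root_.Fermat.Agent.A2.Mod.FE E (M * q)) (d : E) := by
      rw [hcNinv]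
      field_simp
    rw [this]
    exact V.mul_mem _ _ hf ((H708.algebraMap_mem_iff_of_isVinf hV _).mpr d.2)
  have hall := h83_beta_indep hdvr hw hVM hV (fun i => a i * cM⁻¹) hb hInW
  have hbad := hall i₀
  unfold InW at hbad
  have hunif := (H708.vinfBasic P E w M (NeZero.ne M) hdvr hw VM hVM).1
  have hlt := hunif.val_lt_one
  have hv1 : VM.valuation (a i₀ * cM⁻¹ * (cE P E M w)⁻¹) ≤ 1 :=
    (VM.valuation_le_one_iff _).mpr hbad
  rw [map_mul, hu, one_mul, map_inv₀] at hv1
  have hv0 : VM.valuation (cE P E M w) ≠ 0 := hunif.val_ne_zero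
  have : 1 ≤ VM.valuation (cE P E M w) := by
    have := (inv_le_one₀ (zero_lt_iff.2 hv0)).mp hv1
    exact this
  exact absurd hlt (not_lt.mpr this)

end BetaVal

end Fermat.Agent.S36.H83

end

end
-- ===== PACK-END S36/H83/BetaVal.lean

-- ===== PACK-BEGIN S36/H153/CuspNode.lean
section




/-!
# S36 engine, cell INCIDENCE at infinity (helper153) — concrete part, A2 / MOD language

Level `N = M q`, `q ∤ M`, chart at infinity `Bi = chartAlg P E (M q) x⁻¹`, `x = j · j_q`,
components `p₁ = Bi ∩ w V∞`, `p₂ = Bi ∩ w V₀` (`IsCut`).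

* `modPoly_natDegree_coeff_le`, `modPoly_natDegree_coeff_top_le` : SHAPE of the modular polynomial
  (`X`-degree `≤ q + 1`, coefficient of `Y^q` of `X`-degree `≤ q`), from the symmetry
  `A2.Mod.H31.exists_swap_eq`;
* `zE_mem_chartAlg`, `yE_mem_chartAlg` : `z = j_q / j^q` and `y = j / j_q^q` lie in `Bi`;
* `zE_sub_one_inW`, `yE_sub_one_inW` : `z ≡ 1 mod w V∞`, `y ≡ 1 mod w V₀`;
* **`no_node_at_infinity`** : no proper ideal of `Bi` containing `p₁` and `p₂` contains `x⁻¹`
  (cusps are not nodes; equivalently every node of level `M q` lies in the finite chart).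
-/

set_option autoImplicit false
set_option synthInstance.maxHeartbeats 400000
set_option maxHeartbeats 1600000
set_option linter.unusedSectionVars false
set_option linter.style.haveILetI false

noncomputable section

namespace Fermat.Agent.S36.H153

open ModularCurve HahnSeries Polynomial
open Fermat.Agent.A2.Mod
open scoped Polynomial.Bivariate

/-! ## Shape of the modular polynomial -/

section Shape

variable (q : ℕ) [NeZero q]

theorem exists_swap_modPolyK (hq : q.Prime) (D : S28.ModPolyData q) :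
    ∃ c : ℚ, c ≠ 0 ∧ Bivariate.swap (H31.modPolyK ℚ q D) = C (C c) * H31.modPolyK ℚ q D :=
  H31.exists_swap_eq (H31.transcendental_jqModC ℚ) (H31.modPolyK_monic ℚ q D)
    (H31.aevalAeval_modPolyK ℚ q D) (H31.aevalAeval_modPolyK' ℚ q D)
    (by rw [H31.natDegree_modPolyK]
        exact H31.finrank_adjoin_jq ℚ hq (by exact_mod_cast hq.ne_zero))

theorem coeff_coeff_modPolyK (D : S28.ModPolyData q) (k i : ℕ) :
    ((H31.modPolyK ℚ q D).coeff k).coeff i = (((D.Φ.coeff k).coeff i : ℤ) : ℚ) := by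
  rw [H31.modPolyK, Polynomial.coeff_map, Polynomial.coe_mapRingHom, Polynomial.coeff_map]
  rfl

theorem modPoly_coeff_coeff_eq_zero (hq : q.Prime) (D : S28.ModPolyData q) (k i : ℕ)
    (hi : q + 1 < i) : (D.Φ.coeff k).coeff i = 0 := by
  obtain ⟨c, -, hsw⟩ := exists_swap_modPolyK q hq D
  have h := H31.coeff_coeff_eq_zero_of_swap hsw k i (by rw [H31.natDegree_modPolyK]; exact hi)
  rw [coeff_coeff_modPolyK] at h
  exact_mod_cast h

theorem modPoly_coeff_top (hq : q.Prime) (D : S28.ModPolyData q) :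
    (D.Φ.coeff q).coeff (q + 1) = 0 := by
  obtain ⟨c, -, hsw⟩ := exists_swap_modPolyK q hq D
  have h1 : ((Bivariate.swap (H31.modPolyK ℚ q D)).coeff (q + 1)).coeff q
      = ((H31.modPolyK ℚ q D).coeff q).coeff (q + 1) := H31.coeff_coeff_swap _ (q + 1) q
  have h2 : (H31.modPolyK ℚ q D).coeff (q + 1) = 1 := by
    have := (H31.modPolyK_monic ℚ q D).coeff_natDegree
    rwa [H31.natDegree_modPolyK] at this
  rw [hsw, coeff_C_mul, coeff_C_mul, h2, Polynomial.coeff_one,
    if_neg hq.ne_zero.symm.symm, mul_zero] at h1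
  have h3 := h1.symm
  rw [coeff_coeff_modPolyK] at h3
  exact_mod_cast h3

/-- every coefficient of `Φ_q ∈ ℤ[X][Y]` has `X`-degree `≤ q + 1`. -/
theorem modPoly_natDegree_coeff_le (hq : q.Prime) (D : S28.ModPolyData q) (k : ℕ) :
    (D.Φ.coeff k).natDegree ≤ q + 1 :=
  Polynomial.natDegree_le_iff_coeff_eq_zero.mpr fun i hi =>
    modPoly_coeff_coeff_eq_zero q hq D k i hi

/-- the coefficient of `Y^q` of `Φ_q` has `X`-degree `≤ q`. -/
theorem modPoly_natDegree_coeff_top_le (hq : q.Prime) (D : S28.ModPolyData q) :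
    (D.Φ.coeff q).natDegree ≤ q := by
  rw [Polynomial.natDegree_le_iff_coeff_eq_zero]
  intro i hi
  rcases Nat.lt_or_ge (q + 1) i with h | h
  · exact modPoly_coeff_coeff_eq_zero q hq D q i h
  · have : i = q + 1 := by omega
    subst this
    exact modPoly_coeff_top q hq D

end Shape

/-! ## The functions `z`, `y` lie in every valuation ring containing `1 / (j j_q)` -/

section Val

variable {K : Type*} [Field K]

theorem div_pow_sub_one_mul (a b c : K) (q : ℕ) (hb : b ≠ 0) :
    (a / b ^ q - 1) * c⁻¹ = ((a - b ^ q) * c⁻¹) * (b⁻¹) ^ q := by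
  have hbq : b ^ q ≠ 0 := pow_ne_zero _ hb
  rw [inv_pow, sub_mul, sub_mul, sub_mul, div_eq_mul_inv, one_mul]
  have : b ^ q * c⁻¹ * (b ^ q)⁻¹ = c⁻¹ := by
    rw [mul_comm (b ^ q), mul_assoc, mul_inv_cancel₀ hbq, mul_one]
  rw [this]
  ring

theorem inv_mem_of_inv_mul_mem {j jq : K} (hjq0 : jq ≠ 0) (Φ : Polynomial (Polynomial ℤ))
    (hΦ : Φ.Monic) (h1 : Φ.eval₂ (Polynomial.aeval (R := ℤ) j).toRingHom jq = 0)
    (V : ValuationSubring K) (hx : (j * jq)⁻¹ ∈ V) : j⁻¹ ∈ V := by
  by_contra ha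
  have haV : j ∈ V := by
    have := (V.mem_or_inv_mem j⁻¹).resolve_left ha
    rwa [inv_inv] at this
  have hb : jq ∈ V := H873.mem_valuationSubring_of_monic_eval Φ hΦ h1 V haV
  have : j⁻¹ = jq * (j * jq)⁻¹ := by
    have hj0 : j ≠ 0 := fun h0 => ha (by rw [h0, inv_zero]; exact V.zero_mem)
    field_simp
  exact ha (this ▸ V.mul_mem _ _ hb hx)

theorem div_pow_mem_of_inv_mul_mem {j jq : K} (hj0 : j ≠ 0) (hjq0 : jq ≠ 0)
    (Φ : Polynomial (Polynomial ℤ)) {n : ℕ} (hn : 2 ≤ n) (hΦ : Φ.Monic)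
    (hdeg : Φ.natDegree = n) (hin : ∀ k, (Φ.coeff k).natDegree ≤ n)
    (htop : (Φ.coeff (n - 1)).natDegree ≤ n - 1)
    (h1 : Φ.eval₂ (Polynomial.aeval (R := ℤ) j).toRingHom jq = 0)
    (h2 : Φ.eval₂ (Polynomial.aeval (R := ℤ) jq).toRingHom j = 0)
    (V : ValuationSubring K) (hx : (j * jq)⁻¹ ∈ V) :
    jq / j ^ (n - 1) ∈ V ∧ j / jq ^ (n - 1) ∈ V := by
  have hu : j⁻¹ ∈ V := inv_mem_of_inv_mul_mem hjq0 Φ hΦ h1 V hx
  have huq : jq⁻¹ ∈ V :=
    inv_mem_of_inv_mul_mem hj0 Φ hΦ h2 V (by rwa [mul_comm] at hx)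
  constructor
  · have h := pow_div_mem_of_shape V hu huq (inv_ne_zero hj0) (inv_ne_zero hjq0) Φ hn hΦ hdeg
      hin htop (by rw [inv_inv, inv_inv]; exact h1)
    have e : j⁻¹ ^ (n - 1) / jq⁻¹ = jq / j ^ (n - 1) := by
      rw [inv_pow, div_eq_mul_inv, inv_inv, div_eq_mul_inv, mul_comm]
    rwa [e] at h
  · have h := pow_div_mem_of_shape V huq hu (inv_ne_zero hjq0) (inv_ne_zero hj0) Φ hn hΦ hdeg
      hin htop (by rw [inv_inv, inv_inv]; exact h2)
    have e : jq⁻¹ ^ (n - 1) / j⁻¹ = j / jq ^ (n - 1) := by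
      rw [inv_pow, div_eq_mul_inv, inv_inv, div_eq_mul_inv, mul_comm]
    rwa [e] at h

end Val

/-! ## Concrete part -/

section Concrete

variable (P : ValuationSubring Qb) (E : IntermediateField ℚ Qb) (M q : ℕ) [NeZero M] [NeZero q]

/-- `j` at level `M q`. -/
abbrev j1 : FE E (M * q) := jE E (M * q) 1 (one_dvd _)

/-- `j_q` at level `M q`. -/
abbrev jq1 : FE E (M * q) := jE E (M * q) q (dvd_mul_left q M)

/-- `z = j_q / j ^ q`. -/
def zE : FE E (M * q) := jq1 E M q / j1 E M q ^ q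

/-- `y = j / j_q ^ q`. -/
def yE : FE E (M * q) := j1 E M q / jq1 E M q ^ q

theorem xE_eq : xE E M q = j1 E M q * jq1 E M q := rfl

theorem yE_mul_zE : yE E M q * zE E M q = ((xE E M q)⁻¹) ^ (q - 1) := by
  have h1 : j1 E M q ≠ 0 := H873.jE_ne_zero E (M * q) 1 (one_dvd _)
  have h2 : jq1 E M q ≠ 0 := H873.jE_ne_zero E (M * q) q (dvd_mul_left q M)
  have hq : 1 ≤ q := Nat.one_le_iff_ne_zero.mpr (NeZero.ne q)
  rw [xE_eq, yE, zE, inv_pow, mul_pow]
  have e1 : j1 E M q ^ q = j1 E M q ^ (q - 1) * j1 E M q := by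
    rw [← pow_succ, Nat.sub_add_cancel hq]
  have e2 : jq1 E M q ^ q = jq1 E M q ^ (q - 1) * jq1 E M q := by
    rw [← pow_succ, Nat.sub_add_cancel hq]
  rw [e1, e2]
  field_simp

theorem zy_mem_chartAlg (hq : q.Prime) :
    zE E M q ∈ chartAlg P E (M * q) (xE E M q)⁻¹ ∧
      yE E M q ∈ chartAlg P E (M * q) (xE E M q)⁻¹ := by
  obtain ⟨D⟩ := S28.H807.nonempty_modPolyData q hq
  have hj : D.Φ.eval₂ (Polynomial.aeval (R := ℤ) (jq1 E M q)).toRingHom (j1 E M q) = 0 :=
    H873.eval₂_eq_zero_of_int E (M * q) D.Φ _ _ _ _ (H873.coe_jE_one E (M * q))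
      (H873.coe_jE_int E (M * q) q (dvd_mul_left q M)) D.eval_j
  have hjq : D.Φ.eval₂ (Polynomial.aeval (R := ℤ) (j1 E M q)).toRingHom (jq1 E M q) = 0 :=
    H873.eval₂_eq_zero_of_int E (M * q) D.Φ _ _ _ _
      (H873.coe_jE_int E (M * q) q (dvd_mul_left q M)) (H873.coe_jE_one E (M * q)) D.eval_jp
  have h1 : j1 E M q ≠ 0 := H873.jE_ne_zero E (M * q) 1 (one_dvd _)
  have h2 : jq1 E M q ≠ 0 := H873.jE_ne_zero E (M * q) q (dvd_mul_left q M)
  have key : ∀ V : ValuationSubring (FE E (M * q)), (xE E M q)⁻¹ ∈ V →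
      zE E M q ∈ V ∧ yE E M q ∈ V := fun V hx =>
    div_pow_mem_of_inv_mul_mem (n := q + 1) h1 h2 D.Φ (by have := hq.two_le; omega) D.monic
      D.natDegree_eq (modPoly_natDegree_coeff_le q hq D)
      (modPoly_natDegree_coeff_top_le q hq D) hjq hj V hx
  constructor
  · rw [← H372.mem_chart_iff]
    exact H873.isIntegralElem_of_isIntegral_closure _
      (H873.isIntegral_closure_of_forall_valuationSubring fun V hx => (key V hx).1)
  · rw [← H372.mem_chart_iff]
    exact H873.isIntegralElem_of_isIntegral_closure _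
      (H873.isIntegral_closure_of_forall_valuationSubring fun V hx => (key V hx).2)

variable {P E M q}
variable (w : RE P E)

/-- `z ≡ 1 mod w V∞`. -/
theorem zE_sub_one_inW (hS : Setting P E M q w) {V : ValuationSubring (FE E (M * q))}
    (hV : IsVinf P E (M * q) V) : InW P E (M * q) V w (zE E M q - 1) := by
  have hN := H372.level_ne_zero w hS
  have hk := H372.inW_jE_sub_pow w hS hV 1 (one_dvd M)
  have hcongr : jE E (M * q) (1 * q) (mul_dvd_mul_right (one_dvd M) q) = jq1 E M q :=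
    H372.jE_congr (one_mul q) _ _
  rw [hcongr] at hk
  have hinv : (j1 E M q)⁻¹ ∈ V := H372.jE_inv_mem w hS hN hV 1 (one_dvd _)
  have h1 : j1 E M q ≠ 0 := H873.jE_ne_zero E (M * q) 1 (one_dvd _)
  have e : (zE E M q - 1) * (cE P E (M * q) w)⁻¹
      = ((jq1 E M q - j1 E M q ^ q) * (cE P E (M * q) w)⁻¹) * ((j1 E M q)⁻¹) ^ q := by
    rw [zE]
    exact div_pow_sub_one_mul _ _ _ q h1
  show (zE E M q - 1) * (cE P E (M * q) w)⁻¹ ∈ V
  rw [e]
  exact V.mul_mem _ _ hk (V.pow_mem hinv q)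

/-- `y ≡ 1 mod w V₀`, `V₀ = V∞ ∘ W`. -/
theorem yE_sub_one_inW (hS : Setting P E M q w) {V : ValuationSubring (FE E (M * q))}
    (hV : IsVinf P E (M * q) V) {W : FE E (M * q) ≃ₐ[E] FE E (M * q)}
    (hW : IsFricke E (M * q) W) :
    InW P E (M * q) (V.comap (W : FE E (M * q) →+* FE E (M * q))) w (yE E M q - 1) := by
  rw [H372.inW_comap_iff]
  have hN := H372.level_ne_zero w hS
  have hk := H372.inW_jE_sub_pow w hS hV M (dvd_refl M)
  have hinv : (jE E (M * q) M (dvd_mul_right M q))⁻¹ ∈ V :=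
    H372.jE_inv_mem w hS hN hV M (dvd_mul_right M q)
  have h0 : jE E (M * q) M (dvd_mul_right M q) ≠ 0 := H873.jE_ne_zero E (M * q) M _
  have hWy : W (yE E M q - 1) = jE E (M * q) (M * q) (dvd_refl _) /
      (jE E (M * q) M (dvd_mul_right M q)) ^ q - 1 := by
    rw [yE, map_sub, map_one, map_div₀, map_pow, H372.fricke_jE_one hW, H372.fricke_jE_q hW]
  have e : (W (yE E M q - 1)) * (cE P E (M * q) w)⁻¹
      = ((jE E (M * q) (M * q) (dvd_refl _) - (jE E (M * q) M (dvd_mul_right M q)) ^ q) *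
          (cE P E (M * q) w)⁻¹) * ((jE E (M * q) M (dvd_mul_right M q))⁻¹) ^ q := by
    rw [hWy]
    exact div_pow_sub_one_mul _ _ _ q h0
  show (W (yE E M q - 1)) * (cE P E (M * q) w)⁻¹ ∈ V
  rw [e]
  exact V.mul_mem _ _ hk (V.pow_mem hinv q)

/-- **Cusps are not nodes** (level `M q`, chart at infinity): a proper ideal of the chart at
infinity containing both components does not contain `x⁻¹ = (j j_q)⁻¹`. -/
theorem no_node_at_infinity (hS : Setting P E M q w) (V : ValuationSubring (FE E (M * q)))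
    (W : FE E (M * q) ≃ₐ[E] FE E (M * q)) (hV : IsVinf P E (M * q) V)
    (hW : IsFricke E (M * q) W)
    (p₁ p₂ : Ideal (chartAlg P E (M * q) (xE E M q)⁻¹))
    (h₁ : IsCut P E (M * q) w V (chartAlg P E (M * q) (xE E M q)⁻¹) p₁)
    (h₂ : IsCut P E (M * q) w (V.comap (W : FE E (M * q) →+* FE E (M * q)))
      (chartAlg P E (M * q) (xE E M q)⁻¹) p₂)
    (n : Ideal (chartAlg P E (M * q) (xE E M q)⁻¹)) (hn : n ≠ ⊤) (h1 : p₁ ≤ n) (h2 : p₂ ≤ n)
    (v : chartAlg P E (M * q) (xE E M q)⁻¹) (hv : (v : FE E (M * q)) = (xE E M q)⁻¹) :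
    v ∉ n := by
  obtain ⟨hz, hy⟩ := zy_mem_chartAlg P E M q hS.q_prime
  set zB : chartAlg P E (M * q) (xE E M q)⁻¹ := ⟨zE E M q, hz⟩ with hzB
  set yB : chartAlg P E (M * q) (xE E M q)⁻¹ := ⟨yE E M q, hy⟩ with hyB
  have hq1 : 0 < q - 1 := by have := hS.q_prime.two_le; omega
  refine not_mem_of_yz (pinf := p₁) (pzero := p₂) (y := yB) (z := zB) (k := q - 1) hn h1 h2 hq1
    ?_ ?_ ?_
  · rw [h₁]
    exact zE_sub_one_inW w hS hV
  · rw [h₂]
    exact yE_sub_one_inW w hS hV hW
  · apply Subtype.ext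
    show yE E M q * zE E M q = (v : FE E (M * q)) ^ (q - 1)
    rw [hv, yE_mul_zE]

end Concrete

end Fermat.Agent.S36.H153

end
end
-- ===== PACK-END S36/H153/CuspNode.lean

-- ===== PACK-BEGIN S59/H577/GTWCurve.lean
section





/-!
# S59 / cell GTW (helper577): the standing hypotheses of S56 for `E[p] ⊗ k`

`curveResidualHyp_of_ram` : for a semistable integral model `W` with `E[p]` irreducible, `p` odd,
and `E[p]` RAMIFIED AT SOME PRIME `q ≠ p` (`∃ q ∈ Smin, q ≠ p`), the residual representation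
`Arch.curveResidual p W hcard hker ι` satisfies `Arch.ResidualHyp`.

The hypothesis "ramified at some `q ≠ p`" gives a non-trivial unipotent element in the image
(inertia at `q` acts unipotently by semistability), and then irreducibility over `𝔽_p` implies
absolute irreducibility on every normal subgroup containing its square (`GTWLin.lean`).
In the remaining case `Smin = {p}` the minimal level is `1` or `p`, which contradicts residual
modularity for `p ∈ {3, 5}` (`TameOut.lean`).
-/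

set_option autoImplicit false
set_option linter.style.haveILetI false

open Polynomial IsLocalRing
open scoped WeierstrassCurve.Affine TensorProduct

namespace Fermat.Agent.S59.H577

open Fermat.Agent.S59.Arch Fermat.Agent.S59.H127
open WeierstrassCurve WeierstrassCurve.Affine WeierstrassCurve.Affine.Point

/-- `ℚ̄` -/
abbrev Qbar577 : Type := AlgebraicClosure ℚ

/-- `G_ℚ` -/
abbrev GQ577 : Type := Qbar577 ≃ₐ[ℚ] Qbar577

section Level

variable (W : WeierstrassCurve ℤ)

/-- the Galois representation on `E[m]` -/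
noncomputable abbrev rho577 (m : ℕ) :
    GQ577 →* Module.End (ZMod m) (Submodule.torsionBy ℤ (Pts W) m) :=
  galoisRepModuleEnd (K := AlgebraicClosure ℚ) ℚ (WQ W) m

theorem det_rho577_cast {m m' : ℕ} (h : m = m') (σ : GQ577) (a : ℕ)
    (hd : LinearMap.det (rho577 W m σ) = (a : ZMod m)) :
    LinearMap.det (rho577 W m' σ) = (a : ZMod m') := by
  subst h
  exact hd

variable (p : ℕ) [hp : Fact p.Prime]

/-- the determinant of `E[p]` is the mod `p` cyclotomic character -/
theorem det_rho577 (hΔ : W.Δ ≠ 0) (hirr : W.ModRepIsIrreducible p) (σ : GQ577) (a : ℕ)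
    (ha : ∀ μ : Qbar577, μ ^ p = 1 → σ μ = μ ^ a) :
    LinearMap.det (rho577 W p σ) = (a : ZMod p) := by
  have h1 := Fermat.Agent.S59.H667.detInput_of_irreducible p W hΔ hirr 1 σ a
    (fun μ hμ => ha μ (by rwa [pow_one] at hμ))
  exact det_rho577_cast W (pow_one p) σ a h1

/-- inertia at `q ≠ p` acts unipotently on `E[p]` (semistable model) -/
theorem sub_one_sq_rho577 (hΔ : W.Δ ≠ 0) (hss : W.IsSemistableModel) {q : ℕ} (hq : q.Prime)
    (hqp : q ≠ p) (A : ValuationSubring Qbar577) (hA : A.LiesOverPrime q) (σ : GQ577)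
    (hσ : σ ∈ A.inertiaSubgroupIn ℚ) :
    (rho577 W p σ - 1) * (rho577 W p σ - 1) = 0 := by
  have hc : ∀ y : Submodule.torsionBy ℤ (Pts W) p,
      ((rho577 W p σ y : Submodule.torsionBy ℤ (Pts W) p) : Pts W) = σ • (y : Pts W) :=
    fun y => rfl
  have hx : ∀ x : Submodule.torsionBy ℤ (Pts W) p, p ^ 1 • (x : Pts W) = 0 := by
    intro x
    have := x.2
    rw [Submodule.mem_torsionBy_iff] at this
    rw [pow_one, ← natCast_zsmul]
    exact this
  by_cases hgood : W.IsGoodPrimeFor q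
  · have h2 : rho577 W p σ - 1 = 0 := by
      ext x
      have h1 := Fermat.Agent.S59.H667.unramInput p hp.out W q hq hgood hqp A hA σ hσ 1
        (x : Pts W) (hx x)
      rw [LinearMap.sub_apply, Module.End.one_apply, LinearMap.zero_apply,
        Submodule.coe_sub, hc, h1, sub_self, Submodule.coe_zero]
    rw [h2, mul_zero]
  · ext x
    have h1 := Fermat.Agent.S59.H240.unipInput_of_semistable p hp.out W hΔ hss q hq hgood hqp A hA
      σ hσ 1 (x : Pts W) (hx x)
    have h2 : (((rho577 W p σ - 1) * (rho577 W p σ - 1)) x : Pts W)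
        = σ • σ • (x : Pts W) - (2 : ℤ) • σ • (x : Pts W) + (1 : ℤ) • (x : Pts W) := by
      simp only [Module.End.mul_apply, LinearMap.sub_apply, Module.End.one_apply, _root_.map_sub,
        Submodule.coe_sub, hc]
      rw [one_zsmul, two_zsmul]
      abel
    rw [h2, h1]
    rfl

end Level

end Fermat.Agent.S59.H577

end
-- ===== PACK-END S59/H577/GTWCurve.lean

-- ===== PACK-BEGIN S59/H577/GTW.lean
section



/-!
# S59 / cell GTW (helper577): `Arch.ResidualHyp` for `E[p] ⊗ k`, ramified case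

`curveResidualHyp_of_ram : CurveResidualHypRamStatement` : the frozen statement
`Arch.CurveResidualHypStatement` with `p = 3 ∨ p = 5` weakened to `p ≠ 2` and with the extra
hypothesis `∃ q ∈ Smin, q ≠ p` (`E[p]` is ramified at some prime `q ≠ p`).
-/

set_option autoImplicit false
set_option linter.style.haveILetI false

open Polynomial IsLocalRing
open scoped WeierstrassCurve.Affine TensorProduct

namespace Fermat.Agent.S59.H577

open Fermat.Agent.S59.Arch Fermat.Agent.S59.H127
open WeierstrassCurve WeierstrassCurve.Affine WeierstrassCurve.Affine.Point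

/-- **GTW, ramified case.**  The frozen `Arch.CurveResidualHypStatement` for every odd `p`, under
the extra hypothesis that `E[p]` is ramified at some prime `q ≠ p`. -/
def CurveResidualHypRamStatement : Prop :=
  ∀ (p : ℕ) [Fact p.Prime] (_hp2 : p ≠ 2)
    (W : WeierstrassCurve ℤ) (_hΔ : W.Δ ≠ 0) (_hW : W.IsSemistableModel)
    (_hirr : W.ModRepIsIrreducible p)
    (hcard : Nat.card (Submodule.torsionBy ℤ
      ((W.map (Int.castRingHom ℚ))⁄(AlgebraicClosure ℚ)).Point p) = p ^ 2)
    (hker : GaloisFactorsThroughFiniteLevel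
      (WeierstrassCurve.Affine.Point.galoisRepModuleEnd (K := AlgebraicClosure ℚ) ℚ
        (W.map (Int.castRingHom ℚ)) p))
    (𝒪 : Type) [CommRing 𝒪] [IsDomain 𝒪] [IsDiscreteValuationRing 𝒪]
    [IsAdicComplete (maximalIdeal 𝒪) 𝒪] [Finite (ResidueField 𝒪)] [CharZero 𝒪]
    (_hp𝒪 : (p : 𝒪) ∈ maximalIdeal 𝒪)
    (ι : ZMod p →+* ResidueField 𝒪)
    (_hι : ∀ f : (ZMod p)[X], f.Monic → f.natDegree = 2 →
      ∃ α β : ResidueField 𝒪, f.map ι = (X - C α) * (X - C β))
    (Smin : Finset ℕ) (_hSmin : IsMinSet p (curveResidual p W hcard hker ι) Smin)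
    (_hram : ∃ q ∈ Smin, q ≠ p),
    ResidualHyp p 𝒪 (curveResidual p W hcard hker ι) Smin

section Fields

variable (p : ℕ) [hp : Fact p.Prime] (W : WeierstrassCurve ℤ)
  (hcard : Nat.card (Submodule.torsionBy ℤ
      ((W.map (Int.castRingHom ℚ))⁄(AlgebraicClosure ℚ)).Point p) = p ^ 2)
  (hker : GaloisFactorsThroughFiniteLevel
      (WeierstrassCurve.Affine.Point.galoisRepModuleEnd (K := AlgebraicClosure ℚ) ℚ
        (W.map (Int.castRingHom ℚ)) p))
  {k : Type} [Field k] (ι : ZMod p →+* k)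

theorem curveResidual_rho577 (σ : GQ577) :
    (curveResidual p W hcard hker ι).ρ σ =
      letI : Algebra (ZMod p) k := ι.toAlgebra
      (rho577 W p σ).baseChange k := rfl

/-- irreducibility on every normal subgroup containing the square of a non-trivial unipotent -/
theorem curve_stable_eq_bot_or_top (hp2 : p ≠ 2) (hirr : W.ModRepIsIrreducible p)
    (σ₀ : GQ577) (h1 : (rho577 W p σ₀ - 1) * (rho577 W p σ₀ - 1) = 0)
    (h2 : rho577 W p σ₀ ≠ 1)
    (K : Type) [Field K] [Algebra k K] (G : Subgroup GQ577) [G.Normal] (hG : σ₀ * σ₀ ∈ G)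
    (V : Submodule K ((curveResidual p W hcard hker ι).baseChange K).V)
    (hV : ∀ σ ∈ G, ∀ x ∈ V, ((curveResidual p W hcard hker ι).baseChange K).ρ σ x ∈ V) :
    V = ⊥ ∨ V = ⊤ := by
  letI : Algebra (ZMod p) k := ι.toAlgebra
  have hfin : Module.finrank (ZMod p) (Submodule.torsionBy ℤ (Pts W) p) = 2 :=
    ((W.map (Int.castRingHom ℚ)).residualGaloisRepOf p hcard hker).finrank_eq
  set N : Module.End (ZMod p) (Submodule.torsionBy ℤ (Pts W) p) := rho577 W p σ₀ - 1 with hN
  have hN0 : N ≠ 0 := fun h => h2 (sub_eq_zero.mp h)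
  have hu : rho577 W p (σ₀ * σ₀) - 1 = (2 : ZMod p) • N := by
    rw [map_mul]
    have : rho577 W p σ₀ = N + 1 := by rw [hN]; abel
    rw [this, two_smul]
    have h3 : (N + 1) * (N + 1) = N * N + N + N + 1 := by
      rw [add_mul, mul_add, mul_one, one_mul]; abel
    rw [h3, h1]
    abel
  have h2ne : (2 : ZMod p) ≠ 0 := by
    intro h
    have h4 : ((2 : ℕ) : ZMod p) = 0 := by exact_mod_cast h
    rw [ZMod.natCast_eq_zero_iff] at h4
    exact hp2 ((Nat.prime_dvd_prime_iff_eq hp.out Nat.prime_two).mp h4)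
  refine stable_eq_bot_or_top_of_unipotent (k₀ := ZMod p) (k := k) (K := K) hfin (rho577 W p)
    (fun W₀ hW₀ => hirr.2 W₀ (fun σ x hx => hW₀ σ x hx)) G (σ₀ * σ₀) hG ?_ ?_ V
    (fun σ hσ x hx => hV σ hσ x hx)
  · rw [hu, smul_mul_smul_comm, h1, smul_zero]
  · intro h
    rw [← sub_eq_zero, hu] at h
    exact hN0 ((smul_eq_zero.mp h).resolve_left h2ne)

/-- the determinant of `E[p] ⊗ k` is the mod `p` cyclotomic character -/
theorem curve_detIsCyclotomic (hΔ : W.Δ ≠ 0) (hirr : W.ModRepIsIrreducible p) :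
    (GaloisRepAdic.ofResidualGaloisRep (curveResidual p W hcard hker ι)).DetIsCyclotomic p := by
  letI : Algebra (ZMod p) k := ι.toAlgebra
  haveI : Module.Finite (ZMod p) (Submodule.torsionBy ℤ (Pts W) p) :=
    Module.finite_of_finrank_eq_succ
      ((W.map (Int.castRingHom ℚ)).residualGaloisRepOf p hcard hker).finrank_eq
  have hpk : (p : k) = 0 := by
    have h := map_natCast ι p
    rw [ZMod.natCast_self, _root_.map_zero] at h
    exact h.symm
  refine ⟨?_, ?_⟩
  · rw [hpk]
    exact zero_mem _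
  · intro n σ a ha
    rcases Nat.eq_zero_or_pos n with rfl | hn
    · rw [pow_zero, Nat.cast_one, Ideal.span_singleton_one]
      exact Submodule.mem_top
    · have h1 : LinearMap.det (rho577 W p σ) = (a : ZMod p) := by
        refine det_rho577 W p hΔ hirr σ a (fun μ hμ => ha μ ?_)
        obtain ⟨m, rfl⟩ : ∃ m, n = m + 1 := ⟨n - 1, by omega⟩
        rw [pow_succ', pow_mul, hμ, one_pow]
      have h2 : LinearMap.det ((rho577 W p σ).baseChange k) =
          algebraMap (ZMod p) k (LinearMap.det (rho577 W p σ)) :=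
        LinearMap.det_baseChange (rho577 W p σ)
      have h3 : LinearMap.det ((GaloisRepAdic.ofResidualGaloisRep
          (curveResidual p W hcard hker ι)).ρ σ) = (a : k) := by
        refine h2.trans ?_
        rw [h1, map_natCast]
      rw [h3, sub_self]
      exact zero_mem _

/-- the characteristic polynomials of `E[p] ⊗ k` come from `𝔽_p` -/
theorem curve_charpoly (σ : GQ577) :
    LinearMap.charpoly ((curveResidual p W hcard hker ι).ρ σ) =
      (LinearMap.charpoly
        (((W.map (Int.castRingHom ℚ)).residualGaloisRepOf p hcard hker).ρ σ)).map ι := by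
  letI : Algebra (ZMod p) k := ι.toAlgebra
  exact LinearMap.charpoly_baseChange
    (((W.map (Int.castRingHom ℚ)).residualGaloisRepOf p hcard hker).ρ σ) k

theorem curve_split
    (hι : ∀ f : (ZMod p)[X], f.Monic → f.natDegree = 2 →
      ∃ α β : k, f.map ι = (X - C α) * (X - C β))
    (σ : GQ577) :
    ∃ α β : k, LinearMap.charpoly ((curveResidual p W hcard hker ι).ρ σ) =
      (X - C α) * (X - C β) := by
  obtain ⟨α, β, h⟩ := hι (LinearMap.charpoly
      (((W.map (Int.castRingHom ℚ)).residualGaloisRepOf p hcard hker).ρ σ))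
    (LinearMap.charpoly_monic _)
    (by rw [LinearMap.charpoly_natDegree,
      ((W.map (Int.castRingHom ℚ)).residualGaloisRepOf p hcard hker).finrank_eq])
  exact ⟨α, β, (curve_charpoly p W hcard hker ι σ).trans h⟩

/-- inertia at `q ≠ p` acts unipotently on `E[p] ⊗ k` -/
theorem curve_unip (hΔ : W.Δ ≠ 0) (hss : W.IsSemistableModel) {q : ℕ} (hq : q.Prime)
    (hqp : q ≠ p) :
    (GaloisRepAdic.ofResidualGaloisRep
      (curveResidual p W hcard hker ι)).IsUnipotentOnInertiaAt q := by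
  intro P hP σ hσ
  have h1 := sub_one_sq_rho577 W p hΔ hss hq hqp P hP σ hσ
  have h2 : LinearMap.charpoly
      (((W.map (Int.castRingHom ℚ)).residualGaloisRepOf p hcard hker).ρ σ) = (X - 1) ^ 2 := by
    apply charpoly_eq_of_sub_one_sq
      ((W.map (Int.castRingHom ℚ)).residualGaloisRepOf p hcard hker).finrank_eq
    have h3 : (rho577 W p σ - 1) * (rho577 W p σ - 1) =
        rho577 W p σ * rho577 W p σ - (2 : ZMod p) • rho577 W p σ + 1 := by
      rw [sub_mul, mul_sub, mul_one, one_mul, two_smul]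
      abel
    rw [h3] at h1
    exact h1
  refine (curve_charpoly p W hcard hker ι σ).trans ?_
  rw [h2]
  simp

end Fields

/-- **GTW, ramified case.** -/
theorem curveResidualHyp_of_ram : CurveResidualHypRamStatement := by
  intro p _ hp2 W hΔ hW hirr hcard hker 𝒪 _ _ _ _ _ _ hp𝒪 ι hι Smin hSmin hram
  obtain ⟨hpS, hSP, hmin⟩ := hSmin
  obtain ⟨q, hqS, hqp⟩ := hram
  have hq : q.Prime := hSP q hqS
  have hnr := (hmin q hq hqp).mp hqS
  -- a non-trivial unipotent element
  obtain ⟨σ₀, h1, h2⟩ : ∃ σ₀ : GQ577, (rho577 W p σ₀ - 1) * (rho577 W p σ₀ - 1) = 0 ∧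
      rho577 W p σ₀ ≠ 1 := by
    by_contra hcon
    push Not at hcon
    apply hnr
    intro A hA σ hσ
    have h3 := hcon σ (sub_one_sq_rho577 W p hΔ hW hq hqp A hA σ hσ)
    have h4 := curveResidual_rho577 p W hcard hker ι σ
    rw [h3, LinearMap.baseChange_one] at h4
    exact h4
  refine
    { hp2 := hp2
      hp𝒪 := hp𝒪
      habs := ?_
      hdet := curve_detIsCyclotomic p W hcard hker ι hΔ hirr
      hsplit := curve_split p W hcard hker ι hι
      hTW := ?_
      hpSmin := hpS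
      hSmin := hSP
      hmin := hmin
      hunip := fun q' _ hq' hq'p => curve_unip p W hcard hker ι hΔ hW hq' hq'p }
  · intro V hV
    haveI : (⊤ : Subgroup GQ577).Normal := Subgroup.normal_top
    exact curve_stable_eq_bot_or_top p W hcard hker ι hp2 hirr σ₀ h1 h2
      (AlgebraicClosure (ResidueField 𝒪)) ⊤ (Subgroup.mem_top _) V (fun σ _ x hx => hV σ x hx)
  · intro K _ _ G hG V hV
    haveI : G.Normal := Subgroup.normal_of_index_eq_two hG
    exact curve_stable_eq_bot_or_top p W hcard hker ι hp2 hirr σ₀ h1 h2 K G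
      (Subgroup.mul_self_mem_of_index_two hG σ₀) V hV

end Fermat.Agent.S59.H577

end
-- ===== PACK-END S59/H577/GTW.lean

-- ===== PACK-BEGIN S17/H680/Cusp.lean
section





/-!
# S17 / P2 (helper680): the cusp `∞` is Galois-stable; descent for `J₀(N)`

* `cuspInf F₀ hneg` : the place `ord_q` of `laurentBaseChange L F₀ ⊆ L((q))`;
* `arithmeticGalois_smul_cuspInf` : it is fixed by the coefficientwise Galois action;
* `JZero.galois_smul_minRep` : for a Galois-fixed class `x ∈ J₀(N)`, the minimal representative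
  `E_x` (effective, degree `≤ g`, prime to `∞`, `x = [E_x - m ∞]`) is a Galois-invariant divisor.
-/

set_option autoImplicit false

noncomputable section

open AlgebraicCurve ModularCurve

namespace Fermat.Agent.S17.H680

open Fermat.Agent.Lib.RR

section General

variable {L : Type*} [Field L] [Algebra ℚ L]
variable (F₀ : IntermediateField ℚ (LaurentSeries ℚ))

/-- The inclusion of the function field into the Laurent series. -/
def inclLaurent : laurentBaseChange L F₀ →+* LaurentSeries L :=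
  (laurentBaseChange L F₀).toSubfield.subtype

@[simp]
theorem inclLaurent_apply (x : laurentBaseChange L F₀) :
    inclLaurent F₀ x = (x : LaurentSeries L) := rfl

omit [Algebra ℚ L] in
theorem order_algebraMap_laurent (c : L) :
    (algebraMap L (LaurentSeries L) c).order = 0 := by
  rw [algebraMap_laurentSeries_eq_single]
  rcases eq_or_ne c 0 with rfl | hc
  · simp
  · exact HahnSeries.order_single hc

/-- The place `ord_q` of the function field `laurentBaseChange L F₀`. -/
def cuspInf (hneg : ∃ f : laurentBaseChange L F₀, (f : LaurentSeries L).order < 0) :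
    Place L (laurentBaseChange L F₀) :=
  Fermat.Agent.S24.H144.placeOfEmb (inclLaurent F₀)
    (fun c => le_of_eq (order_algebraMap_laurent c).symm) hneg

theorem mem_cuspInf (hneg : ∃ f : laurentBaseChange L F₀, (f : LaurentSeries L).order < 0)
    (f : laurentBaseChange L F₀) :
    f ∈ (cuspInf F₀ hneg).toValuationSubring ↔ 0 ≤ (f : LaurentSeries L).order :=
  Iff.rfl

omit [Algebra ℚ L] in
theorem order_coeffMap_of_injective (φ : L →+* L) (hφ : Function.Injective φ)
    (x : LaurentSeries L) : (coeffMap φ x).order = x.order := by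
  classical
  rcases eq_or_ne x 0 with rfl | hx
  · simp
  have hx' : coeffMap φ x ≠ 0 := by
    intro h
    apply hx
    ext k
    have := congrArg (fun y => HahnSeries.coeff y k) h
    simp only [coeffMap_coeff, HahnSeries.coeff_zero] at this
    rw [HahnSeries.coeff_zero]
    exact hφ (by rw [this, map_zero])
  have hsupp : (coeffMap φ x).support = x.support := by
    ext k
    simp only [HahnSeries.mem_support, coeffMap_coeff, ne_eq]
    rw [map_eq_zero_iff φ hφ]
  rw [HahnSeries.order_of_ne hx', HahnSeries.order_of_ne hx]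
  congr 1

/-- The cusp `∞` is fixed by the coefficientwise Galois action. -/
theorem arithmeticGalois_smul_cuspInf
    (hneg : ∃ f : laurentBaseChange L F₀, (f : LaurentSeries L).order < 0) (σ : L ≃ₐ[ℚ] L) :
    arithmeticGalois F₀ σ • cuspInf F₀ hneg = cuspInf F₀ hneg := by
  apply Place.ext
  ext f
  rw [SemilinearAut.smul_toValuationSubring,
    ValuationSubring.mem_pointwise_smul_iff_inv_smul_mem, mem_cuspInf, mem_cuspInf]
  have h : (((arithmeticGalois F₀ σ)⁻¹ • f : laurentBaseChange L F₀) : LaurentSeries L)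
      = coeffMap ((σ⁻¹ : L ≃ₐ[ℚ] L) : L →+* L) (f : LaurentSeries L) := by
    rw [← map_inv]
    exact coe_arithmeticGalois_smul F₀ σ⁻¹ f
  rw [h, order_coeffMap_of_injective _ (σ⁻¹ : L ≃ₐ[ℚ] L).injective]

end General

/-! ### The modular function field -/

section Modular

variable (N : ℕ) [NeZero N]

theorem jq_order_neg : jq.order < 0 := by
  have h : jq.order ≤ -1 := HahnSeries.order_le_of_coeff_ne_zero (by
    rw [coeff_jq_neg_one]; exact one_ne_zero)
  omega

theorem exists_order_neg_modular :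
    ∃ f : modularFunctionFieldBar N, (f : LaurentSeries (AlgebraicClosure ℚ)).order < 0 := by
  refine ⟨⟨coeffEmb (AlgebraicClosure ℚ) jq,
    coeffEmb_mem_laurentBaseChange _ (modularFunctionField_le_full N (jq_mem N))⟩, ?_⟩
  show (coeffEmb (AlgebraicClosure ℚ) jq).order < 0
  have h : (coeffEmb (AlgebraicClosure ℚ) jq).order ≤ -1 :=
    HahnSeries.order_le_of_coeff_ne_zero (by
      rw [coeffEmb_coeff, coeff_jq_neg_one, map_one]; exact one_ne_zero)
  omega

/-- The cusp `∞` of `X₀(N)`, as a place of `ℚ̄(X₀(N))`. -/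
def JZero.cusp : Place (AlgebraicClosure ℚ) (modularFunctionFieldBar N) :=
  cuspInf (modularFunctionFieldFull N) (exists_order_neg_modular N)

theorem JZero.galois_smul_cusp (σ : AlgebraicClosure ℚ ≃ₐ[ℚ] AlgebraicClosure ℚ) :
    arithmeticGalois (modularFunctionFieldFull N) σ • JZero.cusp N = JZero.cusp N :=
  arithmeticGalois_smul_cuspInf _ _ σ

omit [NeZero N] in
/-- Membership in the Mordell–Weil group `J₀(N)(ℚ)`. -/
theorem JZero.mem_fixedPoints_iff (x : JZero N) :
    x ∈ FixedPoints.addSubgroup (AlgebraicClosure ℚ ≃ₐ[ℚ] AlgebraicClosure ℚ) (JZero N) ↔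
      ∀ σ : AlgebraicClosure ℚ ≃ₐ[ℚ] AlgebraicClosure ℚ,
        arithmeticGalois (modularFunctionFieldFull N) σ • x = x :=
  Iff.rfl

/-- **Galois descent for `J₀(N)`**: the minimal representative of a rational class is a
Galois-invariant effective divisor. -/
theorem JZero.galois_smul_minRep {x : JZero N}
    (hx : x ∈ FixedPoints.addSubgroup (AlgebraicClosure ℚ ≃ₐ[ℚ] AlgebraicClosure ℚ) (JZero N))
    (σ : AlgebraicClosure ℚ ≃ₐ[ℚ] AlgebraicClosure ℚ) :
    arithmeticGalois (modularFunctionFieldFull N) σ • minRep (JZero.cusp N) x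
      = minRep (JZero.cusp N) x :=
  smul_minRep_eq _ (JZero.galois_smul_cusp N σ) ((JZero.mem_fixedPoints_iff N x).mp hx σ)

/-- Summary of the descent statement for `J₀(N)(ℚ)`. -/
theorem JZero.exists_invariant_rep {x : JZero N}
    (hx : x ∈ FixedPoints.addSubgroup (AlgebraicClosure ℚ ≃ₐ[ℚ] AlgebraicClosure ℚ) (JZero N)) :
    ∃ (m : ℕ) (E : Divisor (AlgebraicClosure ℚ) (modularFunctionFieldBar N))
      (hdeg : Divisor.degree (E - m • prim (JZero.cusp N)) = 0),
      m ≤ genusR (AlgebraicClosure ℚ) (modularFunctionFieldBar N) ∧ 0 ≤ E ∧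
      Divisor.degree E = m ∧ E (JZero.cusp N) = 0 ∧ ell E = 1 ∧
      (∀ σ : AlgebraicClosure ℚ ≃ₐ[ℚ] AlgebraicClosure ℚ,
        arithmeticGalois (modularFunctionFieldFull N) σ • E = E) ∧
      Pic0.mk ⟨E - m • prim (JZero.cusp N), hdeg⟩ = x :=
  ⟨minDeg (JZero.cusp N) x, minRep (JZero.cusp N) x, degree_minRep_sub _ x,
    minDeg_le_genus _ x, minRep_nonneg _ x, degree_minRep _ x, minRep_apply_infty _ x,
    ell_minRep _ x, fun σ => JZero.galois_smul_minRep N hx σ, mk_minDiv _ x⟩

end Modular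

end Fermat.Agent.S17.H680

end
end
-- ===== PACK-END S17/H680/Cusp.lean

-- ===== PACK-BEGIN A3/H739/GrAsm.lean
section










/-!
# A3 / GR (helper739): assembly of the `GoodRed` instance for `X₀(N)`

Target: `Fermat.Agent.S19.H979.GrStatement` (frozen by helper979).

For a valuation ring `V ⊆ Q̄` above `ℓ ∤ N` we take

* `O   := S37.Red.modO hVG`  (fractions of integral `q`-series, helper40/helper940),
* `red := S37.Red.modρ hVG`  (coefficientwise reduction of fractions),
* `I   := inertiaImage N V`  (image under `arithmeticGalois` of `{σ | IsInertiaAt V σ}`),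
* `hVG` from `S37.H568.valueGroupHyp_modular` and `S18.H516.coreData_residue`.

PROVED HERE (no holes): `res_*`, `algebraMap_mem`, `red_algebraMap`, `red_surjective`, `gauss`,
`ff1`, `ff1k`, `I_base`, `I_red`, `I_lift_const`, `I_fixed_place`, and the passage of `div_red`
from integral series (Prelude `IsPlaceReductionModL`) to all of `O`.

OPEN LEAVES (exact Props below):
* `RedLeaf N V`    : a place map `r` with the Prelude's `IsPlaceReductionModL V N r`, commuting
                     with inertia;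
* `GenusLeaf N V`  : `genusFF` of the generic and the special fibre agree;
* `OrthLeaf N V hVG` : the field `orthonormal` for `(modO, modρ, inertiaImage)`.

`grStatement_of_leaves` : the three leaves (for ONE `V` above each `ℓ`)  ⟹  `GrStatement`.
-/

set_option autoImplicit false
set_option synthInstance.maxHeartbeats 400000

noncomputable section

namespace Fermat.Agent.A3.H739

open AlgebraicCurve ModularCurve HahnSeries IsLocalRing
open Fermat.Agent.S19 (GalQ IsInertiaAt GoodLevel)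
open Fermat.Agent.S37.Red (Qb FN kA FNk ModVG modO modρ modFrac)

/-! ## The inertia group -/

section Inertia

variable (V : ValuationSubring _root_.Fermat.Agent.S37.Red.Qb)

theorem zero_mem_nonunits_gr : (0 : _root_.Fermat.Agent.S37.Red.Qb) ∈ V.nonunits := by
  rw [ValuationSubring.mem_nonunits_iff, map_zero]
  exact zero_lt_one

theorem nonunits_le_gr {a : _root_.Fermat.Agent.S37.Red.Qb} (ha : a ∈ V.nonunits) : a ∈ V := by
  rw [ValuationSubring.mem_nonunits_iff] at ha
  exact (V.valuation_le_one_iff a).mp ha.le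

theorem add_mem_nonunits_gr {a b : _root_.Fermat.Agent.S37.Red.Qb} (ha : a ∈ V.nonunits) (hb : b ∈ V.nonunits) :
    a + b ∈ V.nonunits := by
  rw [ValuationSubring.mem_nonunits_iff] at ha hb ⊢
  exact lt_of_le_of_lt (V.valuation.map_add a b) (max_lt ha hb)

theorem neg_mem_nonunits_gr {a : _root_.Fermat.Agent.S37.Red.Qb} (ha : a ∈ V.nonunits) : -a ∈ V.nonunits := by
  rw [ValuationSubring.mem_nonunits_iff] at ha ⊢
  rwa [Valuation.map_neg]

variable {V}

theorem inertia_map_mem {σ : GalQ} (hσ : IsInertiaAt V σ) {a : _root_.Fermat.Agent.S37.Red.Qb} (ha : a ∈ V) :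
    σ a ∈ V := by
  have h := V.add_mem _ _ (nonunits_le_gr V (hσ a ha)) ha
  simpa using h

theorem inertia_map_mem_nonunits {σ : GalQ} (hσ : IsInertiaAt V σ) {a : _root_.Fermat.Agent.S37.Red.Qb}
    (ha : a ∈ V.nonunits) : σ a ∈ V.nonunits := by
  have h := add_mem_nonunits_gr V (hσ a (nonunits_le_gr V ha)) ha
  simpa using h

theorem inertia_symm_mem {σ : GalQ} (hσ : IsInertiaAt V σ) {a : _root_.Fermat.Agent.S37.Red.Qb} (ha : a ∈ V) :
    σ.symm a ∈ V := by
  by_contra hb
  have hb' : (σ.symm a)⁻¹ ∈ V.nonunits := by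
    rw [ValuationSubring.mem_nonunits_iff]
    have h1 : ¬ V.valuation (σ.symm a) ≤ 1 := fun h => hb ((V.valuation_le_one_iff _).mp h)
    have h2 : 1 < V.valuation (σ.symm a) := not_le.mp h1
    rw [map_inv₀]
    exact inv_lt_one_of_one_lt₀ h2
  have h3 := inertia_map_mem_nonunits hσ hb'
  rw [map_inv₀, AlgEquiv.apply_symm_apply] at h3
  rw [ValuationSubring.mem_nonunits_iff, map_inv₀] at h3
  have h4 : V.valuation a ≤ 1 := (V.valuation_le_one_iff a).mpr ha
  have ha0 : V.valuation a ≠ 0 := by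
    intro h0
    rw [h0, inv_zero] at h3
    have hz : a = 0 := (V.valuation.zero_iff).mp h0
    apply hb
    rw [hz, map_zero]
    exact V.zero_mem
  have h5 : 1 ≤ (V.valuation a)⁻¹ := (one_le_inv₀ (zero_lt_iff.mpr ha0)).mpr h4
  exact absurd h3 (not_lt.mpr h5)

variable (V)

/-- the inertia group of `V` in `Gal(Q̄/Q)`, in the form used by `S19.IsInertiaAt` -/
def inertiaGroup : Subgroup GalQ where
  carrier := {σ | IsInertiaAt V σ}
  one_mem' := fun a _ => by
    show (1 : GalQ) a - a ∈ V.nonunits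
    rw [AlgEquiv.one_apply, sub_self]
    exact zero_mem_nonunits_gr V
  mul_mem' := fun {σ τ} hσ hτ a ha => by
    show (σ * τ) a - a ∈ V.nonunits
    have h1 : σ (τ a - a) ∈ V.nonunits := inertia_map_mem_nonunits hσ (hτ a ha)
    have h2 := add_mem_nonunits_gr V h1 (hσ a ha)
    rw [map_sub] at h2
    have e : σ (τ a) - σ a + (σ a - a) = (σ * τ) a - a := by
      rw [AlgEquiv.mul_apply]; ring
    rwa [e] at h2
  inv_mem' := fun {σ} hσ a ha => by
    show σ⁻¹ a - a ∈ V.nonunits
    have hb : σ.symm a ∈ V := inertia_symm_mem hσ ha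
    have h1 := neg_mem_nonunits_gr V (hσ (σ.symm a) hb)
    rw [AlgEquiv.apply_symm_apply, neg_sub] at h1
    exact h1

theorem mem_inertiaGroup {σ : GalQ} : σ ∈ inertiaGroup V ↔ IsInertiaAt V σ := Iff.rfl

/-- the image of the inertia group in the semilinear automorphisms of `Q̄(X₀(N))` -/
def inertiaImage (N : ℕ) : Subgroup (SemilinearAut _root_.Fermat.Agent.S37.Red.Qb (FN N)) :=
  (inertiaGroup V).map (arithmeticGalois (modularFunctionFieldFull N))

theorem mem_inertiaImage {N : ℕ} {g : SemilinearAut _root_.Fermat.Agent.S37.Red.Qb (FN N)} :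
    g ∈ inertiaImage V N ↔
      ∃ σ : GalQ, IsInertiaAt V σ ∧ arithmeticGalois (modularFunctionFieldFull N) σ = g :=
  Subgroup.mem_map

theorem arithmeticGalois_mem_inertiaImage (N : ℕ) {σ : GalQ} (hσ : IsInertiaAt V σ) :
    arithmeticGalois (modularFunctionFieldFull N) σ ∈ inertiaImage V N :=
  Subgroup.mem_map_of_mem _ hσ

end Inertia

/-! ## The datum `(modO, modρ)` -/

section Datum

open Fermat.Agent.S37.H940

variable {N : ℕ} {V : ValuationSubring _root_.Fermat.Agent.S37.Red.Qb}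

theorem gr_res_eq_zero (a : V) : residue V a = 0 ↔ (a : _root_.Fermat.Agent.S37.Red.Qb) ∈ V.nonunits := by
  rw [residue_eq_zero_iff, ValuationSubring.coe_mem_nonunits_iff]

theorem inv_mem_nonunits_of_notMem_gr {a : _root_.Fermat.Agent.S37.Red.Qb} (ha : a ∉ V) : a⁻¹ ∈ V.nonunits := by
  rw [ValuationSubring.mem_nonunits_iff, map_inv₀]
  have h1 : ¬ V.valuation a ≤ 1 := fun h => ha ((V.valuation_le_one_iff _).mp h)
  exact inv_lt_one_of_one_lt₀ (not_le.mp h1)

/-- constants of `O` are the constants of `V` -/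
theorem gr_algebraMap_mem (hVG : ModVG N V) (a : _root_.Fermat.Agent.S37.Red.Qb) :
    algebraMap _root_.Fermat.Agent.S37.Red.Qb (FN N) a ∈ modO hVG ↔ a ∈ V := by
  constructor
  · intro h
    by_contra ha
    have hnu : (a⁻¹ : _root_.Fermat.Agent.S37.Red.Qb) ∈ V.nonunits := inv_mem_nonunits_of_notMem_gr ha
    have hinv : a⁻¹ ∈ V := nonunits_le_gr V hnu
    have ha0 : a ≠ 0 := fun h0 => ha (h0 ▸ V.zero_mem)
    let u : modO hVG := ⟨algebraMap _root_.Fermat.Agent.S37.Red.Qb (FN N) a, h⟩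
    let w : modO hVG := ⟨algebraMap _root_.Fermat.Agent.S37.Red.Qb (FN N) a⁻¹, (modFrac N V).ctx.A_mem ⟨a⁻¹, hinv⟩⟩
    have huw : u * w = 1 := by
      apply Subtype.ext
      show algebraMap _root_.Fermat.Agent.S37.Red.Qb (FN N) a * algebraMap _root_.Fermat.Agent.S37.Red.Qb (FN N) a⁻¹ = 1
      rw [← map_mul, mul_inv_cancel₀ ha0, map_one]
    have hw : modρ hVG w = 0 := by
      have h1 : modρ hVG w = algebraMap (kA V) (FNk V N) (residue V ⟨a⁻¹, hinv⟩) :=
        (modFrac N V).ctx.ρ_A ⟨a⁻¹, hinv⟩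
      rw [h1, (gr_res_eq_zero ⟨a⁻¹, hinv⟩).mpr hnu, map_zero]
    have h2 := congrArg (modρ hVG) huw
    rw [map_mul, hw, mul_zero, map_one] at h2
    exact zero_ne_one h2
  · intro ha
    exact (modFrac N V).ctx.A_mem ⟨a, ha⟩

theorem gr_red_algebraMap (hVG : ModVG N V) (a : V)
    (h : algebraMap _root_.Fermat.Agent.S37.Red.Qb (FN N) (a : _root_.Fermat.Agent.S37.Red.Qb) ∈ modO hVG) :
    modρ hVG ⟨algebraMap _root_.Fermat.Agent.S37.Red.Qb (FN N) (a : _root_.Fermat.Agent.S37.Red.Qb), h⟩ = algebraMap (kA V) (FNk V N) (residue V a) :=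
  (modFrac N V).ctx.ρ_A a

/-- Gauss: every nonzero function is a constant times a function of norm one -/
theorem gr_gauss (hVG : ModVG N V) (f : FN N) (hf : f ≠ 0) :
    ∃ a : _root_.Fermat.Agent.S37.Red.Qb, a ≠ 0 ∧ ∃ h : algebraMap _root_.Fermat.Agent.S37.Red.Qb (FN N) a * f ∈ modO hVG,
      modρ hVG ⟨algebraMap _root_.Fermat.Agent.S37.Red.Qb (FN N) a * f, h⟩ ≠ 0 := by
  obtain ⟨c, hc, y₁, y₂, h₁, h₂, hfy⟩ := hVG f hf
  let z₁ : (modFrac N V).O := y₁
  let z₂ : (modFrac N V).O := y₂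
  have hz₁ : (modFrac N V).ρ₀ z₁ ≠ 0 := h₁
  have hz₂ : (modFrac N V).ρ₀ z₂ ≠ 0 := h₂
  have hfrac : (algebraMap _root_.Fermat.Agent.S37.Red.Qb (FN N) c⁻¹ * f) * (z₂ : FN N) = (z₁ : FN N) := by
    have hfy' : f * (z₂ : FN N) = algebraMap _root_.Fermat.Agent.S37.Red.Qb (FN N) c * (z₁ : FN N) := hfy
    rw [mul_assoc, hfy', ← mul_assoc, ← map_mul, inv_mul_cancel₀ hc, map_one, one_mul]
  have hmem : algebraMap _root_.Fermat.Agent.S37.Red.Qb (FN N) c⁻¹ * f ∈ modO hVG := ⟨z₁, z₂, hz₂, hfrac⟩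
  refine ⟨c⁻¹, inv_ne_zero hc, hmem, ?_⟩
  have h3 : modρ hVG ⟨algebraMap _root_.Fermat.Agent.S37.Red.Qb (FN N) c⁻¹ * f, hmem⟩ =
      (modFrac N V).ρ₀ z₁ / (modFrac N V).ρ₀ z₂ :=
    (modFrac N V).ρ_apply ⟨algebraMap _root_.Fermat.Agent.S37.Red.Qb (FN N) c⁻¹ * f, hmem⟩ hz₂ hfrac
  rw [h3]
  exact div_ne_zero hz₁ hz₂

end Datum

/-! ## Inertia acts trivially on reductions -/

section InertiaRed

open Fermat.Agent.S37.H940

variable {N : ℕ} {V : ValuationSubring _root_.Fermat.Agent.S37.Red.Qb}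

/-- the restriction of an inertia element to `V` -/
def resV {σ : GalQ} (hσ : IsInertiaAt V σ) : V →+* V :=
  ((σ : _root_.Fermat.Agent.S37.Red.Qb →+* _root_.Fermat.Agent.S37.Red.Qb).comp V.subtype).codRestrict V fun a => inertia_map_mem hσ a.2

theorem subtype_comp_resV {σ : GalQ} (hσ : IsInertiaAt V σ) :
    V.subtype.comp (resV hσ) = (σ : _root_.Fermat.Agent.S37.Red.Qb →+* _root_.Fermat.Agent.S37.Red.Qb).comp V.subtype :=
  RingHom.ext fun _ => rfl

theorem residue_comp_resV {σ : GalQ} (hσ : IsInertiaAt V σ) :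
    (residue V).comp (resV hσ) = residue V := by
  refine RingHom.ext fun a => ?_
  show residue V (resV hσ a) = residue V a
  rw [← sub_eq_zero, ← map_sub, gr_res_eq_zero]
  exact hσ (a : _root_.Fermat.Agent.S37.Red.Qb) a.2

/-- an inertia element maps integral series to integral series with the same reduction -/
theorem smul_intQ {σ : GalQ} (hσ : IsInertiaAt V σ) (y : (modFrac N V).O) :
    ∃ h : arithmeticGalois (modularFunctionFieldFull N) σ • (y : FN N) ∈ (modFrac N V).O,
      (modFrac N V).ρ₀ ⟨arithmeticGalois (modularFunctionFieldFull N) σ • (y : FN N), h⟩ =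
        (modFrac N V).ρ₀ y := by
  obtain ⟨s, hs, hsk⟩ := (y.2 : IsIntQ V (residue V) (modularFunctionFieldBar N)
    (modularFunctionFieldFullC (kA V) N) (y : FN N))
  have h1 : coeffMap V.subtype (coeffMap (resV hσ) s) =
      ((arithmeticGalois (modularFunctionFieldFull N) σ • (y : FN N) : FN N) :
        LaurentSeries _root_.Fermat.Agent.S37.Red.Qb) := by
    rw [coe_arithmeticGalois_smul, coeffMap_coeffMap, subtype_comp_resV, ← coeffMap_coeffMap, hs]
  have h2 : coeffMap (residue V) (coeffMap (resV hσ) s) = coeffMap (residue V) s := by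
    rw [coeffMap_coeffMap, residue_comp_resV]
  have hmem : IsIntQ V (residue V) (modularFunctionFieldBar N)
      (modularFunctionFieldFullC (kA V) N)
      (arithmeticGalois (modularFunctionFieldFull N) σ • (y : FN N)) :=
    ⟨coeffMap (resV hσ) s, h1, by rw [h2]; exact hsk⟩
  refine ⟨hmem, ?_⟩
  apply Subtype.ext
  have e1 := coe_redQ V (residue V) (modularFunctionFieldBar N)
    (modularFunctionFieldFullC (kA V) N)
    ⟨arithmeticGalois (modularFunctionFieldFull N) σ • (y : FN N), hmem⟩ h1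
  have e2 := coe_redQ V (residue V) (modularFunctionFieldBar N)
    (modularFunctionFieldFullC (kA V) N) y hs
  exact e1.trans (h2.trans e2.symm)

/-- **`I_red`**: inertia preserves `O` and acts trivially on reductions -/
theorem gr_I_red (hVG : ModVG N V) (g : SemilinearAut _root_.Fermat.Agent.S37.Red.Qb (FN N)) (hg : g ∈ inertiaImage V N)
    (f : modO hVG) :
    ∃ h : g • (f : FN N) ∈ modO hVG, modρ hVG ⟨g • (f : FN N), h⟩ = modρ hVG f := by
  obtain ⟨σ, hσ, rfl⟩ := (mem_inertiaImage V).mp hg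
  obtain ⟨a, b, hb, hab⟩ := (f.2 : (modFrac N V).IsFrac (f : FN N))
  obtain ⟨ha', hρa⟩ := smul_intQ hσ a
  obtain ⟨hb', hρb⟩ := smul_intQ hσ b
  set γ : SemilinearAut _root_.Fermat.Agent.S37.Red.Qb (FN N) := arithmeticGalois (modularFunctionFieldFull N) σ with hγ
  let a' : (modFrac N V).O := ⟨γ • (a : FN N), ha'⟩
  let b' : (modFrac N V).O := ⟨γ • (b : FN N), hb'⟩
  have hb'' : (modFrac N V).ρ₀ b' ≠ 0 := by
    show (modFrac N V).ρ₀ ⟨γ • (b : FN N), hb'⟩ ≠ 0
    rw [hρb]; exact hb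
  have hfrac : (γ • (f : FN N)) * (b' : FN N) = (a' : FN N) := by
    show γ • (f : FN N) * γ • (b : FN N) = γ • (a : FN N)
    rw [← smul_mul', hab]
  have hmem : (modFrac N V).IsFrac (γ • (f : FN N)) := ⟨a', b', hb'', hfrac⟩
  refine ⟨hmem, ?_⟩
  have e1 : (modFrac N V).ρ ⟨γ • (f : FN N), hmem⟩ =
      (modFrac N V).ρ₀ a' / (modFrac N V).ρ₀ b' :=
    (modFrac N V).ρ_apply ⟨γ • (f : FN N), hmem⟩ hb'' hfrac
  have e2 : (modFrac N V).ρ f = (modFrac N V).ρ₀ a / (modFrac N V).ρ₀ b :=
    (modFrac N V).ρ_apply f hb hab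
  have e3 : (modFrac N V).ρ₀ a' = (modFrac N V).ρ₀ a := hρa
  have e4 : (modFrac N V).ρ₀ b' = (modFrac N V).ρ₀ b := hρb
  show (modFrac N V).ρ ⟨γ • (f : FN N), hmem⟩ = (modFrac N V).ρ f
  rw [e1, e2, e3, e4]

/-- **`I_base`** -/
theorem gr_I_base (g : SemilinearAut _root_.Fermat.Agent.S37.Red.Qb (FN N)) (hg : g ∈ inertiaImage V N) (a : V) :
    ∃ h : SemilinearAut.baseAut g (a : _root_.Fermat.Agent.S37.Red.Qb) ∈ V,
      residue V ⟨SemilinearAut.baseAut g (a : _root_.Fermat.Agent.S37.Red.Qb), h⟩ = residue V a := by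
  obtain ⟨σ, hσ, rfl⟩ := (mem_inertiaImage V).mp hg
  have h : σ (a : _root_.Fermat.Agent.S37.Red.Qb) ∈ V := inertia_map_mem hσ a.2
  refine ⟨h, ?_⟩
  show residue V ⟨σ (a : _root_.Fermat.Agent.S37.Red.Qb), h⟩ = residue V a
  rw [← sub_eq_zero, ← map_sub, gr_res_eq_zero]
  exact hσ (a : _root_.Fermat.Agent.S37.Red.Qb) a.2

/-- **`I_lift_const`** (helper439's Teichmüller lifts) -/
theorem gr_I_lift_const (N : ℕ) {ℓ : ℕ} [Fact ℓ.Prime] (hV : V.LiesOverPrime ℓ) (c : kA V) :
    ∃ a : V, residue V a = c ∧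
      ∀ g ∈ inertiaImage V N, SemilinearAut.baseAut g (a : _root_.Fermat.Agent.S37.Red.Qb) = (a : _root_.Fermat.Agent.S37.Red.Qb) := by
  have : Algebra.IsAlgebraic ℚ _root_.Fermat.Agent.S37.Red.Qb := AlgebraicClosure.isAlgebraic ℚ
  obtain ⟨a, ha, hac, hfix⟩ :=
    Fermat.Agent.S19.H439.exists_inertia_fixed_lift (K := _root_.Fermat.Agent.S37.Red.Qb) V (ℓ := ℓ) hV c
  refine ⟨⟨a, ha⟩, hac, ?_⟩
  intro g hg
  obtain ⟨σ, hσ, rfl⟩ := (mem_inertiaImage V).mp hg
  exact hfix (σ : _root_.Fermat.Agent.S37.Red.Qb →+* _root_.Fermat.Agent.S37.Red.Qb) hσ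

/-- **`I_fixed_place`**: the cusp `∞` -/
theorem gr_I_fixed_place (N : ℕ) [NeZero N] (V : ValuationSubring _root_.Fermat.Agent.S37.Red.Qb) :
    ∃ P : Place _root_.Fermat.Agent.S37.Red.Qb (FN N), ∀ g ∈ inertiaImage V N, g • P = P := by
  refine ⟨Fermat.Agent.S17.H680.JZero.cusp N, fun g hg => ?_⟩
  obtain ⟨σ, -, rfl⟩ := (mem_inertiaImage V).mp hg
  exact Fermat.Agent.S17.H680.JZero.galois_smul_cusp N σ

end InertiaRed

/-! ## `div_red` on all of `O` from the Prelude's `IsPlaceReductionModL` -/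

section DivRed

open Fermat.Agent.S37.H940

variable {N : ℕ} [NeZero N] {V : ValuationSubring _root_.Fermat.Agent.S37.Red.Qb}

/-- the reduction of divisors of integral series extends to fractions -/
theorem gr_div_red (hVG : ModVG N V)
    (r : Place _root_.Fermat.Agent.S37.Red.Qb (FN N) → Place (kA V) (FNk V N)) (hr : IsPlaceReductionModL V N r)
    (f : modO hVG) (hf : modρ hVG f ≠ 0) (D : Divisor _root_.Fermat.Agent.S37.Red.Qb (FN N))
    (hD : ∀ P, D P = P.ord (f : FN N)) (Q : Place (kA V) (FNk V N)) :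
    Finsupp.mapDomain r D Q = Q.ord (modρ hVG f) := by
  obtain ⟨a, b, hb, hab⟩ := (f.2 : (modFrac N V).IsFrac (f : FN N))
  have e : modρ hVG f = (modFrac N V).ρ₀ a / (modFrac N V).ρ₀ b :=
    (modFrac N V).ρ_apply f hb hab
  have ha : (modFrac N V).ρ₀ a ≠ 0 := by
    intro h0
    apply hf
    rw [e, h0, zero_div]
  have hb0 : (b : FN N) ≠ 0 := (modFrac N V).coe_ne_zero hb
  have ha0 : (a : FN N) ≠ 0 := (modFrac N V).coe_ne_zero ha
  have hf0 : (f : FN N) ≠ 0 := by
    intro h0
    rw [h0, zero_mul] at hab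
    exact ha0 hab.symm
  -- the series
  obtain ⟨sa, hsa, hsak⟩ := (a.2 : IsIntQ V (residue V) (modularFunctionFieldBar N)
    (modularFunctionFieldFullC (kA V) N) (a : FN N))
  obtain ⟨sb, hsb, hsbk⟩ := (b.2 : IsIntQ V (residue V) (modularFunctionFieldBar N)
    (modularFunctionFieldFullC (kA V) N) (b : FN N))
  have hya : coeffMap V.subtype sa ∈ modularFunctionFieldBar N := by
    rw [hsa]; exact (a : FN N).2
  have hyb : coeffMap V.subtype sb ∈ modularFunctionFieldBar N := by
    rw [hsb]; exact (b : FN N).2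
  have ea : (⟨coeffMap V.subtype sa, hya⟩ : FN N) = (a : FN N) := Subtype.ext hsa
  have eb : (⟨coeffMap V.subtype sb, hyb⟩ : FN N) = (b : FN N) := Subtype.ext hsb
  have eρa : (modFrac N V).ρ₀ a = ⟨coeffMap (residue V) sa, hsak⟩ :=
    Subtype.ext (coe_redQ V (residue V) (modularFunctionFieldBar N)
      (modularFunctionFieldFullC (kA V) N) a hsa)
  have eρb : (modFrac N V).ρ₀ b = ⟨coeffMap (residue V) sb, hsbk⟩ :=
    Subtype.ext (coe_redQ V (residue V) (modularFunctionFieldBar N)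
      (modularFunctionFieldFullC (kA V) N) b hsb)
  have hnea : coeffMap (residue V) sa ≠ 0 := by
    intro h0
    apply ha
    rw [eρa]
    exact Subtype.ext h0
  have hneb : coeffMap (residue V) sb ≠ 0 := by
    intro h0
    apply hb
    rw [eρb]
    exact Subtype.ext h0
  -- the divisors of `a` and `b`
  have hpd : HasPrincipalDivisors _root_.Fermat.Agent.S37.Red.Qb (FN N) :=
    (Fermat.Agent.Lib.RR.H864.ff1_modularFunctionFieldBar N).hpd
  obtain ⟨Da, hDa, -⟩ := hpd.exists_divisor (a : FN N) ha0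
  obtain ⟨Db, hDb, -⟩ := hpd.exists_divisor (b : FN N) hb0
  have hsum : D + Db = Da := by
    ext P
    rw [Finsupp.add_apply, hD, hDa, hDb, ← Place.ord_mul P hf0 hb0, hab]
  have ka := hr.2 sa hya hsak hnea Da (fun P => by rw [hDa, ea]) Q
  have kb := hr.2 sb hyb hsbk hneb Db (fun P => by rw [hDb, eb]) Q
  have hmap : Finsupp.mapDomain r D Q + Finsupp.mapDomain r Db Q = Finsupp.mapDomain r Da Q := by
    rw [← Finsupp.add_apply, ← Finsupp.mapDomain_add, hsum]
  have hmul : modρ hVG f * (modFrac N V).ρ₀ b = (modFrac N V).ρ₀ a := by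
    rw [e, div_mul_cancel₀ _ hb]
  have hord : Q.ord (modρ hVG f) + Q.ord ((modFrac N V).ρ₀ b) = Q.ord ((modFrac N V).ρ₀ a) := by
    rw [← Place.ord_mul Q hf hb, hmul]
  rw [← eρa] at ka
  rw [← eρb] at kb
  rw [ka, kb] at hmap
  linarith

end DivRed

/-! ## The leaves and the assembly -/

section Assembly

/-- the value-group hypothesis, from S28 (core data) and S37/H568 -/
theorem gr_vg (N : ℕ) [NeZero N] {ℓ : ℕ} [Fact ℓ.Prime] (hℓN : ¬ ℓ ∣ N)
    (V : ValuationSubring _root_.Fermat.Agent.S37.Red.Qb) (hV : V.LiesOverPrime ℓ) : ModVG N V :=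
  Fermat.Agent.S37.H568.valueGroupHyp_modular
    (Fermat.Agent.S18.H516.coreData_residue N hℓN V hV)

/-- **Leaf GR-RED**: a place reduction map in the sense of the Prelude, commuting with inertia.
(S37 `node_rim` gives the first half; the second is S37's `PlaceRed.inertia`.) -/
def RedLeaf (N : ℕ) (V : ValuationSubring _root_.Fermat.Agent.S37.Red.Qb) : Prop :=
  ∃ r : Place _root_.Fermat.Agent.S37.Red.Qb (FN N) → Place (kA V) (FNk V N),
    IsPlaceReductionModL V N r ∧
      ∀ σ : GalQ, IsInertiaAt V σ → ∀ P : Place _root_.Fermat.Agent.S37.Red.Qb (FN N),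
        r (arithmeticGalois (modularFunctionFieldFull N) σ • P) = r P

/-- **Leaf GR-GENUS**: the generic and the special fibre have the same genus. -/
def GenusLeaf (N : ℕ) (V : ValuationSubring _root_.Fermat.Agent.S37.Red.Qb) : Prop :=
  genusFF _root_.Fermat.Agent.S37.Red.Qb (FN N) = genusFF (kA V) (FNk V N)

/-- **Leaf GR-ORTH**: the field `orthonormal` of `GoodRed` for `(modO, modρ, inertiaImage)`. -/
def OrthLeaf (N : ℕ) (V : ValuationSubring _root_.Fermat.Agent.S37.Red.Qb) (hVG : ModVG N V) : Prop :=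
  ∀ D : Divisor _root_.Fermat.Agent.S37.Red.Qb (FN N), ∃ (n : ℕ) (b : Fin n → modO hVG),
    LinearIndependent (kA V) (fun i => modρ hVG (b i)) ∧
    (∀ i, ((b i : modO hVG) : FN N) ∈ riemannRochSpace D) ∧
    Submodule.span _root_.Fermat.Agent.S37.Red.Qb (Set.range fun i => ((b i : modO hVG) : FN N)) = riemannRochSpace D ∧
    ((∀ g ∈ inertiaImage V N, g • D = D) →
      ∀ i, ∀ g ∈ inertiaImage V N, g • ((b i : modO hVG) : FN N) = ((b i : modO hVG) : FN N))

/-- **The `GoodRed` datum of `X₀(N)` at `V`**, from the three leaves. -/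
def goodRedOfLeaves (N : ℕ) [NeZero N] {ℓ : ℕ} [Fact ℓ.Prime] (hℓN : ¬ ℓ ∣ N)
    (V : ValuationSubring _root_.Fermat.Agent.S37.Red.Qb) (hV : V.LiesOverPrime ℓ)
    (r : Place _root_.Fermat.Agent.S37.Red.Qb (FN N) → Place (kA V) (FNk V N)) (hr : IsPlaceReductionModL V N r)
    (hrI : ∀ σ : GalQ, IsInertiaAt V σ → ∀ P : Place _root_.Fermat.Agent.S37.Red.Qb (FN N),
        r (arithmeticGalois (modularFunctionFieldFull N) σ • P) = r P)
    (hgen : GenusLeaf N V) (horth : OrthLeaf N V (gr_vg N hℓN V hV)) :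
    Fermat.Agent.A3.H799.GoodRed _root_.Fermat.Agent.S37.Red.Qb (FN N) (kA V) (FNk V N) where
  V := V
  O := modO (gr_vg N hℓN V hV)
  res := residue V
  red := modρ (gr_vg N hℓN V hV)
  r := r
  I := inertiaImage V N
  res_surjective := residue_surjective
  res_eq_zero := gr_res_eq_zero
  algebraMap_mem := gr_algebraMap_mem (gr_vg N hℓN V hV)
  red_algebraMap := gr_red_algebraMap (gr_vg N hℓN V hV)
  red_surjective := Fermat.Agent.S37.Red.modρ_surjective (gr_vg N hℓN V hV)
  gauss := gr_gauss (gr_vg N hℓN V hV)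
  div_red := fun f hf D hD Q => gr_div_red (gr_vg N hℓN V hV) r hr f hf D hD Q
  ff1 := Fermat.Agent.Lib.RR.H864.ff1_modularFunctionFieldBar N
  ff1k := Fermat.Agent.S18.H383.ff1_residue N ℓ Fact.out hℓN V hV
  genus_eq := hgen
  orthonormal := horth
  I_base := gr_I_base
  I_red := gr_I_red (gr_vg N hℓN V hV)
  I_place := fun g hg P => by
    obtain ⟨σ, hσ, rfl⟩ := (mem_inertiaImage V).mp hg
    exact hrI σ hσ P
  I_lift_const := gr_I_lift_const N hV
  I_fixed_place := gr_I_fixed_place N V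

/-- **GR assembly**: `GrStatement` from the three leaves, for ONE valuation ring above each
prime `ℓ ∤ N` at good levels. -/
theorem grStatement_of_leaves
    (h : ∀ (N : ℕ) [NeZero N] (ℓ : ℕ) [Fact ℓ.Prime] (hℓN : ¬ ℓ ∣ N), GoodLevel N ℓ →
      ∃ (V : ValuationSubring _root_.Fermat.Agent.S37.Red.Qb) (hV : V.LiesOverPrime ℓ),
        RedLeaf N V ∧ GenusLeaf N V ∧ OrthLeaf N V (gr_vg N hℓN V hV)) :
    Fermat.Agent.S19.H979.GrStatement := by
  intro N _ ℓ _ hℓN hgood
  obtain ⟨V, hV, ⟨r, hr, hrI⟩, hgen, horth⟩ := h N ℓ hℓN hgood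
  refine ⟨kA V, inferInstance, Fermat.Agent.S18.H9.resAlgClosed _root_.Fermat.Agent.S37.Red.Qb V, FNk V N, inferInstance,
    inferInstance, goodRedOfLeaves N hℓN V hV r hr hrI hgen horth, hV, ?_⟩
  intro σ hσ
  exact arithmeticGalois_mem_inertiaImage V N hσ

/-- the same, with the leaves for EVERY valuation ring above `ℓ` -/
theorem grStatement_of_leaves_forall
    (hred : ∀ (N : ℕ) [NeZero N] (ℓ : ℕ) [Fact ℓ.Prime], ¬ ℓ ∣ N → GoodLevel N ℓ →
      ∀ V : ValuationSubring _root_.Fermat.Agent.S37.Red.Qb, V.LiesOverPrime ℓ → RedLeaf N V)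
    (hgen : ∀ (N : ℕ) [NeZero N] (ℓ : ℕ) [Fact ℓ.Prime], ¬ ℓ ∣ N → GoodLevel N ℓ →
      ∀ V : ValuationSubring _root_.Fermat.Agent.S37.Red.Qb, V.LiesOverPrime ℓ → GenusLeaf N V)
    (horth : ∀ (N : ℕ) [NeZero N] (ℓ : ℕ) [Fact ℓ.Prime] (hℓN : ¬ ℓ ∣ N), GoodLevel N ℓ →
      ∀ (V : ValuationSubring _root_.Fermat.Agent.S37.Red.Qb) (hV : V.LiesOverPrime ℓ), OrthLeaf N V (gr_vg N hℓN V hV)) :
    Fermat.Agent.S19.H979.GrStatement := by
  refine grStatement_of_leaves fun N _ ℓ _ hℓN hgood => ?_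
  obtain ⟨V, hV⟩ := Fermat.Agent.S54.exists_valuationSubring_liesOver ℓ Fact.out
  exact ⟨V, hV, hred N ℓ hℓN hgood V hV, hgen N ℓ hℓN hgood V hV, horth N ℓ hℓN hgood V hV⟩

end Assembly

end Fermat.Agent.A3.H739

end
end
-- ===== PACK-END A3/H739/GrAsm.lean

-- ===== PACK-BEGIN A3/H555/KerInertia.lean
section
/-
helper555 — cell A3 (S19), block LOCAL, leaf KER-I.

`KerInertiaStatement K F k Fk` (frozen in `Fermat/Agent/A3/H799/LocalSpec2.lean`): inertia acts
trivially on `Pic0` modulo the kernel of reduction, because it preserves every residue disc.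
-/


set_option autoImplicit false

noncomputable section

open AlgebraicCurve

namespace Fermat.Agent.A3.H555

open Fermat.Agent.A3.H799

variable {K F k Fk : Type*} [Field K] [Field F] [Algebra K F] [Field k] [Field Fk] [Algebra k Fk]

/-- The reduction of a divisor is invariant under inertia. -/
theorem mapDomain_r_smul (𝓡 : GoodRed K F k Fk) {g : SemilinearAut K F} (hg : g ∈ 𝓡.I)
    (D : Divisor K F) : Finsupp.mapDomain 𝓡.r (g • D) = Finsupp.mapDomain 𝓡.r D := by
  rw [SemilinearAut.divisor_smul_def, ← Finsupp.mapDomain_comp]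
  congr 1
  funext P
  exact 𝓡.I_place g hg P

/-- **KER-I.** -/
theorem kerInertiaStatement : KerInertiaStatement K F k Fk := by
  intro 𝓡 g hg x
  obtain ⟨D, rfl⟩ := Pic0.mk_surjective x
  refine ⟨SemilinearAut.degZeroSMulHom g D - D, rfl, ?_⟩
  have : Finsupp.mapDomain 𝓡.r
      ((SemilinearAut.degZeroSMulHom g D - D : Divisor.degZero (K := K) (F := F)) :
        Divisor K F) = 0 := by
    rw [AddSubgroup.coe_sub, Finsupp.mapDomain_sub, SemilinearAut.coe_degZeroSMulHom,
      mapDomain_r_smul 𝓡 hg, sub_self]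
  rw [this]
  exact AddSubgroup.zero_mem _

end Fermat.Agent.A3.H555

end
end
-- ===== PACK-END A3/H555/KerInertia.lean

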