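import Mathlib
import Fermat.Agent.Pack.S44C.G0E26L2
import Fermat.Agent.Pack.S44C.G0E24L1
import Fermat.Agent.Pack.S44C.G0E16L0
import Fermat.Agent.Pack.S44C.G0E6L3
import Fermat.Agent.Pack.S43MC.G0E11L2
import Fermat.Agent.Pack.S43MC.G0E23L1
import Fermat.Agent.Pack.S43MC.G0E18L0
import Fermat.Agent.Pack.S44C.G0E9L3
import Fermat.Agent.Pack.S43MC.G0E20L3
import Fermat.Agent.Pack.S44C.G0E25L2
import Fermat.Agent.Pack.S44C.G0E19L0
import Fermat.Agent.Pack.S43MC.G0E2L3
import Fermat.Agent.Pack.S43MC.G0E6L1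
import Fermat.Agent.Pack.S44C.G0E20L2
import Fermat.Agent.Pack.S44C.G0E17L0
import Fermat.Agent.Pack.S43MC.G0E23L3
import Fermat.Agent.Pack.S43MC.G0E17L1
import Fermat.Agent.Pack.S44C.G0E9L2
import Fermat.Agent.Pack.S44C.G0E26L0
import Fermat.Agent.Pack.S43MC.G0E9L0
import Fermat.Agent.Pack.S43MC.G0E18L2
import Fermat.Agent.Pack.S43MC.G0E16L3
import Fermat.Agent.Pack.S44C.G0E20L0
import Fermat.Agent.Pack.S44C.G0E23L2
import Fermat.Agent.Pack.S44C.G0E24L0
import Fermat.Agent.Pack.S44C.G0E21L1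
import Fermat.Agent.Pack.S44C.G0E21L2
import Fermat.Agent.Pack.S44C.G0E25L1
import Fermat.Agent.Pack.S44C.G0E25L0
import Fermat.Agent.Pack.S43MC.G0E16L0
import Fermat.Agent.Pack.S43MC.G0E23L2
import Fermat.Agent.Pack.S43MC.G0E23L0
import Fermat.Agent.Pack.S43MC.G0E22L2
import Fermat.Agent.Pack.Fast891

-- ===== PACK-BEGIN Ribet/H801/ALSwap.lean
section
/-
RIBET / WALL-q, W-AL (helper801), part 1: the Atkin–Lehner swap `w_p` of the function field
`F_{Mp} = ℚ̄(X₀(Mp))` (`p ∤ M` prime) as a `ℚ̄`-algebra automorphism.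

* `ringHom_ext_alpha_beta` : a ring homomorphism out of `F_{Mp}` is determined by its values on
                             `α F_M` and `β F_M`  (`α, β = heckeAlphaBar, heckeBetaBar`);
* `swapAL M p hp hpM : F_{Mp} ≃ₐ[ℚ̄] F_{Mp}` with `swapAL_alpha : w (α a) = β a`,
  `swapAL_beta : w (β a) = α a`, `swapAL_swapAL : w (w x) = x`, `swapAL_unique`;
* `swapAL_galois` : `w_p` commutes with the arithmetic Galois action
                    (`SemilinearAut.IntertwinesAlong`).
-/






set_option autoImplicit false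
set_option linter.style.haveILetI false
set_option linter.unusedSectionVars false
set_option synthInstance.maxHeartbeats 400000
set_option maxHeartbeats 1000000

noncomputable section

namespace Fermat.Agent.Ribet.H801

open AlgebraicCurve ModularCurve Fermat.Agent.S29.H801 Fermat.Agent.S24

section Gen

variable (M p : ℕ) [NeZero M] [NeZero p]

/-- underlying series of the generator `j_d` -/
theorem coe_jK_eq_gd (N d : ℕ) [NeZero d] (hd : d ∣ N) :
    ((Fermat.Agent.A2.Mod.H751.jK Kbar N d hd : FF N) : LaurentSeries Kbar) =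
      Fermat.Agent.S37.H88.gd Kbar d := by
  show coeffEmb Kbar (qExpand ℚ d jq) = qExpand Kbar d (jqModC Kbar)
  have h3 : coeffMap (algebraMap ℚ Kbar) jq = jqModC Kbar := by
    rw [← jqModC_rat]
    exact coeffMap_jqModC (algebraMap ℚ Kbar)
  rw [coeffEmb, ModularCurve.coeffMap_qExpand, h3]

/-- every generator of `F_{Mp}` is an `α`-image or a `β`-image of an element of `F_M`. -/
theorem jK_eq_alpha_or_beta (hp : p.Prime) (d : ℕ) [NeZero d] (hd : d ∣ M * p) :
    ∃ a : FF M, heckeAlphaBar Kbar M p a = Fermat.Agent.A2.Mod.H751.jK Kbar (M * p) d hd ∨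
      heckeBetaBar Kbar M p a = Fermat.Agent.A2.Mod.H751.jK Kbar (M * p) d hd := by
  obtain ⟨a, ha | ha⟩ :=
    Fermat.Agent.S37.H88.gd_eq_alpha_or_beta (L := Kbar) (N := M) (ℓ := p) hp hd
  · exact ⟨a, Or.inl (Subtype.ext (ha.trans (coe_jK_eq_gd (M * p) d hd).symm))⟩
  · exact ⟨a, Or.inr (Subtype.ext (ha.trans (coe_jK_eq_gd (M * p) d hd).symm))⟩

variable {M p}

/-- A ring homomorphism out of `F_{Mp}` is determined by its values on `α F_M` and `β F_M`. -/
theorem ringHom_ext_alpha_beta (hp : p.Prime) {T : Type*} [DivisionRing T]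
    (w w' : FF (M * p) →+* T)
    (hα : ∀ a : FF M, w (heckeAlphaBar Kbar M p a) = w' (heckeAlphaBar Kbar M p a))
    (hβ : ∀ a : FF M, w (heckeBetaBar Kbar M p a) = w' (heckeBetaBar Kbar M p a)) :
    ∀ x, w x = w' x := by
  refine Fermat.Agent.A2.Mod.H751.ringHom_ext_FE (K := Kbar) (M * p) w w' ?_ ?_
  · intro e
    have h1 : algebraMap Kbar (FF (M * p)) e = heckeAlphaBar Kbar M p (algebraMap Kbar _ e) :=
      (AlgHom.commutes _ e).symm
    rw [h1, hα]
  · intro d _ hd
    obtain ⟨a, ha | ha⟩ := jK_eq_alpha_or_beta M p hp d hd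
    · rw [← ha, hα]
    · rw [← ha, hβ]

end Gen

section Swap

variable (M p : ℕ) [NeZero M] [NeZero p]

/-- The Atkin–Lehner swap as a ring endomorphism (chosen). -/
def swapRingHom (hp : p.Prime) (hpM : ¬ p ∣ M) : FF (M * p) →+* FF (M * p) :=
  Classical.choose (Fermat.Agent.S37.H88.exists_swap_bar (N := M) (ℓ := p) hp hpM)

theorem swapRingHom_alpha (hp : p.Prime) (hpM : ¬ p ∣ M) (a : FF M) :
    swapRingHom M p hp hpM (heckeAlphaBar Kbar M p a) = heckeBetaBar Kbar M p a :=
  (Classical.choose_spec (Fermat.Agent.S37.H88.exists_swap_bar (N := M) (ℓ := p) hp hpM)).1 a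

theorem swapRingHom_beta (hp : p.Prime) (hpM : ¬ p ∣ M) (a : FF M) :
    swapRingHom M p hp hpM (heckeBetaBar Kbar M p a) = heckeAlphaBar Kbar M p a :=
  (Classical.choose_spec (Fermat.Agent.S37.H88.exists_swap_bar (N := M) (ℓ := p) hp hpM)).2 a

variable {M p}

/-- **Uniqueness of the swap.** -/
theorem swapRingHom_unique (hp : p.Prime) (hpM : ¬ p ∣ M) (w : FF (M * p) →+* FF (M * p))
    (hα : ∀ a : FF M, w (heckeAlphaBar Kbar M p a) = heckeBetaBar Kbar M p a)
    (hβ : ∀ a : FF M, w (heckeBetaBar Kbar M p a) = heckeAlphaBar Kbar M p a) :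
    ∀ x, w x = swapRingHom M p hp hpM x :=
  ringHom_ext_alpha_beta hp w (swapRingHom M p hp hpM)
    (fun a => by rw [hα, swapRingHom_alpha]) (fun a => by rw [hβ, swapRingHom_beta])

/-- **The swap is an involution.** -/
theorem swapRingHom_swapRingHom (hp : p.Prime) (hpM : ¬ p ∣ M) (x : FF (M * p)) :
    swapRingHom M p hp hpM (swapRingHom M p hp hpM x) = x :=
  ringHom_ext_alpha_beta hp ((swapRingHom M p hp hpM).comp (swapRingHom M p hp hpM))
    (RingHom.id _)
    (fun a => by
      show swapRingHom M p hp hpM (swapRingHom M p hp hpM _) = _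
      rw [swapRingHom_alpha, swapRingHom_beta]; rfl)
    (fun a => by
      show swapRingHom M p hp hpM (swapRingHom M p hp hpM _) = _
      rw [swapRingHom_beta, swapRingHom_alpha]; rfl) x

theorem swapRingHom_algebraMap (hp : p.Prime) (hpM : ¬ p ∣ M) (e : Kbar) :
    swapRingHom M p hp hpM (algebraMap Kbar (FF (M * p)) e) = algebraMap Kbar (FF (M * p)) e := by
  have h1 : algebraMap Kbar (FF (M * p)) e = heckeAlphaBar Kbar M p (algebraMap Kbar _ e) :=
    (AlgHom.commutes _ e).symm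
  have h2 : algebraMap Kbar (FF (M * p)) e = heckeBetaBar Kbar M p (algebraMap Kbar _ e) :=
    (AlgHom.commutes _ e).symm
  rw [h1, swapRingHom_alpha, ← h2, ← h1]

variable (M p)

/-- **The Atkin–Lehner swap `w_p`** of `F_{Mp}`, as a `ℚ̄`-algebra automorphism. -/
def swapAL (hp : p.Prime) (hpM : ¬ p ∣ M) : FF (M * p) ≃ₐ[Kbar] FF (M * p) where
  toFun := swapRingHom M p hp hpM
  invFun := swapRingHom M p hp hpM
  left_inv := swapRingHom_swapRingHom hp hpM
  right_inv := swapRingHom_swapRingHom hp hpM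
  map_mul' := map_mul _
  map_add' := map_add _
  commutes' := swapRingHom_algebraMap hp hpM

variable {M p}

@[simp] theorem swapAL_alpha (hp : p.Prime) (hpM : ¬ p ∣ M) (a : FF M) :
    swapAL M p hp hpM (heckeAlphaBar Kbar M p a) = heckeBetaBar Kbar M p a :=
  swapRingHom_alpha M p hp hpM a

@[simp] theorem swapAL_beta (hp : p.Prime) (hpM : ¬ p ∣ M) (a : FF M) :
    swapAL M p hp hpM (heckeBetaBar Kbar M p a) = heckeAlphaBar Kbar M p a :=
  swapRingHom_beta M p hp hpM a

@[simp] theorem swapAL_swapAL (hp : p.Prime) (hpM : ¬ p ∣ M) (x : FF (M * p)) :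
    swapAL M p hp hpM (swapAL M p hp hpM x) = x :=
  swapRingHom_swapRingHom hp hpM x

theorem swapAL_symm (hp : p.Prime) (hpM : ¬ p ∣ M) :
    (swapAL M p hp hpM).symm = swapAL M p hp hpM := rfl

theorem swapAL_unique (hp : p.Prime) (hpM : ¬ p ∣ M) (w : FF (M * p) →+* FF (M * p))
    (hα : ∀ a : FF M, w (heckeAlphaBar Kbar M p a) = heckeBetaBar Kbar M p a)
    (hβ : ∀ a : FF M, w (heckeBetaBar Kbar M p a) = heckeAlphaBar Kbar M p a)
    (x : FF (M * p)) : w x = swapAL M p hp hpM x :=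
  swapRingHom_unique hp hpM w hα hβ x

/-- `w_p ∘ α = β` as algebra homomorphisms. -/
theorem swapAL_comp_alpha (hp : p.Prime) (hpM : ¬ p ∣ M) :
    ((swapAL M p hp hpM : FF (M * p) ≃ₐ[Kbar] FF (M * p)) : FF (M * p) →ₐ[Kbar] FF (M * p)).comp
      (heckeAlphaBar Kbar M p) = heckeBetaBar Kbar M p :=
  AlgHom.ext fun a => swapAL_alpha hp hpM a

/-- `w_p ∘ β = α` as algebra homomorphisms. -/
theorem swapAL_comp_beta (hp : p.Prime) (hpM : ¬ p ∣ M) :
    ((swapAL M p hp hpM : FF (M * p) ≃ₐ[Kbar] FF (M * p)) : FF (M * p) →ₐ[Kbar] FF (M * p)).comp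
      (heckeBetaBar Kbar M p) = heckeAlphaBar Kbar M p :=
  AlgHom.ext fun a => swapAL_beta hp hpM a

/-- **`w_p` commutes with the arithmetic Galois action.** -/
theorem swapAL_galois (hp : p.Prime) (hpM : ¬ p ∣ M) (σ : Kbar ≃ₐ[ℚ] Kbar) (x : FF (M * p)) :
    arithmeticGalois (modularFunctionFieldFull (M * p)) σ • swapAL M p hp hpM x =
      swapAL M p hp hpM (arithmeticGalois (modularFunctionFieldFull (M * p)) σ • x) := by
  set g := arithmeticGalois (L := Kbar) (modularFunctionFieldFull (M * p)) σ with hg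
  set g₀ := arithmeticGalois (L := Kbar) (modularFunctionFieldFull M) σ with hg₀
  have hα : ∀ a : FF M, g • heckeAlphaBar Kbar M p a = heckeAlphaBar Kbar M p (g₀ • a) :=
    Fermat.Agent.S29.H571.intertwines_heckeAlphaBar M p σ
  have hβ : ∀ a : FF M, g • heckeBetaBar Kbar M p a = heckeBetaBar Kbar M p (g₀ • a) :=
    Fermat.Agent.S29.H571.intertwines_heckeBetaBar M p σ
  -- the conjugate `g⁻¹ ∘ w ∘ g` is again a swap
  let w' : FF (M * p) →+* FF (M * p) :=
    ((SemilinearAut.toRingAut g).symm : FF (M * p) →+* FF (M * p)).comp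
      ((swapRingHom M p hp hpM).comp ((SemilinearAut.toRingAut g : FF (M * p) ≃+* FF (M * p)) :
        FF (M * p) →+* FF (M * p)))
  have hw' : ∀ y, w' y = g⁻¹ • swapAL M p hp hpM (g • y) := fun y => rfl
  have key := swapAL_unique hp hpM w'
    (fun a => by
      rw [hw', hα, swapAL_alpha, ← hβ, inv_smul_smul])
    (fun a => by
      rw [hw', hβ, swapAL_beta, ← hα, inv_smul_smul])
  have h := key x
  rw [hw'] at h
  rw [← h, smul_inv_smul]

/-- `w_p` intertwines the arithmetic Galois action with itself. -/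
theorem intertwines_swapAL (hp : p.Prime) (hpM : ¬ p ∣ M) (σ : Kbar ≃ₐ[ℚ] Kbar) :
    SemilinearAut.IntertwinesAlong
      (((swapAL M p hp hpM : FF (M * p) ≃ₐ[Kbar] FF (M * p)) :
        FF (M * p) →ₐ[Kbar] FF (M * p)) : FF (M * p) →+* FF (M * p))
      (arithmeticGalois (modularFunctionFieldFull (M * p)) σ)
      (arithmeticGalois (modularFunctionFieldFull (M * p)) σ) :=
  fun x => swapAL_galois hp hpM σ x

end Swap

end Fermat.Agent.Ribet.H801

end

end
-- ===== PACK-END Ribet/H801/ALSwap.lean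

-- ===== PACK-BEGIN S30/H990/FromInputs.lean
section
/-
S30 top glue (helper990): the frozen statement S30 from the three open inputs of the adic module
layer of helper330: (K) Kummer map onto torsion, (P) eigen parabolic character, (T) torsion
relations.  The inputs (Sm) and (GH) are discharged from main (S29 pieces M3 and M2).
-/





set_option autoImplicit false

namespace Fermat.Agent.S30.H990

open Polynomial

/-- Input (Sm) of the adic module layer holds (S29 piece M3, helper126). -/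
theorem smoothStatement (N : ℕ) [NeZero N] : Fermat.Agent.S30.H330.SmoothStatement N :=
  fun x => Fermat.Agent.S29.jZero_smooth N x

/-- Input (GH) of the adic module layer holds (S29 piece M2, helper571). -/
theorem galoisHeckeStatement (N : ℕ) [NeZero N] :
    Fermat.Agent.S30.H330.GaloisHeckeStatement N :=
  fun σ ℓ x => (Fermat.Agent.S29.H571.heckeOperatorBar_smul N ℓ σ x).symm

/-- **S30 from the inputs (K), (P), (T).** -/
theorem result_of_inputs
    (hK : ∀ (N : ℕ) [NeZero N] (p : ℕ) [Fact p.Prime],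
      Fermat.Agent.S30.H330.KummerStatement N p)
    (hT : ∀ (N : ℕ) [NeZero N] (p : ℕ) [Fact p.Prime],
      Fermat.Agent.S30.H330.TorsionRelations N p)
    (hP : ∀ (p : ℕ) [Fact p.Prime] (N : ℕ) [NeZero N] (S : Finset ℕ)
      (_hpS : p ∈ S) (_hNS : ∀ q : ℕ, q.Prime → q ∣ N → q ∈ S)
      (𝒪' : Type) [CommRing 𝒪'] [IsDomain 𝒪'] [IsDiscreteValuationRing 𝒪']
      [IsAdicComplete (IsLocalRing.maximalIdeal 𝒪') 𝒪'] [Finite (IsLocalRing.ResidueField 𝒪')]
      [CharZero 𝒪'] (_hp𝒪' : (p : 𝒪') ∈ IsLocalRing.maximalIdeal 𝒪')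
      (χ : CuspForm.heckeAlgebra N 2 (↑S : Set ℕ) →+* 𝒪'),
      Fermat.Agent.S30.H330.ParEigenStatement N S 𝒪' χ) :
    ∀ (p : ℕ) [Fact p.Prime] (N : ℕ) [NeZero N] (S : Finset ℕ)
      (_hpS : p ∈ S) (_hNS : ∀ q : ℕ, q.Prime → q ∣ N → q ∈ S)
      (𝒪' : Type) [CommRing 𝒪'] [IsDomain 𝒪'] [IsDiscreteValuationRing 𝒪']
      [IsAdicComplete (IsLocalRing.maximalIdeal 𝒪') 𝒪'] [Finite (IsLocalRing.ResidueField 𝒪')]
      [CharZero 𝒪'] (_hp𝒪' : (p : 𝒪') ∈ IsLocalRing.maximalIdeal 𝒪')
      (χ : CuspForm.heckeAlgebra N 2 (↑S : Set ℕ) →+* 𝒪'),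
      ∃ (𝒪'' : Type) (_ : CommRing 𝒪'') (_ : IsDomain 𝒪'') (_ : IsDiscreteValuationRing 𝒪'')
        (_ : IsAdicComplete (IsLocalRing.maximalIdeal 𝒪'') 𝒪'')
        (_ : Finite (IsLocalRing.ResidueField 𝒪'')) (_ : CharZero 𝒪'')
        (_ : Algebra 𝒪' 𝒪'') (_ : Module.Finite 𝒪' 𝒪'') (_ : IsLocalHom (algebraMap 𝒪' 𝒪'')),
      Function.Injective (algebraMap 𝒪' 𝒪'') ∧
      ∃ ρ : GaloisRepAdic 𝒪'',
        (∀ (ℓ : ℕ) (hℓ : ℓ.Prime) (hℓN : ¬ ℓ ∣ N) (hℓS : ℓ ∉ (↑S : Set ℕ)),
          ∀ A : ValuationSubring (AlgebraicClosure ℚ), A.LiesOverPrime ℓ →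
            ∀ σ : AlgebraicClosure ℚ ≃ₐ[ℚ] AlgebraicClosure ℚ, A.IsFrobeniusAt σ ℓ →
              LinearMap.charpoly (ρ.ρ σ) =
                X ^ 2 - C (algebraMap 𝒪' 𝒪'' (χ (CuspForm.heckeAlgebra.T hℓ hℓN hℓS))) * X
                  + C ((ℓ : 𝒪''))) ∧
        (∀ q : ℕ, q.Prime → ¬ q ∣ N → q ≠ p → ρ.IsUnramifiedAt q) :=
  result_of_hasAdicEigenModules (hasAdicEigenModules_of_H330
    (fun p _ N _ S hpS hNS 𝒪' _ _ _ _ _ _ hp𝒪' χ =>
      Fermat.Agent.S30.H330.hasAdicFrobModule_of_inputs hpS hNS hp𝒪' χ (hK N p)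
        (hP p N S hpS hNS 𝒪' hp𝒪' χ) (hT N p) (smoothStatement N) (galoisHeckeStatement N)))

end Fermat.Agent.S30.H990

end
-- ===== PACK-END S30/H990/FromInputs.lean

-- ===== PACK-BEGIN S35/H909/BridgeG.lean
section




/-!
# S35 — bridge between the two cubic interfaces (helper909)

`qNewFrob_of_newPartFrobExplicit : G.NewPartFrobExplicit → H891.QNewFrobStatement`

* `G.NewPartFrobExplicit` (helper450, `S35/G/Spec.lean`) is what the assembly
  `G.newPartFrobExplicit_of_parts` produces from the leaves of piece (G');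
* `H891.QNewFrobStatement` (helper891, `S35/H891/Spec.lean`) is what the top glue of helper991
  consumes.

Both say `(s² - 1)² (s² - q²) x = 0` for `q`-new `x ∈ J₀(M q)[m]`; the first with
`degA x = degB x = 0` (`pic0PushTotal`), the second with `IsQNew` (push-forwards principal) and the
cubic written out.  Also: `pushInputs_heckeAlphaBar`, `pushInputs_heckeBetaBar` (the first two
clauses of `G.DegStatement`, unconditionally, from `S29/H812`), and the converse translation
`isQNew_of_deg` / `newPartFrobAt_of_qNew`.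
-/

set_option autoImplicit false

noncomputable section

namespace Fermat.Agent.S35.H909

open AlgebraicCurve ModularCurve

/-- The inputs of `pic0Push` for `α`. -/
theorem pushInputs_heckeAlphaBar (M q : ℕ) [NeZero M] [NeZero q] :
    G.PushInputs (heckeAlphaBar G.Qb M q) := by
  haveI : NeZero (M * q) := ⟨Nat.mul_ne_zero (NeZero.ne M) (NeZero.ne q)⟩
  haveI hPD : HasPrincipalDivisors G.Qb (modularFunctionFieldBar (M * q)) :=
    Fermat.Agent.Lib.RR.H864.hasPrincipalDivisors_modularFunctionFieldBar (M * q)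
  have hF := Fermat.Agent.S29.H812.exists_coord_modular M
  have hfin := Fermat.Agent.S29.H812.finiteAlong_heckeAlphaBar M q
  exact ⟨Fermat.Agent.S29.H812.isIntegral_of_finiteAlong hfin, hfin,
    Fermat.Agent.S29.H812.normFormulaAlong hF (heckeAlphaBar G.Qb M q) hfin⟩

/-- The inputs of `pic0Push` for `β`. -/
theorem pushInputs_heckeBetaBar (M q : ℕ) [NeZero M] [NeZero q] :
    G.PushInputs (heckeBetaBar G.Qb M q) := by
  haveI : NeZero (M * q) := ⟨Nat.mul_ne_zero (NeZero.ne M) (NeZero.ne q)⟩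
  haveI hPD : HasPrincipalDivisors G.Qb (modularFunctionFieldBar (M * q)) :=
    Fermat.Agent.Lib.RR.H864.hasPrincipalDivisors_modularFunctionFieldBar (M * q)
  have hF := Fermat.Agent.S29.H812.exists_coord_modular M
  have hfin := Fermat.Agent.S29.H812.finiteAlong_heckeBetaBar M q
  exact ⟨Fermat.Agent.S29.H812.isIntegral_of_finiteAlong hfin, hfin,
    Fermat.Agent.S29.H812.normFormulaAlong hF (heckeBetaBar G.Qb M q) hfin⟩

section Push

variable {K F F' : Type*} [Field K] [Field F] [Field F'] [Algebra K F] [Algebra K F']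

/-- `pic0PushTotal φ [D] = 0` iff `φ_* D` is principal. -/
theorem pic0PushTotal_mk_eq_zero_iff (φ : F →ₐ[K] F') (hφ : φ.toRingHom.IsIntegral)
    (hfin : FiniteAlong K φ) (hN : NormFormulaAlong K φ hfin)
    (D : Divisor.degZero (K := K) (F := F')) :
    G.pic0PushTotal φ (Pic0.mk D) = 0 ↔
      (Divisor.pushforwardAlong φ hφ (D : Divisor K F')).IsPrincipal := by
  rw [G.pic0PushTotal_eq φ hφ hfin hN, G.pic0Push_mk]
  constructor
  · intro h
    have h1 := (QuotientAddGroup.eq_zero_iff (G.degZeroPush φ hφ D)).1 h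
    rw [AddSubgroup.mem_addSubgroupOf] at h1
    exact h1
  · intro h
    refine (QuotientAddGroup.eq_zero_iff (G.degZeroPush φ hφ D)).2 ?_
    rw [AddSubgroup.mem_addSubgroupOf]
    exact h

end Push

/-- The cubic, written out, from `frobPolyAdd`. -/
theorem cubic_of_frobPolyAdd {X : Type*} [AddCommGroup X]
    [DistribMulAction (G.Qb ≃ₐ[ℚ] G.Qb) X] (s : G.Qb ≃ₐ[ℚ] G.Qb) (Q : ℕ) (x : X)
    (h : G.frobPolyAdd (s * s) Q x = 0) :
    s • s • s • s • s • s • x + (1 + 2 * Q) • (s • s • x) =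
      (2 + Q) • (s • s • s • s • x) + Q • x := by
  unfold G.frobPolyAdd at h
  simp only [mul_smul, smul_sub] at h
  have e1 : (1 + 2 * Q) • (s • s • x) = s • s • x + Q • (s • s • x) + Q • (s • s • x) := by
    rw [add_smul, one_smul, two_mul, add_smul, add_assoc]
  have e2 : (2 + Q) • (s • s • s • s • x) =
      s • s • s • s • x + s • s • s • s • x + Q • (s • s • s • s • x) := by
    rw [add_smul, two_smul]
  rw [e1, e2]
  rw [sub_eq_zero] at h
  have h' := h
  -- `h : A - B - (B - C) = Q•B - Q•C - (Q•C - Q•x)`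
  have key : ∀ A B C QB QC Qx : X, A - B - (B - C) = QB - QC - (QC - Qx) →
      A + (C + QC + QC) = B + B + QB + Qx := by
    intro A B C QB QC Qx hh
    have h2 : A = QB - QC - (QC - Qx) + (B - C) + B := by
      rw [← hh]; abel
    rw [h2]; abel
  exact key _ _ _ _ _ _ h'

/-- The converse rewriting. -/
theorem frobPolyAdd_of_cubic {X : Type*} [AddCommGroup X]
    [DistribMulAction (G.Qb ≃ₐ[ℚ] G.Qb) X] (s : G.Qb ≃ₐ[ℚ] G.Qb) (Q : ℕ) (x : X)
    (h : s • s • s • s • s • s • x + (1 + 2 * Q) • (s • s • x) =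
      (2 + Q) • (s • s • s • s • x) + Q • x) :
    G.frobPolyAdd (s * s) Q x = 0 := by
  unfold G.frobPolyAdd
  simp only [mul_smul, smul_sub]
  have e1 : (1 + 2 * Q) • (s • s • x) = s • s • x + Q • (s • s • x) + Q • (s • s • x) := by
    rw [add_smul, one_smul, two_mul, add_smul, add_assoc]
  have e2 : (2 + Q) • (s • s • s • s • x) =
      s • s • s • s • x + s • s • s • s • x + Q • (s • s • s • s • x) := by
    rw [add_smul, two_smul]
  rw [e1, e2] at h
  have key : ∀ A B C QB QC Qx : X, A + (C + QC + QC) = B + B + QB + Qx →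
      A - B - (B - C) - (QB - QC - (QC - Qx)) = 0 := by
    intro A B C QB QC Qx hh
    have h2 : A = B + B + QB + Qx - (C + QC + QC) := by
      rw [← hh]; abel
    rw [h2]; abel
  exact key _ _ _ _ _ _ h

/-- `IsQNew x` gives `degA x = 0` and `degB x = 0`. -/
theorem deg_eq_zero_of_isQNew (M q : ℕ) [NeZero M] [NeZero q] (x : JZero (M * q))
    (hx : H891.IsQNew M q x) : G.degA M q x = 0 ∧ G.degB M q x = 0 := by
  obtain ⟨hα, hβ, D, rfl, hA, hB⟩ := hx
  obtain ⟨_, hfinα, hNα⟩ := pushInputs_heckeAlphaBar M q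
  obtain ⟨_, hfinβ, hNβ⟩ := pushInputs_heckeBetaBar M q
  exact ⟨(pic0PushTotal_mk_eq_zero_iff _ hα hfinα hNα D).2 hA,
    (pic0PushTotal_mk_eq_zero_iff _ hβ hfinβ hNβ D).2 hB⟩

/-- `degA x = 0` and `degB x = 0` give `IsQNew x`. -/
theorem isQNew_of_deg (M q : ℕ) [NeZero M] [NeZero q] (x : JZero (M * q))
    (ha : G.degA M q x = 0) (hb : G.degB M q x = 0) : H891.IsQNew M q x := by
  obtain ⟨hα, hfinα, hNα⟩ := pushInputs_heckeAlphaBar M q
  obtain ⟨hβ, hfinβ, hNβ⟩ := pushInputs_heckeBetaBar M q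
  obtain ⟨D, rfl⟩ := QuotientAddGroup.mk_surjective x
  exact ⟨hα, hβ, D, rfl, (pic0PushTotal_mk_eq_zero_iff _ hα hfinα hNα D).1 ha,
    (pic0PushTotal_mk_eq_zero_iff _ hβ hfinβ hNβ D).1 hb⟩

/-- **Bridge (G') → QNF.**  The output of the assembly of piece (G') is the input of the top
glue. -/
theorem qNewFrob_of_newPartFrobExplicit (h : G.NewPartFrobExplicit) : H891.QNewFrobStatement := by
  intro M' q m _ _ hq hqM hm hqm P hP s hs x hx hnew
  obtain ⟨ha, hb⟩ := deg_eq_zero_of_isQNew M' q x hnew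
  exact cubic_of_frobPolyAdd s (q ^ 2) x (h M' q m hq hqM hm hqm P hP s hs x hx ha hb)

/-- **Bridge QNF → (G').** -/
theorem newPartFrobExplicit_of_qNewFrob (h : H891.QNewFrobStatement) : G.NewPartFrobExplicit := by
  intro M q m _ _ hq hqM hm hqm A hA s hs x hx ha hb
  exact frobPolyAdd_of_cubic s (q ^ 2) x
    (h M q m hq hqM hm hqm A hA s hs x hx (isQNew_of_deg M q x ha hb))

end Fermat.Agent.S35.H909

end
end
-- ===== PACK-END S35/H909/BridgeG.lean

-- ===== PACK-BEGIN S35/G/H199/ToricBase.lean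
section








/-!
# S35 / (G') leaf TORIC — the modular instance, basic layer (helper199)

Basic facts for the instance of `NR.NRSetting` (see `ToricMod.lean`), level `E`:

* `actE_mul`, `actE_one`, `actE_alpha`, `actE_beta`, `actE_symm_eq` : the action `G.actE` on the
  coefficients is multiplicative and commutes with `α`, `β`;
* `normAlong_equiv` : transport of `S29.H395.normAlong` by a pair of automorphisms
  (`Algebra.norm_eq_of_equiv_equiv`); `normHom` : the norm as a monoid homomorphism;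
* `isUnif_V`, `isUnif_V0`, `disc_V0`, `inW_iff`, `inW0_iff` : `V∞`, `V₀ = V∞ ∘ W` are discrete
  with uniformiser `w` (L2, `H378.disc_V`);
* `stabAut_V`, `stabAut_V0` : `σ` preserves `V∞`, `V₀` (from `G.StableStatement`);
* `alpha_mem_iff'`, `beta_mem_iff`, `res_alpha`, `res_beta` : `α : V∞_M → V∞`, `β : V∞_M → V₀`
  are local with residue degree one (L5, L7, L11).
-/

set_option autoImplicit false
set_option linter.style.haveILetI false
set_option linter.unusedSectionVars false
set_option synthInstance.maxHeartbeats 400000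
set_option maxHeartbeats 1600000

noncomputable section

namespace Fermat.Agent.S35.G.H199

open ModularCurve AlgebraicCurve Fermat.Agent.A2.Mod

/-! ## The Galois action on the coefficients -/

section Act

variable (E : IntermediateField ℚ G.Qb) (N : ℕ)

theorem actE_mul (a b : E ≃ₐ[ℚ] E) (x : FE E N) :
    actE E N (a * b) x = actE E N a (actE E N b x) := by
  apply Subtype.ext
  show coeffMap ((a * b : E ≃ₐ[ℚ] E) : E →+* E) (x : LaurentSeries E)
    = coeffMap (a : E →+* E) (coeffMap (b : E →+* E) (x : LaurentSeries E))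
  rw [coeffMap_coeffMap]
  exact coeffMap_congr (RingHom.ext fun _ => rfl) _

theorem actE_one (x : FE E N) : actE E N 1 x = x := by
  apply Subtype.ext
  show coeffMap ((1 : E ≃ₐ[ℚ] E) : E →+* E) (x : LaurentSeries E) = (x : LaurentSeries E)
  rw [show ((1 : E ≃ₐ[ℚ] E) : E →+* E) = RingHom.id E from RingHom.ext fun _ => rfl,
    coeffMap_id]

theorem actE_algebraMap (a : E ≃ₐ[ℚ] E) (e : E) :
    actE E N a (algebraMap E (FE E N) e) = algebraMap E (FE E N) (a e) :=
  arithmeticRingAut_algebraMap _ a e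

variable (M q : ℕ) [NeZero M] [NeZero q]

theorem actE_alpha (a : E ≃ₐ[ℚ] E) (x : FE E M) :
    actE E (M * q) a (αE E M q x) = αE E M q (actE E M a x) := by
  apply Subtype.ext
  rw [coe_arithmeticRingAut_apply, coe_heckeAlphaBar, coe_heckeAlphaBar,
    coe_arithmeticRingAut_apply]

theorem actE_beta (a : E ≃ₐ[ℚ] E) (x : FE E M) :
    actE E (M * q) a (βE E M q x) = βE E M q (actE E M a x) := by
  apply Subtype.ext
  rw [coe_arithmeticRingAut_apply, coe_heckeBetaBar, coe_heckeBetaBar,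
    coe_arithmeticRingAut_apply, coeffMap_qExpand]

/-- the inverse of a stable automorphism is stable -/
theorem stableUnder_inv {s : G.Qb ≃ₐ[ℚ] G.Qb} (hs : StableUnder E s) : StableUnder E s⁻¹ :=
  fun e he => ⟨(hs e he).2, (hs e he).1⟩

theorem resE_inv_mul {s : G.Qb ≃ₐ[ℚ] G.Qb} (hs : StableUnder E s) :
    resE E s⁻¹ (stableUnder_inv E hs) * resE E s hs = 1 := by
  ext e
  exact s.symm_apply_apply (e : G.Qb)

theorem resE_mul_inv {s : G.Qb ≃ₐ[ℚ] G.Qb} (hs : StableUnder E s) :
    resE E s hs * resE E s⁻¹ (stableUnder_inv E hs) = 1 := by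
  ext e
  exact s.apply_symm_apply (e : G.Qb)

theorem actE_symm_eq {s : G.Qb ≃ₐ[ℚ] G.Qb} (hs : StableUnder E s) (x : FE E N) :
    (actE E N (resE E s hs)).symm x = actE E N (resE E s⁻¹ (stableUnder_inv E hs)) x := by
  apply (actE E N (resE E s hs)).injective
  rw [RingEquiv.apply_symm_apply, ← actE_mul, resE_mul_inv, actE_one]

end Act

/-! ## Norms and automorphisms -/

section Norm

variable {K F F' : Type*} [Field K] [Field F] [Field F'] [Algebra K F] [Algebra K F']

/-- Transport of the norm by a pair of automorphisms. -/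
theorem normAlong_equiv (φ ψ : F →ₐ[K] F') (e : F ≃+* F) (e' : F' ≃+* F')
    (h : ∀ x, e' (φ x) = ψ (e x)) (g : F') :
    S29.H395.normAlong ψ (e' g) = e (S29.H395.normAlong φ g) := by
  have h1 := @Algebra.norm_eq_of_equiv_equiv F F' F F' _ _ _ _ (algebraAlong φ) (algebraAlong ψ)
    e e' (by
      ext x
      exact (h x).symm) g
  unfold S29.H395.normAlong
  rw [h1, RingEquiv.apply_symm_apply]

/-- the norm as a monoid homomorphism -/
def normHom (φ : F →ₐ[K] F') : F' →* F where
  toFun := S29.H395.normAlong φ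
  map_one' := S29.H395.normAlong_one φ
  map_mul' := S29.H395.normAlong_mul φ

@[simp] theorem normHom_apply (φ : F →ₐ[K] F') (g : F') :
    normHom φ g = S29.H395.normAlong φ g := rfl

end Norm

/-! ## The Gauss valuations -/

section Val

variable {A : ValuationSubring G.Qb} {E : IntermediateField ℚ G.Qb} {M q : ℕ} [NeZero M]
  [NeZero q] {w : RE A E}

/-- `V₀ = V∞ ∘ W` -/
abbrev vz {N : ℕ} (V : ValuationSubring (FE E N)) (W : FE E N ≃ₐ[E] FE E N) :
    ValuationSubring (FE E N) :=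
  V.comap (W : FE E N →+* FE E N)

theorem vz_eq {N : ℕ} (V : ValuationSubring (FE E N)) (W : FE E N ≃ₐ[E] FE E N) :
    vz V W = V.comap ((W.toRingEquiv : FE E N ≃+* FE E N) : FE E N →+* FE E N) := rfl

theorem isUnif_V (hS : Setting A E M q w) {N : ℕ} (hN : N ≠ 0) {V : ValuationSubring (FE E N)}
    (hV : IsVinf A E N V) : A2.H48.IsUnif V (cE A E N w) :=
  (H708.vinfBasic A E w N hN hS.dvr hS.unif V hV).1

theorem cst_mem_iff (hS : Setting A E M q w) {N : ℕ} (hN : N ≠ 0)
    {V : ValuationSubring (FE E N)} (hV : IsVinf A E N V) (e : E) :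
    algebraMap E (FE E N) e ∈ V ↔ e ∈ RE A E :=
  (H708.vinfBasic A E w N hN hS.dvr hS.unif V hV).2.1 e

theorem W_cE {N : ℕ} (W : FE E N ≃ₐ[E] FE E N) (r : RE A E) :
    W.toRingEquiv (cE A E N r) = cE A E N r :=
  W.commutes (r : E)

theorem isUnif_V0 (hS : Setting A E M q w) {N : ℕ} (hN : N ≠ 0) {V : ValuationSubring (FE E N)}
    (hV : IsVinf A E N V) (W : FE E N ≃ₐ[E] FE E N) : A2.H48.IsUnif (vz V W) (cE A E N w) :=
  isUnif_comap (isUnif_V hS hN hV) (W_cE W w)

theorem disc_V0 (hS : Setting A E M q w) {N : ℕ} {V : ValuationSubring (FE E N)}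
    (hV : IsVinf A E N V) (W : FE E N ≃ₐ[E] FE E N) :
    ∀ x ∈ vz V W, x ≠ 0 → ∃ (n : ℕ) (u : FE E N), u ∈ vz V W ∧ u⁻¹ ∈ vz V W ∧
      x = cE A E N w ^ n * u :=
  disc_comap (W_cE W w) (fun _ hx hx0 => H378.disc_V hS N hV hx hx0)

/-- `InW` in terms of the valuation -/
theorem inW_iff (hS : Setting A E M q w) {N : ℕ} (hN : N ≠ 0) {V : ValuationSubring (FE E N)}
    (hV : IsVinf A E N V) (f : FE E N) : InW A E N V w f ↔ V.valuation f < 1 :=
  (isUnif_V hS hN hV).mul_inv_mem_iff

theorem inW0_iff (hS : Setting A E M q w) {N : ℕ} (hN : N ≠ 0) {V : ValuationSubring (FE E N)}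
    (hV : IsVinf A E N V) (W : FE E N ≃ₐ[E] FE E N) (f : FE E N) :
    InW A E N (vz V W) w f ↔ (vz V W).valuation f < 1 :=
  (isUnif_V0 hS hN hV W).mul_inv_mem_iff

theorem vz_val_lt_one_iff {N : ℕ} (V : ValuationSubring (FE E N)) (W : FE E N ≃ₐ[E] FE E N)
    (z : FE E N) : (vz V W).valuation z < 1 ↔ V.valuation (W z) < 1 :=
  comap_val_lt_one_iff V W.toRingEquiv z

theorem vz_val_eq_one_iff {N : ℕ} (V : ValuationSubring (FE E N)) (W : FE E N ≃ₐ[E] FE E N)
    (z : FE E N) : (vz V W).valuation z = 1 ↔ V.valuation (W z) = 1 :=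
  comap_val_eq_one_iff V W.toRingEquiv z

/-- the stability of `V∞` under `σ`, from STABLE for `s` and `s⁻¹` -/
theorem stabAut_V (hST : StableStatement A E) (hS : Setting A E M q w) {N : ℕ} (hN : N ≠ 0)
    {V : ValuationSubring (FE E N)} (hV : IsVinf A E N V) {W : FE E N ≃ₐ[E] FE E N}
    (hW : IsFricke E N W) {s : G.Qb ≃ₐ[ℚ] G.Qb} (hs : StableUnder E s)
    (hsD : s ∈ A.decompositionSubgroup ℚ) :
    StabAut V (actE E N (resE E s hs)) where
  map := (hST N hN hS.dvr V W hV hW s hs hsD).2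
  symm := by
    intro f hf
    rw [actE_symm_eq]
    exact (hST N hN hS.dvr V W hV hW s⁻¹ (stableUnder_inv E hs) (inv_mem hsD)).2 f hf

theorem stabAut_V0 (hST : StableStatement A E) (hS : Setting A E M q w) {N : ℕ} (hN : N ≠ 0)
    {V : ValuationSubring (FE E N)} (hV : IsVinf A E N V) {W : FE E N ≃ₐ[E] FE E N}
    (hW : IsFricke E N W) {s : G.Qb ≃ₐ[ℚ] G.Qb} (hs : StableUnder E s)
    (hsD : s ∈ A.decompositionSubgroup ℚ) :
    StabAut (vz V W) (actE E N (resE E s hs)) :=
  (stabAut_V hST hS hN hV hW hs hsD).comap (e := W.toRingEquiv)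
    (hST N hN hS.dvr V W hV hW s hs hsD).1

end Val

/-! ## Locality of `α`, `β`; residue degree one -/

section Inst

variable {A : ValuationSubring G.Qb} {E : IntermediateField ℚ G.Qb} {M q : ℕ} [NeZero M]
  [NeZero q] {w : RE A E}

theorem mq_ne_zero (M q : ℕ) [NeZero M] [NeZero q] : M * q ≠ 0 :=
  mul_ne_zero (NeZero.ne M) (NeZero.ne q)

variable (hS : Setting A E M q w) {VM : ValuationSubring (FE E M)}
  {V : ValuationSubring (FE E (M * q))} {WM : FE E M ≃ₐ[E] FE E M}
  {W : FE E (M * q) ≃ₐ[E] FE E (M * q)} (hVM : IsVinf A E M VM) (hV : IsVinf A E (M * q) V)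
  (hWM : IsFricke E M WM) (hW : IsFricke E (M * q) W)

include hS hVM in
theorem WM_mem_iff (hWM : IsFricke E M WM) (a : FE E M) : WM a ∈ VM ↔ a ∈ VM := by
  have h7 := H454.frickeStable A E M q w hS VM WM hVM hWM
  constructor
  · intro h
    have := h7 _ h
    rwa [hWM.2] at this
  · exact h7 a

include hS hVM in
theorem stabAut_WM (hWM : IsFricke E M WM) : StabAut VM WM.toRingEquiv where
  map := fun f hf => (WM_mem_iff hS hVM hWM f).2 hf
  symm := by
    intro f hf
    have h1 : WM.toRingEquiv.symm f = WM f := by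
      apply WM.toRingEquiv.injective
      rw [RingEquiv.apply_symm_apply]
      exact (hWM.2 f).symm
    rw [h1]
    exact (WM_mem_iff hS hVM hWM f).2 hf

include hS hVM hV in
theorem alpha_mem_iff' (a : FE E M) : (αE E M q : FE E M →+* FE E (M * q)) a ∈ V ↔ a ∈ VM :=
  H378.alpha_mem_iff hS hVM hV a

include hS hVM hV in
theorem beta_mem_iff (hWM : IsFricke E M WM) (hW : IsFricke E (M * q) W) (a : FE E M) :
    (βE E M q : FE E M →+* FE E (M * q)) a ∈ vz V W ↔ a ∈ VM := by
  rw [ValuationSubring.mem_comap]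
  show W (βE E M q a) ∈ V ↔ a ∈ VM
  rw [(H751.frickeCompat E M q WM W hWM hW a).2, H378.alpha_mem_iff hS hVM hV,
    WM_mem_iff hS hVM hWM]

theorem W_W (hW : IsFricke E (M * q) W) (f : FE E (M * q)) : W (W f) = f := hW.2 f

include hS hVM hV in
theorem res_alpha (g : FE E (M * q)) (hg : V.valuation g = 1) :
    ∃ x, VM.valuation x = 1 ∧ V.valuation ((αE E M q : FE E M →+* FE E (M * q)) x - g) < 1 := by
  have hgV : g ∈ V := (V.valuation_le_one_iff g).1 hg.le
  obtain ⟨x, -, hxg⟩ := H378.resInf A E M q w hS VM V hVM hV g hgV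
  rw [inW_iff hS (mq_ne_zero M q) hV] at hxg
  have h1 : V.valuation ((αE E M q : FE E M →+* FE E (M * q)) x - g) < 1 := by
    rw [← Valuation.map_neg, neg_sub]
    exact hxg
  refine ⟨x, ?_, h1⟩
  rw [← local_val_eq_one_iff (alpha_mem_iff' hS hVM hV)]
  exact NR.val_eq_one_of_cong V h1 hg

include hS hVM hV in
theorem res_beta (hWM : IsFricke E M WM) (hW : IsFricke E (M * q) W) (g : FE E (M * q))
    (hg : (vz V W).valuation g = 1) :
    ∃ y, VM.valuation y = 1 ∧
      (vz V W).valuation ((βE E M q : FE E M →+* FE E (M * q)) y - g) < 1 := by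
  have hg1 : V.valuation (W g) = 1 := (vz_val_eq_one_iff V W g).1 hg
  obtain ⟨x, -, hx⟩ := res_alpha hS hVM hV (W g) hg1
  have h1 : (vz V W).valuation ((βE E M q : FE E M →+* FE E (M * q)) (WM x) - g) < 1 := by
    rw [vz_val_lt_one_iff, map_sub]
    show V.valuation (W (βE E M q (WM x)) - W g) < 1
    rw [(H751.frickeCompat E M q WM W hWM hW (WM x)).2, hWM.2]
    exact hx
  refine ⟨WM x, ?_, h1⟩
  rw [← local_val_eq_one_iff (beta_mem_iff hS hVM hV hWM hW)]
  exact NR.val_eq_one_of_cong _ h1 hg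

end Inst

end Fermat.Agent.S35.G.H199

end
end
-- ===== PACK-END S35/G/H199/ToricBase.lean

-- ===== PACK-BEGIN S35/G/H199/ToricMod.lean
section



/-!
# S35 / (G') leaf TORIC, sub-leaf GLUE (helper199)

`glue : H60.GlueStatement A E M q w m`, i.e.
`H60.NormRedStatement A E M q w → G.StableStatement A E → G.KronFrobStatement A E M q w →
    G.ToricStatement A E M q m w`  (VERBATIM, unconditional).

Route: the instance `nrSetting` of helper502's abstract `NRSetting` (`NRCore.lean`) on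
`F_M = FE E M`, `F_N = FE E (M q)`, `V₁ = V∞`, `V₂ = V₀ = V∞ ∘ W`,
`σ = G.actE E N (A2.Mod.resE E s hs)`, from the A2/MOD leaves on main (L1, L2, L4, L5, L7, L11,
discreteness of `V∞`), STABLE, KRON-FROB and NORM-RED (the `β`-form of NORM-RED is deduced by
Fricke transport); then `NRSetting.gSplit_of_qNew`, and the constant of `GSplitAt` is an `m`-th
power modulo `w` because the residue field of `R_E` is algebraically closed.
The element `g` produced is a UNIT of the valuation ring (`toricU_of_parts`), so the `PowVU` form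
follows as well.
-/

set_option autoImplicit false
set_option linter.style.haveILetI false
set_option linter.unusedSectionVars false
set_option synthInstance.maxHeartbeats 400000
set_option maxHeartbeats 1600000

noncomputable section

namespace Fermat.Agent.S35.G.H199

open ModularCurve AlgebraicCurve Fermat.Agent.A2.Mod

/-- the constants of `F_{N,E}` -/
def constF (E : IntermediateField ℚ G.Qb) (N : ℕ) : Subfield (FE E N) :=
  (algebraMap E (FE E N)).fieldRange

section Inst

variable {A : ValuationSubring G.Qb} {E : IntermediateField ℚ G.Qb} {M q : ℕ} [NeZero M]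
  [NeZero q] {w : RE A E}

/-- **The instance of `NRSetting`.** -/
theorem nrSetting (hNR : H60.NormRedStatement A E M q w) (hST : StableStatement A E)
    (hKF : KronFrobStatement A E M q w) (hS : Setting A E M q w)
    {VM : ValuationSubring (FE E M)} {V : ValuationSubring (FE E (M * q))}
    {WM : FE E M ≃ₐ[E] FE E M} {W : FE E (M * q) ≃ₐ[E] FE E (M * q)}
    (hVM : IsVinf A E M VM) (hV : IsVinf A E (M * q) V)
    (hWM : IsFricke E M WM) (hW : IsFricke E (M * q) W)
    {s : G.Qb ≃ₐ[ℚ] G.Qb} (hs : StableUnder E s) (hFr : A.IsFrobeniusAt s q) :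
    NR.NRSetting q (αE E M q : FE E M →+* FE E (M * q))
      (βE E M q : FE E M →+* FE E (M * q))
      (actE E M (resE E s hs)) (actE E (M * q) (resE E s hs)) VM V (vz V W)
      (constF E M) (constF E (M * q)) (normHom (αE E M q)) (normHom (βE E M q)) := by
  have hsD : s ∈ A.decompositionSubgroup ℚ := hFr.1
  have hM : M ≠ 0 := NeZero.ne M
  have hN : M * q ≠ 0 := mq_ne_zero M q
  have stabM := stabAut_V hST hS hM hVM hWM hs hsD
  have stab1 := stabAut_V hST hS hN hV hW hs hsD
  have stab2 := stabAut_V0 hST hS hN hV hW hs hsD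
  have L5 := H751.frickeCompat E M q WM W hWM hW
  have hcommM := (hST M hM hS.dvr VM WM hVM hWM s hs hsD).1
  have hα := alpha_mem_iff' hS hVM hV
  have hβ := beta_mem_iff (V := V) hS hVM hV hWM hW
  have memM : ∀ {x : FE E M}, VM.valuation x = 1 → x ∈ VM := fun hx =>
    (VM.valuation_le_one_iff _).1 hx.le
  refine
    { comm_α := fun a => actE_alpha E M q _ a
      comm_β := fun a => actE_beta E M q _ a
      norm_α := fun g => normAlong_equiv (αE E M q) (αE E M q) (actE E M (resE E s hs))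
        (actE E (M * q) (resE E s hs)) (fun x => actE_alpha E M q _ x) g
      norm_β := fun g => normAlong_equiv (βE E M q) (βE E M q) (actE E M (resE E s hs))
        (actE E (M * q) (resE E s hs)) (fun x => actE_beta E M q _ x) g
      val_M := stabM.val_eq_one_iff
      max_M := stabM.val_lt_one_iff
      ratio_M := fun h hh => stabM.val_ratio (isUnif_V hS hM hVM)
        (fun x hx hx0 => H378.disc_V hS M hVM hx hx0) hh
      max₁ := stab1.val_lt_one_iff
      ratio₁ := fun f hf => stab1.val_ratio (isUnif_V hS hN hV)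
        (fun x hx hx0 => H378.disc_V hS (M * q) hV hx hx0) hf
      max₂ := stab2.val_lt_one_iff
      ratio₂ := fun f hf => stab2.val_ratio (isUnif_V0 hS hN hV W) (disc_V0 hS hV W) hf
      unit_α := fun a ha => (local_val_eq_one_iff hα a).2 ha
      max_α := fun a ha => (local_val_lt_one_iff hα a).2 ha
      unit_β := fun a ha => (local_val_eq_one_iff hβ a).2 ha
      max_β := fun a ha => (local_val_lt_one_iff hβ a).2 ha
      res_α := res_alpha hS hVM hV
      res_β := res_beta hS hVM hV hWM hW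
      kron₁ := fun b hb => (inW_iff hS hN hV _).1 (hKF hS VM V hVM hV s hs hFr b (memM hb))
      kron₂ := ?_
      normRes_α := ?_
      normRes_β := ?_
      const_σ := ?_
      const_α := ?_
      const_β := ?_ }
  · -- kron₂
    intro b hb
    rw [vz_val_lt_one_iff, map_sub, map_pow]
    show V.valuation (W (αE E M q (actE E M (resE E s hs) b)) - (W (βE E M q b)) ^ q) < 1
    rw [(L5 _).1, (L5 b).2, ← hcommM b]
    exact (inW_iff hS hN hV _).1
      (hKF hS VM V hVM hV s hs hFr (WM b) ((WM_mem_iff hS hVM hWM b).2 (memM hb)))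
  · -- normRes_α
    intro g x₁ x₂ hg1 hg2 hx₁ hx₂ h1 h2
    show VM.valuation (S29.H395.normAlong (αE E M q) g - x₁ * x₂) < 1
    rw [← inW_iff hS hM hVM]
    have hgV : g ∈ V := (V.valuation_le_one_iff _).1 hg1.le
    have hWgV : W g ∈ V := ((vz V W).valuation_le_one_iff _).1 hg2.le
    refine hNR hS VM V W hVM hV hW g hgV hWgV x₁ (memM hx₁) x₂ (memM hx₂) ?_ ?_
    · rw [inW_iff hS hN hV, ← Valuation.map_neg, neg_sub]
      exact h1
    · rw [inW0_iff hS hN hV W, ← Valuation.map_neg, neg_sub]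
      exact h2
  · -- normRes_β
    intro g y₁ y₂ hg1 hg2 hy₁ hy₂ h1 h2
    show VM.valuation (S29.H395.normAlong (βE E M q) g - y₁ * y₂) < 1
    have hgV : g ∈ V := (V.valuation_le_one_iff _).1 hg1.le
    have hWgV : W g ∈ V := ((vz V W).valuation_le_one_iff _).1 hg2.le
    have hNβ : S29.H395.normAlong (βE E M q) g
        = WM (S29.H395.normAlong (αE E M q) (W g)) := by
      have h3 := normAlong_equiv (αE E M q) (βE E M q) WM.toRingEquiv W.toRingEquiv
        (fun x => (L5 x).1) (W g)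
      have h4 : W.toRingEquiv (W g) = g := hW.2 g
      rw [h4] at h3
      exact h3
    have e1 : WM (S29.H395.normAlong (αE E M q) (W g)) - y₁ * y₂
        = WM.toRingEquiv (S29.H395.normAlong (αE E M q) (W g) - WM y₂ * WM y₁) := by
      show _ = WM (S29.H395.normAlong (αE E M q) (W g) - WM y₂ * WM y₁)
      rw [map_sub, map_mul, hWM.2, hWM.2, mul_comm y₂ y₁]
    rw [hNβ, e1, (stabAut_WM hS hVM hWM).val_lt_one_iff, ← inW_iff hS hM hVM]
    refine hNR hS VM V W hVM hV hW (W g) hWgV ?_ (WM y₂)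
      ((WM_mem_iff hS hVM hWM y₂).2 (memM hy₂)) (WM y₁)
      ((WM_mem_iff hS hVM hWM y₁).2 (memM hy₁)) ?_ ?_
    · rw [hW.2]
      exact hgV
    · -- `W g ≡ α (W_M y₂)` at `V∞`
      rw [inW_iff hS hN hV, ← (L5 y₂).2, ← map_sub, ← vz_val_lt_one_iff, ← Valuation.map_neg,
        neg_sub]
      exact h2
    · -- `(W g)^q ≡ α (W_M y₁)` at `V₀`
      rw [inW0_iff hS hN hV W, vz_val_lt_one_iff, map_sub, map_pow, hW.2, (L5 _).1, hWM.2,
        ← Valuation.map_neg, neg_sub]
      exact h1
  · -- const_σ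
    rintro c ⟨e, rfl⟩
    exact ⟨resE E s hs e, (actE_algebraMap E M _ e).symm⟩
  · -- const_α
    rintro c ⟨e, rfl⟩
    exact ⟨e, ((αE E M q).commutes e).symm⟩
  · -- const_β
    rintro c ⟨e, rfl⟩
    exact ⟨e, ((βE E M q).commutes e).symm⟩

end Inst

/-! ## Constants are `m`-th powers modulo `w` -/

section Const

variable {A : ValuationSubring G.Qb} {E : IntermediateField ℚ G.Qb} {w : RE A E}

/-- `GSplitAt` gives a unit `g` with `u ≡ g ^ m mod w V` (the residue field of `R_E` is
algebraically closed). -/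
theorem exists_unit_pow_of_gSplit (hGF : A2.GoodField A E) {N : ℕ}
    {V : ValuationSubring (FE E N)} (hunif : A2.H48.IsUnif V (cE A E N w))
    (hcst : ∀ e : E, algebraMap E (FE E N) e ∈ V ↔ e ∈ RE A E) {m : ℕ} (hm : 0 < m)
    {u : FE E N} (h : NR.GSplitAt V (constF E N) m u) :
    ∃ g : FE E N, g ≠ 0 ∧ g ∈ V ∧ g⁻¹ ∈ V ∧ (u - g ^ m) * (cE A E N w)⁻¹ ∈ V := by
  obtain ⟨c, ⟨e, rfl⟩, y, hc, hy, hu⟩ := h
  have he0 : e ≠ 0 := by
    rintro rfl
    simp at hc
  have hc0 : algebraMap E (FE E N) e ≠ 0 := (map_ne_zero _).2 he0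
  have hmem := (val_eq_one_iff_h199 V hc0).1 hc
  have heR : e ∈ RE A E := (hcst e).1 hmem.1
  have heR' : e⁻¹ ∈ RE A E := (hcst e⁻¹).1 (by rw [map_inv₀]; exact hmem.2)
  haveI : IsAlgClosed (IsLocalRing.ResidueField (RE A E)) := hGF.algClosed
  have hunit : IsUnit (⟨e, heR⟩ : RE A E) :=
    ⟨⟨⟨e, heR⟩, ⟨e⁻¹, heR'⟩, Subtype.ext (mul_inv_cancel₀ he0),
      Subtype.ext (inv_mul_cancel₀ he0)⟩, rfl⟩
  obtain ⟨r, hr, hrm⟩ := exists_pow_sub_mem_maximalIdeal_h199 hm hunit
  -- `r` is a unit of `V`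
  obtain ⟨ru, hru⟩ := hr
  have hr0 : (r : E) ≠ 0 := by
    intro h0
    have : r = 0 := Subtype.ext h0
    rw [← hru] at this
    exact ru.ne_zero this
  have hrinv : (r : E)⁻¹ ∈ RE A E := by
    have h1 : ((ru⁻¹ : (RE A E)ˣ) : RE A E) * r = 1 := by
      rw [← hru]
      exact ru.inv_mul
    have h2 : (((ru⁻¹ : (RE A E)ˣ) : RE A E) : E) * (r : E) = 1 := congrArg Subtype.val h1
    have h3 : (r : E)⁻¹ = (((ru⁻¹ : (RE A E)ˣ) : RE A E) : E) :=
      (eq_inv_of_mul_eq_one_left h2).symm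
    rw [h3]
    exact ((ru⁻¹ : (RE A E)ˣ) : RE A E).2
  have hcr0 : cE A E N r ≠ 0 := (map_ne_zero _).2 hr0
  have hr1 : V.valuation (cE A E N r) = 1 := by
    rw [val_eq_one_iff_h199 V hcr0]
    refine ⟨(hcst _).2 r.2, ?_⟩
    have : (cE A E N r)⁻¹ = algebraMap E (FE E N) (r : E)⁻¹ := (map_inv₀ _ _).symm
    rw [this]
    exact (hcst _).2 hrinv
  -- the difference `e - r ^ m`
  have hd : V.valuation (algebraMap E (FE E N) e - cE A E N r ^ m) < 1 := by
    have hnu : ¬ IsUnit ((⟨e, heR⟩ : RE A E) - r ^ m) :=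
      (IsLocalRing.mem_maximalIdeal _).1 hrm
    have hde : algebraMap E (FE E N) e - cE A E N r ^ m
        = algebraMap E (FE E N) ((((⟨e, heR⟩ : RE A E) - r ^ m : RE A E)) : E) := by
      rw [show ((((⟨e, heR⟩ : RE A E) - r ^ m : RE A E)) : E) = e - (r : E) ^ m from rfl,
        map_sub, map_pow]
      rfl
    rw [hde, val_lt_one_iff_h199]
    refine ⟨(hcst _).2 (Subtype.mem _), ?_⟩
    by_cases hz : ((((⟨e, heR⟩ : RE A E) - r ^ m : RE A E)) : E) = 0
    · left
      rw [hz, map_zero]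
    · right
      intro hinv
      rw [← map_inv₀, hcst] at hinv
      apply hnu
      exact ⟨⟨_, ⟨_, hinv⟩, Subtype.ext (mul_inv_cancel₀ hz),
        Subtype.ext (inv_mul_cancel₀ hz)⟩, rfl⟩
  have hy0 : y ≠ 0 := NR.ne_zero_of_val_eq_one V hy
  have hg1 : V.valuation (cE A E N r * y) = 1 := NR.val_mul_eq_one V hr1 hy
  have hg0 : cE A E N r * y ≠ 0 := mul_ne_zero hcr0 hy0
  have hgm := (val_eq_one_iff_h199 V hg0).1 hg1
  refine ⟨cE A E N r * y, hg0, hgm.1, hgm.2, ?_⟩
  rw [hunif.mul_inv_mem_iff]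
  have e1 : u - (cE A E N r * y) ^ m
      = (u - algebraMap E (FE E N) e * y ^ m)
        + (algebraMap E (FE E N) e - cE A E N r ^ m) * y ^ m := by
    ring
  rw [e1]
  refine Valuation.map_add_lt _ hu ?_
  exact NR.val_mul_lt_one_left V hd (NR.val_pow_eq_one V hy m).le

end Const

/-! ## GLUE -/

section Glue

variable {A : ValuationSubring G.Qb} {E : IntermediateField ℚ G.Qb} {M q : ℕ} [NeZero M]
  [NeZero q] {w : RE A E}

theorem frobSub_one_eq {F : Type*} [Field F] (φ : F ≃+* F) (f : F) :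
    frobSub φ 1 f = φ f / f := by
  rw [frobSub, pow_one, div_eq_mul_inv]

theorem psiE_apply (N : ℕ) {s : G.Qb ≃ₐ[ℚ] G.Qb} (hs : StableUnder E s) (x : FE E N) :
    psiE E N s hs x = actE E N (resE E s hs) (actE E N (resE E s hs) x) :=
  actE_mul E N _ _ x

/-- **TORIC with a unit `g`** (`PowVU` form), from NORM-RED, STABLE, KRON-FROB. -/
theorem toricU_of_parts (m : ℕ) (hNR : H60.NormRedStatement A E M q w)
    (hST : StableStatement A E) (hKF : KronFrobStatement A E M q w)
    (hS : Setting A E M q w) (hGF : A2.GoodField A E) (hm : 0 < m)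
    {V : ValuationSubring (FE E (M * q))} {W : FE E (M * q) ≃ₐ[E] FE E (M * q)}
    (hV : IsVinf A E (M * q) V) (hW : IsFricke E (M * q) W)
    {s : G.Qb ≃ₐ[ℚ] G.Qb} (hs : StableUnder E s) (hFr : A.IsFrobeniusAt s q)
    {f : FE E (M * q)} (hf : f ≠ 0)
    (hα : NormPow (αE E M q) m f) (hβ : NormPow (βE E M q) m f) :
    (∃ g : FE E (M * q), g ≠ 0 ∧ g ∈ V ∧ g⁻¹ ∈ V ∧
      (frobSub (psiE E (M * q) s hs) 1 (frobSub (psiE E (M * q) s hs) 1 f) - g ^ m) *
        (cE A E (M * q) w)⁻¹ ∈ V) ∧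
    (∃ g : FE E (M * q), g ≠ 0 ∧ g ∈ vz V W ∧ g⁻¹ ∈ vz V W ∧
      (frobSub (psiE E (M * q) s hs) 1 (frobSub (psiE E (M * q) s hs) 1 f) - g ^ m) *
        (cE A E (M * q) w)⁻¹ ∈ vz V W) := by
  have hM : M ≠ 0 := NeZero.ne M
  have hN : M * q ≠ 0 := mq_ne_zero M q
  obtain ⟨VM, hVM⟩ := H708.vinfExists A E M hM hS.dvr
  obtain ⟨WM, hWM⟩ := H751.frickeExists E M hM
  have S := nrSetting hNR hST hKF hS hVM hV hWM hW hs hFr
  obtain ⟨c, h, hch⟩ := hα
  obtain ⟨c', h', hch'⟩ := hβ
  have key := S.gSplit_of_qNew (m := m) hf (c := algebraMap E (FE E M) c)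
    (c' := algebraMap E (FE E M) c') (h := h) (h' := h') ⟨c, rfl⟩ ⟨c', rfl⟩ hch hch'
  have hexpr : frobSub (psiE E (M * q) s hs) 1 (frobSub (psiE E (M * q) s hs) 1 f)
      = actE E (M * q) (resE E s hs) (actE E (M * q) (resE E s hs)
          (actE E (M * q) (resE E s hs) (actE E (M * q) (resE E s hs) f) / f))
        / (actE E (M * q) (resE E s hs) (actE E (M * q) (resE E s hs) f) / f) := by
    rw [frobSub_one_eq, frobSub_one_eq, psiE_apply, psiE_apply]
  rw [hexpr]
  refine ⟨exists_unit_pow_of_gSplit hGF (isUnif_V hS hN hV) (cst_mem_iff hS hN hV) hm key.1,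
    exists_unit_pow_of_gSplit hGF (isUnif_V0 hS hN hV W) ?_ hm key.2⟩
  intro e
  rw [ValuationSubring.mem_comap]
  show W (algebraMap E (FE E (M * q)) e) ∈ V ↔ e ∈ RE A E
  rw [W.commutes]
  exact cst_mem_iff hS hN hV e

/-- **TORIC from NORM-RED, STABLE, KRON-FROB.** -/
theorem toric_of_parts (m : ℕ) (hNR : H60.NormRedStatement A E M q w)
    (hST : StableStatement A E) (hKF : KronFrobStatement A E M q w) :
    ToricStatement A E M q m w := by
  intro hS hGF hm _ V W hV hW s hs hFr f hf hα hβ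
  obtain ⟨⟨g, -, hg, hgi, hgu⟩, ⟨g', -, hg', hgi', hgu'⟩⟩ :=
    toricU_of_parts m hNR hST hKF hS hGF hm hV hW hs hFr hf hα hβ
  exact ⟨⟨g, hg, hgi, hgu⟩, ⟨g', hg', hgi', hgu'⟩⟩

/-- **GLUE** (`H60.GlueStatement`, verbatim). -/
theorem glue (A : ValuationSubring G.Qb) (E : IntermediateField ℚ G.Qb) (M q : ℕ) [NeZero M]
    [NeZero q] (w : RE A E) (m : ℕ) : H60.GlueStatement A E M q w m :=
  fun hNR hST hKF => toric_of_parts m hNR hST hKF

end Glue

end Fermat.Agent.S35.G.H199

end
end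
-- ===== PACK-END S35/G/H199/ToricMod.lean

-- ===== PACK-BEGIN S36/H193/WallFlex.lean
section


/-!
# S36 engine, leaf CLOPEN (helper193), part 11: the label wall, flexible form (ALG3 step (c6))

Same theorem as `exists_pow_eq_of_base` (`WallPow.lean`), in the shape consumed by the assembly of
ALG3 from a three-component context:

* the set `𝒱` of valuation rings along which the values are given is ANY set containing all sheets
  (e.g. `{V₁, V₂, V₃}` once "every sheet is one of `V₁, V₂, V₃`" is known);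
* the unramified discrete valuation ring `V₀` used for "no new constants" need NOT be a sheet:
  only `R ⊆ V₀`, `w` generates the maximal ideal of `V₀`, `V₀` is `w`-adically discrete and
  `f ≡ 1` on `V₀`;
* `exists_pow_eq_of_three` : the hypotheses on the base are those of the frozen context
  (`Transcendental E x`, `F` finite over `E(x)`, `q ∤ m`), for the three rings `V₁, V₂, V₃`.

* `BasePureValuesAt.mono` : monotonicity in the set of sheets.
-/

set_option autoImplicit false
set_option linter.style.haveILetI false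
set_option linter.unusedSectionVars false

namespace Fermat.Agent.S36.H193

open Polynomial
open Fermat.Agent.A2.H12 (IsSheet)
open Fermat.Agent.S18.H138

universe u

section Mono

variable {R : Type*} [CommRing R] {F : Type*} [Field F] [Algebra R F]

/-- A purity datum with normalised values along a set of sheets is one along every subset. -/
theorem BasePureValuesAt.mono {𝒱 𝒱' : Set (ValuationSubring F)} (h : 𝒱 ⊆ 𝒱')
    {B : Subalgebra R F} {𝔫 : Ideal B} {m : ℕ} {f : F} {ζ : R} {κ : ValuationSubring F → ℕ}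
    (hb : BasePureValuesAt 𝒱' B 𝔫 m f ζ κ) : BasePureValuesAt 𝒱 B 𝔫 m f ζ κ := by
  obtain ⟨h', e₁, e₂, v, hh0, he₂, hv, hf, hval⟩ := hb
  exact ⟨h', e₁, e₂, v, hh0, he₂, hv, hf, fun V hV hth => hval V (h hV) hth⟩

end Mono

section Flex

variable {R : Type u} [CommRing R] [IsDomain R] [IsDiscreteValuationRing R]
  [HenselianLocalRing R] [IsAlgClosed (IsLocalRing.ResidueField R)] [IsIntegrallyClosed R[X]]
variable (E : Type u) [Field E] [CharZero E] [Algebra R E] [IsFractionRing R E]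
variable {F : Type u} [Field F] [Algebra E F] [Algebra R F] [IsScalarTower R E F]

include E in
/-- **The label wall, flexible form.**  `𝒱` any set of valuation rings containing all sheets,
`V₀` any unramified discrete valuation ring of `F` containing `R` on which `f ≡ 1`. -/
theorem exists_pow_eq_of_base_set (w : R) (hw : Irreducible w)
    {x : F} (hx : Transcendental R x) [FiniteDimensional (baseField R x) F]
    {m : ℕ} (hm : 0 < m) {mi : R} (hmi : (m : R) * mi = 1) {ζ : R} (hζ : IsPrimitiveRoot ζ m)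
    {f : F} (hf0 : f ≠ 0)
    (𝒱 : Set (ValuationSubring F)) (h𝒱 : ∀ V, IsSheet w x V → V ∈ 𝒱)
    (hsplit : ∀ V ∈ 𝒱, f - 1 ∈ V.nonunits)
    (V₀ : ValuationSubring F) (hRV₀ : ∀ r : R, algebraMap R F r ∈ V₀)
    (hwV₀ : algebraMap R F w ∈ V₀.nonunits) (hsplit₀ : f - 1 ∈ V₀.nonunits)
    (hunif : ∀ a ∈ V₀.nonunits, ∃ b ∈ V₀, a = algebraMap R F w * b)
    (hdisc : ∀ g : F, ∃ k : ℕ, g * algebraMap R F w ^ k ∈ V₀)
    (κ : ValuationSubring F → ℕ)
    (hpure_fin : ∀ 𝔫 : Ideal (chart R ({x} : Set F)), 𝔫.IsMaximal →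
      algebraMap R (chart R ({x} : Set F)) w ∈ 𝔫 →
      BasePureValuesAt 𝒱 (chart R ({x} : Set F)) 𝔫 m f ζ κ)
    (hpure_inf : ∀ 𝔫 : Ideal (chart R ({x⁻¹} : Set F)), 𝔫.IsMaximal →
      algebraMap R (chart R ({x⁻¹} : Set F)) w ∈ 𝔫 →
      BasePureValuesAt 𝒱 (chart R ({x⁻¹} : Set F)) 𝔫 m f ζ κ) :
    ∃ g : F, g ^ m = f := by
  classical
  have hwp : Prime w := hw.prime
  have hinjRE : Function.Injective (algebraMap R E) := IsFractionRing.injective R E
  have hinjRF : Function.Injective (algebraMap R F) := by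
    rw [IsScalarTower.algebraMap_eq R E F]
    exact (algebraMap E F).injective.comp hinjRE
  haveI : CharZero F := charZero_of_injective_algebraMap (algebraMap E F).injective
  have hmF : (m : F) ≠ 0 := Nat.cast_ne_zero.2 hm.ne'
  -- the cover
  let Z := (X ^ m - C f : F[X]).SplittingField
  haveI : FiniteDimensional F Z := IsSplittingField.finiteDimensional Z (X ^ m - C f : F[X])
  haveI : IsGalois F Z := IsGalois.of_separable_splitting_field (p := (X ^ m - C f : F[X]))
    (separable_X_pow_sub_C f hmF hf0)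
  haveI : IsScalarTower R E Z := by
    refine IsScalarTower.of_algebraMap_eq (fun r => ?_)
    rw [IsScalarTower.algebraMap_apply R F Z, IsScalarTower.algebraMap_apply E F Z,
      ← IsScalarTower.algebraMap_apply R E F]
  haveI : CharZero Z := charZero_of_injective_algebraMap (algebraMap F Z).injective
  have hinjRZ : Function.Injective (algebraMap R Z) := by
    rw [IsScalarTower.algebraMap_eq R F Z]
    exact (algebraMap F Z).injective.comp hinjRF
  have hxZ : Transcendental R (algebraMap F Z x) :=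
    (transcendental_algebraMap_iff (algebraMap F Z).injective).2 hx
  haveI : FiniteDimensional (baseField R (algebraMap F Z x)) Z :=
    Fermat.Agent.A2.H313.finiteDimensional_baseField_tower (R := R) (L := Z) x
  -- a root
  have hdeg : (((X ^ m - C f : F[X])).map (algebraMap F Z)).degree ≠ 0 := by
    rw [degree_map, degree_X_pow_sub_C hm]
    exact_mod_cast hm.ne'
  obtain ⟨G, hGroot⟩ := (SplittingField.splits (X ^ m - C f : F[X])).exists_eval_eq_zero hdeg
  have hG : G ^ m = algebraMap F Z f := by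
    simp only [Polynomial.map_sub, Polynomial.map_pow, map_X, map_C, eval_sub, eval_pow, eval_X,
      eval_C] at hGroot
    exact sub_eq_zero.1 hGroot
  have hG0 : G ≠ 0 := by
    rintro rfl
    rw [zero_pow hm.ne'] at hG
    exact hf0 ((map_eq_zero (algebraMap F Z)).1 hG.symm)
  -- the cover is generated by `G`
  have hζZ : IsPrimitiveRoot (algebraMap R Z ζ) m := hζ.map_of_injective hinjRZ
  have hgen : Algebra.adjoin F (Set.range fun _ : Unit => G) = ⊤ := by
    rw [eq_top_iff, ← SplittingField.adjoin_rootSet (X ^ m - C f : F[X])]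
    refine Algebra.adjoin_le ?_
    intro r hr
    rw [mem_rootSet] at hr
    have hr1 : r ^ m = algebraMap F Z f := by
      have := hr.2
      simp only [map_sub, map_pow, aeval_X, aeval_C] at this
      exact sub_eq_zero.1 this
    have hpow : (r / G) ^ m = 1 := by
      rw [div_pow, hr1, hG, div_self]
      rw [← hG]
      exact pow_ne_zero _ hG0
    haveI : NeZero m := ⟨hm.ne'⟩
    obtain ⟨i, -, hi⟩ := hζZ.eq_pow_of_pow_eq_one hpow
    have hrG : r = algebraMap R Z ζ ^ i * G := by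
      rw [hi]
      field_simp
    rw [hrG]
    refine Subalgebra.mul_mem _ (Subalgebra.pow_mem _ ?_ i) (Algebra.subset_adjoin ⟨(), rfl⟩)
    rw [IsScalarTower.algebraMap_apply R F Z]
    exact Subalgebra.algebraMap_mem _ _
  -- a valuation ring of the cover over `V₀`, unramified
  obtain ⟨W, hWV⟩ := Fermat.Agent.A2.H93.exists_comap_eq_of_unif (L := Z) V₀
    (algebraMap R F w) hwV₀ hunif
  have hwF0 : algebraMap R F w ≠ 0 := fun h => hw.ne_zero (hinjRF (by rw [h, map_zero]))
  have hfV₀ : f ∈ V₀ := by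
    have : f = (f - 1) + 1 := by ring
    rw [this]
    exact V₀.add_mem _ _ (nu_mem V₀ hsplit₀) V₀.one_mem
  have hfnu : f ∉ V₀.nonunits := by
    intro h
    have h1 := nu_sub V₀ h hsplit₀
    have : f - (f - 1) = 1 := by ring
    rw [this] at h1
    exact nu_one_not V₀ h1
  have hgenV₀ : ∀ a ∈ V₀, a⁻¹ ∉ V₀ → a * (algebraMap R F w)⁻¹ ∈ V₀ := by
    intro a ha hainv
    have han : a ∈ V₀.nonunits := by
      rw [ValuationSubring.mem_nonunits_iff_or]
      exact Or.inr hainv
    obtain ⟨b, hb, rfl⟩ := hunif a han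
    rw [mul_comm, ← mul_assoc, inv_mul_cancel₀ hwF0, one_mul]
    exact hb
  have hD : Fermat.Agent.A2.H93.CoverSplit V₀ W (algebraMap R F w) m (algebraMap R F ζ)
      (fun _ : Unit => G) (fun _ => f) (fun _ => 1) := by
    refine ⟨?_, ?_, hgenV₀, hdisc, hζ.map_of_injective hinjRF, hm, ?_, fun _ => hG,
      fun _ => hfV₀, fun _ => hf0, fun _ => nu_unit_inv V₀ hfV₀ hfnu, fun _ => V₀.one_mem, ?_,
      hgen⟩
    · intro a
      rw [← hWV, ValuationSubring.mem_comap]
    · intro h
      have h1 := nu_mul_left V₀ hwV₀ h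
      rw [inv_mul_cancel₀ hwF0] at h1
      exact nu_one_not V₀ h1
    · have h1 : (m : F)⁻¹ = algebraMap R F mi := by
        have := congrArg (algebraMap R F) hmi
        rw [map_mul, map_natCast, map_one] at this
        exact inv_eq_of_mul_eq_one_right this
      rw [h1]
      exact hRV₀ mi
    · intro _
      rw [one_pow]
      by_cases h0 : f - 1 = 0
      · rw [h0, zero_mul]
        exact V₀.zero_mem
      · have h1 := hsplit₀
        refine hgenV₀ _ (nu_mem V₀ h1) ?_
        rw [ValuationSubring.mem_nonunits_iff_or] at h1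
        exact h1.resolve_left h0
  have hRW : ∀ r : R, algebraMap R Z r ∈ W := by
    intro r
    have : algebraMap F Z (algebraMap R F r) ∈ W := by
      rw [← ValuationSubring.mem_comap, hWV]
      exact hRV₀ r
    exact this
  have hwW : algebraMap R Z w ∈ W.nonunits := by
    have : algebraMap F Z (algebraMap R F w) ∈ W.nonunits := by
      rw [← mem_nonunits_comap_algebraMap, hWV]
      exact hwV₀
    exact this
  have hunifW : ∀ a ∈ W.nonunits, ∃ b ∈ W, a = algebraMap R Z w * b := by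
    intro a ha
    have hwZ0 : algebraMap R Z w ≠ 0 := fun h => hw.ne_zero (hinjRZ (by rw [h, map_zero]))
    by_cases ha0 : a = 0
    · exact ⟨0, W.zero_mem, by rw [ha0, mul_zero]⟩
    · have hainv : a⁻¹ ∉ W := by
        have := (ValuationSubring.mem_nonunits_iff_or W).1 ha
        exact this.resolve_left ha0
      refine ⟨a * (algebraMap R Z w)⁻¹, hD.mul_inv_mem (nu_mem W ha) hainv, ?_⟩
      rw [mul_comm a, ← mul_assoc, mul_inv_cancel₀ hwZ0, one_mul]
  have hRF : ∀ y : Z, IsIntegral R y → y ∈ Set.range (algebraMap R Z) := fun y hy =>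
    Fermat.Agent.A2.H552.isIntegral_mem_range_of_unramified E w hw W hRW hwW hunifW y hy
  -- the wall
  obtain ⟨g, hg⟩ := kummer_wall3_of_base hinjRZ hRF hxZ w hwp hm hmi hζ hG
    (fun V hV => hsplit V (h𝒱 V hV)) κ
    (fun 𝔫 h𝔫 hw𝔫 => (hpure_fin 𝔫 h𝔫 hw𝔫).mono (fun V hV => h𝒱 V hV))
    (fun 𝔫 h𝔫 hw𝔫 => (hpure_inf 𝔫 h𝔫 hw𝔫).mono (fun V hV => h𝒱 V hV))
  refine ⟨g, (algebraMap F Z).injective ?_⟩
  rw [map_pow, hg, hG]

include E in
/-- **The label wall for a three-component context** (ALG3, step (c6)).  Hypotheses on the base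
in the shape of the frozen context: `x` transcendental over `E`, `F` finite over `E(x)`, residue
characteristic `q ∤ m`; `V₁` unramified and discrete, containing `R`; every sheet is one of
`V₁, V₂, V₃`; `f ≡ 1` on `V₁, V₂, V₃`; purity data with normalised values along `V₁, V₂, V₃` at
every closed point of the special fibre of the two charts. -/
theorem exists_pow_eq_of_three (w : R) (hw : Irreducible w) (q : ℕ) (hq : q.Prime)
    (hqR : (q : R) ∈ IsLocalRing.maximalIdeal R)
    {x : F} (hx : Transcendental E x)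
    (hfin : FiniteDimensional (IntermediateField.adjoin E ({x} : Set F)) F)
    {m : ℕ} (hm : 0 < m) (hqm : ¬ q ∣ m) {ζ : R} (hζ : IsPrimitiveRoot ζ m)
    {f : F} (hf0 : f ≠ 0)
    (V₁ V₂ V₃ : ValuationSubring F)
    (hsheets : ∀ V, IsSheet w x V → V = V₁ ∨ V = V₂ ∨ V = V₃)
    (h₁ : f - 1 ∈ V₁.nonunits) (h₂ : f - 1 ∈ V₂.nonunits) (h₃ : f - 1 ∈ V₃.nonunits)
    (hRV₁ : ∀ r : R, algebraMap R F r ∈ V₁)
    (hwV₁ : algebraMap R F w ∈ V₁.nonunits)
    (hunif : ∀ a ∈ V₁.nonunits, a * (algebraMap R F w)⁻¹ ∈ V₁)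
    (hdisc : ∀ g : F, ∃ k : ℕ, g * algebraMap R F w ^ k ∈ V₁)
    (κ : ValuationSubring F → ℕ)
    (hpure_fin : ∀ 𝔫 : Ideal (chart R ({x} : Set F)), 𝔫.IsMaximal →
      algebraMap R (chart R ({x} : Set F)) w ∈ 𝔫 →
      BasePureValuesAt {V | V = V₁ ∨ V = V₂ ∨ V = V₃} (chart R ({x} : Set F)) 𝔫 m f ζ κ)
    (hpure_inf : ∀ 𝔫 : Ideal (chart R ({x⁻¹} : Set F)), 𝔫.IsMaximal →
      algebraMap R (chart R ({x⁻¹} : Set F)) w ∈ 𝔫 →
      BasePureValuesAt {V | V = V₁ ∨ V = V₂ ∨ V = V₃} (chart R ({x⁻¹} : Set F)) 𝔫 m f ζ κ) :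
    ∃ g : F, g ^ m = f := by
  have hinjRE : Function.Injective (algebraMap R E) := IsFractionRing.injective R E
  have hinjRF : Function.Injective (algebraMap R F) := by
    rw [IsScalarTower.algebraMap_eq R E F]
    exact (algebraMap E F).injective.comp hinjRE
  have hwF0 : algebraMap R F w ≠ 0 := fun h => hw.ne_zero (hinjRF (by rw [h, map_zero]))
  have hxR : Transcendental R x := hx.restrictScalars hinjRE
  haveI := hfin
  haveI : FiniteDimensional (baseField R x) F :=
    Fermat.Agent.A2.H313.finiteDimensional_baseField_of_adjoin E x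
  -- `m` is invertible in `R`
  obtain ⟨mi, hmi⟩ : ∃ mi : R, (m : R) * mi = 1 := by
    have hu : IsUnit (m : R) := by
      by_contra hnu
      have hmem : (m : R) ∈ IsLocalRing.maximalIdeal R := (IsLocalRing.mem_maximalIdeal _).2 hnu
      have hcop : Nat.Coprime q m := (Nat.Prime.coprime_iff_not_dvd hq).2 hqm
      have h1 : ((Nat.gcd q m : ℕ) : R) ∈ IsLocalRing.maximalIdeal R := by
        have hb : ((Nat.gcd q m : ℕ) : ℤ) = q * Nat.gcdA q m + m * Nat.gcdB q m :=
          Nat.gcd_eq_gcd_ab q m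
        have hc : ((Nat.gcd q m : ℕ) : R) = (q : R) * ((Nat.gcdA q m : ℤ) : R) +
            (m : R) * ((Nat.gcdB q m : ℤ) : R) := by
          have := congrArg (fun z : ℤ => (z : R)) hb
          simpa using this
        rw [hc]
        exact Ideal.add_mem _ (Ideal.mul_mem_right _ _ hqR) (Ideal.mul_mem_right _ _ hmem)
      rw [hcop, Nat.cast_one] at h1
      exact (IsLocalRing.mem_maximalIdeal _).1 h1 isUnit_one
    obtain ⟨v, hv⟩ := hu
    exact ⟨(v⁻¹ : Rˣ), by rw [← hv, Units.mul_inv]⟩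
  refine exists_pow_eq_of_base_set E w hw hxR hm hmi hζ hf0
    {V | V = V₁ ∨ V = V₂ ∨ V = V₃} hsheets ?_ V₁ hRV₁ hwV₁ h₁ ?_ hdisc κ hpure_fin hpure_inf
  · rintro V (rfl | rfl | rfl)
    · exact h₁
    · exact h₂
    · exact h₃
  · intro a ha
    refine ⟨a * (algebraMap R F w)⁻¹, hunif a ha, ?_⟩
    rw [mul_comm a, ← mul_assoc, mul_inv_cancel₀ hwF0, one_mul]

end Flex

end Fermat.Agent.S36.H193

end
-- ===== PACK-END S36/H193/WallFlex.lean

-- ===== PACK-BEGIN S29/H871/DivBC.lean
section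


/-!
# S29 / E3, part 7: base change of divisors and of `Pic0`

(helper871)
-/

set_option autoImplicit false
set_option linter.unusedSectionVars false

noncomputable section

namespace Fermat.Agent.S29.H871

open AlgebraicCurve TensorProduct IntermediateField

variable {K F K' F' : Type*} [Field K] [Field F] [Field K'] [Field F']
  [Algebra K F] [Algebra K' F'] [Algebra K K'] [Algebra F F'] [Algebra K F']
  [IsScalarTower K F F'] [IsScalarTower K K' F']
  [IsConstExt K F K' F'] [IsAlgClosed K] [CharZero K] [IsAlgClosed K']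

variable (K' F') {t : F} (ht : Transcendental K t) [FiniteDimensional K⟮t⟯ F]

/-- Base change of a place of a function field over an algebraically closed field. -/
def bcPlace (v : Place K F) : Place K' F' := placeBC K' F' (isRationalPlace_all ht v)

variable {K' F'}

theorem bcPlace_injective : Function.Injective (bcPlace K' F' ht) := fun _ _ h =>
  placeBC_injective _ _ h

theorem ord_bcPlace (v : Place K F) (f : F) :
    (bcPlace K' F' ht v).ord (algebraMap F F' f) = v.ord f :=
  ord_placeBC_algebraMap _ f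

/-- A place of `F'` that is nontrivial on `F` is a base change. -/
theorem exists_bcPlace_eq (w : Place K' F') (hnt : ∃ f : F, rord w f ≠ 0) :
    ∃ v : Place K F, bcPlace K' F' ht v = w :=
  ⟨restrictPlace (K := K) w hnt, placeBC_restrictPlace w hnt _⟩

theorem rord_eq_zero_of_notMem_range {w : Place K' F'} (hw : w ∉ Set.range (bcPlace K' F' ht))
    (f : F) : rord w f = 0 := by
  by_contra h
  exact hw (exists_bcPlace_eq ht w ⟨f, h⟩)

theorem deg_bcPlace (v : Place K F) : (bcPlace K' F' ht v).deg = v.deg := by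
  have := finiteDimensional_adjoin_algebraMap (K := K) (K' := K') (F' := F') t
  rw [Fermat.Agent.S24.FF.deg_eq_one v ht,
    Fermat.Agent.S24.FF.deg_eq_one _ (transcendental_algebraMap (K' := K') (F' := F') ht)]

variable (K' F')

/-- Base change of divisors. -/
def bcDiv : Divisor K F →+ Divisor K' F' :=
  Finsupp.mapDomain.addMonoidHom (bcPlace K' F' ht)

variable {K' F'}

@[simp]
theorem bcDiv_single (v : Place K F) (n : ℤ) :
    bcDiv K' F' ht (Finsupp.single v n) = Finsupp.single (bcPlace K' F' ht v) n := by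
  simp [bcDiv]

theorem bcDiv_apply_bcPlace (D : Divisor K F) (v : Place K F) :
    bcDiv K' F' ht D (bcPlace K' F' ht v) = D v :=
  Finsupp.mapDomain_apply (bcPlace_injective ht) D v

theorem bcDiv_apply_of_notMem_range (D : Divisor K F) {w : Place K' F'}
    (hw : w ∉ Set.range (bcPlace K' F' ht)) : bcDiv K' F' ht D w = 0 :=
  Finsupp.mapDomain_of_notMem_range D w hw

theorem bcDiv_injective : Function.Injective (bcDiv K' F' ht) :=
  Finsupp.mapDomain_injective (bcPlace_injective ht)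

theorem degree_bcDiv (D : Divisor K F) :
    Divisor.degree (bcDiv K' F' ht D) = Divisor.degree D := by
  have h : (Divisor.degree (K := K') (F := F')).comp (bcDiv K' F' ht) = Divisor.degree := by
    refine Finsupp.addHom_ext fun v n => ?_
    rw [AddMonoidHom.comp_apply, bcDiv_single, Divisor.degree_single, Divisor.degree_single,
      deg_bcPlace]
  exact DFunLike.congr_fun h D

/-- The base change of the divisor of `f ∈ F` is the divisor of `f` in `F'`. -/
theorem bcDiv_eq_ord {f : F} {D : Divisor K F} (hD : ∀ v : Place K F, D v = v.ord f)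
    (w : Place K' F') : bcDiv K' F' ht D w = w.ord (algebraMap F F' f) := by
  by_cases hw : w ∈ Set.range (bcPlace K' F' ht)
  · obtain ⟨v, rfl⟩ := hw
    rw [bcDiv_apply_bcPlace, hD, ord_bcPlace]
  · rw [bcDiv_apply_of_notMem_range ht D hw]
    exact (rord_eq_zero_of_notMem_range ht hw f).symm

theorem bcDiv_mem_principal {D : Divisor K F} (hD : D ∈ Divisor.principal (K := K) (F := F)) :
    bcDiv K' F' ht D ∈ Divisor.principal (K := K') (F := F') := by
  obtain ⟨f, hf, hDf⟩ := hD
  exact ⟨algebraMap F F' f, by simpa using hf, fun w => bcDiv_eq_ord ht hDf w⟩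

variable (K' F')

/-- Base change of degree-zero divisors. -/
def bcDegZero : Divisor.degZero (K := K) (F := F) →+ Divisor.degZero (K := K') (F := F') :=
  ((bcDiv K' F' ht).domRestrict (Divisor.degZero (K := K) (F := F))).codRestrict _
    fun D => by
      rw [Divisor.mem_degZero]
      show Divisor.degree (bcDiv K' F' ht (D : Divisor K F)) = 0
      rw [degree_bcDiv]
      exact D.2

/-- **Base change on `Pic0`** along a constant field extension. -/
def bcPic0 : Pic0 K F →+ Pic0 K' F' :=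
  QuotientAddGroup.map _ _ (bcDegZero K' F' ht) (by
    rintro ⟨D, hD0⟩ hD
    simp only [AddSubgroup.mem_addSubgroupOf] at hD ⊢
    exact bcDiv_mem_principal ht hD)

variable {K' F'}

@[simp]
theorem coe_bcDegZero (D : Divisor.degZero (K := K) (F := F)) :
    (bcDegZero K' F' ht D : Divisor K' F') = bcDiv K' F' ht (D : Divisor K F) := rfl

theorem bcPic0_mk (D : Divisor.degZero (K := K) (F := F)) :
    bcPic0 K' F' ht (Pic0.mk D) = Pic0.mk (bcDegZero K' F' ht D) := rfl

end Fermat.Agent.S29.H871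

end
end
-- ===== PACK-END S29/H871/DivBC.lean

-- ===== PACK-BEGIN S36/H83/BetaUniq.lean
section
/-
S36 engine, MOD-3 (helper83): `V∞_{Mq}` is the ONLY valuation ring of `F_{Mq}` over `β(V∞_M)`
when `q ∣ M`, and its residue extension is purely inseparable of degree `q`.

* `h83_j_mem_of_beta_mem` : `j` is integral over `β(V∞_M)`;
* `h83_beta_unique`       : a valuation subring `V'` of `F_{Mq}` with `β f ∈ V' ↔ f ∈ V∞_M` is `V∞_{Mq}`;
* `h83_beta_insep`        : for `f ∈ V∞_{Mq}` there is `g ∈ V∞_M` with `f^q ≡ β g mod w V∞_{Mq}`.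
-/



set_option autoImplicit false
set_option linter.unusedSectionVars false
set_option linter.style.haveILetI false
set_option synthInstance.maxHeartbeats 400000
set_option maxHeartbeats 1600000

noncomputable section

namespace Fermat.Agent.S36.H83

open ModularCurve Fermat.Agent.A2 Fermat.Agent.A2.Mod

section BetaUniq

variable {P : ValuationSubring _root_.Fermat.Agent.A2.Mod.Qb} {E : IntermediateField ℚ _root_.Fermat.Agent.A2.Mod.Qb} {M q : ℕ} [NeZero M] [NeZero q]

/-- polynomials with integer coefficients in an element of a valuation subring stay inside. -/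
theorem h83_aeval_mem {F : Type*} [Field F] (V : ValuationSubring F) {x : F} (hx : x ∈ V)
    (c : Polynomial ℤ) : Polynomial.aeval x c ∈ V := by
  induction c using Polynomial.induction_on' with
  | add c d hc hd => rw [map_add]; exact V.add_mem _ _ hc hd
  | monomial n a =>
    rw [Polynomial.aeval_monomial, eq_intCast]
    exact V.mul_mem _ _ (intCast_mem V a) (pow_mem hx n)

theorem h83_coe_comp_aeval {N : ℕ} (y : _root_.Fermat.Agent.A2.Mod.FE E N) :
    (algebraMap (_root_.Fermat.Agent.A2.Mod.FE E N) (LaurentSeries E)).comp (Polynomial.aeval (R := ℤ) y).toRingHom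
      = Fermat.Agent.S28.evalAt (y : LaurentSeries E) := by
  apply Polynomial.ringHom_ext
  · intro a
    simp [Fermat.Agent.S28.evalAt]
  · simp [Fermat.Agent.S28.evalAt]

theorem h83_beta_jE :
    βE E M q (jE E M 1 (one_dvd _)) = jE E (M * q) q (dvd_mul_left q M) := by
  apply Subtype.ext
  rw [coe_heckeBetaBar, h83_coe_jE, h83_coe_jE, qExpand_one_apply]

/-- `j` lies in every valuation subring of `F_{Mq}` containing `β(V∞_M)`. -/
theorem h83_j_mem_of_beta_mem (hq : q.Prime) {VM : ValuationSubring (_root_.Fermat.Agent.A2.Mod.FE E M)}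
    (hVM : IsVinf P E M VM) (V' : ValuationSubring (_root_.Fermat.Agent.A2.Mod.FE E (M * q)))
    (hV' : ∀ f : _root_.Fermat.Agent.A2.Mod.FE E M, f ∈ VM → βE E M q f ∈ V') :
    jE E (M * q) 1 (one_dvd _) ∈ V' := by
  obtain ⟨Φ⟩ := Fermat.Agent.S28.H807.nonempty_modPolyData q hq
  have hjM : jE E M 1 (one_dvd _) ∈ VM :=
    H708.mem_of_isVinf_of_incl hVM _ (H708.coe_jE_eq M 1 (one_dvd _))
  have hjq : jE E (M * q) q (dvd_mul_left q M) ∈ V' := by
    rw [← h83_beta_jE]
    exact hV' _ hjM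
  set φ : Polynomial ℤ →+* _root_.Fermat.Agent.A2.Mod.FE E (M * q) :=
    (Polynomial.aeval (R := ℤ) (jE E (M * q) q (dvd_mul_left q M))).toRingHom with hφ
  refine H48.mem_of_monic_root V' (Φ.monic.map φ) (fun i => ?_) ?_
  · rw [Polynomial.coeff_map]
    exact h83_aeval_mem V' hjq _
  · rw [Polynomial.eval_map]
    apply Subtype.ext
    have h := Polynomial.hom_eval₂ Φ.Φ φ (algebraMap (_root_.Fermat.Agent.A2.Mod.FE E (M * q)) (LaurentSeries E))
      (jE E (M * q) 1 (one_dvd _))
    have h2 : ((Polynomial.eval₂ φ (jE E (M * q) 1 (one_dvd _)) Φ.Φ : _root_.Fermat.Agent.A2.Mod.FE E (M * q)) :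
        LaurentSeries E) = Polynomial.eval₂
          ((algebraMap (_root_.Fermat.Agent.A2.Mod.FE E (M * q)) (LaurentSeries E)).comp φ)
          ((jE E (M * q) 1 (one_dvd _) : _root_.Fermat.Agent.A2.Mod.FE E (M * q)) : LaurentSeries E) Φ.Φ := h
    rw [h2, hφ, h83_coe_comp_aeval, h83_coe_jE, h83_coe_jE, qExpand_one_apply]
    exact Fermat.Agent.S28.h88_modPoly_eval_j E q Φ

/-- **Uniqueness**: for `q ∣ M`, `V∞_{Mq}` is the only valuation subring of `F_{Mq}` lying over
`β(V∞_M)`. -/
theorem h83_beta_unique (hdvr : IsDiscreteValuationRing (_root_.Fermat.Agent.A2.Mod.RE P E)) {w : _root_.Fermat.Agent.A2.Mod.RE P E}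
    (hw : Irreducible w) (hq : q.Prime) (hqM : q ∣ M)
    {VM : ValuationSubring (_root_.Fermat.Agent.A2.Mod.FE E M)} {V : ValuationSubring (_root_.Fermat.Agent.A2.Mod.FE E (M * q))}
    (hVM : IsVinf P E M VM) (hV : IsVinf P E (M * q) V)
    (V' : ValuationSubring (_root_.Fermat.Agent.A2.Mod.FE E (M * q)))
    (hV' : ∀ f : _root_.Fermat.Agent.A2.Mod.FE E M, βE E M q f ∈ V' ↔ f ∈ VM) : V' = V := by
  have := hdvr
  have hj : jE E (M * q) 1 (one_dvd _) ∈ V' :=
    h83_j_mem_of_beta_mem hq hVM V' (fun f hf => (hV' f).mpr hf)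
  have hle : V ≤ V' := by
    intro f hf
    obtain ⟨a, ha, hfa⟩ := h83_beta_integral_basis hdvr hw hq hqM hVM hV hf
    rw [hfa]
    exact sum_mem fun i _ => V'.mul_mem _ _ ((hV' _).mpr (ha i)) (pow_mem hj _)
  apply le_antisymm _ hle
  intro f hf
  by_contra hfV
  have hunifN := (H708.vinfBasic P E w (M * q) (NeZero.ne _) hdvr hw V hV).1
  have hunifM := (H708.vinfBasic P E w M (NeZero.ne _) hdvr hw VM hVM).1
  have hfinv : f⁻¹ ∈ V := (V.mem_or_inv_mem f).resolve_left hfV
  have h1 : f⁻¹ * (cE P E (M * q) w)⁻¹ ∈ V := hunifN.gen _ hfinv (by rwa [inv_inv])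
  have hf0 : f ≠ 0 := by
    rintro rfl
    exact hfV V.zero_mem
  have h2 : (cE P E (M * q) w)⁻¹ ∈ V' := by
    have : (cE P E (M * q) w)⁻¹ = f * (f⁻¹ * (cE P E (M * q) w)⁻¹) := by
      rw [← mul_assoc, mul_inv_cancel₀ hf0, one_mul]
    rw [this]
    exact V'.mul_mem _ _ hf (hle h1)
  have h3 : (cE P E (M * q) w)⁻¹ = βE E M q (cE P E M w)⁻¹ := by
    rw [map_inv₀]
    congr 1
    exact ((βE E M q).commutes (w : E)).symm
  rw [h3, hV'] at h2
  exact hunifM.inv_not_mem h2

/-! ### The residue extension is purely inseparable -/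

/-- an element with an integral expansion of zero reduction lies in `w V∞`. -/
theorem h83_inW_of_red_eq_zero (hdvr : IsDiscreteValuationRing (_root_.Fermat.Agent.A2.Mod.RE P E)) {w : _root_.Fermat.Agent.A2.Mod.RE P E}
    (hw : Irreducible w) {N : ℕ} {V : ValuationSubring (_root_.Fermat.Agent.A2.Mod.FE E N)} (hV : IsVinf P E N V)
    {x : _root_.Fermat.Agent.A2.Mod.FE E N} {S : LaurentSeries (_root_.Fermat.Agent.A2.Mod.RE P E)}
    (hx : (x : LaurentSeries E) = H708.incl (_root_.Fermat.Agent.A2.Mod.RE P E) S) (hS : H708.red (_root_.Fermat.Agent.A2.Mod.RE P E) S = 0) :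
    InW P E N V w x := by
  have := hdvr
  obtain ⟨U', hU'⟩ := H96.exists_incl_eq_inv_mul (_root_.Fermat.Agent.A2.Mod.RE P E) hw hS
  unfold InW
  refine H708.mem_of_isVinf_of_incl hV U' ?_
  rw [hU', ← hx, IntermediateField.coe_mul, IntermediateField.coe_inv, H753.coe_cE]
  have hwE : H708.cst ((w : E))⁻¹ = (H708.cst (w : E))⁻¹ := map_inv₀ _ _
  rw [hwE, mul_comm]

/-- `V∞` lies over `q`. -/
theorem h83_vinf_liesOver (hdvr : IsDiscreteValuationRing (_root_.Fermat.Agent.A2.Mod.RE P E))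
    (hP : P.LiesOverPrime q) {N : ℕ} {V : ValuationSubring (_root_.Fermat.Agent.A2.Mod.FE E N)} (hV : IsVinf P E N V) :
    V.LiesOverPrime q := by
  have := hdvr
  have hR : (_root_.Fermat.Agent.A2.Mod.RE P E).LiesOverPrime q := H96.liesOver_RE P E hP
  have h1 : (_root_.Fermat.Agent.A2.Mod.RE P E).valuation ((q : ℕ) : E) < 1 := (ValuationSubring.mem_nonunits_iff _).mp hR
  show ((q : ℕ) : _root_.Fermat.Agent.A2.Mod.FE E N) ∈ V.nonunits
  rw [ValuationSubring.mem_nonunits_iff]
  have hqE : ((q : ℕ) : _root_.Fermat.Agent.A2.Mod.FE E N) = algebraMap E (_root_.Fermat.Agent.A2.Mod.FE E N) ((q : ℕ) : E) := (map_natCast _ q).symm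
  have hmem : ((q : ℕ) : E) ∈ _root_.Fermat.Agent.A2.Mod.RE P E := ((_root_.Fermat.Agent.A2.Mod.RE P E).valuation_le_one_iff _).mp h1.le
  have hle : V.valuation ((q : ℕ) : _root_.Fermat.Agent.A2.Mod.FE E N) ≤ 1 := by
    rw [V.valuation_le_one_iff, hqE]
    exact (H708.algebraMap_mem_iff_of_isVinf hV _).mpr hmem
  rcases lt_or_eq_of_le hle with h | h
  · exact h
  · exfalso
    have hinv : (((q : ℕ) : _root_.Fermat.Agent.A2.Mod.FE E N))⁻¹ ∈ V := by
      rw [← V.valuation_le_one_iff, map_inv₀, h, inv_one]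
    rw [hqE, ← map_inv₀, H708.algebraMap_mem_iff_of_isVinf hV] at hinv
    have h2 : (_root_.Fermat.Agent.A2.Mod.RE P E).valuation (((q : ℕ) : E))⁻¹ ≤ 1 := ((_root_.Fermat.Agent.A2.Mod.RE P E).valuation_le_one_iff _).mpr hinv
    rw [map_inv₀] at h2
    have hq0 : (_root_.Fermat.Agent.A2.Mod.RE P E).valuation ((q : ℕ) : E) ≠ 0 := by
      rw [Valuation.ne_zero_iff]
      exact Nat.cast_ne_zero.mpr (NeZero.ne q)
    have h3 : 1 ≤ (_root_.Fermat.Agent.A2.Mod.RE P E).valuation ((q : ℕ) : E) := (inv_le_one₀ (zero_lt_iff.2 hq0)).mp h2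
    exact absurd h1 (not_lt.mpr h3)

/-- Frobenius congruence `j^q ≡ j_q mod w V∞`. -/
theorem h83_inW_j_pow_sub (hdvr : IsDiscreteValuationRing (_root_.Fermat.Agent.A2.Mod.RE P E)) {w : _root_.Fermat.Agent.A2.Mod.RE P E}
    (hw : Irreducible w) (hq : q.Prime) (hP : P.LiesOverPrime q)
    {V : ValuationSubring (_root_.Fermat.Agent.A2.Mod.FE E (M * q))} (hV : IsVinf P E (M * q) V) :
    InW P E (M * q) V w
      (jE E (M * q) 1 (one_dvd _) ^ q - jE E (M * q) q (dvd_mul_left q M)) := by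
  have := hdvr
  haveI : Fact q.Prime := ⟨hq⟩
  haveI : CharP (IsLocalRing.ResidueField (_root_.Fermat.Agent.A2.Mod.RE P E)) q :=
    Fermat.Agent.S18.H516.charP_residue (_root_.Fermat.Agent.A2.Mod.RE P E) (H96.liesOver_RE P E hP)
  refine h83_inW_of_red_eq_zero hdvr hw hV
    (S := H708.castA (_root_.Fermat.Agent.A2.Mod.RE P E) (H708.jInt 1 ^ q - H708.jInt q)) ?_ ?_
  · rw [AddSubgroupClass.coe_sub, IntermediateField.coe_pow,
      H708.coe_jE_eq (P := P) (M * q) 1 (one_dvd _),
      H708.coe_jE_eq (P := P) (M * q) q (dvd_mul_left q M), map_sub, map_sub, map_pow, map_pow]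
  · rw [H753.red_castA, map_sub, map_pow]
    have h1 : H708.jInt 1 = jqModC ℤ := jqNModC_one ℤ
    have h2 : H708.jInt q = qExpand ℤ q (jqModC ℤ) := rfl
    rw [h1, h2, H753.castL_qExpand_jqModC q hq, Fermat.Agent.S28.H325.castL_jqModC, sub_self]

/-- **Purely inseparable residue extension**: for `q ∣ M` and `f ∈ V∞_{Mq}` there is
`g ∈ V∞_M` with `f^q ≡ β g mod w V∞_{Mq}`. -/
theorem h83_beta_insep (hdvr : IsDiscreteValuationRing (_root_.Fermat.Agent.A2.Mod.RE P E)) {w : _root_.Fermat.Agent.A2.Mod.RE P E}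
    (hw : Irreducible w) (hq : q.Prime) (hqM : q ∣ M) (hP : P.LiesOverPrime q)
    {VM : ValuationSubring (_root_.Fermat.Agent.A2.Mod.FE E M)} {V : ValuationSubring (_root_.Fermat.Agent.A2.Mod.FE E (M * q))}
    (hVM : IsVinf P E M VM) (hV : IsVinf P E (M * q) V) {f : _root_.Fermat.Agent.A2.Mod.FE E (M * q)} (hf : f ∈ V) :
    ∃ g ∈ VM, InW P E (M * q) V w (f ^ q - βE E M q g) := by
  classical
  have := hdvr
  haveI : Fact q.Prime := ⟨hq⟩
  obtain ⟨a, ha, hfa⟩ := h83_beta_integral_basis hdvr hw hq hqM hVM hV hf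
  have hjM : jE E M 1 (one_dvd _) ∈ VM :=
    H708.mem_of_isVinf_of_incl hVM _ (H708.coe_jE_eq M 1 (one_dvd _))
  have hjN : jE E (M * q) 1 (one_dvd _) ∈ V :=
    H708.mem_of_isVinf_of_incl hV _ (H708.coe_jE_eq (M * q) 1 (one_dvd _))
  have hjq : jE E (M * q) q (dvd_mul_left q M) ∈ V :=
    H708.mem_of_isVinf_of_incl hV _ (H708.coe_jE_eq (M * q) q (dvd_mul_left q M))
  have hβa : ∀ i, βE E M q (a i) ∈ V := fun i => h83_beta_mem hVM hV (ha i)
  set g : _root_.Fermat.Agent.A2.Mod.FE E M := ∑ i : Fin q, a i ^ q * jE E M 1 (one_dvd _) ^ (i : ℕ) with hg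
  have hgV : g ∈ VM := sum_mem fun i _ => VM.mul_mem _ _ (pow_mem (ha i) q) (pow_mem hjM _)
  refine ⟨g, hgV, ?_⟩
  have hβg : βE E M q g
      = ∑ i : Fin q, βE E M q (a i) ^ q * jE E (M * q) q (dvd_mul_left q M) ^ (i : ℕ) := by
    rw [hg, map_sum]
    refine Finset.sum_congr rfl fun i _ => ?_
    rw [map_mul, map_pow, map_pow, h83_beta_jE]
  -- the residue field of `V`
  haveI : CharP (IsLocalRing.ResidueField V) q :=
    Fermat.Agent.S18.H516.charP_residue V (h83_vinf_liesOver hdvr hP hV)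
  set r := IsLocalRing.residue V with hr
  have hunif := (H708.vinfBasic P E w (M * q) (NeZero.ne _) hdvr hw V hV).1
  -- key congruence
  have hkey : r ⟨_, hjN⟩ ^ q = r ⟨_, hjq⟩ := by
    have h1 := h83_inW_j_pow_sub (M := M) hdvr hw hq hP hV
    unfold InW at h1
    have h2 : V.valuation (jE E (M * q) 1 (one_dvd _) ^ q
        - jE E (M * q) q (dvd_mul_left q M)) < 1 := hunif.mul_inv_mem_iff.mp h1
    have h3 : (⟨_, hjN⟩ : V) ^ q - ⟨_, hjq⟩ ∈ IsLocalRing.maximalIdeal V := by
      rw [V.valuation_lt_one_iff]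
      exact h2
    have h4 : r ((⟨_, hjN⟩ : V) ^ q - ⟨_, hjq⟩) = 0 :=
      (IsLocalRing.residue_eq_zero_iff _).mpr h3
    rw [map_sub, map_pow] at h4
    exact sub_eq_zero.mp h4
  have hfV : (⟨f, hf⟩ : V) = ∑ i : Fin q, ⟨_, hβa i⟩ * (⟨_, hjN⟩ : V) ^ (i : ℕ) := by
    apply Subtype.ext
    show f = _
    rw [hfa]
    push_cast
    rfl
  have hβgV : βE E M q g ∈ V := h83_beta_mem hVM hV hgV
  have hgV' : (⟨_, hβgV⟩ : V) = ∑ i : Fin q, (⟨_, hβa i⟩ : V) ^ q * (⟨_, hjq⟩ : V) ^ (i : ℕ) := by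
    apply Subtype.ext
    show βE E M q g = _
    rw [hβg]
    push_cast
    rfl
  have hzero : r ((⟨f, hf⟩ : V) ^ q - ⟨_, hβgV⟩) = 0 := by
    rw [map_sub, map_pow, hfV, hgV', map_sum, map_sum, sum_pow_char, sub_eq_zero]
    refine Finset.sum_congr rfl fun i _ => ?_
    rw [map_mul, map_mul, map_pow, map_pow, map_pow, mul_pow, ← hkey, ← pow_mul, ← pow_mul,
      mul_comm (i : ℕ) q]
  have hmem := (IsLocalRing.residue_eq_zero_iff _).mp hzero
  rw [V.valuation_lt_one_iff] at hmem
  unfold InW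
  exact hunif.mul_inv_mem_iff.mpr hmem

end BetaUniq

end Fermat.Agent.S36.H83

end

end
-- ===== PACK-END S36/H83/BetaUniq.lean

-- ===== PACK-BEGIN S36/H972/Mod3Base.lean
section





/-!
# S36 / MOD3 (helper972): Gauss valuation toolkit (any level `N`, any `E`)

Level-free facts on the Gauss valuation ring `V∞` of `F_{N,E}` (`IsVinf P E N V`) used by the
concrete MOD3 instance:

* `castE E : ℤ((t)) →+* E((t))`, `mem_of_castE`, `inv_mem_of_castE` : a function with integral
  `t`-expansion lies in `V∞`; it is a unit of `V∞` as soon as one coefficient is prime to `q`;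
* `arch_vinf` : `V∞` has rank one (`∀ f, ∃ k, w^k f ∈ V∞`);
* `exists_lift_poly` : polynomials over `ℤ((t))` with coefficients in `F_N` lift to `V∞[X]`;
* `alpha_mem_iff'`, `beta_mem_iff'` : `V∞_{Nq}` lies over `V∞_N` along `α` and along `β`
  (no hypothesis `q ∤ N`).
-/

set_option autoImplicit false
set_option linter.unusedSectionVars false
set_option linter.style.haveILetI false
set_option synthInstance.maxHeartbeats 400000
set_option maxHeartbeats 1600000

noncomputable section

namespace Fermat.Agent.S36.H972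

open ModularCurve HahnSeries Polynomial
open Fermat.Agent.A2 Fermat.Agent.A2.Mod Fermat.Agent.A2.H48 Fermat.Agent.S28

/-! ### Integral series -/

section Series

variable (E : IntermediateField ℚ _root_.Fermat.Agent.A2.Mod.Qb)

/-- `ℤ((t)) → E((t))`. -/
def castE : LaurentSeries ℤ →+* LaurentSeries E := coeffMap (Int.castRingHom E)

theorem castE_eq_coeffEmb (g : LaurentSeries ℤ) :
    castE E g = coeffEmb E (H708.castQ g) := by
  rw [castE, coeffEmb, H708.castQ, coeffMap_coeffMap]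
  exact coeffMap_congr (RingHom.ext_int _ _) g

theorem castE_coeff (g : LaurentSeries ℤ) (n : ℤ) : (castE E g).coeff n = ((g.coeff n : ℤ) : E) := by
  rw [castE, coeffMap_coeff]
  rfl

theorem castE_injective : Function.Injective (castE E) := by
  intro a b h
  ext n
  have h1 := congrArg (fun z => z.coeff n) h
  simp only [castE_coeff] at h1
  exact_mod_cast h1

theorem castE_qExpand_j (d : ℕ) [NeZero d] :
    castE E (qExpand ℤ d (jqModC ℤ)) = H378.jser E d := by
  rw [castE, coeffMap_qExpand, coeffMap_jqModC, H378.jser]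

theorem castE_j : castE E (jqModC ℤ) = H378.jser E 1 := by
  rw [← castE_qExpand_j, qExpand_one_apply]

theorem castE_natCast (n : ℕ) : castE E (n : LaurentSeries ℤ) = (n : LaurentSeries E) :=
  map_natCast _ n

theorem coe_jE' (N d : ℕ) [NeZero d] (hd : d ∣ N) :
    ((jE E N d hd : _root_.Fermat.Agent.A2.Mod.FE E N) : LaurentSeries E) = castE E (qExpand ℤ d (jqModC ℤ)) := by
  rw [castE_qExpand_j, H378.jser_eq_coeffEmb]
  rfl

end Series

/-! ### Membership in the Gauss ring -/

section Gauss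

variable {P : ValuationSubring _root_.Fermat.Agent.A2.Mod.Qb} {E : IntermediateField ℚ _root_.Fermat.Agent.A2.Mod.Qb}

theorem mem_of_castE {N : ℕ} {V : ValuationSubring (_root_.Fermat.Agent.A2.Mod.FE E N)} (hV : IsVinf P E N V)
    {f : _root_.Fermat.Agent.A2.Mod.FE E N} {g : LaurentSeries ℤ} (hfg : (f : LaurentSeries E) = castE E g) : f ∈ V :=
  H553.mem_of_int hV (hfg.trans (castE_eq_coeffEmb E g))

/-- an integer prime to `q` is a unit of `R_E`. -/
theorem valuation_intCast_eq_one {q : ℕ} (hq : q.Prime) (hP : P.LiesOverPrime q) {m : ℤ}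
    (hm : ¬ (q : ℤ) ∣ m) : (_root_.Fermat.Agent.A2.Mod.RE P E).valuation ((m : ℤ) : E) = 1 := by
  have hqv : (_root_.Fermat.Agent.A2.Mod.RE P E).valuation ((q : ℕ) : E) < 1 := by
    have h1 : P.valuation ((q : ℕ) : _root_.Fermat.Agent.A2.Mod.Qb) < 1 := (ValuationSubring.mem_nonunits_iff P).mp hP
    have h2 : ((q : ℕ) : E) ∈ (_root_.Fermat.Agent.A2.Mod.RE P E) := by
      show algebraMap E _root_.Fermat.Agent.A2.Mod.Qb ((q : ℕ) : E) ∈ P
      rw [map_natCast, ← ValuationSubring.valuation_le_one_iff]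
      exact h1.le
    by_contra hcon
    have h3 : (_root_.Fermat.Agent.A2.Mod.RE P E).valuation ((q : ℕ) : E) = 1 :=
      le_antisymm ((ValuationSubring.valuation_le_one_iff _ _).mpr h2) (not_lt.mp hcon)
    have h4 : (((q : ℕ) : E))⁻¹ ∈ _root_.Fermat.Agent.A2.Mod.RE P E := by
      rw [← ValuationSubring.valuation_le_one_iff, map_inv₀, h3, inv_one]
    have h5 : (algebraMap E _root_.Fermat.Agent.A2.Mod.Qb ((q : ℕ) : E))⁻¹ ∈ P := by
      have : algebraMap E _root_.Fermat.Agent.A2.Mod.Qb (((q : ℕ) : E))⁻¹ ∈ P := h4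
      rwa [map_inv₀] at this
    rw [map_natCast] at h5
    have h6 : P.valuation (((q : ℕ) : _root_.Fermat.Agent.A2.Mod.Qb))⁻¹ ≤ 1 := (ValuationSubring.valuation_le_one_iff _ _).mpr h5
    rw [map_inv₀] at h6
    have hq0 : P.valuation ((q : ℕ) : _root_.Fermat.Agent.A2.Mod.Qb) ≠ 0 := by
      rw [Valuation.ne_zero_iff]
      exact_mod_cast hq.ne_zero
    have h7 : 1 ≤ P.valuation ((q : ℕ) : _root_.Fermat.Agent.A2.Mod.Qb) := by
      rwa [inv_le_one₀ (zero_lt_iff.mpr hq0)] at h6
    exact absurd h1 (not_lt.mpr h7)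
  have hcop : IsCoprime m (q : ℤ) :=
    ((Int.prime_iff_natAbs_prime.mpr (by simpa using hq)).coprime_iff_not_dvd.mpr hm).symm
  obtain ⟨a, b, hab⟩ := hcop
  have hE : ((a : ℤ) : E) * ((m : ℤ) : E) = 1 - ((b : ℤ) : E) * ((q : ℕ) : E) := by
    have : ((a * m + b * q : ℤ) : E) = 1 := by rw [hab]; simp
    push_cast at this
    linear_combination this
  have hint : ∀ z : ℤ, (_root_.Fermat.Agent.A2.Mod.RE P E).valuation ((z : ℤ) : E) ≤ 1 := by
    intro z
    rw [ValuationSubring.valuation_le_one_iff]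
    exact intCast_mem _ z
  have hbq : (_root_.Fermat.Agent.A2.Mod.RE P E).valuation (((b : ℤ) : E) * ((q : ℕ) : E)) < 1 := by
    rw [map_mul]
    calc _ ≤ 1 * (_root_.Fermat.Agent.A2.Mod.RE P E).valuation ((q : ℕ) : E) := by gcongr; exact hint b
      _ = _ := one_mul _
      _ < 1 := hqv
  have h1 : (_root_.Fermat.Agent.A2.Mod.RE P E).valuation (((a : ℤ) : E) * ((m : ℤ) : E)) = 1 := by
    rw [hE]
    exact Valuation.map_one_sub_of_lt _ hbq
  rw [map_mul] at h1
  refine le_antisymm (hint m) ?_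
  calc (1 : _) = (_root_.Fermat.Agent.A2.Mod.RE P E).valuation ((a : ℤ) : E) * (_root_.Fermat.Agent.A2.Mod.RE P E).valuation ((m : ℤ) : E) := h1.symm
    _ ≤ 1 * (_root_.Fermat.Agent.A2.Mod.RE P E).valuation ((m : ℤ) : E) := by gcongr; exact hint a
    _ = _ := one_mul _

theorem red_castA_ne_zero_of_not_dvd {q : ℕ} (hq : q.Prime) (hP : P.LiesOverPrime q)
    {g : LaurentSeries ℤ} (hg : ∃ n : ℤ, ¬ (q : ℤ) ∣ g.coeff n) :
    H708.red (_root_.Fermat.Agent.A2.Mod.RE P E) (H708.castA (_root_.Fermat.Agent.A2.Mod.RE P E) g) ≠ 0 := by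
  obtain ⟨n, hn⟩ := hg
  rw [H708.red_ne_zero_iff]
  refine ⟨n, ?_⟩
  have h1 : (((H708.castA (_root_.Fermat.Agent.A2.Mod.RE P E) g).coeff n : _root_.Fermat.Agent.A2.Mod.RE P E) : E) = ((g.coeff n : ℤ) : E) := by
    show ((((g.coeff n : ℤ) : _root_.Fermat.Agent.A2.Mod.RE P E)) : E) = _
    simp
  rw [h1]
  exact valuation_intCast_eq_one hq hP hn

/-- functions with integral `t`-expansion having a coefficient prime to `q` are units of `V∞`. -/
theorem inv_mem_of_castE {q : ℕ} (hq : q.Prime) (hP : P.LiesOverPrime q)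
    {N : ℕ} {V : ValuationSubring (_root_.Fermat.Agent.A2.Mod.FE E N)} (hV : IsVinf P E N V)
    {f : _root_.Fermat.Agent.A2.Mod.FE E N} {g : LaurentSeries ℤ} (hfg : (f : LaurentSeries E) = castE E g)
    (hg : ∃ n : ℤ, ¬ (q : ℤ) ∣ g.coeff n) : f⁻¹ ∈ V := by
  rw [hV f⁻¹]
  have hf : (f : LaurentSeries E) = H708.incl (_root_.Fermat.Agent.A2.Mod.RE P E) (H708.castA (_root_.Fermat.Agent.A2.Mod.RE P E) g) := by
    rw [hfg, castE_eq_coeffEmb, H553.coeffEmb_castQ (P := P)]
  have hred := red_castA_ne_zero_of_not_dvd (P := P) (E := E) hq hP hg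
  have hne : H708.incl (_root_.Fermat.Agent.A2.Mod.RE P E) (H708.castA (_root_.Fermat.Agent.A2.Mod.RE P E) g) ≠ 0 :=
    H708.incl_ne_zero _ (H708.ne_zero_of_red_ne_zero _ hred)
  refine ⟨1, H708.castA (_root_.Fermat.Agent.A2.Mod.RE P E) g, hred, ?_, ?_⟩
  · rw [← hf]
    exact f.2
  · rw [IntermediateField.coe_inv, hf, inv_mul_cancel₀ hne, map_one]

/-! ### Rank one -/

theorem arch_RE [IsDiscreteValuationRing (_root_.Fermat.Agent.A2.Mod.RE P E)] {w : _root_.Fermat.Agent.A2.Mod.RE P E} (hw : Irreducible w) (c : E) :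
    ∃ k : ℕ, (w : E) ^ k * c ∈ _root_.Fermat.Agent.A2.Mod.RE P E := by
  rcases (_root_.Fermat.Agent.A2.Mod.RE P E).mem_or_inv_mem c with hc | hc
  · exact ⟨0, by simpa using hc⟩
  · by_cases hc0 : c = 0
    · exact ⟨0, by rw [hc0, mul_zero]; exact zero_mem _⟩
    have hne : (⟨c⁻¹, hc⟩ : _root_.Fermat.Agent.A2.Mod.RE P E) ≠ 0 := by
      intro h
      exact inv_ne_zero hc0 (congrArg Subtype.val h)
    obtain ⟨n, u, hu⟩ := IsDiscreteValuationRing.eq_unit_mul_pow_irreducible hne hw
    have h1 : c⁻¹ = ((u : _root_.Fermat.Agent.A2.Mod.RE P E) : E) * (w : E) ^ n := by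
      have := congrArg Subtype.val hu
      simpa using this
    have hu0 : ((u : _root_.Fermat.Agent.A2.Mod.RE P E) : E) ≠ 0 := fun h => u.ne_zero (Subtype.ext h)
    have hw0 : (w : E) ≠ 0 := fun h => hw.ne_zero (Subtype.ext h)
    refine ⟨n, ?_⟩
    have h2 : (w : E) ^ n * c = (((u⁻¹ : (_root_.Fermat.Agent.A2.Mod.RE P E)ˣ) : _root_.Fermat.Agent.A2.Mod.RE P E) : E) := by
      have h3 : ((u : _root_.Fermat.Agent.A2.Mod.RE P E) : E) * (((u⁻¹ : (_root_.Fermat.Agent.A2.Mod.RE P E)ˣ) : _root_.Fermat.Agent.A2.Mod.RE P E) : E) = 1 := by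
        have h5 := congrArg (_root_.Fermat.Agent.A2.Mod.RE P E).subtype u.mul_inv
        rw [map_mul, map_one] at h5
        exact h5
      have h4 : c = (((u : _root_.Fermat.Agent.A2.Mod.RE P E) : E) * (w : E) ^ n)⁻¹ := by rw [← h1, inv_inv]
      rw [h4]
      field_simp
      linear_combination -h3
    rw [h2]
    exact ((u⁻¹ : (_root_.Fermat.Agent.A2.Mod.RE P E)ˣ) : _root_.Fermat.Agent.A2.Mod.RE P E).2

theorem cE_mem_vinf {N : ℕ} {V : ValuationSubring (_root_.Fermat.Agent.A2.Mod.FE E N)} (hV : IsVinf P E N V) (r : _root_.Fermat.Agent.A2.Mod.RE P E) :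
    cE P E N r ∈ V := by
  rw [hV]
  exact (H378.isGaussInt_cst_iff (_root_.Fermat.Agent.A2.Mod.RE P E) _ (r : E)).mpr r.2

/-- `V∞` has rank one. -/
theorem arch_vinf [IsDiscreteValuationRing (_root_.Fermat.Agent.A2.Mod.RE P E)] {w : _root_.Fermat.Agent.A2.Mod.RE P E} (hw : Irreducible w)
    {N : ℕ} {V : ValuationSubring (_root_.Fermat.Agent.A2.Mod.FE E N)} (hV : IsVinf P E N V) (f : _root_.Fermat.Agent.A2.Mod.FE E N) :
    ∃ k : ℕ, (cE P E N w) ^ k * f ∈ V := by
  by_cases hf : f = 0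
  · exact ⟨0, by rw [hf, mul_zero]; exact zero_mem _⟩
  obtain ⟨c, hc0, hu⟩ := H553.exists_const_mul_unit P E hV hf
  obtain ⟨k, hk⟩ := arch_RE hw c
  refine ⟨k, ?_⟩
  have hcF : algebraMap E (_root_.Fermat.Agent.A2.Mod.FE E N) c ≠ 0 :=
    (map_ne_zero_iff _ (algebraMap E (_root_.Fermat.Agent.A2.Mod.FE E N)).injective).mpr hc0
  have h1 : (cE P E N w) ^ k * f =
      (f * (algebraMap E (_root_.Fermat.Agent.A2.Mod.FE E N) c)⁻¹) * cE P E N ⟨(w : E) ^ k * c, hk⟩ := by
    have : cE P E N ⟨(w : E) ^ k * c, hk⟩ = (cE P E N w) ^ k * algebraMap E (_root_.Fermat.Agent.A2.Mod.FE E N) c := by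
      simp only [cE, map_mul, map_pow]
    rw [this]
    field_simp
  rw [h1]
  exact mul_mem ((V.valuation_le_one_iff _).mp hu.le) (cE_mem_vinf hV _)

/-! ### Lifting polynomials -/

/-- the expansion map `V∞ → E((t))`. -/
def valV {N : ℕ} (V : ValuationSubring (_root_.Fermat.Agent.A2.Mod.FE E N)) : V →+* LaurentSeries E :=
  (H378.valHom E N).comp V.subtype

theorem valV_apply {N : ℕ} (V : ValuationSubring (_root_.Fermat.Agent.A2.Mod.FE E N)) (x : V) :
    valV V x = ((x : _root_.Fermat.Agent.A2.Mod.FE E N) : LaurentSeries E) := rfl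

theorem valV_injective {N : ℕ} (V : ValuationSubring (_root_.Fermat.Agent.A2.Mod.FE E N)) : Function.Injective (valV V) := by
  intro a b h
  exact Subtype.ext (Subtype.ext h)

/-- polynomials over `ℤ((t))` with coefficients in `F_N` lift to `V∞[X]`. -/
theorem exists_lift_poly {N : ℕ} {V : ValuationSubring (_root_.Fermat.Agent.A2.Mod.FE E N)} (hV : IsVinf P E N V)
    (Q : (LaurentSeries ℤ)[X]) (hQ : ∀ i, castE E (Q.coeff i) ∈ _root_.Fermat.Agent.A2.Mod.FE E N) :
    ∃ Q' : V[X], Q'.map (valV V) = Q.map (castE E) := by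
  have h : Q.map (castE E) ∈ Polynomial.lifts (valV V) := by
    rw [Polynomial.lifts_iff_coeff_lifts]
    intro n
    rw [Polynomial.coeff_map]
    exact ⟨⟨⟨castE E (Q.coeff n), hQ n⟩, mem_of_castE hV rfl⟩, rfl⟩
  exact (Polynomial.mem_lifts _).mp h

theorem exists_lift {N : ℕ} {V : ValuationSubring (_root_.Fermat.Agent.A2.Mod.FE E N)} (hV : IsVinf P E N V)
    (g : LaurentSeries ℤ) (hg : castE E g ∈ _root_.Fermat.Agent.A2.Mod.FE E N) :
    ∃ x : V, valV V x = castE E g :=
  ⟨⟨⟨castE E g, hg⟩, mem_of_castE hV rfl⟩, rfl⟩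

/-! ### `V∞_{Nq}` lies over `V∞_N` along `α` and `β` -/

section Over

variable {N q : ℕ} [NeZero N] [NeZero q]

theorem alpha_mem_iff' [IsDiscreteValuationRing (_root_.Fermat.Agent.A2.Mod.RE P E)] {VN : ValuationSubring (_root_.Fermat.Agent.A2.Mod.FE E N)}
    {V : ValuationSubring (_root_.Fermat.Agent.A2.Mod.FE E (N * q))} (hVN : IsVinf P E N VN) (hV : IsVinf P E (N * q) V)
    (g : _root_.Fermat.Agent.A2.Mod.FE E N) : αE E N q g ∈ V ↔ g ∈ VN := by
  rw [hV (αE E N q g), hVN g, coe_heckeAlphaBar]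
  constructor
  · exact H378.isGaussInt_descend (_root_.Fermat.Agent.A2.Mod.RE P E) (H708.intGen_full N)
      (H708.attainsMax_of_isNoetherianRing _ _) (H378.FE_le E N q) g.2
  · exact H378.isGaussInt_mono (_root_.Fermat.Agent.A2.Mod.RE P E) (H378.FE_le E N q)

theorem incl_qExpand (U : LaurentSeries (_root_.Fermat.Agent.A2.Mod.RE P E)) :
    H708.incl (_root_.Fermat.Agent.A2.Mod.RE P E) (qExpand (_root_.Fermat.Agent.A2.Mod.RE P E) q U) = qExpand E q (H708.incl (_root_.Fermat.Agent.A2.Mod.RE P E) U) :=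
  coeffMap_qExpand _ q U

theorem red_qExpand_ne_zero {U : LaurentSeries (_root_.Fermat.Agent.A2.Mod.RE P E)} (hU : H708.red (_root_.Fermat.Agent.A2.Mod.RE P E) U ≠ 0) :
    H708.red (_root_.Fermat.Agent.A2.Mod.RE P E) (qExpand (_root_.Fermat.Agent.A2.Mod.RE P E) q U) ≠ 0 := by
  intro h
  apply hU
  have h1 : H708.red (_root_.Fermat.Agent.A2.Mod.RE P E) (qExpand (_root_.Fermat.Agent.A2.Mod.RE P E) q U) =
      qExpand _ q (H708.red (_root_.Fermat.Agent.A2.Mod.RE P E) U) := coeffMap_qExpand _ q U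
  rw [h1] at h
  exact qExpand_injective q (h.trans (map_zero _).symm)

theorem qExpand_mem_FE {x : LaurentSeries E} (hx : x ∈ _root_.Fermat.Agent.A2.Mod.FE E N) :
    qExpand E q x ∈ _root_.Fermat.Agent.A2.Mod.FE E (N * q) := by
  have h := (βE E N q ⟨x, hx⟩).2
  rwa [coe_heckeBetaBar] at h

theorem qExpand_cst (c : E) : qExpand E q (H708.cst c) = H708.cst c :=
  (qExpandAlgHomC E q).commutes c

theorem beta_mem_iff' [IsDiscreteValuationRing (_root_.Fermat.Agent.A2.Mod.RE P E)] {VN : ValuationSubring (_root_.Fermat.Agent.A2.Mod.FE E N)}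
    {V : ValuationSubring (_root_.Fermat.Agent.A2.Mod.FE E (N * q))} (hVN : IsVinf P E N VN) (hV : IsVinf P E (N * q) V)
    (g : _root_.Fermat.Agent.A2.Mod.FE E N) : βE E N q g ∈ V ↔ g ∈ VN := by
  rw [hV (βE E N q g), hVN g, coe_heckeBetaBar]
  by_cases hg0 : (g : LaurentSeries E) = 0
  · rw [hg0, map_zero]
    exact ⟨fun _ => H708.IsGaussInt.zero, fun _ => H708.IsGaussInt.zero⟩
  obtain ⟨c, U₁, U₂, hc, h₁, h₂, hm₁, hm₂, he⟩ :=
    H708.exists_normal_form (H708.intGen_full N)
      (H708.attainsMax_of_isNoetherianRing (_root_.Fermat.Agent.A2.Mod.RE P E) _) g.2 hg0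
  have he' : qExpand E q (g : LaurentSeries E) * H708.incl (_root_.Fermat.Agent.A2.Mod.RE P E) (qExpand (_root_.Fermat.Agent.A2.Mod.RE P E) q U₂) =
      H708.cst c * H708.incl (_root_.Fermat.Agent.A2.Mod.RE P E) (qExpand (_root_.Fermat.Agent.A2.Mod.RE P E) q U₁) := by
    rw [incl_qExpand, incl_qExpand, ← map_mul, he, map_mul, qExpand_cst]
  have hm₂' : H708.incl (_root_.Fermat.Agent.A2.Mod.RE P E) (qExpand (_root_.Fermat.Agent.A2.Mod.RE P E) q U₂) ∈ _root_.Fermat.Agent.A2.Mod.FE E (N * q) := by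
    rw [incl_qExpand]
    exact qExpand_mem_FE hm₂
  rw [H708.isGaussInt_iff_of_normal_form (red_qExpand_ne_zero h₁) (red_qExpand_ne_zero h₂) hm₂' he',
    H708.isGaussInt_iff_of_normal_form h₁ h₂ hm₂ he]

end Over

end Gauss

end Fermat.Agent.S36.H972

end

end
-- ===== PACK-END S36/H972/Mod3Base.lean

-- ===== PACK-BEGIN S36/Mod3/H985/Sheet.lean
section









/-!
# S36 / MOD3 — leaf SHEET (helper985)

`leafSheet : Mod3.LeafSheet` (EXACT frozen type of `Mod3/Spec.lean`): the three valuation rings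
`V₁` (`FF`), `V₂` (`mid`), `V₃` (`VV`) of `F = F_E(M q q)` contain `R = R_E` and induce the Gauss
valuation on `R[x]`, `x = j · j_q · j_{q²}`.

* `V₁ = V∞`: L3 (`A2.Mod.H816.vinfGauss`, via `H13.isGaussOver_of_polar`), `x` is polar of order
  `1 + q + q²`;
* `V₃ = V₁.comap W`: L3 for `W x = j_{Mq²} j_{Mq} j_M`, polar of order `M q² + M q + M`;
* `V₂`: ANY valuation ring `V` of `F` with `V.comap α = V∞(M q)` (no Eisenstein data, no table):
  `j = α j` is Gauss at `V` (L3 at level `M q`), `j` is integral over `ℤ[x]` (valuative criterion,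
  `Φ_q` monic), and GAUSS-CHANGE (`GaussChange.lean`) transports the Gauss property from `j` to `x`.

Also exported (for the completeness route of QEP3 and for other leaves):
`isGaussOver_x3_of_comap`, `j1_isIntegralElem_x3`, `x3E_mem_of_j_mem`, `transcendental_x3E`.
-/

set_option autoImplicit false
set_option linter.style.haveILetI false
set_option linter.unusedSectionVars false
set_option synthInstance.maxHeartbeats 400000
set_option maxHeartbeats 1600000

noncomputable section

namespace Fermat.Agent.S36.Mod3.H985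

open ModularCurve HahnSeries Polynomial
open Fermat.Agent.A2.Mod

/-! ## Generalities -/

section General

/-- Nonunits of the pull-back of a valuation ring along a field homomorphism. -/
theorem mem_nonunits_comap_hom {F' F : Type*} [Field F'] [Field F] (V : ValuationSubring F)
    (φ : F' →+* F) (f : F') : f ∈ (V.comap φ).nonunits ↔ φ f ∈ V.nonunits := by
  rw [ValuationSubring.mem_nonunits_iff_or, ValuationSubring.mem_nonunits_iff_or,
    ValuationSubring.mem_comap]
  constructor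
  · rintro (h | h)
    · left
      rw [h, map_zero]
    · right
      intro h'
      apply h
      show φ f⁻¹ ∈ V
      rw [map_inv₀]
      exact h'
  · rintro (h | h)
    · left
      exact (map_eq_zero φ).mp h
    · right
      intro h'
      apply h
      have h'' : φ f⁻¹ ∈ V := h'
      rwa [map_inv₀] at h''

variable (E : IntermediateField ℚ Qb) {N : ℕ}

/-- a polar element is transcendental over `E` -/
theorem transcendental_of_isPolar {u : FE E N} {a : ℕ} (ha : 0 < a)
    (hu : H13.IsPolar E N u a) : Transcendental E u := by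
  obtain ⟨g, hg, e⟩ := hu
  have hc : (u : LaurentSeries E).coeff (-(a : ℤ)) ≠ 0 := by
    rw [e, H553.coeff_coeffEmb_castQ, hg.2]
    simp
  have hord : (u : LaurentSeries E).order < 0 := by
    have h1 := HahnSeries.order_le_of_coeff_ne_zero hc
    have h2 : (-(a : ℤ)) < 0 := by
      have : (0 : ℤ) < a := by exact_mod_cast ha
      omega
    exact lt_of_le_of_lt h1 h2
  have htr := H31.transcendental_of_order_neg hord
  intro halg
  exact htr ((IntermediateField.isAlgebraic_iff (S := FE E N)).mp halg)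

end General

/-! ## The modular polynomial at the level `N` -/

section ModPoly

variable (E : IntermediateField ℚ Qb) (N q : ℕ) [NeZero q]

/-- `Φ_q(X = j_{dq}; Y = j_d) = 0`: `j_{dq}` is integral over `ℤ[j_d]`. -/
theorem modPoly_up (D : S28.ModPolyData q) (d : ℕ) [NeZero d] [NeZero (d * q)] (hd : d ∣ N)
    (hdq : d * q ∣ N) :
    D.Φ.eval₂ (Polynomial.aeval (R := ℤ) (jE E N d hd)).toRingHom (jE E N (d * q) hdq) = 0 := by
  refine H873.eval₂_eq_zero_of_int E N D.Φ _ _ (qExpand ℤ (d * q) (jqModC ℤ))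
    (qExpand ℤ d (jqModC ℤ)) (H873.coe_jE_int E N (d * q) hdq) (H873.coe_jE_int E N d hd) ?_
  have h := congrArg (qExpand ℤ d) D.eval_jp
  rw [map_zero, Polynomial.hom_eval₂, qExpand_qExpand] at h
  have hcomp : (qExpand ℤ d).comp (S28.evalAt (jqModC ℤ)) =
      S28.evalAt (qExpand ℤ d (jqModC ℤ)) := by
    apply Polynomial.ringHom_ext
    · intro n
      simp [S28.evalAt]
    · simp [S28.evalAt]
  rw [hcomp] at h
  exact h

/-- `Φ_q(X = j_d; Y = j_{dq}) = 0`: `j_d` is integral over `ℤ[j_{dq}]`. -/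
theorem modPoly_down (D : S28.ModPolyData q) (d : ℕ) [NeZero d] [NeZero (d * q)] (hd : d ∣ N)
    (hdq : d * q ∣ N) :
    D.Φ.eval₂ (Polynomial.aeval (R := ℤ) (jE E N (d * q) hdq)).toRingHom (jE E N d hd) = 0 := by
  refine H873.eval₂_eq_zero_of_int E N D.Φ _ _ (qExpand ℤ d (jqModC ℤ))
    (qExpand ℤ (d * q) (jqModC ℤ)) (H873.coe_jE_int E N d hd) (H873.coe_jE_int E N (d * q) hdq) ?_
  have h := congrArg (qExpand ℤ d) D.eval_j
  rw [map_zero, Polynomial.hom_eval₂] at h
  have hcomp : (qExpand ℤ d).comp (S28.evalAt (qExpand ℤ q (jqModC ℤ))) =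
      S28.evalAt (qExpand ℤ (d * q) (jqModC ℤ)) := by
    apply Polynomial.ringHom_ext
    · intro n
      simp [S28.evalAt]
    · simp [S28.evalAt, qExpand_qExpand]
  rw [hcomp] at h
  exact h

/-- `Φ_q(X = j_e; Y = j_d) = 0` for `e = d q`. -/
theorem modPoly_up' (D : S28.ModPolyData q) (d e : ℕ) [NeZero d] [NeZero e] (hde : e = d * q)
    (hd : d ∣ N) (he : e ∣ N) :
    D.Φ.eval₂ (Polynomial.aeval (R := ℤ) (jE E N d hd)).toRingHom (jE E N e he) = 0 := by
  subst hde
  exact modPoly_up E N q D d hd he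

/-- `Φ_q(X = j_d; Y = j_e) = 0` for `e = d q`. -/
theorem modPoly_down' (D : S28.ModPolyData q) (d e : ℕ) [NeZero d] [NeZero e] (hde : e = d * q)
    (hd : d ∣ N) (he : e ∣ N) :
    D.Φ.eval₂ (Polynomial.aeval (R := ℤ) (jE E N e he)).toRingHom (jE E N d hd) = 0 := by
  subst hde
  exact modPoly_down E N q D d hd he

end ModPoly

/-! ## The coordinate `x = j · j_q · j_{q²}` -/

section Coord

variable (P : ValuationSubring A2.Qb) (E : IntermediateField ℚ A2.Qb) (M q : ℕ)
  [NeZero M] [NeZero q] [NeZero (M * q)]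

theorem isPolar_x3E : H13.IsPolar E (M * q * q) (x3E E M q) (1 + q + q * q) :=
  ((H13.isPolar_jE 1 _).mul (H13.isPolar_jE q _)).mul (H13.isPolar_jE (q * q) _)

/-- `x = j j_q j_{q²}` is transcendental over `E`. -/
theorem transcendental_x3E : Transcendental E (x3E E M q) :=
  transcendental_of_isPolar E (by omega) (isPolar_x3E E M q)

theorem isPolar_fricke_x3E {W : FE E (M * q * q) ≃ₐ[E] FE E (M * q * q)}
    (hW : IsFricke E (M * q * q) W) :
    H13.IsPolar E (M * q * q) (W (x3E E M q)) (M * q * q + M * q + M) := by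
  have h1 : W (j1 E M q) = jE E (M * q * q) (M * q * q) (dvd_refl _) :=
    hW.1 1 (M * q * q) (one_dvd _) (dvd_refl _) (one_mul _)
  have h2 : W (jq E M q) = jE E (M * q * q) (M * q) (dvd_mul_right _ _) :=
    hW.1 q (M * q) (Dvd.intro_left (M * q) rfl) (dvd_mul_right _ _) (by ring)
  have h3 : W (jqq E M q) = jE E (M * q * q) M ⟨q * q, by ring⟩ :=
    hW.1 (q * q) M ⟨M, by ring⟩ ⟨q * q, by ring⟩ (by ring)
  rw [x3E, map_mul, map_mul, h1, h2, h3]
  exact ((H13.isPolar_jE _ _).mul (H13.isPolar_jE _ _)).mul (H13.isPolar_jE _ _)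

theorem α_j1 : αE E (M * q) q (jE E (M * q) 1 (one_dvd _)) = j1 E M q :=
  H553.αE_jE E (M * q) q 1 (one_dvd _)

theorem α_jq : αE E (M * q) q (jE E (M * q) q (dvd_mul_left q M)) = jq E M q :=
  H553.αE_jE E (M * q) q q (dvd_mul_left q M)

/-- `j_{q²}` is integral over `ℤ[j_q]`. -/
theorem jqq_mem_of_jq_mem (hq : q.Prime) (V : ValuationSubring (FE E (M * q * q)))
    (h : jq E M q ∈ V) : jqq E M q ∈ V := by
  obtain ⟨D⟩ := S28.H807.nonempty_modPolyData q hq
  exact H873.mem_valuationSubring_of_monic_eval D.Φ D.monic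
    (modPoly_up' E (M * q * q) q D q (q * q) rfl (Dvd.intro_left (M * q) rfl) ⟨M, by ring⟩) V h

/-- `j_q` is integral over `ℤ[j]`. -/
theorem jq_mem_of_j1_mem (hq : q.Prime) (V : ValuationSubring (FE E (M * q * q)))
    (h : j1 E M q ∈ V) : jq E M q ∈ V := by
  obtain ⟨D⟩ := S28.H807.nonempty_modPolyData q hq
  exact H873.mem_valuationSubring_of_monic_eval D.Φ D.monic
    (modPoly_up' E (M * q * q) q D 1 q (one_mul q).symm (one_dvd _) (Dvd.intro_left (M * q) rfl))
    V h

/-- `j` is integral over `ℤ[j_q]`. -/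
theorem j1_mem_of_jq_mem (hq : q.Prime) (V : ValuationSubring (FE E (M * q * q)))
    (h : jq E M q ∈ V) : j1 E M q ∈ V := by
  obtain ⟨D⟩ := S28.H807.nonempty_modPolyData q hq
  exact H873.mem_valuationSubring_of_monic_eval D.Φ D.monic
    (modPoly_down' E (M * q * q) q D 1 q (one_mul q).symm (one_dvd _)
      (Dvd.intro_left (M * q) rfl)) V h

/-- `j_q` is integral over `ℤ[j_{q²}]`. -/
theorem jq_mem_of_jqq_mem (hq : q.Prime) (V : ValuationSubring (FE E (M * q * q)))
    (h : jqq E M q ∈ V) : jq E M q ∈ V := by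
  obtain ⟨D⟩ := S28.H807.nonempty_modPolyData q hq
  exact H873.mem_valuationSubring_of_monic_eval D.Φ D.monic
    (modPoly_down' E (M * q * q) q D q (q * q) rfl (Dvd.intro_left (M * q) rfl) ⟨M, by ring⟩) V h

/-- `x ∈ V` as soon as `j ∈ V`. -/
theorem x3E_mem_of_j_mem (hq : q.Prime) (V : ValuationSubring (FE E (M * q * q)))
    (h : j1 E M q ∈ V) : x3E E M q ∈ V := by
  have h2 := jq_mem_of_j1_mem E M q hq V h
  exact V.mul_mem _ _ (V.mul_mem _ _ h h2) (jqq_mem_of_jq_mem E M q hq V h2)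

/-- valuative criterion: a valuation ring containing `x = j j_q j_{q²}` contains `j`. -/
theorem j1_mem_of_x3E_mem (hq : q.Prime) (V : ValuationSubring (FE E (M * q * q)))
    (hx : x3E E M q ∈ V) : j1 E M q ∈ V := by
  by_contra h1
  have h1i : (j1 E M q)⁻¹ ∈ V := (V.mem_or_inv_mem _).resolve_left h1
  have hq' : jq E M q ∉ V := fun h => h1 (j1_mem_of_jq_mem E M q hq V h)
  have hqi : (jq E M q)⁻¹ ∈ V := (V.mem_or_inv_mem _).resolve_left hq'
  have hqq : jqq E M q ∉ V := fun h => hq' (jq_mem_of_jqq_mem E M q hq V h)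
  apply hqq
  have hj0 : j1 E M q ≠ 0 := H873.jE_ne_zero E (M * q * q) 1 (one_dvd _)
  have hq0 : jq E M q ≠ 0 := H873.jE_ne_zero E (M * q * q) q (Dvd.intro_left (M * q) rfl)
  have e : jqq E M q = x3E E M q * (j1 E M q)⁻¹ * (jq E M q)⁻¹ := by
    rw [x3E]
    field_simp
  rw [e]
  exact V.mul_mem _ _ (V.mul_mem _ _ hx h1i) hqi

/-- … and `j_q`, `j_{q²}`. -/
theorem jq_mem_of_x3E_mem (hq : q.Prime) (V : ValuationSubring (FE E (M * q * q)))
    (hx : x3E E M q ∈ V) : jq E M q ∈ V :=
  jq_mem_of_j1_mem E M q hq V (j1_mem_of_x3E_mem E M q hq V hx)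

theorem jqq_mem_of_x3E_mem (hq : q.Prime) (V : ValuationSubring (FE E (M * q * q)))
    (hx : x3E E M q ∈ V) : jqq E M q ∈ V :=
  jqq_mem_of_jq_mem E M q hq V (jq_mem_of_x3E_mem E M q hq V hx)

/-- `j` is integral over `R[x]`, `x = j j_q j_{q²}`. -/
theorem j1_isIntegralElem_x3 (hq : q.Prime) :
    ∃ G : Polynomial (Polynomial (RE P E)), G.Monic ∧
      G.eval₂ (Polynomial.eval₂RingHom (algebraMap (RE P E) (FE E (M * q * q))) (x3E E M q))
        (j1 E M q) = 0 :=
  H873.isIntegralElem_of_isIntegral_closure _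
    (H873.isIntegral_closure_of_forall_valuationSubring (j1_mem_of_x3E_mem E M q hq))

end Coord

/-! ## The Gauss property of the three valuation rings -/

section Gauss

variable (P : ValuationSubring A2.Qb) (E : IntermediateField ℚ A2.Qb) (M q : ℕ)
  [NeZero M] [NeZero q] [NeZero (M * q)] [IsDiscreteValuationRing (RE P E)]

/-- `V₁ = V∞` is Gauss for `x`. -/
theorem isGaussOver_x3_vinf {w : RE P E} (hw : Irreducible w)
    {V : ValuationSubring (FE E (M * q * q))} (hV : IsVinf P E (M * q * q) V) :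
    A2.H489.IsGaussOver (RE P E) V (x3E E M q) :=
  H13.isGaussOver_of_polar hV hw (NeZero.ne _) (by omega) (isPolar_x3E E M q)
    (H13.transcendental_RE (transcendental_x3E E M q))

/-- `V₃ = V∞ ∘ W` is Gauss for `x`. -/
theorem isGaussOver_x3_vzero {w : RE P E} (hw : Irreducible w)
    {V : ValuationSubring (FE E (M * q * q))} (hV : IsVinf P E (M * q * q) V)
    {W : FE E (M * q * q) ≃ₐ[E] FE E (M * q * q)} (hW : IsFricke E (M * q * q) W) :
    A2.H489.IsGaussOver (RE P E)
      (V.comap (W : FE E (M * q * q) →+* FE E (M * q * q))) (x3E E M q) :=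
  H13.isGaussOver_comap hV W
    (H13.isGaussOver_of_polar hV hw (NeZero.ne _)
      (Nat.add_pos_right _ (Nat.pos_of_ne_zero (NeZero.ne M)))
      (isPolar_fricke_x3E E M q hW)
      (H13.transcendental_RE (H13.transcendental_algEquiv W (transcendental_x3E E M q))))

theorem α_algebraMap_RE (r : RE P E) :
    (αE E (M * q) q : FE E (M * q) →+* FE E (M * q * q)) (algebraMap (RE P E) (FE E (M * q)) r) =
      algebraMap (RE P E) (FE E (M * q * q)) r := by
  rw [H13.algebraMap_RE_eq, H13.algebraMap_RE_eq]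
  exact (αE E (M * q) q).commutes _

/-- a valuation ring of `F` over `V∞(M q)` (along `α`) lies over `R`. -/
theorem isOver_of_comap {V' : ValuationSubring (FE E (M * q))} (hV' : IsVinf P E (M * q) V')
    {V : ValuationSubring (FE E (M * q * q))}
    (hcomap : V.comap (αE E (M * q) q : FE E (M * q) →+* FE E (M * q * q)) = V') :
    A2.H489.IsOver (RE P E) V where
  mem := fun r => by
    have h := (H13.isOver_of_isVinf hV').mem r
    rw [← hcomap, ValuationSubring.mem_comap, α_algebraMap_RE] at h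
    exact h
  nonunit := fun r hr => by
    have h := (H13.isOver_of_isVinf hV').nonunit r hr
    rw [← hcomap, mem_nonunits_comap_hom, α_algebraMap_RE] at h
    exact h

/-- `j` is Gauss at every valuation ring of `F` over `V∞(M q)`. -/
theorem isGaussOver_j1_of_comap {w : RE P E} (hw : Irreducible w)
    {V' : ValuationSubring (FE E (M * q))} (hV' : IsVinf P E (M * q) V')
    {V : ValuationSubring (FE E (M * q * q))}
    (hcomap : V.comap (αE E (M * q) q : FE E (M * q) →+* FE E (M * q * q)) = V') :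
    A2.H489.IsGaussOver (RE P E) V (j1 E M q) := by
  have hG' : A2.H489.IsGaussOver (RE P E) V' (jE E (M * q) 1 (one_dvd _)) :=
    H13.isGaussOver_of_polar hV' hw (NeZero.ne _) one_pos (H13.isPolar_jE 1 (one_dvd _))
      (H13.transcendental_RE (transcendental_of_isPolar E one_pos (H13.isPolar_jE 1 (one_dvd _))))
  refine ⟨isOver_of_comap P E M q hV' hcomap, ?_, ?_⟩
  · have h := hG'.mem
    rw [← hcomap, ValuationSubring.mem_comap] at h
    have e : (αE E (M * q) q : FE E (M * q) →+* FE E (M * q * q))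
        (jE E (M * q) 1 (one_dvd _)) = j1 E M q := α_j1 E M q
    rw [e] at h
    exact h
  · intro Q hQ
    apply hG'.prim Q
    rw [← hcomap, mem_nonunits_comap_hom]
    have e : (αE E (M * q) q : FE E (M * q) →+* FE E (M * q * q))
        (aeval (jE E (M * q) 1 (one_dvd _)) Q) = aeval (j1 E M q) Q := by
      have h1 := Polynomial.aeval_algHom_apply ((αE E (M * q) q).restrictScalars (RE P E))
        (jE E (M * q) 1 (one_dvd _)) Q
      have h2 : ((αE E (M * q) q).restrictScalars (RE P E)) (jE E (M * q) 1 (one_dvd _)) =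
          j1 E M q := α_j1 E M q
      rw [h2] at h1
      exact h1.symm
    rw [e]
    exact hQ

/-- **`x = j j_q j_{q²}` is Gauss at EVERY valuation ring of `F` over `V∞(M q)` along `α`**
(in particular at `V₁` and at the middle valuation ring `V₂`). -/
theorem isGaussOver_x3_of_comap (hq : q.Prime) {w : RE P E} (hw : Irreducible w)
    {V' : ValuationSubring (FE E (M * q))} (hV' : IsVinf P E (M * q) V')
    {V : ValuationSubring (FE E (M * q * q))}
    (hcomap : V.comap (αE E (M * q) q : FE E (M * q) →+* FE E (M * q * q)) = V') :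
    A2.H489.IsGaussOver (RE P E) V (x3E E M q) := by
  have hj := isGaussOver_j1_of_comap P E M q hw hV' hcomap
  exact isGaussOver_of_isIntegralElem hj (x3E_mem_of_j_mem E M q hq V hj.mem)
    (j1_isIntegralElem_x3 P E M q hq)

end Gauss

/-! ## The leaf -/

/-- **SHEET (leaf)**, exact frozen type. -/
theorem leafSheet : Mod3.LeafSheet := by
  intro P E M q _ _ _ w hS V₁' V₂' V₁ V₂ V₃ W' W hO
  haveI : IsDiscreteValuationRing (RE P E) := hS.unram.1.dvr
  have hmax : IsLocalRing.maximalIdeal (RE P E) = Ideal.span {w} := hS.unif.maximalIdeal_eq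
  have hG₁ : A2.H489.IsGaussOver (RE P E) V₁ (x3E E M q) :=
    isGaussOver_x3_vinf P E M q hS.unif hO.vinf
  have hG₂ : A2.H489.IsGaussOver (RE P E) V₂ (x3E E M q) :=
    isGaussOver_x3_of_comap P E M q hS.q_prime hS.unif hO.vinf' hO.mid
  have hG₃ : A2.H489.IsGaussOver (RE P E) V₃ (x3E E M q) := by
    rw [hO.vzero]
    exact isGaussOver_x3_vzero P E M q hS.unif hO.vinf hO.fricke
  exact ⟨hG₁.isOver.mem, hG₂.isOver.mem, hG₃.isOver.mem,
    inv_aeval_mem_of_isGaussOver hG₁ hmax, inv_aeval_mem_of_isGaussOver hG₂ hmax,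
    inv_aeval_mem_of_isGaussOver hG₃ hmax⟩

end Fermat.Agent.S36.Mod3.H985

end

end
-- ===== PACK-END S36/Mod3/H985/Sheet.lean

-- ===== PACK-BEGIN S36/Mod3/H27/SheetsLow.lean
section







/-!
# S36 / MOD3, leaf QEP (helper27): the sheets of level `M q` (concrete)

`sheets_low` : at level `M q` (`q ∤ M`), coordinate `x' = j j_q`, every sheet is `V∞` or
`V₀ = V∞ ∘ W` (from the sub-assembly S1 of cell A2: `p∞ ⊓ p₀ = (w)`).
-/

set_option autoImplicit false
set_option linter.style.haveILetI false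
set_option linter.unusedSectionVars false
set_option synthInstance.maxHeartbeats 400000
set_option maxHeartbeats 1600000

noncomputable section

namespace Fermat.Agent.S36.Mod3.H27

open Polynomial ModularCurve
open Fermat.Agent.A2.H12 (IsSheet)
open Fermat.Agent.S18.H138
open Fermat.Agent.A2.Mod

section GaussSheet

universe u

variable {R : Type u} [CommRing R] [IsDomain R] [IsDiscreteValuationRing R]
  {F : Type u} [Field F] [Algebra R F]

/-- `IsGaussOver` (vocabulary of `A2/H489`) gives `IsSheet` (vocabulary of `A2/H12`). -/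
theorem isSheet_of_isGaussOver {w : R} (hw : Irreducible w) {V : ValuationSubring F} {x : F}
    (h : Fermat.Agent.A2.H489.IsGaussOver R V x) : IsSheet w x V := by
  refine ⟨h.isOver.mem, h.mem, h.isOver.nonunit w ?_, fun P hP => ?_⟩
  · rw [IsLocalRing.mem_maximalIdeal, mem_nonunits_iff]
    exact hw.not_isUnit
  · apply h.inv_aeval_mem
    intro h0
    obtain ⟨i, hi⟩ := hP
    apply hi
    have hd : C w ∣ P := by
      obtain ⟨P', hP'⟩ := Fermat.Agent.A2.H489.exists_eq_C_mul_of_map_residue_eq_zero hw h0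
      exact ⟨P', hP'⟩
    exact (Polynomial.C_dvd_iff_dvd_coeff _ _).1 hd i

end GaussSheet

section Low

variable {P : ValuationSubring Qb} {E : IntermediateField ℚ Qb} {M q : ℕ} [NeZero M] [NeZero q]
  {w : RE P E}

theorem algebraMap_RE_injective (N : ℕ) :
    Function.Injective (algebraMap (RE P E) (FE E N)) := by
  intro a b hab
  have h1 : algebraMap E (FE E N) (a : E) = algebraMap E (FE E N) (b : E) := hab
  exact Subtype.ext ((algebraMap E (FE E N)).injective h1)

/-- **The sheets of level `M q`** are `V∞` and `V₀`. -/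
theorem sheets_low (hS : Setting P E M q w) {V : ValuationSubring (FE E (M * q))}
    {W : FE E (M * q) ≃ₐ[E] FE E (M * q)} (hV : IsVinf P E (M * q) V)
    (hW : IsFricke E (M * q) W) :
    ∀ V' : ValuationSubring (FE E (M * q)), IsSheet w (xE E M q) V' →
      V' = V ∨ V' = V.comap (W : FE E (M * q) →+* FE E (M * q)) := by
  haveI := hS.dvr
  obtain ⟨htr, hfr, -⟩ := H31.deg E M q hS.q_prime hS.q_not_dvd
  have hs1 := H13.s1 (H553.vzeroNe P E M q w) (H31.deg E M q) (H753.indInf P E M q w)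
    (H753.indZero P E M q w) hS V W hV hW (xE E M q) (Or.inl rfl)
  obtain ⟨p₁, p₂, hc₁, hc₂, hp₁, hp₂, -, -, hinf⟩ := hs1
  have hG₁ := H13.isGaussOver_xE hS.unif hV htr
  have hG₂ := H13.isGaussOver_comap_xE hS.unif hV hW htr
  have hxR : Transcendental (RE P E) (xE E M q) := H13.transcendental_RE htr
  haveI : FiniteDimensional (IntermediateField.adjoin E ({xE E M q} : Set (FE E (M * q))))
      (FE E (M * q)) := Module.finite_of_finrank_pos (by
        rw [hfr]
        have := dedekindPsi_pos_of_ne_zero M (NeZero.ne M)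
        positivity)
  haveI : FiniteDimensional (baseField (RE P E) (xE E M q)) (FE E (M * q)) :=
    Fermat.Agent.A2.H313.finiteDimensional_baseField_of_adjoin E (xE E M q)
  exact complete_of_inf_eq (algebraMap_RE_injective (M * q)) hS.unif.prime hxR V
    (V.comap (W : FE E (M * q) →+* FE E (M * q)))
    (isSheet_of_isGaussOver hS.unif hG₁) (isSheet_of_isGaussOver hS.unif hG₂)
    p₁ p₂ hp₁ hp₂ hinf (fun b hb => (hc₁ b).1 hb) (fun b hb => (hc₂ b).1 hb)

end Low

end Fermat.Agent.S36.Mod3.H27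

end

end
-- ===== PACK-END S36/Mod3/H27/SheetsLow.lean

-- ===== PACK-BEGIN A3/H799/LocalFinal.lean
section









/-!
# A3 / LOCAL — `LocalStatement` from the single remaining leaf DET  (helper799)

All other leaves are on main: DISC (`H75.discStatement`), DISC-I (`H555.discEquivStatement`),
NSP (`H255.nspStatement`), COORD (`H255.coordStatement`), GEO (`H255.Geo.geoStatement`),
KER-I (`H555.kerInertiaStatement`), LIFTI (`H555.liftiStatement_of_disc`).
-/

set_option autoImplicit false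

open AlgebraicCurve

namespace Fermat.Agent.A3.H799

universe u₁ u₂ u₃ u₄

variable {K : Type u₁} {F : Type u₂} {k : Type u₃} {Fk : Type u₄}
  [Field K] [Field F] [Algebra K F] [Field k] [Field Fk] [Algebra k Fk]

/-- ZADD from DET. -/
theorem zaddStatement_of_det.{w} (hdet : DetStatement K F k Fk) :
    ZaddStatement.{u₁, u₂, u₃, u₄, w} K F k Fk :=
  zadd_of H255.coordStatement
    (ztri_of_zgen (zgen_of H255.Geo.geoStatement hdet))
    (zneg_of_zgen (zgen_of H255.Geo.geoStatement hdet))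

/-- CHART from DET. -/
theorem chartStatement_of_det.{w} [IsAlgClosed k] (hdet : DetStatement K F k Fk) :
    ChartStatement.{u₁, u₂, u₃, u₄, w} K F k Fk :=
  chart_of H255.nspStatement (H75.discStatement K F k Fk) H555.discEquivStatement
    H255.coordStatement (zaddStatement_of_det hdet)

/-- **`LocalStatement` from DET.** -/
theorem localStatement_of_det [IsAlgClosed K] [IsAlgClosed k] [CharZero K]
    (hdet : DetStatement K F k Fk) : LocalStatement K F k Fk :=
  local_of_chart (chartStatement_of_det hdet) H555.kerInertiaStatement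
    (H555.liftiStatement_of_disc (H75.discStatement K F k Fk) H555.discEquivStatement)

end Fermat.Agent.A3.H799

end
-- ===== PACK-END A3/H799/LocalFinal.lean

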