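import Fermat.Prelude.Thm_ModularCurve_coeffMap_qExpand
import Mathlib
import Fermat.Agent.Pack.S43MC.G0E23L0
import Fermat.Agent.Pack.S44C.G0E25L1
import Fermat.Agent.Pack.S43MC.G0E23L3
import Fermat.Agent.Pack.S44C.G0E25L0
import Fermat.Agent.Pack.S44C.G0E21L2
import Fermat.Agent.Pack.S44C.G0E23L3
import Fermat.Agent.Pack.S44C.G0E26L0
import Fermat.Agent.Pack.S44C.G0E19L0
import Fermat.Agent.Pack.S44C.G0E15L0
import Fermat.Agent.Pack.S44C.G0E24L3
import Fermat.Agent.Pack.S43MC.G0E23L1
import Fermat.Agent.Pack.S43MC.G0E8L0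
import Fermat.Agent.Pack.S44C.G0E23L2
import Fermat.Agent.Pack.S44C.G0E8L0
import Fermat.Agent.Pack.S44C.G0E25L2
import Fermat.Agent.Pack.S43MC.G0E12L0
import Fermat.Agent.Pack.S43MC.G0E14L0
import Fermat.Agent.Pack.S44C.G0E12L3
import Fermat.Agent.Pack.S44C.G0E24L1
import Fermat.Agent.Pack.S44C.G0E22L1
import Fermat.Agent.Pack.S44C.G0E20L0
import Fermat.Agent.Pack.S44C.G0E14L0
import Fermat.Agent.Pack.S44C.G0E18L0
import Fermat.Agent.Pack.S43MC.G0E19L3
import Fermat.Agent.Pack.S44C.G0E12L2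
import Fermat.Agent.Pack.S44C.G0E25L3
import Fermat.Agent.Pack.S43MC.G0E15L3
import Fermat.Agent.Pack.S43MC.G0E7L3
import Fermat.Agent.Pack.S43MC.G0E23L2
import Fermat.Agent.Pack.S43MC.G0E19L0
import Fermat.Agent.Pack.Fast891

-- ===== PACK-BEGIN A2/Top/H96/WallNoSep.lean
section











/-!
# WALL A2 — the wall WITHOUT `SepCoord` (helper96; insurance against MODASM S4)

`Top.H994.wall` needs `AlgSSStatement` + `IFStatement` + `ModSSGoodStatement` + `D2Statement`,
and `ModSSGoodStatement` (frozen `ModSSData`) contains the two `SepCoord` fields, i.e. MODASM S4.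
Route S of ALG never uses `SepCoord`.  This file closes the wall from

* `S2` (`Mod.S2Statement`, components normal),
* `S3` (`Mod.S3Statement`, ordinary double points),
* `GOODRED` (`Top.H994.GoodRedStatement`)

ONLY; everything else is plugged in from main: ALG (`algSS_noSep`), IF (`IF.H429.ifStatement`),
D2 (`H876.d2Statement`), L1/L2/L4/L6 (`Mod.H553`, `Mod.H751`), L8 (`Mod.H31.deg`),
L9/L10 (`Mod.H753`), S1 (`Mod.H13.s1`), Sτ (`Mod.H751.stau_of_s1`), T0 (`T0.H669`).

* `ModelNoSep P E N`     : the semistable two-chart model without `SepCoord`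
                           (= conclusion of `Mod.exists_model_of_parts`);
* `t1_perN_noSep`        : IF + (`ModelNoSep` at the level `N`) ⟹ `KummerTarget N q m`;
* `modelNoSep_of_parts`  : S2 + S3 + GOODRED ⟹ `ModelNoSep` at the levels with the auxiliary
                           prime;
* `kummerTarget_noSep`, `wall_noSep` : S2 + S3 + GOODRED ⟹ `KummerTarget N q m`, `Target N q m`
                           for all `q ‖ N`, `q ∤ m`.
-/

set_option autoImplicit false
set_option linter.unusedSectionVars false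
set_option linter.style.haveILetI false
set_option synthInstance.maxHeartbeats 400000
set_option maxHeartbeats 1600000

noncomputable section

namespace Fermat.Agent.A2.Top.H96

open ModularCurve AlgebraicCurve Fermat.Agent.A2 Fermat.Agent.A2.T1.H669
  Fermat.Agent.A2.Top.H994

/-- The semistable two-chart model of `X₀(N)` over `R_E` WITHOUT separating coordinate
(`ModSSData` minus the fields `sf`, `si`; the inertia hypotheses are stated for ANY automorphism
`τE` of `E` compatible with `τ`).  This is the conclusion of `Mod.exists_model_of_parts`. -/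
def ModelNoSep (P : ValuationSubring _root_.Fermat.Agent.A2.Qb) (E : IntermediateField ℚ _root_.Fermat.Agent.A2.Qb) (N : ℕ) : Prop :=
  ∃ (x : FE E N) (Bf Bi : Subalgebra (RE P E) (FE E N)),
    Transcendental E x ∧
    FiniteDimensional (IntermediateField.adjoin E ({x} : Set (FE E N))) (FE E N) ∧
    (∀ f : FE E N, IsAlgebraic E f → f ∈ (algebraMap E (FE E N)).range) ∧
    (∀ f : FE E N, f ∈ Bf ↔
      IsIntegral (Algebra.adjoin (RE P E) ({x} : Set (FE E N))) f) ∧
    (∀ f : FE E N, f ∈ Bi ↔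
      IsIntegral (Algebra.adjoin (RE P E) ({x⁻¹} : Set (FE E N))) f) ∧
    (∀ w : RE P E, Irreducible w → Nonempty (SSChart w Bf)) ∧
    (∀ w : RE P E, Irreducible w → Nonempty (SSChart w Bi)) ∧
    (∀ τ ∈ P.inertiaSubgroupIn ℚ, ∀ τE : E ≃ₐ[ℚ] E,
      (∀ e : E, ((τE e : E) : _root_.Fermat.Agent.A2.Qb) = τ (e : _root_.Fermat.Agent.A2.Qb)) →
      arithmeticRingAut (modularFunctionFieldFull N) τE x = x) ∧
    (∀ τ ∈ P.inertiaSubgroupIn ℚ, ∀ τE : E ≃ₐ[ℚ] E,
      (∀ e : E, ((τE e : E) : _root_.Fermat.Agent.A2.Qb) = τ (e : _root_.Fermat.Agent.A2.Qb)) →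
      ∀ w : RE P E, Irreducible w → ∀ b ∈ Bf, ∃ c ∈ Bf,
        arithmeticRingAut (modularFunctionFieldFull N) τE b - b =
          algebraMap (RE P E) (FE E N) w * c) ∧
    (∀ τ ∈ P.inertiaSubgroupIn ℚ, ∀ τE : E ≃ₐ[ℚ] E,
      (∀ e : E, ((τE e : E) : _root_.Fermat.Agent.A2.Qb) = τ (e : _root_.Fermat.Agent.A2.Qb)) →
      ∀ w : RE P E, Irreducible w → ∀ b ∈ Bi, ∃ c ∈ Bi,
        arithmeticRingAut (modularFunctionFieldFull N) τE b - b =
          algebraMap (RE P E) (FE E N) w * c)

/-- A `ModSSData` gives a `ModelNoSep` (forget the separating coordinate). -/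
theorem modelNoSep_of_modSSData {P : ValuationSubring _root_.Fermat.Agent.A2.Qb} {E : IntermediateField ℚ _root_.Fermat.Agent.A2.Qb} {N : ℕ}
    (hE : GoodField P E) (D : ModSSData P E N)
    (hτ : ∀ τ ∈ P.inertiaSubgroupIn ℚ, ∀ τE : E ≃ₐ[ℚ] E,
      (∀ e : E, ((τE e : E) : _root_.Fermat.Agent.A2.Qb) = τ (e : _root_.Fermat.Agent.A2.Qb)) → ∀ hτ' : τ ∈ P.inertiaSubgroupIn ℚ,
        τE = hE.res τ hτ') :
    ModelNoSep P E N :=
  ⟨D.x, D.Bf, D.Bi, D.hx, D.hfin, D.hconst, D.hBf, D.hBi, D.cf, D.ci,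
    fun τ h τE hc => by rw [hτ τ h τE hc h]; exact D.hτx hE τ h,
    fun τ h τE hc => by rw [hτ τ h τE hc h]; exact D.hτf hE τ h,
    fun τ h τE hc => by rw [hτ τ h τE hc h]; exact D.hτi hE τ h⟩

/-- **T1 for one level, without `SepCoord`.**  `IF + (model at the level N) ⟹ KummerTarget`. -/
theorem t1_perN_noSep (hIF : IFStatement) (N q m : ℕ) (hq : q.Prime)
    (hm : 0 < m) (hqm : ¬ q ∣ m)
    (hMOD : ∀ (P : ValuationSubring _root_.Fermat.Agent.A2.Qb) (E : IntermediateField ℚ _root_.Fermat.Agent.A2.Qb),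
      P.LiesOverPrime q → GoodField P E → ModelNoSep P E N) :
    KummerTarget N q m := by
  intro P hP τ hτ f hf hdiv
  refine kummer_of_levels (modularFunctionFieldFull N) m τ (fun S => ?_) f hf hdiv
  obtain ⟨E, hSE, hE⟩ := hIF q hq P hP S
  refine ⟨E, hSE, hE.res τ hτ, fun e => rfl, fun y hy0 hdd => ?_⟩
  obtain ⟨x, Bf, Bi, hx, hfin, hconst, hBf, hBi, cf, ci, -, hτf, hτi⟩ := hMOD P E hP hE
  haveI : IsDiscreteValuationRing ↥(RE P E) := hE.dvr
  haveI : HenselianLocalRing ↥(RE P E) := hE.henselian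
  haveI : IsAlgClosed (IsLocalRing.ResidueField ↥(RE P E)) := hE.algClosed
  obtain ⟨w, hw⟩ := IsDiscreteValuationRing.exists_irreducible ↥(RE P E)
  obtain ⟨cf⟩ := cf w hw
  obtain ⟨ci⟩ := ci w hw
  have hconcl : AlgSSConclusion E m
      (arithmeticRingAut (modularFunctionFieldFull N) (hE.res τ hτ)) :=
    algSS_noSep (R := ↥(RE P E)) (E := E) (F := ↥(FE E N)) w hw q m hq
      (natCast_mem_maximalIdeal_RE E hP) hm hqm x hx hfin hconst Bf Bi hBf hBi cf ci
      (arithmeticRingAut (modularFunctionFieldFull N) (hE.res τ hτ))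
      (hE.res τ hτ).toRingEquiv (resR hE τ hτ)
      (fun e => arithmeticRingAut_algebraMap (modularFunctionFieldFull N) (hE.res τ hτ) e)
      (fun r => rfl)
      (hτf τ hτ (hE.res τ hτ) (fun _ => rfl) w hw)
      (hτi τ hτ (hE.res τ hτ) (fun _ => rfl) w hw)
  exact hconcl y hy0 hdd

/-- **MOD without `SepCoord`, final assembly**: S2 + S3 + GOODRED give the model at every level
`N`, `q ‖ N`, carrying the auxiliary prime.  (L1, L2, L4, L6, L8, L9, L10, S1, Sτ from main.) -/
theorem modelNoSep_of_parts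
    (hS2 : ∀ (P : ValuationSubring _root_.Fermat.Agent.A2.Qb) (E : IntermediateField ℚ _root_.Fermat.Agent.A2.Qb) (M q : ℕ) [NeZero M]
      [NeZero q] (w : RE P E), Mod.S2Statement P E M q w)
    (hS3 : ∀ (P : ValuationSubring _root_.Fermat.Agent.A2.Qb) (E : IntermediateField ℚ _root_.Fermat.Agent.A2.Qb) (M q : ℕ) [NeZero M]
      [NeZero q] (w : RE P E), Mod.S3Statement P E M q w)
    (hGood : GoodRedStatement)
    (P : ValuationSubring _root_.Fermat.Agent.A2.Qb) (E : IntermediateField ℚ _root_.Fermat.Agent.A2.Qb) (N q : ℕ)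
    (hq : q.Prime) (hqN : q ∣ N) (hq2 : ¬ q ^ 2 ∣ N) (hN : N ≠ 0)
    (h3 : q = 3 → 2 ∣ N) (h2 : q = 2 → 3 ∣ N)
    (hP : P.LiesOverPrime q) (hE : GoodField P E) : ModelNoSep P E N := by
  obtain ⟨M, hM⟩ := hqN
  have hNM : N = M * q := by rw [hM, mul_comm]
  subst hNM
  have hM0 : M ≠ 0 := fun h => hN (by rw [h, zero_mul])
  haveI : NeZero M := ⟨hM0⟩
  haveI : NeZero q := ⟨hq.ne_zero⟩
  have hqM : ¬ q ∣ M := by
    rintro ⟨c, hc⟩
    exact hq2 ⟨c, by rw [hc]; ring⟩
  have h3' : q = 3 → 2 ∣ M := by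
    intro h
    have h2N := h3 h
    subst h
    exact (Nat.Coprime.dvd_mul_right (by norm_num : Nat.Coprime 2 3)).1 h2N
  have h2' : q = 2 → 3 ∣ M := by
    intro h
    have h3N := h2 h
    subst h
    exact (Nat.Coprime.dvd_mul_right (by norm_num : Nat.Coprime 3 2)).1 h3N
  have hS1 : ∀ w : RE P E, Mod.S1Statement P E M q w := fun w =>
    Mod.H13.s1 (Mod.H553.vzeroNe P E M q w) (Mod.H31.deg E M q) (Mod.H753.indInf P E M q w)
      (Mod.H753.indZero P E M q w)
  exact Mod.exists_model_of_parts P E M q hq hqM hP hE.dvr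
    (Mod.H553.vinfExists P E M hM0 hE.dvr)
    (Mod.H553.vinfExists P E (M * q) hN hE.dvr)
    (Mod.H751.frickeExists E (M * q) hN)
    (Mod.H31.deg E M q) hS1 (hS2 P E M q) (hS3 P E M q)
    (fun w => Mod.H751.stau_of_s1 P E M q w (hS1 w))
    (hGood P E M q hq hqM h3' h2' hP hE)

/-- **The Kummer form of the wall, all `q`, from S2 + S3 + GOODRED only.** -/
theorem kummerTarget_noSep
    (hS2 : ∀ (P : ValuationSubring _root_.Fermat.Agent.A2.Qb) (E : IntermediateField ℚ _root_.Fermat.Agent.A2.Qb) (M q : ℕ) [NeZero M]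
      [NeZero q] (w : RE P E), Mod.S2Statement P E M q w)
    (hS3 : ∀ (P : ValuationSubring _root_.Fermat.Agent.A2.Qb) (E : IntermediateField ℚ _root_.Fermat.Agent.A2.Qb) (M q : ℕ) [NeZero M]
      [NeZero q] (w : RE P E), Mod.S3Statement P E M q w)
    (hGood : GoodRedStatement)
    (N q m : ℕ) (hq : q.Prime) (hqN : q ∣ N) (hq2 : ¬ q ^ 2 ∣ N) (hN : N ≠ 0) (hm : 0 < m)
    (hqm : ¬ q ∣ m) : KummerTarget N q m := by
  apply Fermat.Agent.A2.H876.d2Statement N q m hq hqN hq2 hN hm hqm
  apply t1_perN_noSep Fermat.Agent.A2.IF.H429.ifStatement (auxLevel N q) q m hq hm hqm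
  intro P E hP hE
  exact modelNoSep_of_parts hS2 hS3 hGood P E (auxLevel N q) q hq
    (hqN.trans (dvd_auxLevel N q)) (not_sq_dvd_auxLevel hq hq2) (auxLevel_ne_zero q hN)
    aux_two_dvd aux_three_dvd hP hE

/-- **The wall A2, all `q`, from S2 + S3 + GOODRED only**: unipotent inertia on `J₀(N)[m]` at
every `q ‖ N`, `q ∤ m`. -/
theorem wall_noSep
    (hS2 : ∀ (P : ValuationSubring _root_.Fermat.Agent.A2.Qb) (E : IntermediateField ℚ _root_.Fermat.Agent.A2.Qb) (M q : ℕ) [NeZero M]
      [NeZero q] (w : RE P E), Mod.S2Statement P E M q w)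
    (hS3 : ∀ (P : ValuationSubring _root_.Fermat.Agent.A2.Qb) (E : IntermediateField ℚ _root_.Fermat.Agent.A2.Qb) (M q : ℕ) [NeZero M]
      [NeZero q] (w : RE P E), Mod.S3Statement P E M q w)
    (hGood : GoodRedStatement)
    (N q m : ℕ) (hq : q.Prime) (hqN : q ∣ N) (hq2 : ¬ q ^ 2 ∣ N) (hN : N ≠ 0) (hm : 0 < m)
    (hqm : ¬ q ∣ m) : Target N q m :=
  Fermat.Agent.A2.T0.H669.target_of_kummerTarget N q m hm
    (kummerTarget_noSep hS2 hS3 hGood N q m hq hqN hq2 hN hm hqm)

end Fermat.Agent.A2.Top.H96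

end

end
-- ===== PACK-END A2/Top/H96/WallNoSep.lean

-- ===== PACK-BEGIN S35/G/H169/T1F.lean
section






/-!
# S35, piece (G'), leaf T1F (helper169): descent of the Kummer form to a finite level

`t1F : T1FStatement` (frozen in `Fermat/Agent/S35/G/SpecLevel.lean`, architect helper450):

  `IFsStatement → (∀ A E, LevelFrobAt A E M q m) → KummerFrobAt M q m`.

Proof (pattern of `A2/T1/H669`): `f ∈ F̄_{Mq}`, `N_α f = c₁ g₁ ^ m`, `N_β f = c₂ g₂ ^ m`.
All of `f`, `g₁`, `g₂`, `c₁`, `c₂` are defined over every intermediate field containing a finite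
set `S` (`exists_finset_descent`); IFs gives a good level `E ⊇ S` stable under the Frobenius lift
`s`.  Norms commute with the coefficient extension `iota : F_E → F̄`
(`iota_normAlong`, from `S37.H818.norm_square`: equal degrees `q + 1` and
`F̄_{Mq} = F̄_M · iota (F_E(Mq))`), `m ∣ div` descends (`divisibleDiv_of_ord`), the level statement
applies, and `iota` transports the conclusion back (`iota_frobPoly`).

Reusable: `iota_alpha`, `iota_beta`, `adjoin_range_iota_eq_top`, `iota_normAlong`,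
`iota_normAlong_alpha`, `iota_normAlong_beta`, `normPow_descent`, `iota_frobSub`, `iota_frobPoly`.
-/

set_option autoImplicit false
set_option linter.style.haveILetI false
set_option linter.unusedSectionVars false
set_option synthInstance.maxHeartbeats 400000
set_option maxHeartbeats 1600000

noncomputable section

namespace Fermat.Agent.S35.G.H169

open ModularCurve AlgebraicCurve
open Fermat.Agent.A2.T1.H669 (iota iota_injective iota_ne_zero iota_algebraMap
  iota_arithmeticRingAut exists_finset_descent divisibleDiv_of_ord)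

variable (E : IntermediateField ℚ _root_.Fermat.Agent.S35.G.Qb)

/-! ## `iota` and the degeneracy maps -/

section Deg

variable (M q : ℕ) [NeZero M] [NeZero q]

/-- `iota` commutes with `α`. -/
theorem iota_alpha (y : ↥(laurentBaseChange E (modularFunctionFieldFull M))) :
    iota E (modularFunctionFieldFull (M * q)) (heckeAlphaBar E M q y) =
      heckeAlphaBar _root_.Fermat.Agent.S35.G.Qb M q (iota E (modularFunctionFieldFull M) y) := by
  apply Subtype.ext
  rw [Fermat.Agent.A2.T1.H669.coe_iota, coe_heckeAlphaBar, coe_heckeAlphaBar,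
    Fermat.Agent.A2.T1.H669.coe_iota]

/-- `iota` commutes with `β`. -/
theorem iota_beta (y : ↥(laurentBaseChange E (modularFunctionFieldFull M))) :
    iota E (modularFunctionFieldFull (M * q)) (heckeBetaBar E M q y) =
      heckeBetaBar _root_.Fermat.Agent.S35.G.Qb M q (iota E (modularFunctionFieldFull M) y) := by
  apply Subtype.ext
  show coeffMap (algebraMap E _root_.Fermat.Agent.S35.G.Qb) (qExpand E q (y : LaurentSeries E)) =
    qExpand _root_.Fermat.Agent.S35.G.Qb q (coeffMap (algebraMap E _root_.Fermat.Agent.S35.G.Qb) (y : LaurentSeries E))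
  exact ModularCurve.coeffMap_qExpand (algebraMap E _root_.Fermat.Agent.S35.G.Qb) q (y : LaurentSeries E)

end Deg

/-! ## Generation and norm compatibility -/

section Norm

variable (F₀ F₁ : IntermediateField ℚ (LaurentSeries ℚ))

/-- `F̄₁` is generated over `F̄₀` (along any finite `ℚ̄`-algebra map `a'`) by `iota (F_E)`. -/
theorem adjoin_range_iota_eq_top
    (a' : ↥(laurentBaseChange _root_.Fermat.Agent.S35.G.Qb F₀) →ₐ[_root_.Fermat.Agent.S35.G.Qb] ↥(laurentBaseChange _root_.Fermat.Agent.S35.G.Qb F₁))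
    (hfin : FiniteAlong _root_.Fermat.Agent.S35.G.Qb a') :
    (letI := algebraAlong a'
     Algebra.adjoin ↥(laurentBaseChange _root_.Fermat.Agent.S35.G.Qb F₀) (Set.range (iota E F₁))) = ⊤ := by
  letI := algebraAlong a'
  haveI : Module.Finite ↥(laurentBaseChange _root_.Fermat.Agent.S35.G.Qb F₀) ↥(laurentBaseChange _root_.Fermat.Agent.S35.G.Qb F₁) := hfin
  haveI : Algebra.IsAlgebraic ↥(laurentBaseChange _root_.Fermat.Agent.S35.G.Qb F₀) ↥(laurentBaseChange _root_.Fermat.Agent.S35.G.Qb F₁) :=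
    Algebra.IsAlgebraic.of_finite _ _
  have halg : ∀ x ∈ Set.range (iota E F₁),
      IsAlgebraic ↥(laurentBaseChange _root_.Fermat.Agent.S35.G.Qb F₀) x :=
    fun x _ => Algebra.IsAlgebraic.isAlgebraic x
  rw [← IntermediateField.adjoin_toSubalgebra_of_isAlgebraic halg]
  have htop : IntermediateField.adjoin ↥(laurentBaseChange _root_.Fermat.Agent.S35.G.Qb F₀) (Set.range (iota E F₁)) = ⊤ := by
    rw [eq_top_iff]
    rintro ⟨z, hz⟩ -
    have key : ∃ w : ↥(laurentBaseChange _root_.Fermat.Agent.S35.G.Qb F₁),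
        w ∈ IntermediateField.adjoin ↥(laurentBaseChange _root_.Fermat.Agent.S35.G.Qb F₀) (Set.range (iota E F₁)) ∧
        (w : LaurentSeries _root_.Fermat.Agent.S35.G.Qb) = z := by
      have hz2 := hz
      rw [mem_laurentBaseChange_iff] at hz2
      induction hz2 using Subfield.closure_induction with
      | mem y hy =>
          rcases hy with ⟨a, rfl⟩ | ⟨z₀, hz₀, rfl⟩
          · refine ⟨algebraMap ↥(laurentBaseChange _root_.Fermat.Agent.S35.G.Qb F₀) ↥(laurentBaseChange _root_.Fermat.Agent.S35.G.Qb F₁)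
              (algebraMap _root_.Fermat.Agent.S35.G.Qb ↥(laurentBaseChange _root_.Fermat.Agent.S35.G.Qb F₀) a),
              IntermediateField.algebraMap_mem _ _, ?_⟩
            have h1 : algebraMap ↥(laurentBaseChange _root_.Fermat.Agent.S35.G.Qb F₀) ↥(laurentBaseChange _root_.Fermat.Agent.S35.G.Qb F₁)
                (algebraMap _root_.Fermat.Agent.S35.G.Qb ↥(laurentBaseChange _root_.Fermat.Agent.S35.G.Qb F₀) a) =
                algebraMap _root_.Fermat.Agent.S35.G.Qb ↥(laurentBaseChange _root_.Fermat.Agent.S35.G.Qb F₁) a := a'.commutes a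
            rw [h1]
            rfl
          · refine ⟨iota E F₁ ⟨coeffEmb E z₀, coeffEmb_mem_laurentBaseChange E hz₀⟩,
              IntermediateField.subset_adjoin _ _ ⟨_, rfl⟩, ?_⟩
            exact Fermat.Agent.S18.H602.coeffMap_coeffEmb' (algebraMap E _root_.Fermat.Agent.S35.G.Qb) z₀
      | one => exact ⟨1, one_mem _, rfl⟩
      | add x y hx' hy' hx hy =>
          obtain ⟨w₁, hw₁, rfl⟩ := hx ((mem_laurentBaseChange_iff).2 hx')
          obtain ⟨w₂, hw₂, rfl⟩ := hy ((mem_laurentBaseChange_iff).2 hy')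
          exact ⟨w₁ + w₂, add_mem hw₁ hw₂, rfl⟩
      | neg x hx' hx =>
          obtain ⟨w₁, hw₁, rfl⟩ := hx ((mem_laurentBaseChange_iff).2 hx')
          exact ⟨-w₁, neg_mem hw₁, rfl⟩
      | inv x hx' hx =>
          obtain ⟨w₁, hw₁, rfl⟩ := hx ((mem_laurentBaseChange_iff).2 hx')
          exact ⟨w₁⁻¹, inv_mem hw₁, IntermediateField.coe_inv _ _⟩
      | mul x y hx' hy' hx hy =>
          obtain ⟨w₁, hw₁, rfl⟩ := hx ((mem_laurentBaseChange_iff).2 hx')
          obtain ⟨w₂, hw₂, rfl⟩ := hy ((mem_laurentBaseChange_iff).2 hy')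
          exact ⟨w₁ * w₂, mul_mem hw₁ hw₂, rfl⟩
    obtain ⟨w, hw, hwz⟩ := key
    have hwz' : w = ⟨z, hz⟩ := Subtype.ext hwz
    rw [← hwz']
    exact hw
  rw [htop]
  rfl

/-- **Norms commute with the coefficient extension** `iota : F_E → F̄`, for a commutative square
of finite maps of equal degree. -/
theorem iota_normAlong
    (a : ↥(laurentBaseChange E F₀) →ₐ[E] ↥(laurentBaseChange E F₁))
    (a' : ↥(laurentBaseChange _root_.Fermat.Agent.S35.G.Qb F₀) →ₐ[_root_.Fermat.Agent.S35.G.Qb] ↥(laurentBaseChange _root_.Fermat.Agent.S35.G.Qb F₁))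
    (hsq : ∀ x, iota E F₁ (a x) = a' (iota E F₀ x))
    (hfin : FiniteAlong E a) (hfin' : FiniteAlong _root_.Fermat.Agent.S35.G.Qb a')
    (hdeg : finrankAlong _root_.Fermat.Agent.S35.G.Qb a' = finrankAlong E a)
    (y : ↥(laurentBaseChange E F₁)) :
    iota E F₀ (Fermat.Agent.S29.H395.normAlong a y) =
      Fermat.Agent.S29.H395.normAlong a' (iota E F₁ y) := by
  have hgen := adjoin_range_iota_eq_top E F₀ F₁ a' hfin'
  unfold Fermat.Agent.S29.H395.normAlong
  letI := algebraAlong a
  letI := algebraAlong a'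
  haveI : Module.Finite ↥(laurentBaseChange E F₀) ↥(laurentBaseChange E F₁) := hfin
  haveI : Module.Finite ↥(laurentBaseChange _root_.Fermat.Agent.S35.G.Qb F₀) ↥(laurentBaseChange _root_.Fermat.Agent.S35.G.Qb F₁) := hfin'
  exact (Fermat.Agent.S37.H818.norm_square (iota E F₀) (iota E F₁) hsq hdeg hgen y).symm

end Norm

section NormDeg

variable (M q : ℕ) [NeZero M] [NeZero q]

theorem finiteAlong_of_finrankAlong_pos {K F F' : Type*} [Field K] [Field F] [Field F']
    [Algebra K F] [Algebra K F'] (φ : F →ₐ[K] F') (h : 0 < finrankAlong K φ) :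
    FiniteAlong K φ := by
  unfold FiniteAlong
  unfold finrankAlong at h
  letI := algebraAlong φ
  exact Module.finite_of_finrank_pos h

/-- Norm compatibility for `α`. -/
theorem iota_normAlong_alpha (hq : q.Prime) (hqM : ¬ q ∣ M)
    (y : ↥(laurentBaseChange E (modularFunctionFieldFull (M * q)))) :
    iota E (modularFunctionFieldFull M)
        (Fermat.Agent.S29.H395.normAlong (heckeAlphaBar E M q) y) =
      Fermat.Agent.S29.H395.normAlong (heckeAlphaBar _root_.Fermat.Agent.S35.G.Qb M q)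
        (iota E (modularFunctionFieldFull (M * q)) y) := by
  have h1 : finrankAlong E (heckeAlphaBar E M q) = q + 1 :=
    Fermat.Agent.S37.H818.finrankAlong_heckeAlphaBar (L := E) M q hq hqM
  have h2 : finrankAlong _root_.Fermat.Agent.S35.G.Qb (heckeAlphaBar _root_.Fermat.Agent.S35.G.Qb M q) = q + 1 :=
    Fermat.Agent.S37.H818.finrankAlong_heckeAlphaBar (L := _root_.Fermat.Agent.S35.G.Qb) M q hq hqM
  exact iota_normAlong E _ _ (heckeAlphaBar E M q) (heckeAlphaBar _root_.Fermat.Agent.S35.G.Qb M q)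
    (iota_alpha E M q)
    (finiteAlong_of_finrankAlong_pos _ (by rw [h1]; exact Nat.succ_pos _))
    (finiteAlong_of_finrankAlong_pos _ (by rw [h2]; exact Nat.succ_pos _))
    (by rw [h1, h2]) y

/-- Norm compatibility for `β`. -/
theorem iota_normAlong_beta (hq : q.Prime) (hqM : ¬ q ∣ M)
    (y : ↥(laurentBaseChange E (modularFunctionFieldFull (M * q)))) :
    iota E (modularFunctionFieldFull M)
        (Fermat.Agent.S29.H395.normAlong (heckeBetaBar E M q) y) =
      Fermat.Agent.S29.H395.normAlong (heckeBetaBar _root_.Fermat.Agent.S35.G.Qb M q)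
        (iota E (modularFunctionFieldFull (M * q)) y) := by
  have h1 : finrankAlong E (heckeBetaBar E M q) = q + 1 :=
    Fermat.Agent.S37.H88.finrankAlong_heckeBetaBar (L := E) hq hqM
  have h2 : finrankAlong _root_.Fermat.Agent.S35.G.Qb (heckeBetaBar _root_.Fermat.Agent.S35.G.Qb M q) = q + 1 :=
    Fermat.Agent.S37.H88.finrankAlong_heckeBetaBar (L := _root_.Fermat.Agent.S35.G.Qb) hq hqM
  exact iota_normAlong E _ _ (heckeBetaBar E M q) (heckeBetaBar _root_.Fermat.Agent.S35.G.Qb M q)
    (iota_beta E M q)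
    (finiteAlong_of_finrankAlong_pos _ (by rw [h1]; exact Nat.succ_pos _))
    (finiteAlong_of_finrankAlong_pos _ (by rw [h2]; exact Nat.succ_pos _))
    (by rw [h1, h2]) y

/-- Descent of `NormPow` along `iota`, for a square with norm compatibility. -/
theorem normPow_descent (F₀ F₁ : IntermediateField ℚ (LaurentSeries ℚ))
    (a : ↥(laurentBaseChange E F₀) →ₐ[E] ↥(laurentBaseChange E F₁))
    (a' : ↥(laurentBaseChange _root_.Fermat.Agent.S35.G.Qb F₀) →ₐ[_root_.Fermat.Agent.S35.G.Qb] ↥(laurentBaseChange _root_.Fermat.Agent.S35.G.Qb F₁))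
    (hnorm : ∀ y, iota E F₀ (Fermat.Agent.S29.H395.normAlong a y) =
      Fermat.Agent.S29.H395.normAlong a' (iota E F₁ y))
    (m : ℕ) (y : ↥(laurentBaseChange E F₁))
    (c : _root_.Fermat.Agent.S35.G.Qb) (hc : c ∈ E) (g : ↥(laurentBaseChange E F₀))
    (h : Fermat.Agent.S29.H395.normAlong a' (iota E F₁ y) =
      algebraMap _root_.Fermat.Agent.S35.G.Qb ↥(laurentBaseChange _root_.Fermat.Agent.S35.G.Qb F₀) c * (iota E F₀ g) ^ m) :
    NormPow a m y := by
  refine ⟨⟨c, hc⟩, g, ?_⟩
  apply iota_injective E F₀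
  rw [hnorm, h, map_mul, map_pow, iota_algebraMap]
  rfl

end NormDeg

/-! ## Transport of the Frobenius polynomial -/

section Frob

variable (F₀ : IntermediateField ℚ (LaurentSeries ℚ))

theorem iota_frobSub (φE : ↥(laurentBaseChange E F₀) ≃+* ↥(laurentBaseChange E F₀))
    (φ : ↥(laurentBaseChange _root_.Fermat.Agent.S35.G.Qb F₀) ≃+* ↥(laurentBaseChange _root_.Fermat.Agent.S35.G.Qb F₀))
    (hφ : ∀ x, iota E F₀ (φE x) = φ (iota E F₀ x)) (Q : ℕ)
    (y : ↥(laurentBaseChange E F₀)) :
    iota E F₀ (frobSub φE Q y) = frobSub φ Q (iota E F₀ y) := by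
  unfold frobSub
  rw [map_mul, map_inv₀, map_pow, hφ]

theorem iota_frobPoly (φE : ↥(laurentBaseChange E F₀) ≃+* ↥(laurentBaseChange E F₀))
    (φ : ↥(laurentBaseChange _root_.Fermat.Agent.S35.G.Qb F₀) ≃+* ↥(laurentBaseChange _root_.Fermat.Agent.S35.G.Qb F₀))
    (hφ : ∀ x, iota E F₀ (φE x) = φ (iota E F₀ x)) (Q : ℕ)
    (y : ↥(laurentBaseChange E F₀)) :
    iota E F₀ (frobPoly φE Q y) = frobPoly φ Q (iota E F₀ y) := by
  unfold frobPoly
  rw [iota_frobSub E F₀ φE φ hφ, iota_frobSub E F₀ φE φ hφ, iota_frobSub E F₀ φE φ hφ]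

/-- `iota` intertwines `ψ_E = σ_E(s)²` and `σ(s²)`. -/
theorem iota_psiE (N : ℕ) (s : _root_.Fermat.Agent.S35.G.Qb ≃ₐ[ℚ] _root_.Fermat.Agent.S35.G.Qb) (hs : StableUnder E s)
    (x : ↥(laurentBaseChange E (modularFunctionFieldFull N))) :
    iota E (modularFunctionFieldFull N) (psiE E N s hs x) =
      actBar N (s * s) (iota E (modularFunctionFieldFull N) x) :=
  iota_arithmeticRingAut E (modularFunctionFieldFull N) (s * s)
    (Fermat.Agent.A2.Mod.resE E s hs * Fermat.Agent.A2.Mod.resE E s hs) (fun _ => rfl) x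

end Frob

/-! ## T1F -/

/-- **T1F.** -/
theorem t1F : T1FStatement := by
  intro M q m _ _ hq hqM hm hqm hIF hLevel A hA s hs f hf hdiv hNα hNβ
  classical
  obtain ⟨c₁, g₁, h₁⟩ := hNα
  obtain ⟨c₂, g₂, h₂⟩ := hNβ
  obtain ⟨Sf, hSf⟩ := exists_finset_descent (modularFunctionFieldFull (M * q)) f
  obtain ⟨S₁, hS₁⟩ := exists_finset_descent (modularFunctionFieldFull M) g₁
  obtain ⟨S₂, hS₂⟩ := exists_finset_descent (modularFunctionFieldFull M) g₂
  obtain ⟨E, hSE, hE, hsE⟩ :=
    hIF q hq A hA s hs.mem_decompositionSubgroup (Sf ∪ S₁ ∪ S₂ ∪ {c₁, c₂})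
  have hSfE : ∀ x ∈ Sf, x ∈ E := fun x hx => hSE x (by simp [hx])
  have hS₁E : ∀ x ∈ S₁, x ∈ E := fun x hx => hSE x (by simp [hx])
  have hS₂E : ∀ x ∈ S₂, x ∈ E := fun x hx => hSE x (by simp [hx])
  have hc₁E : c₁ ∈ E := hSE c₁ (by simp)
  have hc₂E : c₂ ∈ E := hSE c₂ (by simp)
  obtain ⟨y, hy⟩ := hSf E hSfE
  obtain ⟨y₁, hy₁⟩ := hS₁ E hS₁E
  obtain ⟨y₂, hy₂⟩ := hS₂ E hS₂E
  have hy0 : y ≠ 0 := by
    rintro rfl
    exact hf (by rw [← hy, map_zero])
  have hdd : Fermat.Agent.A2.DivisibleDiv E m y :=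
    divisibleDiv_of_ord E (modularFunctionFieldFull (M * q)) m y hy0
      (fun v => by rw [hy]; exact hdiv v)
  have hNαE : NormPow (Fermat.Agent.A2.Mod.αE E M q) m y :=
    normPow_descent E _ _ (heckeAlphaBar E M q) (heckeAlphaBar _root_.Fermat.Agent.S35.G.Qb M q)
      (iota_normAlong_alpha E M q hq hqM) m y c₁ hc₁E y₁ (by rw [hy, hy₁]; exact h₁)
  have hNβE : NormPow (Fermat.Agent.A2.Mod.βE E M q) m y :=
    normPow_descent E _ _ (heckeBetaBar E M q) (heckeBetaBar _root_.Fermat.Agent.S35.G.Qb M q)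
      (iota_normAlong_beta E M q hq hqM) m y c₂ hc₂E y₂ (by rw [hy, hy₂]; exact h₂)
  obtain ⟨h, hh0, hh⟩ := hLevel A E hA hE s hsE hs y hy0 hdd hNαE hNβE
  refine ⟨1, iota E (modularFunctionFieldFull (M * q)) h, one_ne_zero, ?_⟩
  have key := congrArg (iota E (modularFunctionFieldFull (M * q))) hh
  rw [iota_frobPoly E (modularFunctionFieldFull (M * q)) (psiE E (M * q) s hsE)
    (actBar (M * q) (s * s)) (iota_psiE E (M * q) s hsE), hy, map_pow] at key
  rw [key, map_one, one_mul]

end Fermat.Agent.S35.G.H169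

end

end
-- ===== PACK-END S35/G/H169/T1F.lean

-- ===== PACK-BEGIN S27/H970/Lattice.lean
section


/-!
# S27 / PIC-CL (helper970): invertible lattices in `F` are of the form `LOff T D`

* `exists_injective_linearMap_to_frac` : an invertible module over a domain embeds into the
  fraction field;
* `exists_eq_LOff` : an invertible `R`-submodule `I ⊆ F`, `R` = functions regular off the finite
  nonempty set `T`, is `LOff T D` for a divisor `D`.
-/

set_option autoImplicit false
set_option linter.unusedSectionVars false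
set_option linter.style.haveILetI false
universe u

noncomputable section

open AlgebraicCurve
open scoped TensorProduct

namespace Fermat.Agent.S27.H970

open Fermat.Agent.S25 Fermat.Agent.Lib.RR Fermat.Agent.Lib.RR.H638 Fermat.Agent.Lib.RR.H623

section Embed

variable {R M F : Type*} [CommRing R] [IsDomain R] [Field F] [Algebra R F] [IsFractionRing R F]
  [AddCommGroup M] [Module R M] [Module.Invertible R M]

/-- An invertible module over a domain embeds into the fraction field. -/
theorem exists_injective_linearMap_to_frac : ∃ θ : M →ₗ[R] F, Function.Injective θ := by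
  haveI : Module.Free F (F ⊗[R] M) := inferInstance
  obtain ⟨e⟩ := Module.Invertible.free_iff_linearEquiv.mp
    (inferInstance : Module.Free F (F ⊗[R] M))
  have h1 : Function.Injective ((Algebra.linearMap R F).rTensor M) :=
    Module.Flat.rTensor_preserves_injective_linearMap _ (IsFractionRing.injective R F)
  have h2 : Function.Injective (TensorProduct.mk R F M 1) := by
    have : (TensorProduct.mk R F M 1 : M → F ⊗[R] M) =
        (Algebra.linearMap R F).rTensor M ∘ (TensorProduct.lid R M).symm := by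
      ext m
      simp
    rw [this]
    exact h1.comp (TensorProduct.lid R M).symm.injective
  exact ⟨(e.restrictScalars R).toLinearMap.comp (TensorProduct.mk R F M 1),
    (e.restrictScalars R).injective.comp h2⟩

end Embed

section LemmaL

variable {K F : Type u} [Field K] [Field F] [Algebra K F] [FF1 K F]
  {R : Type u} [CommRing R] [IsDomain R] [Algebra R F] [IsFractionRing R F]

/-- **Invertible lattices are `LOff T D`.**  `R` is the ring of functions regular off the finite
nonempty set `T`; an invertible `R`-submodule `I` of `F` is the module of sections of `O(D)` over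
the complement of `T`, for a suitable divisor `D`. -/
theorem exists_eq_LOff (T : Finset (Place K F))
    (hT : ∀ (r : R) (v : Place K F), v ∉ (T : Set (Place K F)) → 0 ≤ v.ord (algebraMap R F r))
    (hrange : ∀ f : F, (∀ v : Place K F, v ∉ (T : Set (Place K F)) → 0 ≤ v.ord f) →
      f ∈ Set.range (algebraMap R F))
    (I : Submodule R F) [Module.Invertible R I] :
    ∃ D : Divisor K F, ∀ f : F, f ∈ I ↔ f ∈ LOff (T : Set (Place K F)) D := by
  classical
  -- generators
  have hfg : I.FG := (Module.Finite.iff_fg (N := I)).mp inferInstance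
  obtain ⟨S, hS⟩ := hfg
  -- `I ≠ 0`
  have hne : ∃ a ∈ I, a ≠ 0 := by
    by_contra hcon
    push_neg at hcon
    have h0 : ∀ a : I, a = 0 := fun a => Subtype.ext (hcon a a.2)
    have := (inferInstance : FaithfulSMul R I).eq_of_smul_eq_smul (m₁ := (0 : R)) (m₂ := 1)
      (fun a => by rw [h0 ((0 : R) • a), h0 ((1 : R) • a)])
    exact zero_ne_one this
  set S' : Finset F := S.filter (fun a => a ≠ 0) with hS'
  have hS'ne : S'.Nonempty := by
    by_contra hcon
    rw [Finset.not_nonempty_iff_eq_empty] at hcon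
    obtain ⟨a, ha, ha0⟩ := hne
    have hS0 : ∀ b ∈ S, b = 0 := by
      intro b hb
      by_contra hb0
      have : b ∈ S' := Finset.mem_filter.mpr ⟨hb, hb0⟩
      rw [hcon] at this
      exact Finset.notMem_empty _ this
    have : I = ⊥ := by
      rw [← hS, Submodule.span_eq_bot]
      exact fun b hb => hS0 b hb
    rw [this, Submodule.mem_bot] at ha
    exact ha0 ha
  have hS'I : ∀ a ∈ S', a ∈ I := fun a ha => by
    rw [← hS]
    exact Submodule.subset_span (Finset.mem_coe.mpr (Finset.mem_filter.mp ha).1)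
  have hS'0 : ∀ a ∈ S', a ≠ 0 := fun a ha => (Finset.mem_filter.mp ha).2
  -- the minimum of the orders of the generators
  set m : Place K F → ℤ := fun v => S'.inf' hS'ne (fun a => v.ord a) with hm
  have hm_le : ∀ v, ∀ a ∈ S', m v ≤ v.ord a := fun v a ha =>
    Finset.inf'_le (fun a => v.ord a) ha
  have hm_att : ∀ v, ∃ a ∈ S', v.ord a = m v := fun v =>
    Finset.exists_mem_eq_inf' hS'ne (fun a => v.ord a) |>.imp fun a ha => ⟨ha.1, ha.2.symm⟩
  have hbig : ∀ f ∈ I, ∀ v : Place K F, v ∉ (T : Set (Place K F)) → Big v (m v) f := by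
    intro f hf v hv
    rw [← hS] at hf
    induction hf using Submodule.span_induction with
    | mem a ha =>
      by_cases ha0 : a = 0
      · rw [ha0]; exact Big.zero v _
      · exact Big.of_le (hm_le v a (Finset.mem_filter.mpr ⟨Finset.mem_coe.mp ha, ha0⟩))
    | zero => exact Big.zero v _
    | add a b _ _ ha hb => exact ha.add hb
    | smul r a _ ha =>
      rw [Algebra.smul_def]
      have h1 : Big v 0 (algebraMap R F r) := Or.inr (hT r v hv)
      have := h1.mul ha
      rwa [zero_add] at this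
  -- finite support
  have hfin : (Function.support (fun v => -m v)).Finite := by
    refine ((S'.finite_toSet.biUnion (t := fun a => {v : Place K F | v.ord a ≠ 0})
      fun a ha => ?_)).subset ?_
    · have := (divOf (K := K) a (hS'0 a ha)).support.finite_toSet
      refine this.subset fun v hv => ?_
      rw [Finset.mem_coe, Finsupp.mem_support_iff, divOf_apply]
      exact hv
    · intro v hv
      rw [Function.mem_support] at hv
      obtain ⟨a, ha, hav⟩ := hm_att v
      refine Set.mem_biUnion (Finset.mem_coe.mpr ha) ?_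
      show v.ord a ≠ 0
      rw [hav]
      intro h0
      exact hv (by rw [h0, neg_zero])
  set D : Divisor K F := Finsupp.ofSupportFinite (fun v => -m v) hfin with hD
  have hDv : ∀ v, -D v = m v := fun v => by
    rw [hD, Finsupp.ofSupportFinite_coe, neg_neg]
  refine ⟨D, fun f => ⟨fun hf v hv => by rw [hDv]; exact hbig f hf v hv, fun hf => ?_⟩⟩
  -- the hard inclusion, through `I ⊗ I^∨ ≅ R`
  have key : ∀ (φ : Module.Dual R I) (a : I), f * algebraMap R F (φ a) ∈ I := by
    intro φ a
    obtain ⟨b, hb⟩ := linearMap_eq_mul ((Algebra.linearMap R F).comp φ)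
    have hb' : ∀ a : I, algebraMap R F (φ a) = b * (a : F) := hb
    have hreg : ∀ v : Place K F, v ∉ (T : Set (Place K F)) → 0 ≤ v.ord (b * f) := by
      intro v hv
      by_cases hb0 : b = 0
      · rw [hb0, zero_mul, v.ord_zero]
      obtain ⟨a', ha', hav⟩ := hm_att v
      have h1 : 0 ≤ v.ord (b * a') := by
        have := hT (φ ⟨a', hS'I a' ha'⟩) v hv
        rwa [hb'] at this
      rw [v.ord_mul hb0 (hS'0 a' ha'), hav] at h1
      have h2 := (Big.self v b).mul (hf v hv)
      rw [hDv] at h2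
      exact ord_nonneg_of_big (h2.mono h1)
    obtain ⟨r, hr⟩ := hrange _ hreg
    have : f * algebraMap R F (φ a) = r • (a : F) := by
      rw [hb', Algebra.smul_def, hr]
      ring
    rw [this]
    exact I.smul_mem r a.2
  have key2 : ∀ t : Module.Dual R I ⊗[R] I, f * algebraMap R F (contractLeft R I t) ∈ I := by
    intro t
    induction t using TensorProduct.induction_on with
    | zero => rw [map_zero, map_zero, mul_zero]; exact I.zero_mem
    | tmul φ a => rw [contractLeft_apply]; exact key φ a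
    | add x y hx hy => rw [map_add, map_add, mul_add]; exact I.add_mem hx hy
  obtain ⟨t, ht⟩ := (Module.Invertible.bijective (R := R) (M := I)).2 1
  have := key2 t
  rwa [ht, map_one, mul_one] at this

end LemmaL

end Fermat.Agent.S27.H970

end
end
-- ===== PACK-END S27/H970/Lattice.lean

-- ===== PACK-BEGIN S27/H970/Classify.lean
section



/-!
# S27 / PIC-CL (helper970): every gluing datum over `K` is some `O(D)`

`exists_isIso_ofDivisor` : on a function-field cospan, every gluing datum `G` is isomorphic to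
`ofDivisor D` for a divisor `D`.
-/

set_option autoImplicit false
set_option linter.unusedSectionVars false
set_option linter.style.haveILetI false
universe u

noncomputable section

open AlgebraicCurve
open scoped TensorProduct

namespace Fermat.Agent.S27.H970

open Fermat.Agent.S25 Fermat.Agent.Lib.RR Fermat.Agent.Lib.RR.H638 Fermat.Agent.Lib.RR.H623

section Congr

variable {K F : Type*} [Field K] [Field F] [Algebra K F]

theorem LOff_congr {T : Set (Place K F)} {D D' : Divisor K F}
    (hDD : ∀ v : Place K F, v ∉ T → D v = D' v) : LOff T D = LOff T D' := by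
  ext f
  rw [mem_LOff, mem_LOff]
  refine forall_congr' fun v => forall_congr' fun hv => ?_
  rw [hDD v hv]

/-- `LOff T D = LOff T D'` forces `D = D'` off `T`. -/
theorem eq_of_LOff_eq [FF1 K F] (T : Finset (Place K F)) (hT : T.Nonempty)
    {D D' : Divisor K F}
    (hDD : LOff (T : Set (Place K F)) D = LOff (T : Set (Place K F)) D')
    (v : Place K F) (hv : v ∉ T) : D v = D' v := by
  have := eq_sub_ord_of_mul T hT D D' 1 one_ne_zero
    (fun f hf => by rw [one_mul, ← hDD]; exact hf)
    (fun g hg => ⟨g, by rw [hDD]; exact hg, one_mul g⟩) v hv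
  rw [this]
  simp

end Congr

section Loc

variable {K F : Type u} [Field K] [Field F] [Algebra K F]
  {R R' : Type u} [CommRing R] [CommRing R'] [Algebra R F] [Algebra R' F] [Algebra R R']
  [IsScalarTower R R' F]

/-- If `R' = R[1/t]`, `N' = R' ⊗ N`, and the image of `N` under `θ : N' → F` is `LOff T D`, then
the image of `N'` is `LOff T' D`. -/
theorem range_eq_LOff_of_away (T T' : Set (Place K F)) (hfin : T'.Finite) (hTT' : T ⊆ T')
    (hT : ∀ (r : R) (v : Place K F), v ∉ T → 0 ≤ v.ord (algebraMap R F r))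
    (hT' : ∀ (r : R') (v : Place K F), v ∉ T' → 0 ≤ v.ord (algebraMap R' F r))
    (t : R) (ht : algebraMap R F t ≠ 0)
    (ht0 : ∀ v : Place K F, v ∉ T' → v.ord (algebraMap R F t) = 0)
    (htpos : ∀ v : Place K F, v ∈ T' → v ∉ T → 0 < v.ord (algebraMap R F t))
    [IsLocalization.Away t R']
    {N N' : Type u} [AddCommGroup N] [Module R N] [AddCommGroup N'] [Module R' N']
    [Module R N'] [IsScalarTower R R' N'] (r : N →ₗ[R] N') (hr : IsBaseChange R' r)
    (θ : N' →ₗ[R'] F) (D : Divisor K F)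
    (hI : ∀ f : F, (∃ n : N, θ (r n) = f) ↔ f ∈ LOff T D) (f : F) :
    (∃ n' : N', θ n' = f) ↔ f ∈ LOff T' D := by
  haveI hloc : IsLocalizedModule (Submonoid.powers t) r :=
    (isLocalizedModule_iff_isBaseChange (Submonoid.powers t) R' r).mpr hr
  have hs0 : ∀ s : Submonoid.powers t, algebraMap R F (s : R) ≠ 0 := by
    rintro ⟨s, n, rfl⟩
    rw [map_pow]
    exact pow_ne_zero _ ht
  have hsord : ∀ (s : Submonoid.powers t) (v : Place K F), v ∉ T' →
      v.ord (algebraMap R F (s : R)) = 0 := by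
    rintro ⟨s, n, rfl⟩ v hv
    rw [map_pow, ord_pow, ht0 v hv, mul_zero]
  have hθs : ∀ (s : R) (n' : N'), θ (s • n') = algebraMap R F s * θ n' := by
    intro s n'
    rw [← algebraMap_smul R' s n', map_smul, Algebra.smul_def,
      ← IsScalarTower.algebraMap_apply R R' F]
  constructor
  · rintro ⟨n', rfl⟩
    obtain ⟨⟨n, s⟩, hns⟩ := hloc.surj n'
    have h1 : algebraMap R F (s : R) * θ n' = θ (r n) := by
      rw [← hθs]
      exact congrArg θ hns
    have h2 : θ (r n) ∈ LOff T D := (hI _).mp ⟨n, rfl⟩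
    have h3 : θ n' = (algebraMap R F (s : R))⁻¹ * θ (r n) := by
      rw [← h1, inv_mul_cancel_left₀ (hs0 s)]
    rw [h3]
    intro v hv
    have h4 : Big v 0 ((algebraMap R F (s : R))⁻¹) := by
      right
      rw [v.ord_inv, hsord s v hv, neg_zero]
    have := h4.mul (h2 v (fun hvT => hv (hTT' hvT)))
    rwa [zero_add] at this
  · intro hf
    obtain ⟨⟨g, s⟩, hgs⟩ := (isLocalizedModule_resNR (R := R) (R' := R') T T' hfin hTT' hT hT' t ht
      ht0 htpos D).surj (⟨f, hf⟩ : ↥(NR R' T' hT' D))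
    have h1 : algebraMap R F (s : R) * f = (g : F) := by
      have := congrArg Subtype.val hgs
      rw [resNR_coe] at this
      rw [← this]
      exact (coe_smul_NR' hT' D (s : R) (⟨f, hf⟩ : ↥(NR R' T' hT' D))).symm
    obtain ⟨n, hn⟩ := (hI (g : F)).mpr g.2
    obtain ⟨u, hu⟩ := (IsLocalization.map_units R' s).exists_right_inv
    have hu' : algebraMap R F (s : R) * algebraMap R' F u = 1 := by
      rw [IsScalarTower.algebraMap_apply R R' F, ← map_mul, hu, map_one]
    refine ⟨u • r n, ?_⟩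
    rw [map_smul, hn, ← h1, Algebra.smul_def, ← mul_assoc, mul_comm (algebraMap R' F u), hu',
      one_mul]

end Loc

section Cospan

variable {K F R₀ R₁ R₀₁ : Type u} [Field K] [Field F] [Algebra K F]
  [CommRing R₀] [CommRing R₁] [CommRing R₀₁] [Algebra K R₀] [Algebra K R₁] [Algebra K R₀₁]
  [Algebra R₀ R₀₁] [Algebra R₁ R₀₁] [IsScalarTower K R₀ R₀₁] [IsScalarTower K R₁ R₀₁]
  [Algebra R₀ F] [Algebra R₁ F] [Algebra R₀₁ F]
  [IsScalarTower R₀ R₀₁ F] [IsScalarTower R₁ R₀₁ F]
  [IsScalarTower K R₀ F] [IsScalarTower K R₁ F] [IsScalarTower K R₀₁ F]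
  {x₀ : R₀} {y₁ : R₁} (h : IsFFCospan K F R₀₁ x₀ y₁)

namespace IsFFCospan

include h in
theorem injective_algebraMap₀ : Function.Injective (algebraMap R₀ R₀₁) := by
  have := h.inj₀
  rw [IsScalarTower.algebraMap_eq R₀ R₀₁ F] at this
  exact Function.Injective.of_comp this

include h in
theorem injective_algebraMap₁ : Function.Injective (algebraMap R₁ R₀₁) := by
  have := h.inj₁
  rw [IsScalarTower.algebraMap_eq R₁ R₀₁ F] at this
  exact Function.Injective.of_comp this

/-- **Classification**: every gluing datum on a function-field cospan is `O(D)`. -/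
theorem exists_isIso_ofDivisor (G : GlueDatum K R₀ R₁ R₀₁) :
    ∃ D : Divisor K F, G.IsIso (h.ofDivisor D) := by
  classical
  haveI := h.ff1
  haveI := h.isDomain₀₁
  haveI := h.frac₀₁
  haveI := h.dedekind₀
  haveI := h.dedekind₁
  haveI := h.frac₀
  haveI := h.frac₁
  haveI := h.away₀
  haveI := h.away₁
  haveI := G.invertible₀
  haveI := G.invertible₁
  haveI inv₀₁ : Module.Invertible R₀₁ G.N₀₁ :=
    Module.Invertible.congr G.isBaseChange₀.equiv
  obtain ⟨θ, hθ⟩ := exists_injective_linearMap_to_frac (R := R₀₁) (M := G.N₀₁) (F := F)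
  have hr₀ := H206.r₀_injective G h.injective_algebraMap₀
  have hr₁ := H206.r₁_injective G h.injective_algebraMap₁
  -- the two chart lattices
  let θ₀ : G.N₀ →ₗ[R₀] F := (θ.restrictScalars R₀).comp G.r₀
  let θ₁ : G.N₁ →ₗ[R₁] F := (θ.restrictScalars R₁).comp G.r₁
  have hθ₀ : Function.Injective θ₀ := hθ.comp hr₀
  have hθ₁ : Function.Injective θ₁ := hθ.comp hr₁
  haveI : Module.Invertible R₀ ↥(LinearMap.range θ₀) :=
    Module.Invertible.congr (LinearEquiv.ofInjective θ₀ hθ₀)
  haveI : Module.Invertible R₁ ↥(LinearMap.range θ₁) :=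
    Module.Invertible.congr (LinearEquiv.ofInjective θ₁ hθ₁)
  obtain ⟨D0, hD0⟩ := exists_eq_LOff h.Ti h.reg₀ h.range₀' (LinearMap.range θ₀)
  obtain ⟨D1, hD1⟩ := exists_eq_LOff h.Tz h.reg₁ h.range₁' (LinearMap.range θ₁)
  -- the lattice over the intersection, computed in two ways
  have h01a : ∀ f : F, (∃ n' : G.N₀₁, θ n' = f) ↔
      f ∈ LOff ((h.Tz : Set (Place K F)) ∪ h.Ti) D0 :=
    range_eq_LOff_of_away _ _ h.finite₀₁ h.subset₀ h.reg₀ h.reg₀₁ x₀ h.x_ne_zero
      (fun v hv => h.ord_x_eq_zero hv)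
      (fun v hv hv' => by
        rw [← h.mem_Tz]
        exact Finset.mem_coe.mp (hv.resolve_right hv'))
      G.r₀ G.isBaseChange₀ θ D0 (fun f => by rw [← hD0 f]; rfl)
  have h01b : ∀ f : F, (∃ n' : G.N₀₁, θ n' = f) ↔
      f ∈ LOff ((h.Tz : Set (Place K F)) ∪ h.Ti) D1 :=
    range_eq_LOff_of_away _ _ h.finite₀₁ h.subset₁ h.reg₁ h.reg₀₁ y₁ h.y_ne_zero
      (fun v hv => by rw [h.ord_y, h.ord_x_eq_zero hv, neg_zero])
      (fun v hv hv' => by
        have := h.mem_Ti.mp (Finset.mem_coe.mp (hv.resolve_left hv'))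
        rw [h.ord_y]
        omega)
      G.r₁ G.isBaseChange₁ θ D1 (fun f => by rw [← hD1 f]; rfl)
  have hLL : LOff (((h.Tz ∪ h.Ti : Finset (Place K F)) : Set (Place K F))) D0 =
      LOff (((h.Tz ∪ h.Ti : Finset (Place K F)) : Set (Place K F))) D1 := by
    rw [Finset.coe_union]
    ext f
    rw [← h01a f, ← h01b f]
  have hD01 : ∀ v : Place K F, v ∉ h.Tz → v ∉ h.Ti → D0 v = D1 v := fun v hz hi =>
    eq_of_LOff_eq (h.Tz ∪ h.Ti) (h.Tz_nonempty.mono Finset.subset_union_left) hLL v
      (by rw [Finset.mem_union]; tauto)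
  -- the divisor
  have hfin : (Function.support (fun v => if v ∈ h.Ti then D1 v else D0 v)).Finite := by
    refine ((D0.support.finite_toSet).union (D1.support.finite_toSet)).subset fun v hv => ?_
    rw [Function.mem_support] at hv
    by_cases hvT : v ∈ h.Ti
    · rw [if_pos hvT] at hv
      exact Or.inr (Finset.mem_coe.mpr (Finsupp.mem_support_iff.mpr hv))
    · rw [if_neg hvT] at hv
      exact Or.inl (Finset.mem_coe.mpr (Finsupp.mem_support_iff.mpr hv))
  set D : Divisor K F :=
    Finsupp.ofSupportFinite (fun v => if v ∈ h.Ti then D1 v else D0 v) hfin with hD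
  have hDi : ∀ v : Place K F, v ∉ (h.Ti : Set (Place K F)) → D0 v = D v := by
    intro v hv
    rw [hD, Finsupp.ofSupportFinite_coe, if_neg (fun hh => hv (Finset.mem_coe.mpr hh))]
  have hDz : ∀ v : Place K F, v ∉ (h.Tz : Set (Place K F)) → D1 v = D v := by
    intro v hv
    rw [hD, Finsupp.ofSupportFinite_coe]
    by_cases hvT : v ∈ h.Ti
    · rw [if_pos hvT]
    · rw [if_neg hvT]
      exact (hD01 v (fun hh => hv (Finset.mem_coe.mpr hh)) hvT).symm
  have e0 : ∀ f : F, f ∈ LinearMap.range θ₀ ↔ f ∈ NR R₀ (h.Ti : Set (Place K F)) h.reg₀ D := by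
    intro f
    rw [hD0 f, LOff_congr hDi]
    rfl
  have e1 : ∀ f : F, f ∈ LinearMap.range θ₁ ↔ f ∈ NR R₁ (h.Tz : Set (Place K F)) h.reg₁ D := by
    intro f
    rw [hD1 f, LOff_congr hDz]
    rfl
  have e01 : ∀ f : F, f ∈ LinearMap.range θ ↔
      f ∈ NR R₀₁ ((h.Tz : Set (Place K F)) ∪ h.Ti) h.reg₀₁ D := by
    intro f
    rw [LinearMap.mem_range, h01a f,
      LOff_congr (T := (h.Tz : Set (Place K F)) ∪ h.Ti) (D := D0) (D' := D)
        (fun v hv => hDi v (fun hh => hv (Or.inr hh)))]
    rfl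
  refine ⟨D, ⟨{
    e₀ := (LinearEquiv.ofInjective θ₀ hθ₀).trans (LinearEquiv.ofEq _ _ (Submodule.ext e0))
    e₁ := (LinearEquiv.ofInjective θ₁ hθ₁).trans (LinearEquiv.ofEq _ _ (Submodule.ext e1))
    e₀₁ := (LinearEquiv.ofInjective θ hθ).trans (LinearEquiv.ofEq _ _ (Submodule.ext e01))
    comm₀ := fun s => rfl
    comm₁ := fun s => rfl }⟩⟩

end IsFFCospan

end Cospan

end Fermat.Agent.S27.H970

end
end
-- ===== PACK-END S27/H970/Classify.lean

-- ===== PACK-BEGIN S29/H222/ESKAdapterM.lean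
section
/-
S29 / helper222 — piece ESK, adapter to layer M: `Fermat.Agent.S29.M.ESStatement` (the
Eichler–Shimura input of deputy helper30's layer M, `M/Defs.lean`) from the external inputs
of `ESKFamily.lean`:

* `CoreFamily`   : `S18.CoreStatement N A m` for `ℓ ∤ N`, `ℓ ∤ m`, `A` over `ℓ`     (row S18)
* `PGIFamily`    : Prelude `PrincipalGeneratedByIntegral A (residue A) N`            (S18/S37, M1-Gauss)
* `NormIdFamily` : `NormId N ℓ`                                                      (piece NKI)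

(`HIFamily`, the fourth input, is discharged here from helper812's piece HI.)
-/




set_option autoImplicit false
set_option linter.style.haveILetI false

noncomputable section

namespace Fermat.Agent.S29.H222

/-- **ES for layer M**: the exact `M.ESStatement`, from the four families. -/
theorem esStatement_of_families (hcore : CoreFamily) (hpgi : PGIFamily) (hHI : HIFamily)
    (hnid : NormIdFamily) : Fermat.Agent.S29.M.ESStatement :=
  esRaw_of_families hcore hpgi hHI hnid

/-- Piece HI (helper812) in family form. -/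
theorem hiFamily : HIFamily :=
  fun N _ ℓ _ _ _ => Fermat.Agent.S29.H812.heckeInputsAlong N ℓ

/-- **ES for layer M** from the three remaining external inputs. -/
theorem esStatement_of_core_pgi_normId (hcore : CoreFamily) (hpgi : PGIFamily)
    (hnid : NormIdFamily) : Fermat.Agent.S29.M.ESStatement :=
  esStatement_of_families hcore hpgi hiFamily hnid

end Fermat.Agent.S29.H222

end
end
-- ===== PACK-END S29/H222/ESKAdapterM.lean

-- ===== PACK-BEGIN S36/H919/SheetsProp.lean
section


/-!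
# S36 engine, ALG3 gap lemma G2 (helper919), part 3: propagation of sheets

`ResInt R V y` : the residue of `y` at the valuation subring `V` is integral over (the image of)
`R`, in elementwise form: some monic `P ∈ R[X]` has `P(y) ∈ 𝔪_V`.

A valuation subring `V ⊇ R[x]` with `w ∈ 𝔪_V` is a sheet iff the residue of `x` is NOT integral
over `R` (`h919_resInt_of_not_isSheet`, `h919_not_resInt_of_isSheet`).  Residual integrality
passes to the chart (`h919_resInt_chart`), through `comap` (`h919_resInt_comap`) and along integral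
extensions (`h919_resInt_of_root`).  Hence:

* `h919_isSheet_transfer` : if `V` and `V'` induce the same valuation subring on `F'` via
  `α : F' → F`, the chart of `F` is integral over the image of the chart of `F'`, and `V'` is a
  sheet, then `V` is a sheet.
-/

set_option autoImplicit false
set_option linter.style.haveILetI false
set_option linter.unusedSectionVars false

namespace Fermat.Agent.S36.H919

open Polynomial
open Fermat.Agent.A2.H12 (IsSheet)
open Fermat.Agent.S18.H138
open Fermat.Agent.S36.H193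

universe u

section ResInt

variable (R : Type u) [CommRing R] {F : Type u} [Field F] [Algebra R F]

/-- The residue of `y` at `V` is integral over `R` (elementwise form). -/
def ResInt (V : ValuationSubring F) (y : F) : Prop :=
  ∃ P : R[X], P.Monic ∧ aeval y P ∈ V.nonunits

variable {R}

/-- The homomorphism `R → V`. -/
def h919_toV (V : ValuationSubring F) (hRV : ∀ r : R, algebraMap R F r ∈ V) : R →+* V where
  toFun r := ⟨algebraMap R F r, hRV r⟩
  map_one' := Subtype.ext (map_one _)
  map_mul' _ _ := Subtype.ext (map_mul _ _ _)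
  map_zero' := Subtype.ext (map_zero _)
  map_add' _ _ := Subtype.ext (map_add _ _ _)

/-- The homomorphism from `R` to the residue field of `V`. -/
noncomputable def h919_resHom (V : ValuationSubring F) (hRV : ∀ r : R, algebraMap R F r ∈ V) :
    R →+* IsLocalRing.ResidueField V :=
  (IsLocalRing.residue V).comp (h919_toV V hRV)

theorem h919_coe_eval₂_toV (V : ValuationSubring F) (hRV : ∀ r : R, algebraMap R F r ∈ V)
    (y : V) (P : R[X]) : ((eval₂ (h919_toV V hRV) y P : V) : F) = aeval (y : F) P := by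
  have h1 := Polynomial.hom_eval₂ P (h919_toV V hRV) (V.subtype) y
  rw [aeval_def]
  have h2 : (V.subtype).comp (h919_toV V hRV) = algebraMap R F := by
    ext r
    rfl
  rw [h2] at h1
  exact h1

/-- `ResInt` implies membership. -/
theorem h919_resInt_mem (V : ValuationSubring F) (hRV : ∀ r : R, algebraMap R F r ∈ V)
    {y : F} (h : ResInt R V y) : y ∈ V := by
  obtain ⟨P, hP, hPy⟩ := h
  haveI : Nontrivial R := RingHom.domain_nontrivial (algebraMap R F)
  have hc : aeval y P ∈ V := V.nonunits_subset hPy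
  by_cases hdeg : P.natDegree = 0
  · exfalso
    have h1 : P = 1 := by
      rw [Polynomial.eq_C_of_natDegree_eq_zero hdeg]
      have : P.coeff 0 = 1 := by
        have := hP.coeff_natDegree
        rwa [hdeg] at this
      rw [this, map_one]
    rw [h1, map_one] at hPy
    exact h919_one_not_mem_nonunits V hPy
  -- `y` is integral over `V`
  set Q : (V : Type u)[X] := P.map (h919_toV V hRV) - C ⟨aeval y P, hc⟩ with hQ
  have hQm : Q.Monic := by
    rw [hQ]
    refine Polynomial.Monic.sub_of_left (hP.map _) ?_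
    rw [Polynomial.degree_map_eq_of_leadingCoeff_ne_zero]
    · refine lt_of_le_of_lt Polynomial.degree_C_le ?_
      rw [Polynomial.degree_eq_natDegree hP.ne_zero]
      exact_mod_cast Nat.pos_of_ne_zero hdeg
    · rw [hP.leadingCoeff, map_one]
      exact one_ne_zero
  have hint : IsIntegral V y := by
    refine ⟨Q, hQm, ?_⟩
    rw [hQ, eval₂_sub, eval₂_C, eval₂_map]
    have h2 : (algebraMap V F).comp (h919_toV V hRV) = algebraMap R F := by
      ext r
      rfl
    rw [h2, ← aeval_def]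
    exact sub_self _
  obtain ⟨z, hz⟩ := (IsIntegrallyClosed.isIntegral_iff (R := V) (K := F)).1 hint
  rw [← hz]
  exact z.2

/-- Vanishing in the residue field of `V`. -/
theorem h919_eval₂_resHom_eq_zero_iff (V : ValuationSubring F)
    (hRV : ∀ r : R, algebraMap R F r ∈ V) {y : F} (hy : y ∈ V) (P : R[X]) :
    eval₂ (h919_resHom V hRV) (IsLocalRing.residue V ⟨y, hy⟩) P = 0 ↔
      aeval y P ∈ V.nonunits := by
  have h1 := Polynomial.hom_eval₂ P (h919_toV V hRV) (IsLocalRing.residue V) ⟨y, hy⟩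
  rw [h919_resHom, ← h1, IsLocalRing.residue_eq_zero_iff,
    ValuationSubring.mem_nonunits_iff_exists_mem_maximalIdeal]
  constructor
  · intro h
    refine ⟨?_, ?_⟩
    · rw [← h919_coe_eval₂_toV V hRV ⟨y, hy⟩ P]
      exact (eval₂ (h919_toV V hRV) ⟨y, hy⟩ P).2
    · convert h using 1
      exact Subtype.ext (h919_coe_eval₂_toV V hRV ⟨y, hy⟩ P).symm
  · rintro ⟨h1, h2⟩
    convert h2 using 1
    exact Subtype.ext (h919_coe_eval₂_toV V hRV ⟨y, hy⟩ P)

/-- `ResInt` in terms of the residue field. -/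
theorem h919_resInt_iff (V : ValuationSubring F) (hRV : ∀ r : R, algebraMap R F r ∈ V)
    {y : F} (hy : y ∈ V) :
    ResInt R V y ↔ (h919_resHom V hRV).IsIntegralElem (IsLocalRing.residue V ⟨y, hy⟩) := by
  constructor
  · rintro ⟨P, hP, hPy⟩
    exact ⟨P, hP, (h919_eval₂_resHom_eq_zero_iff V hRV hy P).2 hPy⟩
  · rintro ⟨P, hP, hPy⟩
    exact ⟨P, hP, (h919_eval₂_resHom_eq_zero_iff V hRV hy P).1 hPy⟩

/-- Elements of `R` are residually integral. -/
theorem h919_resInt_algebraMap (V : ValuationSubring F) (r : R) :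
    ResInt R V (algebraMap R F r) := by
  refine ⟨X - C r, monic_X_sub_C r, ?_⟩
  rw [map_sub, aeval_X, aeval_C, sub_self, ValuationSubring.mem_nonunits_iff, map_zero]
  exact zero_lt_one

theorem h919_resInt_add (V : ValuationSubring F) (hRV : ∀ r : R, algebraMap R F r ∈ V)
    {y z : F} (hy : ResInt R V y) (hz : ResInt R V z) : ResInt R V (y + z) := by
  have hyV := h919_resInt_mem V hRV hy
  have hzV := h919_resInt_mem V hRV hz
  rw [h919_resInt_iff V hRV hyV] at hy
  rw [h919_resInt_iff V hRV hzV] at hz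
  rw [h919_resInt_iff V hRV (V.add_mem _ _ hyV hzV)]
  letI : Algebra R (IsLocalRing.ResidueField V) := (h919_resHom V hRV).toAlgebra
  have h1 : IsIntegral R (IsLocalRing.residue V ⟨y, hyV⟩) := hy
  have h2 : IsIntegral R (IsLocalRing.residue V ⟨z, hzV⟩) := hz
  have h3 := h1.add h2
  rw [← map_add] at h3
  exact h3

theorem h919_resInt_mul (V : ValuationSubring F) (hRV : ∀ r : R, algebraMap R F r ∈ V)
    {y z : F} (hy : ResInt R V y) (hz : ResInt R V z) : ResInt R V (y * z) := by
  have hyV := h919_resInt_mem V hRV hy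
  have hzV := h919_resInt_mem V hRV hz
  rw [h919_resInt_iff V hRV hyV] at hy
  rw [h919_resInt_iff V hRV hzV] at hz
  rw [h919_resInt_iff V hRV (V.mul_mem _ _ hyV hzV)]
  letI : Algebra R (IsLocalRing.ResidueField V) := (h919_resHom V hRV).toAlgebra
  have h1 : IsIntegral R (IsLocalRing.residue V ⟨y, hyV⟩) := hy
  have h2 : IsIntegral R (IsLocalRing.residue V ⟨z, hzV⟩) := hz
  have h3 := h1.mul h2
  rw [← map_mul] at h3
  exact h3

/-- **Residual integrality passes to roots of monic polynomials.** -/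
theorem h919_resInt_of_root (V : ValuationSubring F) (hRV : ∀ r : R, algebraMap R F r ∈ V)
    (p : F[X]) (hp : p.Monic) (hcoef : ∀ i, ResInt R V (p.coeff i)) {y : F}
    (hy : p.eval y = 0) : ResInt R V y := by
  classical
  -- descend `p` to `V`
  have hlift : p ∈ Polynomial.lifts (V.subtype) := by
    rw [Polynomial.lifts_iff_coeff_lifts]
    intro n
    exact ⟨⟨p.coeff n, h919_resInt_mem V hRV (hcoef n)⟩, rfl⟩
  obtain ⟨q, hqp, -, hqm⟩ := Polynomial.lifts_and_degree_eq_and_monic hlift hp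
  have hint : IsIntegral V y := by
    refine ⟨q, hqm, ?_⟩
    have : eval₂ (algebraMap V F) y q = eval y (q.map (V.subtype)) := by
      rw [eval_map]
      rfl
    rw [this, hqp, hy]
  obtain ⟨y', hy'⟩ := (IsIntegrallyClosed.isIntegral_iff (R := V) (K := F)).1 hint
  have hyV : y ∈ V := by
    rw [← hy']
    exact y'.2
  have hy'' : y' = ⟨y, hyV⟩ := Subtype.ext hy'
  have hq0 : q.eval y' = 0 := by
    apply Subtype.ext
    have h1 := Polynomial.hom_eval₂ q (RingHom.id V) (V.subtype) y'
    rw [RingHom.comp_id] at h1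
    have h2 : eval₂ (V.subtype) ((V.subtype) y') q = eval y (q.map (V.subtype)) := by
      rw [eval_map]
      congr 1
    rw [h2, hqp, hy] at h1
    rw [eval₂_id] at h1
    exact h1
  rw [h919_resInt_iff V hRV hyV, ← hy'']
  -- the residue field
  letI : Algebra R (IsLocalRing.ResidueField V) := (h919_resHom V hRV).toAlgebra
  set κ := IsLocalRing.ResidueField V with hκ
  set A := integralClosure R κ with hA
  have hcoefA : ∀ n, (q.map (IsLocalRing.residue V)).coeff n ∈ Set.range (algebraMap A κ) := by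
    intro n
    rw [coeff_map]
    have hn : ((q.coeff n : V) : F) = p.coeff n := by
      rw [← hqp, coeff_map]
      rfl
    have h1 : ResInt R V ((q.coeff n : V) : F) := by
      rw [hn]
      exact hcoef n
    rw [h919_resInt_iff V hRV (q.coeff n).2] at h1
    have h2 : IsIntegral R (IsLocalRing.residue V (q.coeff n)) := h1
    exact ⟨⟨_, h2⟩, rfl⟩
  have hliftA : q.map (IsLocalRing.residue V) ∈ Polynomial.lifts (algebraMap A κ) := by
    rw [Polynomial.lifts_iff_coeff_lifts]
    exact hcoefA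
  obtain ⟨q₂, hq₂, -, hq₂m⟩ := Polynomial.lifts_and_degree_eq_and_monic hliftA
    (hqm.map (IsLocalRing.residue V))
  have hintA : IsIntegral A (IsLocalRing.residue V y') := by
    refine ⟨q₂, hq₂m, ?_⟩
    rw [← eval_map, hq₂, eval_map]
    have h1 := Polynomial.hom_eval₂ q (RingHom.id V) (IsLocalRing.residue V) y'
    rw [RingHom.comp_id, eval₂_id, hq0, map_zero] at h1
    exact h1.symm
  have hfin : IsIntegral R (IsLocalRing.residue V y') := isIntegral_trans (A := A) _ hintA
  exact hfin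

/-- Residual integrality of `x` passes to `R[x]`. -/
theorem h919_resInt_adjoin (V : ValuationSubring F) (hRV : ∀ r : R, algebraMap R F r ∈ V)
    {x : F} (hx : ResInt R V x) : ∀ a ∈ Algebra.adjoin R ({x} : Set F), ResInt R V a := by
  intro a ha
  induction ha using Algebra.adjoin_induction with
  | mem y hy =>
    rw [Set.mem_singleton_iff] at hy
    rw [hy]
    exact hx
  | algebraMap r => exact h919_resInt_algebraMap V r
  | add y z _ _ hy hz => exact h919_resInt_add V hRV hy hz
  | mul y z _ _ hy hz => exact h919_resInt_mul V hRV hy hz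

/-- Residual integrality of `x` passes to the chart `chart R {x}`. -/
theorem h919_resInt_chart (V : ValuationSubring F) (hRV : ∀ r : R, algebraMap R F r ∈ V)
    {x : F} (hx : ResInt R V x) : ∀ b ∈ chart R ({x} : Set F), ResInt R V b := by
  intro b hb
  obtain ⟨P, hP, hPb⟩ := mem_chart.1 hb
  refine h919_resInt_of_root V hRV (P.map (algebraMap (Algebra.adjoin R ({x} : Set F)) F))
    (hP.map _) (fun i => ?_) ?_
  · rw [coeff_map]
    exact h919_resInt_adjoin V hRV hx _ (P.coeff i).2
  · rw [eval_map]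
    exact hPb

end ResInt

section Comap

variable {R : Type u} [CommRing R] {F : Type u} [Field F] [Algebra R F]
  {F' : Type u} [Field F'] [Algebra R F']

/-- Residual integrality and `comap`. -/
theorem h919_resInt_comap (α : F' →+* F)
    (hα : ∀ r : R, α (algebraMap R F' r) = algebraMap R F r) (V : ValuationSubring F) (b : F') :
    ResInt R (V.comap α) b ↔ ResInt R V (α b) := by
  have key : ∀ P : R[X], α (aeval b P) = aeval (α b) P := by
    intro P
    let αA : F' →ₐ[R] F := { α with commutes' := hα }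
    exact (aeval_algHom_apply αA b P).symm
  constructor
  · rintro ⟨P, hP, hPb⟩
    refine ⟨P, hP, ?_⟩
    rw [← key]
    exact (Fermat.Agent.A2.H12.mem_nonunits_comap V α _).1 hPb
  · rintro ⟨P, hP, hPb⟩
    refine ⟨P, hP, ?_⟩
    rw [← key] at hPb
    exact (Fermat.Agent.A2.H12.mem_nonunits_comap V α _).2 hPb

end Comap

section Sheet

variable {R : Type u} [CommRing R] [IsDomain R] [IsDiscreteValuationRing R]
  {F : Type u} [Field F] [Algebra R F]

/-- A valuation subring over `R[x]` with `w ∈ 𝔪_V` which is NOT a sheet has `x` residually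
integral (= residually algebraic) over `R`. -/
theorem h919_resInt_of_not_isSheet {w : R} (hw : Irreducible w) {x : F} (V : ValuationSubring F)
    (hRV : ∀ r : R, algebraMap R F r ∈ V) (hxV : x ∈ V)
    (hwV : algebraMap R F w ∈ V.nonunits) (h : ¬ IsSheet w x V) : ResInt R V x := by
  classical
  have hex : ∃ P : R[X], (∃ i, ¬ w ∣ P.coeff i) ∧ (aeval x P)⁻¹ ∉ V := by
    by_contra hno
    apply h
    refine ⟨hRV, hxV, hwV, fun P hP => ?_⟩
    by_contra hPV
    exact hno ⟨P, hP, hPV⟩
  obtain ⟨P, ⟨i, hi⟩, hPV⟩ := hex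
  have hPn : aeval x P ∈ V.nonunits := by
    have := h919_inv_mem_nonunits_of_not_mem V hPV
    rwa [inv_inv] at this
  rw [h919_resInt_iff V hRV hxV]
  set φ := h919_resHom V hRV with hφ
  set z := IsLocalRing.residue V ⟨x, hxV⟩ with hz
  have hz0 : eval₂ φ z P = 0 := (h919_eval₂_resHom_eq_zero_iff V hRV hxV P).2 hPn
  -- `φ` kills the maximal ideal
  have hφw : φ w = 0 := by
    have h1 : eval₂ φ (IsLocalRing.residue V ⟨algebraMap R F w, hRV w⟩) (C w : R[X]) = 0 := by
      rw [h919_eval₂_resHom_eq_zero_iff V hRV (hRV w) (C w), aeval_C]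
      exact hwV
    rwa [eval₂_C] at h1
  have hunit : ∀ c : R, φ c ≠ 0 → IsUnit c := by
    intro c hc
    by_contra hcu
    have h1 : c ∈ IsLocalRing.maximalIdeal R := (IsLocalRing.mem_maximalIdeal _).2 hcu
    rw [hw.maximalIdeal_eq, Ideal.mem_span_singleton] at h1
    obtain ⟨d, rfl⟩ := h1
    rw [map_mul, hφw, zero_mul] at hc
    exact hc rfl
  have hφi : φ (P.coeff i) ≠ 0 := by
    have h1 : IsUnit (P.coeff i) := by
      by_contra hcu
      have h1 : P.coeff i ∈ IsLocalRing.maximalIdeal R := (IsLocalRing.mem_maximalIdeal _).2 hcu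
      rw [hw.maximalIdeal_eq, Ideal.mem_span_singleton] at h1
      exact hi h1
    exact (h1.map φ).ne_zero
  have hP0 : P.map φ ≠ 0 := by
    intro h0
    have := congrArg (fun p => Polynomial.coeff p i) h0
    simp only [coeff_map, coeff_zero] at this
    exact hφi this
  have hl : (P.map φ).leadingCoeff ≠ 0 := Polynomial.leadingCoeff_ne_zero.2 hP0
  have hl' : (P.map φ).leadingCoeff = φ (P.coeff (P.map φ).natDegree) := by
    rw [Polynomial.leadingCoeff, coeff_map]
  have hu : IsUnit (P.coeff (P.map φ).natDegree) := hunit _ (by rw [← hl']; exact hl)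
  obtain ⟨u, hu'⟩ := hu
  have hmon : (P.map φ * C (P.map φ).leadingCoeff⁻¹).Monic :=
    Polynomial.monic_mul_leadingCoeff_inv hP0
  have hinv : (P.map φ).leadingCoeff⁻¹ = φ ((u⁻¹ : Rˣ) : R) := by
    rw [hl', ← hu']
    apply inv_eq_of_mul_eq_one_right
    rw [← map_mul, Units.mul_inv, map_one]
  have hlift : P.map φ * C (P.map φ).leadingCoeff⁻¹ ∈ Polynomial.lifts φ := by
    rw [Polynomial.mem_lifts]
    refine ⟨P * C ((u⁻¹ : Rˣ) : R), ?_⟩
    rw [Polynomial.map_mul, Polynomial.map_C, hinv]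
  obtain ⟨Q, hQ, -, hQm⟩ := Polynomial.lifts_and_degree_eq_and_monic hlift hmon
  refine ⟨Q, hQm, ?_⟩
  rw [← eval_map, hQ, eval_mul, eval_map, hz0, zero_mul]

/-- A sheet does not have `x` residually integral over `R`. -/
theorem h919_not_resInt_of_isSheet {w : R} {x : F} (hx : Transcendental R x)
    {W : ValuationSubring F} (hW : IsSheet w x W) : ¬ ResInt R W x := by
  rintro ⟨P, hP, hPx⟩
  have h1 : (aeval x P)⁻¹ ∈ W := hW.2.2.2 P ⟨P.natDegree, by
    rw [hP.coeff_natDegree]
    exact hW.not_dvd_one⟩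
  have h0 : aeval x P ≠ 0 := by
    intro h0
    exact hP.ne_zero ((transcendental_iff.1 hx) P h0)
  have h2 := h919_mem_nonunits_mul W hPx h1
  rw [mul_inv_cancel₀ h0] at h2
  exact h919_one_not_mem_nonunits W h2

variable {F' : Type u} [Field F'] [Algebra R F']

/-- **Propagation of sheets.**  `V` and `V'` valuation subrings of `F` over `R[x]` inducing the
same valuation subring of `F'` via `α`; the chart of `F'` maps to the chart of `F` and `x` is
integral over its image.  If `V'` is a sheet, so is `V`. -/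
theorem h919_isSheet_transfer {w : R} (hw : Irreducible w) {x : F} (hx : Transcendental R x)
    (α : F' →+* F) (hα : ∀ r : R, α (algebraMap R F' r) = algebraMap R F r)
    (V V' : ValuationSubring F)
    (hRV : ∀ r : R, algebraMap R F r ∈ V) (hRV' : ∀ r : R, algebraMap R F r ∈ V')
    (hxV : x ∈ V) (hwV : algebraMap R F w ∈ V.nonunits)
    (hcomap : V.comap α = V'.comap α)
    {x' : F'} (hchart : ∀ b ∈ chart R ({x'} : Set F'), α b ∈ chart R ({x} : Set F))
    (hint : ∃ p : F'[X], p.Monic ∧ (∀ i, p.coeff i ∈ chart R ({x'} : Set F')) ∧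
      (p.map α).eval x = 0)
    (hV' : IsSheet w x V') : IsSheet w x V := by
  by_contra hV
  have h1 : ResInt R V x := h919_resInt_of_not_isSheet hw V hRV hxV hwV hV
  have h2 : ∀ b ∈ chart R ({x} : Set F), ResInt R V b := h919_resInt_chart V hRV h1
  obtain ⟨p, hp, hpc, hpx⟩ := hint
  have h3 : ∀ i, ResInt R V' ((p.map α).coeff i) := by
    intro i
    rw [coeff_map]
    have := h2 _ (hchart _ (hpc i))
    rw [← h919_resInt_comap α hα V, hcomap, h919_resInt_comap α hα V'] at this
    exact this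
  have h4 : ResInt R V' x := h919_resInt_of_root V' hRV' (p.map α) (hp.map α) h3 hpx
  exact h919_not_resInt_of_isSheet hx hV' h4

end Sheet

end Fermat.Agent.S36.H919

end
-- ===== PACK-END S36/H919/SheetsProp.lean

-- ===== PACK-BEGIN S36/H153/CuspSq.lean
section



/-!
# S36 engine, cell INCIDENCE (helper153) — the field `cusp_single` of `Eng.TripleCtx`,
concrete part (A2 / MOD vocabulary)

Levels `M q` (`q ∤ M`) and `M q q`; `V₁' = V∞` (`IsVinf`), `V₂' = V∞ ∘ W` (`W` Fricke of level
`M q`); `x' = xE E M q = j j_q`; `u = 1/j`, `u_q = 1/j_q` at level `M q`.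

* `mem_nonunits_of_inW`, `mem_nonunits_comap_of_inW` : `w V ⊆ 𝔪_V` for `V = V∞`, `V∞ ∘ W`;
* `uE_mem_chart`, `uqE_mem_chart`  : `u, u_q ∈ chart R {x'⁻¹}`;
* `kron_inf₁`, `kron_inf₂`         : `u_q - u^q ∈ 𝔪_{V₁'}`, `u - u_q^q ∈ 𝔪_{V₂'}`;
* `hnode_level_q`                  : cusps are not nodes at level `M q`, chart vocabulary;
* `alpha_uq_eq_beta_u`, `inv_x_eq` : `α u_q = β u`, `(j j_q j_{q²})⁻¹ = α u · α u_q · β u_q`;
* **`cusp_single_concrete`**       : the field `cusp_single` for `x = j j_q j_{q²}` from the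
  comap table, `R ⊆ Vᵢ`, `x⁻¹ ∈ Vᵢ` and `α, β (chart R {x'⁻¹}) ⊆ chart R {x⁻¹}`.
-/

set_option autoImplicit false
set_option synthInstance.maxHeartbeats 400000
set_option maxHeartbeats 1600000
set_option linter.unusedSectionVars false
set_option linter.style.haveILetI false

noncomputable section

namespace Fermat.Agent.S36.H153

open ModularCurve HahnSeries Polynomial
open Fermat.Agent.A2.Mod
open Fermat.Agent.S18.H138 (chart)

theorem inv_sub_inv_pow_eq {K : Type*} [Field K] (a b : K) (n : ℕ) (ha : a ≠ 0) (hb : b ≠ 0) :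
    b⁻¹ - a⁻¹ ^ n = (-b⁻¹) * (b / a ^ n - 1) := by
  have han : a ^ n ≠ 0 := pow_ne_zero n ha
  rw [inv_pow]
  field_simp
  ring

section LevelQ

variable {P : ValuationSubring Qb} {E : IntermediateField ℚ Qb} {M q : ℕ} [NeZero M] [NeZero q]
variable (w : RE P E)

/-- `cE w ∈ 𝔪_V` for `V = V∞` (any level). -/
theorem cE_mem_nonunits (hS : Setting P E M q w) {N : ℕ} (hN : N ≠ 0)
    {V : ValuationSubring (FE E N)} (hV : IsVinf P E N V) : cE P E N w ∈ V.nonunits := by
  have hu := (H553.vinfBasic P E w N hN hS.dvr hS.unif V hV).1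
  rw [ValuationSubring.mem_nonunits_iff]
  by_contra hcon
  rw [not_lt] at hcon
  apply hu.inv_not_mem
  rw [← V.valuation_le_one_iff, map_inv₀]
  exact inv_le_one_of_one_le₀ hcon

/-- `w V ⊆ 𝔪_V` for `V = V∞`. -/
theorem mem_nonunits_of_inW (hS : Setting P E M q w) {N : ℕ} (hN : N ≠ 0)
    {V : ValuationSubring (FE E N)} (hV : IsVinf P E N V) {f : FE E N}
    (h : InW P E N V w f) : f ∈ V.nonunits := by
  have hc := cE_mem_nonunits w hS hN hV
  have hc0 : cE P E N w ≠ 0 := by
    intro h0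
    have hu := (H553.vinfBasic P E w N hN hS.dvr hS.unif V hV).1
    exact hu.ne_zero h0
  have e : f = (f * (cE P E N w)⁻¹) * cE P E N w := by
    field_simp
  rw [e]
  exact nonunits_mul_mem V h hc

/-- `w V ⊆ 𝔪_V` for `V = V∞ ∘ W`. -/
theorem mem_nonunits_comap_of_inW (hS : Setting P E M q w) {N : ℕ} (hN : N ≠ 0)
    {V : ValuationSubring (FE E N)} (hV : IsVinf P E N V) (W : FE E N ≃ₐ[E] FE E N)
    {f : FE E N} (h : InW P E N (V.comap (W : FE E N →+* FE E N)) w f) :
    f ∈ (V.comap (W : FE E N →+* FE E N)).nonunits := by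
  rw [mem_nonunits_comap]
  rw [H372.inW_comap_iff] at h
  exact mem_nonunits_of_inW w hS hN hV h

variable (P E M q)

/-- `u = 1/j` at level `M q`. -/
abbrev uE : FE E (M * q) := (j1 E M q)⁻¹

/-- `u_q = 1/j_q` at level `M q`. -/
abbrev uqE : FE E (M * q) := (jq1 E M q)⁻¹

theorem uE_mul_uqE : uE E M q * uqE E M q = (xE E M q)⁻¹ := by
  rw [xE_eq, mul_inv]

theorem uE_mem_chart (hq : q.Prime) :
    uE E M q ∈ _root_.Fermat.Agent.S18.H138.chart (RE P E) ({(xE E M q)⁻¹} : Set (FE E (M * q))) := by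
  have h := (H873.chartCompat P E M q hq).2.2.1
  rw [H372.mem_chart_iff] at h
  exact h

theorem uqE_mem_chart (hq : q.Prime) :
    uqE E M q ∈ _root_.Fermat.Agent.S18.H138.chart (RE P E) ({(xE E M q)⁻¹} : Set (FE E (M * q))) := by
  have h := (H873.chartCompat P E M q hq).2.2.2
  rw [H372.mem_chart_iff] at h
  exact h

variable {P E M q}

/-- Kronecker at infinity on `V∞`: `1/j_q ≡ (1/j)^q`. -/
theorem kron_inf₁ (hS : Setting P E M q w) {V : ValuationSubring (FE E (M * q))}
    (hV : IsVinf P E (M * q) V) : uqE E M q - uE E M q ^ q ∈ V.nonunits := by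
  have hN := H372.level_ne_zero w hS
  have hz := mem_nonunits_of_inW w hS hN hV (zE_sub_one_inW w hS hV)
  have huq : uqE E M q ∈ V := H372.jE_inv_mem w hS hN hV q (dvd_mul_left q M)
  have h1 : j1 E M q ≠ 0 := H873.jE_ne_zero E (M * q) 1 (one_dvd _)
  have h2 : jq1 E M q ≠ 0 := H873.jE_ne_zero E (M * q) q (dvd_mul_left q M)
  have e : uqE E M q - uE E M q ^ q = (-uqE E M q) * (zE E M q - 1) :=
    inv_sub_inv_pow_eq _ _ q h1 h2
  rw [e]
  exact nonunits_mul_mem V (V.neg_mem _ huq) hz

/-- Kronecker at infinity on `V₀ = V∞ ∘ W`: `1/j ≡ (1/j_q)^q`. -/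
theorem kron_inf₂ (hS : Setting P E M q w) {V : ValuationSubring (FE E (M * q))}
    (hV : IsVinf P E (M * q) V) {W : FE E (M * q) ≃ₐ[E] FE E (M * q)}
    (hW : IsFricke E (M * q) W) :
    uE E M q - uqE E M q ^ q ∈ (V.comap (W : FE E (M * q) →+* FE E (M * q))).nonunits := by
  have hN := H372.level_ne_zero w hS
  have hy := mem_nonunits_comap_of_inW w hS hN hV W (yE_sub_one_inW w hS hV hW)
  have hu : uE E M q ∈ V.comap (W : FE E (M * q) →+* FE E (M * q)) := by
    rw [ValuationSubring.mem_comap]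
    show W (uE E M q) ∈ V
    rw [map_inv₀, H372.fricke_jE_one hW]
    exact H372.jE_inv_mem w hS hN hV (M * q) (dvd_refl _)
  have h1 : j1 E M q ≠ 0 := H873.jE_ne_zero E (M * q) 1 (one_dvd _)
  have h2 : jq1 E M q ≠ 0 := H873.jE_ne_zero E (M * q) q (dvd_mul_left q M)
  have e : uE E M q - uqE E M q ^ q = (-uE E M q) * (yE E M q - 1) :=
    inv_sub_inv_pow_eq _ _ q h2 h1
  rw [e]
  exact nonunits_mul_mem _ (ValuationSubring.neg_mem _ _ hu) hy

/-- **Cusps are not nodes at level `M q`**, chart vocabulary (`hnode` of `cusp_single_of`). -/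
theorem hnode_level_q (hS : Setting P E M q w) (V : ValuationSubring (FE E (M * q)))
    (W : FE E (M * q) ≃ₐ[E] FE E (M * q)) (hV : IsVinf P E (M * q) V)
    (hW : IsFricke E (M * q) W)
    (N : Ideal (_root_.Fermat.Agent.S18.H138.chart (RE P E) ({(xE E M q)⁻¹} : Set (FE E (M * q))))) (hN : N.IsPrime)
    (h1 : ∀ b : _root_.Fermat.Agent.S18.H138.chart (RE P E) ({(xE E M q)⁻¹} : Set (FE E (M * q))),
      (b : FE E (M * q)) ∈ V.nonunits → b ∈ N)
    (h2 : ∀ b : _root_.Fermat.Agent.S18.H138.chart (RE P E) ({(xE E M q)⁻¹} : Set (FE E (M * q))),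
      (b : FE E (M * q)) ∈ (V.comap (W : FE E (M * q) →+* FE E (M * q))).nonunits → b ∈ N)
    (v : _root_.Fermat.Agent.S18.H138.chart (RE P E) ({(xE E M q)⁻¹} : Set (FE E (M * q))))
    (hv : (v : FE E (M * q)) = (xE E M q)⁻¹) : v ∉ N := by
  have hNlev := H372.level_ne_zero w hS
  obtain ⟨hz, hy⟩ := zy_mem_chartAlg P E M q hS.q_prime
  have hz' : zE E M q ∈ _root_.Fermat.Agent.S18.H138.chart (RE P E) ({(xE E M q)⁻¹} : Set (FE E (M * q))) := hz
  have hy' : yE E M q ∈ _root_.Fermat.Agent.S18.H138.chart (RE P E) ({(xE E M q)⁻¹} : Set (FE E (M * q))) := hy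
  have hq1 : 0 < q - 1 := by have := hS.q_prime.two_le; omega
  refine not_mem_of_yz (pinf := N) (pzero := N) (y := ⟨yE E M q, hy'⟩) (z := ⟨zE E M q, hz'⟩)
    (k := q - 1) hN.ne_top le_rfl le_rfl hq1 ?_ ?_ ?_
  · exact h1 _ (mem_nonunits_of_inW w hS hNlev hV (zE_sub_one_inW w hS hV))
  · exact h2 _ (mem_nonunits_comap_of_inW w hS hNlev hV W (yE_sub_one_inW w hS hV hW))
  · apply Subtype.ext
    show yE E M q * zE E M q = (v : FE E (M * q)) ^ (q - 1)
    rw [hv, yE_mul_zE]

end LevelQ

section LevelSq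

variable (P : ValuationSubring Qb) (E : IntermediateField ℚ Qb) (M q : ℕ) [NeZero M] [NeZero q]
  [NeZero (M * q)]

/-- The coordinate `x = j · j_q · j_{q²}` of level `M q q`. -/
def xSq : FE E (M * q * q) :=
  jE E (M * q * q) 1 (one_dvd _) * jE E (M * q * q) q (dvd_mul_left q (M * q)) *
    jE E (M * q * q) (q * q) (mul_dvd_mul_right (dvd_mul_left q M) q)

theorem alpha_uE : αE E (M * q) q (uE E M q) = (jE E (M * q * q) 1 (one_dvd _))⁻¹ := by
  rw [uE, map_inv₀, j1, H372.alpha_jE_one]

theorem alpha_uqE :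
    αE E (M * q) q (uqE E M q) = (jE E (M * q * q) q (dvd_mul_left q (M * q)))⁻¹ := by
  rw [uqE, map_inv₀, jq1, H372.alpha_jE q (dvd_mul_left q M)]

theorem beta_uE :
    βE E (M * q) q (uE E M q) = (jE E (M * q * q) q (dvd_mul_left q (M * q)))⁻¹ := by
  rw [uE, map_inv₀, j1, H372.beta_jE_one]

theorem beta_uqE :
    βE E (M * q) q (uqE E M q) =
      (jE E (M * q * q) (q * q) (mul_dvd_mul_right (dvd_mul_left q M) q))⁻¹ := by
  rw [uqE, map_inv₀, jq1, H372.beta_jE q (dvd_mul_left q M)]

theorem alpha_uq_eq_beta_u : αE E (M * q) q (uqE E M q) = βE E (M * q) q (uE E M q) := by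
  rw [alpha_uqE, beta_uE]

theorem inv_xSq_eq :
    (xSq E M q)⁻¹ =
      αE E (M * q) q (uE E M q) * αE E (M * q) q (uqE E M q) * βE E (M * q) q (uqE E M q) := by
  rw [alpha_uE, alpha_uqE, beta_uqE, xSq, mul_inv, mul_inv]

variable {P E M q}
variable (w : RE P E)

/-- **Field `cusp_single` of `Eng.TripleCtx`, concrete form**: `x = j j_q j_{q²}`,
`V₁' = V∞`, `V₂' = V∞ ∘ W` at level `M q`.  The points at infinity of the level-`M q q` model lie
on exactly one component. -/
theorem cusp_single_concrete (hS : Setting P E M q w)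
    (V' : ValuationSubring (FE E (M * q))) (W' : FE E (M * q) ≃ₐ[E] FE E (M * q))
    (hV' : IsVinf P E (M * q) V') (hW' : IsFricke E (M * q) W')
    (x : FE E (M * q * q)) (hx : x = xSq E M q)
    (V₁ V₂ V₃ : ValuationSubring (FE E (M * q * q)))
    (hR₁ : ∀ r : RE P E, algebraMap (RE P E) (FE E (M * q * q)) r ∈ V₁)
    (hR₂ : ∀ r : RE P E, algebraMap (RE P E) (FE E (M * q * q)) r ∈ V₂)
    (hR₃ : ∀ r : RE P E, algebraMap (RE P E) (FE E (M * q * q)) r ∈ V₃)
    (hx₁ : x⁻¹ ∈ V₁) (hx₂ : x⁻¹ ∈ V₂) (hx₃ : x⁻¹ ∈ V₃)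
    (chart_αi : ∀ b ∈ _root_.Fermat.Agent.S18.H138.chart (RE P E) ({(xE E M q)⁻¹} : Set (FE E (M * q))),
      αE E (M * q) q b ∈ _root_.Fermat.Agent.S18.H138.chart (RE P E) ({x⁻¹} : Set (FE E (M * q * q))))
    (chart_βi : ∀ b ∈ _root_.Fermat.Agent.S18.H138.chart (RE P E) ({(xE E M q)⁻¹} : Set (FE E (M * q))),
      βE E (M * q) q b ∈ _root_.Fermat.Agent.S18.H138.chart (RE P E) ({x⁻¹} : Set (FE E (M * q * q))))
    (comap_α₁ : V₁.comap (αE E (M * q) q : FE E (M * q) →+* FE E (M * q * q)) = V')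
    (comap_α₂ : V₂.comap (αE E (M * q) q : FE E (M * q) →+* FE E (M * q * q)) = V')
    (comap_α₃ : V₃.comap (αE E (M * q) q : FE E (M * q) →+* FE E (M * q * q)) =
      V'.comap (W' : FE E (M * q) →+* FE E (M * q)))
    (comap_β₁ : V₁.comap (βE E (M * q) q : FE E (M * q) →+* FE E (M * q * q)) = V')
    (comap_β₂ : V₂.comap (βE E (M * q) q : FE E (M * q) →+* FE E (M * q * q)) =
      V'.comap (W' : FE E (M * q) →+* FE E (M * q)))
    (comap_β₃ : V₃.comap (βE E (M * q) q : FE E (M * q) →+* FE E (M * q * q)) =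
      V'.comap (W' : FE E (M * q) →+* FE E (M * q))) :
    ∀ 𝔪 : Ideal (_root_.Fermat.Agent.S18.H138.chart (RE P E) ({x⁻¹} : Set (FE E (M * q * q)))), 𝔪.IsMaximal →
    algebraMap (RE P E) (_root_.Fermat.Agent.S18.H138.chart (RE P E) ({x⁻¹} : Set (FE E (M * q * q)))) w ∈ 𝔪 →
    (⟨x⁻¹, Fermat.Agent.S18.H138.mem_chart_of_mem rfl⟩ :
      _root_.Fermat.Agent.S18.H138.chart (RE P E) ({x⁻¹} : Set (FE E (M * q * q)))) ∈ 𝔪 →
    ¬ ((∀ b : _root_.Fermat.Agent.S18.H138.chart (RE P E) ({x⁻¹} : Set (FE E (M * q * q))),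
          (b : FE E (M * q * q)) ∈ V₁.nonunits → b ∈ 𝔪) ∧
        (∀ b : _root_.Fermat.Agent.S18.H138.chart (RE P E) ({x⁻¹} : Set (FE E (M * q * q))),
          (b : FE E (M * q * q)) ∈ V₂.nonunits → b ∈ 𝔪)) ∧
    ¬ ((∀ b : _root_.Fermat.Agent.S18.H138.chart (RE P E) ({x⁻¹} : Set (FE E (M * q * q))),
          (b : FE E (M * q * q)) ∈ V₁.nonunits → b ∈ 𝔪) ∧
        (∀ b : _root_.Fermat.Agent.S18.H138.chart (RE P E) ({x⁻¹} : Set (FE E (M * q * q))),
          (b : FE E (M * q * q)) ∈ V₃.nonunits → b ∈ 𝔪)) ∧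
    ¬ ((∀ b : _root_.Fermat.Agent.S18.H138.chart (RE P E) ({x⁻¹} : Set (FE E (M * q * q))),
          (b : FE E (M * q * q)) ∈ V₂.nonunits → b ∈ 𝔪) ∧
        (∀ b : _root_.Fermat.Agent.S18.H138.chart (RE P E) ({x⁻¹} : Set (FE E (M * q * q))),
          (b : FE E (M * q * q)) ∈ V₃.nonunits → b ∈ 𝔪)) := by
  intro 𝔪 h𝔪 _ hxm
  have hB : ∀ V : ValuationSubring (FE E (M * q * q)),
      (∀ r : RE P E, algebraMap (RE P E) (FE E (M * q * q)) r ∈ V) → x⁻¹ ∈ V →
      ∀ b ∈ _root_.Fermat.Agent.S18.H138.chart (RE P E) ({x⁻¹} : Set (FE E (M * q * q))), b ∈ V := fun V hR hxV =>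
    chart_le_valuationSubring V hR (fun s hs => by rw [Set.mem_singleton_iff.mp hs]; exact hxV)
  have hq := hS.q_prime
  exact cusp_single_of (αE E (M * q) q : FE E (M * q) →+* FE E (M * q * q))
    (βE E (M * q) q : FE E (M * q) →+* FE E (M * q * q)) _ _ V₁ V₂ V₃ V'
    (V'.comap (W' : FE E (M * q) →+* FE E (M * q)))
    (hB V₁ hR₁ hx₁) (hB V₂ hR₂ hx₂) (hB V₃ hR₃ hx₃) chart_αi chart_βi
    comap_α₁ comap_α₂ comap_α₃ comap_β₁ comap_β₂ comap_β₃
    (uE E M q) (uqE E M q) (uE_mem_chart P E M q hq) (uqE_mem_chart P E M q hq)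
    (alpha_uq_eq_beta_u E M q) q hq.pos (kron_inf₁ w hS hV') (kron_inf₂ w hS hV' hW')
    (fun N hN h1 h2 => hnode_level_q w hS V' W' hV' hW' N hN h1 h2 _ (uE_mul_uqE E M q))
    𝔪 h𝔪.isPrime _ (by rw [hx]; exact inv_xSq_eq E M q) hxm

end LevelSq

end Fermat.Agent.S36.H153

end
end
-- ===== PACK-END S36/H153/CuspSq.lean

-- ===== PACK-BEGIN S59/TW/H653/CuspKer.lean
section




/-!
# S59 / TW-HECKE (helper653): cuspidal classes in the vocabulary of block M-FREE

`κ : Γ₀(M) →* D` trivial on `{d ≡ 1 mod M}`, `Γ' = MFree.kerSub κ`.  All operators of the Hecke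
algebra of `Hom(Γ', A)` preserve the cuspidal classes (`IsCuspidalK` = `S41.Spec.IsCuspidalOn`):

* `isCuspidalK_res`, `isCuspidalK_cor`, `isCuspidalK_conjAct`, `isCuspidalK_heckeKer`,
  `isCuspidalK_UqKer`;
* `cuspSubK K O` : the `O`-submodule of cuspidal classes of `Hom(K, O)`;
* `isCuspidalK_of_smul` : over a torsion-free `A`, `n • φ` cuspidal (`n ≠ 0`) implies `φ` cuspidal.
-/

set_option autoImplicit false

namespace Fermat.Agent.S59.TW.H653

open CongruenceSubgroup Matrix.SpecialLinearGroup ModularCurve.Period ModularForm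
open Fermat.Agent.S29.H642 Fermat.Agent.S41.H761
open Fermat.Agent.S59.MFree Fermat.Agent.S59.MFree.H587 Fermat.Agent.S59.MFree.H941
open P2MW.S_ModularForm_heckeT_slash_eq_self_of_mem_Gamma0.ModularForm.HeckeSlashInvariance
open scoped MatrixGroups

theorem isCuspidalK_iff_isCuspidalOn {K : Subgroup SL(2, ℤ)} {A : Type*} [AddCommGroup A]
    (φ : Additive K →+ A) : IsCuspidalK φ ↔ Fermat.Agent.S41.Spec.IsCuspidalOn K φ := Iff.rfl

section Ker

variable {M : ℕ} {D : Type} [Group D]
variable (κ : Gamma0 M →* D)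
variable (hΓ1 : ∀ γ : Gamma0 M, ((((γ : SL(2, ℤ)) 1 1 : ℤ)) : ZMod M) = 1 → κ γ = 1)
variable {A : Type*} [AddCommGroup A]

/-- `res` preserves cuspidal classes. -/
theorem isCuspidalK_res {y : Additive (Gamma0 M) →+ A} (hy : IsCuspidalK y) :
    IsCuspidalK (res κ y) :=
  isCuspidalK_resK (kerSub_le κ) hy

/-- `cor` preserves cuspidal classes. -/
theorem isCuspidalK_cor {x : Additive (kerSub κ) →+ A} (hx : IsCuspidalK x) :
    IsCuspidalK (cor κ x) :=
  isCuspidalK_coresK (kerSub_le κ) hx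

include hΓ1 in
/-- The diamond operators preserve cuspidal classes. -/
theorem isCuspidalK_conjAct (g : Gamma0 M) {x : Additive (kerSub κ) →+ A}
    (hx : IsCuspidalK x) : IsCuspidalK (conjAct κ g x) := by
  rw [conjAct_eq_diamond κ hΓ1]
  exact isCuspidalK_diamond _ _ hx

/-- `T_l` preserves cuspidal classes. -/
theorem isCuspidalK_heckeKer {l : ℕ} [Fact l.Prime] (hl : ¬ l ∣ M)
    {x : Additive (kerSub κ) →+ A} (hx : IsCuspidalK x) :
    IsCuspidalK (heckeKer hl κ hΓ1 x) := by
  rw [heckeKer_eq_TK hl κ hΓ1]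
  exact isCuspidalK_TK M _ l hx

/-- `U_q` preserves cuspidal classes. -/
theorem isCuspidalK_UqKer {q : ℕ} [Fact q.Prime] (hq : q ∣ M)
    {x : Additive (kerSub κ) →+ A} (hx : IsCuspidalK x) :
    IsCuspidalK (UqKer κ hΓ1 hq x) :=
  isCuspidalK_UK _ q hx

end Ker

section Sub

variable (K : Subgroup SL(2, ℤ)) (O : Type*) [CommRing O]

/-- The `O`-submodule of cuspidal classes of `Hom(K, O)`. -/
def cuspSubK : Submodule O (Additive K →+ O) where
  carrier := {φ | IsCuspidalK φ}
  zero_mem' := isCuspidalK_zero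
  add_mem' := fun {φ ψ} h1 h2 => (cuspK K O).add_mem h1 h2
  smul_mem' := by
    rintro a φ ⟨h1, h2⟩
    refine ⟨fun γ hγ => ?_, fun γ hγ => ?_⟩
    · show a • φ (Additive.ofMul γ) = 0
      rw [h1 γ hγ, smul_zero]
    · show a • φ (Additive.ofMul γ) = 0
      rw [h2 γ hγ, smul_zero]

variable {K O}

theorem mem_cuspSubK {φ : Additive K →+ O} : φ ∈ cuspSubK K O ↔ IsCuspidalK φ := Iff.rfl

end Sub

/-- Over a torsion-free group, `n • φ` cuspidal (`n ≠ 0`) implies `φ` cuspidal. -/
theorem isCuspidalK_of_nsmul {K : Subgroup SL(2, ℤ)} {A : Type*} [AddCommGroup A]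
    [IsAddTorsionFree A] {n : ℕ} (hn : n ≠ 0) {φ : Additive K →+ A}
    (h : IsCuspidalK (n • φ)) : IsCuspidalK φ := by
  refine ⟨fun γ hγ => ?_, fun γ hγ => ?_⟩
  · have := h.1 γ hγ
    rw [AddMonoidHom.smul_apply] at this
    exact (nsmul_eq_zero_iff_right hn).mp this
  · have := h.2 γ hγ
    rw [AddMonoidHom.smul_apply] at this
    exact (nsmul_eq_zero_iff_right hn).mp this

end Fermat.Agent.S59.TW.H653

end
-- ===== PACK-END S59/TW/H653/CuspKer.lean

-- ===== PACK-BEGIN A3/H615/GrRed.lean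
section






/-!
# Cell A3 / GR-INST, block RED (helper615): the place map of a linked datum with good charts

Input: the output of the S37 node `DatumStatement` (`S37/Core/Board.lean`), i.e. a reduction datum
`G : Red.Datum A (residue A) F_M F_{M,k}` with `G.Good` and `Red.H759.Link G`.

Output (`exists_red`): a map `r : Place Q̄ F_M → Place k F_{M,k}` with

* `div_red`  : `r_* div f = div (G.ρ f)` for every `f ∈ G.O` with `G.ρ f ≠ 0`
               (= field `div_red` of `A3.H799.GoodRed` for `O := G.O`, `red := G.ρ`);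
* `I_place`  : `r (σ • P) = r P` for every `σ ∈ Gal(Q̄/Q)` with `σ a - a ∈ 𝔪_A` for all `a ∈ A`
               (= `S19.IsInertiaAt A σ`; field `I_place` of `GoodRed` for the image of inertia);
* the Prelude's `IsPlaceReductionModL A M r`, and evaluation compatibility `Red.EvalCompat G r`.

Proof: `Red.H940.main_of_fibreSum` (existence, S37-RED) and helper697's uniqueness by the Riemann
bound (`H697.placeReduction_equivariant`), which needs only that `r` is not constant; this follows
from `r_* div x = div x̄` and the transcendence of `x̄`.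
-/

set_option autoImplicit false
set_option synthInstance.maxHeartbeats 400000

noncomputable section

namespace Fermat.Agent.A3.H615

open ModularCurve AlgebraicCurve HahnSeries IsLocalRing Fermat.Agent.S37.Red
open Fermat.Agent.Lib.RR

namespace GrRed

/-- `Q̄` -/
abbrev Qb : Type := AlgebraicClosure ℚ

variable {M : ℕ} {A : ValuationSubring _root_.Fermat.Agent.A3.H615.GrRed.Qb}

/-- principal divisors have degree zero -/
theorem degree_eq_zero_of_mem_principal {K F : Type*} [Field K] [Field F] [Algebra K F]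
    [HasPrincipalDivisors K F] {D : Divisor K F}
    (hD : D ∈ Divisor.principal (K := K) (F := F)) : Divisor.degree D = 0 := by
  obtain ⟨f, hf, hDf⟩ := hD
  obtain ⟨D', hD', hdeg⟩ := HasPrincipalDivisors.exists_divisor (K := K) f hf
  have : D = D' := Finsupp.ext fun v => by rw [hDf v, hD' v]
  rw [this, hdeg]

/-- A map on places with `r_* div f = div (ρ f)` is not constant: the divisor of the coordinate
has nonzero reduction. -/
theorem exists_mapDomain_ne_zero [NeZero M] {ℓ : ℕ} (hℓ : ℓ.Prime) (hℓM : ¬ ℓ ∣ M)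
    (hA : A.LiesOverPrime ℓ)
    (G : Datum A (residue A) (modularFunctionFieldBar M)
      (modularFunctionFieldFullC (ResidueField A) M))
    (r : Place _root_.Fermat.Agent.A3.H615.GrRed.Qb (modularFunctionFieldBar M) →
      Place (ResidueField A) (modularFunctionFieldFullC (ResidueField A) M))
    (hr : IsRed G r) :
    ∃ D ∈ Divisor.principal (K := _root_.Fermat.Agent.A3.H615.GrRed.Qb) (F := modularFunctionFieldBar M),
      Finsupp.mapDomain r D ≠ 0 := by
  have hff : FF1 (ResidueField A) (modularFunctionFieldFullC (ResidueField A) M) :=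
    Fermat.Agent.S18.H383.ff1_residue M ℓ hℓ hℓM A hA
  have hpd : HasPrincipalDivisors _root_.Fermat.Agent.A3.H615.GrRed.Qb (modularFunctionFieldBar M) :=
    Fermat.Agent.Lib.RR.H864.hasPrincipalDivisors_modularFunctionFieldBar M
  have hxk : G.ρ ⟨G.x, G.x_mem⟩ ≠ 0 := fun h0 =>
    G.xk_transc (by rw [h0]; exact isAlgebraic_zero)
  have hx0 : G.x ≠ 0 := by
    rintro h0
    apply hxk
    have : (⟨G.x, G.x_mem⟩ : G.O) = 0 := Subtype.ext h0
    rw [this, map_zero]
  obtain ⟨D, hD, -⟩ := HasPrincipalDivisors.exists_divisor (K := _root_.Fermat.Agent.A3.H615.GrRed.Qb) G.x hx0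
  refine ⟨D, ⟨G.x, hx0, hD⟩, fun h0 => ?_⟩
  -- then `x̄` has no zeros and no poles, hence is a constant
  have hord : ∀ Q : Place (ResidueField A) (modularFunctionFieldFullC (ResidueField A) M),
      Q.ord (G.ρ ⟨G.x, G.x_mem⟩) = 0 := by
    intro Q
    rw [← hr.2 G.x G.x_mem hxk D hD Q, h0, Finsupp.zero_apply]
  have hmem : G.ρ ⟨G.x, G.x_mem⟩ ∈
      riemannRochSpace (0 : Divisor (ResidueField A)
        (modularFunctionFieldFullC (ResidueField A) M)) := by
    rw [mem_L_iff]
    intro v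
    right
    rw [hord v]
    simp
  rw [L_zero] at hmem
  obtain ⟨c, hc⟩ := hmem
  apply G.xk_transc
  rw [← hc]
  exact isAlgebraic_algebraMap c

/-- **Inertia acts trivially on the special fibre, pointwise**: for a place reduction map `r`
which is not constant, and `σ` acting trivially on the residue field of `A`. -/
theorem inertia_place [NeZero M] {ℓ : ℕ} (hℓ : ℓ.Prime) (hℓM : ¬ ℓ ∣ M)
    (hA : A.LiesOverPrime ℓ)
    {r : Place _root_.Fermat.Agent.A3.H615.GrRed.Qb (modularFunctionFieldBar M) →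
      Place (ResidueField A) (modularFunctionFieldFullC (ResidueField A) M)}
    (hr : IsPlaceReductionModL A M r)
    (hnc : ∃ D ∈ Divisor.principal (K := _root_.Fermat.Agent.A3.H615.GrRed.Qb) (F := modularFunctionFieldBar M),
      Finsupp.mapDomain r D ≠ 0)
    (σ : _root_.Fermat.Agent.A3.H615.GrRed.Qb ≃ₐ[ℚ] _root_.Fermat.Agent.A3.H615.GrRed.Qb) (hσ : ∀ a : _root_.Fermat.Agent.A3.H615.GrRed.Qb, a ∈ A → σ a - a ∈ A.nonunits)
    (P : Place _root_.Fermat.Agent.A3.H615.GrRed.Qb (modularFunctionFieldBar M)) :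
    r (arithmeticGalois (modularFunctionFieldFull M) σ • P) = r P := by
  have hpd : HasPrincipalDivisors _root_.Fermat.Agent.A3.H615.GrRed.Qb (modularFunctionFieldBar M) :=
    Fermat.Agent.Lib.RR.H864.hasPrincipalDivisors_modularFunctionFieldBar M
  have hσA : ∀ a ∈ A, σ a ∈ A := fun a ha => by
    have h1 := add_mem (A.nonunits_subset (hσ a ha)) ha
    rwa [sub_add_cancel] at h1
  have hφ : ∀ a : A, residue A ⟨σ a, hσA a a.2⟩ = (RingEquiv.refl (ResidueField A)) (residue A a) := by
    intro a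
    rw [RingEquiv.refl_apply, ← sub_eq_zero, ← map_sub, residue_eq_zero_iff]
    exact ValuationSubring.coe_mem_nonunits_iff.mp (hσ a a.2)
  have h := Fermat.Agent.S37.H697.placeReduction_equivariant (N := M) (A := A) hr
    (Fermat.Agent.S37.H98.gen M ℓ hℓ hℓM A hA)
    (fun P => Fermat.Agent.Lib.FF398.deg_eq_one_FF M P)
    (fun D hD => degree_eq_zero_of_mem_principal hD)
    (Fermat.Agent.S37.H98.riemannBound_modularFunctionFieldBar M)
    hnc σ hσA (RingEquiv.refl (ResidueField A)) hφ P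
  rw [h, Fermat.Agent.S37.H697.coeffSL_refl, one_smul]

/-- **GR-INST, block RED.**  The place map of a linked reduction datum with good charts:
conservation (`div_red`), triviality of inertia (`I_place`), the Prelude's
`IsPlaceReductionModL`, and evaluation compatibility. -/
theorem exists_red [NeZero M] {ℓ : ℕ} (hℓ : ℓ.Prime) (hℓM : ¬ ℓ ∣ M)
    (hA : A.LiesOverPrime ℓ)
    (G : Datum A (residue A) (modularFunctionFieldBar M)
      (modularFunctionFieldFullC (ResidueField A) M))
    (hgood : G.Good) (hlink : H759.Link G) :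
    ∃ r : Place _root_.Fermat.Agent.A3.H615.GrRed.Qb (modularFunctionFieldBar M) →
        Place (ResidueField A) (modularFunctionFieldFullC (ResidueField A) M),
      (∀ f : G.O, G.ρ f ≠ 0 → ∀ D : Divisor _root_.Fermat.Agent.A3.H615.GrRed.Qb (modularFunctionFieldBar M),
        (∀ P, D P = P.ord (f : modularFunctionFieldBar M)) →
          ∀ Q, Finsupp.mapDomain r D Q = Q.ord (G.ρ f)) ∧
      (∀ σ : _root_.Fermat.Agent.A3.H615.GrRed.Qb ≃ₐ[ℚ] _root_.Fermat.Agent.A3.H615.GrRed.Qb, (∀ a : _root_.Fermat.Agent.A3.H615.GrRed.Qb, a ∈ A → σ a - a ∈ A.nonunits) →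
        ∀ P, r (arithmeticGalois (modularFunctionFieldFull M) σ • P) = r P) ∧
      IsPlaceReductionModL A M r ∧ EvalCompat G r := by
  have : IsAlgClosed (ResidueField A) := Fermat.Agent.S18.H9.resAlgClosed _ A
  obtain ⟨r, hr, hec⟩ := H940.main_of_fibreSum G hgood (H160.fibreSumStatement G)
  have hmod : IsPlaceReductionModL A M r :=
    Fermat.Agent.S37.Core.isPlaceReductionModL_of_isRed G hlink r hr
  refine ⟨r, fun f hf D hD Q => hr.2 (f : modularFunctionFieldBar M) f.2 hf D hD Q,
    fun σ hσ P => inertia_place hℓ hℓM hA hmod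
      (exists_mapDomain_ne_zero hℓ hℓM hA G r hr) σ hσ P, hmod, hec⟩

end GrRed

end Fermat.Agent.A3.H615

end
end
-- ===== PACK-END A3/H615/GrRed.lean

-- ===== PACK-BEGIN S37/H579/RimOfBase.lean
section










/-!
# S37 / node_rim — assembly through the `Red` route, from (H3) alone (helper579)

NODE [RIM] (`ReductionInputsModL A N`, the place reduction map with the Prelude's (i), (ii) and
PGI) for every prime `ℓ ∤ N` and every valuation subring `A ⊆ ℚ̄` over `ℓ`, from the ONE remaining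
input: normality (H3) of the special fibre of the `j`-line model.

* `node_rim_of_lift` : from `LiftFin A N`, `LiftInf A N` ((H3) over `A`, `Core.IntElt` language =
  the conclusions of `H448.lift_fin_of_base_liesOver` / `lift_inf_of_base_liesOver`);
* `node_rim_of_base` : from (H3) for the functions defined over `𝔽_ℓ` (hypotheses `hbase` of H448);
* `node_rim_of_ring` : from (H3) for a model over a base ring `R₀` (e.g. `ℤ_(ℓ)`), in the shape
  `h0` of `H448.base_fin_of_ring` (+ the analogous shape at infinity).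

Chain (all landed, no further hypothesis): `Red.H940.mainStatement` (RED-MAIN, helper940/160/399),
`Red.modG` + `node_rim_of_modG` (helper40), `H568.valueGroupHyp_modular`, `H628.good_H1` (H1),
`Red.H217.good_of` (H4' from H1), `H448` (ascent `𝔽_ℓ → k`, CoreData, PGI), `H700.pgi`.
New here: the bridge between the `q`-expansion language of (H3) and `Red.Datum.chart/chartk`
(`isIntegralElem_of_mem_chartk`, `mem_chart_of_isIntegralElem`, `lift_fin_modGj`,
`lift_inf_modGj`, `good_modGj`).
-/

set_option autoImplicit false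
set_option synthInstance.maxHeartbeats 400000
set_option linter.unusedSectionVars false

noncomputable section

namespace Fermat.Agent.S37.H579.RimBase

open ModularCurve AlgebraicCurve HahnSeries IsLocalRing Polynomial
open Fermat.Agent.S37.Red Fermat.Agent.S37.Core Fermat.Agent.S37.H448

/-! ### generic: integrality along ring homomorphisms -/

section Generic

variable {R R' S : Type*} [CommRing R] [CommRing R'] [CommRing S]

/-- integrality with respect to `h` lifts along a surjection `f` onto the source of `h` -/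
theorem isIntegralElem_comp_of_surjective (f : R →+* R') (hf : Function.Surjective f)
    (h : R' →+* S) {x : S} (hx : h.IsIntegralElem x) : (h.comp f).IsIntegralElem x := by
  obtain ⟨p, hp, hpx⟩ := hx
  have hl : p ∈ Polynomial.lifts f :=
    (Polynomial.lifts_iff_coeff_lifts p).mpr fun i => by
      obtain ⟨r, hr⟩ := hf (p.coeff i)
      exact ⟨r, hr⟩
  obtain ⟨q, hq, -, hqm⟩ := Polynomial.lifts_and_natDegree_eq_and_monic hl hp
  refine ⟨q, hqm, ?_⟩
  rw [← Polynomial.eval₂_map, hq, hpx]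

/-- integrality over `k[s] ⊆ F`, transported along `ι : F → L`, in `IsIntegralElem` form -/
theorem isIntegralElem_of_isIntegral_adjoin {k F L : Type*} [Field k] [Field F] [CommRing L]
    [Algebra k F] (ι : F →+* L) (e : k[X] →+* L) {s c : F}
    (he_C : ∀ a, e (Polynomial.C a) = ι (algebraMap k F a)) (he_X : e Polynomial.X = ι s)
    (hc : IsIntegral (Algebra.adjoin k ({s} : Set F)) c) : e.IsIntegralElem (ι c) := by
  let sB : Algebra.adjoin k ({s} : Set F) := ⟨s, Algebra.subset_adjoin rfl⟩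
  let f : k[X] →+* Algebra.adjoin k ({s} : Set F) := (Polynomial.aeval sB).toRingHom
  have hf : Function.Surjective f := by
    intro b
    have hb : (b : F) ∈ (Polynomial.aeval (R := k) s).range := by
      rw [← Algebra.adjoin_singleton_eq_range_aeval]
      exact b.2
    obtain ⟨p, hp⟩ := hb
    refine ⟨p, Subtype.ext ?_⟩
    show ((Polynomial.aeval sB p : Algebra.adjoin k ({s} : Set F)) : F) = b
    rw [Polynomial.aeval_subalgebra_coe]
    exact hp
  have h1 : (ι.comp (algebraMap (Algebra.adjoin k ({s} : Set F)) F)).IsIntegralElem (ι c) :=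
    RingHom.IsIntegralElem.map hc ι
  have h2 := isIntegralElem_comp_of_surjective f hf _ h1
  have heq : (ι.comp (algebraMap (Algebra.adjoin k ({s} : Set F)) F)).comp f = e := by
    apply Polynomial.ringHom_ext
    · intro a
      rw [he_C]
      show ι ((Polynomial.aeval sB (Polynomial.C a) : Algebra.adjoin k ({s} : Set F)) : F) = _
      rw [Polynomial.aeval_C]
      rfl
    · rw [he_X]
      show ι ((Polynomial.aeval sB Polynomial.X : Algebra.adjoin k ({s} : Set F)) : F) = _
      rw [Polynomial.aeval_X]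
  rw [heq] at h2
  exact h2

/-- integrality w.r.t. a ring hom with range in a subring `T` gives integrality over `T` -/
theorem isIntegral_of_isIntegralElem_range_le {R L : Type*} [CommRing R] [CommRing L]
    (e : R →+* L) (T : Subring L) (h : ∀ r, e r ∈ T) {x : L} (hx : e.IsIntegralElem x) :
    IsIntegral T x := by
  have h1 : (T.subtype.comp (e.codRestrict T h)).IsIntegralElem x := by
    have : T.subtype.comp (e.codRestrict T h) = e := RingHom.ext fun r => rfl
    rw [this]
    exact hx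
  exact RingHom.IsIntegralElem.of_comp h1

/-- range of an evaluation `R[X] → L` lies in every subring containing the constants and the
point -/
theorem eval₂RingHom_mem {R L : Type*} [CommRing R] [CommRing L] (φ : R →+* L) (u : L)
    (T : Subring L) (hC : ∀ a, φ a ∈ T) (hu : u ∈ T) (p : R[X]) :
    Polynomial.eval₂RingHom φ u p ∈ T := by
  show Polynomial.eval₂ φ u p ∈ T
  rw [Polynomial.eval₂_eq_sum_range]
  exact sum_mem fun i _ => mul_mem (hC _) (pow_mem hu i)

end Generic

/-! ### bridge `q`-expansion language ↔ `Red.Datum` language -/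

section Bridge

variable {N : ℕ} {A : ValuationSubring Qb} (G : Datum A (residue A) (FN N) (FNk A N))

/-- `c ∈ G.chartk s` in `q`-expansion language -/
theorem isIntegralElem_of_mem_chartk {s c : FNk A N} (hc : c ∈ G.chartk s) :
    (evalSer (kA A) (s : LaurentSeries (kA A))).IsIntegralElem (c : LaurentSeries (kA A)) := by
  have hc' : IsIntegral (Algebra.adjoin (kA A) {s}) c := hc
  refine isIntegralElem_of_isIntegral_adjoin (algebraMap (FNk A N) (LaurentSeries (kA A)))
    (evalSer (kA A) (s : LaurentSeries (kA A))) ?_ ?_ hc'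
  · intro a
    rw [evalSer_C]
    show HahnSeries.C a = algebraMap (kA A) (LaurentSeries (kA A)) a
    rw [algebraMap_laurentSeries_eq_single]
    rfl
  · rw [evalSer_X]
    rfl

/-- `b ∈ G.chart t` from `q`-expansion language: `y ∈ A((q))` integral over `A[u]`, where
`u ∈ A((q))` is the `q`-expansion of `t`. -/
theorem mem_chart_of_isIntegralElem {t b : FN N} (u y : LaurentSeries A)
    (hu : coeffMap A.subtype u = (t : LaurentSeries Qb))
    (hy : coeffMap A.subtype y = (b : LaurentSeries Qb))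
    (hint : (evalSeries A u).IsIntegralElem y) : b ∈ G.chart t := by
  show IsIntegral (G.polyRing t) b
  refine Fermat.Agent.S37.Red.H759.isIntegral_of_map_subring
    (algebraMap (FN N) (LaurentSeries Qb)) (algebraMap (FN N) (LaurentSeries Qb)).injective _ ?_
  have h1 : ((coeffMap A.subtype).comp (evalSeries A u)).IsIntegralElem
      (coeffMap A.subtype y) := RingHom.IsIntegralElem.map hint _
  have heq : (coeffMap A.subtype).comp (evalSeries A u) =
      Polynomial.eval₂RingHom ((coeffMap A.subtype).comp (HahnSeries.C : A →+* LaurentSeries A))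
        (coeffMap A.subtype u) := by
    apply Polynomial.ringHom_ext
    · intro a
      simp [evalSeries]
    · simp [evalSeries]
  rw [heq, hy] at h1
  refine isIntegral_of_isIntegralElem_range_le _ _ (fun p => ?_) h1
  refine eval₂RingHom_mem _ _ _ (fun a => ?_) ?_ p
  · refine Subring.mem_map.mpr ⟨algebraMap Qb (FN N) (a : Qb), ?_, ?_⟩
    · exact (le_sup_left : G.constRing ≤ G.polyRing t)
        (Subring.mem_map.mpr ⟨(a : Qb), a.2, rfl⟩)
    · show ((algebraMap Qb (FN N) (a : Qb) : FN N) : LaurentSeries Qb) = _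
      rw [RingHom.comp_apply, coeffMap_C']
      show algebraMap Qb (LaurentSeries Qb) (a : Qb) = _
      rw [algebraMap_laurentSeries_eq_single]
      rfl
  · rw [hu]
    exact Subring.mem_map.mpr ⟨t, (le_sup_right : Subring.closure {t} ≤ G.polyRing t)
      (Subring.subset_closure rfl), rfl⟩

end Bridge

/-! ### (H3) in `IntElt` language ⟹ `Good` ⟹ NODE [RIM] -/

section Lift

variable (A : ValuationSubring Qb) (N : ℕ)

/-- **(H3), finite chart, `IntElt` form** (conclusion of `H448.lift_fin_of_base_liesOver`):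
every element of `F_k` integral over `k[j̄]` is the reduction of an `A`-integral `q`-series of
`F̄_N` integral over `A[j]`. -/
def LiftFin : Prop :=
  ∀ z : FNk A N, (evalSer (kA A) (jqModC (kA A))).IsIntegralElem (z : LaurentSeries (kA A)) →
    ∃ c : IntElt A N, c.IsFin ∧ c.sp = z

/-- **(H3), chart at infinity, `IntElt` form** (conclusion of
`H448.lift_inf_of_base_liesOver`). -/
def LiftInf : Prop :=
  ∀ z : FNk A N, (evalSer (kA A) (jqModC (kA A))⁻¹).IsIntegralElem (z : LaurentSeries (kA A)) →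
    ∃ c : IntElt A N, c.IsInf ∧ c.sp = z

variable {A N}

theorem coe_x_modGj (hVG : ModVG N A) (htr : Transcendental (kA A) (jk N A)) :
    (((modGj hVG htr).x : FN N) : LaurentSeries Qb) = jqModC Qb :=
  coeffMap_jqModC A.subtype

theorem xk_modGj (hVG : ModVG N A) (htr : Transcendental (kA A) (jk N A)) :
    (modGj hVG htr).xk = jk N A :=
  modρ_ofSeries hVG (jqModC A) (coeffMap_jqModC_mem_bar N A) (coeffMap_jqModC_mem_fullC N A)

theorem coe_xk_modGj (hVG : ModVG N A) (htr : Transcendental (kA A) (jk N A)) :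
    (((modGj hVG htr).xk : FNk A N) : LaurentSeries (kA A)) = jqModC (kA A) := by
  rw [xk_modGj]
  exact coeffMap_jqModC (residue A)

/-- field `lift_fin` of `Good` for the modular datum with coordinate `j` -/
theorem lift_fin_modGj (hVG : ModVG N A) (htr : Transcendental (kA A) (jk N A))
    (h : LiftFin A N) :
    ∀ c ∈ (modGj hVG htr).chartk (modGj hVG htr).xk,
      ∃ b ∈ (modGj hVG htr).chart (modGj hVG htr).x,
        ∃ hb : b ∈ (modGj hVG htr).O, (modGj hVG htr).ρ ⟨b, hb⟩ = c := by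
  intro c hc
  have h1 := isIntegralElem_of_mem_chartk (modGj hVG htr) hc
  rw [coe_xk_modGj] at h1
  obtain ⟨c', hfin, hsp⟩ := h c h1
  obtain ⟨hO, hρ⟩ := modG_link hVG c'.y c'.mem c'.memk
  refine ⟨c'.gen, ?_, hO, ?_⟩
  · exact mem_chart_of_isIntegralElem (modGj hVG htr) (jqModC A) c'.y rfl rfl hfin
  · exact hρ.trans hsp

/-- field `lift_inf` of `Good` for the modular datum with coordinate `j` -/
theorem lift_inf_modGj (hVG : ModVG N A) (htr : Transcendental (kA A) (jk N A))
    (h : LiftInf A N) :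
    ∀ c ∈ (modGj hVG htr).chartk (modGj hVG htr).xk⁻¹,
      ∃ b ∈ (modGj hVG htr).chart (modGj hVG htr).x⁻¹,
        ∃ hb : b ∈ (modGj hVG htr).O, (modGj hVG htr).ρ ⟨b, hb⟩ = c := by
  intro c hc
  have h1 := isIntegralElem_of_mem_chartk (modGj hVG htr) hc
  have h2 : ((((modGj hVG htr).xk)⁻¹ : FNk A N) : LaurentSeries (kA A)) =
      (jqModC (kA A))⁻¹ := by
    rw [IntermediateField.coe_inv, coe_xk_modGj]
  rw [h2] at h1
  obtain ⟨c', ⟨u, hu, hint⟩, hsp⟩ := h c h1
  obtain ⟨hO, hρ⟩ := modG_link hVG c'.y c'.mem c'.memk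
  refine ⟨c'.gen, ?_, hO, ?_⟩
  · refine mem_chart_of_isIntegralElem (modGj hVG htr) u c'.y ?_ rfl hint
    rw [IntermediateField.coe_inv, coe_x_modGj]
    have h3 := congrArg (coeffMap A.subtype) hu
    rw [map_mul, map_one, coeffMap_jqModC] at h3
    exact eq_inv_of_mul_eq_one_left h3
  · exact hρ.trans hsp

end Lift

section Node

variable (N : ℕ) [NeZero N] {ℓ : ℕ} (hℓ : ℓ.Prime) (hℓN : ¬ ℓ ∣ N)
  (A : ValuationSubring Qb) (hA : A.LiesOverPrime ℓ)

include hℓ hℓN hA

/-- the value-group hypothesis for the modular function fields -/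
theorem modVG : ModVG N A :=
  Fermat.Agent.S37.H568.valueGroupHyp_modular (coreData_residueField N hℓ hℓN A hA)

omit [NeZero N] hℓ hℓN hA in
/-- `j̄` is transcendental over `k` -/
theorem transcendental_jk : Transcendental (kA A) (jk N A) := by
  have h := Fermat.Agent.S18.H739.transcendental_jC (kA A) N
  have heq : jk N A = ⟨jqModC (kA A), jqModC_mem_full (kA A) N⟩ := by
    apply Subtype.ext
    exact coeffMap_jqModC (residue A)
  rw [heq]
  exact h

/-- **`Good` for the modular datum with coordinate `j`, from (H3).** -/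
theorem good_modGj (hfin : LiftFin A N) (hinf : LiftInf A N) :
    (modGj (modVG N hℓ hℓN A hA) (transcendental_jk N A)).Good := by
  obtain ⟨h1, h2, h3, h4⟩ := Fermat.Agent.S37.H628.good_H1 N hℓ hℓN A hA
    (modGj (modVG N hℓ hℓN A hA) (transcendental_jk N A))
    (coe_x_modGj _ _) (coe_xk_modGj _ _)
  exact Fermat.Agent.S37.Red.H217.good_of _ h1 h2 h3 h4
    (lift_fin_modGj _ _ hfin) (lift_inf_modGj _ _ hinf)

/-- **NODE [RIM] from (H3) in `IntElt` form** (`ℓ ∤ N`, any `ℓ`). -/
theorem node_rim_of_lift (hfin : LiftFin A N) (hinf : LiftInf A N) :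
    ReductionInputsModL A N :=
  node_rim_of_modG Fermat.Agent.S37.Red.H940.mainStatement (modVG N hℓ hℓN A hA) (jqModC A)
    (coeffMap_jqModC_mem_bar N A) (coeffMap_jqModC_mem_fullC N A) (transcendental_jk N A)
    (good_modGj N hℓ hℓN A hA hfin hinf)
    (principalGeneratedByIntegral N hℓ hℓN A hA)

end Node

section NodeBase

variable (N : ℕ) [NeZero N] {ℓ : ℕ} [hF : Fact ℓ.Prime] (hℓN : ¬ ℓ ∣ N)
  (A : ValuationSubring Qb) (hA : A.LiesOverPrime ℓ)

include hF hℓN hA

/-- **NODE [RIM] from (H3) over `𝔽_ℓ`** (the hypotheses `hbase` of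
`H448.lift_fin_of_base_liesOver` / `lift_inf_of_base_liesOver`): normality of the special fibre
is needed only for the functions defined over `𝔽_ℓ`. -/
theorem node_rim_of_base
    (hbfin : ∀ (φ : ZMod ℓ →+* kA A) (w : LaurentSeries (ZMod ℓ)),
      w ∈ modularFunctionFieldFullC (ZMod ℓ) N →
      (evalSer (ZMod ℓ) (jqModC (ZMod ℓ))).IsIntegralElem w →
      ∃ c : IntElt A N, c.IsFin ∧ coeffMap (residue A) c.y = coeffMap φ w)
    (hbinf : ∀ (φ : ZMod ℓ →+* kA A) (w : LaurentSeries (ZMod ℓ)),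
      w ∈ modularFunctionFieldFullC (ZMod ℓ) N →
      (evalSer (ZMod ℓ) (jqModC (ZMod ℓ))⁻¹).IsIntegralElem w →
      ∃ c : IntElt A N, c.IsInf ∧ coeffMap (residue A) c.y = coeffMap φ w) :
    ReductionInputsModL A N :=
  node_rim_of_lift N hF.out hℓN A hA
    (fun z hz => lift_fin_of_base_liesOver A hA hbfin z hz)
    (fun z hz => lift_inf_of_base_liesOver A hA hbinf z hz)

/-- **NODE [RIM] from (H3) for a model over a base ring `R₀`** (e.g. `R₀ = ℤ_(ℓ)`):
* `h0fin` : every `w ∈ F_{N,𝔽_ℓ}` integral over `𝔽_ℓ[j̄]` is the reduction of a series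
  `y₀ ∈ R₀((q))`, integral over `R₀[j]`, whose image in `ℚ̄((q))` lies in `F̄_N`;
* `h0inf` : the same with `j⁻¹` (`u₀ ∈ R₀((q))` the inverse of `j`). -/
theorem node_rim_of_ring {R₀ : Type*} [CommRing R₀] (ψ : R₀ →+* A) (ρ₀ : R₀ →+* ZMod ℓ)
    (φ₀ : ZMod ℓ →+* kA A) (hcomp : (residue A).comp ψ = φ₀.comp ρ₀)
    (h0fin : ∀ w : LaurentSeries (ZMod ℓ), w ∈ modularFunctionFieldFullC (ZMod ℓ) N →
      (evalSer (ZMod ℓ) (jqModC (ZMod ℓ))).IsIntegralElem w →
      ∃ y₀ : LaurentSeries R₀,
        coeffMap (A.subtype.comp ψ) y₀ ∈ modularFunctionFieldBar N ∧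
        (evalSer R₀ (jqModC R₀)).IsIntegralElem y₀ ∧ coeffMap ρ₀ y₀ = w)
    (h0inf : ∀ w : LaurentSeries (ZMod ℓ), w ∈ modularFunctionFieldFullC (ZMod ℓ) N →
      (evalSer (ZMod ℓ) (jqModC (ZMod ℓ))⁻¹).IsIntegralElem w →
      ∃ u₀ y₀ : LaurentSeries R₀, u₀ * jqModC R₀ = 1 ∧
        coeffMap (A.subtype.comp ψ) y₀ ∈ modularFunctionFieldBar N ∧
        (evalSer R₀ u₀).IsIntegralElem y₀ ∧ coeffMap ρ₀ y₀ = w) :
    ReductionInputsModL A N := by
  have hφ : ∀ φ : ZMod ℓ →+* kA A, φ = φ₀ := fun φ => Subsingleton.elim _ _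
  have hmemk := reduction_mem_fullC N hF.out hℓN A hA
  refine node_rim_of_base N hℓN A hA ?_ ?_
  · intro φ w hw hwi
    rw [hφ φ]
    exact base_fin_of_ring A ψ ρ₀ φ₀ hcomp hmemk h0fin w hw hwi
  · intro φ w hw hwi
    rw [hφ φ]
    obtain ⟨u₀, y₀, hu, hy1, hy2, hy3⟩ := h0inf w hw hwi
    have hmem : coeffMap A.subtype (coeffMap ψ y₀) ∈ modularFunctionFieldBar N := by
      rw [coeffMap_coeffMap]
      exact hy1
    refine ⟨⟨coeffMap ψ y₀, hmem, hmemk _ hmem⟩, ⟨coeffMap ψ u₀, ?_, ?_⟩, ?_⟩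
    · have h1 := congrArg (coeffMap ψ) hu
      rw [map_mul, map_one, coeffMap_jqModC] at h1
      exact h1
    · exact isIntegralElem_coeffMap ψ hy2
    · show coeffMap (residue A) (coeffMap ψ y₀) = coeffMap φ₀ w
      rw [coeffMap_coeffMap, hcomp, ← coeffMap_coeffMap, hy3]

end NodeBase

end Fermat.Agent.S37.H579.RimBase

end
end
-- ===== PACK-END S37/H579/RimOfBase.lean

-- ===== PACK-BEGIN S29/H718/KAdd.lean
section
/-
S29 / layer M / sub-layer M4b, piece `K4-ADD` (helper718): additivity of the Kummer relation.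
-/



set_option autoImplicit false

noncomputable section

open ModularCurve AlgebraicCurve CongruenceSubgroup UpperHalfPlane
open scoped MatrixGroups Manifold

namespace Fermat.Agent.S29.H718

open Fermat.Agent.S24 Fermat.Agent.S29 Fermat.Agent.S29.M4b

/-- `ζ_p ^ p = 1`. -/
theorem zetaP_pow_self (p : ℕ) [NeZero p] : zetaP p ^ p = 1 := by
  unfold zetaP
  rw [← Complex.exp_nat_mul]
  have hp : (p : ℂ) ≠ 0 := Nat.cast_ne_zero.mpr (NeZero.ne p)
  rw [mul_div_cancel₀ _ hp]
  exact Complex.exp_two_pi_mul_I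

/-- `ζ_p ^ (a + b).val = ζ_p ^ a.val * ζ_p ^ b.val` for `a b : ZMod p`. -/
theorem zetaP_pow_val_add (p : ℕ) [NeZero p] (a b : ZMod p) :
    zetaP p ^ (a + b).val = zetaP p ^ a.val * zetaP p ^ b.val := by
  rw [← pow_add, ZMod.val_add]
  conv_rhs => rw [← Nat.mod_add_div (a.val + b.val) p]
  rw [pow_add, pow_mul, zetaP_pow_self, one_pow, mul_one]

end Fermat.Agent.S29.H718

namespace Fermat.Agent.S29.H718

open Fermat.Agent.S24 Fermat.Agent.S29 Fermat.Agent.S29.M4b

/-- A realised nonzero element is realised by a function which is not identically zero. -/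
theorem exists_ne_zero_of_realises (N : ℕ) [NeZero N] {u : FF N} (hu : u ≠ 0) {G : ℍ → ℂ}
    (hG : Realises N u G) : ∃ τ : ℍ, G τ ≠ 0 := by
  by_contra hcon
  push Not at hcon
  have hG0 : G = 0 := funext hcon
  have hmer : H708.IsMerInf 1 G := H882.isMerInf_of_mem_goodRing hG.1
  have h0 : H708.qexpFun 1 G = 0 := (H708.qexpFun_eq_zero_iff hmer).mpr hG0
  have h1 := hG.2
  rw [h0] at h1
  have h2 : ((u : FF N) : LaurentSeries Kbar) = 0 :=
    (coeffMap Deg457.iotaC).injective (by rw [← h1, map_zero])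
  exact hu (Subtype.ext h2)

/-- Realisation is multiplicative. -/
theorem realises_mul (N : ℕ) [NeZero N] {u v : FF N} {G G' : ℍ → ℂ}
    (hG : Realises N u G) (hG' : Realises N v G') : Realises N (u * v) (G * G') := by
  refine ⟨(H648.goodRing N).mul_mem hG.1 hG'.1, ?_⟩
  rw [H708.qexpFun_mul (H882.isMerInf_of_mem_goodRing hG.1)
    (H882.isMerInf_of_mem_goodRing hG'.1), hG.2, hG'.2, ← map_mul]
  rfl

/-- PIECE `K4-ADD`: additivity of the Kummer relation (product of the data). -/
theorem isKum_add (N : ℕ) [NeZero N] (p : ℕ) [NeZero p] {c c' : G0 N → ZMod p} {x x' : JZero N}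
    (h : IsKum N p c x) (h' : IsKum N p c' x') : IsKum N p (c + c') (x + x') := by
  obtain ⟨f, t, U, ht, hx, hU, hR⟩ := h
  obtain ⟨f', t', U', ht', hx', hU', hR'⟩ := h'
  have hpow : (fun τ => (U τ * U' τ) ^ p) = (fun τ => U τ ^ p) * (fun τ => U' τ ^ p) := by
    funext τ
    simp [mul_pow]
  have hprod : f * f' * (t * t') ^ p = (f * t ^ p) * (f' * t' ^ p) := by ring
  have hRR : Realises N (f * f' * (t * t') ^ p) (fun τ => (U τ * U' τ) ^ p) := by
    rw [hpow, hprod]
    exact realises_mul N hR hR'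
  have hne : f * f' * (t * t') ^ p ≠ 0 :=
    mul_ne_zero (mul_ne_zero hx.ne_zero hx'.ne_zero) (pow_ne_zero _ (mul_ne_zero ht ht'))
  refine ⟨f * f', t * t', fun τ => U τ * U' τ, mul_ne_zero ht ht', hx.add hx', ?_, hRR⟩
  refine ⟨hU.mdiff.mul hU'.mdiff, ?_, ?_, hRR.1⟩
  · obtain ⟨τ, hτ⟩ := exists_ne_zero_of_realises N hne hRR
    exact ⟨τ, fun h0 => hτ (by simp only [h0]; exact zero_pow (NeZero.ne p))⟩
  · intro γ τ
    show U ((γ : SL(2, ℤ)) • τ) * U' ((γ : SL(2, ℤ)) • τ) = _
    rw [hU.hasChar γ τ, hU'.hasChar γ τ, Pi.add_apply, zetaP_pow_val_add]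
    ring

end Fermat.Agent.S29.H718

end
end
-- ===== PACK-END S29/H718/KAdd.lean

-- ===== PACK-BEGIN S59/TW/H81/D561/DictOps.lean
section





-- Vendored VERBATIM (namespace renamed) by helper81 from helper561's off-main
-- `Fermat/Agent/S38/H561/DictOps.lean` (origin/helper561), so that the S59 leaf DICT-T is
-- self-contained on main.  All credit for this file: helper561.

/-!
# Row HARD, cell HECKE, leaf DICT (helper561): the operators

Vocabulary of helper653 / helper658 (`S59/TW/H653`, `S59/TW/H658`): `Γ₁(M) ≤ K ≤ Γ₀(M)`,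
`X_K(A) = Additive K →+ A`, `TK`, `diamondU`, `perG`, `TForm`, `diaForm`, `tFam`.

* `OpIdx N' S M` : the index set `{good primes ℓ} ⊕ (ℤ/M)ˣ` of the operators
  `t_ℓ = ⟨u ℓ⟩ T_ℓ` and `⟨d⟩`;
* `opB` : these operators on `X_K(A)` (Betti side);  `opF` : on `S₂(K)` (forms);
* `perG_opF` : the period map intertwines them;  `opB_comm`, `opF_comm` : they commute;
* `finiteDimensional_cuspFormG` : `S₂(K)` is finite-dimensional.
-/

set_option autoImplicit false
set_option linter.unusedSectionVars false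
set_option linter.style.haveILetI false

noncomputable section

namespace Fermat.Agent.S59.TW.H81.D561

open CongruenceSubgroup ModularForm ModularCurve ModularCurve.Period
open UpperHalfPlane hiding I
open Matrix.SpecialLinearGroup
open Fermat.Agent.S59.TW.H653 Fermat.Agent.S59.TW.H564 Fermat.Agent.S59.TW.H658
open scoped Manifold MatrixGroups ModularForm

/-! ## Finite dimensionality -/

section FinDim

variable {Γ : Subgroup SL(2, ℤ)} [Γ.FiniteIndex]

theorem fg_of_finiteIndex_h561 : Group.FG Γ := by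
  have : Group.FG SL(2, ℤ) :=
    Group.fg_iff.mpr ⟨{ModularGroup.S, ModularGroup.T},
      _root_.SpecialLinearGroup.SL2Z_generators, Set.toFinite _⟩
  exact Subgroup.fg_of_index_ne_zero Γ

/-- An additive character of `Γ` vanishing on a generating set vanishes. -/
theorem addHom_eq_zero_of_generators {A : Type*} [AddCommGroup A] (φ : Additive Γ →+ A)
    (s : Set Γ) (hs : Subgroup.closure s = ⊤) (h : ∀ γ ∈ s, φ (Additive.ofMul γ) = 0) :
    φ = 0 := by
  let H : Subgroup Γ :=
    { carrier := {γ | φ (Additive.ofMul γ) = 0}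
      one_mem' := by
        show φ (Additive.ofMul 1) = 0
        rw [ofMul_one, map_zero]
      mul_mem' := by
        intro a b ha hb
        show φ (Additive.ofMul (a * b)) = 0
        rw [ofMul_mul, map_add, ha, hb, add_zero]
      inv_mem' := by
        intro a ha
        show φ (Additive.ofMul a⁻¹) = 0
        rw [ofMul_inv, map_neg, ha, neg_zero] }
  have hle : Subgroup.closure s ≤ H := (Subgroup.closure_le H).mpr h
  rw [hs] at hle
  refine AddMonoidHom.ext fun γ => ?_
  exact hle (Subgroup.mem_top (Additive.toMul γ))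

/-- `S₂(Γ)` is finite-dimensional (the period map is injective and `Γ` is finitely
generated). -/
theorem finiteDimensional_cuspFormG (Γ : Subgroup SL(2, ℤ)) [Γ.FiniteIndex] :
    FiniteDimensional ℂ (CuspForm Γ 2) := by
  classical
  obtain ⟨s, hs⟩ := Group.fg_iff.mp (fg_of_finiteIndex_h561 (Γ := Γ))
  obtain ⟨hs, hfin⟩ := hs
  haveI : Finite s := hfin
  let L : CuspForm Γ 2 →ₗ[ℂ] (s → ℂ) :=
    { toFun := fun f γ => perG f (Additive.ofMul (γ : Γ))
      map_add' := by
        intro f g
        funext γ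
        rw [perG_add]
        rfl
      map_smul' := by
        intro c f
        funext γ
        rw [perG_smul]
        rfl }
  refine FiniteDimensional.of_injective L ?_
  rw [← LinearMap.ker_eq_bot, LinearMap.ker_eq_bot']
  intro f hf
  apply eq_zero_of_perG_eq_zero
  apply addHom_eq_zero_of_generators (perG f) s hs
  intro γ hγ
  exact congrFun hf ⟨γ, hγ⟩

end FinDim

/-! ## The operators -/

/-- The index set of the operators: the good primes `ℓ` (for `t_ℓ = ⟨u ℓ⟩ T_ℓ`) and the units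
`d` modulo `M` (for the diamond operators `⟨d⟩`). -/
abbrev OpIdx (N' : ℕ) (S : Set ℕ) (M : ℕ) : Type := GoodPrime N' S ⊕ (ZMod M)ˣ

variable {M : ℕ} {K : Subgroup SL(2, ℤ)}

section Betti

variable (hK : IsMid M K) (A : Type*) [AddCommGroup A]

/-- The diamond operator `⟨d⟩` as a `ℤ`-linear endomorphism of `X_K(A)`. -/
def diaEnd (d : (ZMod M)ˣ) : Module.End ℤ (Additive K →+ A) :=
  (AddMonoidHom.mk' (diamondU hK d) (diamondU_add hK d)).toIntLinearMap

@[simp] theorem diaEnd_apply (d : (ZMod M)ˣ) (φ : Additive K →+ A) :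
    diaEnd hK A d φ = diamondU hK d φ := rfl

/-- The operators `t_ℓ = ⟨u ℓ⟩ T_ℓ` and `⟨d⟩` on `X_K(A)`. -/
def opB {N' : ℕ} (hMN : M ∣ N') (u : ℕ → (ZMod M)ˣ) {S : Set ℕ} :
    OpIdx N' S M → Module.End ℤ (Additive K →+ A)
  | Sum.inl i => tFam hK A hMN u i
  | Sum.inr d => diaEnd hK A d

variable {A}

theorem opB_inl_apply {N' : ℕ} (hMN : M ∣ N') (u : ℕ → (ZMod M)ˣ) {S : Set ℕ}
    (i : GoodPrime N' S) (φ : Additive K →+ A) :
    opB hK A hMN u (Sum.inl i : OpIdx N' S M) φ =
      haveI : Fact i.1.Prime := ⟨i.2.1⟩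
      diamondU hK (u i.1) (TK M K i.1 φ) := rfl

theorem opB_inr_apply {N' : ℕ} (hMN : M ∣ N') (u : ℕ → (ZMod M)ˣ) {S : Set ℕ}
    (d : (ZMod M)ˣ) (φ : Additive K →+ A) :
    opB hK A hMN u (Sum.inr d : OpIdx N' S M) φ = diamondU hK d φ := rfl

/-- The operators commute with the change of coefficients. -/
theorem opB_comp {B : Type*} [AddCommGroup B] {N' : ℕ} (hMN : M ∣ N') (u : ℕ → (ZMod M)ˣ)
    {S : Set ℕ} (j : OpIdx N' S M) (π : A →+ B) (φ : Additive K →+ A) :
    opB hK B hMN u j (π.comp φ) = π.comp (opB hK A hMN u j φ) := by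
  rcases j with i | d
  · exact tFam_comp hK hMN u i π φ
  · exact diamondU_comp hK d π φ

/-- The operators commute. -/
theorem opB_comm [NeZero M] {N' : ℕ} (hMN : M ∣ N') (u : ℕ → (ZMod M)ˣ) {S : Set ℕ}
    (j j' : OpIdx N' S M) (φ : Additive K →+ A) :
    opB hK A hMN u j (opB hK A hMN u j' φ) = opB hK A hMN u j' (opB hK A hMN u j φ) := by
  rcases j with i | d <;> rcases j' with i' | d'
  · haveI : Fact i.1.Prime := ⟨i.2.1⟩
    haveI : Fact i'.1.Prime := ⟨i'.2.1⟩
    have hℓ : ¬ i.1 ∣ M := fun h => i.2.2.1 (h.trans hMN)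
    have hℓ' : ¬ i'.1 ∣ M := fun h => i'.2.2.1 (h.trans hMN)
    rw [opB_inl_apply, opB_inl_apply, opB_inl_apply, opB_inl_apply]
    rw [diamondU_TK hK hℓ, diamondU_TK hK hℓ', ← diamondU_mul, ← diamondU_mul,
      TK_comm hK hℓ hℓ', mul_comm]
  · haveI : Fact i.1.Prime := ⟨i.2.1⟩
    have hℓ : ¬ i.1 ∣ M := fun h => i.2.2.1 (h.trans hMN)
    rw [opB_inl_apply, opB_inr_apply, opB_inl_apply, opB_inr_apply]
    rw [diamondU_TK hK hℓ, ← diamondU_mul, ← diamondU_mul, mul_comm]
  · haveI : Fact i'.1.Prime := ⟨i'.2.1⟩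
    have hℓ' : ¬ i'.1 ∣ M := fun h => i'.2.2.1 (h.trans hMN)
    rw [opB_inl_apply, opB_inr_apply, opB_inl_apply, opB_inr_apply]
    rw [diamondU_TK hK hℓ', ← diamondU_mul, ← diamondU_mul, mul_comm]
  · rw [opB_inr_apply, opB_inr_apply, opB_inr_apply, opB_inr_apply]
    rw [← diamondU_mul, ← diamondU_mul, mul_comm]

end Betti

section Forms

variable [NeZero M] [K.FiniteIndex] (hK : IsMid M K)

/-- The operators `t_ℓ = ⟨u ℓ⟩ T_ℓ` and `⟨d⟩` on `S₂(K)`. -/
def opF {N' : ℕ} (hMN : M ∣ N') (u : ℕ → (ZMod M)ˣ) {S : Set ℕ} :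
    OpIdx N' S M → Module.End ℂ (CuspForm K 2)
  | Sum.inl i =>
    haveI : Fact i.1.Prime := ⟨i.2.1⟩
    (diaForm hK (sg (u i.1))).comp (TForm hK (fun h => i.2.2.1 (h.trans hMN)))
  | Sum.inr d => diaForm hK (sg d)

/-- **The period map intertwines the operators on forms and on `X_K(ℂ)`.** -/
theorem perG_opF {N' : ℕ} (hMN : M ∣ N') (u : ℕ → (ZMod M)ˣ) {S : Set ℕ}
    (j : OpIdx N' S M) (f : CuspForm K 2) :
    perG (opF hK hMN u j f) = opB hK ℂ hMN u j (perG f) := by
  rcases j with i | d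
  · haveI : Fact i.1.Prime := ⟨i.2.1⟩
    have hℓ : ¬ i.1 ∣ M := fun h => i.2.2.1 (h.trans hMN)
    show perG (diaForm hK (sg (u i.1)) (TForm hK hℓ f)) = _
    rw [perG_diaForm, perG_TForm, opB_inl_apply, ← diamondU_eq hK (dUnit_sg (u i.1))]
  · show perG (diaForm hK (sg d) f) = _
    rw [perG_diaForm, opB_inr_apply, ← diamondU_eq hK (dUnit_sg d)]

/-- The operators on `S₂(K)` commute. -/
theorem opF_comm {N' : ℕ} (hMN : M ∣ N') (u : ℕ → (ZMod M)ˣ) {S : Set ℕ}
    (j j' : OpIdx N' S M) :
    opF hK hMN u j * opF hK hMN u j' = opF hK hMN u j' * opF hK hMN u j := by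
  refine LinearMap.ext fun f => ?_
  apply perG_injective K
  rw [Module.End.mul_apply, Module.End.mul_apply, perG_opF, perG_opF, perG_opF, perG_opF]
  exact opB_comm hK hMN u j j' (perG f)

end Forms

end Fermat.Agent.S59.TW.H81.D561

end
end
-- ===== PACK-END S59/TW/H81/D561/DictOps.lean

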