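import Fermat.Agent.Pack.S43MC.G0E24L2
import Fermat.Agent.Pack.S43MC.G0E21L1
import Fermat.Agent.Pack.S43MC.G0E24L3
import Fermat.Agent.Pack.S44C.G0E27L3
import Fermat.Agent.Pack.S44C.G0E9L3
import Fermat.Agent.Pack.S44C.G0E27L0
import Fermat.Agent.Pack.S43MC.G0E24L1
import Fermat.Agent.Pack.S43MC.G0E7L3
import Fermat.Agent.Pack.S44C.G0E24L3
import Fermat.Agent.Pack.S43MC.G0E18L2
import Fermat.Agent.Pack.S43MC.G0E18L1
import Fermat.Agent.Pack.S44C.G0E17L0
import Fermat.Agent.Pack.S44C.G0E26L3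
import Fermat.Agent.Pack.S43MC.G0E3L2
import Fermat.Agent.Pack.S43GC.G0E9L0
import Fermat.Agent.Pack.S43MC.G0E20L0
import Fermat.Agent.Pack.S44C.G0E26L2
import Fermat.Agent.Pack.S43MC.G0E4L2
import Fermat.Agent.Pack.S44C.G0E19L1
import Fermat.Agent.Pack.S43MC.G0E4L0
import Fermat.Agent.Pack.Fast891

-- ===== PACK-BEGIN Ribet/H818/SwapCut.lean
section



/-!
# Row RIBET, WALL-q — ALG-FROB for a component-SWAPPING Frobenius, interface form (helper818)

`algFrobSwapU : AlgFrobSwapStatementU` (UNCONDITIONAL).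

`AlgFrobSwapStatementU` is the statement `S35.H433.AlgFrobStatementU` (= the frozen
`S35.G.AlgFrobStatement` with the corrected `PowVU`) with

* `ψ` preserving `V₁`, `V₂`   REPLACED BY   `ψ V₁ ⊆ V₂`, `ψ V₂ ⊆ V₁`   (`ψ` swaps the components),
* conclusion `ψ h = y ^ m · h ^ Q`   REPLACED BY   `ψ h · h ^ Q = y ^ m`,
* the two `SepCoord` hypotheses dropped.

Model case (Mazur's principle at `q ‖ N = M q`): `ψ = σ ∘ w_q` on `F_E(M q)`, `σ` = action of a
Frobenius lift on the coefficients, `w_q` the Atkin–Lehner involution (it fixes `x = j · j_q`,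
swaps `V∞` and `V₀`, and induces the Frobenius on the supersingular points), `Q = q`.  Then for
every toric Kummer generator `h` (residues at `V∞`, `V₀` are `m`-th powers):
`σ (w_q h) · h ^ q ∈ (Fˣ)^m`, i.e. `Frob_q = -q · w_q` on the toric part of `J₀(N)[m]`.
-/

set_option autoImplicit false
set_option linter.unusedSectionVars false
set_option linter.unusedVariables false

namespace Fermat.Agent.Ribet.H818

open Fermat.Agent.A2 Fermat.Agent.A2.Alg Fermat.Agent.A2.H348 Fermat.Agent.A2.Alg.H348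
open Fermat.Agent.S35.H433
open Fermat.Agent.S35.G (CutBy NodeStable)

section Phi

variable {R F : Type*} [CommRing R] [Field F] [Algebra R F]

/-- `ψ` maps the component cut out by `V` into the component cut out by `V'` if `ψ V ⊆ V'`. -/
theorem restrictHom_mem_of_cut₂ {w : R} {B : Subalgebra R F} {p p' : Ideal B}
    (V V' : ValuationSubring F) (hle' : ∀ b ∈ B, b ∈ V')
    (hcut : ∀ b : B, b ∈ p ↔ (b : F) * (algebraMap R F w)⁻¹ ∈ V)
    (hcut' : ∀ b : B, b ∈ p' ↔ (b : F) * (algebraMap R F w)⁻¹ ∈ V')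
    (ψ : F ≃+* F) (hψB : ∀ b : F, b ∈ B → ψ b ∈ B) (hψV : ∀ f ∈ V, ψ f ∈ V')
    (t : R) (hψw : ψ (algebraMap R F w) = algebraMap R F w * algebraMap R F t)
    (hw0 : algebraMap R F w ≠ 0) {b : B} (hb : b ∈ p) : restrictHom ψ B hψB b ∈ p' := by
  rw [hcut] at hb
  rw [hcut']
  have h1 := hψV _ hb
  rw [map_mul, map_inv₀, hψw] at h1
  have ht0 : algebraMap R F t ≠ 0 := by
    intro h
    have : ψ (algebraMap R F w) = 0 := by rw [hψw, h, mul_zero]
    exact hw0 ((map_eq_zero_iff ψ ψ.injective).1 this)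
  have e : ((restrictHom ψ B hψB b : B) : F) * (algebraMap R F w)⁻¹
      = ψ b * (algebraMap R F w * algebraMap R F t)⁻¹ * algebraMap R F t := by
    rw [coe_restrictHom]
    field_simp
  rw [e]
  exact V'.mul_mem _ _ h1 (hle' _ (B.algebraMap_mem t))

/-- `ψ` maps `B_p` onto `B_{p'}` if it preserves `B` and maps `p` onto `p'`. -/
theorem swap_mem_locAt_iff {B : Subalgebra R F} {p p' : Ideal B} [hp : p.IsPrime]
    [hp' : p'.IsPrime] (ψ : F ≃+* F)
    (hψB : ∀ b : F, b ∈ B → ψ b ∈ B) (hψB' : ∀ b : F, ψ b ∈ B → b ∈ B)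
    (hmap : ∀ b : B, restrictHom ψ B hψB b ∈ p' ↔ b ∈ p) (z : F) :
    ψ z ∈ locAt B p' ↔ z ∈ locAt B p := by
  constructor
  · rintro ⟨s, hs, hsz⟩
    have hs'B : ψ.symm (s : F) ∈ B := hψB' _ (by rw [ψ.apply_symm_apply]; exact s.2)
    refine ⟨⟨ψ.symm s, hs'B⟩, ?_, ?_⟩
    · intro h
      apply hs
      have := (hmap ⟨ψ.symm s, hs'B⟩).2 h
      have e : restrictHom ψ B hψB ⟨ψ.symm s, hs'B⟩ = s :=
        Subtype.ext (by simp)
      rwa [e] at this
    · apply hψB'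
      show ψ (ψ.symm (s : F) * z) ∈ B
      rw [map_mul, ψ.apply_symm_apply]
      exact hsz
  · rintro ⟨s, hs, hsz⟩
    refine ⟨restrictHom ψ B hψB s, fun h => hs ((hmap s).1 h), ?_⟩
    rw [coe_restrictHom, ← map_mul]
    exact hψB _ hsz

end Phi

section Data

variable {R E F : Type*} [CommRing R] [IsDomain R] [IsDiscreteValuationRing R]
  [Field E] [CharZero E] [Algebra R E] [IsFractionRing R E]
  [Field F] [Algebra E F] [Algebra R F] [IsScalarTower R E F]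

/-- `ψ` swaps (both ways) the two components of a chart which are cut out by two valuation rings
swapped by `ψ`. -/
theorem restrictHom_swap_iff_of_cut (w : R) (x : F) (B : Subalgebra R F) (hB : ChartCtx E w x B)
    {p p' : Ideal B} [hp : p.IsPrime] [hp' : p'.IsPrime]
    (hinf : p ⊓ p' = Ideal.span {algebraMap R B w}) (hle₁ : ¬ p' ≤ p)
    (V V' : ValuationSubring F) (hle : ∀ b ∈ B, b ∈ V) (hle' : ∀ b ∈ B, b ∈ V')
    (hcut : ∀ b : B, b ∈ p ↔ (b : F) * (algebraMap R F w)⁻¹ ∈ V)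
    (hcut' : ∀ b : B, b ∈ p' ↔ (b : F) * (algebraMap R F w)⁻¹ ∈ V')
    (ψ : F ≃+* F) (ψR : R ≃+* R)
    (hψR : ∀ r : R, ψ (algebraMap R F r) = algebraMap R F (ψR r))
    (hψB : ∀ b : F, b ∈ B → ψ b ∈ B) (hψB' : ∀ b : F, ψ b ∈ B → b ∈ B)
    (hψV : ∀ f ∈ V, ψ f ∈ V') (hψV' : ∀ f ∈ V', ψ f ∈ V) (b : B) :
    restrictHom ψ B hψB b ∈ p' ↔ b ∈ p := by
  have hw0 : algebraMap R F w ≠ 0 := by
    intro h
    exact hB.hw.ne_zero (H34.algebraMap_RF_injective (R := R) (F := F) E (by rw [h, map_zero]))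
  have hmax : ∀ (e : R ≃+* R), ∃ t : R, e w = w * t := by
    intro e
    have h1 : e w ∈ IsLocalRing.maximalIdeal R := by
      rw [IsLocalRing.mem_maximalIdeal, mem_nonunits_iff]
      intro hu
      apply hB.hw.not_isUnit
      have := hu.map e.symm
      rwa [RingEquiv.symm_apply_apply] at this
    rw [hB.hw.maximalIdeal_eq, Ideal.mem_span_singleton] at h1
    exact h1
  obtain ⟨t, ht⟩ := hmax ψR
  have hψw : ψ (algebraMap R F w) = algebraMap R F w * algebraMap R F t := by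
    rw [hψR, ht, map_mul]
  have hfwd : ∀ c : B, c ∈ p → restrictHom ψ B hψB c ∈ p' := fun c hc =>
    restrictHom_mem_of_cut₂ V V' hle' hcut hcut' ψ hψB hψV t hψw hw0 hc
  have hfwd' : ∀ c : B, c ∈ p' → restrictHom ψ B hψB c ∈ p := fun c hc =>
    restrictHom_mem_of_cut₂ V' V hle hcut' hcut ψ hψB hψV' t hψw hw0 hc
  refine ⟨fun h => ?_, hfwd b⟩
  -- `ψ²` preserves `V`, hence `p` (both ways)
  have hψ2R : ∀ r : R, (ψ.trans ψ) (algebraMap R F r) = algebraMap R F ((ψR.trans ψR) r) := by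
    intro r
    rw [RingEquiv.trans_apply, RingEquiv.trans_apply, hψR, hψR]
  have hψ2B : ∀ c : F, c ∈ B → (ψ.trans ψ) c ∈ B := fun c hc => by
    rw [RingEquiv.trans_apply]
    exact hψB _ (hψB _ hc)
  have hψ2B' : ∀ c : F, (ψ.trans ψ) c ∈ B → c ∈ B := fun c hc => by
    rw [RingEquiv.trans_apply] at hc
    exact hψB' _ (hψB' _ hc)
  have hψ2V : ∀ f ∈ V, (ψ.trans ψ) f ∈ V := fun f hf => by
    rw [RingEquiv.trans_apply]
    exact hψV' _ (hψV _ hf)
  have h2 := restrictHom_mem_iff_of_cut w x B hB hinf hle₁ V hle hcut (ψ.trans ψ) (ψR.trans ψR)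
    hψ2R hψ2B hψ2B' hψ2V b
  apply h2.1
  have h3 := hfwd' _ h
  have e : restrictHom (ψ.trans ψ) B hψ2B b = restrictHom ψ B hψB (restrictHom ψ B hψB b) :=
    Subtype.ext (by simp)
  rw [e]
  exact h3

end Data

/-- **ALG-FROB for a swapping `ψ` (interface statement)**: `S35.H433.AlgFrobStatementU` with `ψ`
swapping `V₁` and `V₂` (and without `SepCoord`); conclusion `ψ h · h ^ Q = y ^ m`. -/
def AlgFrobSwapStatementU : Prop :=
  ∀ {R E F : Type} [CommRing R] [IsDomain R] [IsDiscreteValuationRing R] [HenselianLocalRing R]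
    [IsAlgClosed (IsLocalRing.ResidueField R)]
    [Field E] [CharZero E] [Algebra R E] [IsFractionRing R E]
    [Field F] [Algebra E F] [Algebra R F] [IsScalarTower R E F]
    (w : R) (_ : Irreducible w) (q m Q : ℕ) (_ : q.Prime)
    (_ : (q : R) ∈ IsLocalRing.maximalIdeal R) (_ : 0 < m) (_ : ¬ q ∣ m)
    (x : F) (_ : Transcendental E x)
    (_ : FiniteDimensional (IntermediateField.adjoin E ({x} : Set F)) F)
    (_ : ∀ f : F, IsAlgebraic E f → f ∈ (algebraMap E F).range)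
    (Bf Bi : Subalgebra R F)
    (_ : ∀ f : F, f ∈ Bf ↔ IsIntegral (Algebra.adjoin R ({x} : Set F)) f)
    (_ : ∀ f : F, f ∈ Bi ↔ IsIntegral (Algebra.adjoin R ({x⁻¹} : Set F)) f)
    (cf : A2.SSChart w Bf) (ci : A2.SSChart w Bi)
    (V₁ V₂ : ValuationSubring F) (_ : CutBy w Bf cf V₁ V₂) (_ : CutBy w Bi ci V₁ V₂)
    (ψ : F ≃+* F) (ψE : E ≃+* E) (ψR : R ≃+* R)
    (_ : ∀ e : E, ψ (algebraMap E F e) = algebraMap E F (ψE e))
    (_ : ∀ r : R, ψE (algebraMap R E r) = algebraMap R E (ψR r))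
    (_ : ψ x = x)
    (_ : ∀ r : R, ψR r - r ^ Q ∈ IsLocalRing.maximalIdeal R)
    (_ : ∀ f ∈ V₁, ψ f ∈ V₂) (_ : ∀ f ∈ V₂, ψ f ∈ V₁)
    (_ : NodeStable Bf cf ψ) (_ : NodeStable Bi ci ψ),
    ∀ h : F, h ≠ 0 → A2.DivisibleDiv E m h → PowVU w V₁ m h → PowVU w V₂ m h →
      ∃ y : F, y ≠ 0 ∧ ψ h * h ^ Q = y ^ m

/-- **ALG-FROB for a swapping `ψ`**, unconditional. -/
theorem algFrobSwapU : AlgFrobSwapStatementU := by
  intro R E F _ _ _ _ _ _ _ _ _ _ _ _ _ w hw q m Q hq hqR hm hqm x hx hfin hconst Bf Bi hBf hBi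
    cf ci V₁ V₂ hcutf hcuti ψ ψE ψR hψE hψER hψx hfrob hψV₁ hψV₂ hnodef hnodei h hh hdiv
    hp₁ hp₂
  have hψR : ∀ r : R, ψ (algebraMap R F r) = algebraMap R F (ψR r) := by
    intro r
    rw [IsScalarTower.algebraMap_apply R E F, hψE, hψER, ← IsScalarTower.algebraMap_apply]
  -- `Q > 0`
  have hQ : 0 < Q := by
    rcases Nat.eq_zero_or_pos Q with rfl | hQ
    · exfalso
      have := hfrob 0
      rw [map_zero, pow_zero, zero_sub] at this
      have h1 : (1 : R) ∈ IsLocalRing.maximalIdeal R := by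
        have := (IsLocalRing.maximalIdeal R).neg_mem this
        rwa [neg_neg] at this
      exact (IsLocalRing.maximalIdeal.isMaximal R).ne_top ((Ideal.eq_top_iff_one _).2 h1)
    · exact hQ
  have hfrob' : ∀ r : R, ∃ s : R, ψR r - r ^ Q = w * s := by
    intro r
    have := hfrob r
    rw [hw.maximalIdeal_eq, Ideal.mem_span_singleton] at this
    exact this
  have hCf : ChartCtx E w x Bf := ⟨hw, hx, hfin, hconst, hBf⟩
  have hpr₁ := cf.prime₁
  have hpr₂ := cf.prime₂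
  have hAB := adjoin_le_of_ctx hCf
  -- `ψ` preserves the chart
  have hψB : ∀ b : F, b ∈ Bf → ψ b ∈ Bf := fun b hb => phi_mem_chart ψ ψR hψR hψx Bf hBf hb
  have hψR' : ∀ r : R, ψ.symm (algebraMap R F r) = algebraMap R F (ψR.symm r) := by
    intro r
    rw [RingEquiv.symm_apply_eq, hψR, RingEquiv.apply_symm_apply]
  have hψx' : ψ.symm x = x := by rw [RingEquiv.symm_apply_eq, hψx]
  have hψB' : ∀ b : F, ψ b ∈ Bf → b ∈ Bf := fun b hb => by
    have := phi_mem_chart ψ.symm ψR.symm hψR' hψx' Bf hBf hb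
    rwa [RingEquiv.symm_apply_apply] at this
  -- the local rings of the two components
  let D₁ := compData₁ hCf cf
  let D₂ := compData₂ hCf cf
  let W₁ : ValuationSubring F := D₁.valuationSubring hAB
  let W₂ : ValuationSubring F := D₂.valuationSubring hAB
  have hW₁ : ValCtx w x W₁ := valCtx_locAt w x Bf hCf D₁
  have hW₂ : ValCtx w x W₂ := valCtx_locAt w x Bf hCf D₂
  have hne : W₁ ≠ W₂ := by
    intro heq
    obtain ⟨t, ht2, ht1⟩ := SetLike.not_le_iff_exists.1 cf.not_le₂₁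
    have h1 : (t : F)⁻¹ ∈ W₁ :=
      ⟨t, ht1, by rw [mul_inv_cancel₀ (coe_ne_zero_of_not_mem ht1)]; exact Bf.one_mem⟩
    rw [heq] at h1
    obtain ⟨s, hs, hst⟩ := h1
    apply hs
    have e : s = ⟨(s : F) * (t : F)⁻¹, hst⟩ * t := by
      apply Subtype.ext
      push_cast
      rw [mul_assoc, inv_mul_cancel₀ (coe_ne_zero_of_not_mem ht1), mul_one]
    rw [e]
    exact cf.p₂.mul_mem_left _ ht2
  -- `ψ` swaps the two components
  have hmap₁₂ : ∀ b : Bf, restrictHom ψ Bf hψB b ∈ cf.p₂ ↔ b ∈ cf.p₁ :=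
    restrictHom_swap_iff_of_cut w x Bf hCf cf.inf_eq cf.not_le₂₁ V₁ V₂ hcutf.le₁ hcutf.le₂
      hcutf.cut₁ hcutf.cut₂ ψ ψR hψR hψB hψB' hψV₁ hψV₂
  have hmap₂₁ : ∀ b : Bf, restrictHom ψ Bf hψB b ∈ cf.p₁ ↔ b ∈ cf.p₂ :=
    restrictHom_swap_iff_of_cut w x Bf hCf (by rw [inf_comm]; exact cf.inf_eq) cf.not_le₁₂
      V₂ V₁ hcutf.le₂ hcutf.le₁ hcutf.cut₂ hcutf.cut₁ ψ ψR hψR hψB hψB' hψV₂ hψV₁
  have hψW₁ : ∀ z : F, ψ z ∈ W₁ ↔ z ∈ W₂ := swap_mem_locAt_iff ψ hψB hψB' hmap₂₁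
  have hψW₂ : ∀ z : F, ψ z ∈ W₂ ↔ z ∈ W₁ := swap_mem_locAt_iff ψ hψB hψB' hmap₁₂
  have hV₁W₁ : ∀ z : F, z ∈ V₁ → z ∈ W₁ := le_locAt_of_cut D₁ hAB V₁ hcutf.le₁ hcutf.cut₁
  have hV₂W₂ : ∀ z : F, z ∈ V₂ → z ∈ W₂ := le_locAt_of_cut D₂ hAB V₂ hcutf.le₂ hcutf.cut₂
  exact swapToricVal w hw q m hq hqR hm hqm x hx hfin hconst Bf Bi hBf hBi
    cf ci W₁ W₂ hW₁ hW₂ hne ψ ψE ψR Q hQ hψE hψER hfrob' hψx hψW₁ hψW₂
    (fun n hn h1 h2 b hb hb' => hnodef n hn h1 h2 b hb ⟨ψ b, hb'⟩ rfl)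
    (fun n hn h1 h2 b hb hb' => hnodei n hn h1 h2 b hb ⟨ψ b, hb'⟩ rfl)
    h hh hdiv (gSplitV_of_powVU hV₁W₁ hW₁.hw hW₁.hR hp₁) (gSplitV_of_powVU hV₂W₂ hW₂.hw hW₂.hR hp₂)

end Fermat.Agent.Ribet.H818

end
-- ===== PACK-END Ribet/H818/SwapCut.lean

-- ===== PACK-BEGIN S29/H222/ESKAdapterNormId.lean
section
/-
S29 / helper222 — piece ESK, adapter: `NormIdFamily` is discharged from the landed NORM-ID
(helper819, `Fermat.Agent.S37.H819.normId`; independent copies: helper157 `node_normid`,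
helper748 `norm_heckeBetaBar_eq_kronNorm`).  Hence the Eichler–Shimura input of layer M,
`Fermat.Agent.S29.M.ESStatement`, follows from the two remaining external inputs

* `CoreFamily` : `S18.CoreStatement N A m` for `ℓ ∤ N`, `ℓ ∤ m`, `A` over `ℓ`      (row S18)
* `PGIFamily`  : Prelude `PrincipalGeneratedByIntegral A (residue A) N`             (M1-Gauss)
-/



set_option autoImplicit false
set_option linter.style.haveILetI false

noncomputable section

namespace Fermat.Agent.S29.H222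

/-- Piece NKI (helper819) in family form. -/
theorem normIdFamily : NormIdFamily :=
  fun N _ ℓ _ hℓ hℓN y => Fermat.Agent.S37.H819.normId N ℓ hℓ hℓN y

/-- **ES for layer M** from the two remaining external inputs (S18 core + PGI). -/
theorem esStatement_of_core_pgi (hcore : CoreFamily) (hpgi : PGIFamily) :
    Fermat.Agent.S29.M.ESStatement :=
  esStatement_of_core_pgi_normId hcore hpgi normIdFamily

end Fermat.Agent.S29.H222

end
end
-- ===== PACK-END S29/H222/ESKAdapterNormId.lean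

-- ===== PACK-BEGIN S35/G/H73/Deg.lean
section



/-!
# S35, piece (G'), leaf DEG (helper73): `deg : DegStatement`

The degeneracy push-forwards `degA = α_*`, `degB = β_* : J₀(M q) → J₀(M)` are the maps
`alphaPush`, `betaPush` of helper801 (`Ribet/H801/DegAlpha.lean`, `DegBeta.lean`), whose
inputs (integral, finite, norm formula: `Lib/HI/H864`) and Hecke-equivariance
(`alphaPush_heckeOperatorBar`, `betaPush_heckeOperatorBar`) are on main.
-/

set_option autoImplicit false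

noncomputable section

namespace Fermat.Agent.S35.G.H73

open ModularCurve AlgebraicCurve Fermat.Agent.S35.G Fermat.Agent.Lib.HI

variable (M q : ℕ) [NeZero M] [NeZero q]

/-- The inputs of `pic0Push` for `α`. -/
theorem pushInputs_alpha : PushInputs (heckeAlphaBar Qb M q) :=
  ⟨H864.heckeAlphaBarIntegral M q, H864.finiteAlong_alpha M q, H864.normFormulaAlong_alpha M q _⟩

/-- The inputs of `pic0Push` for `β`. -/
theorem pushInputs_beta : PushInputs (heckeBetaBar Qb M q) :=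
  ⟨H864.heckeBetaBarIntegral M q, H864.finiteAlong_beta M q, H864.normFormulaAlong_beta M q _⟩

/-- `degA` is helper801's `alphaPush`. -/
theorem degA_eq_alphaPush : degA M q = Ribet.H801.alphaPush M q := by
  rw [degA, pic0PushTotal_eq (heckeAlphaBar Qb M q) (H864.heckeAlphaBarIntegral M q)
    (H864.finiteAlong_alpha M q) (H864.normFormulaAlong_alpha M q _)]
  rfl

/-- `degB` is helper801's `betaPush`. -/
theorem degB_eq_betaPush : degB M q = Ribet.H801.betaPush M q := by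
  rw [degB, pic0PushTotal_eq (heckeBetaBar Qb M q) (H864.heckeBetaBarIntegral M q)
    (H864.finiteAlong_beta M q) (H864.normFormulaAlong_beta M q _)]
  rfl

/-- `degA` is Galois-equivariant. -/
theorem degA_smul (σ : Qb ≃ₐ[ℚ] Qb) (x : JZero (M * q)) : degA M q (σ • x) = σ • degA M q x := by
  rw [degA_eq_alphaPush]
  exact Ribet.H801.alphaPush_smul M q σ x

/-- `degB` is Galois-equivariant. -/
theorem degB_smul (σ : Qb ≃ₐ[ℚ] Qb) (x : JZero (M * q)) : degB M q (σ • x) = σ • degB M q x := by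
  rw [degB_eq_betaPush]
  exact Ribet.H801.betaPush_smul M q σ x

end Fermat.Agent.S35.G.H73

namespace Fermat.Agent.S35.G.H73

open ModularCurve AlgebraicCurve Fermat.Agent.S35.G

/-- **DEG.** -/
theorem deg : DegStatement := by
  intro M q _ _ hq _
  refine ⟨pushInputs_alpha M q, pushInputs_beta M q, fun ℓ hℓ x => ?_, fun ℓ hℓ x => ?_⟩
  · have hne : (ℓ : ℕ) ≠ q := fun h => hℓ (h ▸ Dvd.intro_left M rfl)
    rw [degA_eq_alphaPush]
    exact Ribet.H801.alphaPush_heckeOperatorBar M q hq ℓ hne x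
  · have hne : (ℓ : ℕ) ≠ q := fun h => hℓ (h ▸ Dvd.intro_left M rfl)
    rw [degB_eq_betaPush]
    exact Ribet.H801.betaPush_heckeOperatorBar M q hq ℓ hne x

end Fermat.Agent.S35.G.H73

end
end
-- ===== PACK-END S35/G/H73/Deg.lean

-- ===== PACK-BEGIN S36/H972/Mod3.lean
section




/-!
# S36 / MOD3 (helper972): the middle valuation `V_mid` at level `q² M`, concretely

Setting of `A2/Mod/Spec` (`Setting P E M q w` : `q` prime, `q ∤ M`, `R_E = P ∩ E` a DVR with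
uniformiser `w`), base UNRAMIFIED at `q` (`Unram`: `q = w · unit`).  `K = F_{Mq}`, `L = F_{Mqq}`,
`α : K → L` the inclusion, `V1` the Gauss valuation ring of `K`, `V` the Gauss valuation ring of
`L`.  From the formal input `EisSeries q A Ψ G` (producer: helper83 `S36/H83/Eis.lean`, bridge in
`EisOfH83.lean`) we get the hypotheses `EisData` of the abstract Eisenstein-split theorem
(`EisSplit.lean`) for `y = j_{q²}`, `c = j`, `a = A(j, j_q)`, and conclude (`mod3_alpha`):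

there is a valuation ring `V_mid ≠ V` of `L` such that
* `V` and `V_mid` are exactly the valuation rings of `L` lying over `V1` along `α`;
* `V_mid` has uniformiser `j_{q²} - j`, `(j_{q²} - j)^(q-1) = w · unit` (`e = q - 1`);
* both have residue degree one over `V1`.
-/

set_option autoImplicit false
set_option linter.unusedSectionVars false
set_option linter.style.haveILetI false
set_option synthInstance.maxHeartbeats 400000
set_option maxHeartbeats 1600000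

noncomputable section

namespace Fermat.Agent.S36.H972

open ModularCurve HahnSeries Polynomial AlgebraicCurve
open Fermat.Agent.A2 Fermat.Agent.A2.Mod Fermat.Agent.A2.H48 Fermat.Agent.S28

/-- The base is unramified at `q`: `q = w · unit` in `R_E`. -/
def Unram (P : ValuationSubring _root_.Fermat.Agent.A2.Mod.Qb) (E : IntermediateField ℚ _root_.Fermat.Agent.A2.Mod.Qb) (q : ℕ) (w : _root_.Fermat.Agent.A2.Mod.RE P E) : Prop :=
  ∃ u : (_root_.Fermat.Agent.A2.Mod.RE P E)ˣ, ((q : ℕ) : E) = (w : E) * ((u : _root_.Fermat.Agent.A2.Mod.RE P E) : E)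

namespace EisData

variable {K L : Type*} [Field K] [Field L] [Algebra K L]
variable {O : ValuationSubring K} {y : L} {ϖ : K}
variable {Ψ G : O[X]} {a c : O} {n : ℕ} (h : EisData O ϖ y Ψ G a c n)

include h in
/-- `y - a` is a unit of `V_c`. -/
theorem inv_sub_a_mem_Vc : (y - algebraMap K L (a : K))⁻¹ ∈ h.Vc := by
  have := @inv_mem_locVal_of_notMem L _ _ _ _ h.isNoetherianRing h.isMaximal_c h.locGen_c
    h.isFracOf _ h.alpha_notMem
  rwa [coe_evS_X_sub_C] at this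

end EisData

section Alpha

variable {P : ValuationSubring _root_.Fermat.Agent.A2.Mod.Qb} {E : IntermediateField ℚ _root_.Fermat.Agent.A2.Mod.Qb} {M q : ℕ} [NeZero M] [NeZero q]
  {w : _root_.Fermat.Agent.A2.Mod.RE P E}

variable (E M q) in
/-- `j_{q²} ∈ F_{Mqq}`. -/
def jqq : _root_.Fermat.Agent.A2.Mod.FE E (M * q * q) := jE E (M * q * q) (q * q) ⟨M, by ring⟩

variable (E M q) in
/-- `j ∈ F_{Mq}`. -/
def jone : _root_.Fermat.Agent.A2.Mod.FE E (M * q) := jE E (M * q) 1 (one_dvd _)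

theorem coe_jqq : ((jqq E M q : _root_.Fermat.Agent.A2.Mod.FE E (M * q * q)) : LaurentSeries E) =
    castE E (qExpand ℤ (q * q) (jqModC ℤ)) := coe_jE' E _ _ _

theorem coe_jone : ((jone E M q : _root_.Fermat.Agent.A2.Mod.FE E (M * q)) : LaurentSeries E) = castE E (jqModC ℤ) := by
  rw [jone, coe_jE', qExpand_one_apply]

/-- `ℤ[J, J_q]` maps into `F_{Mq}`. -/
theorem castE_mem_of_mem_jjRing {g : LaurentSeries ℤ} (hg : g ∈ jjRing q) :
    castE E g ∈ _root_.Fermat.Agent.A2.Mod.FE E (M * q) := by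
  have hle : jjRing q ≤ (_root_.Fermat.Agent.A2.Mod.FE E (M * q)).toSubring.comap (castE E) := by
    rw [jjRing, Subring.closure_le]
    rintro x (rfl | rfl)
    · show castE E (jqModC ℤ) ∈ _root_.Fermat.Agent.A2.Mod.FE E (M * q)
      rw [castE_j]
      exact H378.jser_mem E (M * q) 1 (one_dvd _)
    · show castE E (qExpand ℤ q (jqModC ℤ)) ∈ _root_.Fermat.Agent.A2.Mod.FE E (M * q)
      rw [castE_qExpand_j]
      exact H378.jser_mem E (M * q) q (dvd_mul_left q M)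
  exact hle hg

/-- `j_{q²} ∉ α(F_{Mq})` (Fricke: otherwise `j_M ∈ E((t^q))`). -/
theorem jqq_not_mem_range (hqM : ¬ q ∣ M) (g : _root_.Fermat.Agent.A2.Mod.FE E (M * q)) :
    αE E (M * q) q g ≠ jqq E M q := by
  intro h
  have hc := H553.frickeCompat E (M * q) q (H553.wE E (M * q)) (H553.wE E (M * q * q))
    (H553.isFricke_wE E (M * q)) (H553.isFricke_wE E (M * q * q)) g
  have h1 : H553.wE E (M * q * q) (jqq E M q) = jE E (M * q * q) M ⟨q * q, by ring⟩ :=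
    H553.wE_jE E (M * q * q) (q * q) M _ _ (by ring)
  rw [h, h1] at hc
  have h2 := congrArg (fun z : _root_.Fermat.Agent.A2.Mod.FE E (M * q * q) => ((z : LaurentSeries E)).coeff (-(M : ℤ))) hc.1
  simp only [coe_heckeBetaBar] at h2
  rw [coe_jE', castE_coeff,
    show (-(M : ℤ)) = (M : ℤ) * (-1) by ring, qExpand_coeff_mul, coeff_jqModC_neg_one] at h2
  rw [show (M : ℤ) * (-1) = -(M : ℤ) by ring, qExpand_coeff_of_not_dvd] at h2
  · simp at h2
  · rw [Int.dvd_neg]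
    exact_mod_cast hqM

/-- the comparison `valHom ∘ α = valV` on `V1`. -/
theorem valHom_comp_phi (V1 : ValuationSubring (_root_.Fermat.Agent.A2.Mod.FE E (M * q))) :
    letI : Algebra (_root_.Fermat.Agent.A2.Mod.FE E (M * q)) (_root_.Fermat.Agent.A2.Mod.FE E (M * q * q)) := algebraAlong (αE E (M * q) q)
    (H378.valHom E (M * q * q)).comp (phi (L := _root_.Fermat.Agent.A2.Mod.FE E (M * q * q)) V1) = valV V1 := by
  letI : Algebra (_root_.Fermat.Agent.A2.Mod.FE E (M * q)) (_root_.Fermat.Agent.A2.Mod.FE E (M * q * q)) := algebraAlong (αE E (M * q) q)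
  refine RingHom.ext fun x => ?_
  have h : algebraMap (_root_.Fermat.Agent.A2.Mod.FE E (M * q)) (_root_.Fermat.Agent.A2.Mod.FE E (M * q * q)) = (αE E (M * q) q).toRingHom :=
    RingHom.algebraMap_toAlgebra _
  rw [RingHom.comp_apply, phi_apply, h, H378.valHom_apply, valV_apply]
  exact coe_heckeAlphaBar (M * q) q (x : _root_.Fermat.Agent.A2.Mod.FE E (M * q))

theorem finrank_alpha (hq : q.Prime) :
    letI : Algebra (_root_.Fermat.Agent.A2.Mod.FE E (M * q)) (_root_.Fermat.Agent.A2.Mod.FE E (M * q * q)) := algebraAlong (αE E (M * q) q)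
    Module.finrank (_root_.Fermat.Agent.A2.Mod.FE E (M * q)) (_root_.Fermat.Agent.A2.Mod.FE E (M * q * q)) = q := by
  have h := Fermat.Agent.S37.H818.finrankAlong_heckeAlphaBar' (L := E) (M * q) q hq
  rw [if_pos (dvd_mul_left q M)] at h
  exact h

theorem finite_alpha (hq : q.Prime) :
    letI : Algebra (_root_.Fermat.Agent.A2.Mod.FE E (M * q)) (_root_.Fermat.Agent.A2.Mod.FE E (M * q * q)) := algebraAlong (αE E (M * q) q)
    FiniteDimensional (_root_.Fermat.Agent.A2.Mod.FE E (M * q)) (_root_.Fermat.Agent.A2.Mod.FE E (M * q * q)) :=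
  Fermat.Agent.S37.H818.finiteAlong_heckeAlphaBar (L := E) (M * q) q hq

/-- **The Eisenstein-split data at level `q² M`.** -/
theorem exists_eisData (hS : Setting P E M q w) (hun : Unram P E q w)
    {A : LaurentSeries ℤ} {Ψ G : (LaurentSeries ℤ)[X]} (hE : EisSeries q A Ψ G)
    {V1 : ValuationSubring (_root_.Fermat.Agent.A2.Mod.FE E (M * q))} (hV1 : IsVinf P E (M * q) V1) :
    letI : Algebra (_root_.Fermat.Agent.A2.Mod.FE E (M * q)) (_root_.Fermat.Agent.A2.Mod.FE E (M * q * q)) := algebraAlong (αE E (M * q) q)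
    ∃ (Ψ' G' : V1[X]) (a c : V1),
      valV V1 a = castE E A ∧ ((c : V1) : _root_.Fermat.Agent.A2.Mod.FE E (M * q)) = jone E M q ∧
      EisData V1 (cE P E (M * q) w) (jqq E M q) Ψ' G' a c (q - 1) := by
  letI : Algebra (_root_.Fermat.Agent.A2.Mod.FE E (M * q)) (_root_.Fermat.Agent.A2.Mod.FE E (M * q * q)) := algebraAlong (αE E (M * q) q)
  haveI := hS.dvr
  have hq := hS.q_prime
  haveI : FiniteDimensional (_root_.Fermat.Agent.A2.Mod.FE E (M * q)) (_root_.Fermat.Agent.A2.Mod.FE E (M * q * q)) := finite_alpha hq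
  have hMq : M * q ≠ 0 := NeZero.ne _
  obtain ⟨u, hu⟩ := hun
  -- the subring of integral series with expansion in `F_{Mq}`
  set T : Subring (LaurentSeries ℤ) := (_root_.Fermat.Agent.A2.Mod.FE E (M * q)).toSubring.comap (castE E) with hT
  have hjjT : jjRing q ≤ T := fun g hg => castE_mem_of_mem_jjRing hg
  have hTlift : ∀ Q : (LaurentSeries ℤ)[X], Q ∈ Polynomial.liftsRing T.subtype →
      ∀ i, castE E (Q.coeff i) ∈ _root_.Fermat.Agent.A2.Mod.FE E (M * q) := by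
    intro Q hQ i
    rw [← Polynomial.lifts_iff_liftsRing, Polynomial.lifts_iff_coeff_lifts] at hQ
    obtain ⟨x, hx⟩ := hQ i
    rw [← hx]
    exact x.2
  have hliftT : ∀ Q : (LaurentSeries ℤ)[X], (∀ i, Q.coeff i ∈ T) →
      Q ∈ Polynomial.liftsRing T.subtype := by
    intro Q hQ
    rw [← Polynomial.lifts_iff_liftsRing, Polynomial.lifts_iff_coeff_lifts]
    exact fun i => ⟨⟨_, hQ i⟩, rfl⟩
  have hCT : ∀ g ∈ T, (Polynomial.C g : (LaurentSeries ℤ)[X]) ∈ Polynomial.liftsRing T.subtype := by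
    intro g hg
    rw [← Polynomial.lifts_iff_liftsRing]
    exact Polynomial.C_mem_lifts T.subtype ⟨g, hg⟩
  have hXT : (Polynomial.X : (LaurentSeries ℤ)[X]) ∈ Polynomial.liftsRing T.subtype := by
    rw [← Polynomial.lifts_iff_liftsRing]
    exact Polynomial.X_mem_lifts T.subtype
  have hJT : jqModC ℤ ∈ T := hjjT (Subring.subset_closure (by simp))
  have hAT : A ∈ T := hjjT hE.A_mem
  have hΨT : Ψ ∈ Polynomial.liftsRing T.subtype := hliftT Ψ fun i => hjjT (hE.coeff_mem i)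
  -- coefficients of `G`
  have hqG : Polynomial.C (q : LaurentSeries ℤ) * G ∈ Polynomial.liftsRing T.subtype := by
    have : Polynomial.C (q : LaurentSeries ℤ) * G =
        Ψ - (Polynomial.X - Polynomial.C A) *
          (Polynomial.X - Polynomial.C (jqModC ℤ)) ^ (q - 1) := by
      conv_rhs => rw [hE.dec]
      ring
    rw [this]
    exact sub_mem hΨT (mul_mem (sub_mem hXT (hCT _ hAT)) (pow_mem (sub_mem hXT (hCT _ hJT)) _))
  have hq0E : ((q : ℕ) : LaurentSeries E) ≠ 0 := by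
    have : ((q : ℕ) : LaurentSeries E) = algebraMap E (LaurentSeries E) ((q : ℕ) : E) :=
      (map_natCast _ q).symm
    rw [this]
    exact (map_ne_zero_iff _ (algebraMap E (LaurentSeries E)).injective).mpr
      (Nat.cast_ne_zero.mpr hq.ne_zero)
  have hqmem : ((q : ℕ) : LaurentSeries E) ∈ _root_.Fermat.Agent.A2.Mod.FE E (M * q) := natCast_mem _ q
  have hGF : ∀ i, castE E (G.coeff i) ∈ _root_.Fermat.Agent.A2.Mod.FE E (M * q) := by
    intro i
    have h1 := hTlift _ hqG i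
    rw [Polynomial.coeff_C_mul, map_mul, castE_natCast] at h1
    have h2 : castE E (G.coeff i) =
        ((q : ℕ) : LaurentSeries E)⁻¹ * (((q : ℕ) : LaurentSeries E) * castE E (G.coeff i)) := by
      rw [← mul_assoc, inv_mul_cancel₀ hq0E, one_mul]
    rw [h2]
    exact mul_mem (inv_mem hqmem) h1
  -- lifts
  obtain ⟨Ψ', hΨ'⟩ := exists_lift_poly hV1 Ψ (hTlift Ψ hΨT)
  obtain ⟨G₁, hG₁⟩ := exists_lift_poly hV1 G hGF
  obtain ⟨a, ha⟩ := exists_lift hV1 A hAT
  obtain ⟨c, hc⟩ := exists_lift hV1 (jqModC ℤ) hJT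
  have hcj : ((c : V1) : _root_.Fermat.Agent.A2.Mod.FE E (M * q)) = jone E M q := by
    apply Subtype.ext
    rw [coe_jone]
    exact hc
  have hinj := valV_injective V1
  have hL2 := H553.vinfBasic P E w (M * q) hMq hS.dvr hS.unif V1 hV1
  have hunif : IsUnif V1 (cE P E (M * q) w) := hL2.1
  set uO : V1 := ⟨cE P E (M * q) (u : _root_.Fermat.Agent.A2.Mod.RE P E), cE_mem_vinf hV1 _⟩ with huO
  have huOinv : ((uO : V1) : _root_.Fermat.Agent.A2.Mod.FE E (M * q))⁻¹ ∈ V1 := by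
    have : ((uO : V1) : _root_.Fermat.Agent.A2.Mod.FE E (M * q))⁻¹ = cE P E (M * q) ((u⁻¹ : (_root_.Fermat.Agent.A2.Mod.RE P E)ˣ) : _root_.Fermat.Agent.A2.Mod.RE P E) := by
      rw [huO]
      show (algebraMap E (_root_.Fermat.Agent.A2.Mod.FE E (M * q)) ((u : _root_.Fermat.Agent.A2.Mod.RE P E) : E))⁻¹ = algebraMap E (_root_.Fermat.Agent.A2.Mod.FE E (M * q)) _
      rw [← map_inv₀]
      congr 1
      apply inv_eq_of_mul_eq_one_right
      have h5 := congrArg (_root_.Fermat.Agent.A2.Mod.RE P E).subtype u.mul_inv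
      rw [map_mul, map_one] at h5
      exact h5
    rw [this]
    exact cE_mem_vinf hV1 _
  have huO0 : ((uO : V1) : _root_.Fermat.Agent.A2.Mod.FE E (M * q)) ≠ 0 := by
    rw [huO]
    show algebraMap E (_root_.Fermat.Agent.A2.Mod.FE E (M * q)) ((u : _root_.Fermat.Agent.A2.Mod.RE P E) : E) ≠ 0
    exact (map_ne_zero_iff _ (algebraMap E (_root_.Fermat.Agent.A2.Mod.FE E (M * q))).injective).mpr
      (fun h => u.ne_zero (Subtype.ext h))
  have hwu : valV V1 ⟨cE P E (M * q) w, hunif.mem⟩ * valV V1 uO = ((q : ℕ) : LaurentSeries E) := by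
    have h1 : cE P E (M * q) w * cE P E (M * q) (u : _root_.Fermat.Agent.A2.Mod.RE P E) = ((q : ℕ) : _root_.Fermat.Agent.A2.Mod.FE E (M * q)) := by
      simp only [cE]
      rw [← map_mul, ← hu, map_natCast]
    have h2 := congrArg (fun z : _root_.Fermat.Agent.A2.Mod.FE E (M * q) => (z : LaurentSeries E)) h1
    show ((cE P E (M * q) w : _root_.Fermat.Agent.A2.Mod.FE E (M * q)) : LaurentSeries E) *
      ((cE P E (M * q) (u : _root_.Fermat.Agent.A2.Mod.RE P E) : _root_.Fermat.Agent.A2.Mod.FE E (M * q)) : LaurentSeries E) = _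
    simpa using h2
  -- the fields
  have hmonic : Ψ'.Monic := Polynomial.monic_of_injective hinj (by rw [hΨ']; exact hE.monic.map _)
  have hdeg : Ψ'.natDegree = Module.finrank (_root_.Fermat.Agent.A2.Mod.FE E (M * q)) (_root_.Fermat.Agent.A2.Mod.FE E (M * q * q)) := by
    rw [finrank_alpha hq, ← Polynomial.natDegree_map_eq_of_injective hinj, hΨ',
      hE.monic.natDegree_map, hE.natDegree_eq]
  have hroot : Ψ'.eval₂ (phi V1) (jqq E M q) = 0 := by
    apply (H378.valHom E (M * q * q)).injective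
    rw [Polynomial.hom_eval₂, valHom_comp_phi, map_zero, ← Polynomial.eval_map, hΨ',
      H378.valHom_apply, coe_jqq, Polynomial.eval_map, Polynomial.eval₂_at_apply, hE.root,
      map_zero]
  have hyK : jqq E M q ∉ (algebraMap (_root_.Fermat.Agent.A2.Mod.FE E (M * q)) (_root_.Fermat.Agent.A2.Mod.FE E (M * q * q))).range := by
    rintro ⟨g, hg⟩
    exact jqq_not_mem_range hS.q_not_dvd g hg
  have hprime : (Module.finrank (_root_.Fermat.Agent.A2.Mod.FE E (M * q)) (_root_.Fermat.Agent.A2.Mod.FE E (M * q * q))).Prime := by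
    rw [finrank_alpha hq]
    exact hq
  have hmin := minpoly_eq_map_of_prime hmonic hprime hdeg hroot hyK
  have hdec : Ψ' = (Polynomial.X - Polynomial.C a) * (Polynomial.X - Polynomial.C c) ^ (q - 1) +
      Polynomial.C ⟨cE P E (M * q) w, hunif.mem⟩ * (Polynomial.C uO * G₁) := by
    apply Polynomial.map_injective _ hinj
    rw [hΨ']
    conv_lhs => rw [hE.dec]
    simp only [Polynomial.map_add, Polynomial.map_mul, Polynomial.map_pow, Polynomial.map_sub,
      Polynomial.map_X, Polynomial.map_C, hG₁, ha, hc]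
    rw [← mul_assoc, ← Polynomial.C_mul, hwu, castE_natCast]
  have hsub : IsUnit (a - c) := by
    have hser : (((a - c : V1) : _root_.Fermat.Agent.A2.Mod.FE E (M * q)) : LaurentSeries E) = castE E (A - jqModC ℤ) := by
      rw [map_sub, ← ha, ← hc]
      rfl
    refine isUnit_of_inv_mem ?_ (inv_mem_of_castE hq hS.lies_over hV1 hser hE.A_unit)
    intro h0
    rw [h0] at hser
    have h1 : A - jqModC ℤ = 0 := castE_injective E (by rw [map_zero]; exact hser.symm)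
    obtain ⟨n, hn⟩ := hE.A_unit
    rw [h1] at hn
    exact hn (by simp)
  have hGu : IsUnit ((Polynomial.C uO * G₁).eval c) := by
    rw [Polynomial.eval_mul, Polynomial.eval_C]
    have hser : (((G₁.eval c : V1) : _root_.Fermat.Agent.A2.Mod.FE E (M * q)) : LaurentSeries E) =
        castE E (G.eval (jqModC ℤ)) := by
      have h1 : valV V1 (G₁.eval c) = (G₁.map (valV V1)).eval (valV V1 c) := by
        rw [Polynomial.eval_map, Polynomial.eval₂_at_apply]
      rw [hG₁, hc, Polynomial.eval_map, Polynomial.eval₂_at_apply] at h1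
      exact h1
    have hG0 : ((G₁.eval c : V1) : _root_.Fermat.Agent.A2.Mod.FE E (M * q)) ≠ 0 := by
      intro h0
      rw [h0] at hser
      have h1 : G.eval (jqModC ℤ) = 0 := castE_injective E (by rw [map_zero]; exact hser.symm)
      obtain ⟨n, hn⟩ := hE.unit
      rw [h1] at hn
      exact hn (by simp)
    exact (isUnit_of_inv_mem huO0 huOinv).mul
      (isUnit_of_inv_mem hG0 (inv_mem_of_castE hq hS.lies_over hV1 hser hE.unit))
  refine ⟨Ψ', Polynomial.C uO * G₁, a, c, ha, hcj, ?_⟩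
  exact
    { unif := hunif
      arch := arch_vinf hS.unif hV1
      monic := hmonic
      minpoly_eq := hmin
      gen := gen_of_natDegree_eq hmin hdeg
      pos := by have := hq.two_le; omega
      dec := hdec
      unit_sub := hsub
      unit_G := hGu }

variable (E M q) in
/-- `j ∈ F_{Mqq}`. -/
def jtop : _root_.Fermat.Agent.A2.Mod.FE E (M * q * q) := jE E (M * q * q) 1 (one_dvd _)

theorem alpha_jone : αE E (M * q) q (jone E M q) = jtop E M q :=
  H553.αE_jE E (M * q) q 1 (one_dvd _)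

theorem alpha_cE' (N : ℕ) [NeZero N] (r : _root_.Fermat.Agent.A2.Mod.RE P E) :
    αE E N q (cE P E N r) = cE P E (N * q) r :=
  (αE E N q).commutes (r : E)

/-- **MOD3, `α`-side**: the Gauss valuation `V = V_FF` and the middle valuation `V_mid` are
exactly the valuation rings of `F_{Mqq}` lying over the Gauss valuation `V1` of `F_{Mq}` along
`α`; `e(V_FF) = 1`, `e(V_mid) = q - 1` with uniformiser `j_{q²} - j`, residue degrees one. -/
theorem mod3_alpha (hS : Setting P E M q w) (hun : Unram P E q w)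
    {A : LaurentSeries ℤ} {Ψ G : (LaurentSeries ℤ)[X]} (hE : EisSeries q A Ψ G)
    {V1 : ValuationSubring (_root_.Fermat.Agent.A2.Mod.FE E (M * q))} (hV1 : IsVinf P E (M * q) V1)
    {V : ValuationSubring (_root_.Fermat.Agent.A2.Mod.FE E (M * q * q))} (hV : IsVinf P E (M * q * q) V) :
    ∃ Vmid : ValuationSubring (_root_.Fermat.Agent.A2.Mod.FE E (M * q * q)),
      Vmid ≠ V ∧
      (∀ k, αE E (M * q) q k ∈ Vmid ↔ k ∈ V1) ∧
      IsUnif Vmid (jqq E M q - jtop E M q) ∧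
      (∃ u, u ∈ Vmid ∧ u⁻¹ ∈ Vmid ∧
        (jqq E M q - jtop E M q) ^ (q - 1) = cE P E (M * q * q) w * u) ∧
      (∀ f ∈ Vmid, ∃ g ∈ V1,
        (f - αE E (M * q) q g) * (jqq E M q - jtop E M q)⁻¹ ∈ Vmid) ∧
      (∀ f ∈ V, ∃ g ∈ V1, (f - αE E (M * q) q g) * (cE P E (M * q * q) w)⁻¹ ∈ V) ∧
      (∀ V' : ValuationSubring (_root_.Fermat.Agent.A2.Mod.FE E (M * q * q)),
        (∀ k, αE E (M * q) q k ∈ V' ↔ k ∈ V1) → V' = V ∨ V' = Vmid) := by
  letI : Algebra (_root_.Fermat.Agent.A2.Mod.FE E (M * q)) (_root_.Fermat.Agent.A2.Mod.FE E (M * q * q)) := algebraAlong (αE E (M * q) q)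
  haveI := hS.dvr
  have hq := hS.q_prime
  obtain ⟨Ψ', G', a, c, ha, hcj, h⟩ := exists_eisData hS hun hE hV1
  have halg : ∀ k : _root_.Fermat.Agent.A2.Mod.FE E (M * q),
      algebraMap (_root_.Fermat.Agent.A2.Mod.FE E (M * q)) (_root_.Fermat.Agent.A2.Mod.FE E (M * q * q)) k = αE E (M * q) q k := fun k => rfl
  have hc' : algebraMap (_root_.Fermat.Agent.A2.Mod.FE E (M * q)) (_root_.Fermat.Agent.A2.Mod.FE E (M * q * q)) (c : _root_.Fermat.Agent.A2.Mod.FE E (M * q)) = jtop E M q := by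
    rw [halg, hcj, alpha_jone]
  have hw' : algebraMap (_root_.Fermat.Agent.A2.Mod.FE E (M * q)) (_root_.Fermat.Agent.A2.Mod.FE E (M * q * q)) (cE P E (M * q) w) =
      cE P E (M * q * q) w := by
    rw [halg, alpha_cE']
  have hN : M * q * q ≠ 0 := NeZero.ne _
  have hL2 := H553.vinfBasic P E w (M * q * q) hN hS.dvr hS.unif V hV
  have hover : ∀ k : _root_.Fermat.Agent.A2.Mod.FE E (M * q),
      algebraMap (_root_.Fermat.Agent.A2.Mod.FE E (M * q)) (_root_.Fermat.Agent.A2.Mod.FE E (M * q * q)) k ∈ V ↔ k ∈ V1 := fun k => by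
    rw [halg]
    exact alpha_mem_iff' hV1 hV k
  -- `V` is `V_a`
  have hVa : V = h.Va := by
    rcases h.eq_Va_or_eq_Vc V hover with h1 | h1
    · exact h1
    exfalso
    have hinv := h.inv_sub_a_mem_Vc
    rw [← h1] at hinv
    obtain ⟨H, hH⟩ := hE.A_cong
    obtain ⟨u, hu⟩ := hun
    set d : _root_.Fermat.Agent.A2.Mod.FE E (M * q * q) :=
      jqq E M q - algebraMap (_root_.Fermat.Agent.A2.Mod.FE E (M * q)) (_root_.Fermat.Agent.A2.Mod.FE E (M * q * q)) (a : _root_.Fermat.Agent.A2.Mod.FE E (M * q)) with hd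
    have hdser : (d : LaurentSeries E) = ((q : ℕ) : LaurentSeries E) * castE E H := by
      rw [hd, halg]
      have h2 : ((jqq E M q - αE E (M * q) q (a : _root_.Fermat.Agent.A2.Mod.FE E (M * q)) : _root_.Fermat.Agent.A2.Mod.FE E (M * q * q)) :
          LaurentSeries E) = (jqq E M q : LaurentSeries E) -
            ((αE E (M * q) q (a : _root_.Fermat.Agent.A2.Mod.FE E (M * q)) : _root_.Fermat.Agent.A2.Mod.FE E (M * q * q)) : LaurentSeries E) := rfl
      rw [h2, coe_heckeAlphaBar, coe_jqq, ← valV_apply, ha, ← map_sub, hH, map_mul,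
        castE_natCast]
    have hd0 : d ≠ 0 := by
      intro h0
      have : jqq E M q = algebraMap (_root_.Fermat.Agent.A2.Mod.FE E (M * q)) (_root_.Fermat.Agent.A2.Mod.FE E (M * q * q)) (a : _root_.Fermat.Agent.A2.Mod.FE E (M * q)) :=
        sub_eq_zero.mp (hd ▸ h0)
      exact jqq_not_mem_range hS.q_not_dvd (a : _root_.Fermat.Agent.A2.Mod.FE E (M * q)) ((halg _).symm.trans this.symm)
    have hq0 : ((q : ℕ) : _root_.Fermat.Agent.A2.Mod.FE E (M * q * q)) ≠ 0 := Nat.cast_ne_zero.mpr hq.ne_zero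
    have hfH : d * ((q : ℕ) : _root_.Fermat.Agent.A2.Mod.FE E (M * q * q))⁻¹ ∈ V := by
      refine mem_of_castE hV (g := H) ?_
      have h3 : ((d * ((q : ℕ) : _root_.Fermat.Agent.A2.Mod.FE E (M * q * q))⁻¹ : _root_.Fermat.Agent.A2.Mod.FE E (M * q * q)) : LaurentSeries E) =
          (d : LaurentSeries E) * (((q : ℕ) : LaurentSeries E))⁻¹ := by
        rw [IntermediateField.coe_mul, IntermediateField.coe_inv]
        simp
      have hq0' : ((q : ℕ) : LaurentSeries E) ≠ 0 := by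
        intro h4
        apply hq0
        apply Subtype.ext
        simpa using h4
      rw [h3, hdser]
      field_simp
    have hqw : ((q : ℕ) : _root_.Fermat.Agent.A2.Mod.FE E (M * q * q)) =
        cE P E (M * q * q) w * cE P E (M * q * q) (u : _root_.Fermat.Agent.A2.Mod.RE P E) := by
      simp only [cE]
      rw [← map_mul, ← hu, map_natCast]
    have hw0 : cE P E (M * q * q) w ≠ 0 := hL2.1.ne_zero
    have hu0 : cE P E (M * q * q) (u : _root_.Fermat.Agent.A2.Mod.RE P E) ≠ 0 := by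
      intro h0
      rw [h0, mul_zero] at hqw
      exact hq0 hqw
    have hdw : d * (cE P E (M * q * q) w)⁻¹ ∈ V := by
      have : d * (cE P E (M * q * q) w)⁻¹ =
          (d * ((q : ℕ) : _root_.Fermat.Agent.A2.Mod.FE E (M * q * q))⁻¹) * cE P E (M * q * q) (u : _root_.Fermat.Agent.A2.Mod.RE P E) := by
        rw [hqw]
        field_simp
      rw [this]
      exact mul_mem hfH (cE_mem_vinf hV _)
    apply hL2.1.inv_not_mem
    have : (cE P E (M * q * q) w)⁻¹ = (d * (cE P E (M * q * q) w)⁻¹) * d⁻¹ := by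
      field_simp
    rw [this]
    exact mul_mem hdw hinv
  refine ⟨h.Vc, ?_, ?_, ?_, ?_, ?_, ?_, ?_⟩
  · rw [hVa]
    exact h.Va_ne_Vc.symm
  · intro k
    rw [← halg]
    exact h.algebraMap_mem_Vc_iff k
  · have := h.isUnif_Vc
    rwa [hc'] at this
  · obtain ⟨u, hu1, hu2, hu3⟩ := h.exists_unit_Vc
    rw [hc', hw'] at hu3
    exact ⟨u, hu1, hu2, hu3⟩
  · intro f hf
    obtain ⟨g, hg, hfg⟩ := h.residue_Vc hf
    rw [hc'] at hfg
    exact ⟨g, hg, hfg⟩
  · intro f hf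
    rw [hVa] at hf
    obtain ⟨g, hg, hfg⟩ := h.residue_Va hf
    rw [hw', ← hVa] at hfg
    exact ⟨g, hg, hfg⟩
  · intro V' hV'
    rcases h.eq_Va_or_eq_Vc V' hV' with h1 | h1
    · left
      rw [hVa]
      exact h1
    · right
      exact h1

end Alpha

end Fermat.Agent.S36.H972

end

end
-- ===== PACK-END S36/H972/Mod3.lean

-- ===== PACK-BEGIN S36/H972/Mod3Alpha.lean
section



/-!
# S36 / MOD3 (helper972): `α`-side, unconditional

`mod3_alpha_main`: `Setting P E M q w` (`q ∤ M`) + base unramified at `q` ⟹ at level `M q²` the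
Gauss valuation ring `V` and ONE more valuation ring `V_mid` are exactly the valuation rings lying
over the Gauss valuation ring `V1` of level `M q` along `α`; `V_mid` has uniformiser
`j_{q²} - j`, `(j_{q²} - j)^(q-1) = w · unit`; residue degrees one.
-/

set_option autoImplicit false

noncomputable section

namespace Fermat.Agent.S36.H972

open ModularCurve Fermat.Agent.A2 Fermat.Agent.A2.Mod Fermat.Agent.A2.H48

theorem mod3_alpha_main {P : ValuationSubring _root_.Fermat.Agent.A2.Mod.Qb} {E : IntermediateField ℚ _root_.Fermat.Agent.A2.Mod.Qb} {M q : ℕ}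
    [NeZero M] [NeZero q] {w : _root_.Fermat.Agent.A2.Mod.RE P E} (hS : Setting P E M q w) (hun : Unram P E q w)
    {V1 : ValuationSubring (_root_.Fermat.Agent.A2.Mod.FE E (M * q))} (hV1 : IsVinf P E (M * q) V1)
    {V : ValuationSubring (_root_.Fermat.Agent.A2.Mod.FE E (M * q * q))} (hV : IsVinf P E (M * q * q) V) :
    ∃ Vmid : ValuationSubring (_root_.Fermat.Agent.A2.Mod.FE E (M * q * q)),
      Vmid ≠ V ∧
      (∀ k, αE E (M * q) q k ∈ Vmid ↔ k ∈ V1) ∧
      IsUnif Vmid (jqq E M q - jtop E M q) ∧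
      (∃ u, u ∈ Vmid ∧ u⁻¹ ∈ Vmid ∧
        (jqq E M q - jtop E M q) ^ (q - 1) = cE P E (M * q * q) w * u) ∧
      (∀ f ∈ Vmid, ∃ g ∈ V1,
        (f - αE E (M * q) q g) * (jqq E M q - jtop E M q)⁻¹ ∈ Vmid) ∧
      (∀ f ∈ V, ∃ g ∈ V1, (f - αE E (M * q) q g) * (cE P E (M * q * q) w)⁻¹ ∈ V) ∧
      (∀ V' : ValuationSubring (_root_.Fermat.Agent.A2.Mod.FE E (M * q * q)),
        (∀ k, αE E (M * q) q k ∈ V' ↔ k ∈ V1) → V' = V ∨ V' = Vmid) := by
  obtain ⟨Ψ, G, hE⟩ := exists_eisSeries q hS.q_prime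
  exact mod3_alpha hS hun hE hV1 hV

end Fermat.Agent.S36.H972

end

end
-- ===== PACK-END S36/H972/Mod3Alpha.lean

-- ===== PACK-BEGIN S36/Mod3/H356/RegU.lean
section





/-!
# S36 / MOD3, cell REG (route R4), piece (R-U): the modular unit `U_m` (helper356)

`U_m = α(D) / β(D) = Δ(t^q)² / (Δ(t) Δ(t^{q²}))`, `D = q¹² Δ(t^q)/Δ(t)` the modular unit of
helper438 (`S36/H438/Unit.lean`, `dE`) at level `M q`, `α, β : F_{Mq} → F_{Mqq}` the two degeneracy
maps.  This is the element `αE (dE) * (βE (dE))⁻¹` of helper922's `h922_hres_mid`.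

For the concrete objects of `Mod3/Spec.lean` (`Std`, `Objs`):

* `U_m` lies in the finite chart `Bf = chart R {x3E}`, and there is `d ∈ Bf` with
  `U_m · d = w ^ 12`                                  (`exists_pair`);
* `U_m` is a unit of `V₁` and of `V₃`                 (`unit₁`, `unit₃`, with `mem₁`, `mem₃`);
* `U_m / w ^ 12` is a unit of `V₂`                    (`val₂`);
* `U_m / t ^ (12 (q - 1))` is a unit of `V₂` for EVERY uniformiser `t` of `V₂`   (`val₂'`).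

These are the hypotheses `x U d`, `hUd`, `hU₁`, `hU₃`, `hU₂` (with `k = 12`, `N = 12 (q - 1)`) of
`S36.H878.principalAt_of_unit_self'`.

    leafRegU_of : LeafTable → LeafQep → LeafChart → LeafVal → LeafRegU

(`LeafTable`: the comap table; `LeafQep`: `qep_f`; `LeafChart`: `chart_α`, `chart_β`;
`LeafVal`: `ram₂`.)  `leafRegU_core_of` does not need `LeafVal` and gives all but `val₂'`.
-/

set_option autoImplicit false
set_option linter.style.haveILetI false
set_option linter.unusedSectionVars false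
set_option linter.unusedVariables false
set_option synthInstance.maxHeartbeats 400000
set_option maxHeartbeats 1600000

noncomputable section

namespace Fermat.Agent.S36.Mod3.H356

open ModularCurve AlgebraicCurve
open Fermat.Agent.S18.H138 (chart)
open Fermat.Agent.S36.Eng Fermat.Agent.S36.Mod3

/-! ## The base: `q = w · unit` -/

section Base

variable (P : ValuationSubring A2.Qb) (E : IntermediateField ℚ A2.Qb)

/-- A non-unit of `R_E` is a non-unit of `P`. -/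
theorem coe_mem_nonunits_h356 (r : A2.RE P E) (hr : ¬ IsUnit r) :
    ((r : E) : A2.Qb) ∈ P.nonunits := by
  rw [ValuationSubring.mem_nonunits_iff]
  by_contra hge
  rw [not_lt] at hge
  apply hr
  have hr0 : (r : E) ≠ 0 := by
    intro h0
    rw [h0] at hge
    simp at hge
  have hinv : ((r : E))⁻¹ ∈ A2.RE P E := by
    show algebraMap E A2.Qb ((r : E))⁻¹ ∈ P
    rw [map_inv₀, ← P.valuation_le_one_iff, map_inv₀]
    exact inv_le_one_of_one_le₀ hge
  refine isUnit_iff_exists_inv.mpr ⟨⟨_, hinv⟩, Subtype.ext ?_⟩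
  show (r : E) * ((r : E))⁻¹ = 1
  exact mul_inv_cancel₀ hr0

/-- **Unramified base**: `q = w · u` with `u` a unit of `R_E`. -/
theorem exists_unit_q_eq_h356 {q : ℕ} [NeZero q] (hP : P.LiesOverPrime q)
    (hun : Unramified P E q) {w : A2.RE P E} (hw : Irreducible w) :
    ∃ u v : A2.RE P E, u * v = 1 ∧ ((q : ℕ) : E) = (w : E) * (u : E) := by
  have hq0 : ((q : ℕ) : E) ≠ 0 := Nat.cast_ne_zero.mpr (NeZero.ne q)
  have hw0 : (w : E) ≠ 0 := fun h0 => hw.ne_zero (Subtype.ext h0)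
  -- `w / q ∈ R_E`
  have hv : (w : E) * ((q : ℕ) : E)⁻¹ ∈ A2.RE P E := by
    show algebraMap E A2.Qb ((w : E) * ((q : ℕ) : E)⁻¹) ∈ P
    rw [map_mul, map_inv₀, map_natCast]
    exact hun.2 (w : E) (coe_mem_nonunits_h356 P E w hw.not_isUnit)
  -- `q / w ∈ R_E`
  have hu : ((q : ℕ) : E) * ((w : E))⁻¹ ∈ A2.RE P E := by
    by_contra hcon
    -- then `w / q ∈ 𝔪`, so `q ∈ P.nonunits` gives `w = (w/q) q`, `w / q` a non-unit: then
    -- `w` would be a product of two non-units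
    have hqR : ((q : ℕ) : E) ∈ A2.RE P E := by
      show algebraMap E A2.Qb ((q : ℕ) : E) ∈ P
      rw [map_natCast]
      exact P.nonunits_le hP
    have hqnu : ¬ IsUnit (⟨((q : ℕ) : E), hqR⟩ : A2.RE P E) := by
      intro hunit
      obtain ⟨b, hb⟩ := isUnit_iff_exists_inv.mp hunit
      have hbE : ((q : ℕ) : E) * (b : E) = 1 := congrArg Subtype.val hb
      have hbP : algebraMap E A2.Qb (b : E) ∈ P := b.2
      have hbeq : (b : E) = (((q : ℕ) : E))⁻¹ := eq_inv_of_mul_eq_one_right hbE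
      rw [hbeq, map_inv₀, map_natCast] at hbP
      have hlt : P.valuation ((q : ℕ) : A2.Qb) < 1 := (P.mem_nonunits_iff).1 hP
      have hle : P.valuation (((q : ℕ) : A2.Qb))⁻¹ ≤ 1 := (P.valuation_le_one_iff _).2 hbP
      have hqQ : ((q : ℕ) : A2.Qb) ≠ 0 := Nat.cast_ne_zero.mpr (NeZero.ne q)
      have h1 : P.valuation ((q : ℕ) : A2.Qb) * P.valuation (((q : ℕ) : A2.Qb))⁻¹ = 1 := by
        rw [← map_mul, mul_inv_cancel₀ hqQ, map_one]
      have h2 : P.valuation ((q : ℕ) : A2.Qb) * P.valuation (((q : ℕ) : A2.Qb))⁻¹ < 1 :=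
        mul_lt_one_of_lt_of_le hlt hle
      rw [h1] at h2
      exact lt_irrefl _ h2
    have hvnu : ¬ IsUnit (⟨(w : E) * ((q : ℕ) : E)⁻¹, hv⟩ : A2.RE P E) := by
      intro hunit
      obtain ⟨b, hb⟩ := isUnit_iff_exists_inv.mp hunit
      have hbE : (w : E) * ((q : ℕ) : E)⁻¹ * (b : E) = 1 := congrArg Subtype.val hb
      apply hcon
      have hbeq : (b : E) = ((q : ℕ) : E) * ((w : E))⁻¹ := by
        have h3 : (w : E) * ((q : ℕ) : E)⁻¹ ≠ 0 := mul_ne_zero hw0 (inv_ne_zero hq0)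
        have h4 : (b : E) = ((w : E) * ((q : ℕ) : E)⁻¹)⁻¹ := eq_inv_of_mul_eq_one_right hbE
        rw [h4, mul_inv, inv_inv, mul_comm]
      rw [← hbeq]
      exact b.2
    have hprod : w = (⟨(w : E) * ((q : ℕ) : E)⁻¹, hv⟩ : A2.RE P E) * ⟨((q : ℕ) : E), hqR⟩ := by
      apply Subtype.ext
      show (w : E) = (w : E) * ((q : ℕ) : E)⁻¹ * ((q : ℕ) : E)
      rw [mul_assoc, inv_mul_cancel₀ hq0, mul_one]
    rcases hw.isUnit_or_isUnit hprod with h | h
    · exact hvnu h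
    · exact hqnu h
  refine ⟨⟨_, hu⟩, ⟨_, hv⟩, Subtype.ext ?_, ?_⟩
  · show ((q : ℕ) : E) * ((w : E))⁻¹ * ((w : E) * ((q : ℕ) : E)⁻¹) = 1
    field_simp
  · show ((q : ℕ) : E) = (w : E) * (((q : ℕ) : E) * ((w : E))⁻¹)
    field_simp

end Base

/-! ## The modular unit `U_m` and the part `PartRegU` -/

section Defs

variable (E : IntermediateField ℚ A2.Qb) (M q : ℕ) [NeZero M] [NeZero q] [NeZero (M * q)]

/-- The modular unit `D = q¹² Δ(t^q)/Δ(t)` of level `M q` (helper438). -/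
def Dq : A2.Mod.FE E (M * q) := Fermat.Agent.S36.H438.dE E (M * q) q (dvd_mul_left q M)

/-- **The modular unit** `U_m = α(D) / β(D)` of level `M q q`. -/
def Um : A2.Mod.FE E (M * q * q) :=
  A2.Mod.αE E (M * q) q (Dq E M q) * (A2.Mod.βE E (M * q) q (Dq E M q))⁻¹

theorem Um_eq :
    Um E M q = A2.Mod.αE E (M * q) q (Fermat.Agent.S36.H438.dE E (M * q) q (dvd_mul_left q M)) *
      (A2.Mod.βE E (M * q) q (Fermat.Agent.S36.H438.dE E (M * q) q (dvd_mul_left q M)))⁻¹ :=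
  rfl

end Defs

section Parts

variable {R F : Type*} [CommRing R] [Field F] [Algebra R F]

/-- The output of (R-U), without the uniformiser form. -/
structure PartRegUCore (w : R) (x U₀ : F) (V₁ V₂ V₃ : ValuationSubring F) : Prop where
  exists_pair : ∃ U d : chart R ({x} : Set F),
    (U : F) = U₀ ∧ U * d = algebraMap R (chart R ({x} : Set F)) w ^ 12
  mem₁ : U₀ ∈ V₁
  unit₁ : U₀⁻¹ ∈ V₁
  mem₃ : U₀ ∈ V₃
  unit₃ : U₀⁻¹ ∈ V₃
  val₂ : UnitAt V₂ (U₀ * (algebraMap R F w ^ 12)⁻¹)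

/-- The output of (R-U). -/
structure PartRegU (w : R) (q : ℕ) (x U₀ : F) (V₁ V₂ V₃ : ValuationSubring F) : Prop
    extends PartRegUCore w x U₀ V₁ V₂ V₃ where
  val₂' : ∀ t : F, UnifAt V₂ t → UnitAt V₂ (U₀ * (t ^ (12 * (q - 1)))⁻¹)

end Parts

/-- **(R-U), core (leaf-shaped Prop).** -/
def LeafRegUCore : Prop :=
  Leaf fun P E M q _ _ _ w _ _ V₁ V₂ V₃ =>
    PartRegUCore (R := A2.RE P E) w (x3E E M q) (Um E M q) V₁ V₂ V₃

/-- **(R-U) (leaf-shaped Prop).** -/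
def LeafRegU : Prop :=
  Leaf fun P E M q _ _ _ w _ _ V₁ V₂ V₃ =>
    PartRegU (R := A2.RE P E) w q (x3E E M q) (Um E M q) V₁ V₂ V₃

/-! ## Proof -/

section Proof

/-- An `E`-algebra homomorphism commutes with the structure maps of `R_E`. -/
theorem algHom_algebraMap_h356 (P : ValuationSubring A2.Qb) (E : IntermediateField ℚ A2.Qb)
    {N N' : ℕ} (φ : A2.Mod.FE E N →ₐ[E] A2.Mod.FE E N') (r : A2.RE P E) :
    (φ : A2.Mod.FE E N →+* A2.Mod.FE E N') (algebraMap (A2.RE P E) (A2.Mod.FE E N) r) =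
      algebraMap (A2.RE P E) (A2.Mod.FE E N') r := by
  rw [IsScalarTower.algebraMap_apply (A2.RE P E) E (A2.Mod.FE E N),
    IsScalarTower.algebraMap_apply (A2.RE P E) E (A2.Mod.FE E N')]
  exact φ.commutes _

/-- `R_E ⊆ V∞`. -/
theorem algebraMap_mem_vinf_h356 (P : ValuationSubring A2.Qb) (E : IntermediateField ℚ A2.Qb)
    (hdvr : IsDiscreteValuationRing (A2.RE P E)) {N : ℕ}
    {V : ValuationSubring (A2.Mod.FE E N)} (hV : A2.Mod.IsVinf P E N V) (r : A2.RE P E) :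
    algebraMap (A2.RE P E) (A2.Mod.FE E N) r ∈ V := by
  haveI := hdvr
  rw [IsScalarTower.algebraMap_apply (A2.RE P E) E (A2.Mod.FE E N)]
  exact (Fermat.Agent.A2.Mod.H553.algebraMap_mem_iff P E hV _).2 r.2

/-- **(R-U), core.** -/
theorem leafRegUCore_of (hT : LeafTable) (hQ : LeafQep) (hC : LeafChart) : LeafRegUCore := by
  intro P E M q _ _ _ w hStd V₁' V₂' V₁ V₂ V₃ W' W hObj
  have hdvr : IsDiscreteValuationRing (A2.RE P E) := hStd.unram.1.dvr
  have hq : q.Prime := hStd.q_prime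
  have hqN : q ∣ M * q := dvd_mul_left q M
  have hTab := hT P E M q w hStd V₁' V₂' V₁ V₂ V₃ W' W hObj
  have hQep := (hQ P E M q w hStd V₁' V₂' V₁ V₂ V₃ W' W hObj).qep_f
  have hCh := hC P E M q w hStd V₁' V₂' V₁ V₂ V₃ W' W hObj
  -- the base
  obtain ⟨u, v, huv, hqw⟩ := exists_unit_q_eq_h356 P E hStd.lies_over hStd.unram hStd.unif
  -- `R_E ⊆ V_i`
  have hR₁' : ∀ r : A2.RE P E, algebraMap (A2.RE P E) (A2.Mod.FE E (M * q)) r ∈ V₁' :=
    algebraMap_mem_vinf_h356 P E hdvr hObj.vinf'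
  have hR₁ : ∀ r : A2.RE P E, algebraMap (A2.RE P E) (A2.Mod.FE E (M * q * q)) r ∈ V₁ :=
    algebraMap_mem_vinf_h356 P E hdvr hObj.vinf
  have hR₂ : ∀ r : A2.RE P E, algebraMap (A2.RE P E) (A2.Mod.FE E (M * q * q)) r ∈ V₂ := by
    intro r
    have h := hR₁' r
    rw [← hObj.mid, ValuationSubring.mem_comap, algHom_algebraMap_h356] at h
    exact h
  have hR₃ : ∀ r : A2.RE P E, algebraMap (A2.RE P E) (A2.Mod.FE E (M * q * q)) r ∈ V₃ := by
    intro r
    rw [hObj.vzero, ValuationSubring.mem_comap]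
    have e : (W : A2.Mod.FE E (M * q * q) →+* A2.Mod.FE E (M * q * q))
        (algebraMap (A2.RE P E) (A2.Mod.FE E (M * q * q)) r) =
        algebraMap (A2.RE P E) (A2.Mod.FE E (M * q * q)) r := by
      rw [IsScalarTower.algebraMap_apply (A2.RE P E) E (A2.Mod.FE E (M * q * q))]
      exact W.commutes _
    rw [e]
    exact hR₁ r
  have hw0 : algebraMap (A2.RE P E) (A2.Mod.FE E (M * q * q)) w ≠ 0 := by
    rw [IsScalarTower.algebraMap_apply (A2.RE P E) E (A2.Mod.FE E (M * q * q))]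
    refine (map_ne_zero_iff _ (algebraMap E (A2.Mod.FE E (M * q * q))).injective).mpr ?_
    intro h0
    exact hStd.unif.ne_zero (Subtype.ext h0)
  -- the unit pair of level `M q`
  have hDD' : Dq E M q * Fermat.Agent.S36.H438.uE' E (M * q) q hqN
      = algebraMap (A2.RE P E) (A2.Mod.FE E (M * q)) (u ^ 12 * w ^ 12) := by
    rw [Dq, Fermat.Agent.S36.H438.dE_mul_uE',
      IsScalarTower.algebraMap_apply (A2.RE P E) E (A2.Mod.FE E (M * q))]
    congr 1
    show ((q : ℕ) : E) ^ 12 = ((u : E) ^ 12 * (w : E) ^ 12)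
    rw [hqw]
    ring
  obtain ⟨hD'V, hD'inv⟩ := Fermat.Agent.S36.H438.uE'_unit_vinf P E (M * q) q hqN hObj.vinf'
  obtain ⟨hDV, hDinv⟩ := Fermat.Agent.S36.H438.dE_unit_vzero P E (M * q) q M (Nat.mul_comm M q)
    hqN W' hObj.vinf' hObj.fricke'
  rw [← hObj.vzero'] at hDV hDinv
  have hDch : Dq E M q ∈ chart (A2.RE P E) ({A2.Mod.xE E M q} : Set (A2.Mod.FE E (M * q))) :=
    Fermat.Agent.S36.H438.dE_mem_chartAlg P E M q hq
  have hD'ch : Fermat.Agent.S36.H438.uE' E (M * q) q hqN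
      ∈ chart (A2.RE P E) ({A2.Mod.xE E M q} : Set (A2.Mod.FE E (M * q))) :=
    Fermat.Agent.S36.H438.uE'_mem_chartAlg P E M q hq
  obtain ⟨U, d, hU, hUd, hU₁, hU₁i, hU₃, hU₃i, hU₂⟩ := regU_abs_h356 w (v ^ 12) (u ^ 12)
    (by rw [← mul_pow, mul_comm, huv, one_pow])
    (chart (A2.RE P E) ({x3E E M q} : Set (A2.Mod.FE E (M * q * q)))) V₁ V₂ V₃ V₁' V₂'
    (A2.Mod.αE E (M * q) q : A2.Mod.FE E (M * q) →+* A2.Mod.FE E (M * q * q))
    (A2.Mod.βE E (M * q) q : A2.Mod.FE E (M * q) →+* A2.Mod.FE E (M * q * q))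
    (algHom_algebraMap_h356 P E _) (algHom_algebraMap_h356 P E _) hw0 hR₁ hR₂ hR₃ hQep
    hTab.comap_α₁ hTab.comap_α₂ hTab.comap_α₃ hTab.comap_β₁ hTab.comap_β₂ hTab.comap_β₃
    (Dq E M q) (Fermat.Agent.S36.H438.uE' E (M * q) q hqN) hDD'
    hD'V hD'inv hDV hDinv
    (hCh.chart_α _ hDch) (hCh.chart_α _ hD'ch) (hCh.chart_β _ hDch) (hCh.chart_β _ hD'ch)
  have hUm : (U : A2.Mod.FE E (M * q * q)) = Um E M q := hU
  exact
    { exists_pair := ⟨U, d, hUm, hUd⟩
      mem₁ := hUm ▸ hU₁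
      unit₁ := hUm ▸ hU₁i
      mem₃ := hUm ▸ hU₃
      unit₃ := hUm ▸ hU₃i
      val₂ := hUm ▸ hU₂ }

/-- **(R-U).** -/
theorem leafRegU_of (hT : LeafTable) (hQ : LeafQep) (hC : LeafChart) (hV : LeafVal) :
    LeafRegU := by
  intro P E M q _ _ _ w hStd V₁' V₂' V₁ V₂ V₃ W' W hObj
  have hcore := leafRegUCore_of hT hQ hC P E M q w hStd V₁' V₂' V₁ V₂ V₃ W' W hObj
  obtain ⟨t₀, ht₀, hwt₀⟩ := (hV P E M q w hStd V₁' V₂' V₁ V₂ V₃ W' W hObj).ram₂
  refine { toPartRegUCore := hcore, val₂' := fun t ht => ?_ }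
  exact unitAt_div_unif_pow_h356 V₂ _ _ t 12 (q - 1) hcore.val₂
    (unitAt_div_pow_of_unif_h356 V₂ _ t₀ t (q - 1) ht₀ hwt₀ ht)

end Proof

end Fermat.Agent.S36.Mod3.H356

end

end
-- ===== PACK-END S36/Mod3/H356/RegU.lean

-- ===== PACK-BEGIN S58/H115/ChebCharpoly.lean
section



/-!
# S58 leaf CHEB (helper115): `ChebCharpolyStatement`

Two `GaloisRepAdic O` (`O` a complete DVR) whose Frobenius characteristic polynomials agree at
all primes outside a finite set `T` have the same characteristic polynomial at every element of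
`Gal(ℚ̄/ℚ)`.

Proof.  Fix `σ` and `n`.  Adic continuity gives finite extensions `L₁`, `L₂` of `ℚ` such that
every element fixing `L_i` acts trivially on `V_i / 𝔪ⁿ V_i`.  By the qualitative Chebotarev
theorem (`Lib.Cheb.chebotarev`) there is a Frobenius element `τ` at a prime `ℓ ∉ T` with
`τ = σ` on `L₁ ⊔ L₂`.  Then `ρ_i σ ≡ ρ_i τ` modulo `𝔪ⁿ`, so the characteristic polynomials of
`ρ_i σ` and `ρ_i τ` have the same image in `(O ⧸ 𝔪ⁿ)[X]` (`LinearMap.charpoly_baseChange`).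
Hence the coefficients of `charpoly (ρ₁ σ) - charpoly (ρ₂ σ)` lie in `⋂ 𝔪ⁿ = 0` (Krull).
-/

set_option autoImplicit false

open Polynomial
open scoped TensorProduct

namespace Fermat.Agent.S58.H115

section Congr

variable {R : Type*} [CommRing R] {M : Type*} [AddCommGroup M] [Module R M]

/-- Tensoring with `R ⧸ I` kills `I • ⊤`. -/
theorem tmul_eq_zero_of_mem_smul_top (I : Ideal R) (c : R ⧸ I) {x : M}
    (hx : x ∈ I • (⊤ : Submodule R M)) : c ⊗ₜ[R] x = (0 : (R ⧸ I) ⊗[R] M) := by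
  refine Submodule.smul_induction_on
    (p := fun x => c ⊗ₜ[R] x = (0 : (R ⧸ I) ⊗[R] M)) hx ?_ ?_
  · intro a ha w _
    rw [TensorProduct.tmul_smul, TensorProduct.smul_tmul', Algebra.smul_def,
      Ideal.Quotient.algebraMap_eq, Ideal.Quotient.eq_zero_iff_mem.mpr ha, zero_mul,
      TensorProduct.zero_tmul]
  · intro x y hx hy
    rw [TensorProduct.tmul_add, hx, hy, add_zero]

/-- Two endomorphisms which agree modulo `I` have the same base change to `R ⧸ I`. -/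
theorem baseChange_eq_of_sub_mem (I : Ideal R) (f g : Module.End R M)
    (h : ∀ v : M, f v - g v ∈ I • (⊤ : Submodule R M)) :
    f.baseChange (R ⧸ I) = g.baseChange (R ⧸ I) := by
  refine LinearMap.ext fun w => ?_
  induction w using TensorProduct.induction_on with
  | zero => rw [map_zero, map_zero]
  | tmul c v =>
    rw [LinearMap.baseChange_tmul, LinearMap.baseChange_tmul, ← sub_eq_zero,
      ← TensorProduct.tmul_sub]
    exact tmul_eq_zero_of_mem_smul_top I c (h v)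
  | add x y hx hy => rw [map_add, map_add, hx, hy]

/-- Two endomorphisms of a finite free module which agree modulo `I` have characteristic
polynomials with the same image in `(R ⧸ I)[X]`. -/
theorem charpoly_map_eq_of_sub_mem [Module.Free R M] [Module.Finite R M] (I : Ideal R)
    (f g : Module.End R M) (h : ∀ v : M, f v - g v ∈ I • (⊤ : Submodule R M)) :
    (LinearMap.charpoly f).map (Ideal.Quotient.mk I) =
      (LinearMap.charpoly g).map (Ideal.Quotient.mk I) := by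
  have h1 := LinearMap.charpoly_baseChange (A := R ⧸ I) f
  have h2 := LinearMap.charpoly_baseChange (A := R ⧸ I) g
  rw [Ideal.Quotient.algebraMap_eq] at h1 h2
  rw [← h1, ← h2, baseChange_eq_of_sub_mem I f g h]

/-- A linear map preserves `I • ⊤`. -/
theorem map_mem_smul_top_of_mem (I : Ideal R) (f : Module.End R M) {x : M}
    (hx : x ∈ I • (⊤ : Submodule R M)) : f x ∈ I • (⊤ : Submodule R M) := by
  refine Submodule.smul_induction_on (p := fun x => f x ∈ I • (⊤ : Submodule R M)) hx ?_ ?_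
  · intro a ha w _
    rw [map_smul]
    exact Submodule.smul_mem_smul ha Submodule.mem_top
  · intro x y hx hy
    rw [map_add]
    exact Submodule.add_mem _ hx hy

end Congr

/-- Approximation of `ρ σ` by `ρ τ` for a Frobenius element `τ` at a prime outside `T`,
simultaneously for two adic representations, modulo `𝔪ⁿ`. -/
theorem exists_frobenius_approx {O : Type} [CommRing O] [IsLocalRing O]
    (ρ₁ ρ₂ : GaloisRepAdic O) (T : Finset ℕ) (σ : GQ) (n : ℕ) :
    ∃ (ℓ : ℕ) (A : ValuationSubring Qb) (τ : GQ),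
      ℓ.Prime ∧ ℓ ∉ T ∧ A.LiesOverPrime ℓ ∧ A.IsFrobeniusAt τ ℓ ∧
      (∀ v : ρ₁.V, ρ₁.ρ σ v - ρ₁.ρ τ v ∈
        (IsLocalRing.maximalIdeal O ^ n) • (⊤ : Submodule O ρ₁.V)) ∧
      (∀ v : ρ₂.V, ρ₂.ρ σ v - ρ₂.ρ τ v ∈
        (IsLocalRing.maximalIdeal O ^ n) • (⊤ : Submodule O ρ₂.V)) := by
  obtain ⟨L₁, hL₁, h₁⟩ := ρ₁.isAdicContinuous n
  obtain ⟨L₂, hL₂, h₂⟩ := ρ₂.isAdicContinuous n
  have := hL₁
  have := hL₂
  have hE : FiniteDimensional ℚ (L₁ ⊔ L₂ : IntermediateField ℚ Qb) :=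
    IntermediateField.finiteDimensional_sup L₁ L₂
  obtain ⟨ℓ, A, τ, hℓ, hℓT, hA, hτ, -, hτσ⟩ :=
    Fermat.Agent.Lib.Cheb.chebotarev (L₁ ⊔ L₂) hE σ T
  -- `h := τ⁻¹ σ` fixes `L₁ ⊔ L₂`
  have hfix : ∀ x ∈ (L₁ ⊔ L₂ : IntermediateField ℚ Qb), (τ⁻¹ * σ) x = x := by
    intro x hx
    rw [AlgEquiv.mul_apply, ← hτσ x hx]
    exact τ.symm_apply_apply x
  have hσ : σ = τ * (τ⁻¹ * σ) := by group
  refine ⟨ℓ, A, τ, hℓ, hℓT, hA, hτ, fun v => ?_, fun v => ?_⟩
  · have hv := h₁ (τ⁻¹ * σ) (fun x hx => hfix x (le_sup_left (a := L₁) (b := L₂) hx)) v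
    have hv' := map_mem_smul_top_of_mem _ (ρ₁.ρ τ) hv
    rw [map_sub] at hv'
    have : ρ₁.ρ σ v = ρ₁.ρ τ (ρ₁.ρ (τ⁻¹ * σ) v) := by
      conv_lhs => rw [hσ, map_mul]
      rfl
    rw [this]
    exact hv'
  · have hv := h₂ (τ⁻¹ * σ) (fun x hx => hfix x (le_sup_right (a := L₁) (b := L₂) hx)) v
    have hv' := map_mem_smul_top_of_mem _ (ρ₂.ρ τ) hv
    rw [map_sub] at hv'
    have : ρ₂.ρ σ v = ρ₂.ρ τ (ρ₂.ρ (τ⁻¹ * σ) v) := by
      conv_lhs => rw [hσ, map_mul]
      rfl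
    rw [this]
    exact hv'

/-- **S58 leaf CHEB.** -/
theorem chebCharpoly : Fermat.Agent.S58.ChebCharpolyStatement := by
  intro O _ _ _ _ _ ρ₁ ρ₂ T hT σ
  -- it suffices to compare coefficients modulo every power of the maximal ideal
  have hkrull : (⨅ n : ℕ, IsLocalRing.maximalIdeal O ^ n) = ⊥ :=
    Ideal.iInf_pow_eq_bot_of_isLocalRing _ (Ideal.IsMaximal.ne_top inferInstance)
  refine Polynomial.ext fun k => ?_
  rw [← sub_eq_zero, ← Ideal.mem_bot, ← hkrull, Ideal.mem_iInf]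
  intro n
  obtain ⟨ℓ, A, τ, hℓ, hℓT, hA, hτ, h₁, h₂⟩ := exists_frobenius_approx ρ₁ ρ₂ T σ n
  have e₁ := charpoly_map_eq_of_sub_mem (IsLocalRing.maximalIdeal O ^ n) (ρ₁.ρ σ) (ρ₁.ρ τ) h₁
  have e₂ := charpoly_map_eq_of_sub_mem (IsLocalRing.maximalIdeal O ^ n) (ρ₂.ρ σ) (ρ₂.ρ τ) h₂
  have e := hT ℓ hℓ hℓT A hA τ hτ
  have key : (LinearMap.charpoly (ρ₁.ρ σ)).map (Ideal.Quotient.mk _) =
      (LinearMap.charpoly (ρ₂.ρ σ)).map (Ideal.Quotient.mk (IsLocalRing.maximalIdeal O ^ n)) := by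
    rw [e₁, e₂, e]
  have hk := congrArg (fun P => Polynomial.coeff P k) key
  simp only [Polynomial.coeff_map] at hk
  exact Ideal.Quotient.eq.mp hk

end Fermat.Agent.S58.H115

end
-- ===== PACK-END S58/H115/ChebCharpoly.lean

-- ===== PACK-BEGIN S59/H401/DictFrob.lean
section




/-!
# Row S59, leaf DICT (helper401), part 1: the Frobenius characteristic polynomials of `E[p]`

Let `W` be an integral Weierstrass model with `Δ ≠ 0` and irreducible `E[p]`, residually modular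
of level `N` (witness: a normalised eigenform `f` and a maximal ideal `𝔪 ∋ p` of `ℤ̄`).

* `dict_charpoly_good`      : `charpoly (E[p])(Frob_ℓ) = X² − a_ℓ(W) X + ℓ` for a good prime `ℓ ≥ 5`,
  `ℓ ≠ p` (the finite-level statement of `S59/H667` at level `p`, in the Prelude language
  `residualGaloisRepOf`).
* `dict_charpoly_transport` : for EVERY prime `ℓ₀ ∤ N p` (possibly a bad prime of `W`) and every
  Frobenius element `σ₀` at `ℓ₀`,
  `charpoly (E[p])(σ₀) = X² − a_{ℓ₀}(f) X + ℓ₀` in `(ℤ̄/𝔪)[X]`.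
  Inputs: frozen S29 (as a hypothesis, `DictS29Statement`) and exact Chebotarev (on main).
-/

set_option autoImplicit false

open Polynomial WeierstrassCurve WeierstrassCurve.Affine WeierstrassCurve.Affine.Point
open CuspForm ModularFormClass

namespace Fermat.Agent.S59.H401

/-- `ℚ̄` -/
abbrev DQb : Type := AlgebraicClosure ℚ

/-- `Gal(ℚ̄/ℚ)` -/
abbrev DGQ : Type := DQb ≃ₐ[ℚ] DQb

/-- The exact type of the frozen statement S29 (input of the leaf, on main as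
`Fermat.Agent.S29.result`). -/
def DictS29Statement : Prop :=
  ∀ {N : ℕ} {g : CuspForm (CongruenceSubgroup.Gamma0 N) 2} (_hg : g.IsNormalizedEigenform)
    {p : ℕ} (_hp : p.Prime) {k : Type} [Field k] [CharP k p]
    (φ : integralClosure ℤ ℂ →+* k),
    ∃ ρ : ResidualGaloisRep k, ρ.IsAttachedTo g φ ∧
      ∀ ℓ : ℕ, ℓ.Prime → ¬ ℓ ∣ N * p → ρ.IsUnramifiedAt ℓ

/-- The finite-level Frobenius characteristic polynomial at level `m = p ^ 1`. -/
theorem dict_charpoly_rhoFin_of_eq (W : WeierstrassCurve ℤ) (hΔ : W.Δ ≠ 0) (p : ℕ)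
    [Fact p.Prime] (hirr : W.ModRepIsIrreducible p)
    (ℓ : ℕ) (hℓ : ℓ.Prime) (h5 : 5 ≤ ℓ) (hgood : W.IsGoodPrimeFor ℓ) (hℓp : ℓ ≠ p)
    (A : ValuationSubring DQb) (hA : A.LiesOverPrime ℓ) (τ : DGQ) (hτ : A.IsFrobeniusAt τ ℓ)
    (m : ℕ) (hm : m = p ^ 1)
    [Module.Free (ZMod m) (Fermat.Agent.S59.H667.TorsE W m)]
    [Module.Finite (ZMod m) (Fermat.Agent.S59.H667.TorsE W m)] :
    LinearMap.charpoly (Fermat.Agent.S59.H667.rhoFin W m τ)
      = X ^ 2 - C ((W.apOfModel ℓ : ℤ) : ZMod m) * X + C (((ℓ : ℤ) : ZMod m)) := by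
  subst hm
  have := Fermat.Agent.S59.H667.isElliptic_of_Δ_ne_zero W hΔ
  obtain ⟨cb⟩ := Fermat.Agent.S59.H127.nonempty_compatBasis_point
    ((W.map (Int.castRingHom ℚ))⁄(AlgebraicClosure ℚ)) p
  exact Fermat.Agent.S59.H667.charpoly_rhoFin_frob' W hΔ p hirr cb 1 ℓ hℓ h5 hgood hℓp A hA τ hτ

/-- **Frobenius on `E[p]` at a good prime `ℓ ≥ 5`, `ℓ ≠ p`.** -/
theorem dict_charpoly_good (W : WeierstrassCurve ℤ) (hΔ : W.Δ ≠ 0) (p : ℕ) [Fact p.Prime]
    (hirr : W.ModRepIsIrreducible p)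
    (hcard : Nat.card (Submodule.torsionBy ℤ
      ((W.map (Int.castRingHom ℚ))⁄(AlgebraicClosure ℚ)).Point p) = p ^ 2)
    (hker : GaloisFactorsThroughFiniteLevel
      (WeierstrassCurve.Affine.Point.galoisRepModuleEnd (K := AlgebraicClosure ℚ) ℚ
        (W.map (Int.castRingHom ℚ)) p))
    (ℓ : ℕ) (hℓ : ℓ.Prime) (h5 : 5 ≤ ℓ) (hgood : W.IsGoodPrimeFor ℓ) (hℓp : ℓ ≠ p)
    (A : ValuationSubring DQb) (hA : A.LiesOverPrime ℓ) (τ : DGQ) (hτ : A.IsFrobeniusAt τ ℓ) :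
    LinearMap.charpoly (((W.map (Int.castRingHom ℚ)).residualGaloisRepOf p hcard hker).ρ τ)
      = X ^ 2 - C ((W.apOfModel ℓ : ℤ) : ZMod p) * X + C ((ℓ : ZMod p)) := by
  have : Module.Finite (ZMod p) (Fermat.Agent.S59.H667.TorsE W p) :=
    ResidualGaloisRep.instModuleFinite ((W.map (Int.castRingHom ℚ)).residualGaloisRepOf p hcard hker)
  have h := dict_charpoly_rhoFin_of_eq W hΔ p hirr ℓ hℓ h5 hgood hℓp A hA τ hτ p (pow_one p).symm
  rw [Int.cast_natCast] at h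
  exact h

/-- If `τ` and `σ` agree on a finite level through which `r` factors, then `r τ = r σ`. -/
theorem dict_map_eq_of_agree {M : Type} [Monoid M] (r : DGQ →* M)
    (L : IntermediateField ℚ DQb) (hL : ∀ σ : DGQ, (∀ x ∈ L, σ x = x) → r σ = 1)
    (σ τ : DGQ) (h : ∀ x ∈ L, τ x = σ x) : r τ = r σ := by
  have h1 : r (σ⁻¹ * τ) = 1 := by
    apply hL
    intro z hz
    rw [AlgEquiv.mul_apply, h z hz]
    exact σ.symm_apply_apply z
  have h2 : r τ = r (σ * (σ⁻¹ * τ)) := by rw [mul_inv_cancel_left]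
  rw [h2, map_mul, h1, mul_one]

/-- A prime different from `2` and `3` is at least `5`. -/
theorem dict_five_le {ℓ : ℕ} (hℓ : ℓ.Prime) (h2 : ℓ ≠ 2) (h3 : ℓ ≠ 3) : 5 ≤ ℓ := by
  by_contra hlt
  have h4 : ℓ ≤ 4 := by omega
  have h1 := hℓ.two_le
  interval_cases ℓ
  · exact h2 rfl
  · exact h3 rfl
  · exact absurd hℓ (by decide)

/-- **Transport of the Frobenius characteristic polynomials.**  Let `W` be residually modular of
level `N` (witness `f`, `𝔪`), with `E[p]` irreducible.  For EVERY prime `ℓ₀ ∤ N`, `ℓ₀ ≠ p`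
(good or bad for `W`) and every Frobenius element `σ₀` at `ℓ₀`, the characteristic polynomial of
`σ₀` on `E[p]` is `X² − a_{ℓ₀}(f) X + ℓ₀` modulo `𝔪`. -/
theorem dict_charpoly_transport (h29 : DictS29Statement)
    (p : ℕ) [Fact p.Prime] (W : WeierstrassCurve ℤ) (hΔ : W.Δ ≠ 0)
    (hirr : W.ModRepIsIrreducible p)
    (hcard : Nat.card (Submodule.torsionBy ℤ
      ((W.map (Int.castRingHom ℚ))⁄(AlgebraicClosure ℚ)).Point p) = p ^ 2)
    (hker : GaloisFactorsThroughFiniteLevel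
      (WeierstrassCurve.Affine.Point.galoisRepModuleEnd (K := AlgebraicClosure ℚ) ℚ
        (W.map (Int.castRingHom ℚ)) p))
    {N : ℕ} {f : CuspForm (CongruenceSubgroup.Gamma0 N) 2} (hf : f.IsNormalizedEigenform)
    (𝔪 : Ideal (integralClosure ℤ ℂ)) [h𝔪 : 𝔪.IsMaximal]
    (hp𝔪 : (p : integralClosure ℤ ℂ) ∈ 𝔪)
    (hcong : ∀ ℓ : ℕ, ℓ.Prime → W.IsGoodPrimeFor ℓ → ¬ ℓ ∣ N → ℓ ≠ p →
      ∃ a : integralClosure ℤ ℂ, (a : ℂ) = ModularFormClass.qCoeff f ℓ ∧
        a - ((W.apOfModel ℓ : ℤ) : integralClosure ℤ ℂ) ∈ 𝔪)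
    (j : ZMod p →+* integralClosure ℤ ℂ ⧸ 𝔪)
    (ℓ₀ : ℕ) (hℓ₀ : ℓ₀.Prime) (hℓ₀N : ¬ ℓ₀ ∣ N) (hℓ₀p : ℓ₀ ≠ p)
    (A₀ : ValuationSubring DQb) (hA₀ : A₀.LiesOverPrime ℓ₀) (σ₀ : DGQ)
    (hσ₀ : A₀.IsFrobeniusAt σ₀ ℓ₀) :
    ∃ a₀ : integralClosure ℤ ℂ, (a₀ : ℂ) = ModularFormClass.qCoeff f ℓ₀ ∧
      (LinearMap.charpoly
          (((W.map (Int.castRingHom ℚ)).residualGaloisRepOf p hcard hker).ρ σ₀)).map j
        = X ^ 2 - C (Ideal.Quotient.mk 𝔪 a₀) * X + C ((ℓ₀ : ℕ) : integralClosure ℤ ℂ ⧸ 𝔪) := by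
  classical
  have hpp : p.Prime := Fact.out
  have hN : N ≠ 0 := by
    rintro rfl
    exact hℓ₀N (dvd_zero _)
  let _ : Field (integralClosure ℤ ℂ ⧸ 𝔪) := Ideal.Quotient.field 𝔪
  have hpk : ((p : ℕ) : integralClosure ℤ ℂ ⧸ 𝔪) = 0 := by
    have h1 := Ideal.Quotient.eq_zero_iff_mem.mpr hp𝔪
    rw [map_natCast] at h1
    exact h1
  have : CharP (integralClosure ℤ ℂ ⧸ 𝔪) p := (CharP.charP_iff_prime_eq_zero hpp).mpr hpk
  obtain ⟨ρ, hatt, -⟩ := h29 hf hpp (Ideal.Quotient.mk 𝔪)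
  obtain ⟨Lρ, hLρfin, hLρ⟩ := ρ.factorsThroughFiniteLevel
  obtain ⟨LW, hLWfin, hLW⟩ := hker
  have := hLρfin
  have := hLWfin
  obtain ⟨ℓ, A, τ, hℓ, hℓS, hA, hτ, -, hτσ⟩ := Fermat.Agent.Lib.Cheb.chebotarev
    (Lρ ⊔ LW) inferInstance σ₀
    (N.primeFactors ∪ {p} ∪ W.Δ.natAbs.primeFactors ∪ {2, 3})
  simp only [Finset.mem_union, Finset.mem_singleton, Finset.mem_insert, not_or] at hℓS
  obtain ⟨⟨⟨hℓN', hℓp⟩, hℓbad⟩, hℓ2, hℓ3⟩ := hℓS
  have hℓN : ¬ ℓ ∣ N := fun h => hℓN' (Nat.mem_primeFactors.mpr ⟨hℓ, h, hN⟩)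
  have hℓgood : W.IsGoodPrimeFor ℓ := by
    intro hdvd
    apply hℓbad
    rw [Nat.mem_primeFactors]
    exact ⟨hℓ, Int.natCast_dvd.mp hdvd, Int.natAbs_ne_zero.mpr hΔ⟩
  have h5 : 5 ≤ ℓ := dict_five_le hℓ hℓ2 hℓ3
  -- the two representations do not distinguish `τ` and `σ₀`
  have hρ : ρ.ρ τ = ρ.ρ σ₀ :=
    dict_map_eq_of_agree ρ.ρ Lρ hLρ σ₀ τ (fun x hx => hτσ x (le_sup_left (a := Lρ) hx))
  have hW : ((W.map (Int.castRingHom ℚ)).residualGaloisRepOf p hcard ⟨LW, hLWfin, hLW⟩).ρ τ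
      = ((W.map (Int.castRingHom ℚ)).residualGaloisRepOf p hcard ⟨LW, hLWfin, hLW⟩).ρ σ₀ :=
    dict_map_eq_of_agree _ LW hLW σ₀ τ (fun x hx => hτσ x (le_sup_right (b := LW) hx))
  -- Frobenius at the good prime `ℓ`
  have hgoodchar := dict_charpoly_good W hΔ p hirr hcard ⟨LW, hLWfin, hLW⟩ ℓ hℓ h5 hℓgood hℓp
    A hA τ hτ
  have hℓk : ((ℓ : ℕ) : integralClosure ℤ ℂ ⧸ 𝔪) ≠ 0 := by
    intro h0
    have := (CharP.cast_eq_zero_iff (integralClosure ℤ ℂ ⧸ 𝔪) p ℓ).mp h0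
    exact hℓp ((Nat.prime_dvd_prime_iff_eq hpp hℓ).mp this).symm
  have hℓ₀k : ((ℓ₀ : ℕ) : integralClosure ℤ ℂ ⧸ 𝔪) ≠ 0 := by
    intro h0
    have := (CharP.cast_eq_zero_iff (integralClosure ℤ ℂ ⧸ 𝔪) p ℓ₀).mp h0
    exact hℓ₀p ((Nat.prime_dvd_prime_iff_eq hpp hℓ₀).mp this).symm
  obtain ⟨a, haC, hachar⟩ := hatt ℓ hℓ hℓN hℓk A hA τ hτ
  obtain ⟨a₀, ha₀C, ha₀char⟩ := hatt ℓ₀ hℓ₀ hℓ₀N hℓ₀k A₀ hA₀ σ₀ hσ₀
  obtain ⟨b, hbC, hb𝔪⟩ := hcong ℓ hℓ hℓgood hℓN hℓp
  have hab : a = b := Subtype.ext (haC.trans hbC.symm)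
  have hmk : Ideal.Quotient.mk 𝔪 a = ((W.apOfModel ℓ : ℤ) : integralClosure ℤ ℂ ⧸ 𝔪) := by
    have h1 := Ideal.Quotient.eq_zero_iff_mem.mpr hb𝔪
    rw [map_sub, map_intCast, sub_eq_zero] at h1
    rw [hab]
    exact h1
  refine ⟨a₀, ha₀C, ?_⟩
  rw [← hW, hgoodchar, ← ha₀char, ← hρ, hachar, hmk]
  rw [Polynomial.map_add, Polynomial.map_sub, Polynomial.map_mul, Polynomial.map_pow,
    Polynomial.map_X, Polynomial.map_C, Polynomial.map_C, map_intCast, map_natCast]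

end Fermat.Agent.S59.H401

end
-- ===== PACK-END S59/H401/DictFrob.lean

-- ===== PACK-BEGIN S59/TW/Aut/H762/PCor.lean
section




/-!
# S59 / cell TW, layer 3 (AUT), leaf CMP part (T), piece PCOR (helper762)

Partial corestriction.  `K_Q = KQ p N₀ qv = Γ_{ker χ_Q}(M_Q)`, `ker χ_Q ≤ H' ≤ (ℤ/M_Q)ˣ`,
`K' = GammaH M_Q H'`.  For `V ⊆ X_{K_Q}(𝒪)` diamond-stable and free over `𝒪[Δ_Q]` (`Aut.FreeAt`):

* `pcor_ker_N0_h762` / `pcor_ker_h762` : for `y ∈ V`,
  `coresK (K_Q ≤ K') y = 0 ↔ y ∈` the additive closure of the `⟨u⟩ y' - y'`, `u ∈ H'`, `y' ∈ V`;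
* `HJ p N₀ qv j` : the subgroup "no condition at `q_j`", `KJ p N₀ qv j = GammaH M_Q (HJ j)`
  (`= Γ₀(N₀ q_j) ∩ Γ_H(Q ∖ q_j)` at the primes of `Q`);
* `pcor_ker_j_h762` : for `y ∈ V`, `coresK (K_Q ≤ K_j) y = 0 ↔ y ∈` the additive closure of the
  `diaQ (Pi.mulSingle j a) y' - y'`;
* `pcor_ker_j_range_h762` : `… ↔ ∃ y' ∈ V, y = diaQ (Pi.mulSingle j a) y' - y'` for a primitive
  root `a` modulo `q_j` (the shape `(X_j - 1) V` of `H314.TwT`).

The Hecke equivariance of `coresK (K_Q ≤ K')` is `coresK_TK_gen_h762`, `coresK_UK_gen_h762`,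
`coresK_diamondU_h762` (file `PCorGen.lean`, with `χ := chi p N₀ qv`).
-/

set_option autoImplicit false

namespace Fermat.Agent.S59.TW.Aut.H762

open CongruenceSubgroup
open Fermat.Agent.S59.Arch Fermat.Agent.S59.TW.H653 Fermat.Agent.S59.MFree
open Fermat.Agent.S59.TW.Aut
open scoped MatrixGroups

section Dia

variable (p N₀ : ℕ) {r : ℕ} (qv : Fin r → ℕ)

theorem chi_surjective_h762 (hsurj : Function.Surjective (red N₀ qv)) :
    Function.Surjective (chi p N₀ qv) := by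
  intro d
  obtain ⟨a, rfl⟩ := QuotientGroup.mk_surjective d
  obtain ⟨u, rfl⟩ := hsurj a
  exact ⟨u, rfl⟩

theorem chi_liftU_h762 (hsurj : Function.Surjective (red N₀ qv))
    (a : ∀ j : Fin r, (ZMod (qv j))ˣ) :
    chi p N₀ qv (liftU N₀ qv a) = QuotientGroup.mk a := by
  rw [chi_apply_h762, red_liftU N₀ qv (hsurj a)]

/-- `⟨u⟩ = ⟨liftU (red u)⟩` on `X_{K_Q}`. -/
theorem diamondU_eq_liftU_red_h762 [NeZero (bLevel N₀ qv)]
    (hsurj : Function.Surjective (red N₀ qv)) {A : Type} [AddCommGroup A]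
    (u : (ZMod (bLevel N₀ qv))ˣ) (x : Additive (KQ p N₀ qv) →+ A) :
    diamondU (isMid_KQ p N₀ qv) u x =
      diamondU (isMid_KQ p N₀ qv) (liftU N₀ qv (red N₀ qv u)) x := by
  apply diamondU_eq_of_chi
  rw [chi_liftU_h762 p N₀ qv hsurj, chi_apply_h762]

end Dia

section Main

variable {p : ℕ} [hp : Fact p.Prime] (N₀ : ℕ) [hN₀ : NeZero N₀] {r : ℕ} (qv : Fin r → ℕ)
  (hprime : ∀ j, (qv j).Prime) (hinj : Function.Injective qv)
  (𝒪 : Type) [CommRing 𝒪] [IsDomain 𝒪] [CharZero 𝒪]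
  (H' : Subgroup (ZMod (bLevel N₀ qv))ˣ) (hH' : (chi p N₀ qv).ker ≤ H')

omit [IsDomain 𝒪] [CharZero 𝒪] in
include hp hN₀ hprime hinj hH' in
/-- **PCOR**, for every `N₀ ≠ 0` and every `H' ⊇ ker χ_Q`. -/
theorem pcor_ker_N0_h762
    (V : Submodule 𝒪 (Additive (KQ p N₀ qv) →+ 𝒪))
    (hVdia : ∀ (a : ∀ j : Fin r, (ZMod (qv j))ˣ), ∀ x ∈ V,
      diamondU (isMid_KQ p N₀ qv) (liftU N₀ qv a) x ∈ V)
    (hfree : ∀ g : ∀ j : Fin r, (ZMod (qv j))ˣ, (∀ j, orderOf (g j) = qv j - 1) →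
      ∃ (d : ℕ) (b : Fin d → V), ∀ y : V,
        ∃! c : Fin d → (∀ j : Fin r, Fin (p ^ padicValNat p (qv j - 1))) → 𝒪,
          (y : Additive (KQ p N₀ qv) →+ 𝒪) =
            ∑ i, ∑ e, c i e •
              diamondU (isMid_KQ p N₀ qv) (liftU N₀ qv (fun j => g j ^ (e j : ℕ))) (b i))
    {y : Additive (KQ p N₀ qv) →+ 𝒪} (hy : y ∈ V) :
    coresK (GammaH_mono hH' : KQ p N₀ qv ≤ GammaH (bLevel N₀ qv) H') y = 0 ↔
      y ∈ AddSubgroup.closure {z : Additive (KQ p N₀ qv) →+ 𝒪 |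
        ∃ u ∈ H', ∃ y' ∈ V, z = diamondU (isMid_KQ p N₀ qv) u y' - y'} := by
  classical
  have hM : NeZero (bLevel N₀ qv) := neZero_bLevel_h762 N₀ qv hprime
  have hsurj := red_surjective N₀ qv (NeZero.ne N₀) hinj hprime
  have hχ := chi_surjective_h762 p N₀ qv hsurj
  have hNZ : ∀ j, NeZero (qv j) := fun j => ⟨(hprime j).ne_zero⟩
  have hfin : Finite (Delta p qv) := inferInstance
  let _ : Fintype (Delta p qv) := Fintype.ofFinite _
  let _ : Fintype ↥(H'.map (chi p N₀ qv)) := Fintype.ofFinite _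
  have hKeq : KQ p N₀ qv = kerSub (kappaSub_h762 (G := Delta p qv) (chi p N₀ qv) H') :=
    (kerSub_kappaSub_h762 (G := Delta p qv) (chi p N₀ qv) H' hH').symm
  let lift : Delta p qv → (ZMod (bLevel N₀ qv))ˣ := Function.surjInv hχ
  have hlift : ∀ d, chi p N₀ qv (lift d) = d := Function.surjInv_eq hχ
  have hliftH : ∀ d : ↥(H'.map (chi p N₀ qv)), lift (d : Delta p qv) ∈ H' := by
    rintro ⟨d, u, hu, rfl⟩
    have h1 : (lift (chi p N₀ qv u)) * u⁻¹ ∈ (chi p N₀ qv).ker := by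
      rw [MonoidHom.mem_ker, map_mul, hlift, map_inv, mul_inv_cancel]
    have h2 := H'.mul_mem (hH' h1) hu
    rwa [inv_mul_cancel_right] at h2
  -- stability under all diamond operators
  have hVall : ∀ (u : (ZMod (bLevel N₀ qv))ˣ), ∀ x ∈ V,
      diamondU (isMid_KQ p N₀ qv) u x ∈ V := by
    intro u x hx
    rw [diamondU_eq_liftU_red_h762 p N₀ qv hsurj u x]
    exact hVdia _ x hx
  constructor
  · intro h
    -- the action of `Δ_Q`
    let δ : Delta p qv → (Additive (KQ p N₀ qv) →+ 𝒪) →ₗ[𝒪] (Additive (KQ p N₀ qv) →+ 𝒪) :=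
      fun d =>
        { toFun := fun x => diamondU (isMid_KQ p N₀ qv) (lift d) x
          map_add' := fun _ _ => rfl
          map_smul' := fun _ _ => rfl }
    have hδapp : ∀ d x, δ d x = diamondU (isMid_KQ p N₀ qv) (lift d) x := fun _ _ => rfl
    have hδ : ∀ g h x, δ g (δ h x) = δ (g * h) x := by
      intro g h x
      rw [hδapp, hδapp, hδapp, ← diamondU_mul]
      apply diamondU_eq_of_chi
      rw [map_mul, hlift, hlift, hlift]
    obtain ⟨g, hg⟩ := exists_primitive_roots qv hprime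
    obtain ⟨d, b, hb⟩ := hfree g hg
    have hb' : ∀ y ∈ V, ∃! c : Fin d → Delta p qv → 𝒪,
        y = ∑ i, ∑ g', c i g' • δ g' ((b i : V) : Additive (KQ p N₀ qv) →+ 𝒪) := by
      intro y hy
      have h1 := hb ⟨y, hy⟩
      have h2 : ∀ (e : ∀ j : Fin r, Fin (p ^ padicValNat p (qv j - 1))) (i : Fin d),
          diamondU (isMid_KQ p N₀ qv) (liftU N₀ qv (fun j => g j ^ (e j : ℕ)))
            ((b i : V) : Additive (KQ p N₀ qv) →+ 𝒪) =
          δ (epsIdx p qv g e) ((b i : V) : Additive (KQ p N₀ qv) →+ 𝒪) := by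
        intro e i
        rw [hδapp]
        apply diamondU_eq_of_chi
        rw [hlift, chi_liftU_h762 p N₀ qv hsurj]
        rfl
      simp only [h2] at h1
      exact basis_transport_h762 δ (epsIdx p qv g) (epsIdx_bijective p qv hprime g hg)
        (fun i => ((b i : V) : Additive (KQ p N₀ qv) →+ 𝒪)) h1
    have hN : ∑ d' : ↥(H'.map (chi p N₀ qv)), δ (d' : Delta p qv) y = 0 := by
      have h3 := resK_coresK_h762 (G := Delta p qv) (chi p N₀ qv) H' (KQ p N₀ qv) hKeq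
        (GammaH_mono hH') (isMid_KQ p N₀ qv) (fun d' => lift (d' : Delta p qv))
        (fun d' => ⟨hliftH d', hlift _⟩) y
      have e0 : resK (GammaH_mono hH' : KQ p N₀ qv ≤ GammaH (bLevel N₀ qv) H')
          (coresK (GammaH_mono hH' : KQ p N₀ qv ≤ GammaH (bLevel N₀ qv) H') y) = 0 :=
        (congrArg (resK (GammaH_mono hH' : KQ p N₀ qv ≤ GammaH (bLevel N₀ qv) H')) h).trans rfl
      exact h3.symm.trans e0
    have h4 := ker_norm_sub_h762 (fun a b => mul_comm a b) δ hδ V (fun g x hx => hVall _ x hx)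
      (fun i => ((b i : V) : Additive (KQ p N₀ qv) →+ 𝒪)) (fun i => (b i).2) hb'
      (H'.map (chi p N₀ qv)) hy hN
    refine AddSubgroup.closure_mono ?_ h4
    rintro z ⟨d', y', hy', rfl⟩
    exact ⟨lift (d' : Delta p qv), hliftH d', y', hy', rfl⟩
  · intro h
    clear hy
    induction h using AddSubgroup.closure_induction with
    | mem z hz =>
      obtain ⟨u, hu, y', -, rfl⟩ := hz
      have h5 := coresK_diamondU_h762 (G := Delta p qv) (chi p N₀ qv) H' (KQ p N₀ qv) hKeq (GammaH_mono hH')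
        (isMid_KQ p N₀ qv) u hu y'
      have h6 : coresK (GammaH_mono hH' : KQ p N₀ qv ≤ GammaH (bLevel N₀ qv) H')
          (diamondU (isMid_KQ p N₀ qv) u y' - y') =
          coresK (GammaH_mono hH') (diamondU (isMid_KQ p N₀ qv) u y') -
            coresK (GammaH_mono hH') y' :=
        map_sub (coresKLin_h762 (GammaH_mono hH' : KQ p N₀ qv ≤ GammaH (bLevel N₀ qv) H') 𝒪)
          _ _
      exact h6.trans (sub_eq_zero.mpr h5)
    | zero => exact map_zero (coresKLin_h762 (GammaH_mono hH') 𝒪)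
    | add a b _ _ ha hb =>
      have h7 : coresK (GammaH_mono hH' : KQ p N₀ qv ≤ GammaH (bLevel N₀ qv) H') (a + b) =
          coresK (GammaH_mono hH') a + coresK (GammaH_mono hH') b :=
        map_add (coresKLin_h762 (GammaH_mono hH' :
          KQ p N₀ qv ≤ GammaH (bLevel N₀ qv) H') 𝒪) a b
      exact h7.trans ((congrArg₂ (· + ·) ha hb).trans (add_zero 0))
    | neg a _ ha =>
      have h8 : coresK (GammaH_mono hH' : KQ p N₀ qv ≤ GammaH (bLevel N₀ qv) H') (-a) =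
          -coresK (GammaH_mono hH') a :=
        map_neg (coresKLin_h762 (GammaH_mono hH' :
          KQ p N₀ qv ≤ GammaH (bLevel N₀ qv) H') 𝒪) a
      exact h8.trans ((congrArg Neg.neg ha).trans neg_zero)

end Main

section J

variable (p N₀ : ℕ) {r : ℕ} (qv : Fin r → ℕ)

/-- The subgroup "no condition at `q_j`" of `(ℤ/M_Q)ˣ`: the `u` which are `p^{m_i}`-th powers
modulo `q_i` for every `i ≠ j`. -/
def HJ (j : Fin r) : Subgroup (ZMod (bLevel N₀ qv))ˣ :=
  (Subgroup.pi {i | i ≠ j} fun i =>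
    (powMonoidHom (p ^ padicValNat p (qv i - 1)) : (ZMod (qv i))ˣ →* (ZMod (qv i))ˣ).range).comap
    (red N₀ qv)

theorem mem_HJ {j : Fin r} {u : (ZMod (bLevel N₀ qv))ˣ} :
    u ∈ HJ p N₀ qv j ↔
      ∀ i, i ≠ j → ∃ v : (ZMod (qv i))ˣ, v ^ (p ^ padicValNat p (qv i - 1)) = red N₀ qv u i := by
  unfold HJ
  rw [Subgroup.mem_comap, Subgroup.mem_pi]
  constructor
  · intro h i hi
    obtain ⟨v, hv⟩ := h i hi
    exact ⟨v, hv⟩
  · intro h i hi
    obtain ⟨v, hv⟩ := h i hi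
    exact ⟨v, hv⟩

/-- `K_j = Γ₀(M_Q) ∩ Γ_H(Q ∖ q_j)`. -/
def KJ (j : Fin r) : Subgroup SL(2, ℤ) := GammaH (bLevel N₀ qv) (HJ p N₀ qv j)

theorem ker_chi_le_HJ (j : Fin r) : (chi p N₀ qv).ker ≤ HJ p N₀ qv j := by
  intro u hu
  rw [MonoidHom.mem_ker, chi_apply_h762, QuotientGroup.eq_one_iff, mem_powSub_iff] at hu
  exact (mem_HJ p N₀ qv).mpr fun i _ => hu i

theorem KQ_le_KJ (j : Fin r) : KQ p N₀ qv ≤ KJ p N₀ qv j :=
  GammaH_mono (ker_chi_le_HJ p N₀ qv j)

theorem isMid_KJ (j : Fin r) : IsMid (bLevel N₀ qv) (KJ p N₀ qv j) := isMid_GammaH _ _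

theorem liftU_mulSingle_mem_HJ
    (hsurj : Function.Surjective (red N₀ qv)) (j : Fin r)
    (a : (ZMod (qv j))ˣ) : liftU N₀ qv (Pi.mulSingle j a) ∈ HJ p N₀ qv j := by
  refine (mem_HJ p N₀ qv).mpr fun i hi => ⟨1, ?_⟩
  rw [red_liftU N₀ qv (hsurj _), Pi.mulSingle_eq_of_ne hi, one_pow]

/-- On `X_{K_Q}`, `⟨u⟩ = ⟨(red u)_j⟩_j` for `u ∈ H_j`. -/
theorem diamondU_eq_mulSingle_h762 [NeZero (bLevel N₀ qv)]
    (hsurj : Function.Surjective (red N₀ qv)) {A : Type} [AddCommGroup A] (j : Fin r)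
    {u : (ZMod (bLevel N₀ qv))ˣ} (hu : u ∈ HJ p N₀ qv j) (x : Additive (KQ p N₀ qv) →+ A) :
    diamondU (isMid_KQ p N₀ qv) u x =
      diamondU (isMid_KQ p N₀ qv) (liftU N₀ qv (Pi.mulSingle j (red N₀ qv u j))) x := by
  apply diamondU_eq_of_chi
  rw [chi_liftU_h762 p N₀ qv hsurj, chi_apply_h762, QuotientGroup.eq, mem_powSub_iff]
  intro i
  by_cases hi : i = j
  · subst hi
    refine ⟨1, ?_⟩
    rw [one_pow, Pi.mul_apply, Pi.inv_apply, Pi.mulSingle_eq_same, inv_mul_cancel]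
  · obtain ⟨v, hv⟩ := (mem_HJ p N₀ qv).mp hu i hi
    refine ⟨v⁻¹, ?_⟩
    rw [inv_pow, hv, Pi.mul_apply, Pi.inv_apply, Pi.mulSingle_eq_of_ne hi, mul_one]

theorem dia_one_h762 [NeZero (bLevel N₀ qv)] {A : Type} [AddCommGroup A]
    (x : Additive (KQ p N₀ qv) →+ A) :
    diamondU (isMid_KQ p N₀ qv) (liftU N₀ qv 1) x = x := by
  apply diamondU_of_chi
  have h1 := red_liftU N₀ qv (a := 1) ⟨1, map_one _⟩
  rw [chi_apply_h762, h1]
  rfl

theorem dia_mul_h762 [NeZero (bLevel N₀ qv)] (hsurj : Function.Surjective (red N₀ qv))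
    {A : Type} [AddCommGroup A] (u u' : ∀ j : Fin r, (ZMod (qv j))ˣ)
    (x : Additive (KQ p N₀ qv) →+ A) :
    diamondU (isMid_KQ p N₀ qv) (liftU N₀ qv (u * u')) x =
      diamondU (isMid_KQ p N₀ qv) (liftU N₀ qv u)
        (diamondU (isMid_KQ p N₀ qv) (liftU N₀ qv u') x) := by
  rw [← diamondU_mul]
  apply diamondU_eq_of_chi
  apply chi_eq_of_red
  rw [map_mul, red_liftU _ _ (hsurj u), red_liftU _ _ (hsurj u'), red_liftU _ _ (hsurj (u * u'))]

theorem dia_pow_h762 [NeZero (bLevel N₀ qv)] (hsurj : Function.Surjective (red N₀ qv))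
    {A : Type} [AddCommGroup A] (u : ∀ j : Fin r, (ZMod (qv j))ˣ) (k : ℕ)
    (x : Additive (KQ p N₀ qv) →+ A) :
    diamondU (isMid_KQ p N₀ qv) (liftU N₀ qv (u ^ k)) x =
      (diamondU (isMid_KQ p N₀ qv) (liftU N₀ qv u))^[k] x := by
  induction k with
  | zero => rw [pow_zero, dia_one_h762, Function.iterate_zero_apply]
  | succ k ih =>
    rw [pow_succ', dia_mul_h762 p N₀ qv hsurj, ih, Function.iterate_succ_apply']

end J

section JMain

variable {p : ℕ} [hp : Fact p.Prime] (N₀ : ℕ) [hN₀ : NeZero N₀] {r : ℕ} (qv : Fin r → ℕ)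
  (hprime : ∀ j, (qv j).Prime) (hinj : Function.Injective qv)
  (𝒪 : Type) [CommRing 𝒪]

include hp hN₀ hprime hinj in
/-- **PCOR at `q_j`**: the kernel of `cor : V → X_{K_j}` is the additive closure of the
`⟨a⟩_j y' - y'`. -/
theorem pcor_ker_j_N0_h762 (j : Fin r)
    (V : Submodule 𝒪 (Additive (KQ p N₀ qv) →+ 𝒪))
    (hVdia : ∀ (a : ∀ j : Fin r, (ZMod (qv j))ˣ), ∀ x ∈ V,
      diamondU (isMid_KQ p N₀ qv) (liftU N₀ qv a) x ∈ V)
    (hfree : ∀ g : ∀ j : Fin r, (ZMod (qv j))ˣ, (∀ j, orderOf (g j) = qv j - 1) →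
      ∃ (d : ℕ) (b : Fin d → V), ∀ y : V,
        ∃! c : Fin d → (∀ j : Fin r, Fin (p ^ padicValNat p (qv j - 1))) → 𝒪,
          (y : Additive (KQ p N₀ qv) →+ 𝒪) =
            ∑ i, ∑ e, c i e •
              diamondU (isMid_KQ p N₀ qv) (liftU N₀ qv (fun j => g j ^ (e j : ℕ))) (b i))
    {y : Additive (KQ p N₀ qv) →+ 𝒪} (hy : y ∈ V) :
    coresK (KQ_le_KJ p N₀ qv j) y = 0 ↔
      y ∈ AddSubgroup.closure {z : Additive (KQ p N₀ qv) →+ 𝒪 |
        ∃ (a : (ZMod (qv j))ˣ), ∃ y' ∈ V,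
          z = diamondU (isMid_KQ p N₀ qv) (liftU N₀ qv (Pi.mulSingle j a)) y' - y'} := by
  have hM : NeZero (bLevel N₀ qv) := neZero_bLevel_h762 N₀ qv hprime
  have hsurj := red_surjective N₀ qv (NeZero.ne N₀) hinj hprime
  have h1 := pcor_ker_N0_h762 N₀ qv hprime hinj 𝒪 (HJ p N₀ qv j) (ker_chi_le_HJ p N₀ qv j)
    V hVdia hfree hy
  have hset : {z : Additive (KQ p N₀ qv) →+ 𝒪 |
      ∃ u ∈ HJ p N₀ qv j, ∃ y' ∈ V, z = diamondU (isMid_KQ p N₀ qv) u y' - y'} =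
      {z : Additive (KQ p N₀ qv) →+ 𝒪 | ∃ (a : (ZMod (qv j))ˣ), ∃ y' ∈ V,
          z = diamondU (isMid_KQ p N₀ qv) (liftU N₀ qv (Pi.mulSingle j a)) y' - y'} := by
    ext z
    constructor
    · rintro ⟨u, hu, y', hy', rfl⟩
      exact ⟨red N₀ qv u j, y', hy',
        congrArg (fun w => w - y') (diamondU_eq_mulSingle_h762 p N₀ qv hsurj j hu y')⟩
    · rintro ⟨a, y', hy', rfl⟩
      exact ⟨_, liftU_mulSingle_mem_HJ p N₀ qv hsurj j a, y', hy', rfl⟩
  rw [← hset]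
  exact h1

include hp hN₀ hprime hinj in
/-- **PCOR at `q_j`, range form**: for a primitive root `a` modulo `q_j`, the kernel of
`cor : V → X_{K_j}` is `(⟨a⟩_j - 1) V`. -/
theorem pcor_ker_j_range_N0_h762 (j : Fin r)
    (V : Submodule 𝒪 (Additive (KQ p N₀ qv) →+ 𝒪))
    (hVdia : ∀ (a : ∀ j : Fin r, (ZMod (qv j))ˣ), ∀ x ∈ V,
      diamondU (isMid_KQ p N₀ qv) (liftU N₀ qv a) x ∈ V)
    (hfree : ∀ g : ∀ j : Fin r, (ZMod (qv j))ˣ, (∀ j, orderOf (g j) = qv j - 1) →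
      ∃ (d : ℕ) (b : Fin d → V), ∀ y : V,
        ∃! c : Fin d → (∀ j : Fin r, Fin (p ^ padicValNat p (qv j - 1))) → 𝒪,
          (y : Additive (KQ p N₀ qv) →+ 𝒪) =
            ∑ i, ∑ e, c i e •
              diamondU (isMid_KQ p N₀ qv) (liftU N₀ qv (fun j => g j ^ (e j : ℕ))) (b i))
    (a : (ZMod (qv j))ˣ) (ha : orderOf a = qv j - 1)
    {y : Additive (KQ p N₀ qv) →+ 𝒪} (hy : y ∈ V) :
    coresK (KQ_le_KJ p N₀ qv j) y = 0 ↔
      ∃ y' ∈ V, y = diamondU (isMid_KQ p N₀ qv) (liftU N₀ qv (Pi.mulSingle j a)) y' - y' := by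
  have hM : NeZero (bLevel N₀ qv) := neZero_bLevel_h762 N₀ qv hprime
  have hsurj := red_surjective N₀ qv (NeZero.ne N₀) hinj hprime
  rw [pcor_ker_j_N0_h762 N₀ qv hprime hinj 𝒪 j V hVdia hfree hy]
  set X : (Additive (KQ p N₀ qv) →+ 𝒪) → (Additive (KQ p N₀ qv) →+ 𝒪) :=
    diamondU (isMid_KQ p N₀ qv) (liftU N₀ qv (Pi.mulSingle j a)) with hX
  have hXadd : ∀ x y, X (x + y) = X x + X y := fun _ _ => rfl
  have hXV : ∀ x ∈ V, X x ∈ V := fun x hx => hVdia _ x hx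
  have hXVk : ∀ (k : ℕ), ∀ x ∈ V, X^[k] x ∈ V := by
    intro k
    induction k with
    | zero => exact fun x hx => hx
    | succ k ih =>
      intro x hx
      rw [Function.iterate_succ_apply']
      exact hXV _ (ih x hx)
  have htel : ∀ (k : ℕ), ∀ x ∈ V, ∃ z ∈ V, X^[k] x - x = X z - z := by
    intro k
    induction k with
    | zero =>
      intro x _
      refine ⟨0, V.zero_mem, ?_⟩
      rw [Function.iterate_zero_apply, sub_self]
      show (0 : Additive (KQ p N₀ qv) →+ 𝒪) = X 0 - 0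
      rw [sub_zero]
      rfl
    | succ k ih =>
      intro x hx
      obtain ⟨z, hz, e⟩ := ih x hx
      refine ⟨X^[k] x + z, V.add_mem (hXVk k x hx) hz, ?_⟩
      rw [Function.iterate_succ_apply', hXadd]
      have : X (X^[k] x) - x = (X (X^[k] x) - X^[k] x) + (X^[k] x - x) := by abel
      rw [this, e]
      abel
  constructor
  · intro h
    clear hy
    induction h using AddSubgroup.closure_induction with
    | mem z hz =>
      obtain ⟨a', y', hy', rfl⟩ := hz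
      obtain ⟨k, rfl⟩ := exists_pow_eq_of_orderOf (hprime j) ha a'
      have h2 : diamondU (isMid_KQ p N₀ qv) (liftU N₀ qv (Pi.mulSingle j (a ^ k))) y' =
          X^[k] y' := by
        rw [Pi.mulSingle_pow, dia_pow_h762 p N₀ qv hsurj]
      rw [h2]
      exact htel k y' hy'
    | zero =>
      refine ⟨0, V.zero_mem, ?_⟩
      show (0 : Additive (KQ p N₀ qv) →+ 𝒪) = X 0 - 0
      rw [sub_zero]
      rfl
    | add x₁ x₂ _ _ h₁ h₂ =>
      obtain ⟨z₁, hz₁, e₁⟩ := h₁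
      obtain ⟨z₂, hz₂, e₂⟩ := h₂
      refine ⟨z₁ + z₂, V.add_mem hz₁ hz₂, ?_⟩
      rw [e₁, e₂, hXadd]
      abel
    | neg x₁ _ h₁ =>
      obtain ⟨z₁, hz₁, e₁⟩ := h₁
      refine ⟨-z₁, V.neg_mem hz₁, ?_⟩
      rw [e₁]
      have : X (-z₁) = -X z₁ := rfl
      rw [this]
      abel
  · rintro ⟨y', hy', rfl⟩
    exact AddSubgroup.subset_closure ⟨a, y', hy', rfl⟩

end JMain

section SpecJ

variable {p : ℕ} [hp : Fact p.Prime] (t : PType) (Smin : Finset ℕ)
  [hN₀ : NeZero (wilesLevel p t Smin Smin)] {r : ℕ} (qv : Fin r → ℕ)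
  (hprime : ∀ j, (qv j).Prime) (hinj : Function.Injective qv)
  (𝒪 : Type) [CommRing 𝒪]

include hp hN₀ hprime hinj in
/-- **PCOR** in the vocabulary of `Aut/Spec.lean`, any `H' ⊇ ker χ_Q`. -/
theorem pcor_ker_h762 (H' : Subgroup (ZMod (bLevel (wilesLevel p t Smin Smin) qv))ˣ)
    (hH' : (chi p (wilesLevel p t Smin Smin) qv).ker ≤ H')
    (V : Submodule 𝒪 (XQ p t Smin qv 𝒪))
    (hVdia : ∀ (a : ∀ j : Fin r, (ZMod (qv j))ˣ), ∀ x ∈ V, diaQ p t Smin qv 𝒪 a x ∈ V)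
    (hfree : FreeAt V) {y : XQ p t Smin qv 𝒪} (hy : y ∈ V) :
    coresK (GammaH_mono hH' : KQ p (wilesLevel p t Smin Smin) qv ≤
        GammaH (bLevel (wilesLevel p t Smin Smin) qv) H') y = 0 ↔
      y ∈ AddSubgroup.closure {z : XQ p t Smin qv 𝒪 |
        ∃ u ∈ H', ∃ y' ∈ V,
          z = diamondU (isMid_KQ p (wilesLevel p t Smin Smin) qv) u y' - y'} :=
  pcor_ker_N0_h762 (wilesLevel p t Smin Smin) qv hprime hinj 𝒪 H' hH' V hVdia hfree hy

include hp hN₀ hprime hinj in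
/-- **PCOR at `q_j`** in the vocabulary of `Aut/Spec.lean`. -/
theorem pcor_ker_j_h762 (j : Fin r)
    (V : Submodule 𝒪 (XQ p t Smin qv 𝒪))
    (hVdia : ∀ (a : ∀ j : Fin r, (ZMod (qv j))ˣ), ∀ x ∈ V, diaQ p t Smin qv 𝒪 a x ∈ V)
    (hfree : FreeAt V) {y : XQ p t Smin qv 𝒪} (hy : y ∈ V) :
    coresK (KQ_le_KJ p (wilesLevel p t Smin Smin) qv j) y = 0 ↔
      y ∈ AddSubgroup.closure {z : XQ p t Smin qv 𝒪 |
        ∃ (a : (ZMod (qv j))ˣ), ∃ y' ∈ V,
          z = diaQ p t Smin qv 𝒪 (Pi.mulSingle j a) y' - y'} :=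
  pcor_ker_j_N0_h762 (wilesLevel p t Smin Smin) qv hprime hinj 𝒪 j V hVdia hfree hy

include hp hN₀ hprime hinj in
/-- **PCOR at `q_j`, range form** (the shape `(X_j - 1) V` of `H314.TwT`). -/
theorem pcor_ker_j_range_h762 (j : Fin r)
    (V : Submodule 𝒪 (XQ p t Smin qv 𝒪))
    (hVdia : ∀ (a : ∀ j : Fin r, (ZMod (qv j))ˣ), ∀ x ∈ V, diaQ p t Smin qv 𝒪 a x ∈ V)
    (hfree : FreeAt V) (a : (ZMod (qv j))ˣ) (ha : orderOf a = qv j - 1)
    {y : XQ p t Smin qv 𝒪} (hy : y ∈ V) :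
    coresK (KQ_le_KJ p (wilesLevel p t Smin Smin) qv j) y = 0 ↔
      ∃ y' ∈ V, y = diaQ p t Smin qv 𝒪 (Pi.mulSingle j a) y' - y' :=
  pcor_ker_j_range_N0_h762 (wilesLevel p t Smin Smin) qv hprime hinj 𝒪 j V hVdia hfree a ha hy

end SpecJ

section EquivJ

variable (p : ℕ) (N₀ : ℕ) [hN₀ : NeZero N₀] {r : ℕ} (qv : Fin r → ℕ)
  (hprime : ∀ j, (qv j).Prime) {A : Type} [AddCommGroup A]

include hN₀ hprime in
/-- `cor : X_{K_Q} → X_{K_j}` commutes with `T_ℓ`, `ℓ ∤ M_Q`. -/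
theorem coresK_j_TK_h762 (j : Fin r) {ℓ : ℕ} [Fact ℓ.Prime] (hℓ : ¬ ℓ ∣ bLevel N₀ qv)
    (x : Additive (KQ p N₀ qv) →+ A) :
    coresK (KQ_le_KJ p N₀ qv j) (TK (bLevel N₀ qv) (KQ p N₀ qv) ℓ x) =
      TK (bLevel N₀ qv) (KJ p N₀ qv j) ℓ (coresK (KQ_le_KJ p N₀ qv j) x) := by
  have hM : NeZero (bLevel N₀ qv) := neZero_bLevel_h762 N₀ qv hprime
  have hNZ : ∀ j, NeZero (qv j) := fun j => ⟨(hprime j).ne_zero⟩
  have hfin : Finite (Delta p qv) := inferInstance
  exact coresK_TK_gen_h762 (G := Delta p qv) (chi p N₀ qv) (HJ p N₀ qv j)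
    (ker_chi_le_HJ p N₀ qv j) hℓ x

include hN₀ hprime in
/-- `cor : X_{K_Q} → X_{K_j}` commutes with `U_q`, `q ∣ M_Q`. -/
theorem coresK_j_UK_h762 (j : Fin r) {q : ℕ} [Fact q.Prime] (hq : q ∣ bLevel N₀ qv)
    (x : Additive (KQ p N₀ qv) →+ A) :
    coresK (KQ_le_KJ p N₀ qv j) (UK (KQ p N₀ qv) q x) =
      UK (KJ p N₀ qv j) q (coresK (KQ_le_KJ p N₀ qv j) x) := by
  have hM : NeZero (bLevel N₀ qv) := neZero_bLevel_h762 N₀ qv hprime
  have hNZ : ∀ j, NeZero (qv j) := fun j => ⟨(hprime j).ne_zero⟩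
  have hfin : Finite (Delta p qv) := inferInstance
  exact coresK_UK_gen_h762 (G := Delta p qv) (chi p N₀ qv) (HJ p N₀ qv j)
    (ker_chi_le_HJ p N₀ qv j) hq x

include hN₀ hprime in
/-- `cor : X_{K_Q} → X_{K_j}` commutes with `tOp ℓ`, `ℓ ∤ M_Q` (𝒪-coefficients). -/
theorem coresK_j_tOp_h762 (𝒪 : Type) [CommRing 𝒪] (j : Fin r) (ℓ : ℕ) (hℓ : ℓ.Prime)
    (hℓM : ¬ ℓ ∣ bLevel N₀ qv) (x : Additive (KQ p N₀ qv) →+ 𝒪) :
    coresK (KQ_le_KJ p N₀ qv j) (tOp (bLevel N₀ qv) (KQ p N₀ qv) 𝒪 ℓ hℓ x) =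
      tOp (bLevel N₀ qv) (KJ p N₀ qv j) 𝒪 ℓ hℓ (coresK (KQ_le_KJ p N₀ qv j) x) := by
  have : Fact ℓ.Prime := ⟨hℓ⟩
  exact coresK_j_TK_h762 p N₀ qv hprime j hℓM x

end EquivJ

end Fermat.Agent.S59.TW.Aut.H762

end
-- ===== PACK-END S59/TW/Aut/H762/PCor.lean

-- ===== PACK-BEGIN S29/M4b/H89/K4Uniq.lean
section
/-
S29 row, layer M, sub-layer M4b — PIECE `K4-UNIQ` (helper89): the Kummer class of a character is
unique.  Exact statement of `M4b/Skeleton.lean` (helper822); `pieceUniq : PieceUniq N p` is the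
shape of `M4b/Top.lean` (helper269).

Proof: for two data `(f, t, U)`, `(f', t', U')` of the same character `c`, the function
`V := U * U' ^ (p-1)` is `Γ₀(N)`-invariant, holomorphic, and good (its `p`-th power is), so its
`q`-expansion `b` lies in `F_ℂ` (MERO, `H882`).  `b ^ p` is the image of
`w = (f t^p) (f' t'^p)^(p-1) ∈ FF N`, so `b = ι v` with `v ∈ ℚ̄((q))` (PROOT), and `v ∈ FF N`
(`H882` (C)).  Hence `f * f' ^ (p-1)` is a `p`-th power in `FF N`, so `x + (p-1) x' = 0`, and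
`p x' = 0` gives `x = x'`.
-/




set_option autoImplicit false

noncomputable section

open ModularCurve AlgebraicCurve CongruenceSubgroup UpperHalfPlane
open scoped MatrixGroups Manifold

namespace Fermat.Agent.S29.M4b.H89

open Fermat.Agent.S24 Fermat.Agent.S29 Fermat.Agent.S29.M4b

section K4Uniq

variable (N : ℕ) [NeZero N] (p : ℕ) [NeZero p]

theorem K4Uniq_zetaP_pow : zetaP p ^ p = 1 := by
  have hp : (p : ℂ) ≠ 0 := Nat.cast_ne_zero.2 (NeZero.ne p)
  rw [zetaP, ← Complex.exp_nat_mul]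
  have : (p : ℂ) * (2 * Real.pi * Complex.I / p) = 2 * Real.pi * Complex.I := by
    field_simp
  rw [this, Complex.exp_two_pi_mul_I]

/-- `p`-th root of a growth bound. -/
theorem K4Uniq_expGrowth_of_pow {f : ℍ → ℂ}
    (hf : H648.ExpGrowth (fun τ => f τ ^ p)) : H648.ExpGrowth f := by
  obtain ⟨C, m, h⟩ := hf
  refine ⟨1 + |C|, m, fun τ hτ => ?_⟩
  have h1 := h τ hτ
  rw [norm_pow] at h1
  have hexp : 1 ≤ Real.exp (2 * Real.pi * m * τ.im) := by
    apply Real.one_le_exp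
    have := Real.pi_pos
    have := τ.im_pos
    positivity
  have hpos : 0 < p := Nat.pos_of_ne_zero (NeZero.ne p)
  by_cases hle : ‖f τ‖ ≤ 1
  · calc ‖f τ‖ ≤ 1 := hle
      _ ≤ 1 * Real.exp (2 * Real.pi * m * τ.im) := by rw [one_mul]; exact hexp
      _ ≤ (1 + |C|) * Real.exp (2 * Real.pi * m * τ.im) := by
          apply mul_le_mul_of_nonneg_right _ (Real.exp_pos _).le
          linarith [abs_nonneg C]
  · rw [not_le] at hle
    calc ‖f τ‖ ≤ ‖f τ‖ ^ p := le_self_pow₀ hle.le (NeZero.ne p)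
      _ ≤ C * Real.exp (2 * Real.pi * m * τ.im) := h1
      _ ≤ (1 + |C|) * Real.exp (2 * Real.pi * m * τ.im) := by
          apply mul_le_mul_of_nonneg_right _ (Real.exp_pos _).le
          linarith [le_abs_self C]


omit [NeZero N] in
/-- `V = U * U' ^ (p-1)` is invariant under `Γ₀(N)` when `U`, `U'` have the same character. -/
theorem K4Uniq_invariant {c : G0 N → ZMod p} {U U' : ℍ → ℂ} (hU : HasChar N p c U)
    (hU' : HasChar N p c U') (γ : SL(2, ℤ)) (hγ : γ ∈ Gamma0 N) (τ : ℍ) :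
    U (γ • τ) * U' (γ • τ) ^ (p - 1) = U τ * U' τ ^ (p - 1) := by
  have h1 := hU ⟨γ, hγ⟩ τ
  have h2 := hU' ⟨γ, hγ⟩ τ
  simp only at h1 h2
  rw [h1, h2, mul_pow, ← pow_mul]
  have hp : 1 ≤ p := Nat.one_le_iff_ne_zero.2 (NeZero.ne p)
  have e : zetaP p ^ (c ⟨γ, hγ⟩).val * U τ * (zetaP p ^ ((c ⟨γ, hγ⟩).val * (p - 1)) * U' τ ^ (p - 1))
      = zetaP p ^ ((c ⟨γ, hγ⟩).val * p) * (U τ * U' τ ^ (p - 1)) := by
    have : (c ⟨γ, hγ⟩).val * p = (c ⟨γ, hγ⟩).val + (c ⟨γ, hγ⟩).val * (p - 1) := by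
      rw [Nat.mul_sub_one, Nat.add_sub_cancel' (Nat.le_mul_of_pos_right _ hp)]
    rw [this, pow_add]
    ring
  rw [e, mul_comm (c ⟨γ, hγ⟩).val p, pow_mul, K4Uniq_zetaP_pow, one_pow, one_mul]

omit [NeZero N] in
/-- `V = U * U' ^ (p-1)` is a good function. -/
theorem K4Uniq_mem_goodRing {c : G0 N → ZMod p} {U U' : ℍ → ℂ} (hU : IsTwisted N p c U)
    (hU' : IsTwisted N p c U') : (fun τ => U τ * U' τ ^ (p - 1)) ∈ H648.goodRing N := by
  have hp : 1 ≤ p := Nat.one_le_iff_ne_zero.2 (NeZero.ne p)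
  refine ⟨hU.mdiff.mul (hU'.mdiff.pow (p - 1)), fun γ hγ τ => ?_, fun g => ?_⟩
  · exact K4Uniq_invariant N p hU.hasChar hU'.hasChar γ hγ τ
  · apply K4Uniq_expGrowth_of_pow p
    have h1 : (fun τ => U τ ^ p) * (fun τ => U' τ ^ p) ^ (p - 1) ∈ H648.goodRing N :=
      (H648.goodRing N).mul_mem hU.pow_mem ((H648.goodRing N).pow_mem hU'.pow_mem _)
    have h2 := h1.2.2 g
    have e : (fun τ : ℍ => (U (g • τ) * U' (g • τ) ^ (p - 1)) ^ p)
        = fun τ => ((fun τ => U τ ^ p) * (fun τ => U' τ ^ p) ^ (p - 1)) (g • τ) := by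
      funext τ
      simp only [Pi.mul_apply, Pi.pow_apply]
      ring
    rw [e]
    exact h2


/-- Kummer classes of powers. -/
theorem K4Uniq_kummer_pow {K F : Type*} [Field K] [Field F] [Algebra K F] {n : ℤ} {f : F}
    {x : Pic0 K F} (hx : H455.IsKummerClass n f x) (k : ℕ) :
    H455.IsKummerClass n (f ^ k) (k • x) := by
  induction k with
  | zero =>
    rw [pow_zero, zero_nsmul]
    exact H455.IsKummerClass.zero
  | succ k ih =>
    rw [pow_succ, succ_nsmul]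
    exact ih.add hx

theorem K4Uniq_coeffMap_injective {K L : Type*} [Field K] [Field L] (ι : K →+* L) :
    Function.Injective (coeffMap ι) := by
  intro a b hab
  ext n
  have := congrArg (fun z : LaurentSeries L => z.coeff n) hab
  simp only [coeffMap_coeff] at this
  exact ι.injective this

/-- PIECE `K4-UNIQ`: the Kummer class of a character is unique. -/
theorem isKum_unique {c : G0 N → ZMod p} {x x' : JZero N}
    (h : IsKum N p c x) (h' : IsKum N p c x') : x = x' := by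
  obtain ⟨f, t, U, ht, hx, hU, hR⟩ := h
  obtain ⟨f', t', U', ht', hx', hU', hR'⟩ := h'
  have hp1 : 1 ≤ p := Nat.one_le_iff_ne_zero.2 (NeZero.ne p)
  have hpK : ((p : ℕ) : Kbar) ≠ 0 := Nat.cast_ne_zero.2 (NeZero.ne p)
  -- the invariant function `V`
  have hV := K4Uniq_mem_goodRing N p hU hU'
  have hVq := H882.hasQExp_of_mem_goodRing hV
  have hUq : H708.HasQExp 1 (fun τ => U τ ^ p)
      (coeffMap Deg457.iotaC ((f * t ^ p : FF N) : LaurentSeries Kbar)) :=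
    ⟨H882.isMerInf_of_mem_goodRing hR.1, hR.2⟩
  have hU'q : H708.HasQExp 1 (fun τ => U' τ ^ p)
      (coeffMap Deg457.iotaC ((f' * t' ^ p : FF N) : LaurentSeries Kbar)) :=
    ⟨H882.isMerInf_of_mem_goodRing hR'.1, hR'.2⟩
  have hprod := hUq.mul (hU'q.pow (p - 1))
  have hfun : (fun τ => U τ * U' τ ^ (p - 1)) ^ p
      = (fun τ => U τ ^ p) * (fun τ => U' τ ^ p) ^ (p - 1) := by
    funext τ
    simp only [Pi.pow_apply, Pi.mul_apply]
    ring
  have hVp := hVq.pow p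
  rw [hfun] at hVp
  have hbw := hVp.unique hprod
  have hbw' : H708.qexpFun 1 (fun τ => U τ * U' τ ^ (p - 1)) ^ p
      = coeffMap Deg457.iotaC
        ((((f * t ^ p) * (f' * t' ^ p) ^ (p - 1) : FF N)) : LaurentSeries Kbar) := by
    rw [hbw]
    push_cast
    simp only [map_mul, map_pow]
  obtain ⟨v, hv⟩ := PRoot.exists_coeffMap_eq_of_pow Deg457.iotaC hpK _ _ hbw'
  have hbFC := H882.qexpFun_mem_FC hV
  have hvFF : v ∈ modularFunctionFieldBar N :=
    H882.mem_laurentBaseChange_of_coeffMap_mem Deg457.iotaC _ (by rw [hv]; exact hbFC)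
  have hvp : v ^ p = ((((f * t ^ p) * (f' * t' ^ p) ^ (p - 1) : FF N)) : LaurentSeries Kbar) := by
    apply K4Uniq_coeffMap_injective Deg457.iotaC
    rw [map_pow, hv, hbw']
  have hvFp : (⟨v, hvFF⟩ : FF N) ^ p = (f * t ^ p) * (f' * t' ^ p) ^ (p - 1) := by
    apply Subtype.ext
    rw [← hvp]
    rfl
  -- the `p`-th root of `f * f' ^ (p-1)`
  have htt : t * t' ^ (p - 1) ≠ 0 := mul_ne_zero ht (pow_ne_zero _ ht')
  have hg : f * f' ^ (p - 1) = ((⟨v, hvFF⟩ : FF N) / (t * t' ^ (p - 1))) ^ p := by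
    rw [div_pow, hvFp, eq_div_iff (pow_ne_zero _ htt)]
    ring
  have hf := hx.ne_zero
  have hf' := hx'.ne_zero
  have hg0 : (⟨v, hvFF⟩ : FF N) / (t * t' ^ (p - 1)) ≠ 0 := by
    intro h0
    rw [h0, zero_pow (NeZero.ne p)] at hg
    exact mul_ne_zero hf (pow_ne_zero _ hf') hg
  have hk : H455.IsKummerClass (p : ℤ) (f * f' ^ (p - 1)) (x + (p - 1) • x') :=
    hx.add (K4Uniq_kummer_pow hx' (p - 1))
  have hpz : ((p : ℕ) : ℤ) ≠ 0 := Int.natCast_ne_zero.2 (NeZero.ne p)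
  have hzero : x + (p - 1) • x' = 0 :=
    (hk.eq_zero_iff hpz).2 ⟨_, hg0, fun w => by
      rw [hg, ← zpow_natCast, Place.ord_zpow]⟩
  have hpx' : (p : ℤ) • x' = 0 := hx'.zsmul_eq_zero
  have hpx'' : p • x' = 0 := by
    rw [← natCast_zsmul]; exact hpx'
  have e : p • x' = (p - 1) • x' + x' := by
    conv_lhs => rw [← Nat.sub_add_cancel hp1]
    rw [succ_nsmul]
  rw [e] at hpx''
  -- `x + a = 0` and `a + x' = 0`
  calc x = x + ((p - 1) • x' + x') := by rw [hpx'', add_zero]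
    _ = (x + (p - 1) • x') + x' := by rw [add_assoc]
    _ = x' := by rw [hzero, zero_add]

/-- PIECE `K4-UNIQ` in the shape of `M4b/Top.lean`. -/
theorem pieceUniq : PieceUniq N p := fun h h' => isKum_unique N p h h'

end K4Uniq

end Fermat.Agent.S29.M4b.H89

end
end
-- ===== PACK-END S29/M4b/H89/K4Uniq.lean

-- ===== PACK-BEGIN S59/TW/H658/CoeffAction.lean
section



/-!
# S59 / TW-ES + TW-TWIST (helper658), leaf E6: torsion-free coefficients

`Γ₁(M) ≤ K ≤ Γ₀(M)`, `EmbHyp K N' u`, `A` a torsion-free abelian group.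

* `rel_coeff` : the relations of the `T_ℓ` on `S₂(Γ₀(N'))` hold for `t_ℓ = ⟨u ℓ⟩ T_ℓ` on the
  parabolic classes in `Hom(K, A)`;
* `isParabolicHom_tFam_coeff` : `t_ℓ` preserves them;
* `exists_heckeAction_coeff` : `heckeAlgebra N' 2 S →+* End_ℤ (parabolicHoms ℤ K A)`;
* `exists_heckeAction_sub` : for a commutative ring `R`, torsion-free as an abelian group, and
  an `R`-submodule `V` of `Hom(K, R)` consisting of parabolic classes and stable under the `t_ℓ`: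
  `heckeAlgebra N' 2 S →+* End_R V`, `T_ℓ ↦ t_ℓ`.
-/

set_option autoImplicit false
set_option linter.unusedSectionVars false
set_option linter.style.haveILetI false

noncomputable section

namespace Fermat.Agent.S59.TW.H658

open CongruenceSubgroup ModularForm ModularCurve ModularCurve.Period
open UpperHalfPlane hiding I
open Matrix.SpecialLinearGroup
open Fermat.Agent.S59.TW.H653
open scoped Manifold MatrixGroups ModularForm

theorem fg_SL2Z : Group.FG SL(2, ℤ) :=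
  Group.fg_iff.mpr ⟨{ModularGroup.S, ModularGroup.T}, SpecialLinearGroup.SL2Z_generators,
    Set.toFinite _⟩

theorem fg_of_finiteIndex (K : Subgroup SL(2, ℤ)) [K.FiniteIndex] : Group.FG K := by
  haveI := fg_SL2Z
  infer_instance

/-- The parabolic elements of `K`. -/
def parSet (K : Subgroup SL(2, ℤ)) : Set K :=
  {γ | ((γ : SL(2, ℤ)) : Matrix (Fin 2) (Fin 2) ℤ).trace ^ 2 = 4}

theorem isParabolicHom_iff_parSet {K : Subgroup SL(2, ℤ)} {A : Type*} [AddCommGroup A]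
    (φ : Additive K →+ A) :
    IsParabolicHom K φ ↔ ∀ γ ∈ parSet K, φ (Additive.ofMul γ) = 0 := Iff.rfl

/-- Post-composition with an additive map. -/
def compAdd (G : Type*) [AddZeroClass G] {A B : Type*} [AddCommGroup A] [AddCommGroup B]
    (π : A →+ B) : (G →+ A) →+ (G →+ B) :=
  AddMonoidHom.mk' (fun φ => π.comp φ) (fun _ _ => AddMonoidHom.ext fun _ => by simp)

@[simp] theorem compAdd_apply {G : Type*} [AddZeroClass G] {A B : Type*} [AddCommGroup A]
    [AddCommGroup B] (π : A →+ B) (φ : G →+ A) : compAdd G π φ = π.comp φ := rfl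

variable {M : ℕ} [NeZero M] {K : Subgroup SL(2, ℤ)} [K.FiniteIndex]

section Coeff

variable {A : Type*} [AddCommGroup A] [Module.IsTorsionFree ℤ A]

/-- **E6.**  The relations hold on parabolic classes with torsion-free coefficients. -/
theorem rel_coeff (hK : IsMid M K) {N' : ℕ} [NeZero N'] {u : ℕ → (ZMod M)ˣ}
    (H : EmbHyp K N' u) (S : Set ℕ) (P : FreeAlgebra ℤ (GoodPrime N' S))
    (hP : FreeAlgebra.lift ℤ (heckeFam N' S) P = 0)
    (y : Additive K →+ A) (hy : IsParabolicHom K y) :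
    FreeAlgebra.lift ℤ (tFam hK A H.dvd u) P y = 0 := by
  haveI := fg_of_finiteIndex K
  refine hom_induction_of_torsionFree (parSet K)
    (fun y => FreeAlgebra.lift ℤ (tFam hK A H.dvd u) P y = 0) ?_ (map_zero _) ?_ y hy
  · intro φ ψ hφ hψ
    rw [map_add, hφ, hψ, add_zero]
  · intro ψ a hψ
    have h1 := lift_intertwine (tFam hK ℤ H.dvd u) (tFam hK A H.dvd u)
      (compAdd _ (zmultiplesHom A a))
      (fun i m => (tFam_comp hK H.dvd u i (zmultiplesHom A a) m).symm) P ψ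
    simp only [compAdd_apply] at h1
    rw [← h1, rel_int hK H S P hP ψ hψ]
    exact AddMonoidHom.comp_zero _

/-- `t_ℓ` preserves the parabolic classes with torsion-free coefficients. -/
theorem isParabolicHom_tFam_coeff (hK : IsMid M K) {N' : ℕ} (hMN : M ∣ N')
    (hneg : (-1 : SL(2, ℤ)) ∈ K) (u : ℕ → (ZMod M)ˣ) {S : Set ℕ} (i : GoodPrime N' S)
    (y : Additive K →+ A) (hy : IsParabolicHom K y) :
    IsParabolicHom K (tFam hK A hMN u i y) := by
  haveI := fg_of_finiteIndex K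
  refine hom_induction_of_torsionFree (parSet K)
    (fun y => IsParabolicHom K (tFam hK A hMN u i y)) ?_ ?_ ?_ y hy
  · intro φ ψ hφ hψ γ hγ
    rw [map_add, AddMonoidHom.add_apply, hφ γ hγ, hψ γ hγ, add_zero]
  · intro γ hγ
    rw [map_zero]
    rfl
  · intro ψ a hψ γ hγ
    rw [tFam_comp hK hMN u i (zmultiplesHom A a) ψ, AddMonoidHom.comp_apply,
      isParabolicHom_tFam_int hK hMN hneg u i ψ hψ γ hγ, map_zero]

/-- **E6, action.**  The Hecke algebra of `Γ₀(N')` acts on `Hom_par(K, A)`. -/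
theorem exists_heckeAction_coeff (hK : IsMid M K) {N' : ℕ} [NeZero N'] {u : ℕ → (ZMod M)ˣ}
    (H : EmbHyp K N' u) (S : Set ℕ) (hS : ∀ q : ℕ, q.Prime → q ∣ N' → q ∈ S) :
    ∃ Φ : CuspForm.heckeAlgebra N' 2 S →+* Module.End ℤ (parabolicHoms ℤ K A),
      ∀ (ℓ : ℕ) [Fact ℓ.Prime] (hℓN : ¬ ℓ ∣ N') (hℓS : ℓ ∉ S) (φ : parabolicHoms ℤ K A),
        ((Φ (CuspForm.heckeAlgebra.T (Fact.out : ℓ.Prime) hℓN hℓS) φ : parabolicHoms ℤ K A) :
          Additive K →+ A) = diamondU hK (u ℓ) (TK M K ℓ (φ : Additive K →+ A)) :=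
  exists_heckeAction_of_rel hK H.dvd u S hS
    (fun i y hy => isParabolicHom_tFam_coeff hK H.dvd H.neg u i y hy)
    (fun P hP y hy => rel_coeff hK H S P hP y hy)

end Coeff

section Sub

variable {R : Type*} [CommRing R] [Module.IsTorsionFree ℤ R]

/-- `t_ℓ` is `R`-linear on `Hom(K, R)`. -/
theorem tFam_smul (hK : IsMid M K) {N' : ℕ} (hMN : M ∣ N') (u : ℕ → (ZMod M)ˣ) {S : Set ℕ}
    (i : GoodPrime N' S) (r : R) (φ : Additive K →+ R) :
    tFam hK R hMN u i (r • φ) = r • tFam hK R hMN u i φ := by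
  have h1 : ∀ ψ : Additive K →+ R, r • ψ = (AddMonoidHom.mulLeft r).comp ψ := fun ψ =>
    AddMonoidHom.ext fun _ => rfl
  rw [h1, h1, tFam_comp]

/-- **E6, the shape consumed by MODQ.**  For a commutative ring `R`, torsion-free as an abelian
group, and an `R`-submodule `V ⊆ Hom(K, R)` of parabolic classes stable under the
`t_ℓ = ⟨u ℓ⟩ T_ℓ`: the Hecke algebra of `Γ₀(N')` (away from `S`) acts `R`-linearly on `V`
through `T_ℓ ↦ t_ℓ`. -/
theorem exists_heckeAction_sub (hK : IsMid M K) {N' : ℕ} [NeZero N'] {u : ℕ → (ZMod M)ˣ}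
    (H : EmbHyp K N' u) (S : Set ℕ) (hS : ∀ q : ℕ, q.Prime → q ∣ N' → q ∈ S)
    (V : Submodule R (Additive K →+ R)) (hpar : ∀ v ∈ V, IsParabolicHom K v)
    (hst : ∀ (ℓ : ℕ) [Fact ℓ.Prime], ¬ ℓ ∣ N' → ℓ ∉ S → ∀ v ∈ V,
      diamondU hK (u ℓ) (TK M K ℓ v) ∈ V) :
    ∃ Ψ : CuspForm.heckeAlgebra N' 2 S →+* Module.End R V,
      ∀ (ℓ : ℕ) [Fact ℓ.Prime] (hℓN : ¬ ℓ ∣ N') (hℓS : ℓ ∉ S) (v : V),
        ((Ψ (CuspForm.heckeAlgebra.T (Fact.out : ℓ.Prime) hℓN hℓS) v : V) :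
          Additive K →+ R) = diamondU hK (u ℓ) (TK M K ℓ (v : Additive K →+ R)) := by
  have hst' : ∀ (i : GoodPrime N' S), ∀ v ∈ V, tFam hK R H.dvd u i v ∈ V := by
    intro i v hv
    haveI : Fact i.1.Prime := ⟨i.2.1⟩
    exact hst i.1 i.2.2.1 i.2.2.2 v hv
  obtain ⟨Φ₀, hΦ₀⟩ := exists_ringHom_linear (heckeFam N' S) (tFam hK R H.dvd u)
    (fun i r x => tFam_smul hK H.dvd u i r x) V hst'
    (fun P hP v hv => rel_coeff hK H S P hP v (hpar v hv))
  have heq := heckeAlgebra_eq_adjoin N' S hS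
  refine ⟨Φ₀.comp (Subalgebra.equivOfEq _ _ heq).toRingEquiv.toRingHom, ?_⟩
  intro ℓ _ hℓN hℓS v
  have h1 : (Subalgebra.equivOfEq _ _ heq).toRingEquiv.toRingHom
      (CuspForm.heckeAlgebra.T (Fact.out : ℓ.Prime) hℓN hℓS) =
      ⟨heckeFam N' S ⟨ℓ, Fact.out, hℓN, hℓS⟩, Algebra.subset_adjoin ⟨_, rfl⟩⟩ := rfl
  rw [RingHom.comp_apply, h1, hΦ₀]
  rfl

/-- **MODQ-RING (Taylor–Wiles shape).**  `K` with `Γ₀(M) ∩ Γ₁(∏ Qs) ≤ K ≤ Γ₀(M)` and
`Γ₀(M)^(2m+1) ⊆ K`, `M · ∏ Qs ∣ N'`, `R` torsion-free: the Hecke algebra of `Γ₀(N')` acts on every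
`R`-submodule `V ⊆ Hom(K, R)` of parabolic classes stable under the `⟨ℓ⟩^m T_ℓ`, through
`T_ℓ ↦ ⟨ℓ⟩^m T_ℓ`. -/
theorem exists_heckeAction_sub_of_odd (hK : IsMid M K) (Qs : List ℕ) (hnd : Qs.Nodup)
    (hQs : ∀ q ∈ Qs, q.Prime ∧ ∃ M' : ℕ, M = M' * q ∧ Nat.Coprime M' q)
    (hK1 : ∀ γ ∈ Gamma0 M, ((Qs.prod : ℕ) : ℤ) ∣ γ 1 1 - 1 → γ ∈ K)
    (m : ℕ) (hK2 : ∀ γ ∈ Gamma0 M, γ ^ (2 * m + 1) ∈ K)
    {N' : ℕ} [NeZero N'] (hN' : M * Qs.prod ∣ N') (S : Set ℕ)
    (hS : ∀ q : ℕ, q.Prime → q ∣ N' → q ∈ S)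
    (V : Submodule R (Additive K →+ R)) (hpar : ∀ v ∈ V, IsParabolicHom K v)
    (hst : ∀ (ℓ : ℕ) [Fact ℓ.Prime], ¬ ℓ ∣ N' → ℓ ∉ S → ∀ v ∈ V,
      diamondU hK (uCls M ℓ ^ m) (TK M K ℓ v) ∈ V) :
    ∃ Ψ : CuspForm.heckeAlgebra N' 2 S →+* Module.End R V,
      ∀ (ℓ : ℕ) [Fact ℓ.Prime] (hℓN : ¬ ℓ ∣ N') (hℓS : ℓ ∉ S) (v : V),
        ((Ψ (CuspForm.heckeAlgebra.T (Fact.out : ℓ.Prime) hℓN hℓS) v : V) :
          Additive K →+ R) = diamondU hK (uCls M ℓ ^ m) (TK M K ℓ (v : Additive K →+ R)) :=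
  exists_heckeAction_sub hK (embHyp_of_odd hK Qs hnd hQs hK1 m hK2 hN') S hS V hpar hst

end Sub

end Fermat.Agent.S59.TW.H658

end
end
-- ===== PACK-END S59/TW/H658/CoeffAction.lean

-- ===== PACK-BEGIN S59/TW/H81/D561/Dict.lean
section


-- Vendored VERBATIM (namespace renamed) by helper81 from helper561's off-main
-- `Fermat/Agent/S38/H561/Dict.lean` (origin/helper561), so that the S59 leaf DICT-T is
-- self-contained on main.  All credit for this file: helper561.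

/-!
# Row HARD, cell HECKE, leaf DICT (helper561): Betti point → eigenform on `K`

`Γ₁(M) ≤ K ≤ Γ₀(M)`, `-1 ∈ K`.  Let `vals : OpIdx N' S M → R` be a system of values in a domain
`R` (values `x(T_ℓ)` of a point of a Hecke ring at the good primes, values `χ(d)` of a character
at the diamond operators) which OCCURS INTEGRALLY in the parabolic classes of `K`: every integral
non-commutative polynomial `P` in the operators `t_ℓ = ⟨u ℓ⟩ T_ℓ`, `⟨d⟩` which kills
`Hom_par(K, ℤ)` satisfies `P(vals) = 0`.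

`exists_eigenform_of_occurs` : then there is a cusp form `f ≠ 0` on `K`, a simultaneous
eigenvector of the `t_ℓ` and the `⟨d⟩` with eigenvalues `c`, such that every integral polynomial
relation between the `c j` holds for the `vals j` (i.e. `c j ↦ vals j` is a ring homomorphism
`ℤ[c] → R`).

Proof: Eichler–Shimura for `K` (helper658: every parabolic class is `per f₁ + conj (per f₂)`),
injectivity of the period map (`PerGInj.lean`) and the lifting lemma (`DictCore.lean`).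
-/

set_option autoImplicit false
set_option linter.unusedSectionVars false
set_option linter.style.haveILetI false

noncomputable section

namespace Fermat.Agent.S59.TW.H81.D561

open CongruenceSubgroup ModularForm ModularCurve ModularCurve.Period
open UpperHalfPlane hiding I
open Matrix.SpecialLinearGroup
open Fermat.Agent.S59.TW.H653 Fermat.Agent.S59.TW.H564 Fermat.Agent.S59.TW.H658
open scoped Manifold MatrixGroups ModularForm

variable {M : ℕ} {K : Subgroup SL(2, ℤ)} [NeZero M] [K.FiniteIndex]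

/-- A polynomial in the operators which kills `S₂(K)` kills the complex parabolic classes. -/
theorem lift_opB_complex_eq_zero (hK : IsMid M K) {N' : ℕ} (hMN : M ∣ N')
    (hneg : (-1 : SL(2, ℤ)) ∈ K) (u : ℕ → (ZMod M)ˣ) {S : Set ℕ}
    (P : FreeAlgebra ℤ (OpIdx N' S M)) (hP : FreeAlgebra.lift ℤ (opF hK hMN u) P = 0)
    (y : Additive K →+ ℂ) (hy : IsParabolicHom K y) :
    FreeAlgebra.lift ℤ (opB hK ℂ hMN u) P y = 0 := by
  obtain ⟨f₁, f₂, rfl⟩ := exists_perG_add_conj_of_isMid hK hneg y hy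
  have h1 : ∀ f : CuspForm K 2, FreeAlgebra.lift ℤ (opB hK ℂ hMN u) P (perG f) = 0 := by
    intro f
    have h := lift_intertwine (fun j => endToInt ℂ (CuspForm K 2) (opF hK hMN u j))
      (opB hK ℂ hMN u) (perGL K).toAddMonoidHom
      (fun j m => by
        show perG (opF hK hMN u j m) = _
        rw [perG_opF]
        rfl) P f
    rw [lift_endToInt, hP] at h
    rw [show perG f = (perGL K).toAddMonoidHom f from rfl, ← h, map_zero]
    exact map_zero (perGL K)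
  have h2 : ∀ x : Additive K →+ ℂ, FreeAlgebra.lift ℤ (opB hK ℂ hMN u) P (conjHom x) =
      conjHom (FreeAlgebra.lift ℤ (opB hK ℂ hMN u) P x) := by
    intro x
    have h := lift_intertwine (opB hK ℂ hMN u) (opB hK ℂ hMN u) (conjAdd (Additive K))
      (fun j m => by
        rw [conjAdd_apply, conjAdd_apply]
        exact (opB_comp hK hMN u j (starRingEnd ℂ).toAddMonoidHom m).symm) P x
    rw [conjAdd_apply, conjAdd_apply] at h
    exact h.symm
  rw [map_add, h1, h2, h1, zero_add]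
  exact AddMonoidHom.ext fun _ => by simp [conjHom]

/-- A polynomial in the operators which kills `S₂(K)` kills the integral parabolic classes. -/
theorem lift_opB_int_eq_zero (hK : IsMid M K) {N' : ℕ} (hMN : M ∣ N')
    (hneg : (-1 : SL(2, ℤ)) ∈ K) (u : ℕ → (ZMod M)ˣ) {S : Set ℕ}
    (P : FreeAlgebra ℤ (OpIdx N' S M)) (hP : FreeAlgebra.lift ℤ (opF hK hMN u) P = 0)
    (y : Additive K →+ ℤ) (hy : IsParabolicHom K y) :
    FreeAlgebra.lift ℤ (opB hK ℤ hMN u) P y = 0 := by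
  apply castHom_injective
  rw [lift_intertwine (opB hK ℤ hMN u) (opB hK ℂ hMN u) (castHom _)
    (fun j m => (opB_comp hK hMN u j (Int.castAddHom ℂ) m).symm) P y, map_zero]
  exact lift_opB_complex_eq_zero hK hMN hneg u P hP _ (isParabolicHom_castHom.mpr hy)

/-- **DICT, part 1: Betti point → eigenform on `K`.** -/
theorem exists_eigenform_of_occurs (hK : IsMid M K) {N' : ℕ} (hMN : M ∣ N')
    (hneg : (-1 : SL(2, ℤ)) ∈ K) (u : ℕ → (ZMod M)ˣ) {S : Set ℕ}
    {R : Type*} [CommRing R] [IsDomain R] (vals : OpIdx N' S M → R)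
    (hocc : ∀ P : FreeAlgebra ℤ (OpIdx N' S M),
      (∀ y : Additive K →+ ℤ, IsParabolicHom K y →
        FreeAlgebra.lift ℤ (opB hK ℤ hMN u) P y = 0) →
      FreeAlgebra.lift ℤ vals P = 0) :
    ∃ (f : CuspForm K 2) (c : OpIdx N' S M → ℂ), f ≠ 0 ∧
      (∀ j, opF hK hMN u j f = c j • f) ∧
      ∀ P : FreeAlgebra ℤ (OpIdx N' S M),
        FreeAlgebra.lift ℤ c P = 0 → FreeAlgebra.lift ℤ vals P = 0 := by
  haveI := finiteDimensional_cuspFormG K
  refine exists_eigen_of_ker_le (opF hK hMN u) (opF_comm hK hMN u) vals fun P hP => ?_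
  exact hocc P fun y hy => lift_opB_int_eq_zero hK hMN hneg u P hP y hy

end Fermat.Agent.S59.TW.H81.D561

end
end
-- ===== PACK-END S59/TW/H81/D561/Dict.lean

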