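import Mathlib
import Fermat.Agent.Pack.S43MC.G0E21L3
import Fermat.Agent.Pack.S43MC.G0E23L0
import Fermat.Agent.Pack.S44C.G0E25L3
import Fermat.Agent.Pack.S44C.G0E26L3
import Fermat.Agent.Pack.S44C.G0E24L3
import Fermat.Agent.Pack.S44C.G0E19L0
import Fermat.Agent.Pack.S43MC.G0E6L1
import Fermat.Agent.Pack.S43MC.G0E21L0
import Fermat.Agent.Pack.S43MC.G0E23L2
import Fermat.Agent.Pack.S44C.G0E23L3
import Fermat.Agent.Pack.S44C.G0E24L0
import Fermat.Agent.Pack.S44C.G0E10L0
import Fermat.Agent.Pack.S44C.G0E24L1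
import Fermat.Agent.Pack.S43MC.G0E23L1
import Fermat.Agent.Pack.S44C.G0E9L3
import Fermat.Agent.Pack.S43MC.G0E21L2
import Fermat.Agent.Pack.S43MC.G0E17L1
import Fermat.Agent.Pack.S44C.G0E22L2
import Fermat.Agent.Pack.S43MC.G0E3L2
import Fermat.Agent.Pack.S44C.G0E5L3
import Fermat.Agent.Pack.S43MC.G0E20L0
import Fermat.Agent.Pack.S43MC.G0E23L3
import Fermat.Agent.Pack.S43MC.G0E19L0
import Fermat.Agent.Pack.S43MC.G0E16L1
import Fermat.Agent.Pack.S43MC.G0E14L2
import Fermat.Agent.Pack.S43MC.G0E10L2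
import Fermat.Agent.Pack.S43MC.G0E4L1
import Fermat.Agent.Pack.S43MC.G0E22L2
import Fermat.Agent.Pack.S43MC.G0E22L1
import Fermat.Agent.Pack.Fast891

-- ===== PACK-BEGIN Ribet/H818/SwapFinal.lean
section



/-!
# Row RIBET, WALL-q — the toric relation for a component-SWAPPING Frobenius, UNCONDITIONAL
(helper818)

`swapToricVal` : the statement `SwapToricValStatement` of `SwapToric.lean` without the two
`SepCoord` hypotheses, proved from the landed leaves of the A2 wall
(`A2.Top.H96.purity_noSep`, `A2.Alg.H348.glue`).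

Setting: `R` henselian DVR, residue field algebraically closed of characteristic `q ∤ m`; `F / E`
a function field with coordinate `x`; `Bf`, `Bi` the integral closures of `R[x]`, `R[1/x]`, both
semistable with two components (`A2.SSChart`); `V₁ ≠ V₂` valuation subrings of `F` with
`S35.H433.ValCtx` (the two extensions of the Gauss valuation); `φ` a semilinear automorphism of `F`
with `φ x = x`, `φ|_R ≡ (·) ^ Q mod w`, `φ V₂ = V₁`, `φ V₁ = V₂`, fixing the crossing points of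
both charts.  Then for every `u ≠ 0` with `m ∣ div u` and residues in `kˣ · (κˣ)^m` at `V₁` and
`V₂`:

    ∃ h ≠ 0,  φ u · u ^ Q = h ^ m.

`swapToricValStatement : SwapToricValStatement` is the same in the frozen-statement shape.
-/

set_option autoImplicit false

namespace Fermat.Agent.Ribet.H818

open Fermat.Agent.A2 Fermat.Agent.A2.Alg Fermat.Agent.S35.H433

section

variable {R E F : Type} [CommRing R] [IsDomain R] [IsDiscreteValuationRing R]
  [HenselianLocalRing R] [IsAlgClosed (IsLocalRing.ResidueField R)]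
  [Field E] [CharZero E] [Algebra R E] [IsFractionRing R E]
  [Field F] [Algebra E F] [Algebra R F] [IsScalarTower R E F]

/-- **The toric relation for a swapping `φ`, valuation form, unconditional.** -/
theorem swapToricVal (w : R) (hw : Irreducible w) (q m : ℕ) (hq : q.Prime)
    (hqR : (q : R) ∈ IsLocalRing.maximalIdeal R) (hm : 0 < m) (hqm : ¬ q ∣ m)
    (x : F) (hx : Transcendental E x)
    (hfin : FiniteDimensional (IntermediateField.adjoin E ({x} : Set F)) F)
    (hconst : ∀ f : F, IsAlgebraic E f → f ∈ (algebraMap E F).range)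
    (Bf Bi : Subalgebra R F)
    (hBf : ∀ f : F, f ∈ Bf ↔ IsIntegral (Algebra.adjoin R ({x} : Set F)) f)
    (hBi : ∀ f : F, f ∈ Bi ↔ IsIntegral (Algebra.adjoin R ({x⁻¹} : Set F)) f)
    (cf : SSChart w Bf) (ci : SSChart w Bi)
    (V₁ V₂ : ValuationSubring F) (h₁ : ValCtx w x V₁) (h₂ : ValCtx w x V₂) (hne : V₁ ≠ V₂)
    (φ : F ≃+* F) (φE : E ≃+* E) (φR : R ≃+* R) (Q : ℕ) (hQ : 0 < Q)
    (hφE : ∀ e : E, φ (algebraMap E F e) = algebraMap E F (φE e))
    (hφER : ∀ r : R, φE (algebraMap R E r) = algebraMap R E (φR r))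
    (hfrob : ∀ r : R, ∃ s : R, φR r - r ^ Q = w * s)
    (hφx : φ x = x)
    (hV₁ : ∀ z : F, φ z ∈ V₁ ↔ z ∈ V₂) (hV₂ : ∀ z : F, φ z ∈ V₂ ↔ z ∈ V₁)
    (hfixf : ∀ n : Ideal Bf, n.IsMaximal → cf.p₁ ≤ n → cf.p₂ ≤ n →
      ∀ b : Bf, b ∈ n → ∀ hb : φ b ∈ Bf, (⟨φ b, hb⟩ : Bf) ∈ n)
    (hfixi : ∀ n : Ideal Bi, n.IsMaximal → ci.p₁ ≤ n → ci.p₂ ≤ n →
      ∀ b : Bi, b ∈ n → ∀ hb : φ b ∈ Bi, (⟨φ b, hb⟩ : Bi) ∈ n)
    (u : F) (hu : u ≠ 0) (hdiv : DivisibleDiv E m u)
    (hu₁ : GSplitV R V₁ m u) (hu₂ : GSplitV R V₂ m u) :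
    ∃ h : F, h ≠ 0 ∧ φ u * u ^ Q = h ^ m := by
  have hCf : ChartCtx E w x Bf := ⟨hw, hx, hfin, hconst, hBf⟩
  have hCi : ChartCtx E w x⁻¹ Bi := H34.chartCtx_inv w hw x hx hfin hconst Bi hBi
  exact swapToricVal_core w hw q m hq hqR hm hqm x hx hfin hconst Bf Bi hBf hBi cf ci V₁ V₂
    h₁ h₂ hne φ φE φR Q hQ hφE hφER hfrob hφx hV₁ hV₂ hfixf hfixi
    (fun v hv hdv hs n hn hwn =>
      Top.H96.purity_noSep q m hq hqR hm hqm w x Bf hCf cf v hv hdv hs n hn hwn)
    (fun v hv hdv hs n hn hwn =>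
      Top.H96.purity_noSep q m hq hqR hm hqm w x⁻¹ Bi hCi ci v hv hdv hs n hn hwn)
    (fun v hv hdv hf hi => Alg.H348.glue q m hq hqR hm hqm w x Bf Bi hCf hCi cf ci
      (H34.incomparable_of_ssChart cf) (H34.incomparable_of_ssChart ci) v hv hdv hf hi)
    u hu hdiv hu₁ hu₂

end

/-- **The toric relation for a swapping `φ`**, in the frozen-statement shape, unconditional. -/
theorem swapToricValStatement : SwapToricValStatement := by
  intro R E F _ _ _ _ _ _ _ _ _ _ _ _ _ w hw q m hq hqR hm hqm x hx hfin hconst Bf Bi hBf hBi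
    cf ci _ _ V₁ V₂ h₁ h₂ hne φ φE φR Q hQ hφE hφER hfrob hφx hV₁ hV₂ hfixf hfixi u hu hdiv
    hu₁ hu₂
  exact swapToricVal w hw q m hq hqR hm hqm x hx hfin hconst Bf Bi hBf hBi cf ci V₁ V₂
    h₁ h₂ hne φ φE φR Q hQ hφE hφER hfrob hφx hV₁ hV₂ hfixf hfixi u hu hdiv hu₁ hu₂

end Fermat.Agent.Ribet.H818

end
-- ===== PACK-END Ribet/H818/SwapFinal.lean

-- ===== PACK-BEGIN S30/Fin/Count.lean
section
/-
S30 row, piece FIN (helper49): finiteness of the `m`-torsion of `J₀(N)(ℚ̄)` from the Kummer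
relation `IsKum` of `Fermat.Agent.S29.M4b.Defs`.

`finite_torsion_of` : if every `m`-torsion class is the Kummer class of SOME function
`c : Γ₀(N) → ℤ/m` (piece `ONTO`), and Kummer classes are unique (piece `K4-UNIQ` of S29/M4b), then
`J₀(N)(ℚ̄)[m]` is finite.  Reason: the character of a twisted function is additive, `Γ₀(N)` is
finitely generated, so there are only finitely many characters.
-/


set_option autoImplicit false

noncomputable section

open ModularCurve AlgebraicCurve CongruenceSubgroup UpperHalfPlane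
open scoped MatrixGroups Manifold

namespace Fermat.Agent.S30.Fin

open Fermat.Agent.S29 Fermat.Agent.S29.M4b

/-- `SL(2, ℤ)` is finitely generated. -/
theorem fin_fg_SL2Z : Group.FG SL(2, ℤ) :=
  Group.fg_iff.mpr ⟨{ModularGroup.S, ModularGroup.T}, SpecialLinearGroup.SL2Z_generators,
    Set.toFinite _⟩

/-- `Γ₀(N)` is finitely generated (Schreier). -/
theorem fin_fg_Gamma0 (N : ℕ) [NeZero N] : Group.FG (G0 N) := by
  have := fin_fg_SL2Z
  exact Subgroup.fg_of_index_ne_zero (Gamma0 N)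

theorem fin_zetaP_isPrimitiveRoot (m : ℕ) [NeZero m] : IsPrimitiveRoot (zetaP m) m :=
  Complex.isPrimitiveRoot_exp m (NeZero.ne m)

/-- `ζ_m ^ a = ζ_m ^ b` forces `a = b` in `ℤ/m`. -/
theorem fin_natCast_eq_of_zetaP_pow_eq (m : ℕ) [NeZero m] {a b : ℕ}
    (h : zetaP m ^ a = zetaP m ^ b) : (a : ZMod m) = (b : ZMod m) := by
  have hζ := fin_zetaP_isPrimitiveRoot m
  have hne : zetaP m ≠ 0 := hζ.ne_zero (NeZero.ne m)
  have key : ∀ a b : ℕ, a ≤ b → zetaP m ^ a = zetaP m ^ b → (a : ZMod m) = (b : ZMod m) := by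
    intro a b hab h
    obtain ⟨d, rfl⟩ := Nat.exists_eq_add_of_le hab
    rw [pow_add] at h
    have h1 : zetaP m ^ d = 1 := by
      have h2 : zetaP m ^ a * 1 = zetaP m ^ a * zetaP m ^ d := by rw [mul_one]; exact h
      exact (mul_left_cancel₀ (pow_ne_zero a hne) h2).symm
    have h3 : m ∣ d := (hζ.pow_eq_one_iff_dvd d).mp h1
    rw [Nat.cast_add, (ZMod.natCast_eq_zero_iff d m).mpr h3, add_zero]
  rcases le_total a b with hab | hab
  · exact key a b hab h
  · exact (key b a hab h.symm).symm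

/-- The character of a twisted function is additive. -/
theorem fin_isTwisted_map_mul {N m : ℕ} [NeZero m] {c : G0 N → ZMod m} {U : ℍ → ℂ}
    (h : IsTwisted N m c U) (γ γ' : G0 N) : c (γ * γ') = c γ + c γ' := by
  obtain ⟨τ₀, hτ₀⟩ := h.ne_zero
  have h1 := h.hasChar (γ * γ') τ₀
  have h2 := h.hasChar γ (((γ' : G0 N) : SL(2, ℤ)) • τ₀)
  have h3 := h.hasChar γ' τ₀
  have hsmul : (((γ * γ' : G0 N) : SL(2, ℤ))) • τ₀
      = ((γ : G0 N) : SL(2, ℤ)) • ((γ' : G0 N) : SL(2, ℤ)) • τ₀ := by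
    rw [← mul_smul]
    rfl
  rw [hsmul, h2, h3, ← mul_assoc, ← pow_add] at h1
  have h4 : zetaP m ^ ((c γ).val + (c γ').val) = zetaP m ^ (c (γ * γ')).val :=
    mul_right_cancel₀ hτ₀ h1
  have h5 := fin_natCast_eq_of_zetaP_pow_eq m h4
  rw [Nat.cast_add, ZMod.natCast_zmod_val, ZMod.natCast_zmod_val, ZMod.natCast_zmod_val] at h5
  exact h5.symm

/-- The character of a Kummer class is additive. -/
theorem fin_isKum_map_mul {N m : ℕ} [NeZero N] [NeZero m] {c : G0 N → ZMod m} {x : JZero N}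
    (h : IsKum N m c x) (γ γ' : G0 N) : c (γ * γ') = c γ + c γ' := by
  obtain ⟨f, t, U, -, -, hU, -⟩ := h
  exact fin_isTwisted_map_mul hU γ γ'

/-- **FIN from ONTO and UNIQ.** -/
theorem finite_torsion_of (N : ℕ) [NeZero N] (m : ℕ) [NeZero m]
    (hex : ∀ x : JZero N, (m : ℤ) • x = 0 → ∃ c : G0 N → ZMod m, IsKum N m c x)
    (huniq : ∀ (c : G0 N → ZMod m) (x x' : JZero N), IsKum N m c x → IsKum N m c x' → x = x') :
    {x : JZero N | (m : ℤ) • x = 0}.Finite := by
  classical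
  obtain ⟨S, hS, hSfin⟩ := Group.fg_iff.mp (fin_fg_Gamma0 N)
  have : Finite S := hSfin.to_subtype
  choose! c hc using hex
  -- the character of `x` as a monoid homomorphism
  have hone : ∀ x : JZero N, (m : ℤ) • x = 0 → c x 1 = 0 := by
    intro x hx
    have h := fin_isKum_map_mul (hc x hx) 1 1
    rw [mul_one] at h
    exact left_eq_add.mp h
  let φ : {x : JZero N // (m : ℤ) • x = 0} → (S → ZMod m) := fun x s => c x.1 s.1
  have hinj : Function.Injective φ := by
    rintro ⟨x, hx⟩ ⟨x', hx'⟩ h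
    let f : G0 N →* Multiplicative (ZMod m) :=
      { toFun := fun γ => Multiplicative.ofAdd (c x γ)
        map_one' := by
          show Multiplicative.ofAdd (c x 1) = 1
          rw [hone x hx]; rfl
        map_mul' := fun γ γ' => by
          show Multiplicative.ofAdd (c x (γ * γ')) = _
          rw [fin_isKum_map_mul (hc x hx) γ γ']; rfl }
    let f' : G0 N →* Multiplicative (ZMod m) :=
      { toFun := fun γ => Multiplicative.ofAdd (c x' γ)
        map_one' := by
          show Multiplicative.ofAdd (c x' 1) = 1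
          rw [hone x' hx']; rfl
        map_mul' := fun γ γ' => by
          show Multiplicative.ofAdd (c x' (γ * γ')) = _
          rw [fin_isKum_map_mul (hc x' hx') γ γ']; rfl }
    have hff' : f = f' := by
      refine MonoidHom.eq_of_eqOn_dense hS ?_
      intro s hs
      show Multiplicative.ofAdd (c x s) = Multiplicative.ofAdd (c x' s)
      have := congrFun h ⟨s, hs⟩
      exact congrArg Multiplicative.ofAdd this
    have hcc : c x = c x' := by
      funext γ
      have := DFunLike.congr_fun hff' γ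
      exact Multiplicative.ofAdd.injective this
    apply Subtype.ext
    have h1 := hc x hx
    rw [hcc] at h1
    exact huniq (c x') x x' h1 (hc x' hx')
  have hfin : Finite {x : JZero N // (m : ℤ) • x = 0} := Finite.of_injective φ hinj
  exact Set.finite_coe_iff.mp hfin

end Fermat.Agent.S30.Fin

end
end
-- ===== PACK-END S30/Fin/Count.lean

-- ===== PACK-BEGIN S29/H150/K2Hol.lean
section
/-
S29 / M4b / piece K2 (helper150), part 1: analytic preparation.

* `k2Char hc` : the multiplicative character `γ ↦ ζ_p ^ c(γ)` of a parabolic hom `c`;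
* `mem_holN_of_isTwisted` : a twisted function (M4b `IsTwisted`) lies in the S24 ring `holN N`;
* `qexp_eq_qExpand` : the S24 expansion in `q^{1/N}` of a function with `q`-expansion `φ`
  is `φ(z^N)`;
* `sigmaG_eq_of_qexp` : the S24 embedding `σ_g` of `u ∈ FF N` is the expansion of `G ∘ g⁻¹`
  for every `G ∈ holN N` with the `q`-expansion of `u`.
-/







set_option autoImplicit false
set_option linter.unusedSectionVars false

noncomputable section

open ModularCurve AlgebraicCurve CongruenceSubgroup UpperHalfPlane HahnSeries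
open scoped MatrixGroups Manifold

namespace Fermat.Agent.S29.H150

open Fermat.Agent.S24 Fermat.Agent.S24.H997 Fermat.Agent.S29 Fermat.Agent.S29.M4b

local notation "Δ" => ModularForm.discriminant

variable {N : ℕ} [NeZero N] {p : ℕ} [NeZero p]

/-! ### The character `ζ_p ^ c` -/

theorem k2_map_one {c : G0 N → ZMod p} (hc : IsParHom c) : c 1 = 0 := by
  have h := hc.map_mul 1 1
  rw [mul_one] at h
  have h2 : c 1 + 0 = c 1 + c 1 := by rw [add_zero]; exact h
  exact (add_left_cancel h2).symm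

/-- The multiplicative character `γ ↦ ζ_p ^ c(γ)`. -/
def k2Char {c : G0 N → ZMod p} (hc : IsParHom c) : Gamma0 N →* ℂˣ where
  toFun γ := Units.mk0 (zetaP p ^ (c γ).val) (pow_ne_zero _ (H822.zetaP_ne_zero p))
  map_one' := by
    apply Units.ext
    show zetaP p ^ (c 1).val = 1
    rw [k2_map_one hc, ZMod.val_zero, pow_zero]
  map_mul' γ γ' := by
    apply Units.ext
    show zetaP p ^ (c (γ * γ')).val = zetaP p ^ (c γ).val * zetaP p ^ (c γ').val
    rw [hc.map_mul, H822.zetaP_pow_val_add]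

theorem k2Char_coe {c : G0 N → ZMod p} (hc : IsParHom c) (γ : Gamma0 N) :
    ((k2Char hc γ : ℂˣ) : ℂ) = zetaP p ^ (c γ).val := rfl

theorem k2Char_eq_one_of {c : G0 N → ZMod p} (hc : IsParHom c) {γ : Gamma0 N} (h : c γ = 0) :
    k2Char hc γ = 1 := by
  apply Units.ext
  rw [k2Char_coe, h, ZMod.val_zero, pow_zero, Units.val_one]

theorem k2Char_parTrivial {c : G0 N → ZMod p} (hc : IsParHom c) :
    H332.ParTrivial (k2Char hc) := fun γ hγ => k2Char_eq_one_of hc (hc.parabolic γ hγ)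

theorem k2Char_ellTrivial {c : G0 N → ZMod p} (hc : IsParHom c) :
    H332.EllTrivial (k2Char hc) := fun γ n hn hγ => k2Char_eq_one_of hc (hc.elliptic γ n hn hγ)

theorem hasCharacter_of_hasChar {c : G0 N → ZMod p} (hc : IsParHom c) {U : ℍ → ℂ}
    (hU : HasChar N p c U) : H332.HasCharacter (k2Char hc) U := fun γ τ => by
  rw [k2Char_coe]
  exact hU γ τ

/-! ### Twisted functions lie in `holN N` -/

omit [NeZero N] in
theorem norm_le_one_add_norm_pow (x : ℂ) : ‖x‖ ≤ 1 + ‖x ^ p‖ := by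
  rw [norm_pow]
  rcases le_or_gt ‖x‖ 1 with h | h
  · have : 0 ≤ ‖x‖ ^ p := pow_nonneg (norm_nonneg x) p
    linarith
  · have h1 : ‖x‖ ≤ ‖x‖ ^ p := le_self_pow₀ h.le (NeZero.ne p)
    linarith

omit [NeZero N] in
theorem exists_bdd_of_expGrowth_pow {U : ℍ → ℂ} (g : SL(2, ℤ))
    (h : H648.ExpGrowth (fun τ => U (g • τ) ^ p)) :
    ∃ m : ℕ, IsBoundedAtImInfty (fun τ => Δ τ ^ m * compSL g U τ) := by
  obtain ⟨C, m, hC⟩ := h
  refine ⟨m, ?_⟩
  have hb : IsBoundedAtImInfty (fun τ => compSL g U τ * Δ τ ^ m) := by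
    apply H108.isBoundedAtImInfty_mul_discriminant_pow_of_exp_growth
    refine ⟨1 + |C|, 1, fun τ hτ => ?_⟩
    have h1 := hC τ hτ
    have h2 := norm_le_one_add_norm_pow (p := p) (U (g • τ))
    have he : 1 ≤ Real.exp (2 * Real.pi * m * τ.im) := by
      apply Real.one_le_exp
      have := τ.im_pos
      have := Real.pi_pos
      positivity
    have h3 : C * Real.exp (2 * Real.pi * m * τ.im) ≤ |C| * Real.exp (2 * Real.pi * m * τ.im) :=
      mul_le_mul_of_nonneg_right (le_abs_self C) (Real.exp_pos _).le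
    show ‖U (g • τ)‖ ≤ _
    calc ‖U (g • τ)‖ ≤ 1 + ‖U (g • τ) ^ p‖ := h2
      _ ≤ 1 + |C| * Real.exp (2 * Real.pi * m * τ.im) := by linarith
      _ ≤ Real.exp (2 * Real.pi * m * τ.im) + |C| * Real.exp (2 * Real.pi * m * τ.im) := by
          linarith
      _ = (1 + |C|) * Real.exp (2 * Real.pi * m * τ.im) := by ring
  have : (fun τ => Δ τ ^ m * compSL g U τ) = fun τ => compSL g U τ * Δ τ ^ m := by
    funext τ; ring
  rw [this]
  exact hb

/-- A twisted function lies in the S24 ring `holN N`. -/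
theorem mem_holN_of_isTwisted {c : G0 N → ZMod p} (hc : IsParHom c) {U : ℍ → ℂ}
    (hU : IsTwisted N p c U) : U ∈ holN N := by
  refine ⟨hU.mdiff, fun g => ?_⟩
  obtain ⟨m, hm⟩ := exists_bdd_of_expGrowth_pow (p := p) g (hU.pow_mem.2.2 g)
  exact (hasCharacter_of_hasChar hc hU.hasChar).compSL_mem_expRing (k2Char_parTrivial hc)
    hU.mdiff m g hm

omit [NeZero N] [NeZero p] in
theorem ne_zero_of_isTwisted {c : G0 N → ZMod p} {U : ℍ → ℂ}
    (hU : IsTwisted N p c U) : U ≠ 0 := by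
  obtain ⟨τ, hτ⟩ := hU.ne_zero
  intro h
  exact hτ (by rw [h]; rfl)

/-! ### Comparison of expansions -/

omit [NeZero N] in
theorem infExp_one_of_hasQExp {f : ℍ → ℂ} {φ : LaurentSeries ℂ} (h : H708.HasQExp 1 f φ) :
    InfExp 1 f φ := fun τ => by
  have := h.hasSum τ
  exact this

theorem infExp_of_hasQExp_one {f : ℍ → ℂ} {φ : LaurentSeries ℂ} (h : H708.HasQExp 1 f φ) :
    InfExp N f (qExpand ℂ N φ) := by
  have h1 : InfExp 1 f φ := infExp_one_of_hasQExp h
  have h2 := h1.subst (N := N) (fun τ => τ) 1 N (fun τ => by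
    rw [Units.val_one, one_mul, infZ_def, infZ_def, ← Complex.exp_nat_mul]
    congr 1
    have hN : (N : ℂ) ≠ 0 := by exact_mod_cast NeZero.ne N
    push_cast
    field_simp)
  rwa [infTwist_one] at h2

/-- The S24 expansion (in `q^{1/N}`) of an element of `holN N` with `q`-expansion `φ`. -/
theorem qexp_eq_qExpand {f : ℍ → ℂ} (hf : f ∈ holN N) {φ : LaurentSeries ℂ}
    (h : H708.HasQExp 1 f φ) :
    (holBase N).qexp ⟨f, hf⟩ = qExpand ℂ N φ :=
  (expInf_spec (holToExp N ⟨f, hf⟩)).unique (infExp_of_hasQExp_one h)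

/-- The S24 expansion of an analytic realisation of `u ∈ FF N`. -/
theorem qexp_eq_Φ_of_realises {u : FF N} {G : ℍ → ℂ} (hG : G ∈ holN N)
    (hu : Realises N u G) :
    (holBase N).qexp ⟨G, hG⟩ = HolBase.Φ N ((u : FF N) : LaurentSeries Kbar) :=
  qexp_eq_qExpand hG (H822.realises_hasQExp hu)

/-! ### The embeddings `σ_g` on realised elements -/

/-- If `G ∈ holN N` has the `q`-expansion of `u ∈ FF N`, then `σ_g u` is the expansion of
`G ∘ g⁻¹`, for every S24 expansion `X` and every `g ∈ SL₂(ℤ)`. -/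
theorem sigmaG_eq_of_qexp (X : Expansion (holBase N)) (g : SL(2, ℤ)) {u : FF N} {G : ℍ → ℂ}
    (hG : G ∈ holN N)
    (hq : (holBase N).qexp ⟨G, hG⟩ = HolBase.Φ N ((u : FF N) : LaurentSeries Kbar)) :
    (holBase N).sigmaG X g u = X.E ((holBase N).compH g⁻¹ ⟨G, hG⟩) := by
  obtain ⟨r, t, ht, rfl⟩ := exists_div_inclRN N u
  have ht' : (holBase N).bridge t ≠ 0 := fun h0 =>
    ht ((holBase N).bridge_injective (h0.trans (map_zero _).symm))
  have key : (⟨G, hG⟩ : (holBase N).Hol) * (holBase N).bridge t = (holBase N).bridge r := by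
    apply (holBase N).qexp_injective
    rw [map_mul, hq, HolBase.qexp_bridge, HolBase.qexp_bridge]
    have h1 : (((inclRN N r / inclRN N t : FF N) : FF N) : LaurentSeries Kbar)
        = (r : LaurentSeries Kbar) / (t : LaurentSeries Kbar) := rfl
    rw [h1, map_div₀]
    have h2 : HolBase.Φ N (t : LaurentSeries Kbar) ≠ 0 := by
      rw [← HolBase.qexp_bridge (holBase N)]
      intro h0
      exact ht' ((holBase N).qexp_injective (h0.trans (map_zero _).symm))
    exact div_mul_cancel₀ _ h2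
  have hE : X.E ((holBase N).compH g⁻¹ ((holBase N).bridge t)) ≠ 0 := by
    intro h0
    have h1 := X.inj (h0.trans (map_zero _).symm)
    exact ht' ((holBase N).compH_injective g⁻¹ (h1.trans (map_zero _).symm))
  rw [map_div₀, HolBase.sigmaG_inclRN, HolBase.sigmaG_inclRN, ← key, map_mul, map_mul,
    mul_div_assoc, div_self hE, mul_one]

end Fermat.Agent.S29.H150

end
end
-- ===== PACK-END S29/H150/K2Hol.lean

-- ===== PACK-BEGIN S35/H155/AuxPull.lean
section
/-
S35 / auxiliary-level pull-back (helper155).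

For primes `a ≠ q`, `q ∤ M`, the pull-back `π^* : J₀(M q) → J₀(M a q)` along the inclusion
`F̄_{M q} ⊆ F̄_{M a q}` (`S37.H155.iTop M a q`)

* is Galois equivariant (`pullTop_galois`),
* is injective on `m`-torsion if `a ∤ M q` and `gcd(m, a + 1) = 1` (`pullTop_inj_torsion`),
* intertwines the degeneracy push-forwards (base change, `S37.H818.pullback_pushforward_eq`):
  `α'_* (π^* x) = π_M^* (α_* x)`, `β'_* (π^* x) = π_M^* (β_* x)`
  (`pushA_pullTop`, `pushB_pullTop`; `π_M^* = A2.H155.pullHom M a : J₀(M) → J₀(M a)`).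

The norm compatibility of the `α`-square is `S37.H155.normCompat_square`; the one of the
`β`-square (`normCompat_square_beta`) is proved here from `F̄_{M a q} = F̄_{M q} ⊔ V_q(F̄_{M a})`.
-/









set_option autoImplicit false
set_option linter.style.haveILetI false
set_option linter.unusedSectionVars false

noncomputable section

namespace Fermat.Agent.S35.H155

open ModularCurve AlgebraicCurve IntermediateField Fermat.Agent.S37.H818
open Fermat.Agent.Lib.FF398 Fermat.Agent.Lib.X0Deg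

/-! ### The inputs of the inclusion `F̄_{M q} ⊆ F̄_{M a q}` -/

section Top

variable (M a q : ℕ) [NeZero M] [NeZero a] [NeZero q]

/-- The inclusion `F̄_{M q} ⊆ F̄_{M a q}`. -/
abbrev iT : modularFunctionFieldBar (M * q) →ₐ[AlgebraicClosure ℚ]
    modularFunctionFieldBar (M * a * q) :=
  Fermat.Agent.S37.H155.iTop M a q

theorem iT_integral : (iT M a q).toRingHom.IsIntegral :=
  Fermat.Agent.S37.H155.iTop_isIntegral M a q

theorem finiteAlong_iT : FiniteAlong (AlgebraicClosure ℚ) (iT M a q) :=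
  finiteAlong_of_functionField _ (Fermat.Agent.S24.jF (M * q)) (transcendental_jF (M * q))
    (Fermat.Agent.S24.jF (M * a * q)) (transcendental_jF (M * a * q))

theorem fundamentalIdentityAlong_iT :
    FundamentalIdentityAlong (AlgebraicClosure ℚ) (iT M a q) (iT_integral M a q) := by
  letI := algebraAlong (iT M a q)
  haveI := isScalarTower_along (iT M a q)
  haveI : Module.Finite (Fermat.Agent.S24.FF (M * q)) (Fermat.Agent.S24.FF (M * a * q)) :=
    finiteAlong_iT M a q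
  haveI : CharZero (Fermat.Agent.S24.FF (M * q)) :=
    charZero_of_injective_algebraMap
      (algebraMap (AlgebraicClosure ℚ) (Fermat.Agent.S24.FF (M * q))).injective
  exact fundamentalIdentity (K := AlgebraicClosure ℚ) (F := Fermat.Agent.S24.FF (M * q))
    (F' := Fermat.Agent.S24.FF (M * a * q)) (deg_eq_one_FF (M * a * q))

theorem normFormulaAlong_iT :
    NormFormulaAlong (AlgebraicClosure ℚ) (iT M a q) (finiteAlong_iT M a q) := by
  letI := algebraAlong (iT M a q)
  haveI := isScalarTower_along (iT M a q)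
  haveI : Module.Finite (Fermat.Agent.S24.FF (M * q)) (Fermat.Agent.S24.FF (M * a * q)) :=
    finiteAlong_iT M a q
  haveI : CharZero (Fermat.Agent.S24.FF (M * q)) :=
    charZero_of_injective_algebraMap
      (algebraMap (AlgebraicClosure ℚ) (Fermat.Agent.S24.FF (M * q))).injective
  exact pushforwardNormFormula (K := AlgebraicClosure ℚ) (F := Fermat.Agent.S24.FF (M * q))
    (F' := Fermat.Agent.S24.FF (M * a * q)) (deg_eq_one_FF (M * a * q))

theorem sumRamificationInertiaAlong_iT :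
    Fermat.Agent.S37.H155.SumRamificationInertiaAlong (iT M a q) (iT_integral M a q) := by
  letI := algebraAlong (iT M a q)
  haveI := isScalarTower_along (iT M a q)
  haveI : Module.Finite (Fermat.Agent.S24.FF (M * q)) (Fermat.Agent.S24.FF (M * a * q)) :=
    finiteAlong_iT M a q
  haveI : CharZero (Fermat.Agent.S24.FF (M * q)) :=
    charZero_of_injective_algebraMap
      (algebraMap (AlgebraicClosure ℚ) (Fermat.Agent.S24.FF (M * q))).injective
  exact sumRamificationInertia (K := AlgebraicClosure ℚ) (F := Fermat.Agent.S24.FF (M * q))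
    (F' := Fermat.Agent.S24.FF (M * a * q)) (deg_eq_one_FF (M * a * q))

/-- `[F̄_{M a q} : F̄_{M q}] = a + 1` for a prime `a ∤ M q`. -/
theorem finrankAlong_iT (ha : a.Prime) (h : ¬ a ∣ M * q) :
    finrankAlong (AlgebraicClosure ℚ) (iT M a q) = a + 1 := by
  have h0 : finrankAlong (AlgebraicClosure ℚ) (iT M a q)
      = (modularFunctionFieldBar (M * q)).relfinrank (modularFunctionFieldBar (M * a * q)) :=
    _root_.Fermat.Agent.Lib.X0Deg.finrankAlong_inclusion _
  have hdvd : M * q ∣ M * a * q := ⟨a, by ring⟩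
  have h1 := relfinrank_mul_psi hdvd
  have h2 : dedekindPsi (M * a * q) = (a + 1) * dedekindPsi (M * q) := by
    have e : M * a * q = a * (M * q) := by ring
    rw [e]
    exact Fermat.Agent.S20.Comb694.dedekindPsi_prime_mul_of_not_dvd a (M * q) ha
      (NeZero.ne (M * q)) h
  rw [h0]
  exact Nat.eq_of_mul_eq_mul_right (dedekindPsi_pos (M * q)) (h1.trans h2)

/-- The pull-back `π^* : J₀(M q) → J₀(M a q)`. -/
def pullTop : JZero (M * q) →+ JZero (M * a * q) :=
  pullbackPic0Along (iT M a q) (iT_integral M a q) (fundamentalIdentityAlong_iT M a q)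

theorem intertwines_iT (σ : AlgebraicClosure ℚ ≃ₐ[ℚ] AlgebraicClosure ℚ) :
    SemilinearAut.IntertwinesAlong
      ((iT M a q : modularFunctionFieldBar (M * q) →ₐ[AlgebraicClosure ℚ]
        modularFunctionFieldBar (M * a * q)) : _ →+* _)
      (arithmeticGalois (modularFunctionFieldFull (M * q)) σ)
      (arithmeticGalois (modularFunctionFieldFull (M * a * q)) σ) := by
  intro x
  apply Subtype.ext
  rw [coe_arithmeticGalois_smul]
  show coeffMap (σ : AlgebraicClosure ℚ →+* AlgebraicClosure ℚ)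
    ((iT M a q x : _) : LaurentSeries (AlgebraicClosure ℚ)) = _
  rw [Fermat.Agent.S37.H155.coe_iTop]
  show _ = ((iT M a q (arithmeticGalois (modularFunctionFieldFull (M * q)) σ • x) : _) :
    LaurentSeries (AlgebraicClosure ℚ))
  rw [Fermat.Agent.S37.H155.coe_iTop, coe_arithmeticGalois_smul]

theorem pullTop_galois (σ : AlgebraicClosure ℚ ≃ₐ[ℚ] AlgebraicClosure ℚ) (x : JZero (M * q)) :
    pullTop M a q (σ • x) = σ • pullTop M a q x := by
  rw [galois_smul_pic0_def, galois_smul_pic0_def]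
  exact Fermat.Agent.S37.H155.pullbackPic0Along_smul _ _ _ (intertwines_iT M a q σ) x

theorem pullTop_inj_torsion (ha : a.Prime) (haN : ¬ a ∣ M * q) (m : ℕ)
    (hcop : Nat.Coprime m (a + 1)) (x : JZero (M * q)) (hm : m • x = 0)
    (hx : pullTop M a q x = 0) : x = 0 := by
  refine Fermat.Agent.S37.H155.pullbackPic0Along_eq_zero (iT M a q) (iT_integral M a q)
    (fundamentalIdentityAlong_iT M a q) (sumRamificationInertiaAlong_iT M a q)
    (finiteAlong_iT M a q) (normFormulaAlong_iT M a q) m ?_ x hm hx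
  rw [finrankAlong_iT M a q ha haN]
  exact hcop

end Top

/-! ### The `β`-square -/

section BetaSquare

variable (M a q : ℕ) [NeZero M] [NeZero a] [NeZero q]

theorem smul_beta_coe (c : modularFunctionFieldBar (M * a))
    (x : modularFunctionFieldBar (M * a * q)) :
    letI := algebraAlong (heckeBetaBar (AlgebraicClosure ℚ) (M * a) q)
    ((c • x : modularFunctionFieldBar (M * a * q)) : LaurentSeries (AlgebraicClosure ℚ)) =
      qExpand (AlgebraicClosure ℚ) q (c : LaurentSeries (AlgebraicClosure ℚ)) *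
        (x : LaurentSeries (AlgebraicClosure ℚ)) := by
  letI := algebraAlong (heckeBetaBar (AlgebraicClosure ℚ) (M * a) q)
  have h1 : c • x = heckeBetaBar (AlgebraicClosure ℚ) (M * a) q c * x := rfl
  rw [h1, MulMemClass.coe_mul, coe_heckeBetaBar]

/-- The image of `F̄_{M q}` spans `F̄_{M a q}` over `β(F̄_{M a})`. -/
theorem span_range_iT (hq : q.Prime) (g : modularFunctionFieldBar (M * a * q)) :
    g ∈ (letI := algebraAlong (heckeBetaBar (AlgebraicClosure ℚ) (M * a) q);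
      Submodule.span (modularFunctionFieldBar (M * a)) (Set.range (iT M a q))) := by
  letI := algebraAlong (heckeBetaBar (AlgebraicClosure ℚ) (M * a) q)
  have hdvd : M * q ∣ M * a * q := ⟨a, by ring⟩
  have hsup : modularFunctionFieldBar (M * a * q)
      = modularFunctionFieldBar (M * q) ⊔
        (modularFunctionFieldBar (M * a)).map (qExpandAlgHomC (AlgebraicClosure ℚ) q) :=
    modularFunctionFieldBar_mul_eq_sup (M := M * a) q hdvd
  have hAT : (modularFunctionFieldBar (M * a)).map (qExpandAlgHomC (AlgebraicClosure ℚ) q)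
      ≤ modularFunctionFieldBar (M * a * q) := Fermat.Agent.S37.H218.map_qExpand_bar_le (M * a) q
  have hd : ((modularFunctionFieldBar (M * a)).map
      (qExpandAlgHomC (AlgebraicClosure ℚ) q)).relfinrank (modularFunctionFieldBar (M * a * q))
        ≠ 0 := by
    rw [Fermat.Agent.S37.H218.relfinrank_map_qExpand_bar_mul_prime (M * a) q (NeZero.ne _) hq]
    split_ifs
    · exact hq.ne_zero
    · omega
  have halg : ∀ x ∈ modularFunctionFieldBar (M * q),
      IsAlgebraic ((modularFunctionFieldBar (M * a)).map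
        (qExpandAlgHomC (AlgebraicClosure ℚ) q)) x := by
    intro x hx
    exact Fermat.Agent.Ribet.H801.isAlgebraic_of_relfinrank_ne_zero hAT hd
      (modularFunctionFieldBar_mono hdvd hx)
  have ht : (g : LaurentSeries (AlgebraicClosure ℚ)) ∈
      (modularFunctionFieldBar (M * a)).map (qExpandAlgHomC (AlgebraicClosure ℚ) q) ⊔
        modularFunctionFieldBar (M * q) := by
    rw [sup_comm, ← hsup]
    exact g.2
  have hs := Fermat.Agent.S29.H801.mem_span_of_mem_sup _ _ halg ht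
  have key : ∀ x : LaurentSeries (AlgebraicClosure ℚ),
      x ∈ Submodule.span
        ((modularFunctionFieldBar (M * a)).map (qExpandAlgHomC (AlgebraicClosure ℚ) q))
        ((modularFunctionFieldBar (M * q) :
          IntermediateField (AlgebraicClosure ℚ) (LaurentSeries (AlgebraicClosure ℚ))) :
            Set (LaurentSeries (AlgebraicClosure ℚ))) →
      ∃ y : modularFunctionFieldBar (M * a * q),
        y ∈ Submodule.span (modularFunctionFieldBar (M * a)) (Set.range (iT M a q)) ∧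
        (y : LaurentSeries (AlgebraicClosure ℚ)) = x := by
    intro x hx
    induction hx using Submodule.span_induction with
    | mem x hx =>
      refine ⟨iT M a q ⟨x, hx⟩, Submodule.subset_span ⟨_, rfl⟩, ?_⟩
      exact Fermat.Agent.S37.H155.coe_iTop M a q ⟨x, hx⟩
    | zero => exact ⟨0, Submodule.zero_mem _, rfl⟩
    | add x y _ _ hx hy =>
      obtain ⟨x', hx', rfl⟩ := hx
      obtain ⟨y', hy', rfl⟩ := hy
      exact ⟨x' + y', Submodule.add_mem _ hx' hy', rfl⟩
    | smul c x _ hx =>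
      obtain ⟨x', hx', rfl⟩ := hx
      obtain ⟨g', hg', hgc⟩ := c.2
      refine ⟨(⟨g', hg'⟩ : modularFunctionFieldBar (M * a)) • x', Submodule.smul_mem _ _ hx', ?_⟩
      rw [smul_beta_coe, Algebra.smul_def]
      congr 1
  obtain ⟨y, hy, hyt⟩ := key _ hs
  have : y = g := Subtype.ext hyt
  rw [← this]
  exact hy

/-- **Norm compatibility of the `β`-square**

      F_M    --β_q-->  F_{Mq}
       |α_a             |incl
       v                v
      F_{Ma} --β_q-->  F_{Maq}          (`q` prime, `q ∤ M a`). -/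
theorem normCompat_square_beta (hq : q.Prime) (hqM : ¬ q ∣ M) (hqa : ¬ q ∣ M * a) :
    NormCompat (heckeBetaBar (AlgebraicClosure ℚ) M q) (heckeAlphaBar (AlgebraicClosure ℚ) M a)
      (heckeBetaBar (AlgebraicClosure ℚ) (M * a) q) (iT M a q) := by
  refine Fermat.Agent.S37.H155.normCompat_of_span _ _ _ _ (Fermat.Agent.S37.H155.sq_beta M a q)
    (finiteAlong_beta M q) ?_ (span_range_iT M a q hq)
  rw [Fermat.Agent.S37.H218.finrankAlong_heckeBetaBar_of_not_dvd M q hq hqM,
    Fermat.Agent.S37.H218.finrankAlong_heckeBetaBar_of_not_dvd (M * a) q hq hqa]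

end BetaSquare

/-! ### Base change: `π^*` intertwines the degeneracy push-forwards -/

section AbstractBC

variable {K F F₁ G G₁ : Type*} [Field K] [Field F] [Field F₁] [Field G] [Field G₁]
  [Algebra K F] [Algebra K F₁] [Algebra K G] [Algebra K G₁]
  [HasPrincipalDivisors K G] [HasPrincipalDivisors K G₁] [HasPrincipalDivisors K F₁]

/-- **Base change on `Pic0`**: `a'_* ∘ i₁^* = i^* ∘ a_*` for a commutative square with compatible
norms. -/
theorem pushforwardPic0Along_pullbackPic0Along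
    (a : F →ₐ[K] F₁) (i : F →ₐ[K] G) (a' : G →ₐ[K] G₁) (i₁ : F₁ →ₐ[K] G₁)
    (ha : a.toRingHom.IsIntegral) (hi : i.toRingHom.IsIntegral)
    (ha' : a'.toRingHom.IsIntegral) (hi₁ : i₁.toRingHom.IsIntegral)
    (hsq : i₁.comp a = a'.comp i)
    (hfin : FiniteAlong K a) (hN : NormFormulaAlong K a hfin)
    (hfin' : FiniteAlong K a') (hN' : NormFormulaAlong K a' hfin')
    (hFIi : FundamentalIdentityAlong K i hi) (hFIi₁ : FundamentalIdentityAlong K i₁ hi₁)
    (hnorm : NormCompat a i a' i₁) (hLG : HasLocalGenerators a ha) (x : Pic0 K F₁) :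
    pushforwardPic0Along a' ha' hfin' hN' (pullbackPic0Along i₁ hi₁ hFIi₁ x) =
      pullbackPic0Along i hi hFIi (pushforwardPic0Along a ha hfin hN x) := by
  obtain ⟨D, rfl⟩ := Pic0.mk_surjective x
  rw [pullbackPic0Along_mk, pushforwardPic0Along_mk, pushforwardPic0Along_mk,
    pullbackPic0Along_mk]
  refine congrArg Pic0.mk (Subtype.ext ?_)
  rw [coe_pushforwardDegZeroAlong, coe_pullbackDegZeroAlong, coe_pullbackDegZeroAlong,
    coe_pushforwardDegZeroAlong]
  exact (pullback_pushforward_eq a i a' i₁ ha hi ha' hi₁ hsq hfin hN hfin' hN' hnorm hLG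
    (D : Divisor K F₁)).symm

end AbstractBC

section BaseChange

variable (M a q : ℕ) [NeZero M] [NeZero a] [NeZero q]

/-- `α'_* (π^* x) = π_M^* (α_* x)`. -/
theorem pushA_pullTop (hq : q.Prime) (ha : a.Prime) (hne : a ≠ q) (x : JZero (M * q)) :
    pushA (M * a) q (pullTop M a q x) = Fermat.Agent.A2.H155.pullHom M a (pushA M q x) :=
  pushforwardPic0Along_pullbackPic0Along (heckeAlphaBar (AlgebraicClosure ℚ) M q)
    (heckeAlphaBar (AlgebraicClosure ℚ) M a) (heckeAlphaBar (AlgebraicClosure ℚ) (M * a) q)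
    (iT M a q) (heckeAlphaBarIntegral M q) (heckeAlphaBarIntegral M a)
    (heckeAlphaBarIntegral (M * a) q) (iT_integral M a q)
    (Fermat.Agent.S37.H155.sq_alpha M a q)
    (finiteAlong_alpha M q) (normFormulaAlong_alpha M q)
    (finiteAlong_alpha (M * a) q) (normFormulaAlong_alpha (M * a) q)
    (fundamentalIdentityAlong_alpha M a) (fundamentalIdentityAlong_iT M a q)
    (Fermat.Agent.S37.H155.normCompat_square M a q hq ha hne)
    (Fermat.Agent.S37.H155.hasLocalGenerators _ _) x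

/-- `β'_* (π^* x) = π_M^* (β_* x)`. -/
theorem pushB_pullTop (hq : q.Prime) (hqM : ¬ q ∣ M) (hqa : ¬ q ∣ M * a) (x : JZero (M * q)) :
    pushB (M * a) q (pullTop M a q x) = Fermat.Agent.A2.H155.pullHom M a (pushB M q x) :=
  pushforwardPic0Along_pullbackPic0Along (heckeBetaBar (AlgebraicClosure ℚ) M q)
    (heckeAlphaBar (AlgebraicClosure ℚ) M a) (heckeBetaBar (AlgebraicClosure ℚ) (M * a) q)
    (iT M a q) (heckeBetaBarIntegral M q) (heckeAlphaBarIntegral M a)
    (heckeBetaBarIntegral (M * a) q) (iT_integral M a q)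
    (Fermat.Agent.S37.H155.sq_beta M a q)
    (finiteAlong_beta M q) (normFormulaAlong_beta M q)
    (finiteAlong_beta (M * a) q) (normFormulaAlong_beta (M * a) q)
    (fundamentalIdentityAlong_alpha M a) (fundamentalIdentityAlong_iT M a q)
    (normCompat_square_beta M a q hq hqM hqa)
    (Fermat.Agent.S37.H155.hasLocalGenerators _ _) x

end BaseChange

end Fermat.Agent.S35.H155

end

end
-- ===== PACK-END S35/H155/AuxPull.lean

-- ===== PACK-BEGIN S35/H155/AuxD2F.lean
section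
/-
S35 (G') / leaf D2F (helper155): auxiliary-level descent.

`newPartFrobAt_of_mul` : `NewPartFrobAt (M * a) q m → NewPartFrobAt M q m` for primes `a ≠ q`,
`a ∤ M`, `q ∤ M`, `gcd(m, a + 1) = 1`   (pull back along `X₀(M a q) → X₀(M q)`, `AuxPull.lean`);
`d2f` : `G.D2FStatement` (helper450's `Spec.lean`, VERBATIM).
-/




set_option autoImplicit false
set_option linter.style.haveILetI false
set_option linter.unusedSectionVars false

noncomputable section

namespace Fermat.Agent.S35.H155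

open ModularCurve AlgebraicCurve Fermat.Agent.Lib.FF398

/-! ### `degA = pushA`, `degB = pushB` -/

section Deg

variable (M q : ℕ) [NeZero M] [NeZero q]

theorem degA_eq_pushA : Fermat.Agent.S35.G.degA M q = pushA M q := by
  unfold Fermat.Agent.S35.G.degA
  rw [Fermat.Agent.S35.G.pic0PushTotal_eq _ (heckeAlphaBarIntegral M q) (finiteAlong_alpha M q)
    (normFormulaAlong_alpha M q)]
  rfl

theorem degB_eq_pushB : Fermat.Agent.S35.G.degB M q = pushB M q := by
  unfold Fermat.Agent.S35.G.degB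
  rw [Fermat.Agent.S35.G.pic0PushTotal_eq _ (heckeBetaBarIntegral M q) (finiteAlong_beta M q)
    (normFormulaAlong_beta M q)]
  rfl

end Deg

/-! ### The polynomial `(t - 1)² (t - Q)` and equivariant maps -/

section FrobPoly

variable {Γ X Y : Type*} [Group Γ] [AddCommGroup X] [AddCommGroup Y]
  [DistribMulAction Γ X] [DistribMulAction Γ Y]

theorem frobPolyAdd_map (f : X →+ Y) (hf : ∀ (g : Γ) (x : X), f (g • x) = g • f x)
    (t : Γ) (Q : ℕ) (x : X) :
    f (Fermat.Agent.S35.G.frobPolyAdd t Q x) = Fermat.Agent.S35.G.frobPolyAdd t Q (f x) := by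
  simp only [Fermat.Agent.S35.G.frobPolyAdd, map_sub, map_nsmul, hf]

theorem smul_torsion (m : ℕ) (t : Γ) (x : X) (hx : m • x = 0) : m • (t • x) = 0 := by
  have e : m • (t • x) = t • (m • x) :=
    (map_nsmul (DistribSMul.toAddMonoidHom X t) m x).symm
  rw [e, hx]
  exact map_zero (DistribSMul.toAddMonoidHom X t)

theorem frobPolyAdd_torsion (m : ℕ) (t : Γ) (Q : ℕ) (x : X) (hx : m • x = 0) :
    m • Fermat.Agent.S35.G.frobPolyAdd t Q x = 0 := by
  have h1 : m • (t • x) = 0 := smul_torsion m t x hx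
  have h2 : m • (t • x - x) = 0 := by rw [nsmul_sub, h1, hx, sub_zero]
  have h3 : m • (t • (t • x - x)) = 0 := smul_torsion m t _ h2
  have h4 : m • (t • (t • x - x) - (t • x - x)) = 0 := by rw [nsmul_sub, h3, h2, sub_zero]
  have h5 : m • (t • (t • (t • x - x) - (t • x - x))) = 0 := smul_torsion m t _ h4
  have h6 : m • (Q • (t • (t • x - x) - (t • x - x))) = 0 := by
    rw [nsmul_left_comm, h4, nsmul_zero]
  unfold Fermat.Agent.S35.G.frobPolyAdd
  rw [nsmul_sub, h5, h6, sub_zero]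

end FrobPoly

/-! ### The descent -/

/-- **Auxiliary-level descent for (G').** -/
theorem newPartFrobAt_of_mul (M a q m : ℕ) [NeZero M] [NeZero a] [NeZero q] (hq : q.Prime)
    (ha : a.Prime) (hne : a ≠ q) (hqM : ¬ q ∣ M) (haM : ¬ a ∣ M)
    (hcop : Nat.Coprime m (a + 1))
    (h : Fermat.Agent.S35.G.NewPartFrobAt (M * a) q m) :
    Fermat.Agent.S35.G.NewPartFrobAt M q m := by
  intro A hA s hs x hx hax hbx
  have hqa : ¬ q ∣ M * a := by
    intro hd
    rcases (Nat.Prime.dvd_mul hq).mp hd with h1 | h1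
    · exact hqM h1
    · exact hne ((Nat.prime_dvd_prime_iff_eq hq ha).mp h1).symm
  have haq : ¬ a ∣ M * q := by
    intro hd
    rcases (Nat.Prime.dvd_mul ha).mp hd with h1 | h1
    · exact haM h1
    · exact hne ((Nat.prime_dvd_prime_iff_eq ha hq).mp h1)
  have hx' : m • pullTop M a q x = 0 := by rw [← map_nsmul, hx, map_zero]
  have hax' : Fermat.Agent.S35.G.degA (M * a) q (pullTop M a q x) = 0 := by
    rw [degA_eq_pushA, pushA_pullTop M a q hq ha hne, ← degA_eq_pushA, hax, map_zero]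
  have hbx' : Fermat.Agent.S35.G.degB (M * a) q (pullTop M a q x) = 0 := by
    rw [degB_eq_pushB, pushB_pullTop M a q hq hqM hqa, ← degB_eq_pushB, hbx, map_zero]
  have h1 := h A hA s hs (pullTop M a q x) hx' hax' hbx'
  rw [← frobPolyAdd_map (pullTop M a q) (pullTop_galois M a q)] at h1
  exact pullTop_inj_torsion M a q ha haq m hcop _
    (frobPolyAdd_torsion m (s * s) (q ^ 2) x hx) h1

theorem newPartFrobAt_congr {M M' : ℕ} (e : M = M') (q m : ℕ) [hM : NeZero M] [hM' : NeZero M']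
    [NeZero q] (h : Fermat.Agent.S35.G.NewPartFrobAt M q m) :
    Fermat.Agent.S35.G.NewPartFrobAt M' q m := by
  subst e
  exact h

/-- **Leaf D2F** of `coord/S35-G-helper450.md`. -/
theorem d2f : Fermat.Agent.S35.G.D2FStatement := by
  intro M q m _ _ _ hq hqM hm hqm h
  by_cases h3 : q = 3
  · subst h3
    by_cases h2 : 2 ∣ M
    · have e : Fermat.Agent.S35.G.auxM M 3 = M := by
        unfold Fermat.Agent.S35.G.auxM
        rw [if_pos rfl]
        exact Nat.lcm_eq_left h2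
      exact newPartFrobAt_congr e 3 m h
    · have e : Fermat.Agent.S35.G.auxM M 3 = M * 2 := by
        unfold Fermat.Agent.S35.G.auxM
        rw [if_pos rfl]
        exact Nat.Coprime.lcm_eq_mul
          ((Nat.Prime.coprime_iff_not_dvd Nat.prime_two).mpr h2).symm
      refine newPartFrobAt_of_mul M 2 3 m Nat.prime_three Nat.prime_two (by decide) hqM h2 ?_
        (newPartFrobAt_congr e 3 m h)
      exact ((Nat.Prime.coprime_iff_not_dvd Nat.prime_three).mpr hqm).symm
  · by_cases h2 : q = 2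
    · subst h2
      by_cases h3' : 3 ∣ M
      · have e : Fermat.Agent.S35.G.auxM M 2 = M := by
          unfold Fermat.Agent.S35.G.auxM
          rw [if_neg (by decide), if_pos rfl]
          exact Nat.lcm_eq_left h3'
        exact newPartFrobAt_congr e 2 m h
      · have e : Fermat.Agent.S35.G.auxM M 2 = M * 3 := by
          unfold Fermat.Agent.S35.G.auxM
          rw [if_neg (by decide), if_pos rfl]
          exact Nat.Coprime.lcm_eq_mul
            ((Nat.Prime.coprime_iff_not_dvd Nat.prime_three).mpr h3').symm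
        refine newPartFrobAt_of_mul M 3 2 m Nat.prime_two Nat.prime_three (by decide) hqM h3' ?_
          (newPartFrobAt_congr e 2 m h)
        have hc2 : Nat.Coprime m 2 :=
          ((Nat.Prime.coprime_iff_not_dvd Nat.prime_two).mpr hqm).symm
        have : Nat.Coprime m (2 ^ 2) := Nat.Coprime.pow_right 2 hc2
        simpa using this
    · have e : Fermat.Agent.S35.G.auxM M q = M := by
        unfold Fermat.Agent.S35.G.auxM
        rw [if_neg h3, if_neg h2]
      exact newPartFrobAt_congr e q m h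

end Fermat.Agent.S35.H155

end

end
-- ===== PACK-END S35/H155/AuxD2F.lean

-- ===== PACK-BEGIN S35/G/H558/IFs.lean
section



/-!
# S35 / (G') leaf IFs (helper558): `s`-stable good levels

`ifs : IFsStatement` (helper450's `S35/G/SpecLevel.lean`, verbatim): every finite set of algebraic
numbers lies in a level `E` which is good for `A` (`A2.GoodField`) and stable under any given
element `s` of the decomposition group of `A` (and under `s⁻¹`).

The level is helper429's `level A S = ℚ̄^{I_A}(all ℚ-conjugates of S)`; its stability under the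
whole decomposition group is `A2.IF.H558.exists_goodField_decompStable`.
-/

set_option autoImplicit false

namespace Fermat.Agent.S35.G.H558

/-- **IFs.** -/
theorem ifs : Fermat.Agent.S35.G.IFsStatement := by
  intro q hq A hA s hs S
  obtain ⟨E, hSE, hgood, hstab, -⟩ :=
    Fermat.Agent.A2.IF.H558.exists_goodField_decompStable q hq A hA S
  refine ⟨E, hSE, hgood, fun e he => ⟨(hstab s hs e).mp he, ?_⟩⟩
  exact (hstab s⁻¹ (inv_mem hs) e).mp he

end Fermat.Agent.S35.G.H558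

end
-- ===== PACK-END S35/G/H558/IFs.lean

-- ===== PACK-BEGIN S36/H630/FromCtx.lean
section





/-!
# S36 engine, ALG3 gap G4 (helper630): the label data from `Eng.TripleCtx`

`R` a discrete valuation ring with algebraically closed residue field, uniformiser `w`;
`ctx : Eng.TripleCtx w q α β x x' V₁ V₂ V₃ V₁' V₂'` (Spec v1.3, on main).  Let `u ∈ F` be split
on the three sheets (`u ≡ 1` on `V₁, V₂, V₃`) with `N_α u = k₁ ^ m`, `N_β u = k₂ ^ m`, and let
`ζ ∈ R` be a primitive `m`-th root of unity.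

**Theorem** (`exists_kappa_basePure`).  There is ONE colouring `κ` such that at EVERY closed point
`n` of the special fibre of the two charts `chart R {x}`, `chart R {x⁻¹}`:  a purity datum
`u d ^ m s₀ = a₀` (`a₀, s₀ ∉ n`) at `n` gives
`H193.BasePureValuesAt {V | V = V₁ ∨ V = V₂ ∨ V = V₃} B n m (u ^ ((q - 1) (q + 1))) ζ κ`,
the local hypothesis of `H193.exists_pow_eq_of_three`.

Fields used: `base_i`, `x_unit_i`, `normal_f_i`, `normal_i_i`, `incidence`, `cusp_single`,
`comap_α₁, comap_α₃, comap_β₁, comap_β₃`, `nr_*`, `chart_*`, `int_*`, `res_*`, `unique_*`,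
`ne_*`.  Proved inside: rationality of the closed points, local denominators, norms of chart
elements, existence of the labels of `k₁, k₂`, the change of chart `Bf ↔ Bi` off the cusps.
-/

set_option autoImplicit false
set_option linter.unusedSectionVars false
set_option linter.style.haveILetI false
set_option maxHeartbeats 1600000

namespace Fermat.Agent.S36.H630

open Fermat.Agent.S18.H138 (chart mem_chart)
open Fermat.Agent.S36.H193 (BasePureValuesAt)
open Fermat.Agent.S36.Eng (TripleCtx)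
open AlgebraicCurve

section Generic

variable {R : Type*} [CommRing R] {F : Type*} [Field F] [Algebra R F]

open Classical in
/-- The colouring with the values `a` on `V₁`, `b` on `V₂` and `0` elsewhere. -/
noncomputable def kappa3 (V₁ V₂ : ValuationSubring F) (a b : ℕ) : ValuationSubring F → ℕ :=
  fun V => if V = V₁ then a else if V = V₂ then b else 0

theorem kappa3_left (V₁ V₂ : ValuationSubring F) (a b : ℕ) : kappa3 V₁ V₂ a b V₁ = a := by
  unfold kappa3
  rw [if_pos rfl]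

theorem kappa3_mid {V₁ V₂ : ValuationSubring F} (h : V₁ ≠ V₂) (a b : ℕ) :
    kappa3 V₁ V₂ a b V₂ = b := by
  unfold kappa3
  rw [if_neg (Ne.symm h), if_pos rfl]

theorem kappa3_right {V₁ V₂ V₃ : ValuationSubring F} (h₁ : V₁ ≠ V₃) (h₂ : V₂ ≠ V₃) (a b : ℕ) :
    kappa3 V₁ V₂ a b V₃ = 0 := by
  unfold kappa3
  rw [if_neg (Ne.symm h₁), if_neg (Ne.symm h₂)]

theorem zeta_pow_sq {K : Type*} [CommRing K] [IsDomain K] {ζ : K} {m : ℕ} (hm : 0 < m)
    (hζ : ζ ^ m = 1) (X : ℕ) : ζ ^ ((m - 1) * ((m - 1) * X)) = ζ ^ X := by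
  have h1 := zeta_pow_mul_inv hm hζ X
  have h2 := zeta_pow_mul_inv hm hζ ((m - 1) * X)
  calc ζ ^ ((m - 1) * ((m - 1) * X))
      = (ζ ^ X * ζ ^ ((m - 1) * X)) * ζ ^ ((m - 1) * ((m - 1) * X)) := by rw [h1, one_mul]
    _ = ζ ^ X * (ζ ^ ((m - 1) * X) * ζ ^ ((m - 1) * ((m - 1) * X))) := by ring
    _ = ζ ^ X := by rw [h2, mul_one]

/-- `u ≡ 1` on `V` ⟹ `u` is a unit of `V`. -/
theorem unit_of_split {V : ValuationSubring F} {u : F} (hu : u - 1 ∈ V.nonunits) :
    u ≠ 0 ∧ u ∈ V ∧ u⁻¹ ∈ V := by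
  have h := vnu_unit_of_sub V hu V.one_mem (vnu_one_not V)
  refine ⟨?_, h.1, vnu_inv_mem V h.1 h.2⟩
  rintro rfl
  exact h.2 (vnu_zero V)

/-- **The label datum at a point through which no sheet passes.** -/
theorem labelAt_of_none {B : Subalgebra R F} {n : Ideal B} [hn : n.IsPrime]
    {𝒱 : Set (ValuationSubring F)} (hnone : ∀ V ∈ 𝒱, ¬ PassThrough B n V)
    {m : ℕ} (hm : 0 < m) {u d : F} {a₀ s₀ : B} (ha₀ : a₀ ∉ n) (hs₀ : s₀ ∉ n)
    (hpure : u * d ^ m * (s₀ : F) = a₀) (ζ : R) (κ : ValuationSubring F → ℕ) :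
    LabelAt B n 𝒱 m u ζ κ := by
  have hd0 : d ≠ 0 := by
    rintro rfl
    apply ha₀
    have : a₀ = 0 := by
      apply Subtype.ext
      rw [← hpure, zero_pow hm.ne', mul_zero, zero_mul]
      rfl
    rw [this]
    exact n.zero_mem
  refine ⟨d, a₀, s₀, 1, hd0, hs₀, hpure, ?_, fun V hV hth => absurd hth (hnone V hV)⟩
  rw [map_one]
  exact fun h => hn.ne_top ((Ideal.eq_top_iff_one _).2 h)

/-- **The label datum at a point on exactly one sheet.** -/
theorem labelAt_single {B : Subalgebra R F} {n : Ideal B} [hn : n.IsMaximal]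
    (hrat : ∀ c : B, ∃ r : R, c - algebraMap R B r ∈ n)
    {𝒱 : Set (ValuationSubring F)}
    {V₀ : ValuationSubring F} (hone : ∀ V ∈ 𝒱, PassThrough B n V → V = V₀)
    (hBV₀ : ChartLe B V₀) (hthV₀ : PassThrough B n V₀)
    {m : ℕ} (hm : 0 < m) (hnormal : _root_.Fermat.Agent.S36.H630.NormalAlong B V₀ m) {ζ : R} (hζ : ζ ^ m = 1)
    (κ : ValuationSubring F → ℕ)
    {u d : F} (hu : u - 1 ∈ V₀.nonunits) {a₀ s₀ : B} (ha₀ : a₀ ∉ n) (hs₀ : s₀ ∉ n)
    (hpure : u * d ^ m * (s₀ : F) = a₀) (c : ℕ) :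
    LabelAt B n 𝒱 m (u ^ c) ζ κ := by
  have hnp : n.IsPrime := hn.isPrime
  obtain ⟨η, hη, hval⟩ := exists_valAt_of_pure hrat hBV₀ hthV₀ hm hnormal hu ha₀ hs₀ hpure
  refine labelAt_of_one hm hζ κ hone hBV₀ hthV₀ (u := u ^ c) (d := d ^ c) (a₀ := a₀ ^ c)
    (s₀ := s₀ ^ c) (η := η ^ c) ?_ (pure_pow hpure c) ?_ (hval.pow hBV₀ hthV₀ c)
  · exact fun h => hs₀ (hnp.mem_of_pow_mem c h)
  · intro h
    rw [map_pow] at h
    exact hη (hnp.mem_of_pow_mem c h)

/-- **The label datum at a point through which at most one of three sheets passes.** -/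
theorem labelAt_of_le_one {B : Subalgebra R F} {n : Ideal B} [hn : n.IsMaximal]
    (hrat : ∀ c : B, ∃ r : R, c - algebraMap R B r ∈ n)
    {V₁ V₂ V₃ : ValuationSubring F}
    (hB₁ : ChartLe B V₁) (hB₂ : ChartLe B V₂) (hB₃ : ChartLe B V₃)
    {m : ℕ} (hm : 0 < m)
    (hn₁ : _root_.Fermat.Agent.S36.H630.NormalAlong B V₁ m) (hn₂ : _root_.Fermat.Agent.S36.H630.NormalAlong B V₂ m) (hn₃ : _root_.Fermat.Agent.S36.H630.NormalAlong B V₃ m)
    {ζ : R} (hζ : ζ ^ m = 1) (κ : ValuationSubring F → ℕ)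
    (h12 : ¬ (PassThrough B n V₁ ∧ PassThrough B n V₂))
    (h13 : ¬ (PassThrough B n V₁ ∧ PassThrough B n V₃))
    (h23 : ¬ (PassThrough B n V₂ ∧ PassThrough B n V₃))
    {u d : F} (hu₁ : u - 1 ∈ V₁.nonunits) (hu₂ : u - 1 ∈ V₂.nonunits)
    (hu₃ : u - 1 ∈ V₃.nonunits)
    {a₀ s₀ : B} (ha₀ : a₀ ∉ n) (hs₀ : s₀ ∉ n) (hpure : u * d ^ m * (s₀ : F) = a₀) (c : ℕ) :
    LabelAt B n {V | V = V₁ ∨ V = V₂ ∨ V = V₃} m (u ^ c) ζ κ := by
  have hnp : n.IsPrime := hn.isPrime
  by_cases h1 : PassThrough B n V₁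
  · refine labelAt_single hrat (V₀ := V₁) ?_ hB₁ h1 hm hn₁ hζ κ hu₁ ha₀ hs₀ hpure c
    rintro V (rfl | rfl | rfl) hth
    · rfl
    · exact absurd ⟨h1, hth⟩ h12
    · exact absurd ⟨h1, hth⟩ h13
  by_cases h2 : PassThrough B n V₂
  · refine labelAt_single hrat (V₀ := V₂) ?_ hB₂ h2 hm hn₂ hζ κ hu₂ ha₀ hs₀ hpure c
    rintro V (rfl | rfl | rfl) hth
    · exact absurd hth h1
    · rfl
    · exact absurd ⟨h2, hth⟩ h23
  by_cases h3 : PassThrough B n V₃
  · refine labelAt_single hrat (V₀ := V₃) ?_ hB₃ h3 hm hn₃ hζ κ hu₃ ha₀ hs₀ hpure c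
    rintro V (rfl | rfl | rfl) hth
    · exact absurd hth h1
    · exact absurd hth h2
    · rfl
  · refine labelAt_of_none ?_ hm (u := u ^ c) (d := d ^ c) (a₀ := a₀ ^ c) (s₀ := s₀ ^ c)
      (fun h => ha₀ (hnp.mem_of_pow_mem c h)) (fun h => hs₀ (hnp.mem_of_pow_mem c h))
      (pure_pow hpure c) ζ κ
    rintro V (rfl | rfl | rfl) hth
    · exact h1 hth
    · exact h2 hth
    · exact h3 hth

end Generic

section Labels

variable {R : Type*} [CommRing R] [IsDomain R]
variable {F' : Type*} [Field F'] [Algebra R F']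
variable {F : Type*} [Field F] [Algebra R F] [Algebra F' F] [IsScalarTower R F' F]

/-- **The labels of `k`, `k ^ m = N u`, on the two sheets below.** -/
theorem exists_labels_side (hinj : Function.Injective (algebraMap R F'))
    {Va Vb Vc : ValuationSubring F} {V' V'' : ValuationSubring F'}
    (hRa : ∀ r : R, algebraMap R F r ∈ Va) (hRc : ∀ r : R, algebraMap R F r ∈ Vc)
    (hcomap_a : Va.comap (algebraMap F' F) = V') (hcomap_c : Vc.comap (algebraMap F' F) = V'')
    {q : ℕ} (hnr_s : NormResSplitU V' Va Vb (q - 1)) (hnr_i : NormResInsepU (F' := F') Vc q)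
    {m : ℕ} (hm : 0 < m) {ζ : R} (hζ : IsPrimitiveRoot ζ m)
    {u : F} (hua : u - 1 ∈ Va.nonunits) (hub : u - 1 ∈ Vb.nonunits) (huc : u - 1 ∈ Vc.nonunits)
    {k : F'} (hk : Algebra.norm F' u = k ^ m) :
    ∃ i i' : ℕ, k - algebraMap R F' (ζ ^ i) ∈ V'.nonunits ∧
      k - algebraMap R F' (ζ ^ i') ∈ V''.nonunits := by
  have hR' : ∀ r : R, algebraMap R F' r ∈ V' := by
    intro r
    rw [← hcomap_a, ValuationSubring.mem_comap, ← IsScalarTower.algebraMap_apply]
    exact hRa r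
  have hR'' : ∀ r : R, algebraMap R F' r ∈ V'' := by
    intro r
    rw [← hcomap_c, ValuationSubring.mem_comap, ← IsScalarTower.algebraMap_apply]
    exact hRc r
  have h1a : algebraMap F' F 1 - u ∈ Va.nonunits := by
    rw [map_one]
    have := vnu_neg Va hua
    rwa [neg_sub] at this
  have h1b : algebraMap F' F 1 - u ∈ Vb.nonunits := by
    rw [map_one]
    have := vnu_neg Vb hub
    rwa [neg_sub] at this
  have hN' : k ^ m - 1 ∈ V'.nonunits := by
    have := hnr_s u (unit_of_split hua) (unit_of_split hub) 1 1 h1a h1b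
    rwa [one_pow, mul_one, hk] at this
  have hN'' : k ^ m - 1 ∈ V''.nonunits := by
    have h2 := hnr_i u (unit_of_split huc)
    have huV := (unit_of_split huc).2.1
    have h3 : u ^ q - 1 ∈ Vc.nonunits := by
      have := pow_sub_pow_mem_nonunits Vc huV Vc.one_mem huc q
      rwa [one_pow] at this
    rw [← hk, ← hcomap_c, mem_nonunits_comap_iff, map_sub, map_one]
    have : algebraMap F' F (Algebra.norm F' u) - 1
        = (algebraMap F' F (Algebra.norm F' u) - u ^ q) + (u ^ q - 1) := by ring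
    rw [this]
    exact vnu_add Vc h2 h3
  obtain ⟨i, hi⟩ := _root_.Fermat.Agent.S36.H630.exists_label hR' hinj hm hζ hN'
  obtain ⟨i', hi'⟩ := _root_.Fermat.Agent.S36.H630.exists_label hR'' hinj hm hζ hN''
  exact ⟨i, i', hi, hi'⟩

end Labels

section Ctx

variable {R E F F' : Type*} [CommRing R] [IsDomain R] [IsDiscreteValuationRing R]
  [IsAlgClosed (IsLocalRing.ResidueField R)]
  [Field E] [Algebra R E] [Field F] [Algebra E F] [Algebra R F] [IsScalarTower R E F]
  [Field F'] [Algebra E F'] [Algebra R F'] [IsScalarTower R E F']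
  {w : R} {q : ℕ} {α β : F' →ₐ[E] F} {x : F} {x' : F'}
  {V₁ V₂ V₃ : ValuationSubring F} {V₁' V₂' : ValuationSubring F'}

omit [IsDomain R] [IsDiscreteValuationRing R] [IsAlgClosed (IsLocalRing.ResidueField R)] in
/-- the scalar tower `R → F' → F` along a degeneracy map -/
theorem isScalarTower_alongR (φ : F' →ₐ[E] F) :
    letI := algebraAlong φ; IsScalarTower R F' F :=
  letI := algebraAlong φ
  IsScalarTower.of_algebraMap_eq fun r => by
    show algebraMap R F r = φ (algebraMap R F' r)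
    rw [IsScalarTower.algebraMap_apply R E F, IsScalarTower.algebraMap_apply R E F',
      φ.commutes]

/-- **The label datum at a triple point of the finite chart.** -/
theorem labelAt_triple_ctx (ctx : TripleCtx w q α β x x' V₁ V₂ V₃ V₁' V₂')
    (hq : 0 < q) {m : ℕ} (hm : 0 < m) {ζ : R} (hζ : ζ ^ m = 1)
    (n : Ideal (chart R ({x} : Set F))) [hn : n.IsMaximal]
    (h𝔪n : ∀ r ∈ IsLocalRing.maximalIdeal R, algebraMap R (chart R ({x} : Set F)) r ∈ n)
    (h1 : PassThrough (chart R ({x} : Set F)) n V₁)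
    (h2 : PassThrough (chart R ({x} : Set F)) n V₂)
    (h3 : PassThrough (chart R ({x} : Set F)) n V₃)
    {u : F} (hu₁ : u - 1 ∈ V₁.nonunits) (hu₂ : u - 1 ∈ V₂.nonunits)
    (hu₃ : u - 1 ∈ V₃.nonunits)
    {k₁ k₂ : F'} (hk₁ : S29.H395.normAlong α u = k₁ ^ m)
    (hk₂ : S29.H395.normAlong β u = k₂ ^ m)
    {i₁ i₂ j₁ j₂ : ℕ}
    (hi₁ : k₁ - algebraMap R F' (ζ ^ i₁) ∈ V₁'.nonunits)
    (hi₂ : k₁ - algebraMap R F' (ζ ^ i₂) ∈ V₂'.nonunits)
    (hj₂ : k₂ - algebraMap R F' (ζ ^ j₂) ∈ V₂'.nonunits)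
    (hj₁ : k₂ - algebraMap R F' (ζ ^ j₁) ∈ V₁'.nonunits)
    (κ : ValuationSubring F → ℕ)
    (hκFF : ζ ^ ((m - 1) * κ V₁) = ζ ^ ((q - 1) * (i₂ + j₂ + (m - 1) * (i₁ + j₁))))
    (hκmid : ζ ^ ((m - 1) * κ V₂) = ζ ^ (q * i₂ + j₁ + (m - 1) * (q * i₁ + j₂)))
    (hκVV : ζ ^ ((m - 1) * κ V₃) = 1)
    {d : F} {a₀ s₀ : chart R ({x} : Set F)} (ha₀ : a₀ ∉ n) (hs₀ : s₀ ∉ n)
    (hpure : u * d ^ m * (s₀ : F) = a₀) :
    LabelAt (chart R ({x} : Set F)) n {V | V = V₁ ∨ V = V₂ ∨ V = V₃} m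
      (u ^ ((q - 1) * (q + 1))) ζ κ := by
  have hnp : n.IsPrime := hn.isPrime
  have hB₁ : ChartLe (chart R ({x} : Set F)) V₁ :=
    chartLe_chart ctx.base₁ (fun s hs => by rw [Set.mem_singleton_iff.1 hs]; exact ctx.x_unit₁.2.1)
  have hB₂ : ChartLe (chart R ({x} : Set F)) V₂ :=
    chartLe_chart ctx.base₂ (fun s hs => by rw [Set.mem_singleton_iff.1 hs]; exact ctx.x_unit₂.2.1)
  have hB₃ : ChartLe (chart R ({x} : Set F)) V₃ :=
    chartLe_chart ctx.base₃ (fun s hs => by rw [Set.mem_singleton_iff.1 hs]; exact ctx.x_unit₃.2.1)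
  have hrat := rat_chart x n hn h𝔪n
  obtain ⟨η₁, hη₁, hv₁⟩ := exists_valAt_of_pure hrat hB₁ h1 hm
    (normalAlong_of_monic ctx.normal_f₁ hm) hu₁ ha₀ hs₀ hpure
  obtain ⟨η₂, hη₂, hv₂⟩ := exists_valAt_of_pure hrat hB₂ h2 hm
    (normalAlong_of_monic ctx.normal_f₂ hm) hu₂ ha₀ hs₀ hpure
  obtain ⟨η₃, hη₃, hv₃⟩ := exists_valAt_of_pure hrat hB₃ h3 hm
    (normalAlong_of_monic ctx.normal_f₃ hm) hu₃ ha₀ hs₀ hpure
  have hα : ζ ^ i₁ * (η₁ * η₂ ^ (q - 1)) - ζ ^ i₂ * η₃ ^ q ∈ IsLocalRing.maximalIdeal R := by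
    letI := algebraAlong α
    haveI : IsScalarTower R F' F := isScalarTower_alongR α
    exact label_eq_side n ctx.chart_α ctx.int_α
      (fun Q hQ h => ctx.unique_α n Q hn hQ ⟨h1, h2, h3⟩ h)
      hB₁ h1 hB₂ h2 hB₃ h3 ctx.comap_α₁ ctx.comap_α₃ ctx.res_α₁ ctx.res_α₂ hq.ne'
      ctx.nr_α₁ ctx.nr_α₂ hm hs₀ hpure hk₁ hi₁ hi₂ hη₁ hη₂ hη₃ hv₁ hv₂ hv₃
  have hβ : ζ ^ j₂ * (η₃ * η₂ ^ (q - 1)) - ζ ^ j₁ * η₁ ^ q ∈ IsLocalRing.maximalIdeal R := by
    letI := algebraAlong β
    haveI : IsScalarTower R F' F := isScalarTower_alongR β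
    exact label_eq_side n ctx.chart_β ctx.int_β
      (fun Q hQ h => ctx.unique_β n Q hn hQ ⟨h1, h2, h3⟩ h)
      hB₃ h3 hB₂ h2 hB₁ h1 ctx.comap_β₃ ctx.comap_β₁ ctx.res_β₃ ctx.res_β₂ hq.ne'
      ctx.nr_β₁ ctx.nr_β₂ hm hs₀ hpure hk₂ hj₂ hj₁ hη₃ hη₂ hη₁ hv₃ hv₂ hv₁
  exact labelAt_of_three (IsLocalRing.maximalIdeal R) h𝔪n (fun V hV => hV) hB₁ h1 hB₂ h2 hB₃ h3
    hm hζ hq κ hκFF hκmid hκVV hs₀ hpure (fun h => hη₂ (h𝔪n _ h)) (fun h => hη₃ (h𝔪n _ h)) hη₃
    hv₁ hv₂ hv₃ hα hβ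

end Ctx

end Fermat.Agent.S36.H630

end
-- ===== PACK-END S36/H630/FromCtx.lean

-- ===== PACK-BEGIN A2/Mod/H816/L8Upper.lean
section





/-!
# A2 / MOD leaf L8, part 3 (helper816): the modular polynomial has degree `q + 1` in BOTH
variables, hence `j` has degree `≤ 2 (q + 1)` over `E(j j_q)`

* `natDegree_swap_modPoly` : for `D : S28.ModPolyData q`, `(swap D.Φ).natDegree = q + 1`
  (from `Φ(X, j) = minpoly_{ℚ(j)} j_q` and `Φ(j, j_q) = 0`: `Φ ∣ swap Φ`, compare degrees);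
* `exists_poly_of_mul` : abstract: `Φ ∈ ℤ[Y][X]` monic in `X` of degree `n`, of degree `d` in `Y`,
  `Φ(y, z) = 0`, `x ↦ y z` ⟹ a polynomial `P ≠ 0` over `K ∋ x` of degree `≤ n + d` with
  `P(y) = 0`  (`P(T) = T^d Φ(T, x / T)`).
-/

set_option autoImplicit false
set_option synthInstance.maxHeartbeats 400000
set_option maxHeartbeats 1600000

noncomputable section

namespace Fermat.Agent.A2.Mod.H816

open ModularCurve HahnSeries Polynomial
open scoped Polynomial.Bivariate

/-! ## Bivariate polynomials -/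

section Biv

variable {R A : Type*} [CommRing R] [CommRing A] [Algebra R A]

theorem aevalAeval_eq_eval₂ (x y : A) (p : R[X][Y]) :
    aevalAeval x y p = p.eval₂ (aeval x : R[X] →ₐ[R] A).toRingHom y := by
  induction p using Polynomial.induction_on' with
  | add p q hp hq => rw [map_add, hp, hq, eval₂_add]
  | monomial n a =>
    rw [← C_mul_X_pow_eq_monomial, map_mul, map_pow, aevalAeval_C, aevalAeval_Y, eval₂_mul,
      eval₂_pow, eval₂_C, eval₂_X]
    rfl

theorem eval₂_swap (x y : A) (p : R[X][Y]) :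
    (Bivariate.swap p).eval₂ (aeval x : R[X] →ₐ[R] A).toRingHom y =
      p.eval₂ (aeval y : R[X] →ₐ[R] A).toRingHom x := by
  rw [← aevalAeval_eq_eval₂, ← aevalAeval_eq_eval₂, Bivariate.aevalAeval_swap]

theorem coeff_coeff_swap (p : R[X][Y]) (a b : ℕ) :
    ((Bivariate.swap p).coeff b).coeff a = (p.coeff a).coeff b := by
  induction p using Polynomial.induction_on' with
  | add p q hp hq =>
    rw [map_add, Polynomial.coeff_add, Polynomial.coeff_add, Polynomial.coeff_add,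
      Polynomial.coeff_add, hp, hq]
  | monomial n f =>
    induction f using Polynomial.induction_on' with
    | add f g hf hg =>
      rw [map_add (monomial n), map_add, Polynomial.coeff_add, Polynomial.coeff_add,
        Polynomial.coeff_add, Polynomial.coeff_add, hf, hg]
    | monomial m c =>
      rw [Bivariate.swap_monomial_monomial, Polynomial.coeff_monomial, Polynomial.coeff_monomial]
      by_cases h1 : m = b <;> by_cases h2 : n = a <;>
        simp [h1, h2, Polynomial.coeff_monomial]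

end Biv

section EvZ

/-- evaluation `ℤ[X] → L`, `X ↦ z` (instance-free form) -/
abbrev evZ {L : Type*} [CommRing L] (z : L) : Polynomial ℤ →+* L :=
  Polynomial.eval₂RingHom (Int.castRingHom L) z

theorem evZ_of_algebra {L : Type*} [CommRing L] [Algebra ℤ L] (z : L) :
    (aeval z : Polynomial ℤ →ₐ[ℤ] L).toRingHom = evZ z := by
  refine Polynomial.ringHom_ext' (Subsingleton.elim _ _) ?_
  simp [evZ]

theorem eval₂_swap_int {L : Type*} [CommRing L] (x y : L) (p : ℤ[X][Y]) :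
    (Bivariate.swap p).eval₂ (evZ x) y = p.eval₂ (evZ y) x := by
  rw [← evZ_of_algebra, ← evZ_of_algebra]
  exact eval₂_swap x y p

theorem aeval_map_intCast {K L : Type*} [Field K] [CommRing L] [Algebra K L] (y : L)
    (p : Polynomial ℤ) : aeval y (p.map (Int.castRingHom K)) = evZ y p := by
  rw [aeval_def, eval₂_map]
  show _ = p.eval₂ (Int.castRingHom L) y
  congr 1
  exact Subsingleton.elim _ _

end EvZ

/-! ## The degree of `Φ_q` in the inner variable -/

section Inner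

open Fermat.Agent.S28

theorem addVal_jqModC (k : Type*) [Field k] :
    HahnSeries.addVal ℤ k (jqModC k) = ((-1 : ℤ) : WithTop ℤ) := by
  have h := addVal_jd k 1
  rw [qExpand_one_apply] at h
  rw [h]
  rfl

theorem evalAt_jqModC_injective (k : Type*) [Field k] [CharZero k] :
    Function.Injective (evalAt (jqModC k)) := by
  rw [injective_iff_map_eq_zero]
  intro p hp
  by_contra hne
  have hmap : p.map (Int.castRingHom k) ≠ 0 := by
    intro h
    exact hne (Polynomial.map_injective (Int.castRingHom k) Int.cast_injective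
      (by rw [h, Polynomial.map_zero]))
  have := aeval_ne_zero_of_addVal (HahnSeries.addVal ℤ k) (E := k) (F := LaurentSeries k)
      (fun c hc => addVal_algebraMap_laurent k hc) (a := -1) (by norm_num) (x := jqModC k)
      (addVal_jqModC k) hmap
  apply this
  rw [aeval_map_intCast, ← evZ_of_algebra]
  exact hp

/-- **The modular polynomial has degree `q + 1` in the inner variable.** -/
theorem natDegree_swap_modPoly (q : ℕ) [NeZero q] (hq : q.Prime) (D : ModPolyData q) :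
    (Bivariate.swap D.Φ).natDegree = q + 1 := by
  have hB1 : qExpand ℚ q (jqModC ℚ) ∉ jField ℚ :=
    h88_jp_not_mem_jField ℚ q (Nat.cast_ne_zero.mpr hq.ne_zero) hq.one_lt
      (H807.nonempty_unitPolyData q hq).some H25.theta_identity
  set σ := H145.evalAtSub (jField ℚ) (jqModC ℚ) H145.jqModC_mem_jField with hσ
  have hσinj : Function.Injective σ := by
    intro a b hab
    apply evalAt_jqModC_injective ℚ
    have := congrArg (algebraMap (jField ℚ) (LaurentSeries ℚ)) hab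
    rw [← RingHom.comp_apply, ← RingHom.comp_apply, H145.algebraMap_comp_evalAtSub] at this
    exact this
  have hmin := H145.minpoly_jp_over_jField (k := ℚ) D hq.two_le hB1
  have hroot : Polynomial.aeval (qExpand ℚ q (jqModC ℚ)) ((Bivariate.swap D.Φ).map σ) = 0 := by
    rw [H145.aeval_map_evalAtSub]
    have h1 : evalAt (jqModC ℚ) = evZ (jqModC ℚ) := evZ_of_algebra _
    have h2 : evalAt (qExpand ℚ q (jqModC ℚ)) = evZ (qExpand ℚ q (jqModC ℚ)) :=
      evZ_of_algebra _
    rw [h1, eval₂_swap_int, ← h2]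
    exact H145.modPoly_eval_j_field D
  have hmonic := D.monic
  have hdvd : D.Φ.map σ ∣ (Bivariate.swap D.Φ).map σ := by
    rw [← hmin]; exact minpoly.dvd _ _ hroot
  have hdvd' : D.Φ ∣ Bivariate.swap D.Φ := by
    rw [← Polynomial.modByMonic_eq_zero_iff_dvd hmonic]
    apply Polynomial.map_injective σ hσinj
    rw [Polynomial.map_modByMonic _ hmonic, Polynomial.map_zero]
    exact (Polynomial.modByMonic_eq_zero_iff_dvd (hmonic.map σ)).mpr hdvd
  obtain ⟨h, hh⟩ := hdvd'
  have hΦ0 : D.Φ ≠ 0 := hmonic.ne_zero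
  have hsw0 : Bivariate.swap D.Φ ≠ 0 := by
    intro h0
    apply hΦ0
    exact (Bivariate.swap (R := ℤ)).injective (by rw [h0, map_zero])
  have hh0 : h ≠ 0 := by
    rintro rfl
    rw [mul_zero] at hh
    exact hsw0 hh
  have hswh0 : Bivariate.swap h ≠ 0 := by
    intro h0
    apply hh0
    exact (Bivariate.swap (R := ℤ)).injective (by rw [h0, map_zero])
  have e1 : (Bivariate.swap D.Φ).natDegree = D.Φ.natDegree + h.natDegree := by
    rw [hh, natDegree_mul hΦ0 hh0]
  have e2 : D.Φ.natDegree = (Bivariate.swap D.Φ).natDegree + (Bivariate.swap h).natDegree := by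
    have h3 := congrArg (Bivariate.swap (R := ℤ)) hh
    rw [Bivariate.swap_swap_apply, map_mul] at h3
    conv_lhs => rw [h3]
    rw [natDegree_mul hsw0 hswh0]
  rw [D.natDegree_eq] at e1 e2
  omega

end Inner

/-! ## The polynomial `T^d Φ(T, x / T)` -/

section PolyP

variable {K L : Type*} [Field K] [Field L] [Algebra K L]

theorem exists_poly_of_mul (Φ : ℤ[X][Y]) (hΦ : Φ.Monic) {n d : ℕ} (hn : Φ.natDegree = n)
    (hd : (Bivariate.swap Φ).natDegree = d) (x : K) (y z : L)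
    (hxyz : algebraMap K L x = y * z)
    (hroot : Φ.eval₂ (evZ z) y = 0) :
    ∃ P : K[X], P ≠ 0 ∧ P.natDegree ≤ n + d ∧ aeval y P = 0 := by
  classical
  set φ : ℕ → Polynomial ℤ := fun b => (Bivariate.swap Φ).coeff b with hφ
  set P : K[X] := ∑ b ∈ Finset.range (d + 1),
    (φ b).map (Int.castRingHom K) * Polynomial.C (x ^ b) * X ^ (d - b) with hP
  have hφcoeff : ∀ a b, (φ b).coeff a = (Φ.coeff a).coeff b := fun a b =>
    coeff_coeff_swap Φ a b
  have hφdeg : ∀ b, (φ b).natDegree ≤ n := by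
    intro b
    rw [natDegree_le_iff_coeff_eq_zero]
    intro a ha
    have h0 : Φ.coeff a = 0 := coeff_eq_zero_of_natDegree_lt (by rw [hn]; exact ha)
    rw [hφcoeff, h0, Polynomial.coeff_zero]
  have hcoeff : P.coeff (n + d) = 1 := by
    rw [hP, finsetSum_coeff]
    rw [Finset.sum_eq_single 0]
    · rw [Nat.sub_zero, pow_zero, coeff_mul_X_pow, map_one, mul_one, coeff_map, hφcoeff,
        ← hn, hΦ.coeff_natDegree]
      simp
    · intro b hb hb0
      have hbd : b ≤ d := Nat.lt_succ_iff.mp (Finset.mem_range.mp hb)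
      have hle : d - b ≤ n + d := by omega
      rw [coeff_mul_X_pow', if_pos hle, coeff_mul_C, coeff_map, hφcoeff]
      have hlt : Φ.natDegree < n + d - (d - b) := by
        rw [hn]
        have : 0 < b := Nat.pos_of_ne_zero hb0
        omega
      have h0 : Φ.coeff (n + d - (d - b)) = 0 := coeff_eq_zero_of_natDegree_lt hlt
      rw [h0]
      simp
    · intro h0
      exact absurd (Finset.mem_range.mpr (Nat.succ_pos d)) h0
  refine ⟨P, ?_, ?_, ?_⟩
  · intro h0
    rw [h0, Polynomial.coeff_zero] at hcoeff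
    exact zero_ne_one hcoeff
  · rw [hP]
    apply natDegree_sum_le_of_forall_le
    intro b hb
    have hbd : b ≤ d := Nat.lt_succ_iff.mp (Finset.mem_range.mp hb)
    calc ((φ b).map (Int.castRingHom K) * Polynomial.C (x ^ b) * X ^ (d - b)).natDegree
        ≤ ((φ b).map (Int.castRingHom K) * Polynomial.C (x ^ b)).natDegree + (X ^ (d - b) : K[X]).natDegree :=
          natDegree_mul_le
      _ ≤ ((φ b).map (Int.castRingHom K)).natDegree + (Polynomial.C (x ^ b) : K[X]).natDegree + (d - b) := by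
          gcongr
          · exact natDegree_mul_le
          · exact natDegree_X_pow_le _
      _ ≤ n + 0 + d := by
          gcongr
          · exact (natDegree_map_le).trans (hφdeg b)
          · rw [natDegree_C]
          · omega
      _ = n + d := by ring
  · rw [hP, map_sum]
    have hterm : ∀ b ∈ Finset.range (d + 1),
        aeval y ((φ b).map (Int.castRingHom K) * Polynomial.C (x ^ b) * X ^ (d - b)) =
          (evZ y (φ b) * z ^ b) * y ^ d := by
      intro b hb
      have hbd : b ≤ d := Nat.lt_succ_iff.mp (Finset.mem_range.mp hb)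
      rw [map_mul, map_mul, aeval_C, map_pow, map_pow, aeval_X, hxyz]
      rw [aeval_map_intCast]
      have h2 : y ^ d = y ^ b * y ^ (d - b) := by
        rw [← _root_.pow_add]
        congr 1
        omega
      rw [h2, mul_pow]
      ring
    rw [Finset.sum_congr rfl hterm, ← Finset.sum_mul]
    have h3 : (Bivariate.swap Φ).eval₂ (evZ y) z =
        ∑ b ∈ Finset.range (d + 1), evZ y (φ b) * z ^ b := by
      rw [eval₂_eq_sum_range, hd]
    rw [← h3, eval₂_swap_int, hroot, zero_mul]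

end PolyP

end Fermat.Agent.A2.Mod.H816

end

end
-- ===== PACK-END A2/Mod/H816/L8Upper.lean

-- ===== PACK-BEGIN S59/TW/Aut/H762/Cor.lean
section





/-!
# S59 / cell TW, layer 3 (AUT), leaf CTRL, piece (5) COR (helper762)

`K_Q = KQ p N₀ qv = ker κ_Q ≤ Γ₀(M_Q)`, `M_Q = bLevel N₀ qv`, `Δ_Q = Delta p qv`.
For submodules `V ⊆ X_{K_Q}(𝒪)`, `W ⊆ X_{Γ₀(M_Q)}(𝒪)` (`𝒪` a domain of characteristic `0`) with

* `V` stable under the diamond operators and free over `𝒪[Δ_Q]` in the sense of `Aut.FreeAt`,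
* `cor V ⊆ W`, `res W ⊆ V` (for the localisations `IsLocPart`: naturality, piece NAT1),

the corestriction induces a surjective `𝒪`-linear map `c : V → W` whose kernel is the augmentation
submodule `I_Δ V` (additive closure of the `⟨a⟩ y' - y'`, `y' ∈ V`), in the shape of `Aut.CtrlAt`:

* `cor_ctrl_N0_h762` : for every `N₀ ≠ 0`;
* `cor_ctrl_h762`    : in the vocabulary `XQ`, `diaQ`, `FreeAt` of `Aut/Spec.lean`;
* `cor_ctrl_locPart_h762` : the same for `IsLocPart` (diamond-stability automatic);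
* `coresK_TK_h762`, `coresK_UK_h762` : `cor` commutes with `T_ℓ` (`ℓ ∤ M_Q`) and `U_q` (`q ∣ M_Q`);
* `cor_ctrl_tOp_h762` : hence `c` commutes with the `T_ℓ` (clause of `Aut.CtrlAt`).
-/

set_option autoImplicit false

namespace Fermat.Agent.S59.TW.Aut.H762

open CongruenceSubgroup
open Fermat.Agent.S59.Arch Fermat.Agent.S59.TW.H653 Fermat.Agent.S59.MFree
open Fermat.Agent.S59.TW.Aut
open scoped MatrixGroups

section Kappa

variable (p N₀ : ℕ) {r : ℕ} (qv : Fin r → ℕ)

theorem kappa_trivial_h762 (γ : Gamma0 (bLevel N₀ qv))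
    (h : ((((γ : SL(2, ℤ)) 1 1 : ℤ)) : ZMod (bLevel N₀ qv)) = 1) : kappa p N₀ qv γ = 1 := by
  have h1 : dUnit (bLevel N₀ qv) γ = 1 := by
    apply Units.ext
    rw [coe_dUnit, h, Units.val_one]
  unfold kappa
  rw [MonoidHom.comp_apply, h1, map_one]

theorem kappa_apply_h762 (γ : Gamma0 (bLevel N₀ qv)) :
    kappa p N₀ qv γ = chi p N₀ qv (dUnit (bLevel N₀ qv) γ) := rfl

theorem chi_apply_h762 (u : (ZMod (bLevel N₀ qv))ˣ) :
    chi p N₀ qv u = QuotientGroup.mk (red N₀ qv u) := rfl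

theorem kappa_surjective_h762 [NeZero (bLevel N₀ qv)]
    (hsurj : Function.Surjective (red N₀ qv)) : Function.Surjective (kappa p N₀ qv) := by
  intro d
  obtain ⟨a, rfl⟩ := QuotientGroup.mk_surjective d
  obtain ⟨u, rfl⟩ := hsurj a
  obtain ⟨γ, rfl⟩ := dUnit_surjective u
  exact ⟨γ, rfl⟩

theorem neZero_bLevel_h762 [NeZero N₀] (hprime : ∀ j, (qv j).Prime) : NeZero (bLevel N₀ qv) :=
  ⟨Nat.mul_ne_zero (NeZero.ne N₀) (Finset.prod_ne_zero_iff.mpr fun j _ => (hprime j).ne_zero)⟩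

/-- The diamond operator `⟨a⟩` of `K_Q` in the vocabulary of block M-FREE. -/
theorem diamondU_liftU_eq_conjAct_h762 [NeZero (bLevel N₀ qv)]
    (hsurj : Function.Surjective (red N₀ qv)) {A : Type} [AddCommGroup A]
    (a : ∀ j : Fin r, (ZMod (qv j))ˣ) (γ : Gamma0 (bLevel N₀ qv))
    (hγ : kappa p N₀ qv γ = (QuotientGroup.mk a)⁻¹)
    (x : Additive (kerSub (kappa p N₀ qv)) →+ A) :
    diamondU (isMid_KQ p N₀ qv) (liftU N₀ qv a) x = conjAct (kappa p N₀ qv) γ x := by
  rw [conjAct_eq_diamond (kappa p N₀ qv) (kappa_trivial_h762 p N₀ qv) γ x]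
  rw [diamond_eq_diamondU]
  apply diamondU_eq_of_chi
  have h1 : chi p N₀ qv (liftU N₀ qv a) = QuotientGroup.mk a := by
    rw [chi_apply_h762, red_liftU N₀ qv (hsurj a)]
  have h2 : chi p N₀ qv (dUnit (bLevel N₀ qv) γ⁻¹) = QuotientGroup.mk a := by
    rw [← kappa_apply_h762, map_inv, hγ]
    exact inv_inv (QuotientGroup.mk a : Delta p qv)
  exact h1.trans h2.symm

end Kappa

section CorHecke

variable (p N₀ : ℕ) {r : ℕ} (qv : Fin r → ℕ) {A : Type} [AddCommGroup A]

/-- `cor` commutes with `U_q`, `q ∣ M_Q`. -/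
theorem coresK_UK_h762 {q : ℕ} [Fact q.Prime] (hq : q ∣ bLevel N₀ qv)
    (x : Additive (KQ p N₀ qv) →+ A) :
    coresK (isMid_KQ p N₀ qv).le (UK (KQ p N₀ qv) q x) =
      UK (Gamma0 (bLevel N₀ qv)) q (coresK (isMid_KQ p N₀ qv).le x) :=
  cor_UqKer (kappa p N₀ qv) (kappa_trivial_h762 p N₀ qv) hq x

/-- `cor` commutes with `T_ℓ`, `ℓ ∤ M_Q`. -/
theorem coresK_TK_h762 {ℓ : ℕ} [Fact ℓ.Prime] (hℓ : ¬ ℓ ∣ bLevel N₀ qv)
    (x : Additive (KQ p N₀ qv) →+ A) :
    coresK (isMid_KQ p N₀ qv).le (TK (bLevel N₀ qv) (KQ p N₀ qv) ℓ x) =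
      TK (bLevel N₀ qv) (Gamma0 (bLevel N₀ qv)) ℓ (coresK (isMid_KQ p N₀ qv).le x) := by
  have h1 := cor_transfer (kappa p N₀ qv) (kappa_trivial_h762 p N₀ qv) (repsT_system0 hℓ)
    (isNormRep_repsT hℓ) x
  rw [TK_eq (isMid_KQ p N₀ qv) hℓ, TK_eq (isMid_Gamma0 _) hℓ]
  exact h1

end CorHecke

section Main

variable {p : ℕ} [hp : Fact p.Prime] (N₀ : ℕ) [hN₀ : NeZero N₀] {r : ℕ} (qv : Fin r → ℕ)
  (hprime : ∀ j, (qv j).Prime) (hinj : Function.Injective qv)
  (𝒪 : Type) [CommRing 𝒪] [IsDomain 𝒪] [CharZero 𝒪]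

include hp hN₀ hprime hinj in
/-- **COR** (piece (5) of leaf CTRL), for every `N₀ ≠ 0`. -/
theorem cor_ctrl_N0_h762
    (V : Submodule 𝒪 (Additive (KQ p N₀ qv) →+ 𝒪))
    (W : Submodule 𝒪 (Additive (Gamma0 (bLevel N₀ qv)) →+ 𝒪))
    (hVdia : ∀ (a : ∀ j : Fin r, (ZMod (qv j))ˣ), ∀ x ∈ V,
      diamondU (isMid_KQ p N₀ qv) (liftU N₀ qv a) x ∈ V)
    (hfree : ∀ g : ∀ j : Fin r, (ZMod (qv j))ˣ, (∀ j, orderOf (g j) = qv j - 1) →
      ∃ (d : ℕ) (b : Fin d → V), ∀ y : V,
        ∃! c : Fin d → (∀ j : Fin r, Fin (p ^ padicValNat p (qv j - 1))) → 𝒪,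
          (y : Additive (KQ p N₀ qv) →+ 𝒪) =
            ∑ i, ∑ e, c i e •
              diamondU (isMid_KQ p N₀ qv) (liftU N₀ qv (fun j => g j ^ (e j : ℕ))) (b i))
    (hcor : ∀ x ∈ V, coresK (isMid_KQ p N₀ qv).le x ∈ W)
    (hres : ∀ y ∈ W, resK (isMid_KQ p N₀ qv).le y ∈ V) :
    ∃ c : V →ₗ[𝒪] W, Function.Surjective c ∧
      (∀ v : V, ((c v : W) : Additive (Gamma0 (bLevel N₀ qv)) →+ 𝒪) =
        coresK (isMid_KQ p N₀ qv).le (v : Additive (KQ p N₀ qv) →+ 𝒪)) ∧
      ∀ y : V, c y = 0 ↔ y ∈ AddSubgroup.closure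
        {z : V | ∃ (a : ∀ j : Fin r, (ZMod (qv j))ˣ) (y' : V),
          (z : Additive (KQ p N₀ qv) →+ 𝒪) =
            diamondU (isMid_KQ p N₀ qv) (liftU N₀ qv a) (y' : Additive (KQ p N₀ qv) →+ 𝒪) -
              (y' : Additive (KQ p N₀ qv) →+ 𝒪)} := by
  classical
  have hM : NeZero (bLevel N₀ qv) := neZero_bLevel_h762 N₀ qv hprime
  have hsurj := red_surjective N₀ qv (NeZero.ne N₀) hinj hprime
  have hκ := kappa_surjective_h762 p N₀ qv hsurj
  have hNZ : ∀ j, NeZero (qv j) := fun j => ⟨(hprime j).ne_zero⟩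
  have hfin : Finite (Delta p qv) := inferInstance
  let _ : Fintype (Delta p qv) := Fintype.ofFinite _
  let s : Delta p qv → Gamma0 (bLevel N₀ qv) := Function.surjInv hκ
  have hs : ∀ d, kappa p N₀ qv (s d) = d := Function.surjInv_eq hκ
  -- the diamond operators in the vocabulary of M-FREE
  have hdia : ∀ (a : ∀ j : Fin r, (ZMod (qv j))ˣ)
      (x : Additive (kerSub (kappa p N₀ qv)) →+ 𝒪),
      diamondU (isMid_KQ p N₀ qv) (liftU N₀ qv a) x =
        conjAct (kappa p N₀ qv) (s (QuotientGroup.mk a : Delta p qv)⁻¹) x := fun a x =>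
    diamondU_liftU_eq_conjAct_h762 p N₀ qv hsurj a _ (hs _) x
  have hdiaF : ∀ (a : ∀ j : Fin r, (ZMod (qv j))ˣ),
      (diamondU (isMid_KQ p N₀ qv) (liftU N₀ qv a) :
        (Additive (KQ p N₀ qv) →+ 𝒪) → (Additive (KQ p N₀ qv) →+ 𝒪)) =
      fun x => conjAct (kappa p N₀ qv) (s (QuotientGroup.mk a : Delta p qv)⁻¹) x :=
    fun a => funext fun x => hdia a x
  have hconj : ∀ (γ : Gamma0 (bLevel N₀ qv)) (x : Additive (kerSub (kappa p N₀ qv)) →+ 𝒪),
      ∃ a : ∀ j : Fin r, (ZMod (qv j))ˣ,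
        conjAct (kappa p N₀ qv) γ x = diamondU (isMid_KQ p N₀ qv) (liftU N₀ qv a) x := by
    intro γ x
    obtain ⟨a', ha'⟩ := QuotientGroup.mk_surjective (kappa p N₀ qv γ)
    refine ⟨a'⁻¹, ?_⟩
    have h3 : kappa p N₀ qv γ = (QuotientGroup.mk (a'⁻¹) : Delta p qv)⁻¹ := by
      rw [← ha']
      exact (inv_inv (QuotientGroup.mk a' : Delta p qv)).symm
    rw [diamondU_liftU_eq_conjAct_h762 p N₀ qv hsurj a'⁻¹ γ h3 x]
  -- the basis
  obtain ⟨g, hg⟩ := exists_primitive_roots qv hprime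
  obtain ⟨d, b, hb⟩ := hfree g hg
  have hεbij : Function.Bijective (fun e => (epsIdx p qv g e)⁻¹) :=
    (Equiv.inv (Delta p qv)).bijective.comp (epsIdx_bijective p qv hprime g hg)
  have hb' : ∀ y ∈ V, ∃! c : Fin d → Delta p qv → 𝒪,
      y = ∑ i, ∑ g', c i g' •
        conjAct (kappa p N₀ qv) (s g') ((b i : V) : Additive (KQ p N₀ qv) →+ 𝒪) := by
    intro y hy
    have h1 := hb ⟨y, hy⟩
    simp only [hdiaF] at h1
    exact basis_transport_h762 (fun d' => conjLin_h762 (kappa p N₀ qv) 𝒪 (s d'))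
      (fun e => (epsIdx p qv g e)⁻¹) hεbij
      (fun i => ((b i : V) : Additive (KQ p N₀ qv) →+ 𝒪)) h1
  have hsurjW := fun (w : Additive (Gamma0 (bLevel N₀ qv)) →+ 𝒪) (hw : w ∈ W) =>
    cor_surj_gen_h762 (kappa p N₀ qv) hκ 𝒪 V W hres
      (fun i => ((b i : V) : Additive (KQ p N₀ qv) →+ 𝒪)) (fun i => (b i).2) s hs hb' hw
  have hkerV := fun (v : Additive (KQ p N₀ qv) →+ 𝒪) (hv : v ∈ V) =>
    cor_ker_gen_h762 (kappa p N₀ qv) 𝒪 V
      (fun i => ((b i : V) : Additive (KQ p N₀ qv) →+ 𝒪)) (fun i => (b i).2) s hs hb' hv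
  -- the map
  refine ⟨LinearMap.codRestrict W ((corLin_h762 (kappa p N₀ qv) 𝒪).comp V.subtype)
    (fun v => hcor v v.2), ?_, fun v => rfl, ?_⟩
  · rintro ⟨w, hw⟩
    obtain ⟨v, hv, hvw⟩ := hsurjW w hw
    exact ⟨⟨v, hv⟩, Subtype.ext hvw⟩
  · intro y
    have h0 : (LinearMap.codRestrict W ((corLin_h762 (kappa p N₀ qv) 𝒪).comp V.subtype)
        (fun v => hcor v v.2) y = 0) ↔
        cor (kappa p N₀ qv) (y : Additive (KQ p N₀ qv) →+ 𝒪) = 0 := by
      constructor
      · intro h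
        exact congrArg Subtype.val h
      · intro h
        exact Subtype.ext h
    rw [h0, hkerV y y.2]
    -- comparison of the two closures
    have hSXV : ∀ x ∈ {z : Additive (KQ p N₀ qv) →+ 𝒪 |
        ∃ (γ : Gamma0 (bLevel N₀ qv)) (y' : Additive (kerSub (kappa p N₀ qv)) →+ 𝒪),
          y' ∈ V ∧ z = conjAct (kappa p N₀ qv) γ y' - y'}, x ∈ V := by
      rintro x ⟨γ, y', hy', rfl⟩
      obtain ⟨a, ha⟩ := hconj γ y'
      have h5 := V.sub_mem (hVdia a y' hy') hy'
      rw [← ha] at h5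
      exact h5
    have h6 := closure_subtype_iff_h762 V _ hSXV y
    refine h6.trans ?_
    have hset : {z : V | (z : Additive (KQ p N₀ qv) →+ 𝒪) ∈
        {z : Additive (KQ p N₀ qv) →+ 𝒪 |
          ∃ (γ : Gamma0 (bLevel N₀ qv)) (y' : Additive (kerSub (kappa p N₀ qv)) →+ 𝒪),
            y' ∈ V ∧ z = conjAct (kappa p N₀ qv) γ y' - y'}} =
        {z : V | ∃ (a : ∀ j : Fin r, (ZMod (qv j))ˣ) (y' : V),
          (z : Additive (KQ p N₀ qv) →+ 𝒪) =
            diamondU (isMid_KQ p N₀ qv) (liftU N₀ qv a) (y' : Additive (KQ p N₀ qv) →+ 𝒪) -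
              (y' : Additive (KQ p N₀ qv) →+ 𝒪)} := by
      ext z
      constructor
      · rintro ⟨γ, y', hy', hz⟩
        obtain ⟨a, ha⟩ := hconj γ y'
        exact ⟨a, ⟨y', hy'⟩, hz.trans (congrArg (fun w => w - y') ha)⟩
      · rintro ⟨a, y', hz⟩
        exact ⟨s (QuotientGroup.mk a : Delta p qv)⁻¹, (y' : Additive (KQ p N₀ qv) →+ 𝒪), y'.2,
          hz.trans (congrArg (fun w => w - (y' : Additive (KQ p N₀ qv) →+ 𝒪))
            (hdia a (y' : Additive (KQ p N₀ qv) →+ 𝒪)))⟩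
    rw [hset]

end Main

section Spec

variable {p : ℕ} [hp : Fact p.Prime] (t : PType) (Smin : Finset ℕ)
  [hN₀ : NeZero (wilesLevel p t Smin Smin)] {r : ℕ} (qv : Fin r → ℕ)
  (hprime : ∀ j, (qv j).Prime) (hinj : Function.Injective qv)
  (𝒪 : Type) [CommRing 𝒪] [IsDomain 𝒪] [CharZero 𝒪]

include hp hN₀ hprime hinj in
/-- **COR** (piece (5) of leaf CTRL) in the vocabulary of `Aut/Spec.lean`: if `V ⊆ X_{K_Q}(𝒪)` is
diamond-stable and `FreeAt V`, and `cor V ⊆ W`, `res W ⊆ V`, then `cor : V → W` is onto with kernel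
the augmentation submodule (same shape as in `Aut.CtrlAt`). -/
theorem cor_ctrl_h762
    (V : Submodule 𝒪 (XQ p t Smin qv 𝒪))
    (W : Submodule 𝒪 (Additive (Gamma0 (bLevel (wilesLevel p t Smin Smin) qv)) →+ 𝒪))
    (hVdia : ∀ (a : ∀ j : Fin r, (ZMod (qv j))ˣ), ∀ x ∈ V, diaQ p t Smin qv 𝒪 a x ∈ V)
    (hfree : FreeAt V)
    (hcor : ∀ x ∈ V, coresK (isMid_KQ p (wilesLevel p t Smin Smin) qv).le x ∈ W)
    (hres : ∀ y ∈ W, resK (isMid_KQ p (wilesLevel p t Smin Smin) qv).le y ∈ V) :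
    ∃ c : V →ₗ[𝒪] W, Function.Surjective c ∧
      (∀ v : V, ((c v : W) : Additive (Gamma0 (bLevel (wilesLevel p t Smin Smin) qv)) →+ 𝒪) =
        coresK (isMid_KQ p (wilesLevel p t Smin Smin) qv).le (v : XQ p t Smin qv 𝒪)) ∧
      ∀ y : V, c y = 0 ↔ y ∈ AddSubgroup.closure
        {z : V | ∃ (a : ∀ j : Fin r, (ZMod (qv j))ˣ) (y' : V),
          (z : XQ p t Smin qv 𝒪) = diaQ p t Smin qv 𝒪 a y' - y'} :=
  cor_ctrl_N0_h762 (wilesLevel p t Smin Smin) qv hprime hinj 𝒪 V W hVdia hfree hcor hres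

end Spec

section Equivariance

variable {p : ℕ} (N₀ : ℕ) {r : ℕ} (qv : Fin r → ℕ) (𝒪 : Type) [CommRing 𝒪]

/-- Every map `c : V → W` induced by `cor` commutes with the `T_ℓ`, `ℓ ∤ M_Q` (the clause of
`Aut.CtrlAt`, at the level `M_Q`). -/
theorem cor_ctrl_tOp_h762
    (V : Submodule 𝒪 (Additive (KQ p N₀ qv) →+ 𝒪))
    (W : Submodule 𝒪 (Additive (Gamma0 (bLevel N₀ qv)) →+ 𝒪))
    (c : V → W)
    (hc : ∀ v : V, ((c v : W) : Additive (Gamma0 (bLevel N₀ qv)) →+ 𝒪) =
      coresK (isMid_KQ p N₀ qv).le (v : Additive (KQ p N₀ qv) →+ 𝒪))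
    (ℓ : ℕ) (hℓ : ℓ.Prime) (hℓM : ¬ ℓ ∣ bLevel N₀ qv) (v v' : V)
    (hv : (v' : Additive (KQ p N₀ qv) →+ 𝒪) =
      tOp (bLevel N₀ qv) (KQ p N₀ qv) 𝒪 ℓ hℓ (v : Additive (KQ p N₀ qv) →+ 𝒪)) :
    ((c v' : W) : Additive (Gamma0 (bLevel N₀ qv)) →+ 𝒪) =
      tOp (bLevel N₀ qv) (Gamma0 (bLevel N₀ qv)) 𝒪 ℓ hℓ
        ((c v : W) : Additive (Gamma0 (bLevel N₀ qv)) →+ 𝒪) := by
  have : Fact ℓ.Prime := ⟨hℓ⟩
  rw [hc v', hc v, hv]
  exact coresK_TK_h762 p N₀ qv hℓM (v : Additive (KQ p N₀ qv) →+ 𝒪)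

end Equivariance

section LocPart

variable {p : ℕ} [hp : Fact p.Prime] (t : PType) (Smin : Finset ℕ)
  [hN₀ : NeZero (wilesLevel p t Smin Smin)] {r : ℕ} (qv : Fin r → ℕ)
  (hprime : ∀ j, (qv j).Prime) (hinj : Function.Injective qv)
  (𝒪 : Type) [CommRing 𝒪] [IsDomain 𝒪] [CharZero 𝒪] [IsLocalRing 𝒪]

include hp hN₀ hprime hinj in
/-- **COR** for a localisation `V` (`IsLocPart`): the diamond-stability is automatic. -/
theorem cor_ctrl_locPart_h762 {Tset Uset : Set (ℕ × 𝒪)}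
    (V : Submodule 𝒪 (XQ p t Smin qv 𝒪))
    (hV : IsLocPart (isMid_KQ p (wilesLevel p t Smin Smin) qv) Tset Uset V)
    (W : Submodule 𝒪 (Additive (Gamma0 (bLevel (wilesLevel p t Smin Smin) qv)) →+ 𝒪))
    (hfree : FreeAt V)
    (hcor : ∀ x ∈ V, coresK (isMid_KQ p (wilesLevel p t Smin Smin) qv).le x ∈ W)
    (hres : ∀ y ∈ W, resK (isMid_KQ p (wilesLevel p t Smin Smin) qv).le y ∈ V) :
    ∃ c : V →ₗ[𝒪] W, Function.Surjective c ∧
      (∀ v : V, ((c v : W) : Additive (Gamma0 (bLevel (wilesLevel p t Smin Smin) qv)) →+ 𝒪) =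
        coresK (isMid_KQ p (wilesLevel p t Smin Smin) qv).le (v : XQ p t Smin qv 𝒪)) ∧
      ∀ y : V, c y = 0 ↔ y ∈ AddSubgroup.closure
        {z : V | ∃ (a : ∀ j : Fin r, (ZMod (qv j))ˣ) (y' : V),
          (z : XQ p t Smin qv 𝒪) = diaQ p t Smin qv 𝒪 a y' - y'} :=
  cor_ctrl_h762 t Smin qv hprime hinj 𝒪 V W
    (fun a _ hx => hV.diamondU_mem (liftU (wilesLevel p t Smin Smin) qv a) hx) hfree hcor hres

end LocPart

end Fermat.Agent.S59.TW.Aut.H762

end
-- ===== PACK-END S59/TW/Aut/H762/Cor.lean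

-- ===== PACK-BEGIN S59/TW/Aut/H762/PCorGen.lean
section





/-!
# S59 / cell TW, layer 3 (AUT), leaf CMP part (T), piece PCOR — generic form (helper762)

`χ : (ℤ/M)ˣ →* G`, `K = Γ_{ker χ}(M) = GammaH M χ.ker`, `ker χ ≤ H'`, `K' = GammaH M H'`
(every group between `K` and `Γ₀(M)` is of this form).  Vocabulary of helper653 (`resK`, `coresK`,
`diamondU`, `TK`, `UK`).

* `kappaSub_h762 χ H' : K' →* χ(H')`, `kerSub_kappaSub_h762 : kerSub (kappaSub χ H') = K`;
* `resK_coresK_h762`      : `res ∘ cor = ∑_{d ∈ χ(H')} ⟨d⟩` on `X_K(A)`;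
* `coresK_diamondU_h762`  : `cor ∘ ⟨u⟩ = cor` for `u ∈ H'`;
* `coresK_transfer_h762`, `coresK_TK_gen_h762`, `coresK_UK_gen_h762` : `cor : X_K → X_{K'}`
  commutes with the Hecke operators;
* `coresK_add_h762`, `coresKLin_h762` : `cor` is additive / `𝒪`-linear.
-/

set_option autoImplicit false

namespace Fermat.Agent.S59.TW.Aut.H762

open CongruenceSubgroup
open Fermat.Agent.S41.Spec Fermat.Agent.S41.H761
open Fermat.Agent.S59.TW.H653 Fermat.Agent.S59.MFree Fermat.Agent.S59.MFree.H587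
open scoped MatrixGroups

section Lin

variable {K K' : Subgroup SL(2, ℤ)} (h : K ≤ K')

theorem coresK_add_h762 {A : Type*} [AddCommGroup A] (x y : Additive K →+ A) :
    coresK h (x + y) = coresK h x + coresK h y :=
  Fermat.Agent.S41.H581.transferAlong_add _ x y

theorem smul_eq_comp'_h762 {𝒪 : Type*} [CommRing 𝒪] {G : Type*} [AddMonoid G] (a : 𝒪)
    (φ : G →+ 𝒪) : a • φ = (AddMonoidHom.mulLeft a).comp φ := by
  ext h
  rfl

/-- `cor : X_K(𝒪) → X_{K'}(𝒪)`, `𝒪`-linear. -/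
noncomputable def coresKLin_h762 (𝒪 : Type*) [CommRing 𝒪] :
    (Additive K →+ 𝒪) →ₗ[𝒪] (Additive K' →+ 𝒪) where
  toFun x := coresK h x
  map_add' x y := coresK_add_h762 h x y
  map_smul' a x := by
    rw [RingHom.id_apply, smul_eq_comp'_h762, smul_eq_comp'_h762]
    exact Fermat.Agent.S41.H581.transferAlong_comp _ (AddMonoidHom.mulLeft a) x

@[simp] theorem coresKLin_h762_apply (𝒪 : Type*) [CommRing 𝒪] (x : Additive K →+ 𝒪) :
    coresKLin_h762 h 𝒪 x = coresK h x := rfl

end Lin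

section Kappa

variable {M : ℕ} {G : Type} [Group G] (χ : (ZMod M)ˣ →* G) (H' : Subgroup (ZMod M)ˣ)

/-- `γ ↦ d(γ)`, `Γ_{H'}(M) → H'`. -/
def dSub_h762 : ↥(GammaH M H') →* ↥H' :=
  ((dUnit M).comp (Subgroup.inclusion (GammaH_le M H'))).codRestrict H' (fun γ => by
    obtain ⟨_, h2⟩ := mem_GammaH.mp γ.2
    exact h2)

@[simp] theorem coe_dSub_h762 (γ : ↥(GammaH M H')) :
    ((dSub_h762 H' γ : ↥H') : (ZMod M)ˣ) = dUnit M ⟨γ, GammaH_le M H' γ.2⟩ := rfl

/-- `κ' : Γ_{H'}(M) → χ(H')`. -/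
def kappaSub_h762 : ↥(GammaH M H') →* ↥(H'.map χ) := (χ.subgroupMap H').comp (dSub_h762 H')

@[simp] theorem coe_kappaSub_h762 (γ : ↥(GammaH M H')) :
    ((kappaSub_h762 χ H' γ : ↥(H'.map χ)) : G) = χ (dUnit M ⟨γ, GammaH_le M H' γ.2⟩) := rfl

theorem kappaSub_eq_one_iff_h762 (γ : ↥(GammaH M H')) :
    kappaSub_h762 χ H' γ = 1 ↔ dUnit M ⟨γ, GammaH_le M H' γ.2⟩ ∈ χ.ker := by
  rw [Subtype.ext_iff, coe_kappaSub_h762, MonoidHom.mem_ker]
  rfl

theorem kerSub_kappaSub_h762 (hH' : χ.ker ≤ H') :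
    kerSub (kappaSub_h762 χ H') = GammaH M χ.ker := by
  ext γ
  constructor
  · intro h
    obtain ⟨h1, h2⟩ := mem_kerSub.mp h
    exact mem_GammaH.mpr ⟨GammaH_le M H' h1, (kappaSub_eq_one_iff_h762 χ H' ⟨γ, h1⟩).mp h2⟩
  · intro h
    obtain ⟨h1, h2⟩ := mem_GammaH.mp h
    have h3 : γ ∈ GammaH M H' := mem_GammaH.mpr ⟨h1, hH' h2⟩
    exact mem_kerSub.mpr ⟨h3, (kappaSub_eq_one_iff_h762 χ H' ⟨γ, h3⟩).mpr h2⟩

/-- The element `σ_u⁻¹ ∈ Γ_{H'}(M)`, `u ∈ H'`. -/
noncomputable def sigmaInv_h762 [NeZero M] (u : (ZMod M)ˣ) (hu : u ∈ H') : ↥(GammaH M H') :=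
  ⟨((sigma M (u : ZMod M).val)⁻¹ : Gamma0 M), by
    apply mem_GammaH.mpr
    refine ⟨(sigma M (u : ZMod M).val)⁻¹.2, ?_⟩
    have : dUnit M (sigma M (u : ZMod M).val)⁻¹ = u⁻¹ := by
      rw [map_inv, dUnit_sigma_val]
    show dUnit M (sigma M (u : ZMod M).val)⁻¹ ∈ H'
    rw [this]
    exact H'.inv_mem hu⟩

theorem kappaSub_sigmaInv_h762 [NeZero M] (u : (ZMod M)ˣ) (hu : u ∈ H') :
    ((kappaSub_h762 χ H' (sigmaInv_h762 H' u hu) : ↥(H'.map χ)) : G) = (χ u)⁻¹ := by
  rw [coe_kappaSub_h762]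
  have : dUnit M ⟨(sigmaInv_h762 H' u hu : SL(2, ℤ)), GammaH_le M H' (sigmaInv_h762 H' u hu).2⟩ =
      u⁻¹ := by
    show dUnit M (sigma M (u : ZMod M).val)⁻¹ = u⁻¹
    rw [map_inv, dUnit_sigma_val]
  rw [this, map_inv]

theorem kappaSub_surjective_h762 [NeZero M] : Function.Surjective (kappaSub_h762 χ H') := by
  rintro ⟨d, u, hu, rfl⟩
  refine ⟨(sigmaInv_h762 H' u hu)⁻¹, ?_⟩
  apply Subtype.ext
  rw [map_inv, Subgroup.coe_inv, kappaSub_sigmaInv_h762, inv_inv]

end Kappa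

section Facts

variable {M : ℕ} [NeZero M] {G : Type} [Group G] (χ : (ZMod M)ˣ →* G)
  (H' : Subgroup (ZMod M)ˣ) {A : Type} [AddCommGroup A]

/-- The diamond operator `⟨u⟩`, `u ∈ H'`, on `X_K(A)`, `K = kerSub κ'`, in the vocabulary of
block M-FREE. -/
theorem diamondU_eq_conjAct_h762 (hK : IsMid M (kerSub (kappaSub_h762 χ H')))
    (u : (ZMod M)ˣ) (hu : u ∈ H') (x : Additive (kerSub (kappaSub_h762 χ H')) →+ A) :
    diamondU hK u x = conjAct (kappaSub_h762 χ H') (sigmaInv_h762 H' u hu) x := by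
  refine AddMonoidHom.ext fun k' => ?_
  obtain ⟨k, rfl⟩ : ∃ k : kerSub (kappaSub_h762 χ H'), Additive.ofMul k = k' :=
    ⟨Additive.toMul k', rfl⟩
  unfold diamondU
  rw [conjAct_apply, diamond_apply]
  congr 2
  apply Subtype.ext
  simp [sigmaInv_h762]

variable [Fintype ↥(H'.map χ)]

/-- **(N1) for `K ≤ K'`**: `res ∘ cor = ∑_{d ∈ χ(H')} ⟨d⟩`. -/
theorem resK_coresK_h762 (K : Subgroup SL(2, ℤ)) (hKeq : K = kerSub (kappaSub_h762 χ H'))
    (hle : K ≤ GammaH M H') (hK : IsMid M K)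
    (lift : ↥(H'.map χ) → (ZMod M)ˣ) (hlift : ∀ d, lift d ∈ H' ∧ χ (lift d) = d)
    (x : Additive K →+ A) :
    resK hle (coresK hle x) = ∑ d : ↥(H'.map χ), diamondU hK (lift d) x := by
  subst hKeq
  let s : ↥(H'.map χ) → ↥(GammaH M H') := Function.surjInv (kappaSub_surjective_h762 χ H')
  have hs : ∀ d, kappaSub_h762 χ H' (s d) = d :=
    Function.surjInv_eq (kappaSub_surjective_h762 χ H')
  have h1 := H57.resCor.{0} (GammaH M H') (↥(H'.map χ)) (kappaSub_h762 χ H') s hs A x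
  have h2 : resK hle (coresK hle x) = res (kappaSub_h762 χ H') (cor (kappaSub_h762 χ H') x) := rfl
  rw [h2, h1, ← Equiv.sum_comp (Equiv.inv ↥(H'.map χ))]
  refine Finset.sum_congr rfl fun d _ => ?_
  rw [diamondU_eq_conjAct_h762 χ H' hK (lift d) (hlift d).1 x]
  apply H57.conjAct_congr57
  apply Subtype.ext
  rw [kappaSub_sigmaInv_h762, (hlift d).2, hs]
  rfl

omit [Fintype ↥(H'.map χ)] in
/-- **(N3) for `K ≤ K'`**: `cor ∘ ⟨u⟩ = cor`, `u ∈ H'`. -/
theorem coresK_diamondU_h762 [Finite G] (K : Subgroup SL(2, ℤ))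
    (hKeq : K = kerSub (kappaSub_h762 χ H'))
    (hle : K ≤ GammaH M H') (hK : IsMid M K) (u : (ZMod M)ˣ) (hu : u ∈ H')
    (x : Additive K →+ A) :
    coresK hle (diamondU hK u x) = coresK hle x := by
  subst hKeq
  rw [diamondU_eq_conjAct_h762 χ H' hK u hu x]
  exact H57.corConj.{0} (GammaH M H') (↥(H'.map χ)) (kappaSub_h762 χ H') _ A x

end Facts

section Hecke

variable {M : ℕ} [NeZero M] {G : Type} [Group G] [Finite G] (χ : (ZMod M)ˣ →* G)
  (H' : Subgroup (ZMod M)ˣ) (hH' : χ.ker ≤ H') {A : Type} [AddCommGroup A]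
  {I : Type*} [Fintype I] {ρ : I → GL (Fin 2) ℝ}

include hH' in
/-- **`cor : X_K → X_{K'}` commutes with the transfer of every normalised coset system.** -/
theorem coresK_transfer_h762 (h₀ : IsCosetSystem (ιN M) (ιN M) ρ)
    (hρ : ∀ i, IsNormRep M (ρ i)) (x : Additive (GammaH M χ.ker) →+ A) :
    coresK (GammaH_mono hH') ((system_of_gamma0 (isMid_GammaH M χ.ker) h₀ hρ).transfer x) =
      (system_of_gamma0 (isMid_GammaH M H') h₀ hρ).transfer (coresK (GammaH_mono hH') x) := by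
  set f : ↥(GammaH M χ.ker) →* ↥(GammaH M H') := Subgroup.inclusion (GammaH_mono hH') with hf
  have hfinj : Function.Injective f := Subgroup.inclusion_injective _
  have hr : ∀ g : ↥(GammaH M H'), g ∈ f.range ↔ kappaSub_h762 χ H' g = 1 := by
    intro g
    rw [kappaSub_eq_one_iff_h762]
    constructor
    · rintro ⟨k, rfl⟩
      obtain ⟨_, h2⟩ := mem_GammaH.mp k.2
      exact h2
    · intro h
      exact ⟨⟨g, mem_GammaH.mpr ⟨GammaH_le M H' g.2, h⟩⟩, rfl⟩
  have hpres : PreservesKappa (system_of_gamma0 (isMid_GammaH M H') h₀ hρ)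
      (kappaSub_h762 χ H') := by
    intro i g
    apply Subtype.ext
    rw [coe_kappaSub_h762, coe_kappaSub_h762]
    congr 1
    have h1 := system_of_gamma0_coc (isMid_GammaH M H') h₀ hρ i g
    have h2 := dUnit_coc h₀ hρ i (inclK (isMid_GammaH M H') g)
    rw [← h1] at h2
    exact h2
  have hfin : f.range.FiniteIndex := by
    have hker : f.range = (kappaSub_h762 χ H').ker := by
      ext g
      rw [hr, MonoidHom.mem_ker]
    rw [hker]
    have : Finite ↥(H'.map χ) := inferInstance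
    exact inferInstance
  have key := transferAlong_restrict (system_of_gamma0 (isMid_GammaH M H') h₀ hρ) hpres f hfinj
    hr x
  rw [← transfer_congr (restrictSystem (system_of_gamma0 (isMid_GammaH M H') h₀ hρ) hpres f
    hfinj hr) (system_of_gamma0 (isMid_GammaH M χ.ker) h₀ hρ)
    (fun _ => rfl) (fun _ => rfl) (fun _ => rfl) x]
  exact key

include hH' in
/-- `cor : X_K → X_{K'}` commutes with `T_ℓ`, `ℓ ∤ M`. -/
theorem coresK_TK_gen_h762 {ℓ : ℕ} [Fact ℓ.Prime] (hℓ : ¬ ℓ ∣ M)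
    (x : Additive (GammaH M χ.ker) →+ A) :
    coresK (GammaH_mono hH') (TK M (GammaH M χ.ker) ℓ x) =
      TK M (GammaH M H') ℓ (coresK (GammaH_mono hH') x) := by
  rw [TK_eq (isMid_GammaH M χ.ker) hℓ, TK_eq (isMid_GammaH M H') hℓ]
  exact coresK_transfer_h762 χ H' hH' (repsT_system0 hℓ) (isNormRep_repsT hℓ) x

include hH' in
/-- `cor : X_K → X_{K'}` commutes with `U_q`, `q ∣ M`. -/
theorem coresK_UK_gen_h762 {q : ℕ} [Fact q.Prime] (hq : q ∣ M)
    (x : Additive (GammaH M χ.ker) →+ A) :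
    coresK (GammaH_mono hH') (UK (GammaH M χ.ker) q x) =
      UK (GammaH M H') q (coresK (GammaH_mono hH') x) := by
  rw [UK_eq (isMid_GammaH M χ.ker) hq, UK_eq (isMid_GammaH M H') hq]
  exact coresK_transfer_h762 χ H' hH' (repsU_system0 hq) (isNormRep_repsU q) x

end Hecke

end Fermat.Agent.S59.TW.Aut.H762

end
-- ===== PACK-END S59/TW/Aut/H762/PCorGen.lean

-- ===== PACK-BEGIN S59/TW/H658/EmbH.lean
section



/-!
# S59 / TW-ES + TW-TWIST (helper658): the concrete transfer hypothesis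

`embHyp_of_odd` : let `Γ₁(M) ≤ K ≤ Γ₀(M)`, `Qs` a list of distinct primes `q ∥ M` such that `K`
contains `Γ₀(M) ∩ Γ₁(∏ Qs)` and `γ^(2m+1) ∈ K` for all `γ ∈ Γ₀(M)` (Taylor–Wiles: `K = K_Q`,
`2m + 1 = p^a`), and `M · ∏ Qs ∣ N'`.  Then `EmbHyp K N' (fun ℓ => uCls M ℓ ^ m)` holds
(by helper564's `H564.exists_twistEmbeddingK`), hence the Hecke algebra of `Γ₀(N')` acts on
`Hom_par(K, ℤ)` through `T_ℓ ↦ ⟨ℓ⟩^m ∘ T_ℓ` (`exists_heckeAction_int_of_odd`).
-/

set_option autoImplicit false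
set_option linter.unusedSectionVars false
set_option linter.style.haveILetI false

noncomputable section

namespace Fermat.Agent.S59.TW.H658

open CongruenceSubgroup ModularForm ModularCurve ModularCurve.Period
open UpperHalfPlane hiding I
open Matrix.SpecialLinearGroup Fermat.Agent.Lib.Newform.H803
open Fermat.Agent.S59.TW.H653
open scoped Manifold MatrixGroups ModularForm

/-- The class of `ℓ` in `(ℤ/M)ˣ` (`1` if `ℓ` is not prime to `M`). -/
def uCls (M ℓ : ℕ) : (ZMod M)ˣ :=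
  open scoped Classical in if h : Nat.Coprime ℓ M then ZMod.unitOfCoprime ℓ h else 1

theorem coe_uCls {M ℓ : ℕ} (h : Nat.Coprime ℓ M) : ((uCls M ℓ : (ZMod M)ˣ) : ZMod M) = ℓ := by
  unfold uCls
  rw [dif_pos h]
  rfl

variable {M : ℕ} [NeZero M] {K : Subgroup SL(2, ℤ)} [K.FiniteIndex]

/-- The nebentypus-`χ` functions as elements of helper564's `nebK`. -/
def toNebK (hK : IsMid M K) (χ : DirichletCharacter ℂ M) (hχ : TrivOn K χ) :
    nebSub M χ →ₗ[ℂ] H564.nebK 2 K χ :=
  LinearMap.codRestrict (H564.nebK 2 K χ) (nebForm hK χ hχ) (fun F => F.2.2)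

@[simp] theorem coe_toNebK (hK : IsMid M K) (χ : DirichletCharacter ℂ M) (hχ : TrivOn K χ)
    (F : nebSub M χ) : (⇑(toNebK hK χ hχ F).1 : ℍ → ℂ) = (F : ℍ → ℂ) := rfl

theorem toNebK_injective (hK : IsMid M K) (χ : DirichletCharacter ℂ M) (hχ : TrivOn K χ) :
    Function.Injective (toNebK hK χ hχ) := fun F G h => by
  apply Subtype.ext
  rw [← coe_toNebK hK χ hχ F, h, coe_toNebK]

/-- **The concrete transfer hypothesis** (Taylor–Wiles shape). -/
theorem embHyp_of_odd (hK : IsMid M K) (Qs : List ℕ) (hnd : Qs.Nodup)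
    (hQs : ∀ q ∈ Qs, q.Prime ∧ ∃ M' : ℕ, M = M' * q ∧ Nat.Coprime M' q)
    (hK1 : ∀ γ ∈ Gamma0 M, ((Qs.prod : ℕ) : ℤ) ∣ γ 1 1 - 1 → γ ∈ K)
    (m : ℕ) (hK2 : ∀ γ ∈ Gamma0 M, γ ^ (2 * m + 1) ∈ K)
    {N' : ℕ} (hN' : M * Qs.prod ∣ N') :
    EmbHyp K N' (fun ℓ => uCls M ℓ ^ m) where
  dvd := (Dvd.intro _ rfl).trans hN'
  neg := by
    have h1 : (-1 : SL(2, ℤ)) ∈ Gamma0 M := by
      rw [Gamma0_mem]
      simp
    have h2 := hK2 _ h1
    rwa [Odd.neg_one_pow ⟨m, rfl⟩] at h2
  emb := fun χ hχ => by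
    have hQM : ((Qs.prod : ℕ) : ℤ) ∣ (M : ℤ) :=
      H564.list_prod_dvd_of_primes Qs hnd (fun q hq => (hQs q hq).1) _ (fun q hq => by
        obtain ⟨-, M', hM, -⟩ := hQs q hq
        exact Int.natCast_dvd_natCast.mpr ⟨M', by rw [hM, mul_comm]⟩)
    -- `χ` is trivial on the units `≡ 1 mod ∏ Qs`
    have hε : ∀ d : ℤ, ((Qs.prod : ℕ) : ℤ) ∣ d - 1 → IsUnit ((d : ℤ) : ZMod M) →
        χ ((d : ℤ) : ZMod M) = 1 := by
      intro d hd hu
      obtain ⟨v, hv⟩ := hu
      obtain ⟨g, hg⟩ := dUnit_surjective (M := M) v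
      have h1 : ((((g : SL(2, ℤ)) 1 1 : ℤ)) : ZMod M) = ((d : ℤ) : ZMod M) := by
        rw [← coe_dUnit, hg, hv]
      have h2 : (M : ℤ) ∣ (g : SL(2, ℤ)) 1 1 - d := by
        rw [← ZMod.intCast_zmod_eq_zero_iff_dvd]
        push_cast
        rw [h1, sub_self]
      have h3 : ((Qs.prod : ℕ) : ℤ) ∣ (g : SL(2, ℤ)) 1 1 - 1 := by
        have := dvd_add (hQM.trans h2) hd
        rwa [sub_add_sub_cancel] at this
      have h4 := hχ g (hK1 _ g.2 h3)
      rw [hg, hv] at h4
      exact h4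
    -- `χ ^ (2 m + 1) = 1`
    have hm : χ ^ (2 * m + 1) = 1 := by
      ext v
      rw [MulChar.pow_apply_coe, MulChar.one_apply_coe, ← map_pow, ← Units.val_pow_eq_pow_val]
      obtain ⟨g, rfl⟩ := dUnit_surjective (M := M) v
      rw [← map_pow]
      exact hχ (g ^ (2 * m + 1)) (hK2 _ g.2)
    obtain ⟨J, hJi, hJ⟩ := H564.exists_twistEmbeddingK 2 hK.ge Qs hnd hQs χ hε m hm N' hN'
    refine ⟨(J.comp (toNebK hK χ hχ)).toAddMonoidHom,
      hJi.comp (toNebK_injective hK χ hχ), ?_⟩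
    intro ℓ _ hℓ hℓN F
    have hcop : Nat.Coprime ℓ M := (Nat.Prime.coprime_iff_not_dvd Fact.out).mpr hℓ
    refine hJ ℓ hℓ hℓN (toNebK hK χ hχ F) (toNebK hK χ hχ _) ?_
    rw [coe_toNebK, coe_toNebK, coe_nebT, famOp_repsT_eq χ hcop F.2.2, Units.val_pow_eq_pow_val,
      map_pow, coe_uCls hcop, chiZ_apply, Int.cast_natCast]

/-- **E5, Taylor–Wiles shape, integral form.**  The Hecke algebra of `Γ₀(N')` acts on
`Hom_par(K, ℤ)` through `T_ℓ ↦ ⟨ℓ⟩^m ∘ T_ℓ`. -/
theorem exists_heckeAction_int_of_odd (hK : IsMid M K) (Qs : List ℕ) (hnd : Qs.Nodup)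
    (hQs : ∀ q ∈ Qs, q.Prime ∧ ∃ M' : ℕ, M = M' * q ∧ Nat.Coprime M' q)
    (hK1 : ∀ γ ∈ Gamma0 M, ((Qs.prod : ℕ) : ℤ) ∣ γ 1 1 - 1 → γ ∈ K)
    (m : ℕ) (hK2 : ∀ γ ∈ Gamma0 M, γ ^ (2 * m + 1) ∈ K)
    {N' : ℕ} [NeZero N'] (hN' : M * Qs.prod ∣ N') (S : Set ℕ)
    (hS : ∀ q : ℕ, q.Prime → q ∣ N' → q ∈ S) :
    ∃ Φ : CuspForm.heckeAlgebra N' 2 S →+* Module.End ℤ (parabolicHoms ℤ K ℤ),
      ∀ (ℓ : ℕ) [Fact ℓ.Prime] (hℓN : ¬ ℓ ∣ N') (hℓS : ℓ ∉ S) (φ : parabolicHoms ℤ K ℤ),
        ((Φ (CuspForm.heckeAlgebra.T (Fact.out : ℓ.Prime) hℓN hℓS) φ : parabolicHoms ℤ K ℤ) :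
          Additive K →+ ℤ) = diamondU hK (uCls M ℓ ^ m) (TK M K ℓ (φ : Additive K →+ ℤ)) :=
  exists_heckeAction_int hK (embHyp_of_odd hK Qs hnd hQs hK1 m hK2 hN') S hS

end Fermat.Agent.S59.TW.H658

end
end
-- ===== PACK-END S59/TW/H658/EmbH.lean

-- ===== PACK-BEGIN A3/H255/Det.lean
section





/-!
# A3 / LOCAL, leaf DET (helper255): integral functions in `L((s+1)E)` with unit jet determinant

`detStatement : DetStatement K F k Fk` (frozen leaf of `A3/H799/LocalSpec2.lean`).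

Proof.  `Ē = Σ Q_i` attains Riemann's bound (`ℓ(Ē) = 1 = deg Ē + 1 - g`), hence
`𝔸 = 𝔸(Ē) + Fk` and principal parts modulo `𝔸(Ē)` can be prescribed: for every
`c = (i₀, m)` there is `ψ_c ∈ L_k((s+1)Ē)` with `ψ_c ≡ t̄_{i₀}^{m-s-1}` at `Q_{i₀}` and
`ψ_c ≡ 0` at the other `Q_i` (modulo functions of order `≥ -1`).  Lift `ψ_c` to an integral
`φ_c ∈ L((s+1)E)` (integral Riemann–Roch, `GoodRed.exists_lift`), interpolate
`t_i^{s+1} φ_c = P(t_i) + t_i^s H` in the disc algebra; the reduction of `P` is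
`δ · X^m` modulo `X^s`, so the jet matrix reduces to the identity and has unit determinant.

All proofs complete.
-/

set_option autoImplicit false
set_option linter.style.haveILetI false
set_option linter.unusedSectionVars false

noncomputable section

open AlgebraicCurve

namespace Fermat.Agent.A3.H255.Det

open Fermat.Agent.Lib.RR Fermat.Agent.A3.H799

/-! ### Prescribing principal parts -/

section Approx

variable {K F : Type*} [Field K] [Field F] [Algebra K F] [FF1 K F]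

open Classical in
/-- Strong approximation from `𝔸 = 𝔸(D) + F`. -/
theorem exists_approx_of_sup {D : Divisor K F}
    (hsup : repartitionsOf D ⊔ principalRepartitions K F = ⊤) (S : Finset (Place K F))
    (φ : Place K F → F) :
    ∃ f : F, (∀ v ∈ S, H623.Big v (-D v) (f - φ v)) ∧ ∀ v ∉ S, H623.Big v (-D v) f := by
  let α₀ : Place K F → F := fun v => if v ∈ S then φ v else 0
  have hα₀ : α₀ ∈ repartitions K F := by
    apply mem_repartitions_of_finite_ord
    refine (Finset.finite_toSet S).subset fun v hv => ?_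
    by_contra hvS
    have hv' : v.ord (α₀ v) < 0 := hv
    have : α₀ v = 0 := if_neg hvS
    rw [this, v.ord_zero] at hv'
    exact lt_irrefl _ hv'
  let α : ↥(repartitions K F) := ⟨α₀, hα₀⟩
  have hmem : α ∈ repartitionsOf D ⊔ principalRepartitions K F := by
    rw [hsup]; trivial
  obtain ⟨β, hβ, γ, hγ, hsum⟩ := Submodule.mem_sup.mp hmem
  obtain ⟨f, hf⟩ := mem_principalRepartitions_iff.mp hγ
  rw [mem_repartitionsOf_iff] at hβ
  have hval : ∀ v, (β : Place K F → F) v = α₀ v - f := by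
    intro v
    have h1 := congrArg (fun x : ↥(repartitions K F) => (x : Place K F → F) v) hsum
    simp only [H439.coe_add_apply] at h1
    have h2 : (γ : Place K F → F) v = f := by rw [hf]
    rw [h2] at h1
    have h3 : (α : Place K F → F) v = α₀ v := rfl
    rw [h3] at h1
    rw [← h1]; ring
  refine ⟨f, fun v hv => ?_, fun v hv => ?_⟩
  · have h := hβ v
    rw [hval v] at h
    have hα : α₀ v = φ v := if_pos hv
    rw [hα] at h
    have h' : H623.Big v (-D v) (φ v - f) := h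
    have := h'.neg
    rwa [neg_sub] at this
  · have h := hβ v
    rw [hval v] at h
    have hα : α₀ v = 0 := if_neg hv
    rw [hα, zero_sub] at h
    have h' : H623.Big v (-D v) (-f) := h
    have := h'.neg
    rwa [neg_neg] at this

/-- Principal parts modulo `𝔸(Ē)` at `g` distinct points with `ℓ(Σ Q_i) = 1`. -/
theorem exists_jet {ι : Type*} [Fintype ι] (Qs : ι → Place K F) (hQs : Function.Injective Qs)
    (hcard : Fintype.card ι = genusFF K F)
    (hell : ell (∑ i, Finsupp.single (Qs i) (1 : ℤ)) = 1) (τ : ι → F) :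
    ∃ f : F, (∀ i, H623.Big (Qs i) (-1) (f - τ i)) ∧
      ∀ v : Place K F, (∀ i, Qs i ≠ v) → H623.Big v 0 f := by
  classical
  have hatt : (ell (∑ i, Finsupp.single (Qs i) (1 : ℤ)) : ℤ) =
      Divisor.degree (∑ i, Finsupp.single (Qs i) (1 : ℤ)) + 1 - (genusFF K F : ℤ) := by
    rw [hell, Fermat.Agent.A3.H255.degree_sum_single, hcard]
    simp
  have hsup := H439.sup_eq_top_of_attains (genusFF K F : ℤ)
    (fun D' => riemann_inequality_genusFF D') _ hatt
  let φ : Place K F → F := fun v => if h : ∃ i, Qs i = v then τ h.choose else 0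
  have hφ : ∀ i, φ (Qs i) = τ i := by
    intro i
    have hex : ∃ j, Qs j = Qs i := ⟨i, rfl⟩
    have : φ (Qs i) = τ hex.choose := dif_pos hex
    rw [this, hQs hex.choose_spec]
  obtain ⟨f, h1, h2⟩ := exists_approx_of_sup hsup (Finset.univ.image Qs) φ
  refine ⟨f, fun i => ?_, fun v hv => ?_⟩
  · have := h1 (Qs i) (Finset.mem_image_of_mem Qs (Finset.mem_univ i))
    rwa [hφ i, Fermat.Agent.A3.H255.sum_single_apply_of_injective hQs i] at this
  · have hvS : v ∉ Finset.univ.image Qs := by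
      intro hmem
      obtain ⟨i, -, hi⟩ := Finset.mem_image.mp hmem
      exact hv i hi
    have := h2 v hvS
    rwa [Fermat.Agent.A3.H255.sum_single_apply_of_forall_ne hv, neg_zero] at this

end Approx

variable {K F k Fk : Type*} [Field K] [Field F] [Algebra K F] [Field k] [Field Fk] [Algebra k Fk]

/-! ### Disc algebra lemmas -/

section Disc

variable {𝓡 : GoodRed K F k Fk} {Q : Place k Fk} (d : DiscData 𝓡 Q)

theorem nodal_replicate_zero (s : ℕ) :
    DiscAlg.nodal (List.replicate s (0 : IsLocalRing.maximalIdeal 𝓡.V)) =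
      (Polynomial.X : Polynomial 𝓡.V) ^ s := by
  induction s with
  | zero => simp
  | succ n ih =>
    rw [List.replicate_succ, DiscAlg.nodal_cons, ih, pow_succ]
    simp
    ring

/-- Interpolation at the centre: `f = P(t) + t^s H`. -/
theorem exists_interp_center (s : ℕ) (f : d.ring) :
    ∃ (P : Polynomial 𝓡.V) (H : d.ring), f = Polynomial.aeval d.D.t P + d.D.t ^ s * H := by
  obtain ⟨P, H, h⟩ := d.D.exists_interp (List.replicate s 0) f
  refine ⟨P, H, ?_⟩
  rw [h, _root_.Fermat.Agent.A3.H255.Det.nodal_replicate_zero]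
  simp

theorem redHom_comp_algebraMap :
    d.redHom.comp (algebraMap 𝓡.V d.ring) = (algebraMap k Fk).comp 𝓡.res := by
  ext a
  exact d.redHom_algebraMap a

theorem redHom_aeval (P : Polynomial 𝓡.V) :
    d.redHom (Polynomial.aeval d.D.t P) =
      Polynomial.aeval (d.redHom d.D.t) (P.map 𝓡.res) := by
  rw [Polynomial.aeval_def, Polynomial.hom_eval₂, redHom_comp_algebraMap, Polynomial.aeval_def,
    Polynomial.eval₂_map]

/-- The reduction of a function of the disc ring is regular at `Q`. -/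
theorem big_redHom (h : d.ring) : H623.Big Q 0 (d.redHom h) := by
  haveI := 𝓡.ff1k
  have h1 := d.red_ev 0 h
  have hc : H623.Big Q 0 (algebraMap k Fk (𝓡.res (d.D.ev 0 h))) := by
    rcases eq_or_ne (algebraMap k Fk (𝓡.res (d.D.ev 0 h))) 0 with h0 | h0
    · exact Or.inl h0
    · right
      have hne : 𝓡.res (d.D.ev 0 h) ≠ 0 := fun hz => h0 (by rw [hz, map_zero])
      rw [ord_algebraMap]
  have hd : H623.Big Q 0 (d.redHom h - algebraMap k Fk (𝓡.res (d.D.ev 0 h))) := by
    rcases h1 with h1 | h1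
    · left
      rw [DiscData.redHom_apply, h1, sub_self]
    · right
      rw [DiscData.redHom_apply]
      omega
  have := hd.add hc
  rwa [sub_add_cancel] at this

/-- A polynomial in a uniformiser vanishing to order `≥ s` has no coefficients below `s`. -/
theorem coeff_eq_zero_of_big {K' F' : Type*} [Field K'] [Field F'] [Algebra K' F'] [FF1 K' F']
    (v : Place K' F') {x : F'} (hx : v.ord x = 1) (q : Polynomial K') (s : ℕ)
    (h : H623.Big v s (Polynomial.aeval x q)) (n : ℕ) (hn : n < s) : q.coeff n = 0 := by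
  rcases eq_or_ne q 0 with rfl | hq
  · simp
  obtain ⟨h1, h2⟩ := aeval_ord v (by rw [hx]; exact zero_lt_one) hq
  have h3 := h.le_ord h1
  rw [h2, hx, mul_one] at h3
  have h4 : s ≤ q.rootMultiplicity 0 := by exact_mod_cast h3
  have h5 : (Polynomial.X - Polynomial.C (0 : K')) ^ s ∣ q :=
    (Polynomial.le_rootMultiplicity_iff hq).mp h4
  rw [Polynomial.C_0, sub_zero] at h5
  exact Polynomial.X_pow_dvd_iff.mp h5 n hn

/-- `res x = 1` implies `x` is a unit of `V`. -/
theorem isUnit_of_res_eq_one (x : 𝓡.V) (hx : 𝓡.res x = 1) : IsUnit x := by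
  rw [← IsLocalRing.notMem_maximalIdeal]
  intro hmem
  have h1 : ((x : 𝓡.V) : K) ∈ 𝓡.V.nonunits :=
    ValuationSubring.coe_mem_nonunits_iff.mpr hmem
  rw [← 𝓡.res_eq_zero, hx] at h1
  exact one_ne_zero h1

end Disc

/-- **DET**: the frozen leaf `DetStatement` of `A3/H799/LocalSpec2.lean`. -/
theorem detStatement : DetStatement K F k Fk := by
  classical
  intro 𝓡 Qs hQs hell d s hs
  haveI := 𝓡.ff1
  haveI := 𝓡.ff1k
  -- uniformisers on the special fibre
  have htb : ∀ i, (Qs i).ord ((d i).redHom (d i).D.t) = 1 := fun i => (d i).ord_redHom_t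
  have htb0 : ∀ i, (d i).redHom (d i).D.t ≠ 0 := fun i => (d i).redHom_t_ne_zero
  -- targets
  let τ : (Σ _ : Fin (genusFF k Fk), Fin s) → Fin (genusFF k Fk) → Fk := fun c i =>
    if i = c.1 then (d i).redHom (d i).D.t ^ (((c.2 : ℕ) : ℤ) - ((s : ℤ) + 1)) else 0
  have hτbig : ∀ c i, H623.Big (Qs i) (-((s : ℤ) + 1)) (τ c i) := by
    intro c i
    by_cases hi : i = c.1
    · right
      simp only [τ, if_pos hi]
      rw [Place.ord_zpow, htb i, mul_one]
      have : (0 : ℤ) ≤ ((c.2 : ℕ) : ℤ) := Int.natCast_nonneg _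
      omega
    · left
      simp only [τ, if_neg hi]
  -- step 1: functions on the special fibre
  have h1 : ∀ c, ∃ ψ : Fk, (∀ i, H623.Big (Qs i) (-1) (ψ - τ c i)) ∧
      ∀ v : Place k Fk, (∀ i, Qs i ≠ v) → H623.Big v 0 ψ :=
    fun c => exists_jet Qs hQs (by simp) hell (τ c)
  choose ψ hψ1 hψ2 using h1
  have hrE : Finsupp.mapDomain 𝓡.r (((s : ℤ) + 1) • polyDiv d 0) =
      ((s : ℤ) + 1) • ∑ i, Finsupp.single (Qs i) (1 : ℤ) := by
    rw [Finsupp.mapDomain_smul, Fermat.Agent.A3.H255.mapDomain_polyDiv]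
  have hψL : ∀ c, ψ c ∈ riemannRochSpace (Finsupp.mapDomain 𝓡.r (((s : ℤ) + 1) • polyDiv d 0)) := by
    intro c
    rw [hrE, mem_L_iff]
    intro v
    by_cases hv : ∃ i, Qs i = v
    · obtain ⟨i, rfl⟩ := hv
      have hb : H623.Big (Qs i) (-((s : ℤ) + 1)) (ψ c) := by
        have h := ((hψ1 c i).mono (s := -((s : ℤ) + 1)) (by omega)).add (hτbig c i)
        rwa [sub_add_cancel] at h
      rw [Finsupp.smul_apply, Fermat.Agent.A3.H255.sum_single_apply_of_injective hQs i,
        smul_eq_mul, mul_one]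
      exact hb
    · push Not at hv
      have hb := hψ2 c v hv
      rw [Finsupp.smul_apply, Fermat.Agent.A3.H255.sum_single_apply_of_forall_ne hv, smul_zero,
        neg_zero]
      exact hb
  -- step 2: integral lifts
  have hdeg : 2 * (genusFF k Fk : ℤ) - 2 < Divisor.degree (((s : ℤ) + 1) • polyDiv d 0) := by
    rw [map_zsmul, Fermat.Agent.A3.H255.degree_polyDiv, smul_eq_mul, Fintype.card_fin]
    have h1 : (1 : ℤ) ≤ (s : ℤ) := by exact_mod_cast hs
    have h2 : (0 : ℤ) ≤ (genusFF k Fk : ℤ) := Int.natCast_nonneg _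
    nlinarith
  have h2 : ∀ c, ∃ (f : F) (hf : f ∈ 𝓡.O),
      f ∈ riemannRochSpace (((s : ℤ) + 1) • polyDiv d 0) ∧ 𝓡.red ⟨f, hf⟩ = ψ c :=
    fun c => 𝓡.exists_lift _ hdeg (hψL c)
  choose φF hφO hφL hφred using h2
  -- step 3: `t_i^{s+1} φ_c` lies in the disc ring
  have hmem : ∀ c i, (((d i).D.t : (d i).ring) : F) ^ (s + 1) * φF c ∈ (d i).ring := by
    intro c i
    refine (d i).mem_ring _ (mul_mem (pow_mem ((d i).ring_le _ (d i).D.t.2) _) (hφO c)) ?_
    intro P hP
    obtain ⟨a, rfl⟩ := (d i).pt_surj P hP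
    rcases eq_or_ne (φF c) 0 with h0 | h0
    · rw [h0, mul_zero]
      exact zero_mem _
    · apply mem_of_ord_nonneg
      have ht0 : (((d i).D.t : (d i).ring) : F) ≠ 0 := by
        have := (d i).tSub_ne_zero 0
        rw [DiscData.coe_tSub] at this
        simpa [DiscData.tF] using this
      rw [((d i).pt a).ord_mul (pow_ne_zero _ ht0) h0, ord_pow, Geo.ord_pt_t (d i) a]
      have h3 := (mem_L_iff.mp (hφL c) ((d i).pt a)).resolve_left h0
      rw [Finsupp.smul_apply, polyDiv_apply_pt d hQs 0 i a, smul_eq_mul] at h3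
      have hz : ((0 : Fin (genusFF k Fk) → IsLocalRing.maximalIdeal 𝓡.V) i = a) ↔
          ((0 : IsLocalRing.maximalIdeal 𝓡.V) = a) := Iff.rfl
      simp only [hz] at h3
      push_cast
      linarith
  -- step 4: interpolation
  have h4 : ∀ c i, ∃ (P : Polynomial 𝓡.V) (H : (d i).ring),
      (⟨_, hmem c i⟩ : (d i).ring) = Polynomial.aeval (d i).D.t P + (d i).D.t ^ s * H :=
    fun c i => exists_interp_center (d i) s _
  choose P H hPH using h4
  refine ⟨fun c => ⟨φF c, hφO c⟩, fun c i => ⟨_, hmem c i⟩, P, H, hφL, fun c i => rfl, hPH, ?_⟩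
  intro inst
  -- step 5: the reduction of the coefficients
  have hcoeff : ∀ (c : Σ _ : Fin (genusFF k Fk), Fin s) (i : Fin (genusFF k Fk)) (n : ℕ),
      n < s → 𝓡.res ((P c i).coeff n) = if i = c.1 ∧ n = (c.2 : ℕ) then 1 else 0 := by
    intro c i n hn
    set tb := (d i).redHom (d i).D.t with htbdef
    -- reduction of the interpolation identity
    have e1 : (d i).redHom (⟨_, hmem c i⟩ : (d i).ring) = tb ^ (s + 1) * ψ c := by
      have e : (⟨(((d i).D.t : (d i).ring) : F) ^ (s + 1) * φF c,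
          (d i).ring_le _ (hmem c i)⟩ : 𝓡.O) =
          (⟨(((d i).D.t : (d i).ring) : F), (d i).ring_le _ (d i).D.t.2⟩ : 𝓡.O) ^ (s + 1) *
            ⟨φF c, hφO c⟩ := by
        apply Subtype.ext
        rfl
      rw [DiscData.redHom_apply]
      show 𝓡.red ⟨(((d i).D.t : (d i).ring) : F) ^ (s + 1) * φF c, _⟩ = _
      rw [e, map_mul, map_pow, hφred c]
      rfl
    have e2 : (d i).redHom (⟨_, hmem c i⟩ : (d i).ring) =
        Polynomial.aeval tb ((P c i).map 𝓡.res) + tb ^ s * (d i).redHom (H c i) := by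
      rw [hPH c i, map_add, map_mul, map_pow, redHom_aeval]
    let mono : Polynomial k := if i = c.1 then Polynomial.X ^ (c.2 : ℕ) else 0
    have e3 : tb ^ (s + 1) * τ c i = Polynomial.aeval tb mono := by
      by_cases hi : i = c.1
      · simp only [τ, mono, if_pos hi, map_pow, Polynomial.aeval_X]
        rw [← zpow_natCast tb (s + 1), ← zpow_add₀ (htb0 i), ← zpow_natCast tb (c.2 : ℕ)]
        congr 1
        push_cast
        ring
      · simp only [τ, mono, if_neg hi, mul_zero, map_zero]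
    have hbig : H623.Big (Qs i) (s : ℤ)
        (Polynomial.aeval tb ((P c i).map 𝓡.res - mono)) := by
      have e4 : Polynomial.aeval tb ((P c i).map 𝓡.res - mono) =
          tb ^ (s + 1) * (ψ c - τ c i) - tb ^ s * (d i).redHom (H c i) := by
        rw [map_sub, ← e3]
        have := e1.symm.trans e2
        linear_combination -this
      rw [e4]
      have b1 : H623.Big (Qs i) ((s : ℤ) + 1) (tb ^ (s + 1)) := by
        right
        rw [ord_pow, htb i]
        push_cast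
        omega
      have b2 : H623.Big (Qs i) (s : ℤ) (tb ^ s) := by
        right
        rw [ord_pow, htb i]
        omega
      have b3 := b1.mul (hψ1 c i)
      have b4 := b2.mul (big_redHom (d i) (H c i))
      have b3' : H623.Big (Qs i) (s : ℤ) (tb ^ (s + 1) * (ψ c - τ c i)) := b3.mono (by omega)
      have b4' : H623.Big (Qs i) (s : ℤ) (tb ^ s * (d i).redHom (H c i)) := b4.mono (by omega)
      exact b3'.sub b4'
    have h0 := coeff_eq_zero_of_big (Qs i) (htb i) _ s hbig n hn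
    rw [Polynomial.coeff_sub, Polynomial.coeff_map, sub_eq_zero] at h0
    rw [h0]
    by_cases hi : i = c.1
    · simp only [mono, if_pos hi, Polynomial.coeff_X_pow, hi, true_and]
    · simp only [mono, if_neg hi, Polynomial.coeff_zero, hi, false_and, if_false]
  -- step 6: the determinant
  apply isUnit_of_res_eq_one
  rw [RingHom.map_det]
  have hone : 𝓡.res.mapMatrix (Matrix.of fun (c j : Σ _ : Fin (genusFF k Fk), Fin s) =>
      (P j c.1).coeff (c.2 : ℕ)) = 1 := by
    ext c j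
    rw [RingHom.mapMatrix_apply, Matrix.map_apply, Matrix.of_apply, hcoeff j c.1 c.2 c.2.2,
      Matrix.one_apply]
    rcases c with ⟨c1, c2⟩
    rcases j with ⟨j1, j2⟩
    by_cases h : (⟨c1, c2⟩ : Σ _ : Fin (genusFF k Fk), Fin s) = ⟨j1, j2⟩
    · rw [if_pos h]
      have h' := Sigma.mk.inj_iff.mp h
      rw [if_pos ⟨h'.1, by rw [eq_of_heq h'.2]⟩]
    · rw [if_neg h, if_neg]
      rintro ⟨h1, h2⟩
      apply h
      have h1' : c1 = j1 := h1
      have h2' : c2 = j2 := Fin.ext h2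
      rw [h1', h2']
  rw [hone, Matrix.det_one]

end Fermat.Agent.A3.H255.Det

end
end
-- ===== PACK-END A3/H255/Det.lean

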