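import Fermat.Statements.S18
import Mathlib
import Fermat.Prelude.Def_GaloisRep_Adic
import Fermat.Agent.Pack.S43MC.G0E24L0
import Fermat.Agent.Pack.S44C.G0E27L2
import Fermat.Agent.Pack.S44C.G0E25L3
import Fermat.Agent.Pack.S44C.G0E27L1
import Fermat.Agent.Pack.S44C.G0E11L2
import Fermat.Agent.Pack.S44C.G0E13L3
import Fermat.Agent.Pack.S43MC.G0E24L2
import Fermat.Agent.Pack.S44C.G0E22L1
import Fermat.Agent.Pack.S44C.G0E23L1
import Fermat.Agent.Pack.S44C.G0E6L0
import Fermat.Agent.Pack.S44C.G0E26L2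
import Fermat.Agent.Pack.S44C.G0E25L0
import Fermat.Agent.Pack.S44C.G0E16L2
import Fermat.Agent.Pack.S43MC.G0E24L3
import Fermat.Agent.Pack.S43MC.G0E23L1
import Fermat.Agent.Pack.S43MC.G0E17L1
import Fermat.Agent.Pack.S44C.G0E17L0
import Fermat.Agent.Pack.S43MC.G0E18L2
import Fermat.Agent.Pack.S44C.G1E0L0
import Fermat.Agent.Pack.S44C.G0E13L1
import Fermat.Agent.Pack.S44C.G0E15L2
import Fermat.Agent.Pack.S44C.G0E26L0
import Fermat.Agent.Pack.S44C.G0E23L3
import Fermat.Agent.Pack.S44C.G0E26L3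
import Fermat.Agent.Pack.S43MC.G0E4L3
import Fermat.Agent.Pack.S43MC.G0E21L2
import Fermat.Agent.Pack.Fast891

-- ===== PACK-BEGIN S18.lean
section





/-!
# S18 — injectivity of reduction mod `ℓ` on prime-to-`ℓ` torsion of `J₀(N)` (row-lead helper18)

`result` = `Integ.s18_of_mod_alg` (final chain, `S18/Integ/Final.lean`) applied to

* `Mod.H216.node_mod` : `Mod.GoodModelStatement M ℓ A` (good model of `X₀(M)` over `A ∩ E`; MOD squads,
  assembled by helper216), and
* `H438.node_alg` : `Mod.AlgStatement M` (abstract Kummer endgame; ALG squads, assembled by helper438),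

at the level `M = levelM N ℓ` (`N` for `ℓ ≥ 5`, `lcm N 2` for `ℓ = 3`, `lcm N 3` for `ℓ = 2`).
-/

set_option autoImplicit false
open ModularCurve

namespace Fermat.Agent.S18

theorem result (N : ℕ) [NeZero N] {ℓ : ℕ}
    [Fact ℓ.Prime] (hℓN : ¬ ℓ ∣ N) (A : ValuationSubring (AlgebraicClosure ℚ)) (hA : A.LiesOverPrime ℓ)
    (h : ModularCurve.ReductionInputsModL A N) (m : ℕ) (hm : ¬ ℓ ∣ m) (z : ModularCurve.JZero N)
    (hmz : m • z = 0) (hz : ModularCurve.reductionModL A N z = 0) :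
    z = 0 :=
  haveI : NeZero (Integ.levelM N ℓ) := ⟨Integ.levelM_ne_zero N ℓ⟩
  Integ.s18_of_mod_alg N hℓN A hA
    (Mod.H216.node_mod (Integ.levelM N ℓ) (Integ.not_dvd_levelM N hℓN) A hA)
    (H438.node_alg (Integ.levelM N ℓ)) h m hm z hmz hz

end Fermat.Agent.S18

end
-- ===== PACK-END S18.lean

-- ===== PACK-BEGIN S30/H810/Onto.lean
section
/-
S30 / piece FIN-ONTO (helper810), part 3: REVERSE KUMMER (ONTO, weak form).

Every `p`-torsion class `x ∈ J₀(N)(ℚ̄)` is the Kummer class (M4b `IsKum`) of some character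
`c : Γ₀(N) → ℤ/p`:  `x = [D]`, `p D = div f`, `f t^p` is realised by a good function `G`, all
analytic orders of `G` are divisible by `p` (reverse dictionary), so `G = U^p` with `U` holomorphic
on `ℍ` (ROOT, landed `H751`), and `U ∘ γ = ζ_p^{c(γ)} U` by the identity theorem.
-/




set_option autoImplicit false
set_option linter.unusedSectionVars false

noncomputable section

open ModularCurve AlgebraicCurve CongruenceSubgroup UpperHalfPlane HahnSeries
open scoped MatrixGroups Manifold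

namespace Fermat.Agent.S30.H810

open Fermat.Agent.S24 Fermat.Agent.S24.H648 Fermat.Agent.S24.H708 Fermat.Agent.S24.Deg457
open Fermat.Agent.S24.H624 Fermat.Agent.S24.H997 Fermat.Agent.S29 Fermat.Agent.S29.M4b
open Fermat.Agent.S29.H882

theorem isPrimitiveRoot_zetaP (p : ℕ) (hp : p ≠ 0) : IsPrimitiveRoot (zetaP p) p :=
  Complex.isPrimitiveRoot_exp p hp

theorem mdiff_comp_smul {U : ℍ → ℂ} (hU : MDiff U) (γ : SL(2, ℤ)) :
    MDiff (fun τ => U (γ • τ)) := by
  have h := (γ⁻¹ • (⟨U, hU⟩ : holoRing)).2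
  have h2 : ((γ⁻¹ • (⟨U, hU⟩ : holoRing) : holoRing) : ℍ → ℂ) = fun τ => U (γ • τ) := by
    funext τ
    rw [smul_holoRing_apply, inv_inv]
  rw [← h2]
  exact h

/-- Two holomorphic functions on `ℍ` with the same `p`-th power differ by a power of `ζ_p`. -/
theorem exists_zetaP_pow_of_pow_eq {A B : ℍ → ℂ} (hA : MDiff A) (hB : MDiff B) (p : ℕ)
    (hp : p ≠ 0) (hB0 : ∃ τ, B τ ≠ 0) (h : ∀ τ, A τ ^ p = B τ ^ p) :
    ∃ k : ZMod p, ∀ τ, A τ = zetaP p ^ k.val * B τ := by
  obtain ⟨τ₀, hτ₀⟩ := hB0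
  have hA0 : A τ₀ ≠ 0 := by
    intro h0
    have := h τ₀
    rw [h0, zero_pow hp] at this
    exact hτ₀ (pow_eq_zero_iff hp |>.mp this.symm)
  have hζ : (A τ₀ / B τ₀) ^ p = 1 := by
    rw [div_pow, h τ₀, div_self (pow_ne_zero _ hτ₀)]
  have : NeZero p := ⟨hp⟩
  obtain ⟨i, hi, hiζ⟩ := (isPrimitiveRoot_zetaP p hp).eq_pow_of_pow_eq_one hζ
  refine ⟨(i : ZMod p), ?_⟩
  rw [ZMod.val_natCast_of_lt hi, hiζ]
  have hB' : MDiff (fun τ => A τ₀ / B τ₀ * B τ) := by
    have : (fun τ => A τ₀ / B τ₀ * B τ) = (fun _ : ℍ => A τ₀ / B τ₀) * B := rfl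
    rw [this]
    exact mdifferentiable_const.mul hB
  have key := H751.eq_of_pow_eq_UHP hA hB' hp (fun τ => by rw [mul_pow, hζ, one_mul, h τ])
    (τ₀ := τ₀) (by rw [div_mul_cancel₀ _ hτ₀]) hA0
  intro τ
  exact congrFun key τ

variable (N : ℕ) [NeZero N]

/-- **REVERSE KUMMER (ONTO)**, weak form: every `p`-torsion class is the Kummer class of a
character. -/
theorem exists_isKum_of_torsion (p : ℕ) [NeZero p] {x : JZero N} (hx : (p : ℤ) • x = 0) :
    ∃ c : G0 N → ZMod p, IsKum N p c x := by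
  classical
  have hp : p ≠ 0 := NeZero.ne p
  obtain ⟨f, hf⟩ := H455.exists_isKummerClass_of_zsmul_eq_zero hx
  have hf0 : f ≠ 0 := hf.ne_zero
  obtain ⟨r, t, ht, hft⟩ := exists_div_inclRN N f
  have ht' : inclRN N t ≠ 0 := fun h => ht (inclRN_injective N (by rw [h, map_zero]))
  -- the pole-free representative
  obtain ⟨q, hq⟩ : ∃ q : ℕ, p = q + 1 := ⟨p - 1, by have := Nat.pos_of_ne_zero hp; omega⟩
  set u : FF N := f * inclRN N t ^ p with hu
  have hu0 : u ≠ 0 := mul_ne_zero hf0 (pow_ne_zero _ ht')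
  have hur : u = inclRN N (r * t ^ q) := by
    rw [hu, hft, hq, map_mul, map_pow, pow_succ]
    field_simp
  set G : ℍ → ℂ := realFun N (r * t ^ q) with hG
  have hGr : Realises N u G := by
    refine ⟨realFun_mem N _, ?_⟩
    rw [(realFun_hasQExp N (r * t ^ q)).qexpFun_eq, hur]
    rfl
  have hmd : MDiff G := hGr.1.1
  -- divisibility of the algebraic orders
  have hdiv : ∀ v : Place Kbar (FF N), (p : ℤ) ∣ v.ord u := by
    intro v
    obtain ⟨-, D, -, hD⟩ := hf
    rw [hu, Place.ord_mul v hf0 (pow_ne_zero _ ht'), H117.ord_pow, ← hD v]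
    exact dvd_add (dvd_mul_right _ _) (dvd_mul_right _ _)
  -- the p-th root
  obtain ⟨U, hU, hUp⟩ := H751.exists_pow_eq_UHP hmd p hp
    (fun τ => exists_analyticOrderAt_eq_mul hGr hu0 p hp hdiv τ)
  have hG0 : G ≠ 0 := realises_ne_zero hGr hu0
  have hU0 : ∃ τ, U τ ≠ 0 := by
    by_contra hcon
    push Not at hcon
    apply hG0
    funext τ
    rw [← hUp τ, hcon τ, zero_pow hp]
    rfl
  -- the character
  have hchar : ∀ γ : G0 N, ∃ k : ZMod p, ∀ τ : ℍ,
      U ((γ : SL(2, ℤ)) • τ) = zetaP p ^ k.val * U τ := by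
    intro γ
    refine exists_zetaP_pow_of_pow_eq (_root_.Fermat.Agent.S30.H810.mdiff_comp_smul hU (γ : SL(2, ℤ))) hU p hp hU0 ?_
    intro τ
    rw [hUp, hUp]
    exact hGr.1.2.1 _ γ.2 τ
  choose c hc using hchar
  refine ⟨c, f, inclRN N t, U, ht', hf, ⟨hU, hU0, hc, ?_⟩, ?_⟩
  · have : (fun τ => U τ ^ p) = G := funext hUp
    rw [this]
    exact hGr.1
  · have : (fun τ => U τ ^ p) = G := funext hUp
    rw [this]
    exact hGr

end Fermat.Agent.S30.H810

end
end
-- ===== PACK-END S30/H810/Onto.lean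

-- ===== PACK-BEGIN S29/H150/K2Local.lean
section
/-
S29 / M4b / piece K2 (helper150), part 2: local divisibility at every place.

For the S24 local data `mkLocalData X ε R t` at the zero of `t` (`t = j - a` or `t = 1/j`):
if `u ∈ FF N` is realised by `U ^ p`, `U ∈ holN N` with a character killing all conjugates of
powers of `ε` lying in `Γ₀(N)`, then `p ∣ ord_v u` at every place `v` with `ord_v t > 0`.
-/




set_option autoImplicit false
set_option linter.unusedSectionVars false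
set_option linter.style.haveILetI false
set_option linter.unusedTactic false

noncomputable section

open ModularCurve AlgebraicCurve CongruenceSubgroup UpperHalfPlane HahnSeries
open scoped MatrixGroups Manifold

namespace Fermat.Agent.S29.H150

open Fermat.Agent.S24 Fermat.Agent.S24.H997 Fermat.Agent.S29 Fermat.Agent.S29.M4b

/-! ### Orbits of the monodromy permutation -/

section Orbit

variable {K F : Type*} [Field K] [Field F] [Algebra K F] [IsAlgClosed K] [CharZero K]
variable {C : Type*} [Field C] [CharZero C] {X : Type*} [Finite X]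

/-- The ramification index of the place induced by `x` is the length of the cycle of `x`. -/
theorem orbit_card_eq_ord (t : F) [FiniteDimensional ↥(IntermediateField.adjoin K {t}) F]
    (hrank : Module.finrank ↥(IntermediateField.adjoin K {t}) F = Nat.card X)
    (d : LocalData K F C X t) (x : X) :
    (Nat.card (MulAction.orbit (Subgroup.zpowers d.perm) x) : ℤ) = (H117.placeOf d x).ord t := by
  classical
  have hfin : (zeroPlaces K t).Finite := (sub_local_count t hrank d).1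
  have hs : ∀ v : Place K F, v ∈ hfin.toFinset ↔ 0 < v.ord t := fun v => by simp [zeroPlaces]
  have hsum := (sub_local_count t hrank d).2.2
  rw [finsum_mem_eq_finite_toFinset_sum _ hfin] at hsum
  exact (H117.localThm d (IntermediateField.adjoin K {t}) le_rfl hrank hfin.toFinset hs
    hsum.ge).2.1 x

omit [Finite X] in
theorem perm_pow_orbit_card [Finite X] (π : Equiv.Perm X) (x : X) :
    (π ^ Nat.card (MulAction.orbit (Subgroup.zpowers π) x)) x = x := by
  classical
  haveI : Fintype (MulAction.orbit (Subgroup.zpowers π) x) := Fintype.ofFinite _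
  have h := Function.isPeriodicPt_minimalPeriod (fun y : X => π • y) x
  rw [MulAction.minimalPeriod_eq_card, ← Nat.card_eq_fintype_card] at h
  have h2 : (fun y : X => π • y)^[Nat.card (MulAction.orbit (Subgroup.zpowers π) x)] x = x := h
  rw [smul_iterate] at h2
  exact h2

end Orbit

variable {N : ℕ} [NeZero N] {p : ℕ} [NeZero p]

/-! ### The key local statement -/

theorem permOf_pow_apply (ε : SL(2, ℤ)) (k : ℕ) (g : SL(2, ℤ)) :
    (permOf N ε ^ k) (g : XX N) = ((ε ^ k * g : SL(2, ℤ)) : XX N) := by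
  induction k with
  | zero => simp
  | succ k ih =>
    rw [pow_succ', Equiv.Perm.mul_apply, ih, pow_succ', mul_assoc]
    rfl

/-- **Local divisibility.** -/
theorem dvd_ord_of_mkLocalData (X : Expansion (holBase N)) (ε : SL(2, ℤ))
    (R : RotData (holBase N) X ε) (t : FF N) (s : LaurentSeries ℂ)
    (ht : ∀ g : SL(2, ℤ), (holBase N).sigmaG X g t = s) (hs : s.order = (R.m : ℤ))
    [FiniteDimensional ↥(IntermediateField.adjoin Kbar {t}) (FF N)]
    (hrank : Module.finrank ↥(IntermediateField.adjoin Kbar {t}) (FF N) = Nat.card (XX N))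
    {χ : Gamma0 N →* ℂˣ}
    (hχε : ∀ (g : SL(2, ℤ)) (k : ℕ) (hk : g * ε ^ k * g⁻¹ ∈ Gamma0 N), χ ⟨_, hk⟩ = 1)
    {U : ℍ → ℂ} (hchar : H332.HasCharacter χ U) (hmem : U ∈ holN N) (hU0 : U ≠ 0)
    {u : FF N}
    (hq : (holBase N).qexp (⟨U, hmem⟩ ^ p)
      = HolBase.Φ N ((u : FF N) : LaurentSeries Kbar))
    (v : Place Kbar (FF N)) (hv : 0 < v.ord t) : (p : ℤ) ∣ v.ord u := by
  classical
  haveI : Finite (XX N) := inferInstance
  set d : LocalData Kbar (FF N) ℂ (XX N) t := (holBase N).mkLocalData X ε R t s ht hs with hd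
  obtain ⟨x, hx⟩ := H117.exists_placeOf_eq d (IntermediateField.adjoin Kbar {t}) le_rfl hrank v hv
  -- the cycle length
  set k : ℕ := Nat.card (MulAction.orbit (Subgroup.zpowers d.perm) x) with hk
  have hke : (k : ℤ) = (H117.placeOf d x).ord t := orbit_card_eq_ord t hrank d x
  have hkpos : (0 : ℤ) < k := by rw [hke, hx]; exact hv
  have hper : (d.perm ^ k) x = x := perm_pow_orbit_card d.perm x
  -- representative
  set g : SL(2, ℤ) := Quotient.out x with hg
  have hxg : ((g : SL(2, ℤ)) : XX N) = x := QuotientGroup.out_eq' x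
  have hmemΓ : g⁻¹ * ε ^ k * g⁻¹⁻¹ ∈ Gamma0 N := by
    have h1 : (permOf N ε⁻¹ ^ k) (g : XX N) = (g : XX N) := by
      rw [hxg]; exact hper
    rw [permOf_pow_apply] at h1
    have h2 := QuotientGroup.eq.mp h1
    have h3 : (ε⁻¹ ^ k * g)⁻¹ * g = g⁻¹ * ε ^ k * g⁻¹⁻¹ := by
      rw [mul_inv_rev, inv_pow, inv_inv, inv_inv]
    rwa [h3] at h2
  -- rotation argument
  have hdiv := hchar.dvd_mul_order hmem hU0 X R g⁻¹ k hmemΓ (hχε _ _ hmemΓ)
  set n : ℤ := (X.E ((holBase N).compH g⁻¹ ⟨U, hmem⟩)).order with hn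
  -- `m = mult * e`
  have hm : (H117.mult d x : ℤ) * (H117.placeOf d x).ord t = (R.m : ℤ) := H117.mult_mul_ord_t d x
  rw [← hke] at hm
  have hmult : (H117.mult d x : ℤ) ∣ n := by
    rw [← hm] at hdiv
    have h4 : (H117.mult d x : ℤ) * k ∣ n * k := by rwa [mul_comm n k]
    exact (mul_dvd_mul_iff_right hkpos.ne').mp h4
  -- the order of `σ_x u`
  have hσ : d.σ x u = X.E ((holBase N).compH g⁻¹ ⟨U, hmem⟩) ^ p := by
    show (holBase N).sigmaG X g u = _
    have hG : (fun τ => U τ ^ p) ∈ holN N := (holN N).pow_mem hmem p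
    have := sigmaG_eq_of_qexp X g (u := u) (G := fun τ => U τ ^ p) hG hq
    rw [this, ← map_pow, ← map_pow]
    rfl
  have hord := H117.order_eq d x u
  rw [hσ, HahnSeries.order_pow, hx, nsmul_eq_mul, ← hn] at hord
  obtain ⟨n', hn'⟩ := hmult
  have hmpos : (H117.mult d x : ℤ) ≠ 0 := by
    exact_mod_cast (H117.mult_pos d x).ne'
  refine ⟨n', ?_⟩
  have h5 : (H117.mult d x : ℤ) * v.ord u = (H117.mult d x : ℤ) * ((p : ℤ) * n') := by
    rw [← hord, hn']; push_cast; ring
  exact mul_left_cancel₀ hmpos h5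

end Fermat.Agent.S29.H150

end
end
-- ===== PACK-END S29/H150/K2Local.lean

-- ===== PACK-BEGIN S29/M1.lean
section





/-!
# S29, layer M, piece `M1` (helper801): exact `SkeletonM` statement

`heckeOperatorsCommuteBar : HeckeOperatorsCommuteBar N` — the Prelude Hecke operators
`heckeOperatorBar N ℓ` on `J₀(N)(ℚ̄) = Pic⁰(ℚ̄(X₀(N)))` commute.  This is the hypothesis `hcomm`
of the frozen statement S37.

Purely algebraic proof (no places ↔ points dictionary): both `T_ℓ T_ℓ'` and `T_ℓ' T_ℓ` are the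
correspondence through the common cover `F_{Nℓℓ'}`
(`H801.pic0_correspondence_comm`, on top of helper818's base-change lemma), with inputs
* `HI` at all levels (helper812 / helper864 / helper460),
* local generators from weak approximation (shared library RR, helper623),
* norm compatibility of the mixed square from `F_{Nℓℓ'} = F_{Nℓ} ⊔ V_ℓ(F_{Nℓ'})` and
  `[F_{Nℓℓ'} : F_{Nℓ}] = [F_{Nℓ'} : F_N]` (shared library X0DEG, helper760).
-/

set_option autoImplicit false
set_option linter.style.haveILetI false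

noncomputable section

namespace Fermat.Agent.S29

open ModularCurve AlgebraicCurve

/-- All inputs of the commutation theorem hold over `ℚ̄`. -/
theorem H801.m1Inputs_bar : H801.M1Inputs (AlgebraicClosure ℚ) where
  hi := fun M ℓ _ _ hℓ => heckeInputsAlong_bar M ℓ hℓ
  lg := fun M ℓ _ _ hℓ hα => by
    obtain ⟨_, _, hP, _, _, _⟩ := heckeInputsAlong_bar M ℓ hℓ
    haveI := hP
    exact H801.hasLocalGenerators_of_hasPrincipalDivisors _ hα
  nc := fun N ℓ ℓ' _ _ _ hℓ hℓ' hne => H801.normCompat_bar N ℓ ℓ' hℓ hℓ' hne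

variable (N : ℕ) [NeZero N]

/-- PIECE `M1`: Hecke operators on `J₀(N)(ℚ̄)` commute. -/
theorem heckeOperatorsCommuteBar : HeckeOperatorsCommuteBar N :=
  H801.heckeOperatorsCommuteBar_of_inputs H801.m1Inputs_bar N

end Fermat.Agent.S29

end

end
-- ===== PACK-END S29/M1.lean

-- ===== PACK-BEGIN S36/H919/SheetsTop.lean
section



/-!
# S36 engine, ALG3 gap lemma G2 = SHEETS (helper919): `V₁, V₂, V₃` are exactly the sheets

Setting of `Eng.Alg3Statement`: `R` a henselian DVR with algebraically closed residue field of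
characteristic `q`, uniformiser `w`, `E = Frac R` of characteristic `0`, `F`, `F'` fields over
`E`, `α, β : F' → F`.  The hypotheses are FIELDS of `Eng.TripleCtx`, passed one by one
(`hw_i` = first half of `unif₁`, `unif₃`, and `ram₂`; `hx_i` = first half of `x_unit_i`;
`hα`, `hβ` = `comap_α₁ ▸ comap_α₂`, `comap_β₂ ▸ comap_β₃`; `hint_α`, `hint_β` = `int_α`, `int_β`
at `b = x`).

* **`h919_sheets`** : `V₁`, `V₂`, `V₃` are sheets (`A2.H12.IsSheet w x`), and every sheet is one
  of them.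
* `h919_transcendental`, `h919_finiteDimensional` : the coordinate hypotheses of
  `S36.H193.exists_pow_eq_of_base` from `TripleCtx.hx`, `TripleCtx.hfin`.
* `h919_unif_of_unifAt`, `h919_disc_of_dvr` : the hypotheses `hunif`, `hdisc` of
  `S36.H193.exists_pow_eq_of_base` for `V₀ = V₁`.

Proof of `h919_sheets`: `R ⊆ V_i` because units of `R` are infinitely divisible
(`SheetsBase.lean`); every sheet is some `V_i` by `Qep3` (`Sheets.lean`); there is a sheet
(`H193.sheets_nonempty`); being a sheet propagates between `V₁` and `V₂` (same restriction along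
`α`) and between `V₂` and `V₃` (same restriction along `β`) (`SheetsProp.lean`).
-/

set_option autoImplicit false
set_option linter.style.haveILetI false
set_option linter.unusedSectionVars false

namespace Fermat.Agent.S36.H919

open Polynomial
open Fermat.Agent.A2.H12 (IsSheet)
open Fermat.Agent.S18.H138
open Fermat.Agent.S36.H193

universe u

section Top

variable {R : Type u} [CommRing R] [IsDomain R] [IsDiscreteValuationRing R]
  [HenselianLocalRing R] [IsAlgClosed (IsLocalRing.ResidueField R)]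
variable (E : Type u) [Field E] [CharZero E] [Algebra R E] [IsFractionRing R E]
variable {F : Type u} [Field F] [Algebra E F] [Algebra R F] [IsScalarTower R E F]
variable {F' : Type u} [Field F'] [Algebra E F'] [Algebra R F'] [IsScalarTower R E F']

include E in
/-- `x` transcendental over `E = Frac R` is transcendental over `R`. -/
theorem h919_transcendental {x : F} (hx : Transcendental E x) : Transcendental R x :=
  hx.restrictScalars (IsFractionRing.injective R E)

include E in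
/-- `F` finite over `E(x)` is finite over `baseField R x`. -/
theorem h919_finiteDimensional {x : F}
    (hfin : FiniteDimensional (IntermediateField.adjoin E ({x} : Set F)) F) :
    FiniteDimensional (baseField R x) F :=
  haveI := hfin
  Fermat.Agent.A2.H313.finiteDimensional_baseField_of_adjoin E x

include E in
theorem h919_injective : Function.Injective (algebraMap R F) := by
  rw [IsScalarTower.algebraMap_eq R E F]
  exact (algebraMap E F).injective.comp (IsFractionRing.injective R E)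

include E in
/-- **G2 = SHEETS.**  In a three-component context the valuation subrings `V₁`, `V₂`, `V₃` are
sheets of `F` over the Gauss valuation of `R[x]`, and there is no other sheet. -/
theorem h919_sheets (w : R) (hw : Irreducible w) {q : ℕ} (hq : q.Prime)
    (hqR : (q : R) ∈ IsLocalRing.maximalIdeal R)
    (α β : F' →ₐ[E] F) {x : F} {x' : F'}
    (hx : Transcendental E x)
    (hfin : FiniteDimensional (IntermediateField.adjoin E ({x} : Set F)) F)
    (V₁ V₂ V₃ : ValuationSubring F)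
    (dvr₁ : IsDiscreteValuationRing V₁) (dvr₂ : IsDiscreteValuationRing V₂)
    (dvr₃ : IsDiscreteValuationRing V₃)
    (hw₁ : algebraMap R F w ∈ V₁.nonunits) (hw₂ : algebraMap R F w ∈ V₂.nonunits)
    (hw₃ : algebraMap R F w ∈ V₃.nonunits)
    (hx₁ : x ∈ V₁) (hx₂ : x ∈ V₂) (hx₃ : x ∈ V₃)
    (hqep : ∀ b : chart R ({x} : Set F), (b : F) * (algebraMap R F w)⁻¹ ∈ V₁ →
      (b : F) * (algebraMap R F w)⁻¹ ∈ V₂ → (b : F) * (algebraMap R F w)⁻¹ ∈ V₃ →
      ∃ c : chart R ({x} : Set F), b = algebraMap R (chart R ({x} : Set F)) w * c)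
    (hα : V₁.comap (α : F' →+* F) = V₂.comap (α : F' →+* F))
    (hβ : V₂.comap (β : F' →+* F) = V₃.comap (β : F' →+* F))
    (chart_α : ∀ b ∈ chart R ({x'} : Set F'), α b ∈ chart R ({x} : Set F))
    (chart_β : ∀ b ∈ chart R ({x'} : Set F'), β b ∈ chart R ({x} : Set F))
    (hint_α : ∃ p : F'[X], p.Monic ∧ (∀ i, p.coeff i ∈ chart R ({x'} : Set F')) ∧
      (p.map (α : F' →+* F)).eval x = 0)
    (hint_β : ∃ p : F'[X], p.Monic ∧ (∀ i, p.coeff i ∈ chart R ({x'} : Set F')) ∧
      (p.map (β : F' →+* F)).eval x = 0) :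
    (IsSheet w x V₁ ∧ IsSheet w x V₂ ∧ IsSheet w x V₃) ∧
      ∀ W : ValuationSubring F, IsSheet w x W → W = V₁ ∨ W = V₂ ∨ W = V₃ := by
  haveI := dvr₁
  haveI := dvr₂
  haveI := dvr₃
  haveI : CharZero F := charZero_of_injective_algebraMap (algebraMap E F).injective
  have hinj : Function.Injective (algebraMap R F) := h919_injective E
  have hxR : Transcendental R x := h919_transcendental E hx
  haveI : FiniteDimensional (baseField R x) F := h919_finiteDimensional E hfin
  have hwp : Prime w := hw.prime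
  -- `R ⊆ V_i`
  have hR₁ : ∀ r : R, algebraMap R F r ∈ V₁ :=
    h919_algebraMap_mem_of_dvr hq.pos hqR hw V₁ (V₁.nonunits_subset hw₁)
  have hR₂ : ∀ r : R, algebraMap R F r ∈ V₂ :=
    h919_algebraMap_mem_of_dvr hq.pos hqR hw V₂ (V₂.nonunits_subset hw₂)
  have hR₃ : ∀ r : R, algebraMap R F r ∈ V₃ :=
    h919_algebraMap_mem_of_dvr hq.pos hqR hw V₃ (V₃.nonunits_subset hw₃)
  -- the chart lies in `V_i`
  have hB₁ : ∀ c ∈ chart R ({x} : Set F), c ∈ V₁ := fun c hc =>
    h919_chart_le V₁ hR₁ (fun t ht => by rw [Set.mem_singleton_iff.1 ht]; exact hx₁) hc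
  have hB₂ : ∀ c ∈ chart R ({x} : Set F), c ∈ V₂ := fun c hc =>
    h919_chart_le V₂ hR₂ (fun t ht => by rw [Set.mem_singleton_iff.1 ht]; exact hx₂) hc
  have hB₃ : ∀ c ∈ chart R ({x} : Set F), c ∈ V₃ := fun c hc =>
    h919_chart_le V₃ hR₃ (fun t ht => by rw [Set.mem_singleton_iff.1 ht]; exact hx₃) hc
  -- every sheet is one of the three
  have hcases : ∀ W : ValuationSubring F, IsSheet w x W → W = V₁ ∨ W = V₂ ∨ W = V₃ :=
    fun W hW => h919_sheet_cases hinj hwp hxR V₁ V₂ V₃ hB₁ hB₂ hB₃ hw₁ hw₂ hw₃ hqep hW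
  -- compatibility of `α`, `β` with `R`
  have hαR : ∀ r : R, (α : F' →+* F) (algebraMap R F' r) = algebraMap R F r := by
    intro r
    rw [IsScalarTower.algebraMap_apply R E F', IsScalarTower.algebraMap_apply R E F]
    exact α.commutes _
  have hβR : ∀ r : R, (β : F' →+* F) (algebraMap R F' r) = algebraMap R F r := by
    intro r
    rw [IsScalarTower.algebraMap_apply R E F', IsScalarTower.algebraMap_apply R E F]
    exact β.commutes _
  -- propagation
  have h12 : IsSheet w x V₁ → IsSheet w x V₂ := fun h =>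
    h919_isSheet_transfer hw hxR (α : F' →+* F) hαR V₂ V₁ hR₂ hR₁ hx₂ hw₂ hα.symm
      chart_α hint_α h
  have h21 : IsSheet w x V₂ → IsSheet w x V₁ := fun h =>
    h919_isSheet_transfer hw hxR (α : F' →+* F) hαR V₁ V₂ hR₁ hR₂ hx₁ hw₁ hα
      chart_α hint_α h
  have h23 : IsSheet w x V₂ → IsSheet w x V₃ := fun h =>
    h919_isSheet_transfer hw hxR (β : F' →+* F) hβR V₃ V₂ hR₃ hR₂ hx₃ hw₃ hβ.symm
      chart_β hint_β h
  have h32 : IsSheet w x V₃ → IsSheet w x V₂ := fun h =>
    h919_isSheet_transfer hw hxR (β : F' →+* F) hβR V₂ V₃ hR₂ hR₃ hx₂ hw₂ hβ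
      chart_β hint_β h
  -- there is a sheet
  obtain ⟨W, hW⟩ := sheets_nonempty (R := R) (Z := F) w hwp hxR
  have hW' : IsSheet w x W := hW
  have h2 : IsSheet w x V₂ := by
    rcases hcases W hW' with h | h | h
    · exact h12 (h ▸ hW')
    · exact h ▸ hW'
    · exact h32 (h ▸ hW')
  exact ⟨⟨h21 h2, h2, h23 h2⟩, hcases⟩

end Top

section Unif

variable {R : Type u} [CommRing R] {F : Type u} [Field F] [Algebra R F]

/-- `hunif` of `H193.exists_pow_eq_of_base` from `Eng.UnifAt V w` (second half), `w ≠ 0`. -/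
theorem h919_unif_of_unifAt (V : ValuationSubring F) {w : R} (hw0 : algebraMap R F w ≠ 0)
    (h : ∀ f ∈ V.nonunits, f * (algebraMap R F w)⁻¹ ∈ V) :
    ∀ a ∈ V.nonunits, ∃ b ∈ V, a = algebraMap R F w * b := by
  intro a ha
  refine ⟨a * (algebraMap R F w)⁻¹, h a ha, ?_⟩
  rw [mul_comm a, ← mul_assoc, mul_inv_cancel₀ hw0, one_mul]

/-- `hdisc` of `H193.exists_pow_eq_of_base` for a discrete valuation subring with `w ∈ 𝔪_V`. -/
theorem h919_disc_of_dvr (V : ValuationSubring F) [IsDiscreteValuationRing V] {w : R}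
    (hwV : algebraMap R F w ∈ V.nonunits) :
    ∀ g : F, ∃ k : ℕ, g * algebraMap R F w ^ k ∈ V := by
  intro g
  by_cases hg : g ∈ V
  · exact ⟨0, by rwa [pow_zero, mul_one]⟩
  have hg0 : g ≠ 0 := fun h => hg (h ▸ V.zero_mem)
  obtain ⟨e, he⟩ := h919_exists_pow_mul_inv_mem V (inv_ne_zero hg0)
  refine ⟨e, ?_⟩
  have := he _ hwV
  rwa [inv_inv, mul_comm] at this

end Unif

end Fermat.Agent.S36.H919

end
-- ===== PACK-END S36/H919/SheetsTop.lean

-- ===== PACK-BEGIN S36/H919/SheetsCtx.lean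
section



/-!
# S36 engine, ALG3 gap lemma G2 = SHEETS for `Eng.TripleCtx` (helper919)

Adapters from the frozen `Eng.TripleCtx` (Spec v1.3, on main) to the hypotheses of
`S36.H193.exists_pow_eq_of_three` / `exists_pow_eq_of_base`:

* `h919_isSheet_of_ctx` : `V₁`, `V₂`, `V₃` are sheets (`A2.H12.IsSheet w x`);
* **`h919_hsheets_of_ctx`** : every sheet is one of `V₁`, `V₂`, `V₃` (from `qep_f`);
* `h919_hunif_of_ctx`, `h919_hdisc_of_ctx` : `hunif`, `hdisc` for `V₀ = V₁`;
* `h919_mem_nonunits₂_of_ctx` : `w ∈ 𝔪_{V₂}` (from `ram₂`, `q ≥ 2`).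

For MOD3 (`Model3Statement`): the fields `base_i` follow from `dvr_i` and `w ∈ V_i`
(`h919_algebraMap_mem_of_dvr`, `SheetsBase.lean`), and `gauss₂`, `gauss₃` follow from `gauss₁`, the
`comap` table and `chart_*`, `int_*` (`h919_isSheet_transfer`, `SheetsProp.lean`;
`h919_sheets`, `SheetsTop.lean`).
-/

set_option autoImplicit false
set_option linter.style.haveILetI false
set_option linter.unusedSectionVars false

namespace Fermat.Agent.S36.H919

open Polynomial
open Fermat.Agent.A2.H12 (IsSheet)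
open Fermat.Agent.S18.H138
open Fermat.Agent.S36.H193

universe u

section Ctx

variable {R : Type u} [CommRing R] [IsDomain R] [IsDiscreteValuationRing R]
  [HenselianLocalRing R] [IsAlgClosed (IsLocalRing.ResidueField R)]
variable {E : Type u} [Field E] [CharZero E] [Algebra R E] [IsFractionRing R E]
variable {F : Type u} [Field F] [Algebra E F] [Algebra R F] [IsScalarTower R E F]
variable {F' : Type u} [Field F'] [Algebra E F'] [Algebra R F'] [IsScalarTower R E F']
variable {w : R} {q : ℕ} {α β : F' →ₐ[E] F} {x : F} {x' : F'}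
  {V₁ V₂ V₃ : ValuationSubring F} {V₁' V₂' : ValuationSubring F'}

/-- `w ∈ 𝔪_{V₂}`. -/
theorem h919_mem_nonunits₂_of_ctx (hq : 2 ≤ q)
    (h : Eng.TripleCtx w q α β x x' V₁ V₂ V₃ V₁' V₂') : algebraMap R F w ∈ V₂.nonunits := by
  obtain ⟨t, ⟨ht0, htn, -⟩, ⟨-, hu, -⟩⟩ := h.ram₂
  have h1 : algebraMap R F w = t ^ (q - 1) * (algebraMap R F w * (t ^ (q - 1))⁻¹) := by
    rw [mul_comm (algebraMap R F w), ← mul_assoc, mul_inv_cancel₀ (pow_ne_zero _ ht0), one_mul]
  rw [h1]
  refine h919_mem_nonunits_mul V₂ ?_ hu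
  obtain ⟨k, hk⟩ : ∃ k, q - 1 = k + 1 := ⟨q - 2, by omega⟩
  rw [hk, pow_succ, mul_comm]
  exact h919_mem_nonunits_mul V₂ htn (V₂.pow_mem (V₂.nonunits_subset htn) k)

/-- The three valuation subrings of a three-component context are sheets. -/
theorem h919_isSheet_of_ctx (hq : 2 ≤ q)
    (h : Eng.TripleCtx w q α β x x' V₁ V₂ V₃ V₁' V₂') :
    IsSheet w x V₁ ∧ IsSheet w x V₂ ∧ IsSheet w x V₃ :=
  ⟨⟨h.base₁, h.x_unit₁.2.1, h.unif₁.2.1, h.gauss₁⟩,
    ⟨h.base₂, h.x_unit₂.2.1, h919_mem_nonunits₂_of_ctx hq h, h.gauss₂⟩,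
    ⟨h.base₃, h.x_unit₃.2.1, h.unif₃.2.1, h.gauss₃⟩⟩

/-- **Every sheet of a three-component context is one of `V₁`, `V₂`, `V₃`.** -/
theorem h919_hsheets_of_ctx (hw : Irreducible w) (hq : 2 ≤ q)
    (h : Eng.TripleCtx w q α β x x' V₁ V₂ V₃ V₁' V₂') :
    ∀ W : ValuationSubring F, IsSheet w x W → W = V₁ ∨ W = V₂ ∨ W = V₃ := by
  intro W hW
  haveI := h.dvr₁
  haveI := h.dvr₂
  haveI := h.dvr₃
  haveI : CharZero F := charZero_of_injective_algebraMap (algebraMap E F).injective
  haveI : FiniteDimensional (baseField R x) F := h919_finiteDimensional E h.hfin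
  obtain ⟨s₁, s₂, s₃⟩ := h919_isSheet_of_ctx hq h
  exact h919_sheet_cases (h919_injective E) hw.prime (h919_transcendental E h.hx) V₁ V₂ V₃
    (sheet_chart_le s₁) (sheet_chart_le s₂) (sheet_chart_le s₃)
    s₁.2.2.1 s₂.2.2.1 s₃.2.2.1 h.qep_f hW

/-- `hunif` of `H193.exists_pow_eq_of_base` for `V₀ = V₁`. -/
theorem h919_hunif_of_ctx (h : Eng.TripleCtx w q α β x x' V₁ V₂ V₃ V₁' V₂') :
    ∀ a ∈ V₁.nonunits, ∃ b ∈ V₁, a = algebraMap R F w * b :=
  h919_unif_of_unifAt V₁ h.unif₁.1 h.unif₁.2.2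

/-- `hdisc` of `H193.exists_pow_eq_of_base` for `V₀ = V₁`. -/
theorem h919_hdisc_of_ctx (h : Eng.TripleCtx w q α β x x' V₁ V₂ V₃ V₁' V₂') :
    ∀ g : F, ∃ k : ℕ, g * algebraMap R F w ^ k ∈ V₁ :=
  haveI := h.dvr₁
  h919_disc_of_dvr V₁ h.unif₁.2.1

end Ctx

end Fermat.Agent.S36.H919

end
-- ===== PACK-END S36/H919/SheetsCtx.lean

-- ===== PACK-BEGIN A2/Mod/H816/L8.lean
section



/-!
# A2 / MOD leaf L8 `DegStatement` (helper816)

`x = j j_q` at level `M q` (`q` prime, `q ∤ M`):  `x` is transcendental over `E`,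
`[F_{Mq} : E(x)] = 2 (q + 1) ψ(M)` and `E` is algebraically closed in `F_{Mq}`.

Tower `E(x) ⊆ K₂ = E(j, j_q) ⊆ F_{Mq}` inside `E((t))`:
* `[F_{Mq} : K₂] = ψ(M)` : `S28.H988.relfinrank_jField_full_eq` at levels `q` and `M q`;
* `[K₂ : E(x)] ≤ 2 (q + 1)` : `j` is a root of `T^(q+1) Φ_q(T, x / T)` (`L8Upper`);
* `[K₂ : E(x)] ≥ 2 (q + 1)` : the two cuspidal valuations `vInf`, `vZero = vInf ∘ W` (`L8Val`).

Main result: `deg : DegStatement E M q` (exact frozen leaf of `Mod/Spec.lean`).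
-/

set_option autoImplicit false
set_option linter.unusedSectionVars false
set_option synthInstance.maxHeartbeats 400000
set_option maxHeartbeats 1600000

noncomputable section

namespace Fermat.Agent.A2.Mod.H816

open ModularCurve HahnSeries Polynomial IntermediateField

/-! ## Generalities on `relfinrank` -/

section Gen

variable {k L : Type*} [Field k] [Field L] [Algebra k L]

/-- the degree of `F` over `k(x)`, computed inside `F` or inside the ambient field -/
theorem finrank_adjoin_eq_relfinrank (F : IntermediateField k L) (x : F) :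
    Module.finrank (adjoin k ({x} : Set F)) F = (adjoin k ({(x : L)} : Set L)).relfinrank F := by
  rw [← relfinrank_top_right, ← relfinrank_map_map (adjoin k ({x} : Set F)) ⊤ F.val,
    adjoin_map, Set.image_singleton, ← AlgHom.fieldRange_eq_map, fieldRange_val]
  rfl

/-- `[A(y) : A] ≤ deg P` for a nonzero polynomial `P` over `A` with root `y`,
where `A(y)` is given as an intermediate field `B` over `k`. -/
theorem relfinrank_le_of_root (A B : IntermediateField k L) (hAB : A ≤ B) (y : L)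
    (hB : (adjoin A ({y} : Set L)).restrictScalars k = B) (P : Polynomial A) (hP : P ≠ 0)
    (hroot : aeval y P = 0) :
    0 < A.relfinrank B ∧ A.relfinrank B ≤ P.natDegree := by
  have hint : IsIntegral A y := (isAlgebraic_iff_isIntegral).mp ⟨P, hP, hroot⟩
  have hext : extendScalars hAB = adjoin A ({y} : Set L) := by
    apply restrictScalars_injective k
    rw [extendScalars_restrictScalars, hB]
  rw [relfinrank_eq_finrank_of_le hAB, hext, adjoin.finrank hint]
  refine ⟨minpoly.natDegree_pos hint, ?_⟩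
  exact natDegree_le_natDegree (minpoly.degree_le_of_ne_zero A y hP hroot)

end Gen

/-! ## Level `q` -/

section LevelQ

open Fermat.Agent.S28

variable (E : IntermediateField ℚ _root_.Fermat.Agent.A2.Mod.Qb) (q : ℕ) [NeZero q]

theorem coe_xq : ((xq E q : _root_.Fermat.Agent.A2.Mod.FE E q) : LaurentSeries E) =
    jqModC E * qExpand E q (jqModC E) := by
  show ((jE E q 1 (one_dvd q) : _root_.Fermat.Agent.A2.Mod.FE E q) : LaurentSeries E) *
    ((jE E q q dvd_rfl : _root_.Fermat.Agent.A2.Mod.FE E q) : LaurentSeries E) = _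
  rw [H873.coe_jE, H873.coe_jE, qExpand_one_apply]

theorem coe_xE (M : ℕ) [NeZero M] : ((xE E M q : _root_.Fermat.Agent.A2.Mod.FE E (M * q)) : LaurentSeries E) =
    jqModC E * qExpand E q (jqModC E) := by
  show ((jE E (M * q) 1 (one_dvd _) : _root_.Fermat.Agent.A2.Mod.FE E (M * q)) : LaurentSeries E) *
    ((jE E (M * q) q (dvd_mul_left q M) : _root_.Fermat.Agent.A2.Mod.FE E (M * q)) : LaurentSeries E) = _
  rw [H873.coe_jE, H873.coe_jE, qExpand_one_apply]

theorem FE_eq_fullC (N : ℕ) : _root_.Fermat.Agent.A2.Mod.FE E N = modularFunctionFieldFullC E N :=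
  H988.laurentBaseChange_full_eq_fullC E N

theorem natCast_ne_zero_E {p : ℕ} (hp : p ≠ 0) : ((p : ℕ) : E) ≠ 0 :=
  Nat.cast_ne_zero.mpr hp

/-- `K₂ = E(j, j_q)` -/
theorem fullC_prime (hq : q.Prime) :
    modularFunctionFieldFullC E q =
      adjoin E ({jqModC E, qExpand E q (jqModC E)} : Set (LaurentSeries E)) := by
  rw [modularFunctionFieldFullC]
  congr 1
  ext f
  constructor
  · rintro ⟨d, hne, hd, rfl⟩
    rcases (Nat.dvd_prime hq).mp hd with h | h
    · subst h
      rw [qExpand_one_apply]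
      exact Set.mem_insert _ _
    · subst h
      exact Set.mem_insert_of_mem _ rfl
  · rintro (h | h)
    · rw [h]
      exact ⟨1, inferInstance, one_dvd q, (qExpand_one_apply _).symm⟩
    · rw [Set.mem_singleton_iff] at h
      rw [h]
      exact ⟨q, inferInstance, dvd_rfl, rfl⟩

theorem jqModC_ne_zero_E : jqModC E ≠ 0 := jqModC_ne_zero_of_nontrivial E

/-- `E(x)(j) = K₂` -/
theorem adjoin_x_j_eq (hq : q.Prime) :
    (adjoin (adjoin E ({jqModC E * qExpand E q (jqModC E)} : Set (LaurentSeries E)))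
      ({jqModC E} : Set (LaurentSeries E))).restrictScalars E =
      modularFunctionFieldFullC E q := by
  rw [adjoin_adjoin_left, fullC_prime E q hq]
  apply le_antisymm
  · rw [adjoin_le_iff]
    rintro f (hf | hf)
    · rw [Set.mem_singleton_iff] at hf
      rw [hf]
      exact mul_mem (subset_adjoin E _ (Set.mem_insert _ _))
        (subset_adjoin E _ (Set.mem_insert_of_mem _ rfl))
    · rw [Set.mem_singleton_iff] at hf
      rw [hf]
      exact subset_adjoin E _ (Set.mem_insert _ _)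
  · rw [adjoin_le_iff]
    have hj : jqModC E ∈ adjoin E (({jqModC E * qExpand E q (jqModC E)} : Set (LaurentSeries E))
        ∪ {jqModC E}) := subset_adjoin E _ (Set.mem_union_right _ rfl)
    have hx : jqModC E * qExpand E q (jqModC E) ∈
        adjoin E (({jqModC E * qExpand E q (jqModC E)} : Set (LaurentSeries E))
        ∪ {jqModC E}) := subset_adjoin E _ (Set.mem_union_left _ rfl)
    rintro f (hf | hf)
    · rw [hf]; exact hj
    · rw [Set.mem_singleton_iff] at hf
      rw [hf]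
      have h3 : qExpand E q (jqModC E) =
          (jqModC E)⁻¹ * (jqModC E * qExpand E q (jqModC E)) := by
        rw [← mul_assoc, inv_mul_cancel₀ (jqModC_ne_zero_E E), one_mul]
      have h4 := mul_mem (inv_mem hj) hx
      rwa [← h3] at h4

theorem adjoin_x_le_fullC (hq : q.Prime) :
    adjoin E ({jqModC E * qExpand E q (jqModC E)} : Set (LaurentSeries E)) ≤
      modularFunctionFieldFullC E q := by
  rw [fullC_prime E q hq, adjoin_le_iff]
  rintro f hf
  rw [Set.mem_singleton_iff] at hf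
  rw [hf]
  exact mul_mem (subset_adjoin E _ (Set.mem_insert _ _))
    (subset_adjoin E _ (Set.mem_insert_of_mem _ rfl))

/-- **Upper bound** `0 < [K₂ : E(x)] ≤ 2 (q + 1)`. -/
theorem relfinrank_x_fullC_le (hq : q.Prime) :
    0 < (adjoin E ({jqModC E * qExpand E q (jqModC E)} : Set (LaurentSeries E))).relfinrank
        (modularFunctionFieldFullC E q) ∧
      (adjoin E ({jqModC E * qExpand E q (jqModC E)} : Set (LaurentSeries E))).relfinrank
        (modularFunctionFieldFullC E q) ≤ 2 * (q + 1) := by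
  obtain ⟨D⟩ := H807.nonempty_modPolyData q hq
  set A := adjoin E ({jqModC E * qExpand E q (jqModC E)} : Set (LaurentSeries E)) with hA
  have hroot : D.Φ.eval₂ (evZ (qExpand E q (jqModC E))) (jqModC E) = 0 := by
    rw [← evZ_of_algebra]
    exact H145.modPoly_eval_j_field D
  obtain ⟨P, hP0, hPdeg, hProot⟩ := exists_poly_of_mul (K := A) (L := LaurentSeries E) D.Φ
    D.monic D.natDegree_eq (natDegree_swap_modPoly q hq D)
    ⟨jqModC E * qExpand E q (jqModC E), mem_adjoin_simple_self E _⟩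
    (jqModC E) (qExpand E q (jqModC E)) rfl hroot
  obtain ⟨h1, h2⟩ := relfinrank_le_of_root A (modularFunctionFieldFullC E q)
    (adjoin_x_le_fullC E q hq) (jqModC E) (adjoin_x_j_eq E q hq) P hP0 hProot
  exact ⟨h1, h2.trans (by omega)⟩

/-- **Lower bound** `2 (q + 1) ≤ [K₂ : E(x)]`. -/
theorem le_relfinrank_x_fullC (hq : q.Prime) :
    2 * (q + 1) ≤
      (adjoin E ({jqModC E * qExpand E q (jqModC E)} : Set (LaurentSeries E))).relfinrank
        (modularFunctionFieldFullC E q) := by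
  have hpos := (relfinrank_x_fullC_le E q hq).1
  rw [← FE_eq_fullC, ← coe_xq, ← finrank_adjoin_eq_relfinrank] at hpos ⊢
  have : Module.Finite (adjoin E ({xq E q} : Set (_root_.Fermat.Agent.A2.Mod.FE E q))) (_root_.Fermat.Agent.A2.Mod.FE E q) :=
    Module.finite_of_finrank_pos hpos
  have h := (linearIndependent_pow E q hq.two_le).fintype_card_le_finrank
  rw [Fintype.card_sum, Fintype.card_fin] at h
  omega

theorem relfinrank_x_fullC (hq : q.Prime) :
    (adjoin E ({jqModC E * qExpand E q (jqModC E)} : Set (LaurentSeries E))).relfinrank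
        (modularFunctionFieldFullC E q) = 2 * (q + 1) :=
  le_antisymm (relfinrank_x_fullC_le E q hq).2 (le_relfinrank_x_fullC E q hq)

/-- `[F_{Mq} : K₂] = ψ(M)` -/
theorem relfinrank_fullC_fullC (M : ℕ) (hM : M ≠ 0) (hq : q.Prime) (hqM : ¬ q ∣ M) :
    (modularFunctionFieldFullC E q).relfinrank (modularFunctionFieldFullC E (M * q)) =
      dedekindPsi M := by
  have hN : M * q ≠ 0 := Nat.mul_ne_zero hM hq.ne_zero
  have h1 : (jField E).relfinrank (modularFunctionFieldFullC E q) = q + 1 := by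
    rw [H988.relfinrank_jField_full_eq E q hq.ne_zero
      (fun p hp _ => natCast_ne_zero_E E hp.ne_zero)]
    have := H626.psi_mul_prime_of_not_dvd (N := 1) one_ne_zero hq
      (fun h => hq.one_lt.ne' (Nat.dvd_one.mp h))
    rw [one_mul, dedekindPsi_one, mul_one] at this
    exact this
  have h2 : (jField E).relfinrank (modularFunctionFieldFullC E (M * q)) =
      (q + 1) * dedekindPsi M := by
    rw [H988.relfinrank_jField_full_eq E (M * q) hN
      (fun p hp _ => natCast_ne_zero_E E hp.ne_zero)]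
    exact H626.psi_mul_prime_of_not_dvd hM hq hqM
  have hle1 : jField E ≤ modularFunctionFieldFullC E q := by
    rw [jField, ← H988.full_one]
    exact H988.full_mono E hq.ne_zero (one_dvd q)
  have hle2 : modularFunctionFieldFullC E q ≤ modularFunctionFieldFullC E (M * q) :=
    H988.full_mono E hN (dvd_mul_left q M)
  have h3 := relfinrank_mul_relfinrank hle1 hle2
  rw [h1, h2] at h3
  exact Nat.eq_of_mul_eq_mul_left (Nat.succ_pos q) h3

end LevelQ

/-! ## The leaf -/

section Leaf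

variable (E : IntermediateField ℚ _root_.Fermat.Agent.A2.Mod.Qb) (M q : ℕ) [NeZero M] [NeZero q]

/-- **L8** (exact frozen leaf of `Mod/Spec.lean`). -/
theorem deg : DegStatement E M q := by
  intro hq hqM
  refine ⟨transcendental_xE E M q, ?_, fun f hf => mem_range_of_isAlgebraic E (M * q) f hf⟩
  have hN : M * q ≠ 0 := Nat.mul_ne_zero (NeZero.ne M) hq.ne_zero
  rw [finrank_adjoin_eq_relfinrank, coe_xE, FE_eq_fullC]
  rw [← relfinrank_mul_relfinrank (adjoin_x_le_fullC E q hq)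
    (Fermat.Agent.S28.H988.full_mono E hN (dvd_mul_left q M)),
    relfinrank_x_fullC E q hq, relfinrank_fullC_fullC E q M (NeZero.ne M) hq hqM]
  ring

end Leaf

end Fermat.Agent.A2.Mod.H816

end

end
-- ===== PACK-END A2/Mod/H816/L8.lean

-- ===== PACK-BEGIN S36/Mod3/H439/FF.lean
section




/-!
# S36 / MOD3 leaf `LeafFF` (helper439)

`x = j · j_q · j_{q²}` at level `M q q`:

* `x` is transcendental over `E` (pole of order `1 + q + q²` at `∞`);
* `F_{Mqq}` is finite over `E(x)` (finite over `E(j)` by the degree formula, then exchange);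
* `E` is algebraically closed in `F_{Mqq}` (`A2.Mod.H816.mem_range_of_isAlgebraic`, any level).

Main result: `leafFF : Mod3.LeafFF` (exact frozen leaf of `Mod3/Spec.lean`).
The auxiliary statements hold at every level `N ≠ 0` and for every product of `j_d`'s.
-/

set_option autoImplicit false
set_option linter.unusedSectionVars false
set_option synthInstance.maxHeartbeats 400000
set_option maxHeartbeats 1600000

noncomputable section

namespace Fermat.Agent.S36.Mod3.H439

open ModularCurve IntermediateField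
open Fermat.Agent.A2.Mod Fermat.Agent.A2.Mod.H816

variable (E : IntermediateField ℚ A2.Qb)

/-- `j` is transcendental over `E` at every level. -/
theorem transcendental_j1_h439 (N : ℕ) :
    Transcendental E (jE E N 1 (one_dvd N)) := by
  refine transcendental_of_addVal_neg (vInf E N) (fun c hc => vInf_algebraMap E N hc)
    (a := -((1 : ℕ) : ℤ)) (by norm_num) (vInf_jE E N 1 (one_dvd N))

/-- `F_N` is finite over `E(j)` at every level `N ≠ 0`. -/
theorem finiteDimensional_j1_h439 (N : ℕ) (hN : N ≠ 0) :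
    FiniteDimensional (adjoin E ({jE E N 1 (one_dvd N)} : Set (FE E N))) (FE E N) := by
  have h := Fermat.Agent.S28.H988.relfinrank_jField_full_eq E N hN
    (fun p hp _ => natCast_ne_zero_E E hp.ne_zero)
  rw [Fermat.Agent.S28.jField] at h
  have hpos : 0 < Module.finrank (adjoin E ({jE E N 1 (one_dvd N)} : Set (FE E N))) (FE E N) := by
    rw [finrank_adjoin_eq_relfinrank, H873.coe_jE, qExpand_one_apply, FE_eq_fullC, h]
    exact Fermat.Agent.S28.H988.dedekindPsi_pos N hN
  exact Module.finite_of_finrank_pos hpos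

/-- `F_N` is finite over `E(y)` for every transcendental `y` (level `N ≠ 0`). -/
theorem finiteDimensional_of_transcendental_h439 (N : ℕ) (hN : N ≠ 0) {y : FE E N}
    (hy : Transcendental E y) :
    FiniteDimensional (adjoin E ({y} : Set (FE E N))) (FE E N) := by
  have hfin := finiteDimensional_j1_h439 E N hN
  exact Fermat.Agent.S24.FF.finiteDimensional_adjoin_of_transcendental
    (transcendental_j1_h439 E N) hy

section X3

variable (M q : ℕ) [NeZero M] [NeZero q] [NeZero (M * q)]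

/-- `vInf x = -(1 + q + q²)` at level `M q q`. -/
theorem vInf_x3E_h439 :
    vInf E (M * q * q) (x3E E M q) = ((-(1 + (q : ℤ) + q * q) : ℤ) : WithTop ℤ) := by
  rw [x3E, j1, jq, jqq,
    addVal_mul_coe _ (addVal_mul_coe _ (vInf_jE E (M * q * q) 1 (one_dvd _))
      (vInf_jE E (M * q * q) q (Dvd.intro_left (M * q) rfl)))
      (vInf_jE E (M * q * q) (q * q) ⟨M, by ring⟩)]
  congr 1
  push_cast
  ring

/-- `x = j j_q j_{q²}` is transcendental over `E`. -/
theorem transcendental_x3E_h439 : Transcendental E (x3E E M q) := by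
  refine transcendental_of_addVal_neg (vInf E (M * q * q))
    (fun c hc => vInf_algebraMap E _ hc) (a := -(1 + (q : ℤ) + q * q)) ?_ (vInf_x3E_h439 E M q)
  have h1 : (0 : ℤ) ≤ q := Int.natCast_nonneg q
  have h2 : (0 : ℤ) ≤ (q : ℤ) * q := mul_nonneg h1 h1
  omega

/-- The FF part of the three-component context, at every level `M q q` (no hypothesis on `q`). -/
theorem partFF_h439 : PartFF E (x3E E M q) where
  hx := transcendental_x3E_h439 E M q
  hfin := finiteDimensional_of_transcendental_h439 E (M * q * q)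
    (Nat.mul_ne_zero (NeZero.ne (M * q)) (NeZero.ne q)) (transcendental_x3E_h439 E M q)
  hconst := fun f hf => mem_range_of_isAlgebraic E (M * q * q) f hf

end X3

/-- **MOD3 leaf FF** (exact frozen leaf of `Mod3/Spec.lean`). -/
theorem leafFF : LeafFF := fun E M q _ _ _ _ _ => partFF_h439 E M q

end Fermat.Agent.S36.Mod3.H439

end

end
-- ===== PACK-END S36/Mod3/H439/FF.lean

-- ===== PACK-BEGIN S36/H816/SymKron.lean
section



/-!
# S36 / MOD3-SYM, part 2 (helper816): Kronecker congruences for the generators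

`V = V∞` the Gauss valuation ring of `F_N` (`IsVinf`), `P` over the prime `q`.

* `natCast_mem_nonunits` : `q ∈ 𝔪_V`;
* `kron_jE` : `j_{dq} - j_d ^ q ∈ 𝔪_V` for `d q ∣ N`   (no Frobenius lift needed);
* `sub_mem_nonunits_of_pow` : in a valuation ring with `q ∈ 𝔪`, `x^q - y^q ∈ 𝔪 ⟹ x - y ∈ 𝔪`.
-/

set_option autoImplicit false
set_option linter.unusedSectionVars false
set_option linter.style.haveILetI false
set_option synthInstance.maxHeartbeats 400000
set_option maxHeartbeats 1600000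

noncomputable section

namespace Fermat.Agent.S36.H816

open ModularCurve HahnSeries Polynomial
open Fermat.Agent Fermat.Agent.A2.Mod Fermat.Agent.A2.H708 Fermat.Agent.S28

section Val

variable {F : Type*} [Field F] (V : ValuationSubring F)

theorem add_mem_nonunits {x y : F} (hx : x ∈ V.nonunits) (hy : y ∈ V.nonunits) :
    x + y ∈ V.nonunits := by
  rw [ValuationSubring.mem_nonunits_iff] at hx hy ⊢
  exact lt_of_le_of_lt (V.valuation.map_add x y) (max_lt hx hy)

theorem neg_mem_nonunits {x : F} (hx : x ∈ V.nonunits) : -x ∈ V.nonunits := by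
  rw [ValuationSubring.mem_nonunits_iff] at hx ⊢
  rwa [Valuation.map_neg]

theorem sub_mem_nonunits {x y : F} (hx : x ∈ V.nonunits) (hy : y ∈ V.nonunits) :
    x - y ∈ V.nonunits := by
  rw [sub_eq_add_neg]
  exact add_mem_nonunits V hx (neg_mem_nonunits V hy)

theorem mul_mem_nonunits_left {x y : F} (hx : x ∈ V.nonunits) (hy : y ∈ V) :
    x * y ∈ V.nonunits := by
  rw [ValuationSubring.mem_nonunits_iff] at hx ⊢
  rw [map_mul]
  exact mul_lt_one_of_lt_of_le hx ((ValuationSubring.valuation_le_one_iff V y).mpr hy)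

theorem mul_mem_nonunits_right {x y : F} (hx : x ∈ V) (hy : y ∈ V.nonunits) :
    x * y ∈ V.nonunits := by
  rw [mul_comm]
  exact mul_mem_nonunits_left V hy hx

theorem mem_of_mem_nonunits {x : F} (hx : x ∈ V.nonunits) : x ∈ V :=
  ValuationSubring.nonunits_subset hx

theorem pow_mem_nonunits_iff {x : F} {n : ℕ} (hn : n ≠ 0) :
    x ^ n ∈ V.nonunits ↔ x ∈ V.nonunits := by
  rw [ValuationSubring.mem_nonunits_iff, ValuationSubring.mem_nonunits_iff, map_pow]
  exact pow_lt_one_iff hn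

/-- `x ≡ y` and `y ∉ 𝔪` ⟹ `x ∉ 𝔪`. -/
theorem not_mem_nonunits_of_sub {x y : F} (hxy : x - y ∈ V.nonunits) (hy : y ∉ V.nonunits) :
    x ∉ V.nonunits := by
  intro hx
  apply hy
  have : y = x - (x - y) := by ring
  rw [this]
  exact sub_mem_nonunits V hx hxy

/-- `a ≡ b` ⟹ `a ^ n ≡ b ^ n`. -/
theorem pow_sub_pow_mem_nonunits {a b : F} (ha : a ∈ V) (hb : b ∈ V)
    (hab : a - b ∈ V.nonunits) (n : ℕ) : a ^ n - b ^ n ∈ V.nonunits := by
  induction n with
  | zero => simp only [pow_zero, sub_self]; rw [ValuationSubring.mem_nonunits_iff]; simp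
  | succ n ih =>
      have e : a ^ (n + 1) - b ^ (n + 1) = (a ^ n - b ^ n) * a + b ^ n * (a - b) := by ring
      rw [e]
      exact add_mem_nonunits V (mul_mem_nonunits_left V ih ha)
        (mul_mem_nonunits_right V (pow_mem hb n) hab)

/-- `a ≡ a'`, `b ≡ b'` ⟹ `a b ≡ a' b'`. -/
theorem mul_sub_mul_mem_nonunits {a a' b b' : F} (ha' : a' ∈ V) (hb : b ∈ V)
    (haa : a - a' ∈ V.nonunits) (hbb : b - b' ∈ V.nonunits) : a * b - a' * b' ∈ V.nonunits := by
  have e : a * b - a' * b' = (a - a') * b + a' * (b - b') := by ring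
  rw [e]
  exact add_mem_nonunits V (mul_mem_nonunits_left V haa hb) (mul_mem_nonunits_right V ha' hbb)

/-- In a valuation ring with `q ∈ 𝔪` (`q` prime): `x ^ q - y ^ q ∈ 𝔪 ⟹ x - y ∈ 𝔪`. -/
theorem sub_mem_nonunits_of_pow {q : ℕ} (hq : q.Prime) (hqV : ((q : ℕ) : F) ∈ V.nonunits)
    {x y : F} (hx : x ∈ V) (hy : y ∈ V) (h : x ^ q - y ^ q ∈ V.nonunits) :
    x - y ∈ V.nonunits := by
  haveI : Fact q.Prime := ⟨hq⟩
  set k := IsLocalRing.ResidueField V with hk
  have hchar : CharP k q := by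
    rw [CharP.charP_iff_prime_eq_zero hq]
    have h1 : IsLocalRing.residue V ((q : ℕ) : V) = 0 := by
      rw [IsLocalRing.residue_eq_zero_iff, ← ValuationSubring.coe_mem_nonunits_iff]
      have : (((q : ℕ) : V) : F) = ((q : ℕ) : F) := by simp
      rw [this]
      exact hqV
    rw [map_natCast] at h1
    exact h1
  set X : V := ⟨x, hx⟩
  set Y : V := ⟨y, hy⟩
  have h2 : IsLocalRing.residue V (X ^ q - Y ^ q) = 0 := by
    rw [IsLocalRing.residue_eq_zero_iff, ← ValuationSubring.coe_mem_nonunits_iff]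
    exact h
  have h3 : (IsLocalRing.residue V (X - Y)) ^ q = 0 := by
    rw [map_sub, sub_pow_char, ← map_pow, ← map_pow, ← map_sub]
    exact h2
  have h4 : IsLocalRing.residue V (X - Y) = 0 := pow_eq_zero_iff (hq.ne_zero) |>.mp h3
  rw [IsLocalRing.residue_eq_zero_iff, ← ValuationSubring.coe_mem_nonunits_iff] at h4
  exact h4

end Val

/-! ## Kronecker for the generators -/

section Kron

variable {P : ValuationSubring Qb} {E : IntermediateField ℚ Qb}

theorem natCast_mem_nonunits [IsDiscreteValuationRing (RE P E)] {q : ℕ}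
    (hP : P.LiesOverPrime q) {N : ℕ} {V : ValuationSubring (FE E N)} (hV : IsVinf P E N V) :
    ((q : ℕ) : FE E N) ∈ V.nonunits := by
  have hqE : ((q : ℕ) : E) ∈ (RE P E).nonunits := by
    rw [ValuationSubring.mem_nonunits_iff_or]
    by_cases h0 : ((q : ℕ) : E) = 0
    · exact Or.inl h0
    · right
      intro hmem
      have hmem' : algebraMap E Qb (((q : ℕ) : E)⁻¹) ∈ P := hmem
      rw [map_inv₀, map_natCast] at hmem'
      have hq' : ((q : ℕ) : Qb) ∈ P.nonunits := hP
      rw [ValuationSubring.mem_nonunits_iff_or] at hq'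
      rcases hq' with h | h
      · apply h0
        have : algebraMap E Qb ((q : ℕ) : E) = 0 := by rw [map_natCast]; exact h
        exact (map_eq_zero (algebraMap E Qb)).mp this
      · exact h hmem'
  have hmem : ((q : ℕ) : E) ∈ RE P E := ValuationSubring.nonunits_subset hqE
  have hr : (⟨((q : ℕ) : E), hmem⟩ : RE P E) ∈ IsLocalRing.maximalIdeal (RE P E) := by
    rw [← ValuationSubring.coe_mem_nonunits_iff]
    exact hqE
  have h := (A2.Mod.H13.isOver_of_isVinf hV).nonunit _ hr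
  have e : algebraMap (RE P E) (FE E N) ⟨((q : ℕ) : E), hmem⟩ = ((q : ℕ) : FE E N) := by
    rw [A2.Mod.H13.algebraMap_RE_eq]
    exact map_natCast (algebraMap E (FE E N)) q
  rw [e] at h
  exact h

theorem coe_jE_eq_jser (N d : ℕ) [NeZero d] (hd : d ∣ N) :
    ((jE E N d hd : FE E N) : LaurentSeries E) = H378.jser E d :=
  (H378.jser_eq_coeffEmb E d).symm

theorem jE_mem [IsDiscreteValuationRing (RE P E)] {N : ℕ} {V : ValuationSubring (FE E N)}
    (hV : IsVinf P E N V) (d : ℕ) [NeZero d] (hd : d ∣ N) : jE E N d hd ∈ V :=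
  H378.jser_mem_V hV (coe_jE_eq_jser N d hd)

theorem jE_congr (N : ℕ) {d d' : ℕ} [NeZero d] [NeZero d'] (h : d = d') (hd : d ∣ N)
    (hd' : d' ∣ N) : jE E N d hd = jE E N d' hd' := by
  subst h
  rfl

/-- polynomial expressions: `a ≡ b ⟹ p(a) ≡ p(b)`. -/
theorem aeval_sub_aeval_mem_nonunits {R F : Type*} [CommRing R] [Field F] [Algebra R F]
    (V : ValuationSubring F) (hR : ∀ r : R, algebraMap R F r ∈ V) {a b : F} (ha : a ∈ V)
    (hb : b ∈ V) (hab : a - b ∈ V.nonunits) (p : Polynomial R) :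
    Polynomial.aeval a p - Polynomial.aeval b p ∈ V.nonunits := by
  induction p using Polynomial.induction_on' with
  | add p₁ p₂ h₁ h₂ =>
      have e : Polynomial.aeval a (p₁ + p₂) - Polynomial.aeval b (p₁ + p₂)
          = (Polynomial.aeval a p₁ - Polynomial.aeval b p₁)
            + (Polynomial.aeval a p₂ - Polynomial.aeval b p₂) := by
        rw [map_add, map_add]; ring
      rw [e]
      exact add_mem_nonunits V h₁ h₂
  | monomial n r =>
      have e : Polynomial.aeval a (Polynomial.monomial n r)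
          - Polynomial.aeval b (Polynomial.monomial n r)
          = algebraMap R F r * (a ^ n - b ^ n) := by
        rw [Polynomial.aeval_monomial, Polynomial.aeval_monomial]; ring
      rw [e]
      exact mul_mem_nonunits_right V (hR r) (pow_sub_pow_mem_nonunits V ha hb hab n)

/-- `j_{dq} ^ q - j_d` is a unit of `V∞`. -/
theorem kron_unit_jE [IsDiscreteValuationRing (RE P E)] {q : ℕ} [NeZero q] (hq : q.Prime)
    {N : ℕ} {V : ValuationSubring (FE E N)} (hV : IsVinf P E N V)
    (d : ℕ) [NeZero d] (hd : d ∣ N) (hdq : d * q ∣ N) :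
    (jE E N (d * q) hdq) ^ q - jE E N d hd ≠ 0 ∧
      ((jE E N (d * q) hdq) ^ q - jE E N d hd)⁻¹ ∈ V := by
  set x : FE E N := jE E N (d * q) hdq with hx
  set y : FE E N := jE E N d hd with hy
  have hxc : (x : LaurentSeries E) = H378.jser E (d * q) := coe_jE_eq_jser N (d * q) hdq
  have hyc : (y : LaurentSeries E) = H378.jser E d := coe_jE_eq_jser N d hd
  have hsc : ((x ^ q - y : FE E N) : LaurentSeries E)
      = incl (RE P E) (castA (RE P E) (jInt (d * q) ^ q - jInt d)) := by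
    rw [H378.incl_sInt, ← H378.valHom_apply, map_sub, map_pow, H378.valHom_apply,
      H378.valHom_apply, hxc, hyc]
  have hred := H378.red_sInt_ne_zero E (RE P E) q hq.two_le d
  have hs0 : x ^ q - y ≠ 0 := by
    intro h
    have h1 : ((x ^ q - y : FE E N) : LaurentSeries E) = 0 := by
      rw [h]
      rfl
    rw [hsc] at h1
    exact incl_ne_zero _ (ne_zero_of_red_ne_zero _ hred) h1
  refine ⟨hs0, ?_⟩
  rw [hV, IntermediateField.coe_inv, hsc]
  refine H378.isGaussInt_inv_of_prim _ hred ?_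
  rw [← hsc]
  exact (x ^ q - y).2

/-- **Kronecker congruence for the generators**: `j_{dq} ≡ j_d ^ q mod 𝔪_{V∞}`. -/
theorem kron_jE [IsDiscreteValuationRing (RE P E)] {q : ℕ} [NeZero q] (hq : q.Prime)
    (hP : P.LiesOverPrime q) {N : ℕ} {V : ValuationSubring (FE E N)} (hV : IsVinf P E N V)
    (d : ℕ) [NeZero d] (hd : d ∣ N) (hdq : d * q ∣ N) :
    jE E N (d * q) hdq - (jE E N d hd) ^ q ∈ V.nonunits := by
  set x : FE E N := jE E N (d * q) hdq with hx
  set y : FE E N := jE E N d hd with hy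
  have hxc : (x : LaurentSeries E) = H378.jser E (d * q) := coe_jE_eq_jser N (d * q) hdq
  have hyc : (y : LaurentSeries E) = H378.jser E d := coe_jE_eq_jser N d hd
  have hxV : x ∈ V := jE_mem hV (d * q) hdq
  have hyV : y ∈ V := jE_mem hV d hd
  obtain ⟨Θ, hΘ⟩ := H378.kron_series E q hq d
  set θ : FE E N := Θ.eval₂ ((Polynomial.aeval (R := ℤ) y).toRingHom) x with hθ
  have hθV : θ ∈ V := by
    refine H378.eval₂_mem_subring _ x V.toSubring (fun r => ?_) hxV Θ
    show Polynomial.aeval y r ∈ V.toSubring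
    rw [Polynomial.aeval_def]
    refine H378.eval₂_mem_subring _ y V.toSubring (fun n => ?_) hyV r
    rw [eq_intCast]
    exact intCast_mem V.toSubring n
  have hθc : (θ : LaurentSeries E) = Θ.eval₂ (evalAt (H378.jser E d)) (H378.jser E (d * q)) := by
    rw [← H378.valHom_apply, hθ, Polynomial.hom_eval₂, H378.valHom_comp_aeval,
      H378.valHom_apply, hxc, hyc]
  -- the unit `s`
  have hsc : ((x ^ q - y : FE E N) : LaurentSeries E)
      = incl (RE P E) (castA (RE P E) (jInt (d * q) ^ q - jInt d)) := by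
    rw [H378.incl_sInt, ← H378.valHom_apply, map_sub, map_pow, H378.valHom_apply,
      H378.valHom_apply, hxc, hyc]
  have hred := H378.red_sInt_ne_zero E (RE P E) q hq.two_le d
  have hs0 : x ^ q - y ≠ 0 := by
    intro h
    have h1 : ((x ^ q - y : FE E N) : LaurentSeries E) = 0 := by
      rw [h]
      rfl
    rw [hsc] at h1
    exact incl_ne_zero _ (ne_zero_of_red_ne_zero _ hred) h1
  have hsi : (x ^ q - y)⁻¹ ∈ V := by
    rw [hV, IntermediateField.coe_inv, hsc]
    refine H378.isGaussInt_inv_of_prim _ hred ?_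
    rw [← hsc]
    exact (x ^ q - y).2
  have hkey : (x ^ q - y) * (x - y ^ q) = -(((q : ℕ) : FE E N) * θ) := by
    apply Subtype.ext
    have hL : (((x ^ q - y) * (x - y ^ q) : FE E N) : LaurentSeries E)
        = (H378.jser E (d * q) ^ q - H378.jser E d) * (H378.jser E (d * q) - H378.jser E d ^ q) := by
      rw [← H378.valHom_apply, map_mul, map_sub, map_sub, map_pow, map_pow, H378.valHom_apply,
        H378.valHom_apply, hxc, hyc]
    have hR : ((-(((q : ℕ) : FE E N) * θ) : FE E N) : LaurentSeries E)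
        = -(((q : ℕ) : LaurentSeries E) *
            Θ.eval₂ (evalAt (H378.jser E d)) (H378.jser E (d * q))) := by
      rw [← H378.valHom_apply, map_neg, map_mul, map_natCast, H378.valHom_apply, hθc]
    rw [hL, hR]
    linear_combination hΘ
  have hfin : x - y ^ q = (x ^ q - y)⁻¹ * -(((q : ℕ) : FE E N) * θ) := by
    rw [← hkey, ← mul_assoc, inv_mul_cancel₀ hs0, one_mul]
  rw [hfin]
  exact mul_mem_nonunits_right V hsi
    (neg_mem_nonunits V (mul_mem_nonunits_left V (natCast_mem_nonunits hP hV) hθV))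

end Kron

end Fermat.Agent.S36.H816

end

end
-- ===== PACK-END S36/H816/SymKron.lean

-- ===== PACK-BEGIN S36/H816/SymMid.lean
section







/-!
# S36 / MOD3-SYM, part 3 (helper816): the middle valuation and `β`

Levels `N' = M q` (`q ∤ M`) and `N = M q²`, `α = heckeAlphaBar E (M q) q`,
`β = heckeBetaBar E (M q) q : F_{N'} → F_N`.  `V₁ = V∞(N')`, `V₂ = V₁ ∘ W₁` (Fricke of level `N'`).

A valuation subring `Vm` of `F_N` is a **middle** valuation ring (`IsMid V₁ Vm`) if
`Vm.comap α = V₁` and `π = j_{q²} - j ∈ 𝔪_{Vm}`   (this is how `V_mid` is produced by the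
Eisenstein-split theorem of helper972: the extension of `V₁` with `j_{q²} ≡ j`).

* `IsMid.comap_beta` : `Vm.comap β = V₂`                        (table, row MID, column `β`);
* `IsMid.gen_cong`   : `j_{d q²} ≡ j_d mod 𝔪_{Vm}` for every `d ∣ M`;
* `IsMid.fricke`     : `IsMid V₁ (Vm ∘ W)`, `W` the Fricke involution of level `N`.
-/

set_option autoImplicit false
set_option linter.unusedSectionVars false
set_option linter.style.haveILetI false
set_option synthInstance.maxHeartbeats 400000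
set_option maxHeartbeats 1600000

noncomputable section

namespace Fermat.Agent.S36.H816

open ModularCurve HahnSeries Polynomial IntermediateField
open Fermat.Agent Fermat.Agent.A2.Mod Fermat.Agent.A2.H708 Fermat.Agent.S28

variable {P : ValuationSubring Qb} {E : IntermediateField ℚ Qb}

/-! ## Polar elements -/

section Polar

variable {N : ℕ}

theorem isPolar_one : A2.Mod.H13.IsPolar E N (1 : FE E N) 0 := by
  refine ⟨1, ⟨fun n hn => ?_, ?_⟩, ?_⟩
  · have hn' : n ≠ 0 := by
      intro h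
      rw [h] at hn
      simp at hn
    show (1 : LaurentSeries ℤ).coeff n = 0
    rw [HahnSeries.coeff_one, if_neg hn']
  · show (1 : LaurentSeries ℤ).coeff (-((0 : ℕ) : ℤ)) = 1
    simp
  · show ((1 : FE E N) : LaurentSeries E) = coeffEmb E (castQ 1)
    rw [map_one, map_one]
    rfl

theorem isPolar_pow {u : FE E N} {a : ℕ} (h : A2.Mod.H13.IsPolar E N u a) (n : ℕ) :
    A2.Mod.H13.IsPolar E N (u ^ n) (n * a) := by
  induction n with
  | zero => rw [pow_zero, Nat.zero_mul]; exact isPolar_one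
  | succ n ih =>
      rw [pow_succ, Nat.succ_mul]
      exact ih.mul h

theorem transcendental_jE (N : ℕ) (d : ℕ) [NeZero d] (hd : d ∣ N) :
    Transcendental E (jE E N d hd) := by
  refine A2.Mod.H816.transcendental_of_addVal_ne_zero (A2.Mod.H816.vInf E N)
    (fun c hc => A2.Mod.H816.vInf_algebraMap E _ hc) (a := -(d : ℤ)) ?_
    (A2.Mod.H816.vInf_jE E N d hd)
  have : (d : ℤ) ≠ 0 := by exact_mod_cast NeZero.ne d
  omega

end Polar

/-! ## Middle valuation rings -/

section Mid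

variable (E) (M q : ℕ) [NeZero M] [NeZero q]

/-- `π = j_{q²} - j` at level `M q²`. -/
def piMid : FE E (M * q * q) :=
  jE E (M * q * q) (q * q) (Dvd.intro_left M (mul_assoc M q q).symm) -
    jE E (M * q * q) 1 (one_dvd _)

variable {E M q}

/-- `Vm` is a middle valuation ring of level `M q²`: it lies over `V₁ = V∞(M q)` via `α` and
`j_{q²} ≡ j`. -/
structure IsMid (V₁ : ValuationSubring (FE E (M * q)))
    (Vm : ValuationSubring (FE E (M * q * q))) : Prop where
  comap_alpha : ∀ g : FE E (M * q), heckeAlphaBar E (M * q) q g ∈ Vm ↔ g ∈ V₁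
  pi_mem : piMid E M q ∈ Vm.nonunits

variable {w : RE P E} {V₁ : ValuationSubring (FE E (M * q))}
  {Vm : ValuationSubring (FE E (M * q * q))}

namespace IsMid

theorem alpha_nonunits (h : IsMid V₁ Vm) (g : FE E (M * q)) :
    heckeAlphaBar E (M * q) q g ∈ Vm.nonunits ↔ g ∈ V₁.nonunits :=
  mem_nonunits_iff_of_comap (heckeAlphaBar E (M * q) q : FE E (M * q) →+* FE E (M * q * q))
    h.comap_alpha g

/-- generators of level `M q` lie in `Vm`. -/
theorem jE_mem_of_dvd [IsDiscreteValuationRing (RE P E)] (h : IsMid V₁ Vm)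
    (hV₁ : IsVinf P E (M * q) V₁) (d : ℕ) [NeZero d] (hd : d ∣ M * q) :
    jE E (M * q * q) d (hd.trans (dvd_mul_right _ q)) ∈ Vm := by
  rw [← A2.Mod.H553.αE_jE E (M * q) q d hd]
  exact (h.comap_alpha _).mpr (jE_mem hV₁ d hd)

theorem natCast_mem (h : IsMid V₁ Vm) [IsDiscreteValuationRing (RE P E)]
    (hP : P.LiesOverPrime q) (hV₁ : IsVinf P E (M * q) V₁) :
    ((q : ℕ) : FE E (M * q * q)) ∈ Vm.nonunits := by
  have h1 := (h.alpha_nonunits ((q : ℕ) : FE E (M * q))).mpr (natCast_mem_nonunits hP hV₁)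
  rwa [map_natCast] at h1

/-- `j_{dq} ≡ j_d ^ q mod 𝔪_{Vm}` for `d ∣ M` (Kronecker on `V₁`, pushed by `α`). -/
theorem kronA [IsDiscreteValuationRing (RE P E)] (h : IsMid V₁ Vm) (hq : q.Prime)
    (hP : P.LiesOverPrime q) (hV₁ : IsVinf P E (M * q) V₁) (d : ℕ) [NeZero d] (hd : d ∣ M) :
    jE E (M * q * q) (d * q) ((mul_dvd_mul_right hd q).trans (dvd_mul_right _ q)) -
      (jE E (M * q * q) d ((hd.trans (dvd_mul_right M q)).trans (dvd_mul_right _ q))) ^ q
      ∈ Vm.nonunits := by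
  have h1 := kron_jE hq hP hV₁ d (hd.trans (dvd_mul_right M q)) (mul_dvd_mul_right hd q)
  have h2 := (h.alpha_nonunits _).mpr h1
  rw [map_sub, map_pow, A2.Mod.H553.αE_jE, A2.Mod.H553.αE_jE] at h2
  exact h2

/-- `j_{q²} ∈ Vm`. -/
theorem jqq_mem [IsDiscreteValuationRing (RE P E)] (h : IsMid V₁ Vm)
    (hV₁ : IsVinf P E (M * q) V₁) :
    jE E (M * q * q) (q * q) (Dvd.intro_left M (mul_assoc M q q).symm) ∈ Vm := by
  have h1 : jE E (M * q * q) (q * q) (Dvd.intro_left M (mul_assoc M q q).symm)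
      = piMid E M q + jE E (M * q * q) 1 (one_dvd _) := by
    rw [piMid]; ring
  rw [h1]
  exact Vm.add_mem _ _ (mem_of_mem_nonunits Vm h.pi_mem)
    (h.jE_mem_of_dvd hV₁ 1 (one_dvd _))

/-- `β x ≡ α (j ^ (q+1)) mod 𝔪_{Vm}`, `x = j j_q` the coordinate of level `M q`. -/
theorem beta_xE_sub [IsDiscreteValuationRing (RE P E)] (h : IsMid V₁ Vm) (hq : q.Prime)
    (hP : P.LiesOverPrime q) (hV₁ : IsVinf P E (M * q) V₁) :
    heckeBetaBar E (M * q) q (xE E M q) -
      heckeAlphaBar E (M * q) q ((jE E (M * q) 1 (one_dvd _)) ^ (q + 1)) ∈ Vm.nonunits := by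
  have hA := h.kronA hq hP hV₁ 1 (one_dvd M)
  have hπ := h.pi_mem
  rw [piMid] at hπ
  have e1 : heckeBetaBar E (M * q) q (xE E M q)
      = jE E (M * q * q) (1 * q) ((mul_dvd_mul_right (one_dvd M) q).trans (dvd_mul_right _ q)) *
        jE E (M * q * q) (q * q) (Dvd.intro_left M (mul_assoc M q q).symm) := by
    rw [xE, map_mul]
    have hb1 := A2.Mod.H553.βE_jE E (M * q) q 1 (one_dvd _)
    have hb2 := A2.Mod.H553.βE_jE E (M * q) q q (dvd_mul_left q M)
    rw [show heckeBetaBar E (M * q) q = βE E (M * q) q from rfl, hb1, hb2]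
  have e2 : heckeAlphaBar E (M * q) q ((jE E (M * q) 1 (one_dvd _)) ^ (q + 1))
      = (jE E (M * q * q) 1 (one_dvd _)) ^ q * jE E (M * q * q) 1 (one_dvd _) := by
    rw [map_pow, show heckeAlphaBar E (M * q) q = αE E (M * q) q from rfl,
      A2.Mod.H553.αE_jE E (M * q) q 1 (one_dvd _), pow_succ]
  rw [e1, e2]
  exact mul_sub_mul_mem_nonunits Vm
    (Vm.pow_mem (h.jE_mem_of_dvd hV₁ 1 (one_dvd _)) q) (h.jqq_mem hV₁) hA hπ

end IsMid

end Mid

/-! ## `Vm ∘ β` induces the Gauss valuation on `E(x)` -/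

section Gauss

variable {M q : ℕ} [NeZero M] [NeZero q]
variable {w : RE P E} {V₁ : ValuationSubring (FE E (M * q))}
  {Vm : ValuationSubring (FE E (M * q * q))}

theorem mem_nonunits_comap_iff {F F' : Type*} [Field F] [Field F'] (φ : F' →+* F)
    (V : ValuationSubring F) (g : F') : g ∈ (V.comap φ).nonunits ↔ φ g ∈ V.nonunits :=
  (mem_nonunits_iff_of_comap φ (fun _ => ValuationSubring.mem_comap.symm) g).symm

theorem beta_algebraMap_RE [IsDiscreteValuationRing (RE P E)] (r : RE P E) :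
    heckeBetaBar E (M * q) q (algebraMap (RE P E) (FE E (M * q)) r)
      = heckeAlphaBar E (M * q) q (algebraMap (RE P E) (FE E (M * q)) r) := by
  rw [A2.Mod.H13.algebraMap_RE_eq, AlgHom.commutes, AlgHom.commutes]

/-- `Vm.comap β` lies over `R_E`. -/
theorem IsMid.isOver_comap_beta [IsDiscreteValuationRing (RE P E)] (h : IsMid V₁ Vm)
    (hV₁ : IsVinf P E (M * q) V₁) :
    A2.H489.IsOver (RE P E)
      (Vm.comap (heckeBetaBar E (M * q) q : FE E (M * q) →+* FE E (M * q * q))) where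
  mem := fun r => by
    rw [ValuationSubring.mem_comap]
    have h1 : heckeBetaBar E (M * q) q (algebraMap (RE P E) (FE E (M * q)) r) ∈ Vm := by
      rw [beta_algebraMap_RE]
      exact (h.comap_alpha _).mpr ((A2.Mod.H13.isOver_of_isVinf hV₁).mem r)
    exact h1
  nonunit := fun r hr => by
    rw [mem_nonunits_comap_iff]
    have h1 : heckeBetaBar E (M * q) q (algebraMap (RE P E) (FE E (M * q)) r) ∈ Vm.nonunits := by
      rw [beta_algebraMap_RE]
      exact (h.alpha_nonunits _).mpr ((A2.Mod.H13.isOver_of_isVinf hV₁).nonunit r hr)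
    exact h1

/-- **`Vm ∘ β` induces the Gauss valuation on `E(x)`**, `x = j j_q`. -/
theorem IsMid.isGaussOver_comap_beta (h : IsMid V₁ Vm) (hS : Setting P E M q w)
    (hV₁ : IsVinf P E (M * q) V₁) :
    haveI := hS.dvr
    A2.H489.IsGaussOver (RE P E)
      (Vm.comap (heckeBetaBar E (M * q) q : FE E (M * q) →+* FE E (M * q * q)))
      (xE E M q) := by
  haveI := hS.dvr
  have hq := hS.q_prime
  have hP := hS.lies_over
  -- the polar element `u₀ = j ^ (q + 1)` and its Gauss property on `V₁`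
  set u₀ : FE E (M * q) := (jE E (M * q) 1 (one_dvd _)) ^ (q + 1) with hu₀
  have hpol : A2.Mod.H13.IsPolar E (M * q) u₀ (q + 1) := by
    have := isPolar_pow (A2.Mod.H13.isPolar_jE (E := E) (N := M * q) 1 (one_dvd _)) (q + 1)
    rwa [mul_one] at this
  have htr : Transcendental E u₀ :=
    (transcendental_jE (E := E) (M * q) 1 (one_dvd _)).pow (Nat.succ_pos q)
  have hG₀ : A2.H489.IsGaussOver (RE P E) V₁ u₀ :=
    A2.Mod.H13.isGaussOver_of_polar hV₁ hS.unif (NeZero.ne _) (Nat.succ_pos q) hpol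
      (A2.Mod.H13.transcendental_RE htr)
  have hx := h.beta_xE_sub hq hP hV₁
  have hαu : heckeAlphaBar E (M * q) q u₀ ∈ Vm := (h.comap_alpha _).mpr hG₀.mem
  have hβx : heckeBetaBar E (M * q) q (xE E M q) ∈ Vm := by
    have e : heckeBetaBar E (M * q) q (xE E M q)
        = (heckeBetaBar E (M * q) q (xE E M q) - heckeAlphaBar E (M * q) q u₀)
          + heckeAlphaBar E (M * q) q u₀ := by ring
    rw [e]
    exact Vm.add_mem _ _ (mem_of_mem_nonunits Vm hx) hαu
  refine ⟨h.isOver_comap_beta hV₁, ValuationSubring.mem_comap.mpr hβx, ?_⟩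
  intro p hp
  by_contra hne
  rw [mem_nonunits_comap_iff] at hp
  -- `aeval u₀ p` is a unit of `V₁`
  have h1 : aeval u₀ p ∉ V₁.nonunits := fun hmem => hne (hG₀.prim p hmem)
  have h2 : heckeAlphaBar E (M * q) q (aeval u₀ p) ∉ Vm.nonunits :=
    fun hmem => h1 ((h.alpha_nonunits _).mp hmem)
  have eα : heckeAlphaBar E (M * q) q (aeval u₀ p)
      = aeval (heckeAlphaBar E (M * q) q u₀) p :=
    (Polynomial.aeval_algHom_apply ((heckeAlphaBar E (M * q) q).restrictScalars (RE P E))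
      u₀ p).symm
  have eβ : heckeBetaBar E (M * q) q (aeval (xE E M q) p)
      = aeval (heckeBetaBar E (M * q) q (xE E M q)) p :=
    (Polynomial.aeval_algHom_apply ((heckeBetaBar E (M * q) q).restrictScalars (RE P E))
      (xE E M q) p).symm
  have hR : ∀ r : RE P E, algebraMap (RE P E) (FE E (M * q * q)) r ∈ Vm := by
    intro r
    have e : algebraMap (RE P E) (FE E (M * q * q)) r
        = heckeAlphaBar E (M * q) q (algebraMap (RE P E) (FE E (M * q)) r) := by
      rw [A2.Mod.H13.algebraMap_RE_eq, A2.Mod.H13.algebraMap_RE_eq, AlgHom.commutes]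
    rw [e]
    exact (h.comap_alpha _).mpr ((A2.Mod.H13.isOver_of_isVinf hV₁).mem r)
  have h3 := aeval_sub_aeval_mem_nonunits Vm hR hβx hαu hx p
  have hp' : (heckeBetaBar E (M * q) q : FE E (M * q) →+* FE E (M * q * q))
      (aeval (xE E M q) p) ∈ Vm.nonunits := hp
  have hp'' : aeval (heckeBetaBar E (M * q) q (xE E M q)) p ∈ Vm.nonunits := by
    rw [← eβ]
    exact hp'
  apply h2
  rw [eα]
  have e : aeval (heckeAlphaBar E (M * q) q u₀) p
      = aeval (heckeBetaBar E (M * q) q (xE E M q)) p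
        - (aeval (heckeBetaBar E (M * q) q (xE E M q)) p
            - aeval (heckeAlphaBar E (M * q) q u₀) p) := by ring
  rw [e]
  exact sub_mem_nonunits Vm hp'' h3

end Gauss

end Fermat.Agent.S36.H816

end

end
-- ===== PACK-END S36/H816/SymMid.lean

-- ===== PACK-BEGIN S58/H999/Transfer.lean
section




/-!
# Row S58 (helper999): Cayley–Hamilton transfer

Let `ρW, ρ : GaloisRepAdic A` over a noetherian local ring `A`.  If the characteristic polynomial
of `ρ(τ)` kills `ρW(τ)` for every Frobenius element `τ` at a prime outside a finite set `S`, then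
the characteristic polynomial of `ρ(σ)` kills `ρW(σ)` for EVERY `σ ∈ Gal(ℚ̄/ℚ)`
(`aeval_charpoly_transfer`).  Proof: Chebotarev (`Fermat.Agent.Lib.Cheb.chebotarev`) +
adic continuity of both representations + Krull's intersection theorem.

This is how the chain of S58 compares the Tate module of `W` at an auxiliary prime `λ` (where only
the Frobenius *relation* `F² - a_ℓ F + ℓ = 0` is available, not the characteristic polynomial) with
the `λ`-adic representation attached to a newform by S35/S36.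
-/

set_option autoImplicit false

namespace Fermat.Agent.S58.H999

open IsLocalRing Polynomial

section Alg

variable {R : Type*} [CommRing R] {M : Type*} [AddCommGroup M] [Module R M]

/-- A linear map sends `I • ⊤` into `I • ⊤`. -/
theorem end_mem_smul_top (I : Ideal R) (f : Module.End R M) {x : M}
    (hx : x ∈ I • (⊤ : Submodule R M)) : f x ∈ I • (⊤ : Submodule R M) := by
  refine Submodule.smul_induction_on hx ?_ ?_
  · intro a ha w _
    rw [map_smul]
    exact Submodule.smul_mem_smul ha Submodule.mem_top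
  · intro x y hx hy
    rw [map_add]
    exact Submodule.add_mem _ hx hy

/-- Coordinates of an element of `I • ⊤` lie in `I`. -/
theorem repr_mem_of_smul_top {ι : Type*} (b : Module.Basis ι R M) (I : Ideal R) {x : M}
    (hx : x ∈ I • (⊤ : Submodule R M)) (i : ι) : b.repr x i ∈ I := by
  refine Submodule.smul_induction_on hx ?_ ?_
  · intro a ha w _
    rw [map_smul, Finsupp.smul_apply, smul_eq_mul]
    exact I.mul_mem_right _ ha
  · intro x y hx hy
    rw [map_add, Finsupp.add_apply]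
    exact I.add_mem hx hy

variable [Module.Free R M] [Module.Finite R M]

/-- If an endomorphism of a finite free module has image in `I • ⊤`, its trace lies in `I`. -/
theorem trace_mem_of_smul_top (I : Ideal R) (f : Module.End R M)
    (hf : ∀ v, f v ∈ I • (⊤ : Submodule R M)) : LinearMap.trace R M f ∈ I := by
  classical
  let b := Module.Free.chooseBasis R M
  rw [LinearMap.trace_eq_matrix_trace R b, Matrix.trace]
  refine I.sum_mem fun i _ => ?_
  rw [Matrix.diag_apply, LinearMap.toMatrix_apply]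
  exact repr_mem_of_smul_top b I (hf _) i

/-- An endomorphism congruent to the identity modulo `I` has determinant `≡ 1` modulo `I`. -/
theorem det_sub_one_mem_of_smul_top (I : Ideal R) (f : Module.End R M)
    (hf : ∀ v : M, f v - v ∈ I • (⊤ : Submodule R M)) : LinearMap.det f - 1 ∈ I := by
  classical
  let b := Module.Free.chooseBasis R M
  have hM : (Ideal.Quotient.mk I).mapMatrix (LinearMap.toMatrix b b f) = 1 := by
    ext i j
    rw [RingHom.mapMatrix_apply, Matrix.map_apply, LinearMap.toMatrix_apply, Matrix.one_apply]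
    have h1 : b.repr (f (b j)) i = b.repr (f (b j) - b j) i + b.repr (b j) i := by
      rw [map_sub, Finsupp.sub_apply, sub_add_cancel]
    have h2 : b.repr (f (b j) - b j) i ∈ I := repr_mem_of_smul_top b I (hf (b j)) i
    rw [h1, map_add, Ideal.Quotient.eq_zero_iff_mem.mpr h2, zero_add, Module.Basis.repr_self,
      Finsupp.single_apply]
    by_cases hij : i = j
    · subst hij; simp
    · have hji : ¬ j = i := fun h => hij h.symm
      simp [hij, hji]
  have hdet : Ideal.Quotient.mk I (LinearMap.det f) = 1 := by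
    rw [← LinearMap.det_toMatrix b f, RingHom.map_det, hM, Matrix.det_one]
  rw [← Ideal.Quotient.eq_zero_iff_mem, map_sub, hdet, map_one, sub_self]

/-- The characteristic polynomial in rank `2`. -/
theorem charpoly_eq_of_finrank_two (hrk : Module.finrank R M = 2) (f : Module.End R M) :
    f.charpoly = X ^ 2 - C (LinearMap.trace R M f) * X + C (LinearMap.det f) := by
  classical
  rcases subsingleton_or_nontrivial R with hR | hR
  · exact Subsingleton.elim _ _
  let b := Module.finBasisOfFinrankEq R M hrk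
  rw [← LinearMap.charpoly_toMatrix f b, Matrix.charpoly_fin_two,
    ← LinearMap.trace_eq_matrix_trace R b, LinearMap.det_toMatrix]

end Alg

section Eval

variable {R : Type*} [CommRing R] {M : Type*} [AddCommGroup M] [Module R M]
  {M' : Type*} [AddCommGroup M'] [Module R M'] [Module.Free R M'] [Module.Finite R M']

/-- Evaluating the characteristic polynomial of a rank-`2` endomorphism `g` at `F`. -/
theorem aeval_charpoly_apply (hrk : Module.finrank R M' = 2) (g : Module.End R M')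
    (F : Module.End R M) (v : M) :
    Polynomial.aeval F g.charpoly v
      = F (F v) - LinearMap.trace R M' g • F v + LinearMap.det g • v := by
  rw [charpoly_eq_of_finrank_two hrk g]
  simp only [map_add, map_sub, map_mul, aeval_X, aeval_C, LinearMap.add_apply,
    LinearMap.sub_apply, Module.End.mul_apply, pow_two, Module.algebraMap_end_apply]

/-- Evaluating a quadratic polynomial at an endomorphism. -/
theorem aeval_quadratic_apply (t d : R) (F : Module.End R M) (v : M) :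
    Polynomial.aeval F (X ^ 2 - C t * X + C d : R[X]) v = F (F v) - t • F v + d • v := by
  simp only [map_add, map_sub, map_mul, aeval_X, aeval_C, LinearMap.add_apply,
    LinearMap.sub_apply, Module.End.mul_apply, pow_two, Module.algebraMap_end_apply]

end Eval

section Transfer

variable {A : Type} [CommRing A] [IsLocalRing A] [IsNoetherianRing A]

/-- **Cayley–Hamilton transfer.**  If `charpoly (ρ τ)` kills `ρW τ` for all Frobenius elements
`τ` at the primes outside a finite set, then `charpoly (ρ σ)` kills `ρW σ` for all `σ`. -/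
theorem aeval_charpoly_transfer (ρW ρ : GaloisRepAdic A) (S : Finset ℕ)
    (h : ∀ ℓ : ℕ, ℓ.Prime → ℓ ∉ S →
      ∀ P : ValuationSubring (AlgebraicClosure ℚ), P.LiesOverPrime ℓ →
        ∀ τ : AlgebraicClosure ℚ ≃ₐ[ℚ] AlgebraicClosure ℚ, P.IsFrobeniusAt τ ℓ →
          Polynomial.aeval (ρW.ρ τ) (LinearMap.charpoly (ρ.ρ τ)) = 0)
    (σ : AlgebraicClosure ℚ ≃ₐ[ℚ] AlgebraicClosure ℚ) :
    Polynomial.aeval (ρW.ρ σ) (LinearMap.charpoly (ρ.ρ σ)) = 0 := by
  apply LinearMap.ext
  intro v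
  rw [LinearMap.zero_apply]
  have hbot := Ideal.iInf_pow_smul_eq_bot_of_isLocalRing (R := A) (M := ρW.V)
    (maximalIdeal A) (Ideal.IsPrime.ne_top')
  rw [← Submodule.mem_bot A, ← hbot, Submodule.mem_iInf]
  intro n
  obtain ⟨L₁, hL₁fin, hL₁⟩ := ρW.isAdicContinuous n
  obtain ⟨L₂, hL₂fin, hL₂⟩ := ρ.isAdicContinuous n
  have : FiniteDimensional ℚ L₁ := hL₁fin
  have : FiniteDimensional ℚ L₂ := hL₂fin
  have hE : FiniteDimensional ℚ ↥(L₁ ⊔ L₂) := IntermediateField.finiteDimensional_sup L₁ L₂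
  obtain ⟨ℓ, P, τ, hℓ, hℓS, hP, hτ, -, hτσ⟩ :=
    Fermat.Agent.Lib.Cheb.chebotarev (L₁ ⊔ L₂) hE σ S
  have h0 := h ℓ hℓ hℓS P hP τ hτ
  -- `u = τ⁻¹ σ` is trivial on `L₁ ⊔ L₂`
  have hu : ∀ x ∈ L₁ ⊔ L₂, (τ⁻¹ * σ) x = x := by
    intro x hx
    rw [AlgEquiv.mul_apply, ← hτσ x hx]
    exact τ.symm_apply_apply x
  have hu₁ : ∀ x ∈ L₁, (τ⁻¹ * σ) x = x := fun x hx => hu x ((le_sup_left : L₁ ≤ _) hx)
  have hu₂ : ∀ x ∈ L₂, (τ⁻¹ * σ) x = x := fun x hx => hu x ((le_sup_right : L₂ ≤ _) hx)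
  have hσ : σ = τ * (τ⁻¹ * σ) := by group
  set I : Ideal A := maximalIdeal A ^ n with hI
  -- congruence of `ρW`
  have e₁ : ∀ w : ρW.V, ρW.ρ σ w - ρW.ρ τ w ∈ I • (⊤ : Submodule A ρW.V) := by
    intro w
    have : ρW.ρ σ w - ρW.ρ τ w = ρW.ρ τ (ρW.ρ (τ⁻¹ * σ) w - w) := by
      conv_lhs => rw [hσ]
      rw [map_mul, Module.End.mul_apply, map_sub]
    rw [this]
    exact end_mem_smul_top I _ (hL₁ _ hu₁ w)
  -- congruence of `ρ`
  have e₂ : ∀ w : ρ.V, (ρ.ρ σ - ρ.ρ τ) w ∈ I • (⊤ : Submodule A ρ.V) := by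
    intro w
    have : (ρ.ρ σ - ρ.ρ τ) w = ρ.ρ τ (ρ.ρ (τ⁻¹ * σ) w - w) := by
      conv_lhs => rw [hσ]
      rw [map_mul, LinearMap.sub_apply, Module.End.mul_apply, map_sub]
    rw [this]
    exact end_mem_smul_top I _ (hL₂ _ hu₂ w)
  have ht : LinearMap.trace A ρ.V (ρ.ρ σ) - LinearMap.trace A ρ.V (ρ.ρ τ) ∈ I := by
    rw [← map_sub]
    exact trace_mem_of_smul_top I _ e₂
  have hd : LinearMap.det (ρ.ρ σ) - LinearMap.det (ρ.ρ τ) ∈ I := by
    have h1 : LinearMap.det (ρ.ρ (τ⁻¹ * σ)) - 1 ∈ I :=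
      det_sub_one_mem_of_smul_top I _ (hL₂ _ hu₂)
    have h2 : LinearMap.det (ρ.ρ σ) - LinearMap.det (ρ.ρ τ)
        = LinearMap.det (ρ.ρ τ) * (LinearMap.det (ρ.ρ (τ⁻¹ * σ)) - 1) := by
      conv_lhs => rw [hσ]
      rw [map_mul, map_mul]
      ring
    rw [h2]
    exact I.mul_mem_left _ h1
  -- the two evaluations
  have hτv : ρW.ρ τ (ρW.ρ τ v) - LinearMap.trace A ρ.V (ρ.ρ τ) • ρW.ρ τ v
      + LinearMap.det (ρ.ρ τ) • v = 0 := by
    rw [← aeval_charpoly_apply ρ.finrank_eq, h0, LinearMap.zero_apply]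
  rw [aeval_charpoly_apply ρ.finrank_eq]
  have key : ρW.ρ σ (ρW.ρ σ v) - LinearMap.trace A ρ.V (ρ.ρ σ) • ρW.ρ σ v
        + LinearMap.det (ρ.ρ σ) • v
      = (ρW.ρ σ (ρW.ρ σ v - ρW.ρ τ v) + (ρW.ρ σ (ρW.ρ τ v) - ρW.ρ τ (ρW.ρ τ v)))
        - ((LinearMap.trace A ρ.V (ρ.ρ σ) - LinearMap.trace A ρ.V (ρ.ρ τ)) • ρW.ρ σ v
            + LinearMap.trace A ρ.V (ρ.ρ τ) • (ρW.ρ σ v - ρW.ρ τ v))
        + (LinearMap.det (ρ.ρ σ) - LinearMap.det (ρ.ρ τ)) • v := by
    have : ρW.ρ σ (ρW.ρ σ v) - LinearMap.trace A ρ.V (ρ.ρ σ) • ρW.ρ σ v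
        + LinearMap.det (ρ.ρ σ) • v
      = (ρW.ρ σ (ρW.ρ σ v) - LinearMap.trace A ρ.V (ρ.ρ σ) • ρW.ρ σ v
        + LinearMap.det (ρ.ρ σ) • v)
        - (ρW.ρ τ (ρW.ρ τ v) - LinearMap.trace A ρ.V (ρ.ρ τ) • ρW.ρ τ v
          + LinearMap.det (ρ.ρ τ) • v) := by
      rw [hτv, sub_zero]
    rw [this, map_sub, sub_smul, sub_smul, smul_sub]
    abel
  rw [key]
  refine Submodule.add_mem _ (Submodule.sub_mem _ (Submodule.add_mem _ ?_ ?_)
    (Submodule.add_mem _ ?_ ?_)) ?_
  · exact end_mem_smul_top I _ (e₁ v)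
  · exact e₁ _
  · exact Submodule.smul_mem_smul ht Submodule.mem_top
  · exact Submodule.smul_mem _ _ (e₁ v)
  · exact Submodule.smul_mem_smul hd Submodule.mem_top

end Transfer

end Fermat.Agent.S58.H999

end
-- ===== PACK-END S58/H999/Transfer.lean

-- ===== PACK-BEGIN S59/H765/TraceClosed.lean
section




/-!
# S59, cell NM, leaf NM-RES, part 2 (helper765): traces of Frobenius fill a closed subalgebra

`trace_mem_of_frob`: let `T` be a local ring, finite over a Noetherian local ring `𝒪`, `ρ` a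
`GaloisRepAdic T` and `A ⊆ T` an `𝒪`-submodule containing the traces of `ρ` at the Frobenius
elements of all primes outside a finite set.  Then `A` contains the trace of `ρ σ` for every
`σ ∈ Gal(ℚ̄/ℚ)`  (Chebotarev + adic continuity + Krull's intersection theorem).
-/

set_option autoImplicit false
set_option linter.unusedSectionVars false
set_option linter.style.haveILetI false

namespace Fermat.Agent.S59.H765

open IsLocalRing
open Fermat.Agent.Lib.Cheb.Spec (Qb GQ)

section LinAlg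

variable {A : Type*} [CommRing A] {V : Type*} [AddCommGroup V] [Module A V]

theorem repr_mem_of_mem_smul_top (I : Ideal A) {ι : Type*} (b : Module.Basis ι A V) {x : V}
    (hx : x ∈ I • (⊤ : Submodule A V)) (i : ι) : b.repr x i ∈ I := by
  refine Submodule.smul_induction_on (p := fun x => b.repr x i ∈ I) hx ?_ ?_
  · intro a ha w _
    rw [map_smul, Finsupp.smul_apply, smul_eq_mul]
    exact I.mul_mem_right _ ha
  · intro x y hx hy
    rw [map_add, Finsupp.add_apply]
    exact I.add_mem hx hy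

theorem map_mem_smul_top (I : Ideal A) (f : Module.End A V) {x : V}
    (hx : x ∈ I • (⊤ : Submodule A V)) : f x ∈ I • (⊤ : Submodule A V) := by
  refine Submodule.smul_induction_on (p := fun x => f x ∈ I • (⊤ : Submodule A V)) hx ?_ ?_
  · intro a ha w _
    rw [map_smul]
    exact Submodule.smul_mem_smul ha Submodule.mem_top
  · intro x y hx hy
    rw [map_add]
    exact Submodule.add_mem _ hx hy

theorem trace_mem_of_forall_mem_smul_top [Module.Free A V] [Module.Finite A V] (I : Ideal A)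
    (f : Module.End A V) (hf : ∀ v, f v ∈ I • (⊤ : Submodule A V)) :
    LinearMap.trace A V f ∈ I := by
  classical
  rw [LinearMap.trace_eq_matrix_trace A (Module.Free.chooseBasis A V) f, Matrix.trace]
  refine I.sum_mem fun i _ => ?_
  rw [Matrix.diag_apply, LinearMap.toMatrix_apply]
  exact repr_mem_of_mem_smul_top I _ (hf _) i

end LinAlg

section Cont

variable {T : Type} [CommRing T] [IsLocalRing T]

/-- Finite-level congruence of the traces. -/
theorem exists_level_trace_sub_mem (ρ : GaloisRepAdic T) (n : ℕ) :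
    ∃ L : IntermediateField ℚ Qb, FiniteDimensional ℚ L ∧
      ∀ σ τ : GQ, (∀ x ∈ L, τ x = σ x) → ρ.trace τ - ρ.trace σ ∈ maximalIdeal T ^ n := by
  obtain ⟨L, hL, h1⟩ := ρ.isAdicContinuous n
  refine ⟨L, hL, fun σ τ hτ => ?_⟩
  have hδ : ∀ x ∈ L, (σ⁻¹ * τ) x = x := by
    intro x hx
    rw [AlgEquiv.mul_apply, hτ x hx, AlgEquiv.aut_inv, AlgEquiv.symm_apply_apply]
  have hτeq : τ = σ * (σ⁻¹ * τ) := by rw [mul_inv_cancel_left]
  have h2 : ρ.ρ τ - ρ.ρ σ = ρ.ρ σ * (ρ.ρ (σ⁻¹ * τ) - 1) := by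
    rw [mul_sub, mul_one, ← map_mul, ← hτeq]
  rw [GaloisRepAdic.trace, GaloisRepAdic.trace, ← map_sub, h2]
  refine trace_mem_of_forall_mem_smul_top _ _ fun v => ?_
  rw [Module.End.mul_apply, LinearMap.sub_apply, Module.End.one_apply]
  exact map_mem_smul_top _ _ (h1 _ hδ v)

end Cont

section Closed

variable {𝒪 T : Type*} [CommRing 𝒪] [IsLocalRing 𝒪] [IsNoetherianRing 𝒪] [CommRing T]
  [IsLocalRing T] [Algebra 𝒪 T] [Module.Finite 𝒪 T]

theorem exists_maximalIdeal_pow_le_map765 :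
    ∃ e, maximalIdeal T ^ e ≤ (maximalIdeal 𝒪).map (algebraMap 𝒪 T) := by
  letI : Field (𝒪 ⧸ maximalIdeal 𝒪) := Ideal.Quotient.field _
  haveI : Module.Finite (𝒪 ⧸ maximalIdeal 𝒪) (T ⧸ (maximalIdeal 𝒪).map (algebraMap 𝒪 T)) :=
    Module.Finite.of_restrictScalars_finite 𝒪 _ _
  haveI : IsArtinianRing (T ⧸ (maximalIdeal 𝒪).map (algebraMap 𝒪 T)) :=
    IsArtinianRing.of_finite (𝒪 ⧸ maximalIdeal 𝒪) _
  exact exists_maximalIdeal_pow_le_of_isArtinianRing_quotient _

/-- An `𝒪`-submodule of `T` is closed for the `𝔪_T`-adic topology. -/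
theorem mem_of_forall_exists_sub_mem (A : Submodule 𝒪 T) (x : T)
    (hx : ∀ n : ℕ, ∃ a ∈ A, x - a ∈ maximalIdeal T ^ n) : x ∈ A := by
  obtain ⟨e, he⟩ := exists_maximalIdeal_pow_le_map765 (𝒪 := 𝒪) (T := T)
  have hkey : A.mkQ x ∈ (⨅ i : ℕ, maximalIdeal 𝒪 ^ i • ⊤ : Submodule 𝒪 (T ⧸ A)) := by
    rw [Submodule.mem_iInf]
    intro n
    obtain ⟨a, ha, hxa⟩ := hx (e * n)
    have h1 : x - a ∈ ((maximalIdeal 𝒪 ^ n).map (algebraMap 𝒪 T)) := by
      rw [Ideal.map_pow]
      rw [pow_mul] at hxa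
      exact Ideal.pow_right_mono he n hxa
    have h2 : x - a ∈ (maximalIdeal 𝒪 ^ n • ⊤ : Submodule 𝒪 T) := by
      rw [Ideal.smul_top_eq_map]
      exact h1
    have h0 : A.mkQ a = 0 := (Submodule.Quotient.mk_eq_zero A).mpr ha
    have h3 : A.mkQ x = A.mkQ (x - a) := by
      rw [map_sub, h0, sub_zero]
    rw [h3]
    refine Submodule.smul_induction_on
      (p := fun y => A.mkQ y ∈ (maximalIdeal 𝒪 ^ n • ⊤ : Submodule 𝒪 (T ⧸ A))) h2 ?_ ?_
    · intro c hc w _
      rw [map_smul]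
      exact Submodule.smul_mem_smul hc Submodule.mem_top
    · intro y z hy hz
      rw [map_add]
      exact Submodule.add_mem _ hy hz
  rw [Ideal.iInf_pow_smul_eq_bot_of_isLocalRing (maximalIdeal 𝒪)
    (Ideal.IsMaximal.ne_top inferInstance), Submodule.mem_bot] at hkey
  exact (Submodule.Quotient.mk_eq_zero A).mp hkey

end Closed

section Main

variable {𝒪 : Type*} [CommRing 𝒪] [IsLocalRing 𝒪] [IsNoetherianRing 𝒪]
  {T : Type} [CommRing T] [IsLocalRing T] [Algebra 𝒪 T] [Module.Finite 𝒪 T]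

/-- **Traces of Frobenius fill a closed subspace.** -/
theorem trace_mem_of_frob (ρ : GaloisRepAdic T) (A : Submodule 𝒪 T) (F : Finset ℕ)
    (h : ∀ ℓ : ℕ, ℓ.Prime → ℓ ∉ F → ∀ B : ValuationSubring Qb, B.LiesOverPrime ℓ →
      ∀ σ : GQ, B.IsFrobeniusAt σ ℓ → ρ.trace σ ∈ A) (σ : GQ) : ρ.trace σ ∈ A := by
  refine mem_of_forall_exists_sub_mem A _ fun n => ?_
  obtain ⟨L, hL, hcong⟩ := exists_level_trace_sub_mem ρ n
  obtain ⟨ℓ, B, τ, hℓ, hℓF, hB, hτ, -, hτσ⟩ := Fermat.Agent.Lib.Cheb.chebotarev L hL σ F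
  refine ⟨ρ.trace τ, h ℓ hℓ hℓF B hB τ hτ, ?_⟩
  have := hcong σ τ hτσ
  rw [← neg_sub]
  exact Ideal.neg_mem_iff _ |>.mpr this

/-- The trace from a characteristic polynomial `X² - t X + d` in rank `2`. -/
theorem trace_eq_of_charpoly {A : Type*} [CommRing A] [Nontrivial A] {V : Type*} [AddCommGroup V]
    [Module A V] [Module.Free A V] [Module.Finite A V] (hV : Module.finrank A V = 2)
    (f : Module.End A V) (t d : A)
    (hf : LinearMap.charpoly f = Polynomial.X ^ 2 - Polynomial.C t * Polynomial.X + Polynomial.C d) :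
    LinearMap.trace A V f = t := by
  classical
  have hcard : Fintype.card (Module.Free.ChooseBasisIndex A V) = 2 := by
    rw [← Module.finrank_eq_card_chooseBasisIndex, hV]
  haveI : Nonempty (Module.Free.ChooseBasisIndex A V) := by
    rw [← Fintype.card_pos_iff, hcard]; norm_num
  rw [LinearMap.trace_eq_matrix_trace A (Module.Free.chooseBasis A V) f,
    Matrix.trace_eq_neg_charpoly_coeff, hcard,
    LinearMap.charpoly_toMatrix f (Module.Free.chooseBasis A V), hf]
  simp [Polynomial.coeff_X, Polynomial.coeff_C]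

end Main

end Fermat.Agent.S59.H765

end
-- ===== PACK-END S59/H765/TraceClosed.lean

-- ===== PACK-BEGIN S59/TW/H54/TwistNew.lean
section



/-!
# TW-NS, part A (helper54): a trace-new eigenform at `q²` is `q²`-new

Let `F` be a normalized eigenform of level `C`, `q² ∥ C`, such that both `F` and its Fricke
transform `F' = F ∣ W_C` have vanishing `q`-divisible Fourier coefficients
(`U_q F = 0 = U_q (F ∣ W_C)`; this is the TRACE-ZERO property of a twist
`F = Σ_u η(u) f ∣ T_{u/q}`).  Then every Prelude-newform `g₀` with the same Hecke eigenvalues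
outside a finite set of primes has level divisible by `q²`.

Proof: functional equations of `Λ_F`, `Λ_{g₀}` (NEWFORM library, block X), depletion, and
comparison of Dirichlet coefficients (`ArithFun.lean`).  No Petersson product, no structure
theorem for the old space.
-/

set_option autoImplicit false

open CongruenceSubgroup Complex Polynomial
open UpperHalfPlane hiding I
open scoped MatrixGroups ModularForm

namespace Fermat.Agent.S59.TW.H54

open ModularFormClass ModularForm Fermat.Agent.Lib.Newform.H958.X ArithmeticFunction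

/-- The functional-equation identity between a normalized eigenform `F` with Fricke transform
`F'` and a newform `g₀` with the same eigenvalues outside `T`. -/
theorem fe_identity_h54 {C L₀ : ℕ} [NeZero C] [NeZero L₀]
    {F F' : CuspForm (Gamma0 C) 2} (hF : F.IsNormalizedEigenform)
    (hF' : (⇑F' : ℍ → ℂ) = ⇑F ∣[(2 : ℤ)] frickeMatrix C)
    {g₀ : CuspForm (Gamma0 L₀) 2} (hg₀ : g₀.IsNormalizedEigenform) {w : ℂ}
    (hFE : ∀ s : ℂ, Lam g₀ (2 - s) = -(w * (L₀ : ℂ) ^ (s - 1)) * Lam g₀ s)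
    (T : Finset ℕ) (hT : ∀ p ∈ T, p.Prime)
    (hTC : C.primeFactors ⊆ T) (hTL : L₀.primeFactors ⊆ T)
    (hagree : ∀ ℓ : ℕ, ℓ.Prime → ℓ ∉ T → qCoeff F ℓ = qCoeff g₀ ℓ) (s : ℂ) :
    (C : ℂ) ^ (s - 1) * Lam F' s *
        ∏ p ∈ T, (eulerPolyRev C (qCoeff F) p).eval ((p : ℂ) ^ (-s)) =
      w * (L₀ : ℂ) ^ (s - 1) * Lam g₀ s *
        ∏ p ∈ T, (eulerPolyRev L₀ (qCoeff g₀) p).eval ((p : ℂ) ^ (-s)) := by
  have h1 := Lam_mul_eulerProd_eq Fermat.Agent.Lib.Newform.H683.deplete hF hg₀ T hT hTC hTL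
    hagree (2 - s)
  rw [functionalEq C F F' hF' s, hFE s] at h1
  rw [← eulerProd_two_sub C (qCoeff F) T hT s, ← eulerProd_two_sub L₀ (qCoeff g₀) T hT s]
  linear_combination (-(∏ p ∈ T, ((p : ℂ) ^ (-s)) ^ 2)) * h1

/-- The coefficient sequence of a cusp form as an arithmetic function. -/
noncomputable def coeffAF {N : ℕ} (f : CuspForm (Gamma0 N) 2) : ArithmeticFunction ℂ :=
  ⟨fun n => qCoeff f n, Fermat.Agent.Lib.Newform.H683.qCoeff_zero_cusp 2 f⟩

theorem coeffAF_apply {N : ℕ} (f : CuspForm (Gamma0 N) 2) (n : ℕ) :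
    coeffAF f n = qCoeff f n := rfl

theorem lseriesHasSum_coeffAF {N : ℕ} [NeZero N] (f : CuspForm (Gamma0 N) 2) {s : ℂ}
    (hs : 2 < s.re) : LSeriesHasSum (⇑(coeffAF f)) s (Lam f s * (2 / Gammaℂ s)) :=
  lseriesHasSum_of_hasSum hs (dirichletSeries N f s hs)

/-- The `q`-depleted coefficient sequence of a cusp form as an arithmetic function. -/
noncomputable def coeffDepAF {N : ℕ} (q : ℕ) (f : CuspForm (Gamma0 N) 2) :
    ArithmeticFunction ℂ :=
  ⟨fun n => if q ∣ n then 0 else qCoeff f n, by simp⟩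

theorem coeffDepAF_apply {N : ℕ} (q : ℕ) (f : CuspForm (Gamma0 N) 2) (n : ℕ) :
    coeffDepAF q f n = if q ∣ n then 0 else qCoeff f n := rfl

theorem qFree_coeffDepAF {N : ℕ} (q : ℕ) (f : CuspForm (Gamma0 N) 2) :
    QFreeH54 q (coeffDepAF q f) := by
  intro n hn
  rw [coeffDepAF_apply, if_pos hn]

theorem coeffDepAF_ne_zero {N : ℕ} {q : ℕ} (hq : q.Prime) {f : CuspForm (Gamma0 N) 2}
    (hf : f.IsNormalizedEigenform) : coeffDepAF q f ≠ 0 := by
  intro h
  have h1 : coeffDepAF q f 1 = 1 := by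
    rw [coeffDepAF_apply, if_neg (fun h => hq.one_lt.ne' (Nat.dvd_one.mp h)), hf.qCoeff_one]
  rw [h] at h1
  simp at h1

theorem lseriesHasSum_coeffDepAF {N : ℕ} [NeZero N] {q : ℕ} (hq : q.Prime)
    {f : CuspForm (Gamma0 N) 2} (hf : f.IsNormalizedEigenform) {s : ℂ} (hs : 2 < s.re) :
    LSeriesHasSum (⇑(coeffDepAF q f)) s
      (Lam f s * (2 / Gammaℂ s) * (eulerPoly N (qCoeff f) q).eval ((q : ℂ) ^ (-s))) := by
  classical
  have h := Fermat.Agent.Lib.Newform.H683.deplete N f hf {q}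
    (fun p hp => by rw [Finset.mem_singleton.mp hp]; exact hq) s hs
  rw [Finset.prod_singleton] at h
  refine lseriesHasSum_of_hasSum hs ?_
  convert h using 2 with n
  rw [coeffDepAF_apply]
  by_cases hn : q ∣ n
  · rw [if_pos hn, if_neg]
    intro h'
    exact h' q (Finset.mem_singleton_self q) hn
  · rw [if_neg hn, if_pos]
    intro p hp
    rw [Finset.mem_singleton.mp hp]
    exact hn

/-- **TW-NS, part A.** -/
theorem twistNew_sq_dvd {q : ℕ} (hq : q.Prime) {C L₀ : ℕ} [NeZero C] [NeZero L₀]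
    (hC : C.factorization q = 2)
    (F F' : CuspForm (Gamma0 C) 2) (hF : F.IsNormalizedEigenform)
    (hF' : (⇑F' : ℍ → ℂ) = ⇑F ∣[(2 : ℤ)] frickeMatrix C)
    (hFq : qCoeff F q = 0) (hF'q : ∀ n : ℕ, q ∣ n → qCoeff F' n = 0)
    (g₀ : CuspForm (Gamma0 L₀) 2) (hg₀ : g₀.IsNewform) (S : Finset ℕ)
    (hS : ∀ ℓ : ℕ, ℓ.Prime → ℓ ∉ S → qCoeff g₀ ℓ = qCoeff F ℓ) : q ^ 2 ∣ L₀ := by
  classical
  have hC0 : C ≠ 0 := NeZero.ne C
  have hL0 : L₀ ≠ 0 := NeZero.ne L₀
  have hqC : q ∣ C := by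
    by_contra h
    rw [Nat.factorization_eq_zero_of_not_dvd h] at hC
    omega
  -- the level of the newform divides `C`
  have hdvd : L₀ ∣ C := crossLevel L₀ C g₀ F hg₀ hF S hS
  obtain ⟨d₀, hd₀⟩ := hdvd
  have hd0 : d₀ ≠ 0 := by
    rintro rfl
    rw [mul_zero] at hd₀
    exact hC0 hd₀
  -- the set of primes
  let T : Finset ℕ := (S ∪ C.primeFactors ∪ L₀.primeFactors ∪ {q}).filter Nat.Prime
  have hT : ∀ p ∈ T, p.Prime := fun p hp => (Finset.mem_filter.mp hp).2
  have hqT : q ∈ T := Finset.mem_filter.mpr ⟨by simp, hq⟩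
  have hTC : C.primeFactors ⊆ T := fun p hp =>
    Finset.mem_filter.mpr ⟨by simp [hp], (Nat.mem_primeFactors.mp hp).1⟩
  have hTL : L₀.primeFactors ⊆ T := fun p hp =>
    Finset.mem_filter.mpr ⟨by simp [hp], (Nat.mem_primeFactors.mp hp).1⟩
  have hag : ∀ ℓ : ℕ, ℓ.Prime → ℓ ∉ T → qCoeff F ℓ = qCoeff g₀ ℓ := fun ℓ hℓ hℓT =>
    (hS ℓ hℓ fun hS' => hℓT (Finset.mem_filter.mpr ⟨by simp [hS'], hℓ⟩)).symm
  have hT' : ∀ p ∈ T.erase q, p.Prime ∧ p ≠ q := fun p hp =>
    ⟨hT p (Finset.mem_of_mem_erase hp), Finset.ne_of_mem_erase hp⟩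
  -- functional equation of the newform
  obtain ⟨w, hw, hFE⟩ := functionalEq_newform_of Fermat.Agent.Lib.Newform.H16.frickeOp
    Fermat.Agent.Lib.Newform.H16.frickeInvol Fermat.Agent.Lib.Newform.H16.frickeHecke
    Fermat.Agent.Lib.Newform.H803.multOne Fermat.Agent.Lib.Newform.H683.eigenT hg₀
  have hw0 : w ≠ 0 := by
    rintro rfl
    simp at hw
  have hid := fe_identity_h54 hF hF' hg₀.1 hFE T hT hTC hTL hag
  -- the Euler factor of `F` at `q`
  have hEq : eulerPolyRev C (qCoeff F) q = X ^ 2 := by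
    rw [eulerPolyRev, if_pos hqC, hFq]
    simp
  -- suppose `q² ∤ L₀`
  by_contra hcon
  -- `q`-parts of the levels
  set e := L₀.factorization q with he
  have he1 : e ≤ 1 := by
    by_contra h
    exact hcon ((hq.pow_dvd_iff_le_factorization hL0).mpr (by omega))
  have hfd : d₀.factorization q = 2 - e := by
    have h1 : C.factorization q = L₀.factorization q + d₀.factorization q := by
      rw [hd₀, Nat.factorization_mul hL0 hd0]
      rfl
    omega
  set d' := d₀ / q ^ (2 - e) with hd'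
  have hdd : d₀ = q ^ (2 - e) * d' := by
    rw [hd', ← hfd]
    exact (Nat.ordProj_mul_ordCompl_eq_self d₀ q).symm
  have hqd' : ¬ q ∣ d' := by
    rw [hd', ← hfd]
    exact Nat.not_dvd_ordCompl hq hd0
  have hd'0 : d' ≠ 0 := by
    rintro h
    rw [h, mul_zero] at hdd
    exact hd0 hdd
  -- the arithmetic functions
  set a' := coeffAF F' with ha'
  set E' : ArithmeticFunction ℂ := ∏ p ∈ T.erase q, peH54 (eulerPolyRev C (qCoeff F) p) p
    with hE'
  set P' : ArithmeticFunction ℂ := ∏ p ∈ T.erase q, peH54 (eulerPolyRev L₀ (qCoeff g₀) p) p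
    with hP'
  set G₁ : ArithmeticFunction ℂ := a' * E' with hG₁
  set G₂ : ArithmeticFunction ℂ := dmH54 d' * coeffDepAF q g₀ * P' with hG₂
  set A : ℂ[X] := X ^ 2 * eulerPoly L₀ (qCoeff g₀) q with hA
  set B : ℂ[X] := Polynomial.C (w * (d₀ : ℂ)) * X ^ (2 - e) * eulerPolyRev L₀ (qCoeff g₀) q
    with hB
  -- `q`-freeness
  have hqa' : QFreeH54 q a' := fun n hn => hF'q n hn
  have hqE' : QFreeH54 q E' := QFreeH54.prod hq _ _ fun p hp =>
    QFreeH54.pe hq (hT' p hp).1 (hT' p hp).2 _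
  have hqP' : QFreeH54 q P' := QFreeH54.prod hq _ _ fun p hp =>
    QFreeH54.pe hq (hT' p hp).1 (hT' p hp).2 _
  have hqG₁ : QFreeH54 q G₁ := hqa'.mul hq hqE'
  have hqG₂ : QFreeH54 q G₂ :=
    ((QFreeH54.dm hqd').mul hq (qFree_coeffDepAF q g₀)).mul hq hqP'
  -- `G₂ ≠ 0`
  have hG₂0 : G₂ ≠ 0 :=
    mul_ne_zero_h54 (mul_ne_zero_h54 (dmH54_ne_zero hd'0) (coeffDepAF_ne_zero hq hg₀.1))
      (prod_ne_zero_h54 _ _ fun p hp =>
        peH54_ne_zero (eulerPolyRev_ne_zero L₀ (qCoeff g₀) p) (hT' p hp).1)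
  -- the two `L`-series
  have hu : ∀ s : ℂ, 2 < s.re → LSeriesHasSum (⇑(peH54 A q * G₁)) s
      (A.eval ((q : ℂ) ^ (-s)) * (Lam F' s * (2 / Gammaℂ s) *
        ∏ p ∈ T.erase q, (eulerPolyRev C (qCoeff F) p).eval ((p : ℂ) ^ (-s)))) := by
    intro s hs
    refine LSeriesHasSum_mul (lseriesHasSum_peH54 A hq.ne_zero s)
      (LSeriesHasSum_mul (lseriesHasSum_coeffAF F' hs) ?_)
    exact lseriesHasSum_prod_h54 _ _ _ s fun p hp =>
      lseriesHasSum_peH54 _ (hT' p hp).1.ne_zero s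
  have hv : ∀ s : ℂ, 2 < s.re → LSeriesHasSum (⇑(peH54 B q * G₂)) s
      (B.eval ((q : ℂ) ^ (-s)) * ((d' : ℂ) ^ (-s) *
        (Lam g₀ s * (2 / Gammaℂ s) * (eulerPoly L₀ (qCoeff g₀) q).eval ((q : ℂ) ^ (-s))) *
        ∏ p ∈ T.erase q, (eulerPolyRev L₀ (qCoeff g₀) p).eval ((p : ℂ) ^ (-s)))) := by
    intro s hs
    refine LSeriesHasSum_mul (lseriesHasSum_peH54 B hq.ne_zero s)
      (LSeriesHasSum_mul (LSeriesHasSum_mul (lseriesHasSum_dmH54 hd'0 s)
        (lseriesHasSum_coeffDepAF hq hg₀.1 hs)) ?_)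
    exact lseriesHasSum_prod_h54 _ _ _ s fun p hp =>
      lseriesHasSum_peH54 _ (hT' p hp).1.ne_zero s
  -- the values agree
  have hval : ∀ s : ℂ, 2 < s.re →
      A.eval ((q : ℂ) ^ (-s)) * (Lam F' s * (2 / Gammaℂ s) *
        ∏ p ∈ T.erase q, (eulerPolyRev C (qCoeff F) p).eval ((p : ℂ) ^ (-s))) =
      B.eval ((q : ℂ) ^ (-s)) * ((d' : ℂ) ^ (-s) *
        (Lam g₀ s * (2 / Gammaℂ s) * (eulerPoly L₀ (qCoeff g₀) q).eval ((q : ℂ) ^ (-s))) *
        ∏ p ∈ T.erase q, (eulerPolyRev L₀ (qCoeff g₀) p).eval ((p : ℂ) ^ (-s))) := by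
    intro s hs
    have h := hid s
    rw [← Finset.mul_prod_erase T _ hqT, ← Finset.mul_prod_erase T _ hqT, hEq] at h
    simp only [eval_pow, eval_X] at h
    have hCc : (C : ℂ) ^ (s - 1) = (L₀ : ℂ) ^ (s - 1) * (d₀ : ℂ) ^ (s - 1) := by
      rw [hd₀, Nat.cast_mul, natCast_mul_natCast_cpow]
    have hLne : (L₀ : ℂ) ^ (s - 1) ≠ 0 :=
      (Complex.cpow_ne_zero_iff).mpr (Or.inl (Nat.cast_ne_zero.mpr hL0))
    have hdc : (d₀ : ℂ) ≠ 0 := Nat.cast_ne_zero.mpr hd0
    have hd1 : (d₀ : ℂ) ^ (s - 1) * ((d₀ : ℂ) * (d₀ : ℂ) ^ (-s)) = 1 := by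
      rw [Complex.cpow_sub _ _ hdc, Complex.cpow_one, Complex.cpow_neg]
      have : (d₀ : ℂ) ^ s ≠ 0 := (Complex.cpow_ne_zero_iff).mpr (Or.inl hdc)
      field_simp
    have hd2 : (d₀ : ℂ) ^ (-s) = ((q : ℂ) ^ (-s)) ^ (2 - e) * (d' : ℂ) ^ (-s) := by
      rw [hdd, Nat.cast_mul, natCast_mul_natCast_cpow, natCast_pow_cpow_neg_h54]
    rw [hCc] at h
    have h' : (d₀ : ℂ) ^ (s - 1) * Lam F' s *
        (((q : ℂ) ^ (-s)) ^ 2 *
          ∏ p ∈ T.erase q, (eulerPolyRev C (qCoeff F) p).eval ((p : ℂ) ^ (-s))) =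
        w * Lam g₀ s * ((eulerPolyRev L₀ (qCoeff g₀) q).eval ((q : ℂ) ^ (-s)) *
          ∏ p ∈ T.erase q, (eulerPolyRev L₀ (qCoeff g₀) p).eval ((p : ℂ) ^ (-s))) := by
      apply mul_left_cancel₀ hLne
      linear_combination h
    simp only [hA, hB, eval_mul, eval_pow, eval_X, eval_C]
    rw [hd2] at hd1
    linear_combination
      ((2 / Gammaℂ s) * (eulerPoly L₀ (qCoeff g₀) q).eval ((q : ℂ) ^ (-s)) *
        ((d₀ : ℂ) * (((q : ℂ) ^ (-s)) ^ (2 - e) * (d' : ℂ) ^ (-s)))) * h' +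
      (-(Lam F' s * (2 / Gammaℂ s) *
        ∏ p ∈ T.erase q, (eulerPolyRev C (qCoeff F) p).eval ((p : ℂ) ^ (-s))) *
        (((q : ℂ) ^ (-s)) ^ 2 * (eulerPoly L₀ (qCoeff g₀) q).eval ((q : ℂ) ^ (-s)))) * hd1
  -- equality of the arithmetic functions
  have huv : peH54 A q * G₁ = peH54 B q * G₂ :=
    eq_of_lseriesHasSum_h54 _ hu fun s hs => by
      rw [hval s hs]
      exact hv s hs
  -- coefficient extraction
  have hext : ∀ (i m : ℕ), ¬ q ∣ m → A.coeff i * G₁ m = B.coeff i * G₂ m := by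
    intro i m hm
    rw [← peH54_mul_apply hq A hqG₁ hm i, ← peH54_mul_apply hq B hqG₂ hm i, huv]
  have hqc : (q : ℂ) ≠ 0 := Nat.cast_ne_zero.mpr hq.ne_zero
  have hq2 : (q : ℂ) ^ 2 ≠ 1 := Fermat.Agent.Lib.Newform.H863.X8.cast_prime_sq_ne_one hq
  have hwd : w * (d₀ : ℂ) ≠ 0 := mul_ne_zero hw0 (Nat.cast_ne_zero.mpr hd0)
  apply hG₂0
  refine hqG₂.eq_zero fun m hm => ?_
  rcases Fermat.Agent.Lib.Newform.H863.X8.shape hg₀ hq with
    ⟨h0, -, hP, hPr⟩ | ⟨h1, ha2, hP, hPr⟩ | ⟨h2, -, -, -⟩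
  · -- `q ∤ L₀`
    have he0 : e = 0 := h0
    have hA' : A = X ^ 2 - Polynomial.C (qCoeff g₀ q) * X ^ 3 + Polynomial.C (q : ℂ) * X ^ 4 := by
      rw [hA, hP]
      ring
    have hB' : B = Polynomial.C (w * (d₀ : ℂ)) * X ^ 4
        - Polynomial.C (w * (d₀ : ℂ) * (qCoeff g₀ q * ((q : ℂ) ^ 2)⁻¹)) * X ^ 3
        + Polynomial.C (w * (d₀ : ℂ) * ((q : ℂ) ^ 3)⁻¹) * X ^ 2 := by
      rw [hB, hPr, he0, Polynomial.C_mul (a := w * (d₀ : ℂ)),
        Polynomial.C_mul (a := w * (d₀ : ℂ))]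
      ring
    have e2 := hext 2 m hm
    have e4 := hext 4 m hm
    rw [hA', hB'] at e2 e4
    simp only [coeff_add, coeff_sub, coeff_C_mul, coeff_X_pow] at e2 e4
    norm_num at e2 e4
    -- `e2 : G₁ m = w d₀ q⁻³ G₂ m`, `e4 : q G₁ m = w d₀ G₂ m`
    have h3 : (w * (d₀ : ℂ)) * (1 - ((q : ℂ) ^ 2)⁻¹) * G₂ m = 0 := by
      have : ((q : ℂ) ^ 3)⁻¹ * (q : ℂ) = ((q : ℂ) ^ 2)⁻¹ := by
        field_simp
      linear_combination (-1 : ℂ) * e4 + (q : ℂ) * e2 + ((w * (d₀ : ℂ)) * G₂ m) * this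
    have h4 : (1 - ((q : ℂ) ^ 2)⁻¹) ≠ 0 := by
      intro h
      apply hq2
      have : ((q : ℂ) ^ 2)⁻¹ = 1 := by linear_combination -h
      exact inv_eq_one.mp this
    rcases mul_eq_zero.mp h3 with h | h
    · exact absurd h (mul_ne_zero hwd h4)
    · exact h
  · -- `q ∥ L₀`
    have he1' : e = 1 := h1
    have hA' : A = X ^ 2 - Polynomial.C (qCoeff g₀ q) * X ^ 3 := by
      rw [hA, hP]
      ring
    have hB' : B = Polynomial.C (w * (d₀ : ℂ)) * X ^ 3
        - Polynomial.C (w * (d₀ : ℂ) * (qCoeff g₀ q * ((q : ℂ) ^ 2)⁻¹)) * X ^ 2 := by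
      rw [hB, hPr, he1', Polynomial.C_mul (a := w * (d₀ : ℂ))]
      ring
    have e2 := hext 2 m hm
    have e3 := hext 3 m hm
    rw [hA', hB'] at e2 e3
    simp only [coeff_sub, coeff_C_mul, coeff_X_pow] at e2 e3
    norm_num at e2 e3
    -- `e2 : G₁ m = - w d₀ a q⁻² G₂ m`, `e3 : - a G₁ m = w d₀ G₂ m`
    have h3 : (w * (d₀ : ℂ)) * (1 - ((q : ℂ) ^ 2)⁻¹) * G₂ m = 0 := by
      linear_combination (-1 : ℂ) * e3 + (-qCoeff g₀ q) * e2 +
        ((w * (d₀ : ℂ)) * ((q : ℂ) ^ 2)⁻¹ * G₂ m) * ha2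
    have h4 : (1 - ((q : ℂ) ^ 2)⁻¹) ≠ 0 := by
      intro h
      apply hq2
      have : ((q : ℂ) ^ 2)⁻¹ = 1 := by linear_combination -h
      exact inv_eq_one.mp this
    rcases mul_eq_zero.mp h3 with h | h
    · exact absurd h (mul_ne_zero hwd h4)
    · exact h
  · omega

/-- **TW-NS, part A, consumer form**: the Prelude-newform attached to a trace-new normalized
eigenform `F` of level `C`, `q² ∥ C`, has level `M ∣ C` with `v_q(M) = 2` (so that the frozen
statement S36 applies to it at `q`). -/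
theorem exists_newform_factorization_eq_two {q : ℕ} (hq : q.Prime) {C : ℕ} [NeZero C]
    (hC : C.factorization q = 2)
    (F F' : CuspForm (Gamma0 C) 2) (hF : F.IsNormalizedEigenform)
    (hF' : (⇑F' : ℍ → ℂ) = ⇑F ∣[(2 : ℤ)] frickeMatrix C)
    (hFq : qCoeff F q = 0) (hF'q : ∀ n : ℕ, q ∣ n → qCoeff F' n = 0) :
    ∃ (M : ℕ) (_ : NeZero M) (g : CuspForm (Gamma0 M) 2), g.IsNewform ∧ M ∣ C ∧
      M.factorization q = 2 ∧
      ∀ ℓ : ℕ, ℓ.Prime → ¬ ℓ ∣ C → qCoeff g ℓ = qCoeff F ℓ := by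
  have hC0 : C ≠ 0 := NeZero.ne C
  obtain ⟨M, hMC, g, hg, hag⟩ := Fermat.Agent.Lib.Newform.H958.descent C F hF
  have hM0 : M ≠ 0 := fun h => hC0 (by rw [h] at hMC; exact zero_dvd_iff.mp hMC)
  haveI : NeZero M := ⟨hM0⟩
  refine ⟨M, ⟨hM0⟩, g, hg, hMC, ?_, hag⟩
  have h2 : q ^ 2 ∣ M := twistNew_sq_dvd hq hC F F' hF hF' hFq hF'q g hg C.primeFactors
    fun ℓ hℓ hℓC => hag ℓ hℓ fun h => hℓC (Nat.mem_primeFactors.mpr ⟨hℓ, h, hC0⟩)
  have h3 : 2 ≤ M.factorization q := (hq.pow_dvd_iff_le_factorization hM0).mp h2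
  have h4 : M.factorization q ≤ C.factorization q :=
    (Nat.factorization_le_iff_dvd hM0 hC0).mpr hMC q
  omega

end Fermat.Agent.S59.TW.H54

end
-- ===== PACK-END S59/TW/H54/TwistNew.lean

-- ===== PACK-BEGIN S59/TW/H653/Bdry/Main.lean
section




/-!
# S59 / TW-HECKE (helper653), block BDRY: the boundary is Eisenstein

`K` between `Γ₁(M)` and `Γ₀(M)`, `l` a prime with `l ≡ 1 mod M`, `φ : Hom(K, A)`, ANY `A`:

* `TK_apply_of_trace_eq_two` : `(T_l φ)(γ) = (l + 1) • φ(γ)` for every `γ ∈ K` of trace `2`;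
* `isCuspidalK_TK_sub` : if `A` is torsion-free, `T_l φ - (l + 1) • φ` is cuspidal;
* `isCuspidalK_of_surjOn` : a subgroup `V ⊆ Hom(K, A)` on which `T_l - (l + 1)` is onto consists
  of cuspidal classes ("the non-Eisenstein part of `Hom(K, A)` is cuspidal");
* versions for `heckeTransfer` (`Γ₀(M)`) and for `H587.heckeKer` (block M-FREE).
-/

set_option autoImplicit false

namespace Fermat.Agent.S59.TW.H653.Bdry

open CongruenceSubgroup Matrix.SpecialLinearGroup ModularCurve.Period ModularForm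
open Fermat.Agent.S29.H642 Fermat.Agent.S41.H761 Fermat.Agent.S59.TW.H653
open Fermat.Agent.S59.MFree Fermat.Agent.S59.MFree.H587 Fermat.Agent.S59.MFree.H941
open P2MW.S_ModularForm_heckeT_slash_eq_self_of_mem_Gamma0.ModularForm.HeckeSlashInvariance
open scoped MatrixGroups

variable {M l : ℕ} {K : Subgroup SL(2, ℤ)} {A : Type*} [AddCommGroup A]

theorem card_onePoint_zmod (l : ℕ) [NeZero l] : Fintype.card (OnePoint (ZMod l)) = l + 1 := by
  have : Fintype.card (Option (ZMod l)) = l + 1 := by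
    rw [Fintype.card_option, ZMod.card]
  exact this

/-- `(T_l φ)(g) = (l + 1) • φ(g)` for `g = τ * tz h * τ⁻¹ ∈ K`, `l ∤ h`. -/
theorem TK_uni_of_not_dvd (hK : IsMid M K) [Fact l.Prime] (hM : (M : ℤ) ∣ (l : ℤ) - 1)
    (τ : SL(2, ℤ)) (h : ℤ) (hh : ¬ (l : ℤ) ∣ h) (g : K) (hg : (g : SL(2, ℤ)) = uni τ h)
    (φ : Additive K →+ A) :
    TK M K l φ (Additive.ofMul g) = (l + 1) • φ (Additive.ofMul g) := by
  have hl : l.Prime := Fact.out
  have hlM : ¬ l ∣ M := not_dvd_of_dvd_sub_one hl hM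
  rw [TK_eq hK hlM]
  exact transfer_uni hl hM hK (repsT_system hK hlM) (card_onePoint_zmod l)
    (fun x => isIntRep_repsT hlM x) τ h hh g hg φ

/-- `τ * tz (M * h) * τ⁻¹ ∈ Γ₁(M)`. -/
theorem uni_mem_Gamma1 (M : ℕ) (τ : SL(2, ℤ)) (h : ℤ) : uni τ ((M : ℤ) * h) ∈ Gamma1 M := by
  rw [Gamma1_mem]
  have e := coe_uni τ ((M : ℤ) * h)
  have e00 : (uni τ ((M : ℤ) * h)) 0 0 = 1 - (M : ℤ) * h * (τ 0 0 * τ 1 0) := by
    have := congrFun (congrFun e 0) 0
    simpa using this
  have e11 : (uni τ ((M : ℤ) * h)) 1 1 = 1 + (M : ℤ) * h * (τ 0 0 * τ 1 0) := by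
    have := congrFun (congrFun e 1) 1
    simpa using this
  have e10 : (uni τ ((M : ℤ) * h)) 1 0 = -((M : ℤ) * h * (τ 1 0 * τ 1 0)) := by
    have := congrFun (congrFun e 1) 0
    simpa using this
  refine ⟨?_, ?_, ?_⟩
  · rw [e00]
    push_cast
    simp
  · rw [e11]
    push_cast
    simp
  · rw [e10]
    push_cast
    simp

/-- If `τ * tz (l * h) * τ⁻¹ ∈ K` and `l` is prime to `M`, then `τ * tz h * τ⁻¹ ∈ K`. -/
theorem uni_mem_of_mul (hK : IsMid M K) (hlM : Nat.Coprime l M) (τ : SL(2, ℤ)) (h : ℤ)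
    (hg : uni τ ((l : ℤ) * h) ∈ K) : uni τ h ∈ K := by
  obtain ⟨r, s, hrs⟩ : IsCoprime (l : ℤ) (M : ℤ) := Nat.Coprime.isCoprime hlM
  have h1 : uni τ h = uni τ ((l : ℤ) * h) ^ r * uni τ ((M : ℤ) * h) ^ s := by
    rw [uni_zpow, uni_zpow, uni_mul]
    congr 1
    linear_combination (-h) * hrs
  rw [h1]
  exact K.mul_mem (K.zpow_mem hg r) (K.zpow_mem (hK.ge (uni_mem_Gamma1 M τ h)) s)

/-- `(T_l φ)(g) = (l + 1) • φ(g)` for every `g = τ * tz h * τ⁻¹ ∈ K`. -/
theorem TK_uni (hK : IsMid M K) [Fact l.Prime] (hM : (M : ℤ) ∣ (l : ℤ) - 1)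
    (τ : SL(2, ℤ)) (φ : Additive K →+ A) :
    ∀ (n : ℕ) (h : ℤ), h.natAbs = n → ∀ (g : K), (g : SL(2, ℤ)) = uni τ h →
      TK M K l φ (Additive.ofMul g) = (l + 1) • φ (Additive.ofMul g) := by
  have hl : l.Prime := Fact.out
  intro n
  induction n using Nat.strong_induction_on with
  | _ n ih =>
    intro h hn g hg
    by_cases hh : (l : ℤ) ∣ h
    · obtain ⟨h', rfl⟩ := hh
      by_cases h0 : h' = 0
      · subst h0
        have hg1 : g = 1 := by
          apply Subtype.ext
          rw [hg, mul_zero, uni_zero]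
          rfl
        rw [hg1, ofMul_one, map_zero, map_zero, smul_zero]
      · have hδ : uni τ h' ∈ K := by
          apply uni_mem_of_mul hK (coprime_of_dvd_sub_one hl hM) τ h'
          rw [← hg]
          exact g.2
        have hgδ : g = (⟨uni τ h', hδ⟩ : K) ^ l := by
          apply Subtype.ext
          rw [hg, Subgroup.coe_pow, uni_pow]
        have hlt : h'.natAbs < n := by
          rw [← hn, Int.natAbs_mul, Int.natAbs_natCast]
          have h1 : 0 < h'.natAbs := Int.natAbs_pos.mpr h0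
          have h2 := hl.one_lt
          nlinarith
        have key := ih h'.natAbs hlt h' rfl ⟨uni τ h', hδ⟩ rfl
        rw [hgδ, ofMul_pow, map_nsmul, map_nsmul, key, smul_comm]
    · exact TK_uni_of_not_dvd hK hM τ h hh g hg φ

/-- **The boundary is Eisenstein.**  For a prime `l ≡ 1 mod M` and every homomorphism
`φ : K → A`: `(T_l φ)(γ) = (l + 1) • φ(γ)` for every `γ ∈ K` of trace `2`. -/
theorem TK_apply_of_trace_eq_two (hK : IsMid M K) [Fact l.Prime] (hM : (M : ℤ) ∣ (l : ℤ) - 1)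
    (φ : Additive K →+ A) (γ : K)
    (hγ : ((γ : SL(2, ℤ)) : Matrix (Fin 2) (Fin 2) ℤ).trace = 2) :
    TK M K l φ (Additive.ofMul γ) = (l + 1) • φ (Additive.ofMul γ) := by
  obtain ⟨τ, h, e⟩ := exists_conj_tz (γ : SL(2, ℤ)) hγ
  exact TK_uni hK hM τ φ h.natAbs h rfl γ e

/-- The trace of the square of an element of `SL(2, ℤ)` of trace `± 2` is `2`. -/
theorem trace_sq_eq_two (γ : SL(2, ℤ))
    (hγ : (γ : Matrix (Fin 2) (Fin 2) ℤ).trace ^ 2 = 4) :
    ((γ ^ 2 : SL(2, ℤ)) : Matrix (Fin 2) (Fin 2) ℤ).trace = 2 := by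
  have hdet : γ 0 0 * γ 1 1 - γ 0 1 * γ 1 0 = 1 := by
    have := γ.det_coe
    rwa [Matrix.det_fin_two] at this
  rw [Matrix.trace_fin_two] at hγ
  rw [Matrix.SpecialLinearGroup.coe_pow, pow_two, Matrix.trace_fin_two]
  simp only [Matrix.mul_apply, Fin.sum_univ_two]
  linear_combination hγ - 2 * hdet

variable [IsAddTorsionFree A]

/-- **For a prime `l ≡ 1 mod M`, `T_l φ - (l + 1) • φ` is cuspidal**, for every homomorphism
`φ : K → A`, `A` torsion-free. -/
theorem isCuspidalK_TK_sub (hK : IsMid M K) [Fact l.Prime] (hM : (M : ℤ) ∣ (l : ℤ) - 1)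
    (φ : Additive K →+ A) : IsCuspidalK (TK M K l φ - (l + 1) • φ) := by
  have key : ∀ γ : K, ((γ : SL(2, ℤ)) : Matrix (Fin 2) (Fin 2) ℤ).trace = 2 →
      (TK M K l φ - (l + 1) • φ) (Additive.ofMul γ) = 0 := by
    intro γ hγ
    rw [AddMonoidHom.sub_apply, AddMonoidHom.smul_apply, TK_apply_of_trace_eq_two hK hM φ γ hγ,
      sub_self]
  refine ⟨fun γ hγ => ?_, fun γ hγ => ?_⟩
  · have h2 := key (γ ^ 2) (by rw [Subgroup.coe_pow]; exact trace_sq_eq_two _ hγ)
    rw [ofMul_pow, map_nsmul] at h2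
    exact (nsmul_eq_zero_iff_right two_ne_zero).mp h2
  · obtain ⟨n, hn, hn'⟩ := isOfFinOrder_iff_pow_eq_one.mp hγ
    have h1 : n • (TK M K l φ - (l + 1) • φ) (Additive.ofMul γ) = 0 := by
      rw [← map_nsmul, ← ofMul_pow, hn', ofMul_one, map_zero]
    exact (nsmul_eq_zero_iff_right hn.ne').mp h1

/-- **The non-Eisenstein part of `Hom(K, A)` is cuspidal**: if every element of `V` is of the form
`T_l x - (l + 1) • x`, `l ≡ 1 mod M` prime, then `V` consists of cuspidal classes. -/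
theorem isCuspidalK_of_surjOn (hK : IsMid M K) [Fact l.Prime] (hM : (M : ℤ) ∣ (l : ℤ) - 1)
    (V : Set (Additive K →+ A))
    (hV : ∀ y ∈ V, ∃ x : Additive K →+ A, TK M K l x - (l + 1) • x = y) :
    ∀ y ∈ V, IsCuspidalK y := by
  intro y hy
  obtain ⟨x, rfl⟩ := hV y hy
  exact isCuspidalK_TK_sub hK hM x

/-- Version for `Γ₀(M)` and `heckeTransfer`. -/
theorem isCuspidal_heckeTransfer_sub [Fact l.Prime] (hM : (M : ℤ) ∣ (l : ℤ) - 1)
    (hl : ¬ l ∣ M) (φ : Additive (Gamma0 M) →+ A) :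
    Fermat.Agent.S41.Spec.IsCuspidal (heckeTransfer hl φ - (l + 1) • φ) := by
  rw [← TK_Gamma0 hl]
  exact isCuspidalK_TK_sub (isMid_Gamma0 M) hM φ

/-- Version for block M-FREE: `H587.heckeKer`. -/
theorem isCuspidalK_heckeKer_sub {D : Type} [Group D] (κ : Gamma0 M →* D)
    (hΓ1 : ∀ γ : Gamma0 M, ((((γ : SL(2, ℤ)) 1 1 : ℤ)) : ZMod M) = 1 → κ γ = 1)
    [Fact l.Prime] (hM : (M : ℤ) ∣ (l : ℤ) - 1) (hl : ¬ l ∣ M)
    (φ : Additive (kerSub κ) →+ A) :
    IsCuspidalK (heckeKer hl κ hΓ1 φ - (l + 1) • φ) := by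
  rw [heckeKer_eq_TK hl κ hΓ1]
  exact isCuspidalK_TK_sub (isMid_kerSub κ hΓ1) hM φ

end Fermat.Agent.S59.TW.H653.Bdry

end
-- ===== PACK-END S59/TW/H653/Bdry/Main.lean

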