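import Fermat.Prelude.Def_GaloisRep_LocalConditions
import Fermat.Prelude.Def_CuspForm_HeckeGaloisRepDatum
import Fermat.Agent.Pack.S43MC.G0E2L3
import Fermat.Agent.Pack.S43MC.G0E6L1
import Fermat.Agent.Pack.S44C.G0E3L2
import Fermat.Agent.Pack.S43MC.G0E17L1
import Fermat.Agent.Pack.S44C.G0E16L2
import Fermat.Agent.Pack.S44C.G0E21L3
import Fermat.Agent.Pack.S43MC.G0E24L0
import Fermat.Agent.Pack.S43MC.G0E24L1
import Fermat.Agent.Pack.S43MC.G0E6L0
import Fermat.Agent.Pack.S43MC.G0E4L0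
import Fermat.Agent.Pack.S43MC.G0E24L2
import Fermat.Agent.Pack.S43MC.G0E23L2
import Fermat.Agent.Pack.S43MC.G0E23L0
import Fermat.Agent.Pack.S44C.G0E23L2
import Fermat.Agent.Pack.S44C.G0E17L2
import Fermat.Agent.Pack.S44C.G0E21L1
import Fermat.Agent.Pack.S43MC.G0E18L2
import Fermat.Agent.Pack.S44C.G0E24L1
import Fermat.Agent.Pack.S43MC.G0E17L0
import Fermat.Agent.Pack.S44C.G0E24L3
import Fermat.Agent.Pack.S44C.G0E17L0
import Fermat.Agent.Pack.S43MC.G0E20L0
import Fermat.Agent.Pack.S43MC.G0E18L1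
import Fermat.Agent.Pack.S43GC.G0E2L3
import Fermat.Agent.Pack.S44C.G0E26L3
import Fermat.Agent.Pack.S44C.G0E13L3
import Fermat.Agent.Pack.S43MC.G0E20L2
import Fermat.Agent.Pack.S43MC.G0E21L3
import Fermat.Agent.Pack.S43MC.G0E24L3
import Fermat.Agent.Pack.S44C.G0E11L2
import Fermat.Agent.Pack.S44C.G0E24L0
import Fermat.Agent.Pack.S43MC.G0E22L3
import Fermat.Agent.Pack.S43MC.G0E12L0
import Fermat.Agent.Pack.S43MC.G0E3L2
import Fermat.Agent.Pack.S43MC.G0E4L2
import Fermat.Agent.Pack.Fast891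

-- ===== PACK-BEGIN S35/H252/XForms.lean
section
/-
S35, piece (X-forms) (helper252): `XFormsStatement`, UNCONDITIONAL.

For a newform `g` of level `M`, a prime `q ∣ M` and a finite set `S` containing the primes of `M`
there is a polynomial `t` in the Hecke operators `T_ℓ`, `ℓ ∉ S`, which vanishes on
`S₂(Γ₀(M / q))` and with `t(a_ℓ(g)) ≠ 0`.

Proof by contradiction: otherwise the kernel of the action on `S₂(Γ₀(M / q))` is contained in the
kernel of the eigencharacter `ψ` of `g`; the eigenvector lemma (`S49.exists_eigenvector_ker_le'`)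
gives an eigenvector with a character `χ`, `ker χ ≤ ker ψ`; by integrality (S22) the kernels are
equal, hence `ψ = σ ∘ χ` for a ring automorphism `σ` of `ℂ` (`exists_ringEquiv_of_ker_eq`); the
`σ`-conjugate (`S23.Cap.galois_stable`) of the normalised eigenform attached to the eigenvector
(`Lib.Newform.H863.exists_normalizedEigenform_of_eigenvector`) is a normalised eigenform of level
`M / q` with the eigenvalues of `g` away from `S`; this contradicts
`Lib.Newform.H958.X.crossLevel` (`M ∣ M / q`).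
-/








set_option autoImplicit false
set_option linter.style.haveILetI false

open CuspForm CongruenceSubgroup ModularFormClass Polynomial

namespace Fermat.Agent.S35.H252

/-- The conjugate of a normalised eigenform by a ring endomorphism of `ℂ`. -/
theorem exists_conj_eigenform {N : ℕ} [NeZero N] (σ : ℂ →+* ℂ) {f : CuspForm (Gamma0 N) 2}
    (hf : f.IsNormalizedEigenform) :
    ∃ f' : CuspForm (Gamma0 N) 2, f'.IsNormalizedEigenform ∧
      ∀ n : ℕ, qCoeff f' n = σ (qCoeff f n) := by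
  obtain ⟨g, ⟨g', rfl⟩, hg⟩ := Fermat.Agent.S23.Cap.galois_stable N 2 σ f ⟨f, rfl⟩
  have hq : ∀ n : ℕ, qCoeff g' n = σ (qCoeff f n) := by
    intro n
    show (Fermat.Agent.S23.Cap.qx (g' : UpperHalfPlane → ℂ)).coeff n
      = σ ((Fermat.Agent.S23.Cap.qx (f : UpperHalfPlane → ℂ)).coeff n)
    rw [hg, PowerSeries.coeff_map]
  refine ⟨g', ⟨?_, ?_, ?_, ?_⟩, hq⟩
  · rw [hq, hf.qCoeff_one, map_one]
  · intro m n hmn
    rw [hq, hq, hq, hf.qCoeff_mul_of_coprime m n hmn, map_mul]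
  · intro p r hp hpN
    rw [hq, hq, hq, hq, hf.qCoeff_prime_pow_of_not_dvd p r hp hpN, map_sub, map_mul, map_mul,
      map_natCast]
  · intro p r hp hpN
    rw [hq, hq, hq, hf.qCoeff_prime_pow_of_dvd p r hp hpN, map_mul]

/-- **(X-forms).** -/
theorem xForms : XFormsStatement := by
  classical
  intro M _ g hg q _ hq hqM S hMS
  by_contra hcon
  push Not at hcon
  -- the good primes
  have hqdvd : M / q ∣ M := Nat.div_dvd_of_dvd hqM
  have hIN : ∀ i : {ℓ : Nat.Primes // (ℓ : ℕ) ∉ S}, ¬ ((i : Nat.Primes) : ℕ) ∣ M / q :=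
    fun i hdvd => i.2 (hMS _ i.1.2 (hdvd.trans hqdvd))
  -- the two characters
  let ρ : MvPolynomial {ℓ : Nat.Primes // (ℓ : ℕ) ∉ S} ℤ →+*
      Module.End ℂ (CuspForm (Gamma0 (M / q)) 2) :=
    ((heckeAlgebra (M / q) 2 ∅).val.toRingHom).comp
      ((heckeEvalForms (M / q) 2).comp (MvPolynomial.rename Subtype.val).toRingHom)
  let ψ : MvPolynomial {ℓ : Nat.Primes // (ℓ : ℕ) ∉ S} ℤ →+* ℂ :=
    (MvPolynomial.aeval (fun ℓ : {ℓ : Nat.Primes // (ℓ : ℕ) ∉ S} =>
      qCoeff g ((ℓ : Nat.Primes) : ℕ))).toRingHom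
  have hρψ : RingHom.ker ρ ≤ RingHom.ker ψ := by
    intro t ht
    rw [RingHom.mem_ker] at ht ⊢
    refine hcon t fun f => ?_
    have : ρ t f = 0 := by rw [ht, LinearMap.zero_apply]
    exact this
  haveI : FiniteDimensional ℂ (CuspForm (Gamma0 (M / q)) 2) :=
    Fermat.Agent.Lib.Newform.H863.finiteDimensional_cuspForm (M / q)
  haveI : (RingHom.ker ψ).IsPrime := RingHom.ker_isPrime ψ
  obtain ⟨h, χ, hh, hχ, hker⟩ := Fermat.Agent.S49.exists_eigenvector_ker_le'
    (K := ℂ) (V := CuspForm (Gamma0 (M / q)) 2) ρ (RingHom.ker ψ) hρψ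
  -- `ker ρ ≤ ker χ`
  have hρχ : RingHom.ker ρ ≤ RingHom.ker χ := by
    intro t ht
    rw [RingHom.mem_ker] at ht ⊢
    have h1 := hχ t
    rw [ht, LinearMap.zero_apply] at h1
    rcases smul_eq_zero.mp h1.symm with h2 | h2
    · exact h2
    · exact absurd h2 hh
  -- integrality
  haveI : Module.Finite ℤ (heckeAlgebra (M / q) 2 (∅ : Set ℕ)) :=
    Fermat.Agent.S22.result (M / q) 2 ∅
  haveI : Algebra.IsIntegral ℤ (heckeAlgebra (M / q) 2 (∅ : Set ℕ)) := inferInstance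
  have hint : ∀ s : MvPolynomial {ℓ : Nat.Primes // (ℓ : ℕ) ∉ S} ℤ, ∃ P : ℤ[X], P.Monic ∧
      eval₂ (algebraMap ℤ (MvPolynomial {ℓ : Nat.Primes // (ℓ : ℕ) ∉ S} ℤ)) s P
        ∈ RingHom.ker χ := by
    intro s
    obtain ⟨P, hPm, hP⟩ := Algebra.IsIntegral.isIntegral (R := ℤ)
      (heckeEvalForms (M / q) 2 (MvPolynomial.rename Subtype.val s))
    refine ⟨P, hPm, hρχ ?_⟩
    rw [RingHom.mem_ker]
    show ((heckeAlgebra (M / q) 2 ∅).val.toRingHom)
      (((heckeEvalForms (M / q) 2).comp (MvPolynomial.rename Subtype.val).toRingHom)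
        (eval₂ (algebraMap ℤ (MvPolynomial {ℓ : Nat.Primes // (ℓ : ℕ) ∉ S} ℤ)) s P)) = 0
    rw [Polynomial.hom_eval₂]
    have e : ((heckeEvalForms (M / q) 2).comp (MvPolynomial.rename Subtype.val).toRingHom).comp
        (algebraMap ℤ (MvPolynomial {ℓ : Nat.Primes // (ℓ : ℕ) ∉ S} ℤ))
        = algebraMap ℤ (heckeAlgebra (M / q) 2 (∅ : Set ℕ)) := RingHom.ext_int _ _
    rw [e]
    have hP' : eval₂ (algebraMap ℤ (heckeAlgebra (M / q) 2 (∅ : Set ℕ)))
        (((heckeEvalForms (M / q) 2).comp (MvPolynomial.rename Subtype.val).toRingHom) s) P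
        = 0 := hP
    rw [hP', map_zero]
  have hker' : RingHom.ker ψ ≤ RingHom.ker χ := ker_le_of_isIntegral χ ψ hker hint
  have hkereq : RingHom.ker χ = RingHom.ker ψ := le_antisymm hker hker'
  -- the values of `χ` are algebraic
  have halg : ∀ s : MvPolynomial {ℓ : Nat.Primes // (ℓ : ℕ) ∉ S} ℤ, IsAlgebraic ℚ (χ s) := by
    intro s
    obtain ⟨P, hPm, hP⟩ := hint s
    rw [RingHom.mem_ker, Polynomial.hom_eval₂] at hP
    have hZ : IsIntegral ℤ (χ s) := by
      refine ⟨P, hPm, ?_⟩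
      have e : χ.comp (algebraMap ℤ (MvPolynomial {ℓ : Nat.Primes // (ℓ : ℕ) ∉ S} ℤ))
          = algebraMap ℤ ℂ := RingHom.ext_int _ _
      rw [← e]
      exact hP
    exact (hZ.tower_top (A := ℚ)).isAlgebraic
  obtain ⟨σ, hσ⟩ := exists_ringEquiv_of_ker_eq χ ψ hkereq halg
  -- the eigenform of level `M / q`
  let lam : ℕ → ℂ := fun ℓ =>
    if hc : ℓ.Prime ∧ ℓ ∉ S then χ (MvPolynomial.X ⟨⟨ℓ, hc.1⟩, hc.2⟩) else 0
  have hlam : ∀ i : {ℓ : Nat.Primes // (ℓ : ℕ) ∉ S},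
      lam ((i : Nat.Primes) : ℕ) = χ (MvPolynomial.X i) := by
    intro i
    have hc : ((i : Nat.Primes) : ℕ).Prime ∧ ((i : Nat.Primes) : ℕ) ∉ S := ⟨i.1.2, i.2⟩
    simp only [lam, dif_pos hc]
    rfl
  have hρX : ∀ i : {ℓ : Nat.Primes // (ℓ : ℕ) ∉ S},
      ρ (MvPolynomial.X i) = heckeTLin 2 i.1.2 (hIN i) := by
    intro i
    show ((heckeAlgebra (M / q) 2 ∅).val.toRingHom)
      ((heckeEvalForms (M / q) 2) (MvPolynomial.rename Subtype.val (MvPolynomial.X i))) = _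
    rw [MvPolynomial.rename_X]
    have e2 : heckeEvalForms (M / q) 2 (MvPolynomial.X (i : Nat.Primes))
        = heckeAlgebra.T i.1.2 (hIN i) (Set.notMem_empty _) :=
      heckeEvalForms_heckeGen_of_not_dvd (hIN i)
    rw [e2]
    rfl
  obtain ⟨f₁, hf₁, hf₁c⟩ :=
    Fermat.Agent.Lib.Newform.H863.exists_normalizedEigenform_of_eigenvector
      (M := M / q) (↑S : Set ℕ) lam h hh (by
        intro ℓ hℓ hℓN hℓS
        have hℓS' : ℓ ∉ S := fun hmem => hℓS (Finset.mem_coe.mpr hmem)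
        have h1 := hχ (MvPolynomial.X ⟨⟨ℓ, hℓ⟩, hℓS'⟩)
        rw [hρX ⟨⟨ℓ, hℓ⟩, hℓS'⟩, ← hlam ⟨⟨ℓ, hℓ⟩, hℓS'⟩] at h1
        exact h1)
  obtain ⟨f₂, hf₂, hf₂c⟩ := exists_conj_eigenform (σ : ℂ →+* ℂ) hf₁
  -- cross level
  have hdvd : M ∣ M / q :=
    Fermat.Agent.Lib.Newform.H958.X.crossLevel M (M / q) g f₂ hg hf₂ S (by
      intro ℓ hℓ hℓS
      have hℓN : ¬ ℓ ∣ M / q := hIN ⟨⟨ℓ, hℓ⟩, hℓS⟩
      rw [hf₂c ℓ, hf₁c ℓ hℓ hℓN (fun hmem => hℓS (Finset.mem_coe.mp hmem)),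
        hlam ⟨⟨ℓ, hℓ⟩, hℓS⟩]
      have h1 := hσ (MvPolynomial.X ⟨⟨ℓ, hℓ⟩, hℓS⟩)
      rw [RingEquiv.coe_toRingHom, h1]
      show qCoeff g ℓ = MvPolynomial.aeval (fun ℓ : {ℓ : Nat.Primes // (ℓ : ℕ) ∉ S} =>
        qCoeff g ((ℓ : Nat.Primes) : ℕ)) (MvPolynomial.X ⟨⟨ℓ, hℓ⟩, hℓS⟩)
      rw [MvPolynomial.aeval_X])
  have hM0 : 0 < M := Nat.pos_of_ne_zero (NeZero.ne M)
  have hlt : M / q < M := Nat.div_lt_self hM0 hq.one_lt
  have hle : M ≤ M / q := Nat.le_of_dvd (Nat.pos_of_ne_zero (NeZero.ne (M / q))) hdvd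
  omega

end Fermat.Agent.S35.H252

end
-- ===== PACK-END S35/H252/XForms.lean

-- ===== PACK-BEGIN S36/Alg3/Spec.lean
section



/-!
# S36 / ALG3 — frozen interfaces (sub-architect helper586)

`Eng/Spec.lean` (architect helper996) freezes `Eng.TripleCtx` and `Eng.Alg3Statement`.
This file cuts `Eng.Alg3Statement` into THREE leaves; `Skel.lean` proves

    alg3_of_leaves : LeafStepA → LeafSheets → LeafPure → Eng.Alg3Statement     (`C = (q² - 1)²`).

Every leaf is quantified over the full context of `Eng.Alg3Statement`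
(`R` henselian DVR with algebraically closed residue field of characteristic `q`, uniformiser `w`,
`E = Frac R`, `TripleCtx w q α β x x' V₁ V₂ V₃ V₁' V₂'`).

* `LeafStepA`  (steps (a), (b); owner helper586, from `S36/H586/StepAB.lean`):
  `f ^ (q² - 1) = w ^ s * G ^ m * u` with `u ≡ 1` on `V₁, V₂, V₃` and `N_α u`, `N_β u`
  `m`-th powers.
* `LeafSheets` (G2): every sheet of `x` is one of `V₁, V₂, V₃` (from `qep_f`).
* `LeafPure`   (steps (c1)–(c5); G3 + G4): for `u ≡ 1` on `V₁, V₂, V₃` with `m ∣ div u` and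
  `N_α u`, `N_β u` `m`-th powers there is a colouring `κ` such that `u ^ ((q - 1) (q + 1))` has a
  purity datum with normalised values (`H193.BasePureValuesAt`) at every closed point of the
  special fibre of the two charts.  (`H630.basePureValuesAt_single`, `_triple`.)

The wall (step (c6)) is `H193.exists_pow_eq_of_three` (on main).
Definitions only (no `sorry`).
-/

set_option autoImplicit false
set_option linter.style.haveILetI false
set_option linter.unusedSectionVars false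
set_option synthInstance.maxHeartbeats 400000
set_option maxHeartbeats 1600000

noncomputable section

namespace Fermat.Agent.S36.Alg3

open Fermat.Agent.S18.H138 (chart)
open Fermat.Agent.S36.Eng
open Fermat.Agent.A2.H12 (IsSheet)

/-- The three valuation rings, as a set. -/
def three {F : Type*} [Field F] (V₁ V₂ V₃ : ValuationSubring F) : Set (ValuationSubring F) :=
  {V | V = V₁ ∨ V = V₂ ∨ V = V₃}

/-- **Leaf STEP-A** (steps (a), (b) of ALG3).  Owner: helper586. -/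
def LeafStepA : Prop :=
  ∀ {R E F F' : Type} [CommRing R] [IsDomain R] [IsDiscreteValuationRing R]
    [HenselianLocalRing R] [IsAlgClosed (IsLocalRing.ResidueField R)]
    [Field E] [CharZero E] [Algebra R E] [IsFractionRing R E]
    [Field F] [Algebra E F] [Algebra R F] [IsScalarTower R E F]
    [Field F'] [Algebra E F'] [Algebra R F'] [IsScalarTower R E F']
    (w : R) (_ : Irreducible w) (q : ℕ) (_ : q.Prime)
    (_ : (q : R) ∈ IsLocalRing.maximalIdeal R)
    (α β : F' →ₐ[E] F) (x : F) (x' : F')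
    (V₁ V₂ V₃ : ValuationSubring F) (V₁' V₂' : ValuationSubring F')
    (_ : TripleCtx w q α β x x' V₁ V₂ V₃ V₁' V₂'),
    ∀ m : ℕ, 0 < m → ¬ q ∣ m →
      ∀ f : F, f ≠ 0 → S35.G.NormPow α m f → S35.G.NormPow β m f →
        ∃ (s : ℤ) (G u : F) (k₁ k₂ : F'), G ≠ 0 ∧
          f ^ (q ^ 2 - 1) = algebraMap R F w ^ s * G ^ m * u ∧
          u - 1 ∈ V₁.nonunits ∧ u - 1 ∈ V₂.nonunits ∧ u - 1 ∈ V₃.nonunits ∧
          S29.H395.normAlong α u = k₁ ^ m ∧ S29.H395.normAlong β u = k₂ ^ m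

/-- **Leaf SHEETS** (G2): every sheet of `x` is one of `V₁, V₂, V₃`. -/
def LeafSheets : Prop :=
  ∀ {R E F F' : Type} [CommRing R] [IsDomain R] [IsDiscreteValuationRing R]
    [HenselianLocalRing R] [IsAlgClosed (IsLocalRing.ResidueField R)]
    [Field E] [CharZero E] [Algebra R E] [IsFractionRing R E]
    [Field F] [Algebra E F] [Algebra R F] [IsScalarTower R E F]
    [Field F'] [Algebra E F'] [Algebra R F'] [IsScalarTower R E F']
    (w : R) (_ : Irreducible w) (q : ℕ) (_ : q.Prime)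
    (_ : (q : R) ∈ IsLocalRing.maximalIdeal R)
    (α β : F' →ₐ[E] F) (x : F) (x' : F')
    (V₁ V₂ V₃ : ValuationSubring F) (V₁' V₂' : ValuationSubring F')
    (_ : TripleCtx w q α β x x' V₁ V₂ V₃ V₁' V₂'),
    ∀ V : ValuationSubring F, IsSheet w x V → V = V₁ ∨ V = V₂ ∨ V = V₃

/-- **Leaf PURE** (steps (c1)–(c5)): purity data with normalised values at every closed point of
the special fibre of the two charts, for `u ^ ((q - 1) (q + 1))`. -/
def LeafPure : Prop :=
  ∀ {R E F F' : Type} [CommRing R] [IsDomain R] [IsDiscreteValuationRing R]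
    [HenselianLocalRing R] [IsAlgClosed (IsLocalRing.ResidueField R)]
    [Field E] [CharZero E] [Algebra R E] [IsFractionRing R E]
    [Field F] [Algebra E F] [Algebra R F] [IsScalarTower R E F]
    [Field F'] [Algebra E F'] [Algebra R F'] [IsScalarTower R E F']
    (w : R) (_ : Irreducible w) (q : ℕ) (_ : q.Prime)
    (_ : (q : R) ∈ IsLocalRing.maximalIdeal R)
    (α β : F' →ₐ[E] F) (x : F) (x' : F')
    (V₁ V₂ V₃ : ValuationSubring F) (V₁' V₂' : ValuationSubring F')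
    (_ : TripleCtx w q α β x x' V₁ V₂ V₃ V₁' V₂'),
    ∀ m : ℕ, 0 < m → ¬ q ∣ m → ∀ ζ : R, IsPrimitiveRoot ζ m →
      ∀ u : F, u ≠ 0 → A2.DivisibleDiv E m u →
        u - 1 ∈ V₁.nonunits → u - 1 ∈ V₂.nonunits → u - 1 ∈ V₃.nonunits →
        ∀ k₁ k₂ : F', S29.H395.normAlong α u = k₁ ^ m → S29.H395.normAlong β u = k₂ ^ m →
          ∃ κ : ValuationSubring F → ℕ,
            (∀ 𝔫 : Ideal (chart R ({x} : Set F)), 𝔫.IsMaximal →
              algebraMap R (chart R ({x} : Set F)) w ∈ 𝔫 →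
              H193.BasePureValuesAt (three V₁ V₂ V₃) (chart R ({x} : Set F)) 𝔫 m
                (u ^ ((q - 1) * (q + 1))) ζ κ) ∧
            (∀ 𝔫 : Ideal (chart R ({x⁻¹} : Set F)), 𝔫.IsMaximal →
              algebraMap R (chart R ({x⁻¹} : Set F)) w ∈ 𝔫 →
              H193.BasePureValuesAt (three V₁ V₂ V₃) (chart R ({x⁻¹} : Set F)) 𝔫 m
                (u ^ ((q - 1) * (q + 1))) ζ κ)

end Fermat.Agent.S36.Alg3

end

end
-- ===== PACK-END S36/Alg3/Spec.lean

-- ===== PACK-BEGIN S36/Alg3/Skel.lean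
section




/-!
# S36 / ALG3 — skeleton (sub-architect helper586)

    alg3_of_leaves : LeafStepA → LeafSheets → LeafPure → Eng.Alg3Statement

with `C = (q² - 1) * ((q - 1) * (q + 1))`.  Sorry-free; the wall is
`H193.exists_pow_eq_of_three`.
-/

set_option autoImplicit false
set_option linter.style.haveILetI false
set_option linter.unusedSectionVars false
set_option linter.unusedVariables false
set_option synthInstance.maxHeartbeats 400000
set_option maxHeartbeats 1600000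

noncomputable section

namespace Fermat.Agent.S36.Alg3

open Fermat.Agent.S18.H138 (chart)
open Fermat.Agent.S36.Eng
open Fermat.Agent.S36.H586

section Aux

variable {F : Type*} [Field F]

theorem sub_one_mem_nonunits_pow {V : ValuationSubring F} {u : F} (hu : u - 1 ∈ V.nonunits)
    (n : ℕ) : u ^ n - 1 ∈ V.nonunits := by
  have h1 : PU V u := (ValuationSubring.mem_nonunits_iff V).1 hu
  exact (ValuationSubring.mem_nonunits_iff V).2 (h1.pow n)

theorem ne_zero_of_sub_one_mem_nonunits {V : ValuationSubring F} {u : F}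
    (hu : u - 1 ∈ V.nonunits) : u ≠ 0 :=
  PU.ne_zero ((ValuationSubring.mem_nonunits_iff V).1 hu)

/-- A discrete valuation subring with uniformiser `t` is `t`-adically discrete. -/
theorem exists_mul_pow_mem_of_unif (V : ValuationSubring F) [IsDiscreteValuationRing V] {t : F}
    (ht0 : t ≠ 0) (ht : t ∈ V.nonunits) (hgen : ∀ f ∈ V.nonunits, f * t⁻¹ ∈ V) (g : F) :
    ∃ k : ℕ, g * t ^ k ∈ V := by
  by_cases hg : g = 0
  · exact ⟨0, by rw [hg, zero_mul]; exact V.zero_mem⟩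
  obtain ⟨a, ha⟩ := exists_isOrd_of_dvr V ht0 ht hgen g hg
  refine ⟨(-a).toNat, ?_⟩
  have hvt : V.valuation t < 1 := val_lt_one_of_mem_nonunits ht
  have hvt0 : 0 < V.valuation t := zero_lt_iff.2 ((Valuation.ne_zero_iff _).2 ht0)
  rw [← ValuationSubring.valuation_le_one_iff, map_mul, map_pow]
  unfold IsOrd at ha
  rw [ha, ← zpow_natCast, ← zpow_add₀ hvt0.ne']
  have hnn : 0 ≤ a + ((-a).toNat : ℤ) := by
    have := Int.self_le_toNat (-a)
    omega
  have h1 : V.valuation t ^ (a + ((-a).toNat : ℤ)) ≤ V.valuation t ^ (0 : ℤ) :=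
    (zpow_le_zpow_iff_right_of_lt_one₀ hvt0 hvt).2 hnn
  simpa using h1

end Aux

/-- `m ∣ div` is stable under the operations of step (a). -/
theorem divisibleDiv_of_eq {E F : Type*} [Field E] [Field F] [Algebra E F] {m : ℕ} {n : ℕ}
    {f G u : F} {c : E} (hc : c ≠ 0) (hG : G ≠ 0) (hdiv : A2.DivisibleDiv E m f)
    (h : f ^ n = algebraMap E F c * G ^ m * u) : A2.DivisibleDiv E m u := by
  intro V hV hEV
  obtain ⟨h₀, u₀, hh₀, hu₀, hu₀', hfu⟩ := hdiv V hV hEV
  have hcF : algebraMap E F c ≠ 0 := (map_ne_zero (algebraMap E F)).2 hc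
  refine ⟨h₀ ^ n * G⁻¹, u₀ ^ n * (algebraMap E F c)⁻¹, mul_ne_zero (pow_ne_zero _ hh₀)
    (inv_ne_zero hG), ?_, ?_, ?_⟩
  · refine V.mul_mem _ _ (pow_mem hu₀ n) ?_
    rw [← map_inv₀]
    exact hEV _
  · rw [mul_inv, inv_inv, ← inv_pow]
    exact V.mul_mem _ _ (pow_mem hu₀' n) (hEV c)
  · have hGm : G ^ m ≠ 0 := pow_ne_zero _ hG
    have h1 : u = f ^ n * (algebraMap E F c)⁻¹ * (G ^ m)⁻¹ := by
      rw [h]
      field_simp
    rw [h1, hfu, mul_pow, mul_pow, ← pow_mul, ← pow_mul, mul_comm m n, inv_pow]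
    ring

/-- **ALG3 from its three leaves.** -/
theorem alg3_of_leaves (hA : LeafStepA) (hS : LeafSheets) (hP : LeafPure) : Alg3Statement := by
  intro R E F F' _ _ _ _ _ _ _ _ _ _ _ _ _ _ _ _ _ w hw q hq hqR α β x x' V₁ V₂ V₃ V₁' V₂' T
  have hq2 : 2 ≤ q := hq.two_le
  have hc0 : 0 < (q - 1) * (q + 1) := Nat.mul_pos (by omega) (by omega)
  have hq21 : 0 < q ^ 2 - 1 := by
    have : 4 ≤ q ^ 2 := by nlinarith
    omega
  refine ⟨(q ^ 2 - 1) * ((q - 1) * (q + 1)), Nat.mul_pos hq21 hc0, ?_⟩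
  intro m hm hqm f hf hdiv hNα hNβ
  obtain ⟨s, G, u, k₁, k₂, hG, hfu, hu₁, hu₂, hu₃, hk₁, hk₂⟩ :=
    hA w hw q hq hqR α β x x' V₁ V₂ V₃ V₁' V₂' T m hm hqm f hf hNα hNβ
  have hu0 : u ≠ 0 := ne_zero_of_sub_one_mem_nonunits hu₁
  -- the uniformiser in `E` and `F`
  have hinjRE : Function.Injective (algebraMap R E) := IsFractionRing.injective R E
  have hwE : algebraMap R E w ≠ 0 := fun h => hw.ne_zero (hinjRE (by rw [h, map_zero]))
  have hwF : algebraMap R F w = algebraMap E F (algebraMap R E w) :=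
    IsScalarTower.algebraMap_apply R E F w
  have hfu' : f ^ (q ^ 2 - 1) = algebraMap E F (algebraMap R E w ^ s) * G ^ m * u := by
    rw [hfu, hwF, map_zpow₀]
  have hdivu : A2.DivisibleDiv E m u :=
    divisibleDiv_of_eq (zpow_ne_zero _ hwE) hG hdiv hfu'
  -- roots of unity and the purity data
  obtain ⟨ζ, hζ⟩ := Fermat.Agent.A2.Alg.H348.exists_primitiveRoot (R := R) q m hq hqR hm hqm
  obtain ⟨κ, hfin, hinf⟩ := hP w hw q hq hqR α β x x' V₁ V₂ V₃ V₁' V₂' T m hm hqm ζ hζ u hu0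
    hdivu hu₁ hu₂ hu₃ k₁ k₂ hk₁ hk₂
  -- the wall
  haveI := T.dvr₁
  have hdisc : ∀ g : F, ∃ k : ℕ, g * algebraMap R F w ^ k ∈ V₁ :=
    exists_mul_pow_mem_of_unif V₁ T.unif₁.1 T.unif₁.2.1 T.unif₁.2.2
  obtain ⟨g, hg⟩ := H193.exists_pow_eq_of_three E w hw q hq hqR T.hx T.hfin hm hqm hζ
    (f := u ^ ((q - 1) * (q + 1))) (pow_ne_zero _ hu0) V₁ V₂ V₃
    (hS w hw q hq hqR α β x x' V₁ V₂ V₃ V₁' V₂' T)
    (sub_one_mem_nonunits_pow hu₁ _) (sub_one_mem_nonunits_pow hu₂ _)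
    (sub_one_mem_nonunits_pow hu₃ _) T.base₁ T.unif₁.2.1 T.unif₁.2.2 hdisc κ hfin hinf
  have hg0 : g ≠ 0 := by
    rintro rfl
    rw [zero_pow hm.ne'] at hg
    exact pow_ne_zero _ hu0 hg.symm
  refine ⟨(algebraMap R E w ^ s) ^ ((q - 1) * (q + 1)), G ^ ((q - 1) * (q + 1)) * g,
    mul_ne_zero (pow_ne_zero _ hG) hg0, ?_⟩
  rw [pow_mul, hfu', mul_pow, mul_pow, ← hg, map_pow, mul_pow, ← pow_mul, ← pow_mul,
    mul_comm m ((q - 1) * (q + 1))]
  ring

end Fermat.Agent.S36.Alg3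

end

end
-- ===== PACK-END S36/Alg3/Skel.lean

-- ===== PACK-BEGIN S36/H630/Final.lean
section


/-!
# S36 engine, ALG3 gap G4 (helper630): `BasePureValuesAt` at EVERY closed point of both charts,
from `Eng.TripleCtx` (Spec v1.3)

* `labelAt_fin_ctx`        : the label datum at a closed point of `chart R {x}` (triple point:
  `labelAt_triple_ctx`; otherwise at most one sheet passes, by `ctx.incidence`);
* `labelAt_inf_ctx`        : the label datum at a closed point of `chart R {x⁻¹}` (cusps: at most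
  one sheet, by `ctx.cusp_single`; off the cusps: change of chart);
* `exists_kappa_basePure`  : **the theorem for the assembler**: ONE colouring `κ` and, at every
  closed point of the special fibre of both charts, purity datum ⟹ `H193.BasePureValuesAt`
  for `u ^ ((q - 1) (q + 1))`, in the exact shape of the hypotheses `hpure_fin`, `hpure_inf` of
  `H193.exists_pow_eq_of_three`.
-/

set_option autoImplicit false
set_option linter.unusedSectionVars false
set_option linter.style.haveILetI false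
set_option maxHeartbeats 1600000

namespace Fermat.Agent.S36.H630

open Fermat.Agent.S18.H138 (chart mem_chart)
open Fermat.Agent.S36.H193 (BasePureValuesAt)
open Fermat.Agent.S36.Eng (TripleCtx)
open AlgebraicCurve

section Ctx

variable {R E F F' : Type*} [CommRing R] [IsDomain R] [IsDiscreteValuationRing R]
  [IsAlgClosed (IsLocalRing.ResidueField R)]
  [Field E] [Algebra R E] [Field F] [Algebra E F] [Algebra R F] [IsScalarTower R E F]
  [Field F'] [Algebra E F'] [Algebra R F'] [IsScalarTower R E F']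
  {w : R} {q : ℕ} {α β : F' →ₐ[E] F} {x : F} {x' : F'}
  {V₁ V₂ V₃ : ValuationSubring F} {V₁' V₂' : ValuationSubring F'}

omit [IsAlgClosed (IsLocalRing.ResidueField R)] in
/-- `w ∈ n` ⟹ the maximal ideal of `R` maps into `n`. -/
theorem maximalIdeal_map_mem (hw : Irreducible w) {B : Subalgebra R F} {n : Ideal B}
    (hwn : algebraMap R B w ∈ n) :
    ∀ r ∈ IsLocalRing.maximalIdeal R, algebraMap R B r ∈ n := by
  intro r hr
  rw [hw.maximalIdeal_eq, Ideal.mem_span_singleton] at hr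
  obtain ⟨t, rfl⟩ := hr
  rw [map_mul]
  exact n.mul_mem_right _ hwn

/-- **The label datum at a closed point of the finite chart.** -/
theorem labelAt_fin_ctx (ctx : TripleCtx w q α β x x' V₁ V₂ V₃ V₁' V₂')
    (hw : Irreducible w) (hq : 0 < q) {m : ℕ} (hm : 0 < m) {ζ : R} (hζ : ζ ^ m = 1)
    {u : F} (hu₁ : u - 1 ∈ V₁.nonunits) (hu₂ : u - 1 ∈ V₂.nonunits)
    (hu₃ : u - 1 ∈ V₃.nonunits)
    {k₁ k₂ : F'} (hk₁ : S29.H395.normAlong α u = k₁ ^ m)
    (hk₂ : S29.H395.normAlong β u = k₂ ^ m)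
    {i₁ i₂ j₁ j₂ : ℕ}
    (hi₁ : k₁ - algebraMap R F' (ζ ^ i₁) ∈ V₁'.nonunits)
    (hi₂ : k₁ - algebraMap R F' (ζ ^ i₂) ∈ V₂'.nonunits)
    (hj₂ : k₂ - algebraMap R F' (ζ ^ j₂) ∈ V₂'.nonunits)
    (hj₁ : k₂ - algebraMap R F' (ζ ^ j₁) ∈ V₁'.nonunits)
    (κ : ValuationSubring F → ℕ)
    (hκFF : ζ ^ ((m - 1) * κ V₁) = ζ ^ ((q - 1) * (i₂ + j₂ + (m - 1) * (i₁ + j₁))))
    (hκmid : ζ ^ ((m - 1) * κ V₂) = ζ ^ (q * i₂ + j₁ + (m - 1) * (q * i₁ + j₂)))
    (hκVV : ζ ^ ((m - 1) * κ V₃) = 1)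
    (n : Ideal (chart R ({x} : Set F))) (hn : n.IsMaximal)
    (hwn : algebraMap R (chart R ({x} : Set F)) w ∈ n)
    (hpur : ∃ (d : F) (a₀ s₀ : chart R ({x} : Set F)), a₀ ∉ n ∧ s₀ ∉ n ∧
      u * d ^ m * (s₀ : F) = a₀) :
    LabelAt (chart R ({x} : Set F)) n {V | V = V₁ ∨ V = V₂ ∨ V = V₃} m
      (u ^ ((q - 1) * (q + 1))) ζ κ := by
  haveI := hn
  obtain ⟨d, a₀, s₀, ha₀, hs₀, hpure⟩ := hpur
  have h𝔪n := maximalIdeal_map_mem hw hwn
  by_cases htr : (PassThrough (chart R ({x} : Set F)) n V₁ ∧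
      PassThrough (chart R ({x} : Set F)) n V₂) ∨
      (PassThrough (chart R ({x} : Set F)) n V₁ ∧ PassThrough (chart R ({x} : Set F)) n V₃) ∨
      (PassThrough (chart R ({x} : Set F)) n V₂ ∧ PassThrough (chart R ({x} : Set F)) n V₃)
  · obtain ⟨h1, h2, h3⟩ := ctx.incidence n hn htr
    exact labelAt_triple_ctx ctx hq hm hζ n h𝔪n h1 h2 h3 hu₁ hu₂ hu₃ hk₁ hk₂ hi₁ hi₂ hj₂ hj₁ κ
      hκFF hκmid hκVV ha₀ hs₀ hpure
  · rw [not_or, not_or] at htr
    have hB₁ : ChartLe (chart R ({x} : Set F)) V₁ := chartLe_chart ctx.base₁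
      (fun s hs => by rw [Set.mem_singleton_iff.1 hs]; exact ctx.x_unit₁.2.1)
    have hB₂ : ChartLe (chart R ({x} : Set F)) V₂ := chartLe_chart ctx.base₂
      (fun s hs => by rw [Set.mem_singleton_iff.1 hs]; exact ctx.x_unit₂.2.1)
    have hB₃ : ChartLe (chart R ({x} : Set F)) V₃ := chartLe_chart ctx.base₃
      (fun s hs => by rw [Set.mem_singleton_iff.1 hs]; exact ctx.x_unit₃.2.1)
    exact labelAt_of_le_one (rat_chart x n hn h𝔪n) hB₁ hB₂ hB₃ hm
      (normalAlong_of_monic ctx.normal_f₁ hm) (normalAlong_of_monic ctx.normal_f₂ hm)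
      (normalAlong_of_monic ctx.normal_f₃ hm) hζ κ htr.1 htr.2.1 htr.2.2 hu₁ hu₂ hu₃ ha₀ hs₀
      hpure _

/-- **The label datum at a closed point of the chart at infinity.** -/
theorem labelAt_inf_ctx (ctx : TripleCtx w q α β x x' V₁ V₂ V₃ V₁' V₂')
    (hw : Irreducible w) (hq : 0 < q) {m : ℕ} (hm : 0 < m) {ζ : R} (hζ : ζ ^ m = 1)
    {u : F} (hu₁ : u - 1 ∈ V₁.nonunits) (hu₂ : u - 1 ∈ V₂.nonunits)
    (hu₃ : u - 1 ∈ V₃.nonunits)
    {k₁ k₂ : F'} (hk₁ : S29.H395.normAlong α u = k₁ ^ m)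
    (hk₂ : S29.H395.normAlong β u = k₂ ^ m)
    {i₁ i₂ j₁ j₂ : ℕ}
    (hi₁ : k₁ - algebraMap R F' (ζ ^ i₁) ∈ V₁'.nonunits)
    (hi₂ : k₁ - algebraMap R F' (ζ ^ i₂) ∈ V₂'.nonunits)
    (hj₂ : k₂ - algebraMap R F' (ζ ^ j₂) ∈ V₂'.nonunits)
    (hj₁ : k₂ - algebraMap R F' (ζ ^ j₁) ∈ V₁'.nonunits)
    (κ : ValuationSubring F → ℕ)
    (hκFF : ζ ^ ((m - 1) * κ V₁) = ζ ^ ((q - 1) * (i₂ + j₂ + (m - 1) * (i₁ + j₁))))
    (hκmid : ζ ^ ((m - 1) * κ V₂) = ζ ^ (q * i₂ + j₁ + (m - 1) * (q * i₁ + j₂)))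
    (hκVV : ζ ^ ((m - 1) * κ V₃) = 1)
    (n' : Ideal (chart R ({x⁻¹} : Set F))) (hn' : n'.IsMaximal)
    (hwn' : algebraMap R (chart R ({x⁻¹} : Set F)) w ∈ n')
    (hpur : ∃ (d : F) (a₀ s₀ : chart R ({x⁻¹} : Set F)), a₀ ∉ n' ∧ s₀ ∉ n' ∧
      u * d ^ m * (s₀ : F) = a₀) :
    LabelAt (chart R ({x⁻¹} : Set F)) n' {V | V = V₁ ∨ V = V₂ ∨ V = V₃} m
      (u ^ ((q - 1) * (q + 1))) ζ κ := by
  haveI := hn'
  have hn'p : n'.IsPrime := hn'.isPrime
  have h𝔪n' := maximalIdeal_map_mem hw hwn'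
  have hrat' := rat_chart x⁻¹ n' hn' h𝔪n'
  have hx0 : x ≠ 0 := ctx.x_unit₁.1
  have hyB' : x⁻¹ ∈ chart R ({x⁻¹} : Set F) := Fermat.Agent.S18.H138.mem_chart_of_mem rfl
  by_cases hy : (⟨x⁻¹, hyB'⟩ : chart R ({x⁻¹} : Set F)) ∈ n'
  · -- a cusp: at most one sheet
    obtain ⟨h12, h13, h23⟩ := ctx.cusp_single n' hn' hwn' hy
    obtain ⟨d, a₀, s₀, ha₀, hs₀, hpure⟩ := hpur
    have hB₁ : ChartLe (chart R ({x⁻¹} : Set F)) V₁ := chartLe_chart ctx.base₁
      (fun s hs => by rw [Set.mem_singleton_iff.1 hs]; exact ctx.x_unit₁.2.2)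
    have hB₂ : ChartLe (chart R ({x⁻¹} : Set F)) V₂ := chartLe_chart ctx.base₂
      (fun s hs => by rw [Set.mem_singleton_iff.1 hs]; exact ctx.x_unit₂.2.2)
    have hB₃ : ChartLe (chart R ({x⁻¹} : Set F)) V₃ := chartLe_chart ctx.base₃
      (fun s hs => by rw [Set.mem_singleton_iff.1 hs]; exact ctx.x_unit₃.2.2)
    exact labelAt_of_le_one hrat' hB₁ hB₂ hB₃ hm
      (normalAlong_of_monic ctx.normal_i₁ hm) (normalAlong_of_monic ctx.normal_i₂ hm)
      (normalAlong_of_monic ctx.normal_i₃ hm) hζ κ h12 h13 h23 hu₁ hu₂ hu₃ ha₀ hs₀ hpure _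
  · -- off the cusps: change of chart
    have hclear : ∀ b : chart R ({x} : Set F),
        ∃ k : ℕ, x⁻¹ ^ k * (b : F) ∈ chart R ({x⁻¹} : Set F) :=
      fun b => Fermat.Agent.S18.H138.exists_inv_pow_mul_mem_chart hx0 b.2
    have hclear' : ∀ c : chart R ({x⁻¹} : Set F),
        ∃ k : ℕ, x⁻¹⁻¹ ^ k * (c : F) ∈ chart R ({x} : Set F) := by
      intro c
      have hc : (c : F) ∈ chart R ({x, x⁻¹} : Set F) :=
        Fermat.Agent.S18.H138.chart_mono (by simp) c.2
      obtain ⟨K, hK⟩ := Fermat.Agent.S18.H138.exists_pow_mul_mem_chart hx0 hc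
      exact ⟨K, by rw [inv_inv]; exact hK⟩
    have hyinv : x⁻¹⁻¹ ∈ chart R ({x} : Set F) := by
      rw [inv_inv]
      exact Fermat.Agent.S18.H138.mem_chart_of_mem rfl
    have hnmax : (backIdeal (chart R ({x} : Set F)) n' x⁻¹ hyB' hclear).IsMaximal :=
      backIdeal_isMaximal hyB' hclear hy h𝔪n' hrat'
    have hwn : algebraMap R (chart R ({x} : Set F)) w
        ∈ backIdeal (chart R ({x} : Set F)) n' x⁻¹ hyB' hclear :=
      (algebraMap_mem_backIdeal_iff hyB' hclear hy w).2 hwn'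
    have hpurB := pure_back hyB' hclear hy hyinv hclear' hpur
    have hlab := labelAt_fin_ctx ctx hw hq hm hζ hu₁ hu₂ hu₃ hk₁ hk₂ hi₁ hi₂ hj₂ hj₁ κ
      hκFF hκmid hκVV _ hnmax hwn hpurB
    refine LabelAt.of_back hyB' hclear hy ?_ hlab
    rintro V (rfl | rfl | rfl)
    · exact ctx.x_unit₁.2.2
    · exact ctx.x_unit₂.2.2
    · exact ctx.x_unit₃.2.2

/-- **G4 + KAPPA + CHART-CHANGE (the theorem for the assembler).**  One colouring `κ`; at every
closed point of the special fibre of both charts a purity datum for `u` gives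
`BasePureValuesAt` for `u ^ ((q - 1) (q + 1))`. -/
theorem exists_kappa_basePure (ctx : TripleCtx w q α β x x' V₁ V₂ V₃ V₁' V₂')
    (hw : Irreducible w) (hq : 0 < q) (hinjE : Function.Injective (algebraMap R E))
    {m : ℕ} (hm : 0 < m) {ζ : R} (hζ : IsPrimitiveRoot ζ m)
    {u : F} (hu₁ : u - 1 ∈ V₁.nonunits) (hu₂ : u - 1 ∈ V₂.nonunits)
    (hu₃ : u - 1 ∈ V₃.nonunits)
    {k₁ k₂ : F'} (hk₁ : S29.H395.normAlong α u = k₁ ^ m)
    (hk₂ : S29.H395.normAlong β u = k₂ ^ m) :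
    ∃ κ : ValuationSubring F → ℕ,
      (∀ n : Ideal (chart R ({x} : Set F)), n.IsMaximal →
        algebraMap R (chart R ({x} : Set F)) w ∈ n →
        (∃ (d : F) (a₀ s₀ : chart R ({x} : Set F)), a₀ ∉ n ∧ s₀ ∉ n ∧
          u * d ^ m * (s₀ : F) = a₀) →
        BasePureValuesAt {V | V = V₁ ∨ V = V₂ ∨ V = V₃} (chart R ({x} : Set F)) n m
          (u ^ ((q - 1) * (q + 1))) ζ κ) ∧
      (∀ n : Ideal (chart R ({x⁻¹} : Set F)), n.IsMaximal →
        algebraMap R (chart R ({x⁻¹} : Set F)) w ∈ n →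
        (∃ (d : F) (a₀ s₀ : chart R ({x⁻¹} : Set F)), a₀ ∉ n ∧ s₀ ∉ n ∧
          u * d ^ m * (s₀ : F) = a₀) →
        BasePureValuesAt {V | V = V₁ ∨ V = V₂ ∨ V = V₃} (chart R ({x⁻¹} : Set F)) n m
          (u ^ ((q - 1) * (q + 1))) ζ κ) := by
  have hζ1 : ζ ^ m = 1 := hζ.pow_eq_one
  have hinj : Function.Injective (algebraMap R F') := by
    rw [IsScalarTower.algebraMap_eq R E F']
    exact (algebraMap E F').injective.comp hinjE
  -- the labels
  obtain ⟨i₁, i₂, hi₁, hi₂⟩ :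
      ∃ i₁ i₂ : ℕ, k₁ - algebraMap R F' (ζ ^ i₁) ∈ V₁'.nonunits ∧
        k₁ - algebraMap R F' (ζ ^ i₂) ∈ V₂'.nonunits := by
    letI := algebraAlong α
    haveI : IsScalarTower R F' F := isScalarTower_alongR α
    exact exists_labels_side hinj ctx.base₁ ctx.base₃ ctx.comap_α₁ ctx.comap_α₃
      ctx.nr_α₁ ctx.nr_α₂ hm hζ hu₁ hu₂ hu₃ hk₁
  obtain ⟨j₂, j₁, hj₂, hj₁⟩ :
      ∃ j₂ j₁ : ℕ, k₂ - algebraMap R F' (ζ ^ j₂) ∈ V₂'.nonunits ∧
        k₂ - algebraMap R F' (ζ ^ j₁) ∈ V₁'.nonunits := by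
    letI := algebraAlong β
    haveI : IsScalarTower R F' F := isScalarTower_alongR β
    exact exists_labels_side hinj ctx.base₃ ctx.base₁ ctx.comap_β₃ ctx.comap_β₁
      ctx.nr_β₁ ctx.nr_β₂ hm hζ hu₃ hu₂ hu₁ hk₂
  -- the colouring
  set κ : ValuationSubring F → ℕ := kappa3 V₁ V₂
    ((m - 1) * ((q - 1) * (i₂ + j₂ + (m - 1) * (i₁ + j₁))))
    ((m - 1) * (q * i₂ + j₁ + (m - 1) * (q * i₁ + j₂))) with hκ
  have hκFF : ζ ^ ((m - 1) * κ V₁) = ζ ^ ((q - 1) * (i₂ + j₂ + (m - 1) * (i₁ + j₁))) := by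
    rw [hκ, kappa3_left]
    exact zeta_pow_sq hm hζ1 _
  have hκmid : ζ ^ ((m - 1) * κ V₂) = ζ ^ (q * i₂ + j₁ + (m - 1) * (q * i₁ + j₂)) := by
    rw [hκ, kappa3_mid ctx.ne₁₂]
    exact zeta_pow_sq hm hζ1 _
  have hκVV : ζ ^ ((m - 1) * κ V₃) = 1 := by
    rw [hκ, kappa3_right ctx.ne₁₃ ctx.ne₂₃, mul_zero, pow_zero]
  refine ⟨κ, ?_, ?_⟩
  · intro n hn hwn hpur
    haveI := hn
    refine basePureValuesAt_of_labelAt ?_ hm hζ1
      (labelAt_fin_ctx ctx hw hq hm hζ1 hu₁ hu₂ hu₃ hk₁ hk₂ hi₁ hi₂ hj₂ hj₁ κ hκFF hκmid hκVV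
        n hn hwn hpur)
    rintro V (rfl | rfl | rfl)
    · exact chartLe_chart ctx.base₁
        (fun s hs => by rw [Set.mem_singleton_iff.1 hs]; exact ctx.x_unit₁.2.1)
    · exact chartLe_chart ctx.base₂
        (fun s hs => by rw [Set.mem_singleton_iff.1 hs]; exact ctx.x_unit₂.2.1)
    · exact chartLe_chart ctx.base₃
        (fun s hs => by rw [Set.mem_singleton_iff.1 hs]; exact ctx.x_unit₃.2.1)
  · intro n hn hwn hpur
    haveI := hn
    refine basePureValuesAt_of_labelAt ?_ hm hζ1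
      (labelAt_inf_ctx ctx hw hq hm hζ1 hu₁ hu₂ hu₃ hk₁ hk₂ hi₁ hi₂ hj₂ hj₁ κ hκFF hκmid hκVV
        n hn hwn hpur)
    rintro V (rfl | rfl | rfl)
    · exact chartLe_chart ctx.base₁
        (fun s hs => by rw [Set.mem_singleton_iff.1 hs]; exact ctx.x_unit₁.2.2)
    · exact chartLe_chart ctx.base₂
        (fun s hs => by rw [Set.mem_singleton_iff.1 hs]; exact ctx.x_unit₂.2.2)
    · exact chartLe_chart ctx.base₃
        (fun s hs => by rw [Set.mem_singleton_iff.1 hs]; exact ctx.x_unit₃.2.2)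

end Ctx

end Fermat.Agent.S36.H630

end
-- ===== PACK-END S36/H630/Final.lean

-- ===== PACK-BEGIN S36/H630/LeafPure.lean
section




/-!
# S36 / ALG3 — leaf PURE closed (helper630)

`leafPure : Alg3.LeafPure` VERBATIM (`S36/Alg3/Spec.lean`, sub-architect helper586), from

* `H630.exists_kappa_basePure` (G4 + KAPPA + CHART-CHANGE: label data at every closed point of both
  charts from purity data), and
* `H987.ctx_pure_fin`, `H987.ctx_pure_cusp` (G3, helper987: purity data at every closed point of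
  the finite chart and at the cusps).

Off the cusps of the chart at infinity the purity datum is transported from the finite chart
(`pure_fwd`).
-/

set_option autoImplicit false
set_option linter.unusedSectionVars false
set_option linter.style.haveILetI false
set_option synthInstance.maxHeartbeats 400000
set_option maxHeartbeats 1600000

namespace Fermat.Agent.S36.H630

open Fermat.Agent.S18.H138 (chart mem_chart)
open Fermat.Agent.S36.H193 (BasePureValuesAt)
open Fermat.Agent.S36.Eng (TripleCtx)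
open AlgebraicCurve

section Fwd

variable {R : Type*} [CommRing R] {F : Type*} [Field F] [Algebra R F]
variable {B B' : Subalgebra R F} {n' : Ideal B'} {y : F}
variable (hy : y ∈ B') (hclear : ∀ b : B, ∃ k : ℕ, y ^ k * (b : F) ∈ B')

/-- **A purity datum at the point of `B` gives a purity datum at `n'`.** -/
theorem pure_fwd [hn' : n'.IsPrime] (hyn : (⟨y, hy⟩ : B') ∉ n') {m : ℕ} {u : F}
    (h : ∃ (d : F) (a₀ s₀ : B), a₀ ∉ backIdeal B n' y hy hclear ∧
      s₀ ∉ backIdeal B n' y hy hclear ∧ u * d ^ m * (s₀ : F) = a₀) :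
    ∃ (d : F) (a₀ s₀ : B'), a₀ ∉ n' ∧ s₀ ∉ n' ∧ u * d ^ m * (s₀ : F) = a₀ := by
  obtain ⟨d, a₀, s₀, ha₀, hs₀, hpure⟩ := h
  obtain ⟨k, hka, hks⟩ := exists_clear₂ hy hclear a₀ s₀
  refine ⟨d, ⟨_, hka⟩, ⟨_, hks⟩, ?_, ?_, ?_⟩
  · intro h1
    exact ha₀ ((mem_backIdeal_iff hy hclear hyn a₀ k hka).2 h1)
  · intro h1
    exact hs₀ ((mem_backIdeal_iff hy hclear hyn s₀ k hks).2 h1)
  · show u * d ^ m * (y ^ k * (s₀ : F)) = y ^ k * (a₀ : F)
    rw [← hpure]
    ring

end Fwd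

section Ctx

variable {R E F F' : Type*} [CommRing R] [IsDomain R] [IsDiscreteValuationRing R]
  [IsAlgClosed (IsLocalRing.ResidueField R)]
  [Field E] [Algebra R E] [Field F] [Algebra E F] [Algebra R F] [IsScalarTower R E F]
  [Field F'] [Algebra E F'] [Algebra R F'] [IsScalarTower R E F']
  {w : R} {q : ℕ} {α β : F' →ₐ[E] F} {x : F} {x' : F'}
  {V₁ V₂ V₃ : ValuationSubring F} {V₁' V₂' : ValuationSubring F'}

/-- **Label data at every closed point of both charts, from purity data on the finite chart and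
at the cusps.** -/
theorem exists_kappa_basePure_of_fin_cusp (ctx : TripleCtx w q α β x x' V₁ V₂ V₃ V₁' V₂')
    (hw : Irreducible w) (hq : 0 < q) (hinjE : Function.Injective (algebraMap R E))
    {m : ℕ} (hm : 0 < m) {ζ : R} (hζ : IsPrimitiveRoot ζ m)
    {u : F} (hu₁ : u - 1 ∈ V₁.nonunits) (hu₂ : u - 1 ∈ V₂.nonunits)
    (hu₃ : u - 1 ∈ V₃.nonunits)
    {k₁ k₂ : F'} (hk₁ : S29.H395.normAlong α u = k₁ ^ m)
    (hk₂ : S29.H395.normAlong β u = k₂ ^ m)
    (hpur_fin : ∀ n : Ideal (chart R ({x} : Set F)), n.IsMaximal →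
      algebraMap R (chart R ({x} : Set F)) w ∈ n →
      ∃ (d : F) (a₀ s₀ : chart R ({x} : Set F)), a₀ ∉ n ∧ s₀ ∉ n ∧ u * d ^ m * (s₀ : F) = a₀)
    (hpur_cusp : ∀ n : Ideal (chart R ({x⁻¹} : Set F)), n.IsMaximal →
      algebraMap R (chart R ({x⁻¹} : Set F)) w ∈ n →
      (⟨x⁻¹, Fermat.Agent.S18.H138.mem_chart_of_mem rfl⟩ : chart R ({x⁻¹} : Set F)) ∈ n →
      ∃ (d : F) (a₀ s₀ : chart R ({x⁻¹} : Set F)), a₀ ∉ n ∧ s₀ ∉ n ∧
        u * d ^ m * (s₀ : F) = a₀) :
    ∃ κ : ValuationSubring F → ℕ,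
      (∀ n : Ideal (chart R ({x} : Set F)), n.IsMaximal →
        algebraMap R (chart R ({x} : Set F)) w ∈ n →
        BasePureValuesAt {V | V = V₁ ∨ V = V₂ ∨ V = V₃} (chart R ({x} : Set F)) n m
          (u ^ ((q - 1) * (q + 1))) ζ κ) ∧
      (∀ n : Ideal (chart R ({x⁻¹} : Set F)), n.IsMaximal →
        algebraMap R (chart R ({x⁻¹} : Set F)) w ∈ n →
        BasePureValuesAt {V | V = V₁ ∨ V = V₂ ∨ V = V₃} (chart R ({x⁻¹} : Set F)) n m
          (u ^ ((q - 1) * (q + 1))) ζ κ) := by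
  obtain ⟨κ, hfin, hinf⟩ := exists_kappa_basePure ctx hw hq hinjE hm hζ hu₁ hu₂ hu₃ hk₁ hk₂
  refine ⟨κ, fun n hn hwn => hfin n hn hwn (hpur_fin n hn hwn), fun n' hn' hwn' => ?_⟩
  refine hinf n' hn' hwn' ?_
  haveI := hn'
  have hn'p : n'.IsPrime := hn'.isPrime
  have hyB' : x⁻¹ ∈ chart R ({x⁻¹} : Set F) := Fermat.Agent.S18.H138.mem_chart_of_mem rfl
  by_cases hy : (⟨x⁻¹, hyB'⟩ : chart R ({x⁻¹} : Set F)) ∈ n'
  · exact hpur_cusp n' hn' hwn' hy
  · have hx0 : x ≠ 0 := ctx.x_unit₁.1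
    have h𝔪n' := maximalIdeal_map_mem hw hwn'
    have hrat' := rat_chart x⁻¹ n' hn' h𝔪n'
    have hclear : ∀ b : chart R ({x} : Set F),
        ∃ k : ℕ, x⁻¹ ^ k * (b : F) ∈ chart R ({x⁻¹} : Set F) :=
      fun b => Fermat.Agent.S18.H138.exists_inv_pow_mul_mem_chart hx0 b.2
    have hnmax : (backIdeal (chart R ({x} : Set F)) n' x⁻¹ hyB' hclear).IsMaximal :=
      backIdeal_isMaximal hyB' hclear hy h𝔪n' hrat'
    have hwn : algebraMap R (chart R ({x} : Set F)) w
        ∈ backIdeal (chart R ({x} : Set F)) n' x⁻¹ hyB' hclear :=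
      (algebraMap_mem_backIdeal_iff hyB' hclear hy w).2 hwn'
    exact pure_fwd hyB' hclear hy (hpur_fin _ hnmax hwn)

end Ctx

/-- **Leaf PURE of ALG3** (`S36/Alg3/Spec.lean`), VERBATIM. -/
theorem leafPure : Fermat.Agent.S36.Alg3.LeafPure := by
  intro R E F F' _ _ _ _ _ _ _ _ _ _ _ _ _ _ _ _ _ w hw q hq hqR α β x x' V₁ V₂ V₃ V₁' V₂' T
    m hm hqm ζ hζ u hu0 hdiv hu₁ hu₂ hu₃ k₁ k₂ hk₁ hk₂
  have hU₁ : Fermat.Agent.S36.Eng.UnitAt V₁ u := unit_of_split hu₁
  have hU₂ : Fermat.Agent.S36.Eng.UnitAt V₂ u := unit_of_split hu₂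
  have hU₃ : Fermat.Agent.S36.Eng.UnitAt V₃ u := unit_of_split hu₃
  refine exists_kappa_basePure_of_fin_cusp T hw hq.pos (IsFractionRing.injective R E) hm hζ
    hu₁ hu₂ hu₃ hk₁ hk₂ ?_ ?_
  · intro n hn hwn
    obtain ⟨d, -, a₀, s₀, ha₀, hs₀, hpure⟩ :=
      Fermat.Agent.S36.H987.ctx_pure_fin hw hq T n hn hwn hm hdiv hU₁ hU₂ hU₃
    exact ⟨d, a₀, s₀, ha₀, hs₀, hpure⟩
  · intro n hn hwn hxn
    obtain ⟨d, -, a₀, s₀, ha₀, hs₀, hpure⟩ :=
      Fermat.Agent.S36.H987.ctx_pure_cusp hw hq T n hn hwn hxn hm hdiv hU₁ hU₂ hU₃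
    exact ⟨d, a₀, s₀, ha₀, hs₀, hpure⟩

end Fermat.Agent.S36.H630

end
-- ===== PACK-END S36/H630/LeafPure.lean

-- ===== PACK-BEGIN S36/H370/Mod3Mid.lean
section







/-!
# S36 / MOD3 — the middle valuation ring lies over `V₀` along `β` (helper370)

Levels `N' = M q`, `N = M q q`, `q ∤ M`.  Let `V` be ANY valuation subring of `F_N` with
`V.comap α = V∞(N')`, `V ≠ V∞(N)` (the "middle" component `V₂` of `Mod3.Objs`).  Then

    V.comap β = V₀(N') = V∞(N').comap W'.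

Route (no Eisenstein splitting needed):
* Kronecker `Φ_q(X,Y) ≡ (X^q - Y)(X - Y^q) mod q` and `Φ_q(j_q, j_{qq}) = 0` give, in the residue
  field of `V`, `j_{qq}^q = j_q` or `j_{qq} = j_q^q`; with `j_q ≡ j^q` on `V∞(N')` this yields
  `β x' ≡ α (x'^n) mod 𝔪_V` for `n = 1` or `n = q`  (`x' = j j_q`);
* hence `V.comap β` induces the Gauss valuation on `E(x')` (`isGaussOver_comap_of_congr`), so it
  is `V∞(N')` or `V₀(N')` (`Ribet.H279.eq_or_eq_of_isGaussOver`, the two-extension theorem of A2);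
* `V.comap β = V∞(N')` would force `V = V∞(N)` (`H83.h83_beta_unique`).
-/

set_option autoImplicit false
set_option linter.unusedSectionVars false
set_option linter.style.haveILetI false
set_option synthInstance.maxHeartbeats 400000
set_option maxHeartbeats 1600000

noncomputable section

namespace Fermat.Agent.S36.H370

open ModularCurve HahnSeries Polynomial Fermat.Agent.A2.Mod

/-! ## Generic valuation lemmas -/

section GenericVal

variable {K L : Type*} [Field K] [Field L]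

/-- Nonunits of the pull-back of a valuation ring along a field homomorphism. -/
theorem mem_nonunits_comap_hom (V : ValuationSubring L) (φ : K →+* L) (f : K) :
    f ∈ (V.comap φ).nonunits ↔ φ f ∈ V.nonunits := by
  rw [ValuationSubring.mem_nonunits_iff_or, ValuationSubring.mem_nonunits_iff_or,
    ValuationSubring.mem_comap]
  constructor
  · rintro (h | h)
    · left
      rw [h, map_zero]
    · right
      intro h'
      apply h
      show φ f⁻¹ ∈ V
      rw [map_inv₀]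
      exact h'
  · rintro (h | h)
    · left
      exact (map_eq_zero φ).mp h
    · right
      intro h'
      apply h
      have h'' : φ f⁻¹ ∈ V := h'
      rwa [map_inv₀] at h''

theorem nonunits_sub_mem370 {V : ValuationSubring L} {a b : L} (ha : a ∈ V.nonunits)
    (hb : b ∈ V.nonunits) : a - b ∈ V.nonunits := by
  rw [ValuationSubring.mem_nonunits_iff] at ha hb ⊢
  exact Valuation.map_sub_lt _ ha hb

theorem nonunits_mem370 {V : ValuationSubring L} {a : L} (ha : a ∈ V.nonunits) : a ∈ V := by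
  rw [ValuationSubring.mem_nonunits_iff] at ha
  exact (V.valuation_le_one_iff a).mp ha.le

/-- equality of residues -/
theorem residue_eq_iff370 (V : ValuationSubring L) {x y : L} (hx : x ∈ V) (hy : y ∈ V) :
    IsLocalRing.residue V ⟨x, hx⟩ = IsLocalRing.residue V ⟨y, hy⟩ ↔ x - y ∈ V.nonunits := by
  rw [← sub_eq_zero, ← map_sub, IsLocalRing.residue_eq_zero_iff,
    ← ValuationSubring.coe_mem_nonunits_iff]
  rfl

variable {R : Type*} [CommRing R] [Algebra R L]

/-- `aeval` at congruent points is congruent. -/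
theorem aeval_sub_mem_nonunits370 (V : ValuationSubring L)
    (hR : ∀ r : R, algebraMap R L r ∈ V) {a b : L} (ha : a ∈ V) (hb : b ∈ V)
    (hab : a - b ∈ V.nonunits) (p : R[X]) : aeval a p - aeval b p ∈ V.nonunits := by
  set φ : R →+* V := (algebraMap R L).codRestrict V.toSubring hR with hφ
  have hcomp : V.subtype.comp φ = algebraMap R L := by
    ext r
    rfl
  have e : ∀ (c : L) (hc : c ∈ V), aeval c p = ((p.eval₂ φ ⟨c, hc⟩ : V) : L) := by
    intro c hc
    have h := Polynomial.hom_eval₂ p φ V.subtype ⟨c, hc⟩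
    rw [hcomp] at h
    exact h.symm
  have hres : IsLocalRing.residue V (p.eval₂ φ ⟨a, ha⟩) =
      IsLocalRing.residue V (p.eval₂ φ ⟨b, hb⟩) := by
    rw [Polynomial.hom_eval₂, Polynomial.hom_eval₂, (residue_eq_iff370 V ha hb).mpr hab]
  rw [e a ha, e b hb]
  exact (residue_eq_iff370 V (p.eval₂ φ ⟨a, ha⟩).2 (p.eval₂ φ ⟨b, hb⟩).2).mp hres

end GenericVal

/-! ## Transfer of the Gauss property -/

section Transfer

variable {R K L : Type*} [CommRing R] [IsLocalRing R] [Field K] [Field L]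
  [Algebra R K] [Algebra R L]

/-- **Transfer.**  `V` over `V'` along `α`, `V'` Gauss for `x`, and `β x ≡ α (x^n)` modulo `𝔪_V`
(`n > 0`): then `V.comap β` is Gauss for `x`. -/
theorem isGaussOver_comap_of_congr (α β : K →ₐ[R] L) {V : ValuationSubring L}
    {V' : ValuationSubring K} (hmid : V.comap (α : K →+* L) = V') {x : K}
    (hG : A2.H489.IsGaussOver R V' x) {n : ℕ} (hn : 0 < n)
    (h : β x - α (x ^ n) ∈ V.nonunits) :
    A2.H489.IsGaussOver R (V.comap (β : K →+* L)) x := by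
  have hα : ∀ f : K, α f ∈ V ↔ f ∈ V' := fun f => by
    rw [← hmid, ValuationSubring.mem_comap]
    rfl
  have hαn : ∀ f : K, α f ∈ V.nonunits ↔ f ∈ V'.nonunits := fun f => by
    rw [← hmid, mem_nonunits_comap_hom]
    rfl
  have hR : ∀ r : R, algebraMap R L r ∈ V := fun r => by
    rw [← α.commutes, hα]
    exact hG.isOver.mem r
  have hαx : α (x ^ n) ∈ V := (hα _).mpr (pow_mem hG.mem n)
  have hβx : β x ∈ V := by
    have : β x = (β x - α (x ^ n)) + α (x ^ n) := by ring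
    rw [this]
    exact V.add_mem _ _ (nonunits_mem370 h) hαx
  refine ⟨⟨fun r => ?_, fun r hr => ?_⟩, ?_, ?_⟩
  · rw [ValuationSubring.mem_comap]
    show β (algebraMap R K r) ∈ V
    rw [β.commutes]
    exact hR r
  · rw [mem_nonunits_comap_hom]
    show β (algebraMap R K r) ∈ V.nonunits
    rw [β.commutes, ← α.commutes, hαn]
    exact hG.isOver.nonunit r hr
  · rw [ValuationSubring.mem_comap]
    exact hβx
  · intro p hp
    rw [mem_nonunits_comap_hom] at hp
    have e1 : β (aeval x p) = aeval (β x) p := (Polynomial.aeval_algHom_apply β x p).symm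
    have e2 : α (aeval (x ^ n) p) = aeval (α (x ^ n)) p :=
      (Polynomial.aeval_algHom_apply α (x ^ n) p).symm
    have hp' : aeval (β x) p ∈ V.nonunits := by
      rw [← e1]
      exact hp
    have key := aeval_sub_mem_nonunits370 V hR hβx hαx h p
    have h3 : aeval (α (x ^ n)) p ∈ V.nonunits := by
      have : aeval (α (x ^ n)) p = aeval (β x) p - (aeval (β x) p - aeval (α (x ^ n)) p) := by
        ring
      rw [this]
      exact nonunits_sub_mem370 hp' key
    have h4 : aeval (x ^ n) p ∈ V'.nonunits := by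
      rw [← hαn, e2]
      exact h3
    have h5 : aeval (x ^ n) p = aeval x (Polynomial.expand R n p) :=
      (Polynomial.expand_aeval n p x).symm
    rw [h5] at h4
    have h6 := hG.prim _ h4
    rw [Polynomial.map_expand] at h6
    exact (Polynomial.expand_eq_zero hn).mp h6

end Transfer

/-! ## Kronecker in a field of characteristic `q` -/

section KronField

variable {κ : Type*} [Field κ] (q : ℕ) [Fact q.Prime] [NeZero q] [CharP κ q]

/-- `Φ_q(y, z) = 0` in a field of characteristic `q` forces `z^q = y` or `z = y^q`. -/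
theorem kronecker_field370 (Φ : S28.ModPolyData q) (y z : κ)
    (h : Φ.Φ.eval₂ (Polynomial.aeval (R := ℤ) y).toRingHom z = 0) :
    (z ^ q - y) * (z - y ^ q) = 0 := by
  have hcomp : (Polynomial.evalRingHom y).comp (Polynomial.mapRingHom (Int.castRingHom κ)) =
      (Polynomial.aeval (R := ℤ) y).toRingHom := by
    apply Polynomial.ringHom_ext
    · intro n
      simp
    · simp
  have h1 : (Φ.Φ.map (Polynomial.mapRingHom (Int.castRingHom κ))).eval₂
      (Polynomial.evalRingHom y) z = 0 := by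
    rw [Polynomial.eval₂_map, hcomp]
    exact h
  rw [S28.h88_kronecker_charP q κ Φ] at h1
  simpa [Polynomial.eval₂_mul, Polynomial.eval₂_sub, Polynomial.eval₂_pow] using h1

end KronField

/-! ## The concrete statement -/

section Concrete

variable {P : ValuationSubring Qb} {E : IntermediateField ℚ Qb} {M q : ℕ} [NeZero M] [NeZero q]
  [NeZero (M * q)] {w : RE P E}

/-- `Φ_q(j_q, j_{qq}) = 0` at level `M q q`. -/
theorem modPoly_eval_jqq370 (Φ : S28.ModPolyData q) :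
    Φ.Φ.eval₂ (Polynomial.aeval (R := ℤ)
      (jE E (M * q * q) q (Dvd.intro_left (M * q) rfl))).toRingHom
      (jE E (M * q * q) (q * q) ⟨M, by ring⟩) = 0 := by
  refine H873.eval₂_eq_zero_of_int E (M * q * q) Φ.Φ _ _ (qExpand ℤ (q * q) (jqModC ℤ))
    (qExpand ℤ q (jqModC ℤ)) (H873.coe_jE_int E _ (q * q) _) (H873.coe_jE_int E _ q _) ?_
  have h := congrArg (qExpand ℤ q) Φ.eval_jp
  rw [Polynomial.hom_eval₂, map_zero, S28.h88_comp_evalAt, qExpand_qExpand] at h
  exact h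

theorem beta_j_eq_alpha_jq370 :
    βE E (M * q) q (jE E (M * q) 1 (one_dvd _)) =
      αE E (M * q) q (jE E (M * q) q (dvd_mul_left q M)) := by
  apply Subtype.ext
  rw [coe_heckeBetaBar, coe_heckeAlphaBar, H873.coe_jE, H873.coe_jE, qExpand_one_apply]

theorem alpha_jq_eq370 :
    αE E (M * q) q (jE E (M * q) q (dvd_mul_left q M)) =
      jE E (M * q * q) q (Dvd.intro_left (M * q) rfl) := by
  apply Subtype.ext
  rw [coe_heckeAlphaBar, H873.coe_jE, H873.coe_jE]

theorem beta_jq_eq370 :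
    βE E (M * q) q (jE E (M * q) q (dvd_mul_left q M)) =
      jE E (M * q * q) (q * q) ⟨M, by ring⟩ := by
  apply Subtype.ext
  rw [coe_heckeBetaBar, H873.coe_jE, H873.coe_jE, qExpand_qExpand]

/-- **The middle component lies over `V₀` along `β`.** -/
theorem comap_beta_mid (hS : Setting P E M q w)
    {V₁' : ValuationSubring (FE E (M * q))} {W' : FE E (M * q) ≃ₐ[E] FE E (M * q)}
    {V₁ V₂ : ValuationSubring (FE E (M * q * q))}
    (hV₁' : IsVinf P E (M * q) V₁') (hW' : IsFricke E (M * q) W')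
    (hV₁ : IsVinf P E (M * q * q) V₁)
    (hmid : V₂.comap (αE E (M * q) q : FE E (M * q) →+* FE E (M * q * q)) = V₁')
    (hne : V₂ ≠ V₁) :
    V₂.comap (βE E (M * q) q : FE E (M * q) →+* FE E (M * q * q)) =
      V₁'.comap (W' : FE E (M * q) →+* FE E (M * q)) := by
  haveI := hS.dvr
  haveI : Fact q.Prime := ⟨hS.q_prime⟩
  obtain ⟨Φ⟩ := S28.H807.nonempty_modPolyData q hS.q_prime
  obtain ⟨htr, -, -⟩ := H31.deg E M q hS.q_prime hS.q_not_dvd
  have hG := H13.isGaussOver_xE hS.unif hV₁' htr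
  have hu := (H553.vinfBasic P E w (M * q) (NeZero.ne _) hS.dvr hS.unif V₁' hV₁').1
  have hαmem : ∀ f, αE E (M * q) q f ∈ V₂ ↔ f ∈ V₁' := fun f => by
    rw [← hmid, ValuationSubring.mem_comap]
    rfl
  have hαnon : ∀ f, αE E (M * q) q f ∈ V₂.nonunits ↔ f ∈ V₁'.nonunits := fun f => by
    rw [← hmid, mem_nonunits_comap_hom]
    rfl
  have hj' : jE E (M * q) 1 (one_dvd _) ∈ V₁' :=
    ((H553.vinfBasic P E w (M * q) (NeZero.ne _) hS.dvr hS.unif V₁' hV₁').2.2 1 (one_dvd _)).1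
  have hjq' : jE E (M * q) q (dvd_mul_left q M) ∈ V₁' :=
    ((H553.vinfBasic P E w (M * q) (NeZero.ne _) hS.dvr hS.unif V₁' hV₁').2.2 q
      (dvd_mul_left q M)).1
  have h1 : αE E (M * q) q (jE E (M * q) 1 (one_dvd _)) ∈ V₂ := (hαmem _).mpr hj'
  have hq : αE E (M * q) q (jE E (M * q) q (dvd_mul_left q M)) ∈ V₂ := (hαmem _).mpr hjq'
  have hΦ0 : Φ.Φ.eval₂ (Polynomial.aeval (R := ℤ)
      (αE E (M * q) q (jE E (M * q) q (dvd_mul_left q M)))).toRingHom
      (βE E (M * q) q (jE E (M * q) q (dvd_mul_left q M))) = 0 := by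
    rw [alpha_jq_eq370, beta_jq_eq370]
    exact modPoly_eval_jqq370 Φ
  have hqq : βE E (M * q) q (jE E (M * q) q (dvd_mul_left q M)) ∈ V₂ :=
    H873.mem_valuationSubring_of_monic_eval Φ.Φ Φ.monic hΦ0 V₂ hq
  -- the residue field has characteristic `q`
  have hLO : V₂.LiesOverPrime q := by
    have h0 : ((q : ℕ) : FE E (M * q)) ∈ V₁'.nonunits :=
      H83.h83_vinf_liesOver hS.dvr hS.lies_over hV₁'
    rw [← hαnon, map_natCast] at h0
    exact h0
  haveI : CharP (IsLocalRing.ResidueField V₂) q := S18.H516.charP_residue V₂ hLO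
  -- Frobenius congruence `j^q ≡ j_q`
  have hfrob : IsLocalRing.residue V₂ ⟨_, h1⟩ ^ q = IsLocalRing.residue V₂ ⟨_, hq⟩ := by
    have hA := H83.h83_inW_j_pow_sub (M := M) hS.dvr hS.unif hS.q_prime hS.lies_over hV₁'
    have hA' : jE E (M * q) 1 (one_dvd _) ^ q - jE E (M * q) q (dvd_mul_left q M)
        ∈ V₁'.nonunits := (H13.inW_iff_mem_nonunits hu _).mp hA
    rw [← hαnon, map_sub, map_pow] at hA'
    rw [← map_pow]
    exact (residue_eq_iff370 V₂ (pow_mem h1 q) hq).mpr hA'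
  -- Kronecker
  have hkron : (IsLocalRing.residue V₂ ⟨_, hqq⟩ ^ q - IsLocalRing.residue V₂ ⟨_, hq⟩) *
      (IsLocalRing.residue V₂ ⟨_, hqq⟩ - IsLocalRing.residue V₂ ⟨_, hq⟩ ^ q) = 0 := by
    apply kronecker_field370 q Φ
    have hV : Φ.Φ.eval₂ (Polynomial.aeval (R := ℤ)
        (⟨_, hq⟩ : V₂)).toRingHom (⟨_, hqq⟩ : V₂) = 0 := by
      apply Subtype.ext
      have h := Polynomial.hom_eval₂ Φ.Φ (Polynomial.aeval (R := ℤ) (⟨_, hq⟩ : V₂)).toRingHom
        V₂.subtype ⟨_, hqq⟩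
      have hcomp : V₂.subtype.comp (Polynomial.aeval (R := ℤ) (⟨_, hq⟩ : V₂)).toRingHom =
          (Polynomial.aeval (R := ℤ)
            (αE E (M * q) q (jE E (M * q) q (dvd_mul_left q M)))).toRingHom := by
        apply Polynomial.ringHom_ext
        · intro n
          simp
        · simp
      rw [hcomp] at h
      exact h.trans hΦ0
    have h := congrArg (IsLocalRing.residue V₂) hV
    rw [Polynomial.hom_eval₂, map_zero] at h
    have hcomp : (IsLocalRing.residue V₂).comp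
        (Polynomial.aeval (R := ℤ) (⟨_, hq⟩ : V₂)).toRingHom =
        (Polynomial.aeval (R := ℤ) (IsLocalRing.residue V₂ ⟨_, hq⟩)).toRingHom := by
      apply Polynomial.ringHom_ext
      · intro n
        simp
      · simp
    rw [hcomp] at h
    exact h
  -- `β x' ≡ α (x'^n)`
  have hβx : βE E (M * q) q (xE E M q) =
      αE E (M * q) q (jE E (M * q) q (dvd_mul_left q M)) *
        βE E (M * q) q (jE E (M * q) q (dvd_mul_left q M)) := by
    rw [xE, map_mul, beta_j_eq_alpha_jq370]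
  have hαx : ∀ n : ℕ, αE E (M * q) q (xE E M q ^ n) =
      (αE E (M * q) q (jE E (M * q) 1 (one_dvd _)) *
        αE E (M * q) q (jE E (M * q) q (dvd_mul_left q M))) ^ n := by
    intro n
    rw [xE, map_pow, map_mul]
  obtain ⟨n, hn, hcong⟩ : ∃ n : ℕ, 0 < n ∧
      βE E (M * q) q (xE E M q) - αE E (M * q) q (xE E M q ^ n) ∈ V₂.nonunits := by
    rcases mul_eq_zero.mp hkron with h | h
    · -- `j_qq^q = j_q = j^q`, so `j_qq = j`
      refine ⟨1, one_pos, ?_⟩
      rw [sub_eq_zero] at h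
      have h2 : IsLocalRing.residue V₂ ⟨_, hqq⟩ = IsLocalRing.residue V₂ ⟨_, h1⟩ := by
        apply frobenius_inj (IsLocalRing.ResidueField V₂) q
        rw [frobenius_def, frobenius_def, h, hfrob]
      rw [hβx, hαx, pow_one]
      apply (residue_eq_iff370 V₂ (V₂.mul_mem _ _ hq hqq) (V₂.mul_mem _ _ h1 hq)).mp
      have e1 : (⟨_, V₂.mul_mem _ _ hq hqq⟩ : V₂) = ⟨_, hq⟩ * ⟨_, hqq⟩ := rfl
      have e2 : (⟨_, V₂.mul_mem _ _ h1 hq⟩ : V₂) = ⟨_, h1⟩ * ⟨_, hq⟩ := rfl
      rw [e1, e2, map_mul, map_mul, h2]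
      exact mul_comm _ _
    · -- `j_qq = j_q^q`
      refine ⟨q, hS.q_prime.pos, ?_⟩
      rw [sub_eq_zero] at h
      rw [hβx, hαx]
      apply (residue_eq_iff370 V₂ (V₂.mul_mem _ _ hq hqq)
        (pow_mem (V₂.mul_mem _ _ h1 hq) q)).mp
      have e1 : (⟨_, V₂.mul_mem _ _ hq hqq⟩ : V₂) = ⟨_, hq⟩ * ⟨_, hqq⟩ := rfl
      have e2 : (⟨_, pow_mem (V₂.mul_mem _ _ h1 hq) q⟩ : V₂) = (⟨_, h1⟩ * ⟨_, hq⟩) ^ q := rfl
      rw [e1, e2, map_mul, map_pow, map_mul, mul_pow, hfrob, h]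
  have hGU := isGaussOver_comap_of_congr ((αE E (M * q) q).restrictScalars (RE P E))
    ((βE E (M * q) q).restrictScalars (RE P E)) hmid hG hn hcong
  rcases Ribet.H279.eq_or_eq_of_isGaussOver hS hV₁' hW' hGU with hU | hU
  · exfalso
    apply hne
    refine H83.h83_beta_unique (M := M * q) hS.dvr hS.unif hS.q_prime (dvd_mul_left q M)
      hV₁' hV₁ V₂ (fun f => ?_)
    rw [← hU, ValuationSubring.mem_comap]
    rfl
  · exact hU

end Concrete

end Fermat.Agent.S36.H370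

end

end
-- ===== PACK-END S36/H370/Mod3Mid.lean

-- ===== PACK-BEGIN S36/Mod3/H370/Table.lean
section



/-!
# S36 / MOD3 — leaf TABLE (helper370): `Mod3.LeafTable`, verbatim, unconditional

The six lying-over relations of the three components `V₁ = V∞(M q q)`, `V₂` (middle),
`V₃ = V₁.comap W` over `V₁' = V∞(M q)`, `V₂' = V₁'.comap W'` along `α` and `β`:

    via α :  V₁ | V₁'   V₂ | V₁'   V₃ | V₂'
    via β :  V₁ | V₁'   V₂ | V₂'   V₃ | V₂'

* `comap_α₁`, `comap_β₁` : `H370.comap_alpha_vinfQ`, `H370.comap_beta_vinfQ` (any level);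
* `comap_α₂` : the field `Objs.mid`;
* `comap_α₃`, `comap_β₃` : Fricke transport (`H370.comap_alpha_vzeroQ`, `H370.comap_beta_vzeroQ`);
* `comap_β₂` : `H370.comap_beta_mid` (Kronecker + two-extension theorem of level `M q` +
  uniqueness of the extension of `V₁'` along `β`).
-/

set_option autoImplicit false
set_option linter.unusedSectionVars false
set_option linter.style.haveILetI false
set_option synthInstance.maxHeartbeats 400000
set_option maxHeartbeats 1600000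

noncomputable section

namespace Fermat.Agent.S36.Mod3.H370

open Fermat.Agent.S36.H370

/-- **Leaf TABLE**, exact frozen type. -/
theorem leafTable : Mod3.LeafTable := by
  intro P E M q _ _ _ w hStd V₁' V₂' V₁ V₂ V₃ W' W hO
  have hS : A2.Mod.Setting P E M q w :=
    ⟨hStd.q_prime, hStd.q_not_dvd, NeZero.ne M, hStd.lies_over, hStd.unram.1.dvr, hStd.unif⟩
  have hSQ : SettingQ P E q w := SettingQ.of_setting hS
  refine ⟨?_, hO.mid, ?_, ?_, ?_, ?_⟩
  · exact comap_alpha_vinfQ hSQ hO.vinf' hO.vinf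
  · rw [hO.vzero, hO.vzero']
    exact comap_alpha_vzeroQ hSQ hO.vinf' hO.vinf hO.fricke' hO.fricke
  · exact comap_beta_vinfQ hSQ hO.vinf' hO.vinf
  · rw [hO.vzero']
    exact comap_beta_mid hS hO.vinf' hO.fricke' hO.vinf hO.mid hO.mid_ne
  · rw [hO.vzero, hO.vzero']
    exact comap_beta_vzeroQ hSQ hO.vinf' hO.vinf hO.fricke' hO.fricke

end Fermat.Agent.S36.Mod3.H370

end

end
-- ===== PACK-END S36/Mod3/H370/Table.lean

-- ===== PACK-BEGIN S36/H83/AlphaVV.lean
section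
/-
S36 engine, MOD-3 (helper83): the valuation `V₀ = V∞ ∘ W` (`= V_VV`) of level `M q`, `q ∣ M`,
over the `α`-structure (`α : F_M → F_{Mq}` the inclusion), by Fricke transport of `BetaUniq`.

With `W_M`, `W_N` the Fricke involutions of levels `M` and `N = M q`, `V₀_M = V∞_M ∘ W_M`,
`V₀_N = V∞_N ∘ W_N`, and `j_N = j(t^N) = W_N j`:

* `h83_alpha_mem_iff`        : `α f ∈ V₀_N ↔ f ∈ V₀_M`;
* `h83_alpha_integral_basis` : every `f ∈ V₀_N` is `∑_{i<q} α(b_i) j_N^i`, `b_i ∈ V₀_M`;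
* `h83_alpha_unique`         : `V₀_N` is the only valuation subring of `F_N` over `α(V₀_M)`;
* `h83_alpha_insep`          : `f ∈ V₀_N ⟹ ∃ g ∈ V₀_M, f^q ≡ α g mod w V₀_N`.
-/



set_option autoImplicit false
set_option linter.unusedSectionVars false
set_option linter.style.haveILetI false
set_option synthInstance.maxHeartbeats 400000
set_option maxHeartbeats 1600000

noncomputable section

namespace Fermat.Agent.S36.H83

open ModularCurve Fermat.Agent.A2 Fermat.Agent.A2.Mod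

section AlphaVV

variable {P : ValuationSubring _root_.Fermat.Agent.A2.Mod.Qb} {E : IntermediateField ℚ _root_.Fermat.Agent.A2.Mod.Qb} {M q : ℕ} [NeZero M] [NeZero q]

/-- `V₀ = V ∘ W`. -/
abbrev h83_comapW {N : ℕ} (V : ValuationSubring (_root_.Fermat.Agent.A2.Mod.FE E N)) (W : _root_.Fermat.Agent.A2.Mod.FE E N ≃ₐ[E] _root_.Fermat.Agent.A2.Mod.FE E N) :
    ValuationSubring (_root_.Fermat.Agent.A2.Mod.FE E N) :=
  V.comap (W : _root_.Fermat.Agent.A2.Mod.FE E N →+* _root_.Fermat.Agent.A2.Mod.FE E N)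

theorem h83_mem_comapW {N : ℕ} (V : ValuationSubring (_root_.Fermat.Agent.A2.Mod.FE E N)) (W : _root_.Fermat.Agent.A2.Mod.FE E N ≃ₐ[E] _root_.Fermat.Agent.A2.Mod.FE E N)
    (f : _root_.Fermat.Agent.A2.Mod.FE E N) : f ∈ h83_comapW V W ↔ W f ∈ V := Iff.rfl

/-- `InW` for `V ∘ W`. -/
theorem h83_inW_comapW {N : ℕ} (V : ValuationSubring (_root_.Fermat.Agent.A2.Mod.FE E N)) (W : _root_.Fermat.Agent.A2.Mod.FE E N ≃ₐ[E] _root_.Fermat.Agent.A2.Mod.FE E N)
    (w : _root_.Fermat.Agent.A2.Mod.RE P E) (f : _root_.Fermat.Agent.A2.Mod.FE E N) :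
    InW P E N (h83_comapW V W) w f ↔ InW P E N V w (W f) := by
  unfold InW
  rw [h83_mem_comapW, map_mul, map_inv₀]
  have : W (cE P E N w) = cE P E N w := W.commutes (w : E)
  rw [this]

variable (WM : _root_.Fermat.Agent.A2.Mod.FE E M ≃ₐ[E] _root_.Fermat.Agent.A2.Mod.FE E M) (WN : _root_.Fermat.Agent.A2.Mod.FE E (M * q) ≃ₐ[E] _root_.Fermat.Agent.A2.Mod.FE E (M * q))

/-- **`V₀_N` lies over `α(V₀_M)`.** -/
theorem h83_alpha_mem_iff (hdvr : IsDiscreteValuationRing (_root_.Fermat.Agent.A2.Mod.RE P E))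
    (hWM : IsFricke E M WM) (hWN : IsFricke E (M * q) WN)
    {VM : ValuationSubring (_root_.Fermat.Agent.A2.Mod.FE E M)} {V : ValuationSubring (_root_.Fermat.Agent.A2.Mod.FE E (M * q))}
    (hVM : IsVinf P E M VM) (hV : IsVinf P E (M * q) V) (f : _root_.Fermat.Agent.A2.Mod.FE E M) :
    αE E M q f ∈ h83_comapW V WN ↔ f ∈ h83_comapW VM WM := by
  rw [h83_mem_comapW, h83_mem_comapW, (H751.frickeCompat E M q WM WN hWM hWN f).1]
  exact h83_beta_mem_iff hdvr hVM hV _

/-- **Integral power basis of `V₀_N` over `α(V₀_M)`**: `1, j_N, …, j_N^{q-1}`. -/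
theorem h83_alpha_integral_basis (hdvr : IsDiscreteValuationRing (_root_.Fermat.Agent.A2.Mod.RE P E)) {w : _root_.Fermat.Agent.A2.Mod.RE P E}
    (hw : Irreducible w) (hq : q.Prime) (hqM : q ∣ M)
    (hWM : IsFricke E M WM) (hWN : IsFricke E (M * q) WN)
    {VM : ValuationSubring (_root_.Fermat.Agent.A2.Mod.FE E M)} {V : ValuationSubring (_root_.Fermat.Agent.A2.Mod.FE E (M * q))}
    (hVM : IsVinf P E M VM) (hV : IsVinf P E (M * q) V) {f : _root_.Fermat.Agent.A2.Mod.FE E (M * q)}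
    (hf : f ∈ h83_comapW V WN) :
    ∃ b : Fin q → _root_.Fermat.Agent.A2.Mod.FE E M, (∀ i, b i ∈ h83_comapW VM WM) ∧
      f = ∑ i : Fin q, αE E M q (b i) * jE E (M * q) (M * q) dvd_rfl ^ (i : ℕ) := by
  have hf' : WN f ∈ V := (h83_mem_comapW V WN f).mp hf
  obtain ⟨a, ha, hfa⟩ := h83_beta_integral_basis hdvr hw hq hqM hVM hV hf'
  refine ⟨fun i => WM (a i), fun i => ?_, ?_⟩
  · rw [h83_mem_comapW, hWM.2]
    exact ha i
  · have h1 := congrArg WN hfa
    rw [hWN.2, map_sum] at h1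
    rw [h1]
    refine Finset.sum_congr rfl fun i _ => ?_
    rw [map_mul, map_pow, (H751.frickeCompat E M q WM WN hWM hWN (a i)).2,
      hWN.1 1 (M * q) (one_dvd _) dvd_rfl (one_mul _)]

/-- **Uniqueness**: for `q ∣ M`, `V₀_N` is the only valuation subring of `F_N` lying over
`α(V₀_M)`. -/
theorem h83_alpha_unique (hdvr : IsDiscreteValuationRing (_root_.Fermat.Agent.A2.Mod.RE P E)) {w : _root_.Fermat.Agent.A2.Mod.RE P E}
    (hw : Irreducible w) (hq : q.Prime) (hqM : q ∣ M)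
    (hWM : IsFricke E M WM) (hWN : IsFricke E (M * q) WN)
    {VM : ValuationSubring (_root_.Fermat.Agent.A2.Mod.FE E M)} {V : ValuationSubring (_root_.Fermat.Agent.A2.Mod.FE E (M * q))}
    (hVM : IsVinf P E M VM) (hV : IsVinf P E (M * q) V)
    (V' : ValuationSubring (_root_.Fermat.Agent.A2.Mod.FE E (M * q)))
    (hV' : ∀ f : _root_.Fermat.Agent.A2.Mod.FE E M, αE E M q f ∈ V' ↔ f ∈ h83_comapW VM WM) :
    V' = h83_comapW V WN := by
  have key : h83_comapW V' WN = V := by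
    apply h83_beta_unique hdvr hw hq hqM hVM hV
    intro f
    rw [h83_mem_comapW, (H751.frickeCompat E M q WM WN hWM hWN f).2, hV', h83_mem_comapW,
      hWM.2]
  ext x
  rw [h83_mem_comapW, ← key, h83_mem_comapW, hWN.2]

/-- **Purely inseparable residue extension** of `V₀_N` over `α(V₀_M)`. -/
theorem h83_alpha_insep (hdvr : IsDiscreteValuationRing (_root_.Fermat.Agent.A2.Mod.RE P E)) {w : _root_.Fermat.Agent.A2.Mod.RE P E}
    (hw : Irreducible w) (hq : q.Prime) (hqM : q ∣ M) (hP : P.LiesOverPrime q)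
    (hWM : IsFricke E M WM) (hWN : IsFricke E (M * q) WN)
    {VM : ValuationSubring (_root_.Fermat.Agent.A2.Mod.FE E M)} {V : ValuationSubring (_root_.Fermat.Agent.A2.Mod.FE E (M * q))}
    (hVM : IsVinf P E M VM) (hV : IsVinf P E (M * q) V) {f : _root_.Fermat.Agent.A2.Mod.FE E (M * q)}
    (hf : f ∈ h83_comapW V WN) :
    ∃ g ∈ h83_comapW VM WM, InW P E (M * q) (h83_comapW V WN) w (f ^ q - αE E M q g) := by
  have hf' : WN f ∈ V := (h83_mem_comapW V WN f).mp hf
  obtain ⟨g, hg, hInW⟩ := h83_beta_insep hdvr hw hq hqM hP hVM hV hf'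
  refine ⟨WM g, ?_, ?_⟩
  · rw [h83_mem_comapW, hWM.2]
    exact hg
  · rw [h83_inW_comapW, map_sub, map_pow, (H751.frickeCompat E M q WM WN hWM hWN (WM g)).1,
      hWM.2]
    exact hInW

end AlphaVV

end Fermat.Agent.S36.H83

end

end
-- ===== PACK-END S36/H83/AlphaVV.lean

-- ===== PACK-BEGIN S36/Mod3/H657/NormLeaf.lean
section







/-!
# S36 / MOD3 — the leaves `LeafNV` and `LeafNR` from `LeafVal` and `LeafTable` (helper657)

`Mod3.LeafNV` (valuations of norms) and `Mod3.LeafNR` (residues of norms) are obtained from the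
generic adapter `S36.H253.eng_norm_six` (helper253) by supplying its CONCRETE inputs at the levels
`M q` and `M q q`:

* degrees: `[F : α F'] = [F : β F'] = q` (`S37.H818.finrankAlong_heckeAlphaBar'` for `α`; for `β`
  by transport along the Fricke involutions, `W ∘ α = β ∘ W'`);
* residue characteristic: `q ∈ 𝔪_{V₁}`, `q ∈ 𝔪_{V₃}`;
* witnesses of inseparability: `j ^ q ≡ β j` at `V₁ = V∞`, and `j` is not a `q`-th power modulo
  `𝔪_{V₁'}` (helper83: `h83_inW_j_pow_sub`, `h83_beta_indep`); the witness for `α` at `V₃` is the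
  Fricke transform of the one for `β` at `V₁`.

The other inputs are fields of `PartVal` and `PartTable`, i.e. the leaves `LeafVal`, `LeafTable`.

Main statements:
* `partNV_NR_of`  : `Std → Objs → PartVal → PartTable → PartNV ∧ PartNR` (concrete arguments);
* `leafNV_of`     : `LeafVal → LeafTable → LeafNV`;
* `leafNR_of`     : `LeafVal → LeafTable → LeafNR`.
-/

set_option autoImplicit false
set_option linter.style.haveILetI false
set_option linter.unusedSectionVars false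
set_option synthInstance.maxHeartbeats 400000
set_option maxHeartbeats 1600000

noncomputable section

namespace Fermat.Agent.S36.Mod3.H657

open ModularCurve AlgebraicCurve
open Fermat.Agent.A2.Mod
open Fermat.Agent.S36.Eng

/-! ## Abstract preliminaries -/

section Abstract

/-- Non-units of a valuation subring, elementwise. -/
theorem mem_nonunits_iff_inv {F : Type*} [Field F] (V : ValuationSubring F) (x : F) :
    x ∈ V.nonunits ↔ x = 0 ∨ x⁻¹ ∉ V := by
  rw [ValuationSubring.mem_nonunits_iff]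
  by_cases hx : x = 0
  · subst hx
    simp
  · have hv : 0 < V.valuation x := by rw [Valuation.pos_iff]; exact hx
    rw [← V.valuation_le_one_iff, map_inv₀, not_le, one_lt_inv₀ hv]
    simp [hx]

/-- Non-units of the pull-back of a valuation subring along a homomorphism of fields. -/
theorem mem_nonunits_comap {K L : Type*} [Field K] [Field L] (V : ValuationSubring L)
    (f : K →+* L) (x : K) : x ∈ (V.comap f).nonunits ↔ f x ∈ V.nonunits := by
  rw [mem_nonunits_iff_inv, mem_nonunits_iff_inv, ValuationSubring.mem_comap, map_inv₀,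
    map_eq_zero]

/-- The degree along a degeneracy map is invariant under transport by automorphisms. -/
theorem finrankAlong_eq_of_equiv {K F F' : Type*} [Field K] [Field F] [Field F'] [Algebra K F]
    [Algebra K F'] (φ ψ : F →ₐ[K] F') (i : F ≃+* F) (j : F' ≃+* F')
    (h : ∀ f, ψ (i f) = j (φ f)) : finrankAlong K φ = finrankAlong K ψ := by
  unfold finrankAlong
  exact @Algebra.finrank_eq_of_equiv_equiv F F' _ _ (algebraAlong φ) F F' _ _ (algebraAlong ψ)
    i j (RingHom.ext fun f => h f)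

/-- Positive degree gives finiteness. -/
theorem finiteAlong_of_pos {K F F' : Type*} [Field K] [Field F] [Field F'] [Algebra K F]
    [Algebra K F'] (φ : F →ₐ[K] F') (h : 0 < finrankAlong K φ) : FiniteAlong K φ := by
  unfold FiniteAlong
  unfold finrankAlong at h
  letI := algebraAlong φ
  exact Module.finite_of_finrank_pos h

/-- `f ∈ ϖ V` with `ϖ` a non-unit: `f` is a non-unit. -/
theorem mem_nonunits_of_mul_inv_mem {F : Type*} [Field F] (V : ValuationSubring F) {f ϖ : F}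
    (hϖ : ϖ ∈ V.nonunits) (hϖ0 : ϖ ≠ 0) (h : f * ϖ⁻¹ ∈ V) : f ∈ V.nonunits := by
  rw [ValuationSubring.mem_nonunits_iff] at hϖ ⊢
  have h1 : V.valuation (f * ϖ⁻¹) ≤ 1 := (V.valuation_le_one_iff _).2 h
  have h2 : f = f * ϖ⁻¹ * ϖ := by rw [inv_mul_cancel_right₀ hϖ0]
  rw [h2, map_mul]
  calc V.valuation (f * ϖ⁻¹) * V.valuation ϖ ≤ 1 * V.valuation ϖ := by gcongr
    _ = V.valuation ϖ := one_mul _
    _ < 1 := hϖ

end Abstract

/-! ## The concrete inputs -/

section Concrete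

variable {P : ValuationSubring Qb} {E : IntermediateField ℚ Qb} {M q : ℕ}
  [NeZero M] [NeZero q] [NeZero (M * q)]

/-- `[F_{Mqq} : α F_{Mq}] = q`. -/
theorem deg_alpha (hq : q.Prime) : finrankAlong E (αE E (M * q) q) = q := by
  have h := Fermat.Agent.S37.H818.finrankAlong_heckeAlphaBar' (L := E) (M * q) q hq
  rw [if_pos (dvd_mul_left q M)] at h
  exact h

/-- `[F_{Mqq} : β F_{Mq}] = q` (Fricke transport of `deg_alpha`). -/
theorem deg_beta (hq : q.Prime) {W' : FE E (M * q) ≃ₐ[E] FE E (M * q)}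
    {W : FE E (M * q * q) ≃ₐ[E] FE E (M * q * q)}
    (hW' : IsFricke E (M * q) W') (hW : IsFricke E (M * q * q) W) :
    finrankAlong E (βE E (M * q) q) = q := by
  refine ((finrankAlong_eq_of_equiv (αE E (M * q) q) (βE E (M * q) q) W'.toRingEquiv
    W.toRingEquiv fun f => ?_).symm).trans (deg_alpha (E := E) (M := M) hq)
  exact ((H751.frickeCompat E (M * q) q W' W hW' hW f).1).symm

/-- `j` (level `N`) is not congruent modulo `𝔪_{V∞}` to an element of `β (V∞)` (level `N' q = N`):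
the residue of `j` does not lie in the image of the residue field of the lower level. -/
theorem j_not_congr_beta (hdvr : IsDiscreteValuationRing (RE P E)) {w : RE P E}
    (hw : Irreducible w) (hq : q.Prime)
    {VM : ValuationSubring (FE E M)} {V : ValuationSubring (FE E (M * q))}
    (hVM : IsVinf P E M VM) (hV : IsVinf P E (M * q) V) :
    ∀ a : FE E M, a ∈ VM →
      jE E (M * q) 1 (one_dvd _) - βE E M q a ∉ V.nonunits := by
  classical
  intro a ha hmem
  have hN : M * q ≠ 0 := mul_ne_zero (NeZero.ne M) (NeZero.ne q)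
  obtain ⟨hunif, -, -⟩ := H708.vinfBasic P E w (M * q) hN hdvr hw V hV
  obtain ⟨hunifM, -, -⟩ := H708.vinfBasic P E w M (NeZero.ne M) hdvr hw VM hVM
  -- the coefficients `(-a, 1, 0, …, 0)`
  let i0 : Fin q := ⟨0, hq.pos⟩
  let i1 : Fin q := ⟨1, hq.one_lt⟩
  have h01 : i0 ≠ i1 := by
    intro h
    have := congrArg Fin.val h
    simp [i0, i1] at this
  let c : Fin q → FE E M := fun i => if i = i0 then -a else if i = i1 then 1 else 0
  have hc : ∀ i, c i ∈ VM := by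
    intro i
    simp only [c]
    split_ifs
    · exact VM.neg_mem _ ha
    · exact VM.one_mem
    · exact VM.zero_mem
  have hsum : (∑ i : Fin q, βE E M q (c i) * jE E (M * q) 1 (one_dvd _) ^ (i : ℕ))
      = jE E (M * q) 1 (one_dvd _) - βE E M q a := by
    rw [Finset.sum_eq_add i0 i1 h01]
    · simp only [c, if_true, if_neg h01.symm, i0, i1]
      rw [map_neg, map_one]
      ring
    · intro k _ hk
      simp only [c, if_neg hk.1, if_neg hk.2, map_zero, zero_mul]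
    · intro h; exact absurd (Finset.mem_univ _) h
    · intro h; exact absurd (Finset.mem_univ _) h
  have hInW : InW P E (M * q) V w
      (∑ i : Fin q, βE E M q (c i) * jE E (M * q) 1 (one_dvd _) ^ (i : ℕ)) := by
    rw [hsum]
    unfold InW
    exact hunif.mul_inv_mem_iff.2 ((ValuationSubring.mem_nonunits_iff _).1 hmem)
  have h1 := Fermat.Agent.S36.H83.h83_beta_indep hdvr hw hVM hV c hc hInW i1
  have hci1 : c i1 = 1 := by simp only [c, if_neg h01.symm, if_true]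
  rw [hci1] at h1
  unfold InW at h1
  rw [one_mul] at h1
  exact hunifM.inv_not_mem h1

/-- `j ^ q ≡ β j` modulo `𝔪_{V∞}`. -/
theorem j_pow_sub_beta_mem (hdvr : IsDiscreteValuationRing (RE P E)) {w : RE P E}
    (hw : Irreducible w) (hq : q.Prime) (hP : P.LiesOverPrime q)
    {V : ValuationSubring (FE E (M * q))} (hV : IsVinf P E (M * q) V) :
    jE E (M * q) 1 (one_dvd _) ^ q - βE E M q (jE E M 1 (one_dvd _)) ∈ V.nonunits := by
  have hN : M * q ≠ 0 := mul_ne_zero (NeZero.ne M) (NeZero.ne q)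
  obtain ⟨hunif, -, -⟩ := H708.vinfBasic P E w (M * q) hN hdvr hw V hV
  rw [Fermat.Agent.S36.H83.h83_beta_jE]
  have h := Fermat.Agent.S36.H83.h83_inW_j_pow_sub hdvr hw hq hP hV
  unfold InW at h
  exact (ValuationSubring.mem_nonunits_iff _).2 (hunif.mul_inv_mem_iff.1 h)

end Concrete

/-! ## The leaves -/

section Leaves

variable {P : ValuationSubring Qb} {E : IntermediateField ℚ Qb} {M q : ℕ}
  [NeZero M] [NeZero q] [NeZero (M * q)]

/-- **NV and NR at the concrete objects**, from `PartVal` and `PartTable`. -/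
theorem partNV_NR_of {w : RE P E} (hS : Std P E M q w)
    {V₁' V₂' : ValuationSubring (FE E (M * q))}
    {V₁ V₂ V₃ : ValuationSubring (FE E (M * q * q))}
    {W' : FE E (M * q) ≃ₐ[E] FE E (M * q)}
    {W : FE E (M * q * q) ≃ₐ[E] FE E (M * q * q)}
    (hO : Objs P E M q V₁' V₂' V₁ V₂ V₃ W' W)
    (hVal : PartVal (R := RE P E) w q (x3E E M q) V₁ V₂ V₃)
    (hTab : PartTable (αE E (M * q) q) (βE E (M * q) q) V₁ V₂ V₃ V₁' V₂') :
    PartNV (R := RE P E) w q (αE E (M * q) q) (βE E (M * q) q) V₁ V₂ V₃ V₁' V₂' ∧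
      PartNR q (αE E (M * q) q) (βE E (M * q) q) V₁ V₂ V₃ V₁' V₂' := by
  have hq : q.Prime := hS.q_prime
  have hdvr : IsDiscreteValuationRing (RE P E) := hS.unram.1.dvr
  have hw : Irreducible w := hS.unif
  have hP : P.LiesOverPrime q := hS.lies_over
  have hN : M * q * q ≠ 0 := mul_ne_zero (NeZero.ne (M * q)) (NeZero.ne q)
  -- degrees
  have deg_α : finrankAlong E (αE E (M * q) q) = q := deg_alpha hq
  have deg_β : finrankAlong E (βE E (M * q) q) = q := deg_beta hq hO.fricke' hO.fricke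
  have fin_α : FiniteAlong E (αE E (M * q) q) :=
    finiteAlong_of_pos _ (by rw [deg_α]; exact hq.pos)
  have fin_β : FiniteAlong E (βE E (M * q) q) :=
    finiteAlong_of_pos _ (by rw [deg_β]; exact hq.pos)
  -- constants
  have hαw : αE E (M * q) q (algebraMap (RE P E) (FE E (M * q)) w)
      = algebraMap (RE P E) (FE E (M * q * q)) w :=
    Fermat.Agent.S36.H253.along_algebraMap _ w
  have hβw : βE E (M * q) q (algebraMap (RE P E) (FE E (M * q)) w)
      = algebraMap (RE P E) (FE E (M * q * q)) w :=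
    Fermat.Agent.S36.H253.along_algebraMap _ w
  -- residue characteristic
  have hq₁ : ((q : ℕ) : FE E (M * q * q)) ∈ V₁.nonunits :=
    Fermat.Agent.S36.H83.h83_vinf_liesOver hdvr hP hO.vinf
  have hq₃ : ((q : ℕ) : FE E (M * q * q)) ∈ V₃.nonunits := by
    rw [hO.vzero, mem_nonunits_comap, map_natCast]
    exact hq₁
  -- Fricke on the generators
  have hWj : W (jE E (M * q * q) (M * q * q) dvd_rfl) = jE E (M * q * q) 1 (one_dvd _) :=
    hO.fricke.1 (M * q * q) 1 dvd_rfl (one_dvd _) (mul_one _)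
  have hW'j : W' (jE E (M * q) (M * q) dvd_rfl) = jE E (M * q) 1 (one_dvd _) :=
    hO.fricke'.1 (M * q) 1 dvd_rfl (one_dvd _) (mul_one _)
  have hcompat : ∀ f : FE E (M * q), W (αE E (M * q) q f) = βE E (M * q) q (W' f) :=
    fun f => (H751.frickeCompat E (M * q) q W' W hO.fricke' hO.fricke f).1
  -- the witness for `β` at `V₁`
  obtain ⟨-, -, hj⟩ := H708.vinfBasic P E w (M * q * q) hN hdvr hw V₁ hO.vinf
  have hzβ : jE E (M * q * q) 1 (one_dvd _) ∈ V₁ := (hj 1 (one_dvd _)).1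
  have hzcβ : jE E (M * q * q) 1 (one_dvd _) ^ q
      - βE E (M * q) q (jE E (M * q) 1 (one_dvd _)) ∈ V₁.nonunits :=
    j_pow_sub_beta_mem hdvr hw hq hP hO.vinf
  have hnpβ : ∀ a : FE E (M * q), a ∈ V₁' →
      a ^ q - jE E (M * q) 1 (one_dvd _) ∉ V₁'.nonunits :=
    Fermat.Agent.S36.H253.hnp_of_not_congr q (βE E (M * q) q) hq hTab.comap_β₁ hq₁ hzβ hzcβ
      (j_not_congr_beta hdvr hw hq hO.vinf' hO.vinf)
  -- the witness for `α` at `V₃` (Fricke transform)
  have hzα : jE E (M * q * q) (M * q * q) dvd_rfl ∈ V₃ := by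
    rw [hO.vzero, ValuationSubring.mem_comap]
    show W _ ∈ V₁
    rw [hWj]
    exact hzβ
  have hzcα : jE E (M * q * q) (M * q * q) dvd_rfl ^ q
      - αE E (M * q) q (jE E (M * q) (M * q) dvd_rfl) ∈ V₃.nonunits := by
    rw [hO.vzero, mem_nonunits_comap]
    show W _ ∈ V₁.nonunits
    rw [map_sub, map_pow, hWj, hcompat, hW'j]
    exact hzcβ
  have hnpα : ∀ a : FE E (M * q), a ∈ V₂' →
      a ^ q - jE E (M * q) (M * q) dvd_rfl ∉ V₂'.nonunits := by
    intro a ha h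
    rw [hO.vzero'] at ha h
    rw [mem_nonunits_comap] at h
    have h' : W' (a ^ q - jE E (M * q) (M * q) dvd_rfl) ∈ V₁'.nonunits := h
    rw [map_sub, map_pow, hW'j] at h'
    exact hnpβ (W' a) ha h'
  obtain ⟨h1, h2, h3, h4, h5, h6⟩ :=
    Fermat.Agent.S36.H253.eng_norm_six (R := RE P E) w q hq
      (αE E (M * q) q) (βE E (M * q) q) fin_α fin_β deg_α deg_β hαw hβw
      hVal.dvr₁ hVal.dvr₃ hVal.ne₁₂ hVal.ne₂₃ hVal.unif₁ hVal.unif₃ hVal.ram₂
      hTab.comap_α₁ hTab.comap_α₂ hTab.comap_α₃ hTab.comap_β₁ hTab.comap_β₂ hTab.comap_β₃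
      hq₁ hq₃ hzα hzcα hnpα hzβ hzcβ hnpβ
  exact ⟨⟨h1, h2⟩, ⟨h3, h4, h5, h6⟩⟩

/-- **`LeafNV`** from `LeafVal` and `LeafTable`. -/
theorem leafNV_of (hVal : LeafVal) (hTab : LeafTable) : LeafNV :=
  fun P E M q _ _ _ w hS V₁' V₂' V₁ V₂ V₃ W' W hO =>
    (partNV_NR_of hS hO (hVal P E M q w hS V₁' V₂' V₁ V₂ V₃ W' W hO)
      (hTab P E M q w hS V₁' V₂' V₁ V₂ V₃ W' W hO)).1

/-- **`LeafNR`** from `LeafVal` and `LeafTable`. -/
theorem leafNR_of (hVal : LeafVal) (hTab : LeafTable) : LeafNR :=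
  fun P E M q _ _ _ w hS V₁' V₂' V₁ V₂ V₃ W' W hO =>
    (partNV_NR_of hS hO (hVal P E M q w hS V₁' V₂' V₁ V₂ V₃ W' W hO)
      (hTab P E M q w hS V₁' V₂' V₁ V₂ V₃ W' W hO)).2

end Leaves

end Fermat.Agent.S36.Mod3.H657

end

end
-- ===== PACK-END S36/Mod3/H657/NormLeaf.lean

-- ===== PACK-BEGIN S36/Mod3/H276/RegI.lean
section




/-!
# S36 / MOD3, leaf `LeafRegM`, field `regular_i`: reduction to ONE congruence (helper276)

`regular_i` (local principality of the middle component `V₂` at its cusps, chart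
`Bi = chart R {x⁻¹}`, `x = x3E = j j_q j_{q²}`) is reduced to the single analytic input

  `CuspCong` :  `tcusp ^ N · g₂ ≡ w ^ k · g₁`  modulo `w ^ k · 𝔪_{V₂}`

for SOME `g₁, g₂ ∈ Bi`, `N ≥ 1`, `k`, with `g₁ = h ^ n`, `h = 1 + j⁻¹ c`, `c ∈ Bi`
(in the application `k = 12`, `N = 12 (q - 1)`, `h = 1 - 1728 / j`, `n = 6 (q - 1)`,
`g₂ = unit · (H(j) / j ^ (q - 1)) ^ 2`, `H` the Hasse polynomial).

* `CuspCong`, `LeafCuspCong`              : the congruence, generic / at the concrete objects;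
* `regular_i_of_cuspCong`                 : `PartVal`, `PartSheet`, `PartQep`, `cusp_single`,
                                            `pi_unif`, `CuspCong` ⟹ the field `regular_i`;
* `leafRegI_of`                           : `LeafVal → LeafSheet → LeafQep → LeafInc → LeafVT →
                                            LeafCuspCong → LeafRegI` (`LeafRegI` = `regular_i`
                                            VERBATIM);
* `leafRegM_of`                           : `LeafRegMF` (`regular_m` VERBATIM) + `LeafRegI`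
                                            ⟹ `Mod3.LeafRegM`;
* `revPoly_mem_chart`                     : `H(y) / y ^ n ∈ chart R S` for `deg H ≤ n`,
                                            `y⁻¹ ∈ chart R S`.

Abstract engine: `S36.H876.principalAt_lite` (`Qep3` only).
-/

set_option autoImplicit false
set_option linter.style.haveILetI false
set_option linter.unusedSectionVars false
set_option synthInstance.maxHeartbeats 400000
set_option maxHeartbeats 1600000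

noncomputable section

namespace Fermat.Agent.S36.Mod3.H276

open ModularCurve Polynomial
open Fermat.Agent.S18.H138 (chart mem_chart mem_chart_of_mem)
open Fermat.Agent Fermat.Agent.S36.Eng

/-! ## Generic -/

section Generic

variable {R : Type*} [CommRing R] {F : Type*} [Field F] [Algebra R F]

/-- A valuation ring containing `R` and `y` contains the chart `chart R {y}`. -/
theorem chart_le_h276 (V : ValuationSubring F) {y : F}
    (hR : ∀ r : R, algebraMap R F r ∈ V) (hy : y ∈ V) :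
    ∀ b : chart R ({y} : Set F), (b : F) ∈ V := by
  intro b
  have hle : ∀ a ∈ Algebra.adjoin R ({y} : Set F), a ∈ V := by
    intro a ha
    induction ha using Algebra.adjoin_induction with
    | mem z hz =>
      rw [Set.mem_singleton_iff] at hz
      rw [hz]
      exact hy
    | algebraMap r => exact hR r
    | add z z' _ _ hz hz' => exact V.add_mem _ _ hz hz'
    | mul z z' _ _ hz hz' => exact V.mul_mem _ _ hz hz'
  have hint : IsIntegral (Algebra.adjoin R ({y} : Set F)) (b : F) := mem_chart.1 b.2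
  have hint' : IsIntegral V (b : F) := by
    obtain ⟨p, hpm, hp0⟩ := hint
    let φ : Algebra.adjoin R ({y} : Set F) →+* V :=
      { toFun := fun a => ⟨(a : F), hle a a.2⟩
        map_one' := rfl
        map_mul' := fun _ _ => rfl
        map_zero' := rfl
        map_add' := fun _ _ => rfl }
    refine ⟨p.map φ, hpm.map φ, ?_⟩
    rw [Polynomial.eval₂_map]
    exact hp0
  obtain ⟨z, hz⟩ := IsIntegrallyClosed.isIntegral_iff (R := V) (K := F) |>.mp hint'
  rw [← hz]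
  exact z.2

/-- `w ∈ 𝔪_{V₂}` from `ram₂` (`2 ≤ q`). -/
theorem w_mem_nonunits_of_ram {V : ValuationSubring F} {a : F} {q : ℕ} (hq : 2 ≤ q)
    (h : ∃ t : F, UnifAt V t ∧ UnitAt V (a * (t ^ (q - 1))⁻¹)) : a ∈ V.nonunits := by
  obtain ⟨t, ⟨t0, t1, -⟩, ⟨-, u1, -⟩⟩ := h
  have e : a = a * (t ^ (q - 1))⁻¹ * t ^ (q - 1) := by
    have : t ^ (q - 1) ≠ 0 := pow_ne_zero _ t0
    field_simp
  rw [e, V.mem_nonunits_iff, map_mul, map_pow]
  rw [V.mem_nonunits_iff] at t1
  have h1 : V.valuation (a * (t ^ (q - 1))⁻¹) ≤ 1 := (V.valuation_le_one_iff _).mpr u1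
  have h2 : V.valuation t ^ (q - 1) < 1 := pow_lt_one₀ zero_le t1 (by omega)
  calc V.valuation (a * (t ^ (q - 1))⁻¹) * V.valuation t ^ (q - 1)
      ≤ 1 * V.valuation t ^ (q - 1) := by gcongr
    _ = V.valuation t ^ (q - 1) := one_mul _
    _ < 1 := h2

/-- `H(y) / y ^ n = H^rev(y⁻¹)` when `deg H ≤ n`. -/
theorem revPoly_eq (H : Polynomial R) {n : ℕ} (hn : H.natDegree ≤ n) {y : F} (hy : y ≠ 0) :
    Polynomial.aeval y H * (y⁻¹) ^ n = Polynomial.aeval y⁻¹ (H.reflect n) := by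
  letI := invertibleOfNonzero hy
  have h := Polynomial.eval₂_reflect_mul_pow (algebraMap R F) y n H hn
  rw [invOf_eq_inv] at h
  rw [Polynomial.aeval_def, Polynomial.aeval_def, ← h, mul_assoc, ← mul_pow,
    mul_inv_cancel₀ hy, one_pow, mul_one]

/-- `H(y) / y ^ n` lies in the chart of `y⁻¹` when `deg H ≤ n`. -/
theorem revPoly_mem_chart (H : Polynomial R) {n : ℕ} (hn : H.natDegree ≤ n) {y : F}
    (hy : y ≠ 0) {S : Set F} (hyS : y⁻¹ ∈ chart R S) :
    Polynomial.aeval y H * (y⁻¹) ^ n ∈ chart R S := by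
  rw [revPoly_eq H hn hy]
  have h2 : ((Polynomial.aeval (⟨y⁻¹, hyS⟩ : chart R S) (H.reflect n) : chart R S) : F)
      = Polynomial.aeval y⁻¹ (H.reflect n) := by
    simp
  rw [← h2]
  exact (Polynomial.aeval (⟨y⁻¹, hyS⟩ : chart R S) (H.reflect n)).2

end Generic

/-! ## The congruence -/

section Cong

variable (P : ValuationSubring A2.Qb) (E : IntermediateField ℚ A2.Qb) (M q : ℕ)
  [NeZero M] [NeZero q] [NeZero (M * q)]

/-- **The cusp congruence**: the only analytic input of `regular_i`. -/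
def CuspCong (w : A2.RE P E) (V₂ : ValuationSubring (A2.Mod.FE E (M * q * q))) : Prop :=
  ∃ (h c g₂ : chart (A2.RE P E) ({(x3E E M q)⁻¹} : Set (A2.Mod.FE E (M * q * q))))
    (n k N : ℕ), 0 < N ∧
    (h : A2.Mod.FE E (M * q * q)) = 1 + (j1 E M q)⁻¹ * c ∧
    (tcusp E M q ^ N * (g₂ : A2.Mod.FE E (M * q * q))
        - algebraMap (A2.RE P E) (A2.Mod.FE E (M * q * q)) w ^ k
          * (h : A2.Mod.FE E (M * q * q)) ^ n)
      * (algebraMap (A2.RE P E) (A2.Mod.FE E (M * q * q)) w ^ k)⁻¹ ∈ V₂.nonunits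

/-- **`regular_i` from the cusp congruence.** -/
theorem regular_i_of_cuspCong (hq : q.Prime) (w : A2.RE P E)
    (V₁ V₂ V₃ : ValuationSubring (A2.Mod.FE E (M * q * q)))
    (hval : PartVal (R := A2.RE P E) w q (x3E E M q) V₁ V₂ V₃)
    (hsheet : PartSheet (R := A2.RE P E) w (x3E E M q) V₁ V₂ V₃)
    (hqep : PartQep (R := A2.RE P E) w (x3E E M q) V₁ V₂ V₃)
    (hinc : PartInc (R := A2.RE P E) w (x3E E M q) V₁ V₂ V₃)
    (hπ : UnifAt V₂ (jqq E M q - j1 E M q))
    (hcong : CuspCong P E M q w V₂) :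
    ∀ 𝔪 : Ideal (chart (A2.RE P E) ({(x3E E M q)⁻¹} : Set (A2.Mod.FE E (M * q * q)))),
      𝔪.IsMaximal →
      (⟨(x3E E M q)⁻¹, mem_chart_of_mem rfl⟩ :
        chart (A2.RE P E) ({(x3E E M q)⁻¹} : Set (A2.Mod.FE E (M * q * q)))) ∈ 𝔪 →
      Through _ 𝔪 V₂ → PrincipalAt _ 𝔪 V₂ := by
  intro 𝔪 h𝔪 hx hthr
  obtain ⟨h, c, g₂, n, k, N, hN, hh, hc⟩ := hcong
  -- the chart lies in the three valuation rings
  have hB₁ := chart_le_h276 (R := A2.RE P E) V₁ hsheet.base₁ hval.x_unit₁.2.2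
  have hB₂ := chart_le_h276 (R := A2.RE P E) V₂ hsheet.base₂ hval.x_unit₂.2.2
  have hB₃ := chart_le_h276 (R := A2.RE P E) V₃ hsheet.base₃ hval.x_unit₃.2.2
  -- `w ∈ 𝔪`
  have hw𝔪 : algebraMap (A2.RE P E)
      (chart (A2.RE P E) ({(x3E E M q)⁻¹} : Set (A2.Mod.FE E (M * q * q)))) w ∈ 𝔪 :=
    hthr _ (w_mem_nonunits_of_ram hq.two_le hval.ram₂)
  -- the cusp lies on the middle component only
  obtain ⟨h12, -, h23⟩ := hinc.cusp_single 𝔪 h𝔪 hw𝔪 hx
  have hn₁ : ¬ Through _ 𝔪 V₁ := fun h1 => h12 ⟨h1, hthr⟩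
  have hn₃ : ¬ Through _ 𝔪 V₃ := fun h3 => h23 ⟨hthr, h3⟩
  -- `g₁ = h ^ n ∉ 𝔪`
  have hh𝔪 : h ∉ 𝔪 := one_add_not_mem_of_cusp P E M q hq 𝔪 h𝔪 hx h c hh
  have hg₁ : h ^ n ∉ 𝔪 := fun hmem => hh𝔪 (h𝔪.isPrime.mem_of_pow_mem n hmem)
  -- the uniformiser
  have hun := tcusp_unifAt E M q hq V₂ hval.x_unit₂ hπ
  exact H876.principalAt_lite w _ V₁ V₂ V₃ hB₁ hB₂ hB₃ hqep.qep_i hval.unif₁ hval.unif₃ 𝔪
    h𝔪.isPrime hthr hn₁ hn₃ ⟨tcusp E M q, tcusp_mem_chart P E M q hq⟩ (h ^ n) g₂ k N hN hun hg₁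
    (by simpa using hc)

end Cong

/-! ## The leaves -/

section Leaves

/-- The cusp congruence at the concrete objects. -/
def LeafCuspCong : Prop :=
  Leaf fun P E M q _ _ _ w _ _ _ V₂ _ => CuspCong P E M q w V₂

/-- The field `regular_i` of `PartRegM` / `PartReg` at the concrete objects, VERBATIM. -/
def LeafRegI : Prop :=
  Leaf fun P E M q _ _ _ _ _ _ _ V₂ _ =>
    ∀ 𝔪 : Ideal (chart (A2.RE P E) ({(x3E E M q)⁻¹} : Set (A2.Mod.FE E (M * q * q)))),
      𝔪.IsMaximal →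
      (⟨(x3E E M q)⁻¹, Fermat.Agent.S18.H138.mem_chart_of_mem rfl⟩ :
        chart (A2.RE P E) ({(x3E E M q)⁻¹} : Set (A2.Mod.FE E (M * q * q)))) ∈ 𝔪 →
      Through _ 𝔪 V₂ → PrincipalAt _ 𝔪 V₂

/-- The field `regular_m` of `PartRegM` at the concrete objects, VERBATIM. -/
def LeafRegMF : Prop :=
  Leaf fun P E M q _ _ _ _ _ _ V₁ V₂ V₃ =>
    ∀ 𝔪 : Ideal (chart (A2.RE P E) ({x3E E M q} : Set (A2.Mod.FE E (M * q * q)))),
      𝔪.IsMaximal → Through _ 𝔪 V₂ →
      ¬ Through _ 𝔪 V₁ → ¬ Through _ 𝔪 V₃ → PrincipalAt _ 𝔪 V₂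

/-- **`regular_i`** from the leaves VAL, SHEET, QEP, INC, VT and the cusp congruence. -/
theorem leafRegI_of (hVal : LeafVal) (hSheet : LeafSheet) (hQep : LeafQep) (hInc : LeafInc)
    (hVT : LeafVT) (hC : LeafCuspCong) : LeafRegI := by
  intro P E M q _ _ _ w hstd V₁' V₂' V₁ V₂ V₃ W' W hobj
  exact regular_i_of_cuspCong P E M q hstd.q_prime w V₁ V₂ V₃
    (hVal P E M q w hstd V₁' V₂' V₁ V₂ V₃ W' W hobj)
    (hSheet P E M q w hstd V₁' V₂' V₁ V₂ V₃ W' W hobj)
    (hQep P E M q w hstd V₁' V₂' V₁ V₂ V₃ W' W hobj)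
    (hInc P E M q w hstd V₁' V₂' V₁ V₂ V₃ W' W hobj)
    (hVT P E M q w hstd V₁' V₂' V₁ V₂ V₃ W' W hobj).pi_unif
    (hC P E M q w hstd V₁' V₂' V₁ V₂ V₃ W' W hobj)

/-- **`Mod3.LeafRegM`** from its two fields. -/
theorem leafRegM_of (hM : LeafRegMF) (hI : LeafRegI) : LeafRegM := by
  intro P E M q _ _ _ w hstd V₁' V₂' V₁ V₂ V₃ W' W hobj
  exact
    { regular_m := hM P E M q w hstd V₁' V₂' V₁ V₂ V₃ W' W hobj
      regular_i := hI P E M q w hstd V₁' V₂' V₁ V₂ V₃ W' W hobj }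

end Leaves

end Fermat.Agent.S36.Mod3.H276

end

end
-- ===== PACK-END S36/Mod3/H276/RegI.lean

-- ===== PACK-BEGIN S59/H540/DetCyc.lean
section






/-!
# S59 / G-DET (helper540): the determinant is cyclotomic

Every deformation condition of the Prelude (`flatCondition`, `strictOrdinaryCondition`, ...)
contains `GaloisRepAdic.DetIsCyclotomic p`.  No frozen statement provides it; it follows from the
Frobenius determinants by Chebotarev.

* `detIsCyclotomic_of_frob` : `A` noetherian local, `p ∈ 𝔪_A`, `ρ : GaloisRepAdic A` with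
  `det ρ(Frob_ℓ) = ℓ` for all primes `ℓ` outside a finite set `S`  ⟹  `ρ.DetIsCyclotomic p`.
* `detIsCyclotomic_of_charpoly_frob` : same from `charpoly ρ(Frob_ℓ) = X² - a_ℓ X + ℓ`.
* `heckeGaloisRepDatum_detIsCyclotomic` : `H.ρ.DetIsCyclotomic p` for every
  `CuspForm.HeckeGaloisRepDatum N ↑S 𝒪 θ T` (`S` a finite set of primes, `p ∈ 𝔪_T`).

Inputs: `Fermat.Agent.Lib.Cheb.chebotarev` (landed), the roots-of-unity lemmas of
`Fermat.Agent.S55.H414` (landed), adic continuity and Krull's intersection theorem.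
-/

set_option autoImplicit false

namespace Fermat.Agent.S59.H540

open IsLocalRing Fermat.Agent.S55.H414 Fermat.Agent.S55.Bridge

/-- `ℓ ≡ a mod p ^ n` gives `ℓ - a ∈ (p ^ n)` in any commutative ring. -/
theorem natCast_sub_natCast_mem_span {A : Type*} [CommRing A] {N ℓ a : ℕ}
    (h : (ℓ : ZMod N) = (a : ZMod N)) : (ℓ : A) - (a : A) ∈ Ideal.span {((N : ℕ) : A)} := by
  have h1 : ℓ ≡ a [MOD N] := (ZMod.natCast_eq_natCast_iff ℓ a N).mp h
  have h2 : (N : ℤ) ∣ (a : ℤ) - (ℓ : ℤ) := (Nat.modEq_iff_dvd).mp h1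
  obtain ⟨c, hc⟩ := h2
  rw [Ideal.mem_span_singleton]
  refine ⟨-(c : A), ?_⟩
  have h3 : ((a : ℤ) : A) - ((ℓ : ℤ) : A) = ((N : ℤ) : A) * (c : A) := by
    rw [← Int.cast_sub, hc, Int.cast_mul]
  simp only [Int.cast_natCast] at h3
  linear_combination -h3

/-- **The determinant is cyclotomic** as soon as it is so on Frobenius elements outside a finite
set of primes. -/
theorem detIsCyclotomic_of_frob {A : Type} [CommRing A] [IsLocalRing A] [IsNoetherianRing A]
    (ρ : GaloisRepAdic A) (p : ℕ) [Fact p.Prime] (hpA : (p : A) ∈ maximalIdeal A) (S : Finset ℕ)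
    (hdet : ∀ ℓ : ℕ, ℓ.Prime → ℓ ∉ S →
      ∀ P : ValuationSubring (AlgebraicClosure ℚ), P.LiesOverPrime ℓ →
        ∀ σ : AlgebraicClosure ℚ ≃ₐ[ℚ] AlgebraicClosure ℚ, P.IsFrobeniusAt σ ℓ →
          LinearMap.det (ρ.ρ σ) = (ℓ : A)) :
    ρ.DetIsCyclotomic p := by
  have hp : p.Prime := Fact.out
  refine ⟨hpA, fun n σ a hσ => ?_⟩
  have : NeZero (p ^ n) := ⟨pow_ne_zero _ hp.ne_zero⟩
  apply mem_of_forall_mem_sup_pow
  intro k
  obtain ⟨L, hLfin, hL⟩ := ρ.isAdicContinuous k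
  have : FiniteDimensional ℚ L := hLfin
  have hE : FiniteDimensional ℚ ↥(L ⊔ _root_.Fermat.Agent.S55.H414.cycloLevel (p ^ n)) :=
    IntermediateField.finiteDimensional_sup L (_root_.Fermat.Agent.S55.H414.cycloLevel (p ^ n))
  obtain ⟨ℓ, P, τ, hℓ, hℓS, hP, hτ, -, hτσ⟩ :=
    Fermat.Agent.Lib.Cheb.chebotarev (L ⊔ _root_.Fermat.Agent.S55.H414.cycloLevel (p ^ n)) hE σ (insert p S)
  have hℓp : ℓ ≠ p := fun h => hℓS (by rw [h]; exact Finset.mem_insert_self _ _)
  have hℓS' : ℓ ∉ S := fun h => hℓS (Finset.mem_insert_of_mem h)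
  -- the determinant of the Frobenius
  have h1 : LinearMap.det (ρ.ρ τ) = (ℓ : A) := hdet ℓ hℓ hℓS' P hP τ hτ
  -- `τ⁻¹ σ` is trivial on `L`
  have h2 : ∀ x ∈ L, (τ⁻¹ * σ) x = x := by
    intro x hx
    have hx' : x ∈ L ⊔ _root_.Fermat.Agent.S55.H414.cycloLevel (p ^ n) := (le_sup_left : L ≤ _) hx
    have e := hτσ x hx'
    rw [AlgEquiv.mul_apply, ← e]
    exact τ.symm_apply_apply x
  have h4 : LinearMap.det (ρ.ρ (τ⁻¹ * σ)) - 1 ∈ maximalIdeal A ^ k :=
    det_sub_one_mem _ _ (hL (τ⁻¹ * σ) h2)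
  have h5 : LinearMap.det (ρ.ρ σ) = (ℓ : A) * LinearMap.det (ρ.ρ (τ⁻¹ * σ)) := by
    rw [← h1, ← map_mul, ← map_mul, mul_inv_cancel_left]
  -- `ℓ ≡ a mod p ^ n`
  have hNv : P.valuation (((p ^ n : ℕ) : ℕ) : AlgebraicClosure ℚ) = 1 := by
    rw [Nat.cast_pow, map_pow, val_prime_eq_one (A := P) hP hℓ hp hℓp, one_pow]
  have h6 : τ (zetaBar (p ^ n)) = zetaBar (p ^ n) ^ ℓ :=
    IsFrobeniusAt_apply_root hτ (NeZero.ne _) hNv (zetaBar_spec (p ^ n)).pow_eq_one
  have h7 : σ (zetaBar (p ^ n)) = zetaBar (p ^ n) ^ a :=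
    hσ _ (zetaBar_spec (p ^ n)).pow_eq_one
  have h8 : τ (zetaBar (p ^ n)) = σ (zetaBar (p ^ n)) :=
    hτσ _ ((le_sup_right : _root_.Fermat.Agent.S55.H414.cycloLevel (p ^ n) ≤ _) (zetaBar_mem_cycloLevel (p ^ n)))
  have h9 : (ℓ : ZMod (p ^ n)) = (a : ZMod (p ^ n)) := by
    rw [← pow_eq_pow_iff_natCast_eq (zetaBar_spec (p ^ n)), ← h6, ← h7, h8]
  have h10 : (ℓ : A) - (a : A) ∈ Ideal.span {((p ^ n : ℕ) : A)} :=
    natCast_sub_natCast_mem_span h9
  -- conclusion
  have e : LinearMap.det (ρ.ρ σ) - (a : A) =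
      ((ℓ : A) - (a : A)) + (ℓ : A) * (LinearMap.det (ρ.ρ (τ⁻¹ * σ)) - 1) := by
    rw [h5]; ring
  rw [e]
  exact Submodule.add_mem_sup h10 (Ideal.mul_mem_left _ _ h4)

/-- Version with Frobenius characteristic polynomials `X² - a_ℓ X + ℓ`. -/
theorem detIsCyclotomic_of_charpoly_frob {A : Type} [CommRing A] [IsLocalRing A]
    [IsNoetherianRing A] (ρ : GaloisRepAdic A) (p : ℕ) [Fact p.Prime]
    (hpA : (p : A) ∈ maximalIdeal A) (S : Finset ℕ) (t : ℕ → A)
    (hchar : ∀ ℓ : ℕ, ℓ.Prime → ℓ ∉ S →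
      ∀ P : ValuationSubring (AlgebraicClosure ℚ), P.LiesOverPrime ℓ →
        ∀ σ : AlgebraicClosure ℚ ≃ₐ[ℚ] AlgebraicClosure ℚ, P.IsFrobeniusAt σ ℓ →
          LinearMap.charpoly (ρ.ρ σ) =
            Polynomial.X ^ 2 - Polynomial.C (t ℓ) * Polynomial.X + Polynomial.C (ℓ : A)) :
    ρ.DetIsCyclotomic p :=
  detIsCyclotomic_of_frob ρ p hpA S fun ℓ hℓ hℓS P hP σ hσ =>
    det_eq_of_charpoly ρ.finrank_eq _ (t ℓ) _ (hchar ℓ hℓ hℓS P hP σ hσ)

/-- **The representation of a Hecke–Galois datum has cyclotomic determinant.** -/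
theorem heckeGaloisRepDatum_detIsCyclotomic {N : ℕ} [NeZero N] (S : Finset ℕ)
    {𝒪 : Type} [CommRing 𝒪] [IsDomain 𝒪] [IsDiscreteValuationRing 𝒪]
    [IsAdicComplete (IsLocalRing.maximalIdeal 𝒪) 𝒪]
    {θ : CuspForm.heckeAlgebra N 2 (↑S : Set ℕ) →+* IsLocalRing.ResidueField 𝒪}
    {T : Type} [CommRing T] [IsLocalRing T] [IsNoetherianRing T]
    [IsAdicComplete (IsLocalRing.maximalIdeal T) T] [Algebra 𝒪 T] [IsLocalHom (algebraMap 𝒪 T)]
    [Module.Finite 𝒪 T] [Module.Free 𝒪 T]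
    (H : CuspForm.HeckeGaloisRepDatum N (↑S : Set ℕ) 𝒪 θ T)
    (p : ℕ) [Fact p.Prime] (hpT : (p : T) ∈ maximalIdeal T) :
    H.ρ.DetIsCyclotomic p := by
  classical
  refine detIsCyclotomic_of_frob H.ρ p hpT (S ∪ N.primeFactors) ?_
  intro ℓ hℓ hℓS P hP σ hσ
  have hℓS' : ℓ ∉ (↑S : Set ℕ) := fun h => hℓS (Finset.mem_union_left _ (Finset.mem_coe.mp h))
  have hℓN : ¬ ℓ ∣ N := fun h =>
    hℓS (Finset.mem_union_right _ (Nat.mem_primeFactors.mpr ⟨hℓ, h, NeZero.ne N⟩))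
  exact det_eq_of_charpoly H.ρ.finrank_eq _ _ _ (H.charpoly_frob ℓ hℓ hℓN hℓS' P hP σ hσ)

end Fermat.Agent.S59.H540

end
-- ===== PACK-END S59/H540/DetCyc.lean

-- ===== PACK-BEGIN S59/TW/H47/TwistHypOdd.lean
section





/-!
# S59 / TW and row HARD (helper47): the concrete twist hypothesis `TwistHyp`

`H658.embHyp_of_odd` gives the ABSTRACT transfer hypothesis `EmbHyp K N' u` (an injective
intertwiner `J`).  The dictionary "Betti point → twisted eigenform → newform of level `q²`"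
(`H561.exists_twisted_eigenvector`, `H54.twistL_anemic_exists_newform`) needs the CONCRETE one,
`H658.TwistHyp K N' u`: every character `χ` trivial on `K` has a `TwistDatum` (twisting characters
`ψ_q`, list `L` of ramified primes) with `psiL(ℓ) = χ(u ℓ)`.

* `twistHyp_of_odd` : `TwistHyp K N' (fun ℓ => uCls M ℓ ^ m)` under EXACTLY the hypotheses of
  `H658.embHyp_of_odd` (Taylor–Wiles shape: `Γ₀(M) ∩ Γ₁(∏ Qs) ⊆ K`, `γ^(2m+1) ∈ K`,
  `M · ∏ Qs ∣ N'`); the datum is `H564.exists_psi` (`L = ramList`, `ψ_q = χ_q^m`);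
* `TwistDatum.mem_L_of_ne_one` : a prime `q₀` at which `χ` is ramified belongs to the list `L`
  of ANY twist datum of `χ` (so that `TW-NS` applies at `q₀`): if `d` is prime to `N'`,
  `d ≡ 1` modulo every `q ∈ L`, `q ≠ q₀`, and `χ(d) ≠ 1`, then `q₀ ∈ L`.
-/

set_option autoImplicit false
set_option linter.unusedSectionVars false
set_option linter.style.haveILetI false

noncomputable section

namespace Fermat.Agent.S59.TW.H47

open CongruenceSubgroup ModularForm
open UpperHalfPlane hiding I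
open Matrix.SpecialLinearGroup
open Fermat.Agent.S59.TW.H653 Fermat.Agent.S59.TW.H564 Fermat.Agent.S59.TW.H658
open scoped Manifold MatrixGroups ModularForm

variable {M : ℕ} {K : Subgroup SL(2, ℤ)}

/-- **The concrete twist hypothesis** (Taylor–Wiles shape), under the hypotheses of
`H658.embHyp_of_odd`. -/
theorem twistHyp_of_odd [NeZero M] (_hK : IsMid M K) (Qs : List ℕ) (hnd : Qs.Nodup)
    (hQs : ∀ q ∈ Qs, q.Prime ∧ ∃ M' : ℕ, M = M' * q ∧ Nat.Coprime M' q)
    (hK1 : ∀ γ ∈ Gamma0 M, ((Qs.prod : ℕ) : ℤ) ∣ γ 1 1 - 1 → γ ∈ K)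
    (m : ℕ) (hK2 : ∀ γ ∈ Gamma0 M, γ ^ (2 * m + 1) ∈ K)
    {N' : ℕ} (hN' : M * Qs.prod ∣ N') :
    TwistHyp K N' (fun ℓ => uCls M ℓ ^ m) where
  dvd := (Dvd.intro _ rfl).trans hN'
  neg := by
    have h1 : (-1 : SL(2, ℤ)) ∈ Gamma0 M := by
      rw [Gamma0_mem]
      simp
    have h2 := hK2 _ h1
    rwa [Odd.neg_one_pow ⟨m, rfl⟩] at h2
  twist := fun χ hχ => by
    have hMN : M ∣ N' := (Dvd.intro _ rfl).trans hN'
    have hQM : ((Qs.prod : ℕ) : ℤ) ∣ (M : ℤ) :=
      H564.list_prod_dvd_of_primes Qs hnd (fun q hq => (hQs q hq).1) _ (fun q hq => by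
        obtain ⟨-, M', hM, -⟩ := hQs q hq
        exact Int.natCast_dvd_natCast.mpr ⟨M', by rw [hM, mul_comm]⟩)
    -- `χ` is trivial on the units `≡ 1 mod ∏ Qs`
    have hε : ∀ d : ℤ, ((Qs.prod : ℕ) : ℤ) ∣ d - 1 → IsUnit ((d : ℤ) : ZMod M) →
        χ ((d : ℤ) : ZMod M) = 1 := by
      intro d hd hu
      obtain ⟨v, hv⟩ := hu
      obtain ⟨g, hg⟩ := dUnit_surjective (M := M) v
      have h1 : ((((g : SL(2, ℤ)) 1 1 : ℤ)) : ZMod M) = ((d : ℤ) : ZMod M) := by
        rw [← coe_dUnit, hg, hv]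
      have h2 : (M : ℤ) ∣ (g : SL(2, ℤ)) 1 1 - d := by
        rw [← ZMod.intCast_zmod_eq_zero_iff_dvd]
        push_cast
        rw [h1, sub_self]
      have h3 : ((Qs.prod : ℕ) : ℤ) ∣ (g : SL(2, ℤ)) 1 1 - 1 := by
        have := dvd_add (hQM.trans h2) hd
        rwa [sub_add_sub_cancel] at this
      have h4 := hχ g (hK1 _ g.2 h3)
      rw [hg, hv] at h4
      exact h4
    -- `χ ^ (2 m + 1) = 1`
    have hm : χ ^ (2 * m + 1) = 1 := by
      ext v
      rw [MulChar.pow_apply_coe, MulChar.one_apply_coe, ← map_pow, ← Units.val_pow_eq_pow_val]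
      obtain ⟨g, rfl⟩ := dUnit_surjective (M := M) v
      rw [← map_pow]
      exact hχ (g ^ (2 * m + 1)) (hK2 _ g.2)
    obtain ⟨L, ψ, hLnd, hLQ, hLprod, hψ, hram, hc, hd⟩ := H564.exists_psi χ Qs hnd hQs
      (H564.periodic_of_trivial Qs hnd (fun q hq => (hQs q hq).1) χ hε) m hm
    have hunit : ∀ d : ℤ, IsCoprime d (N' : ℤ) → IsUnit ((d : ℤ) : ZMod M) := by
      intro d hdN
      have h1 : IsCoprime d (M : ℤ) :=
        IsCoprime.of_isCoprime_of_dvd_right hdN (Int.natCast_dvd_natCast.mpr hMN)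
      exact (ZMod.coe_int_isUnit_iff_isCoprime d M).mpr h1.symm
    refine ⟨{ ψ := ψ
              L := L
              nodup := hLnd
              prime := fun q hq => hQs q (hLQ q hq)
              ψ_ne := hψ
              ram := hram
              dvd := (Nat.mul_dvd_mul_left M hLprod).trans hN'
              triv := fun d hdN => by
                rw [chiL_apply, chiZ_apply]
                exact hc d (hunit d hdN) }, ?_⟩
    intro ℓ hℓ hℓN
    have hcopN : Nat.Coprime ℓ N' := (Nat.Prime.coprime_iff_not_dvd hℓ).mpr hℓN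
    have hcopM : Nat.Coprime ℓ M := Nat.Coprime.coprime_dvd_right hMN hcopN
    have h1 := hd (ℓ : ℤ) (hunit _ (Nat.isCoprime_iff_coprime.mpr hcopN))
    show psiL ψ L ℓ = _
    rw [psiL]
    simp only [Int.cast_natCast] at h1
    rw [h1, Units.val_pow_eq_pow_val, map_pow, coe_uCls hcopM]

/-! ## The ramified primes belong to the list of every twist datum -/

/-- A prime `q₀` at which `χ` is visibly ramified belongs to the list `L` of every twist datum
of `χ`: if `d` is prime to `N'`, `d ≡ 1` modulo every `q ∈ L` with `q ≠ q₀`, and `χ(d) ≠ 1`,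
then `q₀ ∈ L`. -/
theorem mem_L_of_ne_one {N' : ℕ} {χ : DirichletCharacter ℂ M} (D : TwistDatum M N' χ)
    (q₀ : ℕ) (d : ℤ) (hd : IsCoprime d (N' : ℤ))
    (h1 : ∀ q ∈ D.L, q ≠ q₀ → ((q : ℕ) : ℤ) ∣ d - 1)
    (hχ : χ ((d : ℤ) : ZMod M) ≠ 1) : q₀ ∈ D.L := by
  by_contra hq₀
  apply hχ
  have h := D.triv d hd
  rw [chiL_apply, chiZ_apply] at h
  have h2 : (D.L.map fun q => D.ψ q ((d : ℤ) : ZMod q) ^ 2) = D.L.map fun _ => (1 : ℂ) := by
    refine List.map_congr_left fun q hq => ?_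
    have hne : q ≠ q₀ := fun h' => hq₀ (h' ▸ hq)
    have h3 : ((d : ℤ) : ZMod q) = 1 := by
      have := (ZMod.intCast_zmod_eq_zero_iff_dvd (d - 1) q).mpr (h1 q hq hne)
      push_cast at this
      exact sub_eq_zero.mp this
    rw [h3, map_one, one_pow]
  rw [h2, List.map_const', List.prod_replicate, one_pow, mul_one] at h
  exact h

/-- The list `L` of a twist datum of a character `χ` which is trivial on the units congruent to
`1` modulo `∏ Qs` is contained in `Qs`. -/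
theorem mem_of_mem_L {N' : ℕ} {χ : DirichletCharacter ℂ M} (D : TwistDatum M N' χ)
    (Qs : List ℕ) (hQs : ∀ q ∈ Qs, q.Prime)
    (hε : ∀ d : ℤ, ((Qs.prod : ℕ) : ℤ) ∣ d - 1 → IsUnit ((d : ℤ) : ZMod M) →
      χ ((d : ℤ) : ZMod M) = 1)
    {q : ℕ} (hq : q ∈ D.L) : q ∈ Qs := by
  by_contra hqQ
  obtain ⟨hqp, M', hM, hcop⟩ := D.prime q hq
  have hcopQ : Nat.Coprime Qs.prod q := by
    rw [Nat.coprime_list_prod_left_iff]
    intro q' hq'
    exact (Nat.coprime_primes (hQs q' hq') hqp).mpr fun h => hqQ (h ▸ hq')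
  have hcop' : Nat.Coprime (M' * Qs.prod) q := Nat.Coprime.mul_left hcop hcopQ
  obtain ⟨d, hd1, hdu, hdχ⟩ := D.ram q hq (M' * Qs.prod) hcop'
  apply hdχ
  rw [chiZ_apply]
  have hQd : ((Qs.prod : ℕ) : ℤ) ∣ d - 1 :=
    (Int.natCast_dvd_natCast.mpr (Dvd.intro_left M' rfl)).trans hd1
  have hM'd : ((M' : ℕ) : ℤ) ∣ d - 1 :=
    (Int.natCast_dvd_natCast.mpr (Dvd.intro _ rfl)).trans hd1
  refine hε d hQd ?_
  rw [ZMod.coe_int_isUnit_iff_isCoprime, hM, Nat.cast_mul]
  refine IsCoprime.mul_left ?_ ?_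
  · -- `M'` is prime to `d` since `M' ∣ d - 1`
    obtain ⟨c, hc⟩ := hM'd
    exact ⟨-c, 1, by linear_combination hc⟩
  · exact (ZMod.coe_int_isUnit_iff_isCoprime d q).mp hdu

/-- **The ramified primes of `χ` belong to the list of every twist datum** (unit form): if the
unit `u` modulo `M` is `≡ 1` modulo every prime `q ∈ Qs`, `q ≠ q₀`, and `χ(u) ≠ 1`, where `χ` is
trivial on the units congruent to `1` modulo `∏ Qs`, then `q₀ ∈ D.L`. -/
theorem mem_L_of_unit_ne_one [NeZero M] {N' : ℕ} [NeZero N'] {χ : DirichletCharacter ℂ M}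
    (D : TwistDatum M N' χ) (Qs : List ℕ) (hQs : ∀ q ∈ Qs, q.Prime)
    (hε : ∀ d : ℤ, ((Qs.prod : ℕ) : ℤ) ∣ d - 1 → IsUnit ((d : ℤ) : ZMod M) →
      χ ((d : ℤ) : ZMod M) = 1)
    (q₀ : ℕ) (u : (ZMod M)ˣ)
    (hu : ∀ q ∈ Qs, q ≠ q₀ → ∀ hqM : q ∣ M, ZMod.castHom hqM (ZMod q) (u : ZMod M) = 1)
    (hχ : χ (u : ZMod M) ≠ 1) : q₀ ∈ D.L := by
  have hMN : M ∣ N' := (Dvd.intro _ rfl).trans D.dvd
  obtain ⟨v, hv⟩ := ZMod.unitsMap_surjective hMN u
  have hvu : ZMod.castHom hMN (ZMod M) (v : ZMod N') = (u : ZMod M) := by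
    rw [← hv]
    rfl
  set d : ℤ := (((v : ZMod N').val : ℕ) : ℤ) with hd
  have hdv : ((d : ℤ) : ZMod N') = (v : ZMod N') := by
    rw [hd, Int.cast_natCast, ZMod.natCast_zmod_val]
  have hdu : ((d : ℤ) : ZMod M) = (u : ZMod M) := by
    rw [← hvu, ← hdv, map_intCast]
  have hdN : IsCoprime d (N' : ℤ) := by
    have : IsUnit ((d : ℤ) : ZMod N') := hdv ▸ v.isUnit
    exact ((ZMod.coe_int_isUnit_iff_isCoprime d N').mp this).symm
  refine mem_L_of_ne_one D q₀ d hdN ?_ (by rw [hdu]; exact hχ)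
  intro q hq hne
  have hqQ := mem_of_mem_L D Qs hQs hε hq
  have hqM : q ∣ M := (D.hL q hq).2
  have h1 := hu q hqQ hne hqM
  rw [← hdu, map_intCast] at h1
  rw [← ZMod.intCast_zmod_eq_zero_iff_dvd]
  push_cast
  rw [h1, sub_self]

end Fermat.Agent.S59.TW.H47

end
end
-- ===== PACK-END S59/TW/H47/TwistHypOdd.lean

-- ===== PACK-BEGIN S29/H718/KInj.lean
section
/-
S29 / layer M / sub-layer M4b, piece `K4-INJ` (helper718): only the trivial character has Kummer
class `0`.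
-/




set_option autoImplicit false

noncomputable section

open ModularCurve AlgebraicCurve CongruenceSubgroup UpperHalfPlane
open scoped MatrixGroups Manifold

namespace Fermat.Agent.S29.H718

open Fermat.Agent.S24 Fermat.Agent.S29 Fermat.Agent.S29.M4b

/-- `ζ_p` is a primitive `p`-th root of unity. -/
theorem zetaP_isPrimitiveRoot (p : ℕ) [NeZero p] : IsPrimitiveRoot (zetaP p) p :=
  Complex.isPrimitiveRoot_exp p (NeZero.ne p)

/-- `ζ_p ^ a.val = 1` only for `a = 0`. -/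
theorem eq_zero_of_zetaP_pow_val (p : ℕ) [NeZero p] (a : ZMod p)
    (h : zetaP p ^ a.val = 1) : a = 0 := by
  have h1 : p ∣ a.val := (zetaP_isPrimitiveRoot p).dvd_of_pow_eq_one _ h
  have h2 : a.val = 0 := Nat.eq_zero_of_dvd_of_lt h1 (ZMod.val_lt a)
  exact (ZMod.val_eq_zero a).mp h2

/-- Every element of `FF N` is a quotient of two elements of `A_{ℚ̄}` (polynomials in the
`j(q^d)`, `d ∣ N`). -/
theorem exists_div_AK (N : ℕ) [NeZero N] (v : FF N) :
    ∃ r ∈ Deg457.AK Kbar N, ∃ s ∈ Deg457.AK Kbar N,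
      ((v : FF N) : LaurentSeries Kbar) = r / s := by
  have hv := Deg457.laurentBaseChange_full_le (K := Kbar) N v.2
  rw [IntermediateField.mem_adjoin_iff_div] at hv
  exact hv

/-- Every element of `A_{ℚ̄}` is realised by a good function. -/
theorem exists_good_of_mem_AK (N : ℕ) [NeZero N] {r : LaurentSeries Kbar}
    (hr : r ∈ Deg457.AK Kbar N) :
    ∃ R : ℍ → ℂ, R ∈ H648.goodRing N ∧ H708.HasQExp 1 R (coeffMap Deg457.iotaC r) :=
  H882.AK_le_goodQ N (Deg457.coeffMap_mem_AK Deg457.iotaC hr)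

/-- If `U ^ p` realises a `p`-th power `v ^ p`, `v ≠ 0`, and `U` is holomorphic, then `U` is
`Γ₀(N)`-invariant at some point where it does not vanish. -/
theorem exists_invariant_point (N : ℕ) [NeZero N] (p : ℕ) [NeZero p] {v : FF N} (hv : v ≠ 0)
    {U : ℍ → ℂ} (hU : MDifferentiable 𝓘(ℂ) 𝓘(ℂ) U)
    (hR : Realises N (v ^ p) (fun τ => U τ ^ p)) :
    ∃ τ₀ : ℍ, U τ₀ ≠ 0 ∧ ∀ γ ∈ Gamma0 N, U (γ • τ₀) = U τ₀ := by
  obtain ⟨r, hr, s, hs, hvrs⟩ := exists_div_AK N v
  have hv0 : ((v : FF N) : LaurentSeries Kbar) ≠ 0 := fun h => hv (Subtype.ext h)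
  have hs0 : s ≠ 0 := by
    rintro rfl
    rw [div_zero] at hvrs
    exact hv0 hvrs
  have hr0 : r ≠ 0 := by
    rintro rfl
    rw [zero_div] at hvrs
    exact hv0 hvrs
  obtain ⟨R, hRg, hRq⟩ := exists_good_of_mem_AK N hr
  obtain ⟨S, hSg, hSq⟩ := exists_good_of_mem_AK N hs
  -- `(U * S) ^ p` and `R ^ p` have the same `q`-expansion
  have hUq : H708.HasQExp 1 (fun τ => U τ ^ p)
      (coeffMap Deg457.iotaC (((v ^ p : FF N) : FF N) : LaurentSeries Kbar)) :=
    ⟨H882.isMerInf_of_mem_goodRing hR.1, hR.2⟩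
  have h1 : H708.HasQExp 1 ((fun τ => U τ ^ p) * S ^ p)
      (coeffMap Deg457.iotaC (((v ^ p : FF N) : FF N) : LaurentSeries Kbar)
        * coeffMap Deg457.iotaC s ^ p) := hUq.mul (hSq.pow p)
  have h2 : H708.HasQExp 1 (R ^ p) (coeffMap Deg457.iotaC r ^ p) := hRq.pow p
  have hser : coeffMap Deg457.iotaC (((v ^ p : FF N) : FF N) : LaurentSeries Kbar)
        * coeffMap Deg457.iotaC s ^ p = coeffMap Deg457.iotaC r ^ p := by
    rw [← map_pow, ← map_pow, ← map_mul]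
    congr 1
    have : (((v ^ p : FF N) : FF N) : LaurentSeries Kbar)
        = ((v : FF N) : LaurentSeries Kbar) ^ p := rfl
    rw [this, hvrs, div_pow, div_mul_cancel₀ _ (pow_ne_zero p hs0)]
  rw [hser] at h1
  have hfun : (fun τ => U τ ^ p) * S ^ p = R ^ p := h1.eq_of_eq h2
  -- a point where `R` does not vanish
  have hR0 : R ≠ 0 := by
    intro h0
    have := (hRq.eq_zero_iff).mpr h0
    exact hr0 ((coeffMap Deg457.iotaC).injective (by rw [this, map_zero]))
  obtain ⟨τ₀, hτ₀⟩ : ∃ τ₀ : ℍ, R τ₀ ≠ 0 := by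
    by_contra hcon
    push Not at hcon
    exact hR0 (funext hcon)
  have hpt : ∀ τ : ℍ, (U τ * S τ) ^ p = R τ ^ p := by
    intro τ
    have := congrFun hfun τ
    simpa [mul_pow] using this
  have hUS0 : U τ₀ * S τ₀ ≠ 0 := by
    intro h0
    have := hpt τ₀
    rw [h0, zero_pow (NeZero.ne p)] at this
    exact pow_ne_zero p hτ₀ this.symm
  set ξ : ℂ := U τ₀ * S τ₀ / R τ₀ with hξ
  have hξp : ξ ^ p = 1 := by
    rw [hξ, div_pow, hpt τ₀, div_self (pow_ne_zero p hτ₀)]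
  have hAB : (fun τ => U τ * S τ) = (fun τ => ξ * R τ) := by
    refine H751.eq_of_pow_eq_UHP (hU.mul hSg.1) ((mdifferentiable_const (c := ξ)).mul hRg.1)
      (NeZero.ne p) (fun τ => ?_) (τ₀ := τ₀) ?_ hUS0
    · rw [hpt τ, mul_pow, hξp, one_mul]
    · show U τ₀ * S τ₀ = ξ * R τ₀
      rw [hξ, div_mul_cancel₀ _ hτ₀]
  refine ⟨τ₀, left_ne_zero_of_mul hUS0, fun γ hγ => ?_⟩
  have e1 : U (γ • τ₀) * S (γ • τ₀) = ξ * R (γ • τ₀) := congrFun hAB (γ • τ₀)
  have e2 : U τ₀ * S τ₀ = ξ * R τ₀ := congrFun hAB τ₀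
  rw [hSg.2.1 γ hγ τ₀, hRg.2.1 γ hγ τ₀, ← e2] at e1
  exact mul_right_cancel₀ (right_ne_zero_of_mul hUS0) e1

/-- PIECE `K4-INJ`: only the trivial character has Kummer class `0`. -/
theorem isKum_zero_right (N : ℕ) [NeZero N] (p : ℕ) [NeZero p] {c : G0 N → ZMod p}
    (h : IsKum N p c (0 : JZero N)) : c = 0 := by
  obtain ⟨f, t, U, ht, hx, hU, hR⟩ := h
  have hp0 : (p : ℤ) ≠ 0 := Int.natCast_ne_zero.mpr (NeZero.ne p)
  obtain ⟨g, hg, hfg⟩ := (hx.eq_zero_iff hp0).mp rfl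
  have hf : f ≠ 0 := hx.ne_zero
  -- `f / g ^ p` is a constant
  have hgp : g ^ p ≠ 0 := pow_ne_zero p hg
  have hu0 : f * (g ^ p)⁻¹ ≠ 0 := mul_ne_zero hf (inv_ne_zero hgp)
  have hord : ∀ w : Place Kbar (FF N), w.ord (f * (g ^ p)⁻¹) = 0 := by
    intro w
    rw [Place.ord_mul w hf (inv_ne_zero hgp), Place.ord_inv, hfg w, ← zpow_natCast g p,
      Place.ord_zpow]
    ring
  obtain ⟨a, ha⟩ := Fermat.Agent.S18.H504.constOfOrdZero_modularFunctionFieldBar N _ hu0 hord
  obtain ⟨b, hb⟩ := IsAlgClosed.exists_pow_nat_eq a (Nat.pos_of_ne_zero (NeZero.ne p))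
  have hb0 : b ≠ 0 := by
    rintro rfl
    rw [zero_pow (NeZero.ne p)] at hb
    rw [← hb, map_zero] at ha
    exact hu0 ha
  set v : FF N := algebraMap Kbar (FF N) b * g * t with hv
  have hv0 : v ≠ 0 :=
    mul_ne_zero (mul_ne_zero ((map_ne_zero _).mpr hb0) hg) ht
  have hvp : v ^ p = f * t ^ p := by
    have h1 : f = algebraMap Kbar (FF N) a * g ^ p := by
      rw [← ha, mul_assoc, inv_mul_cancel₀ hgp, mul_one]
    rw [hv, mul_pow, mul_pow, ← map_pow, hb, ← h1]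
  rw [← hvp] at hR
  obtain ⟨τ₀, hτ₀, hinv⟩ := exists_invariant_point N p hv0 hU.mdiff hR
  funext γ
  apply eq_zero_of_zetaP_pow_val
  have h1 := hU.hasChar γ τ₀
  have h2 := hinv (γ : SL(2, ℤ)) γ.2
  rw [h2] at h1
  have h3 : (zetaP p ^ (c γ).val - 1) * U τ₀ = 0 := by
    rw [sub_mul, one_mul, ← h1, sub_self]
  rcases mul_eq_zero.mp h3 with h4 | h4
  · exact sub_eq_zero.mp h4
  · exact absurd h4 hτ₀

end Fermat.Agent.S29.H718

end
end
-- ===== PACK-END S29/H718/KInj.lean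

-- ===== PACK-BEGIN A3/H255/LocalClosed.lean
section




/-!
# A3 / LOCAL (helper255): the abstract LOCAL theorem, unconditionally

`localStatement : A3.H799.LocalStatement K F k Fk` for every `GoodRed` interface
(`localStatement_of_det` of helper799 + the leaf DET of `A3/H255/Det.lean`), and the block
`AbsLocalStatement` of `S19/H979/LocalGlue.lean`.

So `S19.LocalStatement` is reduced to `GrStatement` (good reduction of `X₀(N)`) alone:
`localStatement_of_gr`.
-/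

set_option autoImplicit false

namespace Fermat.Agent.A3.H255

universe u₁ u₂ u₃ u₄

variable {K : Type u₁} {F : Type u₂} {k : Type u₃} {Fk : Type u₄}
  [Field K] [Field F] [Algebra K F] [Field k] [Field Fk] [Algebra k Fk]

/-- **The abstract LOCAL theorem** (frozen `A3.H799.LocalStatement`), unconditionally. -/
theorem localStatement [IsAlgClosed K] [IsAlgClosed k] [CharZero K] :
    Fermat.Agent.A3.H799.LocalStatement K F k Fk :=
  Fermat.Agent.A3.H799.localStatement_of_det Det.detStatement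

/-- The block `AbsLocalStatement` of `S19/H979/LocalGlue.lean`. -/
theorem absLocalStatement : Fermat.Agent.S19.H979.AbsLocalStatement :=
  fun _ _ _ _ _ _ _ _ _ => localStatement

/-- `S19.LocalStatement` (node LOCAL of `S19/Spec.lean`) from good reduction of `X₀(N)` alone. -/
theorem localStatement_of_gr (hG : Fermat.Agent.S19.H979.GrStatement) :
    Fermat.Agent.S19.LocalStatement :=
  Fermat.Agent.S19.H979.localStatement_of_abs_gr' absLocalStatement hG

end Fermat.Agent.A3.H255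

end
-- ===== PACK-END A3/H255/LocalClosed.lean

-- ===== PACK-BEGIN S59/G4/H532/TraceFn.lean
section



/-!
# Row S59, layer G4, piece TRFN (helper532): `traceFn : G4.TraceFnStatement`

Unconditional form of `H532.traceFn_of`, with the landed qualitative Chebotarev theorem
`Fermat.Agent.Lib.Cheb.chebotarev`.
-/

set_option autoImplicit false

namespace Fermat.Agent.S59.G4.H532

/-- **TRFN.** The traces of the representations at a strict family of points glue to a
`T`-valued function. -/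
theorem traceFn : Fermat.Agent.S59.G4.TraceFnStatement :=
  traceFn_of Fermat.Agent.Lib.Cheb.chebotarev

end Fermat.Agent.S59.G4.H532

end
-- ===== PACK-END S59/G4/H532/TraceFn.lean

-- ===== PACK-BEGIN S58/H93/Cheb.lean
section




/-!
# S58, leaf CHEB (helper93)

`Fermat.Agent.S58.H93.chebCharpoly : Fermat.Agent.S58.ChebCharpolyStatement` — two
`GaloisRepAdic` over a complete DVR whose Frobenius characteristic polynomials agree at all
primes outside a finite set have the same characteristic polynomial at every element of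
`Gal(ℚ̄/ℚ)`.

Proof: modulo `𝔪 ^ n` both representations factor through a finite level (adic continuity);
by qualitative Chebotarev (`Lib.Cheb.chebotarev`) every `σ` agrees on that level with a Frobenius
element `τ` at a prime `ℓ ∉ T`; characteristic polynomials commute with the base change
`O → O ⧸ 𝔪 ^ n`; Krull's intersection theorem.  (Completeness and finiteness of the residue
field are not used.)
-/

set_option autoImplicit false

open Polynomial

namespace Fermat.Agent.S58.H93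

/-- **Leaf CHEB** of `Fermat/Agent/S58/Spec.lean`. -/
theorem chebCharpoly : Fermat.Agent.S58.ChebCharpolyStatement := by
  intro O _ _ _ _ _ ρ₁ ρ₂ T h σ
  refine charpoly_eq_of_approx_h93 ρ₁ ρ₂
    {τ | ∃ (ℓ : ℕ) (A : ValuationSubring (AlgebraicClosure ℚ)),
      ℓ.Prime ∧ ℓ ∉ T ∧ A.LiesOverPrime ℓ ∧ A.IsFrobeniusAt τ ℓ} ?_ ?_ σ
  · rintro τ ⟨ℓ, A, hℓ, hℓT, hA, hτ⟩
    exact h ℓ hℓ hℓT A hA τ hτ
  · intro E hE σ'
    obtain ⟨ℓ, A, τ, hℓ, hℓT, hA, hτ, -, hτσ⟩ := Fermat.Agent.Lib.Cheb.chebotarev E hE σ' T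
    exact ⟨τ, ⟨ℓ, A, hℓ, hℓT, hA, hτ⟩, hτσ⟩

end Fermat.Agent.S58.H93

end
-- ===== PACK-END S58/H93/Cheb.lean

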