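import Fermat.Agent.Pack.S44C.G0E27L0
import Fermat.Agent.Pack.S43MC.G0E10L3
import Fermat.Agent.Pack.S43MC.G0E7L2
import Fermat.Agent.Pack.S43MC.G0E25L3
import Fermat.Agent.Pack.S44C.G0E24L0
import Fermat.Agent.Pack.S43MC.G0E9L2
import Fermat.Agent.Pack.S44C.G0E26L0
import Fermat.Agent.Pack.S43MC.G0E25L2
import Fermat.Agent.Pack.S43MC.G0E22L3
import Fermat.Agent.Pack.S43MC.G0E25L0
import Fermat.Agent.Pack.S44C.G0E4L0
import Fermat.Agent.Pack.S43MC.G0E24L1
import Fermat.Agent.Pack.S43MC.G0E20L0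
import Fermat.Agent.Pack.S43MC.G0E23L3
import Fermat.Agent.Pack.S43MC.G0E7L1
import Fermat.Agent.Pack.S44C.G0E27L3
import Fermat.Agent.Pack.S43MC.G0E23L2
import Fermat.Agent.Pack.S43MC.G0E16L0
import Fermat.Agent.Pack.S43MC.G0E3L0
import Fermat.Agent.Pack.S43GC.G0E9L3
import Fermat.Agent.Pack.S43MC.G0E4L1
import Fermat.Agent.Pack.S44C.G0E6L2
import Fermat.Agent.Pack.S43GC.G0E9L0
import Fermat.Agent.Pack.S43GC.G0E13L2
import Fermat.Agent.Pack.S43GC.G0E11L1
import Fermat.Agent.Pack.S43MC.G0E14L0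
import Fermat.Agent.Pack.S43MC.G0E24L2
import Fermat.Agent.Pack.S43MC.G0E20L2
import Fermat.Agent.Pack.Fast891

-- ===== PACK-BEGIN Ribet/H158/WallQSpec.lean
section




/-!
# Row 37, WALL-q (Mazur's principle at `q ≠ p`): frozen targets + PROVED glue
  (wall architect helper158; mirror of `H944/WallSpec.lean` + `H944/WallTargets.lean`)

`N = q·M'`, `q ∤ M'`, `p ≠ q` (`p ∣ M'` IS allowed), `J = JZero (q * M')`, `A` a valuation ring of
`ℚ̄` over `q`, `I = A.inertiaSubgroupIn ℚ`, `φ` any Frobenius at `A` (`A.IsFrobeniusAt φ q`).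
Degeneracy pair: `(α_*, β_*) = (H801.alphaL q M', H801.betaL q M')` (generic in the prime, on main).

## The three targets (for two subgroups `𝒮 ≤ 𝓕` of `J`, chosen by the owner of SLOPE-q)
Think of `𝓕` = finite part of `J[p]` at `A` (classes extending to the identity component;
"slopes 0"), `𝒮` = toric part (both reductions trivial).
* `Q4For p q M' A 𝓕`   **TAME**: a new, non-Eisenstein, `I`-fixed eigenclass lies in `𝓕`
                        (component group is Eisenstein; tame node relation, `p ∤ 12`).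
* `Q3For p q M' 𝓕 𝒮`   **RED**: a new eigenclass in `𝓕 ∖ 𝒮` has its eigensystem at level `M'`
                        (its reduction is a nonzero eigenclass of `Pic⁰(X₀(M')_{𝔽̄_q})[p]`;
                        `p`-torsion lifts to characteristic `0`: S18 injectivity + count).
* `Q2For p q M' A 𝒮`   **FROB-AL**: there is an additive `u : J → J` commuting with `G_ℚ`, involutive
                        on the new part of `𝒮`, with `φ x = q • u x` there (`u = -w_q`: Frobenius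
                        acts on the character group `H₁(dual graph)` as `-w_q`, on `μ_p` as `q`).

## Proved here
* `lowered_of_targetsQ`   : the core (any embedding, any place);
* `wallQFrey_of_targets`  : Places + DetFrob + TorsionRank + targets ⇒ `WallQFreyStatement`;
* `mazurPrincipleOdd_of_wallQ` : BLR + WALL-q + NE + R3S + R3' ⇒ Mazur's principle for odd `q`;
* `S43_of_mpOdd_hard`     : Mazur's principle (odd `q`) + `H943.Row37.HardCaseStatement` ⇒ S43.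

The glue in the split case: all of `ι(E[p])` is new and in `𝒮`, so `u` induces an involution `U`
of `E[p]` commuting with `G_ℚ`, and `φ = q·U`; irreducibility gives `U = ±1`, so `det φ = q²`;
but `det φ = q` (DETF); hence `q ≡ 1 mod p`.
-/

set_option autoImplicit false
set_option linter.style.haveILetI false

open WeierstrassCurve WeierstrassCurve.Affine WeierstrassCurve.Affine.Point
open CuspForm ModularFormClass UpperHalfPlane ModularCurve

namespace Fermat.Agent.Ribet.H158.WallQ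

open Fermat.Agent.Ribet Fermat.Agent.Ribet.Spec Fermat.Agent.Ribet.H944.Wall
open Fermat.Agent.Ribet.H801

/-! ## Targets -/

section Targets

variable (p q M' : ℕ) [NeZero M'] [NeZero q] [NeZero (q * M')]

/-- `x` is a `q`-new `p`-torsion class of `J₀(qM')`: `p x = 0`, `α_* x = 0`, `β_* x = 0`. -/
def IsNewTorsQ (x : JZero (q * M')) : Prop :=
  p • x = 0 ∧ alphaL q M' x = 0 ∧ betaL q M' x = 0

/-- **(Q2) FROB-AL**: on the new part of `𝒮` every Frobenius at `A` acts as `q·u`, where `u` is an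
additive endomorphism of `J₀(qM')` commuting with `G_ℚ` and involutive on the new part of `𝒮`. -/
def Q2For (A : ValuationSubring (AlgebraicClosure ℚ)) (𝒮 : AddSubgroup (JZero (q * M'))) :
    Prop :=
  ∃ u : JZero (q * M') →+ JZero (q * M'),
    (∀ (σ : GQ) (x : JZero (q * M')), u (σ • x) = σ • u x) ∧
    (∀ x ∈ 𝒮, IsNewTorsQ p q M' x → u (u x) = x) ∧
    ∀ φ : GQ, A.IsFrobeniusAt φ q → ∀ x ∈ 𝒮, IsNewTorsQ p q M' x → φ • x = q • u x

/-- **(Q3) RED**: a new Hecke-eigenclass in `𝓕 ∖ 𝒮` has its eigensystem at level `M'`. -/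
def Q3For (𝓕 𝒮 : AddSubgroup (JZero (q * M'))) : Prop :=
  ∀ (S : Finset ℕ) (a : ℕ → ℤ), ∀ x ∈ 𝓕, x ∉ 𝒮 → IsNewTorsQ p q M' x →
    EigenAt (q * M') S a x → Lowered M' p S a

/-- **(Q4) TAME**: a new, non-Eisenstein eigenclass fixed by inertia at `A` lies in `𝓕`. -/
def Q4For (A : ValuationSubring (AlgebraicClosure ℚ)) (𝓕 : AddSubgroup (JZero (q * M'))) :
    Prop :=
  ∀ (S : Finset ℕ) (a : ℕ → ℤ), NonEisAway p a → ∀ x : JZero (q * M'),
    IsNewTorsQ p q M' x → EigenAt (q * M') S a x →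
    (∀ σ ∈ A.inertiaSubgroupIn ℚ, σ • x = x) → x ∈ 𝓕

end Targets

/-- **The three targets**, for `p ≥ 5` and odd `q ≠ p`, `q ∤ M'` (`p ∣ M'` allowed). -/
def WallQTargetsStatement : Prop :=
  ∀ (p q M' : ℕ) [NeZero M'] [NeZero q] [NeZero (q * M')], p.Prime → 5 ≤ p → q.Prime →
    q ≠ 2 → q ≠ p → ¬ q ∣ M' →
    ∀ A : ValuationSubring (AlgebraicClosure ℚ), A.LiesOverPrime q →
      ∃ 𝓕 𝒮 : AddSubgroup (JZero (q * M')),
        Q2For p q M' A 𝒮 ∧ Q3For p q M' 𝓕 𝒮 ∧ Q4For p q M' A 𝓕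

/-- The wall at `q` (Frey form, odd `q`), conclusion `Lowered`, non-Eisenstein eigensystem. -/
def WallQFreyStatement : Prop :=
  ∀ (P : FreyPackage) (M' q : ℕ) [NeZero M'] [NeZero (q * M')], q.Prime → q ≠ 2 → q ≠ P.p →
    ¬ q ∣ M' →
    GaloisRepIsIrreducible (K := AlgebraicClosure ℚ) ℚ P.freyCurve P.p →
    P.GaloisRepUnramifiedAt q → ¬ P.p ∣ q - 1 →
    ∀ (S : Finset ℕ) (a : ℕ → ℤ), NonEisAway P.p a → FreyEmbedsIn P (q * M') S a →
      Lowered M' P.p S a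

/-- Mazur's principle at odd `q ≠ p` (`Spec.MazurPrincipleStatement` with `q ≠ 2`; enough for
S43). -/
def MazurPrincipleOddStatement : Prop :=
  ∀ (P : FreyPackage) {L q : ℕ}, 0 < L → q.Prime → q ≠ 2 → q ≠ P.p → q ∣ L → ¬ q ^ 2 ∣ L →
    GaloisRepIsIrreducible (K := AlgebraicClosure ℚ) ℚ P.freyCurve P.p →
    P.ModularRepOfLevel L → P.GaloisRepUnramifiedAt q → ¬ P.p ∣ q - 1 →
    P.ModularRepOfLevel (L / q)

/-! ## Glue -/

section Core

variable {q M' : ℕ} [NeZero M'] [NeZero q] [NeZero (q * M')]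

/-- **Core of the wall at `q`**: from the three targets at a place `A` with a Frobenius `φ`. -/
theorem lowered_of_targetsQ (P : FreyPackage) (hq : q.Prime) (hqp : q ≠ P.p)
    (hirr : GaloisRepIsIrreducible (K := AlgebraicClosure ℚ) ℚ P.freyCurve P.p)
    (hdim : Module.finrank (ZMod P.p) (FreyTorsion P) = 2)
    {A : ValuationSubring (AlgebraicClosure ℚ)} {φ : GQ} (hφ : A.IsFrobeniusAt φ q)
    (hdet : LinearMap.det
      (galoisRepModuleEnd (S := ℚ) (K := AlgebraicClosure ℚ) P.freyCurve P.p φ) = (q : ZMod P.p))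
    (hfixE : ∀ σ ∈ A.inertiaSubgroupIn ℚ, ∀ x : FreyTorsion P, σ • x = x)
    (hq1 : ¬ P.p ∣ q - 1)
    {𝓕 𝒮 : AddSubgroup (JZero (q * M'))}
    (h2 : Q2For P.p q M' A 𝒮) (h3 : Q3For P.p q M' 𝓕 𝒮) (h4 : Q4For P.p q M' A 𝓕)
    {S : Finset ℕ} {a : ℕ → ℤ} (hNE : NonEisAway P.p a)
    (hemb : FreyEmbedsIn P (q * M') S a) : Lowered M' P.p S a := by
  haveI : Fact P.p.Prime := ⟨P.pp⟩
  obtain ⟨ι, hinj, hgal, hT⟩ := hemb
  have hp_tors : ∀ x, P.p • ι x = 0 := fun x => by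
    rw [← map_nsmul, freyTorsion_nsmul, _root_.map_zero]
  have hfix : ∀ σ ∈ A.inertiaSubgroupIn ℚ, ∀ x, σ • ι x = ι x := fun σ hσ x => by
    rw [← hgal]
    exact congrArg ι (hfixE σ hσ x)
  have hdeg := isDegPair_alphaL_betaL q M' hq
  -- (W0) not new: the eigensystem occurs at level `M'` through `α_*` or `β_*`
  by_cases h : ∃ x, alphaL q M' (ι x) ≠ 0 ∨ betaL q M' (ι x) ≠ 0
  · refine ⟨S ∪ {q}, Finset.subset_union_left, Or.inl ?_⟩
    obtain ⟨x, hx | hx⟩ := h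
    · refine ⟨alphaL q M' (ι x), hx, ?_, fun ℓ hℓ => ?_⟩
      · rw [← map_nsmul, hp_tors, _root_.map_zero]
      · rw [Finset.mem_union, not_or] at hℓ
        rw [← hdeg.hecke_left ℓ hℓ.2, hT ℓ hℓ.1, map_zsmul]
    · refine ⟨betaL q M' (ι x), hx, ?_, fun ℓ hℓ => ?_⟩
      · rw [← map_nsmul, hp_tors, _root_.map_zero]
      · rw [Finset.mem_union, not_or] at hℓ
        rw [← hdeg.hecke_right ℓ hℓ.2, hT ℓ hℓ.1, map_zsmul]
  have hnew : ∀ x, IsNewTorsQ P.p q M' (ι x) := by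
    intro x
    refine ⟨hp_tors x, ?_, ?_⟩
    · by_contra hx
      exact h ⟨x, Or.inl hx⟩
    · by_contra hx
      exact h ⟨x, Or.inr hx⟩
  have heig : ∀ x, EigenAt (q * M') S a (ι x) := fun x ℓ hℓ => hT ℓ hℓ x
  -- (Q4) the image lies in the finite part
  have hF : ∀ x, ι x ∈ 𝓕 := fun x =>
    h4 S a hNE (ι x) (hnew x) (heig x) (fun σ hσ => hfix σ hσ x)
  -- (Q3) if the image is not in the split part we are done
  by_cases hS : ∃ x, ι x ∉ 𝒮
  · obtain ⟨x, hx⟩ := hS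
    exact h3 S a (ι x) (hF x) hx (hnew x) (heig x)
  -- (Q2) otherwise Frobenius is `q·(±1)` on `E[p]`: contradiction with `det = q`
  exfalso
  have hι𝒮 : ∀ x, ι x ∈ 𝒮 := by
    intro x
    by_contra hx
    exact hS ⟨x, hx⟩
  obtain ⟨u, huG, huu, hφu⟩ := h2
  have hcopq : IsCoprime (q : ℤ) (P.p : ℤ) := by
    rw [isCoprime_comm]
    refine (Nat.prime_iff_prime_int.mp P.pp).coprime_iff_not_dvd.2 ?_
    intro h'
    have h'' : P.p ∣ q := by exact_mod_cast h'
    exact hqp ((Nat.prime_dvd_prime_iff_eq P.pp hq).1 h'').symm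
  obtain ⟨d, e, hde⟩ := hcopq
  have hu : ∀ x, u (ι x) = ι (d • (φ • x)) := by
    intro x
    have h1 : φ • ι x = q • u (ι x) := hφu φ hφ (ι x) (hι𝒮 x) (hnew x)
    have h2' : P.p • u (ι x) = 0 := by rw [← map_nsmul, hp_tors, _root_.map_zero]
    calc u (ι x) = d • (q • u (ι x)) := (bezout_zsmul_nsmul _ P.p q d e hde h2').symm
      _ = d • (φ • ι x) := by rw [h1]
      _ = ι (d • (φ • x)) := by rw [map_zsmul, hgal]
  -- the involution on `E[p]`
  let U : FreyTorsion P →ₗ[ZMod P.p] FreyTorsion P :=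
    (d : ZMod P.p) • galoisRepModuleEnd (S := ℚ) (K := AlgebraicClosure ℚ) P.freyCurve P.p φ
  have hUdef : ∀ x, U x = d • (φ • x) := fun x => by
    show (d : ZMod P.p) • (φ • x) = d • (φ • x)
    exact Int.cast_smul_eq_zsmul (ZMod P.p) d (φ • x)
  have hιU : ∀ x, ι (U x) = u (ι x) := fun x => by rw [hUdef, hu]
  have hUG : ∀ (σ : GQ) (x : FreyTorsion P), U (σ • x) = σ • U x := fun σ x => by
    apply hinj
    rw [hιU, hgal, huG, hgal, hιU]
  have hUU : ∀ x, U (U x) = x := fun x => by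
    apply hinj
    rw [hιU, hιU, huu _ (hι𝒮 x) (hnew x)]
  have hφU : ∀ x : FreyTorsion P, φ • x = (q : ZMod P.p) • U x := fun x => by
    rw [hUdef, Nat.cast_smul_eq_nsmul]
    have h3' : d • (q • (φ • x)) = φ • x :=
      bezout_zsmul_nsmul _ P.p q d e hde (freyTorsion_nsmul P _)
    rw [smul_comm] at h3'
    exact h3'.symm
  have hdet' := det_eq_sq_of_involution P hirr hdim U hUG hUU φ (q : ZMod P.p) hφU
  rw [hdet] at hdet'
  -- `q = q²` in `𝔽_p` forces `p ∣ q - 1`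
  have hq0 : (q : ZMod P.p) ≠ 0 := by
    intro h'
    rw [ZMod.natCast_eq_zero_iff] at h'
    exact hqp ((Nat.prime_dvd_prime_iff_eq P.pp hq).1 h').symm
  have hq1' : (q : ZMod P.p) = 1 := by
    have : (q : ZMod P.p) * ((q : ZMod P.p) - 1) = 0 := by
      rw [mul_sub, mul_one, ← pow_two, ← hdet', sub_self]
    rcases mul_eq_zero.1 this with h' | h'
    · exact absurd h' hq0
    · exact sub_eq_zero.1 h'
  apply hq1
  have : ((q - 1 : ℕ) : ZMod P.p) = 0 := by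
    rw [Nat.cast_sub hq.one_le, hq1']
    simp
  exact (ZMod.natCast_eq_zero_iff _ _).1 this

end Core

/-- **WALL-q from the three targets**: Places + DETF + DIM + targets ⇒ wall (Frey form). -/
theorem wallQFrey_of_targets (hPl : PlacesStatement) (hDet : DetFrobStatement)
    (hDim : TorsionRankStatement) (hT : WallQTargetsStatement) : WallQFreyStatement := by
  intro P M' q _ _ hq hq2 hqp hqM' hirr hunr hq1 S a hNE hemb
  haveI : NeZero q := ⟨hq.ne_zero⟩
  obtain ⟨A, hA, φ, hφ⟩ := hPl q hq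
  obtain ⟨𝓕, 𝒮, h2, h3, h4⟩ := hT P.p q M' P.pp P.hp5 hq hq2 hqp hqM' A hA
  exact lowered_of_targetsQ P hq hqp hirr (hDim P) hφ (hDet P q hq hqp A hA φ hφ)
    (fun σ hσ x => hunr A hA σ hσ x) hq1 h2 h3 h4 hNE hemb

/-- **Mazur's principle (odd `q`) from the wall at `q` in `Lowered` form**:
`BLR + WALL-q + NE + R3S + R3' ⇒ MPq`. -/
theorem mazurPrincipleOdd_of_wallQ (hE : EmbedStatement) (hWall : WallQFreyStatement)
    (hNE : NonEisensteinStatement) (hR3 : EigenformOfOccursAwayStatement)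
    (hR3' : AlmostAllToWitnessStatement) : MazurPrincipleOddStatement := by
  intro P L q hLpos hq hq2 hqp hqL hsq hirr hmod hunr hq1
  obtain ⟨M', rfl⟩ := hqL
  have hM'pos : 0 < M' := by
    rcases Nat.eq_zero_or_pos M' with h0 | h0
    · subst h0; simp at hLpos
    · exact h0
  rw [Nat.mul_div_cancel_left M' hq.pos]
  have hqM' : ¬ q ∣ M' := by
    rintro ⟨k, rfl⟩
    exact hsq ⟨k, by ring⟩
  haveI : NeZero M' := ⟨hM'pos.ne'⟩
  haveI : NeZero (q * M') := ⟨hLpos.ne'⟩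
  obtain ⟨f, W, 𝔪, hwit⟩ := hmod
  have hwit' : P.IsCongruentWitness (q * M') f W 𝔪 := hwit
  obtain ⟨S, hemb⟩ := hE P (q * M') hirr f W 𝔪 hwit'
  have hNE' : NonEisAway P.p (fun ℓ => W.apOfModel ℓ) := by
    intro S₁
    obtain ⟨ℓ, hℓ, hℓS, -, hne⟩ := hNE P W hwit.2.1 hirr S₁
    exact ⟨ℓ, hℓ, hℓS, hne⟩
  obtain ⟨S', g, 𝔪', hg, hmax, hp, hc⟩ :=
    eigenAway_of_lowered hR3 P.pp (hWall P M' q hq hq2 hqp hqM' hirr hunr hq1 S _ hNE' hemb)
  exact ⟨g, W, 𝔪', hR3' P M' hM'pos g W 𝔪' _ hg hwit.2.1 hmax hp hc⟩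

/-- **S43 from Mazur's principle at odd `q` and the hard case.** -/
theorem S43_of_mpOdd_hard (hMP : MazurPrincipleOddStatement)
    (hH : H943.Row37.HardCaseStatement) : S43Statement := by
  intro P N q hcond hq hq2 hqp hqN hirr hmod hunr
  have hsq : ¬ q ^ 2 ∣ N := hcond.sq_not_dvd hq
  refine ⟨N / q, Nat.div_dvd_of_dvd hqN, not_dvd_div_of_sq_not_dvd hq hqN hsq, ?_⟩
  by_cases h1 : P.p ∣ q - 1
  · exact hH P hcond.pos hq hqp hqN hsq hirr hmod hunr h1
  · exact hMP P hcond.pos hq hq2 hqp hqN hsq hirr hmod hunr h1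

/-- **S43 from the three targets, the row inputs and the hard case.** -/
theorem S43_of_targetsQ (hE : EmbedStatement) (hPl : PlacesStatement) (hDet : DetFrobStatement)
    (hDim : TorsionRankStatement) (hNE : NonEisensteinStatement)
    (hR3 : EigenformOfOccursAwayStatement) (hR3' : AlmostAllToWitnessStatement)
    (hT : WallQTargetsStatement) (hH : H943.Row37.HardCaseStatement) : S43Statement :=
  S43_of_mpOdd_hard
    (mazurPrincipleOdd_of_wallQ hE (wallQFrey_of_targets hPl hDet hDim hT) hNE hR3 hR3') hH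

end Fermat.Agent.Ribet.H158.WallQ

end
-- ===== PACK-END Ribet/H158/WallQSpec.lean

-- ===== PACK-BEGIN Ribet/H723/WallQPlus.lean
section



/-!
# Row 37, WALL-q with the SHARP exclusion (helper723)

The wall architect's targets `H158.WallQ.WallQTargetsStatement` (Q2 / Q3 / Q4, quantified over
ALL places `A` over `q` and ALL Frobenius elements at `A`) prove more than Mazur's principle for
`q ≢ 1 mod p`: in the split case Frobenius is the scalar `± q` on `E[p]`.  Hence the same targets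
give level lowering whenever `q ≢ 1 mod p` OR some Frobenius at `q` is not scalar on `E[p]`,
and the hard case is needed only in the form `H723.HardScalarStatement`.

* `lowered_of_targetsQ_plus`     : core (copy of `H158.WallQ.lowered_of_targetsQ`, sharp exclusion);
* `wallQFreyPlus_of_targets`     : Places + DETF + DIM + targets ⇒ `WallQFreyPlusStatement`;
* `mazurPrincipleOddPlus_of_wallQ`;
* `S43_of_mpOddPlus_hardScalar`, `S43_of_targetsQ_hardScalar` :
    row inputs + `WallQTargetsStatement` + `HardScalarStatement` ⇒ `S43Statement`.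

No new leaf: the targets are those of `H158/WallQSpec.lean`, verbatim.
-/

set_option autoImplicit false
set_option linter.style.haveILetI false

open WeierstrassCurve WeierstrassCurve.Affine WeierstrassCurve.Affine.Point
open CuspForm ModularFormClass UpperHalfPlane ModularCurve

namespace Fermat.Agent.Ribet.H723

open Fermat.Agent.Ribet Fermat.Agent.Ribet.Spec Fermat.Agent.Ribet.H944.Wall
open Fermat.Agent.Ribet.H801 Fermat.Agent.Ribet.H158.WallQ

/-- Schur-type lemma: a linear involution of an irreducible `E[p]` commuting with Galois is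
`± 1`. -/
theorem involution_pm_one_h723 (P : FreyPackage)
    (hirr : GaloisRepIsIrreducible (K := AlgebraicClosure ℚ) ℚ P.freyCurve P.p)
    (U : FreyTorsion P →ₗ[ZMod P.p] FreyTorsion P)
    (hUG : ∀ (σ : GQ) (x : FreyTorsion P), U (σ • x) = σ • U x)
    (hUU : ∀ x, U (U x) = x) : (∀ x, U x = x) ∨ (∀ x, U x = -x) := by
  let Vp : Submodule (ZMod P.p) (FreyTorsion P) := LinearMap.ker (U - LinearMap.id)
  have hVp : ∀ x, x ∈ Vp ↔ U x = x := fun x => by
    simp only [Vp, LinearMap.mem_ker, LinearMap.sub_apply, LinearMap.id_apply, sub_eq_zero]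
  have hsp : IsGaloisStable ℚ Vp := fun σ x hx => by
    rw [hVp] at hx ⊢
    rw [hUG, hx]
  rcases hirr.2 Vp hsp with hp | hp
  · right
    intro x
    have h1 : x + U x ∈ Vp := by
      rw [hVp, map_add, hUU, add_comm]
    rw [hp, Submodule.mem_bot] at h1
    exact eq_neg_of_add_eq_zero_right h1
  · left
    intro x
    exact (hVp x).1 (hp ▸ Submodule.mem_top)

/-- The wall at `q` (Frey form, odd `q`) with the SHARP exclusion. -/
def WallQFreyPlusStatement : Prop :=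
  ∀ (P : FreyPackage) (M' q : ℕ) [NeZero M'] [NeZero (q * M')], q.Prime → q ≠ 2 → q ≠ P.p →
    ¬ q ∣ M' →
    GaloisRepIsIrreducible (K := AlgebraicClosure ℚ) ℚ P.freyCurve P.p →
    P.GaloisRepUnramifiedAt q → (¬ P.p ∣ q - 1 ∨ ¬ FrobScalarAt P q) →
    ∀ (S : Finset ℕ) (a : ℕ → ℤ), NonEisAway P.p a → FreyEmbedsIn P (q * M') S a →
      Lowered M' P.p S a

/-- Mazur's principle at odd `q ≠ p` with the SHARP exclusion. -/
def MazurPrincipleOddPlusStatement : Prop :=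
  ∀ (P : FreyPackage) {L q : ℕ}, 0 < L → q.Prime → q ≠ 2 → q ≠ P.p → q ∣ L → ¬ q ^ 2 ∣ L →
    GaloisRepIsIrreducible (K := AlgebraicClosure ℚ) ℚ P.freyCurve P.p →
    P.ModularRepOfLevel L → P.GaloisRepUnramifiedAt q →
    (¬ P.p ∣ q - 1 ∨ ¬ FrobScalarAt P q) →
    P.ModularRepOfLevel (L / q)

section Core

variable {q M' : ℕ} [NeZero M'] [NeZero q] [NeZero (q * M')]

/-- **Core of the wall at `q`, sharp form**: from the three targets at a place `A` with a
Frobenius `φ` such that `q ≢ 1 mod p` or `φ` is not a scalar on `E[p]`. -/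
theorem lowered_of_targetsQ_plus (P : FreyPackage) (hq : q.Prime) (hqp : q ≠ P.p)
    (hirr : GaloisRepIsIrreducible (K := AlgebraicClosure ℚ) ℚ P.freyCurve P.p)
    (hdim : Module.finrank (ZMod P.p) (FreyTorsion P) = 2)
    {A : ValuationSubring (AlgebraicClosure ℚ)} {φ : GQ} (hφ : A.IsFrobeniusAt φ q)
    (hdet : LinearMap.det
      (galoisRepModuleEnd (S := ℚ) (K := AlgebraicClosure ℚ) P.freyCurve P.p φ) = (q : ZMod P.p))
    (hfixE : ∀ σ ∈ A.inertiaSubgroupIn ℚ, ∀ x : FreyTorsion P, σ • x = x)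
    (hq1 : ¬ P.p ∣ q - 1 ∨ ∀ c : ℤ, ∃ x : FreyTorsion P, φ • x ≠ c • x)
    {𝓕 𝒮 : AddSubgroup (JZero (q * M'))}
    (h2 : Q2For P.p q M' A 𝒮) (h3 : Q3For P.p q M' 𝓕 𝒮) (h4 : Q4For P.p q M' A 𝓕)
    {S : Finset ℕ} {a : ℕ → ℤ} (hNE : NonEisAway P.p a)
    (hemb : FreyEmbedsIn P (q * M') S a) : Lowered M' P.p S a := by
  rcases hq1 with hq1 | hns
  · exact lowered_of_targetsQ P hq hqp hirr hdim hφ hdet hfixE hq1 h2 h3 h4 hNE hemb
  haveI : Fact P.p.Prime := ⟨P.pp⟩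
  obtain ⟨ι, hinj, hgal, hT⟩ := hemb
  have hp_tors : ∀ x, P.p • ι x = 0 := fun x => by
    rw [← map_nsmul, freyTorsion_nsmul, _root_.map_zero]
  have hfix : ∀ σ ∈ A.inertiaSubgroupIn ℚ, ∀ x, σ • ι x = ι x := fun σ hσ x => by
    rw [← hgal]
    exact congrArg ι (hfixE σ hσ x)
  have hdeg := isDegPair_alphaL_betaL q M' hq
  -- (W0) not new: the eigensystem occurs at level `M'` through `α_*` or `β_*`
  by_cases h : ∃ x, alphaL q M' (ι x) ≠ 0 ∨ betaL q M' (ι x) ≠ 0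
  · refine ⟨S ∪ {q}, Finset.subset_union_left, Or.inl ?_⟩
    obtain ⟨x, hx | hx⟩ := h
    · refine ⟨alphaL q M' (ι x), hx, ?_, fun ℓ hℓ => ?_⟩
      · rw [← map_nsmul, hp_tors, _root_.map_zero]
      · rw [Finset.mem_union, not_or] at hℓ
        rw [← hdeg.hecke_left ℓ hℓ.2, hT ℓ hℓ.1, map_zsmul]
    · refine ⟨betaL q M' (ι x), hx, ?_, fun ℓ hℓ => ?_⟩
      · rw [← map_nsmul, hp_tors, _root_.map_zero]
      · rw [Finset.mem_union, not_or] at hℓ
        rw [← hdeg.hecke_right ℓ hℓ.2, hT ℓ hℓ.1, map_zsmul]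
  have hnew : ∀ x, IsNewTorsQ P.p q M' (ι x) := by
    intro x
    refine ⟨hp_tors x, ?_, ?_⟩
    · by_contra hx
      exact h ⟨x, Or.inl hx⟩
    · by_contra hx
      exact h ⟨x, Or.inr hx⟩
  have heig : ∀ x, EigenAt (q * M') S a (ι x) := fun x ℓ hℓ => hT ℓ hℓ x
  -- (Q4) the image lies in the finite part
  have hF : ∀ x, ι x ∈ 𝓕 := fun x =>
    h4 S a hNE (ι x) (hnew x) (heig x) (fun σ hσ => hfix σ hσ x)
  -- (Q3) if the image is not in the split part we are done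
  by_cases hS : ∃ x, ι x ∉ 𝒮
  · obtain ⟨x, hx⟩ := hS
    exact h3 S a (ι x) (hF x) hx (hnew x) (heig x)
  -- (Q2) otherwise Frobenius is the scalar `± q` on `E[p]`: contradiction
  exfalso
  have hι𝒮 : ∀ x, ι x ∈ 𝒮 := by
    intro x
    by_contra hx
    exact hS ⟨x, hx⟩
  obtain ⟨u, huG, huu, hφu⟩ := h2
  have hcopq : IsCoprime (q : ℤ) (P.p : ℤ) := by
    rw [isCoprime_comm]
    refine (Nat.prime_iff_prime_int.mp P.pp).coprime_iff_not_dvd.2 ?_
    intro h'
    have h'' : P.p ∣ q := by exact_mod_cast h'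
    exact hqp ((Nat.prime_dvd_prime_iff_eq P.pp hq).1 h'').symm
  obtain ⟨d, e, hde⟩ := hcopq
  have hu : ∀ x, u (ι x) = ι (d • (φ • x)) := by
    intro x
    have h1 : φ • ι x = q • u (ι x) := hφu φ hφ (ι x) (hι𝒮 x) (hnew x)
    have h2' : P.p • u (ι x) = 0 := by rw [← map_nsmul, hp_tors, _root_.map_zero]
    calc u (ι x) = d • (q • u (ι x)) := (bezout_zsmul_nsmul _ P.p q d e hde h2').symm
      _ = d • (φ • ι x) := by rw [h1]
      _ = ι (d • (φ • x)) := by rw [map_zsmul, hgal]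
  -- the involution on `E[p]`
  let U : FreyTorsion P →ₗ[ZMod P.p] FreyTorsion P :=
    (d : ZMod P.p) • galoisRepModuleEnd (S := ℚ) (K := AlgebraicClosure ℚ) P.freyCurve P.p φ
  have hUdef : ∀ x, U x = d • (φ • x) := fun x => by
    show (d : ZMod P.p) • (φ • x) = d • (φ • x)
    exact Int.cast_smul_eq_zsmul (ZMod P.p) d (φ • x)
  have hιU : ∀ x, ι (U x) = u (ι x) := fun x => by rw [hUdef, hu]
  have hUG : ∀ (σ : GQ) (x : FreyTorsion P), U (σ • x) = σ • U x := fun σ x => by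
    apply hinj
    rw [hιU, hgal, huG, hgal, hιU]
  have hUU : ∀ x, U (U x) = x := fun x => by
    apply hinj
    rw [hιU, hιU, huu _ (hι𝒮 x) (hnew x)]
  have hφU : ∀ x : FreyTorsion P, φ • x = (q : ℤ) • U x := fun x => by
    rw [hUdef, natCast_zsmul]
    have h3' : d • (q • (φ • x)) = φ • x :=
      bezout_zsmul_nsmul _ P.p q d e hde (freyTorsion_nsmul P _)
    rw [smul_comm] at h3'
    exact h3'.symm
  rcases involution_pm_one_h723 P hirr U hUG hUU with hU | hU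
  · obtain ⟨x, hx⟩ := hns (q : ℤ)
    exact hx (by rw [hφU, hU])
  · obtain ⟨x, hx⟩ := hns (-(q : ℤ))
    refine hx ?_
    rw [hφU, hU, smul_neg]
    exact (_root_.neg_smul _ _).symm

end Core

/-- **WALL-q, sharp form, from the three targets**: Places + DETF + DIM + targets. -/
theorem wallQFreyPlus_of_targets (hPl : PlacesStatement) (hDet : DetFrobStatement)
    (hDim : TorsionRankStatement) (hT : WallQTargetsStatement) : WallQFreyPlusStatement := by
  intro P M' q _ _ hq hq2 hqp hqM' hirr hunr hq1 S a hNE hemb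
  haveI : NeZero q := ⟨hq.ne_zero⟩
  rcases hq1 with hq1 | hns
  · obtain ⟨A, hA, φ, hφ⟩ := hPl q hq
    obtain ⟨𝓕, 𝒮, h2, h3, h4⟩ := hT P.p q M' P.pp P.hp5 hq hq2 hqp hqM' A hA
    exact lowered_of_targetsQ_plus P hq hqp hirr (hDim P) hφ (hDet P q hq hqp A hA φ hφ)
      (fun σ hσ x => hunr A hA σ hσ x) (Or.inl hq1) h2 h3 h4 hNE hemb
  · obtain ⟨A, hA, φ, hφ, hφns⟩ := (not_frobScalarAt_iff P q).1 hns
    obtain ⟨𝓕, 𝒮, h2, h3, h4⟩ := hT P.p q M' P.pp P.hp5 hq hq2 hqp hqM' A hA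
    exact lowered_of_targetsQ_plus P hq hqp hirr (hDim P) hφ (hDet P q hq hqp A hA φ hφ)
      (fun σ hσ x => hunr A hA σ hσ x) (Or.inr hφns) h2 h3 h4 hNE hemb

/-- The sharp wall implies the wall of `H158/WallQSpec.lean`. -/
theorem wallQFrey_of_plus (h : WallQFreyPlusStatement) : WallQFreyStatement :=
  fun P M' q _ _ hq hq2 hqp hqM' hirr hunr hq1 S a hNE hemb =>
    h P M' q hq hq2 hqp hqM' hirr hunr (Or.inl hq1) S a hNE hemb

/-- **Mazur's principle (odd `q`), sharp form, from the sharp wall at `q`**: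
`BLR + WALL-q⁺ + NE + R3S + R3' ⇒ MPq⁺`. -/
theorem mazurPrincipleOddPlus_of_wallQ (hE : EmbedStatement) (hWall : WallQFreyPlusStatement)
    (hNE : NonEisensteinStatement) (hR3 : EigenformOfOccursAwayStatement)
    (hR3' : AlmostAllToWitnessStatement) : MazurPrincipleOddPlusStatement := by
  intro P L q hLpos hq hq2 hqp hqL hsq hirr hmod hunr hq1
  obtain ⟨M', rfl⟩ := hqL
  have hM'pos : 0 < M' := by
    rcases Nat.eq_zero_or_pos M' with h0 | h0
    · subst h0; simp at hLpos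
    · exact h0
  rw [Nat.mul_div_cancel_left M' hq.pos]
  have hqM' : ¬ q ∣ M' := by
    rintro ⟨k, rfl⟩
    exact hsq ⟨k, by ring⟩
  haveI : NeZero M' := ⟨hM'pos.ne'⟩
  haveI : NeZero (q * M') := ⟨hLpos.ne'⟩
  obtain ⟨f, W, 𝔪, hwit⟩ := hmod
  have hwit' : P.IsCongruentWitness (q * M') f W 𝔪 := hwit
  obtain ⟨S, hemb⟩ := hE P (q * M') hirr f W 𝔪 hwit'
  have hNE' : NonEisAway P.p (fun ℓ => W.apOfModel ℓ) := by
    intro S₁
    obtain ⟨ℓ, hℓ, hℓS, -, hne⟩ := hNE P W hwit.2.1 hirr S₁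
    exact ⟨ℓ, hℓ, hℓS, hne⟩
  obtain ⟨S', g, 𝔪', hg, hmax, hp, hc⟩ :=
    eigenAway_of_lowered hR3 P.pp (hWall P M' q hq hq2 hqp hqM' hirr hunr hq1 S _ hNE' hemb)
  exact ⟨g, W, 𝔪', hR3' P M' hM'pos g W 𝔪' _ hg hwit.2.1 hmax hp hc⟩

/-- **S43 from the sharp Mazur principle at odd `q` and the SCALAR hard case.** -/
theorem S43_of_mpOddPlus_hardScalar (hMP : MazurPrincipleOddPlusStatement)
    (hH : HardScalarStatement) : S43Statement := by
  intro P N q hcond hq hq2 hqp hqN hirr hmod hunr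
  have hsq : ¬ q ^ 2 ∣ N := hcond.sq_not_dvd hq
  refine ⟨N / q, Nat.div_dvd_of_dvd hqN, not_dvd_div_of_sq_not_dvd hq hqN hsq, ?_⟩
  by_cases h1 : P.p ∣ q - 1
  · by_cases hsc : FrobScalarAt P q
    · exact hH P hcond.pos hq hqp hqN hsq hirr hmod hunr h1 hsc
    · exact hMP P hcond.pos hq hq2 hqp hqN hsq hirr hmod hunr (Or.inr hsc)
  · exact hMP P hcond.pos hq hq2 hqp hqN hsq hirr hmod hunr (Or.inl h1)

/-- **S43 from the three targets of the wall at `q`, the row inputs and the SCALAR hard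
case.** -/
theorem S43_of_targetsQ_hardScalar (hE : EmbedStatement) (hPl : PlacesStatement)
    (hDet : DetFrobStatement) (hDim : TorsionRankStatement) (hNE : NonEisensteinStatement)
    (hR3 : EigenformOfOccursAwayStatement) (hR3' : AlmostAllToWitnessStatement)
    (hT : WallQTargetsStatement) (hH : HardScalarStatement) : S43Statement :=
  S43_of_mpOddPlus_hardScalar
    (mazurPrincipleOddPlus_of_wallQ hE (wallQFreyPlus_of_targets hPl hDet hDim hT) hNE hR3 hR3')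
    hH

end Fermat.Agent.Ribet.H723

end
-- ===== PACK-END Ribet/H723/WallQPlus.lean

-- ===== PACK-BEGIN S29/H222/ESKAdapterPGI.lean
section
/-
S29 / helper222 — piece ESK, adapter: `PGIFamily` is discharged from the landed piece GEN
(helper98, `Fermat.Agent.S37.H98.gen`; independent copy: helper448).  Hence the Eichler–Shimura
input of layer M, `Fermat.Agent.S29.M.ESStatement`, follows from the S18 hub ALONE:

* `CoreFamily` : `S18.CoreStatement N A m` for `ℓ ∤ N`, `ℓ ∤ m`, `A` over `ℓ`      (row S18)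
-/



set_option autoImplicit false
set_option linter.style.haveILetI false

noncomputable section

namespace Fermat.Agent.S29.H222

/-- Piece GEN (helper98) in family form. -/
theorem pgiFamily : PGIFamily :=
  fun N _ ℓ hℓ hℓN A hA => Fermat.Agent.S37.H98.gen N ℓ hℓ hℓN A hA

/-- **ES for layer M** from the S18 hub alone. -/
theorem esStatement_of_core (hcore : CoreFamily) : Fermat.Agent.S29.M.ESStatement :=
  esStatement_of_core_pgi hcore _root_.Fermat.Agent.S29.H222.pgiFamily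

end Fermat.Agent.S29.H222

end
end
-- ===== PACK-END S29/H222/ESKAdapterPGI.lean

-- ===== PACK-BEGIN S30/H694/TorsionRelOfNodes.lean
section




/-!
# S30 / helper694 — input (T) of the adic module layer from the S18 hub

`Fermat.Agent.S30.H330.TorsionRelations N p` (inertia at `ℓ ∤ N p` acts trivially on
`J₀(N)(ℚ̄)[p^∞]`; every Frobenius at `ℓ` satisfies `σ² - T_ℓ σ + ℓ = 0` there) is the input (T) of
`Fermat.Agent.S30.H990.result_of_inputs`.  On main it was available only from the interfaces of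
row S37 (`H330/AdicTorsionRel.lean`, `H450/RawESPow.lean`: `RedData`, `PlaceRed`, `WeakRedData`).

Here: (T) from the S18 hub alone, through helper222's Kummer route ESK
(`S29.H222.esStatement_of_core`; PGI, HI, NORM-ID are discharged on main) and the bridge
prime `m` ⟹ all `m` (`S18.H694.coreFamily_of_prime`; the moduli needed here are `p ^ n`):

* `torsionRelations_of_coreFamily` : from `S29.H222.CoreFamily` (hub for all `m` prime to `ℓ`);
* `torsionRelations_of_corePrime`  : from the hub at PRIME moduli (what row S18 proves);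
* `torsionRelations_of_nodes`      : from the two open nodes `node_mod`, `node_alg` of the S18
  skeleton, in the exact shape of the hypothesis `hT` of `S30.H990.result_of_inputs`.
-/

set_option autoImplicit false

noncomputable section

namespace Fermat.Agent.S30.H694

open ModularCurve AlgebraicCurve
open Fermat.Agent.S18 (Qb CoreStatement)

/-- (T) from the S18 hub family. -/
theorem torsionRelations_of_coreFamily (hcore : Fermat.Agent.S29.H222.CoreFamily)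
    (N : ℕ) [NeZero N] (p : ℕ) : Fermat.Agent.S30.H330.TorsionRelations N p :=
  fun ℓ hℓ h A hA => Fermat.Agent.S29.H222.esStatement_of_core hcore N p ℓ hℓ h A hA

/-- (T) from the S18 hub at PRIME moduli. -/
theorem torsionRelations_of_corePrime
    (hcore : ∀ (N : ℕ) [NeZero N] (ℓ : ℕ), ℓ.Prime → ¬ ℓ ∣ N → ∀ q : ℕ, q.Prime → ¬ ℓ ∣ q →
      ∀ A : ValuationSubring Qb, A.LiesOverPrime ℓ → CoreStatement N A q)
    (N : ℕ) [NeZero N] (p : ℕ) : Fermat.Agent.S30.H330.TorsionRelations N p :=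
  torsionRelations_of_coreFamily (Fermat.Agent.S18.H694.coreFamily_of_prime hcore) N p

/-- **(T) from the two open nodes of the S18 skeleton**, in the exact shape of the hypothesis
`hT` of `Fermat.Agent.S30.H990.result_of_inputs`. -/
theorem torsionRelations_of_nodes
    (node_mod : ∀ (M : ℕ) [NeZero M] {ℓ : ℕ} [Fact ℓ.Prime], ¬ ℓ ∣ M →
      ∀ A : ValuationSubring Qb, A.LiesOverPrime ℓ →
        Fermat.Agent.S18.Mod.GoodModelStatement M ℓ A)
    (node_alg : ∀ M : ℕ, Fermat.Agent.S18.Mod.AlgStatement M) :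
    ∀ (N : ℕ) [NeZero N] (p : ℕ) [Fact p.Prime], Fermat.Agent.S30.H330.TorsionRelations N p :=
  fun N _ p _ =>
    torsionRelations_of_coreFamily
      (Fermat.Agent.S18.H694.coreFamily_of_nodes node_mod node_alg) N p

end Fermat.Agent.S30.H694

end
end
-- ===== PACK-END S30/H694/TorsionRelOfNodes.lean

-- ===== PACK-BEGIN S36/H586/LeafStepA.lean
section





/-!
# S36 / ALG3 — leaf STEP-A (helper586)

`leafStepA : Alg3.LeafStepA` — steps (a), (b) of ALG3: in a three-component context, if the norms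
of `f` along `α` and `β` are constants times `m`-th powers (`q ∤ m`), then

    f ^ (q² - 1) = w ^ s * G ^ m * u,    u ≡ 1 on V₁, V₂, V₃,   N_α u, N_β u  m-th powers.

Proof: `H586.stepAB` (the abstract norm calculus, `StepAB.lean`) applied to the norm tables of
`α` and `β` (`G1Table.lean`), with approximation at `V₁, V₂, V₃` (`G1Approx.lean`).
-/

set_option autoImplicit false
set_option linter.style.haveILetI false
set_option linter.unusedSectionVars false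
set_option linter.unusedVariables false
set_option synthInstance.maxHeartbeats 400000
set_option maxHeartbeats 1600000

noncomputable section

namespace Fermat.Agent.S36.H586

open Fermat.Agent.S36.Eng
open Fermat.Agent.S18.H138 (chart baseField)
open Fermat.Agent.A2.H12 (IsSheet)

section Const

variable {R E F' : Type*} [CommRing R] [IsDomain R] [IsDiscreteValuationRing R]
  [HenselianLocalRing R] [IsAlgClosed (IsLocalRing.ResidueField R)]
  [Field E] [Algebra R E] [IsFractionRing R E]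
  [Field F'] [Algebra E F'] [Algebra R F'] [IsScalarTower R E F']

/-- A nonzero constant is a power of the uniformiser times an `m`-th power (`q ∤ m`). -/
theorem const_eq_zpow_mul_pow (w : R) (hw : Irreducible w) (q m : ℕ) (hq : q.Prime)
    (hqR : (q : R) ∈ IsLocalRing.maximalIdeal R) (hqm : ¬ q ∣ m) (c : E) (hc : c ≠ 0) :
    ∃ (s : ℤ) (v : E), v ≠ 0 ∧ c = algebraMap R E w ^ s * v ^ m := by
  have hinj : Function.Injective (algebraMap R E) := IsFractionRing.injective R E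
  obtain ⟨a, b, hb0, hab⟩ : ∃ a b : R, b ≠ 0 ∧ c = algebraMap R E a / algebraMap R E b := by
    obtain ⟨a, b, hb, h⟩ := IsFractionRing.div_surjective (A := R) c
    exact ⟨a, b, nonZeroDivisors.ne_zero hb, h.symm⟩
  have ha0 : a ≠ 0 := by
    rintro rfl
    rw [map_zero, zero_div] at hab
    exact hc hab
  obtain ⟨na, ua, hua⟩ := IsDiscreteValuationRing.eq_unit_mul_pow_irreducible ha0 hw
  obtain ⟨nb, ub, hub⟩ := IsDiscreteValuationRing.eq_unit_mul_pow_irreducible hb0 hw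
  obtain ⟨va, hva⟩ := Fermat.Agent.A2.H552.exists_pow_eq_of_isUnit_of_not_dvd q m hq hqR hqm
    (ua : R) ua.isUnit
  obtain ⟨vb, hvb⟩ := Fermat.Agent.A2.H552.exists_pow_eq_of_isUnit_of_not_dvd q m hq hqR hqm
    (ub : R) ub.isUnit
  have hwE : algebraMap R E w ≠ 0 := fun h => hw.ne_zero (hinj (by rw [h, map_zero]))
  have hva0 : algebraMap R E va ≠ 0 := by
    intro h
    have : va = 0 := hinj (by rw [h, map_zero])
    rw [this] at hva
    by_cases hm0 : m = 0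
    · subst hm0
      exact absurd (dvd_zero q) hqm
    · rw [zero_pow hm0] at hva
      exact ua.ne_zero hva.symm
  have hvb0 : algebraMap R E vb ≠ 0 := by
    intro h
    have : vb = 0 := hinj (by rw [h, map_zero])
    rw [this] at hvb
    by_cases hm0 : m = 0
    · subst hm0
      exact absurd (dvd_zero q) hqm
    · rw [zero_pow hm0] at hvb
      exact ub.ne_zero hvb.symm
  refine ⟨(na : ℤ) - nb, algebraMap R E va / algebraMap R E vb, div_ne_zero hva0 hvb0, ?_⟩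
  rw [hab, hua, hub, ← hva, ← hvb, map_mul, map_mul, map_pow, map_pow, map_pow, map_pow,
    zpow_sub₀ hwE, zpow_natCast, zpow_natCast, div_pow]
  field_simp

/-- `NormPow` in the shape consumed by `stepAB`. -/
theorem exists_zpow_of_normPow (w : R) (hw : Irreducible w) (q m : ℕ) (hq : q.Prime)
    (hqR : (q : R) ∈ IsLocalRing.maximalIdeal R) (hm : 0 < m) (hqm : ¬ q ∣ m) {N : F'}
    (hN0 : N ≠ 0) (h : ∃ (c : E) (g : F'), N = algebraMap E F' c * g ^ m) :
    ∃ (s : ℤ) (g : F'), g ≠ 0 ∧ N = algebraMap R F' w ^ s * g ^ m := by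
  obtain ⟨c, g, hN⟩ := h
  have hc0 : c ≠ 0 := by
    rintro rfl
    rw [map_zero, zero_mul] at hN
    exact hN0 hN
  have hg0 : g ≠ 0 := by
    rintro rfl
    rw [zero_pow hm.ne', mul_zero] at hN
    exact hN0 hN
  obtain ⟨s, v, hv0, hcv⟩ := const_eq_zpow_mul_pow w hw q m hq hqR hqm c hc0
  refine ⟨s, algebraMap E F' v * g, mul_ne_zero ((map_ne_zero _).2 hv0) hg0, ?_⟩
  rw [hN, hcv, map_mul, map_zpow₀, map_pow, ← IsScalarTower.algebraMap_apply R E F', mul_pow]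
  ring

end Const

/-- **Leaf STEP-A** of ALG3, verbatim. -/
theorem leafStepA : Fermat.Agent.S36.Alg3.LeafStepA := by
  intro R E F F' _ _ _ _ _ _ _ _ _ _ _ _ _ _ _ _ _ w hw q hq hqR α β x x' V₁ V₂ V₃ V₁' V₂' T
    m hm hqm f hf hNα hNβ
  haveI := T.dvr₁
  haveI := T.dvr₂
  haveI := T.dvr₃
  have hq2 : 2 ≤ q := hq.two_le
  obtain ⟨π, hπ, hram⟩ := T.ram₂
  -- the uniformiser
  have hαw : α (algebraMap R F' w) = algebraMap R F w := by
    rw [IsScalarTower.algebraMap_apply R E F', α.commutes,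
      ← IsScalarTower.algebraMap_apply R E F]
  have hβw : β (algebraMap R F' w) = algebraMap R F w := by
    rw [IsScalarTower.algebraMap_apply R E F', β.commutes,
      ← IsScalarTower.algebraMap_apply R E F]
  have hαw' : (α : F' →+* F) (algebraMap R F' w) = algebraMap R F w := hαw
  have hβw' : (β : F' →+* F) (algebraMap R F' w) = algebraMap R F w := hβw
  have hwF0 : algebraMap R F w ≠ 0 := T.unif₁.1
  have hw'0 : algebraMap R F' w ≠ 0 := by
    intro h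
    rw [h, map_zero] at hαw
    exact hwF0 hαw.symm
  -- sheets
  obtain ⟨s₁, s₂, s₃⟩ := Fermat.Agent.S36.H919.h919_isSheet_of_ctx hq2 T
  haveI : CharZero F := charZero_of_injective_algebraMap (algebraMap E F).injective
  haveI : FiniteDimensional (baseField R x) F :=
    Fermat.Agent.S36.H919.h919_finiteDimensional E T.hfin
  have hinj : Function.Injective (algebraMap R F) := Fermat.Agent.S36.H919.h919_injective E
  have hxR : Transcendental R x := Fermat.Agent.S36.H919.h919_transcendental E T.hx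
  -- residue lifts
  have resα₁ : ∀ y : F, V₁.valuation y = 1 → ∃ a : F', V₁.valuation (y - α a) < 1 :=
    res_lift_of_chart hinj hw.prime hxR s₁ (α : F' →+* F)
      (fun b hb => let ⟨b', _, h⟩ := T.res_α₁ b hb; ⟨b', h⟩)
  have resα₂ : ∀ y : F, V₂.valuation y = 1 → ∃ a : F', V₂.valuation (y - α a) < 1 :=
    res_lift_of_chart hinj hw.prime hxR s₂ (α : F' →+* F)
      (fun b hb => let ⟨b', _, h⟩ := T.res_α₂ b hb; ⟨b', h⟩)
  have resβ₃ : ∀ y : F, V₃.valuation y = 1 → ∃ a : F', V₃.valuation (y - β a) < 1 :=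
    res_lift_of_chart hinj hw.prime hxR s₃ (β : F' →+* F)
      (fun b hb => let ⟨b', _, h⟩ := T.res_β₃ b hb; ⟨b', h⟩)
  have resβ₂ : ∀ y : F, V₂.valuation y = 1 → ∃ a : F', V₂.valuation (y - β a) < 1 :=
    res_lift_of_chart hinj hw.prime hxR s₂ (β : F' →+* F)
      (fun b hb => let ⟨b', _, h⟩ := T.res_β₂ b hb; ⟨b', h⟩)
  -- the two norm tables
  have Tα : NormTable (α : F' →+* F) (S29.H395.normAlong α) q (algebraMap R F' w) π
      V₁' V₂' V₁ V₂ V₃ :=
    normTable_of_fields α q hq.pos (algebraMap R F' w) (algebraMap R F w) π hαw V₁' V₂' V₁ V₂ V₃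
      T.unif₁ T.unif₃ hπ hram T.comap_α₁ T.comap_α₂ T.comap_α₃ resα₁ resα₂ (T.nv_α π hπ)
      T.nr_α₁ T.nr_α₂
  have Tβ : NormTable (β : F' →+* F) (S29.H395.normAlong β) q (algebraMap R F' w) π
      V₂' V₁' V₃ V₂ V₁ :=
    normTable_of_fields β q hq.pos (algebraMap R F' w) (algebraMap R F w) π hβw V₂' V₁' V₃ V₂ V₁
      T.unif₃ T.unif₁ hπ hram T.comap_β₃ T.comap_β₂ T.comap_β₁ resβ₃ resβ₂
      (fun y au ar ai hy hu hr hi => T.nv_β π hπ y ai ar au hy hi hr hu) T.nr_β₁ T.nr_β₂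
  -- orders
  have hordFF : ∀ y : F, y ≠ 0 → ∃ a : ℤ, IsOrd V₁ (algebraMap R F w) y a :=
    exists_isOrd_of_unifAt V₁ T.unif₁
  have hordmid : ∀ y : F, y ≠ 0 → ∃ a : ℤ, IsOrd V₂ π y a := exists_isOrd_of_unifAt V₂ hπ
  have hordVV : ∀ y : F, y ≠ 0 → ∃ a : ℤ, IsOrd V₃ (algebraMap R F w) y a :=
    exists_isOrd_of_unifAt V₃ T.unif₃
  have hord1 : ∀ y : F', y ≠ 0 → ∃ a : ℤ, IsOrd V₁' (algebraMap R F' w) y a := by
    intro y hy
    obtain ⟨a, ha⟩ := hordFF (α y) ((map_ne_zero α).2 hy)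
    refine ⟨a, over_isOrd_down (φ := (α : F' →+* F)) Tα.over_u hw'0 y a ?_⟩
    rw [hαw']
    exact ha
  have hord2 : ∀ y : F', y ≠ 0 → ∃ a : ℤ, IsOrd V₂' (algebraMap R F' w) y a := by
    intro y hy
    obtain ⟨a, ha⟩ := hordVV (α y) ((map_ne_zero α).2 hy)
    refine ⟨a, over_isOrd_down (φ := (α : F' →+* F)) Tα.over_i hw'0 y a ?_⟩
    rw [hαw']
    exact ha
  have hw1 : V₁'.valuation (algebraMap R F' w) < 1 := by
    rw [← over_val_lt_one Tα.over_u, hαw']
    exact UnifAt.val_lt_one T.unif₁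
  have hw2 : V₂'.valuation (algebraMap R F' w) < 1 := by
    rw [← over_val_lt_one Tα.over_i, hαw']
    exact UnifAt.val_lt_one T.unif₃
  have hramO : IsOrd V₂ π (algebraMap R F w) ((q : ℤ) - 1) := by
    have h1 : IsOrd V₂ π (algebraMap R F w) ((q - 1 : ℕ) : ℤ) := by
      rw [isOrd_iff_unitAt hπ.1, zpow_natCast]
      exact hram
    have h4 : ((q - 1 : ℕ) : ℤ) = (q : ℤ) - 1 := by
      rw [Nat.cast_sub hq.pos]
      simp
    rwa [h4] at h1
  -- approximation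
  have hap_ord : ∀ a b c : ℤ, ∃ g : F, IsOrd V₁ (algebraMap R F w) g a ∧ IsOrd V₂ π g b ∧
      IsOrd V₃ (algebraMap R F w) g c :=
    exists_approx_ord3 V₁ V₂ V₃ T.ne₁₂ T.ne₁₃ T.ne₂₃ T.unif₁.1 T.unif₁.2.1 T.unif₁.2.2
      hπ.1 hπ.2.1 hπ.2.2 T.unif₃.1 T.unif₃.2.1 T.unif₃.2.2
  have hap_res : ∀ g₁ g₂ g₃ : F, V₁.valuation g₁ = 1 → V₂.valuation g₂ = 1 →
      V₃.valuation g₃ = 1 → ∃ g : F, PU V₁ (g / g₁) ∧ PU V₂ (g / g₂) ∧ PU V₃ (g / g₃) :=
    exists_approx_res3 V₁ V₂ V₃ T.ne₁₂ T.ne₁₃ T.ne₂₃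
  -- the norms
  have hNα' := exists_zpow_of_normPow (E := E) w hw q m hq hqR hm hqm
    (S29.H395.normAlong_ne_zero α T.fin_α hf) hNα
  have hNβ' := exists_zpow_of_normPow (E := E) w hw q m hq hqR hm hqm
    (S29.H395.normAlong_ne_zero β T.fin_β hf) hNβ
  obtain ⟨s, G, u, hG, hfu, hu₁, hu₂, hu₃, ⟨k₁, hk₁⟩, ⟨k₂, hk₂⟩⟩ :=
    stepAB (α : F' →+* F) (β : F' →+* F) (S29.H395.normAlong α) (S29.H395.normAlong β) q m
      hq.pos hm ((Nat.Prime.coprime_iff_not_dvd hq).2 hqm) (algebraMap R F' w)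
      (algebraMap R F w) π hαw' hβw' V₁' V₂' V₁ V₂ V₃ Tα Tβ hw'0 hw1 hw2 hπ.1 hramO
      hordFF hordmid hordVV hord1 hord2 hap_ord hap_res f hf hNα' hNβ'
  exact ⟨s, G, u, k₁, k₂, hG, hfu, pu_iff.1 hu₁, pu_iff.1 hu₂, pu_iff.1 hu₃, hk₁, hk₂⟩

end Fermat.Agent.S36.H586

end

end
-- ===== PACK-END S36/H586/LeafStepA.lean

-- ===== PACK-BEGIN S36/H79/LeafSheets.lean
section



/-!
# S36 / ALG3 — leaf SHEETS (helper79)

`leafSheets : Alg3.LeafSheets` — every sheet of `x` in a three-component context is one of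
`V₁`, `V₂`, `V₃`.  Direct from `H919.h919_hsheets_of_ctx` (helper919, on main).
-/

set_option autoImplicit false
set_option linter.unusedSectionVars false
set_option synthInstance.maxHeartbeats 400000
set_option maxHeartbeats 1600000

namespace Fermat.Agent.S36.H79

/-- **Leaf SHEETS** of ALG3, verbatim. -/
theorem leafSheets : Fermat.Agent.S36.Alg3.LeafSheets := by
  intro R E F F' _ _ _ _ _ _ _ _ _ _ _ _ _ _ _ _ _ w hw q hq _ α β x x' V₁ V₂ V₃ V₁' V₂' h
  exact Fermat.Agent.S36.H919.h919_hsheets_of_ctx hw hq.two_le h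

end Fermat.Agent.S36.H79

end
-- ===== PACK-END S36/H79/LeafSheets.lean

-- ===== PACK-BEGIN S36/Alg3/Final.lean
section





/-!
# S36 / ALG3 — CLOSED (sub-architect helper586)

    alg3 : Eng.Alg3Statement

from the three leaves on main:
* `H586.leafStepA`  (helper586; steps (a), (b): norm calculus + approximation),
* `H79.leafSheets`  (helper79, from helper919's `h919_hsheets_of_ctx`),
* `H630.leafPure`   (helper630 G4 + KAPPA + chart change, helper987 G3 purity),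
and the label wall `H193.exists_pow_eq_of_three` (helper193).
-/

set_option autoImplicit false

namespace Fermat.Agent.S36.Alg3

/-- **ALG3.**  `Eng.Alg3Statement`, unconditionally. -/
theorem alg3 : Fermat.Agent.S36.Eng.Alg3Statement :=
  alg3_of_leaves Fermat.Agent.S36.H586.leafStepA Fermat.Agent.S36.H79.leafSheets
    Fermat.Agent.S36.H630.leafPure

end Fermat.Agent.S36.Alg3

end
-- ===== PACK-END S36/Alg3/Final.lean

-- ===== PACK-BEGIN S36/Mod3/H27/LeafQep.lean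
section






/-!
# S36 / MOD3, leaf QEP (helper27): `leafQep_of_vt : LeafVT → LeafQep`

ROUTE B (uniform for the finite chart and the chart at infinity):

* every height-one prime of a chart containing `w` is the centre of a sheet, so by the algebraic
  Hartogs lemma `Qep3` follows from COMPLETENESS of `{V₁, V₂, V₃}` (`QepAbs.lean`);
* completeness: a sheet `V` of level `M q q` (coordinate `x = j j_q j_{q²}`) is a sheet for the
  coordinate `α x' = j j_q` (same chart: `chart_α`, `int_α` of helper189), so `V.comap α` is a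
  sheet of level `M q`, hence `V₁'` or `V₂'` (`SheetsLow.lean`, from S1 of cell A2), hence `V` is
  `V₁`, `V₂` or `V₃` (`LeafVT.only_α₁`, `LeafVT.only_α₃`).

The only hypothesis is the valuation-level hub `LeafVT` (fields `only_α₁`, `only_α₃`); `LeafFF` and
the integrality half of `LeafChart` are taken from main (helper439, helper189).
-/

set_option autoImplicit false
set_option linter.style.haveILetI false
set_option linter.unusedSectionVars false
set_option synthInstance.maxHeartbeats 400000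
set_option maxHeartbeats 1600000

noncomputable section

namespace Fermat.Agent.S36.Mod3.H27

open Polynomial ModularCurve
open Fermat.Agent.A2.H12 (IsSheet)
open Fermat.Agent.S18.H138
open Fermat.Agent.A2.Mod
open Fermat.Agent.S36.Eng

/-- **`LeafQep` from the completeness fields** `only_α₁`, `only_α₃`, restricted to sheets. -/
theorem leafQep_of_only
    (h : Mod3.Leaf fun P E M q _ _ _ w V₁' V₂' V₁ V₂ V₃ =>
      (∀ V : ValuationSubring (FE E (M * q * q)), IsSheet w (Mod3.x3E E M q) V →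
        V.comap (αE E (M * q) q : FE E (M * q) →+* FE E (M * q * q)) = V₁' → V = V₁ ∨ V = V₂) ∧
      (∀ V : ValuationSubring (FE E (M * q * q)), IsSheet w (Mod3.x3E E M q) V →
        V.comap (αE E (M * q) q : FE E (M * q) →+* FE E (M * q * q)) = V₂' → V = V₃)) :
    Mod3.LeafQep := by
  intro P E M q _ _ _ w hS V₁' V₂' V₁ V₂ V₃ W' W hO
  obtain ⟨hE₁, hE₂⟩ := h P E M q w hS V₁' V₂' V₁ V₂ V₃ W' W hO
  haveI : IsDiscreteValuationRing (RE P E) := hS.unram.1.dvr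
  have hSet : Setting P E M q w :=
    ⟨hS.q_prime, hS.q_not_dvd, NeZero.ne M, hS.lies_over, hS.unram.1.dvr, hS.unif⟩
  have hff := Mod3.H439.leafFF E M q hS.q_prime hS.q_not_dvd
  haveI := hff.hfin
  haveI : FiniteDimensional (baseField (RE P E) (Mod3.x3E E M q)) (FE E (M * q * q)) :=
    Fermat.Agent.A2.H313.finiteDimensional_baseField_of_adjoin E (Mod3.x3E E M q)
  have hxR : Transcendental (RE P E) (Mod3.x3E E M q) := H13.transcendental_RE hff.hx
  -- the lower coordinate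
  obtain ⟨htr, -, -⟩ := H31.deg E M q hS.q_prime hS.q_not_dvd
  have hx'E : Transcendental E (αE E (M * q) q (xE E M q)) := by
    intro halg
    exact htr ((isAlgebraic_algHom_iff (αE E (M * q) q) (αE E (M * q) q).injective).1 halg)
  have hx' : Transcendental (RE P E) (αE E (M * q) q (xE E M q)) :=
    H13.transcendental_RE hx'E
  have hα : ∀ r : RE P E, (αE E (M * q) q : FE E (M * q) →+* FE E (M * q * q))
      (algebraMap (RE P E) (FE E (M * q)) r) = algebraMap (RE P E) (FE E (M * q * q)) r :=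
    fun r => (αE E (M * q) q).commutes (r : E)
  have hc₂ : αE E (M * q) q (xE E M q) ∈
      _root_.Fermat.Agent.S18.H138.chart (RE P E) ({Mod3.x3E E M q} : Set (FE E (M * q * q))) :=
    Mod3.H189.chart_α_x3E P E M q hS.q_prime _ (mem_chart_of_mem rfl)
  have hc₁ : Mod3.x3E E M q ∈
      _root_.Fermat.Agent.S18.H138.chart (RE P E) ({αE E (M * q) q (xE E M q)} : Set (FE E (M * q * q))) :=
    Fermat.Agent.S36.H747.mem_chart_of_isIntegralOver
      (αE E (M * q) q : FE E (M * q) →+* FE E (M * q * q)) {xE E M q}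
      {αE E (M * q) q (xE E M q)}
      (Mod3.H189.chart_map (R := RE P E) (α := αE E (M * q) q) (mem_chart_of_mem rfl))
      (Mod3.x3E E M q)
      (Mod3.H189.int_α_x3E P E M q hS.q_prime _ (mem_chart_of_mem rfl))
  have hS' : ∀ V' : ValuationSubring (FE E (M * q)), IsSheet w (xE E M q) V' →
      V' = V₁' ∨ V' = V₂' := by
    intro V' hV'
    rw [hO.vzero']
    exact sheets_low hSet hO.vinf' hO.fricke' V' hV'
  obtain ⟨h1, h2⟩ := qep3_of_tower (algebraMap_RE_injective (M * q * q)) hS.unif.prime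
    (αE E (M * q) q : FE E (M * q) →+* FE E (M * q * q)) hα hxR hx' hc₁ hc₂
    V₁ V₂ V₃ V₁' V₂' hS' hE₁ hE₂
  exact ⟨h1, h2⟩

/-- **`LeafQep` from the valuation-level hub `LeafVT`.** -/
theorem leafQep_of_vt (hVT : Mod3.LeafVT) : Mod3.LeafQep :=
  leafQep_of_only fun P E M q _ _ _ w hS V₁' V₂' V₁ V₂ V₃ W' W hO =>
    ⟨fun V _ hV => (hVT P E M q w hS V₁' V₂' V₁ V₂ V₃ W' W hO).only_α₁ V hV,
      fun V _ hV => (hVT P E M q w hS V₁' V₂' V₁ V₂ V₃ W' W hO).only_α₃ V hV⟩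

end Fermat.Agent.S36.Mod3.H27

end

end
-- ===== PACK-END S36/Mod3/H27/LeafQep.lean

-- ===== PACK-BEGIN S36/H922/Conc.lean
section





/-!
# S36 engine / cell REG, route R4 (MID-UNIT): the residue of `π^N / U_m` along `mid`, CONCRETE
(helper922; A2/Mod vocabulary, on helper438's leaf MU)

Level `M₁` with `q ∣ M₁` (`M₁ = q M'`), level `N = M₁ * q`; `α = αE E M₁ q`, `β = βE E M₁ q`.
`V` ANY valuation subring of `F_{N,E}` such that

* `hα`  : `α (V∞') ⊆ V`                       (`V` lies over the Gauss valuation of level `M₁` via `α`);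
* `hqV` : `q ∈ 𝔪_V`;
* `hβD` : `β(D)` is a unit of `V`, `D = q¹² Δ(t^q)/Δ(t)`   (`V ∘ β = V₂'`, MOD3-SYM + MU);
* `hac` : `j^(q²) - j` is a unit of `V`        (Gauss unit of level `M₁`);
* `hEis`: `π^(q-1) (j^(q²) - j) / q ≡ g₁` modulo `𝔪_V`, `g₁ ∈ F_{M₁}` with `t`-expansion the
          Eisenstein constant `U = Ψ(j)/q` of helper83 (`h83_eisenstein`);   `π = j_{q²} - j`.
          [from helper972's `EisData` + `h922_residue_Vc`].

Then, with `U_m = α(D)/β(D)` and `e = (j⁴ (j - 1728)³)^(2(q-1))`: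

  `(π ^ (12 (q-1)) - e · U_m) / U_m ∈ 𝔪_V`,

which is hypothesis `hres` of `S36.H878.principal_of_unit_self` at `V = V_mid`.
-/

set_option autoImplicit false
set_option synthInstance.maxHeartbeats 400000
set_option maxHeartbeats 1600000

noncomputable section

open ModularCurve HahnSeries Polynomial

namespace Fermat.Agent.S36.H922

open Fermat.Agent.A2.Mod Fermat.Agent.S28 Fermat.Agent.S36.H438 Fermat.Agent.A2.Mod.H873

/-! ## 1. The kernel of the reduction `ℤ((t)) → 𝔽_q((t))` -/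

section Kernel

variable (q : ℕ) [NeZero q]

/-- Coefficientwise division by `q`. -/
def h922_divSeries (X : LaurentSeries ℤ) : LaurentSeries ℤ where
  coeff n := X.coeff n / (q : ℤ)
  isPWO_support' := X.isPWO_support.mono fun n hn => by
    simp only [Function.mem_support, ne_eq] at hn ⊢
    intro h
    exact hn (by rw [h, Int.zero_ediv])

theorem h922_eq_mul_of_red_eq_zero (X : LaurentSeries ℤ)
    (h : coeffMap (Int.castRingHom (ZMod q)) X = 0) :
    X = (q : LaurentSeries ℤ) * h922_divSeries q X := by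
  ext n
  have hn : (Int.castRingHom (ZMod q)) (X.coeff n) = 0 := by
    have := congrArg (fun Z => Z.coeff n) h
    simpa [coeffMap_coeff] using this
  have hdvd : (q : ℤ) ∣ X.coeff n := by
    rw [← ZMod.intCast_zmod_eq_zero_iff_dvd]
    exact hn
  have hC : (q : LaurentSeries ℤ) = HahnSeries.C ((q : ℕ) : ℤ) := by
    rw [map_natCast]
  rw [hC, HahnSeries.C_apply, HahnSeries.coeff_single_zero_mul]
  show X.coeff n = (q : ℤ) * (X.coeff n / (q : ℤ))
  rw [Int.mul_ediv_cancel' hdvd]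

end Kernel

/-! ## 2. Formal identities -/

section Formal

variable (q : ℕ) [hq : Fact q.Prime] [NeZero q]

/-- The formal series `(j⁴ (j - 1728)³)^(2(q-1)) · u² · (j^(q²) - j)^12 - U^12` is divisible
by `q` in `ℤ((t))`. -/
theorem h922_theta_int (U : LaurentSeries ℤ)
    (hU : coeffMap (Int.castRingHom (ZMod q)) U * thetaL (ZMod q) (jqModC (ZMod q))
      = (jqModC (ZMod q) - jqModC (ZMod q) ^ (q ^ 2))
          * thetaL (ZMod q) (jqModC (ZMod q)) ^ q) :
    ∃ Z : LaurentSeries ℤ,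
      (jqModC ℤ ^ 4 * (jqModC ℤ - 1728) ^ 3) ^ (2 * (q - 1)) * unitL ℤ q ^ 2
          * (jqModC ℤ ^ (q ^ 2) - jqModC ℤ) ^ 12 - U ^ 12
        = (q : LaurentSeries ℤ) * Z := by
  refine ⟨_, h922_eq_mul_of_red_eq_zero q _ ?_⟩
  have h := h922_theta_bar q (coeffMap (Int.castRingHom (ZMod q)) U) hU
  rw [map_sub, map_mul, map_mul, map_pow, map_pow, map_pow, map_pow, map_mul, map_pow, map_pow,
    map_sub, map_sub, map_pow, coeffMap_jqModC, h88_coeffMap_unitL, map_ofNat, h, sub_self]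

/-- The unit relation for `β(D)`: `Ψ(j(t^q) ; q¹² Δ(t^{q²})/Δ(t^q)) = 0`. -/
theorem h922_unitPoly_beta (Ψ : Polynomial (Polynomial ℤ))
    (h1 : Ψ.eval₂ (evalAt (jqModC ℤ)) ((q : LaurentSeries ℤ) ^ 12 * unitL ℤ q) = 0) :
    Ψ.eval₂ (evalAt (qExpand ℤ q (jqModC ℤ)))
      (qExpand ℤ q ((q : LaurentSeries ℤ) ^ 12 * unitL ℤ q)) = 0 := by
  have h := congrArg (qExpand ℤ q) h1
  rw [Polynomial.hom_eval₂, map_zero] at h
  have hcomp : (qExpand ℤ q).comp (evalAt (jqModC ℤ)) = evalAt (qExpand ℤ q (jqModC ℤ)) := by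
    apply Polynomial.ringHom_ext
    · intro a
      simp [evalAt]
    · simp [evalAt]
  rw [hcomp] at h
  exact h

end Formal

/-! ## 3. The concrete residue statement -/

section Concrete

variable (P : ValuationSubring Qb) (E : IntermediateField ℚ Qb)
variable (M₁ q : ℕ) [NeZero M₁] [hq : Fact q.Prime] [NeZero q] (hqM : q ∣ M₁)

omit hq in
/-- An element of level `M₁` with integral `t`-expansion lies in `V` (`V ⊇ α(V∞')`). -/
theorem h922_alpha_mem {Vinf' : ValuationSubring (FE E M₁)} (hVinf : IsVinf P E M₁ Vinf')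
    {V : ValuationSubring (FE E (M₁ * q))} (hα : ∀ f ∈ Vinf', αE E M₁ q f ∈ V)
    (f : FE E M₁) (X : LaurentSeries ℤ) (hf : (f : LaurentSeries E) = castE E X) :
    αE E M₁ q f ∈ V :=
  hα f (mem_vinf_of_coe_eq_castE P E hVinf hf)

omit hq in
theorem h922_natCast_nonunits {V : ValuationSubring (FE E (M₁ * q))}
    (hqV : algebraMap E (FE E (M₁ * q)) (q : E) ∈ V.nonunits) :
    ((q : ℕ) : FE E (M₁ * q)) ∈ V.nonunits := by
  rwa [map_natCast] at hqV

/-- **CONC-RB**: `β(D) ≡ u'` modulo `𝔪_V`. -/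
theorem h922_betaD_congr
    (Vinf' : ValuationSubring (FE E M₁)) (hVinf : IsVinf P E M₁ Vinf')
    (V : ValuationSubring (FE E (M₁ * q)))
    (hα : ∀ f ∈ Vinf', αE E M₁ q f ∈ V)
    (hqV : algebraMap E (FE E (M₁ * q)) (q : E) ∈ V.nonunits)
    (hβD : βE E M₁ q (dE E M₁ q hqM) ∈ V)
    (hβD' : (βE E M₁ q (dE E M₁ q hqM))⁻¹ ∈ V) :
    βE E M₁ q (dE E M₁ q hqM) - αE E M₁ q (uE' E M₁ q hqM) ∈ V.nonunits := by
  obtain ⟨Ψ, hΨ, hdeg, h1, h2⟩ := h922_exists_unitPoly q hq.out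
  have hinjα : Function.Injective (αE E M₁ q) := (αE E M₁ q).toRingHom.injective
  have hinjβ : Function.Injective (βE E M₁ q) := (βE E M₁ q).toRingHom.injective
  refine h922_unit_roots_congr q V (h922_natCast_nonunits E M₁ q hqV) Ψ hΨ hdeg h1 h2
    (αE E M₁ q (jE E M₁ q hqM)) (βE E M₁ q (dE E M₁ q hqM)) (αE E M₁ q (uE' E M₁ q hqM))
    ?_ hβD hβD' ?_ ?_ ?_ ?_ ?_ ?_
  · exact h922_alpha_mem P E M₁ q hVinf hα _ _ (coe_jE_int E M₁ q hqM)
  · exact h922_alpha_mem P E M₁ q hVinf hα _ _ (coe_uE' E M₁ q hqM)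
  · rw [← map_inv₀, uE'_eq_inv, inv_inv]
    exact h922_alpha_mem P E M₁ q hVinf hα _ _ (coe_uE E M₁ q hqM)
  · exact (map_ne_zero_iff _ hinjβ).mpr (dE_ne_zero E M₁ q hqM)
  · rw [uE'_eq_inv]
    exact (map_ne_zero_iff _ hinjα).mpr (inv_ne_zero (uE_ne_zero E M₁ q hqM))
  · refine eval₂_eq_zero_of_int E (M₁ * q) Ψ _ _
      (qExpand ℤ q ((q : LaurentSeries ℤ) ^ 12 * unitL ℤ q)) (qExpand ℤ q (jqModC ℤ)) ?_ ?_
      (h922_unitPoly_beta q Ψ h1)
    · rw [coe_heckeBetaBar, coe_dE, castE, coeffMap_qExpand]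
    · rw [coe_heckeAlphaBar, coe_jE_int]
  · refine eval₂_eq_zero_of_int E (M₁ * q) Ψ _ _
      (H589.unitL' q) (qExpand ℤ q (jqModC ℤ)) ?_ ?_ h2
    · rw [coe_heckeAlphaBar, coe_uE']
    · rw [coe_heckeAlphaBar, coe_jE_int]

omit hq in
/-- The coercion `F_{M₁,E} → E((t))` as a ring homomorphism. -/
theorem h922_coe_ringHom (f : FE E M₁) :
    ((FE E M₁).val.toRingHom f : LaurentSeries E) = (f : LaurentSeries E) := rfl

/-- **CONC-TH**: `e · u² · (j^(q²) - j)^12 - g₁^12 ∈ q · V∞'` (level `M₁`, Gauss valuation). -/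
theorem h922_theta_conc
    (U : LaurentSeries ℤ)
    (hU : coeffMap (Int.castRingHom (ZMod q)) U * thetaL (ZMod q) (jqModC (ZMod q))
      = (jqModC (ZMod q) - jqModC (ZMod q) ^ (q ^ 2))
          * thetaL (ZMod q) (jqModC (ZMod q)) ^ q)
    (g₁ : FE E M₁) (hg₁ : (g₁ : LaurentSeries E) = castE E U) :
    ∃ (z₁ : FE E M₁) (Z : LaurentSeries ℤ), (z₁ : LaurentSeries E) = castE E Z ∧
      (jE E M₁ 1 (one_dvd M₁) ^ 4 * (jE E M₁ 1 (one_dvd M₁) - 1728) ^ 3) ^ (2 * (q - 1))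
          * uE E M₁ q hqM ^ 2
          * (jE E M₁ 1 (one_dvd M₁) ^ (q ^ 2) - jE E M₁ 1 (one_dvd M₁)) ^ 12 - g₁ ^ 12
        = algebraMap E (FE E M₁) (q : E) * z₁ := by
  obtain ⟨Z, hZ⟩ := h922_theta_int q U hU
  set T₁ : FE E M₁ :=
    (jE E M₁ 1 (one_dvd M₁) ^ 4 * (jE E M₁ 1 (one_dvd M₁) - 1728) ^ 3) ^ (2 * (q - 1))
          * uE E M₁ q hqM ^ 2
          * (jE E M₁ 1 (one_dvd M₁) ^ (q ^ 2) - jE E M₁ 1 (one_dvd M₁)) ^ 12 - g₁ ^ 12 with hT₁
  have hq0 : algebraMap E (FE E M₁) (q : E) ≠ 0 :=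
    (map_ne_zero_iff _ (algebraMap E (FE E M₁)).injective).mpr
      (Nat.cast_ne_zero.mpr (NeZero.ne q))
  have hcoeT : (T₁ : LaurentSeries E) = castE E ((q : LaurentSeries ℤ) * Z) := by
    rw [← hZ, ← h922_coe_ringHom, hT₁]
    simp only [map_sub, map_mul, map_pow, map_ofNat]
    rw [h922_coe_ringHom, h922_coe_ringHom, h922_coe_ringHom, coe_jE_one, coe_uE, hg₁]
  have hcoeq : ((algebraMap E (FE E M₁) (q : E) : FE E M₁) : LaurentSeries E)
      = castE E (q : LaurentSeries ℤ) := by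
    rw [map_natCast, map_natCast]
    rfl
  refine ⟨(algebraMap E (FE E M₁) (q : E))⁻¹ * T₁, Z, ?_, ?_⟩
  · have hq0' : castE E (q : LaurentSeries ℤ) ≠ 0 := by
      rw [← hcoeq]
      intro h
      exact hq0 (Subtype.ext h)
    have h1 : ((((algebraMap E (FE E M₁) (q : E))⁻¹ * T₁ : FE E M₁)) : LaurentSeries E)
        = (castE E (q : LaurentSeries ℤ))⁻¹ * castE E ((q : LaurentSeries ℤ) * Z) := by
      rw [← hcoeT, ← hcoeq]
      rfl
    rw [h1, map_mul, ← mul_assoc, inv_mul_cancel₀ hq0', one_mul]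
  · rw [← mul_assoc, mul_inv_cancel₀ hq0, one_mul]

omit hq in
theorem h922_nonunits_mul_mem {L : Type*} [Field L] (V : ValuationSubring L) {x y : L}
    (hx : x ∈ V.nonunits) (hy : y ∈ V) : x * y ∈ V.nonunits := by
  rw [ValuationSubring.mem_nonunits_iff, map_mul]
  exact mul_lt_one_of_lt_of_le ((V.mem_nonunits_iff).1 hx) ((V.valuation_le_one_iff y).2 hy)

omit hq in
theorem h922_nonunits_add {L : Type*} [Field L] (V : ValuationSubring L) {x y : L}
    (hx : x ∈ V.nonunits) (hy : y ∈ V.nonunits) : x + y ∈ V.nonunits := by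
  rw [ValuationSubring.mem_nonunits_iff]
  exact lt_of_le_of_lt (V.valuation.map_add x y)
    (max_lt ((V.mem_nonunits_iff).1 hx) ((V.mem_nonunits_iff).1 hy))

omit hq in
theorem h922_nonunits_neg {L : Type*} [Field L] (V : ValuationSubring L) {x : L}
    (hx : x ∈ V.nonunits) : -x ∈ V.nonunits := by
  rw [ValuationSubring.mem_nonunits_iff, Valuation.map_neg]
  exact (V.mem_nonunits_iff).1 hx

/-- `j^(q²) ≠ j` at level `M₁`. -/
theorem h922_jpow_sub_ne_zero :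
    jE E M₁ 1 (one_dvd M₁) ^ (q ^ 2) - jE E M₁ 1 (one_dvd M₁) ≠ 0 := by
  intro h
  have h1 : ((jE E M₁ 1 (one_dvd M₁) ^ (q ^ 2) : FE E M₁) : LaurentSeries E)
      = (jE E M₁ 1 (one_dvd M₁) : LaurentSeries E) := congrArg Subtype.val (sub_eq_zero.mp h)
  rw [← h922_coe_ringHom, map_pow, h922_coe_ringHom, coe_jE_one, coeffMap_jqModC] at h1
  have h2 := congrArg HahnSeries.order h1
  rw [HahnSeries.order_pow, Fermat.Agent.S28.H145.order_jqModC, nsmul_eq_mul] at h2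
  have hq2 : 2 ≤ q := hq.out.two_le
  have h3 : ((q ^ 2 : ℕ) : ℤ) = 1 := by
    push_cast at h2 ⊢
    linarith
  have h4 : q ^ 2 = 1 := by exact_mod_cast h3
  nlinarith

/-- **R4, the residue of `π^(12(q-1)) / U_m` along `mid`, concrete, general `ρ`.**

`π = j_{q²} - j = β(j_q) - α(j)`, `U_m = α(D)/β(D)`, `e = α((j⁴ (j - 1728)³)^(2(q-1)))`.
Inputs from MOD3: `hα` (`V` lies over the Gauss valuation of level `M₁` via `α`), `hqV`,
`hβD`/`hβD'` (`β(D)` is a unit of `V`), `hac` (`j^(q²) - j` is a unit of `V`), and the Eisenstein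
constant `ρ ≡ π^(q-1)/q` with `ρ^12 (j^(q²) - j)^12 ≡ g₁^12`, `g₁` the function of level `M₁` with
`t`-expansion helper83's `U`. -/
theorem h922_hres_mid_rho
    (Vinf' : ValuationSubring (FE E M₁)) (hVinf : IsVinf P E M₁ Vinf')
    (V : ValuationSubring (FE E (M₁ * q)))
    (hα : ∀ f ∈ Vinf', αE E M₁ q f ∈ V)
    (hqV : algebraMap E (FE E (M₁ * q)) (q : E) ∈ V.nonunits)
    (hβD : βE E M₁ q (dE E M₁ q hqM) ∈ V)
    (hβD' : (βE E M₁ q (dE E M₁ q hqM))⁻¹ ∈ V)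
    (hac : (αE E M₁ q (jE E M₁ 1 (one_dvd M₁) ^ (q ^ 2) - jE E M₁ 1 (one_dvd M₁)))⁻¹ ∈ V)
    (U : LaurentSeries ℤ)
    (hU : coeffMap (Int.castRingHom (ZMod q)) U * thetaL (ZMod q) (jqModC (ZMod q))
      = (jqModC (ZMod q) - jqModC (ZMod q) ^ (q ^ 2))
          * thetaL (ZMod q) (jqModC (ZMod q)) ^ q)
    (g₁ : FE E M₁) (hg₁ : (g₁ : LaurentSeries E) = castE E U)
    (ρ : FE E (M₁ * q)) (hρV : ρ ∈ V)
    (hρ : ρ ^ 12 * (αE E M₁ q (jE E M₁ 1 (one_dvd M₁) ^ (q ^ 2) - jE E M₁ 1 (one_dvd M₁))) ^ 12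
        - (αE E M₁ q g₁) ^ 12 ∈ V.nonunits)
    (hEis : (βE E M₁ q (jE E M₁ q hqM) - αE E M₁ q (jE E M₁ 1 (one_dvd M₁))) ^ (q - 1)
          * (algebraMap E (FE E (M₁ * q)) (q : E))⁻¹ - ρ ∈ V.nonunits) :
    ((βE E M₁ q (jE E M₁ q hqM) - αE E M₁ q (jE E M₁ 1 (one_dvd M₁))) ^ (12 * (q - 1))
        - αE E M₁ q ((jE E M₁ 1 (one_dvd M₁) ^ 4 * (jE E M₁ 1 (one_dvd M₁) - 1728) ^ 3)
              ^ (2 * (q - 1)))
          * (αE E M₁ q (dE E M₁ q hqM) * (βE E M₁ q (dE E M₁ q hqM))⁻¹))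
      * (αE E M₁ q (dE E M₁ q hqM) * (βE E M₁ q (dE E M₁ q hqM))⁻¹)⁻¹ ∈ V.nonunits := by
  have hinjα : Function.Injective (αE E M₁ q) := (αE E M₁ q).toRingHom.injective
  have hinjβ : Function.Injective (βE E M₁ q) := (βE E M₁ q).toRingHom.injective
  have hq0 : algebraMap E (FE E (M₁ * q)) (q : E) ≠ 0 :=
    (map_ne_zero_iff _ (algebraMap E (FE E (M₁ * q))).injective).mpr
      (Nat.cast_ne_zero.mpr (NeZero.ne q))
  have hβD0 : βE E M₁ q (dE E M₁ q hqM) ≠ 0 :=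
    (map_ne_zero_iff _ hinjβ).mpr (dE_ne_zero E M₁ q hqM)
  have hu0 : αE E M₁ q (uE E M₁ q hqM) ≠ 0 :=
    (map_ne_zero_iff _ hinjα).mpr (uE_ne_zero E M₁ q hqM)
  have hu' : (αE E M₁ q (uE E M₁ q hqM))⁻¹ ∈ V := by
    rw [← map_inv₀, uE_inv]
    exact h922_alpha_mem P E M₁ q hVinf hα _ _ (coe_uE' E M₁ q hqM)
  have huinv : (αE E M₁ q (uE E M₁ q hqM))⁻¹ = αE E M₁ q (uE' E M₁ q hqM) := by
    rw [← map_inv₀, uE_inv]
  -- `h2 : U_m · β(D) = q^12 · α(u)`
  have h2 : (αE E M₁ q (dE E M₁ q hqM) * (βE E M₁ q (dE E M₁ q hqM))⁻¹)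
        * βE E M₁ q (dE E M₁ q hqM)
      = algebraMap E (FE E (M₁ * q)) (q : E) ^ 12 * αE E M₁ q (uE E M₁ q hqM) := by
    rw [mul_assoc, inv_mul_cancel₀ hβD0, mul_one, dE, map_mul, AlgHom.commutes, map_pow]
  -- `h2' : β(D) ≡ α(u)⁻¹`
  have h2' : βE E M₁ q (dE E M₁ q hqM) - (αE E M₁ q (uE E M₁ q hqM))⁻¹ ∈ V.nonunits := by
    rw [huinv]
    exact h922_betaD_congr P E M₁ q hqM Vinf' hVinf V hα hqV hβD hβD'
  -- `h3 : e · u² ≡ ρ^12`
  obtain ⟨z₁, Z, hz₁, hθ⟩ := h922_theta_conc E M₁ q hqM U hU g₁ hg₁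
  have hz₁V : αE E M₁ q z₁ ∈ V := h922_alpha_mem P E M₁ q hVinf hα _ _ hz₁
  have hθα := congrArg (αE E M₁ q) hθ
  simp only [map_sub, map_mul, map_pow, AlgHom.commutes] at hθα
  set A : FE E (M₁ * q) :=
    αE E M₁ q (jE E M₁ 1 (one_dvd M₁)) ^ (q ^ 2) - αE E M₁ q (jE E M₁ 1 (one_dvd M₁)) with hA
  have hAeq : αE E M₁ q (jE E M₁ 1 (one_dvd M₁) ^ (q ^ 2) - jE E M₁ 1 (one_dvd M₁)) = A := by
    rw [hA, map_sub, map_pow]
  rw [hAeq] at hac hρ
  have hA0 : A ≠ 0 := by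
    rw [← hAeq]
    exact (map_ne_zero_iff _ hinjα).mpr (h922_jpow_sub_ne_zero E M₁ q)
  set qL : FE E (M₁ * q) := algebraMap E (FE E (M₁ * q)) (q : E) with hqL
  set u : FE E (M₁ * q) := αE E M₁ q (uE E M₁ q hqM) with hu
  set J : FE E (M₁ * q) := αE E M₁ q (jE E M₁ 1 (one_dvd M₁)) with hJ
  set G : FE E (M₁ * q) := αE E M₁ q g₁ with hG
  have hA12 : (A⁻¹) ^ 12 ∈ V := pow_mem hac 12
  have h3 : αE E M₁ q ((jE E M₁ 1 (one_dvd M₁) ^ 4 * (jE E M₁ 1 (one_dvd M₁) - 1728) ^ 3)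
        ^ (2 * (q - 1))) * u ^ 2 - ρ ^ 12 ∈ V.nonunits := by
    have hkey : αE E M₁ q ((jE E M₁ 1 (one_dvd M₁) ^ 4 * (jE E M₁ 1 (one_dvd M₁) - 1728) ^ 3)
          ^ (2 * (q - 1))) * u ^ 2 - ρ ^ 12
        = (qL * αE E M₁ q z₁ + -(ρ ^ 12 * A ^ 12 - G ^ 12)) * (A⁻¹) ^ 12 := by
      have hAA : A ^ 12 * (A⁻¹) ^ 12 = 1 := by
        rw [← mul_pow, mul_inv_cancel₀ hA0, one_pow]
      rw [← hθα]
      simp only [map_mul, map_pow, map_sub, map_ofNat]
      linear_combination (-(J ^ 4 * (J - 1728) ^ 3) ^ (2 * (q - 1)) * u ^ 2 + ρ ^ 12) * hAA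
    rw [hkey]
    refine h922_nonunits_mul_mem V (h922_nonunits_add V ?_ (h922_nonunits_neg V hρ)) hA12
    exact h922_nonunits_mul_mem V hqV hz₁V
  have h1 : (βE E M₁ q (jE E M₁ q hqM) - J) ^ (q - 1)
      = qL * ((βE E M₁ q (jE E M₁ q hqM) - J) ^ (q - 1) * qL⁻¹) := by
    rw [mul_comm qL, mul_assoc, inv_mul_cancel₀ hq0, mul_one]
  exact h922_hres_abs_nonunits V _ qL _ ρ u (βE E M₁ q (dE E M₁ q hqM)) _ _ (q - 1)
    hq0 hρV hu0 hu' h1 hEis h2 h2' h3

/-- **R4, the residue of `π^(12(q-1)) / U_m` along `mid`, concrete** (`hres_j`), with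
`ρ = g₁ / (j^(q²) - j)` (the form delivered by `h922_residue_Vc` on helper972's `EisData`:
`G(c) = α(g₁)`, `a - c = α(j^(q²) - j)`). -/
theorem h922_hres_mid
    (Vinf' : ValuationSubring (FE E M₁)) (hVinf : IsVinf P E M₁ Vinf')
    (V : ValuationSubring (FE E (M₁ * q)))
    (hα : ∀ f ∈ Vinf', αE E M₁ q f ∈ V)
    (hqV : algebraMap E (FE E (M₁ * q)) (q : E) ∈ V.nonunits)
    (hβD : βE E M₁ q (dE E M₁ q hqM) ∈ V)
    (hβD' : (βE E M₁ q (dE E M₁ q hqM))⁻¹ ∈ V)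
    (hac : (αE E M₁ q (jE E M₁ 1 (one_dvd M₁) ^ (q ^ 2) - jE E M₁ 1 (one_dvd M₁)))⁻¹ ∈ V)
    (U : LaurentSeries ℤ)
    (hU : coeffMap (Int.castRingHom (ZMod q)) U * thetaL (ZMod q) (jqModC (ZMod q))
      = (jqModC (ZMod q) - jqModC (ZMod q) ^ (q ^ 2))
          * thetaL (ZMod q) (jqModC (ZMod q)) ^ q)
    (g₁ : FE E M₁) (hg₁ : (g₁ : LaurentSeries E) = castE E U)
    (hEis : (βE E M₁ q (jE E M₁ q hqM) - αE E M₁ q (jE E M₁ 1 (one_dvd M₁))) ^ (q - 1)
          * (algebraMap E (FE E (M₁ * q)) (q : E))⁻¹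
        - αE E M₁ q g₁
          * (αE E M₁ q (jE E M₁ 1 (one_dvd M₁) ^ (q ^ 2) - jE E M₁ 1 (one_dvd M₁)))⁻¹
        ∈ V.nonunits) :
    ((βE E M₁ q (jE E M₁ q hqM) - αE E M₁ q (jE E M₁ 1 (one_dvd M₁))) ^ (12 * (q - 1))
        - αE E M₁ q ((jE E M₁ 1 (one_dvd M₁) ^ 4 * (jE E M₁ 1 (one_dvd M₁) - 1728) ^ 3)
              ^ (2 * (q - 1)))
          * (αE E M₁ q (dE E M₁ q hqM) * (βE E M₁ q (dE E M₁ q hqM))⁻¹))
      * (αE E M₁ q (dE E M₁ q hqM) * (βE E M₁ q (dE E M₁ q hqM))⁻¹)⁻¹ ∈ V.nonunits := by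
  have hinjα : Function.Injective (αE E M₁ q) := (αE E M₁ q).toRingHom.injective
  have hA0 : αE E M₁ q (jE E M₁ 1 (one_dvd M₁) ^ (q ^ 2) - jE E M₁ 1 (one_dvd M₁)) ≠ 0 :=
    (map_ne_zero_iff _ hinjα).mpr (h922_jpow_sub_ne_zero E M₁ q)
  refine h922_hres_mid_rho P E M₁ q hqM Vinf' hVinf V hα hqV hβD hβD' hac U hU g₁ hg₁
    (αE E M₁ q g₁
      * (αE E M₁ q (jE E M₁ 1 (one_dvd M₁) ^ (q ^ 2) - jE E M₁ 1 (one_dvd M₁)))⁻¹)
    (V.mul_mem _ _ (h922_alpha_mem P E M₁ q hVinf hα _ _ hg₁) hac) ?_ hEis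
  have h0 : (αE E M₁ q g₁
      * (αE E M₁ q (jE E M₁ 1 (one_dvd M₁) ^ (q ^ 2) - jE E M₁ 1 (one_dvd M₁)))⁻¹) ^ 12
        * (αE E M₁ q (jE E M₁ 1 (one_dvd M₁) ^ (q ^ 2) - jE E M₁ 1 (one_dvd M₁))) ^ 12
      - (αE E M₁ q g₁) ^ 12 = 0 := by
    rw [← mul_pow, mul_assoc, inv_mul_cancel₀ hA0, mul_one, sub_self]
  rw [h0, ValuationSubring.mem_nonunits_iff, map_zero]
  exact zero_lt_one

end Concrete

end Fermat.Agent.S36.H922

end
end
-- ===== PACK-END S36/H922/Conc.lean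

-- ===== PACK-BEGIN S59/H765/ResLocal.lean
section





/-!
# S59, cell NM, leaf NM-RES (helper765): `T_{Σ'} ↠ T_Σ`

For a `LevelPair N N' S S'` (`N ∣ N'`, `S ⊆ S'`, no `U`-operator of the big level at a prime not
dividing the small level) and a residual character `θ` of `heckeAlgebra N 2 S`, put
`θ' := θ ∘ oldRestrict`.  Then restriction to oldforms induces an `𝒪`-algebra homomorphism

  `resLocal : heckeLocal N' S' 𝒪 θ' →ₐ[𝒪] heckeLocal N S 𝒪 θ`,  `π' t ↦ π (oldRestrict t)`,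

(`resLocal_π`, `resLocal_T`), and `resLocal` is SURJECTIVE as soon as `heckeLocal N S 𝒪 θ` carries a
Galois representation with the Hecke characteristic polynomials at the Frobenius elements
(`resLocal_surjective`, `resLocal_surjective_of_datum`): the image is a closed subalgebra
containing the traces of almost all Frobenius elements, hence (Chebotarev) all traces, hence
`T_ℓ` for ALL `ℓ ∉ S`.
-/

set_option autoImplicit false
set_option synthInstance.maxHeartbeats 400000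
set_option maxHeartbeats 1000000
set_option linter.unusedSectionVars false

noncomputable section

namespace Fermat.Agent.S59.H765

open CuspForm IsLocalRing
open scoped TensorProduct
open Fermat.Agent.S59.H7

variable {N N' : ℕ} [NeZero N] [NeZero N'] {S S' : Set ℕ}
variable (hp : LevelPair N N' S S')
variable (𝒪 : Type) [CommRing 𝒪] [IsDomain 𝒪] [IsDiscreteValuationRing 𝒪]
  [IsAdicComplete (IsLocalRing.maximalIdeal 𝒪) 𝒪]
variable (θ : heckeAlgebra N 2 S →+* IsLocalRing.ResidueField 𝒪)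
variable [Fact (HasIntegralStructure N 2)] [Fact (HasIntegralStructure N' 2)]

/-- `id ⊗ oldRestrict`. -/
def tensorRestrict :
    (𝒪 ⊗[ℤ] ↥(heckeAlgebra N' 2 S')) →ₐ[𝒪] (𝒪 ⊗[ℤ] ↥(heckeAlgebra N 2 S)) :=
  Algebra.TensorProduct.map (AlgHom.id 𝒪 𝒪) (oldRestrict hp).toIntAlgHom

theorem tensorRestrict_tmul (a : 𝒪) (t : ↥(heckeAlgebra N' 2 S')) :
    tensorRestrict hp 𝒪 (a ⊗ₜ[ℤ] t) = a ⊗ₜ[ℤ] oldRestrict hp t := rfl

theorem residualCharacter_tensorRestrict (x : 𝒪 ⊗[ℤ] ↥(heckeAlgebra N' 2 S')) :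
    residualCharacter N S 𝒪 θ (tensorRestrict hp 𝒪 x) =
      residualCharacter N' S' 𝒪 (θ.comp (oldRestrict hp)) x := by
  induction x using TensorProduct.induction_on with
  | zero => rw [map_zero, map_zero, map_zero]
  | tmul a t => rw [tensorRestrict_tmul, residualCharacter_tmul, residualCharacter_tmul]; rfl
  | add x y hx hy => rw [map_add, map_add, map_add, hx, hy]

/-- The restriction on the base algebras `𝒪 ⊗ heckeLatticeAlgebra`. -/
def baseRestrict : heckeBaseAlgebra N' S' 𝒪 →+* heckeBaseAlgebra N S 𝒪 :=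
  (latticeBaseChange N S 𝒪).comp
    ((tensorRestrict hp 𝒪).toRingHom.comp (latticeBaseChangeEquiv N' S' 𝒪).symm.toRingHom)

theorem baseRestrict_latticeBaseChange (x : 𝒪 ⊗[ℤ] ↥(heckeAlgebra N' 2 S')) :
    baseRestrict hp 𝒪 (latticeBaseChange N' S' 𝒪 x) =
      latticeBaseChange N S 𝒪 (tensorRestrict hp 𝒪 x) := by
  change latticeBaseChange N S 𝒪 (tensorRestrict hp 𝒪
    ((latticeBaseChangeEquiv N' S' 𝒪).symm (latticeBaseChange N' S' 𝒪 x))) = _
  rw [latticeBaseChangeEquiv_symm_apply]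

theorem isUnit_baseRestrict (y : heckeLocalSubmonoid N' S' 𝒪 (θ.comp (oldRestrict hp))) :
    IsUnit ((algebraMap (heckeBaseAlgebra N S 𝒪) (heckeLocal N S 𝒪 θ)).comp
      (baseRestrict hp 𝒪) y) := by
  obtain ⟨y, a, ha, rfl⟩ := y
  change IsUnit (algebraMap (heckeBaseAlgebra N S 𝒪) (heckeLocal N S 𝒪 θ)
    (baseRestrict hp 𝒪 (latticeBaseChange N' S' 𝒪 a)))
  rw [baseRestrict_latticeBaseChange]
  have hmem : latticeBaseChange N S 𝒪 (tensorRestrict hp 𝒪 a) ∈ heckeLocalSubmonoid N S 𝒪 θ := by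
    refine ⟨tensorRestrict hp 𝒪 a, ?_, rfl⟩
    refine Ideal.mem_primeCompl_iff.mpr fun hmem => Ideal.mem_primeCompl_iff.mp ha ?_
    rw [mem_heckeCharKernel_iff] at hmem ⊢
    rw [← residualCharacter_tensorRestrict]
    exact hmem
  exact IsLocalization.map_units (heckeLocal N S 𝒪 θ)
    (⟨_, hmem⟩ : heckeLocalSubmonoid N S 𝒪 θ)

/-- The restriction `T_{Σ'} → T_Σ` as a ring homomorphism. -/
def resLocalRing : heckeLocal N' S' 𝒪 (θ.comp (oldRestrict hp)) →+* heckeLocal N S 𝒪 θ :=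
  IsLocalization.lift (M := heckeLocalSubmonoid N' S' 𝒪 (θ.comp (oldRestrict hp)))
    (S := heckeLocal N' S' 𝒪 (θ.comp (oldRestrict hp)))
    (g := (algebraMap (heckeBaseAlgebra N S 𝒪) (heckeLocal N S 𝒪 θ)).comp (baseRestrict hp 𝒪))
    (isUnit_baseRestrict hp 𝒪 θ)

theorem resLocalRing_algebraMap (b : heckeBaseAlgebra N' S' 𝒪) :
    resLocalRing hp 𝒪 θ (algebraMap (heckeBaseAlgebra N' S' 𝒪)
      (heckeLocal N' S' 𝒪 (θ.comp (oldRestrict hp))) b) =
      algebraMap (heckeBaseAlgebra N S 𝒪) (heckeLocal N S 𝒪 θ) (baseRestrict hp 𝒪 b) :=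
  IsLocalization.lift_eq _ b

/-- **The restriction `T_{Σ'} → T_Σ`** (`𝒪`-algebra homomorphism). -/
def resLocal : heckeLocal N' S' 𝒪 (θ.comp (oldRestrict hp)) →ₐ[𝒪] heckeLocal N S 𝒪 θ :=
  { resLocalRing hp 𝒪 θ with
    commutes' := fun a => by
      change resLocalRing hp 𝒪 θ (algebraMap 𝒪 (heckeLocal N' S' 𝒪 (θ.comp (oldRestrict hp))) a) =
        algebraMap 𝒪 (heckeLocal N S 𝒪 θ) a
      rw [algebraMap_eq, resLocalRing_algebraMap, baseRestrict_latticeBaseChange,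
        AlgHom.commutes, algebraMap_eq] }

/-- `resLocal (π' t) = π (oldRestrict t)`. -/
theorem resLocal_π (t : ↥(heckeAlgebra N' 2 S')) :
    resLocal hp 𝒪 θ (heckeLocal.π N' S' 𝒪 (θ.comp (oldRestrict hp)) t) =
      heckeLocal.π N S 𝒪 θ (oldRestrict hp t) := by
  change resLocalRing hp 𝒪 θ (heckeLocal.π N' S' 𝒪 (θ.comp (oldRestrict hp)) t) = _
  rw [π_eq, resLocalRing_algebraMap, baseRestrict_latticeBaseChange, tensorRestrict_tmul, π_eq]

/-- `resLocal (π' T_ℓ) = π T_ℓ`. -/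
theorem resLocal_T {ℓ : ℕ} (hℓ : ℓ.Prime) (hℓN' : ¬ ℓ ∣ N') (hℓS' : ℓ ∉ S') (hℓN : ¬ ℓ ∣ N)
    (hℓS : ℓ ∉ S) :
    resLocal hp 𝒪 θ (heckeLocal.π N' S' 𝒪 (θ.comp (oldRestrict hp))
        (heckeAlgebra.T hℓ hℓN' hℓS')) =
      heckeLocal.π N S 𝒪 θ (heckeAlgebra.T hℓ hℓN hℓS) := by
  rw [resLocal_π, oldRestrict_T hp hℓ hℓN' hℓS' hℓN hℓS]

/-- The residual character of the big level on the generators. -/
theorem comp_oldRestrict_T {ℓ : ℕ} (hℓ : ℓ.Prime) (hℓN' : ¬ ℓ ∣ N') (hℓS' : ℓ ∉ S')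
    (hℓN : ¬ ℓ ∣ N) (hℓS : ℓ ∉ S) :
    (θ.comp (oldRestrict hp)) (heckeAlgebra.T hℓ hℓN' hℓS') = θ (heckeAlgebra.T hℓ hℓN hℓS) := by
  rw [RingHom.comp_apply, oldRestrict_T hp hℓ hℓN' hℓS' hℓN hℓS]

end Fermat.Agent.S59.H765

namespace Fermat.Agent.S59.H765

open CuspForm IsLocalRing Polynomial
open scoped TensorProduct
open Fermat.Agent.S59.H7

section Surj

variable {N N' : ℕ} [NeZero N] [NeZero N'] {S S' : Finset ℕ}
variable (hp : LevelPair N N' (↑S : Set ℕ) (↑S' : Set ℕ))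
variable (𝒪 : Type) [CommRing 𝒪] [IsDomain 𝒪] [IsDiscreteValuationRing 𝒪]
  [IsAdicComplete (IsLocalRing.maximalIdeal 𝒪) 𝒪]
variable (θ : heckeAlgebra N 2 (↑S : Set ℕ) →+* IsLocalRing.ResidueField 𝒪)
variable [Fact (HasIntegralStructure N 2)] [Fact (HasIntegralStructure N' 2)]

/-- **NM-RES, surjectivity.**  If all primes of `N` are in `S` and `T_Σ = heckeLocal N S 𝒪 θ`
carries a Galois representation with the Hecke characteristic polynomials at Frobenius, then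
`resLocal : T_{Σ'} → T_Σ` is surjective (`S'` finite). -/
theorem resLocal_surjective (hNS : ∀ q : ℕ, q.Prime → q ∣ N → q ∈ S)
    (ρ : GaloisRepAdic (heckeLocal N (↑S : Set ℕ) 𝒪 θ))
    (hfrob : ∀ (ℓ : ℕ) (hℓ : ℓ.Prime) (hℓN : ¬ ℓ ∣ N) (hℓS : ℓ ∉ (↑S : Set ℕ)),
      ∀ A : ValuationSubring (AlgebraicClosure ℚ), A.LiesOverPrime ℓ →
        ∀ σ : AlgebraicClosure ℚ ≃ₐ[ℚ] AlgebraicClosure ℚ, A.IsFrobeniusAt σ ℓ →
          LinearMap.charpoly (ρ.ρ σ) =
            X ^ 2 - C (heckeLocal.π N (↑S : Set ℕ) 𝒪 θ (heckeAlgebra.T hℓ hℓN hℓS)) * X +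
              C ((ℓ : heckeLocal N (↑S : Set ℕ) 𝒪 θ))) :
    Function.Surjective (resLocal hp 𝒪 θ) := by
  classical
  set A : Subalgebra 𝒪 (heckeLocal N (↑S : Set ℕ) 𝒪 θ) := (resLocal hp 𝒪 θ).range with hA
  have htrace : ∀ (ℓ : ℕ) (hℓ : ℓ.Prime) (hℓN : ¬ ℓ ∣ N) (hℓS : ℓ ∉ (↑S : Set ℕ)),
      ∀ B : ValuationSubring (AlgebraicClosure ℚ), B.LiesOverPrime ℓ →
        ∀ σ : AlgebraicClosure ℚ ≃ₐ[ℚ] AlgebraicClosure ℚ, B.IsFrobeniusAt σ ℓ →
          ρ.trace σ = heckeLocal.π N (↑S : Set ℕ) 𝒪 θ (heckeAlgebra.T hℓ hℓN hℓS) :=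
    fun ℓ hℓ hℓN hℓS B hB σ hσ =>
      trace_eq_of_charpoly ρ.finrank_eq _ _ _ (hfrob ℓ hℓ hℓN hℓS B hB σ hσ)
  have hF : ∀ ℓ : ℕ, ℓ.Prime → ℓ ∉ S' ∪ N'.primeFactors →
      ∀ B : ValuationSubring (AlgebraicClosure ℚ), B.LiesOverPrime ℓ →
        ∀ σ : AlgebraicClosure ℚ ≃ₐ[ℚ] AlgebraicClosure ℚ, B.IsFrobeniusAt σ ℓ →
          ρ.trace σ ∈ Subalgebra.toSubmodule A := by
    intro ℓ hℓ hℓF B hB σ hσ
    have hℓS' : ℓ ∉ (↑S' : Set ℕ) := fun h => hℓF (Finset.mem_union_left _ h)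
    have hℓN' : ¬ ℓ ∣ N' := fun h =>
      hℓF (Finset.mem_union_right _ (Nat.mem_primeFactors.mpr ⟨hℓ, h, NeZero.ne N'⟩))
    have hℓN : ¬ ℓ ∣ N := fun h => hℓN' (h.trans hp.dvd)
    have hℓS : ℓ ∉ (↑S : Set ℕ) := fun h => hℓS' (hp.sub h)
    rw [htrace ℓ hℓ hℓN hℓS B hB σ hσ, ← resLocal_T hp 𝒪 θ hℓ hℓN' hℓS' hℓN hℓS]
    exact ⟨_, rfl⟩
  have hall := trace_mem_of_frob ρ (Subalgebra.toSubmodule A) (S' ∪ N'.primeFactors) hF
  have hπ : ∀ (x : Module.End ℂ (CuspForm (CongruenceSubgroup.Gamma0 N) 2))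
      (hx : x ∈ Algebra.adjoin ℤ (heckeGenerators N 2 (↑S : Set ℕ))),
      heckeLocal.π N (↑S : Set ℕ) 𝒪 θ ⟨x, hx⟩ ∈ A := by
    intro x hx
    refine Algebra.adjoin_induction
      (p := fun x hx => heckeLocal.π N (↑S : Set ℕ) 𝒪 θ ⟨x, hx⟩ ∈ A) ?_ ?_ ?_ ?_ hx
    · rintro x (⟨ℓ, hℓ, hℓN, hℓS, rfl⟩ | ⟨q, hqN, hq, hqS, rfl⟩)
      · obtain ⟨B, σ, hB, hσ⟩ := Fermat.Agent.S54.exists_frobenius ℓ hℓ
        have h1 := hall σ
        rw [htrace ℓ hℓ hℓN hℓS B hB σ hσ] at h1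
        exact h1
      · exact absurd (hNS q hq hqN) hqS
    · intro r
      have h1 : (⟨algebraMap ℤ _ r, Subalgebra.algebraMap_mem _ r⟩ :
          ↥(heckeAlgebra N 2 (↑S : Set ℕ))) = ((r : ℤ) : ↥(heckeAlgebra N 2 (↑S : Set ℕ))) :=
        Subtype.ext (by simp)
      change heckeLocal.π N (↑S : Set ℕ) 𝒪 θ (⟨algebraMap ℤ _ r, Subalgebra.algebraMap_mem _ r⟩ :
          ↥(heckeAlgebra N 2 (↑S : Set ℕ))) ∈ A
      rw [h1, map_intCast]
      exact intCast_mem A r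
    · intro x y hx hy hpx hpy
      have h1 : (⟨x + y, Subalgebra.add_mem _ hx hy⟩ : ↥(heckeAlgebra N 2 (↑S : Set ℕ))) =
          (⟨x, hx⟩ : ↥(heckeAlgebra N 2 (↑S : Set ℕ))) + ⟨y, hy⟩ := rfl
      change heckeLocal.π N (↑S : Set ℕ) 𝒪 θ (⟨x + y, Subalgebra.add_mem _ hx hy⟩ :
          ↥(heckeAlgebra N 2 (↑S : Set ℕ))) ∈ A
      rw [h1, map_add]
      exact A.add_mem hpx hpy
    · intro x y hx hy hpx hpy
      have h1 : (⟨x * y, Subalgebra.mul_mem _ hx hy⟩ : ↥(heckeAlgebra N 2 (↑S : Set ℕ))) =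
          (⟨x, hx⟩ : ↥(heckeAlgebra N 2 (↑S : Set ℕ))) * ⟨y, hy⟩ := rfl
      change heckeLocal.π N (↑S : Set ℕ) 𝒪 θ (⟨x * y, Subalgebra.mul_mem _ hx hy⟩ :
          ↥(heckeAlgebra N 2 (↑S : Set ℕ))) ∈ A
      rw [h1, map_mul]
      exact A.mul_mem hpx hpy
  have htop : A = ⊤ := by
    rw [eq_top_iff, ← adjoin_range_π N (↑S : Set ℕ) 𝒪 θ]
    refine Algebra.adjoin_le ?_
    rintro _ ⟨⟨t, ht⟩, rfl⟩
    exact hπ t ht
  intro z
  have hz : z ∈ A := by rw [htop]; exact Algebra.mem_top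
  exact hz

/-- **NM-RES** in the form used by the cell: from a Hecke–Galois datum on `T_Σ` with the
Prelude `π`. -/
theorem resLocal_surjective_of_datum (hNS : ∀ q : ℕ, q.Prime → q ∣ N → q ∈ S)
    (H : HeckeGaloisRepDatum N (↑S : Set ℕ) 𝒪 θ (heckeLocal N (↑S : Set ℕ) 𝒪 θ))
    (hH : H.π = heckeLocal.π N (↑S : Set ℕ) 𝒪 θ) :
    Function.Surjective (resLocal hp 𝒪 θ) := by
  refine resLocal_surjective hp 𝒪 θ hNS H.ρ ?_
  intro ℓ hℓ hℓN hℓS B hB σ hσ
  rw [← hH]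
  exact H.charpoly_frob ℓ hℓ hℓN hℓS B hB σ hσ

end Surj

end Fermat.Agent.S59.H765

end
end
-- ===== PACK-END S59/H765/ResLocal.lean

-- ===== PACK-BEGIN S59/H765/NMResWiles.lean
section



/-!
# S59, cell NM, leaf NM-RES (helper765): instantiation at Wiles's levels

`N_Σ = wilesLevel p t Smin Σ` (board `coord/S59.md`).

* `wilesLevel_insert`      : `N_{Σ ∪ q} = N_Σ · q²` for `q ∉ Σ ⊇ Smin`;
* `prime_dvd_wilesLevel`   : the primes dividing `N_Σ` are in `Σ`;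
* `levelPair_insert`       : `LevelPair N_Σ N_{Σ ∪ q} Σ (Σ ∪ q)`  (cell NM);
* `levelPair_flat_ord`     : `LevelPair N_Σ^{flat} N_Σ^{ord} Σ Σ`  (cell NMP);
* `resFrobCond_comp`, `nonEisenstein_comp` : the residual character `θ' = θ ∘ oldRestrict` of the big
  level is again the Frobenius character of `ρ̄`;
* `nmRes_insert`, `nmRes_flat_ord` : **NM-RES**, `resLocal : T_{Σ'} ↠ T_Σ` is surjective.
-/

set_option autoImplicit false
set_option linter.unusedSectionVars false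

noncomputable section

namespace Fermat.Agent.S59.H765

open CuspForm IsLocalRing Polynomial
open Fermat.Agent.S59.Arch Fermat.Agent.S59

theorem wilesLevel_insert (p : ℕ) (t : PType) {Smin Sig : Finset ℕ} (hS : Smin ⊆ Sig)
    {q : ℕ} (hq : q ∉ Sig) :
    wilesLevel p t Smin (insert q Sig) = wilesLevel p t Smin Sig * q ^ 2 := by
  have hqm : q ∉ Smin := fun h => hq (hS h)
  have hq' : q ∉ Sig \ Smin := fun h => hq (Finset.mem_sdiff.mp h).1
  unfold wilesLevel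
  rw [Finset.insert_sdiff_of_notMem _ hqm, Finset.prod_insert hq']
  ring

theorem prime_dvd_wilesLevel (p : ℕ) (t : PType) {Smin Sig : Finset ℕ} (hS : Smin ⊆ Sig)
    (hSigP : ∀ q ∈ Sig, q.Prime) (hp : p ∈ Sig) {ℓ : ℕ} (hℓ : ℓ.Prime)
    (hd : ℓ ∣ wilesLevel p t Smin Sig) : ℓ ∈ Sig := by
  unfold wilesLevel at hd
  rcases (Nat.Prime.dvd_mul hℓ).mp hd with h12 | h3
  · rcases (Nat.Prime.dvd_mul hℓ).mp h12 with h1 | h2
    · obtain ⟨q, hq, hℓq⟩ := (Prime.dvd_finsetProd_iff hℓ.prime _).mp h1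
      have hqS : q ∈ Sig := hS (Finset.mem_of_mem_erase hq)
      rw [(Nat.prime_dvd_prime_iff_eq hℓ (hSigP q hqS)).mp hℓq]
      exact hqS
    · obtain ⟨q, hq, hℓq⟩ := (Prime.dvd_finsetProd_iff hℓ.prime _).mp h2
      have hqS : q ∈ Sig := (Finset.mem_sdiff.mp hq).1
      rw [(Nat.prime_dvd_prime_iff_eq hℓ (hSigP q hqS)).mp (hℓ.dvd_of_dvd_pow hℓq)]
      exact hqS
  · have hℓp : ℓ ∣ p := by
      cases t
      · exact absurd (Nat.dvd_one.mp h3) hℓ.ne_one
      · exact h3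
      · exact h3
    rw [(Nat.prime_dvd_prime_iff_eq hℓ (hSigP p hp)).mp hℓp]
    exact hp

/-- The pair of levels of the cell NM. -/
theorem levelPair_insert (p : ℕ) (t : PType) {Smin Sig : Finset ℕ} (hS : Smin ⊆ Sig)
    (hSigP : ∀ q ∈ Sig, q.Prime) (hp : p ∈ Sig) {q : ℕ} (hq : q.Prime) (hqS : q ∉ Sig) :
    LevelPair (wilesLevel p t Smin Sig) (wilesLevel p t Smin (insert q Sig))
      (↑Sig : Set ℕ) (↑(insert q Sig) : Set ℕ) where
  dvd := ⟨q ^ 2, wilesLevel_insert p t hS hqS⟩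
  sub := by
    intro x hx
    exact Finset.mem_coe.mpr (Finset.mem_insert_of_mem (Finset.mem_coe.mp hx))
  hU := by
    intro ℓ hℓ hd hℓS
    refine absurd (Finset.mem_coe.mpr ?_) hℓS
    refine prime_dvd_wilesLevel p t (hS.trans (Finset.subset_insert q Sig)) ?_
      (Finset.mem_insert_of_mem hp) hℓ hd
    intro x hx
    rcases Finset.mem_insert.mp hx with rfl | hx
    · exact hq
    · exact hSigP x hx

/-- The pair of levels of the cell NMP. -/
theorem levelPair_flat_ord (p : ℕ) {Smin Sig : Finset ℕ} (hS : Smin ⊆ Sig)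
    (hSigP : ∀ q ∈ Sig, q.Prime) (hp : p ∈ Sig) :
    LevelPair (wilesLevel p .flat Smin Sig) (wilesLevel p .ord Smin Sig)
      (↑Sig : Set ℕ) (↑Sig : Set ℕ) where
  dvd := ⟨p, by unfold wilesLevel; rw [mul_one]⟩
  sub := subset_rfl
  hU := by
    intro ℓ hℓ hd hℓS
    exact absurd (Finset.mem_coe.mpr (prime_dvd_wilesLevel p .ord hS hSigP hp hℓ hd)) hℓS

section Residual

variable {N N' : ℕ} [NeZero N] [NeZero N'] {S S' : Set ℕ} (hp : LevelPair N N' S S')

theorem resFrobCond_comp {k : Type} [Field k] {ρbar : ResidualGaloisRep k}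
    {θ : heckeAlgebra N 2 S →+* k} (h : G4.ResFrobCond ρbar θ) :
    G4.ResFrobCond ρbar (θ.comp (oldRestrict hp)) := by
  intro ℓ hℓ hℓN' hℓS' B hB σ hσ
  have hℓN : ¬ ℓ ∣ N := fun hd => hℓN' (hd.trans hp.dvd)
  have hℓS : ℓ ∉ S := fun hs => hℓS' (hp.sub hs)
  rw [RingHom.comp_apply, oldRestrict_T hp hℓ hℓN' hℓS' hℓN hℓS]
  exact h ℓ hℓ hℓN hℓS B hB σ hσ

theorem nonEisenstein_comp {k : Type} [Field k] {θ : heckeAlgebra N 2 S →+* k}
    (h : G4.NonEisenstein θ) : G4.NonEisenstein (θ.comp (oldRestrict hp)) := by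
  obtain ⟨ρbar, habs, hfrob⟩ := h
  exact ⟨ρbar, habs, resFrobCond_comp hp hfrob⟩

end Residual

section Main

variable (p : ℕ) (𝒪 : Type) [CommRing 𝒪] [IsDomain 𝒪] [IsDiscreteValuationRing 𝒪]
  [IsAdicComplete (maximalIdeal 𝒪) 𝒪]

/-- **NM-RES** (cell NM): `T_{Σ ∪ q} ↠ T_Σ`. -/
theorem nmRes_insert (t : PType) {Smin Sig : Finset ℕ} (hS : Smin ⊆ Sig)
    (hSigP : ∀ q ∈ Sig, q.Prime) (hpS : p ∈ Sig) {q : ℕ} (hq : q.Prime) (hqS : q ∉ Sig)
    [NeZero (wilesLevel p t Smin Sig)] [NeZero (wilesLevel p t Smin (insert q Sig))]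
    [Fact (HasIntegralStructure (wilesLevel p t Smin Sig) 2)]
    [Fact (HasIntegralStructure (wilesLevel p t Smin (insert q Sig)) 2)]
    (θ : heckeAlgebra (wilesLevel p t Smin Sig) 2 (↑Sig : Set ℕ) →+* ResidueField 𝒪)
    (H : HeckeGaloisRepDatum (wilesLevel p t Smin Sig) (↑Sig : Set ℕ) 𝒪 θ
      (heckeLocal (wilesLevel p t Smin Sig) (↑Sig : Set ℕ) 𝒪 θ))
    (hH : H.π = heckeLocal.π (wilesLevel p t Smin Sig) (↑Sig : Set ℕ) 𝒪 θ) :
    Function.Surjective (resLocal (levelPair_insert p t hS hSigP hpS hq hqS) 𝒪 θ) :=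
  resLocal_surjective_of_datum _ 𝒪 θ
    (fun _ hℓ hd => prime_dvd_wilesLevel p t hS hSigP hpS hℓ hd) H hH

/-- **NM-RES** (cell NMP): `T_Σ^{ord} ↠ T_Σ^{flat}`. -/
theorem nmRes_flat_ord {Smin Sig : Finset ℕ} (hS : Smin ⊆ Sig)
    (hSigP : ∀ q ∈ Sig, q.Prime) (hpS : p ∈ Sig)
    [NeZero (wilesLevel p .flat Smin Sig)] [NeZero (wilesLevel p .ord Smin Sig)]
    [Fact (HasIntegralStructure (wilesLevel p .flat Smin Sig) 2)]
    [Fact (HasIntegralStructure (wilesLevel p .ord Smin Sig) 2)]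
    (θ : heckeAlgebra (wilesLevel p .flat Smin Sig) 2 (↑Sig : Set ℕ) →+* ResidueField 𝒪)
    (H : HeckeGaloisRepDatum (wilesLevel p .flat Smin Sig) (↑Sig : Set ℕ) 𝒪 θ
      (heckeLocal (wilesLevel p .flat Smin Sig) (↑Sig : Set ℕ) 𝒪 θ))
    (hH : H.π = heckeLocal.π (wilesLevel p .flat Smin Sig) (↑Sig : Set ℕ) 𝒪 θ) :
    Function.Surjective (resLocal (levelPair_flat_ord p hS hSigP hpS) 𝒪 θ) :=
  resLocal_surjective_of_datum _ 𝒪 θ
    (fun _ hℓ hd => prime_dvd_wilesLevel p .flat hS hSigP hpS hℓ hd) H hH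

end Main

end Fermat.Agent.S59.H765

end
end
-- ===== PACK-END S59/H765/NMResWiles.lean

-- ===== PACK-BEGIN S59/TW/AsmLemmas.lean
section




/-!
# Row S59, cell TW, layer 2: lemmas for the assembly `heckeSide_of_leaves` (helper24)

* `levelPairTW`       : `H765.LevelPair N_min N_Q Smin (Smin ∪ Q)`;
* `exists_restriction` : the restriction map `res : T_Q → T_min` of a package whose residual
  character is `θ₀ ∘ oldRestrict`;
* `charpoly_residual_pkg` : the characteristic polynomials of the residual representation of a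
  package are those of `ρ̄`;
* `exists_primitive_root_units` : a primitive root modulo a prime;
* `ker_eq_of_range_eq` : the augmentation submodule of the diamond action in terms of the
  inertia values.
-/

set_option autoImplicit false

open Polynomial IsLocalRing

namespace Fermat.Agent.S59.TW

open Fermat.Agent.S59.Arch Fermat.Agent.S59.TW.H959 Fermat.Agent.S59.H765 CuspForm

/-! ## Levels -/

theorem wilesLevel_dvd_union (p : ℕ) (t : PType) (Smin Q : Finset ℕ) :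
    wilesLevel p t Smin Smin ∣ wilesLevel p t Smin (Smin ∪ Q) := by
  rw [wilesLevel_eq, wilesLevel_eq, Finset.sdiff_self, Finset.prod_empty, mul_one]
  exact Nat.mul_dvd_mul (Dvd.intro _ rfl) dvd_rfl

theorem levelPairTW (p : ℕ) (t : PType) {Smin Q : Finset ℕ}
    (hSminP : ∀ q ∈ Smin, q.Prime) (hQP : ∀ q ∈ Q, q.Prime) (hpS : p ∈ Smin) :
    LevelPair (wilesLevel p t Smin Smin) (wilesLevel p t Smin (Smin ∪ Q))
      (↑Smin : Set ℕ) (↑(Smin ∪ Q) : Set ℕ) where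
  dvd := wilesLevel_dvd_union p t Smin Q
  sub := by
    intro x hx
    exact Finset.mem_coe.mpr (Finset.mem_union_left _ (Finset.mem_coe.mp hx))
  hU := by
    intro ℓ hℓ hd hℓS
    refine absurd (Finset.mem_coe.mpr
      (prime_dvd_wilesLevel p t Finset.subset_union_left ?_ (Finset.mem_union_left _ hpS) hℓ hd))
      hℓS
    intro q hq
    rcases Finset.mem_union.mp hq with h | h
    · exact hSminP q h
    · exact hQP q h

/-! ## The restriction map -/

section Res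

variable {p : ℕ}
  {𝒪 : Type} [CommRing 𝒪] [IsDomain 𝒪] [IsDiscreteValuationRing 𝒪]
  [IsAdicComplete (maximalIdeal 𝒪) 𝒪]
  {ρbar : ResidualGaloisRep (ResidueField 𝒪)} {t : PType} {Smin Q : Finset ℕ}

/-- The restriction map `T_Q → T_min` of a package whose residual character is
`θ₀ ∘ oldRestrict`. -/
theorem exists_restriction
    [NeZero (wilesLevel p t Smin Smin)] [NeZero (wilesLevel p t Smin (Smin ∪ Q))]
    (hp : LevelPair (wilesLevel p t Smin Smin) (wilesLevel p t Smin (Smin ∪ Q))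
      (↑Smin : Set ℕ) (↑(Smin ∪ Q) : Set ℕ))
    (P₀ : HeckePkg p 𝒪 ρbar t Smin Smin) (PQ : HeckePkg p 𝒪 ρbar t Smin (Smin ∪ Q))
    (hθ : PQ.θ = P₀.θ.comp (oldRestrict hp)) :
    ∃ res : PQ.T →ₐ[𝒪] P₀.T, IsRestriction P₀ PQ res := by
  haveI := P₀.integral
  obtain ⟨int, θ, i1, i2, i3, i4, i5, i6, H, hπ, hres, hcond⟩ := PQ
  dsimp only at hθ
  subst hθ
  haveI := int
  refine ⟨resLocal hp 𝒪 P₀.θ, ?_⟩
  intro ℓ hℓ hℓN' hℓS' hℓN hℓS
  show resLocal hp 𝒪 P₀.θ (H.π _) = P₀.H.π _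
  rw [hπ, P₀.hπ]
  exact resLocal_T hp 𝒪 P₀.θ hℓ hℓN' hℓS' hℓN hℓS

end Res

/-! ## Residual representations -/

section Residual

variable {k : Type} [Field k]

theorem charpoly_eq_of_residual_isEquiv {ρ₁ ρ₂ : ResidualGaloisRep k} (h : ρ₁.IsEquiv ρ₂)
    (σ : GQ) : LinearMap.charpoly (ρ₁.ρ σ) = LinearMap.charpoly (ρ₂.ρ σ) := by
  obtain ⟨e⟩ := h
  have h1 : ρ₂.ρ σ = e.toLinearEquiv.conj (ρ₁.ρ σ) := by
    apply LinearMap.ext
    intro y
    rw [LinearEquiv.conj_apply_apply, e.map_apply, LinearEquiv.apply_symm_apply]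
  rw [h1, LinearEquiv.charpoly_conj]

theorem charpoly_residual_baseChangeAlong {k' : Type} [Field k'] (ι : k →+* k')
    (ρbar : ResidualGaloisRep k) (σ : GQ) :
    LinearMap.charpoly ((ρbar.baseChangeAlong ι).ρ σ) = (LinearMap.charpoly (ρbar.ρ σ)).map ι := by
  letI : Algebra k k' := ι.toAlgebra
  show LinearMap.charpoly ((ρbar.ρ σ).baseChange k') = _
  rw [LinearMap.charpoly_baseChange, RingHom.algebraMap_toAlgebra]

theorem isUnramifiedAt_residual_baseChangeAlong {k' : Type} [Field k'] (ι : k →+* k')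
    {ρbar : ResidualGaloisRep k} {q : ℕ} (h : ρbar.IsUnramifiedAt q) :
    (ρbar.baseChangeAlong ι).IsUnramifiedAt q := by
  letI : Algebra k k' := ι.toAlgebra
  intro P hP σ hσ
  show (ρbar.ρ σ).baseChange k' = 1
  rw [h P hP σ hσ, LinearMap.baseChange_one]

theorem isUnramifiedAt_of_residual_isEquiv' {ρ₁ ρ₂ : ResidualGaloisRep k}
    (h : ρ₁.IsEquiv ρ₂) {q : ℕ} (h2 : ρ₂.IsUnramifiedAt q) : ρ₁.IsUnramifiedAt q := by
  obtain ⟨e⟩ := h
  intro P hP σ hσ
  apply LinearMap.ext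
  intro y
  have h3 := e.map_apply σ y
  rw [h2 P hP σ hσ, Module.End.one_apply] at h3
  rw [Module.End.one_apply]
  exact e.toLinearEquiv.injective h3

end Residual

/-! ## Primitive roots -/

theorem exists_primitive_root_units {q : ℕ} (hq : q.Prime) :
    ∃ g : (ZMod q)ˣ, orderOf g = q - 1 ∧ ∀ x : (ZMod q)ˣ, x ∈ Subgroup.zpowers g := by
  haveI : Fact q.Prime := ⟨hq⟩
  obtain ⟨g, hg⟩ := IsCyclic.exists_generator (α := (ZMod q)ˣ)
  refine ⟨g, ?_, hg⟩
  rw [orderOf_eq_card_of_forall_mem_zpowers hg, Nat.card_eq_fintype_card, ZMod.card_units]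

/-! ## The augmentation submodule -/

section Ker

variable {T V : Type} [CommRing T] [AddCommGroup V] [Module T V]
  {r : ℕ} {G : Fin r → Type} [∀ j, CommGroup (G j)]

theorem dia_sub_mem_of_gen (dia : (∀ j : Fin r, G j) →* Module.End T V) (g : ∀ j : Fin r, G j)
    (hg : ∀ j, ∀ x : G j, x ∈ Subgroup.zpowers (g j)) (S : Submodule T V)
    (hS : ∀ (j : Fin r) (y : V), dia (Pi.mulSingle j (g j)) y - y ∈ S)
    (a : ∀ j : Fin r, G j) (y : V) : dia a y - y ∈ S := by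
  classical
  -- the subgroup of elements acting trivially modulo `S`
  let K : Subgroup (∀ j : Fin r, G j) :=
    { carrier := {a | ∀ y : V, dia a y - y ∈ S ∧ dia a⁻¹ y - y ∈ S}
      one_mem' := fun y => by
        simp only [inv_one, map_one, Module.End.one_apply, sub_self, S.zero_mem, and_self]
      mul_mem' := fun {a b} ha hb y => by
        constructor
        · have h1 : dia (a * b) y - y = (dia a (dia b y) - dia b y) + (dia b y - y) := by
            rw [map_mul, Module.End.mul_apply]; abel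
          rw [h1]
          exact S.add_mem (ha _).1 (hb _).1
        · have h1 : dia (a * b)⁻¹ y - y =
              (dia a⁻¹ (dia b⁻¹ y) - dia b⁻¹ y) + (dia b⁻¹ y - y) := by
            rw [mul_inv, map_mul, Module.End.mul_apply]; abel
          rw [h1]
          exact S.add_mem (ha _).2 (hb _).2
      inv_mem' := fun {a} ha y => by
        rw [inv_inv]
        exact ⟨(ha y).2, (ha y).1⟩ }
  have hgen : ∀ j, Pi.mulSingle j (g j) ∈ K := by
    intro j y
    refine ⟨hS j y, ?_⟩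
    have h1 : dia (Pi.mulSingle j (g j))⁻¹ y - y =
        - (dia (Pi.mulSingle j (g j)) (dia (Pi.mulSingle j (g j))⁻¹ y) -
          dia (Pi.mulSingle j (g j))⁻¹ y) := by
      rw [← Module.End.mul_apply, ← map_mul, mul_inv_cancel, map_one, Module.End.one_apply]
      abel
    rw [h1]
    exact S.neg_mem (hS j _)
  have hsingle : ∀ j (x : G j), Pi.mulSingle j x ∈ K := by
    intro j x
    obtain ⟨n, rfl⟩ := Subgroup.mem_zpowers_iff.mp (hg j x)
    have h1 : (Pi.mulSingle j (g j ^ n) : ∀ j : Fin r, G j) = Pi.mulSingle j (g j) ^ n :=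
      map_zpow (MonoidHom.mulSingle G j) (g j) n
    rw [h1]
    exact K.zpow_mem (hgen j) n
  have ha : a ∈ K := by
    rw [← Finset.univ_prod_mulSingle a]
    exact K.prod_mem fun j _ => hsingle j (a j)
  exact (ha y).1

theorem ker_eq_of_range_eq (dia : (∀ j : Fin r, G j) →* Module.End T V) (g : ∀ j : Fin r, G j)
    (hg : ∀ j, ∀ x : G j, x ∈ Subgroup.zpowers (g j)) (w : Fin r → T)
    (hrange : ∀ (j : Fin r) (y : V),
      (∃ y' : V, y = w j • y' - y') ↔ ∃ y' : V, y = dia (Pi.mulSingle j (g j)) y' - y')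
    (y : V) :
    y ∈ AddSubgroup.closure {z : V | ∃ (a : ∀ j : Fin r, G j) (y' : V), z = dia a y' - y'} ↔
      y ∈ Ideal.span (Set.range fun i => w i - 1) • (⊤ : Submodule T V) := by
  constructor
  · intro hy
    induction hy using AddSubgroup.closure_induction with
    | mem z hz =>
      obtain ⟨a, y', rfl⟩ := hz
      refine dia_sub_mem_of_gen dia g hg _ ?_ a y'
      intro j y''
      obtain ⟨y₁, hy₁⟩ := (hrange j _).mpr ⟨y'', rfl⟩
      rw [hy₁]
      have h1 : w j • y₁ - y₁ = (w j - 1) • y₁ := by rw [sub_smul, one_smul]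
      rw [h1]
      exact Submodule.smul_mem_smul (Ideal.subset_span ⟨j, rfl⟩) Submodule.mem_top
    | zero => exact Submodule.zero_mem _
    | add a b _ _ ha hb => exact Submodule.add_mem _ ha hb
    | neg a _ ha => exact Submodule.neg_mem _ ha
  · intro hy
    have key : ∀ c ∈ Ideal.span (Set.range fun i => w i - 1), ∀ n : V, c • n ∈
        AddSubgroup.closure {z : V | ∃ (a : ∀ j : Fin r, G j) (y' : V), z = dia a y' - y'} := by
      intro c hc
      refine Submodule.span_induction (p := fun c _ => ∀ n : V, c • n ∈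
        AddSubgroup.closure {z : V | ∃ (a : ∀ j : Fin r, G j) (y' : V), z = dia a y' - y'})
        ?_ ?_ ?_ ?_ hc
      · rintro _ ⟨j, rfl⟩ n
        obtain ⟨y₁, hy₁⟩ := (hrange j _).mp ⟨n, rfl⟩
        have h1 : (w j - 1) • n = w j • n - n := by rw [sub_smul, one_smul]
        rw [h1, hy₁]
        exact AddSubgroup.subset_closure ⟨_, y₁, rfl⟩
      · intro n
        rw [zero_smul]
        exact AddSubgroup.zero_mem _
      · intro a b _ _ ha hb n
        rw [add_smul]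
        exact AddSubgroup.add_mem _ (ha n) (hb n)
      · intro a b _ hb n
        rw [smul_eq_mul, mul_comm, mul_smul]
        exact hb _
    refine Submodule.smul_induction_on hy (fun c hc n _ => key c hc n) ?_
    intro a b ha hb
    exact AddSubgroup.add_mem _ ha hb

end Ker

end Fermat.Agent.S59.TW

end
-- ===== PACK-END S59/TW/AsmLemmas.lean

-- ===== PACK-BEGIN S59/Arch/SpecNM.lean
section



/-!
# Row S59, cell NM (and the module part of cells TW, NMP): frozen leaves (architect helper239)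

Target of the cell: `Arch.NonMinStepMStatement` (`SpecRT2.lean`).  Board: `coord/S59.md` (v4, §NM).
Math: helper341's memo `coord/S59-NM-helper341.md`, helper427's `coord/S59-NM-invariant-helper427.md`.

## The step `Σ → Σ' = Σ ∪ {q}`,  `N' = N q²`,  `c_q = (q - 1)(a_q² - (q + 1)²)`

Given `RTIsoM Σ` (datum `H` on `T = heckeLocal N Σ`, `R_Σ ≅ T`, point `π`, `#Φ_R = #(𝒪/η)`,
`PairInv … η²`):

1. `θ' = θ ∘ oldRestrict`, `res : T' → T` (`H765.resLocal`, ON MAIN), `H'` on `T'` of type `Σ'`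
   (leaf `DatumStatement`), `res_* ρ_{T'} ≅ ρ_T` (leaf `LevelRigidStatement`), `π' = π ∘ res`.
2. every compatible `φ' : R' → T'` is onto (S54 + uniqueness in the universal property).
3. `ψ : R' ↠ R` (`TW.H959.DefRingResStatement`), `π' φ' = π φ ψ` (uniqueness), and
   `#Φ_{R'}(π'φ') ≤ #Φ_R(πφ) · #(𝒪/c_q)` (leaf NM-SEL, `H126.NMSelStatement`).
4. `PairInv N' Σ' … (c_q² η²)` (leaf `IharaStepStatement`) and `η'² ⊆ (Gram det) ⊆ c_q² η²`
   (leaf `OmegaBoundStatement` at `Σ'`), so `η' ⊆ c_q η`; `η' ≠ 0` (`T'` reduced,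
   `G4.H547.red` + `H427.congIdeal_ne_bot_of_isReduced`), so `c_q ≠ 0`.
5. `#Φ_{R'} ≤ #Φ_R #(𝒪/c_q) = #(𝒪/c_q η) ≤ #(𝒪/η')`: numerical criterion
   (`H427.numerical_criterion_full_NC`) gives `R' ≅ T'`, `#Φ_{R'} = #(𝒪/η')`; hence `η' = c_q η`
   and `PairInv N' Σ' … η'²`.
-/

set_option autoImplicit false

open Polynomial IsLocalRing CongruenceSubgroup
open scoped WeierstrassCurve.Affine MatrixGroups

namespace Fermat.Agent.S59.Arch

open Fermat.Agent.S41.Spec Fermat.Agent.S29.H642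

section Congr

variable {N : ℕ} {Sig Smin : Finset ℕ} {𝒪 : Type} [CommRing 𝒪]

/-- `IsEigenclass` only depends on the eigenvalues at the primes `l ∉ Σ`, `l ∤ N`. -/
theorem IsEigenclass.congr {a a' : ℕ → 𝒪}
    (h : ∀ l : ℕ, l.Prime → ¬ l ∣ N → l ∉ Sig → a l = a' l) {dual : Bool}
    {x : Additive (Gamma0 N) →+ 𝒪} (hx : IsEigenclass N Sig Smin a dual x) :
    IsEigenclass N Sig Smin a' dual x := by
  refine ⟨hx.1, ?_, hx.2.2⟩
  intro l hl hlN hlS
  rw [← h l hl.out hlN hlS]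
  exact hx.2.1 l hlN hlS

/-- `PairInv` only depends on the eigenvalues at the primes `l ∉ Σ`, `l ∤ N`. -/
theorem PairInv.congr {a a' : ℕ → 𝒪}
    (h : ∀ l : ℕ, l.Prime → ¬ l ∣ N → l ∉ Sig → a l = a' l) {𝔡 : Ideal 𝒪}
    (hP : PairInv N Sig Smin a 𝔡) : PairInv N Sig Smin a' 𝔡 := by
  have h' : ∀ l : ℕ, l.Prime → ¬ l ∣ N → l ∉ Sig → a' l = a l := fun l h1 h2 h3 =>
    (h l h1 h2 h3).symm
  intro x₁ x₂ y₁ y₂ h1 h2 h3 h4
  exact hP x₁ x₂ y₁ y₂ (h1.congr h') (h2.congr h') (h3.congr h') (h4.congr h')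

end Congr

/-- The eigenvalues `a` reduce to the Frobenius traces of `ρ̄` (`a` is non-Eisenstein). -/
def EigResFrob {k : Type} [Field k] (ρbar : ResidualGaloisRep k) (N : ℕ) (Sig : Finset ℕ)
    {𝒪 : Type} [CommRing 𝒪] (red : 𝒪 →+* k) (a : ℕ → 𝒪) : Prop :=
  ∀ l : ℕ, l.Prime → ¬ l ∣ N → l ∉ Sig →
    ∀ B : ValuationSubring (AlgebraicClosure ℚ), B.LiesOverPrime l →
      ∀ σ : AlgebraicClosure ℚ ≃ₐ[ℚ] AlgebraicClosure ℚ, B.IsFrobeniusAt σ l →
        LinearMap.charpoly (ρbar.ρ σ) = X ^ 2 - C (red (a l)) * X + C ((l : k))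

/-- The three types at `p` and the corresponding hypothesis on `ρ̄`. -/
def TypeHyp (p : ℕ) {k : Type} [Field k] (ρbar : ResidualGaloisRep k) (t : PType) : Prop :=
  (t = .flat ∧ (GaloisRepAdic.ofResidualGaloisRep ρbar).IsFlatAt p) ∨
  (t = .sord ∧ (GaloisRepAdic.ofResidualGaloisRep ρbar).IsStrictOrdinaryAt p ∧
    ¬ (GaloisRepAdic.ofResidualGaloisRep ρbar).IsFlatAt p) ∨
  (t = .ord ∧ (GaloisRepAdic.ofResidualGaloisRep ρbar).IsFlatAt p ∧
    (GaloisRepAdic.ofResidualGaloisRep ρbar).IsOrdinaryAt p)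

/-- **LEAF DATUM** (shared by TW, NM, NMP) `= G4 + RESEQ + H-COND`.
The Prelude ring `T_Σ = heckeLocal N_Σ Σ 𝒪 θ` carries a Hecke–Galois datum with the canonical
Hecke structure (`G4.g4_of`, on main modulo S30), whose residual representation is `ρ̄`
(Chebotarev + Brauer–Nesbitt) and which is of type `Σ`:
determinant cyclotomic (`H540.detIsCyclotomic_of_charpoly_frob`), unramified outside `Σ` (S31),
flat at `p ∤ N` (S32), ordinary at `p ∥ N` (S33), strictly ordinary if moreover `ρ̄` is not flat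
(`H649.twStrict_of_leaves`), unipotent inertia at the `q ∥ N`, `q ≠ p` (S34). -/
def DatumStatement : Prop :=
  ∀ (p : ℕ) [Fact p.Prime]
    (𝒪 : Type) [CommRing 𝒪] [IsDomain 𝒪] [IsDiscreteValuationRing 𝒪]
    [IsAdicComplete (maximalIdeal 𝒪) 𝒪] [Finite (ResidueField 𝒪)] [CharZero 𝒪]
    (ρbar : ResidualGaloisRep (ResidueField 𝒪)) (Smin : Finset ℕ)
    (_h : ResidualHyp p 𝒪 ρbar Smin) (_hc : CurveCase p ρbar)
    (t : PType) (_ht : TypeHyp p ρbar t)
    (Sig : Finset ℕ) (_hSig : Smin ⊆ Sig) (_hSigP : ∀ q ∈ Sig, q.Prime)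
    [NeZero (wilesLevel p t Smin Sig)]
    [Fact (CuspForm.HasIntegralStructure (wilesLevel p t Smin Sig) 2)]
    (θ : CuspForm.heckeAlgebra (wilesLevel p t Smin Sig) 2 (↑Sig : Set ℕ) →+* ResidueField 𝒪)
    (_hθ : G4.ResFrobCond ρbar θ),
    ∃ H : CuspForm.HeckeGaloisRepDatum (wilesLevel p t Smin Sig) (↑Sig : Set ℕ) 𝒪 θ
        (CuspForm.heckeLocal (wilesLevel p t Smin Sig) (↑Sig : Set ℕ) 𝒪 θ),
      H.π = CuspForm.heckeLocal.π (wilesLevel p t Smin Sig) (↑Sig : Set ℕ) 𝒪 θ ∧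
      H.ρ.residual.IsEquiv (ρbar.baseChangeAlong (ResidueField.map (algebraMap 𝒪
        (CuspForm.heckeLocal (wilesLevel p t Smin Sig) (↑Sig : Set ℕ) 𝒪 θ)))) ∧
      sigmaCond 𝒪 p t Smin Sig H.ρ

/-- **LEAF RFD** (small).  The residual Hecke character of a datum with residual representation
`ρ̄` is the Frobenius character of `ρ̄`. -/
def ResFrobOfDatumStatement : Prop :=
  ∀ (N : ℕ) [NeZero N] (S : Set ℕ)
    (𝒪 : Type) [CommRing 𝒪] [IsDomain 𝒪] [IsDiscreteValuationRing 𝒪]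
    [IsAdicComplete (maximalIdeal 𝒪) 𝒪]
    (ρbar : ResidualGaloisRep (ResidueField 𝒪))
    (θ : CuspForm.heckeAlgebra N 2 S →+* ResidueField 𝒪)
    (T : Type) [CommRing T] [IsLocalRing T] [IsNoetherianRing T]
    [IsAdicComplete (maximalIdeal T) T] [Algebra 𝒪 T] [IsLocalHom (algebraMap 𝒪 T)]
    [Module.Finite 𝒪 T] [Module.Free 𝒪 T]
    (H : CuspForm.HeckeGaloisRepDatum N S 𝒪 θ T),
    H.ρ.residual.IsEquiv (ρbar.baseChangeAlong (ResidueField.map (algebraMap 𝒪 T))) →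
    G4.ResFrobCond ρbar θ

/-- **LEAF RIG** (trace rigidity between two levels).  Two data `H` (level `N`, away from `S`) and
`H'` (level `N'`, away from `S'`) with the canonical Hecke structures, related by
`res = H765.resLocal`: the push-forward of `ρ_{T'}` along `res` is `ρ_T`.
(Equal Frobenius characteristic polynomials at the primes `ℓ ∉ S'`, `ℓ ∤ N'`; Chebotarev
`Lib.Cheb.chebotarev`; `S59.H307.isEquiv_of_trace_eq`.) -/
def LevelRigidStatement : Prop :=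
  ∀ (N N' : ℕ) [NeZero N] [NeZero N'] (S S' : Finset ℕ)
    (hp : H765.LevelPair N N' (↑S : Set ℕ) (↑S' : Set ℕ))
    (_hNS : ∀ q : ℕ, q.Prime → q ∣ N → q ∈ S) (_hNS' : ∀ q : ℕ, q.Prime → q ∣ N' → q ∈ S')
    [Fact (CuspForm.HasIntegralStructure N 2)] [Fact (CuspForm.HasIntegralStructure N' 2)]
    (𝒪 : Type) [CommRing 𝒪] [IsDomain 𝒪] [IsDiscreteValuationRing 𝒪]
    [IsAdicComplete (maximalIdeal 𝒪) 𝒪] [Finite (ResidueField 𝒪)] [CharZero 𝒪]
    (θ : CuspForm.heckeAlgebra N 2 (↑S : Set ℕ) →+* ResidueField 𝒪)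
    (H : CuspForm.HeckeGaloisRepDatum N (↑S : Set ℕ) 𝒪 θ
      (CuspForm.heckeLocal N (↑S : Set ℕ) 𝒪 θ))
    (_hH : H.π = CuspForm.heckeLocal.π N (↑S : Set ℕ) 𝒪 θ)
    (H' : CuspForm.HeckeGaloisRepDatum N' (↑S' : Set ℕ) 𝒪 (θ.comp (H765.oldRestrict hp))
      (CuspForm.heckeLocal N' (↑S' : Set ℕ) 𝒪 (θ.comp (H765.oldRestrict hp))))
    (_hH' : H'.π = CuspForm.heckeLocal.π N' (↑S' : Set ℕ) 𝒪 (θ.comp (H765.oldRestrict hp)))
    (hres : IsLocalHom ((H765.resLocal hp 𝒪 θ :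
      CuspForm.heckeLocal N' (↑S' : Set ℕ) 𝒪 (θ.comp (H765.oldRestrict hp)) →ₐ[𝒪]
        CuspForm.heckeLocal N (↑S : Set ℕ) 𝒪 θ) :
      CuspForm.heckeLocal N' (↑S' : Set ℕ) 𝒪 (θ.comp (H765.oldRestrict hp)) →+*
        CuspForm.heckeLocal N (↑S : Set ℕ) 𝒪 θ)),
    (H'.ρ.baseChangeAlong _ hres).IsEquiv H.ρ

/-- **LEAF NM-IH (Ihara step; pure Betti, no Galois representation in the conclusion).**
Level `N = N_Σ`, `N' = N_{Σ ∪ q} = N q²`.  If the system `a` occurs at level `N` (`hL`) and is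
non-Eisenstein (`ha`), then the Gram determinants of the eigenlattices at level `N'` are
`c_q²` times Gram determinants at level `N`:  `PairInv N Σ 𝔡 → PairInv N' Σ' (c_q² 𝔡)`.

Proof (Wiles §2.2, helper341's memo §3): `j = i₀ - i₁ T_q + q i₂`, `j^* = q i₀ - i₁ T_q + i₂`
(`i₀ = r₁'r₁`, `i₁ = r₁'r₂`, `i₂ = r₂'r₂`) land in `ker U_q`, `ker U_q^†`;
`(j^*)^† j = -q (q - 1)(T_q² - (q + 1)²)` (coset relations HK-3/4 at `N → Nq → Nq²`); saturation
`L' = j L`, `L'^† = j^* L^†` by Ihara's lemma `N → Nq` (`Fermat.Agent.S41.iharaEigen_main`,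
`S59.H341.IharaAny`) and exactness `Nq → Nq²` (helper341), plus strong multiplicity one for the
rank. -/
def IharaStepStatement : Prop :=
  ∀ (p : ℕ) [Fact p.Prime]
    (𝒪 : Type) [CommRing 𝒪] [IsDomain 𝒪] [IsDiscreteValuationRing 𝒪]
    [IsAdicComplete (maximalIdeal 𝒪) 𝒪] [Finite (ResidueField 𝒪)] [CharZero 𝒪]
    (ρbar : ResidualGaloisRep (ResidueField 𝒪)) (Smin : Finset ℕ)
    (_h : ResidualHyp p 𝒪 ρbar Smin) (_hc : CurveCase p ρbar)
    (t : PType) (_ht : TypeHyp p ρbar t) (_ht' : t ≠ .ord)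
    (Sig : Finset ℕ) (_hSig : Smin ⊆ Sig) (_hSigP : ∀ q ∈ Sig, q.Prime)
    (q : ℕ) (_hq : q.Prime) (_hqS : q ∉ Sig)
    (a : ℕ → 𝒪) (_ha : EigResFrob ρbar (wilesLevel p t Smin Sig) Sig (residue 𝒪) a)
    (_hL : ∃ x : Additive (Gamma0 (wilesLevel p t Smin Sig)) →+ 𝒪,
      IsEigenclass (wilesLevel p t Smin Sig) Sig Smin a false x ∧ x ≠ 0)
    (𝔡 : Ideal 𝒪),
    PairInv (wilesLevel p t Smin Sig) Sig Smin a 𝔡 →
      PairInv (wilesLevel p t Smin (insert q Sig)) (insert q Sig) Smin a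
        (Ideal.span {((q : 𝒪) - 1) * (a q ^ 2 - ((q : 𝒪) + 1) ^ 2)} ^ 2 * 𝔡)

/-- **LEAF NM-OMEGA (`η_T ⊆ η_M`).**  At every level `N_Σ` and every `𝒪`-point `π` of `T_Σ` there
are eigenclasses `x₁, x₂ ∈ L`, `y₁, y₂ ∈ L^†` whose Gram determinant generates an ideal
containing `η_T(π)²`.
(`M_Σ = ⋂ ker U_q ⊂ C_N(𝒪)_θ` is a `T_Σ`-module — Eichler–Shimura, S21 — in perfect duality with
`M_Σ^† = ⋂ ker U_q^†` — `S59.H585.gamma0Pairing_bijective`; `L = M_Σ[𝔭]`, `L^† = M_Σ^†[𝔭]` have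
rank `2`; `Ω = M/(M[𝔭] ⊕ M[I]) ≅ (L^†)^∨ / L` and `#Ω ≤ #(𝒪/η)²`: `H427.card_omegaMod_le`.) -/
def OmegaBoundStatement : Prop :=
  ∀ (p : ℕ) [Fact p.Prime]
    (𝒪 : Type) [CommRing 𝒪] [IsDomain 𝒪] [IsDiscreteValuationRing 𝒪]
    [IsAdicComplete (maximalIdeal 𝒪) 𝒪] [Finite (ResidueField 𝒪)] [CharZero 𝒪]
    (ρbar : ResidualGaloisRep (ResidueField 𝒪)) (Smin : Finset ℕ)
    (_h : ResidualHyp p 𝒪 ρbar Smin) (_hc : CurveCase p ρbar)
    (t : PType) (_ht : TypeHyp p ρbar t) (_ht' : t ≠ .ord)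
    (Sig : Finset ℕ) (_hSig : Smin ⊆ Sig) (_hSigP : ∀ q ∈ Sig, q.Prime)
    [NeZero (wilesLevel p t Smin Sig)]
    [Fact (CuspForm.HasIntegralStructure (wilesLevel p t Smin Sig) 2)]
    (θ : CuspForm.heckeAlgebra (wilesLevel p t Smin Sig) 2 (↑Sig : Set ℕ) →+* ResidueField 𝒪)
    (_hθ : G4.ResFrobCond ρbar θ)
    (π : CuspForm.heckeLocal (wilesLevel p t Smin Sig) (↑Sig : Set ℕ) 𝒪 θ →ₐ[𝒪] 𝒪),
    ∃ x₁ x₂ y₁ y₂ : Additive (Gamma0 (wilesLevel p t Smin Sig)) →+ 𝒪,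
      IsEigenclass (wilesLevel p t Smin Sig) Sig Smin
        (eigOf (wilesLevel p t Smin Sig) (↑Sig : Set ℕ) 𝒪 θ π) false x₁ ∧
      IsEigenclass (wilesLevel p t Smin Sig) Sig Smin
        (eigOf (wilesLevel p t Smin Sig) (↑Sig : Set ℕ) 𝒪 θ π) false x₂ ∧
      IsEigenclass (wilesLevel p t Smin Sig) Sig Smin
        (eigOf (wilesLevel p t Smin Sig) (↑Sig : Set ℕ) 𝒪 θ π) true y₁ ∧
      IsEigenclass (wilesLevel p t Smin Sig) Sig Smin
        (eigOf (wilesLevel p t Smin Sig) (↑Sig : Set ℕ) 𝒪 θ π) true y₂ ∧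
      NC.congIdeal π ^ 2 ≤ Ideal.span
        {maninPairing (Gamma0 (wilesLevel p t Smin Sig)) x₁ y₁ *
            maninPairing (Gamma0 (wilesLevel p t Smin Sig)) x₂ y₂ -
          maninPairing (Gamma0 (wilesLevel p t Smin Sig)) x₁ y₂ *
            maninPairing (Gamma0 (wilesLevel p t Smin Sig)) x₂ y₁}

end Fermat.Agent.S59.Arch

end
-- ===== PACK-END S59/Arch/SpecNM.lean

-- ===== PACK-BEGIN S59/TW/H81/D561/DictNeb.lean
section


-- Vendored VERBATIM (namespace renamed) by helper81 from helper561's off-main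
-- `Fermat/Agent/S38/H561/DictNeb.lean` (origin/helper561), so that the S59 leaf DICT-T is
-- self-contained on main.  All credit for this file: helper561.

/-!
# Row HARD, cell HECKE, leaf DICT (helper561): nebentypus and twist

Part 2 of the dictionary.  A simultaneous eigenvector `f ∈ S₂(K)` of the `t_ℓ = ⟨u ℓ⟩ T_ℓ` and
of the diamond operators `⟨d⟩` (eigenvalues `c`) has a nebentypus `χ` (`chiOf`, a Dirichlet
character modulo `M`, trivial on `K`, `χ d = c (inr d)`), and its twist `nebTwist D f`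
(helper658, helper564) is a nonzero eigenvector of the `T_ℓ` on `S₂(Γ₀(N'))` with the eigenvalues
`c (inl ℓ)`.

`exists_twisted_eigenvector` : the dictionary "Betti point → twisted nebentypus eigenvector".
-/

set_option autoImplicit false
set_option linter.unusedSectionVars false
set_option linter.style.haveILetI false

noncomputable section

namespace Fermat.Agent.S59.TW.H81.D561

open CongruenceSubgroup ModularForm ModularCurve ModularCurve.Period
open UpperHalfPlane hiding I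
open Matrix.SpecialLinearGroup Fermat.Agent.Lib.Newform.H803
open Fermat.Agent.S59.TW.H653 Fermat.Agent.S59.TW.H564 Fermat.Agent.S59.TW.H658
open scoped Manifold MatrixGroups ModularForm

variable {M : ℕ} {K : Subgroup SL(2, ℤ)} [NeZero M] [K.FiniteIndex]

section Neb

variable (hK : IsMid M K) {N' : ℕ} (hMN : M ∣ N') (u : ℕ → (ZMod M)ˣ) {S : Set ℕ}
  {f : CuspForm K 2} {c : OpIdx N' S M → ℂ}

theorem coe_ne_zero_of_ne_zero (hf : f ≠ 0) : (⇑f : ℍ → ℂ) ≠ 0 := fun h =>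
  hf (DFunLike.coe_injective (by rw [h]; rfl))

/-- An eigenvector of the diamond operators transforms under `Γ₀(M)` by its eigenvalues. -/
theorem slash_eq_of_eigen (hc : ∀ j, opF hK hMN u j f = c j • f) (g : Gamma0 M) :
    (⇑f : ℍ → ℂ) ∣[(2 : ℤ)] (g : SL(2, ℤ)) = c (Sum.inr (dUnit M g)) • (⇑f : ℍ → ℂ) := by
  have hF1 : SlInv 2 (Gamma1 M) (⇑f : ℍ → ℂ) := (slInv_of_cuspForm f).mono hK.ge
  have h1 := slash_eq_of_dUnit_eq hF1 (g := g) (g' := sg (dUnit M g)) (by rw [dUnit_sg])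
  rw [h1]
  have h2 := congrArg (fun F : CuspForm K 2 => (⇑F : ℍ → ℂ)) (hc (Sum.inr (dUnit M g)))
  exact h2

theorem c_inr_mul (hf : f ≠ 0) (hc : ∀ j, opF hK hMN u j f = c j • f) (d d' : (ZMod M)ˣ) :
    c (Sum.inr (d * d')) = c (Sum.inr d) * c (Sum.inr d') := by
  have h1 := slash_eq_of_eigen hK hMN u hc (sg d * sg d')
  have h2 : (((sg d * sg d' : Gamma0 M) : Gamma0 M) : SL(2, ℤ)) =
      ((sg d : Gamma0 M) : SL(2, ℤ)) * ((sg d' : Gamma0 M) : SL(2, ℤ)) := rfl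
  rw [h2, SlashAction.slash_mul, slash_eq_of_eigen hK hMN u hc (sg d),
    ModularForm.SL_smul_slash, slash_eq_of_eigen hK hMN u hc (sg d'), map_mul, dUnit_sg,
    dUnit_sg, smul_smul] at h1
  have h3 : (c (Sum.inr d) * c (Sum.inr d') - c (Sum.inr (d * d'))) • (⇑f : ℍ → ℂ) = 0 := by
    rw [sub_smul, h1, sub_self]
  rcases smul_eq_zero.mp h3 with h | h
  · exact (sub_eq_zero.mp h).symm
  · exact absurd h (coe_ne_zero_of_ne_zero hf)

theorem c_inr_one (hf : f ≠ 0) (hc : ∀ j, opF hK hMN u j f = c j • f) :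
    c (Sum.inr (1 : (ZMod M)ˣ) : OpIdx N' S M) = 1 := by
  have h1 := slash_eq_of_eigen hK hMN u hc (1 : Gamma0 M)
  have h2 : (((1 : Gamma0 M) : Gamma0 M) : SL(2, ℤ)) = 1 := rfl
  rw [h2, SlashAction.slash_one, map_one] at h1
  have h3 : (c (Sum.inr (1 : (ZMod M)ˣ) : OpIdx N' S M) - 1) • (⇑f : ℍ → ℂ) = 0 := by
    rw [sub_smul, ← h1, one_smul, sub_self]
  rcases smul_eq_zero.mp h3 with h | h
  · exact sub_eq_zero.mp h
  · exact absurd h (coe_ne_zero_of_ne_zero hf)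

/-- The eigenvalues of the diamond operators, as a monoid homomorphism. -/
def chiHom (hf : f ≠ 0) (hc : ∀ j, opF hK hMN u j f = c j • f) : (ZMod M)ˣ →* ℂ where
  toFun d := c (Sum.inr d)
  map_one' := c_inr_one hK hMN u hf hc
  map_mul' := c_inr_mul hK hMN u hf hc

/-- **The nebentypus of a diamond eigenvector.** -/
def chiOf (hf : f ≠ 0) (hc : ∀ j, opF hK hMN u j f = c j • f) : DirichletCharacter ℂ M :=
  MulChar.ofUnitHom (chiHom hK hMN u hf hc).toHomUnits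

theorem chiOf_apply (hf : f ≠ 0) (hc : ∀ j, opF hK hMN u j f = c j • f) (d : (ZMod M)ˣ) :
    chiOf hK hMN u hf hc (d : ZMod M) = c (Sum.inr d) := by
  rw [chiOf, MulChar.ofUnitHom_coe, MonoidHom.coe_toHomUnits]
  rfl

theorem isNeb_of_eigen (hf : f ≠ 0) (hc : ∀ j, opF hK hMN u j f = c j • f) :
    IsNeb 2 M (chiZ (chiOf hK hMN u hf hc)) (⇑f : ℍ → ℂ) := by
  intro γ hγ
  have h1 := slash_eq_of_eigen hK hMN u hc ⟨γ, hγ⟩
  rw [chiZ_of_mem (chiOf hK hMN u hf hc) ⟨γ, hγ⟩, chiOf_apply]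
  exact h1

theorem trivOn_chiOf (hf : f ≠ 0) (hc : ∀ j, opF hK hMN u j f = c j • f) :
    _root_.Fermat.Agent.S59.TW.H658.TrivOn K (chiOf hK hMN u hf hc) := by
  intro g hg
  rw [chiOf_apply]
  have h1 := slash_eq_of_eigen hK hMN u hc g
  rw [slInv_of_cuspForm f _ hg] at h1
  have h3 : (c (Sum.inr (dUnit M g) : OpIdx N' S M) - 1) • (⇑f : ℍ → ℂ) = 0 := by
    rw [sub_smul, ← h1, one_smul, sub_self]
  rcases smul_eq_zero.mp h3 with h | h
  · exact sub_eq_zero.mp h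
  · exact absurd h (coe_ne_zero_of_ne_zero hf)

/-- The eigenvector as an element of the nebentypus component. -/
def nebOf (hf : f ≠ 0) (hc : ∀ j, opF hK hMN u j f = c j • f) :
    _root_.Fermat.Agent.S59.TW.H658.nebSub M (chiOf hK hMN u hf hc) :=
  ⟨(⇑f : ℍ → ℂ), isCuspidal_of_cuspForm f, isNeb_of_eigen hK hMN u hf hc⟩

@[simp] theorem coe_nebOf (hf : f ≠ 0) (hc : ∀ j, opF hK hMN u j f = c j • f) :
    ((nebOf hK hMN u hf hc : _root_.Fermat.Agent.S59.TW.H658.nebSub M (chiOf hK hMN u hf hc)) : ℍ → ℂ) = ⇑f := rfl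

theorem nebOf_ne_zero (hf : f ≠ 0) (hc : ∀ j, opF hK hMN u j f = c j • f) :
    nebOf hK hMN u hf hc ≠ 0 := fun h =>
  coe_ne_zero_of_ne_zero hf (congrArg Subtype.val h)

/-- The eigenvector is an eigenvector of `χ(u ℓ) • T_ℓ` on its nebentypus component. -/
theorem nebT_nebOf (hf : f ≠ 0) (hc : ∀ j, opF hK hMN u j f = c j • f)
    (i : GoodPrime N' S) :
    haveI : Fact i.1.Prime := ⟨i.2.1⟩
    nebT (chiOf hK hMN u hf hc) (fun h => i.2.2.1 (h.trans hMN))
        (chiOf hK hMN u hf hc ((u i.1 : (ZMod M)ˣ) : ZMod M)) (nebOf hK hMN u hf hc) =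
      c (Sum.inl i) • nebOf hK hMN u hf hc := by
  haveI : Fact i.1.Prime := ⟨i.2.1⟩
  have hℓ : ¬ i.1 ∣ M := fun h => i.2.2.1 (h.trans hMN)
  apply Subtype.ext
  rw [coe_nebT, coe_nebOf]
  have h2 := congrArg (fun F : CuspForm K 2 => (⇑F : ℍ → ℂ)) (hc (Sum.inl i))
  have h3 : (⇑(opF hK hMN u (Sum.inl i : OpIdx N' S M) f) : ℍ → ℂ) =
      (famOp 2 (repsT M i.1) (⇑f : ℍ → ℂ)) ∣[(2 : ℤ)] ((sg (u i.1) : Gamma0 M) : SL(2, ℤ)) := rfl
  have h4 := isNeb_famOp_repsT (chiOf hK hMN u hf hc) hℓ (isNeb_of_eigen hK hMN u hf hc)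
    _ (sg (u i.1)).2
  rw [chiZ_of_mem, dUnit_sg] at h4
  rw [← h4, ← h3]
  exact h2

end Neb

/-- **DICT, part 2: Betti point → twisted nebentypus eigenvector.**
`vals` occurs integrally in the parabolic classes of `K` (see `exists_eigenform_of_occurs`).
Then there are eigenvalues `c`, a Dirichlet character `χ` modulo `M` trivial on `K`, a twist
datum `D` for `χ`, and `F ≠ 0` of nebentypus `χ`, such that
* `χ d = c (inr d)`;
* the twist `nebTwist D F ∈ S₂(Γ₀(N'))` is a nonzero eigenvector of the `T_ℓ`, eigenvalues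
  `c (inl ℓ)`;
* every integral polynomial relation between the `c j` holds for the `vals j`. -/
theorem exists_twisted_eigenvector (hK : IsMid M K) {N' : ℕ} [NeZero N'] {u : ℕ → (ZMod M)ˣ}
    (H : TwistHyp K N' u) {S : Set ℕ}
    {R : Type*} [CommRing R] [IsDomain R] (vals : OpIdx N' S M → R)
    (hocc : ∀ P : FreeAlgebra ℤ (OpIdx N' S M),
      (∀ y : Additive K →+ ℤ, IsParabolicHom K y →
        FreeAlgebra.lift ℤ (opB hK ℤ H.dvd u) P y = 0) →
      FreeAlgebra.lift ℤ vals P = 0) :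
    ∃ (c : OpIdx N' S M → ℂ) (χ : DirichletCharacter ℂ M) (_ : _root_.Fermat.Agent.S59.TW.H658.TrivOn K χ)
      (D : TwistDatum M N' χ) (F : _root_.Fermat.Agent.S59.TW.H658.nebSub M χ),
      F ≠ 0 ∧ (∀ d : (ZMod M)ˣ, χ (d : ZMod M) = c (Sum.inr d)) ∧
      (∀ ℓ : ℕ, ℓ.Prime → ¬ ℓ ∣ N' → psiL D.ψ D.L ℓ = χ ((u ℓ : (ZMod M)ˣ) : ZMod M)) ∧
      nebTwist D F ≠ 0 ∧
      (∀ i : GoodPrime N' S,
        CuspForm.heckeTLin 2 i.2.1 i.2.2.1 (nebTwist D F) = c (Sum.inl i) • nebTwist D F) ∧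
      ∀ P : FreeAlgebra ℤ (OpIdx N' S M),
        FreeAlgebra.lift ℤ c P = 0 → FreeAlgebra.lift ℤ vals P = 0 := by
  obtain ⟨f, c, hf, hc, hL⟩ := exists_eigenform_of_occurs hK H.dvd H.neg u vals hocc
  obtain ⟨D, hD⟩ := H.twist (chiOf hK H.dvd u hf hc) (trivOn_chiOf hK H.dvd u hf hc)
  have hF0 := nebOf_ne_zero hK H.dvd u hf hc
  have hne : nebTwist D (nebOf hK H.dvd u hf hc) ≠ 0 := fun h =>
    hF0 (nebTwist_injective D (h.trans (map_zero _).symm))
  refine ⟨c, chiOf hK H.dvd u hf hc, trivOn_chiOf hK H.dvd u hf hc, D,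
    nebOf hK H.dvd u hf hc, hF0, chiOf_apply hK H.dvd u hf hc, hD, hne, fun i => ?_, hL⟩
  haveI : Fact i.1.Prime := ⟨i.2.1⟩
  have hℓ : ¬ i.1 ∣ M := fun h => i.2.2.1 (h.trans H.dvd)
  have h1 := heckeTLin_nebTwist D i.2.2.1 hℓ (nebOf hK H.dvd u hf hc)
  rw [hD i.1 i.2.1 i.2.2.1, nebT_nebOf hK H.dvd u hf hc i] at h1
  rw [h1]
  apply DFunLike.coe_injective
  rw [coe_nebTwist]
  show twistL 2 D.ψ D.L (c (Sum.inl i) • (⇑f : ℍ → ℂ)) = c (Sum.inl i) • twistL 2 D.ψ D.L ⇑f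
  exact twistL_smul D.L _ _

end Fermat.Agent.S59.TW.H81.D561

end
end
-- ===== PACK-END S59/TW/H81/D561/DictNeb.lean

-- ===== PACK-BEGIN S59/TW/H81/DictTForm.lean
section




/-!
# S59 / cell TW, AUT leaf CMP, leaf DICT-T: from the Betti point to a newform  (helper81)

* `exists_form_of_occurs` : `Γ₁(M) ≤ K ≤ Γ₀(M)`, `γ^(2m+1) ∈ K` for `γ ∈ Γ₀(M)`; a system of
  values `vals` (in a domain of characteristic zero) of the operators `t_ℓ = ⟨ℓ⟩^m T_ℓ`, `⟨d⟩`
  which occurs integrally in the parabolic classes of `K` (helper561's `hocc`) and with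
  `vals ⟨d⟩ = 1` for `d ≡ 1` modulo `∏ Qs`.  Then the eigen-system occurs in `S₂(Γ₀(N'))` for
  every `N'` divisible by `M · ∏ Qs`: there is `F ≠ 0` in `S₂(Γ₀(N'))`, an eigenvector of the
  `T_ℓ` with eigenvalues `c ℓ`, such that every integral relation between the `c` holds for the
  `vals`.  (Eichler–Shimura for `K` [helper658, helper561]; the nebentypus of the eigenform is
  trivial on the units `≡ 1` modulo `∏ Qs`; twist [helper564].)
* `exists_newform_of_form` : the newform attached to an eigenvector of the good Hecke operators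
  (NEWFORM library, helper863).
-/

set_option autoImplicit false
set_option linter.unusedSectionVars false
set_option linter.style.haveILetI false

noncomputable section

namespace Fermat.Agent.S59.TW.H81

open CongruenceSubgroup ModularForm ModularCurve ModularCurve.Period
open UpperHalfPlane hiding I
open Matrix.SpecialLinearGroup Fermat.Agent.Lib.Newform.H803
open Fermat.Agent.S59.TW.H653 Fermat.Agent.S59.TW.H564 Fermat.Agent.S59.TW.H658
open Fermat.Agent.S59.TW.H81.D561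
open scoped Manifold MatrixGroups ModularForm

variable {M : ℕ} [NeZero M] {K : Subgroup SL(2, ℤ)} [K.FiniteIndex]

/-- A root of unity `x ≠ 1` of order dividing `n` is a root of `1 + X + … + X^(n-1)`. -/
theorem geom_sum_eq_zero_h81 {x : ℂ} {n : ℕ} (hx : x ^ n = 1) (h1 : x ≠ 1) :
    ∑ k ∈ Finset.range n, x ^ k = 0 := by
  have h2 := mul_geom_sum x n
  rw [hx, sub_self] at h2
  rcases mul_eq_zero.mp h2 with h | h
  · exact absurd (sub_eq_zero.mp h) h1
  · exact h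

/-- **DICT-T, the form.** -/
theorem exists_form_of_occurs (hK : IsMid M K)
    (Qs : List ℕ) (hnd : Qs.Nodup)
    (hQs : ∀ q ∈ Qs, q.Prime ∧ ∃ M' : ℕ, M = M' * q ∧ Nat.Coprime M' q)
    (m : ℕ) (hK2 : ∀ γ ∈ Gamma0 M, γ ^ (2 * m + 1) ∈ K)
    {N' : ℕ} [NeZero N'] (hMN : M ∣ N') (hN' : M * Qs.prod ∣ N') {S : Set ℕ}
    {R : Type*} [CommRing R] [IsDomain R] [CharZero R]
    (vals : OpIdx N' S M → R)
    (hvals : ∀ (d : ℤ) (v : (ZMod M)ˣ), ((Qs.prod : ℕ) : ℤ) ∣ d - 1 →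
      ((v : (ZMod M)ˣ) : ZMod M) = ((d : ℤ) : ZMod M) → vals (Sum.inr v) = 1)
    (hocc : ∀ P : FreeAlgebra ℤ (OpIdx N' S M),
      (∀ y : Additive K →+ ℤ, IsParabolicHom K y →
        FreeAlgebra.lift ℤ (opB hK ℤ hMN (fun ℓ => uCls M ℓ ^ m)) P y = 0) →
      FreeAlgebra.lift ℤ vals P = 0) :
    ∃ (F : CuspForm (Gamma0 N') 2) (c : OpIdx N' S M → ℂ), F ≠ 0 ∧
      (∀ i : GoodPrime N' S, CuspForm.heckeTLin 2 i.2.1 i.2.2.1 F = c (Sum.inl i) • F) ∧
      ∀ P : FreeAlgebra ℤ (OpIdx N' S M),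
        FreeAlgebra.lift ℤ c P = 0 → FreeAlgebra.lift ℤ vals P = 0 := by
  classical
  have hneg : (-1 : SL(2, ℤ)) ∈ K := by
    have h1 : (-1 : SL(2, ℤ)) ∈ Gamma0 M := by
      rw [Gamma0_mem]
      simp
    have h2 := hK2 _ h1
    rwa [Odd.neg_one_pow ⟨m, rfl⟩] at h2
  obtain ⟨f, c, hf, hc, hL⟩ :=
    exists_eigenform_of_occurs hK hMN hneg (fun ℓ => uCls M ℓ ^ m) vals hocc
  set χ := chiOf hK hMN (fun ℓ => uCls M ℓ ^ m) hf hc with hχdef
  have hχ : H658.TrivOn K χ := trivOn_chiOf hK hMN _ hf hc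
  -- `χ` is trivial on the units `≡ 1 mod ∏ Qs`
  have hε : ∀ d : ℤ, ((Qs.prod : ℕ) : ℤ) ∣ d - 1 → IsUnit ((d : ℤ) : ZMod M) →
      χ ((d : ℤ) : ZMod M) = 1 := by
    intro d hd hu
    obtain ⟨v, hv⟩ := hu
    have hv1 : vals (Sum.inr v) = 1 := hvals d v hd hv
    rw [← hv, hχdef, chiOf_apply]
    by_contra hne
    have hpow : c (Sum.inr v) ^ orderOf v = 1 := by
      rw [← chiOf_apply hK hMN (fun ℓ => uCls M ℓ ^ m) hf hc v, ← map_pow,
        ← Units.val_pow_eq_pow_val, pow_orderOf_eq_one, Units.val_one, map_one]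
    have hsum := geom_sum_eq_zero_h81 hpow hne
    have hrel := hL (∑ k ∈ Finset.range (orderOf v),
      FreeAlgebra.ι ℤ (Sum.inr v : OpIdx N' S M) ^ k) (by
        rw [map_sum, ← hsum]
        refine Finset.sum_congr rfl fun k _ => ?_
        rw [map_pow, FreeAlgebra.lift_ι_apply])
    rw [map_sum] at hrel
    have h3 : ∑ k ∈ Finset.range (orderOf v),
        FreeAlgebra.lift ℤ vals (FreeAlgebra.ι ℤ (Sum.inr v : OpIdx N' S M) ^ k) =
        ((orderOf v : ℕ) : R) := by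
      rw [Finset.sum_congr rfl (fun k _ => by
        rw [map_pow, FreeAlgebra.lift_ι_apply, hv1, one_pow] :
        ∀ k ∈ Finset.range (orderOf v),
          FreeAlgebra.lift ℤ vals (FreeAlgebra.ι ℤ (Sum.inr v : OpIdx N' S M) ^ k) = (1 : R))]
      simp
    rw [h3] at hrel
    exact (orderOf_pos v).ne' (Nat.cast_eq_zero.mp hrel)
  -- `χ ^ (2 m + 1) = 1`
  have hm : χ ^ (2 * m + 1) = 1 := by
    ext v
    rw [MulChar.pow_apply_coe, MulChar.one_apply_coe, ← map_pow, ← Units.val_pow_eq_pow_val]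
    obtain ⟨g, rfl⟩ := dUnit_surjective (M := M) v
    rw [← map_pow]
    exact hχ (g ^ (2 * m + 1)) (hK2 _ g.2)
  obtain ⟨J, hJi, hJ⟩ := H564.exists_twistEmbeddingK 2 hK.ge Qs hnd hQs χ hε m hm N' hN'
  set F₀ := nebOf hK hMN (fun ℓ => uCls M ℓ ^ m) hf hc with hF₀
  have hF₀ne : F₀ ≠ 0 := nebOf_ne_zero hK hMN _ hf hc
  refine ⟨J (toNebK hK χ hχ F₀), c, fun h0 => hF₀ne ?_, fun i => ?_, hL⟩
  · apply toNebK_injective hK χ hχ
    apply hJi
    rw [h0, map_zero, map_zero]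
  · haveI : Fact i.1.Prime := ⟨i.2.1⟩
    have hℓ : ¬ i.1 ∣ M := fun h => i.2.2.1 (h.trans hMN)
    have hcop : Nat.Coprime i.1 M := (Nat.Prime.coprime_iff_not_dvd i.2.1).mpr hℓ
    have h1 := hJ i.1 hℓ i.2.2.1 (toNebK hK χ hχ F₀)
      (toNebK hK χ hχ (nebT χ hℓ (χ (((uCls M i.1 ^ m : (ZMod M)ˣ)) : ZMod M)) F₀)) (by
        rw [coe_toNebK, coe_toNebK, coe_nebT, famOp_repsT_eq χ hcop F₀.2.2,
          Units.val_pow_eq_pow_val, map_pow, coe_uCls hcop, chiZ_apply, Int.cast_natCast])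
    rw [h1]
    have h2 : nebT χ hℓ (χ (((uCls M i.1 ^ m : (ZMod M)ˣ)) : ZMod M)) F₀ =
        c (Sum.inl i) • F₀ := nebT_nebOf hK hMN (fun ℓ => uCls M ℓ ^ m) hf hc i
    rw [h2, map_smul, map_smul]

/-- **DICT-T, the newform.**  The newform attached to an eigenvector of the good Hecke
operators. -/
theorem exists_newform_of_form {N' : ℕ} [NeZero N'] (S : Set ℕ)
    (F : CuspForm (Gamma0 N') 2) (hF : F ≠ 0) (lam : ℕ → ℂ)
    (heig : ∀ (ℓ : ℕ) (hℓ : ℓ.Prime) (hℓN : ¬ ℓ ∣ N'), ℓ ∉ S →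
      CuspForm.heckeTLin 2 hℓ hℓN F = lam ℓ • F) :
    ∃ (M₁ : ℕ) (_ : NeZero M₁) (g : CuspForm (Gamma0 M₁) 2), g.IsNewform ∧ M₁ ∣ N' ∧
      ∀ ℓ : ℕ, ℓ.Prime → ¬ ℓ ∣ N' → ℓ ∉ S → ModularFormClass.qCoeff g ℓ = lam ℓ := by
  obtain ⟨g₀, hg₀, hg₀l⟩ :=
    Fermat.Agent.Lib.Newform.H863.exists_normalizedEigenform_of_eigenvector S lam F hF heig
  obtain ⟨M₁, hM₁, g, hg, hgl⟩ :=
    Fermat.Agent.Lib.Newform.H863.exists_isNewform_of_isNormalizedEigenform g₀ hg₀
  have hM₁0 : NeZero M₁ := ⟨fun h0 => NeZero.ne N' (Nat.eq_zero_of_zero_dvd (h0 ▸ hM₁))⟩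
  refine ⟨M₁, hM₁0, g, hg, hM₁, fun ℓ hℓ hℓN hℓS => ?_⟩
  rw [hgl ℓ hℓ hℓN, hg₀l ℓ hℓ hℓN hℓS]

end Fermat.Agent.S59.TW.H81

end
end
-- ===== PACK-END S59/TW/H81/DictTForm.lean

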