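import Fermat.Agent.Pack.S43MC.G0E24L3
import Fermat.Agent.Pack.S43MC.G0E9L3
import Fermat.Agent.Pack.S43MC.G0E11L2
import Fermat.Agent.Pack.S44C.G0E27L3
import Fermat.Agent.Pack.S43MC.G0E24L0
import Fermat.Agent.Pack.S43MC.G0E22L0
import Fermat.Agent.Pack.S43MC.G0E21L0
import Fermat.Agent.Pack.S44C.G0E27L0
import Fermat.Agent.Pack.S43MC.G0E24L1
import Fermat.Agent.Pack.S44C.G0E7L2
import Fermat.Agent.Pack.S43MC.G0E20L3
import Fermat.Agent.Pack.S44C.G0E25L2
import Fermat.Agent.Pack.S44C.G0E20L0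
import Fermat.Agent.Pack.S43MC.G0E12L0
import Fermat.Agent.Pack.S43MC.G0E18L2
import Fermat.Agent.Pack.S43MC.G0E3L2
import Fermat.Agent.Pack.S44C.G0E19L3
import Fermat.Agent.Pack.S44C.G0E23L2
import Fermat.Agent.Pack.S44C.G0E26L0
import Fermat.Agent.Pack.S44C.G0E17L2
import Fermat.Agent.Pack.S43MC.G0E10L1
import Fermat.Agent.Pack.S43MC.G0E12L2
import Fermat.Agent.Pack.S43MC.G0E7L3
import Fermat.Agent.Pack.S44C.G0E26L3
import Fermat.Agent.Pack.S44C.G0E1L3
import Fermat.Agent.Pack.S44C.G0E22L0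
import Fermat.Agent.Pack.S43MC.G0E23L1
import Fermat.Agent.Pack.Fast891

-- ===== PACK-BEGIN S27/H970/PicTensor.lean
section



/-!
# S27 / PIC-CL (helper970): tensor products of gluing data and addition of divisors

`add_sub_mem_principal_of_tensor` : if `G ≅ O(D)`, `G' ≅ O(D')`, `G'' ≅ O(D'')` and `G''` is a
tensor product of `G` and `G'` (`S27.TensorMaps`), then `D + D' - D''` is principal.
-/

set_option autoImplicit false
set_option linter.unusedSectionVars false
set_option linter.style.haveILetI false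
universe u

noncomputable section

open AlgebraicCurve
open scoped TensorProduct

namespace Fermat.Agent.S27.H970

open Fermat.Agent.S25 Fermat.Agent.Lib.RR Fermat.Agent.Lib.RR.H638 Fermat.Agent.Lib.RR.H623

section Cospan

variable {K F R₀ R₁ R₀₁ : Type u} [Field K] [Field F] [Algebra K F]
  [CommRing R₀] [CommRing R₁] [CommRing R₀₁] [Algebra K R₀] [Algebra K R₁] [Algebra K R₀₁]
  [Algebra R₀ R₀₁] [Algebra R₁ R₀₁] [IsScalarTower K R₀ R₀₁] [IsScalarTower K R₁ R₀₁]
  [Algebra R₀ F] [Algebra R₁ F] [Algebra R₀₁ F]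
  [IsScalarTower R₀ R₀₁ F] [IsScalarTower R₁ R₀₁ F]
  [IsScalarTower K R₀ F] [IsScalarTower K R₁ F] [IsScalarTower K R₀₁ F]
  {x₀ : R₀} {y₁ : R₁} (h : IsFFCospan K F R₀₁ x₀ y₁)

namespace IsFFCospan

/-- A tensor product of `O(D)` and `O(D')` is `O(D + D')`, in divisor-class form. -/
theorem add_sub_mem_principal_of_tensor {G G' G'' : GlueDatum K R₀ R₁ R₀₁}
    {D D' D'' : Divisor K F}
    (e : GlueDatum.Iso G (h.ofDivisor D)) (e' : GlueDatum.Iso G' (h.ofDivisor D'))
    (e'' : GlueDatum.Iso G'' (h.ofDivisor D'')) (t : TensorMaps G G' G'') :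
    D + D' - D'' ∈ Divisor.principal (K := K) (F := F) := by
  haveI := h.isDomain₀₁
  haveI := h.frac₀₁
  haveI := h.ff1
  -- the bilinear map on the lattices over the intersection
  let B : ↥(NR R₀₁ ((h.Tz : Set (Place K F)) ∪ h.Ti) h.reg₀₁ D) →ₗ[R₀₁]
      ↥(NR R₀₁ ((h.Tz : Set (Place K F)) ∪ h.Ti) h.reg₀₁ D') →ₗ[R₀₁] F :=
    (t.β₀₁.compl₁₂ e.e₀₁.symm.toLinearMap e'.e₀₁.symm.toLinearMap).compr₂
      ((NR R₀₁ ((h.Tz : Set (Place K F)) ∪ h.Ti) h.reg₀₁ D'').subtype.comp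
        e''.e₀₁.toLinearMap)
  obtain ⟨c, hc⟩ := bilinear_eq_mul B
  have hB : ∀ (n : G.N₀₁) (n' : G'.N₀₁),
      h.val₀₁ D'' (e''.e₀₁ (t.β₀₁ n n')) =
        c * h.val₀₁ D (e.e₀₁ n) * h.val₀₁ D' (e'.e₀₁ n') := by
    intro n n'
    have := hc (e.e₀₁ n) (e'.e₀₁ n')
    have hB' : B (e.e₀₁ n) (e'.e₀₁ n') = h.val₀₁ D'' (e''.e₀₁ (t.β₀₁ n n')) := by
      show h.val₀₁ D'' (e''.e₀₁ (t.β₀₁ (e.e₀₁.symm (e.e₀₁ n)) (e'.e₀₁.symm (e'.e₀₁ n')))) = _
      rw [LinearEquiv.symm_apply_apply, LinearEquiv.symm_apply_apply]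
    rw [← hB']
    exact this
  have h0 : ∀ (s : G.N₀) (s' : G'.N₀),
      h.val₀ D'' (e''.e₀ (t.β₀ s s')) = c * h.val₀ D (e.e₀ s) * h.val₀ D' (e'.e₀ s') := by
    intro s s'
    rw [← h.val₀₁_r₀ D'' (e''.e₀ _), ← e''.comm₀, ← t.comm₀, hB, e.comm₀, e'.comm₀,
      h.val₀₁_r₀, h.val₀₁_r₀]
  have h1 : ∀ (s : G.N₁) (s' : G'.N₁),
      h.val₁ D'' (e''.e₁ (t.β₁ s s')) = c * h.val₁ D (e.e₁ s) * h.val₁ D' (e'.e₁ s') := by
    intro s s'
    rw [← h.val₀₁_r₁ D'' (e''.e₁ _), ← e''.comm₁, ← t.comm₁, hB, e.comm₁, e'.comm₁,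
      h.val₀₁_r₁, h.val₀₁_r₁]
  -- every section of `G''` over the chart `0` is a sum of products
  have hspan0 : ∀ u : G.N₀ ⊗[R₀] G'.N₀, h.val₀ D'' (e''.e₀ (TensorProduct.lift t.β₀ u)) ∈
      AddSubgroup.closure {z : F | ∃ f ∈ LOff (h.Ti : Set (Place K F)) D,
        ∃ g ∈ LOff (h.Ti : Set (Place K F)) D', z = c * f * g} := by
    intro u
    induction u using TensorProduct.induction_on with
    | zero => simp only [map_zero]; exact AddSubgroup.zero_mem _
    | tmul s s' =>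
      rw [TensorProduct.lift.tmul, h0]
      exact AddSubgroup.subset_closure ⟨_, h.val₀_mem D _, _, h.val₀_mem D' _, rfl⟩
    | add a b ha hb => simp only [map_add]; exact AddSubgroup.add_mem _ ha hb
  have hspan1 : ∀ u : G.N₁ ⊗[R₁] G'.N₁, h.val₁ D'' (e''.e₁ (TensorProduct.lift t.β₁ u)) ∈
      AddSubgroup.closure {z : F | ∃ f ∈ LOff (h.Tz : Set (Place K F)) D,
        ∃ g ∈ LOff (h.Tz : Set (Place K F)) D', z = c * f * g} := by
    intro u
    induction u using TensorProduct.induction_on with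
    | zero => simp only [map_zero]; exact AddSubgroup.zero_mem _
    | tmul s s' =>
      rw [TensorProduct.lift.tmul, h1]
      exact AddSubgroup.subset_closure ⟨_, h.val₁_mem D _, _, h.val₁_mem D' _, rfl⟩
    | add a b ha hb => simp only [map_add]; exact AddSubgroup.add_mem _ ha hb
  have hcl0 : ∀ z ∈ LOff (h.Ti : Set (Place K F)) D'', z ∈
      AddSubgroup.closure {z : F | ∃ f ∈ LOff (h.Ti : Set (Place K F)) D,
        ∃ g ∈ LOff (h.Ti : Set (Place K F)) D', z = c * f * g} := by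
    intro z hz
    obtain ⟨u, hu⟩ := t.bijective₀.2 (e''.e₀.symm (h.mk₀ D'' z hz))
    have := hspan0 u
    rwa [hu, LinearEquiv.apply_symm_apply, val₀_mk₀] at this
  have hcl1 : ∀ z ∈ LOff (h.Tz : Set (Place K F)) D'', z ∈
      AddSubgroup.closure {z : F | ∃ f ∈ LOff (h.Tz : Set (Place K F)) D,
        ∃ g ∈ LOff (h.Tz : Set (Place K F)) D', z = c * f * g} := by
    intro z hz
    obtain ⟨u, hu⟩ := t.bijective₁.2 (e''.e₁.symm (h.mk₁ D'' z hz))
    have := hspan1 u
    rwa [hu, LinearEquiv.apply_symm_apply, val₁_mk₁] at this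
  -- `c ≠ 0`
  have hc0 : c ≠ 0 := by
    rintro rfl
    obtain ⟨z, hz0, hz⟩ := exists_ne_zero_mem_LOff h.Ti h.Ti_nonempty D''
    have hzero : ∀ w ∈ AddSubgroup.closure {z : F | ∃ f ∈ LOff (h.Ti : Set (Place K F)) D,
        ∃ g ∈ LOff (h.Ti : Set (Place K F)) D', z = 0 * f * g}, w = 0 := by
      intro w hw
      refine AddSubgroup.closure_induction (p := fun w _ => w = 0) ?_ rfl
        (fun _ _ _ _ ha hb => by rw [ha, hb, add_zero]) (fun _ _ ha => by rw [ha, neg_zero]) hw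
      rintro _ ⟨f, -, g, -, rfl⟩
      rw [zero_mul, zero_mul]
    exact hz0 (hzero z (hcl0 z hz))
  refine ⟨c, hc0, fun v => ?_⟩
  rw [Finsupp.sub_apply, Finsupp.add_apply]
  rcases h.not_mem_Ti_or_not_mem_Tz v with hv | hv
  · have := eq_add_sub_ord_of_mul h.Ti h.Ti_nonempty D D' D'' c hc0
      (fun f hf g hg => by
        have := h.val₀_mem D'' (e''.e₀ (t.β₀ (e.e₀.symm (h.mk₀ D f hf))
          (e'.e₀.symm (h.mk₀ D' g hg))))
        rwa [h0, LinearEquiv.apply_symm_apply, LinearEquiv.apply_symm_apply, val₀_mk₀,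
          val₀_mk₀] at this) hcl0 v hv
    omega
  · have := eq_add_sub_ord_of_mul h.Tz h.Tz_nonempty D D' D'' c hc0
      (fun f hf g hg => by
        have := h.val₁_mem D'' (e''.e₁ (t.β₁ (e.e₁.symm (h.mk₁ D f hf))
          (e'.e₁.symm (h.mk₁ D' g hg))))
        rwa [h1, LinearEquiv.apply_symm_apply, LinearEquiv.apply_symm_apply, val₁_mk₁,
          val₁_mk₁] at this) hcl1 v hv
    omega

end IsFFCospan

end Cospan

end Fermat.Agent.S27.H970

end
end
-- ===== PACK-END S27/H970/PicTensor.lean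

-- ===== PACK-BEGIN S30/H330/KumQZ.lean
section
/-
S30 -- ADIC MODULE LAYER, input (K) from the pieces of S29 sub-layer M4b (helper330).

The Kummer relation `M4b.IsKum N m c x` of helper822 is stated for `ℤ/m`-valued characters; the
adic module layer uses `ℚ/ℤ`-valued characters.  This file provides the dictionary:

* `zmodToQZ m : ZMod m →+ ℚ/ℤ`, `a ↦ a/m` (injective, onto the `m`-torsion);
* `IsKumQZ N m c x` : `x` is the Kummer class of the `ℚ/ℤ`-valued character `c`, at modulus `m`;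
  it is insensitive to the modulus (`IsKumQZ.mul_right`, inflation of helper450);
* `kummerInjStatement_of_packages` : the Kummer packages `H450.KumPackage N (p ^ n)` for all `n`
  (= the seven pieces of M4b at the moduli `p ^ n`) give a Kummer map on the `p`-primary
  parabolic characters with values in `ℚ/ℤ`: additive, injective, Hecke-equivariant
  (`KummerInjStatement N p`).

Only characters of `p`-power order are used, because piece `K4-HECKE` at the modulus `m` is only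
available for the primes `ℓ ∤ N m`.
-/



set_option autoImplicit false

noncomputable section

namespace Fermat.Agent.S30.H330

open Fermat.Agent.S29 Fermat.Agent.S29.M4b ModularCurve Fermat.Agent.S30.H450

/-! ### The embedding `ℤ/m → ℚ/ℤ` -/

/-- `1/m` in `ℚ/ℤ`. -/
def invQZ (m : ℕ) : QZ := (((m : ℚ)⁻¹ : ℚ) : QZ)

theorem nsmul_invQZ (m : ℕ) : m • invQZ m = 0 := by
  rcases Nat.eq_zero_or_pos m with h | h
  · subst h; simp
  · unfold invQZ
    rw [← AddCircle.coe_nsmul, nsmul_eq_mul, mul_inv_cancel₀ (by positivity)]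
    exact AddCircle.coe_period 1

theorem nsmul_invQZ_mul (m d : ℕ) (hd : d ≠ 0) : d • invQZ (m * d) = invQZ m := by
  unfold invQZ
  rw [← AddCircle.coe_nsmul, nsmul_eq_mul]
  congr 1
  have hd' : (d : ℚ) ≠ 0 := by exact_mod_cast hd
  push_cast
  rw [mul_inv, mul_comm (m : ℚ)⁻¹, ← mul_assoc, mul_inv_cancel₀ hd', one_mul]

/-- The embedding `ℤ/m → ℚ/ℤ`, `a ↦ a/m`. -/
def zmodToQZ (m : ℕ) : ZMod m →+ QZ :=
  ZMod.lift m ⟨zmultiplesHom QZ (invQZ m), by
    rw [zmultiplesHom_apply, natCast_zsmul]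
    exact nsmul_invQZ m⟩

theorem zmodToQZ_intCast (m : ℕ) (k : ℤ) : zmodToQZ m (k : ZMod m) = k • invQZ m := by
  unfold zmodToQZ
  rw [ZMod.lift_coe]
  rfl

theorem zmodToQZ_natCast (m : ℕ) (k : ℕ) : zmodToQZ m (k : ZMod m) = k • invQZ m := by
  have := zmodToQZ_intCast m (k : ℤ)
  rwa [Int.cast_natCast, natCast_zsmul] at this

theorem zmodToQZ_eq_val (m : ℕ) [NeZero m] (a : ZMod m) : zmodToQZ m a = a.val • invQZ m := by
  conv_lhs => rw [← ZMod.natCast_zmod_val a]
  exact zmodToQZ_natCast m _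

theorem zmodToQZ_injective (m : ℕ) [NeZero m] : Function.Injective (zmodToQZ m) := by
  rw [injective_iff_map_eq_zero]
  intro a ha
  rw [zmodToQZ_eq_val] at ha
  have hm : (m : ℚ) ≠ 0 := by exact_mod_cast NeZero.ne m
  have hmpos : (0 : ℚ) < m := by exact_mod_cast Nat.pos_of_ne_zero (NeZero.ne m)
  unfold invQZ at ha
  rw [← AddCircle.coe_nsmul, nsmul_eq_mul, AddCircle.coe_eq_zero_iff] at ha
  obtain ⟨n, hn⟩ := ha
  rw [zsmul_eq_mul, mul_one] at hn
  have h1 : (a.val : ℚ) = n * m := by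
    field_simp at hn
    linarith
  have h2 : (a.val : ℤ) = n * m := by exact_mod_cast h1
  have hlt : (a.val : ℤ) < m := by exact_mod_cast ZMod.val_lt a
  have hnn : (0 : ℤ) ≤ a.val := by positivity
  have hmz : (0 : ℤ) < m := by exact_mod_cast Nat.pos_of_ne_zero (NeZero.ne m)
  have hn0 : n = 0 := by
    by_contra hne
    rcases lt_or_gt_of_ne hne with h | h
    · have : n * (m : ℤ) < 0 := mul_neg_of_neg_of_pos h hmz
      omega
    · have : (m : ℤ) ≤ n * m := by nlinarith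
      omega
  rw [hn0, zero_mul] at h2
  have h3 : a.val = 0 := by exact_mod_cast h2
  exact (ZMod.val_eq_zero a).mp h3

theorem exists_zmodToQZ_eq (m : ℕ) [NeZero m] {y : QZ} (hy : m • y = 0) :
    ∃ a : ZMod m, zmodToQZ m a = y := by
  obtain ⟨q, rfl⟩ := QuotientAddGroup.mk_surjective y
  have hm : (m : ℚ) ≠ 0 := by exact_mod_cast NeZero.ne m
  change m • ((q : ℚ) : QZ) = 0 at hy
  rw [← AddCircle.coe_nsmul, nsmul_eq_mul, AddCircle.coe_eq_zero_iff] at hy
  obtain ⟨k, hk⟩ := hy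
  rw [zsmul_eq_mul, mul_one] at hk
  refine ⟨(k : ZMod m), ?_⟩
  rw [zmodToQZ_intCast]
  unfold invQZ
  rw [← AddCircle.coe_zsmul, zsmul_eq_mul]
  congr 1
  rw [hk]
  field_simp

theorem nsmul_zmodToQZ (m : ℕ) (a : ZMod m) : m • zmodToQZ m a = 0 := by
  rw [← map_nsmul]
  have : m • a = 0 := by
    rw [nsmul_eq_mul, ZMod.natCast_self, zero_mul]
  rw [this, map_zero]

/-! ### Characters with values in `ℤ/m` and in `ℚ/ℤ` -/

section Char

variable {N : ℕ}

/-- A `ℤ/m`-valued function is a parabolic character as soon as its image in `ℚ/ℤ` is one. -/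
theorem isParHom_of_zmodToQZ {m : ℕ} [NeZero m] {cm : G0 N → ZMod m} {c : G0 N → QZ}
    (hc : IsParHom c) (h : ∀ γ, zmodToQZ m (cm γ) = c γ) : IsParHom cm where
  map_mul γ γ' := by
    apply zmodToQZ_injective m
    rw [map_add, h, h, h, hc.map_mul]
  parabolic γ hγ := by
    apply zmodToQZ_injective m
    rw [h, map_zero, hc.parabolic γ hγ]
  elliptic γ n hn hγ := by
    apply zmodToQZ_injective m
    rw [h, map_zero, hc.elliptic γ n hn hγ]

/-- A `ℚ/ℤ`-valued function killed by `m` factors through `ℤ/m`. -/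
theorem exists_zmod_char {m : ℕ} [NeZero m] {c : G0 N → QZ} (hm : m • c = 0) :
    ∃ cm : G0 N → ZMod m, ∀ γ, zmodToQZ m (cm γ) = c γ := by
  have h : ∀ γ, ∃ a : ZMod m, zmodToQZ m a = c γ := fun γ =>
    exists_zmodToQZ_eq m (by simpa using congrFun hm γ)
  exact ⟨fun γ => (h γ).choose, fun γ => (h γ).choose_spec⟩

theorem zmodToQZ_inflChar {m d : ℕ} [NeZero m] [NeZero d] (cm : G0 N → ZMod m) (γ : G0 N) :
    zmodToQZ (m * d) (inflChar m d cm γ) = zmodToQZ m (cm γ) := by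
  unfold inflChar
  rw [zmodToQZ_natCast, zmodToQZ_eq_val, mul_comm d, mul_nsmul',
    nsmul_invQZ_mul m d (NeZero.ne d)]

end Char

/-! ### The Kummer relation for `ℚ/ℤ`-valued characters -/

section Rel

variable {N : ℕ} [NeZero N]

/-- `x` is the Kummer class of the `ℚ/ℤ`-valued character `c`, at the modulus `m`. -/
def IsKumQZ (N : ℕ) [NeZero N] (m : ℕ) (c : G0 N → QZ) (x : JZero N) : Prop :=
  ∃ cm : G0 N → ZMod m, (∀ γ, zmodToQZ m (cm γ) = c γ) ∧ IsKum N m cm x

/-- The modulus can be multiplied (inflation, helper450). -/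
theorem IsKumQZ.mul_right {m : ℕ} [NeZero m] {c : G0 N → QZ} {x : JZero N}
    (h : IsKumQZ N m c x) (d : ℕ) [NeZero d] : IsKumQZ N (m * d) c x := by
  obtain ⟨cm, hcm, hk⟩ := h
  exact ⟨inflChar m d cm, fun γ => by rw [zmodToQZ_inflChar, hcm], isKum_infl hk⟩

/-- The level of a Kummer class in the `p`-power tower can be raised. -/
theorem IsKumQZ.pow_le {p : ℕ} [NeZero p] {n n' : ℕ} (hn : n ≤ n') {c : G0 N → QZ}
    {x : JZero N} (h : IsKumQZ N (p ^ n) c x) : IsKumQZ N (p ^ n') c x := by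
  obtain ⟨k, rfl⟩ := Nat.exists_eq_add_of_le hn
  have := h.mul_right (p ^ k)
  rwa [← pow_add] at this

theorem IsKumQZ.unique {m : ℕ} [NeZero m] (H : KumPackage N m) {c : G0 N → QZ}
    {x x' : JZero N} (h : IsKumQZ N m c x) (h' : IsKumQZ N m c x') : x = x' := by
  obtain ⟨cm, hcm, hk⟩ := h
  obtain ⟨cm', hcm', hk'⟩ := h'
  have : cm = cm' := funext fun γ => zmodToQZ_injective m (by rw [hcm, hcm'])
  subst this
  exact H.uniq cm x x' hk hk'

theorem IsKumQZ.add {m : ℕ} (H : KumPackage N m) {c c' : G0 N → QZ}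
    {x x' : JZero N} (h : IsKumQZ N m c x) (h' : IsKumQZ N m c' x') :
    IsKumQZ N m (c + c') (x + x') := by
  obtain ⟨cm, hcm, hk⟩ := h
  obtain ⟨cm', hcm', hk'⟩ := h'
  exact ⟨cm + cm', fun γ => by rw [Pi.add_apply, map_add, hcm, hcm', Pi.add_apply],
    H.add cm cm' x x' hk hk'⟩

theorem IsKumQZ.eq_zero {m : ℕ} (H : KumPackage N m) {c : G0 N → QZ}
    (h : IsKumQZ N m c (0 : JZero N)) : c = 0 := by
  obtain ⟨cm, hcm, hk⟩ := h
  have h0 := H.inj cm hk
  funext γ
  rw [← hcm, h0, Pi.zero_apply, map_zero, Pi.zero_apply]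

theorem IsKumQZ.hecke {m : ℕ} [NeZero m] (H : KumPackage N m) (ℓ : Nat.Primes)
    (hℓ : ¬ (ℓ : ℕ) ∣ N * m) {c : G0 N → QZ} (hc : IsParHom c) {x : JZero N}
    (h : IsKumQZ N m c x) : IsKumQZ N m (heckeCoh N ℓ c) (heckeOperatorBar N ℓ x) := by
  obtain ⟨cm, hcm, hk⟩ := h
  refine ⟨heckeCoh N ℓ cm, fun γ => ?_, H.hecke ℓ hℓ cm x (isParHom_of_zmodToQZ hc hcm) hk⟩
  have h1 := congrFun (heckeCoh_comp (N := N) (ℓ : ℕ) cm (zmodToQZ m)) γ
  rw [← h1]
  congr 1
  funext γ'
  exact hcm γ'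

theorem IsKumQZ.exists {m : ℕ} [NeZero m] (H : KumPackage N m) {c : G0 N → QZ}
    (hc : IsParHom c) (hm : m • c = 0) : ∃ x : JZero N, IsKumQZ N m c x := by
  obtain ⟨cm, hcm⟩ := exists_zmod_char hm
  obtain ⟨x, hx⟩ := H.ex cm (isParHom_of_zmodToQZ hc hcm)
  exact ⟨x, cm, hcm, hx⟩

end Rel

/-! ### The `p`-primary Kummer map -/

/-- INPUT (K'), the `p`-primary form of `KummerStatement` without surjectivity: a Kummer map on
the parabolic characters of `p`-power order with values in `ℚ/ℤ`, additive, injective and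
Hecke-equivariant. -/
def KummerInjStatement (N : ℕ) [NeZero N] (p : ℕ) : Prop :=
  ∃ κ : (G0 N → QZ) → JZero N,
    (∀ c c', IsParHom c → IsParHom c' → (∃ n : ℕ, p ^ n • c = 0) → (∃ n : ℕ, p ^ n • c' = 0) →
      κ (c + c') = κ c + κ c') ∧
    (∀ c, IsParHom c → (∃ n : ℕ, p ^ n • c = 0) → κ c = 0 → c = 0) ∧
    (∀ ℓ : Nat.Primes, ¬ (ℓ : ℕ) ∣ N * p → ∀ c, IsParHom c → (∃ n : ℕ, p ^ n • c = 0) →
      κ (heckeCoh N ℓ c) = heckeOperatorBar N ℓ (κ c))

/-- INPUT (F): finiteness of the `p`-torsion of `J₀(N)(ℚ̄)`. -/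
def FinStatement (N : ℕ) [NeZero N] (p : ℕ) : Prop :=
  {x : JZero N | p • x = 0}.Finite

section Tower

variable {N : ℕ} [NeZero N] {p : ℕ}

open Classical in
/-- The Kummer map on `ℚ/ℤ`-valued characters: THE Kummer class at some level of the `p`-power
tower (and `0` if there is none). -/
def kumQZ (N : ℕ) [NeZero N] (p : ℕ) (c : G0 N → QZ) : JZero N :=
  if h : ∃ x : JZero N, ∃ n : ℕ, IsKumQZ N (p ^ n) c x then h.choose else 0

theorem kumQZ_eq [NeZero p] (H : ∀ n, KumPackage N (p ^ n)) {c : G0 N → QZ} {x : JZero N}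
    {n : ℕ} (h : IsKumQZ N (p ^ n) c x) : kumQZ N p c = x := by
  have h' : ∃ x : JZero N, ∃ n : ℕ, IsKumQZ N (p ^ n) c x := ⟨x, n, h⟩
  rw [kumQZ, dif_pos h']
  obtain ⟨n', hn'⟩ := h'.choose_spec
  exact IsKumQZ.unique (H (max n n')) (hn'.pow_le (le_max_right n n'))
    (h.pow_le (le_max_left n n'))

theorem isKumQZ_kumQZ [NeZero p] (H : ∀ n, KumPackage N (p ^ n)) {c : G0 N → QZ}
    (hc : IsParHom c) {n : ℕ} (hn : p ^ n • c = 0) : IsKumQZ N (p ^ n) c (kumQZ N p c) := by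
  obtain ⟨x, hx⟩ := IsKumQZ.exists (H n) hc hn
  rw [kumQZ_eq H hx]
  exact hx

theorem nsmul_eq_zero_of_le {A : Type*} [AddCommMonoid A] {p n n' : ℕ} (h : n ≤ n') {c : A}
    (hc : p ^ n • c = 0) : p ^ n' • c = 0 := by
  obtain ⟨k, rfl⟩ := Nat.exists_eq_add_of_le h
  rw [pow_add, mul_comm, mul_nsmul', hc, nsmul_zero]

/-- **Input (K') from the pieces of M4b** at the moduli `p ^ n`. -/
theorem kummerInjStatement_of_packages [NeZero p] (H : ∀ n, KumPackage N (p ^ n)) :
    KummerInjStatement N p := by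
  refine ⟨kumQZ N p, ?_, ?_, ?_⟩
  · rintro c c' hc hc' ⟨n, hn⟩ ⟨n', hn'⟩
    have h1 := isKumQZ_kumQZ H hc (nsmul_eq_zero_of_le (le_max_left n n') hn)
    have h2 := isKumQZ_kumQZ H hc' (nsmul_eq_zero_of_le (le_max_right n n') hn')
    exact kumQZ_eq H (IsKumQZ.add (H _) h1 h2)
  · rintro c hc ⟨n, hn⟩ h0
    have h1 := isKumQZ_kumQZ H hc hn
    rw [h0] at h1
    exact IsKumQZ.eq_zero (H n) h1
  · rintro ℓ hℓ c hc ⟨n, hn⟩
    have h1 := isKumQZ_kumQZ H hc hn
    exact kumQZ_eq H (IsKumQZ.hecke (H n) ℓ (not_dvd_mul_pow ℓ.2 hℓ n) hc h1)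

end Tower

end Fermat.Agent.S30.H330

end
end
-- ===== PACK-END S30/H330/KumQZ.lean

-- ===== PACK-BEGIN S35/G/H60/NormRedFinal.lean
section



/-!
# S35 (G') / TORIC / NORM-RED, unconditional (helper60)

`normRed : NormRedStatement A E M q w` = `normRedAsm` (helper60) applied to NOT-POW
(`H986.notPow`, helper986).
-/

set_option autoImplicit false

namespace Fermat.Agent.S35.G.H60

open Fermat.Agent.A2.Mod

/-- **NORM-RED**, unconditional: norm reduction along `α`. -/
theorem normRed (A : ValuationSubring _root_.Fermat.Agent.S35.G.Qb) (E : IntermediateField ℚ _root_.Fermat.Agent.S35.G.Qb) (M q : ℕ) [NeZero M]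
    [NeZero q] (w : RE A E) : NormRedStatement A E M q w :=
  normRedAsm A E M q w (H986.notPow A E M q w)

end Fermat.Agent.S35.G.H60

end
-- ===== PACK-END S35/G/H60/NormRedFinal.lean

-- ===== PACK-BEGIN S35/H155/B2Geom.lean
section
/-
S35 / cell FROB, leaf B2 (helper155), GEOMETRIC form: the degeneracy push-forwards
`pushA`, `pushB : J₀(N q) → J₀(N)` commute with `T_ℓ` on ALL of `J₀(N q)(ℚ̄)`, for every prime
`ℓ ≠ q` (no torsion hypothesis, no torsion relations).

Source: helper801's `Ribet/H801/{DegAlpha,DegBeta}.lean` (base change along the mixed squares);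
this file identifies `pushA = alphaPush`, `pushB = betaPush` and restates the result for the
S35 interface (`IsQNew`).
-/



set_option autoImplicit false
set_option linter.style.haveILetI false

noncomputable section

namespace Fermat.Agent.S35.H155

open AlgebraicCurve ModularCurve

variable (N q : ℕ) [NeZero N] [NeZero q]

theorem pushA_eq_alphaPush : pushA N q = Fermat.Agent.Ribet.H801.alphaPush N q := by
  refine AddMonoidHom.ext fun x => ?_
  obtain ⟨D, rfl⟩ := Pic0.mk_surjective x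
  rfl

theorem pushB_eq_betaPush : pushB N q = Fermat.Agent.Ribet.H801.betaPush N q := by
  refine AddMonoidHom.ext fun x => ?_
  obtain ⟨D, rfl⟩ := Pic0.mk_surjective x
  rfl

/-- **`α_*` is Hecke-equivariant** on all of `J₀(N q)`: `α_* (T_ℓ x) = T_ℓ (α_* x)`, `ℓ ≠ q`. -/
theorem pushA_heckeOperatorBar (hq : q.Prime) (ℓ : Nat.Primes) (hne : (ℓ : ℕ) ≠ q)
    (x : JZero (N * q)) :
    pushA N q (heckeOperatorBar (N * q) ℓ x) = heckeOperatorBar N ℓ (pushA N q x) := by
  rw [pushA_eq_alphaPush]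
  exact Fermat.Agent.Ribet.H801.alphaPush_heckeOperatorBar N q hq ℓ hne x

/-- **`β_*` is Hecke-equivariant** on all of `J₀(N q)`: `β_* (T_ℓ x) = T_ℓ (β_* x)`, `ℓ ≠ q`. -/
theorem pushB_heckeOperatorBar (hq : q.Prime) (ℓ : Nat.Primes) (hne : (ℓ : ℕ) ≠ q)
    (x : JZero (N * q)) :
    pushB N q (heckeOperatorBar (N * q) ℓ x) = heckeOperatorBar N ℓ (pushB N q x) := by
  rw [pushB_eq_betaPush]
  exact Fermat.Agent.Ribet.H801.betaPush_heckeOperatorBar N q hq ℓ hne x

variable {N q}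

/-- `T_ℓ` (`ℓ ≠ q`) preserves `q`-new classes (no torsion hypothesis). -/
theorem IsQNew.heckeOperatorBar (hq : q.Prime) (ℓ : Nat.Primes) (hne : (ℓ : ℕ) ≠ q)
    {x : JZero (N * q)} (hx : IsQNew N q x) : IsQNew N q (heckeOperatorBar (N * q) ℓ x) :=
  ⟨by rw [pushA_heckeOperatorBar N q hq ℓ hne, hx.1, map_zero],
   by rw [pushB_heckeOperatorBar N q hq ℓ hne, hx.2, map_zero]⟩

/-- Polynomial form: every element of the abstract Hecke algebra supported away from `q`
commutes with `α_*` and `β_*`. -/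
theorem push_heckeEvalBar (hq : q.Prime) (hc' : HeckeOperatorsCommuteBar (N * q))
    (hc : HeckeOperatorsCommuteBar N) (t : HeckeAlg)
    (ht : t ∈ MvPolynomial.supported ℤ {ℓ : Nat.Primes | (ℓ : ℕ) ≠ q}) (x : JZero (N * q)) :
    pushA N q (heckeEvalBar hc' t x) = heckeEvalBar hc t (pushA N q x) ∧
      pushB N q (heckeEvalBar hc' t x) = heckeEvalBar hc t (pushB N q x) := by
  rw [MvPolynomial.supported_eq_adjoin_X] at ht
  induction ht using Algebra.adjoin_induction generalizing x with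
  | mem t ht =>
    obtain ⟨ℓ, hℓ, rfl⟩ := ht
    rw [show (MvPolynomial.X ℓ : HeckeAlg) = heckeGen ℓ from rfl, heckeEvalBar_heckeGen,
      heckeEvalBar_heckeGen]
    exact ⟨pushA_heckeOperatorBar N q hq ℓ hℓ x, pushB_heckeOperatorBar N q hq ℓ hℓ x⟩
  | algebraMap r =>
    rw [MvPolynomial.algebraMap_eq, heckeEvalBar_C, heckeEvalBar_C, Module.End.intCast_apply,
      Module.End.intCast_apply, map_zsmul, map_zsmul]
    exact ⟨rfl, rfl⟩
  | add a b _ _ ha hb =>
    rw [map_add, map_add, LinearMap.add_apply, LinearMap.add_apply, map_add, map_add,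
      (ha x).1, (hb x).1, (ha x).2, (hb x).2]
    exact ⟨rfl, rfl⟩
  | mul a b _ _ ha hb =>
    rw [map_mul, map_mul, Module.End.mul_apply, Module.End.mul_apply, (ha _).1, (hb x).1,
      (ha _).2, (hb x).2]
    exact ⟨rfl, rfl⟩

/-- **KILLER ⇒ `q`-new**, geometric form: if `t` (supported away from `q`) kills `J₀(N)`,
then `t • y` is `q`-new for every `y ∈ J₀(N q)`. -/
theorem isQNew_heckeEvalBar_of_kills (hq : q.Prime) (hc' : HeckeOperatorsCommuteBar (N * q))
    (hc : HeckeOperatorsCommuteBar N) (t : HeckeAlg)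
    (ht : t ∈ MvPolynomial.supported ℤ {ℓ : Nat.Primes | (ℓ : ℕ) ≠ q})
    (P : JZero N → Prop) (hkill : ∀ z : JZero N, P z → heckeEvalBar hc t z = 0)
    (y : JZero (N * q)) (hA : P (pushA N q y)) (hB : P (pushB N q y)) :
    IsQNew N q (heckeEvalBar hc' t y) :=
  ⟨by rw [(push_heckeEvalBar hq hc' hc t ht y).1]; exact hkill _ hA,
   by rw [(push_heckeEvalBar hq hc' hc t ht y).2]; exact hkill _ hB⟩

end Fermat.Agent.S35.H155

end

end
-- ===== PACK-END S35/H155/B2Geom.lean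

-- ===== PACK-BEGIN S29/H871/Inj.lean
section



/-!
# S29 / E3, part 8: injectivity of base change on `Pic0`

`G` acts semilinearly on `F'/K'`, fixing `F` pointwise, with `F'^G = F`.  Then
`Pic0 K F → Pic0 K' F'` is injective.

(helper871)
-/

set_option autoImplicit false
set_option linter.unusedSectionVars false

noncomputable section

namespace Fermat.Agent.S29.H871

open AlgebraicCurve TensorProduct IntermediateField
open Fermat.Agent.S24.H117 (mem_iff_ord_nonneg ord_pow ord_add_eq_of_lt place_ext_of_le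
  mem_of_ord_nonneg ord_nonneg_of_mem exists_ord_eq_one ord_div)

variable {K F K' F' : Type*} [Field K] [Field F] [Field K'] [Field F']
  [Algebra K F] [Algebra K' F'] [Algebra K K'] [Algebra F F'] [Algebra K F']
  [IsScalarTower K F F'] [IsScalarTower K K' F']

variable (K F) in
/-- A group acting semilinearly on `F'/K'`, fixing `F` pointwise, with fixed field `F`, such that
the elements of `K'` with finite orbit lie in `K`. -/
structure IsDescentAction {G : Type*} [Group G] (θ : G →* SemilinearAut K' F') : Prop where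
  fixes : ∀ (g : G) (f : F), θ g • algebraMap F F' f = algebraMap F F' f
  fixed : ∀ x : F', (∀ g : G, θ g • x = x) → x ∈ (algebraMap F F').range
  finite_orbit : ∀ c : K', (Set.range fun g : G => SemilinearAut.baseAut (θ g) c).Finite →
    c ∈ (algebraMap K K').range

section Action

variable {G : Type*} [Group G] {θ : G →* SemilinearAut K' F'} (hθ : IsDescentAction K F θ)

theorem ord_smul_eq (g : SemilinearAut K' F') (w : Place K' F') (x : F') :
    w.ord (g • x) = (g⁻¹ • w).ord x := by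
  have h := SemilinearAut.ord_smul g⁻¹ w (g • x)
  rw [inv_smul_smul] at h
  exact h.symm

theorem ord_smul_place (g : SemilinearAut K' F') (w : Place K' F') (x : F') :
    (g • w).ord x = w.ord (g⁻¹ • x) := by
  rw [ord_smul_eq, inv_inv]

variable [IsConstExt K F K' F'] [IsAlgClosed K] [CharZero K] [IsAlgClosed K']
variable {t : F} (ht : Transcendental K t) [FiniteDimensional K⟮t⟯ F]

include hθ in
theorem ord_smul_algebraMap (g : G) (w : Place K' F') (f : F) :
    (θ g • w).ord (algebraMap F F' f) = w.ord (algebraMap F F' f) := by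
  have h := SemilinearAut.ord_smul (θ g) w (algebraMap F F' f)
  rwa [hθ.fixes] at h

include hθ in
/-- Base-changed places are fixed by the descent action. -/
theorem smul_bcPlace (g : G) (v : Place K F) :
    θ g • bcPlace K' F' ht v = bcPlace K' F' ht v := by
  obtain ⟨π, hπ⟩ := IsDiscreteValuationRing.exists_irreducible v.toValuationSubring
  refine (placeBC_eq_of_le (isRationalPlace_all ht v) (θ g • bcPlace K' F' ht v) ?_ hπ ?_).symm
  · intro f hf
    rw [ord_smul_algebraMap hθ, ord_bcPlace]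
    exact ord_nonneg_of_mem v hf
  · rw [ord_smul_algebraMap hθ, ord_bcPlace, v.ord_coe_irreducible hπ]
    exact one_pos

include hθ in
theorem smul_bcDiv (g : G) (D : Divisor K F) :
    θ g • bcDiv K' F' ht D = bcDiv K' F' ht D := by
  induction D using Finsupp.induction with
  | zero => simp
  | single_add v n D _ _ ih =>
    rw [map_add, smul_add, ih, bcDiv_single, SemilinearAut.smul_single, smul_bcPlace hθ]

end Action

section Const

variable [IsAlgClosed K'] [CharZero K']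

/-- An element of `F'` all of whose orders vanish is a nonzero constant. -/
theorem exists_const_of_forall_ord_eq_zero {t' : F'} (ht' : Transcendental K' t')
    [FiniteDimensional K'⟮t'⟯ F'] {x : F'} (hx0 : x ≠ 0) (hx : ∀ w : Place K' F', w.ord x = 0) :
    ∃ c : K', c ≠ 0 ∧ x = algebraMap K' F' c := by
  obtain ⟨c, hc⟩ := mem_range_of_forall_ord_le (K := K') ht' (fun w => (hx w).le)
  refine ⟨c, ?_, hc.symm⟩
  rintro rfl
  rw [map_zero] at hc
  exact hx0 hc.symm

end Const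

section InMax

variable (P : Place K' F')

/-- `a` lies in the maximal ideal of `P`. -/
def InMax (a : F') : Prop := a = 0 ∨ 0 < P.ord a

variable {P}

theorem InMax.add {a b : F'} (ha : InMax P a) (hb : InMax P b) : InMax P (a + b) := by
  have ha' : a = 0 ∨ (0 + 1 : ℤ) ≤ P.ord a := ha.imp id (fun h => by omega)
  have hb' : b = 0 ∨ (0 + 1 : ℤ) ≤ P.ord b := hb.imp id (fun h => by omega)
  exact (Fermat.Agent.S24.le_ord_add P ha' hb').imp id (fun h => by omega)

theorem InMax.neg {a : F'} (ha : InMax P a) : InMax P (-a) := by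
  rcases ha with h | h
  · left; rw [h, neg_zero]
  · right; rwa [Fermat.Agent.S24.ord_neg]

theorem InMax.sub {a b : F'} (ha : InMax P a) (hb : InMax P b) : InMax P (a - b) := by
  rw [sub_eq_add_neg]
  exact ha.add hb.neg

theorem InMax.const_mul {a : F'} (c : K') (ha : InMax P a) : InMax P (algebraMap K' F' c * a) := by
  rcases ha with h | h
  · left; rw [h, mul_zero]
  · by_cases hc : c = 0
    · left; rw [hc, map_zero, zero_mul]
    · right
      have hcF : algebraMap K' F' c ≠ 0 := by simpa using hc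
      have ha0 : a ≠ 0 := by
        rintro rfl
        rw [P.ord_zero] at h
        exact lt_irrefl _ h
      rw [P.ord_mul hcF ha0, Fermat.Agent.S24.FF.ord_algebraMap, zero_add]
      exact h

theorem InMax.const_eq_zero {c : K'} (h : InMax P (algebraMap K' F' c)) : c = 0 := by
  rcases h with h | h
  · exact (algebraMap K' F').injective (by rw [h, map_zero])
  · rw [Fermat.Agent.S24.FF.ord_algebraMap] at h
    exact absurd h (lt_irrefl _)

theorem inMax_of_mem_nonunits {a : F'} (h : a ∈ P.toValuationSubring.nonunits) : InMax P a := by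
  by_cases ha : a = 0
  · exact Or.inl ha
  · exact Or.inr ((Fermat.Agent.S24.FF.ord_pos_iff_mem_nonunits P ha).mpr h)

theorem InMax.smul {a : F'} (g : SemilinearAut K' F') (hg : g⁻¹ • P = P) (ha : InMax P a) :
    InMax P (g • a) := by
  rcases ha with h | h
  · left; rw [h, smul_zero]
  · right; rw [ord_smul_eq, hg]; exact h

end InMax

section Inj

variable {G : Type*} [Group G] {θ : G →* SemilinearAut K' F'} (hθ : IsDescentAction K F θ)
variable [IsConstExt K F K' F'] [IsAlgClosed K] [CharZero K] [IsAlgClosed K'] [CharZero K']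
variable {t : F} (ht : Transcendental K t) [FiniteDimensional K⟮t⟯ F]

include hθ in
/-- **Rigidity**: an element of `F'` whose divisor is `G`-invariant and which takes the value `1`
at a base-changed place is `G`-invariant. -/
theorem smul_eq_self_of_ord_invariant {z : F'} (hz0 : z ≠ 0)
    (hz : ∀ (g : G) (w : Place K' F'), w.ord (θ g • z) = w.ord z)
    (v₀ : Place K F) (h1 : InMax (bcPlace K' F' ht v₀) (z - 1)) (g : G) : θ g • z = z := by
  have hfd := finiteDimensional_adjoin_algebraMap (K := K) (K' := K') (F' := F') t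
  have ht' := transcendental_algebraMap (K' := K') (F' := F') ht
  set P := bcPlace K' F' ht v₀ with hP
  have hgz0 : θ g • z ≠ 0 := by
    rw [SemilinearAut.smul_def]
    simpa using hz0
  have hq : ∀ w : Place K' F', w.ord (θ g • z / z) = 0 := by
    intro w
    rw [ord_div w hgz0 hz0, hz]
    ring
  obtain ⟨d, hd0, hd⟩ := exists_const_of_forall_ord_eq_zero ht' (div_ne_zero hgz0 hz0) hq
  have hgz : θ g • z = algebraMap K' F' d * z := by
    rw [← hd]; field_simp
  have hgP : (θ g)⁻¹ • P = P := by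
    rw [hP, ← map_inv, smul_bcPlace hθ]
  have h2 : InMax P (θ g • z - 1) := by
    have := h1.smul (θ g) hgP
    rwa [smul_sub, smul_one] at this
  have h3 : InMax P (algebraMap K' F' d * (z - 1)) := h1.const_mul d
  have h4 : InMax P (algebraMap K' F' (d - 1)) := by
    have := h2.sub h3
    rw [hgz] at this
    have heq : algebraMap K' F' d * z - 1 - algebraMap K' F' d * (z - 1)
        = algebraMap K' F' (d - 1) := by
      rw [map_sub, map_one]; ring
    rwa [heq] at this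
  have hd1 : d = 1 := sub_eq_zero.mp h4.const_eq_zero
  rw [hgz, hd1, map_one, one_mul]

include hθ in
/-- If the base change of `D` is the divisor of `x ∈ F'`, then `x` is a constant multiple of an
element of `F`. -/
theorem exists_algebraMap_of_bcDiv_eq {D : Divisor K F} {x : F'} (hx0 : x ≠ 0)
    (hx : ∀ w : Place K' F', bcDiv K' F' ht D w = w.ord x) :
    ∃ (c : K') (f : F), c ≠ 0 ∧ f ≠ 0 ∧ x = algebraMap K' F' c * algebraMap F F' f := by
  have hfd := finiteDimensional_adjoin_algebraMap (K := K) (K' := K') (F' := F') t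
  have ht' := transcendental_algebraMap (K' := K') (F' := F') ht
  -- a base place and a uniformizer
  obtain ⟨v₀, _⟩ := exists_ord_pos (K := K) ht
  obtain ⟨π, hπ0, hπ⟩ := exists_ord_eq_one v₀
  set P := bcPlace K' F' ht v₀ with hP
  have hPπ : P.ord (algebraMap F F' π) = 1 := by rw [hP, ord_bcPlace, hπ]
  set n := P.ord x with hn
  have hpn0 : π ^ (-n) ≠ 0 := zpow_ne_zero _ hπ0
  have hpn0' : algebraMap F F' (π ^ (-n)) ≠ 0 := fun h =>
    hpn0 ((algebraMap F F').injective (by rw [h, map_zero]))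
  set y := x * algebraMap F F' (π ^ (-n)) with hy
  have hy0 : y ≠ 0 := mul_ne_zero hx0 hpn0'
  have hyord : P.ord y = 0 := by
    rw [hy, P.ord_mul hx0 hpn0', hP, ord_bcPlace, v₀.ord_zpow, hπ, ← hP]
    omega
  -- the value of `y` at `P`
  have hPrat : IsRationalPlace P := isRationalPlace_of_isAlgClosed P ht'
  obtain ⟨c, hc⟩ := hPrat y (mem_of_ord_nonneg P hyord.ge)
  have hyc : InMax P (y - algebraMap K' F' c) := inMax_of_mem_nonunits hc
  have hc0 : c ≠ 0 := by
    rintro rfl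
    rw [map_zero, sub_zero] at hyc
    rcases hyc with h | h
    · exact hy0 h
    · omega
  have hcF : algebraMap K' F' c⁻¹ ≠ 0 := by simpa using hc0
  set z := algebraMap K' F' c⁻¹ * y with hz
  have hz0 : z ≠ 0 := mul_ne_zero hcF hy0
  have hz1 : InMax P (z - 1) := by
    have := hyc.const_mul c⁻¹
    have heq : algebraMap K' F' c⁻¹ * (y - algebraMap K' F' c) = z - 1 := by
      rw [hz, mul_sub, ← map_mul, inv_mul_cancel₀ hc0, map_one]
    rwa [heq] at this
  have hzord : ∀ (g : G) (w : Place K' F'), w.ord (θ g • z) = w.ord z := by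
    intro g w
    rw [ord_smul_eq, hz, hy]
    rw [((θ g)⁻¹ • w).ord_mul hcF hy0, w.ord_mul hcF hy0,
      ((θ g)⁻¹ • w).ord_mul hx0 hpn0', w.ord_mul hx0 hpn0',
      Fermat.Agent.S24.FF.ord_algebraMap, Fermat.Agent.S24.FF.ord_algebraMap,
      ← map_inv, ord_smul_algebraMap hθ, ← hx, ← hx]
    have h1 : bcDiv K' F' ht D (θ g⁻¹ • w) = bcDiv K' F' ht D w := by
      have h := congrArg (fun E : Divisor K' F' => E w) (smul_bcDiv hθ ht g D)
      simp only [SemilinearAut.divisor_smul_apply] at h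
      rwa [← map_inv] at h
    rw [h1]
  have hfix : ∀ g : G, θ g • z = z := smul_eq_self_of_ord_invariant hθ ht hz0 hzord v₀ hz1
  obtain ⟨f₀, hf₀⟩ := hθ.fixed z hfix
  have hf₀0 : f₀ ≠ 0 := by
    rintro rfl
    rw [map_zero] at hf₀
    exact hz0 hf₀.symm
  refine ⟨c, f₀ * π ^ n, hc0, mul_ne_zero hf₀0 (zpow_ne_zero _ hπ0), ?_⟩
  have hcF' : algebraMap K' F' c ≠ 0 := by simpa using hc0
  have hπ' : algebraMap F F' π ≠ 0 := by simpa using hπ0
  rw [map_mul, hf₀, hz, hy, map_zpow₀, map_zpow₀, map_inv₀]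
  field_simp
  rw [zpow_neg]
  field_simp

include hθ in
/-- **Descent of principality**: if the base change of `D` is principal, so is `D`. -/
theorem mem_principal_of_bcDiv_mem_principal {D : Divisor K F}
    (hD : bcDiv K' F' ht D ∈ Divisor.principal (K := K') (F := F')) :
    D ∈ Divisor.principal (K := K) (F := F) := by
  obtain ⟨x, hx0, hx⟩ := hD
  obtain ⟨c, f, hc0, hf0, hxf⟩ := exists_algebraMap_of_bcDiv_eq hθ ht hx0 hx
  refine ⟨f, hf0, fun v => ?_⟩
  have hcF : algebraMap K' F' c ≠ 0 := by simpa using hc0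
  have hfF : algebraMap F F' f ≠ 0 := by simpa using hf0
  rw [← bcDiv_apply_bcPlace (K' := K') (F' := F') ht D v, hx, hxf,
    (bcPlace K' F' ht v).ord_mul hcF hfF, Fermat.Agent.S24.FF.ord_algebraMap, zero_add,
    ord_bcPlace]

include hθ in
/-- **E3 (a)**: base change is injective on `Pic0`. -/
theorem bcPic0_injective : Function.Injective (bcPic0 K' F' ht) := by
  rw [injective_iff_map_eq_zero]
  intro x hx
  obtain ⟨D, rfl⟩ := Pic0.mk_surjective x
  rw [bcPic0_mk] at hx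
  have h1 : bcDegZero K' F' ht D ∈ (Divisor.principal (K := K') (F := F')).addSubgroupOf
      (Divisor.degZero (K := K') (F := F')) := (QuotientAddGroup.eq_zero_iff _).mp hx
  rw [AddSubgroup.mem_addSubgroupOf, coe_bcDegZero] at h1
  have h2 := mem_principal_of_bcDiv_mem_principal hθ ht h1
  exact (QuotientAddGroup.eq_zero_iff _).mpr (AddSubgroup.mem_addSubgroupOf.mpr h2)

end Inj

end Fermat.Agent.S29.H871

end
end
-- ===== PACK-END S29/H871/Inj.lean

-- ===== PACK-BEGIN S35/H909/QNewOfKummer.lean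
section





/-!
# S35 / cell FROB, leaf QNF, part Q0: the Kummer form of QNF implies QNF on `J₀(M' q)`
(helper909)

`qNewFrob_of_kummer : H891.KummerQNewFrobStatement → H891.QNewFrobStatement`.

`x = [D]` `q`-new (`α_* D = div a`, `β_* D = div b`), `m x = 0`, `m D = div f`.  By the norm
formula (`S29.H812`), `div (N_α f) = α_* (div f) = m · div a`, hence `N_α f = c · a ^ m` with a
constant `c`, an `m`-th power in `ℚ̄`; same for `β`.  The Kummer statement gives the cubic identity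
for `φ = s²`, and `cubic_of_kummer` translates it to `Pic0`.
-/

set_option autoImplicit false

noncomputable section

namespace Fermat.Agent.S35.H909

open AlgebraicCurve ModularCurve Fermat.Agent.A2 Fermat.Agent.S35.H891

/-- A function on a modular curve whose divisor is `m` times a principal divisor `div a` is an
`m`-th power (the constant is absorbed: `ℚ̄` is algebraically closed). -/
theorem exists_pow_eq_of_ord (M : ℕ) [NeZero M] (m : ℕ) (hm : 0 < m)
    {y a : modularFunctionFieldBar M} (hy : y ≠ 0) (ha : a ≠ 0)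
    (h : ∀ v : Place Qb (modularFunctionFieldBar M), v.ord y = (m : ℤ) * v.ord a) :
    ∃ b : modularFunctionFieldBar M, b ≠ 0 ∧ y = b ^ m := by
  obtain ⟨t, ht, hfin⟩ := Fermat.Agent.S29.H812.exists_coord_modular M
  haveI := hfin
  have hz0 : y * (a ^ m)⁻¹ ≠ 0 := mul_ne_zero hy (inv_ne_zero (pow_ne_zero _ ha))
  have hz : ∀ w : Place Qb (modularFunctionFieldBar M), w.ord (y * (a ^ m)⁻¹) = 0 := by
    intro w
    rw [Fermat.Agent.A2.H129.ord_div w hy (pow_ne_zero _ ha), Fermat.Agent.A2.H129.ord_pow, h w,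
      sub_self]
  obtain ⟨c, hc, hcy⟩ :=
    Fermat.Agent.S29.H871.exists_const_of_forall_ord_eq_zero (K' := Qb) ht hz0 hz
  obtain ⟨c₁, hc₁⟩ := IsAlgClosed.exists_pow_nat_eq c hm
  have hc₁0 : c₁ ≠ 0 := by
    rintro rfl
    rw [zero_pow hm.ne'] at hc₁
    exact hc hc₁.symm
  refine ⟨algebraMap Qb (modularFunctionFieldBar M) c₁ * a,
    mul_ne_zero (by simpa using hc₁0) ha, ?_⟩
  rw [mul_pow, ← map_pow, hc₁, ← hcy, mul_assoc, inv_mul_cancel₀ (pow_ne_zero _ ha), mul_one]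

/-- **Q0.**  The Kummer form of QNF implies QNF on `J₀(M' q)`. -/
theorem qNewFrob_of_kummer (hK : KummerQNewFrobStatement) : QNewFrobStatement := by
  intro M' q m _ _ hq hqM hm hqm P hP s hs x hx hnew
  haveI : NeZero (M' * q) := ⟨Nat.mul_ne_zero (NeZero.ne M') (NeZero.ne q)⟩
  obtain ⟨hα, hβ, D, rfl, ⟨a, ha, haD⟩, ⟨b, hb, hbD⟩⟩ := hnew
  -- the Kummer generator
  have hprin : ((m • D : Divisor.degZero (K := Qb) (F := modularFunctionFieldBar (M' * q))) :
      Divisor Qb (modularFunctionFieldBar (M' * q))) ∈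
      Divisor.principal (K := Qb) (F := modularFunctionFieldBar (M' * q)) := by
    have h0 : Pic0.mk (m • D) = 0 := hx
    have := (QuotientAddGroup.eq_zero_iff (m • D)).1 h0
    simpa [AddSubgroup.mem_addSubgroupOf] using this
  obtain ⟨f, hf, hfD⟩ := hprin
  have hfD' : ∀ v : Place Qb (modularFunctionFieldBar (M' * q)),
      v.ord f = (m : ℤ) * (D : Divisor Qb (modularFunctionFieldBar (M' * q))) v := by
    intro v
    rw [← hfD v]
    simp [Finsupp.smul_apply]
  have hfD'' : ∀ w : Place Qb (modularFunctionFieldBar (M' * q)),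
      ((m : ℤ) • (D : Divisor Qb (modularFunctionFieldBar (M' * q)))) w = w.ord f := by
    intro w
    rw [Finsupp.smul_apply, smul_eq_mul, hfD' w]
  -- the norm formula for `α` and `β`
  haveI hPD : HasPrincipalDivisors Qb (modularFunctionFieldBar (M' * q)) :=
    Fermat.Agent.Lib.RR.H864.hasPrincipalDivisors_modularFunctionFieldBar (M' * q)
  have hF := Fermat.Agent.S29.H812.exists_coord_modular M'
  have hfinα := Fermat.Agent.S29.H812.finiteAlong_heckeAlphaBar M' q
  have hfinβ := Fermat.Agent.S29.H812.finiteAlong_heckeBetaBar M' q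
  have hNα := Fermat.Agent.S29.H812.normFormulaAlong hF (heckeAlphaBar Qb M' q) hfinα
  have hNβ := Fermat.Agent.S29.H812.normFormulaAlong hF (heckeBetaBar Qb M' q) hfinβ
  have hordα : ∀ v : Place Qb (modularFunctionFieldBar M'),
      v.ord (Fermat.Agent.S29.H395.normAlong (heckeAlphaBar Qb M' q) f) = (m : ℤ) * v.ord a := by
    intro v
    rw [← Fermat.Agent.S29.H395.pushforwardAlong_apply_eq_ord (heckeAlphaBar Qb M' q) hα hfinα hNα
      hf hfD'' v, map_zsmul, Finsupp.smul_apply, smul_eq_mul, haD v]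
  have hordβ : ∀ v : Place Qb (modularFunctionFieldBar M'),
      v.ord (Fermat.Agent.S29.H395.normAlong (heckeBetaBar Qb M' q) f) = (m : ℤ) * v.ord b := by
    intro v
    rw [← Fermat.Agent.S29.H395.pushforwardAlong_apply_eq_ord (heckeBetaBar Qb M' q) hβ hfinβ hNβ
      hf hfD'' v, map_zsmul, Finsupp.smul_apply, smul_eq_mul, hbD v]
  have hα' := exists_pow_eq_of_ord M' m hm
    (Fermat.Agent.S29.H395.normAlong_ne_zero _ hfinα hf) ha hordα
  have hβ' := exists_pow_eq_of_ord M' m hm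
    (Fermat.Agent.S29.H395.normAlong_ne_zero _ hfinβ hf) hb hordβ
  obtain ⟨h, hh, hid⟩ := hK M' q m hq hqM hm hqm P hP s hs f hf (fun v => ⟨_, hfD' v⟩) hα' hβ'
  -- translate to `Pic0`
  set g₁ := arithmeticGalois (L := Qb) (modularFunctionFieldFull (M' * q)) s with hg₁
  have hact : ∀ k : modularFunctionFieldBar (M' * q),
      SemilinearAut.toRingAut (g₁ * g₁) k = actSq (M' * q) s k := by
    intro k
    rw [SemilinearAut.toRingAut_mul, hg₁, toRingAut_arithmeticGalois]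
    rfl
  have hid' : SemilinearAut.toRingAut (g₁ * g₁)
        (SemilinearAut.toRingAut (g₁ * g₁) (SemilinearAut.toRingAut (g₁ * g₁) f)) *
        (SemilinearAut.toRingAut (g₁ * g₁) f) ^ (1 + 2 * q ^ 2) =
      h ^ m * (SemilinearAut.toRingAut (g₁ * g₁) (SemilinearAut.toRingAut (g₁ * g₁) f)) ^ (2 + q ^ 2)
        * f ^ q ^ 2 := by
    rw [hact, hact, hact]
    exact hid
  have hcub := cubic_of_kummer (g₁ * g₁) m hm.ne' (q ^ 2) D hf hfD' hh hid'
  have hsm : ∀ y : JZero (M' * q), (g₁ * g₁) • y = s • s • y := by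
    intro y
    rw [mul_smul]
    rfl
  rw [hsm, hsm, hsm] at hcub
  exact hcub

end Fermat.Agent.S35.H909

end
end
-- ===== PACK-END S35/H909/QNewOfKummer.lean

-- ===== PACK-BEGIN S36/H153/IncQ.lean
section



/-!
# S36 engine, cell INCIDENCE (helper153) — incomparability of the two components of level `M q`
(hypotheses `inc₁₂`, `inc₂₁` of `ChartInc`), concrete, A2 / MOD vocabulary

`V = V∞` (`IsVinf`), `V₀ = V.comap W` at level `M q`, finite chart `chart R {x'}`, `x' = j j_q`.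

* `jE_sub_pow_not_mem` : `j_d - j_d ^ n` (`n ≥ 2`) is a unit of `V∞` (L3, `H816.vinfGauss`);
* `inc₁₂_concrete`     : `j_q - j^q ∈ 𝔪_V`, `∉ 𝔪_{V₀}`;
* `inc₂₁_concrete`     : `j - j_q^q ∈ 𝔪_{V₀}`, `∉ 𝔪_V`.
-/

set_option autoImplicit false
set_option synthInstance.maxHeartbeats 400000
set_option maxHeartbeats 1600000
set_option linter.unusedSectionVars false
set_option linter.style.haveILetI false

noncomputable section

namespace Fermat.Agent.S36.H153

open ModularCurve HahnSeries Polynomial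
open Fermat.Agent.A2.Mod
open Fermat.Agent.S18.H138 (chart)

section Units

variable {P : ValuationSubring Qb} {E : IntermediateField ℚ Qb} {M q : ℕ} [NeZero M] [NeZero q]
variable (w : RE P E)

/-- `j_d` is transcendental over `E`. -/
theorem transcendental_jE' (N d : ℕ) [NeZero d] (hd : d ∣ N) :
    Transcendental E (jE E N d hd) := by
  intro halg
  have h1 : Transcendental E ((jE E N d hd : FE E N) : LaurentSeries E) := by
    rw [H873.coe_jE]
    exact H31.transcendental_of_order_neg (H31.order_qExpand_jqModC_neg E d)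
  apply h1
  obtain ⟨p, hp0, hp⟩ := halg
  refine ⟨p, hp0, ?_⟩
  have h2 := Polynomial.aeval_algHom_apply (FE E N).val (jE E N d hd) p
  rw [hp, map_zero] at h2
  exact h2

/-- **L3 for `j_d`**: `p(j_d)` is a unit of `V∞` for every `p ∈ R[X]` not divisible by `w`. -/
theorem ev_jE_unit (hS : Setting P E M q w) {N : ℕ} (hN : N ≠ 0)
    {V : ValuationSubring (FE E N)} (hV : IsVinf P E N V) (d : ℕ) [NeZero d] (hd : d ∣ N)
    (p : Polynomial (RE P E)) (hp : ¬ Polynomial.C w ∣ p) :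
    ev P E N (jE E N d hd) p ∈ V ∧ (ev P E N (jE E N d hd) p)⁻¹ ∈ V := by
  haveI := hS.dvr
  obtain ⟨g, hg, e⟩ := H13.isPolar_jE (E := E) (N := N) d hd
  have hd0 : 0 < d := Nat.pos_of_ne_zero (NeZero.ne d)
  exact H816.vinfGauss P E w N hN inferInstance hS.unif V hV (jE E N d hd)
    (Fermat.Agent.A2.H708.castA (RE P E) g) d hd0
    (by rw [e]; exact H553.coeffEmb_castQ (P := P) g)
    (fun n hn => by
      show ((g.coeff n : ℤ) : RE P E) = 0
      rw [hg.1 n hn, Int.cast_zero])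
    (by
      have : (Fermat.Agent.A2.H708.castA (RE P E) g).coeff (-(d : ℤ)) = 1 := by
        show ((g.coeff (-(d : ℤ)) : ℤ) : RE P E) = 1
        rw [hg.2, Int.cast_one]
      rw [this]
      exact isUnit_one)
    p hp

/-- `j_d - j_d ^ n`, `n ≥ 2`, is not in the maximal ideal of `V∞`. -/
theorem jE_sub_pow_not_mem (hS : Setting P E M q w) {N : ℕ} (hN : N ≠ 0)
    {V : ValuationSubring (FE E N)} (hV : IsVinf P E N V) (d : ℕ) [NeZero d] (hd : d ∣ N)
    (n : ℕ) (hn : 2 ≤ n) : jE E N d hd - jE E N d hd ^ n ∉ V.nonunits := by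
  set p : Polynomial (RE P E) := Polynomial.X - Polynomial.X ^ n with hp
  have hc1 : p.coeff 1 = 1 := by
    rw [hp, Polynomial.coeff_sub, Polynomial.coeff_X_one, Polynomial.coeff_X_pow]
    have : (1 : ℕ) ≠ n := by omega
    simp [this]
  have hpw : ¬ Polynomial.C w ∣ p := by
    intro hdvd
    have h1 := (Polynomial.C_dvd_iff_dvd_coeff w p).mp hdvd 1
    rw [hc1] at h1
    exact hS.unif.not_isUnit (isUnit_of_dvd_one h1)
  have hev : ev P E N (jE E N d hd) p = jE E N d hd - jE E N d hd ^ n := by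
    haveI := hS.dvr
    rw [H13.ev_eq_aeval (P := P), hp, map_sub, Polynomial.aeval_X, map_pow, Polynomial.aeval_X]
  obtain ⟨-, hinv⟩ := ev_jE_unit w hS hN hV d hd p hpw
  rw [hev] at hinv
  have hne : jE E N d hd - jE E N d hd ^ n ≠ 0 := by
    intro h0
    apply transcendental_jE' (E := E) N d hd
    refine ⟨Polynomial.X - Polynomial.X ^ n, ?_, ?_⟩
    · intro hzero
      have := congrArg (fun r : Polynomial E => r.coeff 1) hzero
      simp only [Polynomial.coeff_sub, Polynomial.coeff_X_one, Polynomial.coeff_X_pow,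
        Polynomial.coeff_zero] at this
      have hn1 : (1 : ℕ) ≠ n := by omega
      simp [hn1] at this
    · rw [map_sub, Polynomial.aeval_X, map_pow, Polynomial.aeval_X]
      exact h0
  intro hmem
  rw [ValuationSubring.mem_nonunits_iff] at hmem
  have h1 : V.valuation (jE E N d hd - jE E N d hd ^ n)⁻¹ ≤ 1 :=
    (V.valuation_le_one_iff _).mpr hinv
  rw [map_inv₀] at h1
  have h2 : V.valuation (jE E N d hd - jE E N d hd ^ n) ≠ 0 :=
    (V.valuation.ne_zero_iff).mpr hne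
  have h3 : 1 ≤ V.valuation (jE E N d hd - jE E N d hd ^ n) :=
    (inv_le_one₀ (zero_lt_iff.mpr h2)).mp h1
  exact absurd hmem (not_lt.mpr h3)

/-- `a ≡ b mod 𝔪_V ⟹ a ^ n ≡ b ^ n mod 𝔪_V`. -/
theorem pow_sub_pow_mem_nonunits {F : Type*} [Field F] (V : ValuationSubring F) {a b : F}
    (ha : a ∈ V) (hb : b ∈ V) (hab : a - b ∈ V.nonunits) (n : ℕ) :
    a ^ n - b ^ n ∈ V.nonunits := by
  have h := eval_sub_eval_mem_nonunits V (Polynomial.X ^ n : Polynomial F)
    (fun i => by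
      rw [Polynomial.coeff_X_pow]
      split_ifs
      · exact V.one_mem
      · exact V.zero_mem) ha hb hab
  simpa using h

end Units

section Inc

variable {P : ValuationSubring Qb} {E : IntermediateField ℚ Qb} {M q : ℕ} [NeZero M] [NeZero q]
variable (w : RE P E)

theorem j1_mem_chart (hq : q.Prime) :
    j1 E M q ∈ _root_.Fermat.Agent.S18.H138.chart (RE P E) ({xE E M q} : Set (FE E (M * q))) := by
  have h := (H873.chartCompat P E M q hq).1
  rw [H372.mem_chart_iff] at h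
  exact h

theorem jq1_mem_chart (hq : q.Prime) :
    jq1 E M q ∈ _root_.Fermat.Agent.S18.H138.chart (RE P E) ({xE E M q} : Set (FE E (M * q))) := by
  have h := (H873.chartCompat P E M q hq).2.1
  rw [H372.mem_chart_iff] at h
  exact h

/-- Kronecker on `V∞` (finite form): `j_q - j^q ∈ 𝔪_V`. -/
theorem kron_fin₁ (hS : Setting P E M q w) {V : ValuationSubring (FE E (M * q))}
    (hV : IsVinf P E (M * q) V) : jq1 E M q - j1 E M q ^ q ∈ V.nonunits := by
  have hN := H372.level_ne_zero w hS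
  have hk := H372.inW_jE_sub_pow w hS hV 1 (one_dvd M)
  have hcongr : jE E (M * q) (1 * q) (mul_dvd_mul_right (one_dvd M) q) = jq1 E M q :=
    H372.jE_congr (one_mul q) _ _
  rw [hcongr] at hk
  exact mem_nonunits_of_inW w hS hN hV hk

/-- Kronecker on `V∞` at the other end: `j_{Mq} - j_M^q ∈ 𝔪_V`. -/
theorem kron_fin_M (hS : Setting P E M q w) {V : ValuationSubring (FE E (M * q))}
    (hV : IsVinf P E (M * q) V) :
    jE E (M * q) (M * q) (dvd_refl _) - jE E (M * q) M (dvd_mul_right M q) ^ q ∈ V.nonunits := by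
  have hN := H372.level_ne_zero w hS
  exact mem_nonunits_of_inW w hS hN hV (H372.inW_jE_sub_pow w hS hV M (dvd_refl M))

/-- **`inc₁₂`**: `j_q - j^q` lies on `C∞` and not on `C₀`. -/
theorem inc₁₂_concrete (hS : Setting P E M q w) (V : ValuationSubring (FE E (M * q)))
    (W : FE E (M * q) ≃ₐ[E] FE E (M * q)) (hV : IsVinf P E (M * q) V)
    (hW : IsFricke E (M * q) W) :
    ∃ b' ∈ _root_.Fermat.Agent.S18.H138.chart (RE P E) ({xE E M q} : Set (FE E (M * q))),
      b' ∈ V.nonunits ∧ b' ∉ (V.comap (W : FE E (M * q) →+* FE E (M * q))).nonunits := by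
  have hN := H372.level_ne_zero w hS
  have hq := hS.q_prime
  refine ⟨jq1 E M q - j1 E M q ^ q,
    Subalgebra.sub_mem _ (jq1_mem_chart hq) (Subalgebra.pow_mem _ (j1_mem_chart hq) q),
    kron_fin₁ w hS hV, ?_⟩
  rw [mem_nonunits_comap]
  intro hmem
  have hWb : (W : FE E (M * q) →+* FE E (M * q)) (jq1 E M q - j1 E M q ^ q) =
      jE E (M * q) M (dvd_mul_right M q) - jE E (M * q) (M * q) (dvd_refl _) ^ q := by
    show W (jq1 E M q - j1 E M q ^ q) = _
    rw [map_sub, map_pow, H372.fricke_jE_one hW, H372.fricke_jE_q hW]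
  rw [hWb] at hmem
  have hk := kron_fin_M w hS hV
  have hjM : jE E (M * q) M (dvd_mul_right M q) ∈ V := H372.jE_mem w hS hN hV M _
  have hjMq : jE E (M * q) (M * q) (dvd_refl _) ∈ V := H372.jE_mem w hS hN hV (M * q) _
  have hpow := pow_sub_pow_mem_nonunits V hjMq (V.pow_mem hjM q) hk q
  have hsum : jE E (M * q) M (dvd_mul_right M q) -
      jE E (M * q) M (dvd_mul_right M q) ^ (q * q) ∈ V.nonunits := by
    have e : jE E (M * q) M (dvd_mul_right M q) -
        jE E (M * q) M (dvd_mul_right M q) ^ (q * q) =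
        (jE E (M * q) M (dvd_mul_right M q) - jE E (M * q) (M * q) (dvd_refl _) ^ q) +
        (jE E (M * q) (M * q) (dvd_refl _) ^ q -
          (jE E (M * q) M (dvd_mul_right M q) ^ q) ^ q) := by
      rw [pow_mul]; ring
    rw [e]
    exact nonunits_add_mem V hmem hpow
  have hqq : 2 ≤ q * q := by
    have := hq.two_le
    nlinarith
  exact jE_sub_pow_not_mem w hS hN hV M (dvd_mul_right M q) (q * q) hqq hsum

/-- **`inc₂₁`**: `j - j_q^q` lies on `C₀` and not on `C∞`. -/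
theorem inc₂₁_concrete (hS : Setting P E M q w) (V : ValuationSubring (FE E (M * q)))
    (W : FE E (M * q) ≃ₐ[E] FE E (M * q)) (hV : IsVinf P E (M * q) V)
    (hW : IsFricke E (M * q) W) :
    ∃ b' ∈ _root_.Fermat.Agent.S18.H138.chart (RE P E) ({xE E M q} : Set (FE E (M * q))),
      b' ∈ (V.comap (W : FE E (M * q) →+* FE E (M * q))).nonunits ∧ b' ∉ V.nonunits := by
  have hN := H372.level_ne_zero w hS
  have hq := hS.q_prime
  refine ⟨j1 E M q - jq1 E M q ^ q,
    Subalgebra.sub_mem _ (j1_mem_chart hq) (Subalgebra.pow_mem _ (jq1_mem_chart hq) q), ?_, ?_⟩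
  · rw [mem_nonunits_comap]
    have hWb : (W : FE E (M * q) →+* FE E (M * q)) (j1 E M q - jq1 E M q ^ q) =
        jE E (M * q) (M * q) (dvd_refl _) - jE E (M * q) M (dvd_mul_right M q) ^ q := by
      show W (j1 E M q - jq1 E M q ^ q) = _
      rw [map_sub, map_pow, H372.fricke_jE_one hW, H372.fricke_jE_q hW]
    rw [hWb]
    exact kron_fin_M w hS hV
  · intro hmem
    have hk := kron_fin₁ w hS hV
    have hj : j1 E M q ∈ V := H372.jE_mem w hS hN hV 1 _
    have hjq : jq1 E M q ∈ V := H372.jE_mem w hS hN hV q _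
    have hpow := pow_sub_pow_mem_nonunits V hjq (V.pow_mem hj q) hk q
    have hsum : j1 E M q - j1 E M q ^ (q * q) ∈ V.nonunits := by
      have e : j1 E M q - j1 E M q ^ (q * q) =
          (j1 E M q - jq1 E M q ^ q) + (jq1 E M q ^ q - (j1 E M q ^ q) ^ q) := by
        rw [pow_mul]; ring
      rw [e]
      exact nonunits_add_mem V hmem hpow
    have hqq : 2 ≤ q * q := by
      have := hq.two_le
      nlinarith
    exact jE_sub_pow_not_mem w hS hN hV 1 (one_dvd _) (q * q) hqq hsum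

end Inc

end Fermat.Agent.S36.H153

end
end
-- ===== PACK-END S36/H153/IncQ.lean

-- ===== PACK-BEGIN S36/H153/ChartInfSq.lean
section



/-!
# S36 engine, cell INCIDENCE (helper153) — the charts at infinity of levels `M q`, `M q q`
(A2 / MOD vocabulary): `α, β (chart R {x'⁻¹}) ⊆ chart R {x⁻¹}`, `x' = j j_q`, `x = j j_q j_{q²}`

* `alpha_algebraMap`, `beta_algebraMap` : `α`, `β` are `R_E`-linear;
* `modPoly_J1_Jq …`   : the four modular relations `Φ_q(j, j_q) = 0`, `Φ_q(j_q, j_{q²}) = 0`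
                        (both orders) at level `M q q`;
* `J_inv_mem_chart`   : `1/j, 1/j_q, 1/j_{q²} ∈ chart R {x⁻¹}` (valuative criterion);
* `J_mem_chart`       : `j, j_q, j_{q²} ∈ chart R {x}`;
* **`chart_αi`, `chart_βi`** : the hypotheses of `cusp_single_concrete`;
* `chart_αf`, `chart_βf` : the same for the finite charts (fields `chart_α`, `chart_β` of the
                        Spec, for the record).
-/

set_option autoImplicit false
set_option synthInstance.maxHeartbeats 400000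
set_option maxHeartbeats 1600000
set_option linter.unusedSectionVars false
set_option linter.style.haveILetI false

noncomputable section

namespace Fermat.Agent.S36.H153

open ModularCurve HahnSeries Polynomial
open Fermat.Agent.A2.Mod
open Fermat.Agent.S18.H138 (chart)

section Linear

variable (P : ValuationSubring Qb) (E : IntermediateField ℚ Qb) (M q : ℕ) [NeZero M] [NeZero q]

theorem alpha_algebraMap (r : RE P E) :
    αE E M q (algebraMap (RE P E) (FE E M) r) = algebraMap (RE P E) (FE E (M * q)) r := by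
  have h1 : algebraMap (RE P E) (FE E M) r = algebraMap E (FE E M) (r : E) := rfl
  have h2 : algebraMap (RE P E) (FE E (M * q)) r = algebraMap E (FE E (M * q)) (r : E) := rfl
  rw [h1, h2]
  exact (αE E M q).commutes _

theorem beta_algebraMap (r : RE P E) :
    βE E M q (algebraMap (RE P E) (FE E M) r) = algebraMap (RE P E) (FE E (M * q)) r := by
  have h1 : algebraMap (RE P E) (FE E M) r = algebraMap E (FE E M) (r : E) := rfl
  have h2 : algebraMap (RE P E) (FE E (M * q)) r = algebraMap E (FE E (M * q)) (r : E) := rfl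
  rw [h1, h2]
  exact (βE E M q).commutes _

end Linear

section Sq

variable (P : ValuationSubring Qb) (E : IntermediateField ℚ Qb) (M q : ℕ) [NeZero M] [NeZero q]
  [NeZero (M * q)]

/-- `j` at level `M q q`. -/
abbrev J1 : FE E (M * q * q) := jE E (M * q * q) 1 (one_dvd _)

/-- `j_q` at level `M q q`. -/
abbrev Jq : FE E (M * q * q) := jE E (M * q * q) q (dvd_mul_left q (M * q))

/-- `j_{q²}` at level `M q q`. -/
abbrev Jqq : FE E (M * q * q) :=
  jE E (M * q * q) (q * q) (mul_dvd_mul_right (dvd_mul_left q M) q)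

theorem xSq_eq : xSq E M q = J1 E M q * Jq E M q * Jqq E M q := rfl

theorem alpha_j1 : αE E (M * q) q (j1 E M q) = J1 E M q := H372.alpha_jE_one

theorem alpha_jq1 : αE E (M * q) q (jq1 E M q) = Jq E M q :=
  H372.alpha_jE q (dvd_mul_left q M)

theorem beta_j1 : βE E (M * q) q (j1 E M q) = Jq E M q := H372.beta_jE_one

theorem beta_jq1 : βE E (M * q) q (jq1 E M q) = Jqq E M q :=
  H372.beta_jE q (dvd_mul_left q M)

/-- transport of a modular relation along a ring homomorphism -/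
theorem eval₂_aeval_map {K L : Type*} [Field K] [Field L] (f : K →+* L)
    (Φ : Polynomial (Polynomial ℤ)) (a b : K)
    (h : Φ.eval₂ (Polynomial.aeval (R := ℤ) b).toRingHom a = 0) :
    Φ.eval₂ (Polynomial.aeval (R := ℤ) (f b)).toRingHom (f a) = 0 := by
  have h1 := Polynomial.hom_eval₂ Φ (Polynomial.aeval (R := ℤ) b).toRingHom f a
  rw [h, map_zero] at h1
  have hcomp : f.comp (Polynomial.aeval (R := ℤ) b).toRingHom =
      (Polynomial.aeval (R := ℤ) (f b)).toRingHom := by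
    apply Polynomial.ringHom_ext
    · intro n
      simp
    · simp
  rw [hcomp] at h1
  exact h1.symm

variable {q} in
/-- The four modular relations at level `M q q`. -/
theorem modPoly_rel (D : S28.ModPolyData q) :
    D.Φ.eval₂ (Polynomial.aeval (R := ℤ) (Jq E M q)).toRingHom (J1 E M q) = 0 ∧
    D.Φ.eval₂ (Polynomial.aeval (R := ℤ) (J1 E M q)).toRingHom (Jq E M q) = 0 ∧
    D.Φ.eval₂ (Polynomial.aeval (R := ℤ) (Jqq E M q)).toRingHom (Jq E M q) = 0 ∧
    D.Φ.eval₂ (Polynomial.aeval (R := ℤ) (Jq E M q)).toRingHom (Jqq E M q) = 0 := by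
  have hj : D.Φ.eval₂ (Polynomial.aeval (R := ℤ) (jq1 E M q)).toRingHom (j1 E M q) = 0 :=
    H873.eval₂_eq_zero_of_int E (M * q) D.Φ _ _ _ _ (H873.coe_jE_one E (M * q))
      (H873.coe_jE_int E (M * q) q (dvd_mul_left q M)) D.eval_j
  have hjq : D.Φ.eval₂ (Polynomial.aeval (R := ℤ) (j1 E M q)).toRingHom (jq1 E M q) = 0 :=
    H873.eval₂_eq_zero_of_int E (M * q) D.Φ _ _ _ _
      (H873.coe_jE_int E (M * q) q (dvd_mul_left q M)) (H873.coe_jE_one E (M * q)) D.eval_jp
  have a1 := eval₂_aeval_map (αE E (M * q) q : FE E (M * q) →+* FE E (M * q * q)) D.Φ _ _ hj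
  have a2 := eval₂_aeval_map (αE E (M * q) q : FE E (M * q) →+* FE E (M * q * q)) D.Φ _ _ hjq
  have b1 := eval₂_aeval_map (βE E (M * q) q : FE E (M * q) →+* FE E (M * q * q)) D.Φ _ _ hj
  have b2 := eval₂_aeval_map (βE E (M * q) q : FE E (M * q) →+* FE E (M * q * q)) D.Φ _ _ hjq
  have e1 : (αE E (M * q) q : FE E (M * q) →+* FE E (M * q * q)) (j1 E M q) = J1 E M q :=
    alpha_j1 E M q
  have e2 : (αE E (M * q) q : FE E (M * q) →+* FE E (M * q * q)) (jq1 E M q) = Jq E M q :=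
    alpha_jq1 E M q
  have e3 : (βE E (M * q) q : FE E (M * q) →+* FE E (M * q * q)) (j1 E M q) = Jq E M q :=
    beta_j1 E M q
  have e4 : (βE E (M * q) q : FE E (M * q) →+* FE E (M * q * q)) (jq1 E M q) = Jqq E M q :=
    beta_jq1 E M q
  rw [e1, e2] at a1 a2
  rw [e3, e4] at b1 b2
  exact ⟨a1, a2, b1, b2⟩

/-- Valuative form: a valuation subring containing `x⁻¹` contains `1/j`, `1/j_q`, `1/j_{q²}`. -/
theorem J_inv_mem_of_inv_x_mem (hq : q.Prime) (V : ValuationSubring (FE E (M * q * q)))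
    (hx : (xSq E M q)⁻¹ ∈ V) :
    (J1 E M q)⁻¹ ∈ V ∧ (Jq E M q)⁻¹ ∈ V ∧ (Jqq E M q)⁻¹ ∈ V := by
  obtain ⟨D⟩ := S28.H807.nonempty_modPolyData q hq
  obtain ⟨r1, r2, r3, r4⟩ := modPoly_rel E M D
  have h1 : J1 E M q ≠ 0 := H873.jE_ne_zero E (M * q * q) 1 _
  have h2 : Jq E M q ≠ 0 := H873.jE_ne_zero E (M * q * q) q _
  have h3 : Jqq E M q ≠ 0 := H873.jE_ne_zero E (M * q * q) (q * q) _
  have up : ∀ {a b : FE E (M * q * q)},
      D.Φ.eval₂ (Polynomial.aeval (R := ℤ) b).toRingHom a = 0 → b ∈ V → a ∈ V :=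
    fun {a b} h hb => H873.mem_valuationSubring_of_monic_eval D.Φ D.monic h V hb
  refine ⟨?_, ?_, ?_⟩
  · by_contra hcon
    have hJ1 : J1 E M q ∈ V := by
      have := (V.mem_or_inv_mem (J1 E M q)⁻¹).resolve_left hcon
      rwa [inv_inv] at this
    have hJq : Jq E M q ∈ V := up r2 hJ1
    have hJqq : Jqq E M q ∈ V := up r4 hJq
    apply hcon
    have e : (J1 E M q)⁻¹ = (xSq E M q)⁻¹ * (Jq E M q * Jqq E M q) := by
      rw [xSq_eq]; field_simp
    rw [e]
    exact V.mul_mem _ _ hx (V.mul_mem _ _ hJq hJqq)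
  · by_contra hcon
    have hJq : Jq E M q ∈ V := by
      have := (V.mem_or_inv_mem (Jq E M q)⁻¹).resolve_left hcon
      rwa [inv_inv] at this
    have hJ1 : J1 E M q ∈ V := up r1 hJq
    have hJqq : Jqq E M q ∈ V := up r4 hJq
    apply hcon
    have e : (Jq E M q)⁻¹ = (xSq E M q)⁻¹ * (J1 E M q * Jqq E M q) := by
      rw [xSq_eq]; field_simp
    rw [e]
    exact V.mul_mem _ _ hx (V.mul_mem _ _ hJ1 hJqq)
  · by_contra hcon
    have hJqq : Jqq E M q ∈ V := by
      have := (V.mem_or_inv_mem (Jqq E M q)⁻¹).resolve_left hcon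
      rwa [inv_inv] at this
    have hJq : Jq E M q ∈ V := up r3 hJqq
    have hJ1 : J1 E M q ∈ V := up r1 hJq
    apply hcon
    have e : (Jqq E M q)⁻¹ = (xSq E M q)⁻¹ * (J1 E M q * Jq E M q) := by
      rw [xSq_eq]; field_simp
    rw [e]
    exact V.mul_mem _ _ hx (V.mul_mem _ _ hJ1 hJq)

/-- Valuative form, finite chart: a valuation subring containing `x` contains `j`, `j_q`,
`j_{q²}`. -/
theorem J_mem_of_x_mem (hq : q.Prime) (V : ValuationSubring (FE E (M * q * q)))
    (hx : xSq E M q ∈ V) : J1 E M q ∈ V ∧ Jq E M q ∈ V ∧ Jqq E M q ∈ V := by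
  obtain ⟨D⟩ := S28.H807.nonempty_modPolyData q hq
  obtain ⟨r1, r2, r3, r4⟩ := modPoly_rel E M D
  have h1 : J1 E M q ≠ 0 := H873.jE_ne_zero E (M * q * q) 1 _
  have h2 : Jq E M q ≠ 0 := H873.jE_ne_zero E (M * q * q) q _
  have h3 : Jqq E M q ≠ 0 := H873.jE_ne_zero E (M * q * q) (q * q) _
  have up : ∀ {a b : FE E (M * q * q)},
      D.Φ.eval₂ (Polynomial.aeval (R := ℤ) b).toRingHom a = 0 → b ∈ V → a ∈ V :=
    fun {a b} h hb => H873.mem_valuationSubring_of_monic_eval D.Φ D.monic h V hb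
  -- if one of the three is not in `V`, its inverse is, and then all inverses are
  have key : ∀ {a b : FE E (M * q * q)}, a ≠ 0 → b ≠ 0 →
      D.Φ.eval₂ (Polynomial.aeval (R := ℤ) b).toRingHom a = 0 →
      D.Φ.eval₂ (Polynomial.aeval (R := ℤ) a).toRingHom b = 0 → a⁻¹ ∈ V → a ∉ V → b⁻¹ ∈ V ∧ b ∉ V := by
    intro a b ha hb hab hba hainv haV
    have hbV : b ∉ V := fun hbV => haV (up hab hbV)
    exact ⟨(V.mem_or_inv_mem b).resolve_left hbV, hbV⟩
  by_contra hcon
  have hsome : J1 E M q ∉ V ∨ Jq E M q ∉ V ∨ Jqq E M q ∉ V := by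
    by_contra hall
    push Not at hall
    exact hcon ⟨hall.1, hall.2.1, hall.2.2⟩
  have hall : ((J1 E M q)⁻¹ ∈ V ∧ J1 E M q ∉ V) ∧ ((Jq E M q)⁻¹ ∈ V ∧ Jq E M q ∉ V) ∧
      ((Jqq E M q)⁻¹ ∈ V ∧ Jqq E M q ∉ V) := by
    rcases hsome with h | h | h
    · have a1 : (J1 E M q)⁻¹ ∈ V ∧ J1 E M q ∉ V := ⟨(V.mem_or_inv_mem _).resolve_left h, h⟩
      have a2 := key h1 h2 r1 r2 a1.1 a1.2
      have a3 := key h2 h3 r3 r4 a2.1 a2.2
      exact ⟨a1, a2, a3⟩
    · have a2 : (Jq E M q)⁻¹ ∈ V ∧ Jq E M q ∉ V := ⟨(V.mem_or_inv_mem _).resolve_left h, h⟩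
      have a1 := key h2 h1 r2 r1 a2.1 a2.2
      have a3 := key h2 h3 r3 r4 a2.1 a2.2
      exact ⟨a1, a2, a3⟩
    · have a3 : (Jqq E M q)⁻¹ ∈ V ∧ Jqq E M q ∉ V := ⟨(V.mem_or_inv_mem _).resolve_left h, h⟩
      have a2 := key h3 h2 r4 r3 a3.1 a3.2
      have a1 := key h2 h1 r2 r1 a2.1 a2.2
      exact ⟨a1, a2, a3⟩
  obtain ⟨⟨i1, n1⟩, ⟨i2, -⟩, ⟨i3, -⟩⟩ := hall
  apply n1
  have e : J1 E M q = xSq E M q * ((Jq E M q)⁻¹ * (Jqq E M q)⁻¹) := by
    rw [xSq_eq]; field_simp
  rw [e]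
  exact V.mul_mem _ _ hx (V.mul_mem _ _ i2 i3)

theorem mem_chart_of_forall (y a : FE E (M * q * q))
    (h : ∀ V : ValuationSubring (FE E (M * q * q)), y ∈ V → a ∈ V) :
    a ∈ _root_.Fermat.Agent.S18.H138.chart (RE P E) ({y} : Set (FE E (M * q * q))) := by
  have h1 : a ∈ Fermat.Agent.A2.Mod.chart P E (M * q * q) y :=
    H873.isIntegralElem_of_isIntegral_closure _
      (H873.isIntegral_closure_of_forall_valuationSubring h)
  rw [H372.mem_chart_iff] at h1
  exact h1

theorem J_inv_mem_chart (hq : q.Prime) :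
    (J1 E M q)⁻¹ ∈ _root_.Fermat.Agent.S18.H138.chart (RE P E) ({(xSq E M q)⁻¹} : Set (FE E (M * q * q))) ∧
    (Jq E M q)⁻¹ ∈ _root_.Fermat.Agent.S18.H138.chart (RE P E) ({(xSq E M q)⁻¹} : Set (FE E (M * q * q))) ∧
    (Jqq E M q)⁻¹ ∈ _root_.Fermat.Agent.S18.H138.chart (RE P E) ({(xSq E M q)⁻¹} : Set (FE E (M * q * q))) :=
  ⟨mem_chart_of_forall P E M q _ _ fun V hV => (J_inv_mem_of_inv_x_mem E M q hq V hV).1,
    mem_chart_of_forall P E M q _ _ fun V hV => (J_inv_mem_of_inv_x_mem E M q hq V hV).2.1,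
    mem_chart_of_forall P E M q _ _ fun V hV => (J_inv_mem_of_inv_x_mem E M q hq V hV).2.2⟩

theorem J_mem_chart (hq : q.Prime) :
    J1 E M q ∈ _root_.Fermat.Agent.S18.H138.chart (RE P E) ({xSq E M q} : Set (FE E (M * q * q))) ∧
    Jq E M q ∈ _root_.Fermat.Agent.S18.H138.chart (RE P E) ({xSq E M q} : Set (FE E (M * q * q))) ∧
    Jqq E M q ∈ _root_.Fermat.Agent.S18.H138.chart (RE P E) ({xSq E M q} : Set (FE E (M * q * q))) :=
  ⟨mem_chart_of_forall P E M q _ _ fun V hV => (J_mem_of_x_mem E M q hq V hV).1,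
    mem_chart_of_forall P E M q _ _ fun V hV => (J_mem_of_x_mem E M q hq V hV).2.1,
    mem_chart_of_forall P E M q _ _ fun V hV => (J_mem_of_x_mem E M q hq V hV).2.2⟩

/-- **`α` maps the chart at infinity of level `M q` into the chart at infinity of level
`M q q`.** -/
theorem chart_αi (hq : q.Prime) :
    ∀ b ∈ _root_.Fermat.Agent.S18.H138.chart (RE P E) ({(xE E M q)⁻¹} : Set (FE E (M * q))),
      αE E (M * q) q b ∈ _root_.Fermat.Agent.S18.H138.chart (RE P E) ({(xSq E M q)⁻¹} : Set (FE E (M * q * q))) := by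
  obtain ⟨h1, h2, -⟩ := J_inv_mem_chart P E M q hq
  refine map_mem_chart_singleton (αE E (M * q) q : FE E (M * q) →+* FE E (M * q * q))
    (alpha_algebraMap P E (M * q) q) _ _ ?_
  show αE E (M * q) q (xE E M q)⁻¹ ∈ _
  rw [← uE_mul_uqE, map_mul, alpha_uE, alpha_uqE]
  exact Subalgebra.mul_mem _ h1 h2

/-- **`β` maps the chart at infinity of level `M q` into the chart at infinity of level
`M q q`.** -/
theorem chart_βi (hq : q.Prime) :
    ∀ b ∈ _root_.Fermat.Agent.S18.H138.chart (RE P E) ({(xE E M q)⁻¹} : Set (FE E (M * q))),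
      βE E (M * q) q b ∈ _root_.Fermat.Agent.S18.H138.chart (RE P E) ({(xSq E M q)⁻¹} : Set (FE E (M * q * q))) := by
  obtain ⟨-, h2, h3⟩ := J_inv_mem_chart P E M q hq
  refine map_mem_chart_singleton (βE E (M * q) q : FE E (M * q) →+* FE E (M * q * q))
    (beta_algebraMap P E (M * q) q) _ _ ?_
  show βE E (M * q) q (xE E M q)⁻¹ ∈ _
  rw [← uE_mul_uqE, map_mul, beta_uE, beta_uqE]
  exact Subalgebra.mul_mem _ h2 h3

/-- `α` maps the finite chart of level `M q` into the finite chart of level `M q q`. -/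
theorem chart_αf (hq : q.Prime) :
    ∀ b ∈ _root_.Fermat.Agent.S18.H138.chart (RE P E) ({xE E M q} : Set (FE E (M * q))),
      αE E (M * q) q b ∈ _root_.Fermat.Agent.S18.H138.chart (RE P E) ({xSq E M q} : Set (FE E (M * q * q))) := by
  obtain ⟨h1, h2, -⟩ := J_mem_chart P E M q hq
  refine map_mem_chart_singleton (αE E (M * q) q : FE E (M * q) →+* FE E (M * q * q))
    (alpha_algebraMap P E (M * q) q) _ _ ?_
  show αE E (M * q) q (xE E M q) ∈ _
  rw [xE_eq, map_mul, alpha_j1, alpha_jq1]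
  exact Subalgebra.mul_mem _ h1 h2

/-- `β` maps the finite chart of level `M q` into the finite chart of level `M q q`. -/
theorem chart_βf (hq : q.Prime) :
    ∀ b ∈ _root_.Fermat.Agent.S18.H138.chart (RE P E) ({xE E M q} : Set (FE E (M * q))),
      βE E (M * q) q b ∈ _root_.Fermat.Agent.S18.H138.chart (RE P E) ({xSq E M q} : Set (FE E (M * q * q))) := by
  obtain ⟨-, h2, h3⟩ := J_mem_chart P E M q hq
  refine map_mem_chart_singleton (βE E (M * q) q : FE E (M * q) →+* FE E (M * q * q))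
    (beta_algebraMap P E (M * q) q) _ _ ?_
  show βE E (M * q) q (xE E M q) ∈ _
  rw [xE_eq, map_mul, beta_j1, beta_jq1]
  exact Subalgebra.mul_mem _ h2 h3

end Sq

end Fermat.Agent.S36.H153

end
end
-- ===== PACK-END S36/H153/ChartInfSq.lean

-- ===== PACK-BEGIN S36/Mod3/H153/Leaves.lean
section




/-!
# S36 / MOD3 — leaves `LeafInc` and `LeafUniq` (helper153)

    leafInc  : LeafTable → LeafChart → LeafQep → LeafVal → LeafSheet → LeafNR → Mod3.LeafInc
    leafUniq : LeafTable → LeafChart → LeafQep → LeafVal → LeafSheet → LeafNR → Mod3.LeafUniq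

Only OTHER leaves are hypotheses; everything else is proved here or in `S36/H153/*.lean`:

* incomparability of the two components of level `M q` (`H153.inc₁₂_concrete`, L3 of A2);
* `VV` is radicial over level `M q` via `α`, `FF` via `β` : from `nr_α₂`, `nr_β₂` (`LeafNR`) and the
  integrality of norms (`normAlong_mem_chart`);
* the cover statement from `Qep3` + multiplicities (`LeafQep`, `LeafVal`);
* cusps: `H153.cusp_single_concrete` (cusps are not nodes at level `M q`, charts at infinity).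

`cuspSingle_of_leaves` needs only `LeafTable`, `LeafVal`, `LeafSheet`.
-/

set_option autoImplicit false
set_option linter.style.haveILetI false
set_option linter.unusedSectionVars false
set_option synthInstance.maxHeartbeats 400000
set_option maxHeartbeats 1600000

noncomputable section

namespace Fermat.Agent.S36.Mod3.H153

open ModularCurve AlgebraicCurve
open Fermat.Agent.S18.H138 (chart)
open Fermat.Agent.S36.Eng
open Fermat.Agent.S36.H153

/-! ## Norms of integral elements -/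

section Norm

variable {R E F F' : Type*} [CommRing R] [Field E] [Algebra R E]
  [Field F] [Algebra E F] [Algebra R F] [Field F'] [Algebra E F'] [Algebra R F']

/-- The norm along `α` of an element integral over `α B'` lies in `B'`, if `B'` is integrally
closed in `F'`. -/
theorem normAlong_mem_chart (α : F' →ₐ[E] F) (B' : Subalgebra R F') (B : Subalgebra R F)
    (closed' : ∀ f : F', IsIntegral B' f → f ∈ B')
    (int_α : ∀ b ∈ B, ∃ p : Polynomial F', p.Monic ∧ (∀ i, p.coeff i ∈ B') ∧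
      (p.map (α : F' →+* F)).eval b = 0)
    (b : F) (hb : b ∈ B) : S29.H395.normAlong α b ∈ B' := by
  letI : Algebra F' F := algebraAlong α
  haveI : IsScalarTower B' F' F := IsScalarTower.of_algebraMap_eq (fun _ => rfl)
  apply closed'
  have hint : IsIntegral B' b := by
    obtain ⟨p, hp, hc, he⟩ := int_α b hb
    have hl : p ∈ Polynomial.lifts B'.val.toRingHom := by
      rw [Polynomial.lifts_iff_coeff_lifts]
      intro n
      exact ⟨⟨p.coeff n, hc n⟩, rfl⟩
    obtain ⟨Q, hQp, -, hQm⟩ := Polynomial.lifts_and_degree_eq_and_monic hl hp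
    refine ⟨Q, hQm, ?_⟩
    have h2 : algebraMap B' F = (α : F' →+* F).comp B'.val.toRingHom := rfl
    rw [h2, ← Polynomial.eval₂_map, hQp, Polynomial.eval₂_eq_eval_map]
    simpa using he
  exact Algebra.isIntegral_norm F' hint

/-- A non-zero element of `V` outside `𝔪_V` is a unit of `V`. -/
theorem unitAt_of_not_mem_nonunits (V : ValuationSubring F) {b : F} (hb : b ∈ V)
    (hn : b ∉ V.nonunits) : UnitAt V b := by
  have hb0 : b ≠ 0 := by
    rintro rfl
    apply hn
    rw [ValuationSubring.mem_nonunits_iff]; simp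
  refine ⟨hb0, hb, ?_⟩
  rw [ValuationSubring.mem_nonunits_iff, not_lt] at hn
  rw [← V.valuation_le_one_iff, map_inv₀]
  exact inv_le_one_of_one_le₀ hn

/-- **Radicial from `NR`** (purely inseparable row of the table). -/
theorem rad_of_nr (α : F' →ₐ[E] F) (B' : Subalgebra R F') (B : Subalgebra R F)
    (V : ValuationSubring F) (q : ℕ) (hq : 0 < q) (hBV : ∀ b ∈ B, b ∈ V)
    (closed' : ∀ f : F', IsIntegral B' f → f ∈ B')
    (int_α : ∀ b ∈ B, ∃ p : Polynomial F', p.Monic ∧ (∀ i, p.coeff i ∈ B') ∧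
      (p.map (α : F' →+* F)).eval b = 0)
    (nr : ∀ y : F, UnitAt V y → α (S29.H395.normAlong α y) - y ^ q ∈ V.nonunits) :
    ∀ b ∈ B, ∃ k : ℕ, 0 < k ∧ ∃ b' ∈ B', b ^ k - (α : F' →+* F) b' ∈ V.nonunits := by
  intro b hb
  by_cases hbn : b ∈ V.nonunits
  · exact ⟨1, one_pos, 0, B'.zero_mem, by simpa using hbn⟩
  · have hu := unitAt_of_not_mem_nonunits V (hBV b hb) hbn
    refine ⟨q, hq, S29.H395.normAlong α b, normAlong_mem_chart α B' B closed' int_α b hb, ?_⟩
    have h := nr b hu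
    have e : b ^ q - (α : F' →+* F) (S29.H395.normAlong α b) =
        -(α (S29.H395.normAlong α b) - b ^ q) := by
      simp
    rw [e]
    rw [ValuationSubring.mem_nonunits_iff] at h ⊢
    rwa [Valuation.map_neg]

end Norm

/-! ## The concrete leaves -/

section Concrete

variable {P : ValuationSubring A2.Qb} {E : IntermediateField ℚ A2.Qb} {M q : ℕ}
  [NeZero M] [NeZero q] [NeZero (M * q)]

theorem setting_of_std {w : A2.RE P E} (h : Std P E M q w) : A2.Mod.Setting P E M q w where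
  q_prime := h.q_prime
  q_not_dvd := h.q_not_dvd
  M_ne_zero := NeZero.ne M
  lies_over := h.lies_over
  dvr := h.unram.1.dvr
  unif := h.unif

theorem x3E_eq_xSq : x3E E M q = xSq E M q := rfl

/-- **The chart-level incidence datum of the finite charts, from the leaves.** -/
theorem chartInc_of_leaves (hTable : LeafTable) (hChart : LeafChart) (hQep : LeafQep)
    (hVal : LeafVal) (hSheet : LeafSheet) (hNR : LeafNR)
    (w : A2.RE P E) (hstd : Std P E M q w)
    (V₁' V₂' : ValuationSubring (A2.Mod.FE E (M * q)))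
    (V₁ V₂ V₃ : ValuationSubring (A2.Mod.FE E (M * q * q)))
    (W' : A2.Mod.FE E (M * q) ≃ₐ[E] A2.Mod.FE E (M * q))
    (W : A2.Mod.FE E (M * q * q) ≃ₐ[E] A2.Mod.FE E (M * q * q))
    (hobj : Objs P E M q V₁' V₂' V₁ V₂ V₃ W' W) :
    ChartInc w (q - 1)
      (A2.Mod.αE E (M * q) q : A2.Mod.FE E (M * q) →+* A2.Mod.FE E (M * q * q))
      (A2.Mod.βE E (M * q) q : A2.Mod.FE E (M * q) →+* A2.Mod.FE E (M * q * q))
      (chart (A2.RE P E) ({A2.Mod.xE E M q} : Set (A2.Mod.FE E (M * q))))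
      (chart (A2.RE P E) ({x3E E M q} : Set (A2.Mod.FE E (M * q * q)))) V₁ V₂ V₃ V₁' V₂' := by
  have T := hTable P E M q w hstd V₁' V₂' V₁ V₂ V₃ W' W hobj
  have C := hChart P E M q w hstd V₁' V₂' V₁ V₂ V₃ W' W hobj
  have Q := hQep P E M q w hstd V₁' V₂' V₁ V₂ V₃ W' W hobj
  have Vl := hVal P E M q w hstd V₁' V₂' V₁ V₂ V₃ W' W hobj
  have Sh := hSheet P E M q w hstd V₁' V₂' V₁ V₂ V₃ W' W hobj
  have NR := hNR P E M q w hstd V₁' V₂' V₁ V₂ V₃ W' W hobj
  have hS := setting_of_std hstd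
  have hq : 0 < q := hstd.q_prime.pos
  obtain ⟨t, ⟨ht0, -, htu⟩, ⟨-, -, hram⟩⟩ := Vl.ram₂
  have hB₁ : ∀ b ∈ chart (A2.RE P E) ({x3E E M q} : Set (A2.Mod.FE E (M * q * q))), b ∈ V₁ :=
    chart_le_valuationSubring V₁ Sh.base₁
      (fun s hs => by rw [Set.mem_singleton_iff.mp hs]; exact Vl.x_unit₁.2.1)
  have hB₃ : ∀ b ∈ chart (A2.RE P E) ({x3E E M q} : Set (A2.Mod.FE E (M * q * q))), b ∈ V₃ :=
    chart_le_valuationSubring V₃ Sh.base₃
      (fun s hs => by rw [Set.mem_singleton_iff.mp hs]; exact Vl.x_unit₃.2.1)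
  have hv := hobj.vzero'
  have h12 := inc₁₂_concrete w hS V₁' W' hobj.vinf' hobj.fricke'
  have h21 := inc₂₁_concrete w hS V₁' W' hobj.vinf' hobj.fricke'
  rw [← hv] at h12 h21
  exact chartInc_of_chart w (q - 1) _ _ (x3E E M q) (A2.Mod.xE E M q) V₁ V₂ V₃ V₁' V₂'
    Sh.base₁ Sh.base₂ Sh.base₃ Vl.x_unit₁.2.1 Vl.x_unit₂.2.1 Vl.x_unit₃.2.1
    C.chart_α C.chart_β C.int_α C.int_β
    T.comap_α₁ T.comap_α₂ T.comap_α₃ T.comap_β₁ T.comap_β₂ T.comap_β₃
    (alpha_algebraMap P E (M * q) q w) (beta_algebraMap P E (M * q) q w)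
    Vl.unif₁.2.1 Vl.unif₃.2.1 Q.qep_f
    Vl.unif₁.2.2 (pow_div_mem_of_ram V₂ _ t (q - 1) ht0 htu hram) Vl.unif₃.2.2
    h12 h21
    (rad_of_nr (A2.Mod.αE E (M * q) q) _ _ V₃ q hq hB₃ (chart_closed _) C.int_α NR.nr_α₂)
    (rad_of_nr (A2.Mod.βE E (M * q) q) _ _ V₁ q hq hB₁ (chart_closed _) C.int_β NR.nr_β₂)

/-- The field `cusp_single` from `LeafTable`, `LeafVal`, `LeafSheet`. -/
theorem cuspSingle_of_leaves (hTable : LeafTable) (hVal : LeafVal) (hSheet : LeafSheet)
    (w : A2.RE P E) (hstd : Std P E M q w)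
    (V₁' V₂' : ValuationSubring (A2.Mod.FE E (M * q)))
    (V₁ V₂ V₃ : ValuationSubring (A2.Mod.FE E (M * q * q)))
    (W' : A2.Mod.FE E (M * q) ≃ₐ[E] A2.Mod.FE E (M * q))
    (W : A2.Mod.FE E (M * q * q) ≃ₐ[E] A2.Mod.FE E (M * q * q))
    (hobj : Objs P E M q V₁' V₂' V₁ V₂ V₃ W' W) :
    ∀ 𝔪 : Ideal (chart (A2.RE P E) ({(x3E E M q)⁻¹} : Set (A2.Mod.FE E (M * q * q)))),
    𝔪.IsMaximal →
    algebraMap (A2.RE P E)
      (chart (A2.RE P E) ({(x3E E M q)⁻¹} : Set (A2.Mod.FE E (M * q * q)))) w ∈ 𝔪 →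
    (⟨(x3E E M q)⁻¹, Fermat.Agent.S18.H138.mem_chart_of_mem rfl⟩ :
      chart (A2.RE P E) ({(x3E E M q)⁻¹} : Set (A2.Mod.FE E (M * q * q)))) ∈ 𝔪 →
    ¬ (Through _ 𝔪 V₁ ∧ Through _ 𝔪 V₂) ∧ ¬ (Through _ 𝔪 V₁ ∧ Through _ 𝔪 V₃) ∧
      ¬ (Through _ 𝔪 V₂ ∧ Through _ 𝔪 V₃) := by
  have T := hTable P E M q w hstd V₁' V₂' V₁ V₂ V₃ W' W hobj
  have Vl := hVal P E M q w hstd V₁' V₂' V₁ V₂ V₃ W' W hobj
  have Sh := hSheet P E M q w hstd V₁' V₂' V₁ V₂ V₃ W' W hobj
  have hS := setting_of_std hstd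
  have hv := hobj.vzero'
  have c3 := T.comap_α₃
  have c5 := T.comap_β₂
  have c6 := T.comap_β₃
  rw [hv] at c3 c5 c6
  exact cusp_single_concrete w hS V₁' W' hobj.vinf' hobj.fricke' (x3E E M q) x3E_eq_xSq
    V₁ V₂ V₃ Sh.base₁ Sh.base₂ Sh.base₃ Vl.x_unit₁.2.2 Vl.x_unit₂.2.2 Vl.x_unit₃.2.2
    (chart_αi P E M q hstd.q_prime) (chart_βi P E M q hstd.q_prime)
    T.comap_α₁ T.comap_α₂ c3 T.comap_β₁ c5 c6

/-- **`Mod3.LeafInc`** from the leaves TABLE, CHART, QEP, VAL, SHEET, NR. -/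
theorem leafInc (hTable : LeafTable) (hChart : LeafChart) (hQep : LeafQep)
    (hVal : LeafVal) (hSheet : LeafSheet) (hNR : LeafNR) : LeafInc := by
  intro P E M q _ _ _ w hstd V₁' V₂' V₁ V₂ V₃ W' W hobj
  have D := chartInc_of_leaves hTable hChart hQep hVal hSheet hNR w hstd V₁' V₂' V₁ V₂ V₃ W' W
    hobj
  exact
    { incidence := fun 𝔪 h𝔪 h => D.incidence 𝔪 h𝔪.isPrime h
      cusp_single := cuspSingle_of_leaves hTable hVal hSheet w hstd V₁' V₂' V₁ V₂ V₃ W' W hobj }

/-- **`Mod3.LeafUniq`** from the leaves TABLE, CHART, QEP, VAL, SHEET, NR. -/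
theorem leafUniq (hTable : LeafTable) (hChart : LeafChart) (hQep : LeafQep)
    (hVal : LeafVal) (hSheet : LeafSheet) (hNR : LeafNR) : LeafUniq := by
  intro P E M q _ _ _ w hstd V₁' V₂' V₁ V₂ V₃ W' W hobj
  have D := chartInc_of_leaves hTable hChart hQep hVal hSheet hNR w hstd V₁' V₂' V₁ V₂ V₃ W' W
    hobj
  exact
    { unique_α := fun _ 𝔪 𝔪' h𝔪 h𝔪' ht h => D.unique_α 𝔪 𝔪' h𝔪 h𝔪' ht h
      unique_β := fun _ 𝔪 𝔪' h𝔪 h𝔪' ht h => D.unique_β 𝔪 𝔪' h𝔪 h𝔪' ht h }

end Concrete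

end Fermat.Agent.S36.Mod3.H153

end
end
-- ===== PACK-END S36/Mod3/H153/Leaves.lean

-- ===== PACK-BEGIN S36/Mod3/H860/Sheet.lean
section










/-!
# S36 / MOD3 — leaf SHEET (helper860): `base_i` and `gauss_i` of `Eng.TripleCtx` (Spec v1.3)

For the concrete objects of `Mod3/Spec.lean` (`V₁ = V∞`, `V₃ = V₁.comap W`, `V₂` any valuation
ring of `F_E(M q²)` with `V₂.comap α = V₁'`), and the coordinate `x = j · j_q · j_{q²}`:

* `base_i`  : `R ⊆ V_i`;
* `gauss_i` : for `p ∈ R[X]` with a coefficient not divisible by `w`, `p(x)⁻¹ ∈ V_i`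
  (the residue of `x` in the residue field of `V_i` is transcendental over `k = R / w`).

Route.  `V₁`: `x` is polar of order `1 + q + q²` (L3, `H816.vinfGauss`).  `V₃`: `W x` is polar
of order `M q² + M q + M`.  `V₂`: Kronecker's congruence `Φ_q(X, Y) ≡ (X^q - Y)(X - Y^q) mod q`
(`S28.h88_kronecker_int`) and `Φ_q(j_{q²}, j_q) = 0` show that the residue of `j_{q²}` is
`j̄^{q²}` or `j̄`; with `j̄_q = j̄^q` the residue of `x` is `j̄^k`, `k ∈ {1 + q + q², q + 2}`, and
`p(j^k) = α (p(X^k)(j'))` is a unit by L3 at the level `M q`.  Neither `V₂ ≠ V₁` nor the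
Eisenstein splitting is used.
-/

set_option autoImplicit false
set_option linter.style.haveILetI false
set_option linter.unusedSectionVars false
set_option linter.unusedVariables false
set_option synthInstance.maxHeartbeats 400000
set_option maxHeartbeats 1600000

noncomputable section

namespace Fermat.Agent.S36.Mod3.H860

open ModularCurve AlgebraicCurve Polynomial
open Fermat.Agent.S18.H138 (chart)
open Fermat.Agent.S36.Eng
open Fermat.Agent.A2.Mod

/-! ## `V∞`: polar elements -/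

section Polar

variable {P : ValuationSubring Qb} {E : IntermediateField ℚ Qb}

/-- **Gauss units** (L3 + L2): for a polar `u` and `w ∤ p`, `p(u)` is a NONZERO unit of `V∞`. -/
theorem polar_unit [IsDiscreteValuationRing (RE P E)] {w : RE P E} (hw : Irreducible w)
    {N : ℕ} (hN : N ≠ 0) {V : ValuationSubring (FE E N)} (hV : IsVinf P E N V)
    {u : FE E N} {a : ℕ} (ha : 0 < a) (hu : H13.IsPolar E N u a)
    {p : Polynomial (RE P E)} (hp : ¬ Polynomial.C w ∣ p) :
    aeval u p ≠ 0 ∧ aeval u p ∈ V ∧ (aeval u p)⁻¹ ∈ V := by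
  obtain ⟨g, hg, e⟩ := hu
  have key : ∀ p' : Polynomial (RE P E), ¬ Polynomial.C w ∣ p' →
      aeval u p' ∈ V ∧ (aeval u p')⁻¹ ∈ V := by
    intro p' hp'
    have h3 := H816.vinfGauss P E w N hN inferInstance hw V hV u (A2.H708.castA (RE P E) g) a ha
      (by rw [e]; exact H553.coeffEmb_castQ (P := P) g)
      (fun n hn => by
        show ((g.coeff n : ℤ) : RE P E) = 0
        rw [hg.1 n hn, Int.cast_zero])
      (by
        have : (A2.H708.castA (RE P E) g).coeff (-(a : ℤ)) = 1 := by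
          show ((g.coeff (-(a : ℤ)) : ℤ) : RE P E) = 1
          rw [hg.2, Int.cast_one]
        rw [this]
        exact isUnit_one)
      p' hp'
    exact h3
  refine ⟨?_, key p hp⟩
  intro h0
  have hpw : ¬ Polynomial.C w ∣ p + Polynomial.C w := by
    intro h
    exact hp ((dvd_add_left (dvd_refl _)).mp h)
  have h1 := (key (p + Polynomial.C w) hpw).2
  rw [map_add, h0, zero_add, Polynomial.aeval_C] at h1
  have hL2 := H553.vinfBasic P E w N hN inferInstance hw V hV
  exact hL2.1.inv_not_mem h1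

end Polar

/-! ## The coordinate `x = j j_q j_{q²}` at `V₁ = V∞` and `V₃ = V∞ ∘ W` -/

section Ends

variable {P : ValuationSubring Qb} {E : IntermediateField ℚ Qb}
  (M q : ℕ) [NeZero M] [NeZero q] [NeZero (M * q)]

theorem isPolar_x3E : H13.IsPolar E (M * q * q) (x3E E M q) (1 + q + q * q) :=
  ((H13.isPolar_jE 1 (one_dvd _)).mul (H13.isPolar_jE q (Dvd.intro_left (M * q) rfl))).mul
    (H13.isPolar_jE (q * q) ⟨M, by ring⟩)

theorem isPolar_fricke_x3E {W : FE E (M * q * q) ≃ₐ[E] FE E (M * q * q)}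
    (hW : IsFricke E (M * q * q) W) :
    H13.IsPolar E (M * q * q) (W (x3E E M q)) (M * q * q + M * q + M) := by
  have h1 : W (j1 E M q) = jE E (M * q * q) (M * q * q) (dvd_refl _) :=
    hW.1 1 (M * q * q) (one_dvd _) (dvd_refl _) (one_mul _)
  have h2 : W (jq E M q) = jE E (M * q * q) (M * q) (dvd_mul_right (M * q) q) :=
    hW.1 q (M * q) (Dvd.intro_left (M * q) rfl) (dvd_mul_right (M * q) q) (by ring)
  have h3 : W (jqq E M q) = jE E (M * q * q) M ⟨q * q, by ring⟩ :=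
    hW.1 (q * q) M ⟨M, by ring⟩ ⟨q * q, by ring⟩ (by ring)
  rw [x3E, map_mul, map_mul, h1, h2, h3]
  exact ((H13.isPolar_jE (M * q * q) (dvd_refl _)).mul
    (H13.isPolar_jE (M * q) (dvd_mul_right (M * q) q))).mul (H13.isPolar_jE M ⟨q * q, by ring⟩)

variable {M q}

/-- `gauss₁`. -/
theorem gauss_vinf [IsDiscreteValuationRing (RE P E)] {w : RE P E} (hw : Irreducible w)
    {V₁ : ValuationSubring (FE E (M * q * q))} (hV : IsVinf P E (M * q * q) V₁)
    (p : Polynomial (RE P E)) (hp : ∃ i, ¬ w ∣ p.coeff i) :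
    (aeval (x3E E M q) p)⁻¹ ∈ V₁ :=
  (polar_unit hw (NeZero.ne _) hV (by omega) (isPolar_x3E M q) (not_C_dvd_of_exists_coeff hp)).2.2

/-- `gauss₃`. -/
theorem gauss_vzero [IsDiscreteValuationRing (RE P E)] {w : RE P E} (hw : Irreducible w)
    {V₁ : ValuationSubring (FE E (M * q * q))} (hV : IsVinf P E (M * q * q) V₁)
    {W : FE E (M * q * q) ≃ₐ[E] FE E (M * q * q)} (hW : IsFricke E (M * q * q) W)
    (p : Polynomial (RE P E)) (hp : ∃ i, ¬ w ∣ p.coeff i) :
    (aeval (x3E E M q) p)⁻¹ ∈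
      V₁.comap (W : FE E (M * q * q) →+* FE E (M * q * q)) := by
  have h := (polar_unit hw (NeZero.ne _) hV
    (Nat.add_pos_right _ (Nat.pos_of_ne_zero (NeZero.ne M)))
    (isPolar_fricke_x3E M q hW) (not_C_dvd_of_exists_coeff hp)).2.2
  have e : W (aeval (x3E E M q) p) = aeval (W (x3E E M q)) p :=
    (Polynomial.aeval_algHom_apply (W.toAlgHom.restrictScalars (RE P E)) (x3E E M q) p).symm
  rw [ValuationSubring.mem_comap]
  show W (aeval (x3E E M q) p)⁻¹ ∈ V₁
  rw [map_inv₀, e]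
  exact h

end Ends

/-! ## The middle valuation ring `V₂` -/

section Mid

variable {P : ValuationSubring Qb} {E : IntermediateField ℚ Qb}
  {M q : ℕ} [NeZero M] [NeZero q] [NeZero (M * q)]

theorem alpha_j1 : αE E (M * q) q (jE E (M * q) 1 (one_dvd _)) = j1 E M q :=
  H553.αE_jE E (M * q) q 1 (one_dvd _)

theorem alpha_jq : αE E (M * q) q (jE E (M * q) q (dvd_mul_left q M)) = jq E M q :=
  H553.αE_jE E (M * q) q q (dvd_mul_left q M)

/-- `Φ_q(j_{q²}, j_q) = 0` in `F_E(M q²)`. -/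
theorem modEq_jqq (D : S28.ModPolyData q) :
    D.Φ.eval₂ (Polynomial.aeval (R := ℤ) (jq E M q)).toRingHom (jqq E M q) = 0 :=
  H873.eval₂_eq_zero_of_int E (M * q * q) D.Φ _ _ _ _
    (H873.coe_jE_int E (M * q * q) (q * q) _) (H873.coe_jE_int E (M * q * q) q _)
    (S28.H739.modPoly_eval_level D q)

/-- `base₂`. -/
theorem base_mid [IsDiscreteValuationRing (RE P E)]
    {V₁' : ValuationSubring (FE E (M * q))} (hV' : IsVinf P E (M * q) V₁')
    {V₂ : ValuationSubring (FE E (M * q * q))}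
    (hmid : V₂.comap (αE E (M * q) q : FE E (M * q) →+* FE E (M * q * q)) = V₁')
    (r : RE P E) : algebraMap (RE P E) (FE E (M * q * q)) r ∈ V₂ := by
  have h1 : algebraMap (RE P E) (FE E (M * q)) r ∈ V₁' := (H13.isOver_of_isVinf hV').mem r
  rw [← hmid, ValuationSubring.mem_comap] at h1
  have e : (αE E (M * q) q) (algebraMap (RE P E) (FE E (M * q)) r) =
      algebraMap (RE P E) (FE E (M * q * q)) r := (αE E (M * q) q).commutes (r : E)
  rw [← e]
  exact h1

/-- `gauss₂`. -/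
theorem gauss_mid [IsDiscreteValuationRing (RE P E)] {w : RE P E} (hw : Irreducible w)
    (hq : q.Prime) (hP : P.LiesOverPrime q)
    {V₁' : ValuationSubring (FE E (M * q))} (hV' : IsVinf P E (M * q) V₁')
    {V₂ : ValuationSubring (FE E (M * q * q))}
    (hmid : V₂.comap (αE E (M * q) q : FE E (M * q) →+* FE E (M * q * q)) = V₁')
    (p : Polynomial (RE P E)) (hp : ∃ i, ¬ w ∣ p.coeff i) :
    (aeval (x3E E M q) p)⁻¹ ∈ V₂ := by
  haveI : Fact q.Prime := ⟨hq⟩
  have hL2 := H553.vinfBasic P E w (M * q) (NeZero.ne _) inferInstance hw V₁' hV'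
  obtain ⟨D⟩ := S28.H807.nonempty_modPolyData q hq
  obtain ⟨Θ, hΘ⟩ := S28.h88_kronecker_int q D
  have hmod : D.Φ.eval₂ (Polynomial.aeval (R := ℤ)
      (αE E (M * q) q (jE E (M * q) q (dvd_mul_left q M)))).toRingHom (jqq E M q) = 0 := by
    rw [alpha_jq]
    exact modEq_jqq (E := E) (M := M) D
  have hqV' : ((q : ℕ) : FE E (M * q)) ∈ V₁'.nonunits := by
    have h := (V₁'.mem_nonunits_iff).mpr (H994.val_natCast_lt_one hP hV')
    rwa [map_natCast] at h
  have hfrob : jE E (M * q) q (dvd_mul_left q M) - jE E (M * q) 1 (one_dvd _) ^ q ∈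
      V₁'.nonunits := (V₁'.mem_nonunits_iff).mpr (H994.val_frobInf hP hV')
  have h := gauss_mid_abs (R := RE P E) (αE E (M * q) q) V₁' V₂ hmid w hq hqV'
    (H13.isOver_of_isVinf hV').mem (hL2.2.2 1 (one_dvd _)).1 (hL2.2.2 q (dvd_mul_left q M)).1
    hfrob D.Φ Θ D.monic hΘ hmod
    (fun p' hp' => polar_unit hw (NeZero.ne _) hV' one_pos (H13.isPolar_jE 1 (one_dvd _)) hp')
    p (not_C_dvd_of_exists_coeff hp)
  rw [alpha_j1, alpha_jq] at h
  exact h

end Mid

/-! ## The leaf -/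

/-- **MOD3 leaf SHEET** (`Mod3.LeafSheet`, verbatim): `base_i` and `gauss_i`. -/
theorem leafSheet : Mod3.LeafSheet := by
  intro P E M q _ _ _ w hStd V₁' V₂' V₁ V₂ V₃ W' W hO
  haveI : IsDiscreteValuationRing (RE P E) := hStd.unram.1.dvr
  refine ⟨?_, ?_, ?_, ?_, ?_, ?_⟩
  · exact (H13.isOver_of_isVinf hO.vinf).mem
  · exact base_mid hO.vinf' hO.mid
  · rw [hO.vzero]
    exact (H13.isOver_comap hO.vinf W).mem
  · exact gauss_vinf hStd.unif hO.vinf
  · exact gauss_mid hStd.unif hStd.q_prime hStd.lies_over hO.vinf' hO.mid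
  · rw [hO.vzero]
    exact gauss_vzero hStd.unif hO.vinf hO.fricke

end Fermat.Agent.S36.Mod3.H860

end

end
-- ===== PACK-END S36/Mod3/H860/Sheet.lean

-- ===== PACK-BEGIN S59/H105/LocFam.lean
section


/-!
# Row S59, cell TW, leaf CTRL (helper105): `Aut.IsLocPart` in terms of `tOpL`, `uOpL`
-/

set_option autoImplicit false

namespace Fermat.Agent.S59.H105

open IsLocalRing CongruenceSubgroup
open Fermat.Agent.S59.TW.H653 Fermat.Agent.S59.TW.Aut
open scoped MatrixGroups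

section

variable {M : ℕ} {K : Subgroup SL(2, ℤ)} (hK : IsMid M K)
  {𝒪 : Type} [CommRing 𝒪] [IsLocalRing 𝒪]

/-- The projector of a localisation: properties in terms of `tOpL`, `uOpL`. -/
theorem isLocPart_proj {Tset Uset : Set (ℕ × 𝒪)} {V : Submodule 𝒪 (Additive K →+ 𝒪)}
    (h : IsLocPart hK Tset Uset V) {ϖ : 𝒪} (hϖ : maximalIdeal 𝒪 = Ideal.span {ϖ})
    (hT : ∀ x ∈ Tset, x.1.Prime ∧ ¬ x.1 ∣ M) (hU : ∀ x ∈ Uset, x.1.Prime ∧ x.1 ∣ M) :
    ∃ e : (Additive K →+ 𝒪) →ₗ[𝒪] (Additive K →+ 𝒪),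
      (∀ x, e (e x) = e x) ∧ (∀ x, e x ∈ V) ∧ (∀ x ∈ V, e x = x) ∧
      (∀ (ℓ : ℕ) (hℓ : ℓ.Prime) (hℓM : ¬ ℓ ∣ M) (c : 𝒪) (x : Additive K →+ 𝒪),
        e (tOpL hK 𝒪 ℓ hℓ hℓM c x) = tOpL hK 𝒪 ℓ hℓ hℓM c (e x)) ∧
      (∀ (q : ℕ) (hq : q.Prime) (hqM : q ∣ M) (α : 𝒪) (x : Additive K →+ 𝒪),
        e (uOpL hK 𝒪 q hq hqM α x) = uOpL hK 𝒪 q hq hqM α (e x)) ∧
      ∀ x, e x = 0 →
        (∀ (y : ℕ × 𝒪) (hy : y ∈ Tset),
          ∃ z : Additive K →+ 𝒪, tOpL hK 𝒪 y.1 (hT y hy).1 (hT y hy).2 y.2 x = ϖ • z) →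
        (∀ (y : ℕ × 𝒪) (hy : y ∈ Uset),
          ∃ z : Additive K →+ 𝒪, uOpL hK 𝒪 y.1 (hU y hy).1 (hU y hy).2 y.2 x = ϖ • z) →
        ∃ z : Additive K →+ 𝒪, x = ϖ • z := by
  obtain ⟨e, h1, h2, h3, h4, h5, h6⟩ := isLocPart_data hK h hϖ
  refine ⟨e, h1, h2, h3, ?_, ?_, ?_⟩
  · intro ℓ hℓ hℓM c x
    haveI : Fact ℓ.Prime := ⟨hℓ⟩
    exact comm_shiftE e _ c (fun y => h4 ℓ hℓM y) x
  · intro q hq hqM α x
    haveI : Fact q.Prime := ⟨hq⟩
    exact comm_shiftE e _ α (fun y => h5 q hqM y) x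
  · intro x hx hTx hUx
    refine h6 x hx ?_ ?_
    · intro ℓ _ c hc
      exact hTx (ℓ, c) hc
    · intro q _ α hα
      exact hUx (q, α) hα

theorem isLocPart_nilp_tOpL {Tset Uset : Set (ℕ × 𝒪)} {V : Submodule 𝒪 (Additive K →+ 𝒪)}
    (h : IsLocPart hK Tset Uset V) {ϖ : 𝒪} (hϖ : maximalIdeal 𝒪 = Ideal.span {ϖ})
    (ℓ : ℕ) (hℓ : ℓ.Prime) (hℓM : ¬ ℓ ∣ M) (c : 𝒪) (hc : (ℓ, c) ∈ Tset) :
    ∃ m : ℕ, ∀ x ∈ V, ∃ z ∈ V, (tOpL hK 𝒪 ℓ hℓ hℓM c ^ m) x = ϖ • z := by
  haveI : Fact ℓ.Prime := ⟨hℓ⟩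
  exact isLocPart_nilpT hK h hϖ hℓM hc

theorem isLocPart_nilp_uOpL {Tset Uset : Set (ℕ × 𝒪)} {V : Submodule 𝒪 (Additive K →+ 𝒪)}
    (h : IsLocPart hK Tset Uset V) {ϖ : 𝒪} (hϖ : maximalIdeal 𝒪 = Ideal.span {ϖ})
    (q : ℕ) (hq : q.Prime) (hqM : q ∣ M) (α : 𝒪) (hα : (q, α) ∈ Uset) :
    ∃ m : ℕ, ∀ x ∈ V, ∃ z ∈ V, (uOpL hK 𝒪 q hq hqM α ^ m) x = ϖ • z := by
  haveI : Fact q.Prime := ⟨hq⟩
  exact isLocPart_nilpU hK h hϖ hqM hα

/-- Stability of the image of a commuting projector. -/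
theorem mem_of_proj_comm {X : Type*} [AddCommGroup X] [Module 𝒪 X] {V : Submodule 𝒪 X}
    (e f : X →ₗ[𝒪] X) (h2 : ∀ x, e x ∈ V) (h3 : ∀ x ∈ V, e x = x)
    (hc : ∀ x, e (f x) = f (e x)) : ∀ x ∈ V, f x ∈ V := by
  intro x hx
  rw [← h3 x hx, ← hc]
  exact h2 _

end

section Fam

variable {M : ℕ} {K : Subgroup SL(2, ℤ)} (hK : IsMid M K)
  {𝒪 : Type} [CommRing 𝒪] [IsLocalRing 𝒪]

/-- The index type of a family of generators. -/
abbrev Idx (Ts Us : Set (ℕ × 𝒪)) : Type := {x : ℕ × 𝒪 // x ∈ Ts} ⊕ {x : ℕ × 𝒪 // x ∈ Us}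

/-- The family of generators `T_ℓ - c` (`(ℓ, c) ∈ Ts`), `U_q - α` (`(q, α) ∈ Us`). -/
noncomputable def fam {Ts Us : Set (ℕ × 𝒪)} (hT : ∀ x ∈ Ts, x.1.Prime ∧ ¬ x.1 ∣ M)
    (hU : ∀ x ∈ Us, x.1.Prime ∧ x.1 ∣ M) :
    Idx Ts Us → ((Additive K →+ 𝒪) →ₗ[𝒪] (Additive K →+ 𝒪))
  | .inl x => tOpL hK 𝒪 x.1.1 (hT x.1 x.2).1 (hT x.1 x.2).2 x.1.2
  | .inr x => uOpL hK 𝒪 x.1.1 (hU x.1 x.2).1 (hU x.1 x.2).2 x.1.2

theorem fam_comm {Ts Us : Set (ℕ × 𝒪)} (hT : ∀ x ∈ Ts, x.1.Prime ∧ ¬ x.1 ∣ M)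
    (hU : ∀ x ∈ Us, x.1.Prime ∧ x.1 ∣ M) (i j : Idx Ts Us) (x : Additive K →+ 𝒪) :
    fam hK hT hU i (fam hK hT hU j x) = fam hK hT hU j (fam hK hT hU i x) := by
  rcases i with i | i <;> rcases j with j | j
  · exact tOpL_tOpL hK i.1.1 j.1.1 (hT i.1 i.2).1 (hT j.1 j.2).1 (hT i.1 i.2).2 (hT j.1 j.2).2
      i.1.2 j.1.2 x
  · exact (uOpL_tOpL hK j.1.1 i.1.1 (hU j.1 j.2).1 (hT i.1 i.2).1 (hU j.1 j.2).2 (hT i.1 i.2).2
      j.1.2 i.1.2 x).symm
  · exact uOpL_tOpL hK i.1.1 j.1.1 (hU i.1 i.2).1 (hT j.1 j.2).1 (hU i.1 i.2).2 (hT j.1 j.2).2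
      i.1.2 j.1.2 x
  · exact uOpL_uOpL hK i.1.1 j.1.1 (hU i.1 i.2).1 (hU j.1 j.2).1 (hU i.1 i.2).2 (hU j.1 j.2).2
      i.1.2 j.1.2 x

/-- A projector commuting with all the `T_ℓ - c`, `U_q - α` commutes with a family. -/
theorem fam_proj_comm {Ts Us : Set (ℕ × 𝒪)} (hT : ∀ x ∈ Ts, x.1.Prime ∧ ¬ x.1 ∣ M)
    (hU : ∀ x ∈ Us, x.1.Prime ∧ x.1 ∣ M)
    (e : (Additive K →+ 𝒪) →ₗ[𝒪] (Additive K →+ 𝒪))
    (h4 : ∀ (ℓ : ℕ) (hℓ : ℓ.Prime) (hℓM : ¬ ℓ ∣ M) (c : 𝒪) (x : Additive K →+ 𝒪),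
        e (tOpL hK 𝒪 ℓ hℓ hℓM c x) = tOpL hK 𝒪 ℓ hℓ hℓM c (e x))
    (h5 : ∀ (q : ℕ) (hq : q.Prime) (hqM : q ∣ M) (α : 𝒪) (x : Additive K →+ 𝒪),
        e (uOpL hK 𝒪 q hq hqM α x) = uOpL hK 𝒪 q hq hqM α (e x))
    (i : Idx Ts Us) (x : Additive K →+ 𝒪) :
    e (fam hK hT hU i x) = fam hK hT hU i (e x) := by
  rcases i with i | i
  · exact h4 i.1.1 (hT i.1 i.2).1 (hT i.1 i.2).2 i.1.2 x
  · exact h5 i.1.1 (hU i.1 i.2).1 (hU i.1 i.2).2 i.1.2 x

/-- The generators of a sub-family are nilpotent modulo `ϖ` on a localisation. -/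
theorem fam_nilp {Tset Uset : Set (ℕ × 𝒪)} {V : Submodule 𝒪 (Additive K →+ 𝒪)}
    (h : IsLocPart hK Tset Uset V) {ϖ : 𝒪} (hϖ : maximalIdeal 𝒪 = Ideal.span {ϖ})
    {Ts Us : Set (ℕ × 𝒪)} (hT : ∀ x ∈ Ts, x.1.Prime ∧ ¬ x.1 ∣ M)
    (hU : ∀ x ∈ Us, x.1.Prime ∧ x.1 ∣ M) (hTs : Ts ⊆ Tset) (hUs : Us ⊆ Uset)
    (i : Idx Ts Us) :
    ∃ m : ℕ, ∀ x ∈ V, ∃ z ∈ V, (fam hK hT hU i ^ m) x = ϖ • z := by
  rcases i with i | i
  · exact isLocPart_nilp_tOpL hK h hϖ i.1.1 (hT i.1 i.2).1 (hT i.1 i.2).2 i.1.2 (hTs i.2)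
  · exact isLocPart_nilp_uOpL hK h hϖ i.1.1 (hU i.1 i.2).1 (hU i.1 i.2).2 i.1.2 (hUs i.2)

end Fam

end Fermat.Agent.S59.H105

end
-- ===== PACK-END S59/H105/LocFam.lean

-- ===== PACK-BEGIN S59/G4/H109/Res2.lean
section





/-!
# Row S59, layer G4 — piece RES2 (helper109)

`resStatement2 : Fermat.Agent.S59.G4.ResStatement2` (exact `Prop` of `G4/Spec2.lean`).

Let `θ : 𝕋 → k` be non-Eisenstein, witnessed by an absolutely irreducible `ρ̄` over `k`, and let
`ρ` be a representation over a local ring `A` whose Frobenius characteristic polynomials are given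
by `φ : 𝕋 → A`, `φ ≡ ι ∘ θ` modulo the maximal ideal (`ι : k → κ = A / 𝔪`).

1. (Chebotarev, `Lib.Cheb.chebotarev`)  on the compositum of the finite levels of `ρ.residual` and
   `ρ̄` every `g` agrees with a Frobenius element at a prime `ℓ ∉ S`, `ℓ ∤ N`; hence
   `charpoly (ρ.residual g) = (charpoly (ρ̄ g)).map ι` for all `g` (`charpoly_residual_eq`).
2. (Burnside)  there are `g₁, …, g₄` such that the `ρ̄ (gᵢ)` form a basis of `End(V̄)`
   (`exists_isUnit_coeffMat_of_absIrr`); equivalently the Gram matrix `tr ρ̄ (gᵢ gⱼ)` is invertible.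
3. The Gram matrix of `ρ.residual (gᵢ)` is the image under `ι` of that of `ρ̄ (gᵢ)`, hence
   invertible; so the `ρ.residual (gᵢ)` form a basis of `End`, over `κ` and over `κ̄`, and there is
   no nontrivial invariant subspace.

(The hypothesis `2 ≠ 0` of the statement is not needed.)
-/

set_option autoImplicit false

open Polynomial IsLocalRing
open scoped TensorProduct

namespace Fermat.Agent.S59.G4.H109

open Fermat.Agent.S31 Fermat.Agent.S59.G4

/-- **Burnside, basis form.**  An absolutely irreducible residual representation contains four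
elements whose matrices form a basis of `M₂(k)`. -/
theorem exists_isUnit_coeffMat_of_absIrr {k : Type} [Field k] (ρbar : ResidualGaloisRep k)
    (habs : ρbar.IsAbsolutelyIrreducible) (b : Module.Basis (Fin 2) k ρbar.V) :
    ∃ f : Fin 2 × Fin 2 → GQ,
      IsUnit (coeffMat fun a => LinearMap.toMatrix b b (ρbar.ρ (f a))).det := by
  classical
  set K := AlgebraicClosure k with hK
  set bK : Module.Basis (Fin 2) K (K ⊗[k] ρbar.V) := Algebra.TensorProduct.basis K b with hbK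
  set ρK : GQ →* Module.End K (K ⊗[k] ρbar.V) := (ρbar.baseChange K).ρ with hρK
  have hF : ∀ g, (LinearMap.toMatrix b b (ρbar.ρ g)).map (algebraMap k K)
      = LinearMap.toMatrix bK bK (ρK g) := by
    intro g
    have h1 : ρK g = (ρbar.ρ g).baseChange K := rfl
    rw [h1, LinearMap.toMatrix_baseChange]
  have hnt : Nontrivial (K ⊗[k] ρbar.V) := by
    apply Module.nontrivial_of_finrank_pos (R := K)
    have h2 : Module.finrank K (K ⊗[k] ρbar.V) = 2 := (ρbar.baseChange K).finrank_eq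
    rw [h2]
    norm_num
  have hB : Algebra.adjoin K (Set.range ρK) = ⊤ := by
    apply Fermat.Agent.S29.H872.burnside
    intro W hW
    refine habs W (fun σ x hx => ?_)
    exact hW (ρK σ) (Algebra.subset_adjoin ⟨σ, rfl⟩) hx
  have hspanK : Submodule.span K (Set.range ρK) = ⊤ := by
    have h1 := Algebra.adjoin_eq_span K (Set.range ρK)
    have h2 : (Submonoid.closure (Set.range ρK) : Set (Module.End K (K ⊗[k] ρbar.V)))
        = Set.range ρK := by
      have : Submonoid.closure (Set.range ρK) = MonoidHom.mrange ρK := by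
        rw [← MonoidHom.coe_mrange, Submonoid.closure_eq]
      rw [this, MonoidHom.coe_mrange]
    rw [h2, hB] at h1
    rw [← h1]
    rfl
  have hrange : (Set.range fun g => (LinearMap.toMatrix b b (ρbar.ρ g)).map (algebraMap k K))
      = (LinearMap.toMatrix bK bK) '' (Set.range ρK) := by
    ext M
    constructor
    · rintro ⟨g, rfl⟩
      exact ⟨ρK g, ⟨g, rfl⟩, (hF g).symm⟩
    · rintro ⟨_, ⟨g, rfl⟩, rfl⟩
      exact ⟨g, hF g⟩
  have hmap : Submodule.map ((LinearMap.toMatrix bK bK).toLinearMap)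
      (Submodule.span K (Set.range ρK))
      = Submodule.span K ((LinearMap.toMatrix bK bK) '' (Set.range ρK)) :=
    Submodule.map_span _ _
  have hspan : Submodule.span K
      (Set.range fun g => (LinearMap.toMatrix b b (ρbar.ρ g)).map (algebraMap k K)) = ⊤ := by
    rw [hrange, ← hmap, hspanK, Submodule.map_top, LinearMap.range_eq_top]
    exact (LinearMap.toMatrix bK bK).surjective
  have hr : ∀ a ∈ IsLocalRing.maximalIdeal k, algebraMap k K a = 0 := by
    intro a ha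
    rw [IsLocalRing.maximalIdeal_eq_bot, Ideal.mem_bot] at ha
    rw [ha, map_zero]
  obtain ⟨f, hf⟩ := Fermat.Agent.S31.H202.exists_invertible_coeff (algebraMap k K) hr
    (fun g => LinearMap.toMatrix b b (ρbar.ρ g)) hspan
  exact ⟨f, (Matrix.isUnit_iff_isUnit_det _).mp hf⟩

/-- **Chebotarev step.**  The characteristic polynomials of `ρ.residual` are the images of those
of `ρ̄`, at every element of `Gal(ℚ̄/ℚ)`. -/
theorem charpoly_residual_eq {N : ℕ} [NeZero N] (S : Finset ℕ) {k : Type} [Field k]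
    (θ : CuspForm.heckeAlgebra N 2 (↑S : Set ℕ) →+* k) (ρbar : ResidualGaloisRep k)
    (hρbar : ResFrobCond ρbar θ)
    {A : Type} [CommRing A] [IsLocalRing A] (ι : k →+* ResidueField A)
    (φ : CuspForm.heckeAlgebra N 2 (↑S : Set ℕ) →+* A)
    (hφ : ∀ t, residue A (φ t) = ι (θ t))
    (ρ : GaloisRepAdic A) (hρ : FrobCond ρ φ) (g : GQ) :
    LinearMap.charpoly (ρ.residual.ρ g) = (LinearMap.charpoly (ρbar.ρ g)).map ι := by
  obtain ⟨L₁, hL₁, h₁⟩ := ρ.residual.factorsThroughFiniteLevel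
  obtain ⟨L₂, hL₂, h₂⟩ := ρbar.factorsThroughFiniteLevel
  have := hL₁
  have := hL₂
  have hE : FiniteDimensional ℚ ↥(L₁ ⊔ L₂) := IntermediateField.finiteDimensional_sup L₁ L₂
  obtain ⟨ℓ, B, τ, hℓ, hℓS, hB, hτ, -, hτg⟩ :=
    Fermat.Agent.Lib.Cheb.chebotarev (L₁ ⊔ L₂) hE g (S ∪ N.primeFactors)
  have hℓS' : ℓ ∉ (↑S : Set ℕ) := fun h => hℓS (Finset.mem_union_left _ h)
  have hℓN : ¬ ℓ ∣ N := fun h =>
    hℓS (Finset.mem_union_right _ (Nat.mem_primeFactors.mpr ⟨hℓ, h, NeZero.ne N⟩))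
  have hfix : ∀ x ∈ L₁ ⊔ L₂, (g⁻¹ * τ) x = x := by
    intro x hx
    rw [AlgEquiv.mul_apply, hτg x hx]
    exact g.symm_apply_apply x
  have e1 : ρ.residual.ρ τ = ρ.residual.ρ g := by
    have h := h₁ (g⁻¹ * τ) (fun x hx => hfix x ((le_sup_left : L₁ ≤ L₁ ⊔ L₂) hx))
    have h' : ρ.residual.ρ g * ρ.residual.ρ (g⁻¹ * τ) = ρ.residual.ρ g := by rw [h, mul_one]
    rw [← map_mul, mul_inv_cancel_left] at h'
    exact h'
  have e2 : ρbar.ρ τ = ρbar.ρ g := by
    have h := h₂ (g⁻¹ * τ) (fun x hx => hfix x ((le_sup_right : L₂ ≤ L₁ ⊔ L₂) hx))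
    have h' : ρbar.ρ g * ρbar.ρ (g⁻¹ * τ) = ρbar.ρ g := by rw [h, mul_one]
    rw [← map_mul, mul_inv_cancel_left] at h'
    exact h'
  have c1 := hρ ℓ hℓ hℓN hℓS' B hB τ hτ
  have c2 := hρbar ℓ hℓ hℓN hℓS' B hB τ hτ
  rw [← e1, ← e2, c2]
  have hres : LinearMap.charpoly (ρ.residual.ρ τ)
      = LinearMap.charpoly ((ρ.ρ τ).baseChange (ResidueField A)) := rfl
  rw [hres, LinearMap.charpoly_baseChange, c1]
  simp only [Polynomial.map_add, Polynomial.map_sub, Polynomial.map_mul, Polynomial.map_pow,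
    Polynomial.map_X, Polynomial.map_C, map_natCast]
  rw [IsLocalRing.ResidueField.algebraMap_eq, hφ, Polynomial.map_natCast,
    Polynomial.map_natCast]

/-- **RES2.** -/
theorem resStatement2 : ResStatement2 := by
  intro N _ S k _ _h2 θ hθ A _ _ ι φ hφ ρ hρ
  obtain ⟨ρbar, habs, hρbar⟩ := hθ
  classical
  let b₁ : Module.Basis (Fin 2) k ρbar.V := Module.finBasisOfFinrankEq k ρbar.V ρbar.finrank_eq
  let b₂ : Module.Basis (Fin 2) (ResidueField A) ρ.residual.V :=
    Module.finBasisOfFinrankEq (ResidueField A) ρ.residual.V ρ.residual.finrank_eq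
  obtain ⟨f, hf⟩ := exists_isUnit_coeffMat_of_absIrr ρbar habs b₁
  have htr : ∀ g : GQ, LinearMap.trace (ResidueField A) ρ.residual.V (ρ.residual.ρ g)
      = ι (LinearMap.trace k ρbar.V (ρbar.ρ g)) := by
    intro g
    rw [trace_eq_neg_coeff_charpoly b₂, trace_eq_neg_coeff_charpoly b₁,
      charpoly_residual_eq S θ ρbar hρbar ι φ hφ ρ hρ g, Polynomial.coeff_map, map_neg]
  have hgram : gramMat (fun a => LinearMap.toMatrix b₂ b₂ (ρ.residual.ρ (f a)))
      = (gramMat (fun a => LinearMap.toMatrix b₁ b₁ (ρbar.ρ (f a)))).map ι := by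
    ext a c
    simp only [gramMat, Matrix.of_apply, Matrix.map_apply]
    rw [← LinearMap.toMatrix_mul, ← LinearMap.toMatrix_mul, ← LinearMap.trace_eq_matrix_trace,
      ← LinearMap.trace_eq_matrix_trace, ← map_mul, ← map_mul, htr]
  have hP₂ : IsUnit (coeffMat fun a => LinearMap.toMatrix b₂ b₂ (ρ.residual.ρ (f a))).det := by
    rw [isUnit_det_coeffMat_iff, hgram, ← RingHom.mapMatrix_apply, ← RingHom.map_det]
    exact ((isUnit_det_coeffMat_iff _).mp hf).map ι
  refine ⟨?_, ?_⟩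
  · -- absolutely irreducible
    intro W hW
    set Ω := AlgebraicClosure (ResidueField A) with hΩ
    let bΩ : Module.Basis (Fin 2) Ω (Ω ⊗[ResidueField A] ρ.residual.V) :=
      Algebra.TensorProduct.basis Ω b₂
    have hmat : ∀ g, LinearMap.toMatrix bΩ bΩ ((ρ.residual.baseChange Ω).ρ g)
        = (LinearMap.toMatrix b₂ b₂ (ρ.residual.ρ g)).map (algebraMap (ResidueField A) Ω) := by
      intro g
      have h1 : (ρ.residual.baseChange Ω).ρ g = (ρ.residual.ρ g).baseChange Ω := rfl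
      rw [h1, LinearMap.toMatrix_baseChange]
    have hPΩ : IsUnit (coeffMat fun a =>
        LinearMap.toMatrix bΩ bΩ ((ρ.residual.baseChange Ω).ρ (f a))).det := by
      have : (coeffMat fun a => LinearMap.toMatrix bΩ bΩ ((ρ.residual.baseChange Ω).ρ (f a)))
          = (coeffMat fun a => LinearMap.toMatrix b₂ b₂ (ρ.residual.ρ (f a))).map
              (algebraMap (ResidueField A) Ω) := by
        rw [← coeffMat_map]
        congr 1
        funext a
        exact hmat (f a)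
      rw [this, ← RingHom.mapMatrix_apply, ← RingHom.map_det]
      exact hP₂.map _
    exact eq_bot_or_eq_top_of_isUnit bΩ (fun g => (ρ.residual.baseChange Ω).ρ g) f hPΩ W hW
  · intro W hW
    exact eq_bot_or_eq_top_of_isUnit b₂ (fun g => ρ.residual.ρ g) f hP₂ W hW

end Fermat.Agent.S59.G4.H109

end
-- ===== PACK-END S59/G4/H109/Res2.lean

-- ===== PACK-BEGIN A3/H499/OrthInst.lean
section




/-!
# A3 / GR-ORTH (helper499): the leaf `A3.H739.OrthLeaf`, UNCONDITIONALLY

`orthLeaf : OrthLeaf N V hVG` for every level `N`, every prime `ℓ ∤ N` and every valuation ring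
`V ⊆ Q̄` above `ℓ` — the field `orthonormal` of the `GoodRed` instance of `X₀(N)`
(`O = modO`, `red = modρ`, `I = inertiaImage V N`).

Route D (`OrthDatum.lean`): only the degree equality `[F_N : Q̄(j)] = ψ(N) = [F_{N,k} : k(j̄)]`
(`S37.H628.good_H1`, unconditional) and inertia-fixed lifts (`exists_fixed_lift`: the generators
`j(q^d)` have rational `q`-expansions, constants have Teichmüller lifts) are used.
No place map, no `div_red`, no normality (H3).
-/

set_option autoImplicit false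
set_option synthInstance.maxHeartbeats 400000
set_option linter.unusedSectionVars false
set_option linter.style.longLine false

noncomputable section

namespace Fermat.Agent.A3.H499

open AlgebraicCurve ModularCurve HahnSeries IsLocalRing
open Fermat.Agent.S19 (GalQ IsInertiaAt)
open Fermat.Agent.S37.Red (Qb FN kA FNk ModVG modO modρ modFrac modGj jk ofSeries
  modρ_ofSeries coe_ofSeries inv_mem_modO jqNModC_mem_bar)
open Fermat.Agent.A3.H739

variable {N : ℕ} {V : ValuationSubring _root_.Fermat.Agent.S37.Red.Qb}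

/-- the reductions which have an inertia-fixed lift, as a set of series -/
def fixImage (hVG : ModVG N V) : Set (LaurentSeries (kA V)) :=
  {g | ∃ u : modO hVG, (∀ γ ∈ inertiaImage V N, γ • ((u : modO hVG) : FN N) = u) ∧
    ((modρ hVG u : FNk V N) : LaurentSeries (kA V)) = g}

theorem fixImage_mul (hVG : ModVG N V) {a b : LaurentSeries (kA V)}
    (ha : a ∈ fixImage hVG) (hb : b ∈ fixImage hVG) : a * b ∈ fixImage hVG := by
  obtain ⟨u, hu, rfl⟩ := ha
  obtain ⟨v, hv, rfl⟩ := hb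
  refine ⟨u * v, fun γ hγ => ?_, ?_⟩
  · show γ • (((u : modO hVG) : FN N) * ((v : modO hVG) : FN N)) = _
    rw [smul_mul', hu γ hγ, hv γ hγ]
    rfl
  · rw [(modρ hVG).map_mul u v]
    rfl

theorem fixImage_add (hVG : ModVG N V) {a b : LaurentSeries (kA V)}
    (ha : a ∈ fixImage hVG) (hb : b ∈ fixImage hVG) : a + b ∈ fixImage hVG := by
  obtain ⟨u, hu, rfl⟩ := ha
  obtain ⟨v, hv, rfl⟩ := hb
  refine ⟨u + v, fun γ hγ => ?_, ?_⟩
  · show γ • (((u : modO hVG) : FN N) + ((v : modO hVG) : FN N)) = _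
    rw [smul_add, hu γ hγ, hv γ hγ]
    rfl
  · rw [(modρ hVG).map_add u v]
    rfl

theorem fixImage_one (hVG : ModVG N V) : (1 : LaurentSeries (kA V)) ∈ fixImage hVG :=
  ⟨1, fun γ _ => smul_one γ, by rw [(modρ hVG).map_one]; rfl⟩

theorem fixImage_zero (hVG : ModVG N V) : (0 : LaurentSeries (kA V)) ∈ fixImage hVG :=
  ⟨0, fun γ _ => smul_zero γ, by rw [(modρ hVG).map_zero]; rfl⟩

theorem fixImage_algebraMap {ℓ : ℕ} [Fact ℓ.Prime] (hV : V.LiesOverPrime ℓ) (hVG : ModVG N V)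
    (c : kA V) : algebraMap (kA V) (LaurentSeries (kA V)) c ∈ fixImage hVG := by
  obtain ⟨a, hac, hfix⟩ := gr_I_lift_const N hV c
  refine ⟨⟨algebraMap _root_.Fermat.Agent.S37.Red.Qb (FN N) (a : _root_.Fermat.Agent.S37.Red.Qb), (modFrac N V).ctx.A_mem a⟩, fun γ hγ => ?_, ?_⟩
  · show γ • (algebraMap _root_.Fermat.Agent.S37.Red.Qb (FN N) (a : _root_.Fermat.Agent.S37.Red.Qb)) = algebraMap _root_.Fermat.Agent.S37.Red.Qb (FN N) (a : _root_.Fermat.Agent.S37.Red.Qb)
    rw [SemilinearAut.smul_algebraMap, hfix γ hγ]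
  · have h := (modFrac N V).ctx.ρ_A a
    have h' : modρ hVG ⟨algebraMap _root_.Fermat.Agent.S37.Red.Qb (FN N) (a : _root_.Fermat.Agent.S37.Red.Qb), (modFrac N V).ctx.A_mem a⟩ =
        algebraMap (kA V) (FNk V N) (residue V a) := h
    rw [h', hac]
    rfl

theorem fixImage_inv (hVG : ModVG N V) {a : LaurentSeries (kA V)}
    (ha : a ∈ fixImage hVG) : a⁻¹ ∈ fixImage hVG := by
  obtain ⟨u, hufix, rfl⟩ := ha
  by_cases hu : modρ hVG u = 0
  · refine ⟨0, fun γ _ => smul_zero γ, ?_⟩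
    rw [hu, (modρ hVG).map_zero]
    show (0 : LaurentSeries (kA V)) = (0 : LaurentSeries (kA V))⁻¹
    rw [inv_zero]
  · refine ⟨⟨((u : FN N))⁻¹, inv_mem_modO hVG u hu⟩, fun γ hγ => ?_, ?_⟩
    · show γ • ((u : FN N))⁻¹ = ((u : FN N))⁻¹
      rw [smul_inv'', hufix γ hγ]
    · have hu0 : (u : FN N) ≠ 0 := by
        intro h0
        apply hu
        have : u = 0 := Subtype.ext h0
        rw [this, (modρ hVG).map_zero]
      have hmul : (⟨((u : FN N))⁻¹, inv_mem_modO hVG u hu⟩ : modO hVG) * u = 1 :=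
        Subtype.ext (inv_mul_cancel₀ hu0)
      have h1 : modρ hVG ⟨((u : FN N))⁻¹, inv_mem_modO hVG u hu⟩ * modρ hVG u = 1 := by
        rw [← (modρ hVG).map_mul, hmul, (modρ hVG).map_one]
      have h2 : modρ hVG ⟨((u : FN N))⁻¹, inv_mem_modO hVG u hu⟩ = (modρ hVG u)⁻¹ :=
        eq_inv_of_mul_eq_one_left h1
      rw [h2]
      rfl

/-- the reductions with an inertia-fixed lift form an intermediate field -/
def fixField {ℓ : ℕ} [Fact ℓ.Prime] (hV : V.LiesOverPrime ℓ) (hVG : ModVG N V) :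
    IntermediateField (kA V) (LaurentSeries (kA V)) where
  carrier := fixImage hVG
  mul_mem' := fun ha hb => fixImage_mul hVG ha hb
  one_mem' := fixImage_one hVG
  add_mem' := fun ha hb => fixImage_add hVG ha hb
  zero_mem' := fixImage_zero hVG
  algebraMap_mem' := fun c => fixImage_algebraMap hV hVG c
  inv_mem' := fun _ ha => fixImage_inv hVG ha

/-- the generators `j(q^d)`, `d ∣ N`, of `F_{N,k}` have inertia-fixed lifts -/
theorem generators_mem_fixField {ℓ : ℕ} [Fact ℓ.Prime] (hV : V.LiesOverPrime ℓ)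
    (hVG : ModVG N V) :
    divisorExpansionsC (kA V) N ⊆ (fixField hV hVG : Set (LaurentSeries (kA V))) := by
  rintro g ⟨d, hne, hd, rfl⟩
  have := hne
  have hy : coeffMap V.subtype (jqNModC V d) ∈ modularFunctionFieldBar N := by
    rw [coeffMap_jqNModC]
    exact jqNModC_mem_bar hd
  have hyk : coeffMap (residue V) (jqNModC V d) ∈ modularFunctionFieldFullC (kA V) N := by
    rw [coeffMap_jqNModC]
    exact jqModCd_mem_full (kA V) N hd
  refine ⟨ofSeries hVG (jqNModC V d) hy hyk, fun γ hγ => ?_, ?_⟩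
  · obtain ⟨σ, -, rfl⟩ := (mem_inertiaImage V).mp hγ
    apply Subtype.ext
    rw [coe_arithmeticGalois_smul, coe_ofSeries]
    show coeffMap (σ : _root_.Fermat.Agent.S37.Red.Qb →+* _root_.Fermat.Agent.S37.Red.Qb) (coeffMap V.subtype (jqNModC V d)) =
      coeffMap V.subtype (jqNModC V d)
    rw [coeffMap_jqNModC, coeffMap_jqNModC]
  · rw [modρ_ofSeries]
    show coeffMap (residue V) (jqNModC V d) = _
    rw [coeffMap_jqNModC]
    rfl

/-- **Inertia-fixed lifts**: every element of `F_{N,k}` is the reduction of an inertia-fixed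
element of `O`. -/
theorem exists_fixed_lift {ℓ : ℕ} [Fact ℓ.Prime] (hV : V.LiesOverPrime ℓ) (hVG : ModVG N V)
    (c : FNk V N) :
    ∃ f : modO hVG, modρ hVG f = c ∧
      ∀ γ ∈ inertiaImage V N, γ • ((f : modO hVG) : FN N) = f := by
  have hle : modularFunctionFieldFullC (kA V) N ≤ fixField hV hVG :=
    IntermediateField.adjoin_le_iff.mpr (generators_mem_fixField hV hVG)
  obtain ⟨u, hufix, hu⟩ := hle c.2
  exact ⟨u, Subtype.ext hu, hufix⟩

/-- inertia fixes the coordinate `j` -/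
theorem inertia_smul_x (hVG : ModVG N V) (htr : Transcendental (kA V) (jk N V))
    (γ : SemilinearAut _root_.Fermat.Agent.S37.Red.Qb (FN N)) (hγ : γ ∈ inertiaImage V N) :
    γ • (modGj hVG htr).x = (modGj hVG htr).x := by
  obtain ⟨σ, -, rfl⟩ := (mem_inertiaImage V).mp hγ
  apply Subtype.ext
  rw [coe_arithmeticGalois_smul]
  show coeffMap (σ : _root_.Fermat.Agent.S37.Red.Qb →+* _root_.Fermat.Agent.S37.Red.Qb) (coeffMap V.subtype (jqModC V)) = coeffMap V.subtype (jqModC V)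
  rw [coeffMap_jqModC, coeffMap_jqModC]

/-- **Leaf GR-ORTH** of the `GoodRed` instance of `X₀(N)`: unconditional. -/
theorem orthLeaf (N : ℕ) [NeZero N] {ℓ : ℕ} [Fact ℓ.Prime] (hℓN : ¬ ℓ ∣ N)
    (V : ValuationSubring _root_.Fermat.Agent.S37.Red.Qb) (hV : V.LiesOverPrime ℓ) (hVG : ModVG N V) :
    OrthLeaf N V hVG := by
  have htr : Transcendental (kA V) (jk N V) := Fermat.Agent.S37.H579.RimBase.transcendental_jk N V
  obtain ⟨h1, h2, -, h4⟩ := Fermat.Agent.S37.H628.good_H1 N Fact.out hℓN V hV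
    (modGj hVG htr) (Fermat.Agent.S37.H579.RimBase.coe_x_modGj _ _)
    (Fermat.Agent.S37.H579.RimBase.coe_xk_modGj _ _)
  exact orthonormal_of_good (modGj hVG htr) h1 h2 h4
    (Fermat.Agent.Lib.RR.H864.ff1_modularFunctionFieldBar N) (inertiaImage V N)
    (inertia_smul_x hVG htr) (exists_fixed_lift hV hVG)

end Fermat.Agent.A3.H499

end

end
-- ===== PACK-END A3/H499/OrthInst.lean

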