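import Mathlib
import Fermat.Agent.Pack.S43MC.G0E24L1
import Fermat.Agent.Pack.S44C.G0E28L0
import Fermat.Agent.Pack.S43MC.G0E25L1
import Fermat.Agent.Pack.S43MC.G0E23L0
import Fermat.Agent.Pack.S43MC.G0E24L0
import Fermat.Agent.Pack.S43MC.G0E13L3
import Fermat.Agent.Pack.S43MC.G0E15L1
import Fermat.Agent.Pack.S43MC.G0E11L2
import Fermat.Agent.Pack.S43MC.G0E19L0
import Fermat.Agent.Pack.S43MC.G0E13L0
import Fermat.Agent.Pack.S43MC.G0E22L3
import Fermat.Agent.Pack.S43MC.G0E21L0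
import Fermat.Agent.Pack.S43MC.G0E13L2
import Fermat.Agent.Pack.S43MC.G0E19L3
import Fermat.Agent.Pack.S43MC.G0E11L3
import Fermat.Agent.Pack.S43MC.G0E23L3
import Fermat.Agent.Pack.S43MC.G0E21L1
import Fermat.Agent.Pack.S43MC.G0E20L0
import Fermat.Agent.Pack.S43MC.G0E25L2
import Fermat.Agent.Pack.S43MC.G0E25L3
import Fermat.Agent.Pack.S43MC.G0E25L0
import Fermat.Agent.Pack.S43MC.G0E24L3
import Fermat.Agent.Pack.S43MC.G0E23L1
import Fermat.Agent.Pack.S44C.G0E28L3
import Fermat.Agent.Pack.S43MC.G0E19L1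
import Fermat.Agent.Pack.Fast891

-- ===== PACK-BEGIN Ribet/H801/ALPush.lean
section
/-
RIBET / WALL-q, W-AL (helper801), part 2: the Atkin–Lehner involution on `J₀(Mp)(ℚ̄)`.

Generic (Prelude language):
* `inertiaDegAlong_eq_one_of_surjective`, `restrictAlong_id`, `pushforwardAlong_id`;
* `pushPic0_id`, `pushPic0_comp`, `pushPic0_congr` : functoriality of `pushPic0`;
* `normCompat_of_bijective` : norm compatibility of a square whose horizontal maps are bijective.

Modular: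
* `wPush M p hp hpM : J₀(Mp) →+ J₀(Mp)`, push-forward along `swapAL` (= `w_p`);
* `wPush_wPush` (involution), `wPush_smul` (Galois-equivariance),
  `alphaPush_wPush : α_* ∘ w = β_*`, `betaPush_wPush : β_* ∘ w = α_*`,
  `wPush_heckeOperatorBar : w ∘ T_ℓ = T_ℓ ∘ w` for primes `ℓ ∤ Mp`;
* `wPush_mk_of_kummer` : Kummer form (`div f = m·D ⟹ div (w f) = m·(w_* D)`).
-/




set_option autoImplicit false
set_option linter.style.haveILetI false
set_option linter.unusedSectionVars false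
set_option synthInstance.maxHeartbeats 400000
set_option maxHeartbeats 1000000

noncomputable section

namespace Fermat.Agent.Ribet.H801

open AlgebraicCurve ModularCurve Fermat.Agent.S37.H818 Fermat.Agent.S29.H801 Fermat.Agent.S24
open Fermat.Agent.Lib.HI

/-! ## Generic functoriality of `pushPic0` -/

section Generic

variable {K F F₁ G : Type*} [Field K] [Field F] [Field F₁] [Field G]
  [Algebra K F] [Algebra K F₁] [Algebra K G]

/-- The inertia degree along a surjective map is `1`. -/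
theorem inertiaDegAlong_eq_one_of_surjective (φ : F →ₐ[K] F₁) (hφ : φ.toRingHom.IsIntegral)
    (hs : Function.Surjective φ) (w : Place K F₁) : w.inertiaDegAlong φ hφ = 1 := by
  letI := algebraAlong φ
  haveI := isScalarTower_along φ
  haveI := isIntegral_along φ hφ
  show Module.finrank (w.restrict F).ResidueField w.ResidueField = 1
  rw [finrank_eq_one_iff_of_nonzero' (1 : w.ResidueField) one_ne_zero]
  intro x
  obtain ⟨a, rfl⟩ := IsLocalRing.residue_surjective x
  obtain ⟨b, hb⟩ := hs (a : F₁)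
  have hbm : b ∈ (w.restrict F).toValuationSubring := by
    rw [Place.mem_restrict_iff]
    show φ b ∈ w.toValuationSubring
    rw [hb]
    exact a.2
  refine ⟨IsLocalRing.residue _ ⟨b, hbm⟩, ?_⟩
  rw [Algebra.smul_def, mul_one, Place.algebraMap_residueField_eq,
    Place.restrictResidueMap_residue]
  refine congrArg _ (Subtype.ext ?_)
  exact hb

theorem restrictAlong_id (h : (AlgHom.id K F).toRingHom.IsIntegral) (w : Place K F) :
    w.restrictAlong (AlgHom.id K F) h = w := by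
  apply Place.ext
  ext x
  rfl

theorem pushforwardAlong_id (h : (AlgHom.id K F).toRingHom.IsIntegral) (D : Divisor K F) :
    Divisor.pushforwardAlong (AlgHom.id K F) h D = D := by
  induction D using Finsupp.induction with
  | zero => simp
  | single_add W n D _ _ ih =>
    rw [map_add, ih, Divisor.pushforwardAlong_single, restrictAlong_id,
      inertiaDegAlong_eq_one_of_surjective (AlgHom.id K F) h (fun x => ⟨x, rfl⟩)]
    simp

theorem pushPic0_id (h : (AlgHom.id K F).toRingHom.IsIntegral)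
    (hfin : FiniteAlong K (AlgHom.id K F)) (hN : NormFormulaAlong K (AlgHom.id K F) hfin)
    (x : Pic0 K F) : pushPic0 (AlgHom.id K F) h hfin hN x = x := by
  obtain ⟨D, rfl⟩ := Pic0.mk_surjective x
  rw [pushPic0_mk]
  refine congrArg Pic0.mk (Subtype.ext ?_)
  rw [coe_pushDegZero]
  exact pushforwardAlong_id h _

theorem pushPic0_congr {φ φ' : F →ₐ[K] F₁} (h : φ = φ')
    (hφ : φ.toRingHom.IsIntegral) (hfin : FiniteAlong K φ) (hN : NormFormulaAlong K φ hfin)
    (hφ' : φ'.toRingHom.IsIntegral) (hfin' : FiniteAlong K φ')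
    (hN' : NormFormulaAlong K φ' hfin') (x : Pic0 K F₁) :
    pushPic0 φ hφ hfin hN x = pushPic0 φ' hφ' hfin' hN' x := by
  subst h
  rfl

theorem pushPic0_comp (φ : F →ₐ[K] F₁) (ψ : F₁ →ₐ[K] G)
    (hφ : φ.toRingHom.IsIntegral) (hfinφ : FiniteAlong K φ) (hNφ : NormFormulaAlong K φ hfinφ)
    (hψ : ψ.toRingHom.IsIntegral) (hfinψ : FiniteAlong K ψ) (hNψ : NormFormulaAlong K ψ hfinψ)
    (hψφ : (ψ.comp φ).toRingHom.IsIntegral) (hfin : FiniteAlong K (ψ.comp φ))
    (hN : NormFormulaAlong K (ψ.comp φ) hfin) (x : Pic0 K G) :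
    pushPic0 (ψ.comp φ) hψφ hfin hN x = pushPic0 φ hφ hfinφ hNφ (pushPic0 ψ hψ hfinψ hNψ x) := by
  obtain ⟨D, rfl⟩ := Pic0.mk_surjective x
  rw [pushPic0_mk, pushPic0_mk, pushPic0_mk]
  refine congrArg Pic0.mk (Subtype.ext ?_)
  rw [coe_pushDegZero, coe_pushDegZero, coe_pushDegZero]
  exact pushforwardAlong_comp φ ψ hφ hψ hψφ _

/-- With `F₁` a one-dimensional `F`-space along a bijective `a`, the norm is `a⁻¹`. -/
theorem norm_along_of_bijective (a : F →ₐ[K] F₁) (hb : Function.Bijective a) (y : F) :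
    (letI := algebraAlong a; Algebra.norm F (a y)) = y := by
  letI := algebraAlong a
  have h1 : Module.finrank F F₁ = 1 := by
    rw [finrank_eq_one_iff_of_nonzero' (1 : F₁) one_ne_zero]
    intro x
    obtain ⟨b, rfl⟩ := hb.2 x
    exact ⟨b, by rw [Algebra.smul_def, mul_one]; rfl⟩
  have h2 := Algebra.norm_algebraMap (S := F₁) y
  rw [h1, pow_one] at h2
  exact h2

/-- Norm compatibility for a commutative square with bijective horizontal maps. -/
theorem normCompat_of_bijective {G₁ : Type*} [Field G₁] [Algebra K G₁]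
    (a : F →ₐ[K] F₁) (i : F →ₐ[K] G) (a' : G →ₐ[K] G₁) (i₁ : F₁ →ₐ[K] G₁)
    (ha : Function.Bijective a) (ha' : Function.Bijective a')
    (hsq : i₁.comp a = a'.comp i) : NormCompat a i a' i₁ := by
  intro f
  obtain ⟨y, rfl⟩ := ha.2 f
  have h1 : i₁ (a y) = a' (i y) := AlgHom.congr_fun hsq y
  rw [h1, norm_along_of_bijective a' ha', norm_along_of_bijective a ha]

end Generic

end Fermat.Agent.Ribet.H801

end

noncomputable section

namespace Fermat.Agent.Ribet.H801

open AlgebraicCurve ModularCurve Fermat.Agent.S37.H818 Fermat.Agent.S29.H801 Fermat.Agent.S24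
open Fermat.Agent.Lib.HI

/-! ## The Atkin–Lehner involution on `J₀(Mp)` -/

section Modular

variable (M p : ℕ) [NeZero M] [NeZero p]

/-- `w_p` as an algebra endomorphism of `F_{Mp}`. -/
def swapHom (hp : p.Prime) (hpM : ¬ p ∣ M) : FF (M * p) →ₐ[Kbar] FF (M * p) :=
  ((swapAL M p hp hpM : FF (M * p) ≃ₐ[Kbar] FF (M * p)) : FF (M * p) →ₐ[Kbar] FF (M * p))

variable {M p}

@[simp] theorem swapHom_apply (hp : p.Prime) (hpM : ¬ p ∣ M) (x : FF (M * p)) :
    swapHom M p hp hpM x = swapAL M p hp hpM x := rfl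

theorem swapHom_bijective (hp : p.Prime) (hpM : ¬ p ∣ M) :
    Function.Bijective (swapHom M p hp hpM) :=
  (swapAL M p hp hpM).bijective

theorem swapHom_comp_swapHom (hp : p.Prime) (hpM : ¬ p ∣ M) :
    (swapHom M p hp hpM).comp (swapHom M p hp hpM) = AlgHom.id Kbar (FF (M * p)) :=
  AlgHom.ext fun x => swapAL_swapAL hp hpM x

theorem swapHom_comp_alpha (hp : p.Prime) (hpM : ¬ p ∣ M) :
    (swapHom M p hp hpM).comp (heckeAlphaBar Kbar M p) = heckeBetaBar Kbar M p :=
  swapAL_comp_alpha hp hpM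

theorem swapHom_comp_beta (hp : p.Prime) (hpM : ¬ p ∣ M) :
    (swapHom M p hp hpM).comp (heckeBetaBar Kbar M p) = heckeAlphaBar Kbar M p :=
  swapAL_comp_beta hp hpM

theorem swapHom_jF (hp : p.Prime) (hpM : ¬ p ∣ M) :
    swapHom M p hp hpM (jF (M * p)) = heckeBetaBar Kbar M p (jF M) := by
  rw [← H864.heckeAlphaBar_jF M p]
  exact swapAL_alpha hp hpM (jF M)

theorem finiteDimensional_swapHom (hp : p.Prime) (hpM : ¬ p ∣ M) :
    FiniteDimensional ↥(IntermediateField.adjoin Kbar {swapHom M p hp hpM (jF (M * p))})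
      (FF (M * p)) := by
  rw [swapHom_jF]
  exact H864.finiteDimensional_beta M p

theorem swapHom_integral (hp : p.Prime) (hpM : ¬ p ∣ M) :
    (swapHom M p hp hpM).toRingHom.IsIntegral := by
  haveI := finiteDimensional_swapHom hp hpM
  exact H864.isIntegral_along_of_finite (swapHom M p hp hpM) (jF (M * p))

theorem swapHom_finite (hp : p.Prime) (hpM : ¬ p ∣ M) :
    FiniteAlong Kbar (swapHom M p hp hpM) := by
  haveI := finiteDimensional_swapHom hp hpM
  exact H864.finiteAlong (swapHom M p hp hpM) (jF (M * p))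

theorem swapHom_normFormula (hp : p.Prime) (hpM : ¬ p ∣ M)
    (hfin : FiniteAlong Kbar (swapHom M p hp hpM)) :
    NormFormulaAlong Kbar (swapHom M p hp hpM) hfin := by
  haveI := H864.finiteDimensional_jF (M * p)
  haveI := finiteDimensional_swapHom hp hpM
  exact H864.normFormulaAlong (swapHom M p hp hpM) (jF (M * p))
    (H864.transcendental_jF (M * p)) hfin

variable (M p)

/-- **The Atkin–Lehner involution `w_p` on `J₀(Mp)(ℚ̄)`** (push-forward along `swapAL`). -/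
def wPush (hp : p.Prime) (hpM : ¬ p ∣ M) : JZero (M * p) →+ JZero (M * p) :=
  pushPic0 (swapHom M p hp hpM) (swapHom_integral hp hpM) (swapHom_finite hp hpM)
    (swapHom_normFormula hp hpM _)

variable {M p}

theorem wPush_mk (hp : p.Prime) (hpM : ¬ p ∣ M)
    (D : Divisor.degZero (K := AlgebraicClosure ℚ)
      (F := laurentBaseChange (AlgebraicClosure ℚ) (modularFunctionFieldFull (M * p)))) :
    wPush M p hp hpM (Pic0.mk D) =
      Pic0.mk (pushDegZero (swapHom M p hp hpM) (swapHom_integral hp hpM) D) :=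
  rfl

/-- **`w_p` is an involution.** -/
theorem wPush_wPush (hp : p.Prime) (hpM : ¬ p ∣ M) (x : JZero (M * p)) :
    wPush M p hp hpM (wPush M p hp hpM x) = x := by
  have hid : (AlgHom.id Kbar (FF (M * p))).toRingHom.IsIntegral := by
    rw [← swapHom_comp_swapHom hp hpM]
    exact RingHom.IsIntegral.trans _ _ (swapHom_integral hp hpM) (swapHom_integral hp hpM)
  have hc : ((swapHom M p hp hpM).comp (swapHom M p hp hpM)).toRingHom.IsIntegral :=
    RingHom.IsIntegral.trans _ _ (swapHom_integral hp hpM) (swapHom_integral hp hpM)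
  have hfd : FiniteDimensional
      ↥(IntermediateField.adjoin Kbar {(AlgHom.id Kbar (FF (M * p))) (jF (M * p))})
      (FF (M * p)) := H864.finiteDimensional_jF (M * p)
  have hfinid : FiniteAlong Kbar (AlgHom.id Kbar (FF (M * p))) := by
    exact H864.finiteAlong (AlgHom.id Kbar (FF (M * p))) (jF (M * p))
  have hNid : NormFormulaAlong Kbar (AlgHom.id Kbar (FF (M * p))) hfinid := by
    haveI := H864.finiteDimensional_jF (M * p)
    exact H864.normFormulaAlong (AlgHom.id Kbar (FF (M * p))) (jF (M * p))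
      (H864.transcendental_jF (M * p)) hfinid
  have hfinc : FiniteAlong Kbar ((swapHom M p hp hpM).comp (swapHom M p hp hpM)) := by
    rw [swapHom_comp_swapHom hp hpM]; exact hfinid
  have hNc : NormFormulaAlong Kbar ((swapHom M p hp hpM).comp (swapHom M p hp hpM)) hfinc := by
    have key : ∀ (φ : FF (M * p) →ₐ[Kbar] FF (M * p)) (h : φ = AlgHom.id Kbar (FF (M * p)))
        (hf : FiniteAlong Kbar φ), NormFormulaAlong Kbar φ hf := by
      intro φ h hf
      subst h
      exact hNid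
    exact key _ (swapHom_comp_swapHom hp hpM) hfinc
  show pushPic0 _ _ _ _ (pushPic0 _ _ _ _ x) = x
  rw [← pushPic0_comp (swapHom M p hp hpM) (swapHom M p hp hpM) (swapHom_integral hp hpM)
    (swapHom_finite hp hpM) (swapHom_normFormula hp hpM _) (swapHom_integral hp hpM)
    (swapHom_finite hp hpM) (swapHom_normFormula hp hpM _) hc hfinc hNc x,
    pushPic0_congr (swapHom_comp_swapHom hp hpM) hc hfinc hNc hid hfinid hNid x]
  exact pushPic0_id hid hfinid hNid x

/-- **`α_* ∘ w_p = β_*`.** -/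
theorem alphaPush_wPush (hp : p.Prime) (hpM : ¬ p ∣ M) (x : JZero (M * p)) :
    alphaPush M p (wPush M p hp hpM x) = betaPush M p x := by
  have hc : ((swapHom M p hp hpM).comp (heckeAlphaBar Kbar M p)).toRingHom.IsIntegral :=
    RingHom.IsIntegral.trans _ _ (H864.heckeAlphaBarIntegral M p) (swapHom_integral hp hpM)
  have key : ∀ (φ : FF M →ₐ[Kbar] FF (M * p)) (h : φ = heckeBetaBar Kbar M p),
      ∃ (hf : FiniteAlong Kbar φ), NormFormulaAlong Kbar φ hf := by
    intro φ h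
    subst h
    exact ⟨H864.finiteAlong_beta M p, H864.normFormulaAlong_beta M p _⟩
  obtain ⟨hfinc, hNc⟩ := key _ (swapHom_comp_alpha hp hpM)
  show pushPic0 _ _ _ _ (pushPic0 _ _ _ _ x) = pushPic0 _ _ _ _ x
  rw [← pushPic0_comp (heckeAlphaBar Kbar M p) (swapHom M p hp hpM)
    (H864.heckeAlphaBarIntegral M p) (H864.finiteAlong_alpha M p)
    (H864.normFormulaAlong_alpha M p _) (swapHom_integral hp hpM)
    (swapHom_finite hp hpM) (swapHom_normFormula hp hpM _) hc hfinc hNc x]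
  exact pushPic0_congr (swapHom_comp_alpha hp hpM) hc hfinc hNc _ _ _ x

/-- **`β_* ∘ w_p = α_*`.** -/
theorem betaPush_wPush (hp : p.Prime) (hpM : ¬ p ∣ M) (x : JZero (M * p)) :
    betaPush M p (wPush M p hp hpM x) = alphaPush M p x := by
  have hc : ((swapHom M p hp hpM).comp (heckeBetaBar Kbar M p)).toRingHom.IsIntegral :=
    RingHom.IsIntegral.trans _ _ (H864.heckeBetaBarIntegral M p) (swapHom_integral hp hpM)
  have key : ∀ (φ : FF M →ₐ[Kbar] FF (M * p)) (h : φ = heckeAlphaBar Kbar M p),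
      ∃ (hf : FiniteAlong Kbar φ), NormFormulaAlong Kbar φ hf := by
    intro φ h
    subst h
    exact ⟨H864.finiteAlong_alpha M p, H864.normFormulaAlong_alpha M p _⟩
  obtain ⟨hfinc, hNc⟩ := key _ (swapHom_comp_beta hp hpM)
  show pushPic0 _ _ _ _ (pushPic0 _ _ _ _ x) = pushPic0 _ _ _ _ x
  rw [← pushPic0_comp (heckeBetaBar Kbar M p) (swapHom M p hp hpM)
    (H864.heckeBetaBarIntegral M p) (H864.finiteAlong_beta M p)
    (H864.normFormulaAlong_beta M p _) (swapHom_integral hp hpM)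
    (swapHom_finite hp hpM) (swapHom_normFormula hp hpM _) hc hfinc hNc x]
  exact pushPic0_congr (swapHom_comp_beta hp hpM) hc hfinc hNc _ _ _ x

/-- **`w_p` is Galois-equivariant.** -/
theorem wPush_smul (hp : p.Prime) (hpM : ¬ p ∣ M)
    (σ : AlgebraicClosure ℚ ≃ₐ[ℚ] AlgebraicClosure ℚ) (x : JZero (M * p)) :
    wPush M p hp hpM (σ • x) = σ • wPush M p hp hpM x := by
  rw [galois_smul_pic0_def, galois_smul_pic0_def]
  exact pushPic0_smul _ _ _ _ (intertwines_swapAL hp hpM σ) x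

end Modular

end Fermat.Agent.Ribet.H801

end

noncomputable section

namespace Fermat.Agent.Ribet.H801

open AlgebraicCurve ModularCurve Fermat.Agent.S37.H818 Fermat.Agent.S29.H801 Fermat.Agent.S24
open Fermat.Agent.Lib.HI

/-! ## Hecke-equivariance of `w_p` -/

section Retarget

variable (M p N : ℕ) [NeZero M] [NeZero p] [NeZero N]

/-- `swapHom` with the level renamed along `M * p = N`. -/
def swapTo (h : M * p = N) (hp : p.Prime) (hpM : ¬ p ∣ M) : FF N →ₐ[Kbar] FF N := by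
  subst h
  exact swapHom M p hp hpM

variable {M p N}

theorem swapTo_alphaTo (h : M * p = N) (hp : p.Prime) (hpM : ¬ p ∣ M) (a : FF M) :
    swapTo M p N h hp hpM (alphaTo Kbar M p N h a) = betaTo Kbar M p N h a := by
  subst h
  exact swapAL_alpha hp hpM a

theorem swapTo_betaTo (h : M * p = N) (hp : p.Prime) (hpM : ¬ p ∣ M) (a : FF M) :
    swapTo M p N h hp hpM (betaTo Kbar M p N h a) = alphaTo Kbar M p N h a := by
  subst h
  exact swapAL_beta hp hpM a

theorem swapTo_bijective (h : M * p = N) (hp : p.Prime) (hpM : ¬ p ∣ M) :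
    Function.Bijective (swapTo M p N h hp hpM) := by
  subst h
  exact swapHom_bijective hp hpM

theorem swapTo_integral (h : M * p = N) (hp : p.Prime) (hpM : ¬ p ∣ M) :
    (swapTo M p N h hp hpM).toRingHom.IsIntegral := by
  subst h
  exact swapHom_integral hp hpM

theorem swapTo_finite (h : M * p = N) (hp : p.Prime) (hpM : ¬ p ∣ M) :
    FiniteAlong Kbar (swapTo M p N h hp hpM) := by
  subst h
  exact swapHom_finite hp hpM

theorem swapTo_normFormula (h : M * p = N) (hp : p.Prime) (hpM : ¬ p ∣ M)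
    (hfin : FiniteAlong Kbar (swapTo M p N h hp hpM)) :
    NormFormulaAlong Kbar (swapTo M p N h hp hpM) hfin := by
  subst h
  exact swapHom_normFormula hp hpM hfin

end Retarget

section Hecke

variable (M p ℓ : ℕ) [NeZero M] [NeZero p] [NeZero ℓ]

theorem not_dvd_mul_of_ne (hp : p.Prime) (hℓ : ℓ.Prime) (hne : ℓ ≠ p) (hpM : ¬ p ∣ M) :
    ¬ p ∣ M * ℓ := by
  intro h
  rcases (Nat.Prime.dvd_mul hp).mp h with h1 | h1
  · exact hpM h1
  · exact hne ((Nat.prime_dvd_prime_iff_eq hp hℓ).mp h1).symm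

/-- `β_ℓ ∘ w_p^{(Mp)} = w_p^{(Mℓp)} ∘ β_ℓ`. -/
theorem swap_sq_beta (hp : p.Prime) (hℓ : ℓ.Prime) (hne : ℓ ≠ p) (hpM : ¬ p ∣ M) :
    (heckeBetaBar Kbar (M * p) ℓ).comp (swapHom M p hp hpM) =
      (swapTo (M * ℓ) p (M * p * ℓ) (Nat.mul_right_comm M ℓ p) hp
        (not_dvd_mul_of_ne M p ℓ hp hℓ hne hpM)).comp (heckeBetaBar Kbar (M * p) ℓ) := by
  refine AlgHom.ext fun x => ?_
  refine ringHom_ext_alpha_beta hp
    (((heckeBetaBar Kbar (M * p) ℓ).comp (swapHom M p hp hpM)).toRingHom)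
    (((swapTo (M * ℓ) p (M * p * ℓ) (Nat.mul_right_comm M ℓ p) hp
        (not_dvd_mul_of_ne M p ℓ hp hℓ hne hpM)).comp (heckeBetaBar Kbar (M * p) ℓ)).toRingHom)
    ?_ ?_ x
  · intro a
    show heckeBetaBar Kbar (M * p) ℓ (swapAL M p hp hpM (heckeAlphaBar Kbar M p a)) =
      swapTo (M * ℓ) p (M * p * ℓ) _ hp _ (heckeBetaBar Kbar (M * p) ℓ (heckeAlphaBar Kbar M p a))
    have h1 := AlgHom.congr_fun (rel_BB (L := Kbar) M p ℓ) a
    have h2 := AlgHom.congr_fun (rel_sq₂ (L := Kbar) M p ℓ) a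
    simp only [AlgHom.comp_apply] at h1 h2
    rw [swapAL_alpha, h1, h2, swapTo_alphaTo]
  · intro a
    show heckeBetaBar Kbar (M * p) ℓ (swapAL M p hp hpM (heckeBetaBar Kbar M p a)) =
      swapTo (M * ℓ) p (M * p * ℓ) _ hp _ (heckeBetaBar Kbar (M * p) ℓ (heckeBetaBar Kbar M p a))
    have h1 := AlgHom.congr_fun (rel_BB (L := Kbar) M p ℓ) a
    have h2 := AlgHom.congr_fun (rel_sq₂ (L := Kbar) M p ℓ) a
    simp only [AlgHom.comp_apply] at h1 h2
    rw [swapAL_beta, h1, h2, swapTo_betaTo]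

/-- `α_ℓ ∘ w_p^{(Mp)} = w_p^{(Mℓp)} ∘ α_ℓ`. -/
theorem swap_sq_alpha (hp : p.Prime) (hℓ : ℓ.Prime) (hne : ℓ ≠ p) (hpM : ¬ p ∣ M) :
    (heckeAlphaBar Kbar (M * p) ℓ).comp (swapHom M p hp hpM) =
      (swapTo (M * ℓ) p (M * p * ℓ) (Nat.mul_right_comm M ℓ p) hp
        (not_dvd_mul_of_ne M p ℓ hp hℓ hne hpM)).comp (heckeAlphaBar Kbar (M * p) ℓ) := by
  refine AlgHom.ext fun x => ?_
  refine ringHom_ext_alpha_beta hp
    (((heckeAlphaBar Kbar (M * p) ℓ).comp (swapHom M p hp hpM)).toRingHom)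
    (((swapTo (M * ℓ) p (M * p * ℓ) (Nat.mul_right_comm M ℓ p) hp
        (not_dvd_mul_of_ne M p ℓ hp hℓ hne hpM)).comp (heckeAlphaBar Kbar (M * p) ℓ)).toRingHom)
    ?_ ?_ x
  · intro a
    show heckeAlphaBar Kbar (M * p) ℓ (swapAL M p hp hpM (heckeAlphaBar Kbar M p a)) =
      swapTo (M * ℓ) p (M * p * ℓ) _ hp _ (heckeAlphaBar Kbar (M * p) ℓ (heckeAlphaBar Kbar M p a))
    have h1 := AlgHom.congr_fun (rel_AA (L := Kbar) M p ℓ) a
    have h2 := AlgHom.congr_fun (rel_sq₁ (L := Kbar) M p ℓ) a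
    simp only [AlgHom.comp_apply] at h1 h2
    rw [swapAL_alpha, h1, ← h2, swapTo_alphaTo]
  · intro a
    show heckeAlphaBar Kbar (M * p) ℓ (swapAL M p hp hpM (heckeBetaBar Kbar M p a)) =
      swapTo (M * ℓ) p (M * p * ℓ) _ hp _ (heckeAlphaBar Kbar (M * p) ℓ (heckeBetaBar Kbar M p a))
    have h1 := AlgHom.congr_fun (rel_AA (L := Kbar) M p ℓ) a
    have h2 := AlgHom.congr_fun (rel_sq₁ (L := Kbar) M p ℓ) a
    simp only [AlgHom.comp_apply] at h1 h2
    rw [swapAL_beta, h1, ← h2, swapTo_betaTo]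

/-- **`w_p` is Hecke-equivariant** (operator form, any prime `ℓ ≠ p`). -/
theorem wPush_heckeOperatorAlong (hp : p.Prime) (hℓ : ℓ.Prime) (hne : ℓ ≠ p) (hpM : ¬ p ∣ M)
    (x : JZero (M * p)) :
    wPush M p hp hpM (heckeOperatorAlong (AlgebraicClosure ℚ) (M * p) ℓ x) =
      heckeOperatorAlong (AlgebraicClosure ℚ) (M * p) ℓ (wPush M p hp hpM x) := by
  haveI hP₁ : HasPrincipalDivisors (AlgebraicClosure ℚ)
      (laurentBaseChange (AlgebraicClosure ℚ) (modularFunctionFieldFull (M * p))) :=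
    H864.hasPrincipalDivisors_FF (M * p)
  haveI hP₃ : HasPrincipalDivisors (AlgebraicClosure ℚ)
      (laurentBaseChange (AlgebraicClosure ℚ) (modularFunctionFieldFull (M * p * ℓ))) :=
    H864.hasPrincipalDivisors_FF (M * p * ℓ)
  have hc : M * ℓ * p = M * p * ℓ := Nat.mul_right_comm M ℓ p
  have hpMℓ := not_dvd_mul_of_ne M p ℓ hp hℓ hne hpM
  rw [heckeOperatorAlong_eq (H864.heckeAlphaBarIntegral (M * p) ℓ)
      (H864.heckeBetaBarIntegral (M * p) ℓ) (H864.fundamentalIdentityAlong_beta (M * p) ℓ _)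
      (H864.finiteAlong_alpha (M * p) ℓ) (H864.normFormulaAlong_alpha (M * p) ℓ _)]
  exact pushPic0_correspondence
    (swapHom M p hp hpM)
    (heckeBetaBar (AlgebraicClosure ℚ) (M * p) ℓ) (heckeAlphaBar (AlgebraicClosure ℚ) (M * p) ℓ)
    (heckeBetaBar (AlgebraicClosure ℚ) (M * p) ℓ) (heckeAlphaBar (AlgebraicClosure ℚ) (M * p) ℓ)
    (swapTo (M * ℓ) p (M * p * ℓ) hc hp hpMℓ)
    (swapHom_integral hp hpM) (H864.heckeBetaBarIntegral (M * p) ℓ)
    (H864.heckeAlphaBarIntegral (M * p) ℓ) (H864.heckeBetaBarIntegral (M * p) ℓ)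
    (H864.heckeAlphaBarIntegral (M * p) ℓ)
    (swapTo_integral hc hp hpMℓ)
    (swap_sq_beta M p ℓ hp hℓ hne hpM) (swap_sq_alpha M p ℓ hp hℓ hne hpM)
    (H864.fundamentalIdentityAlong_beta (M * p) ℓ _)
    (H864.fundamentalIdentityAlong_beta (M * p) ℓ _)
    (H864.finiteAlong_alpha (M * p) ℓ) (H864.normFormulaAlong_alpha (M * p) ℓ _)
    (H864.finiteAlong_alpha (M * p) ℓ) (H864.normFormulaAlong_alpha (M * p) ℓ _)
    (swapHom_finite hp hpM) (swapHom_normFormula hp hpM _)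
    (swapTo_finite hc hp hpMℓ) (swapTo_normFormula hc hp hpMℓ _)
    (normCompat_of_bijective _ _ _ _ (swapHom_bijective hp hpM) (swapTo_bijective hc hp hpMℓ)
      (swap_sq_beta M p ℓ hp hℓ hne hpM))
    (hasLocalGenerators_of_hasPrincipalDivisors _ _) x

end Hecke

section Bar

variable {M p : ℕ} [NeZero M] [NeZero p]

/-- **`w_p` commutes with `T_ℓ`** for every prime `ℓ ≠ p` (including `ℓ ∣ M`). -/
theorem wPush_heckeOperatorBar (hp : p.Prime) (hpM : ¬ p ∣ M) (ℓ : Nat.Primes)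
    (hne : (ℓ : ℕ) ≠ p) (x : JZero (M * p)) :
    wPush M p hp hpM (heckeOperatorBar (M * p) ℓ x) =
      heckeOperatorBar (M * p) ℓ (wPush M p hp hpM x) := by
  haveI : NeZero (ℓ : ℕ) := ⟨ℓ.2.ne_zero⟩
  rw [heckeOperatorBar_apply, heckeOperatorBar_apply]
  exact wPush_heckeOperatorAlong M p (ℓ : ℕ) hp ℓ.2 hne hpM x

end Bar

end Fermat.Agent.Ribet.H801

end

end
-- ===== PACK-END Ribet/H801/ALPush.lean

-- ===== PACK-BEGIN S27/H970/PicCl.lean
section



/-!
# S27 / leaf PIC-CL (helper970): `Stmt.PicCl K F`, exact Spec shape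

For a curve model `M` of the function field `F / K` (`K` algebraically closed), the gluing data
of degree zero over `K` up to isomorphism are the group `Pic⁰(F)`:

`picCl K F : Stmt.PicCl K F`.

Method: on the function-field cospan of the chart every gluing datum is `O(D)`
(`IsFFCospan.exists_isIso_ofDivisor`), `O(D) ≅ O(D') ↔ D - D'` principal
(`IsFFCospan.ofDivisor_isIso_iff`), `deg O(D) = deg D` (`IsFFCospan.degree_ofDivisor`), and a
tensor product of `O(D)`, `O(D')` is `O(D + D')` (`IsFFCospan.add_sub_mem_principal_of_tensor`).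
-/

set_option autoImplicit false
set_option linter.unusedSectionVars false
set_option linter.style.haveILetI false
universe u

noncomputable section

open AlgebraicCurve
open scoped TensorProduct

namespace Fermat.Agent.S27.H970

open Fermat.Agent.S25 Fermat.Agent.Lib.RR

section Pic0

variable {K F : Type*} [Field K] [Field F] [Algebra K F]

theorem pic0_mk_eq_mk_iff (D D' : Divisor.degZero (K := K) (F := F)) :
    Pic0.mk D = Pic0.mk D' ↔
      (D : Divisor K F) - (D' : Divisor K F) ∈ Divisor.principal (K := K) (F := F) := by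
  unfold Pic0.mk
  rw [QuotientAddGroup.eq, AddSubgroup.mem_addSubgroupOf]
  constructor
  · intro h1
    have := (Divisor.principal (K := K) (F := F)).neg_mem h1
    convert this using 1
    push_cast
    abel
  · intro h1
    have := (Divisor.principal (K := K) (F := F)).neg_mem h1
    convert this using 1
    push_cast
    abel

theorem degree_eq_zero_of_mem_principal [HasPrincipalDivisors K F] {D : Divisor K F}
    (hD : D ∈ Divisor.principal (K := K) (F := F)) : Divisor.degree D = 0 := by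
  obtain ⟨f, hf, hDf⟩ := hD
  obtain ⟨E, hE, hdeg⟩ := HasPrincipalDivisors.exists_divisor (K := K) f hf
  have : D = E := Finsupp.ext fun v => by rw [hDf v, hE v]
  rw [this, hdeg]

end Pic0

section Abstract

variable {K F R₀ R₁ R₀₁ : Type u} [Field K] [Field F] [Algebra K F]
  [CommRing R₀] [CommRing R₁] [CommRing R₀₁] [Algebra K R₀] [Algebra K R₁] [Algebra K R₀₁]
  [Algebra R₀ R₀₁] [Algebra R₁ R₀₁] [IsScalarTower K R₀ R₀₁] [IsScalarTower K R₁ R₀₁]
  [Algebra R₀ F] [Algebra R₁ F] [Algebra R₀₁ F]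
  [IsScalarTower R₀ R₀₁ F] [IsScalarTower R₁ R₀₁ F]
  [IsScalarTower K R₀ F] [IsScalarTower K R₁ F] [IsScalarTower K R₀₁ F]
  {x₀ : R₀} {y₁ : R₁}

/-- **PIC-CL on a function-field cospan.** -/
theorem IsFFCospan.exists_cl (h : IsFFCospan K F R₀₁ x₀ y₁) :
    ∃ cl : {G : GlueDatum K R₀ R₁ R₀₁ // G.degree = 0} → Pic0 K F,
      Function.Surjective cl ∧ (∀ G G', cl G = cl G' ↔ G.1.IsIso G'.1) ∧
        ∀ (G G' : {G : GlueDatum K R₀ R₁ R₀₁ // G.degree = 0}) (G'' : GlueDatum K R₀ R₁ R₀₁),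
          IsTensor G.1 G'.1 G'' → ∃ h : G''.degree = 0, cl ⟨G'', h⟩ = cl G + cl G' := by
  haveI := h.ff1
  choose D hD using h.exists_isIso_ofDivisor
  have hdeg : ∀ G : GlueDatum K R₀ R₁ R₀₁, G.degree = Divisor.degree (D G) := fun G => by
    rw [H265.degree_eq_of_isIso (hD G), h.degree_ofDivisor]
  have hmem : ∀ G : {G : GlueDatum K R₀ R₁ R₀₁ // G.degree = 0},
      D G.1 ∈ Divisor.degZero (K := K) (F := F) := fun G => by
    rw [Divisor.mem_degZero, ← hdeg]; exact G.2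
  refine ⟨fun G => Pic0.mk ⟨D G.1, hmem G⟩, ?_, ?_, ?_⟩
  · intro x
    obtain ⟨⟨E, hE⟩, rfl⟩ := Pic0.mk_surjective x
    refine ⟨⟨h.ofDivisor E, by rw [h.degree_ofDivisor]; exact hE⟩, ?_⟩
    rw [pic0_mk_eq_mk_iff]
    have := h.sub_mem_principal_of_isIso (hD (h.ofDivisor E))
    have h2 := (Divisor.principal (K := K) (F := F)).neg_mem this
    rwa [neg_sub] at h2
  · intro G G'
    rw [pic0_mk_eq_mk_iff]
    constructor
    · intro hp
      exact H265.isIso_trans (hD G.1)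
        (H265.isIso_trans (h.ofDivisor_isIso_of_sub_mem_principal hp)
          (H265.isIso_symm (hD G'.1)))
    · intro hiso
      exact h.sub_mem_principal_of_isIso
        (H265.isIso_trans (H265.isIso_symm (hD G.1)) (H265.isIso_trans hiso (hD G'.1)))
  · rintro G G' G'' ⟨t⟩
    have hp := h.add_sub_mem_principal_of_tensor (hD G.1).some (hD G'.1).some (hD G'').some t
    have hdp := degree_eq_zero_of_mem_principal hp
    have hd0 : G''.degree = 0 := by
      rw [hdeg G'']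
      rw [map_sub, map_add, ← hdeg G.1, ← hdeg G'.1, G.2, G'.2] at hdp
      omega
    refine ⟨hd0, ?_⟩
    show Pic0.mk _ = Pic0.mk _ + Pic0.mk _
    rw [← Pic0.mk_add, pic0_mk_eq_mk_iff]
    have h2 := (Divisor.principal (K := K) (F := F)).neg_mem hp
    rwa [neg_sub] at h2

end Abstract

section Main

attribute [local instance] tensorAlgF tensorTowerF tensorTowerFF

/-- **PIC-CL** (exact Spec shape). -/
theorem picCl (K F : Type u) [Field K] [Field F] [Algebra K F] : Stmt.PicCl K F := by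
  intro _ _ M
  letI algF : Algebra M.Ch.B₀₁ F := M.j₀₁.toRingHom.toAlgebra
  haveI : IsScalarTower K M.Ch.B₀₁ F :=
    IsScalarTower.of_algebraMap_eq (fun a => (M.j₀₁.commutes a).symm)
  haveI : FaithfulSMul M.Ch.B₀₁ F :=
    (faithfulSMul_iff_algebraMap_injective _ _).mpr M.isFracMap.1
  haveI : IsFractionRing M.Ch.B₀₁ F := by
    refine IsFractionRing.of_field _ _ fun z => ?_
    obtain ⟨a, b, hb, hab⟩ := M.isFracMap.2 z
    exact ⟨a, b, (eq_div_iff hb).mpr hab⟩
  letI := chartAlgF (B₀₁ := M.Ch.B₀₁) F M.Ch.B₀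
  letI := chartAlgF (B₀₁ := M.Ch.B₀₁) F M.Ch.B₁
  haveI := chartTowerF (B₀₁ := M.Ch.B₀₁) F M.Ch.B₀
  haveI := chartTowerF (B₀₁ := M.Ch.B₀₁) F M.Ch.B₁
  haveI := chartTowerKF (K := K) (B₀₁ := M.Ch.B₀₁) F M.Ch.B₀
  haveI := chartTowerKF (K := K) (B₀₁ := M.Ch.B₀₁) F M.Ch.B₁
  exact (isFFCospan_chart (F := F) M.Ch.isCurveChart).exists_cl

end Main

end Fermat.Agent.S27.H970

end
end
-- ===== PACK-END S27/H970/PicCl.lean

-- ===== PACK-BEGIN S27/H386/CharFree.lean
section
/-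
Row S27 by-product (helper386): **the torsion count in ANY characteristic.**

`natCard_torsion (K F) [IsAlgClosed K] [IsCurveOver K F] [Algebra.EssFiniteType K F] (n) (hn : (n : K) ≠ 0) :
    Nat.card (Pic0.torsion K F n) = n ^ (2 * genusFF K F)`

The frozen statement S27 assumes `CharZero K`; none of its leaves uses it.  This file repeats the
top glue of `S27/{Top,TopJac}.lean` without that hypothesis (for `K`, `F` in one universe), for
the rows which count torsion of reductions of modular curves.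
-/
















set_option autoImplicit false
set_option linter.style.haveILetI false

universe u

open CategoryTheory CategoryTheory.Limits AlgebraicGeometry AlgebraicGeometry.RelPicard
  NeronModelInfra GoodReductionJacobian AlgebraicCurve
open scoped TensorProduct

namespace Fermat.Agent.S27.H386

open Fermat.Agent.S25

variable (K F : Type u) [Field K] [Field F] [Algebra K F] [IsAlgClosed K] [IsCurveOver K F]
  [Algebra.EssFiniteType K F]

/-- **MODEL**, in any characteristic: a function field of a curve over an algebraically closed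
field is the function field of a smooth proper integral pointed curve with a two-chart
presentation. -/
theorem nonempty_curveModel : Nonempty (CurveModel K F) := by
  obtain ⟨B₀, B₁, B₀₁, _, _, _, _, _, _, _, _, _, _, x, y, e, j₀, j₁, j₀₁, hchart, h₀, h₁,
    hj₀, -, hj₀₁, hfrac, -⟩ := H443.ffalg_of_isCurveOver K F
  obtain ⟨C, c, hp, hs, hi, ε, Ch, φ₀, φ₁, φ₀₁, hφ₀, hφ₁⟩ :=
    H866.curveScheme K B₀ B₁ B₀₁ x y e hchart
  refine ⟨{ C := C, c := c, isProper := hp, smooth := hs, isIntegral := hi, ε := ε, Ch := Ch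
            j₀ := j₀.comp φ₀.toAlgHom
            j₁ := j₁.comp φ₁.toAlgHom
            j₀₁ := j₀₁.comp φ₀₁.toAlgHom
            j₀₁_algebraMap₀ := fun b => ?_
            j₀₁_algebraMap₁ := fun b => ?_
            isFracMap := ⟨?_, fun f => ?_⟩ }⟩
  · show j₀₁ (φ₀₁ (algebraMap Ch.B₀ Ch.B₀₁ b)) = j₀ (φ₀ b)
    rw [hφ₀, h₀]
  · show j₀₁ (φ₀₁ (algebraMap Ch.B₁ Ch.B₀₁ b)) = j₁ (φ₁ b)
    rw [hφ₁, h₁]
  · exact hj₀₁.comp φ₀₁.injective
  · obtain ⟨a, b, hb, hab⟩ := hfrac f
    refine ⟨φ₀₁.symm (algebraMap B₀ B₀₁ a), φ₀₁.symm (algebraMap B₀ B₀₁ b), ?_, ?_⟩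
    · show j₀₁ (φ₀₁ (φ₀₁.symm (algebraMap B₀ B₀₁ b))) ≠ 0
      rw [AlgEquiv.apply_symm_apply, h₀]
      intro h0
      exact hb (hj₀ (by rw [h0, map_zero]))
    · show f * j₀₁ (φ₀₁ (φ₀₁.symm (algebraMap B₀ B₀₁ b))) =
        j₀₁ (φ₀₁ (φ₀₁.symm (algebraMap B₀ B₀₁ a)))
      rw [AlgEquiv.apply_symm_apply, AlgEquiv.apply_symm_apply, h₀, h₀]
      exact hab

/-- **JAC**, in any characteristic: the Jacobian package of a function field of a curve over an
algebraically closed field. -/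
theorem nonempty_jacPackage : Nonempty (JacPackage K F) := by
  obtain ⟨M⟩ := nonempty_curveModel K F
  obtain ⟨D, ⟨hrep⟩, hsm, hpr, hgc⟩ := Fermat.Agent.S25.result K M.c M.ε
  obtain ⟨L, hcomm, htens⟩ := grp K M.c M.ε M.Ch D hrep
  have hdim := Dim.main_of_tan_d1 K
    (H551.tan_of_chartAt_loc_ptsDictA K (H351.chartAt K) (H351.loc K) (H446.ptsDictA K))
    M.c M.ε M.Ch D hrep hsm hpr hgc
  obtain ⟨cl, hsurj, hiso, hadd⟩ := H970.picCl K F M
  obtain ⟨ha, hb, hc⟩ := H506.ptsDict K M.c M.ε M.Ch D hrep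
  -- the graph of the bijection
  let R : Pic0 K F → SchemeHomOver (specStr K K) D.toBase → Prop := fun x g =>
    ∃ (G : M.GD) (hG0 : G.degree = 0), cl ⟨G, hG0⟩ = x ∧
      Corr M.Ch K (hrep.poincare.pullbackAlong g).L G
  have hR1 : ∀ x, ∃ g, R x g := fun x => by
    obtain ⟨⟨G, hG0⟩, rfl⟩ := hsurj x
    obtain ⟨g, hg⟩ := hb G hG0
    exact ⟨g, G, hG0, rfl, hg⟩
  have hR2 : ∀ x g g', R x g → R x g' → g = g' := by
    rintro x g g' ⟨G, hG0, hx, hg⟩ ⟨G', hG0', hx', hg'⟩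
    exact (hc g g' G G' hg hg').mpr ((hiso ⟨G, hG0⟩ ⟨G', hG0'⟩).mp (hx.trans hx'.symm))
  have hR3 : ∀ g, ∃ x, R x g := fun g => by
    obtain ⟨G, hG0, hg⟩ := ha g
    exact ⟨cl ⟨G, hG0⟩, G, hG0, rfl, hg⟩
  have hR4 : ∀ x x' g, R x g → R x' g → x = x' := by
    rintro x x' g ⟨G, hG0, rfl, hg⟩ ⟨G', hG0', rfl, hg'⟩
    exact (hiso ⟨G, hG0⟩ ⟨G', hG0'⟩).mpr ((hc g g G G' hg hg').mp rfl)
  choose φ hφ using hR1
  have hφbij : Function.Bijective φ := by
    constructor
    · intro x x' h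
      exact hR4 x x' (φ x) (hφ x) (h ▸ hφ x')
    · intro g
      obtain ⟨x, hx⟩ := hR3 g
      exact ⟨x, hR2 x _ _ (hφ x) hx⟩
  have hφadd : ∀ x y, φ (x + y) = L.mul (specStr K K) (φ x) (φ y) := by
    intro x y
    obtain ⟨G, hG0, hx, hg⟩ := hφ x
    obtain ⟨G', hG0', hy, hg'⟩ := hφ y
    obtain ⟨G'', hG''⟩ :=
      H323.tensorExists K (K ⊗[K] M.Ch.B₀) (K ⊗[K] M.Ch.B₁) (K ⊗[K] M.Ch.B₀₁) G G'
    obtain ⟨hG0'', hcl⟩ := hadd ⟨G, hG0⟩ ⟨G', hG0'⟩ G'' hG''
    have hcorr := htens K (φ x) (φ y) G G' G'' hg hg' hG''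
    refine hR2 (x + y) _ _ (hφ (x + y)) ⟨G'', hG0'', ?_, hcorr⟩
    rw [hcl, hx, hy]
  haveI : IsProper D.toBase := hpr
  haveI : GeometricallyConnected D.toBase := hgc
  refine ⟨{ J := D.P, f := D.toBase, law := L, comm := hcomm
            bundle := ⟨hsm, hpr,
              H660.conn K D.toBase ⟨D.zeroSection, D.zeroSection_toBase⟩, ⟨L⟩⟩
            smoothDim := by rw [H267.genus K F M]; exact hdim
            pts := (Equiv.ofBijective φ hφbij).trans specStrPointEquiv.symm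
            pts_add := fun x y => ?_ }⟩
  show specStrPointEquiv.symm (φ (x + y)) =
    L.mul (𝟙 _) (specStrPointEquiv.symm (φ x)) (specStrPointEquiv.symm (φ y))
  rw [hφadd, specStrPointEquiv_symm_mul]

/-- **The torsion count in any characteristic**: the function field of a curve of genus `g` over
an algebraically closed field `K` has exactly `n^{2g}` degree-0 divisor classes killed by `n`,
for every `n` invertible in `K`. -/
theorem natCard_torsion (n : ℕ) (hn : (n : K) ≠ 0) :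
    Nat.card (Pic0.torsion K F n) = n ^ (2 * genusFF K F) := by
  obtain ⟨P⟩ := nonempty_jacPackage K F
  haveI := P.smoothDim
  rw [Nat.card_congr (P.torsionEquiv n)]
  exact Fermat.Agent.S26.result K P.f P.law P.comm P.bundle (genusFF K F) n hn

/-- The torsion of `Pic⁰` is finite, in any characteristic (for `n` invertible in `K`). -/
theorem finite_torsion (n : ℕ) (hn : (n : K) ≠ 0) : Finite (Pic0.torsion K F n) := by
  have h := natCard_torsion K F n hn
  have hpos : 0 < n ^ (2 * genusFF K F) := by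
    apply pow_pos
    rcases Nat.eq_zero_or_pos n with h0 | h0
    · exact absurd (by rw [h0, Nat.cast_zero]) hn
    · exact h0
  exact Nat.finite_of_card_ne_zero (by omega)

end Fermat.Agent.S27.H386

end
-- ===== PACK-END S27/H386/CharFree.lean

-- ===== PACK-BEGIN S36/H36/Deg.lean
section
/-
S36 engine, layer (i) (helper36): the engine on `JZero (N * q)` with helper155's degeneracy maps.

`QNewInertiaStatement` : for `q ‖ N`, a prime `p ≠ q` and a place `P ∣ q` there is `k` such that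
every `x ∈ J₀(N q)[p^∞]` which is `q`-new (`S35.H155.IsQNew`: `pushA x = 0`, `pushB x = 0`) and
fixed by the inertia group `I_P` is killed by `p ^ k`.

`newPartInertiaStatement_of_qNew : QNewInertiaStatement → NewPartInertiaStatement`
(the Hecke clauses are helper155's / helper801's `pushA_heckeOperatorBar`, `pushB_heckeOperatorBar`;
the level `M` is transported to `(M / q) * q`).
-/



set_option autoImplicit false
set_option linter.style.haveILetI false

noncomputable section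

namespace Fermat.Agent.S36.H36

open ModularCurve AlgebraicCurve Fermat.Agent.S30.H990 Fermat.Agent.S35.H155

/-- Transport of `J₀` along an equality of levels, compatible with Galois and Hecke. -/
theorem exists_levelCast (A B : ℕ) (h : A = B) [NeZero A] [NeZero B] :
    ∃ e : JZero A ≃+ JZero B,
      (∀ (γ : AlgebraicClosure ℚ ≃ₐ[ℚ] AlgebraicClosure ℚ) (x : JZero A), e (γ • x) = γ • e x) ∧
      (∀ (ℓ : Nat.Primes) (x : JZero A),
        e (heckeOperatorBar A ℓ x) = heckeOperatorBar B ℓ (e x)) := by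
  subst h
  exact ⟨AddEquiv.refl _, fun _ _ => rfl, fun _ _ => rfl⟩

/-- **The engine on `JZero (N * q)`** (`q ‖ N`, so `q² ‖ N q`). -/
def QNewInertiaStatement : Prop :=
  ∀ (N q p : ℕ) [NeZero N] [NeZero q], q.Prime → N.factorization q = 1 → p.Prime → p ≠ q →
    ∀ P : ValuationSubring (AlgebraicClosure ℚ), P.LiesOverPrime q →
      ∃ k : ℕ, ∀ x : JZero (N * q), (∃ n : ℕ, p ^ n • x = 0) → IsQNew N q x →
        (∀ τ ∈ P.inertiaSubgroupIn ℚ, τ • x = x) → p ^ k • x = 0

theorem factorization_div_self {M q : ℕ} (hq : q.Prime) (h : M.factorization q = 2) :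
    (M / q).factorization q = 1 := by
  have hqM : q ∣ M := dvd_of_factorization_eq_two h
  rw [Nat.factorization_div hqM, Finsupp.tsub_apply, h, hq.factorization_self]

/-- **Layer (i).** -/
theorem newPartInertiaStatement_of_qNew (h : QNewInertiaStatement) :
    NewPartInertiaStatement := by
  intro M q _ _ hq hfac
  have hqM : q ∣ M := dvd_of_factorization_eq_two hfac
  have hMq : M = M / q * q := (Nat.div_mul_cancel hqM).symm
  haveI : NeZero q := ⟨hq.ne_zero⟩
  haveI : NeZero (M / q * q) := ⟨by rw [← hMq]; exact NeZero.ne M⟩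
  obtain ⟨e, heG, heT⟩ := exists_levelCast M (M / q * q) hMq
  have hℓq : ∀ ℓ : Nat.Primes, ¬ (ℓ : ℕ) ∣ M → (ℓ : ℕ) ≠ q := by
    intro ℓ hℓ hℓq
    exact hℓ (hℓq ▸ hqM)
  refine ⟨(pushA (M / q) q).comp e.toAddMonoidHom, (pushB (M / q) q).comp e.toAddMonoidHom,
    ?_, ?_, ?_⟩
  · intro ℓ hℓ x
    show pushA (M / q) q (e (heckeOperatorBar M ℓ x)) = heckeOperatorBar (M / q) ℓ
      (pushA (M / q) q (e x))
    rw [heT, pushA_heckeOperatorBar (M / q) q hq ℓ (hℓq ℓ hℓ)]
  · intro ℓ hℓ x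
    show pushB (M / q) q (e (heckeOperatorBar M ℓ x)) = heckeOperatorBar (M / q) ℓ
      (pushB (M / q) q (e x))
    rw [heT, pushB_heckeOperatorBar (M / q) q hq ℓ (hℓq ℓ hℓ)]
  · intro p hp hpq A hA
    obtain ⟨k, hk⟩ := h (M / q) q p hq (factorization_div_self hq hfac) hp hpq A hA
    refine ⟨k, fun x hx hnew hfix => ?_⟩
    have h1 : p ^ k • e x = 0 := by
      refine hk (e x) ?_ ?_ ?_
      · obtain ⟨n, hn⟩ := hx
        exact ⟨n, by rw [← map_nsmul, hn, map_zero]⟩
      · have := hnew 1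
        rw [one_smul] at this
        exact ⟨this.1, this.2⟩
      · intro τ hτ
        rw [← heG, hfix τ hτ]
    rw [← map_nsmul] at h1
    exact e.injective (by rw [h1, map_zero])

end Fermat.Agent.S36.H36

end
end
-- ===== PACK-END S36/H36/Deg.lean

-- ===== PACK-BEGIN S36/H36/Kummer.lean
section
/-
S36 engine, layer (ii) (helper36): the Kummer dictionary.

`KummerQNewInertiaStatement` : the engine in the modular function field `F̄_{N q} = ℚ̄(X₀(N q))`,
`q ‖ N`: there is `k` (depending on `N, q, p, P` only) such that for every `n` and every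
`f ∈ F̄_{N q}ˣ` with

* `p ^ n ∣ div f`,
* `N_α f` and `N_β f` are `p ^ n`-th powers in `F̄_N` (the class of `f` is `q`-new),
* `τ f / f` is a `p ^ n`-th power for every `τ` in the inertia group `I_P` (the class is fixed),

the function `f ^ (p ^ k)` is a `p ^ n`-th power.

`qNewInertia_of_kummer : KummerQNewInertiaStatement → QNewInertiaStatement`.

Dictionary: `x = [D]`, `p ^ n • x = 0`, `p ^ n D = div f`.  The two abstract lemmas
`exists_ord_eq_of_smul_eq` (fixed class ⇒ `div (τ f) = div (y ^ m f)`) and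
`nsmul_mk_eq_zero_of_pow_eq` (`f ^ c = y ^ m` ⇒ `c • x = 0`) are in Prelude language for any
`K`, `F`; the `q`-new part is helper909's computation (`S35.H909.QNewOfKummer`).
-/



set_option autoImplicit false
set_option linter.style.haveILetI false

noncomputable section

namespace Fermat.Agent.S36.H36

open AlgebraicCurve ModularCurve Fermat.Agent.A2

section Abstract

variable {K F : Type*} [Field K] [Field F] [Algebra K F]

/-- A fixed class: `g • [D] = [D]`, `m D = div f`  ⟹  `div (τ f) = div (y ^ m · f)` for some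
`y ≠ 0`. -/
theorem exists_ord_eq_of_smul_eq (g : SemilinearAut K F) (m : ℕ)
    (D : Divisor.degZero (K := K) (F := F)) {f : F}
    (hfD : ∀ v : Place K F, v.ord f = (m : ℤ) * (D : Divisor K F) v)
    (hfix : g • Pic0.mk D = Pic0.mk D) :
    ∃ y : F, y ≠ 0 ∧ ∀ w : Place K F,
      w.ord (SemilinearAut.toRingAut g f) = (m : ℤ) * w.ord y + w.ord f := by
  rw [SemilinearAut.pic0_smul_mk] at hfix
  have h0 : Pic0.mk (SemilinearAut.degZeroSMulHom g D - D) = 0 := by
    have : Pic0.mk (SemilinearAut.degZeroSMulHom g D - D)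
        = Pic0.mk (SemilinearAut.degZeroSMulHom g D) - Pic0.mk D := rfl
    rw [this, hfix, sub_self]
  have hprin := (QuotientAddGroup.eq_zero_iff (SemilinearAut.degZeroSMulHom g D - D)).1 h0
  rw [AddSubgroup.mem_addSubgroupOf] at hprin
  obtain ⟨y, hy, hyD⟩ := hprin
  refine ⟨y, hy, fun w => ?_⟩
  have h1 : ((SemilinearAut.degZeroSMulHom g D - D : Divisor.degZero (K := K) (F := F)) :
      Divisor K F) w = (D : Divisor K F) (g⁻¹ • w) - (D : Divisor K F) w := by
    simp only [AddSubgroupClass.coe_sub, SemilinearAut.coe_degZeroSMulHom, Finsupp.sub_apply,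
      SemilinearAut.divisor_smul_apply]
  have h2 := hyD w
  rw [h1] at h2
  rw [Fermat.Agent.A2.H129.ord_smul_eq, hfD, hfD, ← h2]
  ring

/-- `m D = div f`, `f ^ c = y ^ m`  ⟹  `c • [D] = 0`. -/
theorem nsmul_mk_eq_zero_of_pow_eq (m c : ℕ) (hm : m ≠ 0)
    (D : Divisor.degZero (K := K) (F := F)) {f : F}
    (hfD : ∀ v : Place K F, v.ord f = (m : ℤ) * (D : Divisor K F) v)
    {y : F} (hy : y ≠ 0) (h : f ^ c = y ^ m) : c • Pic0.mk D = 0 := by
  have h0 : c • Pic0.mk D = Pic0.mk (c • D) := rfl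
  rw [h0]
  refine (QuotientAddGroup.eq_zero_iff (c • D)).2 ?_
  rw [AddSubgroup.mem_addSubgroupOf]
  refine ⟨y, hy, fun w => ?_⟩
  have h1 : ((c • D : Divisor.degZero (K := K) (F := F)) : Divisor K F) w
      = (c : ℤ) * (D : Divisor K F) w := by
    simp only [AddSubgroup.coe_nsmul, Finsupp.smul_apply, nsmul_eq_mul]
  have h2 : (m : ℤ) * ((c : ℤ) * (D : Divisor K F) w) = (m : ℤ) * w.ord y := by
    have h3 := congrArg w.ord h
    rw [Fermat.Agent.A2.H129.ord_pow, Fermat.Agent.A2.H129.ord_pow, hfD] at h3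
    linear_combination h3
  have hm' : (m : ℤ) ≠ 0 := by exact_mod_cast hm
  rw [h1]
  exact mul_left_cancel₀ hm' h2

end Abstract

/-- **The engine, Kummer form.** -/
def KummerQNewInertiaStatement : Prop :=
  ∀ (N q p : ℕ) [NeZero N] [NeZero q], q.Prime → N.factorization q = 1 → p.Prime → p ≠ q →
    ∀ P : ValuationSubring Qb, P.LiesOverPrime q →
      ∃ k : ℕ, ∀ (n : ℕ) (f : modularFunctionFieldBar (N * q)), f ≠ 0 →
        (∀ v : Place Qb (modularFunctionFieldBar (N * q)), ((p ^ n : ℕ) : ℤ) ∣ v.ord f) →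
        (∃ h : modularFunctionFieldBar N, h ≠ 0 ∧
          Fermat.Agent.S29.H395.normAlong (heckeAlphaBar Qb N q) f = h ^ (p ^ n)) →
        (∃ h : modularFunctionFieldBar N, h ≠ 0 ∧
          Fermat.Agent.S29.H395.normAlong (heckeBetaBar Qb N q) f = h ^ (p ^ n)) →
        (∀ τ ∈ P.inertiaSubgroupIn ℚ, ∃ y : modularFunctionFieldBar (N * q), y ≠ 0 ∧
          arithmeticRingAut (modularFunctionFieldFull (N * q)) τ f = y ^ (p ^ n) * f) →
        ∃ y : modularFunctionFieldBar (N * q), y ≠ 0 ∧ f ^ (p ^ k) = y ^ (p ^ n)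

/-- **Layer (ii).**  The Kummer form of the engine implies the engine on `J₀(N q)`. -/
theorem qNewInertia_of_kummer (hK : KummerQNewInertiaStatement) : QNewInertiaStatement := by
  intro N q p _ _ hq hfac hp hpq P hP
  obtain ⟨k, hk⟩ := hK N q p hq hfac hp hpq P hP
  refine ⟨k, fun x hx hnew hfix => ?_⟩
  obtain ⟨n, hn⟩ := hx
  haveI : NeZero (N * q) := ⟨Nat.mul_ne_zero (NeZero.ne N) (NeZero.ne q)⟩
  set m : ℕ := p ^ n with hmdef
  have hm : 0 < m := pow_pos hp.pos n
  obtain ⟨D, rfl⟩ := Pic0.mk_surjective x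
  rw [Fermat.Agent.S35.H155.isQNew_mk_iff] at hnew
  obtain ⟨⟨a, ha, haD⟩, ⟨b, hb, hbD⟩⟩ := hnew
  -- the Kummer generator
  have hprin : ((m • D : Divisor.degZero (K := Qb) (F := modularFunctionFieldBar (N * q))) :
      Divisor Qb (modularFunctionFieldBar (N * q))) ∈
      Divisor.principal (K := Qb) (F := modularFunctionFieldBar (N * q)) := by
    have h0 : Pic0.mk (m • D) = 0 := hn
    have := (QuotientAddGroup.eq_zero_iff (m • D)).1 h0
    simpa [AddSubgroup.mem_addSubgroupOf] using this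
  obtain ⟨f, hf, hfD⟩ := hprin
  have hfD' : ∀ v : Place Qb (modularFunctionFieldBar (N * q)),
      v.ord f = (m : ℤ) * (D : Divisor Qb (modularFunctionFieldBar (N * q))) v := by
    intro v
    rw [← hfD v]
    simp [Finsupp.smul_apply]
  have hfD'' : ∀ w : Place Qb (modularFunctionFieldBar (N * q)),
      ((m : ℤ) • (D : Divisor Qb (modularFunctionFieldBar (N * q)))) w = w.ord f := by
    intro w
    rw [Finsupp.smul_apply, smul_eq_mul, hfD' w]
  -- the norm formula for `α` and `β`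
  haveI hPD : HasPrincipalDivisors Qb (modularFunctionFieldBar (N * q)) :=
    Fermat.Agent.Lib.RR.H864.hasPrincipalDivisors_modularFunctionFieldBar (N * q)
  have hF := Fermat.Agent.S29.H812.exists_coord_modular N
  have hα := Fermat.Agent.Lib.FF398.heckeAlphaBarIntegral N q
  have hβ := Fermat.Agent.Lib.FF398.heckeBetaBarIntegral N q
  have hfinα := Fermat.Agent.S29.H812.finiteAlong_heckeAlphaBar N q
  have hfinβ := Fermat.Agent.S29.H812.finiteAlong_heckeBetaBar N q
  have hNα := Fermat.Agent.S29.H812.normFormulaAlong hF (heckeAlphaBar Qb N q) hfinα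
  have hNβ := Fermat.Agent.S29.H812.normFormulaAlong hF (heckeBetaBar Qb N q) hfinβ
  have hordα : ∀ v : Place Qb (modularFunctionFieldBar N),
      v.ord (Fermat.Agent.S29.H395.normAlong (heckeAlphaBar Qb N q) f) = (m : ℤ) * v.ord a := by
    intro v
    rw [← Fermat.Agent.S29.H395.pushforwardAlong_apply_eq_ord (heckeAlphaBar Qb N q) hα hfinα hNα
      hf hfD'' v, map_zsmul, Finsupp.smul_apply, smul_eq_mul, haD v]
  have hordβ : ∀ v : Place Qb (modularFunctionFieldBar N),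
      v.ord (Fermat.Agent.S29.H395.normAlong (heckeBetaBar Qb N q) f) = (m : ℤ) * v.ord b := by
    intro v
    rw [← Fermat.Agent.S29.H395.pushforwardAlong_apply_eq_ord (heckeBetaBar Qb N q) hβ hfinβ hNβ
      hf hfD'' v, map_zsmul, Finsupp.smul_apply, smul_eq_mul, hbD v]
  have hα' := Fermat.Agent.S35.H909.exists_pow_eq_of_ord N m hm
    (Fermat.Agent.S29.H395.normAlong_ne_zero _ hfinα hf) ha hordα
  have hβ' := Fermat.Agent.S35.H909.exists_pow_eq_of_ord N m hm
    (Fermat.Agent.S29.H395.normAlong_ne_zero _ hfinβ hf) hb hordβ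
  -- the fixed condition
  have hfixK : ∀ τ ∈ P.inertiaSubgroupIn ℚ, ∃ y : modularFunctionFieldBar (N * q), y ≠ 0 ∧
      arithmeticRingAut (modularFunctionFieldFull (N * q)) τ f = y ^ m * f := by
    intro τ hτ
    have h1 : arithmeticGalois (L := Qb) (modularFunctionFieldFull (N * q)) τ • Pic0.mk D
        = Pic0.mk D := hfix τ hτ
    obtain ⟨y, hy, hyw⟩ := exists_ord_eq_of_smul_eq
      (arithmeticGalois (L := Qb) (modularFunctionFieldFull (N * q)) τ) m D hfD' h1
    rw [toRingAut_arithmeticGalois] at hyw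
    set τf := arithmeticRingAut (modularFunctionFieldFull (N * q)) τ f with hτf
    have hτf0 : τf ≠ 0 := by
      rw [hτf]
      exact (map_ne_zero_iff _
        (arithmeticRingAut (modularFunctionFieldFull (N * q)) τ).injective).2 hf
    have hyf0 : y ^ m * f ≠ 0 := mul_ne_zero (pow_ne_zero _ hy) hf
    -- `τ f = (y ^ m * f) * (unit of order zero everywhere)`
    have hy' : ∀ w : Place Qb (modularFunctionFieldBar (N * q)),
        w.ord τf = w.ord (y ^ m * f) := by
      intro w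
      rw [hyw w, w.ord_mul (pow_ne_zero _ hy) hf, Fermat.Agent.A2.H129.ord_pow]
    have h2 := Fermat.Agent.S35.H909.exists_pow_eq_of_ord (N * q) m hm
      (y := τf * (y ^ m * f)⁻¹ * y ^ m) (a := y)
      (mul_ne_zero (mul_ne_zero hτf0 (inv_ne_zero hyf0)) (pow_ne_zero _ hy)) hy (fun w => by
        rw [w.ord_mul (mul_ne_zero hτf0 (inv_ne_zero hyf0)) (pow_ne_zero _ hy),
          Fermat.Agent.A2.H129.ord_div w hτf0 hyf0, hy' w, sub_self, zero_add,
          Fermat.Agent.A2.H129.ord_pow])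
    obtain ⟨z, hz, hzy⟩ := h2
    refine ⟨z, hz, ?_⟩
    rw [← hzy]
    field_simp
  obtain ⟨y, hy, hyf⟩ := hk n f hf (fun v => ⟨_, hfD' v⟩) hα' hβ' hfixK
  exact nsmul_mk_eq_zero_of_pow_eq m (p ^ k) hm.ne' D hfD' hy hyf

end Fermat.Agent.S36.H36

namespace Fermat.Agent.S36.H36

/-- **Layers (i) + (ii).**  The Kummer form of the engine implies the engine consumed by the mid
layer. -/
theorem newPartInertiaStatement_of_kummer (hK : KummerQNewInertiaStatement) :
    NewPartInertiaStatement :=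
  newPartInertiaStatement_of_qNew (qNewInertia_of_kummer hK)

end Fermat.Agent.S36.H36

end
end
-- ===== PACK-END S36/H36/Kummer.lean

-- ===== PACK-BEGIN S36/Mod3/H370/VT.lean
section





/-!
# S36 / MOD3 — the valuation-level hub `Mod3.LeafVT` (helper370): verbatim, unconditional

Assembly of the fifteen fields of `Mod3.PartVT` for the concrete objects:

* `res_α₁`, `res_α₂`, `only_α₁`, `pi_unif`, `pi_pow` : helper972 `H972.mod3_alpha_main` (main) and
  the identification `V₂ = V_mid` (`Objs.mid`, `Objs.mid_ne`);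
* `res_β₃` : `H370.resZeroQ`;  `insep_α₃`, `insep_β₁`, `only_α₃`, `only_β₁` : helper83 (main);
* `V₂.comap W = V₂` (`mid_fricke370`) from `H370.comap_beta_mid` + `only_α₁`; then `res_β₂`,
  `only_β₂` by Fricke transport of `res_α₂`, `only_α₁`;
* `kron₁`, `kron₂`, `kron₃` : the Frobenius congruence `j_d^q ≡ j_{dq}` on `V∞` (`frob_jE370`)
  transported by `α`, `β`, `W`.
-/

set_option autoImplicit false
set_option linter.unusedSectionVars false
set_option linter.style.haveILetI false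
set_option synthInstance.maxHeartbeats 400000
set_option maxHeartbeats 1600000

noncomputable section

namespace Fermat.Agent.S36.Mod3.H370

open ModularCurve HahnSeries Polynomial Fermat.Agent.A2.Mod
open Fermat.Agent.S36.H370 Fermat.Agent.S36.Eng

section Frob

variable {P : ValuationSubring Qb} {E : IntermediateField ℚ Qb} {q : ℕ} [NeZero q]
  {w : RE P E}

/-- **Frobenius congruence on `V∞`** (any level): `j_d ^ q ≡ j_{d q}` modulo `w V∞`. -/
theorem frob_jE370 (hS : SettingQ P E q w) {N : ℕ} {V : ValuationSubring (FE E N)}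
    (hV : IsVinf P E N V) (d : ℕ) [NeZero d] (hd : d ∣ N) (hdq : d * q ∣ N) :
    InW P E N V w (jE E N d hd ^ q - jE E N (d * q) hdq) := by
  haveI := hS.dvr
  haveI : Fact q.Prime := ⟨hS.q_prime⟩
  haveI : CharP (IsLocalRing.ResidueField (RE P E)) q :=
    S18.H516.charP_residue (RE P E) (H96.liesOver_RE P E hS.lies_over)
  refine H83.h83_inW_of_red_eq_zero hS.dvr hS.unif hV
    (S := A2.H708.castA (RE P E) (A2.H708.jInt d ^ q - A2.H708.jInt (d * q))) ?_ ?_
  · rw [AddSubgroupClass.coe_sub, IntermediateField.coe_pow,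
      H708.coe_jE_eq (P := P) N d hd, H708.coe_jE_eq (P := P) N (d * q) hdq, map_sub, map_sub,
      map_pow, map_pow]
  · rw [H753.red_castA, map_sub, map_pow]
    have h1 : A2.H708.jInt d = qExpand ℤ d (jqModC ℤ) := rfl
    have h2 : A2.H708.jInt (d * q) = qExpand ℤ d (qExpand ℤ q (jqModC ℤ)) := by
      rw [qExpand_qExpand]
      rfl
    rw [h1, h2]
    have e1 : ∀ x : LaurentSeries ℤ,
        S28.H325.castL (IsLocalRing.ResidueField (RE P E)) (qExpand ℤ d x) =
          qExpand _ d (S28.H325.castL (IsLocalRing.ResidueField (RE P E)) x) :=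
      fun x => coeffMap_qExpand _ d x
    rw [e1, e1, H753.castL_qExpand_jqModC q hS.q_prime, S28.H325.castL_jqModC, map_pow, sub_self]

end Frob

section Main

variable {P : ValuationSubring Qb} {E : IntermediateField ℚ Qb} {M q : ℕ} [NeZero M] [NeZero q]
  [NeZero (M * q)] {w : RE P E}

theorem jE_congr370 {N d d' : ℕ} [NeZero d] [NeZero d'] (h : d = d') (hd : d ∣ N)
    (hd' : d' ∣ N) : jE E N d hd = jE E N d' hd' := by
  subst h
  rfl

/-- `Eng.Unramified` gives helper972's `Unram`. -/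
theorem unram_of_std370 (hS : SettingQ P E q w) (hun : Eng.Unramified P E q) :
    H972.Unram P E q w := by
  haveI := hS.dvr
  obtain ⟨c, hc⟩ := exists_q_eqQ hS
  have hw0 : (w : E) ≠ 0 := w_ne_zeroQ hS
  have hq0 : ((q : ℕ) : E) ≠ 0 := Nat.cast_ne_zero.mpr (NeZero.ne q)
  have hwn : (w : E) ∈ (RE P E).nonunits := by
    rw [ValuationSubring.coe_mem_nonunits_iff, IsLocalRing.mem_maximalIdeal, mem_nonunits_iff]
    exact hS.unif.not_isUnit
  have hwP : ((w : E) : Qb) ∈ P.nonunits := (mem_nonunits_comap_hom P (algebraMap E Qb) _).mp hwn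
  have h1 := hun.2 (w : E) hwP
  have hmem : (w : E) * ((q : ℕ) : E)⁻¹ ∈ RE P E := by
    show algebraMap E Qb ((w : E) * ((q : ℕ) : E)⁻¹) ∈ P
    rw [map_mul, map_inv₀, map_natCast]
    exact h1
  have hc0 : (c : E) ≠ 0 := by
    intro h0
    rw [h0, mul_zero] at hc
    exact hq0 hc
  have hci : (c : E) * ((w : E) * ((q : ℕ) : E)⁻¹) = 1 := by
    rw [hc]
    field_simp
  refine ⟨⟨c, ⟨_, hmem⟩, Subtype.ext hci, Subtype.ext ?_⟩, hc⟩
  show (w : E) * ((q : ℕ) : E)⁻¹ * (c : E) = 1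
  rw [mul_comm]
  exact hci

theorem nonunits_of_isUnif370 {F : Type*} [Field F] {V : ValuationSubring F} {t x : F}
    (h : A2.H48.IsUnif V t) (hx : x * t⁻¹ ∈ V) : x ∈ V.nonunits := by
  rw [ValuationSubring.mem_nonunits_iff]
  exact h.mul_inv_mem_iff.mp hx

theorem unifAt_of_isUnif370 {F : Type*} [Field F] {V : ValuationSubring F} {t : F}
    (h : A2.H48.IsUnif V t) : UnifAt V t := by
  refine ⟨h.ne_zero, ?_, fun f hf => ?_⟩
  · rw [ValuationSubring.mem_nonunits_iff_or]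
    exact Or.inr h.inv_not_mem
  · rw [ValuationSubring.mem_nonunits_iff] at hf
    exact h.mul_inv_mem_iff.mpr hf

theorem neg_mem_nonunits370 {F : Type*} [Field F] {V : ValuationSubring F} {x : F}
    (h : x ∈ V.nonunits) : -x ∈ V.nonunits := by
  rw [ValuationSubring.mem_nonunits_iff] at h ⊢
  rwa [Valuation.map_neg]

/-- **VT (leaf)**, exact frozen type. -/
theorem leafVT : Mod3.LeafVT := by
  intro P E M q _ _ _ w hStd V₁' V₂' V₁ V₂ V₃ W' W hO
  have hS : Setting P E M q w :=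
    ⟨hStd.q_prime, hStd.q_not_dvd, NeZero.ne M, hStd.lies_over, hStd.unram.1.dvr, hStd.unif⟩
  have hSQ : SettingQ P E q w := SettingQ.of_setting hS
  haveI := hS.dvr
  have hT := leafTable P E M q w hStd V₁' V₂' V₁ V₂ V₃ W' W hO
  obtain ⟨Vmid, -, -, hunif, ⟨u, hu, hui, hpow⟩, hresmid, hresV, honly⟩ :=
    H972.mod3_alpha_main hS (unram_of_std370 hSQ hStd.unram) hO.vinf' hO.vinf
  have hαV₂ : ∀ k, αE E (M * q) q k ∈ V₂ ↔ k ∈ V₁' := fun k => by
    rw [← hO.mid, ValuationSubring.mem_comap]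
    rfl
  have hV₂ : V₂ = Vmid := (honly V₂ hαV₂).resolve_left hO.mid_ne
  subst hV₂
  -- uniformisers
  have hu₁ : A2.H48.IsUnif V₁ (cE P E (M * q * q) w) :=
    (H553.vinfBasic P E w (M * q * q) (NeZero.ne _) hS.dvr hS.unif V₁ hO.vinf).1
  have hu₁' : A2.H48.IsUnif V₁' (cE P E (M * q) w) :=
    (H553.vinfBasic P E w (M * q) (NeZero.ne _) hS.dvr hS.unif V₁' hO.vinf').1
  have hu₃ : A2.H48.IsUnif (V₁.comap (W : FE E (M * q * q) →+* FE E (M * q * q)))
      (cE P E (M * q * q) w) := H13.isUnif_comap hu₁ W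
  have hu₂' : A2.H48.IsUnif (V₁'.comap (W' : FE E (M * q) →+* FE E (M * q)))
      (cE P E (M * q) w) := H13.isUnif_comap hu₁' W'
  have hqM : q ∣ M * q := dvd_mul_left q M
  -- membership along `α`, `β`
  have hαn₂ : ∀ f, αE E (M * q) q f ∈ V₂.nonunits ↔ f ∈ V₁'.nonunits := fun f => by
    rw [← hT.comap_α₂, mem_nonunits_comap_hom]
    rfl
  have hβn₁ : ∀ f, βE E (M * q) q f ∈ V₁.nonunits ↔ f ∈ V₁'.nonunits := fun f => by
    rw [← hT.comap_β₁, mem_nonunits_comap_hom]
    rfl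
  have hαn₃ : ∀ f, αE E (M * q) q f ∈ V₃.nonunits ↔ f ∈ V₂'.nonunits := fun f => by
    rw [← hT.comap_α₃, mem_nonunits_comap_hom]
    rfl
  have hβn₃ : ∀ f, βE E (M * q) q f ∈ V₃.nonunits ↔ f ∈ V₂'.nonunits := fun f => by
    rw [← hT.comap_β₃, mem_nonunits_comap_hom]
    rfl
  have hβ₂ : ∀ f, βE E (M * q) q f ∈ V₂ ↔ f ∈ V₂' := fun f => by
    rw [← hT.comap_β₂, ValuationSubring.mem_comap]
    rfl
  -- Fricke
  have hWW : ∀ f, W (W f) = f := hO.fricke.2
  have hWW' : ∀ f, W' (W' f) = f := hO.fricke'.2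
  have hcompat := H553.frickeCompat E (M * q) q W' W hO.fricke' hO.fricke
  have hV₂'mem : ∀ f, f ∈ V₂' ↔ W' f ∈ V₁' := fun f => by
    rw [hO.vzero', ValuationSubring.mem_comap]
    rfl
  have hV₃mem : ∀ f, f ∈ V₃ ↔ W f ∈ V₁ := fun f => by
    rw [hO.vzero, ValuationSubring.mem_comap]
    rfl
  -- a valuation ring over `V₂'` along `β` pulls back along `W` to one over `V₁'` along `α`
  have hswap : ∀ V : ValuationSubring (FE E (M * q * q)),
      (∀ f, βE E (M * q) q f ∈ V ↔ f ∈ V₂') →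
      ∀ k, αE E (M * q) q k ∈ V.comap (W : FE E (M * q * q) →+* FE E (M * q * q)) ↔ k ∈ V₁' := by
    intro V hV k
    rw [ValuationSubring.mem_comap]
    show W (αE E (M * q) q k) ∈ V ↔ k ∈ V₁'
    rw [(hcompat k).1, hV, hV₂'mem, hWW']
  have hcomapW : ∀ V V' : ValuationSubring (FE E (M * q * q)),
      V.comap (W : FE E (M * q * q) →+* FE E (M * q * q)) = V' →
      V = V'.comap (W : FE E (M * q * q) →+* FE E (M * q * q)) := by
    intro V V' h
    ext f
    rw [ValuationSubring.mem_comap, ← h, ValuationSubring.mem_comap]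
    show f ∈ V ↔ W (W f) ∈ V
    rw [hWW]
  have hne' : V₁' ≠ V₂' := by
    intro h
    apply H553.vzeroNe P E M q w hS V₁' W' hO.vinf' hO.fricke'
    rw [← hO.vzero', ← h]
  -- `V₂` is Fricke-stable
  have hmidW : V₂.comap (W : FE E (M * q * q) →+* FE E (M * q * q)) = V₂ := by
    rcases honly _ (hswap V₂ hβ₂) with h | h
    · exfalso
      have h3 : V₂ = V₃ := by rw [hO.vzero]; exact hcomapW V₂ V₁ h
      apply hne'
      rw [← hT.comap_α₂, h3, hT.comap_α₃]
    · exact h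
  have hW₂ : ∀ f, W f ∈ V₂ ↔ f ∈ V₂ := fun f => by
    conv_rhs => rw [← hmidW, ValuationSubring.mem_comap]
    rfl
  have hW₂n : ∀ f, W f ∈ V₂.nonunits ↔ f ∈ V₂.nonunits := fun f => by
    conv_rhs => rw [← hmidW, H13.mem_nonunits_comap]
    rfl
  -- residue degree one on the middle component, along `α`
  have hres₂ : ∀ f ∈ V₂, ∃ g ∈ V₁', f - αE E (M * q) q g ∈ V₂.nonunits := by
    intro f hf
    obtain ⟨g, hg, h⟩ := hresmid f hf
    exact ⟨g, hg, nonunits_of_isUnif370 hunif h⟩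
  -- Frobenius congruences
  have hF' : jE E (M * q) 1 (one_dvd _) ^ q - jE E (M * q) q hqM ∈ V₁'.nonunits := by
    have h := frob_jE370 hSQ hO.vinf' 1 (one_dvd _) (by rw [one_mul]; exact hqM)
    rw [jE_congr370 (one_mul q) _ hqM] at h
    exact (H13.inW_iff_mem_nonunits hu₁' _).mp h
  have hF₀' : W' (jE E (M * q) q hqM) ^ q - W' (jE E (M * q) 1 (one_dvd _)) ∈ V₁'.nonunits := by
    have h := frob_jE370 hSQ hO.vinf' M (dvd_mul_right M q) dvd_rfl
    rw [hO.fricke'.1 q M hqM (dvd_mul_right M q) (mul_comm q M),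
      hO.fricke'.1 1 (M * q) (one_dvd _) dvd_rfl (one_mul _)]
    exact (H13.inW_iff_mem_nonunits hu₁' _).mp h
  have hF₂' : jE E (M * q) q hqM ^ q - jE E (M * q) 1 (one_dvd _) ∈ V₂'.nonunits := by
    rw [hO.vzero', H13.mem_nonunits_comap]
    show W' (jE E (M * q) q hqM ^ q - jE E (M * q) 1 (one_dvd _)) ∈ V₁'.nonunits
    rw [map_sub, map_pow]
    exact hF₀'
  have hαj : αE E (M * q) q (jE E (M * q) 1 (one_dvd _)) = j1 E M q :=
    H553.αE_jE E (M * q) q 1 (one_dvd _)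
  have hαjq : αE E (M * q) q (jE E (M * q) q hqM) = jq E M q := alpha_jq_eq370
  have hβj : βE E (M * q) q (jE E (M * q) 1 (one_dvd _)) = jq E M q := by
    rw [beta_j_eq_alpha_jq370]
    exact alpha_jq_eq370
  have hβjq : βE E (M * q) q (jE E (M * q) q hqM) = jqq E M q := beta_jq_eq370
  refine
    { res_α₁ := ?_
      res_α₂ := hres₂
      res_β₃ := ?_
      res_β₂ := ?_
      insep_α₃ := ?_
      insep_β₁ := ?_
      only_α₁ := ?_
      only_α₃ := ?_
      only_β₂ := ?_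
      only_β₁ := ?_
      pi_unif := unifAt_of_isUnif370 hunif
      pi_pow := ?_
      kron₁ := ?_
      kron₂ := ?_
      kron₃ := ?_ }
  · -- res_α₁
    intro f hf
    obtain ⟨g, hg, h⟩ := hresV f hf
    exact ⟨g, hg, nonunits_of_isUnif370 hu₁ h⟩
  · -- res_β₃
    intro f hf
    rw [hO.vzero] at hf ⊢
    obtain ⟨g, hg, h⟩ := resZeroQ hSQ hO.vinf' hO.vinf hO.fricke' hO.fricke hf
    refine ⟨g, ?_, nonunits_of_isUnif370 hu₃ h⟩
    rw [hO.vzero']
    exact hg
  · -- res_β₂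
    intro f hf
    obtain ⟨g, hg, h⟩ := hres₂ (W f) ((hW₂ f).mpr hf)
    refine ⟨W' g, ?_, ?_⟩
    · rw [hV₂'mem, hWW']
      exact hg
    · rw [← hW₂n, map_sub, (hcompat (W' g)).2, hWW']
      exact h
  · -- insep_α₃
    intro f hf
    rw [hO.vzero] at hf ⊢
    obtain ⟨g, hg, h⟩ := H83.h83_alpha_insep (M := M * q) W' W hS.dvr hS.unif hS.q_prime hqM
      hS.lies_over hO.fricke' hO.fricke hO.vinf' hO.vinf hf
    refine ⟨g, ?_, nonunits_of_isUnif370 hu₃ h⟩
    rw [hO.vzero']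
    exact hg
  · -- insep_β₁
    intro f hf
    obtain ⟨g, hg, h⟩ := H83.h83_beta_insep (M := M * q) hS.dvr hS.unif hS.q_prime hqM
      hS.lies_over hO.vinf' hO.vinf hf
    exact ⟨g, hg, nonunits_of_isUnif370 hu₁ h⟩
  · -- only_α₁
    intro V hV
    refine honly V (fun k => ?_)
    rw [← hV, ValuationSubring.mem_comap]
    rfl
  · -- only_α₃
    intro V hV
    rw [hO.vzero]
    refine H83.h83_alpha_unique (M := M * q) W' W hS.dvr hS.unif hS.q_prime hqM
      hO.fricke' hO.fricke hO.vinf' hO.vinf V (fun f => ?_)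
    show αE E (M * q) q f ∈ V ↔ f ∈ V₁'.comap (W' : FE E (M * q) →+* FE E (M * q))
    rw [← hO.vzero', ← hV, ValuationSubring.mem_comap]
    rfl
  · -- only_β₂
    intro V hV
    have hV' : ∀ f, βE E (M * q) q f ∈ V ↔ f ∈ V₂' := fun f => by
      rw [← hV, ValuationSubring.mem_comap]
      rfl
    rcases honly _ (hswap V hV') with h | h
    · left
      rw [hO.vzero]
      exact hcomapW V V₁ h
    · right
      rw [hcomapW V V₂ h, hmidW]
  · -- only_β₁
    intro V hV
    refine H83.h83_beta_unique (M := M * q) hS.dvr hS.unif hS.q_prime hqM hO.vinf' hO.vinf V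
      (fun f => ?_)
    rw [← hV, ValuationSubring.mem_comap]
    rfl
  · -- pi_pow
    have hπ0 : (H972.jqq E M q - H972.jtop E M q) ^ (q - 1) ≠ 0 := pow_ne_zero _ hunif.ne_zero
    have hu0 : u ≠ 0 := by
      intro h0
      rw [h0, mul_zero] at hpow
      exact hπ0 hpow
    have hc0 : cE P E (M * q * q) w ≠ 0 := cE_ne_zeroQ hSQ _
    have e : algebraMap (RE P E) (FE E (M * q * q)) w *
        ((jqq E M q - j1 E M q) ^ (q - 1))⁻¹ = u⁻¹ := by
      show cE P E (M * q * q) w * ((H972.jqq E M q - H972.jtop E M q) ^ (q - 1))⁻¹ = u⁻¹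
      rw [hpow]
      field_simp
    show UnitAt V₂ (algebraMap (RE P E) (FE E (M * q * q)) w *
      ((jqq E M q - j1 E M q) ^ (q - 1))⁻¹)
    rw [e]
    exact ⟨inv_ne_zero hu0, hui, by rw [inv_inv]; exact hu⟩
  · -- kron₁
    constructor
    · have h1 := frob_jE370 hSQ hO.vinf 1 (one_dvd _)
        (by rw [one_mul]; exact Dvd.intro_left (M * q) rfl)
      rw [jE_congr370 (one_mul q) _ (Dvd.intro_left (M * q) rfl)] at h1
      have h2 := neg_mem_nonunits370 ((H13.inW_iff_mem_nonunits hu₁ _).mp h1)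
      rw [neg_sub] at h2
      exact h2
    · have h := neg_mem_nonunits370 ((hβn₁ _).mpr hF')
      rw [map_sub, map_pow, hβj, hβjq, neg_sub] at h
      exact h
  · -- kron₂
    constructor
    · have h := neg_mem_nonunits370 ((hαn₂ _).mpr hF')
      rw [map_sub, map_pow, hαj, hαjq, neg_sub] at h
      exact h
    · exact (unifAt_of_isUnif370 hunif).2.1
  · -- kron₃
    constructor
    · have h := neg_mem_nonunits370 ((hαn₃ _).mpr hF₂')
      rw [map_sub, map_pow, hαj, hαjq, neg_sub] at h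
      exact h
    · have h := neg_mem_nonunits370 ((hβn₃ _).mpr hF₂')
      rw [map_sub, map_pow, hβj, hβjq, neg_sub] at h
      exact h

end Main

end Fermat.Agent.S36.Mod3.H370

end

end
-- ===== PACK-END S36/Mod3/H370/VT.lean

-- ===== PACK-BEGIN S36/Mod3/H370/Val.lean
section


/-!
# S36 / MOD3 — leaves VAL and OBJ (helper370): `Mod3.LeafVal`, `Mod3.LeafObj`, verbatim,
unconditional

* `leafObj` : the objects exist (`V∞`, Fricke at both levels: L1, L4 of A2/Mod; the middle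
  valuation ring: helper972 `H972.mod3_alpha_main`);
* `leafVal` : the three valuation rings are discrete valuation rings, pairwise distinct,
  `w` is a uniformiser of `V₁`, `V₃`, `w = unit · π ^ (q - 1)` at `V₂` (`π = j_{q²} - j`),
  `x = j j_q j_{q²}` is a unit of the three.
-/

set_option autoImplicit false
set_option linter.unusedSectionVars false
set_option linter.style.haveILetI false
set_option synthInstance.maxHeartbeats 400000
set_option maxHeartbeats 1600000

noncomputable section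

namespace Fermat.Agent.S36.Mod3.H370

open ModularCurve HahnSeries Polynomial Fermat.Agent.A2.Mod
open Fermat.Agent.S36.H370 Fermat.Agent.S36.Eng

section Generic

variable {F : Type*} [Field F]

theorem isUnif_of_unifAt370 {V : ValuationSubring F} {t : F} (h : UnifAt V t) :
    A2.H48.IsUnif V t := by
  obtain ⟨h0, hn, hg⟩ := h
  refine ⟨nonunits_mem370 hn, ?_, fun f hf hfi => ?_⟩
  · rcases (ValuationSubring.mem_nonunits_iff_or V).mp hn with h | h
    · exact absurd h h0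
    · exact h
  · exact hg f ((ValuationSubring.mem_nonunits_iff_or V).mpr (Or.inr hfi))

theorem unitAt_mul370 {V : ValuationSubring F} {a b : F} (ha : UnitAt V a) (hb : UnitAt V b) :
    UnitAt V (a * b) :=
  ⟨mul_ne_zero ha.1 hb.1, V.mul_mem _ _ ha.2.1 hb.2.1, by
    rw [mul_inv]
    exact V.mul_mem _ _ ha.2.2 hb.2.2⟩

theorem unitAt_of_map370 {F' : Type*} [Field F'] (φ : F' →+* F) {V : ValuationSubring F}
    {V' : ValuationSubring F'} (h : ∀ f, φ f ∈ V ↔ f ∈ V') {a : F'} (ha0 : a ≠ 0)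
    (ha : a ∈ V') (hai : a⁻¹ ∈ V') : UnitAt V (φ a) :=
  ⟨(map_ne_zero φ).mpr ha0, (h a).mpr ha, by
    rw [← map_inv₀]
    exact (h _).mpr hai⟩

end Generic

section Main

variable {P : ValuationSubring Qb} {E : IntermediateField ℚ Qb} {M q : ℕ} [NeZero M] [NeZero q]
  [NeZero (M * q)] {w : RE P E}

/-- **OBJ (leaf)**, exact frozen type. -/
theorem leafObj : Mod3.LeafObj := by
  intro P E M q _ _ _ w hStd
  have hS : Setting P E M q w :=
    ⟨hStd.q_prime, hStd.q_not_dvd, NeZero.ne M, hStd.lies_over, hStd.unram.1.dvr, hStd.unif⟩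
  have hSQ : SettingQ P E q w := SettingQ.of_setting hS
  obtain ⟨V₁', hV₁'⟩ := H553.vinfExists P E (M * q) (NeZero.ne _) hS.dvr
  obtain ⟨V₁, hV₁⟩ := H553.vinfExists P E (M * q * q) (NeZero.ne _) hS.dvr
  obtain ⟨W', hW'⟩ := H751.frickeExists E (M * q) (NeZero.ne _)
  obtain ⟨W, hW⟩ := H751.frickeExists E (M * q * q) (NeZero.ne _)
  obtain ⟨Vmid, hne, hα, -⟩ :=
    H972.mod3_alpha_main hS (unram_of_std370 hSQ hStd.unram) hV₁' hV₁
  refine ⟨V₁', V₁'.comap (W' : FE E (M * q) →+* FE E (M * q)), V₁, Vmid,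
    V₁.comap (W : FE E (M * q * q) →+* FE E (M * q * q)), W', W,
    ⟨hV₁', hW', rfl, hV₁, hW, rfl, ?_, hne⟩⟩
  ext k
  rw [ValuationSubring.mem_comap]
  exact hα k

/-- **VAL (leaf)**, exact frozen type. -/
theorem leafVal : Mod3.LeafVal := by
  intro P E M q _ _ _ w hStd V₁' V₂' V₁ V₂ V₃ W' W hO
  have hS : Setting P E M q w :=
    ⟨hStd.q_prime, hStd.q_not_dvd, NeZero.ne M, hStd.lies_over, hStd.unram.1.dvr, hStd.unif⟩
  have hSQ : SettingQ P E q w := SettingQ.of_setting hS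
  haveI := hS.dvr
  have hT := leafTable P E M q w hStd V₁' V₂' V₁ V₂ V₃ W' W hO
  have hVT := leafVT P E M q w hStd V₁' V₂' V₁ V₂ V₃ W' W hO
  have hqM : q ∣ M * q := dvd_mul_left q M
  have hB₁ := H553.vinfBasic P E w (M * q * q) (NeZero.ne _) hS.dvr hS.unif V₁ hO.vinf
  have hB₁' := H553.vinfBasic P E w (M * q) (NeZero.ne _) hS.dvr hS.unif V₁' hO.vinf'
  have hu₁ : A2.H48.IsUnif V₁ (cE P E (M * q * q) w) := hB₁.1
  have hu₁' : A2.H48.IsUnif V₁' (cE P E (M * q) w) := hB₁'.1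
  have hu₃ : A2.H48.IsUnif V₃ (cE P E (M * q * q) w) := by
    rw [hO.vzero]
    exact H13.isUnif_comap hu₁ W
  have hu₂ : A2.H48.IsUnif V₂ (jqq E M q - j1 E M q) := isUnif_of_unifAt370 hVT.pi_unif
  have hαV₂ : ∀ k, αE E (M * q) q k ∈ V₂ ↔ k ∈ V₁' := fun k => by
    rw [← hT.comap_α₂, ValuationSubring.mem_comap]
    rfl
  have hβV₂ : ∀ k, βE E (M * q) q k ∈ V₂ ↔ k ∈ V₂' := fun k => by
    rw [← hT.comap_β₂, ValuationSubring.mem_comap]
    rfl
  have hV₃mem : ∀ f, f ∈ V₃ ↔ W f ∈ V₁ := fun f => by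
    rw [hO.vzero, ValuationSubring.mem_comap]
    rfl
  have hV₂'mem : ∀ f, f ∈ V₂' ↔ W' f ∈ V₁' := fun f => by
    rw [hO.vzero', ValuationSubring.mem_comap]
    rfl
  have hne' : V₁' ≠ V₂' := by
    intro h
    apply H553.vzeroNe P E M q w hS V₁' W' hO.vinf' hO.fricke'
    rw [← hO.vzero', ← h]
  -- rank one
  have harch₁ : ∀ a : FE E (M * q * q), ∃ k : ℕ, cE P E (M * q * q) w ^ k * a ∈ V₁ :=
    fun a => H972.arch_vinf hS.unif hO.vinf a
  have harch₃ : ∀ a : FE E (M * q * q), ∃ k : ℕ, cE P E (M * q * q) w ^ k * a ∈ V₃ := by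
    intro a
    obtain ⟨k, hk⟩ := harch₁ (W a)
    refine ⟨k, ?_⟩
    rw [hV₃mem, map_mul, map_pow, fricke_cE]
    exact hk
  have harch₂w : ∀ a : FE E (M * q * q), ∃ k : ℕ, cE P E (M * q * q) w ^ k * a ∈ V₂ := by
    intro a
    letI : Algebra (FE E (M * q)) (FE E (M * q * q)) :=
      AlgebraicCurve.algebraAlong (αE E (M * q) q)
    haveI : FiniteDimensional (FE E (M * q)) (FE E (M * q * q)) :=
      H972.finite_alpha (E := E) (M := M) (q := q) hS.q_prime
    have hint : IsIntegral (FE E (M * q)) a := Algebra.IsIntegral.isIntegral a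
    obtain ⟨k, hk⟩ := A2.H48.exists_pow_mul_mem (O := V₁') (ϖ := cE P E (M * q) w) hu₁'.mem
      (fun a => H972.arch_vinf hS.unif hO.vinf' a) V₂ (fun a ha => (hαV₂ a).mpr ha) hint
    refine ⟨k, ?_⟩
    have e : algebraMap (FE E (M * q)) (FE E (M * q * q)) (cE P E (M * q) w) =
        cE P E (M * q * q) w := (αE E (M * q) q).commutes (w : E)
    rw [e] at hk
    exact hk
  obtain ⟨hpu0, hpu, hpui⟩ := hVT.pi_pow
  have harch₂ : ∀ a : FE E (M * q * q), ∃ k : ℕ, (jqq E M q - j1 E M q) ^ k * a ∈ V₂ := by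
    intro a
    obtain ⟨k, hk⟩ := harch₂w a
    refine ⟨(q - 1) * k, ?_⟩
    have hπ0 : (jqq E M q - j1 E M q) ^ (q - 1) ≠ 0 := pow_ne_zero _ hu₂.ne_zero
    have e : (jqq E M q - j1 E M q) ^ ((q - 1) * k) * a =
        ((algebraMap (RE P E) (FE E (M * q * q)) w *
          ((jqq E M q - j1 E M q) ^ (q - 1))⁻¹)⁻¹) ^ k * (cE P E (M * q * q) w ^ k * a) := by
      have hc0 : cE P E (M * q * q) w ≠ 0 := cE_ne_zeroQ hSQ _
      have hce : algebraMap (RE P E) (FE E (M * q * q)) w = cE P E (M * q * q) w := rfl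
      rw [hce, pow_mul, mul_inv, inv_inv, mul_pow, inv_pow]
      field_simp
    rw [e]
    exact V₂.mul_mem _ _ (pow_mem hpui k) hk
  -- units
  have hj₁ : ∀ (d : ℕ) [NeZero d] (hd : d ∣ M * q * q), UnitAt V₁ (jE E (M * q * q) d hd) :=
    fun d _ hd => ⟨H873.jE_ne_zero E _ d hd, (hB₁.2.2 d hd).1, (hB₁.2.2 d hd).2⟩
  have hj₁' : ∀ (d : ℕ) [NeZero d] (hd : d ∣ M * q), jE E (M * q) d hd ≠ 0 ∧
      jE E (M * q) d hd ∈ V₁' ∧ (jE E (M * q) d hd)⁻¹ ∈ V₁' :=
    fun d _ hd => ⟨H873.jE_ne_zero E _ d hd, (hB₁'.2.2 d hd).1, (hB₁'.2.2 d hd).2⟩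
  have hj₃ : ∀ (d d' : ℕ) [NeZero d] [NeZero d'] (hd : d ∣ M * q * q) (hd' : d' ∣ M * q * q),
      d * d' = M * q * q → UnitAt V₃ (jE E (M * q * q) d hd) := by
    intro d d' _ _ hd hd' h
    refine ⟨H873.jE_ne_zero E _ d hd, ?_, ?_⟩
    · rw [hV₃mem, hO.fricke.1 d d' hd hd' h]
      exact (hB₁.2.2 d' hd').1
    · rw [hV₃mem, map_inv₀, hO.fricke.1 d d' hd hd' h]
      exact (hB₁.2.2 d' hd').2
  have hjq₂' : jE E (M * q) q hqM ∈ V₂' ∧ (jE E (M * q) q hqM)⁻¹ ∈ V₂' := by
    constructor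
    · rw [hV₂'mem, hO.fricke'.1 q M hqM (dvd_mul_right M q) (mul_comm q M)]
      exact (hB₁'.2.2 M (dvd_mul_right M q)).1
    · rw [hV₂'mem, map_inv₀, hO.fricke'.1 q M hqM (dvd_mul_right M q) (mul_comm q M)]
      exact (hB₁'.2.2 M (dvd_mul_right M q)).2
  have hαj : αE E (M * q) q (jE E (M * q) 1 (one_dvd _)) = j1 E M q :=
    H553.αE_jE E (M * q) q 1 (one_dvd _)
  have hαjq : αE E (M * q) q (jE E (M * q) q hqM) = jq E M q := alpha_jq_eq370
  have hβjq : βE E (M * q) q (jE E (M * q) q hqM) = jqq E M q := beta_jq_eq370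
  exact
    { dvr₁ := H972.isDiscreteValuationRing_of_isUnif hu₁ harch₁
      dvr₂ := H972.isDiscreteValuationRing_of_isUnif hu₂ harch₂
      dvr₃ := H972.isDiscreteValuationRing_of_isUnif hu₃ harch₃
      ne₁₂ := fun h => hO.mid_ne h.symm
      ne₁₃ := fun h => hne' (by rw [← hT.comap_α₁, h, hT.comap_α₃])
      ne₂₃ := fun h => hne' (by rw [← hT.comap_α₂, h, hT.comap_α₃])
      unif₁ := unifAt_of_isUnif370 hu₁
      unif₃ := unifAt_of_isUnif370 hu₃
      ram₂ := ⟨_, hVT.pi_unif, hVT.pi_pow⟩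
      x_unit₁ := unitAt_mul370 (unitAt_mul370 (hj₁ 1 _) (hj₁ q _)) (hj₁ (q * q) _)
      x_unit₂ := by
        refine unitAt_mul370 (unitAt_mul370 ?_ ?_) ?_
        · rw [← hαj]
          exact unitAt_of_map370 _ hαV₂ (hj₁' 1 _).1 (hj₁' 1 _).2.1 (hj₁' 1 _).2.2
        · rw [← hαjq]
          exact unitAt_of_map370 _ hαV₂ (hj₁' q _).1 (hj₁' q _).2.1 (hj₁' q _).2.2
        · rw [← hβjq]
          exact unitAt_of_map370 _ hβV₂ (hj₁' q _).1 hjq₂'.1 hjq₂'.2
      x_unit₃ := unitAt_mul370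
        (unitAt_mul370 (hj₃ 1 (M * q * q) (one_dvd _) dvd_rfl (one_mul _))
          (hj₃ q (M * q) (Dvd.intro_left (M * q) rfl) (Dvd.intro _ rfl) (by ring)))
        (hj₃ (q * q) M ⟨M, by ring⟩ ⟨q * q, by ring⟩ (by ring)) }

end Main

end Fermat.Agent.S36.Mod3.H370

end

end
-- ===== PACK-END S36/Mod3/H370/Val.lean

-- ===== PACK-BEGIN S36/Mod3/H775/EisRes.lean
section


/-!
# S36 / MOD3 / REG — the Eisenstein residue on the middle component (helper775)

`hEis` of helper922's `h922_hres_mid`, on the concrete objects, UNCONDITIONAL (`Std` + `Objs`):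

  `π ^ (q - 1) / q  ≡  α(g₁) / α(j ^ (q²) - j)   mod 𝔪_{V₂}`,     `π = β(j_q) - α(j) = j_{q²} - j`,

where `g₁ ∈ V₁'` (level `M q`) has `t`-expansion `U = Ψ(j) / q`, the Eisenstein constant of
helper83 (`h83_eisenstein`), `Ū · θ j̄ = (j̄ - j̄^{q²}) (θ j̄)^q`.

DIRECT route (no `EisData`, no minimal polynomial, no `Unram`): the formal decomposition
`Ψ = (X - j^{q²}) (X - j)^{q-1} + q G` over the integer series of `F_{Mq}` is evaluated at
`j_{q²}` INSIDE `V₂`; `G(j_{q²}) ≡ G(j)` because `π ∈ 𝔪_{V₂}` (`kron₂`) and `j_{q²} - j^{q²}` is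
a unit of `V₂` because `j^{q²} - j` is a Gauss unit.
-/

set_option autoImplicit false
set_option linter.unusedSectionVars false
set_option linter.style.haveILetI false
set_option synthInstance.maxHeartbeats 400000
set_option maxHeartbeats 1600000

noncomputable section

namespace Fermat.Agent.S36.Mod3.H775.Res

open ModularCurve Polynomial Fermat.Agent.A2.Mod
open Fermat.Agent.S36.H370 Fermat.Agent.S36.Mod3.H370 Fermat.Agent.S36.Eng
open Fermat.Agent.S36.H83 Fermat.Agent.S28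

/-! ## The abstract residue computation -/

section Abstract

variable {L : Type*} [Field L]

/-- If `(y - a) (y - c)^n + q G(y) = 0` in a valuation ring `V`, `y - c ∈ 𝔪_V` and `a - c` is a
unit, then `(y - c)^n / q ≡ G(c) / (a - c)` modulo `𝔪_V`. -/
theorem eis_residue (V : ValuationSubring L) (G : Polynomial V) (y c a : V) (qq : L) (n : ℕ)
    (hq0 : qq ≠ 0)
    (hrel : ((y : L) - a) * ((y : L) - c) ^ n + qq * ((G.eval y : V) : L) = 0)
    (hπ : (y : L) - c ∈ V.nonunits)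
    (hac0 : (a : L) - c ≠ 0) (hac : ((a : L) - c)⁻¹ ∈ V) :
    ((y : L) - c) ^ n * qq⁻¹ - ((G.eval c : V) : L) * ((a : L) - c)⁻¹ ∈ V.nonunits := by
  obtain ⟨h, hh⟩ := Polynomial.sub_dvd_eval_sub y c G
  have hh' : ((G.eval y : V) : L) = ((G.eval c : V) : L) + ((y : L) - c) * (h : L) := by
    have := congrArg (fun z : V => (z : L)) hh
    simp only [AddSubgroupClass.coe_sub, MulMemClass.coe_mul] at this
    linear_combination this
  -- `y - a` is a unit
  have hva : V.valuation ((a : L) - c) = 1 := by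
    refine le_antisymm ((V.valuation_le_one_iff _).mpr (sub_mem a.2 c.2)) ?_
    have h1 := (V.valuation_le_one_iff _).mpr hac
    rw [map_inv₀] at h1
    have h0 : V.valuation ((a : L) - c) ≠ 0 := by
      rw [Ne, Valuation.zero_iff]
      exact hac0
    exact (inv_le_one₀ (zero_lt_iff.mpr h0)).mp h1
  have hvπ : V.valuation ((y : L) - c) < 1 := (V.mem_nonunits_iff).mp hπ
  have hvy : V.valuation ((y : L) - a) = 1 := by
    have e : (y : L) - a = -((a : L) - c) + ((y : L) - c) := by ring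
    rw [e]
    have h2 : V.valuation (-((a : L) - c)) = 1 := by rw [Valuation.map_neg, hva]
    rw [Valuation.map_add_eq_of_lt_left]
    · exact h2
    · rw [h2]
      exact hvπ
  have hya0 : (y : L) - a ≠ 0 := by
    intro h0
    rw [h0, map_zero] at hvy
    exact zero_ne_one hvy
  have hyai : ((y : L) - a)⁻¹ ∈ V := by
    rw [← V.valuation_le_one_iff, map_inv₀, hvy, inv_one]
  set π : L := (y : L) - c with hπdef
  set Gc : L := ((G.eval c : V) : L) with hGc
  have hrel' : ((y : L) - a) * π ^ n + qq * (Gc + π * (h : L)) = 0 := by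
    rw [← hh']
    exact hrel
  have h1 : π ^ n * qq⁻¹ = -(Gc + π * (h : L)) * ((y : L) - a)⁻¹ := by
    field_simp
    linear_combination hrel'
  have hya : (y : L) - a = π - ((a : L) - c) := by
    rw [hπdef]
    ring
  have key : π ^ n * qq⁻¹ - Gc * ((a : L) - c)⁻¹
      = π * (-(Gc + (h : L) * ((a : L) - c)) * (((y : L) - a)⁻¹ * ((a : L) - c)⁻¹)) := by
    rw [h1]
    field_simp
    rw [hya]
    ring
  rw [key, ValuationSubring.mem_nonunits_iff, map_mul]
  refine mul_lt_one_of_lt_of_le hvπ ((V.valuation_le_one_iff _).mpr ?_)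
  refine mul_mem (neg_mem (add_mem (G.eval c).2 (mul_mem h.2 (sub_mem a.2 c.2)))) ?_
  exact mul_mem hyai hac

end Abstract

/-! ## The integer series lying in `F_{N,E}` -/

section IntSeries

variable (E : IntermediateField ℚ Qb)

/-- The integer series lying in `F_{N,E}`. -/
def intS (N : ℕ) : Subring (LaurentSeries ℤ) :=
  (FE E N).toSubfield.toSubring.comap (H972.castE E)

theorem mem_intS {N : ℕ} {U : LaurentSeries ℤ} :
    U ∈ intS E N ↔ H972.castE E U ∈ FE E N := Iff.rfl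

/-- `intS` is saturated. -/
theorem mem_intS_of_natCast_mul {N : ℕ} {p : ℕ} (hp : p ≠ 0) {U : LaurentSeries ℤ}
    (h : (p : LaurentSeries ℤ) * U ∈ intS E N) : U ∈ intS E N := by
  rw [mem_intS] at h ⊢
  rw [map_mul, map_natCast] at h
  have hp0 : ((p : ℕ) : LaurentSeries E) ≠ 0 := by
    have : CharZero (LaurentSeries E) :=
      charZero_of_injective_algebraMap (algebraMap E (LaurentSeries E)).injective
    exact Nat.cast_ne_zero.mpr hp
  have h1 : ((p : ℕ) : LaurentSeries E) ∈ FE E N := natCast_mem _ p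
  have h2 : ((p : ℕ) : LaurentSeries E)⁻¹ * ((p : LaurentSeries E) * H972.castE E U) ∈ FE E N :=
    (FE E N).mul_mem ((FE E N).inv_mem h1) h
  rwa [inv_mul_cancel_left₀ hp0] at h2

theorem jq_mem_intS (N d : ℕ) [NeZero d] (hd : d ∣ N) :
    qExpand ℤ d (jqModC ℤ) ∈ intS E N := by
  rw [mem_intS, ← H972.coe_jE' E N d hd]
  exact (jE E N d hd).2

theorem j_mem_intS (N : ℕ) : jqModC ℤ ∈ intS E N := by
  have := jq_mem_intS E N 1 (one_dvd _)
  rwa [qExpand_one_apply] at this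

variable {E} {P : ValuationSubring Qb}

/-- `intS → V∞`. -/
def toV {N : ℕ} {V : ValuationSubring (FE E N)} (hV : IsVinf P E N V) : intS E N →+* V :=
  (((H972.castE E).comp (intS E N).subtype).codRestrict (FE E N) (fun U => U.2)).codRestrict V
    (fun _ => H972.mem_of_castE hV rfl)

theorem coe_toV {N : ℕ} {V : ValuationSubring (FE E N)} (hV : IsVinf P E N V)
    (U : intS E N) :
    (((toV hV U : V) : FE E N) : LaurentSeries E) = H972.castE E (U : LaurentSeries ℤ) := rfl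

end IntSeries

/-! ## The polynomials over the integer series -/

section Polys

variable (E : IntermediateField ℚ Qb) (N q : ℕ) [NeZero q]

/-- `j` as an element of `intS`. -/
def jS : intS E N := ⟨jqModC ℤ, j_mem_intS E N⟩

theorem coe_jS : ((jS E N : intS E N) : LaurentSeries ℤ) = jqModC ℤ := rfl

/-- `Ψ = Φ_q(j_q, Y) / (Y - j)` and its Eisenstein-split form, over the integer series lying in
`F_{N,E}` (`q ∣ N`). -/
theorem exists_polys [hq : Fact q.Prime] (Φ : ModPolyData q) (hqN : q ∣ N) :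
    ∃ Ψ₀ G₀ : Polynomial (intS E N),
      Ψ₀.map (intS E N).subtype = h83_eisPsi q Φ ∧
      Ψ₀ = (X - C (jS E N ^ (q ^ 2))) * (X - C (jS E N)) ^ (q - 1)
        + C (q : intS E N) * G₀ ∧
      (h83_eisPsi q Φ).eval (jqModC ℤ)
        = (q : LaurentSeries ℤ) * ((G₀.eval (jS E N) : intS E N) : LaurentSeries ℤ) ∧
      h83_red q ((jS E N ^ (q ^ 2) - jS E N : intS E N) : LaurentSeries ℤ) ≠ 0 := by
  set S := intS E N with hS
  have hinj : Function.Injective S.subtype := Subtype.val_injective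
  obtain ⟨G, hΨ, hev, -, hsub⟩ := h83_eisPsi_eq_add q Φ
  obtain ⟨Ψ₀, -, hmap⟩ := h83_eisPsi_mem_lifts q Φ S
    (j_mem_intS E N) (jq_mem_intS E N q hqN)
  set D : Polynomial S := Ψ₀ - (X - C (jS E N ^ (q ^ 2))) * (X - C (jS E N)) ^ (q - 1)
    with hD
  have hDmap : D.map S.subtype = C (q : LaurentSeries ℤ) * G := by
    rw [hD, Polynomial.map_sub, hmap, hΨ]
    simp only [Polynomial.map_mul, Polynomial.map_pow, Polynomial.map_sub, Polynomial.map_X,
      Polynomial.map_C, map_pow]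
    rw [show S.subtype (jS E N) = jqModC ℤ from rfl]
    ring
  have hcoef : ∀ n, G.coeff n ∈ S := by
    intro n
    apply mem_intS_of_natCast_mul E (NeZero.ne q)
    have h1 := congrArg (fun f => f.coeff n) hDmap
    simp only [Polynomial.coeff_map, Polynomial.coeff_C_mul] at h1
    rw [← h1]
    exact (D.coeff n).2
  obtain ⟨G₀, hG₀⟩ : ∃ G₀ : Polynomial S, G₀.map S.subtype = G := by
    rw [← Polynomial.mem_lifts, Polynomial.lifts_iff_coeff_lifts]
    exact fun n => ⟨⟨G.coeff n, hcoef n⟩, rfl⟩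
  refine ⟨Ψ₀, G₀, hmap, ?_, ?_, hsub⟩
  · apply Polynomial.map_injective S.subtype hinj
    rw [hmap, hΨ]
    have hq1 : (C (q : ↥S) * G₀).map S.subtype = C (q : LaurentSeries ℤ) * G := by
      rw [Polynomial.map_mul, Polynomial.map_C, map_natCast, hG₀]
    rw [Polynomial.map_add, hq1]
    simp only [Polynomial.map_mul, Polynomial.map_pow, Polynomial.map_sub,
      Polynomial.map_X, Polynomial.map_C, map_pow]
    rw [show S.subtype (jS E N) = jqModC ℤ from rfl]
    ring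
  · have : ((G₀.eval (jS E N) : S) : LaurentSeries ℤ) = G.eval (jqModC ℤ) := by
      rw [← hG₀, Polynomial.eval_map]
      exact (Polynomial.eval₂_at_apply S.subtype (jS E N)).symm
    rw [this]
    exact hev

end Polys

/-! ## The concrete statement -/

section Main

variable {P : ValuationSubring Qb} {E : IntermediateField ℚ Qb} {M q : ℕ} [NeZero M] [NeZero q]
  [NeZero (M * q)] {w : RE P E}

/-- **The Eisenstein residue on the middle component** (`hEis` of `h922_hres_mid` at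
`M₁ = M q`, `V = V₂`), together with its companions `hU`, `hg₁`. -/
theorem eis_mid (hStd : Std P E M q w)
    {V₁' V₂' : ValuationSubring (FE E (M * q))}
    {V₁ V₂ V₃ : ValuationSubring (FE E (M * q * q))}
    {W' : FE E (M * q) ≃ₐ[E] FE E (M * q)}
    {W : FE E (M * q * q) ≃ₐ[E] FE E (M * q * q)}
    (hO : Objs P E M q V₁' V₂' V₁ V₂ V₃ W' W) :
    ∃ (U : LaurentSeries ℤ) (g₁ : FE E (M * q)),
      (coeffMap (Int.castRingHom (ZMod q)) U * thetaL (ZMod q) (jqModC (ZMod q))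
        = (jqModC (ZMod q) - jqModC (ZMod q) ^ (q ^ 2))
            * thetaL (ZMod q) (jqModC (ZMod q)) ^ q) ∧
      coeffMap (Int.castRingHom (ZMod q)) U ≠ 0 ∧
      (g₁ : LaurentSeries E) = coeffMap (Int.castRingHom E) U ∧
      g₁ ∈ V₁' ∧
      (βE E (M * q) q (jE E (M * q) q (dvd_mul_left q M))
            - αE E (M * q) q (jE E (M * q) 1 (one_dvd _))) ^ (q - 1)
          * (algebraMap E (FE E (M * q * q)) (q : E))⁻¹
        - αE E (M * q) q g₁
          * (αE E (M * q) q (jE E (M * q) 1 (one_dvd _) ^ (q ^ 2)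
              - jE E (M * q) 1 (one_dvd _)))⁻¹
        ∈ V₂.nonunits := by
  have hS : Setting P E M q w :=
    ⟨hStd.q_prime, hStd.q_not_dvd, NeZero.ne M, hStd.lies_over, hStd.unram.1.dvr, hStd.unif⟩
  haveI := hS.dvr
  haveI : Fact q.Prime := ⟨hStd.q_prime⟩
  have hq := hStd.q_prime
  have hqM : q ∣ M * q := dvd_mul_left q M
  have hVT := leafVT P E M q w hStd V₁' V₂' V₁ V₂ V₃ W' W hO
  have hαV₂ : ∀ k, αE E (M * q) q k ∈ V₂ ↔ k ∈ V₁' := fun k => by
    rw [← hO.mid, ValuationSubring.mem_comap]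
    rfl
  obtain ⟨Φ⟩ := Fermat.Agent.S28.H326.nonempty_modPolyData q hq
  obtain ⟨Ψ₀, G₀, hmap, hdec, hev, hsub⟩ := exists_polys E (M * q) q Φ hqM
  obtain ⟨U, hU1, -, hU3, hU0⟩ := h83_eisenstein q Φ
  have hGU : ((G₀.eval (jS E (M * q)) : intS E (M * q)) : LaurentSeries ℤ) = U :=
    mul_left_cancel₀ (h83_natCast_ne_zero q) (hev.symm.trans hU1)
  -- the ring homomorphisms
  let t1 : intS E (M * q) →+* V₁' := toV hO.vinf'
  let ρ : V₁' →+* V₂ :=
    ((αE E (M * q) q : FE E (M * q) →+* FE E (M * q * q)).comp V₁'.subtype).codRestrict V₂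
      (fun k => (hαV₂ _).mpr k.2)
  let τ : intS E (M * q) →+* V₂ := ρ.comp t1
  have hτcoe : ∀ u : intS E (M * q),
      ((τ u : V₂) : FE E (M * q * q)) = αE E (M * q) q ((t1 u : V₁') : FE E (M * q)) :=
    fun _ => rfl
  have hι : (H972.valV V₂).comp τ = (H972.castE E).comp (intS E (M * q)).subtype := by
    refine RingHom.ext fun u => ?_
    show ((αE E (M * q) q ((t1 u : V₁') : FE E (M * q)) : FE E (M * q * q)) : LaurentSeries E)
      = H972.castE E (u : LaurentSeries ℤ)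
    rw [coe_heckeAlphaBar]
    rfl
  -- the elements
  have hj1 : ((t1 (jS E (M * q)) : V₁') : FE E (M * q)) = jE E (M * q) 1 (one_dvd _) := by
    apply Subtype.ext
    rw [coe_toV, coe_jS, H972.coe_jE', qExpand_one_apply]
  have hc : ((τ (jS E (M * q)) : V₂) : FE E (M * q * q)) = j1 E M q := by
    rw [hτcoe, hj1]
    exact H553.αE_jE E (M * q) q 1 (one_dvd _)
  have hπ : jqq E M q - j1 E M q ∈ V₂.nonunits := hVT.kron₂.2
  have hj1V : j1 E M q ∈ V₂ := by
    rw [← hc]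
    exact (τ (jS E (M * q))).2
  have hyV : jqq E M q ∈ V₂ := by
    have h1 : jqq E M q = (jqq E M q - j1 E M q) + j1 E M q := by ring
    rw [h1]
    exact add_mem (V₂.nonunits_le hπ) hj1V
  set y : V₂ := ⟨jqq E M q, hyV⟩ with hy
  -- the relation
  have hroot : (Ψ₀.map τ).eval y = 0 := by
    apply H972.valV_injective V₂
    rw [map_zero, ← Polynomial.eval₂_hom, Polynomial.eval₂_map, hι, ← Polynomial.eval₂_map,
      hmap]
    have hyc : H972.valV V₂ y = H972.castE E (qExpand ℤ q (qExpand ℤ q (jqModC ℤ))) := by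
      rw [H972.valV_apply, qExpand_qExpand]
      exact H972.coe_jE' E (M * q * q) (q * q) ⟨M, by ring⟩
    rw [hyc, Polynomial.eval₂_hom, h83_eisPsi_eval_jpp, map_zero]
  have hrel : ((y : FE E (M * q * q)) - (τ (jS E (M * q) ^ (q ^ 2)) : V₂))
        * ((y : FE E (M * q * q)) - (τ (jS E (M * q)) : V₂)) ^ (q - 1)
      + ((q : ℕ) : FE E (M * q * q)) * (((G₀.map τ).eval y : V₂) : FE E (M * q * q)) = 0 := by
    have h1 := hroot
    rw [hdec] at h1
    simp only [Polynomial.map_add, Polynomial.map_mul, Polynomial.map_pow, Polynomial.map_sub,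
      Polynomial.map_X, Polynomial.map_C, Polynomial.eval_add, Polynomial.eval_mul,
      Polynomial.eval_pow, Polynomial.eval_sub, Polynomial.eval_X, Polynomial.eval_C,
      map_natCast] at h1
    have h2 := congrArg (fun z : V₂ => (z : FE E (M * q * q))) h1
    simpa using h2
  -- the Gauss unit `j^(q²) - j`
  set k : FE E (M * q) :=
    jE E (M * q) 1 (one_dvd _) ^ (q ^ 2) - jE E (M * q) 1 (one_dvd _) with hk
  have hkcoe : (k : LaurentSeries E) = H972.castE E (jqModC ℤ ^ (q ^ 2) - jqModC ℤ) := by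
    have h1 : (k : LaurentSeries E)
        = ((jE E (M * q) 1 (one_dvd _) : FE E (M * q)) : LaurentSeries E) ^ (q ^ 2)
          - ((jE E (M * q) 1 (one_dvd _) : FE E (M * q)) : LaurentSeries E) := rfl
    rw [h1, H972.coe_jE', qExpand_one_apply, map_sub, map_pow]
  have hk0 : k ≠ 0 := by
    intro h0
    have h1 : H972.castE E (jqModC ℤ ^ (q ^ 2) - jqModC ℤ) = 0 := by
      rw [← hkcoe, h0]
      rfl
    have h2 : jqModC ℤ ^ (q ^ 2) - jqModC ℤ = 0 :=
      H972.castE_injective E (h1.trans (map_zero _).symm)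
    apply hsub
    show h83_red q (jqModC ℤ ^ (q ^ 2) - jqModC ℤ) = 0
    rw [h2, map_zero]
  have hkinv : k⁻¹ ∈ V₁' :=
    H972.inv_mem_of_castE hq hStd.lies_over hO.vinf' hkcoe
      (H972.exists_not_dvd_of_red_ne_zero q hsub)
  have hac_eq : ((τ (jS E (M * q) ^ (q ^ 2)) : V₂) : FE E (M * q * q))
      - (τ (jS E (M * q)) : V₂) = αE E (M * q) q k := by
    rw [map_pow τ, SubmonoidClass.coe_pow, hc, hk, map_sub, map_pow,
      H553.αE_jE E (M * q) q 1 (one_dvd _)]
    rfl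
  have hq0 : ((q : ℕ) : FE E (M * q * q)) ≠ 0 := Nat.cast_ne_zero.mpr hq.ne_zero
  have hres := eis_residue V₂ (G₀.map τ) y (τ (jS E (M * q))) (τ (jS E (M * q) ^ (q ^ 2)))
    ((q : ℕ) : FE E (M * q * q)) (q - 1) hq0 hrel
    (by rw [hc]; exact hπ)
    (by rw [hac_eq]; exact (_root_.map_ne_zero _).mpr hk0)
    (by
      rw [hac_eq, ← map_inv₀]
      exact (hαV₂ _).mpr hkinv)
  -- the function `g₁`
  refine ⟨U, ((t1 (G₀.eval (jS E (M * q))) : V₁') : FE E (M * q)), hU3, hU0, ?_, ?_, ?_⟩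
  · rw [coe_toV, hGU]
    rfl
  · exact (t1 (G₀.eval (jS E (M * q)))).2
  · have hG : (((G₀.map τ).eval (τ (jS E (M * q))) : V₂) : FE E (M * q * q))
        = αE E (M * q) q ((t1 (G₀.eval (jS E (M * q))) : V₁') : FE E (M * q)) := by
      rw [Polynomial.eval_map, Polynomial.eval₂_at_apply]
      rfl
    rw [hG, hac_eq, hc] at hres
    have hβ : βE E (M * q) q (jE E (M * q) q hqM) = jqq E M q := beta_jq_eq370
    have hα : αE E (M * q) q (jE E (M * q) 1 (one_dvd _)) = j1 E M q :=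
      H553.αE_jE E (M * q) q 1 (one_dvd _)
    rw [hβ, hα, map_natCast]
    exact hres

end Main

end Fermat.Agent.S36.Mod3.H775.Res

end

end
-- ===== PACK-END S36/Mod3/H775/EisRes.lean

-- ===== PACK-BEGIN S59/TW/H653/Bdry/Adapter.lean
section



/-!
# S59 / TW-HECKE (helper653), block BDRY: trace `-2`, and the statement for `Γ₀(M)`

* `transfer_of_commute` : the transfer of a coset system at an element commuting with all the
  representatives is `card I • φ`;
* `TK_neg_one` : `(T_l φ)(-1) = (l + 1) • φ(-1)`;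
* `TK_apply_of_trace_sq (hK) (hneg : -1 ∈ K)` : `(T_l φ)(γ) = (l + 1) • φ(γ)` for `tr(γ)² = 4`,
  `l ≡ 1 mod M` prime, EVERY abelian group `A` (torsion allowed);
* `heckeTransfer_apply_of_trace_sq` : the same for `Γ₀(M)` and `heckeTransfer`;
* `bdry_h653` : the boundary statement in the shape frozen by helper59 (`H59.BdryStatement`).
-/

set_option autoImplicit false

namespace Fermat.Agent.S59.TW.H653.Bdry

open CongruenceSubgroup Matrix.SpecialLinearGroup ModularCurve.Period ModularForm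
open Fermat.Agent.S29.H642 Fermat.Agent.S41.H761 Fermat.Agent.S59.TW.H653
open P2MW.S_ModularForm_heckeT_slash_eq_self_of_mem_Gamma0.ModularForm.HeckeSlashInvariance
open scoped MatrixGroups

variable {M l : ℕ} {K : Subgroup SL(2, ℤ)} {A : Type*} [AddCommGroup A]

/-- The transfer at an element which commutes with all the representatives. -/
theorem transfer_of_commute {I : Type*} [Fintype I] {ρ : I → GL (Fin 2) ℝ}
    (hsys : IsCosetSystem (ιK K) (ιK K) ρ) (z : K) (hz : ∀ x, ρ x * ιK K z = ιK K z * ρ x)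
    (φ : Additive K →+ A) :
    hsys.transfer φ (Additive.ofMul z) = Fintype.card I • φ (Additive.ofMul z) := by
  rw [IsCosetSystem.transfer_apply]
  have h : ∀ x, hsys.coc x z = z := fun x => (hsys.unique (hz x)).2
  simp only [h, Finset.sum_const, Finset.card_univ]

theorem mapGL_neg_one_comm (g : GL (Fin 2) ℝ) :
    g * mapGL ℝ (-1 : SL(2, ℤ)) = mapGL ℝ (-1 : SL(2, ℤ)) * g := by
  apply Units.ext
  have e : ((mapGL ℝ (-1 : SL(2, ℤ)) : GL (Fin 2) ℝ) : Matrix (Fin 2) (Fin 2) ℝ) = -1 := by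
    ext i j
    fin_cases i <;> fin_cases j <;> simp [mapGL]
  rw [Units.val_mul, Units.val_mul, e, mul_neg, neg_mul, mul_one, one_mul]

/-- `(T_l φ)(-1) = (l + 1) • φ(-1)`. -/
theorem TK_neg_one (hK : IsMid M K) [Fact l.Prime] (hlM : ¬ l ∣ M)
    (hneg : (-1 : SL(2, ℤ)) ∈ K) (φ : Additive K →+ A) :
    TK M K l φ (Additive.ofMul (⟨-1, hneg⟩ : K)) =
      (l + 1) • φ (Additive.ofMul (⟨-1, hneg⟩ : K)) := by
  rw [TK_eq hK hlM, transfer_of_commute (repsT_system hK hlM) ⟨-1, hneg⟩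
    (fun x => mapGL_neg_one_comm _) φ, card_onePoint_zmod]

/-- **The boundary is Eisenstein, trace `± 2`.**  For a prime `l ≡ 1 mod M` and every
homomorphism `φ : K → A` (`-1 ∈ K`): `(T_l φ)(γ) = (l + 1) • φ(γ)` if `tr(γ)² = 4`. -/
theorem TK_apply_of_trace_sq (hK : IsMid M K) [Fact l.Prime] (hM : (M : ℤ) ∣ (l : ℤ) - 1)
    (hneg : (-1 : SL(2, ℤ)) ∈ K) (φ : Additive K →+ A) (γ : K)
    (hγ : ((γ : SL(2, ℤ)) : Matrix (Fin 2) (Fin 2) ℤ).trace ^ 2 = 4) :
    TK M K l φ (Additive.ofMul γ) = (l + 1) • φ (Additive.ofMul γ) := by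
  have hl : l.Prime := Fact.out
  have hlM : ¬ l ∣ M := not_dvd_of_dvd_sub_one hl hM
  have h2 : ((γ : SL(2, ℤ)) : Matrix (Fin 2) (Fin 2) ℤ).trace = 2 ∨
      ((γ : SL(2, ℤ)) : Matrix (Fin 2) (Fin 2) ℤ).trace = -2 := by
    have h : (((γ : SL(2, ℤ)) : Matrix (Fin 2) (Fin 2) ℤ).trace - 2) *
        (((γ : SL(2, ℤ)) : Matrix (Fin 2) (Fin 2) ℤ).trace + 2) = 0 := by
      linear_combination hγ
    rcases mul_eq_zero.mp h with h | h
    · exact Or.inl (by linarith)
    · exact Or.inr (by linarith)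
  rcases h2 with h2 | h2
  · exact TK_apply_of_trace_eq_two hK hM φ γ h2
  · set z : K := ⟨-1, hneg⟩ with hz
    have hzz : z * z = 1 := by
      apply Subtype.ext
      simp [hz]
    have hγ' : (((z * γ : K) : SL(2, ℤ)) : Matrix (Fin 2) (Fin 2) ℤ).trace = 2 := by
      have : ((z * γ : K) : SL(2, ℤ)) = -(γ : SL(2, ℤ)) := by
        simp [hz]
      rw [this, Matrix.SpecialLinearGroup.coe_neg, Matrix.trace_neg, h2]
      norm_num
    have e : γ = z * (z * γ) := by
      rw [← mul_assoc, hzz, one_mul]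
    have key := TK_apply_of_trace_eq_two hK hM φ (z * γ) hγ'
    have keyz := TK_neg_one hK hlM hneg φ
    rw [e, ofMul_mul, map_add, map_add, key, keyz, smul_add]

theorem neg_one_mem_Gamma0 (M : ℕ) : (-1 : SL(2, ℤ)) ∈ Gamma0 M := by
  rw [Gamma0_mem]
  simp

/-- Version for `Γ₀(M)` and `heckeTransfer`. -/
theorem heckeTransfer_apply_of_trace_sq [Fact l.Prime] (hl : ¬ l ∣ M)
    (hM : (M : ℤ) ∣ (l : ℤ) - 1) (φ : Additive (Gamma0 M) →+ A) (γ : Gamma0 M)
    (hγ : ((γ : SL(2, ℤ)) : Matrix (Fin 2) (Fin 2) ℤ).trace ^ 2 = 4) :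
    heckeTransfer hl φ (Additive.ofMul γ) = (l + 1) • φ (Additive.ofMul γ) := by
  rw [← TK_Gamma0 hl]
  exact TK_apply_of_trace_sq (isMid_Gamma0 M) hM (neg_one_mem_Gamma0 M) φ γ hγ

/-- **BDRY in the shape frozen by helper59** (`S38.H59.BdryStatement`, VERBATIM body): the boundary
is Eisenstein, for every abelian group `A`. -/
theorem bdry_h653 :
    ∀ (M ℓ : ℕ) [Fact ℓ.Prime] (hℓ : ¬ ℓ ∣ M), M ≠ 0 → ℓ ≠ 2 → ℓ ≡ 1 [MOD M] →
      ∀ (A : Type) [AddCommGroup A] (φ : Additive (Gamma0 M) →+ A) (γ : Gamma0 M),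
        ((γ : SL(2, ℤ)) : Matrix (Fin 2) (Fin 2) ℤ).trace ^ 2 = 4 →
        heckeTransfer hℓ φ (Additive.ofMul γ) = (ℓ + 1) • φ (Additive.ofMul γ) := by
  intro M ℓ _ hℓ _ _ h1 A _ φ γ hγ
  have hM : (M : ℤ) ∣ (ℓ : ℤ) - 1 := by
    have := Nat.modEq_iff_dvd.mp h1.symm
    simpa using this
  exact heckeTransfer_apply_of_trace_sq hℓ hM φ γ hγ

end Fermat.Agent.S59.TW.H653.Bdry

end
-- ===== PACK-END S59/TW/H653/Bdry/Adapter.lean

-- ===== PACK-BEGIN A3/H615/GrRedLeaf.lean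
section




/-!
# Cell A3 / GR-INST, leaf GR-RED of helper739's assembly (helper615)

`redLeaf_of_datum` : a linked reduction datum with good charts gives `A3.H739.RedLeaf N V`.
`redLeaf_of_datumStatement` : the S37 node `Core.DatumStatement` gives the hypothesis `hred` of
`A3.H739.grStatement_of_leaves_forall`, verbatim.
-/

set_option autoImplicit false
set_option synthInstance.maxHeartbeats 400000

noncomputable section

namespace Fermat.Agent.A3.H615

open ModularCurve AlgebraicCurve HahnSeries IsLocalRing Fermat.Agent.S37.Red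

namespace GrRed

/-- **Leaf GR-RED** from a linked reduction datum with good charts. -/
theorem redLeaf_of_datum (N : ℕ) [NeZero N] {ℓ : ℕ} (hℓ : ℓ.Prime) (hℓN : ¬ ℓ ∣ N)
    (V : ValuationSubring _root_.Fermat.Agent.A3.H615.GrRed.Qb) (hV : V.LiesOverPrime ℓ)
    (G : Datum V (residue V) (modularFunctionFieldBar N)
      (modularFunctionFieldFullC (ResidueField V) N))
    (hgood : G.Good) (hlink : H759.Link G) :
    Fermat.Agent.A3.H739.RedLeaf N V := by
  obtain ⟨r, -, hI, hmod, -⟩ := exists_red hℓ hℓN hV G hgood hlink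
  exact ⟨r, hmod, fun σ hσ P => hI σ hσ P⟩

/-- **Leaf GR-RED at all good levels** from the S37 node `DatumStatement`
(the hypothesis `hred` of `A3.H739.grStatement_of_leaves_forall`). -/
theorem redLeaf_of_datumStatement (h : Fermat.Agent.S37.Core.DatumStatement) :
    ∀ (N : ℕ) [NeZero N] (ℓ : ℕ) [Fact ℓ.Prime], ¬ ℓ ∣ N → Fermat.Agent.S19.GoodLevel N ℓ →
      ∀ V : ValuationSubring _root_.Fermat.Agent.A3.H615.GrRed.Qb, V.LiesOverPrime ℓ → Fermat.Agent.A3.H739.RedLeaf N V := by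
  intro N _ ℓ _ hℓN hg V hV
  obtain ⟨G, hgood, hlink⟩ := h N ℓ Fact.out hℓN hg V hV
  exact redLeaf_of_datum N Fact.out hℓN V hV G hgood hlink

end GrRed

end Fermat.Agent.A3.H615

end
end
-- ===== PACK-END A3/H615/GrRedLeaf.lean

-- ===== PACK-BEGIN S59/TW/H658/ModQRing.lean
section



/-!
# S59 / cell TW, AUT leaf MODQ (helper658): the ring homomorphism at the level `K_Q`

In the vocabulary of `TW/Aut/Spec.lean` (helper511): for a Taylor–Wiles set `qv` (distinct primes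
outside `Smin`), `N₀ = wilesLevel p t Smin Smin`, `K_Q = Aut.KQ p N₀ qv`,
`N' = wilesLevel p t Smin (Smin ∪ Q)`, `h` with `Aut.IsHalf p qv h`, and an `𝒪`-submodule
`V ⊆ X_{K_Q}(𝒪)` of parabolic classes stable under the `⟨ℓ⟩^h T_ℓ`:

  `exists_heckeAction_KQ : ∃ Ψ : heckeAlgebra N' 2 (Smin ∪ Q) →+* End_𝒪 V`,
  `Ψ T_ℓ = Aut.tOpTw _ 𝒪 h ℓ` on `V`.

Also: `exists_isHalf` (`p` odd), `stable_of_isLocPart` (the stability hypothesis from
`Aut.IsLocPart`), `wilesLevel_union` (`N' = N₀ · ∏ q_j²`).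
-/

set_option autoImplicit false
set_option linter.unusedSectionVars false
set_option linter.style.haveILetI false

noncomputable section

namespace Fermat.Agent.S59.TW.H658

open CongruenceSubgroup ModularForm ModularCurve ModularCurve.Period
open Matrix.SpecialLinearGroup
open Fermat.Agent.S59.Arch Fermat.Agent.S59.TW.H653 Fermat.Agent.S59.TW.Aut
open scoped MatrixGroups

theorem uCls_eq_uOf (M ℓ : ℕ) : uCls M ℓ = uOf M ℓ := rfl

/-! ## Arithmetic of the levels -/

section Level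

variable (p : ℕ) (t : PType) (Smin : Finset ℕ) {r : ℕ} (qv : Fin r → ℕ)

theorem image_sdiff_of_notMem (hq : ∀ i, qv i ∉ Smin) :
    (Smin ∪ Finset.univ.image qv) \ Smin = Finset.univ.image qv := by
  ext q
  simp only [Finset.mem_sdiff, Finset.mem_union, Finset.mem_image, Finset.mem_univ, true_and]
  constructor
  · rintro ⟨h1 | h1, h2⟩
    · exact absurd h1 h2
    · exact h1
  · rintro ⟨i, rfl⟩
    exact ⟨Or.inr ⟨i, rfl⟩, hq i⟩

/-- `N_{Smin ∪ Q} = N_{Smin} · ∏ q_j²`. -/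
theorem wilesLevel_union (hqi : Function.Injective qv) (hq : ∀ i, qv i ∉ Smin) :
    wilesLevel p t Smin (Smin ∪ Finset.univ.image qv) =
      wilesLevel p t Smin Smin * ∏ j, qv j ^ 2 := by
  unfold wilesLevel
  rw [image_sdiff_of_notMem Smin qv hq, Finset.sdiff_self, Finset.prod_empty,
    Finset.prod_image (fun i _ j _ h => hqi h)]
  ring

theorem bLevel_mul_prod :
    bLevel (wilesLevel p t Smin Smin) qv * (List.ofFn qv).prod =
      wilesLevel p t Smin Smin * ∏ j, qv j ^ 2 := by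
  rw [List.prod_ofFn, bLevel, Finset.prod_pow]
  ring

theorem bLevel_mul_prod_dvd (hqi : Function.Injective qv) (hq : ∀ i, qv i ∉ Smin) :
    bLevel (wilesLevel p t Smin Smin) qv * (List.ofFn qv).prod ∣
      wilesLevel p t Smin (Smin ∪ Finset.univ.image qv) := by
  rw [bLevel_mul_prod, wilesLevel_union p t Smin qv hqi hq]

variable [Fact p.Prime]

/-- The primes dividing `N_{Smin}` lie in `Smin`. -/
theorem mem_of_dvd_wilesLevel (hpS : p ∈ Smin) (hSp : ∀ q ∈ Smin, q.Prime) {q : ℕ}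
    (hqp : q.Prime) (hdvd : q ∣ wilesLevel p t Smin Smin) : q ∈ Smin := by
  unfold wilesLevel at hdvd
  rw [Finset.sdiff_self, Finset.prod_empty, mul_one] at hdvd
  rcases (Nat.Prime.dvd_mul hqp).mp hdvd with h | h
  · obtain ⟨q', hq', hqq'⟩ := (Prime.dvd_finsetProd_iff hqp.prime _).mp h
    have := (Nat.prime_dvd_prime_iff_eq hqp (hSp q' (Finset.mem_of_mem_erase hq'))).mp hqq'
    rw [this]
    exact Finset.mem_of_mem_erase hq'
  · have h2 : q ∣ p := by
      cases t
      · simp only at h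
        exact absurd (Nat.dvd_one.mp h) hqp.ne_one
      · exact h
      · exact h
    rw [(Nat.prime_dvd_prime_iff_eq hqp Fact.out).mp h2]
    exact hpS

theorem coprime_wilesLevel (hpS : p ∈ Smin) (hSp : ∀ q ∈ Smin, q.Prime) {q : ℕ}
    (hqp : q.Prime) (hq : q ∉ Smin) : Nat.Coprime (wilesLevel p t Smin Smin) q := by
  rw [Nat.coprime_comm, Nat.Prime.coprime_iff_not_dvd hqp]
  exact fun h => hq (mem_of_dvd_wilesLevel p t Smin hpS hSp hqp h)

/-- The primes dividing `N_{Smin ∪ Q}` lie in `Smin ∪ Q`. -/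
theorem mem_of_dvd_wilesLevel_union (hpS : p ∈ Smin) (hSp : ∀ q ∈ Smin, q.Prime)
    (hqi : Function.Injective qv) (hq : ∀ i, (qv i).Prime ∧ qv i ∉ Smin) {q : ℕ}
    (hqp : q.Prime) (hdvd : q ∣ wilesLevel p t Smin (Smin ∪ Finset.univ.image qv)) :
    q ∈ ((Smin ∪ Finset.univ.image qv : Finset ℕ) : Set ℕ) := by
  rw [wilesLevel_union p t Smin qv hqi (fun i => (hq i).2)] at hdvd
  rw [Finset.mem_coe, Finset.mem_union]
  rcases (Nat.Prime.dvd_mul hqp).mp hdvd with h | h
  · exact Or.inl (mem_of_dvd_wilesLevel p t Smin hpS hSp hqp h)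
  · obtain ⟨j, -, hj⟩ := (Prime.dvd_finsetProd_iff hqp.prime _).mp h
    have h1 := hqp.dvd_of_dvd_pow hj
    rw [(Nat.prime_dvd_prime_iff_eq hqp (hq j).1).mp h1]
    exact Or.inr (Finset.mem_image.mpr ⟨j, Finset.mem_univ _, rfl⟩)

/-- Each `q_j` exactly divides `M_Q`. -/
theorem exists_bLevel_eq (hpS : p ∈ Smin) (hSp : ∀ q ∈ Smin, q.Prime)
    (hqi : Function.Injective qv) (hq : ∀ i, (qv i).Prime ∧ qv i ∉ Smin) (j : Fin r) :
    ∃ M' : ℕ, bLevel (wilesLevel p t Smin Smin) qv = M' * qv j ∧ Nat.Coprime M' (qv j) := by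
  classical
  refine ⟨wilesLevel p t Smin Smin * ∏ i ∈ Finset.univ.erase j, qv i, ?_, ?_⟩
  · rw [bLevel, ← Finset.mul_prod_erase Finset.univ qv (Finset.mem_univ j)]
    ring
  · refine Nat.Coprime.mul_left (coprime_wilesLevel p t Smin hpS hSp (hq j).1 (hq j).2) ?_
    refine Nat.Coprime.prod_left fun i hi => ?_
    exact (Nat.coprime_primes (hq i).1 (hq j).1).mpr
      fun h => (Finset.ne_of_mem_erase hi) (hqi h)

end Level

/-! ## The group `K_Q` -/

section Group

variable (p N₀ : ℕ) {r : ℕ} (qv : Fin r → ℕ)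

/-- `Γ₀(M_Q) ∩ Γ₁(∏ q_j) ⊆ K_Q`. -/
theorem mem_KQ_of_dvd {γ : SL(2, ℤ)} (hγ : γ ∈ Gamma0 (bLevel N₀ qv))
    (h : (((List.ofFn qv).prod : ℕ) : ℤ) ∣ γ 1 1 - 1) : γ ∈ KQ p N₀ qv := by
  rw [KQ, mem_GammaH]
  refine ⟨hγ, ?_⟩
  rw [MonoidHom.mem_ker]
  have h1 : red N₀ qv (dUnit _ ⟨γ, hγ⟩) = 1 := by
    funext j
    apply Units.ext
    rw [red_apply]
    show ZMod.castHom (dvd_bLevel N₀ qv j) (ZMod (qv j))
      ((dUnit (bLevel N₀ qv) ⟨γ, hγ⟩ : (ZMod (bLevel N₀ qv))ˣ) : ZMod (bLevel N₀ qv)) = 1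
    rw [coe_dUnit, map_intCast]
    have h2 : ((qv j : ℕ) : ℤ) ∣ γ 1 1 - 1 := by
      refine dvd_trans (Int.natCast_dvd_natCast.mpr ?_) h
      rw [List.prod_ofFn]
      exact Finset.dvd_prod_of_mem qv (Finset.mem_univ j)
    have h3 := (ZMod.intCast_zmod_eq_zero_iff_dvd _ _).mpr h2
    push_cast at h3
    exact sub_eq_zero.mp h3
  show (QuotientGroup.mk' (powSub p qv)) (red N₀ qv (dUnit _ ⟨γ, hγ⟩)) = 1
  rw [h1, map_one]

/-- `Δ_Q` is killed by `2h + 1`. -/
theorem pow_mem_powSub {h : ℕ} (hh : IsHalf p qv h) (x : ∀ j : Fin r, (ZMod (qv j))ˣ) :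
    x ^ (2 * h + 1) ∈ powSub p qv := by
  rw [powSub, Subgroup.mem_pi]
  intro j _
  obtain ⟨c, hc⟩ := hh j
  refine ⟨x j ^ c, ?_⟩
  rw [powMonoidHom_apply, Pi.pow_apply, hc, pow_mul']

theorem pow_mem_KQ {h : ℕ} (hh : IsHalf p qv h) {γ : SL(2, ℤ)}
    (hγ : γ ∈ Gamma0 (bLevel N₀ qv)) : γ ^ (2 * h + 1) ∈ KQ p N₀ qv := by
  rw [KQ, mem_GammaH]
  refine ⟨Subgroup.pow_mem _ hγ _, ?_⟩
  rw [MonoidHom.mem_ker]
  have h1 : (⟨γ ^ (2 * h + 1), Subgroup.pow_mem _ hγ _⟩ : Gamma0 (bLevel N₀ qv)) =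
      (⟨γ, hγ⟩ : Gamma0 (bLevel N₀ qv)) ^ (2 * h + 1) := rfl
  rw [h1, map_pow, map_pow]
  show (QuotientGroup.mk' (powSub p qv)) (red N₀ qv (dUnit _ ⟨γ, hγ⟩)) ^ (2 * h + 1) = 1
  rw [← map_pow]
  exact (QuotientGroup.eq_one_iff _).mpr (pow_mem_powSub p qv hh _)

/-- For odd `p` there is `h` with `2 h ≡ -1` modulo the exponent of `Δ_Q`. -/
theorem exists_isHalf (hp : Odd p) : ∃ h : ℕ, IsHalf p qv h := by
  set a := ∑ j, padicValNat p (qv j - 1) with ha
  have hodd : Odd (p ^ a) := hp.pow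
  obtain ⟨h, hh⟩ := hodd
  refine ⟨h, fun j => ?_⟩
  rw [← hh]
  exact pow_dvd_pow p (Finset.single_le_sum (f := fun j => padicValNat p (qv j - 1))
    (fun _ _ => Nat.zero_le _) (Finset.mem_univ j))

end Group

/-! ## The ring homomorphism -/

section Main

variable {M : ℕ} {K : Subgroup SL(2, ℤ)} (hK : IsMid M K)

/-- The localisation `V` of `Aut.IsLocPart` is stable under the `⟨u⟩ T_ℓ`. -/
theorem stable_of_isLocPart {𝒪 : Type} [CommRing 𝒪] [IsLocalRing 𝒪] {Tset Uset : Set (ℕ × 𝒪)}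
    {V : Submodule 𝒪 (Additive K →+ 𝒪)} (hV : IsLocPart hK Tset Uset V) (u : (ZMod M)ˣ)
    (ℓ : ℕ) [Fact ℓ.Prime] (hℓ : ¬ ℓ ∣ M) (v : Additive K →+ 𝒪) (hv : v ∈ V) :
    diamondU hK u (TK M K ℓ v) ∈ V := by
  obtain ⟨e, -, he2, he3, heT, -, heD, -⟩ := hV.exists_proj
  have h1 : diamondU hK u (TK M K ℓ v) = e (diamondU hK u (TK M K ℓ v)) := by
    rw [heD, heT ℓ hℓ, he3 v hv]
  rw [h1]
  exact he2 _

end Main

section KQ

variable (p : ℕ) [Fact p.Prime] (t : PType) (Smin : Finset ℕ) {r : ℕ} (qv : Fin r → ℕ)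

theorem bLevel_ne_zero (hSp : ∀ q ∈ Smin, q.Prime) (hq : ∀ i, (qv i).Prime) :
    bLevel (wilesLevel p t Smin Smin) qv ≠ 0 := by
  have h1 : wilesLevel p t Smin Smin ≠ 0 := by
    unfold wilesLevel
    rw [Finset.sdiff_self, Finset.prod_empty, mul_one]
    refine Nat.mul_ne_zero (Finset.prod_ne_zero_iff.mpr fun q hq' =>
      (hSp q (Finset.mem_of_mem_erase hq')).ne_zero) ?_
    cases t
    · exact one_ne_zero
    · exact (Fact.out : p.Prime).ne_zero
    · exact (Fact.out : p.Prime).ne_zero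
  exact Nat.mul_ne_zero h1 (Finset.prod_ne_zero_iff.mpr fun j _ => (hq j).ne_zero)

/-- **MODQ, the ring homomorphism.**  The Hecke algebra of `Γ₀(N_{Smin ∪ Q})` acts on every
`𝒪`-submodule `V ⊆ X_{K_Q}(𝒪)` of parabolic classes stable under the `⟨ℓ⟩^h T_ℓ`, through
`T_ℓ ↦ ⟨ℓ⟩^h T_ℓ` (`Aut.tOpTw`), for every `h` with `Aut.IsHalf p qv h`. -/
theorem exists_heckeAction_KQ (hpS : p ∈ Smin) (hSp : ∀ q ∈ Smin, q.Prime)
    (hqi : Function.Injective qv) (hq : ∀ i, (qv i).Prime ∧ qv i ∉ Smin)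
    [NeZero (wilesLevel p t Smin (Smin ∪ Finset.univ.image qv))]
    {h : ℕ} (hh : IsHalf p qv h)
    (𝒪 : Type) [CommRing 𝒪] [Module.IsTorsionFree ℤ 𝒪]
    (V : Submodule 𝒪 (XQ p t Smin qv 𝒪))
    (hpar : ∀ v ∈ V, IsParabolicHom (KQ p (wilesLevel p t Smin Smin) qv) v)
    (hst : ∀ (ℓ : ℕ) (hℓ : ℓ.Prime),
      ¬ ℓ ∣ wilesLevel p t Smin (Smin ∪ Finset.univ.image qv) →
      ℓ ∉ ((Smin ∪ Finset.univ.image qv : Finset ℕ) : Set ℕ) → ∀ v ∈ V,
        tOpTw (isMid_KQ p (wilesLevel p t Smin Smin) qv) 𝒪 h ℓ hℓ v ∈ V) :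
    ∃ Ψ : CuspForm.heckeAlgebra (wilesLevel p t Smin (Smin ∪ Finset.univ.image qv)) 2
        ((Smin ∪ Finset.univ.image qv : Finset ℕ) : Set ℕ) →+* Module.End 𝒪 V,
      ∀ (ℓ : ℕ) (hℓ : ℓ.Prime)
        (hℓN : ¬ ℓ ∣ wilesLevel p t Smin (Smin ∪ Finset.univ.image qv))
        (hℓS : ℓ ∉ ((Smin ∪ Finset.univ.image qv : Finset ℕ) : Set ℕ)) (v : V),
        ((Ψ (CuspForm.heckeAlgebra.T hℓ hℓN hℓS) v : V) : XQ p t Smin qv 𝒪) =
          tOpTw (isMid_KQ p (wilesLevel p t Smin Smin) qv) 𝒪 h ℓ hℓ v := by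
  haveI : NeZero (bLevel (wilesLevel p t Smin Smin) qv) :=
    ⟨bLevel_ne_zero p t Smin qv hSp fun i => (hq i).1⟩
  haveI : (KQ p (wilesLevel p t Smin Smin) qv).FiniteIndex :=
    H564.finiteIndex_of_Gamma1_le (isMid_KQ p (wilesLevel p t Smin Smin) qv).ge
  obtain ⟨Ψ, hΨ⟩ := exists_heckeAction_sub_of_odd (R := 𝒪)
    (isMid_KQ p (wilesLevel p t Smin Smin) qv) (List.ofFn qv) (List.nodup_ofFn.mpr hqi)
    (fun q hq' => by
      obtain ⟨j, rfl⟩ := (List.mem_ofFn' _ _).mp hq'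
      exact ⟨(hq j).1, exists_bLevel_eq p t Smin qv hpS hSp hqi hq j⟩)
    (fun γ hγ hd => mem_KQ_of_dvd p _ qv hγ hd) h
    (fun γ hγ => pow_mem_KQ p _ qv hh hγ)
    (bLevel_mul_prod_dvd p t Smin qv hqi fun i => (hq i).2)
    ((Smin ∪ Finset.univ.image qv : Finset ℕ) : Set ℕ)
    (fun q hqp hqd => mem_of_dvd_wilesLevel_union p t Smin qv hpS hSp hqi hq hqp hqd)
    V hpar
    (fun ℓ _ hℓN hℓS v hv => hst ℓ Fact.out hℓN hℓS v hv)
  refine ⟨Ψ, fun ℓ hℓ hℓN hℓS v => ?_⟩
  haveI : Fact ℓ.Prime := ⟨hℓ⟩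
  exact hΨ ℓ hℓN hℓS v

/-- **MODQ, the ring homomorphism, for the localisation `V` of `Aut.IsQPart`** (given that `V`
consists of parabolic classes: CUSP-LOC). -/
theorem exists_heckeAction_isQPart
    {𝒪 : Type} [CommRing 𝒪] [IsDomain 𝒪] [IsDiscreteValuationRing 𝒪]
    [IsAdicComplete (IsLocalRing.maximalIdeal 𝒪) 𝒪] [Module.IsTorsionFree ℤ 𝒪]
    {ρbar : ResidualGaloisRep (IsLocalRing.ResidueField 𝒪)}
    (hpS : p ∈ Smin) (hSp : ∀ q ∈ Smin, q.Prime)
    (hqi : Function.Injective qv) (hq : ∀ i, (qv i).Prime ∧ qv i ∉ Smin)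
    [NeZero (wilesLevel p t Smin (Smin ∪ Finset.univ.image qv))]
    (PQ : H959.HeckePkg p 𝒪 ρbar t Smin (Smin ∪ Finset.univ.image qv)) (α : Fin r → 𝒪)
    {h : ℕ} (hh : IsHalf p qv h)
    (V : Submodule 𝒪 (XQ p t Smin qv 𝒪)) (hV : IsQPart PQ α V)
    (hpar : ∀ v ∈ V, IsParabolicHom (KQ p (wilesLevel p t Smin Smin) qv) v) :
    ∃ Ψ : CuspForm.heckeAlgebra (wilesLevel p t Smin (Smin ∪ Finset.univ.image qv)) 2
        ((Smin ∪ Finset.univ.image qv : Finset ℕ) : Set ℕ) →+* Module.End 𝒪 V,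
      ∀ (ℓ : ℕ) (hℓ : ℓ.Prime)
        (hℓN : ¬ ℓ ∣ wilesLevel p t Smin (Smin ∪ Finset.univ.image qv))
        (hℓS : ℓ ∉ ((Smin ∪ Finset.univ.image qv : Finset ℕ) : Set ℕ)) (v : V),
        ((Ψ (CuspForm.heckeAlgebra.T hℓ hℓN hℓS) v : V) : XQ p t Smin qv 𝒪) =
          tOpTw (isMid_KQ p (wilesLevel p t Smin Smin) qv) 𝒪 h ℓ hℓ v := by
  refine exists_heckeAction_KQ p t Smin qv hpS hSp hqi hq hh 𝒪 V hpar ?_
  intro ℓ hℓ hℓN _ v hv
  haveI : Fact ℓ.Prime := ⟨hℓ⟩
  have hℓM : ¬ ℓ ∣ bLevel (wilesLevel p t Smin Smin) qv := fun hd =>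
    hℓN ((hd.trans (Dvd.intro _ rfl)).trans
      (bLevel_mul_prod_dvd p t Smin qv hqi fun i => (hq i).2))
  exact stable_of_isLocPart _ hV _ ℓ hℓM v hv

end KQ

/-! ## The minimal level -/

section Min

variable (p : ℕ) [Fact p.Prime] (t : PType) (Smin : Finset ℕ)

/-- **MOD0, the ring homomorphism.**  The Hecke algebra of `Γ₀(N₀)`, `N₀ = N_{Smin}`, acts on
every `𝒪`-submodule `V₀ ⊆ X_{Γ₀(N₀)}(𝒪)` of parabolic classes stable under the `T_ℓ`, through
`T_ℓ ↦ T_ℓ` (`Aut.tOp`). -/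
theorem exists_heckeAction_min (hpS : p ∈ Smin) (hSp : ∀ q ∈ Smin, q.Prime)
    [NeZero (wilesLevel p t Smin Smin)]
    (𝒪 : Type) [CommRing 𝒪] [Module.IsTorsionFree ℤ 𝒪]
    (V₀ : Submodule 𝒪 (Additive (Gamma0 (wilesLevel p t Smin Smin)) →+ 𝒪))
    (hpar : ∀ v ∈ V₀, IsParabolicHom (Gamma0 (wilesLevel p t Smin Smin)) v)
    (hst : ∀ (ℓ : ℕ) (hℓ : ℓ.Prime), ¬ ℓ ∣ wilesLevel p t Smin Smin →
      ℓ ∉ ((Smin : Finset ℕ) : Set ℕ) → ∀ v ∈ V₀,
        tOp (wilesLevel p t Smin Smin) (Gamma0 (wilesLevel p t Smin Smin)) 𝒪 ℓ hℓ v ∈ V₀) :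
    ∃ Ψ : CuspForm.heckeAlgebra (wilesLevel p t Smin Smin) 2 ((Smin : Finset ℕ) : Set ℕ) →+*
        Module.End 𝒪 V₀,
      ∀ (ℓ : ℕ) (hℓ : ℓ.Prime) (hℓN : ¬ ℓ ∣ wilesLevel p t Smin Smin)
        (hℓS : ℓ ∉ ((Smin : Finset ℕ) : Set ℕ)) (v : V₀),
        ((Ψ (CuspForm.heckeAlgebra.T hℓ hℓN hℓS) v : V₀) :
          Additive (Gamma0 (wilesLevel p t Smin Smin)) →+ 𝒪) =
          tOp (wilesLevel p t Smin Smin) (Gamma0 (wilesLevel p t Smin Smin)) 𝒪 ℓ hℓ v := by
  have hK := isMid_Gamma0 (wilesLevel p t Smin Smin)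
  have h1 : ∀ (u : (ZMod (wilesLevel p t Smin Smin))ˣ)
      (x : Additive (Gamma0 (wilesLevel p t Smin Smin)) →+ 𝒪),
      diamondU hK (u ^ 0) x = x := fun u x => by rw [pow_zero, diamondU_one]
  obtain ⟨Ψ, hΨ⟩ := exists_heckeAction_sub_of_odd (R := 𝒪) hK [] List.nodup_nil
    (fun q hq' => absurd hq' List.not_mem_nil)
    (fun γ hγ _ => hγ) 0 (fun γ hγ => Subgroup.pow_mem _ hγ _)
    (N' := wilesLevel p t Smin Smin) (by simp)
    ((Smin : Finset ℕ) : Set ℕ)
    (fun q hqp hqd => mem_of_dvd_wilesLevel p t Smin hpS hSp hqp hqd)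
    V₀ hpar
    (fun ℓ _ hℓN hℓS v hv => by
      rw [h1]
      exact hst ℓ Fact.out hℓN hℓS v hv)
  refine ⟨Ψ, fun ℓ hℓ hℓN hℓS v => ?_⟩
  haveI : Fact ℓ.Prime := ⟨hℓ⟩
  rw [hΨ ℓ hℓN hℓS v, h1]
  rfl

end Min

example (𝒪 : Type) [CommRing 𝒪] [IsDomain 𝒪] [CharZero 𝒪] : Module.IsTorsionFree ℤ 𝒪 :=
  inferInstance

end Fermat.Agent.S59.TW.H658

end
end
-- ===== PACK-END S59/TW/H658/ModQRing.lean

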