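import Fermat.Agent.Pack.S43MC.G0E21L2
import Fermat.Agent.Pack.S44C.G0E10L2
import Fermat.Agent.Pack.S44C.G0E27L0
import Fermat.Agent.Pack.S44C.G0E19L0
import Fermat.Agent.Pack.S43MC.G0E25L1
import Fermat.Agent.Pack.S43MC.G0E24L1
import Fermat.Agent.Pack.S43MC.G0E17L0
import Fermat.Agent.Pack.S43MC.G0E24L2
import Fermat.Agent.Pack.S43MC.G0E25L0
import Fermat.Agent.Pack.S44C.G0E26L2
import Fermat.Agent.Pack.S44C.G0E23L2
import Fermat.Agent.Pack.S43MC.G0E21L0
import Fermat.Agent.Pack.S44C.G0E23L1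
import Fermat.Agent.Pack.S43MC.G0E25L2
import Fermat.Agent.Pack.S43MC.G0E21L1
import Fermat.Agent.Pack.S43MC.G0E19L1
import Fermat.Agent.Pack.S43GC.G0E7L1
import Fermat.Agent.Pack.S43MC.G0E3L0
import Fermat.Agent.Pack.S43MC.G0E12L0
import Fermat.Agent.Pack.S43MC.G0E19L2
import Fermat.Agent.Pack.S44C.G0E21L3
import Fermat.Agent.Pack.S43MC.G0E7L1
import Fermat.Agent.Pack.S43MC.G0E4L1
import Fermat.Agent.Pack.S44C.G0E25L3
import Fermat.Agent.Pack.S44C.G0E25L2
import Fermat.Agent.Pack.S44C.G0E6L3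
import Fermat.Agent.Pack.S43MC.G0E25L3
import Fermat.Agent.Pack.S43GC.G0E11L1
import Fermat.Agent.Pack.Fast891

-- ===== PACK-BEGIN Ribet/H384/RamTwo.lean
section





/-!
# The mod-`p` representation of the Frey curve is RAMIFIED at `2` (helper384)

`freyRamifiedAtTwo : ∀ P : FreyPackage, ¬ P.GaloisRepUnramifiedAt 2`, UNCONDITIONAL
(`RamTwoMain.freyRamifiedAtTwo_of` with `H584.places`, `H704.detFrob`, `H643.torsionRank`).
-/

set_option autoImplicit false

namespace Fermat.Agent.Ribet.H384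

/-- **The Frey representation is ramified at `2`.** -/
theorem freyRamifiedAtTwo (P : FreyPackage) : ¬ P.GaloisRepUnramifiedAt 2 :=
  freyRamifiedAtTwo_of P Fermat.Agent.Ribet.H584.places Fermat.Agent.Ribet.H704.detFrob
    Fermat.Agent.Ribet.H643.torsionRank

end Fermat.Agent.Ribet.H384

end
-- ===== PACK-END Ribet/H384/RamTwo.lean

-- ===== PACK-BEGIN S30/H330/AdicInputs.lean
section
/-
S30 -- ADIC MODULE LAYER, assembly from the `p`-PRIMARY inputs (helper330).

`hasAdicFrobModule_of_inj` : (K') + (F) + (P) + (T) + (Sm) + (GH)  ⟹  `HasAdicFrobModule`, where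
  (K') `KummerInjStatement N p` : Kummer map on the parabolic characters of `p`-power order
       (additive, injective, Hecke-equivariant; NO surjectivity);
  (F)  `FinStatement N p` : `J₀(N)(ℚ̄)[p]` is finite.
This is the form of `hasAdicFrobModule_of_inputs` which is fed by the pieces of S29 sub-layer M4b
(`kummerInjStatement_of_packages`) and by piece FIN of the S30 row.
-/


set_option autoImplicit false

noncomputable section

namespace Fermat.Agent.S30.H330

open Fermat.Agent.S29 ModularCurve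
open scoped MatrixGroups

/-- `KummerStatement` (all characters, with surjectivity) implies the `p`-primary form. -/
theorem kummerInjStatement_of_kummerStatement {N : ℕ} [NeZero N] {p : ℕ}
    (h : KummerStatement N p) : KummerInjStatement N p := by
  obtain ⟨κ, hadd, hinj, -, hhecke⟩ := h
  exact ⟨κ, fun c c' hc hc' _ _ => hadd c c' hc hc', fun c hc _ h0 => hinj c hc h0,
    fun ℓ hℓ c hc _ => hhecke ℓ hℓ c hc⟩

/-- `KummerStatement` implies the finiteness of the `p`-torsion. -/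
theorem finStatement_of_kummerStatement {N : ℕ} [NeZero N] {p : ℕ} [Fact p.Prime]
    (h : KummerStatement N p) : FinStatement N p :=
  finite_torsion h

/-- The eigenvector `f(x) = κ(γ ↦ ϑ(c(γ) x))`, from the `p`-primary Kummer map. -/
theorem exists_eigenHom_of_inj {p : ℕ} [Fact p.Prime] {N : ℕ} [NeZero N] {S : Finset ℕ}
    (hpS : p ∈ S) (hNS : ∀ q : ℕ, q.Prime → q ∣ N → q ∈ S)
    {O : Type} [CommRing O] [IsDomain O] [IsDiscreteValuationRing O]
    (hpO : (p : O) ∈ IsLocalRing.maximalIdeal O)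
    (χ : CuspForm.heckeAlgebra N 2 (↑S : Set ℕ) →+* O)
    (hK : KummerInjStatement N p) (hP : ParEigenStatement N S O χ) :
    ∃ f : FractionRing O →+ JZero N,
      (∀ r : O, f (algebraMap O (FractionRing O) r) = 0) ∧ f ≠ 0 ∧
      ∀ (ℓ : Nat.Primes), (ℓ : ℕ) ∉ S → ∀ x,
        heckeOperatorBar N ℓ (f x) =
          f (algebraMap O (FractionRing O) (eigenvalue χ ℓ) * x) := by
  classical
  obtain ⟨κ, hadd, hinj, hhecke⟩ := hK
  obtain ⟨c, hc, hc0, hceig⟩ := hP
  obtain ⟨ϖ, hϖ⟩ := IsDiscreteValuationRing.exists_irreducible O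
  obtain ⟨ϑ, hϑ0, hϑ1⟩ := exists_character hϖ
  have hϖ0 : algebraMap O (FractionRing O) ϖ ≠ 0 := algebraMap_irreducible_ne_zero hϖ
  -- the additive map `r ↦ ϑ (r x)`
  let φ : FractionRing O → (O →+ QZ) := fun x =>
    ϑ.comp ((AddMonoidHom.mulRight x).comp (algebraMap O (FractionRing O)).toAddMonoidHom)
  have hφ : ∀ x r, φ x r = ϑ (algebraMap O (FractionRing O) r * x) := fun x r => rfl
  let cx : FractionRing O → (G0 N → QZ) := fun x γ => φ x (c γ)
  have hcx : ∀ x, IsParHom (cx x) := fun x => isParHom_comp hc (φ x)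
  have hcx_add : ∀ x y, cx (x + y) = cx x + cx y := by
    intro x y
    funext γ
    show φ (x + y) (c γ) = φ x (c γ) + φ y (c γ)
    rw [hφ, hφ, hφ, mul_add, map_add]
  -- the characters `cx x` have `p`-power order
  have hcx_pow : ∀ x, ∃ n : ℕ, p ^ n • cx x = 0 := by
    intro x
    obtain ⟨n, y, rfl⟩ := exists_eq_div_pow hϖ x
    obtain ⟨b, hb⟩ : ∃ b : O, b * ϖ = (p : O) := by
      have h := hpO
      rw [hϖ.maximalIdeal_eq, Ideal.mem_span_singleton'] at h
      exact h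
    refine ⟨n, ?_⟩
    funext γ
    show p ^ n • φ _ (c γ) = 0
    rw [hφ, ← map_nsmul]
    have : p ^ n • (algebraMap O (FractionRing O) (c γ) *
        (algebraMap O (FractionRing O) y / algebraMap O (FractionRing O) ϖ ^ n)) =
        algebraMap O (FractionRing O) (c γ * (b ^ n * y)) := by
      rw [nsmul_eq_mul]
      have hp : ((p ^ n : ℕ) : FractionRing O) = algebraMap O (FractionRing O) ((b * ϖ) ^ n) := by
        rw [hb]; simp
      rw [hp, mul_pow]
      simp only [map_mul, map_pow]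
      field_simp
    rw [this]
    exact hϑ0 _
  have hκ0 : κ 0 = 0 := by
    have := hadd 0 0 isParHom_zero isParHom_zero ⟨0, by simp⟩ ⟨0, by simp⟩
    rw [add_zero] at this
    exact left_eq_add.mp this
  let f : FractionRing O →+ JZero N := AddMonoidHom.mk' (fun x => κ (cx x)) (fun x y => by
    show κ (cx (x + y)) = κ (cx x) + κ (cx y)
    rw [hcx_add, hadd _ _ (hcx x) (hcx y) (hcx_pow x) (hcx_pow y)])
  have hf : ∀ x, f x = κ (cx x) := fun x => rfl
  refine ⟨f, fun r => ?_, ?_, fun ℓ hℓS x => ?_⟩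
  · rw [hf]
    have : cx (algebraMap O (FractionRing O) r) = 0 := by
      funext γ
      show φ _ (c γ) = 0
      rw [hφ, ← map_mul]
      exact hϑ0 _
    rw [this]
    exact hκ0
  · intro hf0
    obtain ⟨γ₀, hγ₀⟩ : ∃ γ₀, c γ₀ ≠ 0 := by
      by_contra h
      push Not at h
      exact hc0 (funext h)
    have hcγ : algebraMap O (FractionRing O) (c γ₀) ≠ 0 := by
      simpa using hγ₀
    set x₀ : FractionRing O :=
      (algebraMap O (FractionRing O) (c γ₀))⁻¹ * (algebraMap O (FractionRing O) ϖ)⁻¹ with hx₀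
    have h1 : κ (cx x₀) = 0 := by
      rw [← hf, hf0]
      rfl
    have h2 := hinj _ (hcx x₀) (hcx_pow x₀) h1
    have h3 : cx x₀ γ₀ = 0 := by rw [h2]; rfl
    apply hϑ1
    have h4 : cx x₀ γ₀ = ϑ ((algebraMap O (FractionRing O) ϖ)⁻¹) := by
      show φ x₀ (c γ₀) = _
      rw [hφ, hx₀, mul_inv_cancel_left₀ hcγ]
    rw [← h4, h3]
  · have hℓ : (ℓ : ℕ).Prime := ℓ.2
    have hℓN : ¬ (ℓ : ℕ) ∣ N := fun h => hℓS (hNS _ hℓ h)
    have hℓS' : (ℓ : ℕ) ∉ (↑S : Set ℕ) := by simpa using hℓS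
    have hℓNp : ¬ (ℓ : ℕ) ∣ N * p := by
      intro h
      rcases (Nat.Prime.dvd_mul hℓ).mp h with h | h
      · exact hℓN h
      · have : (ℓ : ℕ) = p := (Nat.prime_dvd_prime_iff_eq hℓ (Fact.out : p.Prime)).mp h
        exact hℓS (this ▸ hpS)
    rw [hf, hf, ← hhecke ℓ hℓNp _ (hcx x) (hcx_pow x)]
    congr 1
    rw [show cx x = fun γ => φ x (c γ) from rfl, heckeCoh_comp]
    funext γ
    show φ x (heckeCoh N ℓ c γ) = φ _ (c γ)
    rw [hφ, hφ, hceig ℓ hℓ hℓN hℓS' γ, eigenvalue_eq χ hℓ hℓN hℓS']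
    congr 1
    rw [map_mul (algebraMap O (FractionRing O))]
    ring

/-- ASSEMBLY of the adic module layer from the `p`-primary inputs:
(K') + (F) + (P) + (T) + (Sm) + (GH) ⟹ `HasAdicFrobModule`. -/
theorem hasAdicFrobModule_of_inj {p : ℕ} [Fact p.Prime] {N : ℕ} [NeZero N] {S : Finset ℕ}
    (hpS : p ∈ S) (hNS : ∀ q : ℕ, q.Prime → q ∣ N → q ∈ S)
    {O : Type} [CommRing O] [IsDomain O] [IsDiscreteValuationRing O]
    [IsAdicComplete (IsLocalRing.maximalIdeal O) O] [Finite (IsLocalRing.ResidueField O)]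
    [CharZero O] (hpO : (p : O) ∈ IsLocalRing.maximalIdeal O)
    (χ : CuspForm.heckeAlgebra N 2 (↑S : Set ℕ) →+* O)
    (hK : KummerInjStatement N p) (hF : FinStatement N p) (hP : ParEigenStatement N S O χ)
    (hT : TorsionRelations N p) (hSm : SmoothStatement N) (hGH : GaloisHeckeStatement N) :
    HasAdicFrobModule O (N * p) (fun ℓ => ℓ ∉ S) (eigenvalue χ) := by
  classical
  obtain ⟨f, hf0, hf, hfe⟩ := exists_eigenHom_of_inj hpS hNS hpO χ hK hP
  -- index set of Hecke operators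
  let t : {ℓ : Nat.Primes // (ℓ : ℕ) ∉ S} → JZero N →+ JZero N := fun i =>
    (heckeOperatorBar N i.1).toAddMonoidHom
  let a : {ℓ : Nat.Primes // (ℓ : ℕ) ∉ S} → O := fun i => eigenvalue χ (i.1 : ℕ)
  have ht : ∀ i (σ : GQ) (x : JZero N), σ • t i x = t i (σ • x) := fun i σ x => hGH σ i.1 x
  obtain ⟨M, i1, i2, i3, i4, ρ, hnt, hcont, hunr, hquad⟩ :=
    adicModule_of_torsion (J := JZero N) (Fact.out : p.Prime) hpO (fun x => hSm x) hF t ht a f
      hf0 hf (fun i x => hfe i.1 i.2 x)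
  refine ⟨M, i1, i2, i3, i4, ρ, hnt, hcont, ?_, ?_⟩
  · intro ℓ hℓ hℓNp A hA σ hσ
    exact hunr σ fun x hx => (hT ℓ hℓ hℓNp A hA).1 σ hσ x hx
  · intro ℓ hℓ hℓS A hA σ hσ
    have hℓN : ¬ ℓ ∣ N := fun h => hℓS (hNS _ hℓ h)
    have hℓNp : ¬ ℓ ∣ N * p := by
      intro h
      rcases (Nat.Prime.dvd_mul hℓ).mp h with h | h
      · exact hℓN h
      · have : ℓ = p := (Nat.prime_dvd_prime_iff_eq hℓ (Fact.out : p.Prime)).mp h
        exact hℓS (this ▸ hpS)
    exact hquad ⟨⟨ℓ, hℓ⟩, hℓS⟩ ℓ σ fun x hx => (hT ℓ hℓ hℓNp A hA).2 σ hσ x hx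

end Fermat.Agent.S30.H330

end
end
-- ===== PACK-END S30/H330/AdicInputs.lean

-- ===== PACK-BEGIN S30/H330/AdicFinal.lean
section
/-
S30 -- the frozen statement S30 from the OPEN PIECES (helper330).

Chain:  pieces of S29 sub-layer M4b at the moduli `p ^ n` (`H450.KumPackage N (p ^ n)`)
        + piece ONTO at the modulus `p` (every `p`-torsion class is a Kummer class)
        + (T) torsion relations (rows S37/S18)
   ⟹  (K') + (F) + (T)                         [`KumQZ.lean`, `Fin/Count.lean`]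
   ⟹  `HasAdicFrobModule`                       [`AdicInputs.lean`; (P) = helper709, (Sm) = S29 M3,
                                                   (GH) = helper571]
   ⟹  `H990.HasAdicEigenModules` ⟹ frozen S30   [top glue of helper990].

* `result_of_inj`      : S30 from (K'), (F), (T);
* `result_of_packages` : S30 from the Kummer packages, ONTO and (T).
-/





set_option autoImplicit false
set_option linter.overlappingInstances false

noncomputable section

namespace Fermat.Agent.S30.H330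

open Fermat.Agent.S29 Fermat.Agent.S29.M4b ModularCurve Fermat.Agent.S30.H450 Polynomial

/-- Input (P) of the adic module layer holds (helper709, unconditional). -/
theorem parEigenStatement {N : ℕ} [NeZero N] {S : Finset ℕ}
    (hNS : ∀ q : ℕ, q.Prime → q ∣ N → q ∈ S) {O : Type} [CommRing O] [IsDomain O]
    (χ : CuspForm.heckeAlgebra N 2 (↑S : Set ℕ) →+* O) : ParEigenStatement N S O χ :=
  Fermat.Agent.S30.H709.exists_parEigen
    (fun q hq hqN => Finset.mem_coe.mpr (hNS q hq hqN)) χ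

/-- Input (F) from ONTO and UNIQ at the modulus `p`. -/
theorem finStatement_of_onto {N : ℕ} [NeZero N] {p : ℕ} [NeZero p]
    (huniq : ∀ (c : G0 N → ZMod p) (x x' : JZero N), IsKum N p c x → IsKum N p c x' → x = x')
    (honto : ∀ x : JZero N, (p : ℤ) • x = 0 → ∃ c : G0 N → ZMod p, IsKum N p c x) :
    FinStatement N p := by
  have h := Fermat.Agent.S30.Fin.finite_torsion_of N p honto huniq
  refine h.subset ?_
  intro x hx
  show (p : ℤ) • x = 0
  rw [natCast_zsmul]
  exact hx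

/-- The Kummer package at the modulus `p` from the tower. -/
theorem kumPackage_one {N : ℕ} [NeZero N] {p : ℕ} (H : ∀ n, KumPackage N (p ^ n)) :
    KumPackage N p := by
  have := H 1
  rwa [pow_one] at this

/-- **S30 from (K'), (F), (T).** -/
theorem result_of_inj
    (hK : ∀ (N : ℕ) [NeZero N] (p : ℕ) [Fact p.Prime], KummerInjStatement N p)
    (hF : ∀ (N : ℕ) [NeZero N] (p : ℕ) [Fact p.Prime], FinStatement N p)
    (hT : ∀ (N : ℕ) [NeZero N] (p : ℕ) [Fact p.Prime], TorsionRelations N p) :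
    ∀ (p : ℕ) [Fact p.Prime] (N : ℕ) [NeZero N] (S : Finset ℕ)
      (_hpS : p ∈ S) (_hNS : ∀ q : ℕ, q.Prime → q ∣ N → q ∈ S)
      (𝒪' : Type) [CommRing 𝒪'] [IsDomain 𝒪'] [IsDiscreteValuationRing 𝒪']
      [IsAdicComplete (IsLocalRing.maximalIdeal 𝒪') 𝒪'] [Finite (IsLocalRing.ResidueField 𝒪')]
      [CharZero 𝒪'] (_hp𝒪' : (p : 𝒪') ∈ IsLocalRing.maximalIdeal 𝒪')
      (χ : CuspForm.heckeAlgebra N 2 (↑S : Set ℕ) →+* 𝒪'),
      ∃ (𝒪'' : Type) (_ : CommRing 𝒪'') (_ : IsDomain 𝒪'') (_ : IsDiscreteValuationRing 𝒪'')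
        (_ : IsAdicComplete (IsLocalRing.maximalIdeal 𝒪'') 𝒪'')
        (_ : Finite (IsLocalRing.ResidueField 𝒪'')) (_ : CharZero 𝒪'')
        (_ : Algebra 𝒪' 𝒪'') (_ : Module.Finite 𝒪' 𝒪'') (_ : IsLocalHom (algebraMap 𝒪' 𝒪'')),
      Function.Injective (algebraMap 𝒪' 𝒪'') ∧
      ∃ ρ : GaloisRepAdic 𝒪'',
        (∀ (ℓ : ℕ) (hℓ : ℓ.Prime) (hℓN : ¬ ℓ ∣ N) (hℓS : ℓ ∉ (↑S : Set ℕ)),
          ∀ A : ValuationSubring (AlgebraicClosure ℚ), A.LiesOverPrime ℓ →
            ∀ σ : AlgebraicClosure ℚ ≃ₐ[ℚ] AlgebraicClosure ℚ, A.IsFrobeniusAt σ ℓ →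
              LinearMap.charpoly (ρ.ρ σ) =
                X ^ 2 - C (algebraMap 𝒪' 𝒪'' (χ (CuspForm.heckeAlgebra.T hℓ hℓN hℓS))) * X
                  + C ((ℓ : 𝒪''))) ∧
        (∀ q : ℕ, q.Prime → ¬ q ∣ N → q ≠ p → ρ.IsUnramifiedAt q) :=
  Fermat.Agent.S30.H990.result_of_hasAdicEigenModules
    (Fermat.Agent.S30.H990.hasAdicEigenModules_of_H330
      (fun p _ N _ _ hpS hNS _ _ _ _ _ _ _ hp𝒪' χ =>
        hasAdicFrobModule_of_inj hpS hNS hp𝒪' χ (hK N p) (hF N p) (parEigenStatement hNS χ)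
          (hT N p) (Fermat.Agent.S30.H990.smoothStatement N)
          (Fermat.Agent.S30.H990.galoisHeckeStatement N)))

/-- **S30 from the open pieces**: the Kummer packages at the moduli `p ^ n` (the seven pieces of
S29 sub-layer M4b, see `H450.KumPackage.of_skeleton`), piece ONTO at the modulus `p`, and the
torsion relations (T). -/
theorem result_of_packages
    (hpk : ∀ (N : ℕ) [NeZero N] (p : ℕ) [Fact p.Prime] (n : ℕ), KumPackage N (p ^ n))
    (honto : ∀ (N : ℕ) [NeZero N] (p : ℕ) [Fact p.Prime] (x : JZero N), (p : ℤ) • x = 0 →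
      ∃ c : G0 N → ZMod p, IsKum N p c x)
    (hT : ∀ (N : ℕ) [NeZero N] (p : ℕ) [Fact p.Prime], TorsionRelations N p) :
    ∀ (p : ℕ) [Fact p.Prime] (N : ℕ) [NeZero N] (S : Finset ℕ)
      (_hpS : p ∈ S) (_hNS : ∀ q : ℕ, q.Prime → q ∣ N → q ∈ S)
      (𝒪' : Type) [CommRing 𝒪'] [IsDomain 𝒪'] [IsDiscreteValuationRing 𝒪']
      [IsAdicComplete (IsLocalRing.maximalIdeal 𝒪') 𝒪'] [Finite (IsLocalRing.ResidueField 𝒪')]
      [CharZero 𝒪'] (_hp𝒪' : (p : 𝒪') ∈ IsLocalRing.maximalIdeal 𝒪')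
      (χ : CuspForm.heckeAlgebra N 2 (↑S : Set ℕ) →+* 𝒪'),
      ∃ (𝒪'' : Type) (_ : CommRing 𝒪'') (_ : IsDomain 𝒪'') (_ : IsDiscreteValuationRing 𝒪'')
        (_ : IsAdicComplete (IsLocalRing.maximalIdeal 𝒪'') 𝒪'')
        (_ : Finite (IsLocalRing.ResidueField 𝒪'')) (_ : CharZero 𝒪'')
        (_ : Algebra 𝒪' 𝒪'') (_ : Module.Finite 𝒪' 𝒪'') (_ : IsLocalHom (algebraMap 𝒪' 𝒪'')),
      Function.Injective (algebraMap 𝒪' 𝒪'') ∧
      ∃ ρ : GaloisRepAdic 𝒪'',
        (∀ (ℓ : ℕ) (hℓ : ℓ.Prime) (hℓN : ¬ ℓ ∣ N) (hℓS : ℓ ∉ (↑S : Set ℕ)),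
          ∀ A : ValuationSubring (AlgebraicClosure ℚ), A.LiesOverPrime ℓ →
            ∀ σ : AlgebraicClosure ℚ ≃ₐ[ℚ] AlgebraicClosure ℚ, A.IsFrobeniusAt σ ℓ →
              LinearMap.charpoly (ρ.ρ σ) =
                X ^ 2 - C (algebraMap 𝒪' 𝒪'' (χ (CuspForm.heckeAlgebra.T hℓ hℓN hℓS))) * X
                  + C ((ℓ : 𝒪''))) ∧
        (∀ q : ℕ, q.Prime → ¬ q ∣ N → q ≠ p → ρ.IsUnramifiedAt q) :=
  result_of_inj
    (fun N _ p hp =>
      haveI : NeZero p := ⟨hp.out.ne_zero⟩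
      kummerInjStatement_of_packages (fun n => hpk N p n))
    (fun N _ p hp =>
      haveI : NeZero p := ⟨hp.out.ne_zero⟩
      finStatement_of_onto (kumPackage_one (fun n => hpk N p n)).uniq (honto N p))
    hT

end Fermat.Agent.S30.H330

end
end
-- ===== PACK-END S30/H330/AdicFinal.lean

-- ===== PACK-BEGIN S29/H150/K2.lean
section
/-
S29 / M4b / PIECE K2 (helper150): `pieceK2 : PieceK2 N p` for every modulus `p ≠ 0`
(EXACT `Prop` of `Fermat/Agent/S29/M4b/Top.lean`, = `exists_isKummerClass_of_realised` of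
helper822's skeleton), DIRECTLY over `ℚ̄` on top of the landed S24 dictionary
(`H997.analyticCore`, `H117.exists_placeOf_eq`, `H117.order_eq`, `H117.localThm`) and the
rotation lemma `H332.HasCharacter.dvd_mul_order`.

If `u ∈ FF N` is realised by `U ^ p`, `U` twisted of a character killing parabolic and
finite-order elements, then `p ∣ ord_v u` at EVERY place `v` of `FF N / ℚ̄`; the divisor
`(1/p) div u` has degree `0` and its class is the Kummer class of `u`.
-/




set_option autoImplicit false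
set_option linter.unusedSectionVars false
set_option linter.style.haveILetI false

noncomputable section

open ModularCurve AlgebraicCurve CongruenceSubgroup UpperHalfPlane HahnSeries
open scoped MatrixGroups Manifold

namespace Fermat.Agent.S29.H150

open Fermat.Agent.S24 Fermat.Agent.S24.H997 Fermat.Agent.S29 Fermat.Agent.S29.M4b

variable {N : ℕ} [NeZero N] {p : ℕ} [NeZero p]

/-! ### Finite order of the rotations `1`, `S`, `S * T` -/

theorem k2_S_pow : (ModularGroup.S : SL(2, ℤ)) ^ 12 = 1 := by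
  have h4 : (ModularGroup.S : SL(2, ℤ)) ^ 4 = 1 := by
    ext i j
    fin_cases i <;> fin_cases j <;>
      simp [pow_succ, ModularGroup.S, Matrix.mul_apply, Fin.sum_univ_two]
  have : (ModularGroup.S : SL(2, ℤ)) ^ 12 = (ModularGroup.S ^ 4) ^ 3 := by rw [← pow_mul]
  rw [this, h4, one_pow]

theorem k2_ST_pow : (ModularGroup.S * ModularGroup.T : SL(2, ℤ)) ^ 12 = 1 := by
  have h6 : (ModularGroup.S * ModularGroup.T : SL(2, ℤ)) ^ 6 = 1 := by
    ext i j
    fin_cases i <;> fin_cases j <;>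
      simp [pow_succ, ModularGroup.S, ModularGroup.T, Matrix.mul_apply, Fin.sum_univ_two]
  have : (ModularGroup.S * ModularGroup.T : SL(2, ℤ)) ^ 12
      = ((ModularGroup.S * ModularGroup.T) ^ 6) ^ 2 := by rw [← pow_mul]
  rw [this, h6, one_pow]

/-- Point data over every finite point `a ∈ ℚ̄`, with a rotation of finite order. -/
theorem exists_pointData (a : Kbar) :
    ∃ (ε : SL(2, ℤ)) (_ : PointData (holBase N) (ιK a) ε), ε ^ 12 = 1 := by
  by_cases h0 : a = 0
  · refine ⟨ModularGroup.S * ModularGroup.T, ?_, k2_ST_pow⟩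
    rw [h0, map_zero]
    exact (analyticCore N).at0
  · by_cases h1 : a = 1728
    · refine ⟨ModularGroup.S, ?_, k2_S_pow⟩
      have : ιK a = 1728 := by rw [h1]; exact map_ofNat ιK 1728
      rw [this]
      exact (analyticCore N).at1728
    · refine ⟨1, ?_, one_pow 12⟩
      exact (analyticCore N).generic (ιK a)
        (fun h => h0 (ιK_injective (by rw [h, map_zero])))
        (fun h => h1 (ιK_injective (by rw [h]; exact (map_ofNat ιK 1728).symm)))

/-! ### Divisibility at every place -/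

/-- **DICT (hard direction) over `ℚ̄`**: `p ∣ ord_v u` at every place. -/
theorem dvd_ord_of_realised {c : G0 N → ZMod p} (hc : IsParHom c) {U : ℍ → ℂ} {u : FF N}
    (hU : IsTwisted N p c U) (hu : Realises N u (fun τ => U τ ^ p))
    (v : Place Kbar (FF N)) : (p : ℤ) ∣ v.ord u := by
  classical
  have hmem : U ∈ holN N := mem_holN_of_isTwisted hc hU
  have hU0 : U ≠ 0 := ne_zero_of_isTwisted hU
  have hchar := hasCharacter_of_hasChar hc hU.hasChar
  have hG : (fun τ => U τ ^ p) ∈ holN N := (holN N).pow_mem hmem p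
  have hq : (holBase N).qexp (⟨U, hmem⟩ ^ p)
      = HolBase.Φ N ((u : FF N) : LaurentSeries Kbar) :=
    qexp_eq_Φ_of_realises hG hu
  obtain ⟨hfd, hle⟩ := Deg457.degree_fields N
  haveI := hfd
  have hrank : Module.finrank ↥(IntermediateField.adjoin Kbar {jF N}) (FF N) = Nat.card (XX N) :=
    le_antisymm hle (analyticCore N).card_le_finrank
  rcases sub_exists_point (jF N) v with h | ⟨a, ha⟩
  · -- the cusps
    have hv : 0 < v.ord (jF N)⁻¹ := by rw [v.ord_inv]; omega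
    obtain ⟨hfd', hfr'⟩ := finiteDimensional_and_finrank_of_eq (adjoin_inv Kbar (jF N))
    haveI := hfd'
    refine dvd_ord_of_mkLocalData (holBase N).qexpExpansion ModularGroup.T
      (analyticCore N).infRot (jF N)⁻¹ ((holBase N).qexp ((holBase N).JH 1 (one_dvd N)))⁻¹
      (fun g => by rw [map_inv₀, HolBase.sigmaG_jF]; rfl)
      (by
        rw [RotRel.order_inv' (holBase N).qexp_J_one_ne_zero, (holBase N).order_qexp_J_one,
          neg_neg]
        rfl)
      (hfr'.trans hrank)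
      (fun g k hk => (k2Char_parTrivial hc).conj_T g k hk) hchar hmem hU0 hq v hv
  · -- finite points
    obtain ⟨ε, P, hε⟩ := exists_pointData (N := N) a
    obtain ⟨hfd', hfr'⟩ := finiteDimensional_and_finrank_of_eq (adjoin_sub_algebraMap Kbar (jF N) a)
    haveI := hfd'
    exact dvd_ord_of_mkLocalData P.X ε P.R (jF N - algebraMap Kbar (FF N) a)
      (P.X.E ((holBase N).JH 1 (one_dvd N) - (holBase N).constH (ιK a)))
      (fun g => (analyticCore N).sigmaG_sub P g) P.order_J (hfr'.trans hrank)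
      (fun g k hk => (k2Char_ellTrivial hc).conj (by norm_num) hε g k hk) hchar hmem hU0 hq v ha

omit [NeZero p] in
theorem ne_zero_of_realised {c : G0 N → ZMod p} {U : ℍ → ℂ} {u : FF N}
    (hU : IsTwisted N p c U) (hu : Realises N u (fun τ => U τ ^ p)) : u ≠ 0 := by
  rintro rfl
  have h1 := H822.realises_hasQExp hu
  have h2 : (fun τ => U τ ^ p) = 0 := by
    have := h1.eq_zero_iff.mp (by simp)
    exact this
  obtain ⟨τ, hτ⟩ := hU.ne_zero
  have h3 : U τ ^ p = 0 := congrFun h2 τ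
  have hp0 : p ≠ 0 := by
    intro hp0
    rw [hp0, pow_zero] at h3
    exact one_ne_zero h3
  exact hτ ((pow_eq_zero_iff hp0).mp h3)

/-! ### The Kummer class -/

/-- **PIECE K2**, exact statement of helper822's skeleton. -/
theorem exists_isKummerClass_of_realised {c : G0 N → ZMod p} (hc : IsParHom c) {U : ℍ → ℂ}
    {u : FF N} (hU : IsTwisted N p c U) (hu : Realises N u (fun τ => U τ ^ p)) :
    ∃ x : JZero N, H455.IsKummerClass (p : ℤ) u x := by
  classical
  have hu0 : u ≠ 0 := ne_zero_of_realised hU hu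
  have hdvd := dvd_ord_of_realised hc hU hu
  haveI := Fermat.Agent.Lib.RR.H864.hasPrincipalDivisors_modularFunctionFieldBar N
  obtain ⟨E, hE, hdeg⟩ := HasPrincipalDivisors.exists_divisor (K := Kbar) (F := FF N) u hu0
  have hp0 : (p : ℤ) ≠ 0 := by exact_mod_cast NeZero.ne p
  -- `D = E / p`
  let D : Divisor Kbar (FF N) := E.mapRange (fun n => n / (p : ℤ)) (by simp)
  have hD : ∀ w : Place Kbar (FF N), (p : ℤ) * D w = w.ord u := by
    intro w
    show (p : ℤ) * (E.mapRange (fun n => n / (p : ℤ)) (by simp)) w = _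
    rw [Finsupp.mapRange_apply, hE w]
    exact Int.mul_ediv_cancel' (hdvd w)
  have hpD : (p : ℤ) • D = E := by
    ext w
    rw [Finsupp.smul_apply, smul_eq_mul, hD w, hE w]
  have hdegD : Divisor.degree D = 0 := by
    have h1 : Divisor.degree ((p : ℤ) • D) = 0 := by rw [hpD]; exact hdeg
    rw [map_zsmul, smul_eq_mul] at h1
    exact (mul_eq_zero.mp h1).resolve_left hp0
  exact ⟨Pic0.mk ⟨D, hdegD⟩, hu0, ⟨D, hdegD⟩, rfl, hD⟩

/-- **PIECE K2** as the `Prop` of `M4b/Top.lean`. -/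
theorem pieceK2 (N : ℕ) [NeZero N] (p : ℕ) [NeZero p] : PieceK2 N p :=
  fun hc _ _ hU hu => exists_isKummerClass_of_realised hc hU hu

/-- **PIECE K2** for prime moduli, in the shape consumed by `M4bStatement_of_pieces`. -/
theorem pieceK2_prime (N : ℕ) [NeZero N] (p : ℕ) (hp : p.Prime) : PieceK2 N p :=
  haveI : NeZero p := ⟨hp.ne_zero⟩
  pieceK2 N p

end Fermat.Agent.S29.H150

end
end
-- ===== PACK-END S29/H150/K2.lean

-- ===== PACK-BEGIN S58/H999/Key.lean
section




/-!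
# Row S58 (helper999): the Tate module of `W` at an ARBITRARY prime `λ` against a modular `ρ`

For an integral model `W` with `Δ ≠ 0`, a prime `λ` and a complete noetherian local domain `O` of
characteristic zero with `λ ∈ 𝔪_O`:

* `tateRepO W hΔ lam hlam : GaloisRepAdic O` — the `λ`-adic Tate module of `W`, base changed to `O`;
* `tateRepO_frob` — the Frobenius RELATION `F² - a_ℓ F + ℓ = 0` at every good prime `ℓ ≠ λ`
  (from `Lib.Frob.Small.frobRelationAll`; NO determinant / Weil pairing / irreducibility needed);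
* `trace_eq_apOfModel` (**KEY**) — if `ρ : GaloisRepAdic O` has
  `charpoly ρ(Frob_ℓ) = X² - a_ℓ(W) X + ℓ` for all primes `ℓ` outside a finite set, then for EVERY
  good prime `q ≠ λ` and every Frobenius element `σ` at `q`:
  `charpoly ρ(σ) = X² - t X + q  ⟹  t = a_q(W)`.
* `charpoly_inertia_eq` — same hypotheses + `ρ.DetIsCyclotomic λ`: if `(σ - 1)² = 0` on
  `W[λ^∞]` for `σ` in an inertia group at `q ≠ λ` then `charpoly ρ(σ) = (X - 1)²`.
-/

set_option autoImplicit false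
set_option linter.style.haveILetI false

namespace Fermat.Agent.S58.H999

open IsLocalRing Polynomial WeierstrassCurve Fermat.Agent.S59.H127
open scoped TensorProduct

section Padic

variable (p : ℕ) [Fact p.Prime] {O : Type} [CommRing O] [IsLocalRing O]
  [IsAdicComplete (maximalIdeal O) O] (hp : (p : O) ∈ maximalIdeal O)

/-- the canonical ring homomorphism `ℤ_p → O` -/
noncomputable def padicHom : ℤ_[p] →+* O :=
  Fermat.Agent.S30.H870.padicToComplete p (maximalIdeal O) hp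

theorem isLocalHom_padicHom : IsLocalHom (padicHom p hp) := by
  constructor
  intro x hx
  by_contra hnu
  have hx' : x ∈ maximalIdeal ℤ_[p] := hnu
  rw [PadicInt.maximalIdeal_eq_span_p, Ideal.mem_span_singleton'] at hx'
  obtain ⟨y, rfl⟩ := hx'
  rw [map_mul, map_natCast] at hx
  exact (mem_maximalIdeal _).mp (Ideal.mul_mem_left _ _ hp) hx

end Padic

section Tate

variable (W : WeierstrassCurve ℤ) (hΔ : W.Δ ≠ 0) (lam : ℕ) [Fact lam.Prime]
  {O : Type} [CommRing O] [IsLocalRing O] [IsAdicComplete (maximalIdeal O) O]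
  (hlam : (lam : O) ∈ maximalIdeal O)

/-- the `λ`-adic Tate module of `W` over `ℤ_λ` (in some coordinates) -/
noncomputable def tateRepZ : GaloisRepAdic ℤ_[lam] :=
  haveI := isElliptic_of_Δ_ne_zero W hΔ
  tateGaloisRep (WQ W) (nonempty_compatBasis_point ((WQ W)⁄(AlgebraicClosure ℚ)) lam).some

/-- the `λ`-adic Tate module of `W`, base changed to `O` -/
noncomputable def tateRepO : GaloisRepAdic O :=
  (tateRepZ W hΔ lam).baseChangeAlong (padicHom lam hlam) (isLocalHom_padicHom lam hlam)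

/-- an integral quadratic relation on `W[λ^∞]` holds on the Tate module over `ℤ_λ` -/
theorem tateRepZ_quadratic (σ : _root_.Fermat.Agent.S59.H127.GQ) (a b : ℤ)
    (hσ : ∀ (n : ℕ) (x : Pts W), lam ^ n • x = 0 → σ • σ • x - a • σ • x + b • x = 0) :
    (tateRepZ W hΔ lam).ρ σ * (tateRepZ W hΔ lam).ρ σ
      - (a : ℤ_[lam]) • (tateRepZ W hΔ lam).ρ σ
      + (b : ℤ_[lam]) • (1 : Module.End ℤ_[lam] (tateRepZ W hΔ lam).V) = 0 :=
  haveI := isElliptic_of_Δ_ne_zero W hΔ
  tateGaloisRep_quadratic (WQ W) _ σ a b hσ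

/-- an integral quadratic relation on `W[λ^∞]` holds on the Tate module over `O` -/
theorem tateRepO_quadratic (σ : _root_.Fermat.Agent.S59.H127.GQ) (a b : ℤ)
    (hσ : ∀ (n : ℕ) (x : Pts W), lam ^ n • x = 0 → σ • σ • x - a • σ • x + b • x = 0)
    (v : (tateRepO W hΔ lam hlam).V) :
    (tateRepO W hΔ lam hlam).ρ σ ((tateRepO W hΔ lam hlam).ρ σ v)
      - (a : O) • (tateRepO W hΔ lam hlam).ρ σ v + (b : O) • v = 0 := by
  letI : Algebra ℤ_[lam] O := (padicHom lam hlam).toAlgebra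
  have h := congrArg (Module.End.baseChangeHom ℤ_[lam] O (tateRepZ W hΔ lam).V)
    (tateRepZ_quadratic W hΔ lam σ a b hσ)
  rw [map_zero, map_add, map_sub, map_mul, map_smul, map_smul, map_one] at h
  have h' := congrArg (fun f => f v) h
  simp only [LinearMap.add_apply, LinearMap.sub_apply, Module.End.mul_apply,
    LinearMap.smul_apply, Module.End.one_apply, LinearMap.zero_apply] at h'
  have e1 : ∀ (c : ℤ) (w : O ⊗[ℤ_[lam]] (tateRepZ W hΔ lam).V),
      (c : ℤ_[lam]) • w = (c : O) • w := by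
    intro c w
    rw [← algebraMap_smul O (c : ℤ_[lam]) w]
    congr 1
    exact map_intCast (padicHom lam hlam) c
  rw [e1, e1] at h'
  exact h'

/-- **The Frobenius relation on the Tate module** at every good prime `ℓ ≠ λ`. -/
theorem tateRepO_frob (ℓ : ℕ) (hℓ : ℓ.Prime) (hgood : W.IsGoodPrimeFor ℓ) (hℓlam : ℓ ≠ lam)
    (A : ValuationSubring (AlgebraicClosure ℚ)) (hA : A.LiesOverPrime ℓ) (σ : _root_.Fermat.Agent.S59.H127.GQ)
    (hσ : A.IsFrobeniusAt σ ℓ) (v : (tateRepO W hΔ lam hlam).V) :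
    (tateRepO W hΔ lam hlam).ρ σ ((tateRepO W hΔ lam hlam).ρ σ v)
      - ((W.apOfModel ℓ : ℤ) : O) • (tateRepO W hΔ lam hlam).ρ σ v + (ℓ : O) • v = 0 := by
  have hlamp : lam.Prime := Fact.out
  have := tateRepO_quadratic W hΔ lam hlam σ (W.apOfModel ℓ) (ℓ : ℤ) (fun n x hx =>
    Fermat.Agent.Lib.Frob.Small.frobRelationAll W ℓ hℓ hgood A σ hA hσ (lam ^ n)
      (pow_pos hlamp.pos n)
      (fun hdvd => hℓlam ((Nat.prime_dvd_prime_iff_eq hℓ hlamp).mp (hℓ.dvd_of_dvd_pow hdvd)))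
      x hx) v
  rwa [Int.cast_natCast] at this

end Tate

section Key

variable (W : WeierstrassCurve ℤ) (hΔ : W.Δ ≠ 0) (lam : ℕ) [Fact lam.Prime]
  {O : Type} [CommRing O] [IsDomain O] [IsLocalRing O] [IsNoetherianRing O]
  [IsAdicComplete (maximalIdeal O) O] (hlam : (lam : O) ∈ maximalIdeal O)

omit [IsDomain O] in
/-- the transfer relation for the pair (Tate module of `W`, `ρ`) -/
theorem tate_transfer (ρ : GaloisRepAdic O) (S₀ : Finset ℕ)
    (hS₀ : ∀ ℓ : ℕ, ℓ.Prime → ℓ ∉ S₀ → W.IsGoodPrimeFor ℓ ∧ ℓ ≠ lam)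
    (hρ : ∀ ℓ : ℕ, ℓ.Prime → ℓ ∉ S₀ →
      ∀ P : ValuationSubring (AlgebraicClosure ℚ), P.LiesOverPrime ℓ →
        ∀ τ : _root_.Fermat.Agent.S59.H127.GQ, P.IsFrobeniusAt τ ℓ →
          LinearMap.charpoly (ρ.ρ τ) = X ^ 2 - C ((W.apOfModel ℓ : ℤ) : O) * X + C (ℓ : O))
    (σ : _root_.Fermat.Agent.S59.H127.GQ) :
    Polynomial.aeval ((tateRepO W hΔ lam hlam).ρ σ) (LinearMap.charpoly (ρ.ρ σ)) = 0 := by
  apply aeval_charpoly_transfer (tateRepO W hΔ lam hlam) ρ S₀
  intro ℓ hℓ hℓS P hP τ hτ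
  rw [hρ ℓ hℓ hℓS P hP τ hτ]
  apply LinearMap.ext
  intro v
  rw [aeval_quadratic_apply, LinearMap.zero_apply]
  exact tateRepO_frob W hΔ lam hlam ℓ hℓ (hS₀ ℓ hℓ hℓS).1 (hS₀ ℓ hℓ hℓS).2 P hP τ hτ v

omit [IsNoetherianRing O] [IsAdicComplete (maximalIdeal O) O] in
/-- a scalar killing an invertible endomorphism of a nonzero free module over a domain is `0` -/
theorem eq_zero_of_smul_rho_eq_zero (ρW : GaloisRepAdic O) (σ : _root_.Fermat.Agent.S59.H127.GQ) (c : O)
    (h : ∀ v : ρW.V, c • ρW.ρ σ v = 0) : c = 0 := by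
  have hpos : 0 < Module.finrank O ρW.V := by rw [ρW.finrank_eq]; norm_num
  haveI : Nontrivial ρW.V := Module.nontrivial_of_finrank_pos hpos
  obtain ⟨v, hv⟩ := exists_ne (0 : ρW.V)
  have h1 := h (ρW.ρ σ⁻¹ v)
  have h2 : ρW.ρ σ (ρW.ρ σ⁻¹ v) = v := by
    rw [← Module.End.mul_apply, ← map_mul, mul_inv_cancel, map_one, Module.End.one_apply]
  rw [h2] at h1
  rcases smul_eq_zero.mp h1 with h3 | h3
  · exact h3
  · exact absurd h3 hv

include hΔ hlam in
/-- **KEY.**  The trace of `ρ` at a Frobenius element at ANY good prime `q ≠ λ` is `a_q(W)`,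
as soon as this holds outside a finite set of primes (and the constant term is `q`). -/
theorem trace_eq_apOfModel (ρ : GaloisRepAdic O) (S₀ : Finset ℕ)
    (hS₀ : ∀ ℓ : ℕ, ℓ.Prime → ℓ ∉ S₀ → W.IsGoodPrimeFor ℓ ∧ ℓ ≠ lam)
    (hρ : ∀ ℓ : ℕ, ℓ.Prime → ℓ ∉ S₀ →
      ∀ P : ValuationSubring (AlgebraicClosure ℚ), P.LiesOverPrime ℓ →
        ∀ τ : _root_.Fermat.Agent.S59.H127.GQ, P.IsFrobeniusAt τ ℓ →
          LinearMap.charpoly (ρ.ρ τ) = X ^ 2 - C ((W.apOfModel ℓ : ℤ) : O) * X + C (ℓ : O))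
    (q : ℕ) (hq : q.Prime) (hgood : W.IsGoodPrimeFor q) (hqlam : q ≠ lam)
    (A : ValuationSubring (AlgebraicClosure ℚ)) (hA : A.LiesOverPrime q) (σ : _root_.Fermat.Agent.S59.H127.GQ)
    (hσ : A.IsFrobeniusAt σ q) (t : O)
    (hchar : LinearMap.charpoly (ρ.ρ σ) = X ^ 2 - C t * X + C (q : O)) :
    t = ((W.apOfModel q : ℤ) : O) := by
  have h1 := tate_transfer W hΔ lam hlam ρ S₀ hS₀ hρ σ
  rw [hchar] at h1
  rw [← sub_eq_zero]
  apply eq_zero_of_smul_rho_eq_zero (tateRepO W hΔ lam hlam) σ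
  intro v
  have h2 := congrArg (fun f => f v) h1
  simp only [aeval_quadratic_apply, LinearMap.zero_apply] at h2
  have h3 := tateRepO_frob W hΔ lam hlam q hq hgood hqlam A hA σ hσ v
  rw [sub_smul]
  set F := (tateRepO W hΔ lam hlam).ρ σ with hF
  calc t • F v - ((W.apOfModel q : ℤ) : O) • F v
      = (F (F v) - ((W.apOfModel q : ℤ) : O) • F v + (q : O) • v)
        - (F (F v) - t • F v + (q : O) • v) := by abel
    _ = 0 := by rw [h3, h2, sub_zero]

end Key

end Fermat.Agent.S58.H999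

end
-- ===== PACK-END S58/H999/Key.lean

-- ===== PACK-BEGIN S58/H999/Compare.lean
section





/-!
# Row S58 (helper999): comparison of a modular `ρ` with the Tate module — relation-based

`compare_rel` is a drop-in replacement of `Fermat.Agent.S58.compare_tate` (helper41's glue) which
needs NEITHER leaf TATE (`TateRepStatement`: Frobenius characteristic polynomials of `T_λ(W)`,
i.e. the determinant of the Tate module at an auxiliary prime) NOR leaf CHEB: for a semistable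
`W` and a `λ`-adic `ρ` with `charpoly ρ(Frob_ℓ) = X² - a_ℓ(W) X + ℓ` for all primes `ℓ` outside a
finite set,

* `ρ` is unipotent on every inertia group at `q ≠ λ`;
* `charpoly ρ(σ) = X² - a_ℓ(W) X + ℓ` for every Frobenius element at every good prime `ℓ ≠ λ`.

Only relations on the Tate module are used (`Lib.Frob.Small.frobRelationAll`,
`H240.unipInput_of_semistable`, `H899.inertia_smul_eq_self_of_good`) together with
`det ρ = ` cyclotomic (`H540.detIsCyclotomic_of_charpoly_frob`).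
-/

set_option autoImplicit false
set_option linter.style.haveILetI false

namespace Fermat.Agent.S58.H999

open IsLocalRing Polynomial WeierstrassCurve Fermat.Agent.S59.H127

section Det

variable {O : Type} [CommRing O] [IsLocalRing O] [IsNoetherianRing O]
  (lam : ℕ) [Fact lam.Prime]

/-- an element of a noetherian local ring divisible by all powers of `λ ∈ 𝔪` is zero -/
theorem eq_zero_of_forall_mem_span_pow (hlam : (lam : O) ∈ maximalIdeal O) {z : O}
    (h : ∀ n : ℕ, z ∈ Ideal.span {((lam ^ n : ℕ) : O)}) : z = 0 := by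
  have hbot := Ideal.iInf_pow_eq_bot_of_isLocalRing (maximalIdeal O) (Ideal.IsPrime.ne_top')
  rw [← Ideal.mem_bot, ← hbot, Ideal.mem_iInf]
  intro n
  have hle : Ideal.span {((lam ^ n : ℕ) : O)} ≤ maximalIdeal O ^ n := by
    rw [Ideal.span_le, Set.singleton_subset_iff, Nat.cast_pow]
    exact Ideal.pow_mem_pow hlam n
  exact hle (h n)

/-- the determinant of a Frobenius element at `ℓ ≠ λ` is `ℓ` -/
theorem det_frob_eq {ρ : GaloisRepAdic O} (hdet : ρ.DetIsCyclotomic lam)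
    {ℓ : ℕ} (hℓ : ℓ.Prime) (hℓlam : ℓ ≠ lam) (A : ValuationSubring (AlgebraicClosure ℚ))
    (hA : A.LiesOverPrime ℓ) (σ : _root_.Fermat.Agent.S59.H127.GQ) (hσ : A.IsFrobeniusAt σ ℓ) :
    LinearMap.det (ρ.ρ σ) = (ℓ : O) := by
  rw [← sub_eq_zero]
  apply eq_zero_of_forall_mem_span_pow lam hdet.1
  intro n
  exact hdet.2 n σ ℓ fun μ hμ =>
    Fermat.Agent.S30.H870.frob_root_pow_eq lam hℓ hℓlam A hA σ hσ hμ

/-- the determinant of an element of inertia at `q ≠ λ` is `1` -/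
theorem det_inertia_eq_one {ρ : GaloisRepAdic O} (hdet : ρ.DetIsCyclotomic lam)
    {q : ℕ} (hq : q.Prime) (hqlam : q ≠ lam) (A : ValuationSubring (AlgebraicClosure ℚ))
    (hA : A.LiesOverPrime q) (σ : _root_.Fermat.Agent.S59.H127.GQ) (hσ : σ ∈ A.inertiaSubgroupIn ℚ) :
    LinearMap.det (ρ.ρ σ) = 1 := by
  rw [← sub_eq_zero]
  apply eq_zero_of_forall_mem_span_pow lam hdet.1
  intro n
  have := hdet.2 n σ 1 fun μ hμ => by
    rw [pow_one]
    exact Fermat.Agent.S30.H870.inertia_root_eq lam hq hqlam A hA σ hσ hμ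
  rwa [Nat.cast_one] at this

end Det

section Compare

variable (W : WeierstrassCurve ℤ) (hΔ : W.Δ ≠ 0) (lam : ℕ) [Fact lam.Prime]
  {O : Type} [CommRing O] [IsDomain O] [IsLocalRing O] [IsNoetherianRing O]
  [IsAdicComplete (maximalIdeal O) O] (hlam : (lam : O) ∈ maximalIdeal O)

include hΔ in
/-- `(σ - 1)² = 0` on `W[λ^∞]` for `σ` in inertia at `q ≠ λ` (`W` semistable) -/
theorem inertia_sub_one_sq (hss : W.IsSemistableModel) {q : ℕ} (hq : q.Prime) (hqlam : q ≠ lam)
    (A : ValuationSubring (AlgebraicClosure ℚ)) (hA : A.LiesOverPrime q) (σ : _root_.Fermat.Agent.S59.H127.GQ)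
    (hσ : σ ∈ A.inertiaSubgroupIn ℚ) (n : ℕ) (x : Pts W) (hx : lam ^ n • x = 0) :
    σ • σ • x - (2 : ℤ) • σ • x + (1 : ℤ) • x = 0 := by
  have hlamp : lam.Prime := Fact.out
  by_cases hgood : W.IsGoodPrimeFor q
  · have hm : ¬ q ∣ lam ^ n := fun h =>
      hqlam ((Nat.prime_dvd_prime_iff_eq hq hlamp).mp (hq.dvd_of_dvd_pow h))
    have h1 : σ • x = x :=
      Fermat.Agent.S59.H899.inertia_smul_eq_self_of_good W hq hgood hm A hA σ hσ x hx
    rw [h1, h1, one_smul, ofNat_zsmul, two_nsmul]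
    abel
  · exact Fermat.Agent.S59.H240.unipInput_of_semistable lam hlamp W hΔ hss q hq hgood hqlam A hA
      σ hσ n x hx

include hΔ hlam in
/-- **Unipotent inertia.**  A `λ`-adic `ρ` with the Frobenius characteristic polynomials of a
semistable `W` outside a finite set is unipotent on every inertia group at `q ≠ λ`. -/
theorem isUnipotentOnInertiaAt_of_frob (hss : W.IsSemistableModel)
    (ρ : GaloisRepAdic O) (S₀ : Finset ℕ)
    (hS₀ : ∀ ℓ : ℕ, ℓ.Prime → ℓ ∉ S₀ → W.IsGoodPrimeFor ℓ ∧ ℓ ≠ lam)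
    (hρ : ∀ ℓ : ℕ, ℓ.Prime → ℓ ∉ S₀ →
      ∀ P : ValuationSubring (AlgebraicClosure ℚ), P.LiesOverPrime ℓ →
        ∀ τ : _root_.Fermat.Agent.S59.H127.GQ, P.IsFrobeniusAt τ ℓ →
          LinearMap.charpoly (ρ.ρ τ) = X ^ 2 - C ((W.apOfModel ℓ : ℤ) : O) * X + C (ℓ : O))
    (q : ℕ) (hq : q.Prime) (hqlam : q ≠ lam) : ρ.IsUnipotentOnInertiaAt q := by
  intro A hA σ hσ
  have hdet : ρ.DetIsCyclotomic lam :=
    Fermat.Agent.S59.H540.detIsCyclotomic_of_charpoly_frob ρ lam hlam S₀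
      (fun ℓ => ((W.apOfModel ℓ : ℤ) : O)) hρ
  have hd : LinearMap.det (ρ.ρ σ) = 1 := det_inertia_eq_one lam hdet hq hqlam A hA σ hσ
  have hchar := charpoly_eq_of_finrank_two ρ.finrank_eq (ρ.ρ σ)
  rw [hd] at hchar
  -- the trace is `2`
  have h1 := tate_transfer W hΔ lam hlam ρ S₀ hS₀ hρ σ
  rw [hchar] at h1
  have ht : LinearMap.trace O ρ.V (ρ.ρ σ) = 2 := by
    rw [← sub_eq_zero]
    apply eq_zero_of_smul_rho_eq_zero (tateRepO W hΔ lam hlam) σ
    intro v
    have h2 := congrArg (fun f => f v) h1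
    simp only [aeval_quadratic_apply, LinearMap.zero_apply] at h2
    have h3 := tateRepO_quadratic W hΔ lam hlam σ 2 1
      (inertia_sub_one_sq W hΔ lam hss hq hqlam A hA σ hσ) v
    rw [Int.cast_ofNat, Int.cast_one] at h3
    rw [sub_smul]
    set F := (tateRepO W hΔ lam hlam).ρ σ with hF
    calc LinearMap.trace O ρ.V (ρ.ρ σ) • F v - (2 : O) • F v
        = (F (F v) - (2 : O) • F v + (1 : O) • v)
          - (F (F v) - LinearMap.trace O ρ.V (ρ.ρ σ) • F v + (1 : O) • v) := by abel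
      _ = 0 := by rw [h3, h2, sub_zero]
  rw [hchar, ht]
  simp only [map_one, map_ofNat]
  ring

include hΔ hlam in
/-- **Frobenius characteristic polynomials at ALL good primes `ℓ ≠ λ`.** -/
theorem charpoly_frob_of_frob (ρ : GaloisRepAdic O) (S₀ : Finset ℕ)
    (hS₀ : ∀ ℓ : ℕ, ℓ.Prime → ℓ ∉ S₀ → W.IsGoodPrimeFor ℓ ∧ ℓ ≠ lam)
    (hρ : ∀ ℓ : ℕ, ℓ.Prime → ℓ ∉ S₀ →
      ∀ P : ValuationSubring (AlgebraicClosure ℚ), P.LiesOverPrime ℓ →
        ∀ τ : _root_.Fermat.Agent.S59.H127.GQ, P.IsFrobeniusAt τ ℓ →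
          LinearMap.charpoly (ρ.ρ τ) = X ^ 2 - C ((W.apOfModel ℓ : ℤ) : O) * X + C (ℓ : O))
    (q : ℕ) (hq : q.Prime) (hgood : W.IsGoodPrimeFor q) (hqlam : q ≠ lam)
    (A : ValuationSubring (AlgebraicClosure ℚ)) (hA : A.LiesOverPrime q) (σ : _root_.Fermat.Agent.S59.H127.GQ)
    (hσ : A.IsFrobeniusAt σ q) :
    LinearMap.charpoly (ρ.ρ σ) = X ^ 2 - C ((W.apOfModel q : ℤ) : O) * X + C (q : O) := by
  have hdet : ρ.DetIsCyclotomic lam :=
    Fermat.Agent.S59.H540.detIsCyclotomic_of_charpoly_frob ρ lam hlam S₀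
      (fun ℓ => ((W.apOfModel ℓ : ℤ) : O)) hρ
  have hd : LinearMap.det (ρ.ρ σ) = (q : O) := det_frob_eq lam hdet hq hqlam A hA σ hσ
  have hchar := charpoly_eq_of_finrank_two ρ.finrank_eq (ρ.ρ σ)
  rw [hd] at hchar
  rw [hchar, trace_eq_apOfModel W hΔ lam hlam ρ S₀ hS₀ hρ q hq hgood hqlam A hA σ hσ _ hchar]

end Compare

end Fermat.Agent.S58.H999

end
-- ===== PACK-END S58/H999/Compare.lean

-- ===== PACK-BEGIN S58/H273/ResGeneric.lean
section


/-!
# Row S58, leaf HRES, part 2 (helper273): residual absolute irreducibility from Frobenius data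

Generic form of `Fermat.Agent.S59.G4.H109.resStatement2` (no Hecke algebra): if the Frobenius
characteristic polynomials of `ρ` (over a local ring `A`) reduce to those of an absolutely
irreducible `ρ̄` (over `k`, `ι : k → A/𝔪`) at all primes outside a finite set, then `ρ.residual`
is absolutely irreducible.

* `charpoly_residual_eq_of_frob` : Chebotarev step, `charpoly (ρ.residual g) = ι (charpoly (ρ̄ g))`
  for every `g`.
* `residual_absIrr_of_charpoly`  : Burnside/Gram step.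
* `residual_absIrr_of_frob`      : the combination.
-/

set_option autoImplicit false

open Polynomial IsLocalRing
open scoped TensorProduct

namespace Fermat.Agent.S58.H273

open Fermat.Agent.S59.G4.H109

/-- **Chebotarev step.**  If the Frobenius characteristic polynomials of `ρ` reduce to those of
`ρ̄` outside a finite set `S` of primes, then the characteristic polynomials of `ρ.residual` are
the images of those of `ρ̄` at every element of `Gal(ℚ̄/ℚ)`. -/
theorem charpoly_residual_eq_of_frob {k : Type} [Field k] (ρbar : ResidualGaloisRep k)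
    {A : Type} [CommRing A] [IsLocalRing A] (ι : k →+* ResidueField A)
    (ρ : GaloisRepAdic A) (S : Finset ℕ)
    (h : ∀ ℓ : ℕ, ℓ.Prime → ℓ ∉ S →
      ∀ B : ValuationSubring (AlgebraicClosure ℚ), B.LiesOverPrime ℓ →
        ∀ σ : AlgebraicClosure ℚ ≃ₐ[ℚ] AlgebraicClosure ℚ, B.IsFrobeniusAt σ ℓ →
          (LinearMap.charpoly (ρ.ρ σ)).map (residue A)
            = (LinearMap.charpoly (ρbar.ρ σ)).map ι)
    (g : AlgebraicClosure ℚ ≃ₐ[ℚ] AlgebraicClosure ℚ) :
    LinearMap.charpoly (ρ.residual.ρ g) = (LinearMap.charpoly (ρbar.ρ g)).map ι := by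
  obtain ⟨L₁, hL₁, h₁⟩ := ρ.residual.factorsThroughFiniteLevel
  obtain ⟨L₂, hL₂, h₂⟩ := ρbar.factorsThroughFiniteLevel
  have := hL₁
  have := hL₂
  have hE : FiniteDimensional ℚ ↥(L₁ ⊔ L₂) := IntermediateField.finiteDimensional_sup L₁ L₂
  obtain ⟨ℓ, B, τ, hℓ, hℓS, hB, hτ, -, hτg⟩ :=
    Fermat.Agent.Lib.Cheb.chebotarev (L₁ ⊔ L₂) hE g S
  have hfix : ∀ x ∈ L₁ ⊔ L₂, (g⁻¹ * τ) x = x := by
    intro x hx
    rw [AlgEquiv.mul_apply, hτg x hx]
    exact g.symm_apply_apply x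
  have e1 : ρ.residual.ρ τ = ρ.residual.ρ g := by
    have h := h₁ (g⁻¹ * τ) (fun x hx => hfix x ((le_sup_left : L₁ ≤ L₁ ⊔ L₂) hx))
    have h' : ρ.residual.ρ g * ρ.residual.ρ (g⁻¹ * τ) = ρ.residual.ρ g := by rw [h, mul_one]
    rw [← map_mul, mul_inv_cancel_left] at h'
    exact h'
  have e2 : ρbar.ρ τ = ρbar.ρ g := by
    have h := h₂ (g⁻¹ * τ) (fun x hx => hfix x ((le_sup_right : L₂ ≤ L₁ ⊔ L₂) hx))
    have h' : ρbar.ρ g * ρbar.ρ (g⁻¹ * τ) = ρbar.ρ g := by rw [h, mul_one]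
    rw [← map_mul, mul_inv_cancel_left] at h'
    exact h'
  have c1 := h ℓ hℓ hℓS B hB τ hτ
  rw [← e1, ← e2, ← c1]
  have hres : LinearMap.charpoly (ρ.residual.ρ τ)
      = LinearMap.charpoly ((ρ.ρ τ).baseChange (ResidueField A)) := rfl
  rw [hres, LinearMap.charpoly_baseChange, IsLocalRing.ResidueField.algebraMap_eq]

/-- **Burnside/Gram step.**  If `ρ̄` is absolutely irreducible and the characteristic polynomials
of `ρ.residual` are the images of those of `ρ̄`, then `ρ.residual` is absolutely irreducible. -/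
theorem residual_absIrr_of_charpoly {k : Type} [Field k] (ρbar : ResidualGaloisRep k)
    (habs : ρbar.IsAbsolutelyIrreducible)
    {A : Type} [CommRing A] [IsLocalRing A] (ι : k →+* ResidueField A)
    (ρ : GaloisRepAdic A)
    (hcp : ∀ g : AlgebraicClosure ℚ ≃ₐ[ℚ] AlgebraicClosure ℚ,
      LinearMap.charpoly (ρ.residual.ρ g) = (LinearMap.charpoly (ρbar.ρ g)).map ι) :
    ρ.residual.IsAbsolutelyIrreducible := by
  classical
  let b₁ : Module.Basis (Fin 2) k ρbar.V := Module.finBasisOfFinrankEq k ρbar.V ρbar.finrank_eq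
  let b₂ : Module.Basis (Fin 2) (ResidueField A) ρ.residual.V :=
    Module.finBasisOfFinrankEq (ResidueField A) ρ.residual.V ρ.residual.finrank_eq
  obtain ⟨f, hf⟩ := exists_isUnit_coeffMat_of_absIrr ρbar habs b₁
  have htr : ∀ g : AlgebraicClosure ℚ ≃ₐ[ℚ] AlgebraicClosure ℚ,
      LinearMap.trace (ResidueField A) ρ.residual.V (ρ.residual.ρ g)
      = ι (LinearMap.trace k ρbar.V (ρbar.ρ g)) := by
    intro g
    rw [trace_eq_neg_coeff_charpoly b₂, trace_eq_neg_coeff_charpoly b₁, hcp g,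
      Polynomial.coeff_map, map_neg]
  have hgram : gramMat (fun a => LinearMap.toMatrix b₂ b₂ (ρ.residual.ρ (f a)))
      = (gramMat (fun a => LinearMap.toMatrix b₁ b₁ (ρbar.ρ (f a)))).map ι := by
    ext a c
    simp only [gramMat, Matrix.of_apply, Matrix.map_apply]
    rw [← LinearMap.toMatrix_mul, ← LinearMap.toMatrix_mul, ← LinearMap.trace_eq_matrix_trace,
      ← LinearMap.trace_eq_matrix_trace, ← map_mul, ← map_mul, htr]
  have hP₂ : IsUnit (coeffMat fun a => LinearMap.toMatrix b₂ b₂ (ρ.residual.ρ (f a))).det := by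
    rw [isUnit_det_coeffMat_iff, hgram, ← RingHom.mapMatrix_apply, ← RingHom.map_det]
    exact ((isUnit_det_coeffMat_iff _).mp hf).map ι
  intro W hW
  set Ω := AlgebraicClosure (ResidueField A) with hΩ
  let bΩ : Module.Basis (Fin 2) Ω (Ω ⊗[ResidueField A] ρ.residual.V) :=
    Algebra.TensorProduct.basis Ω b₂
  have hmat : ∀ g, LinearMap.toMatrix bΩ bΩ ((ρ.residual.baseChange Ω).ρ g)
      = (LinearMap.toMatrix b₂ b₂ (ρ.residual.ρ g)).map (algebraMap (ResidueField A) Ω) := by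
    intro g
    have h1 : (ρ.residual.baseChange Ω).ρ g = (ρ.residual.ρ g).baseChange Ω := rfl
    rw [h1, LinearMap.toMatrix_baseChange]
  have hPΩ : IsUnit (coeffMat fun a =>
      LinearMap.toMatrix bΩ bΩ ((ρ.residual.baseChange Ω).ρ (f a))).det := by
    have : (coeffMat fun a => LinearMap.toMatrix bΩ bΩ ((ρ.residual.baseChange Ω).ρ (f a)))
        = (coeffMat fun a => LinearMap.toMatrix b₂ b₂ (ρ.residual.ρ (f a))).map
            (algebraMap (ResidueField A) Ω) := by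
      rw [← coeffMat_map]
      congr 1
      funext a
      exact hmat (f a)
    rw [this, ← RingHom.mapMatrix_apply, ← RingHom.map_det]
    exact hP₂.map _
  exact eq_bot_or_eq_top_of_isUnit bΩ (fun g => (ρ.residual.baseChange Ω).ρ g) f hPΩ W hW

/-- **RES, generic form.** -/
theorem residual_absIrr_of_frob {k : Type} [Field k] (ρbar : ResidualGaloisRep k)
    (habs : ρbar.IsAbsolutelyIrreducible)
    {A : Type} [CommRing A] [IsLocalRing A] (ι : k →+* ResidueField A)
    (ρ : GaloisRepAdic A) (S : Finset ℕ)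
    (h : ∀ ℓ : ℕ, ℓ.Prime → ℓ ∉ S →
      ∀ B : ValuationSubring (AlgebraicClosure ℚ), B.LiesOverPrime ℓ →
        ∀ σ : AlgebraicClosure ℚ ≃ₐ[ℚ] AlgebraicClosure ℚ, B.IsFrobeniusAt σ ℓ →
          (LinearMap.charpoly (ρ.ρ σ)).map (residue A)
            = (LinearMap.charpoly (ρbar.ρ σ)).map ι) :
    ρ.residual.IsAbsolutelyIrreducible :=
  residual_absIrr_of_charpoly ρbar habs ι ρ
    (fun g => charpoly_residual_eq_of_frob ρbar ι ρ S h g)

end Fermat.Agent.S58.H273

end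
-- ===== PACK-END S58/H273/ResGeneric.lean

-- ===== PACK-BEGIN S59/G4/H178/Odd.lean
section




/-!
# S59 / G4 / ODD (helper178): `Fermat.Agent.S59.G4.OddStatement`

* `involution_apply_root` : an involution `c ≠ 1` of `Gal(ℚ̄/ℚ)` maps `μ` to `μ ^ (p ^ n - 1)`
  for every `μ` with `μ ^ p ^ n = 1`, `p` an odd prime.
* `det_involution_eq_neg_one` : a representation over a noetherian local ring with cyclotomic
  determinant has `det ρ(c) = -1` on every involution `c ≠ 1`.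
* `odd : OddStatement`.

Inputs: `Involution.lean` (Mathlib only), `Fermat.Agent.S59.H540.detIsCyclotomic_of_frob` (main).
-/

set_option autoImplicit false

namespace Fermat.Agent.S59.G4.H178

open IsLocalRing Fermat.Agent.S31

/-- An involution `c ≠ 1` of `Gal(ℚ̄/ℚ)` acts on `μ_{p^n}` (`p` odd) by `μ ↦ μ ^ (p ^ n - 1)`. -/
theorem involution_apply_root (p : ℕ) (hp : p.Prime) (hp2 : p ≠ 2) (c : GQ) (hc : c * c = 1)
    (hc1 : c ≠ 1) (n : ℕ) (μ : Qb) (hμ : μ ^ p ^ n = 1) : c μ = μ ^ (p ^ n - 1) := by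
  have hcc : ∀ x : Qb, (c : Qb ≃+* Qb) ((c : Qb ≃+* Qb) x) = x := by
    intro x
    have h := congrArg (fun f : GQ => f x) hc
    simpa [AlgEquiv.mul_apply] using h
  have hne : ∃ x : Qb, (c : Qb ≃+* Qb) x ≠ x := by
    by_contra h
    exact hc1 (AlgEquiv.ext fun x => not_not.mp (not_exists.mp h x))
  have h1 : μ * c μ = 1 :=
    involution_mul_self_eq_one (K := Qb) two_ne_zero (c : Qb ≃+* Qb) hcc hne p hp hp2 n μ hμ
  have hpos : 0 < p ^ n := pow_pos hp.pos n
  have h2 : μ * μ ^ (p ^ n - 1) = 1 := by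
    rw [← pow_succ', Nat.sub_add_cancel hpos, hμ]
  have hμ0 : μ ≠ 0 := by
    rintro rfl
    rw [zero_mul] at h1
    exact zero_ne_one h1
  exact mul_left_cancel₀ hμ0 (h1.trans h2.symm)

/-- A representation with cyclotomic determinant is odd: `det ρ(c) = -1` for every involution
`c ≠ 1`. -/
theorem det_involution_eq_neg_one {A : Type} [CommRing A] [IsLocalRing A] [IsNoetherianRing A]
    (ρ : GaloisRepAdic A) (p : ℕ) [Fact p.Prime] (hp2 : p ≠ 2) (hdet : ρ.DetIsCyclotomic p)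
    (c : GQ) (hc : c * c = 1) (hc1 : c ≠ 1) : LinearMap.det (ρ.ρ c) = -1 := by
  have hp : p.Prime := Fact.out
  have hpA : (p : A) ∈ maximalIdeal A := hdet.1
  have hmem : LinearMap.det (ρ.ρ c) + 1 ∈ (⊥ : Ideal A) := by
    apply Fermat.Agent.S59.H540.mem_of_forall_mem_sup_pow
    intro k
    have h1 : LinearMap.det (ρ.ρ c) - ((p ^ k - 1 : ℕ) : A) ∈ Ideal.span {((p ^ k : ℕ) : A)} :=
      hdet.2 k c (p ^ k - 1) (fun μ hμ => involution_apply_root p hp hp2 c hc hc1 k μ hμ)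
    have hpos : 1 ≤ p ^ k := pow_pos hp.pos k
    have h2 : ((p ^ k : ℕ) : A) ∈ maximalIdeal A ^ k := by
      rw [Nat.cast_pow]
      exact Ideal.pow_mem_pow hpA k
    have h3 : Ideal.span {((p ^ k : ℕ) : A)} ≤ maximalIdeal A ^ k :=
      (Ideal.span_singleton_le_iff_mem _).mpr h2
    have h4 : LinearMap.det (ρ.ρ c) + 1 =
        (LinearMap.det (ρ.ρ c) - ((p ^ k - 1 : ℕ) : A)) + ((p ^ k : ℕ) : A) := by
      rw [Nat.cast_sub hpos, Nat.cast_one]; ring
    rw [h4]
    exact (le_sup_right : maximalIdeal A ^ k ≤ ⊥ ⊔ maximalIdeal A ^ k)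
      (Ideal.add_mem _ (h3 h1) h2)
  exact eq_neg_of_add_eq_zero_left ((Ideal.mem_bot).mp hmem)

/-- **ODD.** -/
theorem odd : OddStatement := by
  intro p _ hp2 N _ S _hpS O _ _ _ _ _ _ hpO χ ρ hF c hc hc1
  classical
  have hdet : ρ.DetIsCyclotomic p := by
    refine Fermat.Agent.S59.H540.detIsCyclotomic_of_frob ρ p hpO (S ∪ N.primeFactors) ?_
    intro ℓ hℓ hℓS P hP σ hσ
    have hℓS' : ℓ ∉ (↑S : Set ℕ) := fun h => hℓS (Finset.mem_union_left _ (Finset.mem_coe.mp h))
    have hℓN : ¬ ℓ ∣ N := fun h =>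
      hℓS (Finset.mem_union_right _ (Nat.mem_primeFactors.mpr ⟨hℓ, h, NeZero.ne N⟩))
    exact Fermat.Agent.S59.H540.det_eq_of_charpoly ρ.finrank_eq _ _ _
      (hF ℓ hℓ hℓN hℓS' P hP σ hσ)
  exact det_involution_eq_neg_one ρ p hp2 hdet c hc hc1

end Fermat.Agent.S59.G4.H178

end
-- ===== PACK-END S59/G4/H178/Odd.lean

-- ===== PACK-BEGIN Ribet/H52/TraceFormulaW.lean
section





/-!
# Row RIBET, TARGET S40, piece TF-W (helper52): the trace formula in `W`-form, UNCONDITIONAL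

`traceFormulaW_h52 : Spec.TraceFormulaWStatement` — `W` an integral Weierstrass curve with
`Δ ≠ 0`, `p` a prime with `W[p]` irreducible, `ℓ ≠ p` a prime of good reduction of `W`
(INCLUDING `ℓ = 2, 3`), `τ` a Frobenius at a place over `ℓ`:  `tr (τ | W[p]) = a_ℓ(W)` in `𝔽_p`.

Inputs, all on main:
* the Frobenius relation at all good primes `Lib.Frob.Small.frobRelationAll` (helper545);
* `det = cyclotomic` without Weil pairing, `Ribet.H403.det_eq_of_apply_root` (helper403), which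
  needs a non-scalar element in the image: `exists_nonscalar_of_irreducible_h52`;
* Frobenius on roots of unity `S55.H414.IsFrobeniusAt_apply_root` (helper414);
* `H52.trace_of_det_h52` (Cayley–Hamilton in rank two).

Also `detFrobW_h52` (the determinant of Frobenius is `ℓ`) and `charpolyFrobW_h52`
(`τ² − a_ℓ τ + ℓ = 0` as endomorphisms of `W[p]`).
-/

set_option autoImplicit false

open WeierstrassCurve WeierstrassCurve.Affine WeierstrassCurve.Affine.Point

namespace Fermat.Agent.Ribet.H52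

open Fermat.Agent.Lib.Frob (Qb Pts)
open Fermat.Agent.Ribet.Spec (GQ WTorsion)

/-- An irreducible `W[p]` is not acted on by scalars only. -/
theorem exists_nonscalar_of_irreducible_h52 (W : WeierstrassCurve ℤ) (hΔ : W.Δ ≠ 0) (p : ℕ)
    [Fact p.Prime] (hirr : W.ModRepIsIrreducible p) :
    ∃ h : GQ, ¬ ∃ s : ZMod p, ∀ x : WTorsion W p, h • x = s • x := by
  by_contra hall
  have hall' : ∀ h : GQ, ∃ s : ZMod p, ∀ x : WTorsion W p, h • x = s • x := by
    intro h
    by_contra hh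
    exact hall ⟨h, hh⟩
  obtain ⟨hnt, hirr'⟩ := hirr
  have hΔQ : (W.map (Int.castRingHom ℚ)).Δ ≠ 0 := by
    rw [WeierstrassCurve.map_Δ]
    simpa using hΔ
  have : (W.map (Int.castRingHom ℚ)).IsElliptic := ⟨isUnit_iff_ne_zero.mpr hΔQ⟩
  have hrank : Module.finrank (ZMod p) (WTorsion W p) = 2 :=
    finrank_torsion_h52 (W.map (Int.castRingHom ℚ)) p
  obtain ⟨x, hx⟩ := exists_ne (0 : WTorsion W p)
  have hstable : IsGaloisStable (K := AlgebraicClosure ℚ) ℚ
      (Submodule.span (ZMod p) ({x} : Set (WTorsion W p))) := by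
    intro σ y hy
    obtain ⟨s, hs⟩ := hall' σ
    rw [hs y]
    exact Submodule.smul_mem _ _ hy
  rcases hirr' _ hstable with hbot | htop
  · apply hx
    have hmem : x ∈ Submodule.span (ZMod p) ({x} : Set (WTorsion W p)) :=
      Submodule.mem_span_singleton_self x
    rw [hbot] at hmem
    exact (Submodule.mem_bot _).mp hmem
  · have h1 : Module.finrank (ZMod p) (Submodule.span (ZMod p) ({x} : Set (WTorsion W p))) = 1 :=
      finrank_span_singleton hx
    rw [htop, finrank_top, hrank] at h1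
    omega

/-- **(DET-W)** the determinant of a Frobenius at `ℓ ≠ p` on an irreducible `W[p]` is `ℓ`. -/
theorem detFrobW_h52 (W : WeierstrassCurve ℤ) (p : ℕ) (hΔ : W.Δ ≠ 0) (hp : p.Prime)
    (hirr : W.ModRepIsIrreducible p) (ℓ : ℕ) (hℓ : ℓ.Prime) (hℓp : ℓ ≠ p)
    (A : ValuationSubring (AlgebraicClosure ℚ)) (hA : A.LiesOverPrime ℓ) (τ : GQ)
    (hτ : A.IsFrobeniusAt τ ℓ) :
    LinearMap.det (galoisRepModuleEnd (S := ℚ) (K := AlgebraicClosure ℚ)
      (W.map (Int.castRingHom ℚ)) p τ) = (ℓ : ZMod p) := by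
  have : Fact p.Prime := ⟨hp⟩
  refine Fermat.Agent.Ribet.H403.det_eq_of_apply_root W p hΔ
    (exists_nonscalar_of_irreducible_h52 W hΔ p hirr) τ ℓ ?_
  intro ζ hζ
  exact Fermat.Agent.S55.H414.IsFrobeniusAt_apply_root hτ hp.ne_zero
    (Fermat.Agent.S55.Bridge.val_prime_eq_one (A := A) hA hℓ hp hℓp) hζ

/-- **(TF-W), unconditional.** -/
theorem traceFormulaW_h52 : Fermat.Agent.Ribet.Spec.TraceFormulaWStatement := by
  intro W p hΔ hp _ hirr ℓ hℓ hℓp hgood A hA τ hτ
  have hΔQ : (W.map (Int.castRingHom ℚ)).Δ ≠ 0 := by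
    rw [WeierstrassCurve.map_Δ]
    simpa using hΔ
  have : (W.map (Int.castRingHom ℚ)).IsElliptic := ⟨isUnit_iff_ne_zero.mpr hΔQ⟩
  exact trace_of_det_h52 (W.map (Int.castRingHom ℚ))
    (fun W ℓ hℓ hgood A σ hA hσ n hn hℓn P hP =>
      Fermat.Agent.Lib.Frob.Small.frobRelationAll W ℓ hℓ hgood A σ hA hσ n hn hℓn P hP)
    W ⟨1, one_smul _ _⟩ p ℓ hp hℓ hℓp hgood A hA τ hτ
    (detFrobW_h52 W p hΔ hp hirr ℓ hℓ hℓp A hA τ hτ)

end Fermat.Agent.Ribet.H52

end
-- ===== PACK-END Ribet/H52/TraceFormulaW.lean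

-- ===== PACK-BEGIN S58/H273/Hres.lean
section







/-!
# Row S58, leaf HRES (helper273)

`W` an integral Weierstrass curve with `Δ ≠ 0`, `p` an odd prime with `W[p]` irreducible.

* `wRes W hΔ p`               : `W[p]` as a `ResidualGaloisRep (ZMod p)` (Prelude's
                                `residualGaloisRepOf`).
* `wRes_isOdd`                : `det = -1` at every involution `≠ 1`.
* `wRes_isAbsolutelyIrreducible`.
* `wRes_charpoly_frob`        : `X² - a_ℓ(W) X + ℓ` at the good primes `ℓ ≠ p`.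
* `hres`                      : **HRES.**  Every `ρ` over a Noetherian local ring `A` of residue
  characteristic `p` with Frobenius characteristic polynomials `X² - a_ℓ(W) X + ℓ` outside a
  finite set `S` of primes has `ρ.residual` absolutely irreducible and odd.
* `hres_of_hecke`             : the same in the exact shape of the hypothesis `hres` of the frozen
  S36 (Hecke character `chig` with `chig T_ℓ = a_ℓ(W)`).
-/

set_option autoImplicit false
set_option linter.unusedVariables false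
set_option linter.overlappingInstances false

open Polynomial IsLocalRing
open WeierstrassCurve WeierstrassCurve.Affine WeierstrassCurve.Affine.Point
open scoped TensorProduct

namespace Fermat.Agent.S58.H273

/-- `Gal(ℚ̄/ℚ)` -/
abbrev GalQ : Type := AlgebraicClosure ℚ ≃ₐ[ℚ] AlgebraicClosure ℚ

/-- the generic fibre is elliptic -/
theorem isElliptic_map (W : WeierstrassCurve ℤ) (hΔ : W.Δ ≠ 0) :
    (W.map (Int.castRingHom ℚ)).IsElliptic := by
  have hΔQ : (W.map (Int.castRingHom ℚ)).Δ ≠ 0 := by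
    rw [WeierstrassCurve.map_Δ]
    simpa using hΔ
  exact ⟨isUnit_iff_ne_zero.mpr hΔQ⟩

theorem wRes_hcard (W : WeierstrassCurve ℤ) (hΔ : W.Δ ≠ 0) (p : ℕ) :
    Nat.card (Submodule.torsionBy ℤ
      ((W.map (Int.castRingHom ℚ))⁄(AlgebraicClosure ℚ)).Point p) = p ^ 2 := by
  have := isElliptic_map W hΔ
  exact Fermat.Agent.S59.H127.card_torsion_prime (W.map (Int.castRingHom ℚ)) p

theorem wRes_hker (W : WeierstrassCurve ℤ) (hΔ : W.Δ ≠ 0) (p : ℕ) [Fact p.Prime] :
    GaloisFactorsThroughFiniteLevel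
      (WeierstrassCurve.Affine.Point.galoisRepModuleEnd (K := AlgebraicClosure ℚ) ℚ
        (W.map (Int.castRingHom ℚ)) p) := by
  have := isElliptic_map W hΔ
  exact Fermat.Agent.S59.H127.galoisFactorsThroughFiniteLevel_torsion
    (W.map (Int.castRingHom ℚ)) p (Fact.out (p := p.Prime)).one_lt.le

/-- `W[p]` as a residual Galois representation over `𝔽_p`. -/
noncomputable def wRes (W : WeierstrassCurve ℤ) (hΔ : W.Δ ≠ 0) (p : ℕ) [Fact p.Prime] :
    ResidualGaloisRep (ZMod p) :=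
  (W.map (Int.castRingHom ℚ)).residualGaloisRepOf p (wRes_hcard W hΔ p) (wRes_hker W hΔ p)

theorem wRes_ρ (W : WeierstrassCurve ℤ) (hΔ : W.Δ ≠ 0) (p : ℕ) [Fact p.Prime] :
    (wRes W hΔ p).ρ = galoisRepModuleEnd (K := AlgebraicClosure ℚ) ℚ
      (W.map (Int.castRingHom ℚ)) p := rfl

section Curve

variable (W : WeierstrassCurve ℤ) (hΔ : W.Δ ≠ 0) (p : ℕ) [Fact p.Prime]

theorem wRes_isIrreducible (hirr : W.ModRepIsIrreducible p) : (wRes W hΔ p).IsIrreducible := by
  intro N hN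
  exact hirr.2 N (fun σ x hx => hN σ x hx)

/-- the determinant of `W[p]` at an involution `≠ 1` is `-1` -/
theorem wRes_det_involution (hp2 : p ≠ 2) (hirr : W.ModRepIsIrreducible p)
    (c : GalQ) (hc : c * c = 1) (hc1 : c ≠ 1) :
    LinearMap.det ((wRes W hΔ p).ρ c) = -1 := by
  have hp : p.Prime := Fact.out
  have h := Fermat.Agent.Ribet.H403.det_eq_of_apply_root W p hΔ
    (Fermat.Agent.Ribet.H52.exists_nonscalar_of_irreducible_h52 W hΔ p hirr) c (p - 1)
    (fun ζ hζ => by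
      have := Fermat.Agent.S59.G4.H178.involution_apply_root p hp hp2 c hc hc1 1 ζ
        (by rwa [pow_one])
      rwa [pow_one] at this)
  have h' : LinearMap.det ((wRes W hΔ p).ρ c) = ((p - 1 : ℕ) : ZMod p) := h
  rw [h', Nat.cast_sub hp.one_lt.le, ZMod.natCast_self, Nat.cast_one, zero_sub]

theorem wRes_isOdd (hp2 : p ≠ 2) (hirr : W.ModRepIsIrreducible p) : (wRes W hΔ p).IsOdd :=
  fun c hc hc1 => wRes_det_involution W hΔ p hp2 hirr c hc hc1

theorem two_ne_zero_zmod (hp2 : p ≠ 2) : (2 : ZMod p) ≠ 0 := by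
  have hp : p.Prime := Fact.out
  intro h
  have h' : ((2 : ℕ) : ZMod p) = 0 := by exact_mod_cast h
  rw [ZMod.natCast_eq_zero_iff] at h'
  exact hp2 ((Nat.prime_dvd_prime_iff_eq hp Nat.prime_two).mp h')

/-- **`W[p]` is absolutely irreducible** (`p` odd, `W[p]` irreducible). -/
theorem wRes_isAbsolutelyIrreducible (hp2 : p ≠ 2) (hirr : W.ModRepIsIrreducible p) :
    (wRes W hΔ p).IsAbsolutelyIrreducible :=
  absIrr_of_irr_of_involution (two_ne_zero_zmod p hp2) (wRes W hΔ p)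
    (wRes_isIrreducible W hΔ p hirr) complexConjugation complexConjugation_mul_self
    (wRes_det_involution W hΔ p hp2 hirr complexConjugation complexConjugation_mul_self
      Fermat.Agent.S59.G4.H307.complexConjugation_ne_one)

/-- characteristic polynomial of an endomorphism of a plane -/
theorem charpoly_eq_of_finrank_two {k : Type*} [Field k] {V : Type*} [AddCommGroup V]
    [Module k V] [Module.Finite k V] (hV : Module.finrank k V = 2) (f : Module.End k V) :
    LinearMap.charpoly f = X ^ 2 - C (LinearMap.trace k V f) * X + C (LinearMap.det f) := by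
  classical
  let b : Module.Basis (Fin 2) k V := Module.finBasisOfFinrankEq k V hV
  rw [← LinearMap.charpoly_toMatrix f b, Matrix.charpoly_fin_two,
    ← LinearMap.trace_eq_matrix_trace k b f, LinearMap.det_toMatrix b f]

/-- **Frobenius characteristic polynomial of `W[p]`** at a good prime `ℓ ≠ p`. -/
theorem wRes_charpoly_frob (hp2 : p ≠ 2) (hirr : W.ModRepIsIrreducible p)
    (ℓ : ℕ) (hℓ : ℓ.Prime) (hℓp : ℓ ≠ p) (hgood : W.IsGoodPrimeFor ℓ)
    (B : ValuationSubring (AlgebraicClosure ℚ)) (hB : B.LiesOverPrime ℓ)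
    (τ : GalQ) (hτ : B.IsFrobeniusAt τ ℓ) :
    LinearMap.charpoly ((wRes W hΔ p).ρ τ)
      = X ^ 2 - C (((W.apOfModel ℓ : ℤ) : ZMod p)) * X + C ((ℓ : ZMod p)) := by
  have hp : p.Prime := Fact.out
  have htr := Fermat.Agent.Ribet.H52.traceFormulaW_h52 W p hΔ hp hp2 hirr ℓ hℓ hℓp hgood B hB τ hτ
  have hdet := Fermat.Agent.Ribet.H52.detFrobW_h52 W p hΔ hp hirr ℓ hℓ hℓp B hB τ hτ
  have htr' : LinearMap.trace (ZMod p) (wRes W hΔ p).V ((wRes W hΔ p).ρ τ)
      = ((W.apOfModel ℓ : ℤ) : ZMod p) := htr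
  have hdet' : LinearMap.det ((wRes W hΔ p).ρ τ) = (ℓ : ZMod p) := hdet
  rw [charpoly_eq_of_finrank_two (wRes W hΔ p).finrank_eq, htr', hdet']

end Curve

section Main

variable {A : Type} [CommRing A] [IsLocalRing A]

/-- the residue field has characteristic `p` -/
theorem charP_residueField (p : ℕ) [Fact p.Prime] (hpA : (p : A) ∈ maximalIdeal A) :
    CharP (ResidueField A) p := by
  have hp : p.Prime := Fact.out
  have h0 : ((p : ℕ) : ResidueField A) = 0 := by
    have := (IsLocalRing.residue_eq_zero_iff (p : A)).mpr hpA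
    rwa [map_natCast] at this
  have := CharP.ringChar_of_prime_eq_zero hp h0
  rw [← this]
  exact ringChar.charP _

/-- oddness of the reduction from the Frobenius determinants -/
theorem residual_isOdd_of_frob [IsNoetherianRing A] (p : ℕ) [Fact p.Prime] (hp2 : p ≠ 2)
    (hpA : (p : A) ∈ maximalIdeal A) (ρ : GaloisRepAdic A) (S : Finset ℕ)
    (hdet : ∀ ℓ : ℕ, ℓ.Prime → ℓ ∉ S →
      ∀ P : ValuationSubring (AlgebraicClosure ℚ), P.LiesOverPrime ℓ →
        ∀ σ : GalQ, P.IsFrobeniusAt σ ℓ → LinearMap.det (ρ.ρ σ) = (ℓ : A)) :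
    ρ.residual.IsOdd := by
  intro c hc hc1
  have hcyc : ρ.DetIsCyclotomic p :=
    Fermat.Agent.S59.H540.detIsCyclotomic_of_frob ρ p hpA S hdet
  have h1 : LinearMap.det (ρ.ρ c) = -1 :=
    Fermat.Agent.S59.G4.H178.det_involution_eq_neg_one ρ p hp2 hcyc c hc hc1
  have h2 : LinearMap.det (ρ.residual.ρ c)
      = algebraMap A (ResidueField A) (LinearMap.det (ρ.ρ c)) :=
    LinearMap.det_baseChange (ρ.ρ c)
  rw [h2, h1, map_neg, map_one]

/-- **HRES.**  Let `W` be an integral Weierstrass curve with `Δ ≠ 0` and `p` an odd prime with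
`W[p]` irreducible.  Every representation `ρ` over a Noetherian local ring `A` of residue
characteristic `p` whose Frobenius characteristic polynomials are `X² - a_ℓ(W) X + ℓ` at all primes
outside a finite set `S` has absolutely irreducible and odd reduction. -/
theorem hres (W : WeierstrassCurve ℤ) (hΔ : W.Δ ≠ 0) (p : ℕ) [Fact p.Prime] (hp2 : p ≠ 2)
    (hirr : W.ModRepIsIrreducible p) [IsNoetherianRing A]
    (hpA : (p : A) ∈ maximalIdeal A) (ρ : GaloisRepAdic A) (S : Finset ℕ)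
    (hρ : ∀ ℓ : ℕ, ℓ.Prime → ℓ ∉ S →
      ∀ B : ValuationSubring (AlgebraicClosure ℚ), B.LiesOverPrime ℓ →
        ∀ σ : GalQ, B.IsFrobeniusAt σ ℓ →
          LinearMap.charpoly (ρ.ρ σ)
            = X ^ 2 - C (((W.apOfModel ℓ : ℤ) : A)) * X + C ((ℓ : A))) :
    ρ.residual.IsAbsolutelyIrreducible ∧ ρ.residual.IsOdd := by
  classical
  have hp : p.Prime := Fact.out
  refine ⟨?_, ?_⟩
  · have hchar : CharP (ResidueField A) p := charP_residueField p hpA
    let ι : ZMod p →+* ResidueField A := ZMod.castHom (dvd_refl p) (ResidueField A)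
    refine residual_absIrr_of_frob (wRes W hΔ p)
      (wRes_isAbsolutelyIrreducible W hΔ p hp2 hirr) ι ρ
      (S ∪ insert p W.Δ.natAbs.primeFactors) ?_
    intro ℓ hℓ hℓS B hB σ hσ
    have hℓS' : ℓ ∉ S := fun h => hℓS (Finset.mem_union_left _ h)
    have hℓp : ℓ ≠ p := fun h =>
      hℓS (Finset.mem_union_right _ (by rw [h]; exact Finset.mem_insert_self _ _))
    have hgood : W.IsGoodPrimeFor ℓ := by
      intro hdvd
      apply hℓS
      refine Finset.mem_union_right _ (Finset.mem_insert_of_mem ?_)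
      rw [Nat.mem_primeFactors]
      exact ⟨hℓ, Int.natCast_dvd.mp hdvd, by simpa using hΔ⟩
    rw [hρ ℓ hℓ hℓS' B hB σ hσ, wRes_charpoly_frob W hΔ p hp2 hirr ℓ hℓ hℓp hgood B hB σ hσ]
    simp only [Polynomial.map_add, Polynomial.map_sub, Polynomial.map_mul, Polynomial.map_pow,
      Polynomial.map_X, map_natCast, map_intCast, Polynomial.map_intCast,
      Polynomial.map_natCast]
  · refine residual_isOdd_of_frob p hp2 hpA ρ S ?_
    intro ℓ hℓ hℓS P hP σ hσ
    exact Fermat.Agent.S59.H540.det_eq_of_charpoly ρ.finrank_eq _ _ _ (hρ ℓ hℓ hℓS P hP σ hσ)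

end Main

/-- the maximal ideal of a local extension contains `p` -/
theorem natCast_mem_maximalIdeal_of_isLocalHom {O' O'' : Type} [CommRing O'] [IsLocalRing O']
    [CommRing O''] [IsLocalRing O''] [Algebra O' O''] [IsLocalHom (algebraMap O' O'')]
    (p : ℕ) (hpO' : (p : O') ∈ maximalIdeal O') : (p : O'') ∈ maximalIdeal O'' := by
  rw [mem_maximalIdeal, mem_nonunits_iff] at hpO' ⊢
  intro hu
  apply hpO'
  have h : IsUnit (algebraMap O' O'' (p : O')) := by rwa [map_natCast]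
  exact isUnit_of_map_unit (algebraMap O' O'') _ h

/-- **HRES in the shape of the hypothesis `hres` of the frozen S36** (with `lam = p`): if the
Hecke character `chig` has the values `chig T_ℓ = a_ℓ(W)` at the primes `ℓ ∤ M`, `ℓ ∉ S`, then
every `ρ` with the Frobenius characteristic polynomials prescribed by `chig` has absolutely
irreducible and odd reduction. -/
theorem hres_of_hecke (W : WeierstrassCurve ℤ) (hΔ : W.Δ ≠ 0) (p : ℕ) [Fact p.Prime]
    (hp2 : p ≠ 2) (hirr : W.ModRepIsIrreducible p)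
    {M : ℕ} [NeZero M] (S : Finset ℕ)
    (O' : Type) [CommRing O'] [IsDomain O'] [IsDiscreteValuationRing O']
    [IsAdicComplete (IsLocalRing.maximalIdeal O') O'] [Finite (IsLocalRing.ResidueField O')]
    [CharZero O'] (hpO' : (p : O') ∈ IsLocalRing.maximalIdeal O')
    (chig : CuspForm.heckeAlgebra M 2 (↑S : Set ℕ) →+* ℂ)
    (hchigW : ∀ (ℓ : ℕ) (hℓ : ℓ.Prime) (hℓM : ¬ ℓ ∣ M) (hℓS : ℓ ∉ (↑S : Set ℕ)),
      chig (CuspForm.heckeAlgebra.T hℓ hℓM hℓS) = ((W.apOfModel ℓ : ℤ) : ℂ))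
    (iota : chig.range →+* O') :
    ∀ (O'' : Type) [CommRing O''] [IsDomain O''] [IsDiscreteValuationRing O'']
      [IsAdicComplete (IsLocalRing.maximalIdeal O'') O'']
      [Finite (IsLocalRing.ResidueField O'')] [CharZero O'']
      [Algebra O' O''] [Module.Finite O' O''] [IsLocalHom (algebraMap O' O'')],
      Function.Injective (algebraMap O' O'') → ∀ (ρ : GaloisRepAdic O''),
      (∀ (ℓ : ℕ) (hℓ : ℓ.Prime) (hℓlam : ℓ ≠ p) (hℓM : ¬ ℓ ∣ M) (hℓS : ℓ ∉ (↑S : Set ℕ)),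
        ∀ A : ValuationSubring (AlgebraicClosure ℚ), A.LiesOverPrime ℓ →
          ∀ σ : AlgebraicClosure ℚ ≃ₐ[ℚ] AlgebraicClosure ℚ, A.IsFrobeniusAt σ ℓ →
            LinearMap.charpoly (ρ.ρ σ) =
              X ^ 2 - C (algebraMap O' O'' ((iota.comp chig.rangeRestrict)
                (CuspForm.heckeAlgebra.T hℓ hℓM hℓS))) * X + C ((ℓ : O'')))
      → ρ.residual.IsAbsolutelyIrreducible ∧ ρ.residual.IsOdd := by
  intro O'' _ _ _ _ _ _ _ _ _ _ ρ hρ
  classical
  refine hres W hΔ p hp2 hirr (natCast_mem_maximalIdeal_of_isLocalHom p hpO') ρ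
    (S ∪ insert p M.primeFactors) ?_
  intro ℓ hℓ hℓS B hB σ hσ
  have hℓS' : ℓ ∉ (↑S : Set ℕ) := fun h => hℓS (Finset.mem_union_left _ (Finset.mem_coe.mp h))
  have hℓp : ℓ ≠ p := fun h =>
    hℓS (Finset.mem_union_right _ (by rw [h]; exact Finset.mem_insert_self _ _))
  have hℓM : ¬ ℓ ∣ M := fun h =>
    hℓS (Finset.mem_union_right _ (Finset.mem_insert_of_mem
      (Nat.mem_primeFactors.mpr ⟨hℓ, h, NeZero.ne M⟩)))
  rw [hρ ℓ hℓ hℓp hℓM hℓS' B hB σ hσ]
  have hval : (iota.comp chig.rangeRestrict) (CuspForm.heckeAlgebra.T hℓ hℓM hℓS')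
      = ((W.apOfModel ℓ : ℤ) : O') := by
    have h1 : chig.rangeRestrict (CuspForm.heckeAlgebra.T hℓ hℓM hℓS')
        = ((W.apOfModel ℓ : ℤ) : chig.range) := by
      apply Subtype.ext
      rw [RingHom.coe_rangeRestrict, hchigW ℓ hℓ hℓM hℓS']
      simp
    rw [RingHom.comp_apply, h1, map_intCast]
  rw [hval, map_intCast]

end Fermat.Agent.S58.H273

end
-- ===== PACK-END S58/H273/Hres.lean

-- ===== PACK-BEGIN S59/TW/H54/TwistNS.lean
section



/-!
# TW-NS (helper54): the twist of a form with nebentypus at `q` is `q²`-new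

Assembly of part A (`TwistNew.lean`: a trace-new normalized eigenform is `q²`-new, by the
functional equation) and part B (`TraceZero.lean`: a twist is trace-new, by coset algebra).

`twist_exists_newform` : let `f` have nebentypus `χ` on `Γ₀(N q)`, `q ∤ N` prime, `ψ ≠ 1` a
Dirichlet character modulo `q` with `χ ψ² = 1` on `Γ₀(N q)`, and let `F` be a normalized
eigenform of level `N q²` which is a scalar multiple of `twist 2 q ψ f`.  Then there is a
Prelude-newform `g` of a level `M ∣ N q²` with `v_q(M) = 2` and `a_ℓ(g) = a_ℓ(F)` for all primes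
`ℓ ∤ N q`.  This is exactly the hypothesis under which the frozen statement S36 gives
"`ρ_F` is not unipotent on inertia at `q`" (items (R) of TW-ALG and (NU) of Ihara avoidance).
-/

set_option autoImplicit false
set_option linter.unusedSectionVars false

namespace Fermat.Agent.S59.TW.H54

open Matrix Matrix.SpecialLinearGroup CongruenceSubgroup UpperHalfPlane ModularForm
open Fermat.Agent.Lib.Newform.H803 Fermat.Agent.S59.TW.H564
open Fermat.Agent.Lib.Newform.H958.X ModularFormClass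
open scoped MatrixGroups ModularForm

/-- `W_C β_j = [1, 0; -N j q, 1] · diag(q, 1) · W_C`, `C = N q²`. -/
theorem fricke_mul_heckeMatrix_h54 (N q : ℕ) [NeZero (N * q * q)] (hq : q ≠ 0) (j : ℕ) :
    frickeMatrix (N * q * q) * heckeMatrix q j =
      mapGL ℝ (tL (-((N : ℤ) * (j : ℤ) * q))) * heckeDiagMatrix q * frickeMatrix (N * q * q) := by
  apply Matrix.GeneralLinearGroup.ext
  intro a b
  rw [Matrix.GeneralLinearGroup.coe_mul, Matrix.GeneralLinearGroup.coe_mul,
    Matrix.GeneralLinearGroup.coe_mul, val_heckeMatrix hq, val_heckeDiagMatrix hq]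
  have t00 : ((mapGL ℝ (tL (-((N : ℤ) * (j : ℤ) * q))) : GL (Fin 2) ℝ) :
      Matrix (Fin 2) (Fin 2) ℝ) 0 0 = 1 := by
    rw [mapGL_val_apply]; simp
  have t01 : ((mapGL ℝ (tL (-((N : ℤ) * (j : ℤ) * q))) : GL (Fin 2) ℝ) :
      Matrix (Fin 2) (Fin 2) ℝ) 0 1 = 0 := by
    rw [mapGL_val_apply]; simp
  have t10 : ((mapGL ℝ (tL (-((N : ℤ) * (j : ℤ) * q))) : GL (Fin 2) ℝ) :
      Matrix (Fin 2) (Fin 2) ℝ) 1 0 = -((N : ℝ) * j * q) := by
    rw [mapGL_val_apply]; simp
  have t11 : ((mapGL ℝ (tL (-((N : ℤ) * (j : ℤ) * q))) : GL (Fin 2) ℝ) :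
      Matrix (Fin 2) (Fin 2) ℝ) 1 1 = 1 := by
    rw [mapGL_val_apply]; simp
  fin_cases a <;> fin_cases b <;>
    simp [frickeMatrix, Matrix.mul_apply, Fin.sum_univ_two, t00, t01, t10, t11] <;> ring

variable {k : ℤ} {N q : ℕ} [NeZero q]

/-- For a `Γ₀(N q²)`-invariant function, `Φ ∣ [1, 0; N n q, 1]` only depends on `n` mod `q`. -/
theorem slash_tL_periodic_h54 {Φ : ℍ → ℂ} (hΦ : SlInv k (Gamma0 (N * q * q)) Φ) (n : ℤ) :
    Φ ∣[k] tL ((N : ℤ) * n * q) = Φ ∣[k] tL ((N : ℤ) * (((n : ZMod q).val : ℕ) : ℤ) * q) := by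
  have h2 : (((n : ZMod q).val : ℕ) : ℤ) = n % q := ZMod.val_intCast n
  have h3 := Int.emod_add_mul_ediv n (q : ℤ)
  have h4 : (N : ℤ) * n * q = (N : ℤ) * (n / q) * q * q + (N : ℤ) * (n % q) * q := by
    conv_lhs => rw [← h3]
    ring
  have hmem : tL ((N : ℤ) * (n / q) * q * q) ∈ Gamma0 (N * q * q) := by
    rw [mem_Gamma0_iff_dvd]
    have : tL ((N : ℤ) * (n / q) * q * q) 1 0 = (N : ℤ) * (n / q) * q * q := rfl
    rw [this]
    exact ⟨n / q, by push_cast; ring⟩
  rw [h4, tL_add, SlashAction.slash_mul, hΦ _ hmem, h2]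

/-- The sum over `range q` of the translates by `-j` is the sum over `ZMod q`. -/
theorem sum_range_neg_h54 {Φ : ℍ → ℂ} (hΦ : SlInv k (Gamma0 (N * q * q)) Φ) :
    ∑ j ∈ Finset.range q, Φ ∣[k] tL (-((N : ℤ) * (j : ℤ) * q)) =
      ∑ v : ZMod q, Φ ∣[k] tL ((N : ℤ) * (v.val : ℤ) * q) := by
  classical
  have h1 : ∀ j : ℕ, Φ ∣[k] tL (-((N : ℤ) * (j : ℤ) * q)) =
      (fun v : ZMod q => Φ ∣[k] tL ((N : ℤ) * (v.val : ℤ) * q)) (-(j : ZMod q)) := by
    intro j
    have e : -((N : ℤ) * (j : ℤ) * q) = (N : ℤ) * (-(j : ℤ)) * q := by ring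
    rw [e, slash_tL_periodic_h54 hΦ (-(j : ℤ))]
    dsimp only
    congr 5
    push_cast
    rfl
  rw [Finset.sum_congr rfl (fun j _ => h1 j)]
  have h2 : ∑ j ∈ Finset.range q,
      (fun v : ZMod q => Φ ∣[k] tL ((N : ℤ) * (v.val : ℤ) * q)) (-(j : ZMod q)) =
      ∑ w : ZMod q, (fun v : ZMod q => Φ ∣[k] tL ((N : ℤ) * (v.val : ℤ) * q)) (-w) := by
    refine Finset.sum_nbij' (fun j : ℕ => (j : ZMod q)) (fun w : ZMod q => w.val) ?_ ?_ ?_ ?_ ?_
    · intro j _
      exact Finset.mem_univ _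
    · intro w _
      exact Finset.mem_range.mpr (ZMod.val_lt w)
    · intro j hj
      exact ZMod.val_natCast_of_lt (Finset.mem_range.mp hj)
    · intro w _
      exact ZMod.natCast_zmod_val w
    · intro j _
      rfl
  rw [h2]
  exact Equiv.sum_comp (Equiv.neg (ZMod q))
    (fun v : ZMod q => Φ ∣[k] tL ((N : ℤ) * (v.val : ℤ) * q))

/-- **Bridge**: if the trace of `Φ` to level `N q` vanishes, then `U_q (Φ ∣ W_{N q²}) = 0`. -/
theorem heckeU_fricke_eq_zero_h54 [NeZero (N * q * q)] {Φ : ℍ → ℂ}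
    (hΦ : SlInv k (Gamma0 (N * q * q)) Φ)
    (htr : ∑ v : ZMod q, Φ ∣[k] tL ((N : ℤ) * (v.val : ℤ) * q) = 0) :
    heckeU k q (Φ ∣[k] frickeMatrix (N * q * q)) = 0 := by
  have hq : q ≠ 0 := NeZero.ne q
  rw [heckeU_def]
  have h1 : ∀ j : ℕ, (Φ ∣[k] frickeMatrix (N * q * q)) ∣[k] heckeMatrix q j =
      ((Φ ∣[k] tL (-((N : ℤ) * (j : ℤ) * q))) ∣[k] heckeDiagMatrix q) ∣[k]
        frickeMatrix (N * q * q) := by
    intro j
    rw [← SlashAction.slash_mul, fricke_mul_heckeMatrix_h54 N q hq j, SlashAction.slash_mul,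
      SlashAction.slash_mul, ← sl_slash_mapGL]
  rw [Finset.sum_congr rfl (fun j _ => h1 j), ← SlashAction.sum_slash, ← SlashAction.sum_slash,
    sum_range_neg_h54 hΦ, htr, SlashAction.zero_slash, SlashAction.zero_slash]

/-- If `U_q` kills a cusp form, its `q`-divisible Fourier coefficients vanish. -/
theorem qCoeff_eq_zero_of_heckeU_h54 {C : ℕ} (hq : q ≠ 0) (F : CuspForm (Gamma0 C) 2)
    (h : heckeU 2 q (⇑F : ℍ → ℂ) = 0) (n : ℕ) (hn : q ∣ n) : qCoeff F n = 0 := by
  obtain ⟨m, rfl⟩ := hn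
  have h1 := Fermat.Agent.Lib.Newform.H683.qCoeff_heckeU_cusp 2 F hq m
  rw [coeffHeckeU_apply, h] at h1
  have h0 : qCoeff (0 : ℍ → ℂ) m = 0 := by
    have := (Fermat.Agent.Lib.Newform.H683.coeffLin C 2 m).map_zero
    rw [Fermat.Agent.Lib.Newform.H683.coeffLin_apply] at this
    exact this
  rw [mul_comm q m, ← h1, h0]

/-- **TW-NS.**  The twist of a form with nebentypus at `q` is `q²`-new: the Prelude-newform
attached to a normalized eigenform `F = c • twist 2 q ψ f` of level `N q²` has level `M` with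
`v_q(M) = 2`. -/
theorem twist_exists_newform (hq : q.Prime) [NeZero N] (hNq : ¬ q ∣ N) {χ : ℤ → ℂ}
    (hχ : IsCharMod (N * q) χ) {ψ : DirichletCharacter ℂ q} (hψ : ψ ≠ 1)
    (hχψ : ∀ γ ∈ Gamma0 (N * q), χ (γ 1 1) * ψ ((γ 1 1 : ℤ) : ZMod q) ^ 2 = 1)
    {f : ℍ → ℂ} (hf : IsNeb 2 (N * q) χ f)
    (F : CuspForm (Gamma0 (N * q * q)) 2) (c : ℂ)
    (hFc : (⇑F : ℍ → ℂ) = c • twist 2 q ψ f) (hF : F.IsNormalizedEigenform) :
    ∃ (M : ℕ) (_ : NeZero M) (g : CuspForm (Gamma0 M) 2), g.IsNewform ∧ M ∣ N * q * q ∧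
      M.factorization q = 2 ∧
      ∀ ℓ : ℕ, ℓ.Prime → ¬ ℓ ∣ N * q * q → qCoeff g ℓ = qCoeff F ℓ := by
  have : Fact q.Prime := ⟨hq⟩
  have hN0 : N ≠ 0 := NeZero.ne N
  have : NeZero (N * q * q) := ⟨mul_ne_zero (mul_ne_zero hN0 hq.ne_zero) hq.ne_zero⟩
  have hNz : (N : ZMod q) ≠ 0 := by
    intro h
    exact hNq ((ZMod.natCast_eq_zero_iff N q).mp h)
  -- the level
  have hC : (N * q * q).factorization q = 2 := by
    rw [Nat.factorization_mul (mul_ne_zero hN0 hq.ne_zero) hq.ne_zero,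
      Nat.factorization_mul hN0 hq.ne_zero]
    simp only [Finsupp.coe_add, Pi.add_apply]
    rw [Nat.factorization_eq_zero_of_not_dvd hNq, hq.factorization_self]
  -- the Fricke transform
  obtain ⟨F', hF'⟩ := Fermat.Agent.Lib.Newform.H16.frickeOp (N * q * q) F
  -- `U_q F = 0`
  have hU : heckeU 2 q (⇑F : ℍ → ℂ) = 0 := by
    rw [hFc, heckeU_def]
    simp_rw [smul_slash_heckeMatrix]
    rw [← Finset.smul_sum, ← heckeU_def, heckeU_twist_self hψ (hf.isPer hχ), smul_zero]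
  have hFq : qCoeff F q = 0 :=
    qCoeff_eq_zero_of_heckeU_h54 hq.ne_zero F hU q dvd_rfl
  -- `U_q (F ∣ W) = 0`
  have hinv : SlInv 2 (Gamma0 (N * q * q)) (⇑F : ℍ → ℂ) := fun γ hγ =>
    SlashInvariantForm.slash_action_eqn F _ (Subgroup.mem_map_of_mem _ hγ)
  have htr : ∑ v : ZMod q, (⇑F : ℍ → ℂ) ∣[(2 : ℤ)] tL ((N : ℤ) * (v.val : ℤ) * q) = 0 := by
    rw [hFc]
    simp_rw [ModularForm.SL_smul_slash]
    rw [← Finset.smul_sum, twist_trace_zero hNz hχ hψ hχψ hf, smul_zero]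
  have hU' : heckeU 2 q (⇑F' : ℍ → ℂ) = 0 := by
    rw [hF']
    exact heckeU_fricke_eq_zero_h54 hinv htr
  have hF'q : ∀ n : ℕ, q ∣ n → qCoeff F' n = 0 :=
    qCoeff_eq_zero_of_heckeU_h54 hq.ne_zero F' hU'
  exact exists_newform_factorization_eq_two hq hC F F' hF hF' hFq hF'q

end Fermat.Agent.S59.TW.H54

end
-- ===== PACK-END S59/TW/H54/TwistNS.lean

-- ===== PACK-BEGIN S59/TW/H54/StarComm.lean
section


/-!
# TW-NS, anemic form (helper54), part 1: `U_q` commutes with the adjoint `U_r^*`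

For distinct primes `q, r ∣ C` and a `Γ₀(C)`-invariant function `Φ`, the operator
`U_r^* Φ = ∑_{j < r} Φ ∣ [r, 0; -C j, 1]` (the conjugate `W_C⁻¹ U_r W_C` of `U_r` by the Fricke
involution) commutes with `U_q`:

* `fricke_comm_heckeMatrix_h54` : `β_j W_C = W_C [r, 0; -C j, 1]`;
* `heckeU_slash_fricke_h54`     : `(U_r G) ∣ W_C = U_r^* (G ∣ W_C)`;
* `heckeU_starU_h54`            : `U_q (U_r^* Φ) = U_r^* (U_q Φ)`;
* `heckeU_fricke_heckeU_eq_zero_h54` : `U_q (G ∣ W_C) = 0 → U_q ((U_r G) ∣ W_C) = 0`.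

Function level, any weight.
-/

set_option autoImplicit false
set_option linter.unusedSectionVars false
set_option linter.unusedSimpArgs false

namespace Fermat.Agent.S59.TW.H54

open Matrix Matrix.SpecialLinearGroup CongruenceSubgroup UpperHalfPlane ModularForm
open Fermat.Agent.Lib.Newform.H803 Fermat.Agent.Lib.Newform.H923
open Fermat.Agent.Lib.Newform.H958.X
open scoped MatrixGroups ModularForm

/-- The matrix `[r, 0; -C j, 1]`. -/
noncomputable def starMatH54 (C r : ℕ) (hr : r ≠ 0) (j : ℕ) : GL (Fin 2) ℝ :=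
  intGL (r : ℤ) 0 (-((C : ℤ) * (j : ℤ))) 1 (by
    have : ((r : ℤ)) ≠ 0 := by exact_mod_cast hr
    simpa using this)

theorem isInt_starMatH54 (C r : ℕ) (hr : r ≠ 0) (j : ℕ) :
    IsInt (starMatH54 C r hr j) (r : ℤ) 0 (-((C : ℤ) * (j : ℤ))) 1 :=
  isInt_intGL _ _ _ _ _

/-- `β_j W_C = W_C [r, 0; -C j, 1]`. -/
theorem fricke_comm_heckeMatrix_h54 (C r : ℕ) [NeZero C] (hr : r ≠ 0) (j : ℕ) :
    heckeMatrix r j * frickeMatrix C = frickeMatrix C * starMatH54 C r hr j := by
  refine ((isInt_heckeMatrix hr j).mul (Fermat.Agent.Lib.Newform.H16.isInt_frickeMatrix C)).ext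
    ((Fermat.Agent.Lib.Newform.H16.isInt_frickeMatrix C).mul (isInt_starMatH54 C r hr j))
    ?_ ?_ ?_ ?_ <;> ring

/-- The adjoint operator `U_r^* Φ = ∑_{j < r} Φ ∣ [r, 0; -C j, 1]`. -/
noncomputable def starUH54 (k : ℤ) (C r : ℕ) (hr : r ≠ 0) (Φ : ℍ → ℂ) : ℍ → ℂ :=
  ∑ j ∈ Finset.range r, Φ ∣[k] starMatH54 C r hr j

theorem starUH54_zero (k : ℤ) (C r : ℕ) (hr : r ≠ 0) : starUH54 k C r hr 0 = 0 := by
  unfold starUH54
  simp only [SlashAction.zero_slash, Finset.sum_const_zero]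

/-- `(U_r G) ∣ W_C = U_r^* (G ∣ W_C)`. -/
theorem heckeU_slash_fricke_h54 (k : ℤ) (C r : ℕ) [NeZero C] (hr : r ≠ 0) (G : ℍ → ℂ) :
    (heckeU k r G) ∣[k] frickeMatrix C = starUH54 k C r hr (G ∣[k] frickeMatrix C) := by
  rw [heckeU_def, starUH54, SlashAction.sum_slash]
  refine Finset.sum_congr rfl fun j _ => ?_
  rw [← SlashAction.slash_mul, fricke_comm_heckeMatrix_h54 C r hr j, SlashAction.slash_mul]

/-- **The sandwich relation**: `[r, 0; -C j, 1] β_i = γ β_{i'} [r, 0; -C j', 1]` with `γ ∈ Γ₀(C)`,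
if `i r ≡ i'` modulo `q`, `q j' ≡ j` modulo `r` and `C = q r C₁`. -/
theorem starMat_mul_heckeMatrix_h54 {C q r : ℕ} (hq : q ≠ 0) (hr : r ≠ 0) (C₁ : ℕ)
    (hC : C = q * r * C₁) (i i' j j' : ℕ) (e e' : ℤ)
    (he : (i : ℤ) * r = i' + q * e) (he' : (q : ℤ) * j' = j + r * e') :
    ∃ γ ∈ Gamma0 C, starMatH54 C r hr j * heckeMatrix q i =
      mapGL ℝ γ * (heckeMatrix q i' * starMatH54 C r hr j') := by
  have hi' : (i' : ℤ) = i * r - q * e := by linarith
  have hj : (j : ℤ) = q * j' - r * e' := by linarith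
  have hCz : (C : ℤ) = q * r * C₁ := by exact_mod_cast hC
  let a : ℤ := 1 + i * C * j'
  let b : ℤ := e - i * i' * r * C₁ * j'
  let c : ℤ := C * (e' - q * C₁ * i * j * j')
  let d : ℤ := 1 + C₁ * (j * i' - q * i' * j' - j * i * r + C * j * i * i' * j')
  have hdet : a * d - b * c = 1 := by
    simp only [a, b, c, d]
    rw [hi', hj, hCz]
    ring
  let γ : SL(2, ℤ) := ⟨!![a, b; c, d], by rw [Matrix.det_fin_two_of]; exact hdet⟩
  have hγ : IsInt (mapGL ℝ γ) a b c d := by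
    have := isInt_mapGL γ
    simpa [γ] using this
  refine ⟨γ, ?_, ?_⟩
  · rw [mem_Gamma0_iff_dvd]
    have : γ 1 0 = c := by simp [γ]
    rw [this]
    exact ⟨e' - q * C₁ * i * j * j', rfl⟩
  · refine ((isInt_starMatH54 C r hr j).mul (isInt_heckeMatrix hq i)).ext
      (hγ.mul ((isInt_heckeMatrix hq i').mul (isInt_starMatH54 C r hr j'))) ?_ ?_ ?_ ?_
    · simp only [a, b, c, d, hi', hj, hCz]
      ring
    · simp only [a, b, c, d, hi', hj, hCz]
      ring
    · simp only [a, b, c, d, hi', hj, hCz]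
      ring
    · simp only [a, b, c, d, hi', hj, hCz]
      ring

section Comm

variable {k : ℤ} {C q r : ℕ}

/-- **`U_q` commutes with `U_r^*`** on `Γ₀(C)`-invariant functions (`q ≠ r` primes dividing
`C`). -/
theorem heckeU_starU_h54 (hq : q.Prime) (hr : r.Prime) (hqr : q ≠ r) (hqC : q ∣ C)
    (hrC : r ∣ C) {Φ : ℍ → ℂ} (hΦ : SlInv k (Gamma0 C) Φ) :
    heckeU k q (starUH54 k C r hr.ne_zero Φ) = starUH54 k C r hr.ne_zero (heckeU k q Φ) := by
  classical
  have : Fact q.Prime := ⟨hq⟩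
  have : Fact r.Prime := ⟨hr⟩
  have : NeZero q := ⟨hq.ne_zero⟩
  have : NeZero r := ⟨hr.ne_zero⟩
  -- `C = q r C₁`
  have hcop : Nat.Coprime q r := (Nat.coprime_primes hq hr).mpr hqr
  obtain ⟨C₁, hC₁⟩ : q * r ∣ C := hcop.mul_dvd_of_dvd_of_dvd hqC hrC
  -- units
  have hrq : (r : ZMod q) ≠ 0 := by
    intro h
    have := (ZMod.natCast_eq_zero_iff r q).mp h
    exact hqr ((Nat.prime_dvd_prime_iff_eq hq hr).mp this)
  have hqr' : (q : ZMod r) ≠ 0 := by
    intro h
    have := (ZMod.natCast_eq_zero_iff q r).mp h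
    exact hqr ((Nat.prime_dvd_prime_iff_eq hr hq).mp this).symm
  -- the pointwise relation
  have key : ∀ (x : ZMod q) (y : ZMod r),
      (Φ ∣[k] starMatH54 C r hr.ne_zero y.val) ∣[k] heckeMatrix q x.val =
        (Φ ∣[k] heckeMatrix q (x * (r : ZMod q)).val) ∣[k]
          starMatH54 C r hr.ne_zero (y * (q : ZMod r)⁻¹).val := by
    intro x y
    have h1 : (q : ℤ) ∣ (x.val : ℤ) * r - ((x * (r : ZMod q)).val : ℤ) := by
      rw [← ZMod.intCast_zmod_eq_zero_iff_dvd]
      push_cast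
      rw [ZMod.natCast_zmod_val, ZMod.natCast_zmod_val]
      ring
    obtain ⟨e, he⟩ := h1
    have h2 : (r : ℤ) ∣ (q : ℤ) * ((y * (q : ZMod r)⁻¹).val : ℤ) - (y.val : ℤ) := by
      rw [← ZMod.intCast_zmod_eq_zero_iff_dvd]
      push_cast
      rw [ZMod.natCast_zmod_val, ZMod.natCast_zmod_val]
      field_simp
      ring
    obtain ⟨e', he'⟩ := h2
    obtain ⟨γ, hγ, hmat⟩ := starMat_mul_heckeMatrix_h54 hq.ne_zero hr.ne_zero C₁ hC₁
      x.val (x * (r : ZMod q)).val y.val (y * (q : ZMod r)⁻¹).val e e'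
      (by linarith) (by linarith)
    rw [← SlashAction.slash_mul, hmat, SlashAction.slash_mul, ← sl_slash_mapGL, hΦ γ hγ,
      SlashAction.slash_mul]
  -- both sides as double sums over `ZMod q × ZMod r`
  have hL : heckeU k q (starUH54 k C r hr.ne_zero Φ) =
      ∑ x : ZMod q, ∑ y : ZMod r,
        (Φ ∣[k] starMatH54 C r hr.ne_zero y.val) ∣[k] heckeMatrix q x.val := by
    rw [heckeU_eq_sum_zmod']
    refine Finset.sum_congr rfl fun x _ => ?_
    rw [starUH54, sum_range_eq_sum_zmod' (p := r)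
      (fun j => Φ ∣[k] starMatH54 C r hr.ne_zero j), SlashAction.sum_slash]
  have hR : starUH54 k C r hr.ne_zero (heckeU k q Φ) =
      ∑ y : ZMod r, ∑ x : ZMod q,
        (Φ ∣[k] heckeMatrix q x.val) ∣[k] starMatH54 C r hr.ne_zero y.val := by
    rw [starUH54, sum_range_eq_sum_zmod' (p := r)
      (fun j => (heckeU k q Φ) ∣[k] starMatH54 C r hr.ne_zero j)]
    refine Finset.sum_congr rfl fun y _ => ?_
    rw [heckeU_eq_sum_zmod', SlashAction.sum_slash]
  rw [hL, hR, Finset.sum_comm]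
  simp_rw [key]
  -- reindex `y ↦ y q⁻¹`
  have hy : ∀ x : ZMod q, ∑ y : ZMod r,
      (Φ ∣[k] heckeMatrix q (x * (r : ZMod q)).val) ∣[k]
        starMatH54 C r hr.ne_zero (y * (q : ZMod r)⁻¹).val =
      ∑ y : ZMod r, (Φ ∣[k] heckeMatrix q (x * (r : ZMod q)).val) ∣[k]
        starMatH54 C r hr.ne_zero y.val := fun x =>
    Equiv.sum_comp (Equiv.mulRight₀ ((q : ZMod r)⁻¹) (inv_ne_zero hqr'))
      (fun y : ZMod r => (Φ ∣[k] heckeMatrix q (x * (r : ZMod q)).val) ∣[k]
        starMatH54 C r hr.ne_zero y.val)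
  rw [Finset.sum_comm]
  simp_rw [hy]
  -- reindex `x ↦ x r`
  have hx : ∑ x : ZMod q, ∑ y : ZMod r,
      (Φ ∣[k] heckeMatrix q (x * (r : ZMod q)).val) ∣[k] starMatH54 C r hr.ne_zero y.val =
      ∑ x : ZMod q, ∑ y : ZMod r,
        (Φ ∣[k] heckeMatrix q x.val) ∣[k] starMatH54 C r hr.ne_zero y.val :=
    Equiv.sum_comp (Equiv.mulRight₀ (r : ZMod q) hrq)
      (fun x : ZMod q => ∑ y : ZMod r,
        (Φ ∣[k] heckeMatrix q x.val) ∣[k] starMatH54 C r hr.ne_zero y.val)
  rw [hx, Finset.sum_comm]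

/-- If `U_q` kills `G ∣ W_C`, it kills `(U_r G) ∣ W_C` (`q ≠ r` primes dividing `C`). -/
theorem heckeU_fricke_heckeU_eq_zero_h54 [NeZero C] (hq : q.Prime) (hr : r.Prime) (hqr : q ≠ r)
    (hqC : q ∣ C) (hrC : r ∣ C) {G : ℍ → ℂ}
    (hG : SlInv k (Gamma0 C) (G ∣[k] frickeMatrix C))
    (h0 : heckeU k q (G ∣[k] frickeMatrix C) = 0) :
    heckeU k q ((heckeU k r G) ∣[k] frickeMatrix C) = 0 := by
  rw [heckeU_slash_fricke_h54 k C r hr.ne_zero G, heckeU_starU_h54 hq hr hqr hqC hrC hG, h0,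
    starUH54_zero]

end Comm

end Fermat.Agent.S59.TW.H54

end
-- ===== PACK-END S59/TW/H54/StarComm.lean

-- ===== PACK-BEGIN S59/TW/H54/Anemic.lean
section



/-!
# TW-NS, anemic form (helper54), part 2: a trace-new ANEMIC eigenvector is `q²`-new

`anemic_exists_newform` : let `q² ∥ C` and let `F ≠ 0` in `S₂(Γ₀(C))` be an eigenvector of the
GOOD Hecke operators only (`T_ℓ F = lam ℓ • F` for the primes `ℓ ∤ C`, `ℓ ∉ S`) with
`U_q F = 0 = U_q (F ∣ W_C)`.  Then there is a Prelude-newform `g` of a level `M ∣ C` with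
`v_q(M) = 2` and `a_ℓ(g) = lam ℓ` for all primes `ℓ ∤ C`, `ℓ ∉ S`.

No normalisation of `F` is needed (`a₁(F)` may vanish): the subspace
`Z = {G | T_ℓ G = lam ℓ • G, U_q G = 0, U_q (G ∣ W_C) = 0}` is stable under the FULL Hecke algebra
(`T_ℓ` commutes with `W_C`, and `U_q` commutes with `W_C⁻¹ U_r W_C` for `r ≠ q`:
`StarComm.lean`), hence contains a simultaneous eigenvector, which is a multiple of a normalized
eigenform in `Z`; part A (`TwistNew.lean`) applies to it.
-/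

set_option autoImplicit false
set_option linter.unusedSectionVars false
set_option linter.deprecated false
set_option linter.unusedVariables false

namespace Fermat.Agent.S59.TW.H54

open Matrix Matrix.SpecialLinearGroup CongruenceSubgroup UpperHalfPlane ModularForm
open Fermat.Agent.Lib.Newform.H803 Fermat.Agent.Lib.Newform.H958.X ModularFormClass
open Fermat.Agent.Lib.Newform
open scoped MatrixGroups ModularForm

variable {C : ℕ} [NeZero C]

/-- The Fricke transform of a cusp form is `Γ₀(C)`-invariant. -/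
theorem slInv_fricke_h54 (G : CuspForm (Gamma0 C) 2) :
    SlInv 2 (Gamma0 C) ((⇑G : ℍ → ℂ) ∣[(2 : ℤ)] frickeMatrix C) := fun γ hγ =>
  SlashInvariantForm.slash_action_eqn (H16.frickeCusp G) _ (Subgroup.mem_map_of_mem _ hγ)

/-- Two elements of the full Hecke algebra commute on every cusp form. -/
theorem heckeAlgebra_comm_apply_h54 (t₁ t₂ : CuspForm.heckeAlgebra C 2 (∅ : Set ℕ))
    (G : CuspForm (Gamma0 C) 2) :
    (t₁ : Module.End ℂ (CuspForm (Gamma0 C) 2)) ((t₂ : Module.End ℂ (CuspForm (Gamma0 C) 2)) G) =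
      (t₂ : Module.End ℂ (CuspForm (Gamma0 C) 2))
        ((t₁ : Module.End ℂ (CuspForm (Gamma0 C) 2)) G) := by
  have h := congrArg (fun x : CuspForm.heckeAlgebra C 2 (∅ : Set ℕ) =>
    (x : Module.End ℂ (CuspForm (Gamma0 C) 2)) G) (mul_comm t₁ t₂)
  simpa only [MulMemClass.coe_mul, Module.End.mul_apply] using h

/-- `U_q` commutes with every element of the full Hecke algebra, function level. -/
theorem heckeU_comm_h54 {q : ℕ} (hq : q.Prime) (hqC : q ∣ C)
    (t : CuspForm.heckeAlgebra C 2 (∅ : Set ℕ)) (G : CuspForm (Gamma0 C) 2) :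
    heckeU 2 q (⇑((t : Module.End ℂ (CuspForm (Gamma0 C) 2)) G) : ℍ → ℂ) =
      ⇑((t : Module.End ℂ (CuspForm (Gamma0 C) 2)) (CuspForm.heckeULin 2 hqC G)) := by
  have h := heckeAlgebra_comm_apply_h54
    (CuspForm.heckeAlgebra.U hq hqC (Set.notMem_empty _)) t G
  rw [CuspForm.heckeAlgebra.coe_U] at h
  rw [← h]
  rfl

/-- The subspace `Z` of the trace-new anemic eigenvectors. -/
noncomputable def anemicSubH54 (C : ℕ) [NeZero C] (q : ℕ) (S : Set ℕ) (lam : ℕ → ℂ) :
    Submodule ℂ (CuspForm (Gamma0 C) 2) where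
  carrier := {G | G ∈ H863.goodEigenspace C S lam ∧ heckeU 2 q (⇑G : ℍ → ℂ) = 0 ∧
    heckeU 2 q ((⇑G : ℍ → ℂ) ∣[(2 : ℤ)] frickeMatrix C) = 0}
  add_mem' := by
    rintro a b ⟨ha1, ha2, ha3⟩ ⟨hb1, hb2, hb3⟩
    refine ⟨Submodule.add_mem _ ha1 hb1, ?_, ?_⟩
    · rw [CuspForm.coe_add, heckeU_add, ha2, hb2, add_zero]
    · rw [CuspForm.coe_add, SlashAction.add_slash, heckeU_add, ha3, hb3, add_zero]
  zero_mem' := by
    refine ⟨Submodule.zero_mem _, ?_, ?_⟩
    · rw [CuspForm.coe_zero, heckeU_zero]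
    · rw [CuspForm.coe_zero, SlashAction.zero_slash, heckeU_zero]
  smul_mem' := by
    rintro c a ⟨ha1, ha2, ha3⟩
    refine ⟨Submodule.smul_mem _ c ha1, ?_, ?_⟩
    · rw [CuspForm.IsGLPos.coe_smul, heckeU_smul, ha2, smul_zero]
    · rw [CuspForm.IsGLPos.coe_smul, smul_slash_frickeMatrix, heckeU_smul, ha3, smul_zero]

theorem mem_anemicSubH54 {q : ℕ} {S : Set ℕ} {lam : ℕ → ℂ} {G : CuspForm (Gamma0 C) 2} :
    G ∈ anemicSubH54 C q S lam ↔ G ∈ H863.goodEigenspace C S lam ∧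
      heckeU 2 q (⇑G : ℍ → ℂ) = 0 ∧
      heckeU 2 q ((⇑G : ℍ → ℂ) ∣[(2 : ℤ)] frickeMatrix C) = 0 := Iff.rfl

/-- The endomorphisms preserving a submodule, as a `ℤ`-subalgebra. -/
def stabAlgH54 {V : Type*} [AddCommGroup V] [Module ℂ V] (Z : Submodule ℂ V) :
    Subalgebra ℤ (Module.End ℂ V) where
  carrier := {t | ∀ G ∈ Z, t G ∈ Z}
  mul_mem' := fun {a b} ha hb G hG => by
    rw [Module.End.mul_apply]
    exact ha _ (hb G hG)
  add_mem' := fun {a b} ha hb G hG => by
    rw [LinearMap.add_apply]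
    exact Z.add_mem (ha G hG) (hb G hG)
  algebraMap_mem' := fun n G hG => by
    rw [Algebra.algebraMap_eq_smul_one, LinearMap.smul_apply, Module.End.one_apply]
    exact Z.smul_of_tower_mem n hG

/-- **`Z` is stable under the full Hecke algebra.** -/
theorem heckeAlgebra_mapsTo_anemicSubH54 {q : ℕ} (hq : q.Prime) (hqC : q ∣ C) (S : Set ℕ)
    (lam : ℕ → ℂ) (t : CuspForm.heckeAlgebra C 2 (∅ : Set ℕ)) (G : CuspForm (Gamma0 C) 2)
    (hG : G ∈ anemicSubH54 C q S lam) :
    (t : Module.End ℂ (CuspForm (Gamma0 C) 2)) G ∈ anemicSubH54 C q S lam := by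
  have hle : CuspForm.heckeAlgebra C 2 (∅ : Set ℕ) ≤ stabAlgH54 (anemicSubH54 C q S lam) := by
    apply Algebra.adjoin_le
    rintro T (⟨ℓ, hℓ, hℓC, -, rfl⟩ | ⟨r, hrC, hr, -, rfl⟩)
    · -- `T_ℓ`
      rintro G ⟨hG1, hG2, hG3⟩
      refine ⟨?_, ?_, ?_⟩
      · exact H863.heckeAlgebra_mapsTo_goodEigenspace S lam
          (CuspForm.heckeAlgebra.T hℓ hℓC (Set.notMem_empty _)) G hG1
      · have h := heckeU_comm_h54 hq hqC
          (CuspForm.heckeAlgebra.T hℓ hℓC (Set.notMem_empty _)) G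
        rw [CuspForm.heckeAlgebra.coe_T] at h
        rw [h]
        have h0 : CuspForm.heckeULin 2 hqC G = 0 := DFunLike.coe_injective (by
          rw [CuspForm.coe_heckeULin_apply, hG2, CuspForm.coe_zero])
        rw [h0, map_zero, CuspForm.coe_zero]
      · rw [CuspForm.coe_heckeTLin_apply, ← H16.frickeHecke C ℓ hℓ hℓC G]
        have h := heckeU_comm_h54 hq hqC
          (CuspForm.heckeAlgebra.T hℓ hℓC (Set.notMem_empty _)) (H16.frickeCusp G)
        rw [CuspForm.heckeAlgebra.coe_T, CuspForm.coe_heckeTLin_apply,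
          H16.coe_frickeCusp] at h
        rw [h]
        have h0 : CuspForm.heckeULin 2 hqC (H16.frickeCusp G) = 0 := DFunLike.coe_injective (by
          rw [CuspForm.coe_heckeULin_apply, H16.coe_frickeCusp, hG3, CuspForm.coe_zero])
        rw [h0, map_zero, CuspForm.coe_zero]
    · -- `U_r`
      rintro G ⟨hG1, hG2, hG3⟩
      refine ⟨?_, ?_, ?_⟩
      · exact H863.heckeAlgebra_mapsTo_goodEigenspace S lam
          (CuspForm.heckeAlgebra.U hr hrC (Set.notMem_empty _)) G hG1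
      · have h := heckeU_comm_h54 hq hqC
          (CuspForm.heckeAlgebra.U hr hrC (Set.notMem_empty _)) G
        rw [CuspForm.heckeAlgebra.coe_U] at h
        rw [h]
        have h0 : CuspForm.heckeULin 2 hqC G = 0 := DFunLike.coe_injective (by
          rw [CuspForm.coe_heckeULin_apply, hG2, CuspForm.coe_zero])
        rw [h0, map_zero, CuspForm.coe_zero]
      · rw [CuspForm.coe_heckeULin_apply]
        by_cases hqr : q = r
        · subst hqr
          rw [hG2, SlashAction.zero_slash, heckeU_zero]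
        · exact heckeU_fricke_heckeU_eq_zero_h54 hq hr hqr hqC hrC (slInv_fricke_h54 G) hG3
  exact hle t.2 G hG

/-- The action of the full Hecke algebra on `Z`. -/
noncomputable def heckeOnAnemicH54 {q : ℕ} (hq : q.Prime) (hqC : q ∣ C) (S : Set ℕ)
    (lam : ℕ → ℂ) :
    CuspForm.heckeAlgebra C 2 (∅ : Set ℕ) →+* Module.End ℂ (anemicSubH54 C q S lam) where
  toFun t := (t : Module.End ℂ (CuspForm (Gamma0 C) 2)).restrict
    (fun w hw => heckeAlgebra_mapsTo_anemicSubH54 hq hqC S lam t w hw)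
  map_one' := by
    ext w
    simp
  map_mul' a b := by
    ext w
    simp [Module.End.mul_apply]
  map_zero' := by
    ext w
    simp
  map_add' a b := by
    ext w
    simp

theorem heckeOnAnemicH54_apply_coe {q : ℕ} (hq : q.Prime) (hqC : q ∣ C) (S : Set ℕ)
    (lam : ℕ → ℂ) (t : CuspForm.heckeAlgebra C 2 (∅ : Set ℕ))
    (w : anemicSubH54 C q S lam) :
    ((heckeOnAnemicH54 hq hqC S lam t w : anemicSubH54 C q S lam) : CuspForm (Gamma0 C) 2)
      = (t : Module.End ℂ (CuspForm (Gamma0 C) 2)) (w : CuspForm (Gamma0 C) 2) := rfl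

/-- A nonzero element of `Z` gives a NORMALIZED eigenform in `Z`. -/
theorem exists_normalized_mem_anemicSubH54 {q : ℕ} (hq : q.Prime) (hqC : q ∣ C) (S : Set ℕ)
    (lam : ℕ → ℂ) (F : CuspForm (Gamma0 C) 2) (hF0 : F ≠ 0)
    (hF : F ∈ anemicSubH54 C q S lam) :
    ∃ F₁ : CuspForm (Gamma0 C) 2, F₁.IsNormalizedEigenform ∧ F₁ ∈ anemicSubH54 C q S lam := by
  classical
  have := H863.finiteDimensional_cuspForm C
  set W := anemicSubH54 C q S lam with hW
  have : Nontrivial W := ⟨⟨⟨F, hF⟩, 0, fun h0 => hF0 (congrArg Subtype.val h0)⟩⟩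
  set ρ := heckeOnAnemicH54 hq hqC S lam with hρ
  have hker : RingHom.ker ρ ≠ ⊤ := by
    intro htop
    have h1 : (1 : CuspForm.heckeAlgebra C 2 (∅ : Set ℕ)) ∈ RingHom.ker ρ :=
      htop ▸ Submodule.mem_top
    rw [RingHom.mem_ker, map_one] at h1
    have h2 := congrArg (fun e : Module.End ℂ W => e ⟨F, hF⟩) h1
    simp only [Module.End.one_apply, LinearMap.zero_apply] at h2
    exact hF0 (congrArg Subtype.val h2)
  obtain ⟨𝔫, h𝔫max, h𝔫le⟩ := Ideal.exists_le_maximal _ hker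
  have : 𝔫.IsPrime := h𝔫max.isPrime
  obtain ⟨g, χ, hg0, hgχ, -⟩ := Fermat.Agent.S49.exists_eigenvector_ker_le' ρ 𝔫 h𝔫le
  have hg0' : (g : CuspForm (Gamma0 C) 2) ≠ 0 := fun h0 => hg0 (Subtype.ext h0)
  have hgχ' : ∀ t : CuspForm.heckeAlgebra C 2 (∅ : Set ℕ),
      (t : Module.End ℂ (CuspForm (Gamma0 C) 2)) (g : CuspForm (Gamma0 C) 2)
        = χ t • (g : CuspForm (Gamma0 C) 2) := by
    intro t
    have := congrArg Subtype.val (hgχ t)
    simpa [hρ, heckeOnAnemicH54_apply_coe] using this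
  -- the eigen-relations at function level
  have hT : ∀ p : ℕ, p.Prime → ¬ p ∣ C →
      ∃ c : ℂ, heckeT 2 p (⇑(g : CuspForm (Gamma0 C) 2) : ℍ → ℂ) =
        c • (⇑(g : CuspForm (Gamma0 C) 2) : ℍ → ℂ) := by
    intro p hp hpC
    refine ⟨χ (CuspForm.heckeAlgebra.T hp hpC (Set.notMem_empty _)), ?_⟩
    have h1 := congrArg (fun G : CuspForm (Gamma0 C) 2 => (⇑G : ℍ → ℂ))
      (hgχ' (CuspForm.heckeAlgebra.T hp hpC (Set.notMem_empty _)))
    simpa only [CuspForm.heckeAlgebra.coe_T, CuspForm.coe_heckeTLin_apply,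
      CuspForm.IsGLPos.coe_smul] using h1
  have hU : ∀ p : ℕ, p.Prime → p ∣ C →
      ∃ c : ℂ, heckeU 2 p (⇑(g : CuspForm (Gamma0 C) 2) : ℍ → ℂ) =
        c • (⇑(g : CuspForm (Gamma0 C) 2) : ℍ → ℂ) := by
    intro p hp hpC
    refine ⟨χ (CuspForm.heckeAlgebra.U hp hpC (Set.notMem_empty _)), ?_⟩
    have h1 := congrArg (fun G : CuspForm (Gamma0 C) 2 => (⇑G : ℍ → ℂ))
      (hgχ' (CuspForm.heckeAlgebra.U hp hpC (Set.notMem_empty _)))
    simpa only [CuspForm.heckeAlgebra.coe_U, CuspForm.coe_heckeULin_apply,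
      CuspForm.IsGLPos.coe_smul] using h1
  -- the first coefficient does not vanish
  have hb1 : qCoeff (⇑(g : CuspForm (Gamma0 C) 2) : ℍ → ℂ) 1 ≠ 0 := fun h1 =>
    hg0' (H683.eq_zero_of_eigen_of_coeff_one_eq_zero _ hT hU h1)
  set b := qCoeff (⇑(g : CuspForm (Gamma0 C) 2) : ℍ → ℂ) 1 with hb
  refine ⟨b⁻¹ • (g : CuspForm (Gamma0 C) 2), ?_, W.smul_mem _ g.2⟩
  apply H683.isNormalizedEigenform_of_eigen
  · rw [Fermat.Agent.S49.glue_qCoeff_smul]
    exact inv_mul_cancel₀ hb1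
  · intro p hp hpC
    obtain ⟨c, hc⟩ := hT p hp hpC
    exact ⟨c, by rw [CuspForm.IsGLPos.coe_smul, heckeT_smul, hc, smul_comm]⟩
  · intro p hp hpC
    obtain ⟨c, hc⟩ := hU p hp hpC
    exact ⟨c, by rw [CuspForm.IsGLPos.coe_smul, heckeU_smul, hc, smul_comm]⟩

/-- **TW-NS, anemic form.**  A nonzero trace-new eigenvector of the good Hecke operators at a
level `C` with `q² ∥ C` has a newform of level `M ∣ C`, `v_q(M) = 2`. -/
theorem anemic_exists_newform {q : ℕ} (hq : q.Prime) (hC : C.factorization q = 2)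
    (S : Set ℕ) (lam : ℕ → ℂ) (F : CuspForm (Gamma0 C) 2) (hF0 : F ≠ 0)
    (heig : ∀ (ℓ : ℕ) (hℓ : ℓ.Prime) (hℓC : ¬ ℓ ∣ C), ℓ ∉ S →
      CuspForm.heckeTLin 2 hℓ hℓC F = lam ℓ • F)
    (hU : heckeU 2 q (⇑F : ℍ → ℂ) = 0)
    (hUW : heckeU 2 q ((⇑F : ℍ → ℂ) ∣[(2 : ℤ)] frickeMatrix C) = 0) :
    ∃ (M : ℕ) (_ : NeZero M) (g : CuspForm (Gamma0 M) 2), g.IsNewform ∧ M ∣ C ∧
      M.factorization q = 2 ∧
      ∀ ℓ : ℕ, ℓ.Prime → ¬ ℓ ∣ C → ℓ ∉ S → qCoeff g ℓ = lam ℓ := by
  have hqC : q ∣ C := by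
    by_contra h
    rw [Nat.factorization_eq_zero_of_not_dvd h] at hC
    omega
  have : NeZero q := ⟨hq.ne_zero⟩
  obtain ⟨F₁, hF₁, hF₁1, hF₁2, hF₁3⟩ :=
    exists_normalized_mem_anemicSubH54 hq hqC S lam F hF0 ⟨heig, hU, hUW⟩
  have hFq : qCoeff F₁ q = 0 := qCoeff_eq_zero_of_heckeU_h54 hq.ne_zero F₁ hF₁2 q dvd_rfl
  have hF'q : ∀ n : ℕ, q ∣ n → qCoeff (H16.frickeCusp F₁) n = 0 :=
    qCoeff_eq_zero_of_heckeU_h54 hq.ne_zero (H16.frickeCusp F₁)
      (by rw [H16.coe_frickeCusp]; exact hF₁3)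
  obtain ⟨M, hM, g, hg, hMC, hMq, hag⟩ := exists_newform_factorization_eq_two hq hC F₁
    (H16.frickeCusp F₁) hF₁ (H16.coe_frickeCusp F₁) hFq hF'q
  refine ⟨M, hM, g, hg, hMC, hMq, fun ℓ hℓ hℓC hℓS => ?_⟩
  rw [hag ℓ hℓ hℓC]
  -- `a_ℓ(F₁) = lam ℓ`
  have h1 := congrArg (fun G : CuspForm (Gamma0 C) 2 => qCoeff (⇑G : ℍ → ℂ) 1)
    (hF₁1 ℓ hℓ hℓC hℓS)
  simp only [Fermat.Agent.S49.glue_qCoeff_heckeTLin hℓ hℓC,
    Fermat.Agent.S49.glue_qCoeff_smul] at h1
  have hℓ1 : ¬ ℓ ∣ 1 := fun h => hℓ.one_lt.ne' (Nat.dvd_one.mp h)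
  rw [if_neg hℓ1, add_zero, one_mul, hF₁.1, mul_one] at h1
  exact h1

end Fermat.Agent.S59.TW.H54

end
-- ===== PACK-END S59/TW/H54/Anemic.lean

-- ===== PACK-BEGIN A3/H319/Level.lean
section











/-!
# A3 / LEVEL (helper319): `levelStatement : S19.LevelStatement`

The torsion `J₀(N)[ℓ^k]` embeds Galois-equivariantly into `J₀(N p)[ℓ^k]` for every prime `p ≠ ℓ`
(we need `p = 2` for `ℓ = 3` and `p = 3` for `ℓ = 2`): the map is the pull-back (conorm) along
the Prelude degeneracy map `heckeAlphaBar N p` (inclusion of function fields).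

Injectivity uses the Kummer dictionary on main instead of ramification theory:
`x` is the Kummer class of an additive character `c` of `Γ₀(N)` (ONTO, `S30.H810`), its pull-back
is the Kummer class of `c|Γ₀(N p)` (`isKum_levelPull`), which vanishes if the pull-back is `0`
(`S29.H718.isKum_zero_right`); a character of `Γ₀(N)` with values in `ℤ/ℓ^k` vanishing on
`Γ₀(N p)` is `0` (`eq_zero_of_forall_mem_Gamma0_mul`), hence `x = 0` (`S29.M4b.H89.isKum_unique`).
-/

set_option autoImplicit false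
set_option linter.style.haveILetI false

noncomputable section

namespace Fermat.Agent.A3.H319

open ModularCurve AlgebraicCurve CongruenceSubgroup UpperHalfPlane
open Fermat.Agent.S24 Fermat.Agent.S29 Fermat.Agent.S29.M4b
open scoped MatrixGroups Manifold

variable (N p : ℕ) [NeZero N] [NeZero p]

/-- The degeneracy map `α : FF N → FF (N p)` (inclusion) is integral. -/
theorem levelAlpha_integral : (heckeAlphaBar Kbar N p).toRingHom.IsIntegral :=
  H812.isIntegral_of_finiteAlong (H812.finiteAlong_heckeAlphaBar N p)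

theorem levelAlpha_fundId :
    haveI : HasPrincipalDivisors Kbar (FF (N * p)) :=
      Fermat.Agent.Lib.RR.H864.hasPrincipalDivisors_modularFunctionFieldBar (N * p)
    FundamentalIdentityAlong Kbar (heckeAlphaBar Kbar N p) (levelAlpha_integral N p) := by
  haveI : HasPrincipalDivisors Kbar (FF (N * p)) :=
    Fermat.Agent.Lib.RR.H864.hasPrincipalDivisors_modularFunctionFieldBar (N * p)
  exact H812.fundamentalIdentityAlong (H812.exists_coord_modular N) (heckeAlphaBar Kbar N p)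
    (H812.finiteAlong_heckeAlphaBar N p) (levelAlpha_integral N p)

/-- The pull-back (conorm) `J₀(N)(ℚ̄) → J₀(N p)(ℚ̄)`. -/
def levelPull : JZero N →+ JZero (N * p) :=
  haveI : HasPrincipalDivisors Kbar (FF (N * p)) :=
    Fermat.Agent.Lib.RR.H864.hasPrincipalDivisors_modularFunctionFieldBar (N * p)
  pic0Pull (heckeAlphaBar Kbar N p) (levelAlpha_integral N p) (levelAlpha_fundId N p)

/-- The pull-back is Galois-equivariant. -/
theorem levelPull_smul (σ : Kbar ≃ₐ[ℚ] Kbar) (x : JZero N) :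
    levelPull N p (σ • x) = σ • levelPull N p x := by
  haveI : HasPrincipalDivisors Kbar (FF (N * p)) :=
    Fermat.Agent.Lib.RR.H864.hasPrincipalDivisors_modularFunctionFieldBar (N * p)
  rw [galois_smul_pic0_def, galois_smul_pic0_def]
  exact pic0Pull_smul (heckeAlphaBar Kbar N p) (levelAlpha_integral N p) (levelAlpha_fundId N p)
    (H571.intertwines_heckeAlphaBar N p σ) x

/-- Restriction of a function on `Γ₀(N)` to `Γ₀(N p)`. -/
def resG0 {A : Type*} (c : G0 N → A) : G0 (N * p) → A :=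
  fun γ => c ⟨(γ : SL(2, ℤ)), Gamma0_mul_le N p γ.2⟩

omit [NeZero N] [NeZero p] in
theorem goodRing_mul_le : H648.goodRing N ≤ H648.goodRing (N * p) := by
  rintro f ⟨h1, h2, h3⟩
  exact ⟨h1, fun γ hγ τ => h2 γ (Gamma0_mul_le N p hγ) τ, h3⟩

/-- **Kummer classes pull back**: if `x` is the Kummer class of `c` at level `N`, then the
pull-back of `x` is the Kummer class of `c|Γ₀(N p)` at level `N p`. -/
theorem isKum_levelPull {n : ℕ} {c : G0 N → ZMod n} {x : JZero N} (h : IsKum N n c x) :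
    IsKum (N * p) n (resG0 N p c) (levelPull N p x) := by
  haveI : HasPrincipalDivisors Kbar (FF (N * p)) :=
    Fermat.Agent.Lib.RR.H864.hasPrincipalDivisors_modularFunctionFieldBar (N * p)
  obtain ⟨f, t, U, ht, hx, hU, hR⟩ := h
  refine ⟨heckeAlphaBar Kbar N p f, heckeAlphaBar Kbar N p t, U,
    (map_ne_zero (heckeAlphaBar Kbar N p)).mpr ht,
    isKummerClass_pic0Pull (heckeAlphaBar Kbar N p) (levelAlpha_integral N p)
      (levelAlpha_fundId N p) hx,
    ⟨hU.mdiff, hU.ne_zero, fun γ τ => hU.hasChar ⟨(γ : SL(2, ℤ)), Gamma0_mul_le N p γ.2⟩ τ,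
      goodRing_mul_le N p hU.pow_mem⟩,
    goodRing_mul_le N p hR.1, ?_⟩
  rw [hR.2, ← map_pow, ← map_mul, coe_heckeAlphaBar]

/-- `ℤ/n` has no `p`-torsion when `p` is prime to `n`. -/
theorem zmod_eq_zero_of_nsmul {n p : ℕ} (h : Nat.Coprime p n) (a : ZMod n) (ha : p • a = 0) :
    a = 0 := by
  rw [nsmul_eq_mul] at ha
  have hu : IsUnit ((p : ℕ) : ZMod n) := (ZMod.unitOfCoprime p h).isUnit
  exact (hu.mul_right_eq_zero).mp ha

/-- **Injectivity of the pull-back on torsion prime to `p`.** -/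
theorem eq_zero_of_levelPull_eq_zero (hp : p.Prime) (n : ℕ) [NeZero n] (hnp : Nat.Coprime p n)
    {x : JZero N} (hx : (n : ℤ) • x = 0) (h0 : levelPull N p x = 0) : x = 0 := by
  obtain ⟨c, hc⟩ := Fermat.Agent.S30.H810.exists_isKum_of_torsion N n hx
  have hadd := fun γ γ' => Fermat.Agent.S30.Fin.fin_isKum_map_mul hc γ γ'
  have h1 := isKum_levelPull N p hc
  rw [h0] at h1
  have hres : resG0 N p c = 0 := Fermat.Agent.S29.H718.isKum_zero_right (N * p) n h1
  have hc0 : c = 0 := by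
    funext γ
    exact eq_zero_of_forall_mem_Gamma0_mul hp (zmod_eq_zero_of_nsmul hnp) c hadd
      (fun γ hγ => congrFun hres ⟨(γ : SL(2, ℤ)), hγ⟩) γ
  obtain ⟨c₀, hc₀⟩ := Fermat.Agent.S30.H810.exists_isKum_of_torsion N n
    (x := (0 : JZero N)) (smul_zero _)
  have hc₀0 : c₀ = 0 := Fermat.Agent.S29.H718.isKum_zero_right N n hc₀
  rw [hc0] at hc
  rw [hc₀0] at hc₀
  exact Fermat.Agent.S29.M4b.H89.isKum_unique N n hc hc₀

open Fermat.Agent.S19 in
/-- The pull-back on `ℓ^k`-torsion. -/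
def torsPull (ℓ k : ℕ) : Tors N ℓ k →+ Tors (N * p) ℓ k :=
  (((levelPull N p).toIntLinearMap).restrict
    (p := Submodule.torsionBy ℤ (JZero N) ((ℓ : ℤ) ^ k))
    (q := Submodule.torsionBy ℤ (JZero (N * p)) ((ℓ : ℤ) ^ k)) (fun x hx => by
      rw [Submodule.mem_torsionBy_iff] at hx ⊢
      rw [← map_smul, hx, map_zero])).toAddMonoidHom

open Fermat.Agent.S19 in
theorem coe_torsPull (ℓ k : ℕ) (x : Tors N ℓ k) :
    ((torsPull N p ℓ k x : Tors (N * p) ℓ k) : JZero (N * p)) = levelPull N p (x : JZero N) :=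
  rfl

open Fermat.Agent.S19 in
theorem torsPull_injective (hp : p.Prime) (ℓ k : ℕ) (hℓ : ℓ.Prime) (hℓp : ℓ ≠ p) :
    Function.Injective (torsPull N p ℓ k) := by
  rw [injective_iff_map_eq_zero]
  intro x hx
  have h0 : levelPull N p (x : JZero N) = 0 := by
    rw [← coe_torsPull, hx]; rfl
  haveI : NeZero (ℓ ^ k) := ⟨pow_ne_zero k hℓ.ne_zero⟩
  have hcop : Nat.Coprime p (ℓ ^ k) :=
    Nat.Coprime.pow_right k ((Nat.coprime_primes hp hℓ).mpr (Ne.symm hℓp))
  have hx' : ((ℓ ^ k : ℕ) : ℤ) • (x : JZero N) = 0 := by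
    have := (Submodule.mem_torsionBy_iff _ _).mp x.2
    push_cast
    exact this
  exact Subtype.ext (eq_zero_of_levelPull_eq_zero N p hp (ℓ ^ k) hcop hx' h0)

open Fermat.Agent.S19 in
theorem torsPull_torsAct (ℓ k : ℕ) (σ : GalQ) (x : Tors N ℓ k) :
    torsPull N p ℓ k (torsAct N ℓ k σ x) = torsAct (N * p) ℓ k σ (torsPull N p ℓ k x) := by
  apply Subtype.ext
  rw [coe_torsPull, coe_torsAct, coe_torsAct, coe_torsPull]
  exact levelPull_smul N p σ (x : JZero N)

open Fermat.Agent.S19 in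
/-- **LEVEL node of A3** (frozen interface `Fermat.Agent.S19.LevelStatement`). -/
theorem levelStatement : Fermat.Agent.S19.LevelStatement := by
  intro N _ ℓ hℓ hℓN k
  have hprime : ℓ.Prime := hℓ.out
  by_cases h5 : 5 ≤ ℓ
  · exact ⟨N, inferInstance, k, hℓN, Or.inl h5, AddMonoidHom.id _, Function.injective_id,
      fun _ _ => rfl⟩
  · -- `ℓ = 2` or `ℓ = 3`
    have hℓ23 : ℓ = 2 ∨ ℓ = 3 := by
      have h2 := hprime.two_le
      have hlt : ℓ < 5 := not_le.mp h5
      interval_cases ℓ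
      · exact Or.inl rfl
      · exact Or.inr rfl
      · exact absurd hprime (by decide)
    rcases hℓ23 with rfl | rfl
    · -- `ℓ = 2`, auxiliary prime `3`
      by_cases h3 : 3 ∣ N
      · exact ⟨N, inferInstance, k, hℓN, Or.inr (Or.inr ⟨rfl, h3⟩), AddMonoidHom.id _,
          Function.injective_id, fun _ _ => rfl⟩
      · refine ⟨N * 3, inferInstance, k, ?_, Or.inr (Or.inr ⟨rfl, dvd_mul_left 3 N⟩),
          torsPull N 3 2 k, torsPull_injective N 3 Nat.prime_three 2 k Nat.prime_two (by decide),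
          fun σ x => torsPull_torsAct N 3 2 k σ x⟩
        intro h
        rcases (Nat.Prime.dvd_mul Nat.prime_two).mp h with h | h
        · exact hℓN h
        · exact absurd h (by decide)
    · -- `ℓ = 3`, auxiliary prime `2`
      by_cases h2 : 2 ∣ N
      · exact ⟨N, inferInstance, k, hℓN, Or.inr (Or.inl ⟨rfl, h2⟩), AddMonoidHom.id _,
          Function.injective_id, fun _ _ => rfl⟩
      · refine ⟨N * 2, inferInstance, k, ?_, Or.inr (Or.inl ⟨rfl, dvd_mul_left 2 N⟩),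
          torsPull N 2 3 k, torsPull_injective N 2 Nat.prime_two 3 k Nat.prime_three (by decide),
          fun σ x => torsPull_torsAct N 2 3 k σ x⟩
        intro h
        rcases (Nat.Prime.dvd_mul Nat.prime_three).mp h with h | h
        · exact hℓN h
        · exact absurd h (by decide)

end Fermat.Agent.A3.H319

end
end
-- ===== PACK-END A3/H319/Level.lean

-- ===== PACK-BEGIN S59/TW/H788/GalR.lean
section








/-!
# Row S59 / row HARD, cell TW, layer 4, leaf GAL-R  (helper788)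

`galR788 : S58.S36Statement → H314.GalRStatement` (`TW/H314/CmpSpec.lean`, VERBATIM):
at a newform point `emb : T_Q → O'` of level `M` with `q_j² ∥ M` the inertia value `w` at
`(φ, σ)`, `σ ↦` a primitive root modulo `q_j`, is not mapped to `1`.

Proof.  The frozen S36 (hypothesis) gives a representation `ρ''` over a finite extension `O''` of
`O'` attached to the newform, NOT unipotent on inertia at `q_j`; its hypothesis `hres` holds
because the Frobenius characteristic polynomials reduce to those of `ρ̄` (`S58.H273`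
`residual_absIrr_of_frob`; oddness `S59.G4.H178` + `S59.H540`).  `ρ''` and
`ρ_Q ⊗_{T_Q} O''` have the same Frobenius characteristic polynomials outside `Σ_Q`, hence the same
characteristic polynomials everywhere (`S58.H93.chebCharpoly`).  If `emb w = 1` then
`ρ_Q ⊗ O''` is unipotent on inertia at `q_j` (`isUnipotentOnInertiaAt_baseChangeAlong788`),
hence so is `ρ''`: contradiction.
-/

set_option autoImplicit false
set_option linter.unusedSectionVars false
set_option linter.unusedVariables false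
set_option linter.style.haveILetI false
set_option maxHeartbeats 1000000
set_option synthInstance.maxHeartbeats 400000

open Polynomial IsLocalRing

namespace Fermat.Agent.S59.TW.H788

open Fermat.Agent.S59.Arch Fermat.Agent.S59.TW Fermat.Agent.S59.TW.H959
  Fermat.Agent.S59.TW.H314 Fermat.Agent.S59.TW.Aut

/-- The characteristic polynomials of the reduction. -/
theorem charpoly_residual788 {A : Type} [CommRing A] [IsLocalRing A] (ρ : GaloisRepAdic A)
    (σ : AlgebraicClosure ℚ ≃ₐ[ℚ] AlgebraicClosure ℚ) :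
    LinearMap.charpoly (ρ.residual.ρ σ) = (LinearMap.charpoly (ρ.ρ σ)).map (residue A) := by
  have h1 : LinearMap.charpoly (ρ.residual.ρ σ) =
      LinearMap.charpoly ((ρ.ρ σ).baseChange (ResidueField A)) := rfl
  rw [h1, LinearMap.charpoly_baseChange]
  rfl

/-- Equivalent residual representations have the same characteristic polynomials. -/
theorem charpoly_eq_of_isEquiv788 {k : Type} [Field k] {ρ₁ ρ₂ : ResidualGaloisRep k}
    (h : ρ₁.IsEquiv ρ₂) (σ : AlgebraicClosure ℚ ≃ₐ[ℚ] AlgebraicClosure ℚ) :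
    LinearMap.charpoly (ρ₂.ρ σ) = LinearMap.charpoly (ρ₁.ρ σ) := by
  obtain ⟨e⟩ := h
  have h1 : ρ₂.ρ σ = e.toLinearEquiv.conj (ρ₁.ρ σ) := by
    apply LinearMap.ext
    intro x
    rw [LinearEquiv.conj_apply, LinearMap.comp_apply, LinearMap.comp_apply]
    show ρ₂.ρ σ x = e.toLinearEquiv (ρ₁.ρ σ (e.toLinearEquiv.symm x))
    rw [e.map_apply, LinearEquiv.apply_symm_apply]
  rw [h1, LinearEquiv.charpoly_conj]

/-- The characteristic polynomials of a base change of a residual representation. -/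
theorem charpoly_res_baseChangeAlong788 {k k' : Type} [Field k] [Field k'] (κ : k →+* k')
    (ρ : ResidualGaloisRep k) (σ : AlgebraicClosure ℚ ≃ₐ[ℚ] AlgebraicClosure ℚ) :
    LinearMap.charpoly ((ρ.baseChangeAlong κ).ρ σ) = (LinearMap.charpoly (ρ.ρ σ)).map κ := by
  letI : Algebra k k' := κ.toAlgebra
  have h1 : LinearMap.charpoly ((ρ.baseChangeAlong κ).ρ σ) =
      LinearMap.charpoly ((ρ.ρ σ).baseChange k') := rfl
  rw [h1, LinearMap.charpoly_baseChange]
  rfl

section Pkg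

variable {p : ℕ}
  {𝒪 : Type} [CommRing 𝒪] [IsDomain 𝒪] [IsDiscreteValuationRing 𝒪]
  [IsAdicComplete (maximalIdeal 𝒪) 𝒪]
  {ρbar : ResidualGaloisRep (ResidueField 𝒪)} {t : PType} {Smin Sig : Finset ℕ}
  [NeZero (wilesLevel p t Smin Sig)]

/-- In a Hecke package the characteristic polynomials of `ρ̄` are the reductions of those of
`ρ_T`. -/
theorem charpoly_rhobar_map788 (P : HeckePkg p 𝒪 ρbar t Smin Sig)
    (σ : AlgebraicClosure ℚ ≃ₐ[ℚ] AlgebraicClosure ℚ) :
    (LinearMap.charpoly (ρbar.ρ σ)).map (ResidueField.map (algebraMap 𝒪 P.T)) =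
      (LinearMap.charpoly (P.H.ρ.ρ σ)).map (residue P.T) := by
  rw [← charpoly_residual788, ← charpoly_res_baseChangeAlong788]
  exact charpoly_eq_of_isEquiv788 P.hres σ

end Pkg

/-- `p` lies in the maximal ideal of the target of a local homomorphism. -/
theorem natCast_mem_of_isLocalHom788 {A B : Type} [CommRing A] [IsLocalRing A] [CommRing B]
    [IsLocalRing B] (f : A →+* B) (hf : IsLocalHom f) (p : ℕ)
    (hp : (p : A) ∈ maximalIdeal A) : (p : B) ∈ maximalIdeal B := by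
  rw [mem_maximalIdeal, mem_nonunits_iff] at hp ⊢
  intro hu
  apply hp
  have h : IsUnit (f (p : A)) := by rwa [map_natCast]
  exact hf.map_nonunit _ h

/-- `residue ∘ f = ResidueField.map f ∘ residue`, on polynomials. -/
theorem map_residue_map788 {A B : Type} [CommRing A] [IsLocalRing A] [CommRing B]
    [IsLocalRing B] (f : A →+* B) [IsLocalHom f] (P : A[X]) :
    (P.map f).map (residue B) = (P.map (residue A)).map (ResidueField.map f) := by
  rw [Polynomial.map_map, Polynomial.map_map]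
  rfl

/-- **GAL-R** (`H314.GalRStatement`, verbatim), from the frozen S36. -/
theorem galR788 (h36 : Fermat.Agent.S58.S36Statement) :
    Fermat.Agent.S59.TW.H314.GalRStatement := by
  intro p _ 𝒪 _ _ _ _ _ _ ρbar Smin h t _ n r qv hq _ PQ j P hP φ hφ σ hσ u hu hcyc a₀ w hw
    O' _ _ _ _ _ _ emb hemb hnew hone
  classical
  have hp : p.Prime := Fact.out
  obtain ⟨M, hM0, g, hg, hfact, hMS, chig, iota, hchig, hcompat⟩ := hnew
  haveI := hM0
  obtain ⟨-, hqv, -⟩ := hq
  obtain ⟨hqprime, hqS, hqdvd⟩ := hqv j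
  -- the package
  have hdet : PQ.H.ρ.DetIsCyclotomic p := by
    have h1 := PQ.hcond.1
    cases t <;> exact h1.1
  have hpT : (p : PQ.T) ∈ maximalIdeal PQ.T := hdet.1
  have hqp : qv j ≠ p := fun e => hqS (e ▸ h.hpSmin)
  have hpq : p ∣ qv j - 1 := dvd_trans (dvd_pow_self p (Nat.succ_ne_zero n)) hqdvd
  have hunr : PQ.H.ρ.residual.IsUnramifiedAt (qv j) := by
    have h1 : ρbar.IsUnramifiedAt (qv j) := by
      by_contra hcon
      exact hqS ((h.hmin (qv j) hqprime hqp).mpr hcon)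
    obtain ⟨e⟩ := PQ.hres
    intro B hB τ hτ
    have h2 : (ρbar.baseChangeAlong (ResidueField.map (algebraMap 𝒪 PQ.T))).ρ τ = 1 := by
      letI : Algebra (ResidueField 𝒪) (ResidueField PQ.T) :=
        (ResidueField.map (algebraMap 𝒪 PQ.T)).toAlgebra
      show (ρbar.ρ τ).baseChange (ResidueField PQ.T) = 1
      rw [h1 B hB τ hτ]
      exact LinearMap.baseChange_one _ _
    refine LinearMap.ext fun x => ?_
    apply e.toLinearEquiv.injective
    rw [e.map_apply, h2]
    rfl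
  -- the set `Σ_Q`
  have hpSig : p ∈ Smin ∪ Finset.univ.image qv := Finset.mem_union_left _ h.hpSmin
  have hSigP : ∀ q ∈ Smin ∪ Finset.univ.image qv, q.Prime := by
    intro q hq
    rcases Finset.mem_union.mp hq with h1 | h1
    · exact h.hSmin q h1
    · obtain ⟨i, -, rfl⟩ := Finset.mem_image.mp h1
      exact (hqv i).1
  have hgood : ∀ ℓ : ℕ, ℓ.Prime → ℓ ∉ Smin ∪ Finset.univ.image qv →
      ¬ ℓ ∣ wilesLevel p t Smin (Smin ∪ Finset.univ.image qv) ∧ ¬ ℓ ∣ M ∧
        ℓ ∉ (↑(Smin ∪ Finset.univ.image qv) : Set ℕ) ∧ ℓ ≠ p := by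
    intro ℓ hℓ hℓS
    refine ⟨fun hd => hℓS ?_, fun hd => hℓS (hMS ℓ hℓ hd),
      fun hd => hℓS (Finset.mem_coe.mp hd), fun e => hℓS (e ▸ hpSig)⟩
    exact mem_of_prime_dvd_wilesLevel hp h.hSmin hSigP h.hpSmin Finset.subset_union_left ℓ hℓ hd
  have hpO' : (p : O') ∈ maximalIdeal O' := natCast_mem_of_isLocalHom788 emb hemb p hpT
  -- the frozen S36
  obtain ⟨O'', j1, j2, j3, j4, j5, j6, j7, j8, j9, hinj, ρ'', hρ'', hnu⟩ :=
    h36 hg p (Smin ∪ Finset.univ.image qv) O' hpO' h.hp2 chig hchig iota hpSig hMS (by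
      intro O₃ _ _ _ _ _ _ _ _ _ _ ρ hρ
      have hloc₃ : IsLocalHom ((algebraMap O' O₃).comp emb) :=
        haveI := hemb
        RingHom.isLocalHom_comp _ _
      haveI := hloc₃
      have hpO₃ : (p : O₃) ∈ maximalIdeal O₃ :=
        natCast_mem_of_isLocalHom788 _ hloc₃ p hpT
      have hfrob : ∀ ℓ : ℕ, ℓ.Prime → ℓ ∉ Smin ∪ Finset.univ.image qv →
          ∀ B : ValuationSubring (AlgebraicClosure ℚ), B.LiesOverPrime ℓ →
            ∀ τ : AlgebraicClosure ℚ ≃ₐ[ℚ] AlgebraicClosure ℚ, B.IsFrobeniusAt τ ℓ →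
              LinearMap.charpoly (ρ.ρ τ) =
                (LinearMap.charpoly (PQ.H.ρ.ρ τ)).map ((algebraMap O' O₃).comp emb) := by
        intro ℓ hℓ hℓS B hB τ hτ
        obtain ⟨hℓN, hℓM, hℓS', hℓp⟩ := hgood ℓ hℓ hℓS
        rw [hρ ℓ hℓ hℓp hℓM hℓS' B hB τ hτ, PQ.H.charpoly_frob ℓ hℓ hℓN hℓS' B hB τ hτ,
          RingHom.comp_apply, hcompat ℓ hℓ hℓN hℓM hℓS']
        simp only [Polynomial.map_add, Polynomial.map_sub, Polynomial.map_mul,
          Polynomial.map_pow, Polynomial.map_X, Polynomial.map_C, map_natCast,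
          Polynomial.map_natCast, RingHom.comp_apply]
      refine ⟨?_, ?_⟩
      · refine Fermat.Agent.S58.H273.residual_absIrr_of_frob ρbar h.habs
          ((ResidueField.map ((algebraMap O' O₃).comp emb)).comp
            (ResidueField.map (algebraMap 𝒪 PQ.T))) ρ (Smin ∪ Finset.univ.image qv) ?_
        intro ℓ hℓ hℓS B hB τ hτ
        rw [hfrob ℓ hℓ hℓS B hB τ hτ, map_residue_map788, ← charpoly_rhobar_map788,
          Polynomial.map_map]
      · intro c hc hc1
        have hcyc₃ : ρ.DetIsCyclotomic p :=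
          Fermat.Agent.S59.H540.detIsCyclotomic_of_frob ρ p hpO₃
            (Smin ∪ Finset.univ.image qv) (by
              intro ℓ hℓ hℓS B hB τ hτ
              obtain ⟨hℓN, hℓM, hℓS', hℓp⟩ := hgood ℓ hℓ hℓS
              exact Fermat.Agent.S59.H540.det_eq_of_charpoly ρ.finrank_eq _ _ _
                (hρ ℓ hℓ hℓp hℓM hℓS' B hB τ hτ))
        have h1 : LinearMap.det (ρ.ρ c) = -1 :=
          Fermat.Agent.S59.G4.H178.det_involution_eq_neg_one ρ p h.hp2 hcyc₃ c hc hc1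
        have h2 : LinearMap.det (ρ.residual.ρ c)
            = algebraMap O₃ (ResidueField O₃) (LinearMap.det (ρ.ρ c)) :=
          LinearMap.det_baseChange (ρ.ρ c)
        rw [h2, h1, map_neg, map_one])
  -- the comparison
  have hloc : IsLocalHom ((algebraMap O' O'').comp emb) :=
    haveI := hemb
    RingHom.isLocalHom_comp _ _
  have hψw : ((algebraMap O' O'').comp emb) w = 1 := by
    rw [RingHom.comp_apply, hone, map_one]
  have hunip := isUnipotentOnInertiaAt_baseChangeAlong788 p PQ.T hpT PQ.H.ρ hdet (qv j) hqprime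
    hpq hunr P hP φ hφ σ hσ u hu hcyc a₀ w hw ((algebraMap O' O'').comp emb) hloc hψw
  have hcheb := Fermat.Agent.S58.H93.chebCharpoly O'' ρ''
    (PQ.H.ρ.baseChangeAlong ((algebraMap O' O'').comp emb) hloc)
    (Smin ∪ Finset.univ.image qv) (by
      intro ℓ hℓ hℓS B hB τ hτ
      obtain ⟨hℓN, hℓM, hℓS', hℓp⟩ := hgood ℓ hℓ hℓS
      rw [hρ'' ℓ hℓ hℓM hℓS' B hB τ hτ, charpoly_baseChangeAlong788,
        PQ.H.charpoly_frob ℓ hℓ hℓN hℓS' B hB τ hτ, RingHom.comp_apply,
        hcompat ℓ hℓ hℓN hℓM hℓS']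
      simp only [Polynomial.map_add, Polynomial.map_sub, Polynomial.map_mul,
        Polynomial.map_pow, Polynomial.map_X, Polynomial.map_C, map_natCast,
        Polynomial.map_natCast, RingHom.comp_apply])
  refine hnu (qv j) hqprime hqp hfact ?_
  intro P' hP' τ hτ
  rw [hcheb τ]
  exact hunip P' hP' τ hτ

end Fermat.Agent.S59.TW.H788

end
-- ===== PACK-END S59/TW/H788/GalR.lean

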