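import Fermat.Prelude.Def_FLTPrelim_Ramification
import Fermat.Prelude.Def_GaloisRep_ComplexConjugation
import Fermat.Agent.Pack.S43MC.G0E25L1
import Fermat.Agent.Pack.S44C.G0E15L3
import Fermat.Agent.Pack.S44C.G0E15L2
import Fermat.Agent.Pack.S43MC.G0E25L0
import Fermat.Agent.Pack.S43MC.G0E7L3
import Fermat.Agent.Pack.S43MC.G0E25L3
import Fermat.Agent.Pack.S43MC.G0E14L0
import Fermat.Agent.Pack.S43MC.G0E19L1
import Fermat.Agent.Pack.S43MC.G0E18L3
import Fermat.Agent.Pack.S43GC.G0E2L0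
import Fermat.Agent.Pack.S43MC.G0E24L2
import Fermat.Agent.Pack.S43MC.G0E12L2
import Fermat.Agent.Pack.S43GC.G0E16L2
import Fermat.Agent.Pack.S43MC.G0E11L0
import Fermat.Agent.Pack.S43MC.G0E10L3
import Fermat.Agent.Pack.S43MC.G0E25L2
import Fermat.Agent.Pack.S43MC.G0E4L1
import Fermat.Agent.Pack.S43GC.G0E13L2
import Fermat.Agent.Pack.S43MC.G0E20L1
import Fermat.Agent.Pack.S43MC.G0E12L3
import Fermat.Agent.Pack.S43GC.G0E11L1
import Fermat.Agent.Pack.S43GC.G0E19L2
import Fermat.Agent.Pack.S43MC.G0E23L3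
import Fermat.Agent.Pack.S43MC.G0E4L0
import Fermat.Agent.Pack.S43MC.G0E15L0
import Fermat.Agent.Pack.Fast891

-- ===== PACK-BEGIN S36/H442/Neat.lean
section
/-
S36 / cell NEAT-LEVEL (helper442): descent of the Carayol engine from an auxiliary level
`N r q` to the level `N q`  (decision D2 of the S36 board: prove the engine at a NEAT level,
`r ≡ 11 mod 12`, and return by pull-back / push-forward).

For primes `q ≠ r` and ANY subgroup `H ≤ G_ℚ` (in the application: an inertia group at `q`):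

  if the `H`-fixed `p`-power torsion of the `q`-new part of `J₀(N r q)` is bounded
  (killed by `p ^ k`), then the `H`-fixed `p`-power torsion of the `q`-new part of `J₀(N q)`
  is bounded (killed by `p ^ (k + d)`, `d = [F_{N q r} : V_r F_{N q}]`).

`q`-new = `S35.H155.IsQNew` = killed by the two degeneracy push-forwards `α_*`, `β_*` of level
`q` (for all Galois conjugates, as in the engine statement).  No hypothesis on `N`, `p`:
`q ∣ N`, `r ∣ N`, `p = r`, `p = 2` are all allowed.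

Proof.  `π^* := β_r^* : J₀(N q) → J₀(N r q)` (pull-back along `V_r`) is Galois-equivariant,
satisfies `π^* x = 0 ⇒ d • x = 0`, and base change in the two mixed squares
(helper801's `normCompat_bar`, `normCompat_beta_bar` + helper818's `pullback_pushforward_eq`)
gives  `α_{q,*} π^* = β_r^* α_{q,*}`  and  `β_{q,*} π^* = β_r^* β_{q,*}`.
-/




set_option autoImplicit false
set_option linter.style.haveILetI false

noncomputable section

namespace Fermat.Agent.S36.H442

open AlgebraicCurve ModularCurve Fermat.Agent.S37.H818 Fermat.Agent.S29.H801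
  Fermat.Agent.Ribet.H801 Fermat.Agent.Lib.HI

/-! ### Generic: base change on `Pic0` -/

section Generic

variable {K F F₁ G G₁ : Type*} [Field K] [Field F] [Field F₁] [Field G] [Field G₁]
  [Algebra K F] [Algebra K F₁] [Algebra K G] [Algebra K G₁]
variable (a : F →ₐ[K] F₁) (i : F →ₐ[K] G) (a' : G →ₐ[K] G₁) (i₁ : F₁ →ₐ[K] G₁)
  (ha : a.toRingHom.IsIntegral) (hi : i.toRingHom.IsIntegral)
  (ha' : a'.toRingHom.IsIntegral) (hi₁ : i₁.toRingHom.IsIntegral)
  (hsq : i₁.comp a = a'.comp i)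
variable [HasPrincipalDivisors K G] [HasPrincipalDivisors K G₁] [HasPrincipalDivisors K F₁]

include hsq in
/-- **Base change on `Pic0`**: `i^* ∘ a_* = a'_* ∘ i₁^*` for a square `i₁ ∘ a = a' ∘ i` with
norm compatibility. -/
theorem pullbackPic0Along_pushPic0
    (hfin : FiniteAlong K a) (hN : NormFormulaAlong K a hfin)
    (hfin' : FiniteAlong K a') (hN' : NormFormulaAlong K a' hfin')
    (hFIi : FundamentalIdentityAlong K i hi) (hFIi₁ : FundamentalIdentityAlong K i₁ hi₁)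
    (hnorm : NormCompat a i a' i₁) (hLG : HasLocalGenerators a ha) (x : Pic0 K F₁) :
    pullbackPic0Along i hi hFIi (pushPic0 a ha hfin hN x) =
      pushPic0 a' ha' hfin' hN' (pullbackPic0Along i₁ hi₁ hFIi₁ x) := by
  obtain ⟨D, rfl⟩ := Pic0.mk_surjective x
  rw [pushPic0_mk, pullbackPic0Along_mk, pullbackPic0Along_mk, pushPic0_mk]
  congr 1
  apply Subtype.ext
  simp only [coe_pullbackDegZeroAlong, coe_pushDegZero]
  exact pullback_pushforward_eq a i a' i₁ ha hi ha' hi₁ hsq hfin hN hfin' hN' hnorm hLG D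

omit [HasPrincipalDivisors K G] [HasPrincipalDivisors K G₁] [HasPrincipalDivisors K F₁] in
/-- The degree of a finite map is nonzero. -/
theorem finrankAlong_ne_zero (hfin : FiniteAlong K i) : finrankAlong K i ≠ 0 := by
  letI := algebraAlong i
  haveI : Module.Finite F G := hfin
  exact (Module.finrank_pos (R := F) (M := G)).ne'

end Generic

/-! ### Torsion arithmetic -/

/-- If `x` is killed by `p ^ n` and by `p ^ k * d`, `d ≠ 0`, it is killed by `p ^ (k + d)`. -/
theorem pow_nsmul_eq_zero_of_mul {A : Type*} [AddCommGroup A] {p : ℕ} (hp : p.Prime)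
    {d : ℕ} (hd : d ≠ 0) {k n : ℕ} {x : A} (hn : p ^ n • x = 0) (hk : (p ^ k * d) • x = 0) :
    p ^ (k + d) • x = 0 := by
  have h1 : addOrderOf x ∣ p ^ n := addOrderOf_dvd_of_nsmul_eq_zero hn
  have h2 : addOrderOf x ∣ p ^ k * d := addOrderOf_dvd_of_nsmul_eq_zero hk
  obtain ⟨j, -, hj⟩ := (Nat.dvd_prime_pow hp).mp h1
  rw [hj] at h2
  -- `p ^ j ∣ p ^ k * d` forces `j ≤ k + d`
  have hle : j ≤ k + d := by
    by_contra hlt
    rw [not_le] at hlt
    have h3 : p ^ (k + d) ∣ p ^ k * d :=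
      (pow_dvd_pow p hlt.le).trans h2
    rw [pow_add] at h3
    have h4 : p ^ d ∣ d := Nat.dvd_of_mul_dvd_mul_left (pow_pos hp.pos k) h3
    have h5 : p ^ d ≤ d := Nat.le_of_dvd (Nat.pos_of_ne_zero hd) h4
    exact absurd h5 (not_le.mpr (Nat.lt_pow_self hp.one_lt))
  have h6 : addOrderOf x ∣ p ^ (k + d) := by
    rw [hj]
    exact pow_dvd_pow p hle
  exact addOrderOf_dvd_iff_nsmul_eq_zero.mp h6

/-! ### The modular squares -/

section Modular

/-- `ℚ̄`. -/
local notation "Qbar" => AlgebraicClosure ℚ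

section Retarget

variable {M ℓ M' : ℕ} [NeZero M] [NeZero ℓ] [NeZero M']

theorem betaTo_integral_bar (h : M * ℓ = M') : (betaTo Qbar M ℓ M' h).toRingHom.IsIntegral :=
  betaTo_integral Qbar h (H864.heckeBetaBarIntegral M ℓ)

theorem betaTo_finite_bar (h : M * ℓ = M') : FiniteAlong Qbar (betaTo Qbar M ℓ M' h) :=
  betaTo_finite Qbar h (H864.finiteAlong_beta M ℓ)

theorem betaTo_normFormula_bar (h : M * ℓ = M') :
    NormFormulaAlong Qbar (betaTo Qbar M ℓ M' h) (betaTo_finite_bar h) :=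
  betaTo_normFormula Qbar h (H864.finiteAlong_beta M ℓ) (H864.normFormulaAlong_beta M ℓ _)

theorem betaTo_fundamentalIdentity_bar (h : M * ℓ = M')
    [HasPrincipalDivisors Qbar ↥(modularFunctionFieldBar M')] :
    FundamentalIdentityAlong Qbar (betaTo Qbar M ℓ M' h) (betaTo_integral_bar h) :=
  fundamentalIdentityAlong_of_normFormula _ _ (betaTo_finite_bar h) (betaTo_normFormula_bar h)

theorem intertwines_betaTo (h : M * ℓ = M') (σ : Qbar ≃ₐ[ℚ] Qbar) :
    SemilinearAut.IntertwinesAlong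
      ((betaTo Qbar M ℓ M' h : _root_.Fermat.Agent.S29.H801.FB Qbar M →ₐ[Qbar] _root_.Fermat.Agent.S29.H801.FB Qbar M') : _ →+* _)
      (arithmeticGalois (modularFunctionFieldFull M) σ)
      (arithmeticGalois (modularFunctionFieldFull M') σ) := by
  subst h
  exact Fermat.Agent.S29.H571.intertwines_heckeBetaBar M ℓ σ

end Retarget

variable (N q r : ℕ) [NeZero N] [NeZero q] [NeZero r]

/-- The pull-back `β_r^* : J₀(N) → J₀(N r)` along `V_r : f(z) ↦ f(r z)`. -/
def betaPull : JZero N →+ JZero (N * r) :=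
  haveI := H864.hasPrincipalDivisors_FF (N * r)
  pullbackPic0Along (betaTo Qbar N r (N * r) rfl) (betaTo_integral_bar rfl)
    (betaTo_fundamentalIdentity_bar rfl)

/-- The pull-back `β_r^* : J₀(N q) → J₀(N r q)` (top level written as `N * r * q`). -/
def betaPullTop : JZero (N * q) →+ JZero (N * r * q) :=
  haveI := H864.hasPrincipalDivisors_FF (N * r * q)
  pullbackPic0Along (betaTo Qbar (N * q) r (N * r * q) (Nat.mul_right_comm N q r))
    (betaTo_integral_bar _) (betaTo_fundamentalIdentity_bar _)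

/-- `π^*` is Galois-equivariant. -/
theorem betaPullTop_smul (σ : Qbar ≃ₐ[ℚ] Qbar) (x : JZero (N * q)) :
    betaPullTop N q r (σ • x) = σ • betaPullTop N q r x := by
  haveI := H864.hasPrincipalDivisors_FF (N * r * q)
  rw [galois_smul_pic0_def, galois_smul_pic0_def]
  exact pullbackPic0Along_smul _ _ (intertwines_betaTo (Nat.mul_right_comm N q r) σ) _ x

/-- The degree of `π`. -/
def neatDegree : ℕ :=
  finrankAlong Qbar (betaTo Qbar (N * q) r (N * r * q) (Nat.mul_right_comm N q r))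

theorem neatDegree_ne_zero : neatDegree N q r ≠ 0 :=
  finrankAlong_ne_zero _ (betaTo_finite_bar _)

/-- `π^* x = 0 ⇒ deg π • x = 0`. -/
theorem nsmul_eq_zero_of_betaPullTop (x : JZero (N * q)) (hx : betaPullTop N q r x = 0) :
    neatDegree N q r • x = 0 := by
  haveI := H864.hasPrincipalDivisors_FF (N * r * q)
  exact nsmul_eq_zero_of_pullbackPic0Along_eq_zero _ _ (betaTo_finite_bar _)
    (betaTo_normFormula_bar _) (betaTo_fundamentalIdentity_bar _) x hx

/-- Norm compatibility of the `ββ`-square with top level `N * r * q`. -/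
theorem normCompat_beta_top (hq : q.Prime) (hr : r.Prime) (hne : r ≠ q)
    (M' : ℕ) [NeZero M'] (h₁ : N * r * q = M') (h₂ : N * q * r = M') :
    NormCompat (heckeBetaBar Qbar N q) (heckeBetaBar Qbar N r)
      (betaTo Qbar (N * r) q M' h₁) (betaTo Qbar (N * q) r M' h₂) := by
  subst h₂
  exact normCompat_beta_bar N q r hq hr hne

/-- **Base change, `α`**: `α_{q,*} ∘ π^* = β_r^* ∘ α_{q,*}`. -/
theorem alphaPush_betaPullTop (hq : q.Prime) (hr : r.Prime) (hne : r ≠ q) (x : JZero (N * q)) :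
    alphaPush (N * r) q (betaPullTop N q r x) = betaPull N r (alphaPush N q x) := by
  haveI := H864.hasPrincipalDivisors_FF (N * r * q)
  haveI := H864.hasPrincipalDivisors_FF (N * r)
  haveI := H864.hasPrincipalDivisors_FF (N * q)
  exact (pullbackPic0Along_pushPic0
    (heckeAlphaBar Qbar N q) (betaTo Qbar N r (N * r) rfl) (heckeAlphaBar Qbar (N * r) q)
    (betaTo Qbar (N * q) r (N * r * q) (Nat.mul_right_comm N q r))
    (H864.heckeAlphaBarIntegral N q) (betaTo_integral_bar rfl)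
    (H864.heckeAlphaBarIntegral (N * r) q) (betaTo_integral_bar _)
    (rel_sq₁ N r q)
    (H864.finiteAlong_alpha N q) (H864.normFormulaAlong_alpha N q _)
    (H864.finiteAlong_alpha (N * r) q) (H864.normFormulaAlong_alpha (N * r) q _)
    (betaTo_fundamentalIdentity_bar rfl) (betaTo_fundamentalIdentity_bar _)
    (normCompat_bar N r q hr hq hne)
    (hasLocalGenerators_of_hasPrincipalDivisors _ _) x).symm

/-- **Base change, `β`**: `β_{q,*} ∘ π^* = β_r^* ∘ β_{q,*}`. -/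
theorem betaPush_betaPullTop (hq : q.Prime) (hr : r.Prime) (hne : r ≠ q) (x : JZero (N * q)) :
    betaPush (N * r) q (betaPullTop N q r x) = betaPull N r (betaPush N q x) := by
  haveI := H864.hasPrincipalDivisors_FF (N * r * q)
  haveI := H864.hasPrincipalDivisors_FF (N * r)
  haveI := H864.hasPrincipalDivisors_FF (N * q)
  exact (pullbackPic0Along_pushPic0
    (heckeBetaBar Qbar N q) (betaTo Qbar N r (N * r) rfl) (betaTo Qbar (N * r) q (N * r * q) rfl)
    (betaTo Qbar (N * q) r (N * r * q) (Nat.mul_right_comm N q r))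
    (H864.heckeBetaBarIntegral N q) (betaTo_integral_bar rfl)
    (betaTo_integral_bar rfl) (betaTo_integral_bar _)
    (rel_BB N r q).symm
    (H864.finiteAlong_beta N q) (H864.normFormulaAlong_beta N q _)
    (betaTo_finite_bar rfl) (betaTo_normFormula_bar rfl)
    (betaTo_fundamentalIdentity_bar rfl) (betaTo_fundamentalIdentity_bar _)
    (normCompat_beta_top N q r hq hr hne (N * r * q) rfl (Nat.mul_right_comm N q r))
    (hasLocalGenerators_of_hasPrincipalDivisors _ _) x).symm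

open Fermat.Agent.S35.H155 in
/-- `π^*` preserves `q`-new classes. -/
theorem isQNew_betaPullTop (hq : q.Prime) (hr : r.Prime) (hne : r ≠ q) {x : JZero (N * q)}
    (hx : IsQNew N q x) : IsQNew (N * r) q (betaPullTop N q r x) := by
  refine ⟨?_, ?_⟩
  · rw [pushA_eq_alphaPush, alphaPush_betaPullTop N q r hq hr hne, ← pushA_eq_alphaPush, hx.1,
      map_zero]
  · rw [pushB_eq_betaPush, betaPush_betaPullTop N q r hq hr hne, ← pushB_eq_betaPush, hx.2,
      map_zero]

open Fermat.Agent.S35.H155 in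
/-- **NEAT-LEVEL descent.**  A bound for the `H`-fixed `p`-power torsion of the `q`-new part at
level `N r q` gives a bound at level `N q`. -/
theorem neat_descent (hq : q.Prime) (hr : r.Prime) (hne : r ≠ q) {p : ℕ} (hp : p.Prime)
    (H : Subgroup (Qbar ≃ₐ[ℚ] Qbar))
    (hneat : ∃ k : ℕ, ∀ x : JZero (N * r * q), (∃ n : ℕ, p ^ n • x = 0) →
      (∀ γ : Qbar ≃ₐ[ℚ] Qbar, IsQNew (N * r) q (γ • x)) →
      (∀ τ ∈ H, τ • x = x) → p ^ k • x = 0) :
    ∃ k : ℕ, ∀ x : JZero (N * q), (∃ n : ℕ, p ^ n • x = 0) →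
      (∀ γ : Qbar ≃ₐ[ℚ] Qbar, IsQNew N q (γ • x)) →
      (∀ τ ∈ H, τ • x = x) → p ^ k • x = 0 := by
  obtain ⟨k, hk⟩ := hneat
  refine ⟨k + neatDegree N q r, fun x ⟨n, hn⟩ hnew hfix => ?_⟩
  have h1 : p ^ k • betaPullTop N q r x = 0 := by
    refine hk _ ⟨n, ?_⟩ (fun γ => ?_) (fun τ hτ => ?_)
    · rw [← map_nsmul, hn, map_zero]
    · rw [← betaPullTop_smul]
      exact isQNew_betaPullTop N q r hq hr hne (hnew γ)
    · rw [← betaPullTop_smul, hfix τ hτ]
  have h2 : neatDegree N q r • (p ^ k • x) = 0 := by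
    apply nsmul_eq_zero_of_betaPullTop
    rw [map_nsmul, h1]
  refine pow_nsmul_eq_zero_of_mul hp (neatDegree_ne_zero N q r) hn ?_
  rw [mul_nsmul]
  exact h2

end Modular

end Fermat.Agent.S36.H442

end

end
-- ===== PACK-END S36/H442/Neat.lean

-- ===== PACK-BEGIN S36/H442/NeatStmt.lean
section
/-
S36 / cell NEAT-LEVEL (helper442), statement level: the engine on `J₀(N q)` (helper36's
`QNewInertiaStatement`, `origin/helper36:Fermat/Agent/S36/H36/Deg.lean`) follows from the engine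
at the NEAT levels `N r q`, `r ≡ 11 mod 12` prime, `r ∤ N q p`, `r > B(N, q, p)` for any bound.

* `QNewInertiaAt N q p P`     : the engine at ONE level (the body of `QNewInertiaStatement`);
* `qNewInertiaAt_of_mul`      : `QNewInertiaAt (N * r) q p P → QNewInertiaAt N q p P`, `r ≠ q`;
* `exists_neat_prime`         : Dirichlet, primes `≡ 11 mod 12` above any bound;
* `QNewInertiaNeatStatement`  : the engine at neat levels;
* `qNewInertia_of_neat`       : `QNewInertiaNeatStatement → ` (the body of)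
                                `H36.QNewInertiaStatement`, verbatim.
-/



set_option autoImplicit false
set_option linter.style.haveILetI false

noncomputable section

namespace Fermat.Agent.S36.H442

open ModularCurve Fermat.Agent.S35.H155

/-- **The engine at one level**: the `I_P`-fixed `p`-power torsion of the `q`-new part of
`J₀(N q)` is killed by some `p ^ k`. -/
def QNewInertiaAt (N q p : ℕ) [NeZero N] [NeZero q]
    (P : ValuationSubring (AlgebraicClosure ℚ)) : Prop :=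
  ∃ k : ℕ, ∀ x : JZero (N * q), (∃ n : ℕ, p ^ n • x = 0) → IsQNew N q x →
    (∀ τ ∈ P.inertiaSubgroupIn ℚ, τ • x = x) → p ^ k • x = 0

/-- **NEAT-LEVEL descent, one step**: the engine at level `N r q` gives the engine at level
`N q`, for any prime `r ≠ q`. -/
theorem qNewInertiaAt_of_mul (N q r p : ℕ) [NeZero N] [NeZero q] [NeZero r] (hq : q.Prime)
    (hr : r.Prime) (hne : r ≠ q) (hp : p.Prime) (P : ValuationSubring (AlgebraicClosure ℚ))
    (h : QNewInertiaAt (N * r) q p P) : QNewInertiaAt N q p P := by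
  obtain ⟨k, hk⟩ := h
  obtain ⟨k', hk'⟩ := neat_descent N q r hq hr hne hp (P.inertiaSubgroupIn ℚ)
    ⟨k, fun x hx hnew hfix => hk x hx (by simpa using hnew 1) hfix⟩
  exact ⟨k', fun x hx hnew hfix => hk' x hx (fun γ => hnew.galois γ) hfix⟩

/-- Dirichlet: there are primes `r ≡ 11 mod 12` above any bound. -/
theorem exists_neat_prime (B : ℕ) : ∃ r : ℕ, B < r ∧ r.Prime ∧ r % 12 = 11 := by
  obtain ⟨r, hB, hr, hmod⟩ :=
    Nat.forall_exists_prime_gt_and_modEq B (q := 12) (a := 11) (by norm_num) (by norm_num)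
  exact ⟨r, hB, hr, hmod⟩

/-- **The engine at neat levels**: level `N r q` with `q ‖ N`, `r ≡ 11 mod 12` a prime not
dividing `N q p` and larger than `N q p`. -/
def QNewInertiaNeatStatement : Prop :=
  ∀ (N q r p : ℕ) [NeZero N] [NeZero q] [NeZero r], q.Prime → N.factorization q = 1 →
    r.Prime → r % 12 = 11 → ¬ r ∣ N * q * p → N * q * p < r → p.Prime → p ≠ q →
    ∀ P : ValuationSubring (AlgebraicClosure ℚ), P.LiesOverPrime q →
      (N * r).factorization q = 1 → QNewInertiaAt (N * r) q p P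

/-- `q ‖ N`, `r ≠ q` prime  ⟹  `q ‖ N r`. -/
theorem factorization_mul_prime_eq_one {N q r : ℕ} (hN : N ≠ 0) (hr : r.Prime) (hne : r ≠ q)
    (h : N.factorization q = 1) : (N * r).factorization q = 1 := by
  rw [Nat.factorization_mul hN hr.ne_zero, Finsupp.add_apply, h, hr.factorization,
    Finsupp.single_eq_of_ne hne.symm, add_zero]

/-- **NEAT-LEVEL wrapper.**  The engine at neat levels implies the engine at all levels
(the conclusion is the body of helper36's `QNewInertiaStatement`). -/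
theorem qNewInertia_of_neat (h : QNewInertiaNeatStatement) :
    ∀ (N q p : ℕ) [NeZero N] [NeZero q], q.Prime → N.factorization q = 1 → p.Prime → p ≠ q →
      ∀ P : ValuationSubring (AlgebraicClosure ℚ), P.LiesOverPrime q →
        ∃ k : ℕ, ∀ x : JZero (N * q), (∃ n : ℕ, p ^ n • x = 0) → IsQNew N q x →
          (∀ τ ∈ P.inertiaSubgroupIn ℚ, τ • x = x) → p ^ k • x = 0 := by
  intro N q p _ _ hq hfac hp hpq P hP
  obtain ⟨r, hB, hr, hmod⟩ := exists_neat_prime (N * q * p)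
  haveI : NeZero r := ⟨hr.ne_zero⟩
  have hpos : 0 < N * q * p :=
    Nat.mul_pos (Nat.mul_pos (Nat.pos_of_ne_zero (NeZero.ne N)) hq.pos) hp.pos
  have hndvd : ¬ r ∣ N * q * p := fun hd => absurd (Nat.le_of_dvd hpos hd) (not_le.mpr hB)
  have hne : r ≠ q := by
    rintro rfl
    exact hndvd ((Dvd.intro_left N rfl).mul_right p)
  exact qNewInertiaAt_of_mul N q r p hq hr hne hp P
    (h N q r p hq hfac hr hmod hndvd hB hp hpq P hP
      (factorization_mul_prime_eq_one (NeZero.ne N) hr hne hfac))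

end Fermat.Agent.S36.H442

end

end
-- ===== PACK-END S36/H442/NeatStmt.lean

-- ===== PACK-BEGIN S36/Mod3/H439/Fin.lean
section


/-!
# S36 / MOD3 leaf `LeafFin` (helper439)

The two degeneracy maps `α, β : F_{Mq} → F_{Mqq}` are finite: `F_{Mqq}` is finite over `E(y)` for
every transcendental `y` (`finiteDimensional_of_transcendental_h439`), in particular for
`y = φ(j)`, and `E(φ j) ⊆ φ(F_{Mq})`.

Main result: `leafFin : Mod3.LeafFin` (exact frozen leaf of `Mod3/Spec.lean`).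
-/

set_option autoImplicit false
set_option linter.unusedSectionVars false
set_option linter.style.haveILetI false
set_option synthInstance.maxHeartbeats 400000
set_option maxHeartbeats 1600000

noncomputable section

namespace Fermat.Agent.S36.Mod3.H439

open ModularCurve IntermediateField AlgebraicCurve
open Fermat.Agent.A2.Mod Fermat.Agent.A2.Mod.H816

section Abs

variable {K F F' : Type*} [Field K] [Field F] [Field F'] [Algebra K F] [Algebra K F']

/-- A `K`-embedding `φ : F → F'` is finite as soon as `F'` is finite over `K(φ y)` for some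
`y ∈ F`. -/
theorem finiteAlong_of_finite_adjoin_h439 (φ : F →ₐ[K] F') (y : F)
    (hfin : FiniteDimensional K⟮φ y⟯ F') : FiniteAlong K φ := by
  letI := algebraAlong φ
  show Module.Finite F F'
  obtain ⟨S, hS⟩ := (Module.finite_def (R := K⟮φ y⟯) (M := F')).mp hfin
  refine Module.finite_def.mpr ⟨S, ?_⟩
  have hle : K⟮φ y⟯ ≤ φ.fieldRange := by
    rw [adjoin_le_iff]
    rintro _ rfl
    exact ⟨y, rfl⟩
  have key : ∀ x : F', x ∈ Submodule.span K⟮φ y⟯ (S : Set F') →
      x ∈ Submodule.span F (S : Set F') := by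
    intro x hx
    induction hx using Submodule.span_induction with
    | mem x hx => exact Submodule.subset_span hx
    | zero => exact zero_mem _
    | add x y _ _ hx hy => exact add_mem hx hy
    | smul e x _ hx =>
      obtain ⟨f, hf⟩ := hle e.2
      have : e • x = f • x := by
        rw [Algebra.smul_def, Algebra.smul_def]
        show (e : F') * x = φ f * x
        rw [← hf]
        rfl
      rw [this]
      exact Submodule.smul_mem _ _ hx
  rw [eq_top_iff]
  intro x _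
  exact key x (by rw [hS]; trivial)

end Abs

variable (E : IntermediateField ℚ A2.Qb)

/-- Every `E`-embedding `F_N → F_{N'}` (`N' ≠ 0`) of modular function fields is finite. -/
theorem finiteAlong_level_h439 (N N' : ℕ) (hN' : N' ≠ 0) (φ : FE E N →ₐ[E] FE E N') :
    FiniteAlong E φ := by
  have hy : Transcendental E (φ (jE E N 1 (one_dvd N))) := fun h =>
    transcendental_j1_h439 E N ((isAlgebraic_algHom_iff φ φ.injective).mp h)
  exact finiteAlong_of_finite_adjoin_h439 φ (jE E N 1 (one_dvd N))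
    (finiteDimensional_of_transcendental_h439 E N' hN' hy)

/-- **MOD3 leaf FIN** (exact frozen leaf of `Mod3/Spec.lean`). -/
theorem leafFin : LeafFin := fun E M q _ _ _ _ _ =>
  { fin_α := finiteAlong_level_h439 E (M * q) (M * q * q)
      (Nat.mul_ne_zero (NeZero.ne (M * q)) (NeZero.ne q)) _
    fin_β := finiteAlong_level_h439 E (M * q) (M * q * q)
      (Nat.mul_ne_zero (NeZero.ne (M * q)) (NeZero.ne q)) _ }

end Fermat.Agent.S36.Mod3.H439

end

end
-- ===== PACK-END S36/Mod3/H439/Fin.lean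

-- ===== PACK-BEGIN S36/H816/SymBeta.lean
section


/-!
# S36 / MOD3-SYM, part 4 (helper816): `V_mid ∘ β = V₀`, generator congruences, Fricke stability

* `IsMid.comap_beta_eq_or` : `Vm.comap β ∈ {V₁, V₂}` (two-extension theorem at level `M q`);
* `IsMid.comap_beta`       : `Vm.comap β = V₂ = V₁ ∘ W₁`      (table, row MID, column `β`);
* `IsMid.gen_cong`         : `j_{d q²} ≡ j_d mod 𝔪_{Vm}`, `d ∣ M`;
* `IsMid.fricke`           : `IsMid V₁ (Vm ∘ W)`.
-/

set_option autoImplicit false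
set_option linter.unusedSectionVars false
set_option linter.style.haveILetI false
set_option synthInstance.maxHeartbeats 400000
set_option maxHeartbeats 1600000

noncomputable section

namespace Fermat.Agent.S36.H816

open ModularCurve HahnSeries Polynomial IntermediateField
open Fermat.Agent Fermat.Agent.A2.Mod Fermat.Agent.A2.H708 Fermat.Agent.S28

variable {P : ValuationSubring Qb} {E : IntermediateField ℚ Qb}
variable {M q : ℕ} [NeZero M] [NeZero q]
variable {w : RE P E} {V₁ : ValuationSubring (FE E (M * q))}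
  {Vm : ValuationSubring (FE E (M * q * q))}

/-- **Two-extension theorem at level `M q`**, valuation form: a valuation subring of `F_{Mq}`
inducing the Gauss valuation on `E(x)` is `V∞` or `V₀`. -/
theorem eq_or_eq_of_isGaussOver (hS : Setting P E M q w)
    (hV₁ : IsVinf P E (M * q) V₁) {W₁ : FE E (M * q) ≃ₐ[E] FE E (M * q)}
    (hW₁ : IsFricke E (M * q) W₁) {V' : ValuationSubring (FE E (M * q))}
    (hG' : haveI := hS.dvr; A2.H489.IsGaussOver (RE P E) V' (xE E M q)) :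
    V' = V₁ ∨ V' = V₁.comap (W₁ : FE E (M * q) →+* FE E (M * q)) := by
  haveI := hS.dvr
  obtain ⟨htr, hfr, -⟩ := A2.Mod.H816.deg E M q hS.q_prime hS.q_not_dvd
  obtain ⟨b, c, hdvr, hT⟩ := A2.Mod.H13.twoExtHyp_of_leaves hS V₁ W₁ hV₁ hW₁
    (A2.Mod.H553.vzeroNe P E M q w) (A2.Mod.H816.deg E M q) (A2.Mod.H753.indInf P E M q w)
    (A2.Mod.H753.indZero P E M q w)
  have hpos : 0 < Module.finrank (IntermediateField.adjoin E ({xE E M q} : Set (FE E (M * q))))
      (FE E (M * q)) := by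
    rw [hfr]
    have h1 := A2.Mod.dedekindPsi_pos_of_ne_zero M (NeZero.ne M)
    positivity
  haveI hfin : FiniteDimensional (IntermediateField.adjoin E ({xE E M q} : Set (FE E (M * q))))
      (FE E (M * q)) := Module.finite_of_finrank_pos hpos
  have hG₁ := A2.Mod.H13.isGaussOver_xE hS.unif hV₁ htr
  have hover : A2.H489.IsOver (A2.H489.gaussRing E V₁ (xE E M q)) V' :=
    { mem := fun a => (hG₁.mem_iff_mem (E := E) hG' (a : E⟮xE E M q⟯).2).mp a.2
      nonunit := fun a ha =>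
        (hG₁.mem_nonunits_iff_mem (E := E) hG' (a : E⟮xE E M q⟯).2).mp
          ((A2.H489.mem_maximalIdeal_gaussRing a).mp ha) }
  exact hT.only hover

end Fermat.Agent.S36.H816

end

end
-- ===== PACK-END S36/H816/SymBeta.lean

-- ===== PACK-BEGIN S36/H816/SymTable.lean
section


/-!
# S36 / MOD3-SYM, part 5 (helper816): the `β` column of the middle row

Levels `N' = M q` (`q ∤ M`), `N = M q²`; `α = heckeAlphaBar E (M q) q`, `β = heckeBetaBar E (M q) q`;
`V₁ = V∞(N')`, `V₂ = V₁ ∘ W₁`, `Vm` a middle valuation ring (`IsMid V₁ Vm`).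

* `IsMid.comap_beta_eq_or` : `Vm.comap β ∈ {V₁, V₂}`   (two-extension theorem at level `M q`);
* `IsMid.comap_beta_ne`    : `Vm.comap β ≠ V₁`          (Kronecker unit);
* `IsMid.comap_beta`       : `β g ∈ Vm ↔ g ∈ V₂`        (table, row MID, column `β`);
* `IsMid.gen_cong`         : `j_{d q²} ≡ j_d mod 𝔪_{Vm}`, `d ∣ M`;
* `IsMid.fricke`           : `IsMid V₁ (Vm ∘ W₂)`, `W₂` the Fricke involution of level `M q²`.
-/

set_option autoImplicit false
set_option linter.unusedSectionVars false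
set_option linter.style.haveILetI false
set_option synthInstance.maxHeartbeats 400000
set_option maxHeartbeats 1600000

noncomputable section

namespace Fermat.Agent.S36.H816

open ModularCurve HahnSeries Polynomial IntermediateField
open Fermat.Agent Fermat.Agent.A2.Mod Fermat.Agent.A2.H708 Fermat.Agent.S28

variable {P : ValuationSubring Qb} {E : IntermediateField ℚ Qb}
variable {M q : ℕ} [NeZero M] [NeZero q]
variable {w : RE P E} {V₁ : ValuationSubring (FE E (M * q))}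
  {Vm : ValuationSubring (FE E (M * q * q))}

namespace IsMid

/-- `Vm.comap β` is `V∞` or `V₀` of level `M q`. -/
theorem comap_beta_eq_or (h : IsMid V₁ Vm) (hS : Setting P E M q w)
    (hV₁ : IsVinf P E (M * q) V₁) {W₁ : FE E (M * q) ≃ₐ[E] FE E (M * q)}
    (hW₁ : IsFricke E (M * q) W₁) :
    Vm.comap (heckeBetaBar E (M * q) q : FE E (M * q) →+* FE E (M * q * q)) = V₁ ∨
      Vm.comap (heckeBetaBar E (M * q) q : FE E (M * q) →+* FE E (M * q * q))
        = V₁.comap (W₁ : FE E (M * q) →+* FE E (M * q)) :=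
  eq_or_eq_of_isGaussOver hS hV₁ hW₁ (h.isGaussOver_comap_beta hS hV₁)

/-- `Vm.comap β ≠ V∞`: otherwise `j_q ^ q ≡ j` on `V∞`, contradicting the Kronecker unit. -/
theorem comap_beta_ne [IsDiscreteValuationRing (RE P E)] (h : IsMid V₁ Vm) (hq : q.Prime)
    (hP : P.LiesOverPrime q) (hV₁ : IsVinf P E (M * q) V₁) :
    Vm.comap (heckeBetaBar E (M * q) q : FE E (M * q) →+* FE E (M * q * q)) ≠ V₁ := by
  intro heq
  have hd1 : (1 : ℕ) ∣ M * q := one_dvd _
  have hdq : 1 * q ∣ M * q := mul_dvd_mul_right (one_dvd M) q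
  have h1 := kron_jE hq hP hV₁ 1 hd1 hdq
  rw [← heq, mem_nonunits_comap_iff] at h1
  have h2 : heckeBetaBar E (M * q) q (jE E (M * q) (1 * q) hdq - (jE E (M * q) 1 hd1) ^ q)
      ∈ Vm.nonunits := h1
  rw [map_sub, map_pow, show heckeBetaBar E (M * q) q = βE E (M * q) q from rfl,
    A2.Mod.H553.βE_jE E (M * q) q (1 * q) hdq, A2.Mod.H553.βE_jE E (M * q) q 1 hd1] at h2
  have hπ := h.pi_mem
  rw [piMid] at hπ
  have e1 : jE E (M * q * q) (1 * q * q) (mul_dvd_mul_right hdq q)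
      = jE E (M * q * q) (q * q) (Dvd.intro_left M (mul_assoc M q q).symm) :=
    jE_congr (M * q * q) (by rw [one_mul]) _ _
  rw [e1] at h2
  obtain ⟨hne, hinv⟩ := kron_unit_jE hq hV₁ 1 hd1 hdq
  have h3 : heckeAlphaBar E (M * q) q ((jE E (M * q) (1 * q) hdq) ^ q - jE E (M * q) 1 hd1)
      ∈ Vm.nonunits := by
    rw [map_sub, map_pow, show heckeAlphaBar E (M * q) q = αE E (M * q) q from rfl,
      A2.Mod.H553.αE_jE E (M * q) q (1 * q) hdq, A2.Mod.H553.αE_jE E (M * q) q 1 hd1]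
    have e : (jE E (M * q * q) (1 * q) (hdq.trans (dvd_mul_right _ q))) ^ q
          - jE E (M * q * q) 1 (hd1.trans (dvd_mul_right _ q))
        = (jE E (M * q * q) (q * q) (Dvd.intro_left M (mul_assoc M q q).symm)
            - jE E (M * q * q) 1 (one_dvd _))
          - (jE E (M * q * q) (q * q) (Dvd.intro_left M (mul_assoc M q q).symm)
            - (jE E (M * q * q) (1 * q) (mul_dvd_mul_right hd1 q)) ^ q) := by ring
    rw [e]
    exact sub_mem_nonunits Vm hπ h2
  have h4 := (h.alpha_nonunits _).mp h3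
  rw [ValuationSubring.mem_nonunits_iff_or] at h4
  rcases h4 with h4 | h4
  · exact hne h4
  · exact h4 hinv

/-- **Table, row MID, column `β`**: `Vm.comap β = V₀ = V∞ ∘ W₁` at level `M q`. -/
theorem comap_beta_eq (h : IsMid V₁ Vm) (hS : Setting P E M q w)
    (hV₁ : IsVinf P E (M * q) V₁) {W₁ : FE E (M * q) ≃ₐ[E] FE E (M * q)}
    (hW₁ : IsFricke E (M * q) W₁) :
    Vm.comap (heckeBetaBar E (M * q) q : FE E (M * q) →+* FE E (M * q * q))
      = V₁.comap (W₁ : FE E (M * q) →+* FE E (M * q)) := by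
  haveI := hS.dvr
  rcases h.comap_beta_eq_or hS hV₁ hW₁ with h1 | h1
  · exact absurd h1 (h.comap_beta_ne hS.q_prime hS.lies_over hV₁)
  · exact h1

theorem comap_beta (h : IsMid V₁ Vm) (hS : Setting P E M q w)
    (hV₁ : IsVinf P E (M * q) V₁) {W₁ : FE E (M * q) ≃ₐ[E] FE E (M * q)}
    (hW₁ : IsFricke E (M * q) W₁) (g : FE E (M * q)) :
    heckeBetaBar E (M * q) q g ∈ Vm ↔ W₁ g ∈ V₁ := by
  have h1 := h.comap_beta_eq hS hV₁ hW₁
  have h2 : g ∈ Vm.comap (heckeBetaBar E (M * q) q : FE E (M * q) →+* FE E (M * q * q))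
      ↔ g ∈ V₁.comap (W₁ : FE E (M * q) →+* FE E (M * q)) := by rw [h1]
  rw [ValuationSubring.mem_comap, ValuationSubring.mem_comap] at h2
  exact h2

theorem beta_nonunits (h : IsMid V₁ Vm) (hS : Setting P E M q w)
    (hV₁ : IsVinf P E (M * q) V₁) {W₁ : FE E (M * q) ≃ₐ[E] FE E (M * q)}
    (hW₁ : IsFricke E (M * q) W₁) (g : FE E (M * q)) :
    heckeBetaBar E (M * q) q g ∈ Vm.nonunits ↔ W₁ g ∈ V₁.nonunits := by
  have h1 := h.comap_beta_eq hS hV₁ hW₁
  have h2 : g ∈ (Vm.comap (heckeBetaBar E (M * q) q : FE E (M * q) →+* FE E (M * q * q))).nonunits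
      ↔ g ∈ (V₁.comap (W₁ : FE E (M * q) →+* FE E (M * q))).nonunits := by rw [h1]
  rw [mem_nonunits_comap_iff, mem_nonunits_comap_iff] at h2
  exact h2

/-- `j_{d q} ≡ j_{d q²} ^ q mod 𝔪_{Vm}` for `d ∣ M` (Kronecker on `V₀ = V∞ ∘ W₁`, pushed by `β`). -/
theorem kronB (h : IsMid V₁ Vm) (hS : Setting P E M q w)
    (hV₁ : IsVinf P E (M * q) V₁) {W₁ : FE E (M * q) ≃ₐ[E] FE E (M * q)}
    (hW₁ : IsFricke E (M * q) W₁) (d : ℕ) [NeZero d] (hd : d ∣ M) :
    jE E (M * q * q) (d * q) ((mul_dvd_mul_right hd q).trans (dvd_mul_right _ q)) -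
      (jE E (M * q * q) (d * q * q) (mul_dvd_mul_right (mul_dvd_mul_right hd q) q)) ^ q
      ∈ Vm.nonunits := by
  haveI := hS.dvr
  obtain ⟨e, he⟩ := hd
  have he0 : e ≠ 0 := by
    rintro rfl
    exact NeZero.ne M (by rw [he, mul_zero])
  haveI : NeZero e := ⟨he0⟩
  have hdM : d ∣ M := ⟨e, he⟩
  have heM : e ∣ M := ⟨d, by rw [he, mul_comm]⟩
  have hd1 : d ∣ M * q := hdM.trans (dvd_mul_right M q)
  have hd2 : d * q ∣ M * q := mul_dvd_mul_right hdM q
  have he1 : e ∣ M * q := heM.trans (dvd_mul_right M q)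
  have he2 : e * q ∣ M * q := mul_dvd_mul_right heM q
  have hk := kron_jE hS.q_prime hS.lies_over hV₁ e he1 he2
  have hw1 : W₁ (jE E (M * q) d hd1) = jE E (M * q) (e * q) he2 :=
    hW₁.1 d (e * q) hd1 he2 (by rw [he]; ring)
  have hw2 : W₁ (jE E (M * q) (d * q) hd2) = jE E (M * q) e he1 :=
    hW₁.1 (d * q) e hd2 he1 (by rw [he]; ring)
  have h1 : W₁ (jE E (M * q) d hd1 - (jE E (M * q) (d * q) hd2) ^ q) ∈ V₁.nonunits := by
    rw [map_sub, map_pow, hw1, hw2]
    exact hk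
  have h2 := (h.beta_nonunits hS hV₁ hW₁ _).mpr h1
  rw [map_sub, map_pow, show heckeBetaBar E (M * q) q = βE E (M * q) q from rfl,
    A2.Mod.H553.βE_jE E (M * q) q d hd1, A2.Mod.H553.βE_jE E (M * q) q (d * q) hd2] at h2
  exact h2

/-- `j_{d q²} ∈ Vm` for `d ∣ M`. -/
theorem jE_mem_qq (h : IsMid V₁ Vm) (hS : Setting P E M q w)
    (hV₁ : IsVinf P E (M * q) V₁) {W₁ : FE E (M * q) ≃ₐ[E] FE E (M * q)}
    (hW₁ : IsFricke E (M * q) W₁) (d : ℕ) [NeZero d] (hd : d ∣ M) :
    jE E (M * q * q) (d * q * q) (mul_dvd_mul_right (mul_dvd_mul_right hd q) q) ∈ Vm := by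
  haveI := hS.dvr
  obtain ⟨e, he⟩ := hd
  have he0 : e ≠ 0 := by
    rintro rfl
    exact NeZero.ne M (by rw [he, mul_zero])
  haveI : NeZero e := ⟨he0⟩
  have hdM : d ∣ M := ⟨e, he⟩
  have heM : e ∣ M := ⟨d, by rw [he, mul_comm]⟩
  have hd2 : d * q ∣ M * q := mul_dvd_mul_right hdM q
  have he1 : e ∣ M * q := heM.trans (dvd_mul_right M q)
  have hw2 : W₁ (jE E (M * q) (d * q) hd2) = jE E (M * q) e he1 :=
    hW₁.1 (d * q) e hd2 he1 (by rw [he]; ring)
  have h1 : W₁ (jE E (M * q) (d * q) hd2) ∈ V₁ := by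
    rw [hw2]
    exact jE_mem hV₁ e he1
  have h2 := (h.comap_beta hS hV₁ hW₁ _).mpr h1
  rw [show heckeBetaBar E (M * q) q = βE E (M * q) q from rfl,
    A2.Mod.H553.βE_jE E (M * q) q (d * q) hd2] at h2
  exact h2

/-- **Generator congruences** on a middle valuation ring: `j_{d q²} ≡ j_d mod 𝔪_{Vm}`, `d ∣ M`. -/
theorem gen_cong (h : IsMid V₁ Vm) (hS : Setting P E M q w)
    (hV₁ : IsVinf P E (M * q) V₁) {W₁ : FE E (M * q) ≃ₐ[E] FE E (M * q)}
    (hW₁ : IsFricke E (M * q) W₁) (d : ℕ) [NeZero d] (hd : d ∣ M) :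
    jE E (M * q * q) (d * q * q) (mul_dvd_mul_right (mul_dvd_mul_right hd q) q) -
      jE E (M * q * q) d ((hd.trans (dvd_mul_right M q)).trans (dvd_mul_right _ q))
      ∈ Vm.nonunits := by
  haveI := hS.dvr
  have hA := h.kronA hS.q_prime hS.lies_over hV₁ d hd
  have hB := h.kronB hS hV₁ hW₁ d hd
  have hx := h.jE_mem_qq hS hV₁ hW₁ d hd
  have hy := h.jE_mem_of_dvd hV₁ d (hd.trans (dvd_mul_right M q))
  refine sub_mem_nonunits_of_pow Vm hS.q_prime (h.natCast_mem hS.lies_over hV₁) hx hy ?_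
  have e : (jE E (M * q * q) (d * q * q) (mul_dvd_mul_right (mul_dvd_mul_right hd q) q)) ^ q
        - (jE E (M * q * q) d ((hd.trans (dvd_mul_right M q)).trans (dvd_mul_right _ q))) ^ q
      = (jE E (M * q * q) (d * q) ((mul_dvd_mul_right hd q).trans (dvd_mul_right _ q))
          - (jE E (M * q * q) d ((hd.trans (dvd_mul_right M q)).trans (dvd_mul_right _ q))) ^ q)
        - (jE E (M * q * q) (d * q) ((mul_dvd_mul_right hd q).trans (dvd_mul_right _ q))
          - (jE E (M * q * q) (d * q * q)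
              (mul_dvd_mul_right (mul_dvd_mul_right hd q) q)) ^ q) := by ring
  rw [e]
  exact sub_mem_nonunits Vm hA hB

/-- **Fricke stability** of the middle row: `Vm ∘ W₂` is again a middle valuation ring. -/
theorem fricke (h : IsMid V₁ Vm) (hS : Setting P E M q w)
    (hV₁ : IsVinf P E (M * q) V₁) {W₁ : FE E (M * q) ≃ₐ[E] FE E (M * q)}
    (hW₁ : IsFricke E (M * q) W₁) {W₂ : FE E (M * q * q) ≃ₐ[E] FE E (M * q * q)}
    (hW₂ : IsFricke E (M * q * q) W₂) :
    IsMid V₁ (Vm.comap (W₂ : FE E (M * q * q) →+* FE E (M * q * q))) where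
  comap_alpha := fun g => by
    rw [ValuationSubring.mem_comap]
    have h1 := (A2.Mod.H553.frickeCompat E (M * q) q W₁ W₂ hW₁ hW₂ g).1
    have h2 : (W₂ : FE E (M * q * q) →+* FE E (M * q * q)) (heckeAlphaBar E (M * q) q g)
        = heckeBetaBar E (M * q) q (W₁ g) := h1
    rw [h2, h.comap_beta hS hV₁ hW₁, hW₁.2]
  pi_mem := by
    rw [mem_nonunits_comap_iff]
    have hM : M ≠ 0 := NeZero.ne M
    have hdM : M ∣ M * q * q := ⟨q * q, by ring⟩
    have hdN : M * q * q ∣ M * q * q := dvd_rfl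
    have hw1 : W₂ (jE E (M * q * q) (q * q) (Dvd.intro_left M (mul_assoc M q q).symm))
        = jE E (M * q * q) M hdM :=
      hW₂.1 (q * q) M _ hdM (by ring)
    have hw2 : W₂ (jE E (M * q * q) 1 (one_dvd _)) = jE E (M * q * q) (M * q * q) hdN :=
      hW₂.1 1 (M * q * q) _ hdN (by ring)
    have h1 : (W₂ : FE E (M * q * q) →+* FE E (M * q * q)) (piMid E M q)
        = jE E (M * q * q) M hdM - jE E (M * q * q) (M * q * q) hdN := by
      show W₂ (piMid E M q) = _
      rw [piMid, map_sub, hw1, hw2]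
    rw [h1]
    have h2 := h.gen_cong hS hV₁ hW₁ M dvd_rfl
    have e : jE E (M * q * q) M hdM - jE E (M * q * q) (M * q * q) hdN
        = -(jE E (M * q * q) (M * q * q) (mul_dvd_mul_right (mul_dvd_mul_right dvd_rfl q) q)
            - jE E (M * q * q) M
              (((dvd_refl M).trans (dvd_mul_right M q)).trans (dvd_mul_right _ q))) := by ring
    rw [e]
    exact neg_mem_nonunits _ h2

end IsMid

end Fermat.Agent.S36.H816

end

end
-- ===== PACK-END S36/H816/SymTable.lean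

-- ===== PACK-BEGIN S59/H105/NatLoc.lean
section


/-!
# Row S59, cell TW, leaf CTRL (helper105): naturality of `Aut.IsLocPart` (NAT1, concrete form)

`nat_of_isLocPart` : a linear map `f : X_K(𝒪) → X_{K'}(𝒪)` intertwining the generators
`T_ℓ - c` (`(ℓ, c) ∈ Ts`), `U_q - α` (`(q, α) ∈ Us`) maps every localisation `V` of `X_K(𝒪)` at a
set of generators containing `Ts, Us` into the localisation `W` of `X_{K'}(𝒪)` at `Ts, Us`.
In particular (`f = id`) the localisation is unique and decreasing in the set of generators.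
-/

set_option autoImplicit false

namespace Fermat.Agent.S59.H105

open IsLocalRing CongruenceSubgroup
open Fermat.Agent.S59.TW.H653 Fermat.Agent.S59.TW.Aut
open scoped MatrixGroups

section

variable {𝒪 : Type} [CommRing 𝒪] [IsDomain 𝒪] [IsDiscreteValuationRing 𝒪]
  [IsAdicComplete (maximalIdeal 𝒪) 𝒪]

theorem nat_of_isLocPart {M M' : ℕ} (hM' : M' ≠ 0) {K K' : Subgroup SL(2, ℤ)}
    (hK : IsMid M K) (hK' : IsMid M' K')
    {Tset Uset : Set (ℕ × 𝒪)} {V : Submodule 𝒪 (Additive K →+ 𝒪)}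
    (hV : IsLocPart hK Tset Uset V)
    {Ts Us : Set (ℕ × 𝒪)} {W : Submodule 𝒪 (Additive K' →+ 𝒪)}
    (hW : IsLocPart hK' Ts Us W) (hTs : Ts ⊆ Tset) (hUs : Us ⊆ Uset)
    (hT : ∀ x ∈ Ts, x.1.Prime ∧ ¬ x.1 ∣ M) (hU : ∀ x ∈ Us, x.1.Prime ∧ x.1 ∣ M)
    (hT' : ∀ x ∈ Ts, x.1.Prime ∧ ¬ x.1 ∣ M') (hU' : ∀ x ∈ Us, x.1.Prime ∧ x.1 ∣ M')
    (f : (Additive K →+ 𝒪) →ₗ[𝒪] (Additive K' →+ 𝒪))
    (hf : ∀ (i : Idx Ts Us) (x : Additive K →+ 𝒪),
      f (fam hK hT hU i x) = fam hK' hT' hU' i (f x)) :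
    ∀ x ∈ V, f x ∈ W := by
  obtain ⟨ϖ, hϖ0, hϖ⟩ := exists_uniformizer 𝒪
  obtain ⟨e, _, e2, e3, e4, e5, _⟩ := isLocPart_data hK hV hϖ
  obtain ⟨e', e'1, e'2, e'3, e'4, e'5, e'6⟩ := isLocPart_proj hK' hW hϖ hT' hU'
  haveI := xk_isNoetherian_end (𝒪 := 𝒪) hM' hK'
  have key := nat_loc ϖ (fun x h => xk_torsionFree hϖ0 x h) (fun x h => xk_sep hϖ x h)
    (fam hK hT hU) (fam hK' hT' hU') (fam_comm hK' hT' hU') V
    (by
      intro i
      apply mem_of_proj_comm e _ e2 e3
      intro x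
      rcases i with i | i
      · haveI : Fact i.1.1.Prime := ⟨(hT i.1 i.2).1⟩
        exact comm_shiftE e _ _ (fun y => e4 i.1.1 (hT i.1 i.2).2 y) x
      · haveI : Fact i.1.1.Prime := ⟨(hU i.1 i.2).1⟩
        exact comm_shiftE e _ _ (fun y => e5 i.1.1 (hU i.1 i.2).2 y) x)
    (fam_nilp hK hV hϖ hT hU hTs hUs) e' e'1 (fam_proj_comm hK' hT' hU' e' e'4 e'5)
    (by
      intro x hx hall
      rw [mem_divSub]
      refine e'6 x hx ?_ ?_
      · intro y hy
        exact mem_divSub.mp (hall (Sum.inl ⟨y, hy⟩))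
      · intro y hy
        exact mem_divSub.mp (hall (Sum.inr ⟨y, hy⟩)))
    f hf
  intro x hx
  rw [← key x hx]
  exact e'2 _

/-- The localisation is decreasing in the set of generators. -/
theorem isLocPart_mono {M : ℕ} (hM : M ≠ 0) {K : Subgroup SL(2, ℤ)} (hK : IsMid M K)
    {Tset Uset : Set (ℕ × 𝒪)} {V : Submodule 𝒪 (Additive K →+ 𝒪)}
    (hV : IsLocPart hK Tset Uset V)
    {Ts Us : Set (ℕ × 𝒪)} {W : Submodule 𝒪 (Additive K →+ 𝒪)}
    (hW : IsLocPart hK Ts Us W) (hTs : Ts ⊆ Tset) (hUs : Us ⊆ Uset)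
    (hT : ∀ x ∈ Ts, x.1.Prime ∧ ¬ x.1 ∣ M) (hU : ∀ x ∈ Us, x.1.Prime ∧ x.1 ∣ M) : V ≤ W := by
  intro x hx
  exact nat_of_isLocPart hM hK hK hV hW hTs hUs hT hU hT hU LinearMap.id (fun _ _ => rfl) x hx

/-- The localisation is unique. -/
theorem isLocPart_unique {M : ℕ} (hM : M ≠ 0) {K : Subgroup SL(2, ℤ)} (hK : IsMid M K)
    {Tset Uset : Set (ℕ × 𝒪)} {V W : Submodule 𝒪 (Additive K →+ 𝒪)}
    (hV : IsLocPart hK Tset Uset V) (hW : IsLocPart hK Tset Uset W)
    (hT : ∀ x ∈ Tset, x.1.Prime ∧ ¬ x.1 ∣ M) (hU : ∀ x ∈ Uset, x.1.Prime ∧ x.1 ∣ M) : V = W :=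
  le_antisymm (isLocPart_mono hM hK hV hW subset_rfl subset_rfl hT hU)
    (isLocPart_mono hM hK hW hV subset_rfl subset_rfl hT hU)

end

end Fermat.Agent.S59.H105

end
-- ===== PACK-END S59/H105/NatLoc.lean

-- ===== PACK-BEGIN S59/H105/OneStepAux.lean
section


/-!
# Row S59, cell TW, leaf CTRL (helper105): auxiliary lemmas for the one-prime step
-/

set_option autoImplicit false

namespace Fermat.Agent.S59.H105

open IsLocalRing CongruenceSubgroup
open Fermat.Agent.S59.TW.H653 Fermat.Agent.S59.TW.Aut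
open scoped MatrixGroups

section Abs

variable {𝒪 : Type*} [CommRing 𝒪] {X : Type*} [AddCommGroup X] [Module 𝒪 X]

theorem pow_mem_divSub (ϖ : 𝒪) (n : X →ₗ[𝒪] X) (j : ℕ) {x : X} (hx : x ∈ divSub X ϖ) :
    (n ^ j) x ∈ divSub X ϖ :=
  map_mem_divSub (n ^ j) hx

/-- If `n x ≡ u x` and `n^m x ≡ 0` modulo `ϖ`, `u` a unit, then `x ≡ 0`. -/
theorem mem_divSub_of_unit_nilp (ϖ : 𝒪) (n : X →ₗ[𝒪] X) {u : 𝒪} (hu : IsUnit u) {x : X} (m : ℕ)
    (hm : (n ^ m) x ∈ divSub X ϖ) (h : n x - u • x ∈ divSub X ϖ) : x ∈ divSub X ϖ := by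
  have key : ∀ j : ℕ, (n ^ j) x - u ^ j • x ∈ divSub X ϖ := by
    intro j
    induction j with
    | zero => simp
    | succ j ih =>
      have e : (n ^ (j + 1)) x - u ^ (j + 1) • x =
          (n ^ j) (n x - u • x) + u • ((n ^ j) x - u ^ j • x) := by
        rw [pow_succ, Module.End.mul_apply, map_sub, map_smul, smul_sub, smul_smul,
          ← pow_succ']
        abel
      rw [e]
      exact (divSub X ϖ).add_mem (pow_mem_divSub ϖ n j h) ((divSub X ϖ).smul_mem u ih)
  have h1 : u ^ m • x ∈ divSub X ϖ := by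
    have := (divSub X ϖ).sub_mem hm (key m)
    rwa [sub_sub_cancel] at this
  obtain ⟨v, hv⟩ := (hu.pow m)
  have h2 : x = (↑v⁻¹ : 𝒪) • (u ^ m • x) := by
    rw [smul_smul, ← hv, Units.inv_mul, one_smul]
  rw [h2]
  exact (divSub X ϖ).smul_mem _ h1

theorem coe_restrict_pow (f : X →ₗ[𝒪] X) (V : Submodule 𝒪 X) (h : ∀ x ∈ V, f x ∈ V) (m : ℕ)
    (y : V) : (((f.restrict h) ^ m) y : X) = (f ^ m) (y : X) := by
  induction m generalizing y with
  | zero => simp
  | succ m ih =>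
    rw [pow_succ, Module.End.mul_apply, ih, pow_succ, Module.End.mul_apply]
    rfl

end Abs

end Fermat.Agent.S59.H105

namespace Fermat.Agent.S59.H105

open IsLocalRing CongruenceSubgroup
open Fermat.Agent.S59.TW.H653 Fermat.Agent.S59.TW.Aut
open scoped MatrixGroups

section Compl

variable {𝒪 : Type} [CommRing 𝒪] [IsDomain 𝒪] [IsDiscreteValuationRing 𝒪]
  [IsAdicComplete (maximalIdeal 𝒪) 𝒪] [Finite (ResidueField 𝒪)]

/-- Saturation of a localisation. -/
theorem isLocPart_sat {M : ℕ} {K : Subgroup SL(2, ℤ)} (hK : IsMid M K)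
    {Tset Uset : Set (ℕ × 𝒪)} {V : Submodule 𝒪 (Additive K →+ 𝒪)}
    (hV : IsLocPart hK Tset Uset V) {ϖ : 𝒪} (hϖ0 : ϖ ≠ 0) (x : Additive K →+ 𝒪)
    (hx : ϖ • x ∈ V) : x ∈ V := by
  obtain ⟨e, _, e2, e3, _⟩ := hV.exists_proj
  have h1 : ϖ • (e x - x) = 0 := by
    rw [smul_sub, ← map_smul, e3 _ hx, sub_self]
  have h2 := xk_torsionFree hϖ0 _ h1
  rw [← sub_eq_zero.mp h2]
  exact e2 x

/-- On the complement of `V'` (localisation at `Tset, Uset`) inside `W` (localisation at the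
generators of `Tset` other than `T_q`, and `Uset`), `u (T_q - c) + d` is bijective
(`u` a unit, `d ≡ 0`). -/
theorem bij_compl {N q : ℕ} (hq : q.Prime) (hN : N ≠ 0) (hqN : ¬ q ∣ N)
    {Tset Uset : Set (ℕ × 𝒪)} (hT : ∀ x ∈ Tset, x.1.Prime ∧ ¬ x.1 ∣ N)
    (hU : ∀ x ∈ Uset, x.1.Prime ∧ x.1 ∣ N) {c : 𝒪}
    (hcq : ∀ c', (q, c') ∈ Tset → c' - c ∈ maximalIdeal 𝒪)
    {ϖ : 𝒪} (hϖ0 : ϖ ≠ 0) (hϖ : maximalIdeal 𝒪 = Ideal.span {ϖ})
    {W : Submodule 𝒪 (Additive (Gamma0 N) →+ 𝒪)}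
    (hW : IsLocPart (isMid_Gamma0 N) {x | x ∈ Tset ∧ x.1 ≠ q} Uset W)
    (e' : (Additive (Gamma0 N) →+ 𝒪) →ₗ[𝒪] (Additive (Gamma0 N) →+ 𝒪))
    (e'4 : ∀ (ℓ : ℕ) (hℓ : ℓ.Prime) (hℓM : ¬ ℓ ∣ N) (c : 𝒪) (x : Additive (Gamma0 N) →+ 𝒪),
        e' (tOpL (isMid_Gamma0 N) 𝒪 ℓ hℓ hℓM c x) = tOpL (isMid_Gamma0 N) 𝒪 ℓ hℓ hℓM c (e' x))
    (e'5 : ∀ (q : ℕ) (hq : q.Prime) (hqM : q ∣ N) (α : 𝒪) (x : Additive (Gamma0 N) →+ 𝒪),
        e' (uOpL (isMid_Gamma0 N) 𝒪 q hq hqM α x) = uOpL (isMid_Gamma0 N) 𝒪 q hq hqM α (e' x))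
    (e'6 : ∀ x, e' x = 0 →
        (∀ (y : ℕ × 𝒪) (hy : y ∈ Tset), ∃ z : Additive (Gamma0 N) →+ 𝒪,
          tOpL (isMid_Gamma0 N) 𝒪 y.1 (hT y hy).1 (hT y hy).2 y.2 x = ϖ • z) →
        (∀ (y : ℕ × 𝒪) (hy : y ∈ Uset), ∃ z : Additive (Gamma0 N) →+ 𝒪,
          uOpL (isMid_Gamma0 N) 𝒪 y.1 (hU y hy).1 (hU y hy).2 y.2 x = ϖ • z) →
        ∃ z : Additive (Gamma0 N) →+ 𝒪, x = ϖ • z)
    {u d : 𝒪} (hu : IsUnit u) (hd : d ∈ maximalIdeal 𝒪) :
    BijOnSub (u • tOpL (isMid_Gamma0 N) 𝒪 q hq hqN c + d • LinearMap.id)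
      (W ⊓ LinearMap.ker e') := by
  classical
  set Ts : Set (ℕ × 𝒪) := {x | x ∈ Tset ∧ x.1 ≠ q} with hTs
  have hTsN : ∀ x ∈ Ts, x.1.Prime ∧ ¬ x.1 ∣ N := fun x hx => hT x hx.1
  obtain ⟨eW, eW1, eW2, eW3, eW4, eW5, _⟩ := isLocPart_proj _ hW hϖ hTsN hU
  set Tq := tOpL (isMid_Gamma0 N) 𝒪 q hq hqN c with hTq
  set g := u • Tq + d • LinearMap.id with hg
  have hgapp : ∀ x, g x = u • Tq x + d • x := fun x => rfl
  obtain ⟨d', rfl⟩ : ∃ d', d = ϖ * d' := by
    rw [hϖ, Ideal.mem_span_singleton] at hd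
    exact hd
  haveI : Module.Finite 𝒪 ↥(W ⊓ LinearMap.ker e') :=
    (xk_finite_free hN (isMid_Gamma0 N) _).1
  haveI := xk_isNoetherian_end (𝒪 := 𝒪) hN (isMid_Gamma0 N)
  have hTqW : ∀ x ∈ W, Tq x ∈ W := mem_of_proj_comm eW Tq eW2 eW3 (fun x => eW4 q hq hqN c x)
  have hTqK : ∀ x, e' x = 0 → e' (Tq x) = 0 := by
    intro x hx
    rw [e'4, hx, map_zero]
  apply bijOnSub_of_injective_mod ϖ hϖ
  · -- saturation
    intro x hx
    refine ⟨isLocPart_sat _ hW hϖ0 x hx.1, ?_⟩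
    have h1 : ϖ • e' x = 0 := by
      rw [← map_smul]
      exact hx.2
    exact xk_torsionFree hϖ0 _ h1
  · -- stability
    intro x hx
    refine ⟨?_, ?_⟩
    · rw [hgapp]
      exact W.add_mem (W.smul_mem u (hTqW x hx.1)) (W.smul_mem _ hx.1)
    · have hx2 : e' x = 0 := hx.2
      show e' (g x) = 0
      rw [hgapp, map_add, map_smul, map_smul, hTqK x hx2, hx2]
      simp
  · -- injectivity modulo `ϖ`
    intro x hx hgx
    rw [← mem_divSub]
    by_contra hxB
    -- `(T_q - c) x ≡ 0`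
    have hTx : Tq x ∈ divSub _ ϖ := by
      obtain ⟨z, hz⟩ := hgx
      obtain ⟨v, rfl⟩ := hu
      have : Tq x = ϖ • ((↑v⁻¹ : 𝒪) • (z - d' • x)) := by
        have e1 : (v : 𝒪) • Tq x = ϖ • (z - d' • x) := by
          rw [smul_sub, ← hz, hgapp, smul_smul]
          abel
        rw [smul_comm, ← e1, smul_smul, Units.inv_mul, one_smul]
      exact mem_divSub.mpr ⟨_, this⟩
    let S : Submodule 𝒪 (Additive (Gamma0 N) →+ 𝒪) :=
      (W ⊓ LinearMap.ker e') ⊓ (divSub _ ϖ).comap Tq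
    have hxS : x ∈ S := ⟨hx, hTx⟩
    have hfamTq : ∀ (i : Idx Ts Uset) (y : Additive (Gamma0 N) →+ 𝒪),
        Tq (fam (isMid_Gamma0 N) hTsN hU i y) = fam (isMid_Gamma0 N) hTsN hU i (Tq y) := by
      intro i y
      rcases i with i | i
      · exact tOpL_tOpL _ q i.1.1 hq (hTsN i.1 i.2).1 hqN (hTsN i.1 i.2).2 c i.1.2 y
      · exact (uOpL_tOpL _ i.1.1 q (hU i.1 i.2).1 hq (hU i.1 i.2).2 hqN i.1.2 c y).symm
    obtain ⟨z, hzS, hzB, hker⟩ := exists_common_ker (fam (isMid_Gamma0 N) hTsN hU)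
      (fam_comm (isMid_Gamma0 N) hTsN hU) S (divSub _ ϖ)
      (by
        intro i y hy
        refine ⟨⟨?_, ?_⟩, ?_⟩
        · exact mem_of_proj_comm eW _ eW2 eW3
            (fam_proj_comm (isMid_Gamma0 N) hTsN hU eW eW4 eW5 i) y hy.1.1
        · have hy2 : e' y = 0 := hy.1.2
          show e' (fam (isMid_Gamma0 N) hTsN hU i y) = 0
          rw [fam_proj_comm (isMid_Gamma0 N) hTsN hU e' e'4 e'5 i, hy2, map_zero]
        · have hy3 : Tq y ∈ divSub _ ϖ := hy.2
          show Tq (fam (isMid_Gamma0 N) hTsN hU i y) ∈ divSub _ ϖ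
          rw [hfamTq]
          exact map_mem_divSub _ hy3)
      (fun i y hy => map_mem_divSub _ hy)
      (by
        intro i
        obtain ⟨m, hm⟩ := fam_nilp (isMid_Gamma0 N) hW hϖ hTsN hU subset_rfl subset_rfl i
        refine ⟨m, fun y hy => ?_⟩
        obtain ⟨z, _, hz⟩ := hm y hy.1.1
        exact mem_divSub.mpr ⟨z, hz⟩)
      hxS hxB
    apply hzB
    rw [mem_divSub]
    have hz2 : e' z = 0 := hzS.1.2
    refine e'6 z hz2 ?_ ?_
    · intro y hy
      by_cases hyq : y.1 = q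
      · -- the generator at `q`
        obtain ⟨ℓ, c'⟩ := y
        simp only at hyq
        subst hyq
        have hc' := hcq c' hy
        rw [hϖ, Ideal.mem_span_singleton] at hc'
        obtain ⟨w, hw⟩ := hc'
        have hz3 : Tq z ∈ divSub _ ϖ := hzS.2
        obtain ⟨z', hz'⟩ := mem_divSub.mp hz3
        refine ⟨z' - w • z, ?_⟩
        have e1 : tOpL (isMid_Gamma0 N) 𝒪 ℓ (hT (ℓ, c') hy).1 (hT (ℓ, c') hy).2 c' z =
            Tq z - (c' - c) • z := by
          haveI : Fact ℓ.Prime := ⟨hq⟩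
          show shiftE 𝒪 _ c' z = shiftE 𝒪 _ c z - (c' - c) • z
          simp only [shiftE_apply, sub_smul]
          abel
        rw [e1, hz', hw, smul_sub, mul_smul]
      · exact mem_divSub.mp (hker (Sum.inl ⟨y, hy, hyq⟩))
    · intro y hy
      exact mem_divSub.mp (hker (Sum.inr ⟨y, hy⟩))

end Compl

end Fermat.Agent.S59.H105

end
-- ===== PACK-END S59/H105/OneStepAux.lean

-- ===== PACK-BEGIN S59/H105/OneStep.lean
section



/-!
# Row S59, cell TW, leaf CTRL (helper105): the one-prime step for `Aut.IsLocPart`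

`one_step` : level `N`, prime `q ∤ N` (a unit of `𝒪`), `V'` the localisation of
`X_{Γ₀(N)}(𝒪)` at `Tset ∋ (q, c)`, `Uset`; `V` the localisation of `X_{Γ₀(N q)}(𝒪)` at
`Tset \ {q}`, `Uset ∪ {(q, α)}`, where `α + β ≡ c`, `α β ≡ q`, `α ≢ β`, `α² ≢ 1`.  Then
`t₂ : V → V'` is bijective.

Hypotheses: `Aut.IdemStatement` (existence of localisations; used for the localisation of level `N`
without the condition at `q`) and `CrossStatement` (the `U_q'`, `q' ∣ N`, commute with the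
degeneracy maps).
-/

set_option autoImplicit false

namespace Fermat.Agent.S59.H105

open IsLocalRing CongruenceSubgroup
open Fermat.Agent.S29.H642 Fermat.Agent.S41 Fermat.Agent.S41.Spec
open Fermat.Agent.S59.TW.H653 Fermat.Agent.S59.TW.Aut
open scoped MatrixGroups

section Gen

variable {𝒪 : Type*} [CommRing 𝒪] {X : Type*} [AddCommGroup X] [Module 𝒪 X]

/-- Bijectivity on a submodule from bijectivity of the restriction. -/
theorem bijOnSub_of_bijective (V : Submodule 𝒪 X) (F : V →ₗ[𝒪] V) (hF : Function.Bijective F)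
    (G : X →ₗ[𝒪] X) (hG : ∀ y : V, G (y : X) = (F y : X)) : BijOnSub G V := by
  refine ⟨?_, ?_, ?_⟩
  · intro x hx
    rw [hG ⟨x, hx⟩]
    exact (F ⟨x, hx⟩).2
  · intro x hx e
    rw [hG ⟨x, hx⟩] at e
    have : F ⟨x, hx⟩ = 0 := Subtype.ext e
    have h0 := hF.1 (a₁ := ⟨x, hx⟩) (a₂ := 0) (by rw [this, map_zero])
    exact congrArg Subtype.val h0
  · intro x hx
    obtain ⟨y, hy⟩ := hF.2 ⟨x, hx⟩
    exact ⟨y, y.2, by rw [hG y, hy]⟩

end Gen

section

variable {𝒪 : Type} [CommRing 𝒪] [IsDomain 𝒪] [IsDiscreteValuationRing 𝒪]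
  [IsAdicComplete (maximalIdeal 𝒪) 𝒪] [Finite (ResidueField 𝒪)]

theorem not_dvd_mul_of_prime {ℓ q N : ℕ} (hℓ : ℓ.Prime) (hq : q.Prime) (h1 : ¬ ℓ ∣ N)
    (h2 : ℓ ≠ q) : ¬ ℓ ∣ N * q := by
  intro h
  rcases (Nat.Prime.dvd_mul hℓ).mp h with h | h
  · exact h1 h
  · exact h2 ((Nat.prime_dvd_prime_iff_eq hℓ hq).mp h)

/-- `U_q² - 1` is bijective on a localisation at `U_q ≡ α`, `α² ≢ 1`. -/
theorem bij_UU {M q : ℕ} (hq : q.Prime) (hM : M ≠ 0) (hqM : q ∣ M)
    {Tset Uset : Set (ℕ × 𝒪)} {α : 𝒪} (hαU : (q, α) ∈ Uset) (hα : IsUnit (1 - α ^ 2))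
    {ϖ : 𝒪} (hϖ0 : ϖ ≠ 0) (hϖ : maximalIdeal 𝒪 = Ideal.span {ϖ})
    {V : Submodule 𝒪 (Additive (Gamma0 M) →+ 𝒪)}
    (hV : IsLocPart (isMid_Gamma0 M) Tset Uset V)
    (U : (Additive (Gamma0 M) →+ 𝒪) →ₗ[𝒪] (Additive (Gamma0 M) →+ 𝒪))
    (hU : uOpL (isMid_Gamma0 M) 𝒪 q hq hqM α = shiftBy U α) :
    BijOnSub (U.comp U - LinearMap.id) V := by
  obtain ⟨e, _, e2, e3, e4, e5, _⟩ := isLocPart_data _ hV hϖ
  haveI : Fact q.Prime := ⟨hq⟩
  have heU : ∀ x, e (shiftBy U α x) = shiftBy U α (e x) := by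
    intro x
    rw [← hU]
    exact comm_shiftE e _ α (fun y => e5 q hqM y) x
  have hUα : ∀ x ∈ V, shiftBy U α x ∈ V := mem_of_proj_comm e _ e2 e3 heU
  have hUV : ∀ x ∈ V, U x ∈ V := by
    intro x hx
    have := V.add_mem (hUα x hx) (V.smul_mem α hx)
    rwa [shiftBy_apply, sub_add_cancel] at this
  haveI : Module.Finite 𝒪 ↥V := (xk_finite_free hM (isMid_Gamma0 M) V).1
  obtain ⟨m, hm⟩ := isLocPart_nilp_uOpL _ hV hϖ q hq hqM α hαU
  apply bijOnSub_of_injective_mod ϖ hϖ V (isLocPart_sat _ hV hϖ0)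
  · intro x hx
    exact V.sub_mem (hUV _ (hUV x hx)) hx
  · intro x hx hgx
    rw [← mem_divSub]
    -- `n = (U + α) (U - α) = U² - α²`
    have hAB : Commute (shiftBy U (-α)) (shiftBy U α) := by
      show shiftBy U (-α) * shiftBy U α = shiftBy U α * shiftBy U (-α)
      ext y : 1
      simp only [Module.End.mul_apply, shiftBy_apply, map_sub, map_smul, neg_smul,
        sub_neg_eq_add, map_add, smul_sub, smul_add]
      abel
    have hn : ∀ y, (shiftBy U (-α) * shiftBy U α) y = U (U y) - α ^ 2 • y := by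
      intro y
      simp only [Module.End.mul_apply, shiftBy_apply, map_sub, map_smul, neg_smul,
        sub_neg_eq_add, pow_two, mul_smul, smul_sub, smul_add]
      abel
    apply mem_divSub_of_unit_nilp ϖ (shiftBy U (-α) * shiftBy U α) hα m
    · rw [hAB.mul_pow, Module.End.mul_apply]
      apply map_mem_divSub
      obtain ⟨z, _, hz⟩ := hm x hx
      rw [hU] at hz
      exact mem_divSub.mpr ⟨z, hz⟩
    · obtain ⟨z, hz⟩ := hgx
      rw [hn]
      refine mem_divSub.mpr ⟨z, ?_⟩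
      rw [← hz]
      simp only [LinearMap.sub_apply, LinearMap.comp_apply, LinearMap.id_apply, sub_smul,
        one_smul]
      abel


/-- **The one-prime step.** -/
theorem one_step (idem : IdemStatement) (hcross : CrossStatement)
    {N q : ℕ} [Fact q.Prime] (hN : N ≠ 0) (hqN : ¬ q ∣ N) (hqu : IsUnit (q : 𝒪))
    {Tset Uset : Set (ℕ × 𝒪)} (hT : ∀ x ∈ Tset, x.1.Prime ∧ ¬ x.1 ∣ N)
    (hU : ∀ x ∈ Uset, x.1.Prime ∧ x.1 ∣ N)
    {c α β : 𝒪} (hcT : (q, c) ∈ Tset) (hcq : ∀ c', (q, c') ∈ Tset → c' - c ∈ maximalIdeal 𝒪)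
    (hc : α + β - c ∈ maximalIdeal 𝒪) (hq : α * β - (q : 𝒪) ∈ maximalIdeal 𝒪)
    (hαβ : IsUnit (α - β)) (hα : IsUnit (1 - α ^ 2)) (hβ : IsUnit (1 - β ^ 2))
    {V' : Submodule 𝒪 (Additive (Gamma0 N) →+ 𝒪)}
    (hV' : IsLocPart (isMid_Gamma0 N) Tset Uset V')
    {V : Submodule 𝒪 (Additive (Gamma0 (N * q)) →+ 𝒪)}
    (hV : IsLocPart (isMid_Gamma0 (N * q)) {x | x ∈ Tset ∧ x.1 ≠ q} (Uset ∪ {(q, α)}) V) :
    (∀ y ∈ V, t₂ N q y ∈ V') ∧ (∀ y ∈ V, t₂ N q y = 0 → y = 0) ∧
      (∀ x ∈ V', ∃ y ∈ V, t₂ N q y = x) := by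
  classical
  obtain ⟨ϖ, hϖ0, hϖ⟩ := exists_uniformizer 𝒪
  have hq' : q.Prime := Fact.out
  have hNq : N * q ≠ 0 := Nat.mul_ne_zero hN hq'.ne_zero
  have hdvd : q ∣ N * q := dvd_mul_self_left N q
  set Ts : Set (ℕ × 𝒪) := {x | x ∈ Tset ∧ x.1 ≠ q} with hTs
  have hTsN : ∀ x ∈ Ts, x.1.Prime ∧ ¬ x.1 ∣ N := fun x hx => hT x hx.1
  have hTsQ : ∀ x ∈ Ts, x.1.Prime ∧ ¬ x.1 ∣ N * q := fun x hx =>
    ⟨(hT x hx.1).1, not_dvd_mul_of_prime (hT x hx.1).1 hq' (hT x hx.1).2 hx.2⟩
  have hUQ : ∀ x ∈ Uset, x.1.Prime ∧ x.1 ∣ N * q := fun x hx =>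
    ⟨(hU x hx).1, Dvd.dvd.mul_right (hU x hx).2 q⟩
  have hUQ' : ∀ x ∈ Uset ∪ {(q, α)}, x.1.Prime ∧ x.1 ∣ N * q := by
    rintro x (hx | hx)
    · exact hUQ x hx
    · rw [Set.mem_singleton_iff] at hx
      subst hx
      exact ⟨hq', hdvd⟩
  -- the intermediate localisation
  obtain ⟨W, hW⟩ := idem 𝒪 N hN (Gamma0 N) (isMid_Gamma0 N) Ts Uset hTsN hU
  obtain ⟨e', e'1, e'2, e'3, e'4, e'5, e'6⟩ := isLocPart_proj _ hV' hϖ hT hU
  obtain ⟨e, e1, e2, e3, e4, e5, e6⟩ := isLocPart_proj _ hV hϖ hTsQ hUQ'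
  haveI := xk_isNoetherian_end (𝒪 := 𝒪) hNq (isMid_Gamma0 (N * q))
  have hV'W : V' ≤ W :=
    isLocPart_mono hN _ hV' hW (fun x hx => hx.1) subset_rfl hTsN hU
  have ht₁W : ∀ y ∈ V, t₁L 𝒪 𝒪 N q y ∈ W :=
    nat_of_isLocPart hN (isMid_Gamma0 (N * q)) (isMid_Gamma0 N) hV hW subset_rfl
      Set.subset_union_left hTsQ hUQ hTsN hU (t₁L 𝒪 𝒪 N q) (by
        rintro (i | i) x
        · exact tOpL_t₁ 𝒪 hNq i.1.1 (hTsN i.1 i.2).1 (hTsN i.1 i.2).2 (hTsQ i.1 i.2).2 i.1.2 x
        · exact uOpL_t₁ 𝒪 hcross hqN i.1.1 (hU i.1 i.2).1 (hU i.1 i.2).2 (hUQ i.1 i.2).2 i.1.2 x)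
  have ht₂W : ∀ y ∈ V, t₂L 𝒪 𝒪 N q y ∈ W :=
    nat_of_isLocPart hN (isMid_Gamma0 (N * q)) (isMid_Gamma0 N) hV hW subset_rfl
      Set.subset_union_left hTsQ hUQ hTsN hU (t₂L 𝒪 𝒪 N q) (by
        rintro (i | i) x
        · exact tOpL_t₂ 𝒪 hNq i.1.1 (hTsN i.1 i.2).1 (hTsN i.1 i.2).2 (hTsQ i.1 i.2).2 i.1.2 x
        · exact uOpL_t₂ 𝒪 hcross hqN i.1.1 (hU i.1 i.2).1 (hU i.1 i.2).2 (hUQ i.1 i.2).2 i.1.2 x)
  -- the operators `T = T_q` (level `N`) and `U = U_q` (level `N q`)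
  set T := TlL 𝒪 𝒪 hqN with hTdef
  set U := UqL 𝒪 𝒪 hdvd with hUdef
  have hTq : tOpL (isMid_Gamma0 N) 𝒪 q hq' hqN c = shiftBy T c := by
    show shiftE 𝒪 (TKL (isMid_Gamma0 N) 𝒪 hqN) c = _
    rw [TKL_eq_TlL]
    rfl
  have hUq : uOpL (isMid_Gamma0 (N * q)) 𝒪 q hq' hdvd α = shiftBy U α := by
    show shiftE 𝒪 (UKL (isMid_Gamma0 (N * q)) 𝒪 hdvd) α = _
    rw [UKL_eq_UqL]
    rfl
  have he'Tc : ∀ x, e' (shiftBy T c x) = shiftBy T c (e' x) := by
    intro x
    rw [← hTq]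
    exact e'4 q hq' hqN c x
  have he'T : ∀ x, e' (T x) = T (e' x) := by
    intro x
    have := he'Tc x
    simp only [shiftBy_apply, map_sub, map_smul] at this
    exact sub_left_inj.mp this
  have heUα : ∀ x, e (shiftBy U α x) = shiftBy U α (e x) := by
    intro x
    rw [← hUq]
    exact e5 q hq' hdvd α x
  have heU : ∀ x, e (U x) = U (e x) := by
    intro x
    have := heUα x
    simp only [shiftBy_apply, map_sub, map_smul] at this
    exact sub_left_inj.mp this
  have hTV' : ∀ x ∈ V', T x ∈ V' := mem_of_proj_comm e' T e'2 e'3 he'T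
  have hTcV' : ∀ x ∈ V', shiftBy T c x ∈ V' := mem_of_proj_comm e' _ e'2 e'3 he'Tc
  -- Hensel on `V'`
  letI : AddCommGroup ↥V' := Submodule.addCommGroup V'
  haveI : Module.Finite 𝒪 ↥V' := (xk_finite_free hN (isMid_Gamma0 N) V').1
  haveI : Module.Free 𝒪 ↥V' := (xk_finite_free hN (isMid_Gamma0 N) V').2
  have htfY : ∀ y : V', ϖ • y = 0 → y = 0 := by
    intro y hy
    apply Subtype.ext
    exact xk_torsionFree hϖ0 _ (congrArg Subtype.val hy)
  set S : V' →ₗ[𝒪] V' := (shiftBy T c).restrict hTcV' with hS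
  set TV : V' →ₗ[𝒪] V' := S + c • (1 : V' →ₗ[𝒪] V') with hTVdef
  have hTVval : ∀ y : V', ((TV y : V') : Additive (Gamma0 N) →+ 𝒪) = T (y : _) := by
    intro y
    show shiftBy T c (y : _) + c • (y : Additive (Gamma0 N) →+ 𝒪) = _
    rw [shiftBy_apply, sub_add_cancel]
  obtain ⟨k, hk⟩ := isLocPart_nilp_tOpL _ hV' hϖ q hq' hqN c hcT
  rw [hTq] at hk
  have hnilS : ∀ y : V', ∃ z : V', ((TV - c • (1 : V' →ₗ[𝒪] V')) ^ k) y = ϖ • z := by
    intro y
    have e0 : TV - c • (1 : V' →ₗ[𝒪] V') = S := by rw [hTVdef, add_sub_cancel_right]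
    obtain ⟨z, hz, ez⟩ := hk y y.2
    refine ⟨⟨z, hz⟩, ?_⟩
    apply Subtype.ext
    rw [e0, hS, coe_restrict_pow]
    exact ez
  obtain ⟨a, b, hab, hmul, hmul', haS, hbS, hanil, -, bij1, bij2, -, bij4, -⟩ :=
    hensel_op ϖ hϖ htfY TV c (q : 𝒪) α β hc hq hαβ hα hβ k hnilS
  -- extension of `a`, `b` to the whole space
  set e'c : (Additive (Gamma0 N) →+ 𝒪) →ₗ[𝒪] V' := LinearMap.codRestrict V' e' e'2 with he'c
  have he'c_id : ∀ y : V', e'c (y : _) = y := fun y => Subtype.ext (e'3 _ y.2)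
  set aE : (Additive (Gamma0 N) →+ 𝒪) →ₗ[𝒪] (Additive (Gamma0 N) →+ 𝒪) :=
    V'.subtype ∘ₗ a ∘ₗ e'c with haE
  set bE : (Additive (Gamma0 N) →+ 𝒪) →ₗ[𝒪] (Additive (Gamma0 N) →+ 𝒪) :=
    V'.subtype ∘ₗ b ∘ₗ e'c with hbE
  have haEv : ∀ y : V', aE (y : _) = (a y : V') := by
    intro y
    show ((a (e'c (y : _)) : V') : Additive (Gamma0 N) →+ 𝒪) = _
    rw [he'c_id]
  have hbEv : ∀ y : V', bE (y : _) = (b y : V') := by
    intro y
    show ((b (e'c (y : _)) : V') : Additive (Gamma0 N) →+ 𝒪) = _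
    rw [he'c_id]
  have hp : HenselPair V' q T aE bE := by
    refine ⟨hTV', fun x _ => (a (e'c x)).2, fun x _ => (b (e'c x)).2, ?_, ?_, ?_⟩
    · intro x hx
      rw [haEv ⟨x, hx⟩, hbEv ⟨x, hx⟩, ← hTVval ⟨x, hx⟩, ← hab]
      rfl
    · intro x hx
      rw [hbEv ⟨x, hx⟩, haEv, hmul, ← Nat.cast_smul_eq_nsmul 𝒪]
      rfl
    · intro x hx
      rw [haEv ⟨x, hx⟩, hbEv, hmul', ← Nat.cast_smul_eq_nsmul 𝒪]
      rfl
  have hab' : BijOnSub (aE - bE) V' :=
    bijOnSub_of_bijective V' (a - b) bij1 _ (fun y => by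
      rw [LinearMap.sub_apply, haEv, hbEv]
      rfl)
  have ha2 : BijOnSub (oneSubSq aE) V' :=
    bijOnSub_of_bijective V' ((1 : V' →ₗ[𝒪] V') - a * a) bij2 _ (fun y => by
      rw [oneSubSq_apply, haEv, haEv]
      rfl)
  have hbα : BijOnSub (shiftBy bE α) V' :=
    bijOnSub_of_bijective V' (b - α • (1 : V' →ₗ[𝒪] V')) bij4 _ (fun y => by
      rw [shiftBy_apply, hbEv]
      rfl)
  -- the complement
  have hαu : IsUnit α := by
    have h1 : IsUnit (α * β) := by
      by_contra hcon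
      have h2 : α * β ∈ maximalIdeal 𝒪 := (mem_maximalIdeal _).mpr hcon
      have h3 : (q : 𝒪) ∈ maximalIdeal 𝒪 := by
        have := Ideal.sub_mem _ h2 hq
        rwa [sub_sub_cancel] at this
      exact (mem_maximalIdeal _).mp h3 hqu
    exact isUnit_of_mul_isUnit_left h1
  have hd : α * c - α ^ 2 - (q : 𝒪) ∈ maximalIdeal 𝒪 := by
    have : α * c - α ^ 2 - (q : 𝒪) = (α * β - q) - α * (α + β - c) := by ring
    rw [this]
    exact Ideal.sub_mem _ hq (Ideal.mul_mem_left _ _ hc)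
  have hg : BijOnSub (α • T - (α ^ 2 + (q : 𝒪)) • LinearMap.id) (W ⊓ LinearMap.ker e') := by
    have h0 := bij_compl hq' hN hqN hT hU hcq hϖ0 hϖ hW e' e'4 e'5 e'6 hαu hd
    have e0 : α • tOpL (isMid_Gamma0 N) 𝒪 q hq' hqN c + (α * c - α ^ 2 - (q : 𝒪)) • LinearMap.id =
        α • T - (α ^ 2 + (q : 𝒪)) • LinearMap.id := by
      rw [hTq]
      ext x : 1
      simp only [LinearMap.add_apply, LinearMap.sub_apply, LinearMap.smul_apply,
        LinearMap.id_apply, shiftBy_apply, smul_sub, sub_smul, add_smul, mul_smul]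
      abel
    rwa [e0] at h0
  have hTW'' : ∀ x ∈ W ⊓ LinearMap.ker e', T x ∈ W ⊓ LinearMap.ker e' := by
    intro x hx
    obtain ⟨eW, _, eW2, eW3, eW4, _, _⟩ := isLocPart_data _ hW hϖ
    refine ⟨?_, ?_⟩
    · apply mem_of_proj_comm eW T eW2 eW3 _ x hx.1
      intro y
      have := eW4 q hqN y
      rw [TKL_eq_TlL] at this
      exact this
    · have hx2 : e' x = 0 := hx.2
      show e' (T x) = 0
      rw [he'T, hx2, map_zero]
  -- the part `P = V`
  have hsep : SepOn V ϖ := by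
    intro x _ hx
    exact xk_sep hϖ x (fun n => by
      obtain ⟨z, _, hz⟩ := hx n
      exact ⟨z, hz⟩)
  have hnilU : NilpOn (shiftBy U α) V ϖ := by
    refine ⟨mem_of_proj_comm e _ e2 e3 heUα, ?_⟩
    obtain ⟨m, hm⟩ := isLocPart_nilp_uOpL _ hV hϖ q hq' hdvd α (Or.inr rfl)
    refine ⟨m, fun x hx => ?_⟩
    obtain ⟨z, hz, ez⟩ := hm x hx
    refine ⟨z, hz, ?_⟩
    rw [← ez, hUq, Module.End.pow_apply]
  have hsurj : ∀ y ∈ V, ∃ y' ∈ V, U (U y') - y' = y := by
    have := bij_UU hq' hNq hdvd (Or.inr rfl) hα hϖ0 hϖ hV U hUq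
    intro y hy
    obtain ⟨y', hy', ey⟩ := this.surj y hy
    exact ⟨y', hy', ey⟩
  have hsplit : ∀ w ∈ W, ∃ x' ∈ V', ∃ x'' ∈ W ⊓ LinearMap.ker e', w = x' + x'' := by
    intro w hw
    refine ⟨e' w, e'2 w, w - e' w, ⟨W.sub_mem hw (hV'W (e'2 w)), ?_⟩, by abel⟩
    show e' (w - e' w) = 0
    rw [map_sub, e'1, sub_self]
  -- `s_a (V') ⊆ V`
  have hsa : ∀ x ∈ V', sOld (r₁L 𝒪 𝒪 N q) (r₂L 𝒪 𝒪 N q) aE x ∈ V := by
    have hfamV' : ∀ (i : Idx Ts Uset), ∀ x ∈ V', fam (isMid_Gamma0 N) hTsN hU i x ∈ V' :=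
      fun i => mem_of_proj_comm e' _ e'2 e'3
        (fam_proj_comm (isMid_Gamma0 N) hTsN hU e' e'4 e'5 i)
    let Nsrc : Idx Ts Uset ⊕ Unit → (V' →ₗ[𝒪] V') := fun i =>
      match i with
      | .inl i => (fam (isMid_Gamma0 N) hTsN hU i).restrict (hfamV' i)
      | .inr _ => a - α • (1 : V' →ₗ[𝒪] V')
    let Ntgt : Idx Ts Uset ⊕ Unit →
        ((Additive (Gamma0 (N * q)) →+ 𝒪) →ₗ[𝒪] (Additive (Gamma0 (N * q)) →+ 𝒪)) := fun i =>
      match i with
      | .inl i => fam (isMid_Gamma0 (N * q)) hTsQ hUQ i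
      | .inr _ => uOpL (isMid_Gamma0 (N * q)) 𝒪 q hq' hdvd α
    have hUfam : ∀ (i : Idx Ts Uset) (x : Additive (Gamma0 (N * q)) →+ 𝒪),
        uOpL (isMid_Gamma0 (N * q)) 𝒪 q hq' hdvd α (fam (isMid_Gamma0 (N * q)) hTsQ hUQ i x) =
          fam (isMid_Gamma0 (N * q)) hTsQ hUQ i
            (uOpL (isMid_Gamma0 (N * q)) 𝒪 q hq' hdvd α x) := by
      rintro (i | i) x
      · exact uOpL_tOpL _ q i.1.1 hq' (hTsQ i.1 i.2).1 hdvd (hTsQ i.1 i.2).2 α i.1.2 x
      · exact uOpL_uOpL _ q i.1.1 hq' (hUQ i.1 i.2).1 hdvd (hUQ i.1 i.2).2 α i.1.2 x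
    have hSfam : ∀ (i : Idx Ts Uset) (y : V'),
        (fam (isMid_Gamma0 N) hTsN hU i).restrict (hfamV' i) (TV y) =
          TV ((fam (isMid_Gamma0 N) hTsN hU i).restrict (hfamV' i) y) := by
      intro i y
      apply Subtype.ext
      show fam (isMid_Gamma0 N) hTsN hU i ((TV y : V') : _) =
        ((TV ((fam (isMid_Gamma0 N) hTsN hU i).restrict (hfamV' i) y) : V') : _)
      rw [hTVval, hTVval]
      show fam (isMid_Gamma0 N) hTsN hU i (T (y : _)) = T (fam (isMid_Gamma0 N) hTsN hU i (y : _))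
      have key : ∀ x, fam (isMid_Gamma0 N) hTsN hU i (shiftBy T c x) =
          shiftBy T c (fam (isMid_Gamma0 N) hTsN hU i x) := by
        intro x
        rw [← hTq]
        rcases i with i | i
        · exact tOpL_tOpL _ i.1.1 q (hTsN i.1 i.2).1 hq' (hTsN i.1 i.2).2 hqN i.1.2 c x
        · exact uOpL_tOpL _ i.1.1 q (hU i.1 i.2).1 hq' (hU i.1 i.2).2 hqN i.1.2 c x
      have := key (y : _)
      simp only [shiftBy_apply, map_sub, map_smul] at this
      exact sub_left_inj.mp this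
    have key := nat_loc ϖ (fun x h => xk_torsionFree hϖ0 x h) (fun x h => xk_sep hϖ x h)
      Nsrc Ntgt
      (by
        rintro (i | _) (j | _) x
        · exact fam_comm _ hTsQ hUQ i j x
        · exact (hUfam i x).symm
        · exact hUfam j x
        · rfl)
      ⊤ (fun _ _ _ => Submodule.mem_top)
      (by
        rintro (i | _)
        · obtain ⟨m, hm⟩ := fam_nilp _ hV' hϖ hTsN hU (fun x hx => hx.1) subset_rfl i
          refine ⟨m, fun y _ => ?_⟩
          obtain ⟨z, hz, ez⟩ := hm y y.2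
          refine ⟨⟨z, hz⟩, Submodule.mem_top, ?_⟩
          apply Subtype.ext
          show ((((fam (isMid_Gamma0 N) hTsN hU i).restrict (hfamV' i)) ^ m) y : V').1 = _
          rw [coe_restrict_pow]
          exact ez
        · refine ⟨1 + k, fun y _ => ?_⟩
          obtain ⟨z, hz⟩ := hanil y
          exact ⟨z, Submodule.mem_top, hz⟩)
      e e1
      (by
        rintro (i | _) x
        · exact fam_proj_comm _ hTsQ hUQ e e4 e5 i x
        · exact e5 q hq' hdvd α x)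
      (by
        intro x hx hall
        rw [mem_divSub]
        refine e6 x hx ?_ ?_
        · intro y hy
          exact mem_divSub.mp (hall (Sum.inl (Sum.inl ⟨y, hy⟩)))
        · rintro y (hy | hy)
          · exact mem_divSub.mp (hall (Sum.inl (Sum.inr ⟨y, hy⟩)))
          · rw [Set.mem_singleton_iff] at hy
            subst hy
            exact mem_divSub.mp (hall (Sum.inr ())))
      ((sOld (r₁L 𝒪 𝒪 N q) (r₂L 𝒪 𝒪 N q) aE) ∘ₗ V'.subtype)
      (by
        rintro (i | _) y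
        · -- generators of the family
          have h1 : aE (fam (isMid_Gamma0 N) hTsN hU i (y : _)) =
              fam (isMid_Gamma0 N) hTsN hU i (aE (y : _)) := by
            have := haS _ (hSfam i) y
            have e1 := haEv ((fam (isMid_Gamma0 N) hTsN hU i).restrict (hfamV' i) y)
            rw [haEv y]
            exact e1.trans (congrArg Subtype.val this.symm)
          show sOld (r₁L 𝒪 𝒪 N q) (r₂L 𝒪 𝒪 N q) aE (fam (isMid_Gamma0 N) hTsN hU i (y : _)) =
            fam (isMid_Gamma0 (N * q)) hTsQ hUQ i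
              (sOld (r₁L 𝒪 𝒪 N q) (r₂L 𝒪 𝒪 N q) aE (y : _))
          rw [sOld_apply, sOld_apply, h1, map_sub]
          rcases i with i | i
          · exact congrArg₂ (fun u v => u - v)
              (tOpL_r₂ 𝒪 i.1.1 (hTsN i.1 i.2).1 (hTsN i.1 i.2).2 (hTsQ i.1 i.2).2 i.1.2 _)
              (tOpL_r₁ 𝒪 i.1.1 (hTsN i.1 i.2).1 (hTsN i.1 i.2).2 (hTsQ i.1 i.2).2 i.1.2 _)
          · exact congrArg₂ (fun u v => u - v)
              (uOpL_r₂ 𝒪 hcross hqN i.1.1 (hU i.1 i.2).1 (hU i.1 i.2).2 (hUQ i.1 i.2).2 i.1.2 _)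
              (uOpL_r₁ 𝒪 hcross hqN i.1.1 (hU i.1 i.2).1 (hU i.1 i.2).2 (hUQ i.1 i.2).2 i.1.2 _)
        · -- the generator `U_q - α`
          show sOld (r₁L 𝒪 𝒪 N q) (r₂L 𝒪 𝒪 N q) aE (((a - α • (1 : V' →ₗ[𝒪] V')) y : V') : _) =
            uOpL (isMid_Gamma0 (N * q)) 𝒪 q hq' hdvd α
              (sOld (r₁L 𝒪 𝒪 N q) (r₂L 𝒪 𝒪 N q) aE (y : _))
          rw [hUq, sub_smul_sOld (degRel 𝒪 𝒪 hqN) hp α y.2, shiftBy_apply, haEv y]
          rfl)
    intro x hx
    have h2 : e (sOld (r₁L 𝒪 𝒪 N q) (r₂L 𝒪 𝒪 N q) aE x) =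
        sOld (r₁L 𝒪 𝒪 N q) (r₂L 𝒪 𝒪 N q) aE x := key ⟨x, hx⟩ Submodule.mem_top
    rw [← h2]
    exact e2 _
  have main := ctrl_loc (degRel 𝒪 𝒪 hqN) hp α ϖ hab' ha2 hbα (W ⊓ LinearMap.ker e') hTW'' hg
    V e e2 e3 heU hsep hnilU hsurj (fun y hy => hsplit _ (ht₁W y hy))
    (fun y hy => hsplit _ (ht₂W y hy)) hsa
  obtain ⟨hC, hinj, hsur⟩ := main
  refine ⟨?_, hinj, hsur⟩
  intro y hy
  obtain ⟨u, hu, rfl⟩ := hC y hy
  have := t₂_sOld (degRel 𝒪 𝒪 hqN) hp hu
  rw [t₂L_apply] at this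
  rw [this]
  exact V'.sub_mem hu (hp.a_mem _ (hp.a_mem _ hu))

end

end Fermat.Agent.S59.H105

end
-- ===== PACK-END S59/H105/OneStep.lean

-- ===== PACK-BEGIN S59/H401/Dict.lean
section





/-!
# Row S59, leaf DICT (helper401): `dict_of_S29 : DictS29Statement → Arch.DictStatement`

Let `W` be semistable with irreducible `E[p]` (`p` odd), residually modular of level `N`
(Prelude language: a normalised eigenform `f` of level `N` and a maximal ideal `𝔪 ∋ p` of `ℤ̄` with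
`a_ℓ(f) ≡ a_ℓ(W) mod 𝔪` at the good primes `ℓ ∤ N p`), and let `S ⊇ {p} ∪ primes(N)` be finite.
Then there are a complete DVR `𝒪` of characteristic zero with finite residue field `k ⊇ 𝔽_p` in
which all monic quadratics over `𝔽_p` split, and a character `χ : 𝕋^S → 𝒪` of the anemic Hecke
algebra such that `E[p] ⊗ k` has the Frobenius characteristic polynomials
`X² − χ̄(T_ℓ) X + ℓ` at ALL primes `ℓ ∉ S` (including the bad primes of `W` outside `S`).

Proof.
1. `χ₀ : 𝕋^S → ℤ̄`, the eigencharacter of `f` (`Lib/Ribet/H404`), `θ₀ = (mod 𝔪) ∘ χ₀`.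
2. `𝕋^S` is finite over `ℤ` (S22), reduced (`S31/H862`, Petersson) and torsion-free, so its `p`-adic
   points are separating (`S31/H262`); hence some `p`-adic point `P : 𝕋^S → P.O` is centred at
   `ker θ₀` (`dict_exists_point_of_pts`).
3. Enlarge `P.O` to `𝒪` so that quadratics split residually (`dict_exists_ext`).
4. For `ℓ ∉ S` and a Frobenius `σ` at `ℓ`: `charpoly(E[p])(σ) ≡ X² − a_ℓ(f) X + ℓ mod 𝔪`
   (`dict_charpoly_transport`: frozen S29 + exact Chebotarev + the Frobenius relation at good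
   primes).  Its coefficients lie in `𝔽_p`, so `T_ℓ + c₁`, `c₁` an integer lift of the linear
   coefficient, lies in `ker θ₀`, hence in the centre of `P`.
-/

set_option autoImplicit false

open Polynomial IsLocalRing CuspForm

namespace Fermat.Agent.S59.H401

/-- Characteristic polynomials of a base-changed residual representation. -/
theorem dict_charpoly_baseChangeAlong {k k' : Type} [Field k] [Field k'] (ι : k →+* k')
    (ρ : ResidualGaloisRep k) (σ : DGQ) :
    LinearMap.charpoly ((ρ.baseChangeAlong ι).ρ σ) = (LinearMap.charpoly (ρ.ρ σ)).map ι := by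
  let _ : Algebra k k' := ι.toAlgebra
  exact LinearMap.charpoly_baseChange (ρ.ρ σ) k'

/-- A ring homomorphism from `ZMod p` is the cast of the canonical representative. -/
theorem dict_map_zmod {p : ℕ} [NeZero p] {R : Type*} [Semiring R] (g : ZMod p →+* R)
    (a : ZMod p) : g a = ((a.val : ℕ) : R) := by
  conv_lhs => rw [← ZMod.natCast_zmod_val a]
  rw [map_natCast]

/-- Coefficient `1` of `X² + b X + c`. -/
theorem dict_coeff_one {R : Type*} [CommRing R] (b c : R) :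
    (X ^ 2 + C b * X + C c : R[X]).coeff 1 = b := by
  simp [coeff_X_pow, coeff_C]

/-- Coefficient `0` of `X² + b X + c`. -/
theorem dict_coeff_zero {R : Type*} [CommRing R] (b c : R) :
    (X ^ 2 + C b * X + C c : R[X]).coeff 0 = c := by
  simp [coeff_X_pow]

/-- **Leaf DICT from frozen S29.** -/
theorem dict_of_S29 (h29 : DictS29Statement) : Fermat.Agent.S59.Arch.DictStatement := by
  intro p _ hp2 W hΔ hW hirr hcard hker N _ S hpS hS hNS hmod
  classical
  have hpp : p.Prime := Fact.out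
  obtain ⟨f, 𝔪, hf, h𝔪, hp𝔪, hcong⟩ := hmod
  have := h𝔪
  let _ : Field (integralClosure ℤ ℂ ⧸ 𝔪) := Ideal.Quotient.field 𝔪
  have hpk : ((p : ℕ) : integralClosure ℤ ℂ ⧸ 𝔪) = 0 := by
    have h1 := Ideal.Quotient.eq_zero_iff_mem.mpr hp𝔪
    rw [map_natCast] at h1
    exact h1
  have : CharP (integralClosure ℤ ℂ ⧸ 𝔪) p := (CharP.charP_iff_prime_eq_zero hpp).mpr hpk
  -- 1. the eigencharacter
  let incl : heckeAlgebra N 2 (↑S : Set ℕ) →+* heckeAlgebra N 2 (∅ : Set ℕ) :=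
    (Subalgebra.inclusion (heckeAlgebra_mono (Set.empty_subset _))).toRingHom
  let χ₀ : heckeAlgebra N 2 (↑S : Set ℕ) →+* integralClosure ℤ ℂ :=
    (Fermat.Agent.Lib.Ribet.H404.eigenCharInt hf).comp incl
  have hχ₀T : ∀ (ℓ : ℕ) (hℓ : ℓ.Prime) (hℓN : ¬ ℓ ∣ N) (hℓS : ℓ ∉ (↑S : Set ℕ)),
      ((χ₀ (heckeAlgebra.T hℓ hℓN hℓS) : integralClosure ℤ ℂ) : ℂ)
        = ModularFormClass.qCoeff f ℓ := by
    intro ℓ hℓ hℓN hℓS
    have e : incl (heckeAlgebra.T hℓ hℓN hℓS) = heckeAlgebra.T hℓ hℓN (Set.notMem_empty _) :=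
      Subtype.ext rfl
    show ((Fermat.Agent.Lib.Ribet.H404.eigenCharInt hf (incl (heckeAlgebra.T hℓ hℓN hℓS)) :
      integralClosure ℤ ℂ) : ℂ) = _
    rw [e, Fermat.Agent.Lib.Ribet.H404.coe_eigenCharInt,
      Fermat.Agent.Lib.Ribet.H404.eigenChar_T]
  -- 2. a point centred at `ker θ₀`
  have hm : (RingHom.ker ((Ideal.Quotient.mk 𝔪).comp χ₀)).IsPrime := RingHom.ker_isPrime _
  have hpm : ((p : ℕ) : heckeAlgebra N 2 (↑S : Set ℕ)) ∈
      RingHom.ker ((Ideal.Quotient.mk 𝔪).comp χ₀) := by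
    rw [RingHom.mem_ker, map_natCast]
    exact hpk
  have hfin : Module.Finite ℤ (heckeAlgebra N 2 (↑S : Set ℕ)) := Fermat.Agent.S22.result N 2 _
  have hred : IsReduced (heckeAlgebra N 2 (↑S : Set ℕ)) :=
    Fermat.Agent.S31.H862.heckeAlgebra_isReduced N _ (fun q hq hqN => by
      simpa using hNS q hq hqN)
  have hPTS := Fermat.Agent.S31.H262.pts_of_reduced p hpp (heckeAlgebra N 2 (↑S : Set ℕ))
  obtain ⟨P, hP⟩ := dict_exists_point_of_pts hPTS _ hpm
  -- 3. the coefficient ring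
  obtain ⟨O', i1, i2, i3, i4, i5, i6, e, ι, he, hpO', hsplit⟩ := dict_exists_ext p P.O P.hp
  refine ⟨O', i1, i2, i3, i4, i5, i6, ι, e.comp P.χ, hpO', hsplit, ?_⟩
  -- 4. the Frobenius condition
  intro ℓ hℓ hℓN hℓS B hB σ hσ
  have hℓp : ℓ ≠ p := by
    rintro rfl
    exact hℓS (by simpa using hpS)
  obtain ⟨a₀, ha₀, hchar⟩ := dict_charpoly_transport h29 p W hΔ hirr hcard hker hf 𝔪 hp𝔪 hcong
    (ZMod.castHom (dvd_refl p) (integralClosure ℤ ℂ ⧸ 𝔪)) ℓ hℓ hℓN hℓp B hB σ hσ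
  have hmonic : (LinearMap.charpoly
      (((W.map (Int.castRingHom ℚ)).residualGaloisRepOf p hcard hker).ρ σ)).Monic :=
    LinearMap.charpoly_monic _
  have hdeg : (LinearMap.charpoly
      (((W.map (Int.castRingHom ℚ)).residualGaloisRepOf p hcard hker).ρ σ)).natDegree = 2 := by
    rw [LinearMap.charpoly_natDegree]
    exact ((W.map (Int.castRingHom ℚ)).residualGaloisRepOf p hcard hker).finrank_eq
  have hquad := dict_monic_quadratic hmonic hdeg
  show LinearMap.charpoly ((Fermat.Agent.S59.Arch.curveResidual p W hcard hker ι).ρ σ)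
    = X ^ 2 - C (((residue O').comp (e.comp P.χ)) (heckeAlgebra.T hℓ hℓN hℓS)) * X
      + C ((ℓ : ℕ) : ResidueField O')
  rw [show Fermat.Agent.S59.Arch.curveResidual p W hcard hker ι
      = ((W.map (Int.castRingHom ℚ)).residualGaloisRepOf p hcard hker).baseChangeAlong ι from rfl,
    dict_charpoly_baseChangeAlong]
  generalize LinearMap.charpoly
      (((W.map (Int.castRingHom ℚ)).residualGaloisRepOf p hcard hker).ρ σ) = P₀
    at hchar hquad ⊢
  -- the coefficients modulo `𝔪`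
  have hmap : P₀.map (ZMod.castHom (dvd_refl p) (integralClosure ℤ ℂ ⧸ 𝔪))
      = X ^ 2 + C (((P₀.coeff 1).val : ℕ) : integralClosure ℤ ℂ ⧸ 𝔪) * X
        + C (((P₀.coeff 0).val : ℕ) : integralClosure ℤ ℂ ⧸ 𝔪) := by
    conv_lhs => rw [hquad]
    rw [Polynomial.map_add, Polynomial.map_add, Polynomial.map_mul, Polynomial.map_pow,
      Polynomial.map_X, Polynomial.map_C, Polynomial.map_C, dict_map_zmod, dict_map_zmod]
  rw [hmap] at hchar
  have hrew : (X ^ 2 - C (Ideal.Quotient.mk 𝔪 a₀) * X + C ((ℓ : ℕ) : integralClosure ℤ ℂ ⧸ 𝔪) :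
      (integralClosure ℤ ℂ ⧸ 𝔪)[X])
      = X ^ 2 + C (-(Ideal.Quotient.mk 𝔪 a₀)) * X + C ((ℓ : ℕ) : integralClosure ℤ ℂ ⧸ 𝔪) := by
    rw [map_neg]
    ring
  rw [hrew] at hchar
  have hc1 : (((P₀.coeff 1).val : ℕ) : integralClosure ℤ ℂ ⧸ 𝔪) = -(Ideal.Quotient.mk 𝔪 a₀) := by
    have h1 := congrArg (fun q : (integralClosure ℤ ℂ ⧸ 𝔪)[X] => q.coeff 1) hchar
    rwa [dict_coeff_one, dict_coeff_one] at h1
  have hc0 : (((P₀.coeff 0).val : ℕ) : integralClosure ℤ ℂ ⧸ 𝔪)
      = ((ℓ : ℕ) : integralClosure ℤ ℂ ⧸ 𝔪) := by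
    have h1 := congrArg (fun q : (integralClosure ℤ ℂ ⧸ 𝔪)[X] => q.coeff 0) hchar
    rwa [dict_coeff_zero, dict_coeff_zero] at h1
  have hc0' : P₀.coeff 0 = ((ℓ : ℕ) : ZMod p) := by
    apply (ZMod.castHom (dvd_refl p) (integralClosure ℤ ℂ ⧸ 𝔪)).injective
    rw [dict_map_zmod, hc0, map_natCast]
  -- `T_ℓ + c₁` lies in `ker θ₀`
  have hmem : heckeAlgebra.T hℓ hℓN hℓS + (((P₀.coeff 1).val : ℕ) : heckeAlgebra N 2 (↑S : Set ℕ))
      ∈ RingHom.ker ((Ideal.Quotient.mk 𝔪).comp χ₀) := by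
    have ha : χ₀ (heckeAlgebra.T hℓ hℓN hℓS) = a₀ :=
      Subtype.ext ((hχ₀T ℓ hℓ hℓN hℓS).trans ha₀.symm)
    rw [RingHom.mem_ker, map_add, map_natCast, RingHom.comp_apply, ha, hc1, add_neg_cancel]
  -- reduce at the point
  have hres : residue O' (e (P.χ (heckeAlgebra.T hℓ hℓN hℓS))) = -ι (P₀.coeff 1) := by
    have h1 := he _ (hP _ hmem)
    rw [map_add, map_add, map_natCast, map_natCast] at h1
    have h2 := (residue_eq_zero_iff _).mpr h1
    rw [map_add, map_natCast] at h2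
    rw [dict_map_zmod ι]
    exact eq_neg_of_add_eq_zero_left h2
  rw [RingHom.comp_apply, RingHom.comp_apply, hres]
  conv_lhs => rw [hquad]
  rw [Polynomial.map_add, Polynomial.map_add, Polynomial.map_mul, Polynomial.map_pow,
    Polynomial.map_X, Polynomial.map_C, Polynomial.map_C, hc0', map_natCast, map_neg]
  ring

end Fermat.Agent.S59.H401

end
-- ===== PACK-END S59/H401/Dict.lean

-- ===== PACK-BEGIN A3/H319/Fin.lean
section





/-!
# A3 / FIN (helper319): the torsion of `J₀(N)(ℚ̄)` is finite — `S19.FinStatement`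

Glue of three results on main:

* ONTO   `S30.H810.exists_isKum_of_torsion` (helper810): every `m`-torsion class is the Kummer
  class of some character `c : Γ₀(N) → ℤ/m`;
* UNIQ   `S29.M4b.H89.isKum_unique` (helper89): the Kummer class of a character is unique;
* COUNT  `S30.Fin.finite_torsion_of` (helper49): ONTO + UNIQ + `Γ₀(N)` finitely generated ⟹ finite.

Output: `finite_torsionBy` (any `m ≠ 0`), `finite_tors`, and `finStatement : S19.FinStatement`
(the FIN block of the frozen A3 interface `Fermat/Agent/S19/Defs.lean`).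
-/

set_option autoImplicit false

noncomputable section

namespace Fermat.Agent.A3.H319

open ModularCurve

/-- The `m`-torsion of `J₀(N)(ℚ̄)` is a finite set, `m ≠ 0`. -/
theorem finite_setOf_zsmul_eq_zero (N : ℕ) [NeZero N] (m : ℕ) [NeZero m] :
    {x : JZero N | (m : ℤ) • x = 0}.Finite :=
  Fermat.Agent.S30.Fin.finite_torsion_of N m
    (fun _ hx => Fermat.Agent.S30.H810.exists_isKum_of_torsion N m hx)
    (fun _ _ _ h h' => Fermat.Agent.S29.M4b.H89.isKum_unique N m h h')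

/-- `J₀(N)(ℚ̄)[m]` is finite for every integer `m ≠ 0`. -/
theorem finite_torsionBy (N : ℕ) [NeZero N] (m : ℤ) (hm : m ≠ 0) :
    Finite (Submodule.torsionBy ℤ (JZero N) m) := by
  have : NeZero m.natAbs := ⟨Int.natAbs_ne_zero.mpr hm⟩
  have h := finite_setOf_zsmul_eq_zero N m.natAbs
  have hsub : ((Submodule.torsionBy ℤ (JZero N) m : Submodule ℤ (JZero N)) : Set (JZero N)) ⊆
      {x : JZero N | ((m.natAbs : ℕ) : ℤ) • x = 0} := by
    intro x hx
    have hx' : m • x = 0 := (Submodule.mem_torsionBy_iff _ _).mp hx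
    show ((m.natAbs : ℕ) : ℤ) • x = 0
    rcases Int.natAbs_eq m with h1 | h1
    · rw [← h1]; exact hx'
    · have h2 : ((m.natAbs : ℕ) : ℤ) = -m := by omega
      rw [h2, neg_smul, hx', neg_zero]
  exact (h.subset hsub).to_subtype

/-- `J₀(N)(ℚ̄)[ℓ^k]` is finite (no hypothesis on `ℓ` beyond `ℓ ≠ 0`). -/
theorem finite_tors (N : ℕ) [NeZero N] (ℓ : ℕ) (hℓ : ℓ ≠ 0) (k : ℕ) :
    Finite (Fermat.Agent.S19.Tors N ℓ k) :=
  finite_torsionBy N ((ℓ : ℤ) ^ k) (pow_ne_zero k (Int.natCast_ne_zero.mpr hℓ))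

/-- **FIN block of A3** (frozen interface `Fermat.Agent.S19.FinStatement`). -/
theorem finStatement : Fermat.Agent.S19.FinStatement := by
  intro N _ ℓ hℓ k
  exact finite_tors N ℓ hℓ.out.ne_zero k

end Fermat.Agent.A3.H319

end
end
-- ===== PACK-END A3/H319/Fin.lean

-- ===== PACK-BEGIN S19/Top2.lean
section




/-!
# Cell A3 (S19) — top assembly, v2: frozen S19 from the THREE open nodes

ORD (`H15.ordStatement`; independent second/third proofs: `H19.ordStatement`, `A3.H619.ord`),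
FIN (`A3.H319.finStatement`, helper319) and CONT (`contStatement`) are proved on main.  Open:

    UNR   : UnrStatement      (pure algebra; split UA/UB/UC in `S19/Unr/Spec.lean`)
    LOCAL : LocalStatement    (abstract `A3.H799.LocalStatement` + GoodRed instance for `X₀(M)`)
    LEVEL : LevelStatement    (ℓ = 2, 3: equivariant embedding into a good level)
-/

set_option autoImplicit false

namespace Fermat.Agent.S19

/-- ORDER from the three open nodes. -/
theorem orderStatement_of_three (hunr : UnrStatement) (hlocal : LocalStatement)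
    (hlevel : LevelStatement) : OrderStatement :=
  orderStatement_of_blocks Fermat.Agent.A3.H319.finStatement hunr hlocal hlevel

/-- **Top assembly v2**: frozen S19 from UNR, LOCAL, LEVEL. -/
theorem S19_of_three (hunr : UnrStatement) (hlocal : LocalStatement) (hlevel : LevelStatement)
    (p : ℕ) [NeZero p] (ℓ : ℕ) [Fact ℓ.Prime] (hℓp : ¬ ℓ ∣ p) (k : ℕ) :
    FrozenConclusion p ℓ k :=
  S19_of_five H15.ordStatement Fermat.Agent.A3.H319.finStatement hunr hlocal hlevel p ℓ hℓp k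

end Fermat.Agent.S19

end
-- ===== PACK-END S19/Top2.lean

-- ===== PACK-BEGIN S59/G4/Assembly.lean
section







/-!
# Row S59, layer G4 — assembly (helper7)

`g4_of : S30Statement → RedStatement → PointsStatement → TraceFnStatement → ResStatement2
  → G4Statement`.

Inputs on main: GLUE (`H307.exists_glued_rep_of_hausdorff`, helper307), G-DET
(`H540.detIsCyclotomic_of_charpoly_frob`, helper540), HL-CORE (`H7.datumOfRep`).
-/

set_option autoImplicit false
set_option linter.unusedSectionVars false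
set_option synthInstance.maxHeartbeats 400000
set_option maxHeartbeats 1000000

open Polynomial IsLocalRing

namespace Fermat.Agent.S59.G4

open Fermat.Agent.S31

/-! ### Lifting points through S30 -/

section

variable {p : ℕ} [Fact p.Prime] {N : ℕ} [NeZero N] {S : Finset ℕ}
  {T : Type} [CommRing T] [IsLocalRing T]

/-- `Q` is a lift of the point `P` to an extension of the coefficient ring. -/
def IsLiftOf (P : PadicPoint p T) (Q : RepPoint p T) : Prop :=
  ∃ f : P.O →+* Q.pt.O, Function.Injective f ∧ IsLocalHom f ∧ Q.pt.χ = f.comp P.χ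

/-- S30 at a point. -/
theorem exists_repPoint (h30 : S30Statement) (hpS : p ∈ S)
    (hNS : ∀ q : ℕ, q.Prime → q ∣ N → q ∈ S)
    (π : CuspForm.heckeAlgebra N 2 (↑S : Set ℕ) →+* T) (P : PadicPoint p T) :
    ∃ Q : RepPoint p T, IsLiftOf P Q ∧ FrobCond Q.ρ (Q.pt.χ.comp π) := by
  obtain ⟨O'', _, _, _, _, _, _, _, _, hloc, hinj, ρ, hfrob, -⟩ :=
    h30 p N S hpS hNS P.O P.hp (P.χ.comp π)
  have hp'' : (p : O'') ∈ maximalIdeal O'' := by
    have h := P.hp
    rw [mem_maximalIdeal, mem_nonunits_iff] at h ⊢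
    intro hu
    apply h
    have : IsUnit (algebraMap P.O O'' (p : P.O)) := by rwa [map_natCast]
    exact hloc.map_nonunit _ this
  refine ⟨⟨{ O := O'', hp := hp'', χ := (algebraMap P.O O'').comp P.χ }, ρ⟩,
    ⟨algebraMap P.O O'', hinj, hloc, rfl⟩, ?_⟩
  intro ℓ hℓ hℓN hℓS B hB σ hσ
  exact hfrob ℓ hℓ hℓN hℓS B hB σ hσ

/-- S30 at a list of points. -/
theorem exists_repPoints (h30 : S30Statement) (hpS : p ∈ S)
    (hNS : ∀ q : ℕ, q.Prime → q ∣ N → q ∈ S)
    (π : CuspForm.heckeAlgebra N 2 (↑S : Set ℕ) →+* T) (F₀ : List (PadicPoint p T)) :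
    ∃ F : List (RepPoint p T), List.Forall₂ IsLiftOf F₀ F ∧
      ∀ Q ∈ F, FrobCond Q.ρ (Q.pt.χ.comp π) := by
  induction F₀ with
  | nil => exact ⟨[], List.Forall₂.nil, fun Q hQ => absurd hQ List.not_mem_nil⟩
  | cons P F₀ ih =>
    obtain ⟨F, hF, hFrob⟩ := ih
    obtain ⟨Q, hQ, hQfrob⟩ := exists_repPoint h30 hpS hNS π P
    refine ⟨Q :: F, List.Forall₂.cons hQ hF, fun Q' hQ' => ?_⟩
    rcases List.mem_cons.mp hQ' with rfl | h
    · exact hQfrob
    · exact hFrob Q' h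

omit [Fact p.Prime] in
/-- Pulling back a power of the maximal ideal along a list of lifts. -/
theorem exists_pow_of_forall₂ {F₀ : List (PadicPoint p T)} {F : List (RepPoint p T)}
    (h : List.Forall₂ IsLiftOf F₀ F) (n' : ℕ) :
    ∃ n'' : ℕ, ∀ t : T, (∀ Q ∈ F, Q.pt.χ t ∈ maximalIdeal Q.pt.O ^ n'') →
      ∀ P ∈ F₀, P.χ t ∈ maximalIdeal P.O ^ n' := by
  induction h with
  | nil => exact ⟨0, fun t _ P hP => absurd hP List.not_mem_nil⟩
  | @cons P Q F₀ F hPQ _ ih =>
    obtain ⟨n₁, hn₁⟩ := ih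
    obtain ⟨f, hf, -, hχ⟩ := hPQ
    obtain ⟨k, hk⟩ := Fermat.Agent.S31.H22.exists_pow_comap_le f hf n'
    refine ⟨max n₁ k, fun t ht P' hP' => ?_⟩
    rcases List.mem_cons.mp hP' with rfl | h'
    · apply hk
      have h1 := ht Q List.mem_cons_self
      rw [hχ] at h1
      exact Ideal.pow_le_pow_right (le_max_right n₁ k) h1
    · exact hn₁ t (fun Q' hQ' =>
        Ideal.pow_le_pow_right (le_max_left n₁ k) (ht Q' (List.mem_cons_of_mem _ hQ'))) P' h'

omit [Fact p.Prime] in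
/-- Strictness passes to the lifts. -/
theorem isStrict_of_forall₂ {F₀ : List (PadicPoint p T)} {F : List (RepPoint p T)}
    (h : List.Forall₂ IsLiftOf F₀ F) (hF₀ : IsStrict F₀) : IsStrict (F.map RepPoint.pt) := by
  intro n
  obtain ⟨n', hn'⟩ := hF₀ n
  obtain ⟨n'', hn''⟩ := exists_pow_of_forall₂ h n'
  refine ⟨n'', fun t ht => hn' t (hn'' t fun Q hQ => ?_)⟩
  exact ht Q.pt (List.mem_map.mpr ⟨Q, hQ, rfl⟩)

omit [Fact p.Prime] in
/-- Locality passes to the lifts. -/
theorem isLocalHom_of_forall₂ {F₀ : List (PadicPoint p T)} {F : List (RepPoint p T)}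
    (h : List.Forall₂ IsLiftOf F₀ F) (hF₀ : ∀ P ∈ F₀, IsLocalHom P.χ) :
    ∀ Q ∈ F, IsLocalHom Q.pt.χ := by
  induction h with
  | nil => exact fun Q hQ => absurd hQ List.not_mem_nil
  | @cons P Q F₀ F hPQ _ ih =>
    intro Q' hQ'
    rcases List.mem_cons.mp hQ' with rfl | h'
    · obtain ⟨f, -, hfloc, hχ⟩ := hPQ
      have hP := hF₀ P List.mem_cons_self
      rw [hχ]
      exact ⟨fun a ha => hP.map_nonunit a (hfloc.map_nonunit _ ha)⟩
    · exact ih (fun P' hP' => hF₀ P' (List.mem_cons_of_mem _ hP')) Q' h'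

omit [Fact p.Prime] in
/-- The list of lifts is nonempty if the list of points is. -/
theorem ne_nil_of_forall₂ {F₀ : List (PadicPoint p T)} {F : List (RepPoint p T)}
    (h : List.Forall₂ IsLiftOf F₀ F) (hF₀ : F₀ ≠ []) : F ≠ [] := by
  cases h with
  | nil => exact absurd rfl hF₀
  | cons _ _ => exact List.cons_ne_nil _ _

omit [Fact p.Prime] in
/-- A strict family of points of a nontrivial local ring is nonempty. -/
theorem ne_nil_of_isStrict {F₀ : List (PadicPoint p T)} (hF₀ : IsStrict F₀) : F₀ ≠ [] := by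
  rintro rfl
  obtain ⟨n', hn'⟩ := hF₀ 1
  have h1 : (1 : T) ∈ maximalIdeal T ^ 1 := hn' 1 (fun P hP => absurd hP List.not_mem_nil)
  rw [pow_one] at h1
  exact (Ideal.ne_top_iff_one _).mp (Ideal.IsMaximal.ne_top inferInstance) h1

end

/-! ### Complex conjugation -/

/-- Complex conjugation inverts roots of unity. -/
theorem complexConjugation_apply_root {m : ℕ} (hm : m ≠ 0) {t : Qb} (ht : t ^ m = 1) :
    complexConjugation t = t⁻¹ := by
  apply complexEmbedding.toRingHom.injective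
  show complexEmbedding (complexConjugation t) = complexEmbedding t⁻¹
  rw [complexEmbedding_complexConjugation, map_inv₀]
  have hz : (complexEmbedding t) ^ m = 1 := by rw [← map_pow, ht, map_one]
  have hnorm : ‖complexEmbedding t‖ = 1 := by
    have h := congrArg norm hz
    rw [norm_pow, norm_one] at h
    exact (pow_eq_one_iff_of_nonneg (norm_nonneg _) hm).1 h
  exact (Complex.inv_eq_conj hnorm).symm

section Conj

variable {A : Type} [CommRing A] [IsLocalRing A]

/-- A representation with cyclotomic determinant has determinant `-1` at complex conjugation. -/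
theorem det_complexConjugation [IsNoetherianRing A] (ρ : GaloisRepAdic A) (p : ℕ)
    [Fact p.Prime] (hdet : ρ.DetIsCyclotomic p) :
    LinearMap.det (ρ.ρ complexConjugation) = -1 := by
  have hp : p.Prime := Fact.out
  obtain ⟨hpA, hcyc⟩ := hdet
  have hall : ∀ n : ℕ, LinearMap.det (ρ.ρ complexConjugation) + 1 ∈ maximalIdeal A ^ n := by
    intro n
    have hpos : 1 ≤ p ^ n := Nat.one_le_pow _ _ hp.pos
    have h1 := hcyc n complexConjugation (p ^ n - 1) (fun μ hμ => by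
      rw [complexConjugation_apply_root (pow_ne_zero n hp.ne_zero) hμ]
      have hμ0 : μ ≠ 0 := by
        rintro rfl
        rw [zero_pow (pow_ne_zero n hp.ne_zero)] at hμ
        exact zero_ne_one hμ
      apply inv_eq_of_mul_eq_one_right
      rw [← pow_succ', Nat.sub_add_cancel hpos, hμ])
    rw [Nat.cast_sub hpos, Nat.cast_one] at h1
    have h2 : ((p ^ n : ℕ) : A) ∈ Ideal.span {((p ^ n : ℕ) : A)} := Ideal.mem_span_singleton_self _
    have h3 := Ideal.add_mem _ h1 h2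
    have h4 : LinearMap.det (ρ.ρ complexConjugation) - (((p ^ n : ℕ) : A) - 1) +
        ((p ^ n : ℕ) : A) = LinearMap.det (ρ.ρ complexConjugation) + 1 := by ring
    rw [h4] at h3
    have hle : Ideal.span {((p ^ n : ℕ) : A)} ≤ maximalIdeal A ^ n := by
      rw [Ideal.span_singleton_le_iff_mem, Nat.cast_pow]
      exact Ideal.pow_mem_pow hpA n
    exact hle h3
  have h0 : LinearMap.det (ρ.ρ complexConjugation) + 1 ∈ ⨅ n, maximalIdeal A ^ n := by
    rw [Ideal.mem_iInf]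
    exact hall
  rw [Ideal.iInf_pow_eq_bot_of_isLocalRing _ (Ideal.IsMaximal.ne_top inferInstance)] at h0
  exact eq_neg_of_add_eq_zero_left (by simpa using h0)

/-- An involution of determinant `-1` in rank two has trace `0`. -/
theorem trace_eq_zero_of_involution (ρ : GaloisRepAdic A) (c : GQ) (hc : c * c = 1)
    (hdet : LinearMap.det (ρ.ρ c) = -1) : ρ.trace c = 0 := by
  obtain ⟨e, m, hm⟩ := Fermat.Agent.S59.H307.exists_realizes ρ
  rw [hm.trace_eq]
  have hdet' : (m c).det = -1 := by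
    have h1 : LinearMap.det (e.conj (ρ.ρ c)) = LinearMap.det (ρ.ρ c) := by
      rw [LinearEquiv.conj_apply]
      exact LinearMap.det_conj _ _
    rw [hm.conj_eq, LinearMap.det_toLin'] at h1
    rw [h1, hdet]
  have hsq : m c * m c = 1 := by rw [← map_mul, hc, map_one]
  set M := m c with hM
  have h00 := congrFun (congrFun hsq 0) 0
  have h01 := congrFun (congrFun hsq 0) 1
  rw [Matrix.mul_apply, Fin.sum_univ_two] at h00 h01
  rw [Matrix.one_apply_eq] at h00
  rw [Matrix.one_apply_ne (by decide : (0 : Fin 2) ≠ 1)] at h01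
  rw [Matrix.det_fin_two] at hdet'
  rw [Matrix.trace_fin_two]
  have hta : (M 0 0 + M 1 1) * M 0 0 = 0 := by linear_combination h00 + hdet'
  have htb : (M 0 0 + M 1 1) * M 0 1 = 0 := by linear_combination h01
  have : M 0 0 + M 1 1 = (M 0 0 + M 1 1) * M 0 0 * M 0 0 + (M 0 0 + M 1 1) * M 0 1 * M 1 0 := by
    linear_combination (-(M 0 0 + M 1 1)) * h00
  rw [this, hta, htb, zero_mul, zero_mul, add_zero]

end Conj

/-! ### The main theorem -/

section Main

open CuspForm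

variable {p : ℕ} [Fact p.Prime] {N : ℕ} [NeZero N] {S : Finset ℕ}
  {𝒪 : Type} [CommRing 𝒪] [IsDomain 𝒪] [IsDiscreteValuationRing 𝒪]
  [IsAdicComplete (maximalIdeal 𝒪) 𝒪]
  {θ : heckeAlgebra N 2 (↑S : Set ℕ) →+* ResidueField 𝒪}
  [Fact (HasIntegralStructure N 2)]

/-- `2` is a unit in a local ring whose maximal ideal contains an odd prime. -/
theorem isUnit_two_of_mem {A : Type} [CommRing A] [IsLocalRing A] (hp2 : p ≠ 2)
    (hpA : (p : A) ∈ maximalIdeal A) : IsUnit (2 : A) := by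
  have hp : p.Prime := Fact.out
  by_contra h2
  have h2m : (2 : A) ∈ maximalIdeal A := (mem_maximalIdeal _).mpr h2
  obtain ⟨k, hk⟩ := hp.eq_two_or_odd'.resolve_left hp2
  have h1 : (1 : A) = (p : A) - 2 * (k : A) := by
    rw [hk]; push_cast; ring
  have : (1 : A) ∈ maximalIdeal A := by
    rw [h1]
    exact Ideal.sub_mem _ hpA (Ideal.mul_mem_right _ _ h2m)
  exact (Ideal.ne_top_iff_one _).mp (Ideal.IsMaximal.ne_top inferInstance) this

/-- `p` lies in the maximal ideal of the local Hecke algebra. -/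
theorem natCast_mem_maximalIdeal_heckeLocal (hp𝒪 : (p : 𝒪) ∈ maximalIdeal 𝒪) :
    (p : heckeLocal N (↑S : Set ℕ) 𝒪 θ) ∈ maximalIdeal (heckeLocal N (↑S : Set ℕ) 𝒪 θ) := by
  rw [mem_maximalIdeal, mem_nonunits_iff] at hp𝒪 ⊢
  intro hu
  apply hp𝒪
  have : IsUnit (algebraMap 𝒪 (heckeLocal N (↑S : Set ℕ) 𝒪 θ) (p : 𝒪)) := by rwa [map_natCast]
  exact IsLocalHom.map_nonunit _ this

/-- **G4 from its pieces.** -/
theorem g4_of (h30 : S30Statement) (hRed : RedStatement) (hPts : PointsStatement)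
    (hTr : TraceFnStatement) (hRes : ResStatement2) : G4Statement := by
  intro p _ hp2 N _ S hpS hNS 𝒪 _ _ _ _ _ _ hp𝒪 θ hθ _
  classical
  have hNS' : ∀ q : ℕ, q.Prime → q ∣ N → q ∈ (↑S : Set ℕ) := fun q hq hqN =>
    Finset.mem_coe.mpr (hNS q hq hqN)
  set T := heckeLocal N (↑S : Set ℕ) 𝒪 θ with hT
  set π := heckeLocal.π N (↑S : Set ℕ) 𝒪 θ with hπ
  have : IsReduced T := hRed N (↑S : Set ℕ) hNS' 𝒪 θ
  have hpT : (p : T) ∈ maximalIdeal T := natCast_mem_maximalIdeal_heckeLocal hp𝒪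
  have h2T : IsUnit (2 : T) := isUnit_two_of_mem hp2 hpT
  -- points
  obtain ⟨F₀, hF₀strict, hF₀loc⟩ := hPts p 𝒪 hp𝒪 T
  obtain ⟨F, hlift, hfrob⟩ := exists_repPoints h30 hpS hNS π F₀
  have hstrict : IsStrict (F.map RepPoint.pt) := isStrict_of_forall₂ hlift hF₀strict
  have hloc : ∀ Q ∈ F, IsLocalHom Q.pt.χ := isLocalHom_of_forall₂ hlift hF₀loc
  have hne : F ≠ [] := ne_nil_of_forall₂ hlift (ne_nil_of_isStrict hF₀strict)
  -- trace function
  obtain ⟨τ, hτ⟩ := hTr p N S T π F hstrict hloc hfrob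
  -- the indexed family
  have hlen : 0 < F.length := List.length_pos_iff.mpr hne
  have htop : ∀ n : ℕ, ∃ (Fs : Finset (Fin F.length)) (n' : ℕ), ∀ t : T,
      (∀ i ∈ Fs, (F.get i).pt.χ t ∈ maximalIdeal (F.get i).pt.O ^ n') →
        t ∈ maximalIdeal T ^ n := by
    intro n
    obtain ⟨n', hn'⟩ := hstrict n
    refine ⟨Finset.univ, n', fun t ht => hn' t fun P hP => ?_⟩
    obtain ⟨Q, hQ, rfl⟩ := List.mem_map.mp hP
    obtain ⟨i, rfl⟩ := List.get_of_mem hQ
    exact ht i (Finset.mem_univ i)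
  have hinj : ∀ t : T, (∀ i : Fin F.length, (F.get i).pt.χ t = 0) → t = 0 := by
    intro t ht
    apply IsHausdorff.haus (I := maximalIdeal T) inferInstance t
    intro n
    obtain ⟨Fs, n', hF⟩ := htop n
    have : t ∈ maximalIdeal T ^ n := hF t fun i _ => by rw [ht i]; exact Ideal.zero_mem _
    rw [SModEq.zero, smul_eq_mul, Ideal.mul_top]
    exact this
  -- oddness at complex conjugation
  have hpQ : ∀ Q ∈ F, (p : Q.pt.O) ∈ maximalIdeal Q.pt.O := fun Q _ => Q.pt.hp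
  have htrc : ∀ Q ∈ F, Q.ρ.trace complexConjugation = 0 := by
    intro Q hQ
    apply trace_eq_zero_of_involution Q.ρ complexConjugation complexConjugation_mul_self
    apply det_complexConjugation Q.ρ p
    refine Fermat.Agent.S59.H540.detIsCyclotomic_of_charpoly_frob Q.ρ p Q.pt.hp
      (S ∪ N.primeFactors)
      (fun ℓ => if h : ℓ.Prime ∧ ¬ ℓ ∣ N ∧ ℓ ∉ (↑S : Set ℕ) then
        Q.pt.χ (π (heckeAlgebra.T h.1 h.2.1 h.2.2)) else 0) ?_
    intro ℓ hℓ hℓS P hP σ hσ
    have hℓS' : ℓ ∉ (↑S : Set ℕ) := fun h => hℓS (Finset.mem_union_left _ (Finset.mem_coe.mp h))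
    have hℓN : ¬ ℓ ∣ N := fun h =>
      hℓS (Finset.mem_union_right _ (Nat.mem_primeFactors.mpr ⟨hℓ, h, NeZero.ne N⟩))
    rw [dif_pos ⟨hℓ, hℓN, hℓS'⟩]
    exact hfrob Q hQ ℓ hℓ hℓN hℓS' P hP σ hσ
  have hτc : τ complexConjugation = 0 := by
    apply hinj
    intro i
    rw [hτ (F.get i) (List.get_mem F i)]
    exact htrc (F.get i) (List.get_mem F i)
  -- residual irreducibility at the points
  have h2k : (2 : ResidueField 𝒪) ≠ 0 := by
    have h2𝒪 : IsUnit (2 : 𝒪) := isUnit_two_of_mem hp2 hp𝒪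
    intro h0
    have : residue 𝒪 (2 : 𝒪) = 0 := by rw [map_ofNat]; exact h0
    rw [residue_eq_zero_iff] at this
    exact (mem_maximalIdeal _).mp this h2𝒪
  have hresπ : ∀ t, residue T (π t) = ResidueField.map (algebraMap 𝒪 T) (θ t) :=
    Fermat.Agent.S59.H7.residue_π N (↑S : Set ℕ) 𝒪 θ
  have hirr : ∀ Q ∈ F, Q.ρ.residual.IsIrreducible := by
    intro Q hQ
    have : IsLocalHom Q.pt.χ := hloc Q hQ
    refine (hRes N S (ResidueField 𝒪) h2k θ hθ Q.pt.O
      ((ResidueField.map Q.pt.χ).comp (ResidueField.map (algebraMap 𝒪 T)))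
      (Q.pt.χ.comp π) (fun t => ?_) Q.ρ (hfrob Q hQ)).2
    rw [RingHom.comp_apply, RingHom.comp_apply, ← hresπ, ResidueField.map_residue]
  -- glue
  obtain ⟨ρ, -, hbc⟩ := Fermat.Agent.S59.H307.exists_glued_rep (T := T)
    (ι := Fin F.length) (O := fun i => (F.get i).pt.O) h2T
    (fun i => (F.get i).pt.χ) (fun i => hloc _ (List.get_mem F i)) hinj htop
    (fun i => (F.get i).ρ) τ (fun i σ => hτ _ (List.get_mem F i) σ)
    complexConjugation complexConjugation_mul_self hτc ⟨0, hlen⟩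
    (hirr _ (List.get_mem F _))
  -- Frobenius characteristic polynomials
  have hρfrob : FrobCond ρ π := by
    intro ℓ hℓ hℓN hℓS B hB σ hσ
    refine Fermat.Agent.S59.H307.charpoly_eq_of_baseChange_isEquiv
      (fun i => (F.get i).pt.χ) (fun i => hloc _ (List.get_mem F i)) hinj ρ
      (fun i => (F.get i).ρ) hbc σ _ (fun i => ?_)
    rw [hfrob _ (List.get_mem F i) ℓ hℓ hℓN hℓS B hB σ hσ]
    simp only [Polynomial.map_add, Polynomial.map_sub, Polynomial.map_mul, Polynomial.map_pow,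
      Polynomial.map_X, Polynomial.map_C, map_natCast, RingHom.comp_apply]
  -- residual absolute irreducibility
  have habs : ρ.residual.IsAbsolutelyIrreducible :=
    (hRes N S (ResidueField 𝒪) h2k θ hθ T (ResidueField.map (algebraMap 𝒪 T)) π hresπ ρ
      hρfrob).1
  exact ⟨Fermat.Agent.S59.H7.datumOfRep N (↑S : Set ℕ) 𝒪 θ ρ hρfrob habs, rfl⟩

end Main

end Fermat.Agent.S59.G4

end
-- ===== PACK-END S59/G4/Assembly.lean

-- ===== PACK-BEGIN S59/TW/H659/Pkg.lean
section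












/-!
# Row S59, cell TW, LAYER 2, leaf PKG (helper659)

`pkg_of : S23Shape → S30Statement → S31Shape → S32Statement → S33Statement → S34Shape →
  TWStrictStatement → TW.PkgStatement`

The Hecke package `P_Σ` over a given Frobenius character `θ` of level `N_Σ`:

* the datum `H` : `G4.g4_of` (RED, POINTS, TRFN, RES2 are on main);
* `hres` : `residual_isEquiv_of_frob` (Chebotarev `H109.charpoly_residual_eq` + rigidity
  `H307.isEquiv_of_trace_eq` over the residue field);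
* `hcond` : determinant (`H540`), unramified outside `Σ` (S31), unipotent at `Smin ∖ {p}` (S34),
  at `p`: flat (S32) resp. ordinary (S33) + TW-STRICT (`H649`).

The frozen statements S23, S31, S34 enter as hypotheses (`S23Shape`, `S31Shape`, `S34Shape` are
their statements verbatim), so that the closure of this file stays small.
-/

set_option autoImplicit false
set_option linter.unusedSectionVars false
set_option linter.style.haveILetI false
set_option synthInstance.maxHeartbeats 400000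
set_option maxHeartbeats 1000000

open Polynomial IsLocalRing

namespace Fermat.Agent.S59.TW.H659

open Fermat.Agent.S59.Arch Fermat.Agent.S59.TW.H959 Fermat.Agent.S59.G4 Fermat.Agent.S31

/-! ## The frozen statements used, as `Prop`s -/

/-- The frozen statement S23, as a `Prop`. -/
def S23Shape : Prop :=
  ∀ (N : ℕ) [NeZero N], CuspForm.HasIntegralStructure N 2

/-- The frozen statement S31, as a `Prop`. -/
def S31Shape : Prop :=
  ∀ {p : ℕ} {N : ℕ} [NeZero N] {S : Finset ℕ}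
    {𝒪 : Type} [CommRing 𝒪] [IsDomain 𝒪] [IsDiscreteValuationRing 𝒪]
    [IsAdicComplete (IsLocalRing.maximalIdeal 𝒪) 𝒪]
    {θ : CuspForm.heckeAlgebra N 2 (↑S : Set ℕ) →+* IsLocalRing.ResidueField 𝒪}
    {T : Type} [CommRing T] [IsLocalRing T] [IsNoetherianRing T]
    [IsAdicComplete (IsLocalRing.maximalIdeal T) T] [Algebra 𝒪 T] [IsLocalHom (algebraMap 𝒪 T)]
    [Module.Finite 𝒪 T] [Module.Free 𝒪 T]
    (_hp : p.Prime) (_hp𝒪 : (p : 𝒪) ∈ IsLocalRing.maximalIdeal 𝒪) (_hpS : p ∈ S)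
    (_hNS : ∀ q : ℕ, q.Prime → q ∣ N → q ∈ S)
    (H : CuspForm.HeckeGaloisRepDatum N (↑S : Set ℕ) 𝒪 θ T)
    (q : ℕ) (_hq : q.Prime) (_hqS : q ∉ S),
    H.ρ.IsUnramifiedAt q

/-- The frozen statement S34, as a `Prop`. -/
def S34Shape : Prop :=
  ∀ {𝒪 : Type} [CommRing 𝒪] [IsDomain 𝒪] [IsDiscreteValuationRing 𝒪]
    [IsAdicComplete (maximalIdeal 𝒪) 𝒪] [Finite (ResidueField 𝒪)] [CharZero 𝒪]
    {p : ℕ} (_hp : p.Prime) (_hp𝒪 : (p : 𝒪) ∈ maximalIdeal 𝒪)
    {N : ℕ} [NeZero N] {S : Finset ℕ} (_hpS : p ∈ S)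
    (_hNS : ∀ q : ℕ, q.Prime → q ∣ N → q ∈ S)
    {θ : CuspForm.heckeAlgebra N 2 (↑S : Set ℕ) →+* ResidueField 𝒪}
    {T : Type} [CommRing T] [IsLocalRing T] [IsNoetherianRing T]
    [IsAdicComplete (maximalIdeal T) T] [Algebra 𝒪 T] [IsLocalHom (algebraMap 𝒪 T)]
    [Module.Finite 𝒪 T] [Module.Free 𝒪 T]
    (H : CuspForm.HeckeGaloisRepDatum N (↑S : Set ℕ) 𝒪 θ T)
    (q : ℕ) (_hq : q.Prime) (_hqp : q ≠ p) (_hqN : q ∣ N) (_hq2 : ¬ q ^ 2 ∣ N),
    H.ρ.IsUnipotentOnInertiaAt q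

/-! ## The residual representation (Brauer–Nesbitt by rigidity) -/

section Res

variable {p : ℕ} [Fact p.Prime]

/-- **Residual equivalence.**  Let `ρ̄` over `k` be absolutely irreducible with cyclotomic
determinant (`p` odd) and Frobenius character `θ`, and let `ρ` over the local ring `A` have the
Frobenius characteristic polynomials given by `φ ≡ ι ∘ θ`.  Then `ρ.residual ≅ ρ̄ ⊗_ι κ(A)`. -/
theorem residual_isEquiv_of_frob (hp2 : p ≠ 2) {N : ℕ} [NeZero N] (S : Finset ℕ)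
    {k : Type} [Field k]
    (θ : CuspForm.heckeAlgebra N 2 (↑S : Set ℕ) →+* k) (ρbar : ResidualGaloisRep k)
    (habs : ρbar.IsAbsolutelyIrreducible) (hθ : ResFrobCond ρbar θ)
    (hdet : (GaloisRepAdic.ofResidualGaloisRep ρbar).DetIsCyclotomic p)
    {A : Type} [CommRing A] [IsLocalRing A] (ι : k →+* ResidueField A)
    (φ : CuspForm.heckeAlgebra N 2 (↑S : Set ℕ) →+* A)
    (hφ : ∀ t, residue A (φ t) = ι (θ t))
    (ρ : GaloisRepAdic A) (hρ : FrobCond ρ φ) :
    ρ.residual.IsEquiv (ρbar.baseChangeAlong ι) := by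
  classical
  set ρ₁ : GaloisRepAdic (ResidueField A) :=
    GaloisRepAdic.ofResidualGaloisRep ρ.residual with hρ₁
  set ρ₂ : GaloisRepAdic (ResidueField A) :=
    GaloisRepAdic.ofResidualGaloisRep (ρbar.baseChangeAlong ι) with hρ₂
  -- `p = 0` in `k` and in the residue field
  have hpk : (p : k) = 0 := by
    have h := hdet.1
    rwa [IsLocalRing.maximalIdeal_eq_bot, Ideal.mem_bot] at h
  have hpK : (p : ResidueField A) ∈ maximalIdeal (ResidueField A) := by
    have : (p : ResidueField A) = 0 := by rw [← map_natCast ι, hpk, map_zero]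
    rw [this]
    exact Ideal.zero_mem _
  have h2 : IsUnit (2 : ResidueField A) := G4.isUnit_two_of_mem hp2 hpK
  have h2k : (2 : k) ≠ 0 := by
    intro h0
    have : (2 : ResidueField A) = 0 := by
      rw [← map_ofNat ι 2, h0, map_zero]
    rw [this] at h2
    exact not_isUnit_zero h2
  -- characteristic polynomials
  have hch₁ : ∀ g, LinearMap.charpoly (ρ₁.ρ g) = (LinearMap.charpoly (ρbar.ρ g)).map ι :=
    fun g => H109.charpoly_residual_eq S θ ρbar hθ ι φ hφ ρ hρ g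
  have hch₂ : ∀ g, LinearMap.charpoly (ρ₂.ρ g) = (LinearMap.charpoly (ρbar.ρ g)).map ι := by
    intro g
    letI : Algebra k (ResidueField A) := ι.toAlgebra
    have h1 : LinearMap.charpoly (ρ₂.ρ g)
        = LinearMap.charpoly ((ρbar.ρ g).baseChange (ResidueField A)) := rfl
    rw [h1, LinearMap.charpoly_baseChange]
    rfl
  -- traces
  let b₀ : Module.Basis (Fin 2) k ρbar.V := Module.finBasisOfFinrankEq k ρbar.V ρbar.finrank_eq
  let b₁ : Module.Basis (Fin 2) (ResidueField A) ρ₁.V :=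
    Module.finBasisOfFinrankEq (ResidueField A) ρ₁.V ρ₁.finrank_eq
  let b₂ : Module.Basis (Fin 2) (ResidueField A) ρ₂.V :=
    Module.finBasisOfFinrankEq (ResidueField A) ρ₂.V ρ₂.finrank_eq
  have htr₁ : ∀ g, ρ₁.trace g = ι (LinearMap.trace k ρbar.V (ρbar.ρ g)) := by
    intro g
    show LinearMap.trace (ResidueField A) ρ₁.V (ρ₁.ρ g) = _
    rw [H109.trace_eq_neg_coeff_charpoly b₁, H109.trace_eq_neg_coeff_charpoly b₀, hch₁,
      Polynomial.coeff_map, map_neg]
  have htr₂ : ∀ g, ρ₂.trace g = ι (LinearMap.trace k ρbar.V (ρbar.ρ g)) := by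
    intro g
    show LinearMap.trace (ResidueField A) ρ₂.V (ρ₂.ρ g) = _
    rw [H109.trace_eq_neg_coeff_charpoly b₂, H109.trace_eq_neg_coeff_charpoly b₀, hch₂,
      Polynomial.coeff_map, map_neg]
  -- oddness
  have hdc : LinearMap.det ((GaloisRepAdic.ofResidualGaloisRep ρbar).ρ complexConjugation) = -1 :=
    G4.det_complexConjugation (GaloisRepAdic.ofResidualGaloisRep ρbar) p hdet
  have htc : (GaloisRepAdic.ofResidualGaloisRep ρbar).trace complexConjugation = 0 :=
    G4.trace_eq_zero_of_involution _ complexConjugation complexConjugation_mul_self hdc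
  have hc : ρ₁.trace complexConjugation = 0 := by
    rw [htr₁]
    have : LinearMap.trace k ρbar.V (ρbar.ρ complexConjugation) = 0 := htc
    rw [this, map_zero]
  -- irreducibility
  have hFrob₁ : FrobCond ρ₁ ((residue A).comp φ) := by
    intro ℓ hℓ hℓN hℓS B hB σ hσ
    have c1 := hρ ℓ hℓ hℓN hℓS B hB σ hσ
    have hres : LinearMap.charpoly (ρ₁.ρ σ)
        = LinearMap.charpoly ((ρ.ρ σ).baseChange (ResidueField A)) := rfl
    rw [hres, LinearMap.charpoly_baseChange, c1]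
    simp only [Polynomial.map_add, Polynomial.map_sub, Polynomial.map_mul, Polynomial.map_pow,
      Polynomial.map_X, Polynomial.map_C, map_natCast]
    rw [IsLocalRing.ResidueField.algebraMap_eq, Polynomial.map_natCast, RingHom.comp_apply]
  have hirr : ρ₁.residual.IsIrreducible :=
    (H109.resStatement2 N S k h2k θ ⟨ρbar, habs, hθ⟩ (ResidueField A)
      ((residue (ResidueField A)).comp ι) ((residue A).comp φ)
      (fun t => by rw [RingHom.comp_apply, RingHom.comp_apply, hφ]) ρ₁ hFrob₁).2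
  obtain ⟨e⟩ := Fermat.Agent.S59.H307.isEquiv_of_trace_eq h2 ρ₁ ρ₂
    (fun σ => by rw [htr₁, htr₂]) complexConjugation complexConjugation_mul_self hc hirr
  exact ⟨⟨e.toLinearEquiv, e.map_apply⟩⟩

end Res

/-! ## Flatness descends along an extension of finite fields -/

/-- Descent of flatness along an extension of finite fields
(`H601.isFlatAt_ofResidual_baseChangeAlong_iff601` over a general finite base field). -/
theorem isFlatAt_of_baseChangeAlong (p : ℕ) [Fact p.Prime]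
    {k : Type} [Field k] [Finite k] (ρbar : ResidualGaloisRep k)
    {K : Type} [Field K] [Finite K] (ι : k →+* K)
    (h : (GaloisRepAdic.ofResidualGaloisRep (ρbar.baseChangeAlong ι)).IsFlatAt p) :
    (GaloisRepAdic.ofResidualGaloisRep ρbar).IsFlatAt p := by
  have hι : IsLocalHom ι := inferInstance
  have hSub := Fermat.Agent.S59.H659.hopfSubquot_closed p
  have hfin : ∀ J : Ideal K, Finite (K ⧸ J) := fun J =>
    Finite.of_surjective (Ideal.Quotient.mk J) Ideal.Quotient.mk_surjective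
  have hresk : Finite (IsLocalRing.ResidueField k) :=
    Finite.of_surjective (IsLocalRing.residue k) IsLocalRing.residue_surjective
  have hdef : GaloisRepAdic.ofResidualGaloisRep (ρbar.baseChangeAlong ι) =
      (GaloisRepAdic.ofResidualGaloisRep ρbar).baseChangeAlong ι hι := rfl
  rw [hdef, Fermat.Agent.S59.H779.isFlatAt_iff_flatLevel] at h
  rw [Fermat.Agent.S59.H779.isFlatAt_iff_flatLevel]
  obtain ⟨-, h⟩ := h
  refine ⟨hresk, fun I _ => ?_⟩
  rcases Ideal.eq_bot_or_top I with rfl | rfl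
  · have h1 := Fermat.Agent.S59.H779.FlatLevel.comap hSub ι hι (h ⊥ (hfin ⊥))
    have h2 : (⊥ : Ideal K).comap ι = ⊥ := by
      rw [← RingHom.ker_eq_comap_bot]
      exact (RingHom.injective_iff_ker_eq_bot ι).1 ι.injective
    rwa [h2] at h1
  · have h1 := Fermat.Agent.S59.H779.FlatLevel.comap hSub ι hι (h ⊤ (hfin ⊤))
    rwa [Ideal.comap_top] at h1

/-! ## The condition at `p`, by type -/

theorem pCond_flat_iff {𝒪 : Type} [CommRing 𝒪] {p : ℕ} {t : PType} (ht : t = .flat)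
    {Sig : Finset ℕ} {A : Type} [CommRing A] [IsLocalRing A] [Algebra 𝒪 A]
    (ρ : GaloisRepAdic A) :
    pCond 𝒪 p t Sig ρ ↔ GaloisRep.flatCondition 𝒪 p Sig ρ := by
  subst ht
  exact Iff.rfl

theorem pCond_sord_iff {𝒪 : Type} [CommRing 𝒪] {p : ℕ} {t : PType} (ht : t = .sord)
    {Sig : Finset ℕ} {A : Type} [CommRing A] [IsLocalRing A] [Algebra 𝒪 A]
    (ρ : GaloisRepAdic A) :
    pCond 𝒪 p t Sig ρ ↔ GaloisRep.strictOrdinaryCondition 𝒪 p Sig ρ := by
  subst ht
  exact Iff.rfl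

/-! ## The leaf PKG -/

/-- **PKG.** -/
theorem pkg_of (h23 : S23Shape) (h30 : S30Statement) (h31 : S31Shape)
    (h32 : Fermat.Agent.S32.S32Statement) (h33 : Fermat.Agent.S33.S33Statement)
    (h34 : S34Shape) (hstrict : Fermat.Agent.S59.H649.TWStrictStatement) :
    PkgStatement := by
  intro p _ 𝒪 _ _ _ _ _ _ ρbar Smin h t ht Sig hSig hSigP _ θ hθ
  classical
  have hp : p.Prime := Fact.out
  have hpSig : p ∈ Sig := hSig h.hpSmin
  have hN0 : wilesLevel p t Smin Sig ≠ 0 := wilesLevel_ne_zero hp h.hSmin hSigP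
  have hNS : ∀ q : ℕ, q.Prime → q ∣ wilesLevel p t Smin Sig → q ∈ Sig :=
    fun q hq hqN => mem_of_prime_dvd_wilesLevel hp h.hSmin hSigP h.hpSmin hSig q hq hqN
  haveI hint : Fact (CuspForm.HasIntegralStructure (wilesLevel p t Smin Sig) 2) := ⟨h23 _⟩
  obtain ⟨H, hHπ⟩ := G4.g4_of h30 H547.red H109.points H532.traceFn H109.resStatement2
    p h.hp2 (wilesLevel p t Smin Sig) Sig hpSig hNS 𝒪 h.hp𝒪 θ ⟨ρbar, h.habs, hθ⟩
  -- the residual representation
  have hres : H.ρ.residual.IsEquiv (ρbar.baseChangeAlong (ResidueField.map (algebraMap 𝒪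
      (CuspForm.heckeLocal (wilesLevel p t Smin Sig) (↑Sig : Set ℕ) 𝒪 θ)))) :=
    residual_isEquiv_of_frob h.hp2 Sig θ ρbar h.habs hθ h.hdet _ H.π H.residue_π H.ρ
      H.charpoly_frob
  -- determinant, ramification
  have hpT : (p : CuspForm.heckeLocal (wilesLevel p t Smin Sig) (↑Sig : Set ℕ) 𝒪 θ) ∈
      maximalIdeal (CuspForm.heckeLocal (wilesLevel p t Smin Sig) (↑Sig : Set ℕ) 𝒪 θ) :=
    G4.natCast_mem_maximalIdeal_heckeLocal h.hp𝒪
  have hdetT : H.ρ.DetIsCyclotomic p :=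
    Fermat.Agent.S59.H540.heckeGaloisRepDatum_detIsCyclotomic Sig H p hpT
  have hunr : ∀ q : ℕ, q.Prime → q ∉ Sig → H.ρ.IsUnramifiedAt q :=
    fun q hq hqS => h31 hp h.hp𝒪 hpSig hNS H q hq hqS
  have hunip : ∀ q ∈ Smin, q.Prime → q ≠ p → H.ρ.IsUnipotentOnInertiaAt q := by
    intro q hqS hq hqp
    refine h34 hp h.hp𝒪 hpSig hNS H q hq hqp
      (dvd_wilesLevel_of_mem hp h.hSmin hSigP q (hSig hqS) hqp) ?_
    intro hd
    have h2 := (hq.pow_dvd_iff_le_factorization hN0).mp hd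
    rw [factorization_wilesLevel hp h.hSmin hSigP,
      if_pos (Finset.mem_erase.mpr ⟨hqp, hqS⟩),
      if_neg (fun hh => (Finset.mem_sdiff.mp hh).2 hqS),
      if_neg (fun hh => hqp hh.2)] at h2
    omega
  -- the condition at `p`
  have hpc : pCond 𝒪 p t Sig H.ρ := by
    rcases ht with ⟨ht, -⟩ | ⟨ht, hso, hnf⟩
    · rw [pCond_flat_iff ht]
      refine ⟨hdetT, ?_, hunr⟩
      refine h32 hp h.hp2 h.hp𝒪 ?_ hpSig hNS H
      intro hd
      have h2 := (hp.pow_dvd_iff_le_factorization hN0 (k := 1)).mp (by simpa using hd)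
      rw [factorization_wilesLevel hp h.hSmin hSigP,
        if_neg (Finset.notMem_erase p Smin),
        if_neg (fun hh => (Finset.mem_sdiff.mp hh).2 h.hpSmin),
        if_neg (fun hh => hh.1 ht)] at h2
      omega
    · rw [pCond_sord_iff ht]
      refine ⟨hdetT, ?_, hunr⟩
      have htne : t ≠ .flat := by rw [ht]; exact fun h0 => PType.noConfusion h0
      have hN : p ∣ wilesLevel p t Smin Sig ∧ ¬ p ^ 2 ∣ wilesLevel p t Smin Sig :=
        ⟨dvd_wilesLevel_of_ne_flat hp htne, not_sq_dvd_wilesLevel hp h.hSmin hSigP h.hpSmin⟩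
      have hι : IsLocalHom (ResidueField.map (algebraMap 𝒪
          (CuspForm.heckeLocal (wilesLevel p t Smin Sig) (↑Sig : Set ℕ) 𝒪 θ))) := inferInstance
      have hfinT : Finite (ResidueField
          (CuspForm.heckeLocal (wilesLevel p t Smin Sig) (↑Sig : Set ℕ) 𝒪 θ)) :=
        Fermat.Agent.S59.H779.finite_residueField_of_base inferInstance H.residue_surjective
          inferInstance
      have hE : (GaloisRepAdic.ofResidualGaloisRep H.ρ.residual).IsEquiv
          (GaloisRepAdic.ofResidualGaloisRep (ρbar.baseChangeAlong (ResidueField.map (algebraMap 𝒪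
            (CuspForm.heckeLocal (wilesLevel p t Smin Sig) (↑Sig : Set ℕ) 𝒪 θ))))) := by
        obtain ⟨e⟩ := hres
        exact ⟨⟨e.toLinearEquiv, e.map_apply⟩⟩
      have hE' : (GaloisRepAdic.ofResidualGaloisRep (ρbar.baseChangeAlong
          (ResidueField.map (algebraMap 𝒪
            (CuspForm.heckeLocal (wilesLevel p t Smin Sig) (↑Sig : Set ℕ) 𝒪 θ))))).IsEquiv
          (GaloisRepAdic.ofResidualGaloisRep H.ρ.residual) := by
        obtain ⟨e⟩ := hE
        exact ⟨e.symm⟩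
      have hordres : (GaloisRepAdic.ofResidualGaloisRep H.ρ.residual).IsOrdinaryAt p := by
        have h1 : (GaloisRepAdic.ofResidualGaloisRep ρbar).IsOrdinaryAt p := hso.isOrdinaryAt
        have h2 := Fermat.Agent.S59.H659.isOrdinaryAt_baseChangeAlong _ hι h1
        exact Fermat.Agent.S59.H659.isOrdinaryAt_of_isEquiv hE' h2
      have hordT : H.ρ.IsOrdinaryAt p := h33 hp h.hp2 h.hp𝒪 hN hNS H hordres
      have hnotflat : ¬ (GaloisRepAdic.ofResidualGaloisRep H.ρ.residual).IsFlatAt p := by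
        intro hf
        exact hnf (isFlatAt_of_baseChangeAlong p ρbar _
          (Fermat.Agent.S56.H966.isFlatAt_of_isEquiv hE hf))
      exact hstrict p h.hp2 _ H.ρ hdetT hordT hnotflat
  exact ⟨{ integral := hint
           θ := θ
           isLocalRing := inferInstance
           isNoetherianRing := inferInstance
           isAdicComplete := inferInstance
           isLocalHom := inferInstance
           finite := inferInstance
           free := inferInstance
           H := H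
           hπ := hHπ
           hres := hres
           hcond := ⟨hpc, hunip⟩ }, rfl⟩

end Fermat.Agent.S59.TW.H659

end
-- ===== PACK-END S59/TW/H659/Pkg.lean

-- ===== PACK-BEGIN S59/TW/H659/PkgFlat.lean
section


/-!
# Row S59 cell TW / row HARD: the FLAT Hecke package, without S33 and TW-STRICT (helper659)

`PkgFlatStatement` = `TW.PkgStatement` for the type `t = .flat` only (this is the package used by
row HARD: `S38.IA.HasIAModule` asks for a `HeckePkg p 𝒪 ρ̄ .flat Smin (Smin ∪ Piv ∪ Q)`).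

`pkgFlat_of : S23Shape → S30Statement → S31Shape → S32Statement → S34Shape → PkgFlatStatement`

(no input from S33 / TW-STRICT: these are only used for the type `.sord`).
-/

set_option autoImplicit false
set_option linter.unusedSectionVars false
set_option linter.style.haveILetI false
set_option synthInstance.maxHeartbeats 400000
set_option maxHeartbeats 1000000

open Polynomial IsLocalRing

namespace Fermat.Agent.S59.TW.H659

open Fermat.Agent.S59.Arch Fermat.Agent.S59.TW.H959 Fermat.Agent.S59.G4 Fermat.Agent.S31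

/-- **PKG, flat type.**  Under `ResidualHyp`, for `ρ̄` flat at `p`: for every finite set of primes
`Σ ⊇ Smin` and every Frobenius character `θ` of `ρ̄` on the Hecke algebra of level
`N_Σ = wilesLevel p .flat Smin Σ` away from `Σ`, the Hecke package of type `Σ` with residual
character `θ` exists. -/
def PkgFlatStatement : Prop :=
  ∀ (p : ℕ) [Fact p.Prime]
    (𝒪 : Type) [CommRing 𝒪] [IsDomain 𝒪] [IsDiscreteValuationRing 𝒪]
    [IsAdicComplete (maximalIdeal 𝒪) 𝒪] [Finite (ResidueField 𝒪)] [CharZero 𝒪]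
    (ρbar : ResidualGaloisRep (ResidueField 𝒪)) (Smin : Finset ℕ)
    (_h : ResidualHyp p 𝒪 ρbar Smin)
    (_hflat : (GaloisRepAdic.ofResidualGaloisRep ρbar).IsFlatAt p)
    (Sig : Finset ℕ) (_hSig : Smin ⊆ Sig) (_hSigP : ∀ q ∈ Sig, q.Prime)
    [NeZero (wilesLevel p .flat Smin Sig)]
    (θ : CuspForm.heckeAlgebra (wilesLevel p .flat Smin Sig) 2 (↑Sig : Set ℕ) →+* ResidueField 𝒪)
    (_hθ : G4.ResFrobCond ρbar θ),
    ∃ P : HeckePkg p 𝒪 ρbar .flat Smin Sig, P.θ = θ

/-- The flat package from the full leaf PKG. -/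
theorem pkgFlat_of_pkg (h : PkgStatement) : PkgFlatStatement :=
  fun p _ 𝒪 _ _ _ _ _ _ ρbar Smin hR hflat Sig hSig hSigP _ θ hθ =>
    h p 𝒪 ρbar Smin hR .flat (Or.inl ⟨rfl, hflat⟩) Sig hSig hSigP θ hθ

/-- **PKG, flat type**, from S23, S30, S31, S32, S34. -/
theorem pkgFlat_of (h23 : S23Shape) (h30 : S30Statement) (h31 : S31Shape)
    (h32 : Fermat.Agent.S32.S32Statement) (h34 : S34Shape) : PkgFlatStatement := by
  intro p _ 𝒪 _ _ _ _ _ _ ρbar Smin h _ Sig hSig hSigP _ θ hθ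
  classical
  have hp : p.Prime := Fact.out
  have hpSig : p ∈ Sig := hSig h.hpSmin
  have hN0 : wilesLevel p .flat Smin Sig ≠ 0 := wilesLevel_ne_zero hp h.hSmin hSigP
  have hNS : ∀ q : ℕ, q.Prime → q ∣ wilesLevel p .flat Smin Sig → q ∈ Sig :=
    fun q hq hqN => mem_of_prime_dvd_wilesLevel hp h.hSmin hSigP h.hpSmin hSig q hq hqN
  haveI hint : Fact (CuspForm.HasIntegralStructure (wilesLevel p .flat Smin Sig) 2) := ⟨h23 _⟩
  obtain ⟨H, hHπ⟩ := G4.g4_of h30 H547.red H109.points H532.traceFn H109.resStatement2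
    p h.hp2 (wilesLevel p .flat Smin Sig) Sig hpSig hNS 𝒪 h.hp𝒪 θ ⟨ρbar, h.habs, hθ⟩
  have hres : H.ρ.residual.IsEquiv (ρbar.baseChangeAlong (ResidueField.map (algebraMap 𝒪
      (CuspForm.heckeLocal (wilesLevel p .flat Smin Sig) (↑Sig : Set ℕ) 𝒪 θ)))) :=
    residual_isEquiv_of_frob h.hp2 Sig θ ρbar h.habs hθ h.hdet _ H.π H.residue_π H.ρ
      H.charpoly_frob
  have hpT : (p : CuspForm.heckeLocal (wilesLevel p .flat Smin Sig) (↑Sig : Set ℕ) 𝒪 θ) ∈
      maximalIdeal (CuspForm.heckeLocal (wilesLevel p .flat Smin Sig) (↑Sig : Set ℕ) 𝒪 θ) :=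
    G4.natCast_mem_maximalIdeal_heckeLocal h.hp𝒪
  have hdetT : H.ρ.DetIsCyclotomic p :=
    Fermat.Agent.S59.H540.heckeGaloisRepDatum_detIsCyclotomic Sig H p hpT
  have hunr : ∀ q : ℕ, q.Prime → q ∉ Sig → H.ρ.IsUnramifiedAt q :=
    fun q hq hqS => h31 hp h.hp𝒪 hpSig hNS H q hq hqS
  have hunip : ∀ q ∈ Smin, q.Prime → q ≠ p → H.ρ.IsUnipotentOnInertiaAt q := by
    intro q hqS hq hqp
    refine h34 hp h.hp𝒪 hpSig hNS H q hq hqp
      (dvd_wilesLevel_of_mem hp h.hSmin hSigP q (hSig hqS) hqp) ?_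
    intro hd
    have h2 := (hq.pow_dvd_iff_le_factorization hN0).mp hd
    rw [factorization_wilesLevel hp h.hSmin hSigP,
      if_pos (Finset.mem_erase.mpr ⟨hqp, hqS⟩),
      if_neg (fun hh => (Finset.mem_sdiff.mp hh).2 hqS),
      if_neg (fun hh => hqp hh.2)] at h2
    omega
  have hpc : pCond 𝒪 p .flat Sig H.ρ := by
    refine ⟨hdetT, ?_, hunr⟩
    refine h32 hp h.hp2 h.hp𝒪 ?_ hpSig hNS H
    intro hd
    have h2 := (hp.pow_dvd_iff_le_factorization hN0 (k := 1)).mp (by simpa using hd)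
    rw [factorization_wilesLevel hp h.hSmin hSigP,
      if_neg (Finset.notMem_erase p Smin),
      if_neg (fun hh => (Finset.mem_sdiff.mp hh).2 h.hpSmin),
      if_neg (fun hh => hh.1 rfl)] at h2
    omega
  exact ⟨{ integral := hint
           θ := θ
           isLocalRing := inferInstance
           isNoetherianRing := inferInstance
           isAdicComplete := inferInstance
           isLocalHom := inferInstance
           finite := inferInstance
           free := inferInstance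
           H := H
           hπ := hHπ
           hres := hres
           hcond := ⟨hpc, hunip⟩ }, rfl⟩

end Fermat.Agent.S59.TW.H659

end
-- ===== PACK-END S59/TW/H659/PkgFlat.lean

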