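import Fermat.Prelude.Def_ModularCurve_ReductionModL
import Fermat.Agent.Pack.S43MC.G0E26L1
import Fermat.Agent.Pack.S44C.G0E28L0
import Fermat.Agent.Pack.S44C.G0E29L0
import Fermat.Agent.Pack.S44C.G0E29L1
import Fermat.Agent.Pack.S43MC.G0E26L0
import Fermat.Agent.Pack.S43MC.G0E11L0
import Fermat.Agent.Pack.S44C.G0E28L3
import Fermat.Agent.Pack.S43MC.G0E13L0
import Fermat.Agent.Pack.S43MC.G0E21L0
import Fermat.Agent.Pack.S44C.G0E26L0
import Fermat.Agent.Pack.S44C.G0E27L2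
import Fermat.Agent.Pack.S43MC.G0E25L0
import Fermat.Agent.Pack.S44C.G0E23L2
import Fermat.Agent.Pack.S44C.G0E24L1
import Fermat.Agent.Pack.S44C.G0E22L1
import Fermat.Agent.Pack.S44C.G0E11L1
import Fermat.Agent.Pack.S44C.G0E24L2
import Fermat.Agent.Pack.S44C.G0E18L2
import Fermat.Agent.Pack.S44C.G0E7L1
import Fermat.Agent.Pack.S43MC.G0E6L3
import Fermat.Agent.Pack.S44C.G0E20L0
import Fermat.Agent.Pack.S44C.G0E24L3
import Fermat.Agent.Pack.S44C.G0E22L2
import Fermat.Agent.Pack.S44C.G0E4L3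
import Fermat.Agent.Pack.S44C.G0E16L0
import Fermat.Agent.Pack.S43MC.G0E26L2
import Fermat.Agent.Pack.S43MC.G0E19L1
import Fermat.Agent.Pack.S43MC.G0E26L3
import Fermat.Agent.Pack.Fast891

-- ===== PACK-BEGIN Ribet/H158/WallQSlope.lean
section



/-!
# Row 37, WALL-q: the two subgroups `𝓕 = finPartQ`, `𝒮 = splitPartQ` of `J₀(qM')(ℚ̄)` and the
# three leaves   (wall architect helper158; FROZEN definitions + Props + PROVED glue)

`N = q·M'`, `q ∤ M'`, `p ≠ q`, `A` a valuation subring of `ℚ̄` over `q`, `k = kA A` (algebraically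
closed of characteristic `q`: `H884.ResFieldStatement` at `q`).  Vocabulary of
`H884/SlopeSpec.lean` (generic in the level and in `A`): `IsKummerGen N p f x`, `IsRedInf N A f r`,
`IsRedZero N A f r`, `PDivSeries p M' r`.

## Definitions
* `PPowSeries p M' r` : `r = c · h ^ p` with `c ∈ kˣ`, `h ∈ F_kˣ`, `F_k = k(X₀(M'))`.
  (At `q ≠ p` EVERY series with `p`-divisible order is a `p`-th power in `k((t))`, so the
  condition `H884.SplitSeries` of the wall at `p` is replaced by "`p`-th power IN `F_k`".)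
* `FinGenQ p q M' A f`   : both reductions of `f ∈ FF (q M')` are `PDivSeries p M'`  (slopes `0`);
* `SplitGenQ p q M' A f` : both reductions of `f` are `PPowSeries p M'`  (trivial reductions);
* `finPartQ p q M' A`, `splitPartQ p q M' A` : the subgroups generated by the classes having a
  Kummer generator (`div f = p·D`) with `FinGenQ`, resp. `SplitGenQ`.

## Leaves
| leaf | Prop | content |
|---|---|---|
| FROB-AL | `Q2Statement`        | `Q2For p q M' A (splitPartQ …)` : `φ = q·u`, `u = -w_q`, on the new part of `𝒮` |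
| RED     | `Q3Statement`        | `Q3For p q M' (finPartQ …) (splitPartQ …)` : a new eigenclass in `𝓕 ∖ 𝒮` is lowered |
| EIS-q   | `EisSlopeQStatement` | `I`-fixed new eigenclass ⇒ `T_ℓ x - (ℓ+1) x ∈ 𝓕` off a finite set (tame node relation + Eisenstein modular unit `Δ(t^q)/Δ(t)`) |

## Proved here
* `mem_finPartQ_of_eis`, `q4For_of : EisSlopeQ → Q4For (finPartQ)` (NE + Bezout);
* `wallQTargets_of : Q2 → Q3 → EisSlopeQ → WallQTargetsStatement`.
-/

set_option autoImplicit false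
set_option synthInstance.maxHeartbeats 400000
set_option maxHeartbeats 1000000

noncomputable section

namespace Fermat.Agent.Ribet.H158.WallQ

open AlgebraicCurve ModularCurve HahnSeries
open Fermat.Agent.S24 Fermat.Agent.A2.H708 Fermat.Agent.A2.H528
open Fermat.Agent.Ribet.Spec Fermat.Agent.Ribet.H944.Wall Fermat.Agent.Ribet.H884

/-- `r` is a constant times the `p`-th power of a nonzero element of `F_k = k(X₀(M'))`. -/
def PPowSeries (p M' : ℕ) {k : Type} [Field k] (r : LaurentSeries k) : Prop :=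
  ∃ (c : k) (h : modularFunctionFieldFullC k M'), c ≠ 0 ∧ h ≠ 0 ∧
    r = HahnSeries.C c * (h : LaurentSeries k) ^ p

/-! ## The two subgroups -/

section Parts

variable (p q M' : ℕ) [NeZero (q * M')] (A : ValuationSubring Kbar)

/-- `f` has slopes `0` on both components (level `q M'`, divisibility by `p`). -/
def FinGenQ (f : FF (q * M')) : Prop :=
  ∃ r₁ r₂ : LaurentSeries (kA A), IsRedInf (q * M') A f r₁ ∧ IsRedZero (q * M') A f r₂ ∧
    PDivSeries p M' r₁ ∧ PDivSeries p M' r₂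

/-- `f` has `p`-th power reductions (in `F_k`, up to constants) on both components. -/
def SplitGenQ (f : FF (q * M')) : Prop :=
  ∃ r₁ r₂ : LaurentSeries (kA A), IsRedInf (q * M') A f r₁ ∧ IsRedZero (q * M') A f r₂ ∧
    PPowSeries p M' r₁ ∧ PPowSeries p M' r₂

/-- Classes with a Kummer generator of slopes `0`. -/
def finSetQ : Set (JZero (q * M')) :=
  {x | ∃ f : FF (q * M'), IsKummerGen (q * M') p f x ∧ FinGenQ p q M' A f}

/-- Classes with a Kummer generator with `p`-th power reductions. -/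
def splitSetQ : Set (JZero (q * M')) :=
  {x | ∃ f : FF (q * M'), IsKummerGen (q * M') p f x ∧ SplitGenQ p q M' A f}

/-- **The finite part `𝓕`** of `J₀(qM')[p]` at `A` (`A` over `q ≠ p`). -/
def finPartQ : AddSubgroup (JZero (q * M')) := AddSubgroup.closure (finSetQ p q M' A)

/-- **The split (toric) part `𝒮`** of `J₀(qM')[p]` at `A` (`A` over `q ≠ p`). -/
def splitPartQ : AddSubgroup (JZero (q * M')) := AddSubgroup.closure (splitSetQ p q M' A)

end Parts

/-! ## Leaves -/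

/-- **(Q2) FROB-AL** for `𝒮 = splitPartQ`. -/
def Q2Statement : Prop :=
  ∀ (p q M' : ℕ) [NeZero M'] [NeZero q] [NeZero (q * M')], p.Prime → 5 ≤ p → q.Prime →
    q ≠ 2 → q ≠ p → ¬ q ∣ M' →
    ∀ A : ValuationSubring Kbar, A.LiesOverPrime q → Q2For p q M' A (splitPartQ p q M' A)

/-- **(Q3) RED** for `𝓕 = finPartQ`, `𝒮 = splitPartQ`. -/
def Q3Statement : Prop :=
  ∀ (p q M' : ℕ) [NeZero M'] [NeZero q] [NeZero (q * M')], p.Prime → 5 ≤ p → q.Prime →
    q ≠ 2 → q ≠ p → ¬ q ∣ M' →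
    ∀ A : ValuationSubring Kbar, A.LiesOverPrime q →
      Q3For p q M' (finPartQ p q M' A) (splitPartQ p q M' A)

/-- `x` has Eisenstein slopes off `S'`: `T_ℓ x - (ℓ + 1) x ∈ 𝓕`. -/
def IsEisModQ (p q M' : ℕ) [NeZero (q * M')] (A : ValuationSubring Kbar) (S' : Finset ℕ)
    (x : JZero (q * M')) : Prop :=
  ∀ ℓ : Nat.Primes, (ℓ : ℕ) ∉ S' →
    heckeOperatorBar (q * M') ℓ x - ((ℓ : ℕ) + 1) • x ∈ finPartQ p q M' A

/-- **EIS-q** (tame node relation + the Eisenstein modular unit `Δ(t^q)/Δ(t)`): a new eigenclass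
fixed by inertia at `A` — WITHOUT the non-Eisenstein hypothesis — has Eisenstein slopes:
`T_ℓ x - (ℓ+1) x ∈ 𝓕` off a finite set. -/
def EisSlopeQStatement : Prop :=
  ∀ (p q M' : ℕ) [NeZero M'] [NeZero q] [NeZero (q * M')], p.Prime → 5 ≤ p → q.Prime →
    q ≠ 2 → q ≠ p → ¬ q ∣ M' →
    ∀ A : ValuationSubring Kbar, A.LiesOverPrime q →
    ∀ (S : Finset ℕ) (a : ℕ → ℤ) (x : JZero (q * M')),
      IsNewTorsQ p q M' x → EigenAt (q * M') S a x →
      (∀ σ ∈ A.inertiaSubgroupIn ℚ, σ • x = x) →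
      ∃ S' : Finset ℕ, IsEisModQ p q M' A S' x

/-! ## Glue -/

/-- Pure group theory: an eigenclass with non-Eisenstein eigenvalues and Eisenstein slopes has
slopes `0`. -/
theorem mem_finPartQ_of_eis (p q M' : ℕ) [NeZero (q * M')] (hp : p.Prime)
    (A : ValuationSubring Kbar) (S S' : Finset ℕ) (a : ℕ → ℤ) (hNE : NonEisAway p a)
    (x : JZero (q * M')) (hpx : p • x = 0) (heig : EigenAt (q * M') S a x)
    (hE : IsEisModQ p q M' A S' x) : x ∈ finPartQ p q M' A := by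
  obtain ⟨ℓ, hℓ, hℓS, hndvd⟩ := hNE (S ∪ S')
  have hℓ1 : ℓ ∉ S := fun h => hℓS (Finset.mem_union_left _ h)
  have hℓ2 : ℓ ∉ S' := fun h => hℓS (Finset.mem_union_right _ h)
  have h1 := hE ⟨ℓ, hℓ⟩ hℓ2
  rw [heig ⟨ℓ, hℓ⟩ hℓ1] at h1
  have h2 : (a ℓ - ((ℓ : ℤ) + 1)) • x ∈ finPartQ p q M' A := by
    have e : (a ℓ - ((ℓ : ℤ) + 1)) • x = a ℓ • x - ((ℓ : ℕ) + 1) • x := by
      have h3 : ((ℓ : ℤ) + 1) = (((ℓ : ℕ) + 1 : ℕ) : ℤ) := by push_cast; ring
      rw [sub_smul, h3, natCast_zsmul]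
    rw [e]
    exact h1
  have hcop : IsCoprime (a ℓ - ((ℓ : ℤ) + 1)) (p : ℤ) := by
    have hpp : Prime (p : ℤ) := Nat.prime_iff_prime_int.mp hp
    exact (IsCoprime.symm ((Prime.coprime_iff_not_dvd hpp).mpr hndvd))
  obtain ⟨u, v, huv⟩ := hcop
  have hx : x = u • ((a ℓ - ((ℓ : ℤ) + 1)) • x) + v • ((p : ℤ) • x) := by
    rw [smul_smul, smul_smul, ← add_zsmul, huv, one_zsmul]
  rw [hx]
  refine (finPartQ p q M' A).add_mem ((finPartQ p q M' A).zsmul_mem h2 u) ?_
  have : ((p : ℤ) • x) = 0 := by rw [natCast_zsmul]; exact hpx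
  rw [this, smul_zero]
  exact (finPartQ p q M' A).zero_mem

/-- **(Q4)** from EIS-q. -/
theorem q4For_of (hE : EisSlopeQStatement)
    (p q M' : ℕ) [NeZero M'] [NeZero q] [NeZero (q * M')] (hp : p.Prime) (hp5 : 5 ≤ p)
    (hq : q.Prime) (hq2 : q ≠ 2) (hqp : q ≠ p) (hqM : ¬ q ∣ M')
    (A : ValuationSubring Kbar) (hA : A.LiesOverPrime q) :
    Q4For p q M' A (finPartQ p q M' A) := by
  intro S a hNE x hx hex hfix
  obtain ⟨S', hS'⟩ := hE p q M' hp hp5 hq hq2 hqp hqM A hA S a x hx hex hfix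
  exact mem_finPartQ_of_eis p q M' hp A S S' a hNE x hx.1 hex hS'

/-- **The three targets** (`WallQTargetsStatement`) from the three leaves. -/
theorem wallQTargets_of (h2 : Q2Statement) (h3 : Q3Statement) (hE : EisSlopeQStatement) :
    WallQTargetsStatement := by
  intro p q M' _ _ _ hp hp5 hq hq2 hqp hqM A hA
  exact ⟨finPartQ p q M' A, splitPartQ p q M' A, h2 p q M' hp hp5 hq hq2 hqp hqM A hA,
    h3 p q M' hp hp5 hq hq2 hqp hqM A hA, q4For_of hE p q M' hp hp5 hq hq2 hqp hqM A hA⟩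

end Fermat.Agent.Ribet.H158.WallQ

end

end
-- ===== PACK-END Ribet/H158/WallQSlope.lean

-- ===== PACK-BEGIN Ribet/H158/WallQEis.lean
section



/-!
# Row 37, WALL-q: **EIS-q** (tame case of (Q4)) — frozen leaves + PROVED glue
  (wall architect helper158; two-prime mirror of `H884/EisSpec.lean`)

Target: `EisSlopeQStatement` (`WallQSlope.lean`).  `N = q·M'`, torsion prime `p ≠ q`, `A` over `q`.
The slopes of an `I`-fixed class `x` are proportional to the slopes of the modular unit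
`u_q = Δ(t^q)/Δ(t)` (TAME node relation: the Kummer generator is rational over an unramified
extension, so at every node `e·slope = d` with `d = v₀ - v_∞` and `e ∈ {1,2,3}` the thickness),
and `u_q` is an Eisenstein eigenfunction; hence `T_ℓ x - (ℓ+1) x` has slopes `0`.

## Vocabulary (level `q M'`, divisibility by `p`)
* `NodeGenQ p q M' A f`   : both reductions of `f ∈ FF (q M')` are `H884.PDivFin p M'`;
* `H884.IsModUnit q M' D` : `D ∈ FF (q M')` has `t`-expansion `S28.unitL ℚ̄ q` (REUSED verbatim);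
* `SlopePropQ p q M' A x` : `x` has a Kummer generator `f` with `NodeGenQ (f^n · D^a / D^b)`,
                            `p ∤ n`.

## Leaves
| leaf | Prop | content |
|---|---|---|
| CORE-OUT-q  | `CoreOutQStatement`      | `x` new eigen, `I`-fixed ⇒ `SlopePropQ x` (tame node relation; `p ∤ 6`) |
| HECKE-NODE-q| `HeckeNodeGenQStatement` | `NodeGenQ f ⇒ NodeGenQ (kronNorm ℓ f)`, `ℓ ∤ q M' p` |
| CUSP-q      | `CuspPurityQStatement`   | Kummer generator + `NodeGenQ` ⇒ `FinGenQ` (purity at the cusps) |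
| REUSED      | `H884.HeckeFunStatement`, `H884.UnitEisStatement`, `H884.RedExistsStatement`, `H884.RedUniqueStatement`, `H884.RedFieldStatement` | generic in the level / used at the prime `q` |

## Proved here
* calculus of `NodeGenQ`; `isEisModQ_of_slopePropQ`; **`eisSlopeQ_of`** :
  `CoreOutQ → HeckeFun → HeckeNodeGenQ → UnitEis → CuspPurityQ → RedExists → RedUnique → RedField
     → EisSlopeQStatement`.
-/

set_option autoImplicit false
set_option synthInstance.maxHeartbeats 400000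
set_option maxHeartbeats 1000000
set_option linter.unusedSectionVars false

noncomputable section

namespace Fermat.Agent.Ribet.H158.WallQ

open AlgebraicCurve ModularCurve HahnSeries
open Fermat.Agent.S24 Fermat.Agent.A2.H708 Fermat.Agent.A2.H528 Fermat.Agent.A2.H129
open Fermat.Agent.Ribet.Spec Fermat.Agent.Ribet.H944.Wall Fermat.Agent.Ribet.H884
open Fermat.Agent.S37.H400

/-! ## Vocabulary -/

/-- Both reductions of `f` have `p`-divisible orders away from the cusps. -/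
def NodeGenQ (p q M' : ℕ) [NeZero (q * M')] (A : ValuationSubring Kbar) (f : FF (q * M')) :
    Prop :=
  ∃ r₁ r₂ : LaurentSeries (kA A), IsRedInf (q * M') A f r₁ ∧ IsRedZero (q * M') A f r₂ ∧
    PDivFin p M' r₁ ∧ PDivFin p M' r₂

/-- The slope vector of `x` is a multiple of the slope vector of the modular unit
`Δ(t^q)/Δ(t)`. -/
def SlopePropQ (p q M' : ℕ) [NeZero q] [NeZero (q * M')] (A : ValuationSubring Kbar)
    (x : JZero (q * M')) : Prop :=
  ∃ (f D G : FF (q * M')) (n a b : ℕ), IsKummerGen (q * M') p f x ∧ IsModUnit q M' D ∧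
    D ≠ 0 ∧ ¬ p ∣ n ∧ G * D ^ b = f ^ n * D ^ a ∧ NodeGenQ p q M' A G

/-! ## Leaves -/

/-- **CORE-OUT-q** (tame node relation): the slopes of a new eigenclass fixed by inertia at `A`
are proportional to the slopes of the modular unit. -/
def CoreOutQStatement : Prop :=
  ∀ (p q M' : ℕ) [NeZero M'] [NeZero q] [NeZero (q * M')], p.Prime → 5 ≤ p → q.Prime →
    q ≠ 2 → q ≠ p → ¬ q ∣ M' →
    ∀ A : ValuationSubring Kbar, A.LiesOverPrime q →
    ∀ (S : Finset ℕ) (a : ℕ → ℤ) (x : JZero (q * M')),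
      IsNewTorsQ p q M' x → EigenAt (q * M') S a x →
      (∀ σ ∈ A.inertiaSubgroupIn ℚ, σ • x = x) →
      SlopePropQ p q M' A x

/-- **HECKE-NODE-q**: `NodeGenQ` is stable under the function-level Hecke operator. -/
def HeckeNodeGenQStatement : Prop :=
  ∀ (p q M' : ℕ) [NeZero M'] [NeZero q] [NeZero (q * M')], p.Prime → q.Prime → q ≠ p →
    ¬ q ∣ M' →
    ∀ A : ValuationSubring Kbar, A.LiesOverPrime q →
    ∀ (ℓ : Nat.Primes) [NeZero (ℓ : ℕ)], ¬ (ℓ : ℕ) ∣ q * M' * p →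
    ∀ f g : FF (q * M'),
      (g : LaurentSeries Kbar) = kronNorm (ℓ : ℕ) (f : LaurentSeries Kbar) →
      NodeGenQ p q M' A f → NodeGenQ p q M' A g

/-- **CUSP-q** (purity at the cusps): a Kummer generator whose reductions have `p`-divisible
orders away from the cusps has slopes `0`. -/
def CuspPurityQStatement : Prop :=
  ∀ (p q M' : ℕ) [NeZero M'] [NeZero q] [NeZero (q * M')], p.Prime → q.Prime → q ≠ p →
    ¬ q ∣ M' →
    ∀ A : ValuationSubring Kbar, A.LiesOverPrime q →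
    ∀ (g : FF (q * M')) (y : JZero (q * M')), IsKummerGen (q * M') p g y →
      NodeGenQ p q M' A g → FinGenQ p q M' A g

/-! ## Calculus -/

section NodeGenQCalc

variable {p q M' : ℕ} [NeZero q] [NeZero (q * M')] {A : ValuationSubring Kbar}

theorem NodeGenQ.ne_zero {f : FF (q * M')} (h : NodeGenQ p q M' A f) : f ≠ 0 := by
  obtain ⟨r₁, r₂, h1, -, -, -⟩ := h
  intro h0
  exact h1.fun_ne_zero (by rw [h0]; rfl)

theorem NodeGenQ.mul {f f' : FF (q * M')} (h : NodeGenQ p q M' A f)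
    (h' : NodeGenQ p q M' A f') : NodeGenQ p q M' A (f * f') := by
  obtain ⟨r₁, r₂, h1, h2, h3, h4⟩ := h
  obtain ⟨r₁', r₂', h1', h2', h3', h4'⟩ := h'
  exact ⟨r₁ * r₁', r₂ * r₂', h1.mul h1', h2.mul h2', h3.mul h3', h4.mul h4'⟩

theorem NodeGenQ.inv {f : FF (q * M')} (h : NodeGenQ p q M' A f) :
    NodeGenQ p q M' A f⁻¹ := by
  obtain ⟨r₁, r₂, h1, h2, h3, h4⟩ := h
  exact ⟨r₁⁻¹, r₂⁻¹, h1.inv, h2.inv, h3.inv, h4.inv⟩

theorem NodeGenQ.pow {f : FF (q * M')} (h : NodeGenQ p q M' A f) (m : ℕ) :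
    NodeGenQ p q M' A (f ^ m) := by
  obtain ⟨r₁, r₂, h1, h2, h3, h4⟩ := h
  exact ⟨r₁ ^ m, r₂ ^ m, h1.pow m, h2.pow m, h3.pow m, h4.pow m⟩

theorem NodeGenQ.const_mul {f : FF (q * M')} (h : NodeGenQ p q M' A f) {c : Kbar}
    (hc : c ≠ 0) : NodeGenQ p q M' A (algebraMap Kbar (FF (q * M')) c * f) := by
  obtain ⟨r₁, r₂, h1, h2, h3, h4⟩ := h
  exact ⟨r₁, r₂, h1.const_mul hc, h2.const_mul hc, h3, h4⟩

/-- Extraction of `n`-th roots, `p ∤ n` (needs the RED leaves at `q`). -/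
theorem NodeGenQ.of_pow (hRE : RedExistsStatement) (hRU : RedUniqueStatement)
    (hRF : RedFieldStatement) [NeZero M'] (hp : p.Prime) (hq : q.Prime) (hqM : ¬ q ∣ M')
    (hA : A.LiesOverPrime q) {n : ℕ} (hn : ¬ p ∣ n) {g : FF (q * M')} (hg : g ≠ 0)
    (h : NodeGenQ p q M' A (g ^ n)) : NodeGenQ p q M' A g := by
  obtain ⟨s₁, s₂, h1, h2, h3, h4⟩ := h
  obtain ⟨⟨r₁, hr₁⟩, ⟨r₂, hr₂⟩⟩ := hRE q (q * M') hq A hA g hg
  obtain ⟨-, c₁, -, hc₁⟩ := hRU q (q * M') hq A hA (g ^ n) (r₁ ^ n) s₁ (hr₁.pow n) h1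
  have hr₂' : IsRedInf (q * M') A (wF (q * M') (g ^ n)) (r₂ ^ n) := IsRedZero.pow hr₂ n
  obtain ⟨-, c₂, -, hc₂⟩ := hRU q (q * M') hq A hA (wF (q * M') (g ^ n)) (r₂ ^ n) s₂ hr₂' h2
  exact ⟨r₁, r₂, hr₁, hr₂,
    PDivFin.of_pow hp hn (hRF q M' hq hqM A hA g r₁ (Or.inl hr₁)) c₁ hc₁ h3,
    PDivFin.of_pow hp hn (hRF q M' hq hqM A hA g r₂ (Or.inr hr₂)) c₂ hc₂ h4⟩

end NodeGenQCalc

/-! ## Glue -/

/-- **EIS-q core**: proportional slopes ⇒ Eisenstein slopes. -/
theorem isEisModQ_of_slopePropQ (hHF : HeckeFunStatement) (hHN : HeckeNodeGenQStatement)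
    (hU : UnitEisStatement) (hCP : CuspPurityQStatement) (hRE : RedExistsStatement)
    (hRU : RedUniqueStatement) (hRF : RedFieldStatement)
    (p q M' : ℕ) [NeZero M'] [NeZero q] [NeZero (q * M')] (hp : p.Prime) (hq : q.Prime)
    (hqp : q ≠ p) (hqM : ¬ q ∣ M')
    (A : ValuationSubring Kbar) (hA : A.LiesOverPrime q) (x : JZero (q * M'))
    (hx : SlopePropQ p q M' A x) : IsEisModQ p q M' A (q * M' * p).primeFactors x := by
  intro ℓ hℓ
  have : NeZero (ℓ : ℕ) := ⟨ℓ.2.ne_zero⟩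
  have hNp0 : q * M' * p ≠ 0 := mul_ne_zero (NeZero.ne _) hp.ne_zero
  have hℓNp : ¬ (ℓ : ℕ) ∣ q * M' * p := fun h =>
    hℓ (Nat.mem_primeFactors.mpr ⟨ℓ.2, h, hNp0⟩)
  have hℓN : ¬ (ℓ : ℕ) ∣ q * M' := fun h => hℓNp (dvd_mul_of_dvd_left h p)
  have hℓq : (ℓ : ℕ) ≠ q := fun h => hℓN (h ▸ dvd_mul_right _ _)
  obtain ⟨f, D, G, n, a, b, hf, hD, hD0, hn, hG, hNG⟩ := hx
  obtain ⟨Tf, hTf, hTfK⟩ := hHF (q * M') ℓ hℓN f
  obtain ⟨TG, hTG, -⟩ := hHF (q * M') ℓ hℓN G
  obtain ⟨c, hc, hUD⟩ := hU q ℓ hq hℓq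
  have hf0 : f ≠ 0 := hf.1
  have hG0 : G ≠ 0 := hNG.ne_zero
  -- notation
  set C : FF (q * M') := algebraMap Kbar (FF (q * M')) c with hC
  have hC0 : C ≠ 0 := by simpa [hC] using hc
  set E : FF (q * M') := D ^ ((ℓ : ℕ) + 1) with hE
  have hE0 : E ≠ 0 := pow_ne_zero _ hD0
  -- the Hecke transform of the relation `G * D ^ b = f ^ n * D ^ a`
  have h2 : TG * (C * E) ^ b = Tf ^ n * (C * E) ^ a := by
    apply Subtype.ext
    have e1 : ((C * E : FF (q * M')) : LaurentSeries Kbar) =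
        kronNorm (ℓ : ℕ) (D : LaurentSeries Kbar) := by
      have hD' : (D : LaurentSeries Kbar) = Fermat.Agent.S28.unitL Kbar q := hD
      have hCE : ((C * E : FF (q * M')) : LaurentSeries Kbar) =
          cst c * (D : LaurentSeries Kbar) ^ ((ℓ : ℕ) + 1) := rfl
      rw [hCE, hD', hUD]
    have e2 : ((TG * (C * E) ^ b : FF (q * M')) : LaurentSeries Kbar) =
        kronNorm (ℓ : ℕ) ((G * D ^ b : FF (q * M')) : LaurentSeries Kbar) := by
      have : ((G * D ^ b : FF (q * M')) : LaurentSeries Kbar) =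
          (G : LaurentSeries Kbar) * (D : LaurentSeries Kbar) ^ b := rfl
      rw [this, kronNorm_mul, kronNorm_pow, ← hTG, ← e1]
      rfl
    have e3 : ((Tf ^ n * (C * E) ^ a : FF (q * M')) : LaurentSeries Kbar) =
        kronNorm (ℓ : ℕ) ((f ^ n * D ^ a : FF (q * M')) : LaurentSeries Kbar) := by
      have : ((f ^ n * D ^ a : FF (q * M')) : LaurentSeries Kbar) =
          (f : LaurentSeries Kbar) ^ n * (D : LaurentSeries Kbar) ^ a := rfl
      rw [this, kronNorm_mul, kronNorm_pow, kronNorm_pow, ← hTf, ← e1]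
      rfl
    rw [e2, e3, hG]
  -- the `(ℓ+1)`-st power of the relation
  have h3 : G ^ ((ℓ : ℕ) + 1) * E ^ b = f ^ (n * ((ℓ : ℕ) + 1)) * E ^ a := by
    have h3' : (G * D ^ b) ^ ((ℓ : ℕ) + 1) = (f ^ n * D ^ a) ^ ((ℓ : ℕ) + 1) := by rw [hG]
    calc G ^ ((ℓ : ℕ) + 1) * E ^ b = (G * D ^ b) ^ ((ℓ : ℕ) + 1) := by rw [hE]; ring
      _ = (f ^ n * D ^ a) ^ ((ℓ : ℕ) + 1) := h3'
      _ = f ^ (n * ((ℓ : ℕ) + 1)) * E ^ a := by rw [hE]; ring
  -- the Kummer generator of `T_ℓ x - (ℓ + 1) x`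
  set g : FF (q * M') := Tf * (f ^ ((ℓ : ℕ) + 1))⁻¹ with hg
  have hgK : IsKummerGen (q * M') p g
      (heckeOperatorBar (q * M') ℓ x - ((ℓ : ℕ) + 1) • x) := by
    have := (hTfK p x hf).mul ((hf.pow ((ℓ : ℕ) + 1)).inv)
    rwa [← sub_eq_add_neg] at this
  have hg0 : g ≠ 0 := hgK.1
  -- `g ^ n` is a constant times `TG / G ^ (ℓ + 1)`
  have h4 : Tf ^ n * C ^ a * G ^ ((ℓ : ℕ) + 1) = C ^ b * TG * f ^ (n * ((ℓ : ℕ) + 1)) := by
    have hEE : E ^ a * E ^ b ≠ 0 := mul_ne_zero (pow_ne_zero _ hE0) (pow_ne_zero _ hE0)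
    apply mul_right_cancel₀ hEE
    rw [mul_pow, mul_pow] at h2
    linear_combination (-(f ^ (n * ((ℓ : ℕ) + 1)) * E ^ a)) * h2 + (Tf ^ n * C ^ a * E ^ a) * h3
  have h5 : g ^ n = algebraMap Kbar (FF (q * M')) (c ^ b * (c ^ a)⁻¹) *
      (TG * (G ^ ((ℓ : ℕ) + 1))⁻¹) := by
    have hCa : C ^ a ≠ 0 := pow_ne_zero _ hC0
    have hGl : G ^ ((ℓ : ℕ) + 1) ≠ 0 := pow_ne_zero _ hG0
    have hfl : f ^ ((ℓ : ℕ) + 1) ≠ 0 := pow_ne_zero _ hf0
    have hcc : algebraMap Kbar (FF (q * M')) (c ^ b * (c ^ a)⁻¹) = C ^ b * (C ^ a)⁻¹ := by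
      rw [map_mul, map_inv₀, map_pow, map_pow]
    rw [hcc, hg, mul_pow, inv_pow, ← pow_mul, mul_comm ((ℓ : ℕ) + 1) n]
    have hfn : f ^ (n * ((ℓ : ℕ) + 1)) ≠ 0 := pow_ne_zero _ hf0
    field_simp
    linear_combination h4
  have hcb : c ^ b * (c ^ a)⁻¹ ≠ 0 :=
    mul_ne_zero (pow_ne_zero _ hc) (inv_ne_zero (pow_ne_zero _ hc))
  have hNGn : NodeGenQ p q M' A (g ^ n) := by
    rw [h5]
    exact ((hHN p q M' hp hq hqp hqM A hA ℓ hℓNp G TG hTG hNG).mul
      (hNG.pow _).inv).const_mul hcb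
  have hNGg : NodeGenQ p q M' A g := NodeGenQ.of_pow hRE hRU hRF hp hq hqM hA hn hg0 hNGn
  exact AddSubgroup.subset_closure ⟨g, hgK, hCP p q M' hp hq hqp hqM A hA g _ hgK hNGg⟩

/-- **EIS-q from its leaves.** -/
theorem eisSlopeQ_of (hCO : CoreOutQStatement) (hHF : HeckeFunStatement)
    (hHN : HeckeNodeGenQStatement) (hU : UnitEisStatement) (hCP : CuspPurityQStatement)
    (hRE : RedExistsStatement) (hRU : RedUniqueStatement) (hRF : RedFieldStatement) :
    EisSlopeQStatement := by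
  intro p q M' _ _ _ hp hp5 hq hq2 hqp hqM A hA S a x hx hex hfix
  exact ⟨(q * M' * p).primeFactors,
    isEisModQ_of_slopePropQ hHF hHN hU hCP hRE hRU hRF p q M' hp hq hqp hqM A hA x
      (hCO p q M' hp hp5 hq hq2 hqp hqM A hA S a x hx hex hfix)⟩

end Fermat.Agent.Ribet.H158.WallQ

end

end
-- ===== PACK-END Ribet/H158/WallQEis.lean

-- ===== PACK-BEGIN Ribet/H818/SwapDict.lean
section



/-!
# Row RIBET, WALL-q, leaf FROB-AL — dictionary DICT-A (helper818)

From the series vocabulary of `H158.WallQ.SplitGenQ` to the valuation vocabulary of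
`H818.kummerSwapBar`: a function `f` of level `N` (`M' ∣ N`, `A` over `q`) one of whose reductions
is `c · h ^ m` with `c ∈ kˣ`, `h ∈ k(X₀(M'))ˣ` is an `m`-th power times an element of
`1 + 𝔪_{V∞}`  (`k` is algebraically closed: the constant is an `m`-th power; `F_k(M')` lifts to
`V∞`: `H573.exists_isRedInf_full`).

* `exists_root_inf818`, `exists_root_zero818`, `splitGenQ_roots818`.
-/

set_option autoImplicit false
set_option linter.unusedSectionVars false
set_option linter.unusedVariables false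
set_option linter.style.haveILetI false
set_option synthInstance.maxHeartbeats 400000
set_option maxHeartbeats 1000000

noncomputable section

namespace Fermat.Agent.Ribet.H818

open AlgebraicCurve ModularCurve HahnSeries
open Fermat.Agent.S24 Fermat.Agent.A2.H528
open Fermat.Agent.Ribet.H884 Fermat.Agent.Ribet.H158.WallQ

section Dict

variable {q : ℕ} {A : ValuationSubring Kbar}

/-- **DICT-A on `C∞`.** -/
theorem exists_root_inf818 (hq : q.Prime) (hA : A.LiesOverPrime q) (M' N m : ℕ) [NeZero N]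
    (hMN : M' ∣ N) (hm : 0 < m) {f : FF N} {r : LaurentSeries (kA A)}
    (hred : IsRedInf N A f r) (hr : PPowSeries m M' r) :
    ∃ a : FF N, a ≠ 0 ∧
      (Fermat.Agent.A2.H553.VinfModular A hq.ne_zero hA N).valuation (f * (a ^ m)⁻¹ - 1) < 1 := by
  obtain ⟨hac, hch⟩ := Fermat.Agent.Ribet.H939.resField q hq A hA
  haveI := hac
  obtain ⟨c, h, hc, hh, rfl⟩ := hr
  obtain ⟨c₀, hc₀⟩ := IsAlgClosed.exists_pow_nat_eq c hm
  have hc₀0 : c₀ ≠ 0 := by
    rintro rfl
    rw [zero_pow hm.ne'] at hc₀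
    exact hc hc₀.symm
  have hCc₀ : (HahnSeries.C c₀ : LaurentSeries (kA A)) ≠ 0 := by
    intro h0
    apply hc₀0
    have := congrArg (fun x : LaurentSeries (kA A) => x.coeff 0) h0
    simpa using this
  have hh' : (h : LaurentSeries (kA A)) ≠ 0 := fun h0 => hh (Subtype.ext h0)
  set s : LaurentSeries (kA A) := HahnSeries.C c₀ * (h : LaurentSeries (kA A)) with hs
  have hCmem : (HahnSeries.C c₀ : LaurentSeries (kA A)) ∈ modularFunctionFieldFullC (kA A) M' := by
    have h' := (modularFunctionFieldFullC (kA A) M').algebraMap_mem c₀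
    rwa [ModularCurve.algebraMap_laurentSeries_eq_single] at h'
  have hsmem : s ∈ modularFunctionFieldFullC (kA A) M' := mul_mem hCmem h.2
  have hs0 : s ≠ 0 := mul_ne_zero hCc₀ hh'
  have hsm : s ^ m = HahnSeries.C c * (h : LaurentSeries (kA A)) ^ m := by
    rw [hs, mul_pow, ← map_pow, hc₀]
  obtain ⟨g, hg0, hg⟩ := Fermat.Agent.Ribet.H573.exists_isRedInf_full hq.ne_zero hA M' N hMN s
    hsmem hs0
  have h1 : IsRedInf N A (f * (g ^ m)⁻¹) 1 := by
    have h2 := IsRedInf.mul hred (IsRedInf.inv (Fermat.Agent.Ribet.H573.isRedInf_pow hg m))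
    rwa [hsm, mul_inv_cancel₀ (IsRedInf.ne_zero hred)] at h2
  obtain ⟨c', hc', hu⟩ :=
    Fermat.Agent.Ribet.H573.oneAddNonunits_of_isRedInf_one hq.ne_zero hA h1
  obtain ⟨κ, hκ⟩ := IsAlgClosed.exists_pow_nat_eq c' hm
  have hκ0 : κ ≠ 0 := by
    rintro rfl
    rw [zero_pow hm.ne'] at hκ
    exact hc' hκ.symm
  have hκF : algebraMap Kbar (FF N) κ ≠ 0 := (map_ne_zero _).2 hκ0
  refine ⟨algebraMap Kbar (FF N) κ * g, mul_ne_zero hκF hg0, ?_⟩
  have e : f * ((algebraMap Kbar (FF N) κ * g) ^ m)⁻¹ =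
      f * (g ^ m)⁻¹ * (algebraMap Kbar (FF N) c')⁻¹ := by
    rw [mul_pow, ← map_pow, hκ, mul_inv]
    ring
  rw [e]
  exact hu

/-- **DICT-A on `C₀`.** -/
theorem exists_root_zero818 (hq : q.Prime) (hA : A.LiesOverPrime q) (M' N m : ℕ) [NeZero N]
    (hMN : M' ∣ N) (hm : 0 < m) {f : FF N} {r : LaurentSeries (kA A)}
    (hred : IsRedZero N A f r) (hr : PPowSeries m M' r) :
    ∃ b : FF N, b ≠ 0 ∧
      (Fermat.Agent.A2.H553.VinfModular A hq.ne_zero hA N).valuation
        (wF N (f * (b ^ m)⁻¹) - 1) < 1 := by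
  obtain ⟨a, ha, hva⟩ := exists_root_inf818 hq hA M' N m hMN hm (f := wF N f) hred hr
  refine ⟨wF N a, by simpa using ha, ?_⟩
  rw [map_mul, map_inv₀, map_pow, wF_wF]
  exact hva

/-- **DICT-A** for a split generator. -/
theorem splitGenQ_roots818 (hq : q.Prime) (hA : A.LiesOverPrime q) (M' m : ℕ)
    [NeZero (q * M')] (hm : 0 < m) {f : FF (q * M')} (h : SplitGenQ m q M' A f) :
    (∃ a : FF (q * M'), a ≠ 0 ∧
      (Fermat.Agent.A2.H553.VinfModular A hq.ne_zero hA (q * M')).valuation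
        (f * (a ^ m)⁻¹ - 1) < 1) ∧
    ∃ b : FF (q * M'), b ≠ 0 ∧
      (Fermat.Agent.A2.H553.VinfModular A hq.ne_zero hA (q * M')).valuation
        (wF (q * M') (f * (b ^ m)⁻¹) - 1) < 1 := by
  obtain ⟨r₁, r₂, h1, h2, hp1, hp2⟩ := h
  exact ⟨exists_root_inf818 hq hA M' (q * M') m (dvd_mul_left M' q) hm h1 hp1,
    exists_root_zero818 hq hA M' (q * M') m (dvd_mul_left M' q) hm h2 hp2⟩

end Dict

end Fermat.Agent.Ribet.H818

end

end
-- ===== PACK-END Ribet/H818/SwapDict.lean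

-- ===== PACK-BEGIN S27/H386/CharFreeFF1.lean
section
/-
Row S27 by-product (helper386): the torsion count in any characteristic, in the language of the
RR library (`FF1 K F`), ready for the function fields of (reductions of) modular curves.
-/



set_option autoImplicit false
set_option linter.style.haveILetI false

universe u

open AlgebraicCurve

namespace Fermat.Agent.S27.H386

open Fermat.Agent.Lib.RR

/-- **The torsion count for `FF1` function fields, in any characteristic**: if `K` is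
algebraically closed and `n` is invertible in `K`, then `Pic⁰(F)[n]` has `n^{2g}` elements. -/
theorem natCard_torsion_of_ff1 (K F : Type u) [Field K] [Field F] [Algebra K F] [IsAlgClosed K]
    [FF1 K F] (n : ℕ) (hn : (n : K) ≠ 0) :
    Nat.card (Pic0.torsion K F n) = n ^ (2 * genusFF K F) := by
  haveI := isCurveOver_of_ff1 K F
  haveI := essFiniteType_of_ff1 K F
  exact natCard_torsion K F n hn

/-- `Pic⁰(F)[n]` is finite, for `FF1` function fields over an algebraically closed field in which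
`n` is invertible. -/
theorem finite_torsion_of_ff1 (K F : Type u) [Field K] [Field F] [Algebra K F] [IsAlgClosed K]
    [FF1 K F] (n : ℕ) (hn : (n : K) ≠ 0) : Finite (Pic0.torsion K F n) := by
  haveI := isCurveOver_of_ff1 K F
  haveI := essFiniteType_of_ff1 K F
  exact finite_torsion K F n hn

end Fermat.Agent.S27.H386

end
-- ===== PACK-END S27/H386/CharFreeFF1.lean

-- ===== PACK-BEGIN S37/H697/LiftLeaf.lean
section



/-!
# S37 / board v3, LEAF D3 (helper697): `Fermat.Agent.S37.Core.LiftLeaf`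

`liftLeaf : Core.LiftLeaf` — (H3) at every number-field level, on both charts, from the good
models of row S18 (`Mod.GoodModelStatement`) and the abstract normality statement (D2).

Proof: enlarge `E` to a member `E'` of the family (`LiftAtLevel` is antitone in `E`), apply
`Lift.lift_core` to the good model with coordinate `x` (integral series `X`) and to the good
model with coordinate `x⁻¹` (`S18.H425.goodModel_inv`, integral series `X⁻¹ ∈ ℤ((q))`).
-/

set_option autoImplicit false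
set_option synthInstance.maxHeartbeats 400000
set_option maxHeartbeats 1600000
set_option linter.unusedSectionVars false
set_option linter.unusedVariables false
set_option linter.style.haveILetI false

noncomputable section

namespace Fermat.Agent.S37.H697

open ModularCurve AlgebraicCurve HahnSeries IsLocalRing Polynomial
open Fermat.Agent.S18 Fermat.Agent.S18.Mod Fermat.Agent.S18.Mod.H216 Fermat.Agent.S37.Red
open Fermat.Agent.S37.H697.Lift

/-- a number field is generated (as a `ℚ`-vector space) by finitely many elements -/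
theorem exists_finset_le (E : IntermediateField ℚ _root_.Fermat.Agent.S18.Qb) [FiniteDimensional ℚ E] :
    ∃ T : Finset _root_.Fermat.Agent.S18.Qb, ∀ E' : IntermediateField ℚ _root_.Fermat.Agent.S18.Qb, (∀ a ∈ T, a ∈ E') → E ≤ E' := by
  classical
  obtain ⟨S, hS⟩ := (Module.finite_def.mp (inferInstance : Module.Finite ℚ E))
  refine ⟨S.image (fun e : E => (e : _root_.Fermat.Agent.S18.Qb)), fun E' hT e he => ?_⟩
  have key : ∀ z : E, z ∈ Submodule.span ℚ (S : Set E) → (z : _root_.Fermat.Agent.S18.Qb) ∈ E' := by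
    intro z hz
    induction hz using Submodule.span_induction with
    | mem z hz => exact hT _ (Finset.mem_image.mpr ⟨z, hz, rfl⟩)
    | zero => exact zero_mem E'
    | add a b _ _ ha hb => exact add_mem ha hb
    | smul r a _ ha =>
      have h1 : ((r • a : E) : _root_.Fermat.Agent.S18.Qb) = algebraMap ℚ _root_.Fermat.Agent.S18.Qb r * (a : _root_.Fermat.Agent.S18.Qb) := by
        rw [Algebra.smul_def]
        rfl
      rw [h1]
      exact mul_mem (E'.algebraMap_mem r) ha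
  exact key ⟨e, he⟩ (hS ▸ Submodule.mem_top)

/-- a Laurent series `q⁻¹ + …` over `ℤ` is invertible -/
theorem exists_inv_series (X : LaurentSeries ℤ) (h1 : X.coeff (-1) = 1)
    (h2 : ∀ k : ℤ, k < -1 → X.coeff k = 0) : ∃ Xi : LaurentSeries ℤ, X * Xi = 1 := by
  have hX0 : X ≠ 0 := by
    rintro rfl
    simp at h1
  have hord : X.order = -1 := by
    apply le_antisymm
    · exact HahnSeries.order_le_of_coeff_ne_zero (by rw [h1]; exact one_ne_zero)
    · by_contra hlt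
      exact (HahnSeries.coeff_order_eq_zero.not.mpr hX0) (h2 _ (not_le.mp hlt))
  have hu : IsUnit X := by
    rw [HahnSeries.isUnit_iff, HahnSeries.leadingCoeff_eq, hord, h1]
    exact isUnit_one
  obtain ⟨u, rfl⟩ := hu
  exact ⟨↑u⁻¹, Units.mul_inv u⟩

theorem coeffMap_intCast_comp {R S : Type*} [CommRing R] [CommRing S] (f : R →+* S)
    (X : LaurentSeries ℤ) :
    coeffMap f (coeffMap (Int.castRingHom R) X) = coeffMap (Int.castRingHom S) X := by
  rw [coeffMap_coeffMap]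
  exact coeffMap_congr (RingHom.ext_int _ _) X

/-- an integral series over `ℤ` representing an element of `Fc M E` lies in `intE` -/
theorem intCast_mem_intE (M : ℕ) (A : ValuationSubring _root_.Fermat.Agent.S18.Qb) (E : IntermediateField ℚ _root_.Fermat.Agent.S18.Qb)
    (X : LaurentSeries ℤ) (f : Om M) (hf : f ∈ Fc M E)
    (hfX : (f : LaurentSeries _root_.Fermat.Agent.S18.Qb) = coeffMap (Int.castRingHom _root_.Fermat.Agent.S18.Qb) X) :
    coeffMap (Int.castRingHom ↥A) X ∈ intE M A E := by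
  rw [mem_intE]
  refine ⟨fun k => ?_, f, hf, ?_⟩
  · rw [coeffMap_coeff]
    simp only [eq_intCast, SubringClass.coe_intCast]
    exact intCast_mem E _
  · rw [hfX, coeffMap_intCast_comp]

/-- **LEAF D3.** -/
theorem liftLeaf : Fermat.Agent.S37.Core.LiftLeaf := by
  intro M ℓ _ hℓ hℓM A hA x S hx X hX hmod hnorm E
  classical
  obtain ⟨𝓕, -, h𝓕, hT⟩ := hmod x S hx
  haveI : FiniteDimensional ℚ E.1 := E.2
  obtain ⟨T, hTE⟩ := exists_finset_le E.1
  obtain ⟨E', V, w, -, hTE', hV, hmem⟩ := hT T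
  have hEE' : E.1 ≤ E' := hTE E' hTE'
  have G : Alg.GoodModel (Lc M) (Ec M E') (Fc M E') (Rc M A E') V w x S := h𝓕.good _ hmem
  -- the coordinate as an integral series
  have hXint : coeffMap (Int.castRingHom ↥A) X ∈ intE M A E' :=
    intCast_mem_intE M A E' X x G.x_mem hX.coe_eq
  have hY : H216.toOm M A E' ⟨coeffMap (Int.castRingHom ↥A) X, hXint⟩ = x := by
    apply Subtype.ext
    rw [coe_toOm, hX.coe_eq]
    exact coeffMap_intCast_comp A.subtype X
  have hredY : redE M A E' ⟨coeffMap (Int.castRingHom ↥A) X, hXint⟩ = Core.redX A X :=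
    coeffMap_intCast_comp (residue ↥A) X
  -- the inverse coordinate as an integral series
  obtain ⟨Xi, hXi⟩ := exists_inv_series X hX.coeff_neg_one hX.coeff_lt
  have hxi : ((x⁻¹ : Om M) : LaurentSeries _root_.Fermat.Agent.S18.Qb) = coeffMap (Int.castRingHom _root_.Fermat.Agent.S18.Qb) Xi := by
    have h1 : (x : LaurentSeries _root_.Fermat.Agent.S18.Qb) * coeffMap (Int.castRingHom _root_.Fermat.Agent.S18.Qb) Xi = 1 := by
      rw [hX.coe_eq, ← map_mul, hXi, map_one]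
    have h2 : ((x⁻¹ : Om M) : LaurentSeries _root_.Fermat.Agent.S18.Qb) = ((x : Om M) : LaurentSeries _root_.Fermat.Agent.S18.Qb)⁻¹ := rfl
    rw [h2]
    exact (eq_inv_of_mul_eq_one_right h1).symm
  have hXiint : coeffMap (Int.castRingHom ↥A) Xi ∈ intE M A E' :=
    intCast_mem_intE M A E' Xi x⁻¹ (inv_mem G.x_mem) hxi
  have hYi : H216.toOm M A E' ⟨coeffMap (Int.castRingHom ↥A) Xi, hXiint⟩ = x⁻¹ := by
    apply Subtype.ext
    rw [coe_toOm, hxi]
    exact coeffMap_intCast_comp A.subtype Xi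
  have hredYi : redE M A E' ⟨coeffMap (Int.castRingHom ↥A) Xi, hXiint⟩ = (Core.redX A X)⁻¹ := by
    have h1 : Core.redX A X * coeffMap (Int.castRingHom (ResidueField ↥A)) Xi = 1 := by
      show coeffMap (Int.castRingHom (ResidueField ↥A)) X * _ = 1
      rw [← map_mul, hXi, map_one]
    have h2 : redE M A E' ⟨coeffMap (Int.castRingHom ↥A) Xi, hXiint⟩ =
        coeffMap (Int.castRingHom (ResidueField ↥A)) Xi :=
      coeffMap_intCast_comp (residue ↥A) Xi
    rw [h2]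
    exact eq_inv_of_mul_eq_one_right h1
  constructor
  · apply liftAtLevel_anti hEE'
    have h := lift_core hℓ.ne_zero hA G hV hnorm ⟨coeffMap (Int.castRingHom ↥A) X, hXint⟩ hY
    rw [hredY] at h
    exact h
  · apply liftAtLevel_anti hEE'
    have Gi := Fermat.Agent.S18.H425.goodModel_inv G
    have h := lift_core hℓ.ne_zero hA Gi hV hnorm ⟨coeffMap (Int.castRingHom ↥A) Xi, hXiint⟩ hYi
    rw [hredYi] at h
    exact h

end Fermat.Agent.S37.H697

end
end
-- ===== PACK-END S37/H697/LiftLeaf.lean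

-- ===== PACK-BEGIN S37/Core/Inst.lean
section








/-!
# S37 row-lead (helper37): BOARD v3 — all leaves instantiated

* `h1Leaf : Core.H1Leaf`             (D4, helper339 `H339.leaf_H1`)
* `modStatement : Core.ModStatement` (node_mod of row S18, helper216 `S18.Mod.H216.node_mod`)
* `s18Statement : Core.S18Statement` (the frozen S18, `Fermat.Agent.S18.result`)
* `datumStatement`, `rimStatement`   (node_datum, node_rim) from
  `Core.datumLeaf` (D1), `H278.leaf_normalAbs` (D2, helper278), `H697.liftLeaf` (D3, helper697).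
* `specializationExists` : the frozen statement S37;  `rawES` : raw Eichler–Shimura (export for
  rows S29 / S30 / S42), both WITHOUT hypotheses.
-/

set_option autoImplicit false
set_option synthInstance.maxHeartbeats 400000

noncomputable section

namespace Fermat.Agent.S37.Core

open ModularCurve ValuationSubring AlgebraicCurve HahnSeries IsLocalRing

/-- **D4.** -/
theorem h1Leaf : H1Leaf := by
  intro M ℓ _ hℓ hℓM A hA x S hx X hX G hGx hGxk
  exact H339.leaf_H1 M ℓ hℓ hℓM A hA x S hx X hX.coeff_neg_one hX.coe_eq G hGx hGxk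

/-- **node_mod of row S18.** -/
theorem modStatement : ModStatement := by
  intro M ℓ _ hℓ hℓM A hA
  haveI : Fact ℓ.Prime := ⟨hℓ⟩
  exact Fermat.Agent.S18.Mod.H216.node_mod M hℓM A hA

/-- **The frozen S18.** -/
theorem s18Statement : S18Statement := by
  intro M ℓ _ hℓ hℓM A hA h m hm z hmz hz
  haveI : Fact ℓ.Prime := ⟨hℓ⟩
  exact Fermat.Agent.S18.result M hℓM A hA h m hm z hmz hz

/-- **node_datum**: a linked reduction datum with good charts at all good levels. -/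
theorem datumStatement : DatumStatement :=
  datumStatement_of_leaves datumLeaf H278.leaf_normalAbs H697.liftLeaf h1Leaf modStatement

/-- **node_rim**: the place reduction map exists at all good levels. -/
theorem rimStatement : RimStatement :=
  rimStatement_of_datum datumStatement

/-- **The frozen statement S37** (Eichler–Shimura congruence relation, `SpecializationExists`). -/
theorem specializationExists (N p : ℕ) [NeZero N]
    (hcomm : ModularCurve.HeckeOperatorsCommuteBar N) :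
    letI := ModularCurve.heckeModuleBar N
    ∀ (_ : SMulCommClass (AlgebraicClosure ℚ ≃ₐ[ℚ] AlgebraicClosure ℚ) ModularCurve.HeckeAlg
      (ModularCurve.JZero N)),
      ModularCurve.SpecializationExists (K := ℚ) (L := AlgebraicClosure ℚ) N p
        (ModularCurve.JZero N) :=
  result_of_rim_s18 rimStatement s18Statement N p hcomm

/-- **Raw Eichler–Shimura on the `p`-torsion of `J₀(N)`**, without hypotheses: for every prime
`ℓ ∤ N p` and every place `A` of `ℚ̄` over `ℓ`, inertia at `A` acts trivially on `J₀(N)[p]` and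
every Frobenius `σ` at `A` satisfies `σ² - T_ℓ σ + ℓ = 0` on `J₀(N)[p]`. -/
theorem rawES (N : ℕ) [NeZero N] (p : ℕ) (ℓ : ℕ) (hℓ : ℓ.Prime) (hdvd : ¬ ℓ ∣ N * p)
    (A : ValuationSubring (AlgebraicClosure ℚ)) (hA : A.LiesOverPrime ℓ) :
    (∀ σ ∈ A.inertiaSubgroupIn ℚ, ∀ x : JZero N, (p : ℤ) • x = 0 → σ • x = x) ∧
      (∀ σ : AlgebraicClosure ℚ ≃ₐ[ℚ] AlgebraicClosure ℚ, A.IsFrobeniusAt σ ℓ →
        ∀ x : JZero N, (p : ℤ) • x = 0 →
          σ • σ • x - heckeOperatorBar N ⟨ℓ, hℓ⟩ (σ • x) + (ℓ : ℤ) • x = 0) :=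
  rawES_of_rim_s18 rimStatement s18Statement N p ℓ hℓ hdvd A hA

end Fermat.Agent.S37.Core

end
end
-- ===== PACK-END S37/Core/Inst.lean

-- ===== PACK-BEGIN Ribet/H937/GRSurj.lean
section








/-!
# RIBET / WALL-q: (GR-SURJ), torsion lifts along the reduction map of `J₀(N)`   (helper937)

Hidden input of Mazur's principle (memo `origin/helper344:coord/RIBET-GRsurj-helper344.md`,
used by `H158.WallQ.RedMapStatement`): for `ℓ ∤ N`, a valuation subring `A` of `ℚ̄` above `ℓ` and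
`m` prime to `ℓ`, the reduction map `reductionModL A N : J₀(N) → Pic⁰(k(X₀(N)))`, `k = A/𝔪`,
restricts to a BIJECTION on `m`-torsion.

* injective: the frozen S18 (`Fermat.Agent.S18.result`);
* equal finite cardinalities `m^(2g)`: the characteristic-free torsion count of row S27
  (`S27.H386.natCard_torsion_of_ff1`, helper386) on both sides + equality of the genera
  (`A3.GR.H195.genus_eq_modular`, helper195, from the reduction datum `S37.Core.datumStatement`).

## Exact statements (all sorry-free)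
* `natCard_torsion_jZero N m (hm : m ≠ 0)`;
* `natCard_torsion_jZeroC N hℓN A hA m (hm : ¬ ℓ ∣ m)`;
* `reductionTorsion A N m : Pic0.torsion ℚ̄ F_N m →+ Pic0.torsion k F_{N,k} m` (restriction of
  `reductionModL A N`), `reductionTorsion_coe`;
* `reductionTorsion_injective` (S18), `reductionTorsion_bijective_of_genus_eq`,
  `reductionTorsion_bijective` (good levels);
* `grSurj_of_genus_eq`, **`grSurj`** : `m • y = 0 → ∃ x, m • x = 0 ∧ reductionModL A N x = y`;
* `grSurj_unique` : the lift is unique;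
* `grSurjStatement : GRSurjStatement` (all good levels, all `m` prime to `ℓ`, no `h`).
-/

set_option autoImplicit false
set_option synthInstance.maxHeartbeats 400000
set_option linter.style.haveILetI false
set_option linter.unusedSectionVars false

noncomputable section

namespace Fermat.Agent.Ribet.H937

open AlgebraicCurve ModularCurve IsLocalRing

local notation "Qb937" => AlgebraicClosure ℚ

/-- The torsion count of `J₀(N)(ℚ̄)`. -/
theorem natCard_torsion_jZero (N : ℕ) [NeZero N] (m : ℕ) (hm : m ≠ 0) :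
    Nat.card (Pic0.torsion Qb937 (modularFunctionFieldBar N) m) =
      m ^ (2 * genusFF Qb937 (modularFunctionFieldBar N)) := by
  haveI : Fermat.Agent.Lib.RR.FF1 Qb937 (modularFunctionFieldBar N) :=
    Fermat.Agent.Lib.RR.H864.ff1_modularFunctionFieldBar N
  exact Fermat.Agent.S27.H386.natCard_torsion_of_ff1 Qb937 (modularFunctionFieldBar N) m
    (Nat.cast_ne_zero.mpr hm)

/-- The torsion count of `Pic⁰` of the reduction of `X₀(N)` at `ℓ ∤ N`, prime to `ℓ`. -/
theorem natCard_torsion_jZeroC (N : ℕ) [NeZero N] {ℓ : ℕ} [Fact ℓ.Prime] (hℓN : ¬ ℓ ∣ N)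
    (A : ValuationSubring Qb937) (hA : A.LiesOverPrime ℓ) (m : ℕ) (hm : ¬ ℓ ∣ m) :
    Nat.card (Pic0.torsion (ResidueField A) (modularFunctionFieldFullC (ResidueField A) N) m) =
      m ^ (2 * genusFF (ResidueField A) (modularFunctionFieldFullC (ResidueField A) N)) := by
  haveI : IsAlgClosed (ResidueField A) := Fermat.Agent.S18.H9.resAlgClosed Qb937 A
  haveI : Fermat.Agent.Lib.RR.FF1 (ResidueField A)
      (modularFunctionFieldFullC (ResidueField A) N) :=
    Fermat.Agent.S18.H383.ff1_residue N ℓ Fact.out hℓN A hA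
  haveI : CharP (ResidueField A) ℓ := Fermat.Agent.S18.H516.charP_residue A hA
  refine Fermat.Agent.S27.H386.natCard_torsion_of_ff1 (ResidueField A)
    (modularFunctionFieldFullC (ResidueField A) N) m ?_
  rw [Ne, CharP.cast_eq_zero_iff (ResidueField A) ℓ m]
  exact hm

/-- The reduction map sends `m`-torsion to `m`-torsion. -/
theorem reductionModL_mem_torsion (A : ValuationSubring Qb937) (N : ℕ) (m : ℕ)
    {x : JZero N} (hx : x ∈ Pic0.torsion Qb937 (modularFunctionFieldBar N) m) :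
    reductionModL A N x ∈
      Pic0.torsion (ResidueField A) (modularFunctionFieldFullC (ResidueField A) N) m := by
  rw [Pic0.mem_torsion] at hx ⊢
  rw [← map_zsmul, hx, map_zero]

/-- The reduction map on `m`-torsion. -/
def reductionTorsion (A : ValuationSubring Qb937) (N : ℕ) (m : ℕ) :
    Pic0.torsion Qb937 (modularFunctionFieldBar N) m →+
      Pic0.torsion (ResidueField A) (modularFunctionFieldFullC (ResidueField A) N) m :=
  ((reductionModL A N).comp (Pic0.torsion Qb937 (modularFunctionFieldBar N) m).subtype).codRestrict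
    _ fun x => reductionModL_mem_torsion A N m x.2

@[simp]
theorem reductionTorsion_coe (A : ValuationSubring Qb937) (N : ℕ) (m : ℕ)
    (x : Pic0.torsion Qb937 (modularFunctionFieldBar N) m) :
    ((reductionTorsion A N m x : Pic0.torsion (ResidueField A)
        (modularFunctionFieldFullC (ResidueField A) N) m) :
      JZeroC (ResidueField A) N) = reductionModL A N (x : JZero N) :=
  rfl

/-- `m • x = 0` in terms of `Pic0.torsion`. -/
theorem mem_torsion_iff_nsmul {K F : Type*} [Field K] [Field F] [Algebra K F] {m : ℕ}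
    {x : Pic0 K F} : x ∈ Pic0.torsion K F m ↔ m • x = 0 := by
  rw [Pic0.mem_torsion, natCast_zsmul]

/-- **S18 on torsion**: the reduction map is injective on `m`-torsion, `ℓ ∤ m`. -/
theorem reductionTorsion_injective (N : ℕ) [NeZero N] {ℓ : ℕ} [Fact ℓ.Prime] (hℓN : ¬ ℓ ∣ N)
    (A : ValuationSubring Qb937) (hA : A.LiesOverPrime ℓ) (h : ReductionInputsModL A N)
    (m : ℕ) (hm : ¬ ℓ ∣ m) : Function.Injective (reductionTorsion A N m) := by
  rw [injective_iff_map_eq_zero]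
  intro x hx
  have h1 : reductionModL A N (x : JZero N) = 0 := by
    rw [← reductionTorsion_coe, hx]; rfl
  have h2 : m • (x : JZero N) = 0 := mem_torsion_iff_nsmul.mp x.2
  exact Subtype.ext (Fermat.Agent.S18.result N hℓN A hA h m hm (x : JZero N) h2 h1)

/-- The reduction map is bijective on `m`-torsion, given the equality of the genera. -/
theorem reductionTorsion_bijective_of_genus_eq (N : ℕ) [NeZero N] {ℓ : ℕ} [Fact ℓ.Prime]
    (hℓN : ¬ ℓ ∣ N) (A : ValuationSubring Qb937) (hA : A.LiesOverPrime ℓ)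
    (h : ReductionInputsModL A N)
    (hg : genusFF Qb937 (modularFunctionFieldBar N) =
      genusFF (ResidueField A) (modularFunctionFieldFullC (ResidueField A) N))
    (m : ℕ) (hm : ¬ ℓ ∣ m) : Function.Bijective (reductionTorsion A N m) := by
  have hm0 : m ≠ 0 := fun h0 => hm (h0 ▸ dvd_zero ℓ)
  have hc0 := natCard_torsion_jZero N m hm0
  have hc1 := natCard_torsion_jZeroC N hℓN A hA m hm
  haveI : Finite (Pic0.torsion Qb937 (modularFunctionFieldBar N) m) :=
    Nat.finite_of_card_ne_zero (by rw [hc0]; exact pow_ne_zero _ hm0)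
  haveI : Finite (Pic0.torsion (ResidueField A)
      (modularFunctionFieldFullC (ResidueField A) N) m) :=
    Nat.finite_of_card_ne_zero (by rw [hc1]; exact pow_ne_zero _ hm0)
  exact (Nat.bijective_iff_injective_and_card _).mpr
    ⟨reductionTorsion_injective N hℓN A hA h m hm, by rw [hc0, hc1, hg]⟩

/-- **(GR-SURJ)**, given the equality of the genera. -/
theorem grSurj_of_genus_eq (N : ℕ) [NeZero N] {ℓ : ℕ} [Fact ℓ.Prime]
    (hℓN : ¬ ℓ ∣ N) (A : ValuationSubring Qb937) (hA : A.LiesOverPrime ℓ)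
    (h : ReductionInputsModL A N)
    (hg : genusFF Qb937 (modularFunctionFieldBar N) =
      genusFF (ResidueField A) (modularFunctionFieldFullC (ResidueField A) N))
    (m : ℕ) (hm : ¬ ℓ ∣ m) (y : JZeroC (ResidueField A) N) (hy : m • y = 0) :
    ∃ x : JZero N, m • x = 0 ∧ reductionModL A N x = y := by
  obtain ⟨x, hx⟩ := (reductionTorsion_bijective_of_genus_eq N hℓN A hA h hg m hm).2
    ⟨y, mem_torsion_iff_nsmul.mpr hy⟩
  exact ⟨x, mem_torsion_iff_nsmul.mp x.2, congrArg Subtype.val hx⟩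

/-- Equality of the genera of `X₀(N)` over `ℚ̄` and over `A/𝔪` at good levels. -/
theorem genusFF_eq_residue (N : ℕ) [NeZero N] {ℓ : ℕ} [Fact ℓ.Prime] (hℓN : ¬ ℓ ∣ N)
    (hgood : Fermat.Agent.S37.Core.GoodLevel N ℓ)
    (A : ValuationSubring Qb937) (hA : A.LiesOverPrime ℓ) :
    genusFF Qb937 (modularFunctionFieldBar N) =
      genusFF (ResidueField A) (modularFunctionFieldFullC (ResidueField A) N) := by
  obtain ⟨G, hG, -⟩ := Fermat.Agent.S37.Core.datumStatement N ℓ Fact.out hℓN hgood A hA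
  exact Fermat.Agent.A3.GR.H195.genus_eq_modular N ℓ Fact.out hℓN A hA G hG

/-- The reduction map is bijective on `m`-torsion at good levels. -/
theorem reductionTorsion_bijective (N : ℕ) [NeZero N] {ℓ : ℕ} [Fact ℓ.Prime]
    (hℓN : ¬ ℓ ∣ N) (hgood : Fermat.Agent.S37.Core.GoodLevel N ℓ)
    (A : ValuationSubring Qb937) (hA : A.LiesOverPrime ℓ) (m : ℕ) (hm : ¬ ℓ ∣ m) :
    Function.Bijective (reductionTorsion A N m) :=
  reductionTorsion_bijective_of_genus_eq N hℓN A hA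
    (Fermat.Agent.S37.Core.rimStatement N ℓ Fact.out hℓN hgood A hA)
    (genusFF_eq_residue N hℓN hgood A hA) m hm

/-- **(GR-SURJ)** at good levels: every `m`-torsion class of `Pic⁰(k(X₀(N)))`, `ℓ ∤ m`, lifts to
an `m`-torsion point of `J₀(N)`. -/
theorem grSurj (N : ℕ) [NeZero N] {ℓ : ℕ} [Fact ℓ.Prime]
    (hℓN : ¬ ℓ ∣ N) (hgood : Fermat.Agent.S37.Core.GoodLevel N ℓ)
    (A : ValuationSubring Qb937) (hA : A.LiesOverPrime ℓ)
    (m : ℕ) (hm : ¬ ℓ ∣ m) (y : JZeroC (ResidueField A) N) (hy : m • y = 0) :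
    ∃ x : JZero N, m • x = 0 ∧ reductionModL A N x = y :=
  grSurj_of_genus_eq N hℓN A hA
    (Fermat.Agent.S37.Core.rimStatement N ℓ Fact.out hℓN hgood A hA)
    (genusFF_eq_residue N hℓN hgood A hA) m hm y hy

/-- Uniqueness of the torsion lift (S18). -/
theorem grSurj_unique (N : ℕ) [NeZero N] {ℓ : ℕ} [Fact ℓ.Prime]
    (hℓN : ¬ ℓ ∣ N) (A : ValuationSubring Qb937) (hA : A.LiesOverPrime ℓ)
    (h : ReductionInputsModL A N) (m : ℕ) (hm : ¬ ℓ ∣ m) {x x' : JZero N}
    (hx : m • x = 0) (hx' : m • x' = 0) (hxx' : reductionModL A N x = reductionModL A N x') :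
    x = x' := by
  have h1 : reductionModL A N (x - x') = 0 := by rw [map_sub, hxx', sub_self]
  have h2 : m • (x - x') = 0 := by rw [nsmul_sub, hx, hx', sub_self]
  exact sub_eq_zero.mp (Fermat.Agent.S18.result N hℓN A hA h m hm (x - x') h2 h1)

/-- **(GR-SURJ)** as a frozen Prop: at all good levels, for all `m` prime to `ℓ`. -/
def GRSurjStatement : Prop :=
  ∀ (M ℓ : ℕ) [NeZero M], ℓ.Prime → ¬ ℓ ∣ M → Fermat.Agent.S37.Core.GoodLevel M ℓ →
    ∀ A : ValuationSubring Qb937, A.LiesOverPrime ℓ →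
    ∀ m : ℕ, ¬ ℓ ∣ m → ∀ y : JZeroC (ResidueField A) M, m • y = 0 →
      ∃ x : JZero M, m • x = 0 ∧ reductionModL A M x = y

theorem grSurjStatement : GRSurjStatement := by
  intro M ℓ _ hℓ hℓM hgood A hA m hm y hy
  haveI : Fact ℓ.Prime := ⟨hℓ⟩
  exact grSurj M hℓM hgood A hA m hm y hy

end Fermat.Agent.Ribet.H937

end
end
-- ===== PACK-END Ribet/H937/GRSurj.lean

-- ===== PACK-BEGIN Ribet/H523/Q3Spec.lean
section




/-!
# Row 37, WALL-q, leaf (Q3) RED: frozen sub-leaves + PROVED glue   (sub-architect helper523)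

Target: `H158.WallQ.Q3Statement` (a new eigenclass `x ∈ 𝓕 ∖ 𝒮` of `J₀(qM')[p]`, `q ≠ p`, has its
eigensystem at level `M'`).  `k = kA A` (residue field of `A`, `A` over `q`),
`F_k = modularFunctionFieldFullC k M'` (function field of `X₀(M')_k`).

## Route (no `dlog`: the characteristic is `q ≠ p`)
1. **RED-CLASS** (`RedEigenQStatement`): `x` has a Kummer generator `f` (level `qM'`) whose two
   reductions lie in `F_k` with `p ∣ ord_Q` everywhere, and ONE of them, `h`, is not `c·g^p`.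
   `T_ℓ x = a_ℓ x` gives `Nm_α(β f) = c f^{a_ℓ} G^p` (KUMEIG), hence after reduction
   `kronNorm ℓ h = c̄ · h^{a_ℓ} · Ḡ^p` with `Ḡ ∈ F_k` (HECKE-RED + REDFIELD + REDUNIQ; Fricke for
   the `0`-component).  Output: `IsRedEigen p M' S' a h`.
2. **EIGEN-LIFT** (`EigenLiftStatement`): from such an `h` to `OccursIn M' p S'' a`:
   `y := [div h / p] ∈ Pic⁰(F_k)[p]` is nonzero; lift it to `z ∈ J₀(M')[p]` (GR-SURJ); then
   `T_ℓ z - a_ℓ z` is `p`-torsion with reduction `0` (KUM-RED + HECKE-FUN + KRON-FIELD + CONST),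
   hence `0` (S18).
   * good levels (`5 ≤ q` or `2 ∣ M'`): `EigenLiftGoodStatement`, from the leaves
     `GRSurjStatement`, `KumRedStatement`, `KronFieldStatement` (assembly: `Q3Lift.lean`);
   * `q = 3`, `M'` odd: `EigenLiftThreeStatement` (through level `2M'`, see the board).

## Proved here
`q3_of : RedEigenQ → EigenLift → H158.WallQ.Q3Statement`,
`eigenLift_of_cases : EigenLiftGood → EigenLiftThree → EigenLift`.
-/

set_option autoImplicit false
set_option synthInstance.maxHeartbeats 400000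
set_option maxHeartbeats 1000000

noncomputable section

namespace Fermat.Agent.Ribet.H523.Q3

open AlgebraicCurve ModularCurve HahnSeries
open Fermat.Agent.S24 Fermat.Agent.A2.H708 Fermat.Agent.A2.H528
open Fermat.Agent.Ribet.Spec Fermat.Agent.Ribet.H944.Wall Fermat.Agent.Ribet.H884
open Fermat.Agent.Ribet.H158.WallQ
open Fermat.Agent.S37.H400

/-! ## Vocabulary -/

/-- The function-level eigen-relation in characteristic `q ≠ p`:
`kronNorm ℓ h = c · h ^ a · G ^ p` with `c ∈ kˣ`, `G ∈ F_kˣ`. -/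
def KronEigen (p M' : ℕ) {k : Type} [Field k] (ℓ : ℕ) [NeZero ℓ] (a : ℤ)
    (h : modularFunctionFieldFullC k M') : Prop :=
  ∃ (c : k) (G : modularFunctionFieldFullC k M'), c ≠ 0 ∧ G ≠ 0 ∧
    kronNorm ℓ (h : LaurentSeries k) =
      HahnSeries.C c * (h : LaurentSeries k) ^ a * (G : LaurentSeries k) ^ p

/-- `h ∈ F_k` is a Kummer function of a nonzero `p`-torsion eigenclass of `Pic⁰(F_k)`:
`p ∣ div h`, `h` is not a constant times a `p`-th power, and `h` satisfies the eigen-relations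
with eigenvalues `a ℓ` for the primes `ℓ ∉ S`. -/
def IsRedEigen (p M' : ℕ) {k : Type} [Field k] (S : Finset ℕ) (a : ℕ → ℤ)
    (h : modularFunctionFieldFullC k M') : Prop :=
  h ≠ 0 ∧ (∀ Q : Place k (modularFunctionFieldFullC k M'), (p : ℤ) ∣ Q.ord h) ∧
    ¬ PPowSeries p M' (h : LaurentSeries k) ∧
    ∀ (ℓ : ℕ) [NeZero ℓ], ℓ.Prime → ℓ ∉ S → KronEigen p M' ℓ (a ℓ) h

theorem IsRedEigen.mono {p M' : ℕ} {k : Type} [Field k] {S S' : Finset ℕ} {a : ℕ → ℤ}
    {h : modularFunctionFieldFullC k M'} (hSS' : S ⊆ S') (hh : IsRedEigen p M' S a h) :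
    IsRedEigen p M' S' a h :=
  ⟨hh.1, hh.2.1, hh.2.2.1, fun ℓ _ hℓ hℓS => hh.2.2.2 ℓ hℓ (fun hS => hℓS (hSS' hS))⟩

/-! ## Level 1: the two leaves of (Q3) -/

/-- **RED-CLASS.**  A new eigenclass in `𝓕 ∖ 𝒮` produces, on one of the two components, a
reduction `h ∈ F_k` which is a Kummer function of a nonzero eigenclass of `Pic⁰(F_k)[p]`. -/
def RedEigenQStatement : Prop :=
  ∀ (p q M' : ℕ) [NeZero M'] [NeZero q] [NeZero (q * M')], p.Prime → 5 ≤ p → q.Prime →
    q ≠ 2 → q ≠ p → ¬ q ∣ M' →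
    ∀ A : ValuationSubring Kbar, A.LiesOverPrime q →
    ∀ (S : Finset ℕ) (a : ℕ → ℤ), ∀ x ∈ finPartQ p q M' A, x ∉ splitPartQ p q M' A →
      IsNewTorsQ p q M' x → EigenAt (q * M') S a x →
      ∃ (S' : Finset ℕ) (h : modularFunctionFieldFullC (kA A) M'),
        S ⊆ S' ∧ IsRedEigen p M' S' a h

/-- **EIGEN-LIFT.**  A Kummer function of a nonzero eigenclass of `Pic⁰(X₀(M')_k)[p]`
(`char k = q ∤ M'`, `q ≠ p`) gives a nonzero eigenclass of `J₀(M')(ℚ̄)[p]` with the same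
eigenvalues (`p`-torsion lifts to characteristic `0`, Hecke-equivariantly). -/
def EigenLiftStatement : Prop :=
  ∀ (p q M' : ℕ) [NeZero M'], p.Prime → 5 ≤ p → q.Prime → q ≠ 2 → q ≠ p → ¬ q ∣ M' →
    ∀ A : ValuationSubring Kbar, A.LiesOverPrime q →
    ∀ (S : Finset ℕ) (a : ℕ → ℤ) (h : modularFunctionFieldFullC (kA A) M'),
      IsRedEigen p M' S a h → ∃ S' : Finset ℕ, S ⊆ S' ∧ OccursIn M' p S' a

/-- **(Q3) from RED-CLASS and EIGEN-LIFT.** -/
theorem q3_of (h1 : RedEigenQStatement) (h2 : EigenLiftStatement) : Q3Statement := by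
  intro p q M' _ _ _ hp hp5 hq hq2 hqp hqM A hA S a x hx hxS hnew heig
  obtain ⟨S', h, hSS', hh⟩ := h1 p q M' hp hp5 hq hq2 hqp hqM A hA S a x hx hxS hnew heig
  obtain ⟨S'', hS'', hocc⟩ := h2 p q M' hp hp5 hq hq2 hqp hqM A hA S' a h hh
  exact ⟨S'', hSS'.trans hS'', Or.inl hocc⟩

/-! ## Level 2: EIGEN-LIFT by cases on the level -/

/-- EIGEN-LIFT at the good levels (`5 ≤ q`, or `q = 3` and `2 ∣ M'`): the levels at which the
place reduction `ReductionInputsModL A M'` is on main (`S37.Core.rimStatement`). -/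
def EigenLiftGoodStatement : Prop :=
  ∀ (p q M' : ℕ) [NeZero M'], p.Prime → 5 ≤ p → q.Prime → q ≠ 2 → q ≠ p → ¬ q ∣ M' →
    (5 ≤ q ∨ 2 ∣ M') →
    ∀ A : ValuationSubring Kbar, A.LiesOverPrime q →
    ∀ (S : Finset ℕ) (a : ℕ → ℤ) (h : modularFunctionFieldFullC (kA A) M'),
      IsRedEigen p M' S a h → ∃ S' : Finset ℕ, S ⊆ S' ∧ OccursIn M' p S' a

/-- EIGEN-LIFT for `q = 3` and odd `M'` (no good coordinate at level `M'`: go through level
`2M'` and push down with `α_*`). -/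
def EigenLiftThreeStatement : Prop :=
  ∀ (p M' : ℕ) [NeZero M'], p.Prime → 5 ≤ p → ¬ 3 ∣ M' → ¬ 2 ∣ M' →
    ∀ A : ValuationSubring Kbar, A.LiesOverPrime 3 →
    ∀ (S : Finset ℕ) (a : ℕ → ℤ) (h : modularFunctionFieldFullC (kA A) M'),
      IsRedEigen p M' S a h → ∃ S' : Finset ℕ, S ⊆ S' ∧ OccursIn M' p S' a

theorem eigenLift_of_cases (hG : EigenLiftGoodStatement) (hT : EigenLiftThreeStatement) :
    EigenLiftStatement := by
  intro p q M' _ hp hp5 hq hq2 hqp hqM A hA S a h hh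
  by_cases h5 : 5 ≤ q
  · exact hG p q M' hp hp5 hq hq2 hqp hqM (Or.inl h5) A hA S a h hh
  · have hq3 : q = 3 := by
      have h2 := hq.two_le
      have hlt : q < 5 := Nat.lt_of_not_le h5
      interval_cases q
      · exact absurd rfl hq2
      · rfl
      · exact absurd hq (by decide)
    subst hq3
    by_cases h2M : 2 ∣ M'
    · exact hG p 3 M' hp hp5 hq hq2 hqp hqM (Or.inr h2M) A hA S a h hh
    · exact hT p M' hp hp5 hqM h2M A hA S a h hh

/-! ## Level 3: the leaves of EIGEN-LIFT at good levels -/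

/-- **GR-SURJ** (owners helper343 / helper937): at a good level the reduction map is ONTO the
`p`-torsion of `Pic⁰(X₀(M)_k)` (S18 injectivity + the count `#Pic⁰(F_k)[p] = p^{2g}` in
characteristic `q ≠ p` + `g(F_k) = g(F_ℚ̄)`). -/
def GRSurjStatement : Prop :=
  ∀ (p q M : ℕ) [NeZero M], p.Prime → q.Prime → q ≠ 2 → q ≠ p → ¬ q ∣ M → (5 ≤ q ∨ 2 ∣ M) →
    ∀ A : ValuationSubring Kbar, A.LiesOverPrime q →
    ∀ y : JZeroC (kA A) M, p • y = 0 →
      ∃ z : JZero M, p • z = 0 ∧ reductionModL A M z = y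

/-- **KUM-RED**: under `ReductionInputsModL A M`, a Kummer generator reduces to a Kummer function
of the reduced class: if `div f = m·D`, `z = [D]` and `r` is a reduction of `f`, then `r ∈ F_k`
and `div r = m·E` with `[E] = red z`.  (`E = r_* D`; property (R) of the place reduction applied
to integral generators of `div f`, PGI; reductions are unique up to `kˣ`.) -/
def KumRedStatement : Prop :=
  ∀ (q M m : ℕ) [NeZero M], q.Prime → ¬ q ∣ M →
    ∀ A : ValuationSubring Kbar, A.LiesOverPrime q → ReductionInputsModL A M →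
    ∀ (z : JZero M) (f : FF M) (r : LaurentSeries (kA A)),
      IsKummerGen M m f z → IsRedInf M A f r →
      ∃ (g : modularFunctionFieldFullC (kA A) M)
        (E : Divisor.degZero (K := kA A) (F := modularFunctionFieldFullC (kA A) M)),
        (g : LaurentSeries (kA A)) = r ∧ Pic0.mk E = reductionModL A M z ∧
        ∀ Q : Place (kA A) (modularFunctionFieldFullC (kA A) M),
          Q.ord g = (m : ℤ) * (E : Divisor (kA A) (modularFunctionFieldFullC (kA A) M)) Q

/-- **KRON-FIELD**: the formal Kronecker norm `kronNorm ℓ` (`ℓ ∤ M`, `ℓ ≠ q`) preserves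
`F_k = k(X₀(M))`, `k = kA A` of characteristic `q ∤ M`.  (Every `u ∈ F_k` is a quotient of
reductions of `A`-integral functions of level `M`; `kronNorm` commutes with `incl`/`red`
(`coeffMap_kronNorm`), preserves `FF M` (`H884.HeckeFunStatement`), and reductions of functions
of level `M ∣ qM` lie in `F_k` (`H884.RedFieldStatement` at the prime `q`).) -/
def KronFieldStatement : Prop :=
  ∀ (q M : ℕ) [NeZero M], q.Prime → ¬ q ∣ M →
    ∀ A : ValuationSubring Kbar, A.LiesOverPrime q →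
    ∀ (ℓ : ℕ) [NeZero ℓ], ℓ.Prime → ¬ ℓ ∣ M → ℓ ≠ q →
    ∀ u : modularFunctionFieldFullC (kA A) M,
      ∃ v : modularFunctionFieldFullC (kA A) M,
        (v : LaurentSeries (kA A)) = kronNorm ℓ (u : LaurentSeries (kA A))

end Fermat.Agent.Ribet.H523.Q3

end

end
-- ===== PACK-END Ribet/H523/Q3Spec.lean

-- ===== PACK-BEGIN Ribet/H343/GRSurjQ3.lean
section



/-!
# RIBET / WALL-q (Q3), leaf GR-SURJ, VERBATIM (helper343)

`grSurjQ3 : H523.Q3.GRSurjStatement` — the frozen leaf GR-SURJ of the (Q3) board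
`Ribet/H523/Q3Spec.lean` (sub-architect helper523), consumed by
`H523.Q3.eigenLiftGood_of : GRSurj → KumRed → KronField → EigenLiftGood`.

It is the landed `H937.grSurj` (helper937: S18 injectivity + the torsion count of row S27 in
every characteristic + equal genus) at `m = p`, at the good level `5 ≤ q ∨ 2 ∣ M`, `q` odd.
Also `grSurjQ3_pow` (torsion order `p ^ n`) and `goodLevel_of_odd_h343`.
-/

set_option autoImplicit false
set_option synthInstance.maxHeartbeats 400000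

noncomputable section

open AlgebraicCurve ModularCurve IsLocalRing

namespace Fermat.Agent.Ribet.H343

/-- An odd prime `q` with `5 ≤ q ∨ 2 ∣ M` is a good level for `M`. -/
theorem goodLevel_of_odd_h343 {q M : ℕ} (hq : q.Prime) (hq2 : q ≠ 2) (h : 5 ≤ q ∨ 2 ∣ M) :
    Fermat.Agent.S37.Core.GoodLevel M q := by
  rcases Fermat.Agent.S37.Core.prime_cases hq with h2 | h3 | h5
  · exact absurd h2 hq2
  · rcases h with h | h
    · omega
    · exact Or.inr (Or.inl ⟨h3, h⟩)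
  · exact Or.inl h5

/-- **GR-SURJ**, the frozen leaf of the (Q3) board, VERBATIM. -/
theorem grSurjQ3 : Fermat.Agent.Ribet.H523.Q3.GRSurjStatement := by
  intro p q M _ hp hq hq2 hqp hqM hgood A hA y hy
  haveI : Fact q.Prime := ⟨hq⟩
  refine Fermat.Agent.Ribet.H937.grSurj M hqM (goodLevel_of_odd_h343 hq hq2 hgood) A hA p ?_ y hy
  intro hdvd
  exact hqp ((Nat.prime_dvd_prime_iff_eq hq hp).1 hdvd)

/-- **GR-SURJ** for torsion of order `p ^ n` (same hypotheses). -/
theorem grSurjQ3_pow (p n q M : ℕ) [NeZero M] (hp : p.Prime) (hq : q.Prime) (hq2 : q ≠ 2)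
    (hqp : q ≠ p) (hqM : ¬ q ∣ M) (hgood : 5 ≤ q ∨ 2 ∣ M)
    (A : ValuationSubring (AlgebraicClosure ℚ)) (hA : A.LiesOverPrime q)
    (y : JZeroC (ResidueField A) M) (hy : p ^ n • y = 0) :
    ∃ z : JZero M, p ^ n • z = 0 ∧ reductionModL A M z = y := by
  haveI : Fact q.Prime := ⟨hq⟩
  refine Fermat.Agent.Ribet.H937.grSurj M hqM (goodLevel_of_odd_h343 hq hq2 hgood) A hA
    (p ^ n) ?_ y hy
  intro hdvd
  exact hqp ((Nat.prime_dvd_prime_iff_eq hq hp).1 (hq.dvd_of_dvd_pow hdvd))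

end Fermat.Agent.Ribet.H343

end
end
-- ===== PACK-END Ribet/H343/GRSurjQ3.lean

-- ===== PACK-BEGIN Ribet/H523/Q3Red.lean
section






/-!
# Row 37, WALL-q, (Q3) RED, leaf RED-CLASS: PROVED  (helper523)

`redEigenQ : Q3.RedEigenQStatement`, unconditional, from leaves on main:
`H944.I2.kumEig`, `H376.frickeHecke`, `H376.heckeRed`, `H997.redExists`, `H997.redUnique`,
`H997.redField` and the multiplicativity lemmas of `H944/Closed.lean`.

Also `finClosedQ`: `finPartQ = finSetQ` (the set of classes with a Kummer generator of slopes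
`0` is a subgroup).
-/

set_option autoImplicit false
set_option linter.style.haveILetI false
set_option linter.unusedSectionVars false
set_option synthInstance.maxHeartbeats 400000
set_option maxHeartbeats 1000000

noncomputable section

namespace Fermat.Agent.Ribet.H523.Q3

open AlgebraicCurve ModularCurve HahnSeries
open Fermat.Agent.S24 Fermat.Agent.A2.H708 Fermat.Agent.A2.H528
open Fermat.Agent.Ribet.Spec Fermat.Agent.Ribet.H944.Wall Fermat.Agent.Ribet.H884
open Fermat.Agent.Ribet.H158.WallQ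
open Fermat.Agent.Ribet.H944.I2

/-! ## `finSetQ` is a subgroup -/

section Closed

variable (p q M' : ℕ) [NeZero (q * M')] (A : ValuationSubring Kbar)

theorem finGenQ_one : FinGenQ p q M' A (1 : FF (q * M')) :=
  ⟨1, 1, _root_.Fermat.Agent.Ribet.H944.I2.isRedInf_one _ A, by
    show IsRedInf (q * M') A (wF (q * M') 1) 1
    rw [map_one]; exact _root_.Fermat.Agent.Ribet.H944.I2.isRedInf_one _ A, _root_.Fermat.Agent.Ribet.H944.I2.pDivSeries_one p M', _root_.Fermat.Agent.Ribet.H944.I2.pDivSeries_one p M'⟩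

theorem finGenQ_mul {f g : FF (q * M')} (hf : FinGenQ p q M' A f) (hg : FinGenQ p q M' A g) :
    FinGenQ p q M' A (f * g) := by
  obtain ⟨r₁, r₂, h1, h2, h3, h4⟩ := hf
  obtain ⟨s₁, s₂, k1, k2, k3, k4⟩ := hg
  refine ⟨r₁ * s₁, r₂ * s₂, isRedInf_mul _ A h1 k1, ?_, pDivSeries_mul p M' h3 k3,
    pDivSeries_mul p M' h4 k4⟩
  show IsRedInf (q * M') A (wF (q * M') (f * g)) (r₂ * s₂)
  rw [map_mul]
  exact isRedInf_mul _ A h2 k2

theorem finGenQ_inv {f : FF (q * M')} (hf : FinGenQ p q M' A f) : FinGenQ p q M' A f⁻¹ := by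
  obtain ⟨r₁, r₂, h1, h2, h3, h4⟩ := hf
  refine ⟨r₁⁻¹, r₂⁻¹, isRedInf_inv _ A h1, ?_, pDivSeries_inv p M' h3, pDivSeries_inv p M' h4⟩
  show IsRedInf (q * M') A (wF (q * M') f⁻¹) r₂⁻¹
  rw [map_inv₀]
  exact isRedInf_inv _ A h2

/-- **CLOSED-q**: every element of `finPartQ` has a Kummer generator of slopes `0`. -/
theorem finClosedQ {x : JZero (q * M')} (hx : x ∈ finPartQ p q M' A) :
    x ∈ finSetQ p q M' A := by
  unfold finPartQ at hx
  induction hx using AddSubgroup.closure_induction with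
  | mem x hx => exact hx
  | zero => exact ⟨1, _root_.Fermat.Agent.Ribet.H944.I2.isKummerGen_one _ p, finGenQ_one p q M' A⟩
  | add x y _ _ hx hy =>
    obtain ⟨f, hf, hf'⟩ := hx
    obtain ⟨g, hg, hg'⟩ := hy
    exact ⟨f * g, isKummerGen_mul _ p hf hg, finGenQ_mul p q M' A hf' hg'⟩
  | neg x _ hx =>
    obtain ⟨f, hf, hf'⟩ := hx
    exact ⟨f⁻¹, isKummerGen_inv _ p hf, finGenQ_inv p q M' A hf'⟩

end Closed

/-! ## RED-CLASS -/

/-- **RED-CLASS**, unconditional. -/
theorem redEigenQ : RedEigenQStatement := by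
  intro p q M' _ _ _ hp _ hq _ hqp hqM A hA S a x hx hxS _ heig
  obtain ⟨f, hfK, r₁, r₂, hr1, hr2, hP1, hP2⟩ := finClosedQ p q M' A hx
  have hns : ¬ (PPowSeries p M' r₁ ∧ PPowSeries p M' r₂) := by
    rintro ⟨h1, h2⟩
    exact hxS (AddSubgroup.subset_closure ⟨f, hfK, r₁, r₂, hr1, hr2, h1, h2⟩)
  have hKf : ∀ (ℓ : ℕ) [NeZero ℓ], ℓ.Prime → ℓ ∉ S → ¬ ℓ ∣ q * M' →
      KummerEigen (q * M') p ℓ (a ℓ) f :=
    fun ℓ _ hℓ hℓS hℓN => kumEig (q * M') p hp.ne_zero S a x f hfK heig ℓ hℓ hℓS hℓN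
  -- the main step, for a pair `(F, r)`
  have key : ∀ (F : FF (q * M')) (r : LaurentSeries (kA A)), IsRedInf (q * M') A F r →
      PDivSeries p M' r → ¬ PPowSeries p M' r →
      (∀ (ℓ : ℕ) [NeZero ℓ], ℓ.Prime → ℓ ∉ S → ¬ ℓ ∣ q * M' →
        KummerEigen (q * M') p ℓ (a ℓ) F) →
      ∃ (S' : Finset ℕ) (h : modularFunctionFieldFullC (kA A) M'),
        S ⊆ S' ∧ IsRedEigen p M' S' a h := by
    intro F r hFr hPr hsr hKF
    obtain ⟨h, hh, h0, hdiv⟩ := hPr
    refine ⟨S ∪ (q * M').primeFactors, h, Finset.subset_union_left, h0, hdiv,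
      by rw [hh]; exact hsr, ?_⟩
    intro ℓ _ hℓ hℓS'
    have hℓS : ℓ ∉ S := fun e => hℓS' (Finset.mem_union_left _ e)
    have hℓN : ¬ ℓ ∣ q * M' := fun hd =>
      hℓS' (Finset.mem_union_right _ (Nat.mem_primeFactors.mpr ⟨hℓ, hd, NeZero.ne _⟩))
    obtain ⟨c, G, hc, hG, hN⟩ := hKF ℓ hℓ hℓS hℓN
    have h1 : IsRedInf (q * M') A (hNorm (q * M') ℓ F) (Fermat.Agent.S37.H697.knorm ℓ r) :=
      Fermat.Agent.Ribet.H376.heckeRed (q * M') ℓ hℓ hℓN A F r hFr
    obtain ⟨rG, hrG⟩ := (Fermat.Agent.Ribet.H997.redExists q (q * M') hq A hA G hG).1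
    have h2 : IsRedInf (q * M') A (hNorm (q * M') ℓ F) (1 * r ^ (a ℓ) * rG ^ p) := by
      rw [hN]
      exact isRedInf_mul _ A (isRedInf_mul _ A (isRedInf_const _ A hc)
        (isRedInf_zpow _ A hFr (a ℓ))) (isRedInf_pow _ A hrG p)
    obtain ⟨-, cb, hcb, hEq⟩ :=
      Fermat.Agent.Ribet.H997.redUnique q (q * M') hq A hA _ _ _ h2 h1
    have hrG0 : rG ≠ 0 := (isRedInf_ne_zero _ A hrG).2
    obtain ⟨Gk, hGk⟩ :=
      Fermat.Agent.Ribet.H997.redField q M' hq hqM A hA G rG (Or.inl hrG)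
    refine ⟨cb, Gk, hcb, fun e => hrG0 (by rw [← hGk, e]; rfl), ?_⟩
    rw [← Fermat.Agent.Ribet.H376.knorm_eq_kronNorm, hh, hGk, hEq, one_mul, mul_assoc]
  by_cases hs1 : PPowSeries p M' r₁
  · have hs2 : ¬ PPowSeries p M' r₂ := fun h2 => hns ⟨hs1, h2⟩
    exact key (wF (q * M') f) r₂ hr2 hP2 hs2
      (fun ℓ _ hℓ hℓS hℓN =>
        (hKf ℓ hℓ hℓS hℓN).fricke Fermat.Agent.Ribet.H376.frickeHecke hℓ hℓN)
  · exact key f r₁ hr1 hP1 hs1 hKf

end Fermat.Agent.Ribet.H523.Q3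

end

end
-- ===== PACK-END Ribet/H523/Q3Red.lean

-- ===== PACK-BEGIN Ribet/H579/RedDiv.lean
section







/-!
# Row 37, WALL-q, (Q3) TORS-LIFT core: RED-DIV (helper579)

The reduction of FUNCTIONS (`H884.IsRedInf`: reduction of `q`-expansions, Gauss norm) and the
reduction of PLACES (`placeReductionModL`, the map behind `reductionModL`, rows S18 / S37) are
compatible: at a level `N` with `ReductionInputsModL A N`,

* `redDiv` : if `r` is a reduction of `f ∈ FF N`, then `r ∈ k(X₀(N))` and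
  `div r = (placeReductionModL hR)_* (div f)`;
* `redDiv_kummer` : if `f` is a Kummer generator of `z ∈ J₀(N)` (`div f = m·D`, `z = [D]`) with
  reduction `r`, then `r` is a Kummer generator of `reductionModL A N z` (`div r = m·D̄`,
  `reductionModL A N z = [D̄]`).

No hypothesis on the residue characteristic beyond `ReductionInputsModL A N`.
-/

set_option autoImplicit false
set_option linter.style.haveILetI false
set_option linter.unusedSectionVars false
set_option synthInstance.maxHeartbeats 400000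
set_option maxHeartbeats 1000000

noncomputable section

namespace Fermat.Agent.Ribet.H579

open AlgebraicCurve ModularCurve HahnSeries
open Fermat.Agent.S24 Fermat.Agent.A2.H708 Fermat.Agent.A2.H528
open Fermat.Agent.Ribet.H884

section RedDiv

variable {N : ℕ} [NeZero N] {A : ValuationSubring Kbar}

/-- The predicate propagated along the closure of the integral principal divisors. -/
def RedDivGood (hR : ReductionInputsModL A N) (E : Divisor Kbar (FF N)) : Prop :=
  ∃ (f : FF N) (g : modularFunctionFieldFullC (kA A) N), g ≠ 0 ∧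
    IsRedInf N A f (g : LaurentSeries (kA A)) ∧ (∀ P, E P = P.ord f) ∧
    ∀ Q, Finsupp.mapDomain (placeReductionModL hR) E Q = Q.ord g

theorem redDivGood_of_mem_closure (hR : ReductionInputsModL A N) {E : Divisor Kbar (FF N)}
    (hE : E ∈ AddSubgroup.closure (integralPrincipalDivisors A (IsLocalRing.residue A) N)) :
    RedDivGood hR E := by
  induction hE using AddSubgroup.closure_induction with
  | mem E hE =>
    obtain ⟨y, hy, hyk, hne, hEy⟩ := hE
    refine ⟨⟨coeffMap A.subtype y, hy⟩, ⟨coeffMap (IsLocalRing.residue A) y, hyk⟩,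
      fun h => hne (congrArg Subtype.val h), ?_, hEy, fun Q => ?_⟩
    · refine ⟨1, y, 1, one_ne_zero, hne, ?_, ?_, ?_⟩
      · rw [map_one]; exact one_ne_zero
      · rw [map_one, mul_one, cst_one, one_mul]
      · rw [map_one, mul_one]
    · exact (isPlaceReductionModL_placeReductionModL hR).2 y hy hyk hne E hEy Q
  | zero =>
    refine ⟨1, 1, one_ne_zero, H944.I2.isRedInf_one N A, fun P => ?_, fun Q => ?_⟩
    · rw [Place.ord_one]; rfl
    · rw [Finsupp.mapDomain_zero, Place.ord_one]; rfl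
  | add E E' _ _ hE hE' =>
    obtain ⟨f, g, hg, hfg, hEf, hEg⟩ := hE
    obtain ⟨f', g', hg', hfg', hEf', hEg'⟩ := hE'
    have hf0 : f ≠ 0 := H997.ne_zero_of_isRedInf hfg
    have hf0' : f' ≠ 0 := H997.ne_zero_of_isRedInf hfg'
    refine ⟨f * f', g * g', mul_ne_zero hg hg', H944.I2.isRedInf_mul N A hfg hfg',
      fun P => ?_, fun Q => ?_⟩
    · rw [Place.ord_mul P hf0 hf0', Finsupp.add_apply, hEf, hEf']
    · rw [Finsupp.mapDomain_add, Finsupp.add_apply, hEg, hEg', Place.ord_mul Q hg hg']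
  | neg E _ hE =>
    obtain ⟨f, g, hg, hfg, hEf, hEg⟩ := hE
    refine ⟨f⁻¹, g⁻¹, inv_ne_zero hg, H944.I2.isRedInf_inv N A hfg, fun P => ?_, fun Q => ?_⟩
    · rw [Place.ord_inv, Finsupp.neg_apply, hEf]
    · rw [Place.ord_inv, ← hEg, ← Finsupp.mapDomain.addMonoidHom_apply, map_neg,
        Finsupp.mapDomain.addMonoidHom_apply, Finsupp.neg_apply]

/-- The constants of `k(X₀(N))` as series. -/
theorem coe_algebraMap_fullC {k : Type*} [Field k] (M : ℕ) (c : k) :
    ((algebraMap k (modularFunctionFieldFullC k M) c : modularFunctionFieldFullC k M) :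
      LaurentSeries k) = HahnSeries.C c := by
  have h0 : ((algebraMap k (modularFunctionFieldFullC k M) c : modularFunctionFieldFullC k M) :
      LaurentSeries k) = algebraMap k (LaurentSeries k) c := rfl
  have h1 : algebraMap k (PowerSeries k) c = PowerSeries.C c := by simp
  rw [h0, HahnSeries.algebraMap_apply', h1, HahnSeries.ofPowerSeries_C]

/-- Two functions of level `N` with the same divisor differ by a nonzero constant. -/
theorem exists_const_of_ord_eq {f f' : FF N} (hf : f ≠ 0) (hf' : f' ≠ 0)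
    (h : ∀ P : Place Kbar (FF N), P.ord f = P.ord f') :
    ∃ c : Kbar, c ≠ 0 ∧ f = algebraMap Kbar (FF N) c * f' := by
  haveI : Lib.RR.FF1 Kbar (FF N) := Lib.RR.H804.ff1_modular (N := N)
  obtain ⟨x, hx, hfin⟩ := (inferInstance : Lib.RR.FF1 Kbar (FF N)).exists_finite
  haveI := hfin
  have h0 : ∀ P : Place Kbar (FF N), P.ord (f * f'⁻¹) = 0 := fun P => by
    rw [Place.ord_mul P hf (inv_ne_zero hf'), Place.ord_inv, h P]
    ring
  obtain ⟨c, hc⟩ := Lib.RR.H383.eq_algebraMap_of_forall_ord_eq_zero hx h0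
  refine ⟨c, ?_, ?_⟩
  · rintro rfl
    rw [map_zero] at hc
    exact mul_ne_zero hf (inv_ne_zero hf') hc.symm
  · rw [hc]
    field_simp

/-- **RED-DIV**: a reduction `r` of `f ∈ FF N` lies in `k(X₀(N))`, and its divisor is the image
of the divisor of `f` under the reduction of places. -/
theorem redDiv (hR : ReductionInputsModL A N) {f : FF N} {r : LaurentSeries (kA A)}
    (hf : IsRedInf N A f r) (D : Divisor Kbar (FF N)) (hD : ∀ P, D P = P.ord f) :
    ∃ g : modularFunctionFieldFullC (kA A) N, (g : LaurentSeries (kA A)) = r ∧ g ≠ 0 ∧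
      ∀ Q, Finsupp.mapDomain (placeReductionModL hR) D Q = Q.ord g := by
  have hf0 : f ≠ 0 := H997.ne_zero_of_isRedInf hf
  have hprin : D ∈ Divisor.principal (K := Kbar) (F := FF N) :=
    Divisor.mem_principal.mpr ⟨f, hf0, hD⟩
  have hcl := hR.choose_spec.2 hprin
  obtain ⟨f', g', hg', hfg', hDf', hDg'⟩ := redDivGood_of_mem_closure hR hcl
  have hf0' : f' ≠ 0 := H997.ne_zero_of_isRedInf hfg'
  obtain ⟨c, hc, hfc⟩ := exists_const_of_ord_eq hf0 hf0' (fun P => by rw [← hD, hDf'])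
  have h1 : IsRedInf N A f (1 * (g' : LaurentSeries (kA A))) := by
    rw [hfc]
    exact H944.I2.isRedInf_mul N A (H944.I2.isRedInf_const N A hc) hfg'
  obtain ⟨u, hu, hru⟩ := H997.isRedInf_unique h1 hf
  rw [one_mul] at hru
  refine ⟨algebraMap (kA A) (modularFunctionFieldFullC (kA A) N) u * g', ?_, ?_, fun Q => ?_⟩
  · rw [hru, IntermediateField.coe_mul, coe_algebraMap_fullC]
  · refine mul_ne_zero ?_ hg'
    intro h0
    apply hu
    exact (algebraMap (kA A) (modularFunctionFieldFullC (kA A) N)).injective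
      (by rw [h0, map_zero])
  · have hu0 : algebraMap (kA A) (modularFunctionFieldFullC (kA A) N) u ≠ 0 := by
      intro h0
      apply hu
      exact (algebraMap (kA A) (modularFunctionFieldFullC (kA A) N)).injective
        (by rw [h0, map_zero])
    rw [Place.ord_mul Q hu0 hg', Lib.RR.ord_algebraMap, zero_add]
    exact hDg' Q

end RedDiv

end Fermat.Agent.Ribet.H579

end

end
-- ===== PACK-END Ribet/H579/RedDiv.lean

-- ===== PACK-BEGIN Ribet/H579/KumRed.lean
section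



/-!
# Row 37, WALL-q, (Q3) leaf KUM-RED (helper579)

`kumRed : H523.Q3.KumRedStatement` VERBATIM, from `redDiv` (`Ribet/H579/RedDiv.lean`): a Kummer
generator `f` of `z ∈ J₀(M)` (`div f = m·D`, `z = [D]`) with reduction `r` gives `r ∈ k(X₀(M))`
with `div r = m·r_*(D)` and `[r_* D] = reductionModL A M z`.
-/

set_option autoImplicit false
set_option linter.style.haveILetI false
set_option linter.unusedSectionVars false
set_option synthInstance.maxHeartbeats 400000
set_option maxHeartbeats 1000000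

noncomputable section

namespace Fermat.Agent.Ribet.H579

open AlgebraicCurve ModularCurve HahnSeries
open Fermat.Agent.S24 Fermat.Agent.A2.H708 Fermat.Agent.A2.H528
open Fermat.Agent.Ribet.H884

/-- **KUM-RED**, elementwise (any modulus `m`, no hypothesis on the residue characteristic beyond
`ReductionInputsModL A M`). -/
theorem kumRed_of_inputs {M : ℕ} [NeZero M] {A : ValuationSubring Kbar}
    (hR : ReductionInputsModL A M) {m : ℕ} {z : JZero M} {f : FF M}
    {r : LaurentSeries (kA A)} (hfK : IsKummerGen M m f z) (hr : IsRedInf M A f r) :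
    ∃ (g : modularFunctionFieldFullC (kA A) M)
      (E : Divisor.degZero (K := kA A) (F := modularFunctionFieldFullC (kA A) M)),
      (g : LaurentSeries (kA A)) = r ∧ g ≠ 0 ∧ Pic0.mk E = reductionModL A M z ∧
      ∀ Q : Place (kA A) (modularFunctionFieldFullC (kA A) M),
        Q.ord g = (m : ℤ) * (E : Divisor (kA A) (modularFunctionFieldFullC (kA A) M)) Q := by
  obtain ⟨hf0, D, rfl, hD⟩ := hfK
  obtain ⟨g, hg, hg0, hgE⟩ := redDiv hR hr ((m : ℤ) • (D : Divisor Kbar (FF M)))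
    (fun P => by rw [Finsupp.smul_apply, smul_eq_mul, hD])
  refine ⟨g, reductionDegZeroAlong (placeReductionModL hR)
    (isPlaceReductionModL_placeReductionModL hR).1 D, hg, hg0, (reductionModL_mk hR D).symm,
    fun Q => ?_⟩
  rw [← hgE Q, Finsupp.mapDomain_smul, Finsupp.smul_apply, smul_eq_mul,
    coe_reductionDegZeroAlong]

/-- **KUM-RED** (`H523.Q3.KumRedStatement`, verbatim). -/
theorem kumRed : H523.Q3.KumRedStatement := by
  intro q M m _ _ _ A _ hR z f r hfK hr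
  obtain ⟨g, E, hg, -, hE, hord⟩ := kumRed_of_inputs hR hfK hr
  exact ⟨g, E, hg, hE, hord⟩

end Fermat.Agent.Ribet.H579

end

end
-- ===== PACK-END Ribet/H579/KumRed.lean

-- ===== PACK-BEGIN Ribet/H924/GaussTower.lean
section





/-!
# Row 37, WALL-q, leaf (Q3) EIGEN-LIFT-3 (helper924): the Gauss valuation rings in the tower
# `F_M ⊆ F_{Mℓ}` at a residue characteristic `q ∤ Mℓ`

`V_M = modO` (S37 `Red/ModG`), `ρ_M = modρ : V_M ↠ k(X₀(M))`.  For a prime `ℓ ∤ M` and the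
inclusion `α : F_M → F_{Mℓ}`:

* `alpha_mem_modO`, `modρ_alpha` : `α (V_M) ⊆ V_{Mℓ}` and `ρ_{Mℓ} ∘ α = incl ∘ ρ_M`;
* `valExtends_alpha`            : `V_{Mℓ} ∩ F_M = V_M`;
* `finrank_alpha_eq`            : `[F_{Mℓ} : F_M] = ℓ + 1 = [k(X₀(Mℓ)) : k(X₀(M))]`;
* `norm_red_alpha`              : for `y ∈ V_{Mℓ}`: `N_α y ∈ V_M` and
                                  `ρ_M (N_α y) = N_{k(X₀(Mℓ))/k(X₀(M))} (ρ_{Mℓ} y)`.
-/

set_option autoImplicit false
set_option linter.style.haveILetI false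
set_option linter.unusedSectionVars false
set_option synthInstance.maxHeartbeats 400000
set_option maxHeartbeats 1600000

noncomputable section

namespace Fermat.Agent.Ribet.H924

open AlgebraicCurve ModularCurve HahnSeries IsLocalRing
open Fermat.Agent.S37.Red (Qb FN FNk ModVG modO modρ modFrac)
open Fermat.Agent.S37.H217 (ValExtends)

section Tower

variable (M ℓ : ℕ) [NeZero M] [NeZero ℓ] (A : ValuationSubring Qb)

/-- the residue field -/
abbrev kk : Type := ResidueField A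

/-- the inclusion `k(X₀(M)) → k(X₀(Mℓ))` -/
def inclK : FNk A M →ₐ[kk A] FNk A (M * ℓ) :=
  IntermediateField.inclusion (full_degeneracyC_le (kk A) (dvd_mul_right M ℓ))

@[simp] theorem coe_inclK (x : FNk A M) :
    ((inclK M ℓ A x : FNk A (M * ℓ)) : LaurentSeries (kk A)) = (x : LaurentSeries (kk A)) :=
  IntermediateField.coe_inclusion _ x

/-- the inclusion `F_M → F_{Mℓ}` -/
abbrev alphaQ : FN M →ₐ[Qb] FN (M * ℓ) := heckeAlphaBar Qb M ℓ

variable {M ℓ A}

/-- integral series of level `M` are integral series of level `Mℓ`, with the same reduction -/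
theorem alpha_isIntQ {a : FN M}
    (ha : Fermat.Agent.S37.H940.IsIntQ A (residue A) (modularFunctionFieldBar M)
      (modularFunctionFieldFullC (kk A) M) a) :
    Fermat.Agent.S37.H940.IsIntQ A (residue A) (modularFunctionFieldBar (M * ℓ))
      (modularFunctionFieldFullC (kk A) (M * ℓ)) (alphaQ M ℓ a) := by
  obtain ⟨y, hy, hyk⟩ := ha
  refine ⟨y, ?_, full_degeneracyC_le (kk A) (dvd_mul_right M ℓ) hyk⟩
  rw [hy]
  exact (coe_heckeAlphaBar M ℓ a).symm

/-- `α` on integral series -/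
def alphaO (a : (modFrac M A).O) : (modFrac (M * ℓ) A).O :=
  ⟨alphaQ M ℓ (a : FN M), alpha_isIntQ a.2⟩

@[simp] theorem coe_alphaO (a : (modFrac M A).O) :
    ((alphaO (ℓ := ℓ) a : (modFrac (M * ℓ) A).O) : FN (M * ℓ)) = alphaQ M ℓ (a : FN M) := rfl

theorem ρ₀_alphaO (a : (modFrac M A).O) :
    (modFrac (M * ℓ) A).ρ₀ (alphaO (ℓ := ℓ) a) = inclK M ℓ A ((modFrac M A).ρ₀ a) := by
  obtain ⟨y, hy, hyk⟩ := a.2
  apply Subtype.ext
  rw [coe_inclK]
  have h1 := Fermat.Agent.S37.H940.coe_redQ A (residue A) (modularFunctionFieldBar M)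
    (modularFunctionFieldFullC (kk A) M) a (y := y) hy
  have h2 := Fermat.Agent.S37.H940.coe_redQ A (residue A) (modularFunctionFieldBar (M * ℓ))
    (modularFunctionFieldFullC (kk A) (M * ℓ)) (alphaO (ℓ := ℓ) a) (y := y)
    (by rw [hy]; exact (coe_heckeAlphaBar M ℓ (a : FN M)).symm)
  exact h2.trans h1.symm

variable (hVG₀ : ModVG M A) (hVG₁ : ModVG (M * ℓ) A)

include hVG₀ hVG₁ in
/-- `α (V_M) ⊆ V_{Mℓ}` and `ρ ∘ α = incl ∘ ρ`. -/
theorem modρ_alpha (g : modO hVG₀) :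
    ∃ hg : alphaQ M ℓ (g : FN M) ∈ modO hVG₁,
      modρ hVG₁ ⟨_, hg⟩ = inclK M ℓ A (modρ hVG₀ g) := by
  obtain ⟨a, b, hb, hab⟩ := (g.2 : (modFrac M A).IsFrac g)
  have hb' : (modFrac (M * ℓ) A).ρ₀ (alphaO (ℓ := ℓ) b) ≠ 0 := by
    rw [ρ₀_alphaO]
    intro h0
    exact hb ((map_eq_zero_iff _ (inclK M ℓ A).injective).mp h0)
  have hab' : alphaQ M ℓ (g : FN M) * ((alphaO (ℓ := ℓ) b : (modFrac (M * ℓ) A).O) : FN (M * ℓ))
      = ((alphaO (ℓ := ℓ) a : (modFrac (M * ℓ) A).O) : FN (M * ℓ)) := by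
    rw [coe_alphaO, coe_alphaO, ← map_mul, hab]
  have hmem : alphaQ M ℓ (g : FN M) ∈ modO hVG₁ := ⟨alphaO a, alphaO b, hb', hab'⟩
  refine ⟨hmem, ?_⟩
  have e1 : modρ hVG₁ ⟨_, hmem⟩
      = (modFrac (M * ℓ) A).ρ₀ (alphaO (ℓ := ℓ) a) / (modFrac (M * ℓ) A).ρ₀ (alphaO (ℓ := ℓ) b) :=
    (modFrac (M * ℓ) A).ρ_apply ⟨_, hmem⟩ hb' hab'
  have e2 : modρ hVG₀ g = (modFrac M A).ρ₀ a / (modFrac M A).ρ₀ b :=
    (modFrac M A).ρ_apply g hb hab
  rw [e1, e2, ρ₀_alphaO, ρ₀_alphaO, map_div₀]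

/-- the kernel of `ρ` is the maximal ideal -/
theorem modρ_eq_zero_iff {N : ℕ} [NeZero N] (hVG : ModVG N A) (z : modO hVG) :
    modρ hVG z = 0 ↔ (z : FN N) ∈ (modO hVG).nonunits := by
  have hmax := IsLocalRing.eq_maximalIdeal
    (RingHom.ker_isMaximal_of_surjective (modρ hVG) (Fermat.Agent.S37.Red.modρ_surjective hVG))
  rw [ValuationSubring.coe_mem_nonunits_iff, ← hmax, RingHom.mem_ker]

include hVG₀ hVG₁ in
/-- `V_{Mℓ} ∩ F_M = V_M`. -/
theorem alpha_mem_modO_iff (g : FN M) : alphaQ M ℓ g ∈ modO hVG₁ ↔ g ∈ modO hVG₀ := by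
  constructor
  · intro hg
    by_contra hng
    have hg0 : g ≠ 0 := fun h => hng (h ▸ (modO hVG₀).zero_mem)
    have hinv : g⁻¹ ∈ modO hVG₀ := ((modO hVG₀).mem_or_inv_mem g).resolve_left hng
    have hnon : g⁻¹ ∈ (modO hVG₀).nonunits :=
      (modO hVG₀).inv_mem_nonunits_iff.mpr (Or.inr hng)
    have h0 : modρ hVG₀ ⟨g⁻¹, hinv⟩ = 0 := (modρ_eq_zero_iff hVG₀ ⟨g⁻¹, hinv⟩).mpr hnon
    obtain ⟨hmem, hρ⟩ := modρ_alpha hVG₀ hVG₁ ⟨g⁻¹, hinv⟩
    rw [h0, map_zero] at hρ
    have h1 : modρ hVG₁ (⟨alphaQ M ℓ g, hg⟩ * ⟨alphaQ M ℓ g⁻¹, hmem⟩) = 0 := by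
      rw [map_mul, hρ, mul_zero]
    have h2 : (⟨alphaQ M ℓ g, hg⟩ * ⟨alphaQ M ℓ g⁻¹, hmem⟩ : modO hVG₁) = 1 := by
      apply Subtype.ext
      show alphaQ M ℓ g * alphaQ M ℓ g⁻¹ = 1
      rw [← map_mul, mul_inv_cancel₀ hg0, map_one]
    rw [h2, map_one] at h1
    exact one_ne_zero h1
  · intro hg
    exact (modρ_alpha hVG₀ hVG₁ ⟨g, hg⟩).1

end Tower

end Fermat.Agent.Ribet.H924

end
end
-- ===== PACK-END Ribet/H924/GaussTower.lean

-- ===== PACK-BEGIN Ribet/H924/NormRed.lean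
section





/-!
# Row 37, WALL-q, leaf (Q3) EIGEN-LIFT-3 (helper924): NORM-RED

Norms along `α : F_M → F_{Mℓ}` commute with reduction at a prime `q ∤ Mℓ`:

* `norm_red_alpha`  : for `y` in the Gauss valuation ring `V_{Mℓ}`: `N_α y ∈ V_M` and
                      `ρ_M (N_α y) = N_{k(X₀(Mℓ))/k(X₀(M))} (ρ_{Mℓ} y)`;
* `isRedSer_of_modO`: `ρ v` is a reduction (`IsRedSer`) of `v ∈ V`, `ρ v ≠ 0`;
* `normRed_alpha`   : if `r` is a reduction of `f ∈ F_{Mℓ}` then `r ∈ k(X₀(Mℓ))` and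
                      `N (r)` is a reduction of `N_α f`;
* `normRed_kummer`, `normRed_kummer_to` : the consumer form for Kummer functions
                      (`r = c · h₀ · u ^ p` with `h₀` of level `M`).
-/

set_option autoImplicit false
set_option linter.style.haveILetI false
set_option linter.unusedSectionVars false
set_option synthInstance.maxHeartbeats 400000
set_option maxHeartbeats 1600000

noncomputable section

namespace Fermat.Agent.Ribet.H924

open AlgebraicCurve ModularCurve HahnSeries IsLocalRing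
open Fermat.Agent.A2.H708
open Fermat.Agent.S37.Red (Qb FN FNk ModVG modO modρ modFrac)
open Fermat.Agent.S37.H217 (ValExtends)
open Fermat.Agent.Ribet.H997 (IsRedSer)
open Fermat.Agent.S29.H395 (normAlong)

/-- the value-group hypothesis at every level prime to the residue characteristic -/
theorem modVG_of_prime {N q : ℕ} [NeZero N] (hq : q.Prime) (hqN : ¬ q ∣ N)
    {A : ValuationSubring Qb} (hA : A.LiesOverPrime q) : ModVG N A :=
  Fermat.Agent.S37.H568.valueGroupHyp_modular (N := N) (A := A)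
    (Fermat.Agent.S37.H98.coreData_residueField N q hq hqN A hA)

/-- primes dividing a level prime to `q` are invertible in the residue field -/
theorem natCast_ne_zero_kk {N q : ℕ} (hq : q.Prime) (hqN : ¬ q ∣ N)
    {A : ValuationSubring Qb} (hA : A.LiesOverPrime q) (r : ℕ) (hr : r.Prime) (hrN : r ∣ N) :
    ((r : ℕ) : kk A) ≠ 0 := by
  haveI : CharP (kk A) q := Fermat.Agent.S37.H98.charP_residueField A q hq hA
  intro h0
  have hqr : q ∣ r := (CharP.cast_eq_zero_iff (kk A) q r).mp h0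
  have : q = r := (Nat.prime_dvd_prime_iff_eq hq hr).mp hqr
  exact hqN (this ▸ hrN)

section Tower

variable {M ℓ : ℕ} [NeZero M] [NeZero ℓ] {A : ValuationSubring Qb}

theorem finrank_alphaQ (hℓ : ℓ.Prime) (hℓM : ¬ ℓ ∣ M) :
    (letI := algebraAlong (alphaQ M ℓ); Module.finrank (FN M) (FN (M * ℓ))) = ℓ + 1 :=
  Fermat.Agent.S37.H818.finrankAlong_heckeAlphaBar (L := Qb) M ℓ hℓ hℓM

theorem finrank_inclK (hℓ : ℓ.Prime) (hℓM : ¬ ℓ ∣ M)
    (hchar : ∀ r : ℕ, r.Prime → r ∣ M * ℓ → ((r : ℕ) : kk A) ≠ 0) :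
    (letI := algebraAlong (inclK M ℓ A); Module.finrank (FNk A M) (FNk A (M * ℓ))) = ℓ + 1 := by
  have h := Fermat.Agent.S28.H988.relfinrank_full_mul_prime (kk A) M ℓ (NeZero.ne M) hℓ hchar
  rw [if_neg hℓM] at h
  rw [← h]
  exact Fermat.Agent.S37.H818.finrankAlong_inclusion _

/-- **Norms commute with reduction** along `α : F_M → F_{Mℓ}`. -/
theorem norm_red_alpha (hℓ : ℓ.Prime) (hℓM : ¬ ℓ ∣ M)
    (hchar : ∀ r : ℕ, r.Prime → r ∣ M * ℓ → ((r : ℕ) : kk A) ≠ 0)
    (hVG₀ : ModVG M A) (hVG₁ : ModVG (M * ℓ) A) (y : modO hVG₁) :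
    ∃ hN : normAlong (alphaQ M ℓ) (y : FN (M * ℓ)) ∈ modO hVG₀,
      modρ hVG₀ ⟨_, hN⟩ = normAlong (inclK M ℓ A) (modρ hVG₁ y) := by
  letI alg₀ : Algebra (FN M) (FN (M * ℓ)) := algebraAlong (alphaQ M ℓ)
  letI alg₁ : Algebra (FNk A M) (FNk A (M * ℓ)) := algebraAlong (inclK M ℓ A)
  have hfr₀ : Module.finrank (FN M) (FN (M * ℓ)) = ℓ + 1 := finrank_alphaQ hℓ hℓM
  have hfr₁ : Module.finrank (FNk A M) (FNk A (M * ℓ)) = ℓ + 1 := finrank_inclK hℓ hℓM hchar
  haveI : FiniteDimensional (FN M) (FN (M * ℓ)) :=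
    Module.finite_of_finrank_pos (by rw [hfr₀]; omega)
  haveI : FiniteDimensional (FNk A M) (FNk A (M * ℓ)) :=
    Module.finite_of_finrank_pos (by rw [hfr₁]; omega)
  have hext : ValExtends (modO hVG₀) (modO hVG₁) := fun a => alpha_mem_modO_iff hVG₀ hVG₁ a
  exact norm_red_rel hext (modρ hVG₀) (modρ hVG₁) (Fermat.Agent.S37.Red.modρ_surjective hVG₁)
    (fun a => (modρ_alpha hVG₀ hVG₁ a).2) (hfr₀.trans hfr₁.symm) y

end Tower

/-! ## The bridge to `IsRedSer` -/

section Bridge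

variable {N : ℕ} [NeZero N] {A : ValuationSubring Qb}

/-- `ρ v` is a reduction of `v` (for `v` in the Gauss valuation ring, `ρ v ≠ 0`). -/
theorem isRedSer_of_modO (hVG : ModVG N A) (v : modO hVG) (hv : modρ hVG v ≠ 0) :
    IsRedSer A (((v : FN N)) : LaurentSeries Qb)
      ((modρ hVG v : FNk A N) : LaurentSeries (kk A)) := by
  obtain ⟨a, b, hb, hab⟩ := (v.2 : (modFrac N A).IsFrac v)
  have e : modρ hVG v = (modFrac N A).ρ₀ a / (modFrac N A).ρ₀ b :=
    (modFrac N A).ρ_apply v hb hab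
  have ha : (modFrac N A).ρ₀ a ≠ 0 := by
    intro h0
    apply hv
    rw [e, h0, zero_div]
  obtain ⟨Ya, hYa, hYak⟩ := a.2
  obtain ⟨Yb, hYb, hYbk⟩ := b.2
  have ra : (((modFrac N A).ρ₀ a : FNk A N) : LaurentSeries (kk A)) = red A Ya :=
    Fermat.Agent.S37.H940.coe_redQ A (residue A) (modularFunctionFieldBar N)
      (modularFunctionFieldFullC (kk A) N) a (y := Ya) hYa
  have rb : (((modFrac N A).ρ₀ b : FNk A N) : LaurentSeries (kk A)) = red A Yb :=
    Fermat.Agent.S37.H940.coe_redQ A (residue A) (modularFunctionFieldBar N)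
      (modularFunctionFieldFullC (kk A) N) b (y := Yb) hYb
  refine ⟨1, Ya, Yb, one_ne_zero, ?_, ?_, ?_, ?_⟩
  · rw [← ra]
    intro h0
    exact ha (Subtype.ext h0)
  · rw [← rb]
    intro h0
    exact hb (Subtype.ext h0)
  · rw [cst_one, one_mul]
    show ((v : FN N) : LaurentSeries Qb) * coeffMap A.subtype Yb = coeffMap A.subtype Ya
    rw [hYa, hYb]
    exact congrArg Subtype.val hab
  · rw [e, ← ra, ← rb]
    have h1 := div_mul_cancel₀ ((modFrac N A).ρ₀ a) hb
    exact congrArg Subtype.val h1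

/-- scaling the function by a nonzero constant does not change the reductions -/
theorem isRedSer_cst_mul {x : LaurentSeries Qb} {r : LaurentSeries (kk A)}
    (h : IsRedSer A x r) {c : Qb} (hc : c ≠ 0) : IsRedSer A (cst c * x) r := by
  obtain ⟨c₀, U₁, U₂, hc₀, h₁, h₂, he, hr⟩ := h
  refine ⟨c * c₀, U₁, U₂, mul_ne_zero hc hc₀, h₁, h₂, ?_, hr⟩
  rw [mul_assoc, he, cst_mul, mul_assoc]

/-- a reduction may be scaled by a nonzero constant of `k` -/
theorem isRedSer_C_mul {x : LaurentSeries Qb} {r : LaurentSeries (kk A)}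
    (h : IsRedSer A x r) {u : kk A} (hu : u ≠ 0) : IsRedSer A x (HahnSeries.C u * r) := by
  obtain ⟨c₀, U₁, U₂, hc₀, h₁, h₂, he, hr⟩ := h
  obtain ⟨a, rfl⟩ := IsLocalRing.residue_surjective (R := A) u
  have ha0 : (a : Qb) ≠ 0 := by
    intro h0
    apply hu
    have : a = 0 := Subtype.ext h0
    rw [this, map_zero]
  have hred : red A (cstA A a * U₁) = HahnSeries.C (residue A a) * red A U₁ := by
    rw [map_mul, red_cstA]
    rfl
  refine ⟨c₀ * (a : Qb)⁻¹, cstA A a * U₁, U₂, mul_ne_zero hc₀ (inv_ne_zero ha0), ?_, h₂, ?_, ?_⟩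
  · rw [hred]
    refine mul_ne_zero ?_ h₁
    intro h0
    apply hu
    have := congrArg (fun z : LaurentSeries (kk A) => z.coeff 0) h0
    simpa using this
  · rw [he, map_mul, incl_cstA, cst_mul, mul_assoc, ← mul_assoc (cst (a : Qb)⁻¹),
      cst_inv_mul_cst ha0, one_mul]
  · rw [hred, mul_assoc, hr]

/-- every nonzero function is a constant times a unit of the Gauss valuation ring -/
theorem exists_cst_mul_unit (hVG : ModVG N A) {f : FN N} (hf : f ≠ 0) :
    ∃ (c : Qb) (u : modO hVG), c ≠ 0 ∧ modρ hVG u ≠ 0 ∧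
      f = algebraMap Qb (FN N) c * (u : FN N) := by
  obtain ⟨c, hc, y₁, y₂, h₁, h₂, hfy⟩ := hVG f hf
  let z₁ : (modFrac N A).O := y₁
  let z₂ : (modFrac N A).O := y₂
  have hz₁ : (modFrac N A).ρ₀ z₁ ≠ 0 := h₁
  have hz₂ : (modFrac N A).ρ₀ z₂ ≠ 0 := h₂
  have hz₂0 : (z₂ : FN N) ≠ 0 := (modFrac N A).coe_ne_zero hz₂
  have hmem : (z₁ : FN N) * (z₂ : FN N)⁻¹ ∈ modO hVG :=
    ⟨z₁, z₂, hz₂, by rw [mul_assoc, inv_mul_cancel₀ hz₂0, mul_one]⟩
  have hρ : modρ hVG ⟨_, hmem⟩ = (modFrac N A).ρ₀ z₁ / (modFrac N A).ρ₀ z₂ :=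
    (modFrac N A).ρ_apply ⟨_, hmem⟩ hz₂ (by rw [mul_assoc, inv_mul_cancel₀ hz₂0, mul_one])
  refine ⟨c, ⟨_, hmem⟩, hc, ?_, ?_⟩
  · rw [hρ]
    exact div_ne_zero hz₁ hz₂
  · have hfz : f * (z₂ : FN N) = algebraMap Qb (FN N) c * (z₁ : FN N) := hfy
    show f = algebraMap Qb (FN N) c * ((z₁ : FN N) * (z₂ : FN N)⁻¹)
    rw [← mul_assoc, ← hfz, mul_assoc, mul_inv_cancel₀ hz₂0, mul_one]

end Bridge

/-! ## NORM-RED -/

section NormRedSec

variable {q M ℓ : ℕ} [NeZero M] [NeZero ℓ] {A : ValuationSubring Qb}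

theorem coe_algebraMap_fullC (k : Type) [Field k] (N : ℕ) (c : k) :
    ((algebraMap k (modularFunctionFieldFullC k N) c : modularFunctionFieldFullC k N) :
      LaurentSeries k) = HahnSeries.C c := by
  show algebraMap k (LaurentSeries k) c = HahnSeries.C c
  rw [algebraMap_laurentSeries_eq_single]
  rfl

/-- the norm along `α` of a constant -/
theorem normAlong_alphaQ_const (hℓ : ℓ.Prime) (hℓM : ¬ ℓ ∣ M) (c : Qb) :
    normAlong (alphaQ M ℓ) (algebraMap Qb (FN (M * ℓ)) c) = algebraMap Qb (FN M) (c ^ (ℓ + 1)) := by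
  letI alg₀ : Algebra (FN M) (FN (M * ℓ)) := algebraAlong (alphaQ M ℓ)
  have hfr₀ : Module.finrank (FN M) (FN (M * ℓ)) = ℓ + 1 := finrank_alphaQ hℓ hℓM
  have h1 : algebraMap Qb (FN (M * ℓ)) c
      = algebraMap (FN M) (FN (M * ℓ)) (algebraMap Qb (FN M) c) :=
    ((alphaQ M ℓ).commutes c).symm
  show Algebra.norm (FN M) (algebraMap Qb (FN (M * ℓ)) c) = _
  rw [h1, Algebra.norm_algebraMap, hfr₀, map_pow]

/-- the norm along the inclusion of `k(X₀(M))` of a constant -/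
theorem normAlong_inclK_const (hℓ : ℓ.Prime) (hℓM : ¬ ℓ ∣ M)
    (hchar : ∀ r : ℕ, r.Prime → r ∣ M * ℓ → ((r : ℕ) : kk A) ≠ 0) (c : kk A) :
    normAlong (inclK M ℓ A) (algebraMap (kk A) (FNk A (M * ℓ)) c)
      = algebraMap (kk A) (FNk A M) (c ^ (ℓ + 1)) := by
  letI alg₁ : Algebra (FNk A M) (FNk A (M * ℓ)) := algebraAlong (inclK M ℓ A)
  have hfr₁ : Module.finrank (FNk A M) (FNk A (M * ℓ)) = ℓ + 1 := finrank_inclK hℓ hℓM hchar
  have h1 : algebraMap (kk A) (FNk A (M * ℓ)) c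
      = algebraMap (FNk A M) (FNk A (M * ℓ)) (algebraMap (kk A) (FNk A M) c) :=
    ((inclK M ℓ A).commutes c).symm
  show Algebra.norm (FNk A M) (algebraMap (kk A) (FNk A (M * ℓ)) c) = _
  rw [h1, Algebra.norm_algebraMap, hfr₁, map_pow]

/-- the norm along the inclusion of `k(X₀(M))` of an element of `k(X₀(M))` -/
theorem normAlong_inclK_inclK (hℓ : ℓ.Prime) (hℓM : ¬ ℓ ∣ M)
    (hchar : ∀ r : ℕ, r.Prime → r ∣ M * ℓ → ((r : ℕ) : kk A) ≠ 0) (x : FNk A M) :
    normAlong (inclK M ℓ A) (inclK M ℓ A x) = x ^ (ℓ + 1) := by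
  letI alg₁ : Algebra (FNk A M) (FNk A (M * ℓ)) := algebraAlong (inclK M ℓ A)
  have hfr₁ : Module.finrank (FNk A M) (FNk A (M * ℓ)) = ℓ + 1 := finrank_inclK hℓ hℓM hchar
  show Algebra.norm (FNk A M) (algebraMap (FNk A M) (FNk A (M * ℓ)) x) = _
  rw [Algebra.norm_algebraMap, hfr₁]

theorem finiteAlong_inclK (hℓ : ℓ.Prime) (hℓM : ¬ ℓ ∣ M)
    (hchar : ∀ r : ℕ, r.Prime → r ∣ M * ℓ → ((r : ℕ) : kk A) ≠ 0) :
    FiniteAlong (kk A) (inclK M ℓ A) := by
  unfold FiniteAlong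
  letI alg₁ : Algebra (FNk A M) (FNk A (M * ℓ)) := algebraAlong (inclK M ℓ A)
  have hfr₁ : Module.finrank (FNk A M) (FNk A (M * ℓ)) = ℓ + 1 := finrank_inclK hℓ hℓM hchar
  exact Module.finite_of_finrank_pos (by rw [hfr₁]; omega)

/-- **NORM-RED**, series form: if `r` is a reduction of `f ∈ F_{Mℓ}` (`q ∤ Mℓ`), then
`r ∈ k(X₀(Mℓ))` and `N_{k(X₀(Mℓ))/k(X₀(M))} r` is a reduction of `N_α f`. -/
theorem normRed_alpha (hq : q.Prime) (hℓ : ℓ.Prime) (hqM : ¬ q ∣ M) (hqℓ : q ≠ ℓ)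
    (hℓM : ¬ ℓ ∣ M) (hA : A.LiesOverPrime q) (f : FN (M * ℓ)) (r : LaurentSeries (kk A))
    (hr : IsRedSer A (f : LaurentSeries Qb) r) :
    ∃ hr' : r ∈ modularFunctionFieldFullC (kk A) (M * ℓ),
      IsRedSer A ((normAlong (alphaQ M ℓ) f : FN M) : LaurentSeries Qb)
        ((normAlong (inclK M ℓ A) ⟨r, hr'⟩ : FNk A M) : LaurentSeries (kk A)) := by
  have hqMℓ : ¬ q ∣ M * ℓ := by
    intro h
    rcases (Nat.Prime.dvd_mul hq).mp h with h | h
    · exact hqM h
    · exact hqℓ ((Nat.prime_dvd_prime_iff_eq hq hℓ).mp h)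
  have hVG₀ : ModVG M A := modVG_of_prime hq hqM hA
  have hVG₁ : ModVG (M * ℓ) A := modVG_of_prime hq hqMℓ hA
  have hchar := natCast_ne_zero_kk hq hqMℓ hA
  have hf0 : f ≠ 0 := fun h0 => hr.ne_zero (by rw [h0]; rfl)
  obtain ⟨c, u, hc, hu, hfu⟩ := exists_cst_mul_unit hVG₁ hf0
  obtain ⟨hN, hρN⟩ := norm_red_alpha hℓ hℓM hchar hVG₀ hVG₁ u
  -- the reduction of `f`
  have h1 : IsRedSer A (f : LaurentSeries Qb)
      ((modρ hVG₁ u : FNk A (M * ℓ)) : LaurentSeries (kk A)) := by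
    have h := isRedSer_cst_mul (isRedSer_of_modO hVG₁ u hu) hc
    rw [hfu]
    exact h
  obtain ⟨w, hw, hrw⟩ := h1.unique hr
  have hr' : r ∈ modularFunctionFieldFullC (kk A) (M * ℓ) := by
    rw [hrw]
    exact mul_mem (Fermat.Agent.Ribet.H997.C_mem_fullC _ _ w) (modρ hVG₁ u).2
  refine ⟨hr', ?_⟩
  have hrr : (⟨r, hr'⟩ : FNk A (M * ℓ))
      = algebraMap (kk A) (FNk A (M * ℓ)) w * modρ hVG₁ u := by
    apply Subtype.ext
    show r = ((algebraMap (kk A) (FNk A (M * ℓ)) w : FNk A (M * ℓ)) : LaurentSeries (kk A))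
      * ((modρ hVG₁ u : FNk A (M * ℓ)) : LaurentSeries (kk A))
    rw [coe_algebraMap_fullC, hrw]
  -- the norm of the reduction
  have hNr : normAlong (inclK M ℓ A) (⟨r, hr'⟩ : FNk A (M * ℓ))
      = algebraMap (kk A) (FNk A M) (w ^ (ℓ + 1)) * modρ hVG₀ ⟨_, hN⟩ := by
    rw [hrr, Fermat.Agent.S29.H395.normAlong_mul, normAlong_inclK_const hℓ hℓM hchar, hρN]
  -- the norm of the function
  have hNf : normAlong (alphaQ M ℓ) f
      = algebraMap Qb (FN M) (c ^ (ℓ + 1)) * normAlong (alphaQ M ℓ) (u : FN (M * ℓ)) := by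
    rw [hfu, Fermat.Agent.S29.H395.normAlong_mul, normAlong_alphaQ_const hℓ hℓM]
  have hne : modρ hVG₀ ⟨_, hN⟩ ≠ 0 := by
    rw [hρN]
    exact Fermat.Agent.S29.H395.normAlong_ne_zero _ (finiteAlong_inclK hℓ hℓM hchar) hu
  have h2 := isRedSer_of_modO hVG₀ ⟨_, hN⟩ hne
  have h3 := isRedSer_C_mul (isRedSer_cst_mul h2 (pow_ne_zero (ℓ + 1) hc)) (pow_ne_zero (ℓ + 1) hw)
  rw [hNr, hNf]
  show IsRedSer A (cst (c ^ (ℓ + 1)) * _) (((algebraMap (kk A) (FNk A M) (w ^ (ℓ + 1)) : FNk A M) :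
    LaurentSeries (kk A)) * _)
  rw [coe_algebraMap_fullC]
  exact h3

/-- **NORM-RED for Kummer functions**: if `c · h₀ · u ^ p` (`h₀` of level `M`, `u` of level
`Mℓ`) is a reduction of `f ∈ F_{Mℓ}`, then `c₁ · h₀ ^ (ℓ + 1) · v ^ p` is a reduction of `N_α f`,
with `v = N u` of level `M`. -/
theorem normRed_kummer (hq : q.Prime) (hℓ : ℓ.Prime) (hqM : ¬ q ∣ M) (hqℓ : q ≠ ℓ)
    (hℓM : ¬ ℓ ∣ M) (hA : A.LiesOverPrime q) (p : ℕ) (f : FN (M * ℓ)) (c : kk A)
    (h₀ : FNk A M) (u : FNk A (M * ℓ)) (hc : c ≠ 0) (hu : u ≠ 0)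
    (hr : IsRedSer A (f : LaurentSeries Qb)
      (HahnSeries.C c * (h₀ : LaurentSeries (kk A)) * (u : LaurentSeries (kk A)) ^ p)) :
    ∃ (c₁ : kk A) (v : FNk A M), c₁ ≠ 0 ∧ v ≠ 0 ∧
      IsRedSer A ((normAlong (alphaQ M ℓ) f : FN M) : LaurentSeries Qb)
        (HahnSeries.C c₁ * (h₀ : LaurentSeries (kk A)) ^ (ℓ + 1)
          * (v : LaurentSeries (kk A)) ^ p) := by
  have hqMℓ : ¬ q ∣ M * ℓ := by
    intro h
    rcases (Nat.Prime.dvd_mul hq).mp h with h | h
    · exact hqM h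
    · exact hqℓ ((Nat.prime_dvd_prime_iff_eq hq hℓ).mp h)
  have hchar := natCast_ne_zero_kk hq hqMℓ hA
  obtain ⟨hr', hN⟩ := normRed_alpha hq hℓ hqM hqℓ hℓM hA f _ hr
  have hrr : (⟨_, hr'⟩ : FNk A (M * ℓ))
      = algebraMap (kk A) (FNk A (M * ℓ)) c * inclK M ℓ A h₀ * u ^ p := by
    apply Subtype.ext
    show _ = ((algebraMap (kk A) (FNk A (M * ℓ)) c : FNk A (M * ℓ)) : LaurentSeries (kk A))
      * ((inclK M ℓ A h₀ : FNk A (M * ℓ)) : LaurentSeries (kk A))
      * (u : LaurentSeries (kk A)) ^ p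
    rw [coe_algebraMap_fullC, coe_inclK]
  rw [hrr, Fermat.Agent.S29.H395.normAlong_mul, Fermat.Agent.S29.H395.normAlong_mul,
    Fermat.Agent.S29.H395.normAlong_pow, normAlong_inclK_const hℓ hℓM hchar,
    normAlong_inclK_inclK hℓ hℓM hchar] at hN
  refine ⟨c ^ (ℓ + 1), normAlong (inclK M ℓ A) u, pow_ne_zero _ hc,
    Fermat.Agent.S29.H395.normAlong_ne_zero _ (finiteAlong_inclK hℓ hℓM hchar) hu, ?_⟩
  rw [← coe_algebraMap_fullC (kk A) M (c ^ (ℓ + 1))]
  exact hN

end NormRedSec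

/-! ## Renamed top level -/

section Retarget

open Fermat.Agent.S24 Fermat.Agent.Ribet.H884 Fermat.Agent.S29.H801

/-- **NORM-RED for Kummer functions**, with the top level renamed along `M * ℓ = N'` and in
the `IsRedInf` vocabulary of the wall. -/
theorem normRed_kummer_to {q M ℓ N' : ℕ} [NeZero M] [NeZero ℓ] [NeZero N'] (h : M * ℓ = N')
    {A : ValuationSubring Kbar} (hq : q.Prime) (hℓ : ℓ.Prime) (hqM : ¬ q ∣ M) (hqℓ : q ≠ ℓ)
    (hℓM : ¬ ℓ ∣ M) (hA : A.LiesOverPrime q) (p : ℕ) (f : FF N') (c : _root_.Fermat.Agent.Ribet.H884.kA A)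
    (h₀ : modularFunctionFieldFullC (_root_.Fermat.Agent.Ribet.H884.kA A) M) (u : modularFunctionFieldFullC (_root_.Fermat.Agent.Ribet.H884.kA A) N')
    (hc : c ≠ 0) (hu : u ≠ 0)
    (hr : IsRedInf N' A f
      (HahnSeries.C c * (h₀ : LaurentSeries (_root_.Fermat.Agent.Ribet.H884.kA A)) * (u : LaurentSeries (_root_.Fermat.Agent.Ribet.H884.kA A)) ^ p)) :
    ∃ (c₁ : _root_.Fermat.Agent.Ribet.H884.kA A) (v : modularFunctionFieldFullC (_root_.Fermat.Agent.Ribet.H884.kA A) M), c₁ ≠ 0 ∧ v ≠ 0 ∧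
      IsRedInf M A (normAlong (alphaTo Kbar M ℓ N' h) f)
        (HahnSeries.C c₁ * (h₀ : LaurentSeries (_root_.Fermat.Agent.Ribet.H884.kA A)) ^ (ℓ + 1)
          * (v : LaurentSeries (_root_.Fermat.Agent.Ribet.H884.kA A)) ^ p) := by
  subst h
  exact normRed_kummer hq hℓ hqM hqℓ hℓM hA p f c h₀ u hc hu hr

end Retarget

end Fermat.Agent.Ribet.H924

end
end
-- ===== PACK-END Ribet/H924/NormRed.lean

-- ===== PACK-BEGIN S59/TW/H54/TwistLNS.lean
section



/-!
# TW-NS, anemic multi-prime form (helper54): iterated twists are `q²`-new at every twisted prime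

Vocabulary of helper564 (`H564.twistL`, `chiL`) and of helper658's `TwistDatum`
(`S59/TW/H658/TwistDatum.lean`: the hypotheses below are its fields, verbatim).

* `twist_comm_h54`, `twistL_eq_twist_erase_h54` : twists at different moduli commute, so
  `twistL ψ L f = twist q₀ (ψ q₀) (twistL ψ (L.erase q₀) f)` for `q₀ ∈ L`;
* `heckeU_twistL_self_h54`, `heckeU_fricke_twistL_h54` : `U_{q₀}` kills `F = twistL ψ L f` and
  `F ∣ W_{N'}` (`q₀ ∈ L`, `ψ q₀ ≠ 1`, `q₀² ∥ N'`);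
* `twistL_anemic_exists_newform` : if moreover `F ≠ 0` is an eigenvector of the GOOD Hecke
  operators `T_ℓ` (`ℓ ∤ N'`, `ℓ ∉ S`) with eigenvalues `lam ℓ`, then there is a Prelude-newform `g`
  of level `M₁ ∣ N'` with `v_{q₀}(M₁) = 2` and `a_ℓ(g) = lam ℓ`: the frozen statement S36 applies
  to the eigensystem `lam` at `q₀`.  No normalisation, no eigen-property at the bad primes.
-/

set_option autoImplicit false
set_option linter.unusedSectionVars false
set_option linter.unusedVariables false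
set_option linter.style.haveILetI false

namespace Fermat.Agent.S59.TW.H54

open Matrix Matrix.SpecialLinearGroup CongruenceSubgroup UpperHalfPlane ModularForm
open Fermat.Agent.Lib.Newform.H803 Fermat.Agent.S59.TW.H564
open Fermat.Agent.Lib.Newform.H958.X ModularFormClass
open scoped MatrixGroups ModularForm

variable {k : ℤ}

/-! ## Twists commute -/

theorem shift_sum_h54 {q : ℕ} [NeZero q] {ι : Type*} (s : Finset ι) (g : ι → ℍ → ℂ)
    (u : ZMod q) : shift k q (∑ i ∈ s, g i) u = ∑ i ∈ s, shift k q (g i) u := by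
  unfold shift
  rw [SlashAction.sum_slash]

theorem shift_comm_h54 {q q' : ℕ} [NeZero q] [NeZero q'] (f : ℍ → ℂ) (u : ZMod q)
    (v : ZMod q') : shift k q (shift k q' f v) u = shift k q' (shift k q f u) v := by
  unfold shift
  rw [← slash_tr_add, ← slash_tr_add, add_comm]

theorem twist_comm_h54 {q q' : ℕ} [NeZero q] [NeZero q'] (ψ : DirichletCharacter ℂ q)
    (ψ' : DirichletCharacter ℂ q') (f : ℍ → ℂ) :
    twist k q ψ (twist k q' ψ' f) = twist k q' ψ' (twist k q ψ f) := by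
  unfold twist
  simp only [shift_sum_h54, shift_smul, Finset.smul_sum]
  rw [Finset.sum_comm]
  refine Finset.sum_congr rfl fun v _ => Finset.sum_congr rfl fun u _ => ?_
  rw [shift_comm_h54, smul_comm]

theorem twist'_comm_h54 {q q' : ℕ} (ψ : DirichletCharacter ℂ q)
    (ψ' : DirichletCharacter ℂ q') (f : ℍ → ℂ) :
    twist' k q ψ (twist' k q' ψ' f) = twist' k q' ψ' (twist' k q ψ f) := by
  rcases eq_or_ne q 0 with h | h
  · simp only [twist', dif_pos h]
  rcases eq_or_ne q' 0 with h' | h'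
  · simp only [twist', dif_pos h']
  haveI : NeZero q := ⟨h⟩
  haveI : NeZero q' := ⟨h'⟩
  simp only [twist'_eq]
  exact twist_comm_h54 ψ ψ' f

theorem twistL_twist'_h54 (ψ : (q : ℕ) → DirichletCharacter ℂ q) (L : List ℕ) {q : ℕ}
    (ψq : DirichletCharacter ℂ q) (f : ℍ → ℂ) :
    twistL k ψ L (twist' k q ψq f) = twist' k q ψq (twistL k ψ L f) := by
  induction L generalizing f with
  | nil => rfl
  | cons a L ih =>
    rw [twistL_cons, twistL_cons, twist'_comm_h54, ih]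

/-- For `q₀ ∈ L`: `twistL ψ L f = twist' q₀ (ψ q₀) (twistL ψ (L.erase q₀) f)`. -/
theorem twistL_eq_twist_erase_h54 (ψ : (q : ℕ) → DirichletCharacter ℂ q) (L : List ℕ)
    {q₀ : ℕ} (hq₀ : q₀ ∈ L) (f : ℍ → ℂ) :
    twistL k ψ L f = twist' k q₀ (ψ q₀) (twistL k ψ (L.erase q₀) f) := by
  induction L generalizing f with
  | nil => simp at hq₀
  | cons a L ih =>
    by_cases ha : a = q₀
    · subst ha
      rw [List.erase_cons_head, twistL_cons, twistL_twist'_h54]
    · have hq₀L : q₀ ∈ L := by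
        rcases List.mem_cons.mp hq₀ with h | h
        · exact absurd h.symm ha
        · exact h
      rw [List.erase_cons_tail (by simpa using ha), twistL_cons, twistL_cons, ih hq₀L]

/-! ## The nebentypus of the partial twist -/

theorem chiL_erase_h54 (ψ : (q : ℕ) → DirichletCharacter ℂ q) (χ : ℤ → ℂ) (L : List ℕ)
    {q₀ : ℕ} (hq₀ : q₀ ∈ L) (d : ℤ) :
    chiL ψ χ (L.erase q₀) d * ψ q₀ ((d : ℤ) : ZMod q₀) ^ 2 = chiL ψ χ L d := by
  rw [chiL_apply, chiL_apply, mul_assoc]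
  congr 1
  rw [mul_comm]
  exact List.prod_map_erase (fun q => ψ q ((d : ℤ) : ZMod q) ^ 2) hq₀

theorem isCoprime_of_mem_Gamma0_h54 {N : ℕ} {γ : SL(2, ℤ)} (hγ : γ ∈ Gamma0 N) :
    IsCoprime (γ 1 1) (N : ℤ) := by
  obtain ⟨c, hc⟩ := mem_Gamma0_iff_dvd.mp hγ
  have hdet := Matrix.SpecialLinearGroup.det_coe γ
  rw [Matrix.det_fin_two] at hdet
  refine ⟨γ 0 0, -(γ 0 1 * c), ?_⟩
  rw [hc] at hdet
  linear_combination hdet

/-! ## The main theorem -/

section Main

variable {M : ℕ} {χ : ℤ → ℂ} {f : ℍ → ℂ}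

/-- The data of the partial twist `f' = twistL ψ (L.erase q₀) f` at the level `N q₀`,
`N' = N q₀²`. -/
theorem partial_twist_data_h54 (ψ : (q : ℕ) → DirichletCharacter ℂ q) (L : List ℕ)
    (hL : ∀ q ∈ L, q.Prime ∧ ∃ M' : ℕ, M = M' * q ∧ Nat.Coprime M' q)
    (hχ : IsCharMod M χ) (hf : IsNeb k M χ f) {q₀ : ℕ} (hq₀ : q₀ ∈ L) {N : ℕ}
    (hdvd : M * L.prod ∣ N * q₀ * q₀)
    (htriv : ∀ d : ℤ, IsCoprime d ((N * q₀ * q₀ : ℕ) : ℤ) → chiL ψ χ L d = 1) :
    IsCharMod (N * q₀) (chiL ψ χ (L.erase q₀)) ∧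
      IsNeb k (N * q₀) (chiL ψ χ (L.erase q₀)) (twistL k ψ (L.erase q₀) f) ∧
      NebRelH54 N q₀ (chiL ψ χ (L.erase q₀)) (ψ q₀) := by
  have hq₀p : q₀.Prime := (hL q₀ hq₀).1
  have hL' : ∀ q ∈ L.erase q₀, q ≠ 0 ∧ q ∣ M := fun q hq => by
    obtain ⟨hp, M', hM, -⟩ := hL q (List.mem_of_mem_erase hq)
    exact ⟨hp.ne_zero, ⟨M', by rw [hM, mul_comm]⟩⟩
  obtain ⟨h1, h2⟩ := isNeb_twistL (k := k) (ψ := ψ) (L.erase q₀) hL' hχ hf
  -- the level
  have hlev : M * (L.erase q₀).prod ∣ N * q₀ := by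
    have hprod : q₀ * (L.erase q₀).prod = L.prod := List.prod_erase hq₀
    have h3 : M * (L.erase q₀).prod * q₀ ∣ N * q₀ * q₀ := by
      have : M * (L.erase q₀).prod * q₀ = M * L.prod := by rw [← hprod]; ring
      rw [this]
      exact hdvd
    exact Nat.dvd_of_mul_dvd_mul_right hq₀p.pos h3
  have hlevZ : ((M * (L.erase q₀).prod : ℕ) : ℤ) ∣ ((N * q₀ : ℕ) : ℤ) :=
    Int.natCast_dvd_natCast.mpr hlev
  refine ⟨⟨h1.one, fun d d' hdd' => h1.periodic d d' (hlevZ.trans hdd')⟩, ?_, ?_⟩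
  · intro γ hγ
    apply h2 γ
    rw [mem_Gamma0_iff_dvd] at hγ ⊢
    exact hlevZ.trans hγ
  · intro γ hγ
    rw [chiL_erase_h54 ψ χ L hq₀]
    apply htriv
    have hc := isCoprime_of_mem_Gamma0_h54 hγ
    have hc' : IsCoprime (γ 1 1) ((q₀ : ℕ) : ℤ) := by
      push_cast at hc
      exact hc.of_mul_right_right
    push_cast at hc ⊢
    exact hc.mul_right hc'

/-- `U_{q₀}` kills the iterated twist (`q₀ ∈ L`, `ψ q₀ ≠ 1`). -/
theorem heckeU_twistL_self_h54 (ψ : (q : ℕ) → DirichletCharacter ℂ q) (L : List ℕ)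
    (hL : ∀ q ∈ L, q.Prime ∧ ∃ M' : ℕ, M = M' * q ∧ Nat.Coprime M' q)
    (hχ : IsCharMod M χ) (hf : IsNeb k M χ f) {q₀ : ℕ} (hq₀ : q₀ ∈ L) (hψ : ψ q₀ ≠ 1) :
    heckeU k q₀ (twistL k ψ L f) = 0 := by
  have hq₀p : q₀.Prime := (hL q₀ hq₀).1
  haveI : NeZero q₀ := ⟨hq₀p.ne_zero⟩
  haveI : Fact q₀.Prime := ⟨hq₀p⟩
  have hL' : ∀ q ∈ L.erase q₀, q ≠ 0 ∧ q ∣ M := fun q hq => by
    obtain ⟨hp, M', hM, -⟩ := hL q (List.mem_of_mem_erase hq)
    exact ⟨hp.ne_zero, ⟨M', by rw [hM, mul_comm]⟩⟩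
  obtain ⟨h1, h2⟩ := isNeb_twistL (k := k) (ψ := ψ) (L.erase q₀) hL' hχ hf
  rw [twistL_eq_twist_erase_h54 ψ L hq₀, twist'_eq]
  exact heckeU_twist_self hψ (h2.isPer h1)

/-- `U_{q₀}` kills the Fricke transform of the iterated twist (`q₀ ∈ L`, `ψ q₀ ≠ 1`,
`q₀² ∥ N'`, `N' = N q₀²`). -/
theorem heckeU_fricke_twistL_h54 (ψ : (q : ℕ) → DirichletCharacter ℂ q) (L : List ℕ)
    (hL : ∀ q ∈ L, q.Prime ∧ ∃ M' : ℕ, M = M' * q ∧ Nat.Coprime M' q)
    (hχ : IsCharMod M χ) (hf : IsNeb k M χ f) {q₀ : ℕ} (hq₀ : q₀ ∈ L) (hψ : ψ q₀ ≠ 1)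
    {N : ℕ} [NeZero (N * q₀ * q₀)] (hNq : ¬ q₀ ∣ N)
    (hdvd : M * L.prod ∣ N * q₀ * q₀)
    (htriv : ∀ d : ℤ, IsCoprime d ((N * q₀ * q₀ : ℕ) : ℤ) → chiL ψ χ L d = 1)
    (hinv : SlInv k (Gamma0 (N * q₀ * q₀)) (twistL k ψ L f)) :
    heckeU k q₀ ((twistL k ψ L f) ∣[k] frickeMatrix (N * q₀ * q₀)) = 0 := by
  have hq₀p : q₀.Prime := (hL q₀ hq₀).1
  haveI : NeZero q₀ := ⟨hq₀p.ne_zero⟩
  haveI : Fact q₀.Prime := ⟨hq₀p⟩
  obtain ⟨h1, h2, h3⟩ := partial_twist_data_h54 (k := k) ψ L hL hχ hf hq₀ hdvd htriv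
  have hNz : (N : ZMod q₀) ≠ 0 := fun h => hNq ((ZMod.natCast_eq_zero_iff N q₀).mp h)
  have htr := twist_trace_zero hNz h1 hψ h3 h2
  apply heckeU_fricke_eq_zero_h54 hinv
  rw [twistL_eq_twist_erase_h54 ψ L hq₀, twist'_eq]
  exact htr

/-- **TW-NS, anemic multi-prime form.**  Hypotheses = the fields of helper658's `TwistDatum`
(with `χ = chiZ ε`) + `q₀ ∈ L`, `q₀² ∥ N'` + "`F = twistL ψ L f ≠ 0` is an eigenvector of the
good Hecke operators".  Conclusion: a Prelude-newform of level `M₁ ∣ N'`, `v_{q₀}(M₁) = 2`, with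
the same good eigenvalues. -/
theorem twistL_anemic_exists_newform (ψ : (q : ℕ) → DirichletCharacter ℂ q) (L : List ℕ)
    (hL : ∀ q ∈ L, q.Prime ∧ ∃ M' : ℕ, M = M' * q ∧ Nat.Coprime M' q)
    (hχ : IsCharMod M χ) {N' : ℕ} [NeZero N'] (hdvd : M * L.prod ∣ N')
    (htriv : ∀ d : ℤ, IsCoprime d (N' : ℤ) → chiL ψ χ L d = 1)
    {f : ℍ → ℂ} (hf : IsNeb 2 M χ f)
    {q₀ : ℕ} (hq₀ : q₀ ∈ L) (hψ : ψ q₀ ≠ 1) (hv : N'.factorization q₀ = 2)
    (F : CuspForm (Gamma0 N') 2) (hF : (⇑F : ℍ → ℂ) = twistL 2 ψ L f) (hF0 : F ≠ 0)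
    (S : Set ℕ) (lam : ℕ → ℂ)
    (heig : ∀ (ℓ : ℕ) (hℓ : ℓ.Prime) (hℓN : ¬ ℓ ∣ N'), ℓ ∉ S →
      CuspForm.heckeTLin 2 hℓ hℓN F = lam ℓ • F) :
    ∃ (M₁ : ℕ) (_ : NeZero M₁) (g : CuspForm (Gamma0 M₁) 2), g.IsNewform ∧ M₁ ∣ N' ∧
      M₁.factorization q₀ = 2 ∧
      ∀ ℓ : ℕ, ℓ.Prime → ¬ ℓ ∣ N' → ℓ ∉ S → qCoeff g ℓ = lam ℓ := by
  have hq₀p : q₀.Prime := (hL q₀ hq₀).1
  have hN'0 : N' ≠ 0 := NeZero.ne N'
  -- `N' = N q₀²`, `q₀ ∤ N`
  have h2 : q₀ ^ 2 ∣ N' := (hq₀p.pow_dvd_iff_le_factorization hN'0).mpr (le_of_eq hv.symm)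
  obtain ⟨N, hN⟩ := h2
  have hN' : N' = N * q₀ * q₀ := by rw [hN]; ring
  have hNq : ¬ q₀ ∣ N := by
    rintro ⟨N₂, rfl⟩
    have h3 : q₀ ^ 3 ∣ N' := ⟨N₂, by rw [hN]; ring⟩
    have := (hq₀p.pow_dvd_iff_le_factorization hN'0).mp h3
    omega
  subst hN'
  have hinv : SlInv 2 (Gamma0 (N * q₀ * q₀)) (⇑F : ℍ → ℂ) := fun γ hγ =>
    SlashInvariantForm.slash_action_eqn F _ (Subgroup.mem_map_of_mem _ hγ)
  have hU : heckeU 2 q₀ (⇑F : ℍ → ℂ) = 0 := by
    rw [hF]
    exact heckeU_twistL_self_h54 ψ L hL hχ hf hq₀ hψ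
  have hUW : heckeU 2 q₀ ((⇑F : ℍ → ℂ) ∣[(2 : ℤ)] frickeMatrix (N * q₀ * q₀)) = 0 := by
    rw [hF] at hinv ⊢
    exact heckeU_fricke_twistL_h54 ψ L hL hχ hf hq₀ hψ hNq hdvd htriv hinv
  exact anemic_exists_newform hq₀p hv S lam F hF0 heig hU hUW

end Main

end Fermat.Agent.S59.TW.H54

end
-- ===== PACK-END S59/TW/H54/TwistLNS.lean

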