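import Mathlib
import Fermat.Prelude.Def_ModularCurve_HeckeModule
import Fermat.Agent.Pack.S43MC.G0E26L0
import Fermat.Agent.Pack.S44C.G0E29L0
import Fermat.Agent.Pack.S44C.G0E17L3
import Fermat.Agent.Pack.S43MC.G0E6L0
import Fermat.Agent.Pack.S44C.G0E26L3
import Fermat.Agent.Pack.S44C.G0E28L2
import Fermat.Agent.Pack.S43MC.G0E21L1
import Fermat.Agent.Pack.S43MC.G0E21L2
import Fermat.Agent.Pack.S44C.G0E23L2
import Fermat.Agent.Pack.S43MC.G0E26L2
import Fermat.Agent.Pack.S43MC.G0E22L2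
import Fermat.Agent.Pack.S44C.G0E26L2
import Fermat.Agent.Pack.S44C.G0E27L2
import Fermat.Agent.Pack.S44C.G0E27L3
import Fermat.Agent.Pack.S44C.G0E27L1
import Fermat.Agent.Pack.S44C.G0E28L1
import Fermat.Agent.Pack.S44C.G0E19L3
import Fermat.Agent.Pack.S43MC.G0E26L1
import Fermat.Agent.Pack.S44C.G0E26L0
import Fermat.Agent.Pack.S43MC.G0E22L1
import Fermat.Agent.Pack.S43MC.G0E22L3
import Fermat.Agent.Pack.S43MC.G0E24L1
import Fermat.Agent.Pack.S43MC.G0E24L2
import Fermat.Agent.Pack.S43MC.G0E25L3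
import Fermat.Agent.Pack.S43MC.G0E22L0
import Fermat.Agent.Pack.S43MC.G0E20L1
import Fermat.Agent.Pack.S43MC.G0E24L0
import Fermat.Agent.Pack.S43MC.G0E16L3
import Fermat.Agent.Pack.S43MC.G0E16L1
import Fermat.Agent.Pack.S43MC.G0E25L1
import Fermat.Agent.Pack.S43MC.G0E23L3
import Fermat.Agent.Pack.S44C.G0E25L2
import Fermat.Agent.Pack.S43MC.G0E19L1
import Fermat.Agent.Pack.S43GC.G0E15L3
import Fermat.Agent.Pack.S43MC.G0E20L3
import Fermat.Agent.Pack.S43MC.G0E21L0
import Fermat.Agent.Pack.S43MC.G0E19L0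
import Fermat.Agent.Pack.S43MC.G0E12L0
import Fermat.Agent.Pack.S44C.G0E25L0
import Fermat.Agent.Pack.S44C.G0E28L3
import Fermat.Agent.Pack.Fast891

-- ===== PACK-BEGIN Ribet/H801/ALWall.lean
section
/-
RIBET / WALL-q, W-AL (helper801), part 3: the Atkin–Lehner involution in the wall convention

    wL p M' hp hpM' : J₀(p M')(ℚ̄) ≃+ J₀(p M')(ℚ̄)        (`p ∤ M'` prime)

* `wL_wL`                 : `w ∘ w = id`;
* `wL_smul`               : `w (σ • x) = σ • w x`  (`σ ∈ Gal(ℚ̄/ℚ)`);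
* `alphaL_wL`, `betaL_wL` : `α_* ∘ w = β_*`, `β_* ∘ w = α_*`  (`alphaL`, `betaL` of `H801.Deg`);
* `wL_heckeOperatorBar`   : `w ∘ T_ℓ = T_ℓ ∘ w` for every prime `ℓ ≠ p`;
* `wL_nsmul_eq_zero`, `alphaL_wL_eq_zero`, `betaL_wL_eq_zero`, `wL_new` : the new part of
  `J₀(pM')[m]` is `w`-stable;
* `swapL p M' hp hpM' : F_{pM'} →ₐ[ℚ̄] F_{pM'}` (the swap at level `pM'`), `swapL_swapL`,
  `swapL_alphaTo`, `swapL_betaTo`, `swapL_galois`;
* `wL_mk_of_kummer`       : **Kummer form**: if `x = [D]`, `m D = div f`, then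
  `w x = [D']` with `m D' = div (swapL f)`.
* `wL_sub_eigen`, `wL_add_eigen` : `w (x ∓ w x) = ∓ (x ∓ w x)`  (the `w`-symmetrisation).
-/



set_option autoImplicit false
set_option linter.style.haveILetI false
set_option linter.unusedSectionVars false
set_option synthInstance.maxHeartbeats 400000
set_option maxHeartbeats 1000000

noncomputable section

namespace Fermat.Agent.Ribet.H801

open AlgebraicCurve ModularCurve Fermat.Agent.S37.H818 Fermat.Agent.S29.H801 Fermat.Agent.S24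
open Fermat.Agent.Lib.HI Fermat.Agent.S29.H395

section To

variable (M p N : ℕ) [NeZero M] [NeZero p] [NeZero N]

/-- `w_p` on `J₀(N)`, `N = M p` (renamed level). -/
def wPushTo (h : M * p = N) (hp : p.Prime) (hpM : ¬ p ∣ M) : JZero N →+ JZero N :=
  pushPic0 (swapTo M p N h hp hpM) (swapTo_integral h hp hpM) (swapTo_finite h hp hpM)
    (swapTo_normFormula h hp hpM _)

variable {M p N}

theorem wPushTo_eq (h : M * p = N) (hp : p.Prime) (hpM : ¬ p ∣ M) (x : JZero N) :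
    wPushTo M p N h hp hpM x = jzeroCast h (wPush M p hp hpM (jzeroCast h.symm x)) := by
  subst h
  rfl

theorem swapTo_swapTo (h : M * p = N) (hp : p.Prime) (hpM : ¬ p ∣ M) (x : FF N) :
    swapTo M p N h hp hpM (swapTo M p N h hp hpM x) = x := by
  subst h
  exact swapAL_swapAL hp hpM x

theorem swapTo_galois (h : M * p = N) (hp : p.Prime) (hpM : ¬ p ∣ M) (σ : Kbar ≃ₐ[ℚ] Kbar)
    (x : FF N) :
    arithmeticGalois (modularFunctionFieldFull N) σ • swapTo M p N h hp hpM x =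
      swapTo M p N h hp hpM (arithmeticGalois (modularFunctionFieldFull N) σ • x) := by
  subst h
  exact swapAL_galois hp hpM σ x

/-- the norm along the swap is the swap -/
theorem normAlong_swapTo (h : M * p = N) (hp : p.Prime) (hpM : ¬ p ∣ M) (f : FF N) :
    normAlong (swapTo M p N h hp hpM) f = swapTo M p N h hp hpM f := by
  have h1 := norm_along_of_bijective (swapTo M p N h hp hpM) (swapTo_bijective h hp hpM)
    (swapTo M p N h hp hpM f)
  rw [swapTo_swapTo] at h1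
  exact h1

/-- **Kummer form of `w_p`** (renamed level). -/
theorem wPushTo_mk_of_kummer (h : M * p = N) (hp : p.Prime) (hpM : ¬ p ∣ M) {m : ℤ}
    (D : Divisor.degZero (K := Kbar) (F := FF N)) {f : FF N} (hf : f ≠ 0)
    (hD : ∀ w : Place Kbar (FF N), m * (D : Divisor Kbar (FF N)) w = w.ord f) :
    ∃ D' : Divisor.degZero (K := Kbar) (F := FF N),
      wPushTo M p N h hp hpM (Pic0.mk D) = Pic0.mk D' ∧
      ∀ w : Place Kbar (FF N),
        m * (D' : Divisor Kbar (FF N)) w = w.ord (swapTo M p N h hp hpM f) := by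
  refine ⟨pushDegZero (swapTo M p N h hp hpM) (swapTo_integral h hp hpM) D, rfl, fun w => ?_⟩
  rw [coe_pushDegZero, pushforwardAlong_kummer (swapTo M p N h hp hpM)
    (swapTo_integral h hp hpM) (swapTo_finite h hp hpM) (swapTo_normFormula h hp hpM _)
    (D : Divisor Kbar (FF N)) hf hD w, normAlong_swapTo]

end To

section Wall

variable (p M' : ℕ) [NeZero M'] [NeZero p] [NeZero (p * M')]

/-- The swap `w_p` of the function field `F_{pM'}` (wall convention). -/
def swapL (hp : p.Prime) (hpM : ¬ p ∣ M') : FF (p * M') →ₐ[Kbar] FF (p * M') :=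
  swapTo M' p (p * M') (Nat.mul_comm M' p) hp hpM

/-- **The Atkin–Lehner involution `w_p` on `J₀(pM')(ℚ̄)`** as a homomorphism. -/
def wLHom (hp : p.Prime) (hpM : ¬ p ∣ M') : JZero (p * M') →+ JZero (p * M') :=
  wPushTo M' p (p * M') (Nat.mul_comm M' p) hp hpM

variable {p M'}

theorem swapL_swapL (hp : p.Prime) (hpM : ¬ p ∣ M') (x : FF (p * M')) :
    swapL p M' hp hpM (swapL p M' hp hpM x) = x :=
  swapTo_swapTo _ hp hpM x

theorem swapL_alphaTo (hp : p.Prime) (hpM : ¬ p ∣ M') (a : FF M') :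
    swapL p M' hp hpM (alphaTo Kbar M' p (p * M') (Nat.mul_comm M' p) a) =
      betaTo Kbar M' p (p * M') (Nat.mul_comm M' p) a :=
  swapTo_alphaTo _ hp hpM a

theorem swapL_betaTo (hp : p.Prime) (hpM : ¬ p ∣ M') (a : FF M') :
    swapL p M' hp hpM (betaTo Kbar M' p (p * M') (Nat.mul_comm M' p) a) =
      alphaTo Kbar M' p (p * M') (Nat.mul_comm M' p) a :=
  swapTo_betaTo _ hp hpM a

theorem swapL_galois (hp : p.Prime) (hpM : ¬ p ∣ M') (σ : Kbar ≃ₐ[ℚ] Kbar)
    (x : FF (p * M')) :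
    arithmeticGalois (modularFunctionFieldFull (p * M')) σ • swapL p M' hp hpM x =
      swapL p M' hp hpM (arithmeticGalois (modularFunctionFieldFull (p * M')) σ • x) :=
  swapTo_galois _ hp hpM σ x

theorem swapL_ne_zero (hp : p.Prime) (hpM : ¬ p ∣ M') {f : FF (p * M')} (hf : f ≠ 0) :
    swapL p M' hp hpM f ≠ 0 :=
  (map_ne_zero_iff _ (swapL p M' hp hpM).toRingHom.injective).mpr hf

theorem wLHom_eq (hp : p.Prime) (hpM : ¬ p ∣ M') (x : JZero (p * M')) :
    wLHom p M' hp hpM x =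
      jzeroCast (Nat.mul_comm M' p)
        (wPush M' p hp hpM (jzeroCast (Nat.mul_comm M' p).symm x)) :=
  wPushTo_eq _ hp hpM x

theorem jzeroCast_symm_apply {N N' : ℕ} [NeZero N] [NeZero N'] (h : N = N') (x : JZero N) :
    jzeroCast h.symm (jzeroCast h x) = x := by
  subst h
  rfl

theorem jzeroCast_irrel {N N' : ℕ} [NeZero N] [NeZero N'] (h h' : N = N') (x : JZero N) :
    jzeroCast h x = jzeroCast h' x := rfl

/-- **`w_p` is an involution.** -/
theorem wLHom_wLHom (hp : p.Prime) (hpM : ¬ p ∣ M') (x : JZero (p * M')) :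
    wLHom p M' hp hpM (wLHom p M' hp hpM x) = x := by
  rw [wLHom_eq, wLHom_eq, jzeroCast_symm_apply, wPush_wPush]
  exact jzeroCast_symm_apply (Nat.mul_comm M' p).symm x

variable (p M')

/-- **The Atkin–Lehner involution `w_p` on `J₀(pM')(ℚ̄)`.** -/
def wL (hp : p.Prime) (hpM : ¬ p ∣ M') : JZero (p * M') ≃+ JZero (p * M') where
  toFun := wLHom p M' hp hpM
  invFun := wLHom p M' hp hpM
  left_inv := wLHom_wLHom hp hpM
  right_inv := wLHom_wLHom hp hpM
  map_add' := map_add _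

variable {p M'}

@[simp] theorem wL_wL (hp : p.Prime) (hpM : ¬ p ∣ M') (x : JZero (p * M')) :
    wL p M' hp hpM (wL p M' hp hpM x) = x :=
  wLHom_wLHom hp hpM x

theorem wL_symm (hp : p.Prime) (hpM : ¬ p ∣ M') : (wL p M' hp hpM).symm = wL p M' hp hpM := rfl

theorem wL_apply (hp : p.Prime) (hpM : ¬ p ∣ M') (x : JZero (p * M')) :
    wL p M' hp hpM x =
      jzeroCast (Nat.mul_comm M' p)
        (wPush M' p hp hpM (jzeroCast (Nat.mul_comm M' p).symm x)) :=
  wLHom_eq hp hpM x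

/-- **`w_p` is Galois-equivariant.** -/
theorem wL_smul (hp : p.Prime) (hpM : ¬ p ∣ M')
    (σ : AlgebraicClosure ℚ ≃ₐ[ℚ] AlgebraicClosure ℚ) (x : JZero (p * M')) :
    wL p M' hp hpM (σ • x) = σ • wL p M' hp hpM x := by
  rw [wL_apply, wL_apply, jzeroCast_smul, wPush_smul, jzeroCast_smul]

/-- **`α_* ∘ w_p = β_*`.** -/
theorem alphaL_wL (hp : p.Prime) (hpM : ¬ p ∣ M') (x : JZero (p * M')) :
    alphaL p M' (wL p M' hp hpM x) = betaL p M' x := by
  rw [wL_apply, alphaL_apply, betaL_apply]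
  have h := jzeroCast_symm_apply (Nat.mul_comm M' p)
    (wPush M' p hp hpM (jzeroCast (Nat.mul_comm M' p).symm x))
  rw [jzeroCast_irrel (Nat.mul_comm p M') (Nat.mul_comm M' p).symm, h, alphaPush_wPush]

/-- **`β_* ∘ w_p = α_*`.** -/
theorem betaL_wL (hp : p.Prime) (hpM : ¬ p ∣ M') (x : JZero (p * M')) :
    betaL p M' (wL p M' hp hpM x) = alphaL p M' x := by
  rw [wL_apply, alphaL_apply, betaL_apply]
  have h := jzeroCast_symm_apply (Nat.mul_comm M' p)
    (wPush M' p hp hpM (jzeroCast (Nat.mul_comm M' p).symm x))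
  rw [jzeroCast_irrel (Nat.mul_comm p M') (Nat.mul_comm M' p).symm, h, betaPush_wPush]

/-- **`w_p` commutes with `T_ℓ`** for every prime `ℓ ≠ p`. -/
theorem wL_heckeOperatorBar (hp : p.Prime) (hpM : ¬ p ∣ M') (ℓ : Nat.Primes)
    (hne : (ℓ : ℕ) ≠ p) (x : JZero (p * M')) :
    wL p M' hp hpM (heckeOperatorBar (p * M') ℓ x) =
      heckeOperatorBar (p * M') ℓ (wL p M' hp hpM x) := by
  rw [wL_apply, wL_apply, jzeroCast_heckeOperatorBar, wPush_heckeOperatorBar hp hpM ℓ hne,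
    jzeroCast_heckeOperatorBar]

theorem wL_nsmul_eq_zero (hp : p.Prime) (hpM : ¬ p ∣ M') {m : ℕ} {x : JZero (p * M')}
    (hx : m • x = 0) : m • wL p M' hp hpM x = 0 := by
  rw [← map_nsmul, hx, map_zero]

/-- **The new part is `w_p`-stable.** -/
theorem wL_new (hp : p.Prime) (hpM : ¬ p ∣ M') {m : ℕ} {x : JZero (p * M')}
    (hx : m • x = 0 ∧ alphaL p M' x = 0 ∧ betaL p M' x = 0) :
    m • wL p M' hp hpM x = 0 ∧ alphaL p M' (wL p M' hp hpM x) = 0 ∧
      betaL p M' (wL p M' hp hpM x) = 0 :=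
  ⟨wL_nsmul_eq_zero hp hpM hx.1, by rw [alphaL_wL]; exact hx.2.2,
    by rw [betaL_wL]; exact hx.2.1⟩

/-- `w (x - w x) = -(x - w x)`. -/
theorem wL_sub_eigen (hp : p.Prime) (hpM : ¬ p ∣ M') (x : JZero (p * M')) :
    wL p M' hp hpM (x - wL p M' hp hpM x) = -(x - wL p M' hp hpM x) := by
  rw [map_sub, wL_wL, neg_sub]

/-- `w (x + w x) = x + w x`. -/
theorem wL_add_eigen (hp : p.Prime) (hpM : ¬ p ∣ M') (x : JZero (p * M')) :
    wL p M' hp hpM (x + wL p M' hp hpM x) = x + wL p M' hp hpM x := by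
  rw [map_add, wL_wL, add_comm]

/-- **Kummer form of `w_p`**: if `x = [D]` with `m D = div f`, then `w_p x = [D']` with
`m D' = div (w_p f)`. -/
theorem wL_mk_of_kummer (hp : p.Prime) (hpM : ¬ p ∣ M') {m : ℤ}
    (D : Divisor.degZero (K := Kbar) (F := FF (p * M'))) {f : FF (p * M')} (hf : f ≠ 0)
    (hD : ∀ w : Place Kbar (FF (p * M')),
      m * (D : Divisor Kbar (FF (p * M'))) w = w.ord f) :
    ∃ D' : Divisor.degZero (K := Kbar) (F := FF (p * M')),
      wL p M' hp hpM (Pic0.mk D) = Pic0.mk D' ∧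
      ∀ w : Place Kbar (FF (p * M')),
        m * (D' : Divisor Kbar (FF (p * M'))) w = w.ord (swapL p M' hp hpM f) :=
  wPushTo_mk_of_kummer (Nat.mul_comm M' p) hp hpM D hf hD

end Wall

end Fermat.Agent.Ribet.H801

end

end
-- ===== PACK-END Ribet/H801/ALWall.lean

-- ===== PACK-BEGIN Ribet/H644/CuspRed.lean
section



/-!
# RIBET, leaf CUSP (purity at the cusps) — the reduction homomorphism on `V∞`  (helper644)

Level `M q`, `q ∤ M`, `A ⊆ ℚ̄` over `q`, `k = kA A`, `F_k = modularFunctionFieldFullC k M`.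

* `cuspFrac M q A`     : the `S37.H940.FracData` of integral `t`-series of level `M q` whose
                         reduction lies in `F_k` (all of them, by `H997` REDFIELD);
* `rhoBar_spec`        : `f U₂ = U₁` (`U₂` primitive) ⟹ `f ∈ V`, `ρ f · Ū₂ = Ū₁`;
* `redE`               : the reduction `V∞ →+* F_k` at a level `E` (`V∞` any `IsVinf`);
* `redE_spec`, `redE_cE`, `redE_eq_zero_iff`, `redE_jE`.
-/

set_option autoImplicit false
set_option linter.unusedSectionVars false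
set_option linter.style.haveILetI false
set_option synthInstance.maxHeartbeats 400000
set_option maxHeartbeats 1600000

noncomputable section

namespace Fermat.Agent.Ribet.H644

open AlgebraicCurve ModularCurve HahnSeries
open Fermat.Agent.S24 Fermat.Agent.A2.H708 Fermat.Agent.Ribet.H884 Fermat.Agent.Ribet.H997
open Fermat.Agent.S37.H940

section Qbar

variable (M q : ℕ) [NeZero M] [NeZero q] (A : ValuationSubring Kbar)

/-- The context of fractions of integral `t`-series of level `M q` with reduction in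
`k(X₀(M))`. -/
def cuspFrac : FracData Kbar ↥(modularFunctionFieldBar (M * q)) (kA A)
    ↥(modularFunctionFieldFullC (kA A) M) :=
  qData A (IsLocalRing.residue A) (modularFunctionFieldBar (M * q))
    (modularFunctionFieldFullC (kA A) M) IsLocalRing.residue_surjective
    (fun a => residue_eq_zero_iff_not_isUnit' a)

variable {M q A}

/-- every integral series of level `M q` has its reduction in `k(X₀(M))`. -/
theorem isIntQ_of_incl (hq : q.Prime) (hqM : ¬ q ∣ M) (hA : A.LiesOverPrime q)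
    (f : ↥(modularFunctionFieldBar (M * q))) (U : LaurentSeries A)
    (h : incl A U = (f : LaurentSeries Kbar)) :
    IsIntQ A (IsLocalRing.residue A) (modularFunctionFieldBar (M * q))
      (modularFunctionFieldFullC (kA A) M) f := by
  refine ⟨U, h, ?_⟩
  by_cases hU : red A U = 0
  · have : coeffMap (IsLocalRing.residue A) U = 0 := hU
    rw [this]
    exact zero_mem _
  · have hred : IsRedSer A (incl A U) (red A U) :=
      ⟨1, U, 1, one_ne_zero, hU, by rw [map_one]; exact one_ne_zero,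
        by rw [map_one, mul_one, cst_one, one_mul], by rw [map_one, mul_one]⟩
    have hmem : incl A U ∈ modularFunctionFieldBar (M * q) := by
      rw [h]
      exact f.2
    exact isRedSer_mem_of_level_mul hq hqM hA hmem hred

/-- **The reduction of a fraction.** -/
theorem rhoBar_spec (hq : q.Prime) (hqM : ¬ q ∣ M) (hA : A.LiesOverPrime q)
    (f : ↥(modularFunctionFieldBar (M * q))) (U₁ U₂ : LaurentSeries A) (h₂ : red A U₂ ≠ 0)
    (hm₂ : incl A U₂ ∈ modularFunctionFieldBar (M * q))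
    (he : (f : LaurentSeries Kbar) * incl A U₂ = incl A U₁) :
    ∃ hf : f ∈ (cuspFrac M q A).V,
      (((cuspFrac M q A).ρ ⟨f, hf⟩ : ↥(modularFunctionFieldFullC (kA A) M)) :
        LaurentSeries (kA A)) * red A U₂ = red A U₁ := by
  have hm₁ : incl A U₁ ∈ modularFunctionFieldBar (M * q) := by
    rw [← he]
    exact mul_mem f.2 hm₂
  have hi₁ := isIntQ_of_incl hq hqM hA ⟨incl A U₁, hm₁⟩ U₁ rfl
  have hi₂ := isIntQ_of_incl hq hqM hA ⟨incl A U₂, hm₂⟩ U₂ rfl
  set a : (cuspFrac M q A).O := ⟨⟨incl A U₁, hm₁⟩, hi₁⟩ with ha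
  set b : (cuspFrac M q A).O := ⟨⟨incl A U₂, hm₂⟩, hi₂⟩ with hb
  have hρa : (((cuspFrac M q A).ρ₀ a : ↥(modularFunctionFieldFullC (kA A) M)) :
      LaurentSeries (kA A)) = red A U₁ :=
    coe_redQ A (IsLocalRing.residue A) _ _ ⟨⟨incl A U₁, hm₁⟩, hi₁⟩ (y := U₁) rfl
  have hρb : (((cuspFrac M q A).ρ₀ b : ↥(modularFunctionFieldFullC (kA A) M)) :
      LaurentSeries (kA A)) = red A U₂ :=
    coe_redQ A (IsLocalRing.residue A) _ _ ⟨⟨incl A U₂, hm₂⟩, hi₂⟩ (y := U₂) rfl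
  have hb0 : (cuspFrac M q A).ρ₀ b ≠ 0 := by
    intro h0
    apply h₂
    rw [← hρb, h0]
    rfl
  have hab : (f : ↥(modularFunctionFieldBar (M * q))) *
      ((b : ↥(modularFunctionFieldBar (M * q)))) = (a : ↥(modularFunctionFieldBar (M * q))) :=
    Subtype.ext he
  have hf : f ∈ (cuspFrac M q A).V := ⟨a, b, hb0, hab⟩
  refine ⟨hf, ?_⟩
  rw [(cuspFrac M q A).ρ_apply ⟨f, hf⟩ hb0 hab, IntermediateField.coe_div, hρa, hρb,
    div_mul_cancel₀ _ h₂]

/-- constants -/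
theorem rhoBar_const (a : A) :
    ∃ hf : algebraMap Kbar ↥(modularFunctionFieldBar (M * q)) (a : Kbar) ∈ (cuspFrac M q A).V,
      (cuspFrac M q A).ρ ⟨_, hf⟩ =
        algebraMap (kA A) ↥(modularFunctionFieldFullC (kA A) M) (IsLocalRing.residue A a) :=
  ⟨(cuspFrac M q A).ctx.A_mem a, (cuspFrac M q A).ctx.ρ_A a⟩

end Qbar

/-! ## The reduction at a level `E` -/

section ELevel

open Fermat.Agent.A2 Fermat.Agent.A2.T1.H669

variable {M q : ℕ} [NeZero M] [NeZero q] {A : ValuationSubring Kbar}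
  (E : IntermediateField ℚ Kbar)

/-- `ι` maps `V∞` of level `E` into the ring of fractions. -/
theorem iota_mem_V (hq : q.Prime) (hqM : ¬ q ∣ M) (hA : A.LiesOverPrime q)
    {V : ValuationSubring ↥(Mod.FE E (M * q))} (hV : Mod.IsVinf A E (M * q) V)
    (f : ↥(Mod.FE E (M * q))) (hf : f ∈ V) :
    iota E (modularFunctionFieldFull (M * q)) f ∈ (cuspFrac M q A).V := by
  obtain ⟨U₁, U₂, h₂, hm₂, he⟩ := (hV f).mp hf
  have he' : ((iota E (modularFunctionFieldFull (M * q)) f :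
      ↥(modularFunctionFieldBar (M * q))) : LaurentSeries Kbar) * incl A (upA A E U₂) =
      incl A (upA A E U₁) := by
    rw [coe_iota, incl_upA, incl_upA, ← map_mul, he]
  have hm₂' : incl A (upA A E U₂) ∈ modularFunctionFieldBar (M * q) := by
    rw [incl_upA]
    exact Fermat.Agent.S18.H602.coeffMap_mem_laurentBaseChange _ _ hm₂
  exact (rhoBar_spec hq hqM hA _ _ _ (red_upA_ne_zero E h₂) hm₂' he').1

/-- **The reduction homomorphism** `V∞ → k(X₀(M))` at the level `E`. -/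
def redE (hq : q.Prime) (hqM : ¬ q ∣ M) (hA : A.LiesOverPrime q)
    {V : ValuationSubring ↥(Mod.FE E (M * q))} (hV : Mod.IsVinf A E (M * q) V) :
    ↥V →+* ↥(modularFunctionFieldFullC (kA A) M) :=
  (cuspFrac M q A).ρ.comp
    (((iota E (modularFunctionFieldFull (M * q))).comp V.subtype).codRestrict
      (cuspFrac M q A).V (fun f => iota_mem_V E hq hqM hA hV f f.2))

variable {E}

theorem redE_spec (hq : q.Prime) (hqM : ¬ q ∣ M) (hA : A.LiesOverPrime q)
    {V : ValuationSubring ↥(Mod.FE E (M * q))} (hV : Mod.IsVinf A E (M * q) V)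
    (f : ↥V) (U₁ U₂ : LaurentSeries ↥(Mod.RE A E)) (h₂ : red (Mod.RE A E) U₂ ≠ 0)
    (hm₂ : incl (Mod.RE A E) U₂ ∈ Mod.FE E (M * q))
    (he : ((f : ↥(Mod.FE E (M * q))) : LaurentSeries E) * incl (Mod.RE A E) U₂ =
      incl (Mod.RE A E) U₁) :
    ((redE E hq hqM hA hV f : ↥(modularFunctionFieldFullC (kA A) M)) :
      LaurentSeries (kA A)) * red A (upA A E U₂) = red A (upA A E U₁) := by
  have he' : ((iota E (modularFunctionFieldFull (M * q)) (f : ↥(Mod.FE E (M * q))) :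
      ↥(modularFunctionFieldBar (M * q))) : LaurentSeries Kbar) * incl A (upA A E U₂) =
      incl A (upA A E U₁) := by
    rw [coe_iota, incl_upA, incl_upA, ← map_mul, he]
  have hm₂' : incl A (upA A E U₂) ∈ modularFunctionFieldBar (M * q) := by
    rw [incl_upA]
    exact Fermat.Agent.S18.H602.coeffMap_mem_laurentBaseChange _ _ hm₂
  obtain ⟨hf, h⟩ := rhoBar_spec hq hqM hA _ _ _ (red_upA_ne_zero E h₂) hm₂' he'
  exact h

/-- the reduction of an integral series -/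
theorem redE_of_incl (hq : q.Prime) (hqM : ¬ q ∣ M) (hA : A.LiesOverPrime q)
    {V : ValuationSubring ↥(Mod.FE E (M * q))} (hV : Mod.IsVinf A E (M * q) V)
    (f : ↥V) (U : LaurentSeries ↥(Mod.RE A E))
    (he : ((f : ↥(Mod.FE E (M * q))) : LaurentSeries E) = incl (Mod.RE A E) U) :
    ((redE E hq hqM hA hV f : ↥(modularFunctionFieldFullC (kA A) M)) :
      LaurentSeries (kA A)) = red A (upA A E U) := by
  have h := redE_spec hq hqM hA hV f U 1 (by rw [map_one]; exact one_ne_zero)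
    (by rw [map_one]; exact one_mem _) (by rw [map_one, mul_one, he])
  rwa [map_one, map_one, mul_one] at h

/-- the reduction of a constant -/
theorem redE_cE (hq : q.Prime) (hqM : ¬ q ∣ M) (hA : A.LiesOverPrime q)
    {V : ValuationSubring ↥(Mod.FE E (M * q))} (hV : Mod.IsVinf A E (M * q) V)
    (r : ↥(Mod.RE A E)) (hr : Mod.cE A E (M * q) r ∈ V) :
    redE E hq hqM hA hV ⟨Mod.cE A E (M * q) r, hr⟩ =
      algebraMap (kA A) ↥(modularFunctionFieldFullC (kA A) M)
        (IsLocalRing.residue A (toA' A E r)) := by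
  apply Subtype.ext
  have he : (((⟨Mod.cE A E (M * q) r, hr⟩ : ↥V) : ↥(Mod.FE E (M * q))) : LaurentSeries E) =
      incl (Mod.RE A E) (cstA (Mod.RE A E) r) := by
    rw [incl_cstA]
    rfl
  rw [redE_of_incl hq hqM hA hV _ _ he, upA_cstA, red_cstA]
  show _ = algebraMap (kA A) (LaurentSeries (kA A)) _
  rw [algebraMap_laurentSeries_eq_single]

/-- the reduction of a uniformiser vanishes -/
theorem redE_cE_unif (hq : q.Prime) (hqM : ¬ q ∣ M) (hA : A.LiesOverPrime q)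
    {V : ValuationSubring ↥(Mod.FE E (M * q))} (hV : Mod.IsVinf A E (M * q) V)
    {w : ↥(Mod.RE A E)} (hw : ¬ IsUnit w) (hr : Mod.cE A E (M * q) w ∈ V) :
    redE E hq hqM hA hV ⟨Mod.cE A E (M * q) w, hr⟩ = 0 := by
  rw [redE_cE]
  have : IsLocalRing.residue A (toA' A E w) = 0 := by
    rw [residue_eq_zero_iff_not_isUnit', isUnit_toA'_iff]
    exact hw
  rw [this, map_zero]

/-- **the kernel of the reduction is `w V∞`.** -/
theorem redE_eq_zero_iff (hq : q.Prime) (hqM : ¬ q ∣ M) (hA : A.LiesOverPrime q)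
    [IsDiscreteValuationRing ↥(Mod.RE A E)]
    {V : ValuationSubring ↥(Mod.FE E (M * q))} (hV : Mod.IsVinf A E (M * q) V)
    {w : ↥(Mod.RE A E)} (hw : Irreducible w) (f : ↥V) :
    redE E hq hqM hA hV f = 0 ↔
      Mod.InW A E (M * q) V w (f : ↥(Mod.FE E (M * q))) := by
  have hMq : M * q ≠ 0 := Nat.mul_ne_zero (NeZero.ne M) hq.ne_zero
  obtain ⟨hunif, -, -⟩ := Mod.H553.vinfBasic A E w (M * q) hMq inferInstance hw V hV
  have hwV : Mod.cE A E (M * q) w ∈ V := hunif.mem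
  have hw0 : Mod.cE A E (M * q) w ≠ 0 := by
    intro h0
    apply hunif.inv_not_mem
    rw [h0, inv_zero]
    exact V.zero_mem
  constructor
  · intro h0
    by_cases hf0 : (f : ↥(Mod.FE E (M * q))) = 0
    · show (f : ↥(Mod.FE E (M * q))) * (Mod.cE A E (M * q) w)⁻¹ ∈ V
      rw [hf0, zero_mul]
      exact V.zero_mem
    · refine hunif.gen _ f.2 ?_
      intro hinv
      have h1 : f * ⟨(f : ↥(Mod.FE E (M * q)))⁻¹, hinv⟩ = 1 :=
        Subtype.ext (mul_inv_cancel₀ hf0)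
      have h2 := congrArg (redE E hq hqM hA hV) h1
      rw [map_mul, h0, zero_mul, map_one] at h2
      exact zero_ne_one h2
  · intro h
    have h1 : f = ⟨Mod.cE A E (M * q) w, hwV⟩ *
        ⟨(f : ↥(Mod.FE E (M * q))) * (Mod.cE A E (M * q) w)⁻¹, h⟩ := by
      apply Subtype.ext
      show (f : ↥(Mod.FE E (M * q))) = Mod.cE A E (M * q) w *
        ((f : ↥(Mod.FE E (M * q))) * (Mod.cE A E (M * q) w)⁻¹)
      field_simp
    rw [h1, map_mul, redE_cE_unif hq hqM hA hV hw.not_isUnit, zero_mul]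

/-- the reduction of `j_d` is `j(t^d)` over `k`. -/
theorem redE_jE (hq : q.Prime) (hqM : ¬ q ∣ M) (hA : A.LiesOverPrime q)
    {V : ValuationSubring ↥(Mod.FE E (M * q))} (hV : Mod.IsVinf A E (M * q) V)
    (d : ℕ) [NeZero d] (hd : d ∣ M * q) (hj : Mod.jE E (M * q) d hd ∈ V) :
    ((redE E hq hqM hA hV ⟨Mod.jE E (M * q) d hd, hj⟩ :
      ↥(modularFunctionFieldFullC (kA A) M)) : LaurentSeries (kA A)) = jqNModC (kA A) d := by
  have he : (((⟨Mod.jE E (M * q) d hd, hj⟩ : ↥V) : ↥(Mod.FE E (M * q))) : LaurentSeries E) =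
      incl (Mod.RE A E) (castA (Mod.RE A E) (jInt d)) := by
    rw [incl_castA]
    exact Mod.H553.coe_jE (E := E) (M * q) d hd
  rw [redE_of_incl hq hqM hA hV _ _ he]
  show coeffMap (IsLocalRing.residue A) (coeffMap (toA' A E)
    (coeffMap (Int.castRingHom ↥(Mod.RE A E)) (jqNModC ℤ d))) = _
  rw [coeffMap_jqNModC, coeffMap_jqNModC, coeffMap_jqNModC]

end ELevel

end Fermat.Agent.Ribet.H644

end

end
-- ===== PACK-END Ribet/H644/CuspRed.lean

-- ===== PACK-BEGIN Ribet/H644/CuspChart.lean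
section









/-!
# RIBET, leaf CUSP (purity at the cusps) — the cusps on the chart at infinity  (helper644)

Level `M q`, good level `E`, `B = chartAlg (x⁻¹)`, `x = j j_q`, `V = V∞`, `Q` a place of
`F_k = k(X₀(M))` with `ord_Q j < 0` (a cusp of the component `C∞`).

* `redE_inv`, `redE_jE_one`, `redE_jE_q`, `redE_xinv`     : values of the reduction;
* `redE_mem_of_mem_chart`  : `ρ(B) ⊆ O_Q`   (integrality);
* `cuspIdeal`              : `n = {b ∈ B | ρ b ∈ m_Q}`, prime, `p₁ ≤ n`, `w ∈ n`;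
* `eprime_mem_chart`       : `e' = j / j_q ^ q ∈ B`   (Newton polygon of `Φ_q`);
* `not_le_cuspIdeal`       : **no node at infinity**, `¬ p₂ ≤ n`;
* `dvd_ord_of_pureAt`      : `PureAt B c m u n`, `u` a unit of `V∞`  ⟹  `m ∣ ord_Q (ρ u)`.
-/

set_option autoImplicit false
set_option linter.unusedSectionVars false
set_option linter.unusedVariables false
set_option linter.style.haveILetI false
set_option synthInstance.maxHeartbeats 400000
set_option maxHeartbeats 1600000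

noncomputable section

namespace Fermat.Agent.Ribet.H644

open AlgebraicCurve ModularCurve HahnSeries
open Fermat.Agent.S24 Fermat.Agent.A2.H708 Fermat.Agent.Ribet.H884 Fermat.Agent.Ribet.H997
open Fermat.Agent.A2 Fermat.Agent.A2.Alg
open Fermat.Agent.S35.G (CutBy)

section Values

variable {M q : ℕ} [NeZero M] [NeZero q] {A : ValuationSubring Kbar}
  {E : IntermediateField ℚ Kbar}

theorem redE_inv (hq : q.Prime) (hqM : ¬ q ∣ M) (hA : A.LiesOverPrime q)
    {V : ValuationSubring ↥(Mod.FE E (M * q))} (hV : Mod.IsVinf A E (M * q) V)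
    (u : ↥(Mod.FE E (M * q))) (hu : u ∈ V) (hu' : u⁻¹ ∈ V) (hu0 : u ≠ 0) :
    redE E hq hqM hA hV ⟨u⁻¹, hu'⟩ = (redE E hq hqM hA hV ⟨u, hu⟩)⁻¹ := by
  have h1 : (⟨u, hu⟩ : ↥V) * ⟨u⁻¹, hu'⟩ = 1 := Subtype.ext (mul_inv_cancel₀ hu0)
  have h2 := congrArg (redE E hq hqM hA hV) h1
  rw [map_mul, map_one] at h2
  exact eq_inv_of_mul_eq_one_right h2

theorem redE_ne_zero_of_unit (hq : q.Prime) (hqM : ¬ q ∣ M) (hA : A.LiesOverPrime q)
    {V : ValuationSubring ↥(Mod.FE E (M * q))} (hV : Mod.IsVinf A E (M * q) V)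
    (u : ↥(Mod.FE E (M * q))) (hu : u ∈ V) (hu' : u⁻¹ ∈ V) (hu0 : u ≠ 0) :
    redE E hq hqM hA hV ⟨u, hu⟩ ≠ 0 := by
  intro h0
  have h1 : (⟨u, hu⟩ : ↥V) * ⟨u⁻¹, hu'⟩ = 1 := Subtype.ext (mul_inv_cancel₀ hu0)
  have h2 := congrArg (redE E hq hqM hA hV) h1
  rw [map_mul, map_one, h0, zero_mul] at h2
  exact zero_ne_one h2

theorem charP_kA644 (hq : q.Prime) (hA : A.LiesOverPrime q) : CharP (kA A) q := by
  have h0 : ((q : ℕ) : kA A) = 0 := by
    have h1 : (⟨(q : Kbar), A.nonunits_subset hA⟩ : A) ∈ IsLocalRing.maximalIdeal A := by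
      rw [IsLocalRing.mem_maximalIdeal, mem_nonunits_iff]
      intro hu
      have := (A.mem_nonunits_iff_exists_mem_maximalIdeal).mp hA
      obtain ⟨hm, hmax⟩ := this
      exact (IsLocalRing.mem_maximalIdeal _).mp hmax hu
    have h2 := (IsLocalRing.residue_eq_zero_iff _).mpr h1
    have h3 : (⟨(q : Kbar), A.nonunits_subset hA⟩ : A) = ((q : ℕ) : A) :=
      Subtype.ext (by push_cast; rfl)
    rw [h3, map_natCast] at h2
    exact h2
  haveI : Fact q.Prime := ⟨hq⟩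
  exact (CharP.charP_iff_prime_eq_zero hq).mpr h0

/-- `ρ(j) = j̄`. -/
theorem redE_jE_one (hq : q.Prime) (hqM : ¬ q ∣ M) (hA : A.LiesOverPrime q)
    {V : ValuationSubring ↥(Mod.FE E (M * q))} (hV : Mod.IsVinf A E (M * q) V)
    (hj : Mod.jE E (M * q) 1 (one_dvd _) ∈ V) :
    redE E hq hqM hA hV ⟨Mod.jE E (M * q) 1 (one_dvd _), hj⟩ = jC (kA A) M := by
  apply Subtype.ext
  rw [redE_jE hq hqM hA hV 1 (one_dvd _) hj, jqNModC_one]
  rfl

/-- `ρ(j_q) = j̄ ^ q` (Kronecker). -/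
theorem redE_jE_q (hq : q.Prime) (hqM : ¬ q ∣ M) (hA : A.LiesOverPrime q)
    {V : ValuationSubring ↥(Mod.FE E (M * q))} (hV : Mod.IsVinf A E (M * q) V)
    (hj : Mod.jE E (M * q) q (dvd_mul_left q M) ∈ V) :
    redE E hq hqM hA hV ⟨Mod.jE E (M * q) q (dvd_mul_left q M), hj⟩ = jC (kA A) M ^ q := by
  haveI : Fact q.Prime := ⟨hq⟩
  haveI : CharP (kA A) q := charP_kA644 hq hA
  apply Subtype.ext
  rw [redE_jE hq hqM hA hV q (dvd_mul_left q M) hj]
  have h1 := Fermat.Agent.S28.h88_pow_char_eq_qExpand (kA A) q (jqModC (kA A))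
  rw [coeffMap_jqModC] at h1
  show jqNModC (kA A) q = (jqModC (kA A)) ^ q
  rw [h1, jqNModC]

end Values

/-! ## The chart at infinity -/

section Chart

variable {M q : ℕ} [NeZero M] [NeZero q] {A : ValuationSubring Kbar}
  {E : IntermediateField ℚ Kbar} {w : ↥(Mod.RE A E)}

/-- the chart at infinity of level `M q`, coordinate `x⁻¹`, `x = j j_q`. -/
abbrev chartInf (A : ValuationSubring Kbar) (E : IntermediateField ℚ Kbar) (M q : ℕ)
    [NeZero M] [NeZero q] : Subalgebra ↥(Mod.RE A E) ↥(Mod.FE E (M * q)) :=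
  Mod.chartAlg A E (M * q) (Mod.xE E M q)⁻¹

theorem jE_unit (hS : Mod.Setting A E M q w) {V : ValuationSubring ↥(Mod.FE E (M * q))}
    (hV : Mod.IsVinf A E (M * q) V) (d : ℕ) [NeZero d] (hd : d ∣ M * q) :
    Mod.jE E (M * q) d hd ∈ V ∧ (Mod.jE E (M * q) d hd)⁻¹ ∈ V := by
  have hMq : M * q ≠ 0 := Nat.mul_ne_zero hS.M_ne_zero hS.q_prime.ne_zero
  exact (Mod.H553.vinfBasic A E w (M * q) hMq hS.dvr hS.unif V hV).2.2 d hd

theorem cE_mem644 (hS : Mod.Setting A E M q w) {V : ValuationSubring ↥(Mod.FE E (M * q))}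
    (hV : Mod.IsVinf A E (M * q) V) (r : ↥(Mod.RE A E)) : Mod.cE A E (M * q) r ∈ V := by
  have hMq : M * q ≠ 0 := Nat.mul_ne_zero hS.M_ne_zero hS.q_prime.ne_zero
  exact ((Mod.H553.vinfBasic A E w (M * q) hMq hS.dvr hS.unif V hV).2.1 (r : E)).mpr r.2

theorem xinv_mem (hS : Mod.Setting A E M q w) {V : ValuationSubring ↥(Mod.FE E (M * q))}
    (hV : Mod.IsVinf A E (M * q) V) : (Mod.xE E M q)⁻¹ ∈ V := by
  have h1 := (jE_unit hS hV 1 (one_dvd _)).2
  have h2 := (jE_unit hS hV q (dvd_mul_left q M)).2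
  have : (Mod.xE E M q)⁻¹ = (Mod.jE E (M * q) 1 (one_dvd _))⁻¹ *
      (Mod.jE E (M * q) q (dvd_mul_left q M))⁻¹ := by
    rw [← mul_inv]
    rfl
  rw [this]
  exact V.mul_mem _ _ h1 h2

theorem jE_ne_zero644 (hS : Mod.Setting A E M q w) {V : ValuationSubring ↥(Mod.FE E (M * q))}
    (hV : Mod.IsVinf A E (M * q) V) (d : ℕ) [NeZero d] (hd : d ∣ M * q) :
    Mod.jE E (M * q) d hd ≠ 0 :=
  Mod.H873.jE_ne_zero (E := E) (M * q) d hd

/-- `ρ(x⁻¹) = (j̄ ^ (q + 1))⁻¹`. -/
theorem redE_xinv (hS : Mod.Setting A E M q w) {V : ValuationSubring ↥(Mod.FE E (M * q))}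
    (hV : Mod.IsVinf A E (M * q) V) :
    redE E hS.q_prime hS.q_not_dvd hS.lies_over hV ⟨(Mod.xE E M q)⁻¹, xinv_mem hS hV⟩ =
      (jC (kA A) M ^ (q + 1))⁻¹ := by
  have h1 := jE_unit hS hV 1 (one_dvd _)
  have h2 := jE_unit hS hV q (dvd_mul_left q M)
  have hx : Mod.xE E M q ∈ V := V.mul_mem _ _ h1.1 h2.1
  have hx0 : Mod.xE E M q ≠ 0 :=
    mul_ne_zero (jE_ne_zero644 hS hV 1 (one_dvd _)) (jE_ne_zero644 hS hV q (dvd_mul_left q M))
  rw [redE_inv hS.q_prime hS.q_not_dvd hS.lies_over hV _ hx (xinv_mem hS hV) hx0]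
  congr 1
  have : (⟨Mod.xE E M q, hx⟩ : ↥V) = ⟨Mod.jE E (M * q) 1 (one_dvd _), h1.1⟩ *
      ⟨Mod.jE E (M * q) q (dvd_mul_left q M), h2.1⟩ := rfl
  rw [this, map_mul, redE_jE_one, redE_jE_q, pow_succ, mul_comm]

variable (Q : Place (kA A) ↥(modularFunctionFieldFullC (kA A) M))

theorem jC_ne_zero (hQ : Q.ord (jC (kA A) M) < 0) : jC (kA A) M ≠ 0 := by
  intro h0
  rw [h0, Place.ord_zero] at hQ
  exact lt_irrefl _ hQ

/-- `ord_Q ρ(x⁻¹) > 0` at a cusp. -/
theorem ord_redE_xinv (hS : Mod.Setting A E M q w) {V : ValuationSubring ↥(Mod.FE E (M * q))}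
    (hV : Mod.IsVinf A E (M * q) V) (hQ : Q.ord (jC (kA A) M) < 0) :
    0 < Q.ord (redE E hS.q_prime hS.q_not_dvd hS.lies_over hV
      ⟨(Mod.xE E M q)⁻¹, xinv_mem hS hV⟩ : ↥(modularFunctionFieldFullC (kA A) M)) := by
  rw [redE_xinv hS hV, Place.ord_inv, Fermat.Agent.A2.H129.ord_pow]
  have h1 : (0 : ℤ) < ((q + 1 : ℕ) : ℤ) := by positivity
  have h2 : ((q + 1 : ℕ) : ℤ) * Q.ord (jC (kA A) M) < 0 := mul_neg_of_pos_of_neg h1 hQ
  linarith

/-- The elements of `V∞` whose reduction is regular at `Q`. -/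
def regSub (hS : Mod.Setting A E M q w) {V : ValuationSubring ↥(Mod.FE E (M * q))}
    (hV : Mod.IsVinf A E (M * q) V) :
    Subalgebra ↥(Mod.RE A E) ↥(Mod.FE E (M * q)) where
  carrier := {f | ∃ hf : f ∈ V,
    (redE E hS.q_prime hS.q_not_dvd hS.lies_over hV ⟨f, hf⟩ :
      ↥(modularFunctionFieldFullC (kA A) M)) ∈ Q.toValuationSubring}
  mul_mem' := by
    rintro a b ⟨ha, ha'⟩ ⟨hb, hb'⟩
    refine ⟨V.mul_mem _ _ ha hb, ?_⟩
    have : (⟨a * b, V.mul_mem _ _ ha hb⟩ : ↥V) = ⟨a, ha⟩ * ⟨b, hb⟩ := rfl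
    rw [this, map_mul]
    exact Q.toValuationSubring.mul_mem _ _ ha' hb'
  add_mem' := by
    rintro a b ⟨ha, ha'⟩ ⟨hb, hb'⟩
    refine ⟨V.add_mem _ _ ha hb, ?_⟩
    have : (⟨a + b, V.add_mem _ _ ha hb⟩ : ↥V) = ⟨a, ha⟩ + ⟨b, hb⟩ := rfl
    rw [this, map_add]
    exact Q.toValuationSubring.add_mem _ _ ha' hb'
  algebraMap_mem' := by
    intro r
    refine ⟨cE_mem644 hS hV r, ?_⟩
    have := redE_cE hS.q_prime hS.q_not_dvd hS.lies_over hV r (cE_mem644 hS hV r)
    show (redE E hS.q_prime hS.q_not_dvd hS.lies_over hV ⟨Mod.cE A E (M * q) r, _⟩ :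
      ↥(modularFunctionFieldFullC (kA A) M)) ∈ Q.toValuationSubring
    rw [this]
    exact Q.algebraMap_mem' _

theorem adjoin_le_regSub (hS : Mod.Setting A E M q w)
    {V : ValuationSubring ↥(Mod.FE E (M * q))} (hV : Mod.IsVinf A E (M * q) V)
    (hQ : Q.ord (jC (kA A) M) < 0) :
    Algebra.adjoin ↥(Mod.RE A E) ({(Mod.xE E M q)⁻¹} : Set ↥(Mod.FE E (M * q))) ≤
      regSub Q hS hV := by
  refine Algebra.adjoin_le ?_
  rw [Set.singleton_subset_iff]
  exact ⟨xinv_mem hS hV, Fermat.Agent.S24.FF.mem_of_ord_nonneg Q (ord_redE_xinv Q hS hV hQ).le⟩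

/-- **`ρ(B) ⊆ O_Q`** at a cusp `Q`. -/
theorem redE_mem_of_mem_chart (hS : Mod.Setting A E M q w)
    {V : ValuationSubring ↥(Mod.FE E (M * q))} (hV : Mod.IsVinf A E (M * q) V)
    (hQ : Q.ord (jC (kA A) M) < 0) (b : ↥(Mod.FE E (M * q))) (hb : b ∈ chartInf A E M q)
    (hbV : b ∈ V) :
    (redE E hS.q_prime hS.q_not_dvd hS.lies_over hV ⟨b, hbV⟩ :
      ↥(modularFunctionFieldFullC (kA A) M)) ∈ Q.toValuationSubring := by
  have hint : IsIntegral
      ↥(Algebra.adjoin ↥(Mod.RE A E) ({(Mod.xE E M q)⁻¹} : Set ↥(Mod.FE E (M * q)))) b := hb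
  obtain ⟨p, hp, hpb⟩ := hint
  have hA₀ := adjoin_le_regSub Q hS hV hQ
  let i₀ : ↥(Algebra.adjoin ↥(Mod.RE A E) ({(Mod.xE E M q)⁻¹} : Set ↥(Mod.FE E (M * q)))) →+*
      ↥V :=
    ((Algebra.adjoin ↥(Mod.RE A E)
      ({(Mod.xE E M q)⁻¹} : Set ↥(Mod.FE E (M * q)))).val.toRingHom).codRestrict V
      (fun a => (hA₀ a.2).1)
  let φ : ↥(Algebra.adjoin ↥(Mod.RE A E) ({(Mod.xE E M q)⁻¹} : Set ↥(Mod.FE E (M * q)))) →+*
      ↥Q.toValuationSubring :=
    ((redE E hS.q_prime hS.q_not_dvd hS.lies_over hV).comp i₀).codRestrict Q.toValuationSubring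
      (fun a => (hA₀ a.2).2)
  have hint' : IsIntegral ↥Q.toValuationSubring
      (redE E hS.q_prime hS.q_not_dvd hS.lies_over hV ⟨b, hbV⟩) := by
    refine ⟨p.map φ, hp.map _, ?_⟩
    rw [Polynomial.eval₂_map]
    have hcomp : (algebraMap ↥Q.toValuationSubring ↥(modularFunctionFieldFullC (kA A) M)).comp φ =
        (redE E hS.q_prime hS.q_not_dvd hS.lies_over hV).comp i₀ := RingHom.ext fun _ => rfl
    rw [hcomp, ← Polynomial.hom_eval₂]
    have h0 : Polynomial.eval₂ i₀ ⟨b, hbV⟩ p = 0 := by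
      apply Subtype.ext
      have h1 := Polynomial.hom_eval₂ p i₀ V.subtype ⟨b, hbV⟩
      have h2 : ((Polynomial.eval₂ i₀ ⟨b, hbV⟩ p : ↥V) : ↥(Mod.FE E (M * q))) =
          V.subtype (Polynomial.eval₂ i₀ ⟨b, hbV⟩ p) := rfl
      rw [h2, h1]
      exact hpb
    rw [h0, map_zero]
  obtain ⟨y, hy⟩ := IsIntegrallyClosed.isIntegral_iff (R := ↥Q.toValuationSubring)
    (K := ↥(modularFunctionFieldFullC (kA A) M)) |>.mp hint'
  rw [← hy]
  exact y.2

end Chart

end Fermat.Agent.Ribet.H644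

end

end
-- ===== PACK-END Ribet/H644/CuspChart.lean

-- ===== PACK-BEGIN S30/H330/AdicChain.lean
section
/-
S30 -- the frozen statement S30 from the TWO remaining open inputs (helper330).

Everything else of the chain is on main and is wired here:
  K1 (helper332), K2 (helper150), K4-UNIQ/INJ/ADD (helper822), K4-HECKE (helper395),
  K3 from K3-FIN (helper42), FIN (helper810), (P) (helper709), (Sm) (helper126), (GH) (helper571),
  adic module layer (helper330), top glue (helper990), CHEB Tier 1.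

* `kumPackage_of_k3fin` : `K3.FinStatement N m` ⟹ `H450.KumPackage N m` (any modulus `m ≠ 0`);
* `result_of_k3fin` : S30 from `K3-FIN` at the moduli `p ^ n` and the torsion relations (T);
* `result_of_k3fin_rawESAll` : S30 from `K3-FIN` and the raw Eichler–Shimura statement on all
  prime-to-`ℓ` torsion (`RawESAll`, see `AdicTorsionRel.lean` for its derivation from each of the
  interfaces of the S37 row).
-/









set_option autoImplicit false
set_option linter.overlappingInstances false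

noncomputable section

namespace Fermat.Agent.S30.H330

open Fermat.Agent.S29 Fermat.Agent.S29.M4b ModularCurve Fermat.Agent.S30.H450 Polynomial

/-- The Kummer package at the modulus `m ≠ 0` from the single open sub-piece `K3-FIN`. -/
theorem kumPackage_of_k3fin (N : ℕ) [NeZero N] (m : ℕ) [NeZero m]
    (hfin : Fermat.Agent.S29.M4b.K3.FinStatement N m) : KumPackage N m :=
  KumPackage.of_skeleton
    (fun hc => top_isKum_exists (fun hc' => Fermat.Agent.S29.H332.exists_isTwisted N m hc')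
      (Fermat.Agent.S29.M4b.K3.pieceK3_of_fin N m hfin) (Fermat.Agent.S29.H150.pieceK2 N m) hc)
    (fun h h' => Fermat.Agent.S29.M4b.H822.pieceUniq N m (NeZero.ne m) h h')
    (fun h => Fermat.Agent.S29.M4b.H822.pieceInj N m (NeZero.ne m) h)
    (fun h h' => Fermat.Agent.S29.M4b.H822.pieceAdd N m (NeZero.ne m) h h')
    (fun ℓ hℓ hfac _ _ hc hcc' _ h =>
      Fermat.Agent.S29.M4b.H395.isKum_hecke N m ℓ hℓ hfac hc hcc' h)

/-- Input (F) holds (helper810, unconditional). -/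
theorem finStatement (N : ℕ) [NeZero N] (p : ℕ) [NeZero p] : FinStatement N p :=
  Fermat.Agent.S30.H810.torsion_finite N p

/-- Input (K') from `K3-FIN` at the moduli `p ^ n`. -/
theorem kummerInjStatement_of_k3fin (N : ℕ) [NeZero N] (p : ℕ) [NeZero p]
    (hfin : ∀ n : ℕ, Fermat.Agent.S29.M4b.K3.FinStatement N (p ^ n)) :
    KummerInjStatement N p :=
  kummerInjStatement_of_packages (fun n => kumPackage_of_k3fin N (p ^ n) (hfin n))

/-- **S30 from `K3-FIN` and (T).** -/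
theorem result_of_k3fin
    (hfin : ∀ (N : ℕ) [NeZero N] (p : ℕ) [Fact p.Prime] (n : ℕ),
      Fermat.Agent.S29.M4b.K3.FinStatement N (p ^ n))
    (hT : ∀ (N : ℕ) [NeZero N] (p : ℕ) [Fact p.Prime], TorsionRelations N p) :
    ∀ (p : ℕ) [Fact p.Prime] (N : ℕ) [NeZero N] (S : Finset ℕ)
      (_hpS : p ∈ S) (_hNS : ∀ q : ℕ, q.Prime → q ∣ N → q ∈ S)
      (𝒪' : Type) [CommRing 𝒪'] [IsDomain 𝒪'] [IsDiscreteValuationRing 𝒪']
      [IsAdicComplete (IsLocalRing.maximalIdeal 𝒪') 𝒪'] [Finite (IsLocalRing.ResidueField 𝒪')]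
      [CharZero 𝒪'] (_hp𝒪' : (p : 𝒪') ∈ IsLocalRing.maximalIdeal 𝒪')
      (χ : CuspForm.heckeAlgebra N 2 (↑S : Set ℕ) →+* 𝒪'),
      ∃ (𝒪'' : Type) (_ : CommRing 𝒪'') (_ : IsDomain 𝒪'') (_ : IsDiscreteValuationRing 𝒪'')
        (_ : IsAdicComplete (IsLocalRing.maximalIdeal 𝒪'') 𝒪'')
        (_ : Finite (IsLocalRing.ResidueField 𝒪'')) (_ : CharZero 𝒪'')
        (_ : Algebra 𝒪' 𝒪'') (_ : Module.Finite 𝒪' 𝒪'') (_ : IsLocalHom (algebraMap 𝒪' 𝒪'')),
      Function.Injective (algebraMap 𝒪' 𝒪'') ∧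
      ∃ ρ : GaloisRepAdic 𝒪'',
        (∀ (ℓ : ℕ) (hℓ : ℓ.Prime) (hℓN : ¬ ℓ ∣ N) (hℓS : ℓ ∉ (↑S : Set ℕ)),
          ∀ A : ValuationSubring (AlgebraicClosure ℚ), A.LiesOverPrime ℓ →
            ∀ σ : AlgebraicClosure ℚ ≃ₐ[ℚ] AlgebraicClosure ℚ, A.IsFrobeniusAt σ ℓ →
              LinearMap.charpoly (ρ.ρ σ) =
                X ^ 2 - C (algebraMap 𝒪' 𝒪'' (χ (CuspForm.heckeAlgebra.T hℓ hℓN hℓS))) * X
                  + C ((ℓ : 𝒪''))) ∧
        (∀ q : ℕ, q.Prime → ¬ q ∣ N → q ≠ p → ρ.IsUnramifiedAt q) :=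
  result_of_inj
    (fun N _ p hp =>
      haveI : NeZero p := ⟨hp.out.ne_zero⟩
      kummerInjStatement_of_k3fin N p (fun n => hfin N p n))
    (fun N _ p hp =>
      haveI : NeZero p := ⟨hp.out.ne_zero⟩
      finStatement N p)
    hT

/-- **S30 from `K3-FIN` and the raw Eichler–Shimura statement.** -/
theorem result_of_k3fin_rawESAll
    (hfin : ∀ (N : ℕ) [NeZero N] (p : ℕ) [Fact p.Prime] (n : ℕ),
      Fermat.Agent.S29.M4b.K3.FinStatement N (p ^ n))
    (hES : ∀ (N : ℕ) [NeZero N], RawESAll N) :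
    ∀ (p : ℕ) [Fact p.Prime] (N : ℕ) [NeZero N] (S : Finset ℕ)
      (_hpS : p ∈ S) (_hNS : ∀ q : ℕ, q.Prime → q ∣ N → q ∈ S)
      (𝒪' : Type) [CommRing 𝒪'] [IsDomain 𝒪'] [IsDiscreteValuationRing 𝒪']
      [IsAdicComplete (IsLocalRing.maximalIdeal 𝒪') 𝒪'] [Finite (IsLocalRing.ResidueField 𝒪')]
      [CharZero 𝒪'] (_hp𝒪' : (p : 𝒪') ∈ IsLocalRing.maximalIdeal 𝒪')
      (χ : CuspForm.heckeAlgebra N 2 (↑S : Set ℕ) →+* 𝒪'),
      ∃ (𝒪'' : Type) (_ : CommRing 𝒪'') (_ : IsDomain 𝒪'') (_ : IsDiscreteValuationRing 𝒪'')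
        (_ : IsAdicComplete (IsLocalRing.maximalIdeal 𝒪'') 𝒪'')
        (_ : Finite (IsLocalRing.ResidueField 𝒪'')) (_ : CharZero 𝒪'')
        (_ : Algebra 𝒪' 𝒪'') (_ : Module.Finite 𝒪' 𝒪'') (_ : IsLocalHom (algebraMap 𝒪' 𝒪'')),
      Function.Injective (algebraMap 𝒪' 𝒪'') ∧
      ∃ ρ : GaloisRepAdic 𝒪'',
        (∀ (ℓ : ℕ) (hℓ : ℓ.Prime) (hℓN : ¬ ℓ ∣ N) (hℓS : ℓ ∉ (↑S : Set ℕ)),
          ∀ A : ValuationSubring (AlgebraicClosure ℚ), A.LiesOverPrime ℓ →
            ∀ σ : AlgebraicClosure ℚ ≃ₐ[ℚ] AlgebraicClosure ℚ, A.IsFrobeniusAt σ ℓ →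
              LinearMap.charpoly (ρ.ρ σ) =
                X ^ 2 - C (algebraMap 𝒪' 𝒪'' (χ (CuspForm.heckeAlgebra.T hℓ hℓN hℓS))) * X
                  + C ((ℓ : 𝒪''))) ∧
        (∀ q : ℕ, q.Prime → ¬ q ∣ N → q ≠ p → ρ.IsUnramifiedAt q) :=
  result_of_k3fin hfin (fun N _ p _ => torsionRelations_of_rawAll p (hES N))

end Fermat.Agent.S30.H330

end
end
-- ===== PACK-END S30/H330/AdicChain.lean

-- ===== PACK-BEGIN S29/H942/K3Fin.lean
section





/-!
# S29 / M4b / K3 : the sub-piece `K3-FIN` (helper942)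

`finStatement N p : K3.FinStatement N p` — for a twisted function `U` of a parabolic character, the
`Aut(ℂ/ℚ̄)`-orbit of the class of `f = qexp (U ^ p)` in `F_ℂˣ / (F_ℂˣ) ^ p` is finite.

Assembly of helper42's decomposition (`coord/S29-K3.md`):
* (F1) DICT-hard over `ℂ`          : landed `H282.dvd_ord_of_isTwisted_complex`;
* (F2) transport along `σ`         : `dvd_ord_smul` (Prelude `SemilinearAut.ord_smul`);
* pole clearing                    : `K3.exists_div_goodQ`;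
* (F4) DICT-easy + ROOT            : landed `H282.exists_pow_eq_of_forall_dvd_ord`;
* (F5) character of the root       : `H942.exists_kummerChar`;
* (F6) finitely many characters    : `finite_monoidHom_of_fg`, `fg_Gamma0`;
* (F7) same character ⟹ same class : `exists_pow_mul_eq_of_sameChar`;
* (F8) one representative per character.
-/

set_option autoImplicit false

noncomputable section

open ModularCurve AlgebraicCurve CongruenceSubgroup UpperHalfPlane
open scoped MatrixGroups Manifold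

namespace Fermat.Agent.S29.H942

open Fermat.Agent.S24 Fermat.Agent.S24.H648 Fermat.Agent.S24.H708 Fermat.Agent.S24.Deg457
open Fermat.Agent.S29 Fermat.Agent.S29.M4b

/-! ### (F6) finitely many characters -/

/-- A finitely generated group has finitely many homomorphisms to a finite group. -/
theorem finite_monoidHom_of_fg (G H : Type*) [Group G] [Group.FG G] [Group H] [Finite H] :
    Finite (G →* H) := by
  obtain ⟨S, hS, hSfin⟩ := Group.fg_iff.mp (inferInstance : Group.FG G)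
  haveI : Finite S := Set.finite_coe_iff.mpr hSfin
  refine Finite.of_injective (fun (χ : G →* H) (s : S) => χ (s : G)) ?_
  intro χ χ' h
  refine MonoidHom.eq_of_eqOn_dense hS fun s hs => ?_
  exact congrFun h ⟨s, hs⟩

/-- `Γ₀(N)` is finitely generated. -/
theorem fg_Gamma0 (N : ℕ) [NeZero N] : Group.FG (Gamma0 N) := by
  haveI : Group.FG SL(2, ℤ) :=
    Group.fg_iff.mpr ⟨{ModularGroup.S, ModularGroup.T}, _root_.SpecialLinearGroup.SL2Z_generators,
      Set.toFinite _⟩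
  infer_instance

/-! ### (F2) transport of divisibility along a semilinear automorphism -/

/-- If `m ∣ ord_w f` at every place, the same holds for `g • f`. -/
theorem dvd_ord_smul {K F : Type*} [Field K] [Field F] [Algebra K F] (g : SemilinearAut K F)
    (f : F) (m : ℤ) (h : ∀ w : Place K F, m ∣ w.ord f) (w : Place K F) : m ∣ w.ord (g • f) := by
  have h1 := SemilinearAut.ord_smul g (g⁻¹ • w) f
  rw [smul_inv_smul] at h1
  rw [h1]
  exact h _

/-- An automorphism of `ℂ` as a `ℚ`-algebra automorphism. -/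
def autQ (σ : ℂ ≃+* ℂ) : ℂ ≃ₐ[ℚ] ℂ :=
  AlgEquiv.ofRingEquiv (f := σ) (fun r => by simp)

theorem autQ_apply (σ : ℂ ≃+* ℂ) (z : ℂ) : autQ σ z = σ z := rfl

/-! ### (F7) same character ⟹ same class, for arbitrary characters -/

/-- If `V`, `V'` are holomorphic with good `p`-th powers and transform under `Γ₀(N)` by the same
`p`-torsion multiplier system `ζ`, then `qexp (V ^ p) = g ^ p * qexp (V' ^ p)` with `g ∈ F_ℂ`. -/
theorem exists_pow_mul_eq_of_sameChar (N : ℕ) [NeZero N] {p : ℕ} (hp : p ≠ 0) {V V' : ℍ → ℂ}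
    (hV : MDifferentiable 𝓘(ℂ) 𝓘(ℂ) V) (hV' : MDifferentiable 𝓘(ℂ) 𝓘(ℂ) V') (hV'0 : V' ≠ 0)
    (hVp : (fun τ => V τ ^ p) ∈ goodRing N) (hV'p : (fun τ => V' τ ^ p) ∈ goodRing N)
    (ζ : Gamma0 N → ℂ) (hζ : ∀ γ, ζ γ ^ p = 1)
    (h1 : ∀ (γ : Gamma0 N) (τ : ℍ), V ((γ : SL(2, ℤ)) • τ) = ζ γ * V τ)
    (h2 : ∀ (γ : Gamma0 N) (τ : ℍ), V' ((γ : SL(2, ℤ)) • τ) = ζ γ * V' τ) :
    ∃ g : LaurentSeries ℂ, g ∈ H882.FC N ∧
      qexpFun 1 (fun τ => V τ ^ p) = g ^ p * qexpFun 1 (fun τ => V' τ ^ p) := by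
  have hp1 : p - 1 + 1 = p := Nat.sub_add_cancel (Nat.one_le_iff_ne_zero.mpr hp)
  set W : ℍ → ℂ := fun τ => V τ * V' τ ^ (p - 1) with hWdef
  have hfun : W ^ p = (fun τ => V τ ^ p) * (fun τ => V' τ ^ p) ^ (p - 1) := by
    funext τ
    simp only [hWdef, Pi.mul_apply, Pi.pow_apply]
    rw [mul_pow, ← pow_mul, ← pow_mul, mul_comm (p - 1) p]
  have hW : W ∈ goodRing N := by
    refine mem_goodRing_of_pow_mem N hp (hV.mul (hV'.pow (p - 1))) (fun γ hγ τ => ?_) ?_
    · show V (γ • τ) * V' (γ • τ) ^ (p - 1) = V τ * V' τ ^ (p - 1)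
      have e1 := h1 ⟨γ, hγ⟩ τ
      have e2 := h2 ⟨γ, hγ⟩ τ
      simp only at e1 e2
      rw [e1, e2, mul_pow]
      have hz : ζ ⟨γ, hγ⟩ * ζ ⟨γ, hγ⟩ ^ (p - 1) = 1 := by
        rw [← pow_succ', hp1, hζ]
      calc ζ ⟨γ, hγ⟩ * V τ * (ζ ⟨γ, hγ⟩ ^ (p - 1) * V' τ ^ (p - 1))
          = (ζ ⟨γ, hγ⟩ * ζ ⟨γ, hγ⟩ ^ (p - 1)) * (V τ * V' τ ^ (p - 1)) := by ring
        _ = V τ * V' τ ^ (p - 1) := by rw [hz, one_mul]
    · have : (fun τ => W τ ^ p) = W ^ p := rfl
      rw [this, hfun]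
      exact (goodRing N).mul_mem hVp ((goodRing N).pow_mem hV'p _)
  have hWm := H882.isMerInf_of_mem_goodRing hW
  have hVm := H882.isMerInf_of_mem_goodRing hVp
  have hV'm := H882.isMerInf_of_mem_goodRing hV'p
  set w := qexpFun 1 W with hw
  set a := qexpFun 1 (fun τ => V τ ^ p) with ha
  set b := qexpFun 1 (fun τ => V' τ ^ p) with hb
  have hwFC : w ∈ H882.FC N := H882.qexpFun_mem_FC hW
  have hbFC : b ∈ H882.FC N := H882.qexpFun_mem_FC hV'p
  have hb0 : b ≠ 0 := by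
    intro h0
    have h3 := (qexpFun_eq_zero_iff hV'm).mp h0
    apply hV'0
    funext τ
    exact pow_eq_zero_iff hp |>.mp (congrFun h3 τ)
  have hwp : w ^ p = a * b ^ (p - 1) := by
    rw [hw, ← qexpFun_pow' hWm p, hfun, qexpFun_mul hVm (hV'm.pow (p - 1)),
      qexpFun_pow' hV'm (p - 1)]
  refine ⟨w * b⁻¹, mul_mem hwFC (inv_mem hbFC), ?_⟩
  rw [mul_pow, hwp, inv_pow]
  have hbp : b ^ p = b ^ (p - 1) * b := by rw [← pow_succ, hp1]
  rw [hbp, mul_inv]
  field_simp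

/-! ### The class of `σ f` -/

section Fin

variable (N : ℕ) [NeZero N] (p : ℕ) [NeZero p]

/-- `x : F_ℂ` has the Kummer character `χ`: after clearing poles by a `p`-th power, `x` is the
`q`-expansion of the `p`-th power of a holomorphic function of character `χ`. -/
def HasKummerChar (x : LaurentSeries ℂ) (χ : Gamma0 N →* rootsOfUnity p ℂ) : Prop :=
  ∃ s ∈ H882.FC N, s ≠ 0 ∧ ∃ V : ℍ → ℂ, MDifferentiable 𝓘(ℂ) 𝓘(ℂ) V ∧ V ≠ 0 ∧
    (fun τ => V τ ^ p) ∈ goodRing N ∧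
    (∀ (γ : Gamma0 N) (τ : ℍ), V ((γ : SL(2, ℤ)) • τ) = (((χ γ : rootsOfUnity p ℂ) : ℂˣ) : ℂ) * V τ) ∧
    qexpFun 1 (fun τ => V τ ^ p) = x * s ^ p

/-- (F7)+(F8) two elements with the same Kummer character differ by a `p`-th power. -/
theorem exists_eq_mul_pow_of_hasKummerChar {x x' : LaurentSeries ℂ}
    {χ : Gamma0 N →* rootsOfUnity p ℂ} (hx : HasKummerChar N p x χ)
    (hx' : HasKummerChar N p x' χ) :
    ∃ u ∈ H882.FC N, u ≠ 0 ∧ x = x' * u ^ p := by
  have hp : p ≠ 0 := NeZero.ne p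
  obtain ⟨s, hs, hs0, V, hV, hV0, hVp, hVχ, hq⟩ := hx
  obtain ⟨s', hs', hs'0, V', hV', hV'0, hV'p, hV'χ, hq'⟩ := hx'
  obtain ⟨g, hg, hgeq⟩ := exists_pow_mul_eq_of_sameChar N hp hV hV' hV'0 hVp hV'p
    (fun γ => (((χ γ : rootsOfUnity p ℂ) : ℂˣ) : ℂ))
    (fun γ => by
      have h := (χ γ).2
      rw [mem_rootsOfUnity] at h
      have h2 := congrArg (fun z : ℂˣ => (z : ℂ)) h
      simpa using h2)
    hVχ hV'χ
  have hqne : qexpFun 1 (fun τ => V τ ^ p) ≠ 0 := by
    intro h0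
    have h3 := (qexpFun_eq_zero_iff (H882.isMerInf_of_mem_goodRing hVp)).mp h0
    apply hV0
    funext τ
    exact pow_eq_zero_iff hp |>.mp (congrFun h3 τ)
  have hg0 : g ≠ 0 := by
    intro h0
    rw [h0, zero_pow hp, zero_mul] at hgeq
    exact hqne hgeq
  refine ⟨g * s' * s⁻¹, mul_mem (mul_mem hg hs') (inv_mem hs),
    mul_ne_zero (mul_ne_zero hg0 hs'0) (inv_ne_zero hs0), ?_⟩
  rw [hq, hq'] at hgeq
  have hsp : s ^ p ≠ 0 := pow_ne_zero _ hs0
  rw [mul_pow, mul_pow, inv_pow]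
  field_simp
  rw [hgeq]
  ring

/-- (F1)–(F5): every element of `F_ℂ`, nonzero, all of whose orders at the places of `F_ℂ/ℂ` are
divisible by `p`, has a Kummer character. -/
theorem exists_hasKummerChar {x : LaurentSeries ℂ} (hx : x ∈ H882.FC N) (hx0 : x ≠ 0)
    (hdvd : ∀ w : Place ℂ ↥(laurentBaseChange ℂ (modularFunctionFieldFull N)),
      (p : ℤ) ∣ w.ord ⟨x, hx⟩) :
    ∃ χ : Gamma0 N →* rootsOfUnity p ℂ, HasKummerChar N p x χ := by
  have hp : p ≠ 0 := NeZero.ne p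
  have hp1 : p - 1 + 1 = p := Nat.sub_add_cancel (Nat.one_le_iff_ne_zero.mpr hp)
  -- pole clearing
  obtain ⟨a, ha, b, hb, hb0, hab⟩ := K3.exists_div_goodQ (N := N) hx
  obtain ⟨A, hA, hqA⟩ := ha
  obtain ⟨B, hB, hqB⟩ := hb
  have ha0 : a ≠ 0 := by
    intro h0
    rw [h0, zero_div] at hab
    exact hx0 hab
  set G : ℍ → ℂ := A * B ^ (p - 1) with hGdef
  have hG : G ∈ goodRing N := (goodRing N).mul_mem hA ((goodRing N).pow_mem hB _)
  have hqG : HasQExp 1 G (a * b ^ (p - 1)) := hqA.mul (hqB.pow _)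
  have hxb : a * b ^ (p - 1) = x * b ^ p := by
    rw [hab]
    have hbp : b ^ p = b ^ (p - 1) * b := by rw [← pow_succ, hp1]
    rw [hbp]
    field_simp
  have hG0 : G ≠ 0 := by
    intro h0
    have := hqG.eq_zero_iff.mpr h0
    exact mul_ne_zero ha0 (pow_ne_zero _ hb0) this
  have hbFC : b ∈ H882.FC N := H882.mem_FC_of_mem_goodQ ⟨B, hB, hqB⟩
  have hqGeq : qexpFun 1 G = x * b ^ p := by rw [hqG.qexpFun_eq, hxb]
  have hGFC : qexpFun 1 G ∈ laurentBaseChange ℂ (modularFunctionFieldFull N) :=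
    H882.qexpFun_mem_FC hG
  -- divisibility for `qexp G`
  have hdvdG : ∀ w : Place ℂ ↥(laurentBaseChange ℂ (modularFunctionFieldFull N)),
      (p : ℤ) ∣ w.ord ⟨qexpFun 1 G, hGFC⟩ := by
    intro w
    have he : (⟨qexpFun 1 G, hGFC⟩ : ↥(laurentBaseChange ℂ (modularFunctionFieldFull N)))
        = ⟨x, hx⟩ * ⟨b, hbFC⟩ ^ (p : ℤ) := by
      apply Subtype.ext
      rw [zpow_natCast]
      exact hqGeq
    have hx0' : (⟨x, hx⟩ : ↥(laurentBaseChange ℂ (modularFunctionFieldFull N))) ≠ 0 := by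
      intro h0
      exact hx0 (congrArg Subtype.val h0)
    have hb0' : (⟨b, hbFC⟩ : ↥(laurentBaseChange ℂ (modularFunctionFieldFull N))) ≠ 0 := by
      intro h0
      exact hb0 (congrArg Subtype.val h0)
    rw [he, Place.ord_mul w hx0' (zpow_ne_zero _ hb0'), Place.ord_zpow]
    exact dvd_add (hdvd w) (dvd_mul_right _ _)
  -- ROOT
  obtain ⟨V, hV, hVG⟩ := H282.exists_pow_eq_of_forall_dvd_ord hG hG0 hGFC hp hdvdG
  have hVfun : (fun τ => V τ ^ p) = G := funext hVG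
  have hV0 : V ≠ 0 := by
    intro h0
    apply hG0
    rw [← hVfun, h0]
    funext τ
    simp [hp]
  -- character
  obtain ⟨κ, hκ, hκV⟩ := exists_kummerChar (Gamma0 N) hV hV0 hp (fun γ hγ z => by
    rw [hVG, hVG]
    exact hG.2.1 γ hγ z)
  refine ⟨MonoidHom.codRestrict κ (rootsOfUnity p ℂ) (fun γ => by
      rw [mem_rootsOfUnity]
      exact hκ γ), b, hbFC, hb0, V, hV, hV0, ?_, ?_, ?_⟩
  · rw [hVfun]
    exact hG
  · intro γ τ
    exact hκV γ τ
  · rw [hVfun]
    exact hqGeq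

/-- **Sub-piece `K3-FIN`** of helper42's K3 sub-skeleton. -/
theorem finStatement : K3.FinStatement N p := by
  letI : Algebra Kbar ℂ := K3.algKC
  intro c hc U hU
  classical
  set f := qexpFun 1 (fun τ => U τ ^ p) with hf
  have hfFC : f ∈ laurentBaseChange ℂ (modularFunctionFieldFull N) :=
    H882.qexpFun_mem_FC hU.pow_mem
  have hf0 : f ≠ 0 := qexpFun_pow_ne_zero_of_isTwisted N p hU
  have hF1 : ∀ w : Place ℂ ↥(laurentBaseChange ℂ (modularFunctionFieldFull N)),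
      (p : ℤ) ∣ w.ord ⟨f, hfFC⟩ :=
    fun w => H282.dvd_ord_of_isTwisted_complex hc hU hfFC w
  haveI := fg_Gamma0 N
  haveI : Finite (Gamma0 N →* rootsOfUnity p ℂ) := finite_monoidHom_of_fg _ _
  -- every `σ f` has a Kummer character
  have hex : ∀ σ : ℂ ≃ₐ[Kbar] ℂ,
      ∃ χ : Gamma0 N →* rootsOfUnity p ℂ, HasKummerChar N p (coeffMap (σ : ℂ →+* ℂ) f) χ := by
    intro σ
    set g := arithmeticGalois (modularFunctionFieldFull N) (autQ σ.toRingEquiv) with hg
    have hcoe : ((g • (⟨f, hfFC⟩ : ↥(laurentBaseChange ℂ (modularFunctionFieldFull N))) :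
        ↥(laurentBaseChange ℂ (modularFunctionFieldFull N))) : LaurentSeries ℂ)
        = coeffMap (σ : ℂ →+* ℂ) f := by
      rw [hg, coe_arithmeticGalois_smul]
      exact coeffMap_congr (RingHom.ext fun _ => rfl) _
    have hmem : coeffMap (σ : ℂ →+* ℂ) f ∈ laurentBaseChange ℂ (modularFunctionFieldFull N) := by
      rw [← hcoe]
      exact Subtype.property _
    have hne : coeffMap (σ : ℂ →+* ℂ) f ≠ 0 := by
      intro h0
      apply hf0
      have hinj : Function.Injective (coeffMap (σ : ℂ →+* ℂ)) := RingHom.injective _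
      exact hinj (by rw [h0, map_zero])
    refine exists_hasKummerChar N p hmem hne fun w => ?_
    have h2 := dvd_ord_smul g ⟨f, hfFC⟩ (p : ℤ) hF1 w
    have he : (⟨coeffMap (σ : ℂ →+* ℂ) f, hmem⟩ :
        ↥(laurentBaseChange ℂ (modularFunctionFieldFull N))) = g • ⟨f, hfFC⟩ :=
      Subtype.ext hcoe.symm
    rw [he]
    exact h2
  -- one representative per character
  let t : (Gamma0 N →* rootsOfUnity p ℂ) → LaurentSeries ℂ := fun χ =>
    if h : ∃ σ : ℂ ≃ₐ[Kbar] ℂ, HasKummerChar N p (coeffMap (σ : ℂ →+* ℂ) f) χ then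
      coeffMap ((h.choose : ℂ ≃ₐ[Kbar] ℂ) : ℂ →+* ℂ) f
    else 0
  refine ⟨Set.range t, Set.finite_range t, fun σ => ?_⟩
  obtain ⟨χ, hχ⟩ := hex σ
  have h : ∃ σ : ℂ ≃ₐ[Kbar] ℂ, HasKummerChar N p (coeffMap (σ : ℂ →+* ℂ) f) χ := ⟨σ, hχ⟩
  have ht : t χ = coeffMap ((h.choose : ℂ ≃ₐ[Kbar] ℂ) : ℂ →+* ℂ) f := dif_pos h
  refine ⟨t χ, ⟨χ, rfl⟩, ?_⟩
  rw [ht]
  exact exists_eq_mul_pow_of_hasKummerChar N p hχ h.choose_spec

end Fin

end Fermat.Agent.S29.H942

end
end
-- ===== PACK-END S29/H942/K3Fin.lean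

-- ===== PACK-BEGIN S30/H330/AdicGate.lean
section
/-
S30 -- GATE (helper330): the frozen statement S30 from the S18 hub ALONE.

* `torsionRelations_of_coreFamily` : input (T) from the S18 hub `S29.H222.CoreFamily`
  (helper222's ESK route: no S37, no place reduction map; PGI, HI, NormId are on main);
* `S30_of_coreFamily : CoreFamily → <frozen S30>`;
* `S30_of_nodes : node_mod → node_alg → <frozen S30>`  (the two open nodes of the S18 skeleton, in
  the exact shapes of `S18/H694/CoreFamilyOfNodes.lean`, same as `S29/Gate.lean`).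

Everything else is discharged from main: Kummer packages at all moduli (K1-K4, `K3-FIN` =
`H942.finStatement`), FIN (`H810`), (P) (`H709`), (Sm), (GH), adic module layer, top glue (`H990`),
CHEB Tier 1.
-/





set_option autoImplicit false
set_option linter.overlappingInstances false

noncomputable section

namespace Fermat.Agent.S30.H330

open Fermat.Agent.S29 ModularCurve Polynomial
open Fermat.Agent.S18 (Qb CoreStatement)

/-- Input (T) from the S18 hub (helper222's ESK route). -/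
theorem torsionRelations_of_coreFamily (hcore : Fermat.Agent.S29.H222.CoreFamily)
    (N : ℕ) [NeZero N] (p : ℕ) : TorsionRelations N p :=
  fun ℓ hℓ hdvd A hA =>
    Fermat.Agent.S29.H222.esRaw_of_families hcore Fermat.Agent.S29.H222.pgiFamily
      Fermat.Agent.S29.H222.hiFamily Fermat.Agent.S29.H222.normIdFamily N p ℓ hℓ hdvd A hA

/-- **The frozen statement S30 from the S18 hub.** -/
theorem S30_of_coreFamily (hcore : Fermat.Agent.S29.H222.CoreFamily) :
    ∀ (p : ℕ) [Fact p.Prime] (N : ℕ) [NeZero N] (S : Finset ℕ)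
      (_hpS : p ∈ S) (_hNS : ∀ q : ℕ, q.Prime → q ∣ N → q ∈ S)
      (𝒪' : Type) [CommRing 𝒪'] [IsDomain 𝒪'] [IsDiscreteValuationRing 𝒪']
      [IsAdicComplete (IsLocalRing.maximalIdeal 𝒪') 𝒪'] [Finite (IsLocalRing.ResidueField 𝒪')]
      [CharZero 𝒪'] (_hp𝒪' : (p : 𝒪') ∈ IsLocalRing.maximalIdeal 𝒪')
      (χ : CuspForm.heckeAlgebra N 2 (↑S : Set ℕ) →+* 𝒪'),
      ∃ (𝒪'' : Type) (_ : CommRing 𝒪'') (_ : IsDomain 𝒪'') (_ : IsDiscreteValuationRing 𝒪'')
        (_ : IsAdicComplete (IsLocalRing.maximalIdeal 𝒪'') 𝒪'')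
        (_ : Finite (IsLocalRing.ResidueField 𝒪'')) (_ : CharZero 𝒪'')
        (_ : Algebra 𝒪' 𝒪'') (_ : Module.Finite 𝒪' 𝒪'') (_ : IsLocalHom (algebraMap 𝒪' 𝒪'')),
      Function.Injective (algebraMap 𝒪' 𝒪'') ∧
      ∃ ρ : GaloisRepAdic 𝒪'',
        (∀ (ℓ : ℕ) (hℓ : ℓ.Prime) (hℓN : ¬ ℓ ∣ N) (hℓS : ℓ ∉ (↑S : Set ℕ)),
          ∀ A : ValuationSubring (AlgebraicClosure ℚ), A.LiesOverPrime ℓ →
            ∀ σ : AlgebraicClosure ℚ ≃ₐ[ℚ] AlgebraicClosure ℚ, A.IsFrobeniusAt σ ℓ →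
              LinearMap.charpoly (ρ.ρ σ) =
                X ^ 2 - C (algebraMap 𝒪' 𝒪'' (χ (CuspForm.heckeAlgebra.T hℓ hℓN hℓS))) * X
                  + C ((ℓ : 𝒪''))) ∧
        (∀ q : ℕ, q.Prime → ¬ q ∣ N → q ≠ p → ρ.IsUnramifiedAt q) :=
  result_of_k3fin
    (fun N _ p hp n =>
      haveI : NeZero p := ⟨hp.out.ne_zero⟩
      Fermat.Agent.S29.H942.finStatement N (p ^ n))
    (fun N _ p _ => torsionRelations_of_coreFamily hcore N p)

/-- **The frozen statement S30 from the two open nodes of row S18.** -/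
theorem S30_of_nodes
    (node_mod : ∀ (M : ℕ) [NeZero M] {ℓ : ℕ} [Fact ℓ.Prime], ¬ ℓ ∣ M →
      ∀ A : ValuationSubring Qb, A.LiesOverPrime ℓ → Fermat.Agent.S18.Mod.GoodModelStatement M ℓ A)
    (node_alg : ∀ M : ℕ, Fermat.Agent.S18.Mod.AlgStatement M) :
    ∀ (p : ℕ) [Fact p.Prime] (N : ℕ) [NeZero N] (S : Finset ℕ)
      (_hpS : p ∈ S) (_hNS : ∀ q : ℕ, q.Prime → q ∣ N → q ∈ S)
      (𝒪' : Type) [CommRing 𝒪'] [IsDomain 𝒪'] [IsDiscreteValuationRing 𝒪']
      [IsAdicComplete (IsLocalRing.maximalIdeal 𝒪') 𝒪'] [Finite (IsLocalRing.ResidueField 𝒪')]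
      [CharZero 𝒪'] (_hp𝒪' : (p : 𝒪') ∈ IsLocalRing.maximalIdeal 𝒪')
      (χ : CuspForm.heckeAlgebra N 2 (↑S : Set ℕ) →+* 𝒪'),
      ∃ (𝒪'' : Type) (_ : CommRing 𝒪'') (_ : IsDomain 𝒪'') (_ : IsDiscreteValuationRing 𝒪'')
        (_ : IsAdicComplete (IsLocalRing.maximalIdeal 𝒪'') 𝒪'')
        (_ : Finite (IsLocalRing.ResidueField 𝒪'')) (_ : CharZero 𝒪'')
        (_ : Algebra 𝒪' 𝒪'') (_ : Module.Finite 𝒪' 𝒪'') (_ : IsLocalHom (algebraMap 𝒪' 𝒪'')),
      Function.Injective (algebraMap 𝒪' 𝒪'') ∧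
      ∃ ρ : GaloisRepAdic 𝒪'',
        (∀ (ℓ : ℕ) (hℓ : ℓ.Prime) (hℓN : ¬ ℓ ∣ N) (hℓS : ℓ ∉ (↑S : Set ℕ)),
          ∀ A : ValuationSubring (AlgebraicClosure ℚ), A.LiesOverPrime ℓ →
            ∀ σ : AlgebraicClosure ℚ ≃ₐ[ℚ] AlgebraicClosure ℚ, A.IsFrobeniusAt σ ℓ →
              LinearMap.charpoly (ρ.ρ σ) =
                X ^ 2 - C (algebraMap 𝒪' 𝒪'' (χ (CuspForm.heckeAlgebra.T hℓ hℓN hℓS))) * X
                  + C ((ℓ : 𝒪''))) ∧
        (∀ q : ℕ, q.Prime → ¬ q ∣ N → q ≠ p → ρ.IsUnramifiedAt q) :=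
  S30_of_coreFamily (Fermat.Agent.S18.H694.coreFamily_of_nodes node_mod node_alg)

end Fermat.Agent.S30.H330

end
end
-- ===== PACK-END S30/H330/AdicGate.lean

-- ===== PACK-BEGIN S34/K789/WallGate.lean
section
/-
Row S34 (helper789): the frozen statement S34 from the WALL A2 ALONE.

Tower A is on main (S30 is landable: `S30.H330.S30_of_nodes` with the two S18 nodes
`S18.Mod.H216.node_mod`, `S18.H438.node_alg`).  Here the SAME chain of helper330 (adic module
layer `adicModule_of_torsion`) is run with one more operator `2 • id` (eigenvalue `2`), which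
transfers the relation `(σ - 1)² = 0` from `J₀(N)[p^∞]` to the adic eigenmodule.  Hence

* `exists_adicEigenModuleU_of_inj` : (K') + (F) + (P) + (T) + (Sm) + (GH) + wall on `J₀(N)[p^∞]`
    ⟹ an `AdicEigenModule` which is unipotent on inertia at the primes `q ≠ p`, `q ∥ N`;
* `hasAdicEigenModulesU_of_coreFamily` : the S18 hub + the wall ⟹ `HasAdicEigenModulesU`;
* `result_of_wall_nodes` : frozen S34 from the two S18 nodes and the wall `A2.Target`;
* `result_of_wall_parts_nodes` : the same with the wall replaced by the three interface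
   statements `A2.AlgSSStatement`, `A2.IFStatement`, `A2.ModSSStatement`.

The versions with the two S18 nodes discharged are in `WallFinal.lean`.
-/



set_option autoImplicit false
set_option linter.overlappingInstances false

noncomputable section

namespace Fermat.Agent.S34.K789

open Fermat.Agent.S29 Fermat.Agent.S29.M4b ModularCurve Fermat.Agent.S30.H330
  Fermat.Agent.S30.H990 Fermat.Agent.S30.H450
open Fermat.Agent.S18 (Qb CoreStatement)

/-- The wall A2 on the `p`-power torsion of `J₀(N)`: the inertia groups at the primes `q ≠ p`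
exactly dividing `N` act unipotently. -/
def WallOn (N p : ℕ) : Prop :=
  ∀ q : ℕ, q.Prime → q ≠ p → q ∣ N → ¬ q ^ 2 ∣ N →
    ∀ P : ValuationSubring (AlgebraicClosure ℚ), P.LiesOverPrime q →
      ∀ σ ∈ P.inertiaSubgroupIn ℚ, ∀ x : JZero N, (∃ n : ℕ, p ^ n • x = 0) →
        σ • (σ • x) + x = 2 • (σ • x)

/-- `A2.Target` at all moduli `p ^ n` gives `WallOn`. -/
theorem wallOn_of_target {N p : ℕ} (hp : p.Prime)
    (h : ∀ (q m : ℕ), q.Prime → q ∣ N → ¬ q ^ 2 ∣ N → 0 < m → ¬ q ∣ m →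
      Fermat.Agent.A2.Target N q m) : WallOn N p := by
  intro q hq hqp hqN hq2 P hP σ hσ x hx
  obtain ⟨n, hn⟩ := hx
  have hqm : ¬ q ∣ p ^ n := fun hd =>
    hqp ((Nat.prime_dvd_prime_iff_eq hq hp).1 (hq.dvd_of_dvd_pow hd))
  exact h q (p ^ n) hq hqN hq2 (pow_pos hp.pos n) hqm P hP σ hσ x hn

/-- `(f - 1)² = 0` from the quadratic relation with `a = 2`, `n = 1`. -/
theorem sub_one_mul_self_eq_zero_nat {𝒪 M : Type*} [CommRing 𝒪] [AddCommGroup M] [Module 𝒪 M]
    (f : Module.End 𝒪 M)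
    (h : f * f - (2 : 𝒪) • f + (((1 : ℕ) : 𝒪)) • (1 : Module.End 𝒪 M) = 0) :
    (f - 1) * (f - 1) = 0 := by
  rw [Nat.cast_one, one_smul, two_smul] at h
  rw [← h]
  simp only [mul_sub, sub_mul, mul_one, one_mul]
  abel

/-- **The adic module layer of helper330 with unipotency transfer.** -/
theorem exists_adicEigenModuleU_of_inj {p : ℕ} [Fact p.Prime] {N : ℕ} [NeZero N] {S : Finset ℕ}
    (hpS : p ∈ S) (hNS : ∀ q : ℕ, q.Prime → q ∣ N → q ∈ S)
    {O : Type} [CommRing O] [IsDomain O] [IsDiscreteValuationRing O]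
    [IsAdicComplete (IsLocalRing.maximalIdeal O) O] [Finite (IsLocalRing.ResidueField O)]
    [CharZero O] (hpO : (p : O) ∈ IsLocalRing.maximalIdeal O)
    (χ : CuspForm.heckeAlgebra N 2 (↑S : Set ℕ) →+* O)
    (hK : KummerInjStatement N p) (hF : FinStatement N p) (hP : ParEigenStatement N S O χ)
    (hT : TorsionRelations N p) (hSm : SmoothStatement N) (hGH : GaloisHeckeStatement N)
    (hW : WallOn N p) :
    ∃ E : AdicEigenModule p N S O χ,
      ∀ q : ℕ, q.Prime → q ≠ p → q ∣ N → ¬ q ^ 2 ∣ N → EigenUnipAt E q := by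
  classical
  obtain ⟨f, hf0, hf, hfe⟩ := exists_eigenHom_of_inj hpS hNS hpO χ hK hP
  -- index set of Hecke operators, extended by the operator `2 • id`
  let t : Option {ℓ : Nat.Primes // (ℓ : ℕ) ∉ S} → JZero N →+ JZero N := fun o =>
    o.elim (AddMonoidHom.id (JZero N) + AddMonoidHom.id (JZero N))
      (fun i => (heckeOperatorBar N i.1).toAddMonoidHom)
  let a : Option {ℓ : Nat.Primes // (ℓ : ℕ) ∉ S} → O := fun o =>
    o.elim (2 : O) (fun i => eigenvalue χ (i.1 : ℕ))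
  have ht : ∀ i (σ : AlgebraicClosure ℚ ≃ₐ[ℚ] AlgebraicClosure ℚ) (x : JZero N),
      σ • t i x = t i (σ • x) := by
    intro i σ x
    cases i with
    | none =>
      show σ • (x + x) = σ • x + σ • x
      rw [smul_add]
    | some i => exact hGH σ i.1 x
  have hfe' : ∀ i x, t i (f x) = f (algebraMap O (FractionRing O) (a i) * x) := by
    intro i x
    cases i with
    | none =>
      show f x + f x = f (algebraMap O (FractionRing O) (2 : O) * x)
      rw [map_ofNat, two_mul, map_add]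
    | some i => exact hfe i.1 i.2 x
  obtain ⟨M, i1, i2, i3, i4, ρ, hnt, hcont, hunr, hquad⟩ :=
    adicModule_of_torsion (J := JZero N) (Fact.out : p.Prime) hpO (fun x => hSm x) hF t ht a f
      hf0 hf hfe'
  have hdvd : ∀ q : ℕ, q.Prime → ¬ q ∣ N → q ≠ p → ¬ q ∣ N * p := by
    intro q hq hqN hqp hdiv
    rcases (Nat.Prime.dvd_mul hq).1 hdiv with h1 | h1
    · exact hqN h1
    · exact hqp ((Nat.prime_dvd_prime_iff_eq hq (Fact.out : p.Prime)).1 h1)
  refine ⟨{ M := M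
            ρ := ρ
            cont := hcont
            unram := fun q hq hqN hqp P hP σ hσ =>
              hunr σ fun x hx => (hT q hq (hdvd q hq hqN hqp) P hP).1 σ hσ x hx
            frob := fun ℓ hℓ hℓN hℓS A hA σ hσ => by
              have hℓS' : ℓ ∉ S := fun hmem => hℓS (Finset.mem_coe.mpr hmem)
              have hℓp : ℓ ≠ p := fun h => hℓS' (h ▸ hpS)
              have h1 := hquad (some ⟨⟨ℓ, hℓ⟩, hℓS'⟩) ℓ σ
                fun x hx => (hT ℓ hℓ (hdvd ℓ hℓ hℓN hℓp) A hA).2 σ hσ x hx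
              have h2 : eigenvalue χ ℓ = χ (CuspForm.heckeAlgebra.T hℓ hℓN hℓS) := by
                unfold Fermat.Agent.S30.H330.eigenvalue
                rw [dif_pos ⟨hℓ, hℓN, hℓS⟩]
              have h3 : a (some ⟨⟨ℓ, hℓ⟩, hℓS'⟩) = eigenvalue χ ℓ := rfl
              rw [h3, h2] at h1
              exact h1 }, ?_⟩
  intro q hq hqp hqN hq2 P hP σ hσ
  have h1 := hquad none 1 σ (fun x hx => by
    have h2 := hW q hq hqp hqN hq2 P hP σ hσ x hx
    show σ • σ • x - (σ • x + σ • x) + 1 • x = 0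
    rw [one_smul, two_smul] at *
    rw [sub_add_eq_add_sub, h2, sub_self])
  exact sub_one_mul_self_eq_zero_nat (ρ σ) h1

/-- **`HasAdicEigenModulesU` from the `p`-primary inputs of the adic module layer and the wall.** -/
theorem hasAdicEigenModulesU_of_inj
    (hK : ∀ (N : ℕ) [NeZero N] (p : ℕ) [Fact p.Prime], KummerInjStatement N p)
    (hF : ∀ (N : ℕ) [NeZero N] (p : ℕ) [Fact p.Prime], FinStatement N p)
    (hT : ∀ (N : ℕ) [NeZero N] (p : ℕ) [Fact p.Prime], TorsionRelations N p)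
    (hW : ∀ (N : ℕ) [NeZero N] (p : ℕ) [Fact p.Prime], WallOn N p) :
    HasAdicEigenModulesU := by
  intro p _ N _ S hpS hNS 𝒪' _ _ _ _ _ _ hp𝒪' χ
  exact exists_adicEigenModuleU_of_inj hpS hNS hp𝒪' χ (hK N p) (hF N p)
    (parEigenStatement hNS χ) (hT N p) (Fermat.Agent.S30.H990.smoothStatement N)
    (Fermat.Agent.S30.H990.galoisHeckeStatement N) (hW N p)

/-- **`HasAdicEigenModulesU` from the S18 hub and the wall.** -/
theorem hasAdicEigenModulesU_of_coreFamily (hcore : Fermat.Agent.S29.H222.CoreFamily)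
    (hW : ∀ (N : ℕ) [NeZero N] (p : ℕ) [Fact p.Prime], WallOn N p) :
    HasAdicEigenModulesU :=
  hasAdicEigenModulesU_of_inj
    (fun N _ p hp =>
      haveI : NeZero p := ⟨hp.out.ne_zero⟩
      kummerInjStatement_of_k3fin N p (fun n =>
        haveI : NeZero (p ^ n) := ⟨pow_ne_zero n hp.out.ne_zero⟩
        Fermat.Agent.S29.H942.finStatement N (p ^ n)))
    (fun N _ p hp =>
      haveI : NeZero p := ⟨hp.out.ne_zero⟩
      Fermat.Agent.S30.H330.finStatement N p)
    (fun N _ p _ => torsionRelations_of_coreFamily hcore N p)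
    hW

/-- **The frozen statement S34 from the S18 hub and the wall on `J₀(N)[p^∞]`.** -/
theorem result_of_wallOn_coreFamily (hcore : Fermat.Agent.S29.H222.CoreFamily)
    (hW : ∀ (N : ℕ) [NeZero N] (p : ℕ) [Fact p.Prime], WallOn N p)
    {𝒪 : Type} [CommRing 𝒪] [IsDomain 𝒪] [IsDiscreteValuationRing 𝒪]
    [IsAdicComplete (IsLocalRing.maximalIdeal 𝒪) 𝒪] [Finite (IsLocalRing.ResidueField 𝒪)]
    [CharZero 𝒪]
    {p : ℕ} (hp : p.Prime) (hp𝒪 : (p : 𝒪) ∈ IsLocalRing.maximalIdeal 𝒪)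
    {N : ℕ} [NeZero N] {S : Finset ℕ} (hpS : p ∈ S) (hNS : ∀ q : ℕ, q.Prime → q ∣ N → q ∈ S)
    {θ : CuspForm.heckeAlgebra N 2 (↑S : Set ℕ) →+* IsLocalRing.ResidueField 𝒪}
    {T : Type} [CommRing T] [IsLocalRing T] [IsNoetherianRing T]
    [IsAdicComplete (IsLocalRing.maximalIdeal T) T] [Algebra 𝒪 T] [IsLocalHom (algebraMap 𝒪 T)]
    [Module.Finite 𝒪 T] [Module.Free 𝒪 T]
    (H : CuspForm.HeckeGaloisRepDatum N (↑S : Set ℕ) 𝒪 θ T)
    (q : ℕ) (hq : q.Prime) (hqp : q ≠ p) (hqN : q ∣ N) (hq2 : ¬ q ^ 2 ∣ N) :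
    H.ρ.IsUnipotentOnInertiaAt q :=
  result_of_U_SS (hasAdicEigenModulesU_of_coreFamily hcore hW)
    Fermat.Agent.S31.H838.ssStatement hp hp𝒪 hpS hNS H q hq hqp hqN hq2

/-- **The frozen statement S34 from the two S18 nodes and the wall `A2.Target`.** -/
theorem result_of_wall_nodes
    (node_mod : ∀ (M : ℕ) [NeZero M] {ℓ : ℕ} [Fact ℓ.Prime], ¬ ℓ ∣ M →
      ∀ A : ValuationSubring Qb, A.LiesOverPrime ℓ → Fermat.Agent.S18.Mod.GoodModelStatement M ℓ A)
    (node_alg : ∀ M : ℕ, Fermat.Agent.S18.Mod.AlgStatement M)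
    (hwall : ∀ (N q m : ℕ), q.Prime → q ∣ N → ¬ q ^ 2 ∣ N → N ≠ 0 → 0 < m → ¬ q ∣ m →
      Fermat.Agent.A2.Target N q m)
    {𝒪 : Type} [CommRing 𝒪] [IsDomain 𝒪] [IsDiscreteValuationRing 𝒪]
    [IsAdicComplete (IsLocalRing.maximalIdeal 𝒪) 𝒪] [Finite (IsLocalRing.ResidueField 𝒪)]
    [CharZero 𝒪]
    {p : ℕ} (hp : p.Prime) (hp𝒪 : (p : 𝒪) ∈ IsLocalRing.maximalIdeal 𝒪)
    {N : ℕ} [NeZero N] {S : Finset ℕ} (hpS : p ∈ S) (hNS : ∀ q : ℕ, q.Prime → q ∣ N → q ∈ S)
    {θ : CuspForm.heckeAlgebra N 2 (↑S : Set ℕ) →+* IsLocalRing.ResidueField 𝒪}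
    {T : Type} [CommRing T] [IsLocalRing T] [IsNoetherianRing T]
    [IsAdicComplete (IsLocalRing.maximalIdeal T) T] [Algebra 𝒪 T] [IsLocalHom (algebraMap 𝒪 T)]
    [Module.Finite 𝒪 T] [Module.Free 𝒪 T]
    (H : CuspForm.HeckeGaloisRepDatum N (↑S : Set ℕ) 𝒪 θ T)
    (q : ℕ) (hq : q.Prime) (hqp : q ≠ p) (hqN : q ∣ N) (hq2 : ¬ q ^ 2 ∣ N) :
    H.ρ.IsUnipotentOnInertiaAt q :=
  result_of_wallOn_coreFamily (Fermat.Agent.S18.H694.coreFamily_of_nodes node_mod node_alg)
    (fun N' hN' p' hp' => wallOn_of_target hp'.out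
      (fun q m hq hqN hq2 hm hqm => hwall N' q m hq hqN hq2 (NeZero.ne N') hm hqm))
    hp hp𝒪 hpS hNS H q hq hqp hqN hq2

/-- **The frozen statement S34 from the two S18 nodes and the three interface statements ALG, IF,
MOD of the wall A2.** -/
theorem result_of_wall_parts_nodes
    (node_mod : ∀ (M : ℕ) [NeZero M] {ℓ : ℕ} [Fact ℓ.Prime], ¬ ℓ ∣ M →
      ∀ A : ValuationSubring Qb, A.LiesOverPrime ℓ → Fermat.Agent.S18.Mod.GoodModelStatement M ℓ A)
    (node_alg : ∀ M : ℕ, Fermat.Agent.S18.Mod.AlgStatement M)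
    (hALG : Fermat.Agent.A2.AlgSSStatement)
    (hIF : Fermat.Agent.A2.IFStatement) (hMOD : Fermat.Agent.A2.ModSSStatement)
    {𝒪 : Type} [CommRing 𝒪] [IsDomain 𝒪] [IsDiscreteValuationRing 𝒪]
    [IsAdicComplete (IsLocalRing.maximalIdeal 𝒪) 𝒪] [Finite (IsLocalRing.ResidueField 𝒪)]
    [CharZero 𝒪]
    {p : ℕ} (hp : p.Prime) (hp𝒪 : (p : 𝒪) ∈ IsLocalRing.maximalIdeal 𝒪)
    {N : ℕ} [NeZero N] {S : Finset ℕ} (hpS : p ∈ S) (hNS : ∀ q : ℕ, q.Prime → q ∣ N → q ∈ S)
    {θ : CuspForm.heckeAlgebra N 2 (↑S : Set ℕ) →+* IsLocalRing.ResidueField 𝒪}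
    {T : Type} [CommRing T] [IsLocalRing T] [IsNoetherianRing T]
    [IsAdicComplete (IsLocalRing.maximalIdeal T) T] [Algebra 𝒪 T] [IsLocalHom (algebraMap 𝒪 T)]
    [Module.Finite 𝒪 T] [Module.Free 𝒪 T]
    (H : CuspForm.HeckeGaloisRepDatum N (↑S : Set ℕ) 𝒪 θ T)
    (q : ℕ) (hq : q.Prime) (hqp : q ≠ p) (hqN : q ∣ N) (hq2 : ¬ q ^ 2 ∣ N) :
    H.ρ.IsUnipotentOnInertiaAt q :=
  result_of_wall_nodes node_mod node_alg
    (fun N q m hq hqN hq2 hN hm hqm =>
      target_of_parts789 hALG hIF hMOD N q m hq hqN hq2 hN hm hqm)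
    hp hp𝒪 hpS hNS H q hq hqp hqN hq2

end Fermat.Agent.S34.K789

end
end
-- ===== PACK-END S34/K789/WallGate.lean

-- ===== PACK-BEGIN S35/H991/Final.lean
section
/-
S35 (row-lead helper991): THE ROW ASSEMBLY.  `qNewFrob_final : H891.QNewFrobStatement`, the single
input of the final chain `S35/H991/Ready.lean`, from the leaves of piece (G') (architect
helper450, frozen shapes of `S35/G/{Spec,SpecLevel}.lean`), all on main:

* DEG `G.H73.deg`, T0F `G.H215.t0F`, T1F `G.H858.t1f`, D2F `H155.d2f`, IFs `G.H558.ifs`;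
* the level statement `H433.levelFrob_of_leaves` (helper433; ALG-FROB in the corrected form T) with
  - the three leaves of the wall A2: `A2.Alg.H754.puritySmoothLeaf`,
    `A2.Alg.H609.purityNodeLeaf`, `A2.Alg.H34.glueLeaf`,
  - MODEL `G.H862.model`, STABLE / FROB-RES / COORD `G.H126`,
  - NODE-RAT `G.H558.nodeRat` with KRON-FROB `G.H516.kronFrob`,
  - TORIC = `G.H199.glue` (GLUE) applied to NORM-RED `G.H60.normRed`, STABLE, KRON-FROB;
* the bridge `H909.qNewFrob_of_newPartFrobExplicit`.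
-/

















set_option autoImplicit false
set_option linter.overlappingInstances false

namespace Fermat.Agent.S35.H991

open Fermat.Agent.S35.G

/-- Leaf TORIC of piece (G'), at every level. -/
theorem toric_final (A : ValuationSubring Qb) (E : IntermediateField ℚ Qb) (M q m : ℕ)
    [NeZero M] [NeZero q] (w : A2.Mod.RE A E) : ToricStatement A E M q m w :=
  Fermat.Agent.S35.G.H199.glue A E M q w m
    (Fermat.Agent.S35.G.H60.normRed A E M q w)
    (Fermat.Agent.S35.G.H126.stable A E)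
    (Fermat.Agent.S35.G.H516.kronFrob A E M q w)

/-- The level statement of (G') at every level with the auxiliary prime. -/
theorem levelFrob_final (M q m : ℕ) [NeZero M] [NeZero q] (hq : q.Prime) (hqM : ¬ q ∣ M)
    (haux : HasAux M q) (hm : 0 < m) (hqm : ¬ q ∣ m) (A : ValuationSubring Qb)
    (E : IntermediateField ℚ Qb) : LevelFrobAt A E M q m :=
  Fermat.Agent.S35.H433.levelFrob_of_leaves A E M q m hq hqM haux hm hqm
    Fermat.Agent.A2.Alg.H754.puritySmoothLeaf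
    Fermat.Agent.A2.Alg.H609.purityNodeLeaf
    Fermat.Agent.A2.Alg.H34.glueLeaf
    (fun w => Fermat.Agent.S35.G.H862.model A E M q w)
    (Fermat.Agent.S35.G.H126.stable A E)
    (fun w => Fermat.Agent.S35.G.H558.nodeRat A E M q w
      (Fermat.Agent.S35.G.H516.kronFrob A E M q w) (Fermat.Agent.S35.G.H126.stable A E))
    (fun w => toric_final A E M q m w)
    (Fermat.Agent.S35.G.H126.frobRes A E q)
    (Fermat.Agent.S35.G.H126.coord E M q)

/-- (G'), explicit form. -/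
theorem newPartFrobExplicit_final : NewPartFrobExplicit :=
  newPartFrobExplicit_of_parts Fermat.Agent.S35.G.H73.deg Fermat.Agent.S35.G.H215.t0F
    Fermat.Agent.S35.G.H858.t1f Fermat.Agent.S35.H155.d2f Fermat.Agent.S35.G.H558.ifs
    (fun M q m _ _ hq hqM haux hm hqm A E => levelFrob_final M q m hq hqM haux hm hqm A E)

/-- **The row assembly**: the single input of the final chain `S35/H991/Ready.lean`. -/
theorem qNewFrob_final : Fermat.Agent.S35.H891.QNewFrobStatement :=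
  Fermat.Agent.S35.H909.qNewFrob_of_newPartFrobExplicit newPartFrobExplicit_final

end Fermat.Agent.S35.H991

end
-- ===== PACK-END S35/H991/Final.lean

-- ===== PACK-BEGIN S59/H686/ResFrobDatum.lean
section


/-!
# Row S59, cell NM, LEAF RFD (helper686): `Arch.ResFrobOfDatumStatement`

The residual Hecke character `θ` of a Hecke–Galois datum `H` over `T` whose residual
representation is (equivalent to) `ρ̄ ⊗ k(T)` is the Frobenius character of `ρ̄`:

`charpoly ρ̄(Frob_ℓ) ↦ charpoly (ρ̄ ⊗ k(T))(Frob_ℓ) = charpoly ρ_T^{res}(Frob_ℓ)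
   = (X² - π(T_ℓ) X + ℓ) mod 𝔪_T = ι (X² - θ(T_ℓ) X + ℓ)`  and `ι : k(𝒪) → k(T)` is injective.

* `rfd_charpoly_residual`, `rfd_charpoly_baseChangeAlong`, `rfd_charpoly_equiv`: the three
  dictionary steps (kept local to keep the import closure small).
* `resFrobOfDatum : Arch.ResFrobOfDatumStatement` (verbatim).
-/

set_option autoImplicit false

open Polynomial IsLocalRing

namespace Fermat.Agent.S59.H686

/-- The characteristic polynomial of `ρ̄(σ)` is the reduction of that of `ρ(σ)`. -/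
theorem rfd_charpoly_residual {A : Type} [CommRing A] [IsLocalRing A] (ρ : GaloisRepAdic A)
    (σ : AlgebraicClosure ℚ ≃ₐ[ℚ] AlgebraicClosure ℚ) :
    LinearMap.charpoly (ρ.residual.ρ σ) = (LinearMap.charpoly (ρ.ρ σ)).map (residue A) :=
  LinearMap.charpoly_baseChange (A := ResidueField A) (ρ.ρ σ)

/-- Characteristic polynomials commute with base change of residual representations. -/
theorem rfd_charpoly_baseChangeAlong {k k' : Type} [Field k] [Field k'] (ι : k →+* k')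
    (ρbar : ResidualGaloisRep k) (σ : AlgebraicClosure ℚ ≃ₐ[ℚ] AlgebraicClosure ℚ) :
    LinearMap.charpoly ((ρbar.baseChangeAlong ι).ρ σ) =
      (LinearMap.charpoly (ρbar.ρ σ)).map ι := by
  letI : Algebra k k' := ι.toAlgebra
  show LinearMap.charpoly ((ρbar.ρ σ).baseChange k') = _
  rw [LinearMap.charpoly_baseChange]
  rfl

/-- Equivalent residual representations have the same characteristic polynomials. -/
theorem rfd_charpoly_equiv {k : Type} [Field k] {ρ₁ ρ₂ : ResidualGaloisRep k}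
    (e : ResidualGaloisRep.Equiv ρ₁ ρ₂) (σ : AlgebraicClosure ℚ ≃ₐ[ℚ] AlgebraicClosure ℚ) :
    LinearMap.charpoly (ρ₁.ρ σ) = LinearMap.charpoly (ρ₂.ρ σ) := by
  have h1 : ρ₂.ρ σ = e.toLinearEquiv.conj (ρ₁.ρ σ) := by
    refine LinearMap.ext fun y => ?_
    rw [LinearEquiv.conj_apply_apply, e.map_apply, LinearEquiv.apply_symm_apply]
  rw [h1, LinearEquiv.charpoly_conj]

/-- **LEAF RFD** of cell NM (`Arch.ResFrobOfDatumStatement`, verbatim). -/
theorem resFrobOfDatum : Arch.ResFrobOfDatumStatement := by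
  intro N _ S 𝒪 _ _ _ _ ρbar θ T _ _ _ _ _ _ _ _ H hEq
  intro ℓ hℓ hℓN hℓS B hB σ hσ
  obtain ⟨e⟩ := hEq
  set ι : ResidueField 𝒪 →+* ResidueField T := ResidueField.map (algebraMap 𝒪 T) with hι
  have h1 := H.charpoly_frob ℓ hℓ hℓN hℓS B hB σ hσ
  have h2 := rfd_charpoly_residual H.ρ σ
  have h3 := rfd_charpoly_equiv e σ
  have h4 := rfd_charpoly_baseChangeAlong ι ρbar σ
  apply Polynomial.map_injective ι ι.injective
  rw [← h4, ← h3, h2, h1]
  simp only [Polynomial.map_sub, Polynomial.map_add, Polynomial.map_mul, Polynomial.map_pow,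
    Polynomial.map_X, Polynomial.map_C, map_natCast, Polynomial.map_natCast, H.residue_π, hι]

end Fermat.Agent.S59.H686
end
-- ===== PACK-END S59/H686/ResFrobDatum.lean

-- ===== PACK-BEGIN S59/TW/Aut/H31/NonEis.lean
section




/-!
# S59 / cell TW / AUT Layer 3: the auxiliary non-Eisenstein prime (helper31)

Shared glue for the leaves MOD0, MODQ, FREE, CTRL of `TW/Aut/Spec.lean`.

* `resFrobCond_of_pkg` : the residual Hecke character of a package is the Frobenius character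
  of `ρ̄` (`H686.resFrobOfDatum` applied to the package).
* `exists_nonEis_mem_TsetOf` : for every Hecke package `P` (any `Σ`), every modulus `m > 0` and
  every finite set `S'` there is a pair `(ℓ, c) ∈ TsetOf P` with `ℓ ∉ S'`, `ℓ ≡ 1 mod m`,
  `ℓ ≡ 1 mod p` and `c - (ℓ + 1)` a UNIT of `𝒪`  (i.e. `θ(T_ℓ) ≠ ℓ + 1`).
  Proof: `resFrobCond_of_pkg` and `H424.nePrimeK_h424` (Chebotarev + absolute irreducibility).
* `exists_nonEis_prime_of_pkg` : the same without the lift `c` (`θ(T_ℓ) ≠ ℓ + 1` in `k`).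
-/

set_option autoImplicit false

open Polynomial IsLocalRing CongruenceSubgroup
open scoped MatrixGroups

namespace Fermat.Agent.S59.TW.Aut.H31

open Fermat.Agent.S59.Arch Fermat.Agent.S59.TW.H959 Fermat.Agent.S59.TW.H653
open Fermat.Agent.S59.TW.Aut

section

variable {p : ℕ}
  {𝒪 : Type} [CommRing 𝒪] [IsDomain 𝒪] [IsDiscreteValuationRing 𝒪]
  [IsAdicComplete (maximalIdeal 𝒪) 𝒪]
  {ρbar : ResidualGaloisRep (ResidueField 𝒪)} {t : PType} {Smin : Finset ℕ}

/-- The residual Hecke character of a package is the Frobenius character of `ρ̄`. -/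
theorem resFrobCond_of_pkg {Sig : Finset ℕ} [NeZero (wilesLevel p t Smin Sig)]
    (P : HeckePkg p 𝒪 ρbar t Smin Sig) : G4.ResFrobCond ρbar P.θ :=
  Fermat.Agent.S59.H686.resFrobOfDatum (wilesLevel p t Smin Sig) (↑Sig : Set ℕ) 𝒪 ρbar P.θ P.T
    P.H P.hres

/-- The residue field of `𝒪` has characteristic `p`. -/
theorem charP_residueField_h31 [Fact p.Prime] (hp𝒪 : (p : 𝒪) ∈ maximalIdeal 𝒪) :
    CharP (ResidueField 𝒪) p := by
  have h0 : ((p : ℕ) : ResidueField 𝒪) = 0 := by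
    have h1 : residue 𝒪 (p : 𝒪) = 0 := (residue_eq_zero_iff _).mpr hp𝒪
    simpa using h1
  exact (CharP.charP_iff_prime_eq_zero (Fact.out : p.Prime)).mpr h0

/-- **The auxiliary non-Eisenstein prime**, residual form: there is a good prime `ℓ` of the
package, `ℓ ∉ S'`, `ℓ ≡ 1 mod m`, `ℓ ≡ 1 mod p`, with `θ(T_ℓ) ≠ ℓ + 1`. -/
theorem exists_nonEis_prime_of_pkg [Fact p.Prime] [Finite (ResidueField 𝒪)]
    (h : ResidualHyp p 𝒪 ρbar Smin) {Sig : Finset ℕ}
    [NeZero (wilesLevel p t Smin Sig)] (P : HeckePkg p 𝒪 ρbar t Smin Sig)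
    (m : ℕ) (hm : 0 < m) (S' : Finset ℕ) :
    ∃ (ℓ : ℕ) (hℓ : ℓ.Prime) (hℓN : ¬ ℓ ∣ wilesLevel p t Smin Sig)
      (hℓS : ℓ ∉ (↑Sig : Set ℕ)), ℓ ∉ S' ∧ ℓ ≡ 1 [MOD m] ∧ ℓ ≡ 1 [MOD p] ∧
        P.θ (CuspForm.heckeAlgebra.T hℓ hℓN hℓS) ≠ (ℓ : ResidueField 𝒪) + 1 := by
  classical
  have hp : p.Prime := Fact.out
  have : CharP (ResidueField 𝒪) p := charP_residueField_h31 h.hp𝒪
  set N := wilesLevel p t Smin Sig with hN
  have hN0 : N ≠ 0 := NeZero.ne N
  -- the exceptional set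
  set S : Finset ℕ := insert p (Sig ∪ N.primeFactors) with hS
  -- the Frobenius traces
  let a : ℕ → ResidueField 𝒪 := fun ℓ =>
    if hh : ℓ.Prime ∧ ¬ ℓ ∣ N ∧ ℓ ∉ (↑Sig : Set ℕ) then
      P.θ (CuspForm.heckeAlgebra.T hh.1 hh.2.1 hh.2.2) else 0
  have hgood : ∀ ℓ : ℕ, ℓ.Prime → ℓ ∉ S → ℓ.Prime ∧ ¬ ℓ ∣ N ∧ ℓ ∉ (↑Sig : Set ℕ) := by
    intro ℓ hℓ hℓS
    rw [hS, Finset.mem_insert, Finset.mem_union, not_or, not_or] at hℓS
    refine ⟨hℓ, fun hdvd => hℓS.2.2 (Nat.mem_primeFactors.mpr ⟨hℓ, hdvd, hN0⟩), ?_⟩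
    simpa using hℓS.2.1
  have ha : ∀ (l : ℕ), l.Prime → l ∉ S →
      ∀ B : ValuationSubring Fermat.Agent.S31.Qb, B.LiesOverPrime l →
        ∀ σ : Fermat.Agent.S31.GQ, B.IsFrobeniusAt σ l →
          LinearMap.charpoly (ρbar.ρ σ) = X ^ 2 - C (a l) * X + C ((l : ResidueField 𝒪)) := by
    intro l hl hlS B hB σ hσ
    have hg := hgood l hl hlS
    have h1 := resFrobCond_of_pkg P l hg.1 hg.2.1 hg.2.2 B hB σ hσ
    have h2 : a l = P.θ (CuspForm.heckeAlgebra.T hg.1 hg.2.1 hg.2.2) := dif_pos hg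
    rw [h2]
    exact h1
  -- a prime `q ≠ p`
  obtain ⟨q, hq, hqp⟩ : ∃ q : ℕ, q.Prime ∧ q ≠ p := by
    by_cases h3 : p = 3
    · exact ⟨2, Nat.prime_two, by omega⟩
    · exact ⟨3, Nat.prime_three, fun h' => h3 h'.symm⟩
  obtain ⟨ℓ, hℓ, hℓS, hℓS', hℓm, hℓp, hne, -⟩ :=
    Fermat.Agent.S59.H424.nePrimeK_h424 p h.hp2 (ResidueField 𝒪) ρbar h.habs h.hsplit S
      (Finset.mem_insert_self _ _) a ha q hq hqp m hm S'
  have hg := hgood ℓ hℓ hℓS
  refine ⟨ℓ, hg.1, hg.2.1, hg.2.2, hℓS', hℓm, hℓp, ?_⟩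
  have h2 : a ℓ = P.θ (CuspForm.heckeAlgebra.T hg.1 hg.2.1 hg.2.2) := dif_pos hg
  rw [← h2]
  exact hne

/-- **The auxiliary non-Eisenstein prime** in the vocabulary of `TW/Aut/Spec.lean`: a pair
`(ℓ, c) ∈ TsetOf P` with `ℓ ∉ S'`, `ℓ ≡ 1 mod m`, `ℓ ≡ 1 mod p` and `c - (ℓ + 1) ∈ 𝒪ˣ`. -/
theorem exists_nonEis_mem_TsetOf [Fact p.Prime] [Finite (ResidueField 𝒪)]
    (h : ResidualHyp p 𝒪 ρbar Smin) {Sig : Finset ℕ}
    [NeZero (wilesLevel p t Smin Sig)] (P : HeckePkg p 𝒪 ρbar t Smin Sig)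
    (m : ℕ) (hm : 0 < m) (S' : Finset ℕ) :
    ∃ (ℓ : ℕ) (c : 𝒪), (ℓ, c) ∈ TsetOf P ∧ ℓ.Prime ∧ ℓ ∉ S' ∧ ℓ ≡ 1 [MOD m] ∧ ℓ ≡ 1 [MOD p] ∧
      IsUnit (c - ((ℓ : 𝒪) + 1)) := by
  obtain ⟨ℓ, hℓ, hℓN, hℓS, hℓS', hℓm, hℓp, hne⟩ := exists_nonEis_prime_of_pkg h P m hm S'
  obtain ⟨c, hc⟩ := residue_surjective (P.θ (CuspForm.heckeAlgebra.T hℓ hℓN hℓS))
  refine ⟨ℓ, c, ⟨hℓ, hℓN, hℓS, hc⟩, hℓ, hℓS', hℓm, hℓp, ?_⟩
  by_contra hu
  have h1 : c - ((ℓ : 𝒪) + 1) ∈ maximalIdeal 𝒪 := (mem_maximalIdeal _).mpr hu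
  have h2 : residue 𝒪 (c - ((ℓ : 𝒪) + 1)) = 0 := (residue_eq_zero_iff _).mpr h1
  rw [map_sub, map_add, map_one, map_natCast, hc, sub_eq_zero] at h2
  exact hne h2

end

end Fermat.Agent.S59.TW.Aut.H31

end
-- ===== PACK-END S59/TW/Aut/H31/NonEis.lean

-- ===== PACK-BEGIN S59/TW/Aut/H31/AuxPrime.lean
section



/-!
# S59 / cell TW / AUT Layer 3: the auxiliary prime, one-stop form (helper31)

`exists_auxPrime_h31` : `V` the localisation (`IsLocPart`) of `X_K(𝒪)`, `Γ₁(M) ≤ K ≤ Γ₀(M)`, at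
an eigen-system containing the one of a Hecke package `P` (`TsetOf P ⊆ Tset`).  Then for every
`m > 0` and every finite set `S'` there is a prime `ℓ ∉ S'`, `ℓ ≡ 1 mod m`, `ℓ ≡ 1 mod M`,
`ℓ ≡ 1 mod p`, `ℓ ∤ M`, good for `P`, such that `T_ℓ - (ℓ + 1)` is BIJECTIVE on `V`
(the hypothesis of `MFree.FreeStatement`; also what kills the boundary/Eisenstein classes).

Instances: `exists_auxPrime_min_h31` (`IsMinPart P₀ V₀`), `exists_auxPrime_Q_h31`
(`IsQPart PQ α V`).
-/

set_option autoImplicit false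

open Polynomial IsLocalRing CongruenceSubgroup
open scoped MatrixGroups

namespace Fermat.Agent.S59.TW.Aut.H31

open Fermat.Agent.S59.Arch Fermat.Agent.S59.TW.H959 Fermat.Agent.S59.TW.H653
open Fermat.Agent.S59.TW.Aut

variable {p : ℕ} [Fact p.Prime]
  {𝒪 : Type} [CommRing 𝒪] [IsDomain 𝒪] [IsDiscreteValuationRing 𝒪]
  [IsAdicComplete (maximalIdeal 𝒪) 𝒪] [Finite (ResidueField 𝒪)]
  {ρbar : ResidualGaloisRep (ResidueField 𝒪)} {t : PType} {Smin : Finset ℕ}

/-- **The auxiliary prime**: a non-Eisenstein prime `ℓ ≡ 1 mod M m p` such that `T_ℓ - (ℓ + 1)`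
is bijective on the localisation `V`. -/
theorem exists_auxPrime_h31 (h : ResidualHyp p 𝒪 ρbar Smin) {Sig : Finset ℕ}
    [NeZero (wilesLevel p t Smin Sig)] (P : HeckePkg p 𝒪 ρbar t Smin Sig)
    {M : ℕ} (hM : M ≠ 0) {K : Subgroup SL(2, ℤ)} {hK : IsMid M K}
    {Tset Uset : Set (ℕ × 𝒪)} (hT : TsetOf P ⊆ Tset)
    {V : Submodule 𝒪 (Additive K →+ 𝒪)} (hV : IsLocPart hK Tset Uset V)
    (m : ℕ) (hm : 0 < m) (S' : Finset ℕ) :
    ∃ (ℓ : ℕ) (_ : Fact ℓ.Prime) (c : 𝒪), (ℓ, c) ∈ TsetOf P ∧ ¬ ℓ ∣ M ∧ ℓ ∉ S' ∧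
      ℓ ≡ 1 [MOD m] ∧ ℓ ≡ 1 [MOD M] ∧ ℓ ≡ 1 [MOD p] ∧ IsUnit (c - ((ℓ : 𝒪) + 1)) ∧
      (∀ y ∈ V, ∃ x ∈ V, TK M K ℓ x - ((ℓ : 𝒪) + 1) • x = y) ∧
      (∀ x ∈ V, TK M K ℓ x - ((ℓ : 𝒪) + 1) • x = 0 → x = 0) := by
  have : NeZero M := ⟨hM⟩
  obtain ⟨ℓ, c, hmem, hℓ, hℓS', hℓmM, hℓp, hu⟩ :=
    exists_nonEis_mem_TsetOf h P (m * M) (Nat.mul_pos hm (Nat.pos_of_ne_zero hM)) S'
  have hℓm : ℓ ≡ 1 [MOD m] := hℓmM.of_mul_right M
  have hℓM : ℓ ≡ 1 [MOD M] := hℓmM.of_mul_left m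
  have hndvd : ¬ ℓ ∣ M := by
    intro hdvd
    have h1 : ℓ ≡ 1 [MOD ℓ] := hℓM.of_dvd hdvd
    have h2 : ℓ ∣ 1 := by
      have h3 := (Nat.modEq_iff_dvd' (Nat.one_le_iff_ne_zero.mpr hℓ.ne_zero)).mp h1.symm
      have h4 : ℓ ∣ ℓ - 1 + 1 := by
        rw [Nat.sub_add_cancel hℓ.one_lt.le]
      exact (Nat.dvd_add_right h3).mp h4
    exact hℓ.one_lt.ne' (Nat.dvd_one.mp h2)
  have : Fact ℓ.Prime := ⟨hℓ⟩
  obtain ⟨h1, h2⟩ := locPart_TK_sub_bij_h31 hV hndvd (hT hmem) hu
  exact ⟨ℓ, ‹_›, c, hmem, hndvd, hℓS', hℓm, hℓM, hℓp, hu, h1, h2⟩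

/-- The auxiliary prime at the minimal level. -/
theorem exists_auxPrime_min_h31 (h : ResidualHyp p 𝒪 ρbar Smin)
    [NeZero (wilesLevel p t Smin Smin)] (P₀ : HeckePkg p 𝒪 ρbar t Smin Smin)
    {V₀ : Submodule 𝒪 (Additive (Gamma0 (wilesLevel p t Smin Smin)) →+ 𝒪)}
    (hV : IsMinPart P₀ V₀) (m : ℕ) (hm : 0 < m) (S' : Finset ℕ) :
    ∃ (ℓ : ℕ) (_ : Fact ℓ.Prime) (c : 𝒪), (ℓ, c) ∈ TsetOf P₀ ∧
      ¬ ℓ ∣ wilesLevel p t Smin Smin ∧ ℓ ∉ S' ∧
      ℓ ≡ 1 [MOD m] ∧ ℓ ≡ 1 [MOD wilesLevel p t Smin Smin] ∧ ℓ ≡ 1 [MOD p] ∧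
      IsUnit (c - ((ℓ : 𝒪) + 1)) ∧
      (∀ y ∈ V₀, ∃ x ∈ V₀, TK (wilesLevel p t Smin Smin) (Gamma0 (wilesLevel p t Smin Smin)) ℓ x -
        ((ℓ : 𝒪) + 1) • x = y) ∧
      (∀ x ∈ V₀, TK (wilesLevel p t Smin Smin) (Gamma0 (wilesLevel p t Smin Smin)) ℓ x -
        ((ℓ : 𝒪) + 1) • x = 0 → x = 0) :=
  exists_auxPrime_h31 h P₀ (NeZero.ne _) (le_refl _) hV m hm S'

/-- The auxiliary prime at the level `Q`. -/
theorem exists_auxPrime_Q_h31 (h : ResidualHyp p 𝒪 ρbar Smin) {r : ℕ} {qv : Fin r → ℕ}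
    [NeZero (wilesLevel p t Smin (Smin ∪ Finset.univ.image qv))]
    (PQ : HeckePkg p 𝒪 ρbar t Smin (Smin ∪ Finset.univ.image qv))
    (hM : bLevel (wilesLevel p t Smin Smin) qv ≠ 0) {α : Fin r → 𝒪}
    {V : Submodule 𝒪 (XQ p t Smin qv 𝒪)} (hV : IsQPart PQ α V)
    (m : ℕ) (hm : 0 < m) (S' : Finset ℕ) :
    ∃ (ℓ : ℕ) (_ : Fact ℓ.Prime) (c : 𝒪), (ℓ, c) ∈ TsetOf PQ ∧
      ¬ ℓ ∣ bLevel (wilesLevel p t Smin Smin) qv ∧ ℓ ∉ S' ∧
      ℓ ≡ 1 [MOD m] ∧ ℓ ≡ 1 [MOD bLevel (wilesLevel p t Smin Smin) qv] ∧ ℓ ≡ 1 [MOD p] ∧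
      IsUnit (c - ((ℓ : 𝒪) + 1)) ∧
      (∀ y ∈ V, ∃ x ∈ V, TK (bLevel (wilesLevel p t Smin Smin) qv)
        (KQ p (wilesLevel p t Smin Smin) qv) ℓ x - ((ℓ : 𝒪) + 1) • x = y) ∧
      (∀ x ∈ V, TK (bLevel (wilesLevel p t Smin Smin) qv)
        (KQ p (wilesLevel p t Smin Smin) qv) ℓ x - ((ℓ : 𝒪) + 1) • x = 0 → x = 0) :=
  exists_auxPrime_h31 h PQ hM (le_refl _) hV m hm S'

end Fermat.Agent.S59.TW.Aut.H31

end
-- ===== PACK-END S59/TW/Aut/H31/AuxPrime.lean

-- ===== PACK-BEGIN S32/EigChain.lean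
section
/-
Row S32 (flat at `p`), piece EIG on the LANDED chain of row S30 (helper32).

The chain of row S30 which is on main (`S30/H330/AdicChain.lean`, `S30/H222/OfNodes.lean`)
builds the adic eigenmodule from an eigen-homomorphism `f : Frac 𝒪 / 𝒪 → J₀(N)(ℚ̄)`
(`H330.exists_eigenHom_of_inj`) as the Tate eigenmodule of `X = Hom_ℤ(𝒪, J)`
(`S30/H529/HomTate.lean`).  Here the same module is shown to be FLAT (`IsFlatMod`): evaluation at
the `n`-th component followed by evaluation at representatives `o_i` of `𝒪 / p ^ (n + 1)` is an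
equivariant map `M → J[p ^ (n + 1)] ^ r` with kernel `p ^ (n + 1) M`.

* `homEigen_isFlatMod` : flatness of the Tate eigenmodule of `Hom_ℤ(𝒪, J)`;
* `exists_flat_homEigenmodule` : `S30.H529.adicModule_of_torsion` with the additional conclusion;
* `flatEigenStatement_of_chain` : EIG from (K'), (F), (T) of the adic module layer + frozen S19;
* `flatEigenStatement_of_k3fin_rawESAll` : EIG from the two inputs of
  `H330.result_of_k3fin_rawESAll` + frozen S19.
-/





set_option autoImplicit false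

noncomputable section

namespace Fermat.Agent.S32

open IsLocalRing Fermat.Agent.S19 Fermat.Agent.S30

/-! ### Representatives modulo a nonzero element of a DVR with finite residue field -/

section RepsHom

variable {O : Type} [CommRing O] [IsDomain O] [IsDiscreteValuationRing O]
  [Finite (ResidueField O)]

theorem exists_reps_mod {x : O} (hx : x ≠ 0) :
    ∃ (r : ℕ) (o : Fin r → O), ∀ b : O, ∃ i : Fin r, ∃ d : O, b = o i + x * d := by
  obtain ⟨n, hn⟩ := H529.exists_pow_maximalIdeal_le_span hx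
  have h1 : Finite (O ⧸ maximalIdeal O ^ n) := by
    have : Finite (O ⧸ maximalIdeal O) := (inferInstance : Finite (ResidueField O))
    exact Ideal.finite_quotient_pow (IsNoetherian.noetherian _) n
  have h2 : Finite (O ⧸ Ideal.span {x}) :=
    Finite.of_surjective (Ideal.Quotient.factor hn) (Ideal.Quotient.factor_surjective hn)
  let e := Finite.equivFin (O ⧸ Ideal.span {x})
  refine ⟨Nat.card (O ⧸ Ideal.span {x}),
    fun i => Function.surjInv Ideal.Quotient.mk_surjective (e.symm i), fun b => ?_⟩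
  refine ⟨e (Ideal.Quotient.mk _ b), ?_⟩
  have h3 : Ideal.Quotient.mk (Ideal.span {x})
      (Function.surjInv Ideal.Quotient.mk_surjective (e.symm (e (Ideal.Quotient.mk _ b)))) =
      Ideal.Quotient.mk _ b :=
    (Function.surjInv_eq Ideal.Quotient.mk_surjective _).trans (e.symm_apply_apply _)
  have h4 : b - Function.surjInv Ideal.Quotient.mk_surjective
      (e.symm (e (Ideal.Quotient.mk (Ideal.span {x}) b))) ∈ Ideal.span {x} := by
    rw [← Ideal.Quotient.eq_zero_iff_mem, map_sub, h3, sub_self]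
  obtain ⟨d, hd⟩ := Ideal.mem_span_singleton'.mp h4
  exact ⟨d, by rw [mul_comm, hd]; ring⟩

end RepsHom

/-! ### Flatness of the Tate eigenmodule of `Hom_ℤ(𝒪, J)` -/

section FlatHom

variable (p : ℕ)
variable (O : Type) [CommRing O] [IsDomain O] [IsDiscreteValuationRing O]
  [Finite (ResidueField O)] [CharZero O]
variable (J : Type) [AddCommGroup J] [DistribMulAction GalQ J]
variable {ι : Type} (t : ι → J →+ J) (a : ι → O)

/-- **The Tate eigenmodule of `Hom_ℤ(𝒪, J)` is flat** if the torsion groups `J[p ^ k]` carry Hopf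
models. -/
theorem homEigen_isFlatMod (hord : OrdStatement) [Fact p.Prime]
    (hpO : (p : O) ∈ maximalIdeal O)
    (hρ : ∀ (σ : GalQ) (i : ι) (h : H529.PreHom O J),
      H529.preHomRep O J σ (H529.PreHom.post (t i) h)
        = H529.PreHom.post (t i) (H529.preHomRep O J σ h))
    (hJ : ∀ k : ℕ, ∃ act : GalQ → ↥(Submodule.torsionBy ℤ J ((p : ℤ) ^ k)) →
        ↥(Submodule.torsionBy ℤ J ((p : ℤ) ^ k)),
      (∀ σ m, ((act σ m : ↥(Submodule.torsionBy ℤ J ((p : ℤ) ^ k))) : J) = σ • (m : J)) ∧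
        HopfModel p ↥(Submodule.torsionBy ℤ J ((p : ℤ) ^ k)) act) :
    IsFlatMod p (H529.tateRep (ϖ := (p : O)) (t := fun i => H529.PreHom.post (t i)) (a := a)
      (H529.preHomRep O J) hρ) := by
  intro I hI
  have hp0 : (p : O) ≠ 0 := by
    exact_mod_cast (Fact.out : p.Prime).ne_zero
  obtain ⟨n, hn⟩ := exists_pow_le_of_finite_quotient I hI
  have hpI : (p : O) ^ (n + 1) ∈ I := by
    rw [pow_succ]
    exact Ideal.mul_mem_right _ _ (hn (Ideal.pow_mem_pow hpO n))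
  obtain ⟨r, o, ho⟩ := exists_reps_mod (pow_ne_zero (n + 1) hp0)
  obtain ⟨act, hact, hHopf⟩ := hJ (n + 1)
  have hY := H135.hopfModel_power hord hHopf (Fin r)
  -- values of the `n`-th component are killed by `p ^ (n + 1)`
  have hval : ∀ (v : ↥(H529.tateEigen (p : O) (fun i => H529.PreHom.post (t i)) a)) (x : O),
      H529.PreHom.toHom ((v : ℕ → H529.PreHom O J) n) x
        ∈ Submodule.torsionBy ℤ J ((p : ℤ) ^ (n + 1)) := by
    intro v x
    rw [Submodule.mem_torsionBy_iff, ← Nat.cast_pow, natCast_zsmul,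
      ← H529.PreHom.natCast_pow_smul_apply, H529.tate_pow_succ_smul v.2 n]
    rfl
  let e' : ↥(H529.tateEigen (p : O) (fun i => H529.PreHom.post (t i)) a) →+
      (Fin r → ↥(Submodule.torsionBy ℤ J ((p : ℤ) ^ (n + 1)))) :=
    { toFun := fun v i => ⟨H529.PreHom.toHom ((v : ℕ → H529.PreHom O J) n) (o i), hval v (o i)⟩
      map_zero' := by
        funext i
        apply Subtype.ext
        rfl
      map_add' := by
        intro v w
        funext i
        apply Subtype.ext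
        rfl }
  have he' : ∀ v i, ((e' v i : ↥(Submodule.torsionBy ℤ J ((p : ℤ) ^ (n + 1)))) : J)
      = H529.PreHom.toHom ((v : ℕ → H529.PreHom O J) n) (o i) := fun _ _ => rfl
  refine hopfModel_of_family hord
    (fun σ => (H529.tateRep (ϖ := (p : O)) (t := fun i => H529.PreHom.post (t i)) (a := a)
      (H529.preHomRep O J) hρ σ).toAddMonoidHom) _ 1
    (fun _ => Fin r → ↥(Submodule.torsionBy ℤ J ((p : ℤ) ^ (n + 1))))
    (fun _ σ y i => act σ (y i)) (fun _ => hY)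
    (fun _ => e') ?_ (Submodule.mkQ _).toAddMonoidHom (Submodule.mkQ_surjective _)
    (fun _ _ => rfl) ?_
  · intro _ σ v
    funext i
    apply Subtype.ext
    rw [hact, he', he']
    rfl
  · intro v hv
    refine (Submodule.Quotient.mk_eq_zero _).mpr ?_
    have hvi : ∀ i, H529.PreHom.toHom ((v : ℕ → H529.PreHom O J) n) (o i) = 0 := by
      intro i
      rw [← he', hv 0]
      rfl
    have h0 : (v : ℕ → H529.PreHom O J) n = 0 := by
      apply H529.PreHom.ext
      intro x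
      obtain ⟨i, d, hd⟩ := ho x
      have h1 : H529.PreHom.toHom ((v : ℕ → H529.PreHom O J) n) ((p : O) ^ (n + 1) * d) = 0 := by
        rw [← H529.PreHom.smul_apply, H529.tate_pow_succ_smul v.2 n]
        rfl
      rw [hd, map_add, hvi i, h1, add_zero]
      rfl
    have hlt : ∀ m, m < n + 1 → (v : ℕ → H529.PreHom O J) m = 0 := by
      intro m hm
      obtain ⟨k, rfl⟩ : ∃ k, n = m + k := ⟨n - m, by omega⟩
      rw [← H529.tate_pow_smul v.2 k m, h0, smul_zero]
    obtain ⟨w, hw, hvw⟩ := H529.tate_exists_eq_pow_smul v.2 (n + 1) hlt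
    have h1 : v = (p : O) ^ (n + 1) • (⟨w, hw⟩ : ↥(H529.tateEigen (p : O)
        (fun i => H529.PreHom.post (t i)) a)) := by
      apply Subtype.ext
      rw [hvw]
      rfl
    rw [h1]
    exact Submodule.smul_mem_smul hpI Submodule.mem_top

end FlatHom

/-! ### The flat eigenmodule attached to an eigen-homomorphism `Frac 𝒪 / 𝒪 → J` -/

section MainHom

/-- `S30.H529.adicModule_of_torsion` (piece 1 of the adic module layer of row S30) with the
additional conclusion `IsFlatMod`. -/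
theorem exists_flat_homEigenmodule (hord : OrdStatement)
    {p : ℕ} (hp : p.Prime)
    {O : Type} [CommRing O] [IsDomain O] [IsDiscreteValuationRing O]
    [IsAdicComplete (IsLocalRing.maximalIdeal O) O] [Finite (IsLocalRing.ResidueField O)]
    [CharZero O] (hpO : (p : O) ∈ IsLocalRing.maximalIdeal O)
    {J : Type} [AddCommGroup J] [DistribMulAction GalQ J]
    (hsm : ∀ x : J, ∃ L : IntermediateField ℚ (AlgebraicClosure ℚ), FiniteDimensional ℚ L ∧
      ∀ σ : GalQ, (∀ y ∈ L, σ y = y) → σ • x = x)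
    (hfin : {x : J | p • x = 0}.Finite)
    {ι : Type} (t : ι → J →+ J) (ht : ∀ i (σ : GalQ) (x : J), σ • t i x = t i (σ • x))
    (a : ι → O)
    (f : FractionRing O →+ J) (hf0 : ∀ r : O, f (algebraMap O (FractionRing O) r) = 0)
    (hf : f ≠ 0)
    (hfe : ∀ i x, t i (f x) = f (algebraMap O (FractionRing O) (a i) * x))
    (hJ : ∀ k : ℕ, ∃ act : GalQ → ↥(Submodule.torsionBy ℤ J ((p : ℤ) ^ k)) →
        ↥(Submodule.torsionBy ℤ J ((p : ℤ) ^ k)),
      (∀ σ m, ((act σ m : ↥(Submodule.torsionBy ℤ J ((p : ℤ) ^ k))) : J) = σ • (m : J)) ∧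
        HopfModel p ↥(Submodule.torsionBy ℤ J ((p : ℤ) ^ k)) act) :
    ∃ (M : Type) (_ : AddCommGroup M) (_ : Module O M) (_ : Module.Free O M)
      (_ : Module.Finite O M) (ρ : GalQ →* Module.End O M),
      Nontrivial M ∧ GaloisActionIsAdicContinuous O ρ ∧
      (∀ σ : GalQ, (∀ x : J, (∃ n : ℕ, p ^ n • x = 0) → σ • x = x) → ρ σ = 1) ∧
      (∀ (i : ι) (n : ℕ) (σ : GalQ),
        (∀ x : J, (∃ k : ℕ, p ^ k • x = 0) → σ • σ • x - t i (σ • x) + n • x = 0) →
        ρ σ * ρ σ - a i • ρ σ + (n : O) • (1 : Module.End O M) = 0) ∧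
      IsFlatMod p ρ := by
  have : Fact p.Prime := ⟨hp⟩
  have hϖ0 : (p : O) ≠ 0 := by exact_mod_cast hp.ne_zero
  have hpL : algebraMap O (FractionRing O) (p : O) ≠ 0 := by
    intro h
    exact hϖ0 ((IsFractionRing.injective O (FractionRing O)) (by rw [h, map_zero]))
  -- operators
  set t' : ι → H529.PreHom O J →ₗ[O] H529.PreHom O J := fun i => H529.PreHom.post (t i) with ht'
  have hρ : ∀ (σ : GalQ) (i : ι) (h : H529.PreHom O J),
      H529.preHomRep O J σ (t' i h) = t' i (H529.preHomRep O J σ h) := by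
    intro σ i h
    apply H529.PreHom.ext
    intro x
    simp only [ht', H529.preHomRep_apply, H529.PreHom.post_apply]
    exact ht i σ _
  -- finiteness
  have hX : ∃ Y : Submodule O (H529.PreHom O J), Y.FG ∧
      ∀ h : H529.PreHom O J, (p : O) • h = 0 → h ∈ Y := by
    have hfinX := H529.preHom_torsion_finite (O := O) (J := J) p hϖ0 hfin
    exact ⟨Submodule.span O {h : H529.PreHom O J | (p : O) • h = 0},
      Submodule.fg_span hfinX, fun h hh => Submodule.subset_span hh⟩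
  have hfree := H529.tateEigen_free (t := t') (a := a) hpO hϖ0 hX
  have hfinite := H529.tateEigen_finite (t := t') (a := a) hpO hϖ0 hX
  -- torsion values
  have hval : ∀ (k : ℕ) (h : H529.PreHom O J), (p : O) ^ k • h = 0 →
      ∀ x : O, p ^ k • H529.PreHom.toHom h x = 0 := by
    intro k h hh x
    rw [← H529.PreHom.natCast_pow_smul_apply, hh]
    rfl
  refine ⟨H529.tateEigen (p : O) t' a, inferInstance, inferInstance, hfree, hfinite,
    H529.tateRep (H529.preHomRep O J) hρ, ?_, ?_, ?_, ?_,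
    homEigen_isFlatMod p O J t a hord hpO hρ hJ⟩
  · -- nontrivial
    have hmem : H529.seqOfHom p f ∈ H529.tateEigen (p : O) t' a := by
      refine ⟨?_, ?_, ?_⟩
      · apply H529.PreHom.ext
        intro x
        rw [H529.PreHom.smul_apply, H529.seqOfHom_apply,
          (algebraMap O (FractionRing O)).map_mul]
        have : algebraMap O (FractionRing O) (p : O) * algebraMap O (FractionRing O) x
            * (algebraMap O (FractionRing O) (p : O) ^ (0 + 1))⁻¹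
            = algebraMap O (FractionRing O) x := by
          field_simp
          ring
        rw [this, hf0]
        rfl
      · intro n
        apply H529.PreHom.ext
        intro x
        rw [H529.PreHom.smul_apply, H529.seqOfHom_apply, H529.seqOfHom_apply,
          (algebraMap O (FractionRing O)).map_mul]
        congr 1
        field_simp
        ring
      · intro i n
        apply H529.PreHom.ext
        intro x
        rw [H529.PreHom.smul_apply, H529.seqOfHom_apply]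
        simp only [ht', H529.PreHom.post_apply]
        rw [H529.seqOfHom_apply, hfe, (algebraMap O (FractionRing O)).map_mul, mul_assoc]
    have hne : H529.seqOfHom p f ≠ 0 := by
      intro h0
      apply hf
      apply AddMonoidHom.ext
      intro y
      obtain ⟨x, s, hs, rfl⟩ := IsFractionRing.div_surjective (A := O) y
      have hs0 : s ≠ 0 := nonZeroDivisors.ne_zero hs
      obtain ⟨k, c, hc⟩ := H529.exists_dvd_pow_of_mem_maximalIdeal hpO hs0
      have h1 := congrArg (fun h => H529.PreHom.toHom h (x * c * (p : O))) (congrFun h0 k)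
      simp only [H529.seqOfHom_apply] at h1
      have hsL : algebraMap O (FractionRing O) s ≠ 0 := by
        intro h
        exact hs0 ((IsFractionRing.injective O (FractionRing O)) (by rw [h, map_zero]))
      have h2 : algebraMap O (FractionRing O) (x * c * (p : O))
          * (algebraMap O (FractionRing O) (p : O) ^ (k + 1))⁻¹
          = algebraMap O (FractionRing O) x / algebraMap O (FractionRing O) s := by
        have h3 : algebraMap O (FractionRing O) (p : O) ^ k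
            = algebraMap O (FractionRing O) s * algebraMap O (FractionRing O) c := by
          rw [← map_pow, hc, map_mul]
        rw [pow_succ, h3, (algebraMap O (FractionRing O)).map_mul,
          (algebraMap O (FractionRing O)).map_mul]
        have hcL : algebraMap O (FractionRing O) c ≠ 0 := by
          intro h
          rw [h, mul_zero] at h3
          exact hpL (pow_eq_zero_iff (by
            intro hk
            subst hk
            simp at h3) |>.mp h3)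
        field_simp
      rw [h2] at h1
      rw [h1]
      rfl
    refine ⟨⟨⟨H529.seqOfHom p f, hmem⟩, 0, ?_⟩⟩
    intro h
    exact hne (congrArg Subtype.val h)
  · -- continuity
    intro n
    obtain ⟨L, hL, hLfix⟩ := H529.exists_common_level {x : J | p ^ n • x = 0}
      (H529.finite_torsion_pow J p hfin n) (fun x _ => hsm x)
    refine ⟨L, hL, fun σ hσ m => ?_⟩
    apply H529.tateRep_sub_mem (H529.preHomRep O J) hρ hpO n σ
    intro h hh
    apply H529.PreHom.ext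
    intro x
    rw [H529.preHomRep_apply]
    exact hLfix σ hσ _ (hval n h hh x)
  · -- trivial action
    intro σ hσ
    apply H529.tateRep_eq_one
    rintro h ⟨k, hh⟩
    apply H529.PreHom.ext
    intro x
    rw [H529.preHomRep_apply]
    exact hσ _ ⟨k, hval k h hh x⟩
  · -- quadratic relations
    intro i n σ hσ
    apply H529.tateRep_quadratic
    rintro h ⟨k, hh⟩
    apply H529.PreHom.ext
    intro x
    have h1 := hσ (H529.PreHom.toHom h x) ⟨k, hval k h hh x⟩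
    simp only [ht', H529.PreHom.toHom_add, H529.PreHom.toHom_sub, AddMonoidHom.add_apply,
      AddMonoidHom.sub_apply, H529.preHomRep_apply, H529.PreHom.post_apply,
      H529.PreHom.natCast_smul_apply, H529.PreHom.toHom_zero, AddMonoidHom.zero_apply]
    exact h1

end MainHom

/-! ### EIG from the inputs of the adic module layer of row S30 and the frozen S19 -/

section Chain

open Fermat.Agent.S30.H990 (AdicEigenModule)
open Fermat.Agent.S30.H330

/-- **PIECE EIG** from the inputs (K'), (F), (T) of the adic module layer of row S30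
(`H330.result_of_inj`), the ORD block and the frozen S19 in the form
`HopfModel p (Tors N p k) (torsAct N p k)` for `p ∤ N`. -/
theorem flatEigenStatement_of_chain (hord : OrdStatement)
    (hS19 : ∀ (N p : ℕ) [NeZero N], p.Prime → ¬ p ∣ N → ∀ k : ℕ,
      HopfModel p (Tors N p k) (torsAct N p k))
    (hK : ∀ (N : ℕ) [NeZero N] (p : ℕ) [Fact p.Prime], KummerInjStatement N p)
    (hF : ∀ (N : ℕ) [NeZero N] (p : ℕ) [Fact p.Prime], _root_.Fermat.Agent.S30.H330.FinStatement N p)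
    (hT : ∀ (N : ℕ) [NeZero N] (p : ℕ) [Fact p.Prime], TorsionRelations N p) :
    FlatEigenStatement := by
  intro p _ N _ S hpS hNS hpN 𝒪' _ _ _ _ _ _ hp𝒪' χ
  classical
  have hp : p.Prime := Fact.out
  obtain ⟨f, hf0, hf, hfe⟩ :=
    exists_eigenHom_of_inj hpS hNS hp𝒪' χ (hK N p) (parEigenStatement hNS χ)
  have hSm := Fermat.Agent.S30.H990.smoothStatement N
  have hGH := Fermat.Agent.S30.H990.galoisHeckeStatement N
  obtain ⟨M, j1, j2, j3, j4, ρ, hnt, hcont, hunr, hquad, hflat⟩ :=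
    exists_flat_homEigenmodule hord (O := 𝒪') hp hp𝒪' (J := ModularCurve.JZero N)
      (fun x => hSm x) (hF N p)
      (ι := {ℓ : Nat.Primes // (ℓ : ℕ) ∉ S})
      (fun i => (ModularCurve.heckeOperatorBar N i.1).toAddMonoidHom)
      (fun i σ x => hGH σ i.1 x)
      (fun i => eigenvalue χ (i.1 : ℕ)) f hf0 hf (fun i x => hfe i.1 i.2 x)
      (fun k => ⟨torsAct N p k, fun _ _ => rfl, hS19 N p hp hpN k⟩)
  have hdvd : ∀ q : ℕ, q.Prime → ¬ q ∣ N → q ≠ p → ¬ q ∣ N * p := by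
    intro q hq hqN hqp hdiv
    rcases (Nat.Prime.dvd_mul hq).1 hdiv with h1 | h1
    · exact hqN h1
    · exact hqp ((Nat.prime_dvd_prime_iff_eq hq hp).1 h1)
  exact ⟨{ M := M
           ρ := ρ
           cont := hcont
           unram := fun q hq hqN hqp P hP σ hσ =>
             hunr σ fun x hx => (hT N p q hq (hdvd q hq hqN hqp) P hP).1 σ hσ x hx
           frob := fun ℓ hℓ hℓN hℓS A hA σ hσ => by
             have hℓS' : ℓ ∉ S := fun hmem => hℓS (Finset.mem_coe.mpr hmem)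
             have hℓp : ℓ ≠ p := fun h => hℓS' (h ▸ hpS)
             have h1 := hquad ⟨⟨ℓ, hℓ⟩, hℓS'⟩ ℓ σ
               fun x hx => (hT N p ℓ hℓ (hdvd ℓ hℓ hℓN hℓp) A hA).2 σ hσ x hx
             have h2 : eigenvalue χ ℓ = χ (CuspForm.heckeAlgebra.T hℓ hℓN hℓS) := by
               unfold eigenvalue
               rw [dif_pos ⟨hℓ, hℓN, hℓS⟩]
             rw [← h2]
             exact h1 }, hflat⟩

/-- **PIECE EIG** from the two inputs of `H330.result_of_k3fin_rawESAll` (the landed chain of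
row S30), the ORD block and the frozen S19. -/
theorem flatEigenStatement_of_k3fin_rawESAll (hord : OrdStatement)
    (hS19 : ∀ (N p : ℕ) [NeZero N], p.Prime → ¬ p ∣ N → ∀ k : ℕ,
      HopfModel p (Tors N p k) (torsAct N p k))
    (hfin : ∀ (N : ℕ) [NeZero N] (p : ℕ) [Fact p.Prime] (n : ℕ),
      Fermat.Agent.S29.M4b.K3.FinStatement N (p ^ n))
    (hES : ∀ (N : ℕ) [NeZero N], RawESAll N) :
    FlatEigenStatement :=
  flatEigenStatement_of_chain hord hS19
    (fun N _ p hp =>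
      haveI : NeZero p := ⟨hp.out.ne_zero⟩
      kummerInjStatement_of_k3fin N p (fun n => hfin N p n))
    (fun N _ p hp =>
      haveI : NeZero p := ⟨hp.out.ne_zero⟩
      finStatement N p)
    (fun N _ p _ => torsionRelations_of_rawAll p (hES N))

end Chain

end Fermat.Agent.S32

end
end
-- ===== PACK-END S32/EigChain.lean

-- ===== PACK-BEGIN A3/H615/GrRim.lean
section



/-!
# Cell A3 / GR-INST, leaf RIM of helper19's assembly (helper615)

`rimStatement_of_datum` : a linked reduction datum with good charts gives `A3.GR.RimStatement A M`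
(degrees, `r_* div u = div (ρ u)` for all fractions `u` of integral `q`-series, pointwise
invariance under the inertia group of `A`).
`rimStatement_of_datumStatement` : the same from the S37 node `Core.DatumStatement`.
-/

set_option autoImplicit false
set_option synthInstance.maxHeartbeats 400000

noncomputable section

namespace Fermat.Agent.A3.H615

open ModularCurve AlgebraicCurve HahnSeries IsLocalRing Fermat.Agent.S37.Red

namespace GrRed

/-- Elements of the inertia group of `A` move every element of `A` by a nonunit. -/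
theorem sub_mem_nonunits_of_mem_inertiaSubgroupIn {A : ValuationSubring _root_.Fermat.Agent.A3.H615.GrRed.Qb}
    {σ : _root_.Fermat.Agent.A3.H615.GrRed.Qb ≃ₐ[ℚ] _root_.Fermat.Agent.A3.H615.GrRed.Qb} (hσ : σ ∈ A.inertiaSubgroupIn ℚ) (a : _root_.Fermat.Agent.A3.H615.GrRed.Qb) (ha : a ∈ A) :
    σ a - a ∈ A.nonunits := by
  obtain ⟨d, hd, rfl⟩ := hσ
  have h : MulSemiringAction.toRingAut (A.decompositionSubgroup ℚ) (ResidueField A) d = 1 :=
    MonoidHom.mem_ker.mp hd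
  have h1 : d • residue A (⟨a, ha⟩ : A) = residue A (⟨a, ha⟩ : A) := by
    have h2 := congrArg (fun f : RingAut (ResidueField A) => f (residue A (⟨a, ha⟩ : A))) h
    exact h2
  have h3 : residue A (d • (⟨a, ha⟩ : A)) = d • residue A (⟨a, ha⟩ : A) :=
    IsLocalRing.ResidueField.residue_smul (A.decompositionSubgroup ℚ) d (⟨a, ha⟩ : A)
  have h4 : residue A (d • (⟨a, ha⟩ : A) - (⟨a, ha⟩ : A)) = 0 := by
    rw [map_sub, h3, h1, sub_self]
  rw [residue_eq_zero_iff] at h4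
  exact ValuationSubring.coe_mem_nonunits_iff.mpr h4

/-- **Leaf RIM** of `A3/GR/Leaves.lean` from a linked reduction datum with good charts. -/
theorem rimStatement_of_datum (M : ℕ) [NeZero M] {ℓ : ℕ} [Fact ℓ.Prime] (hℓM : ¬ ℓ ∣ M)
    (A : ValuationSubring _root_.Fermat.Agent.A3.H615.GrRed.Qb) (hA : A.LiesOverPrime ℓ)
    (G : Datum A (residue A) (modularFunctionFieldBar M)
      (modularFunctionFieldFullC (ResidueField A) M))
    (hgood : G.Good) (hlink : H759.Link G) :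
    Fermat.Agent.A3.GR.RimStatement A M := by
  obtain ⟨r, -, hI, hmod, -⟩ := exists_red Fact.out hℓM hA G hgood hlink
  refine ⟨r, hmod.1, ?_, ?_⟩
  · intro u hu D hD Q
    exact Fermat.Agent.A3.H739.gr_div_red (Fermat.Agent.A3.H739.gr_vg M hℓM A hA) r hmod
      ⟨(u : modularFunctionFieldBar M), u.2⟩ hu D hD Q
  · intro σ hσ P
    exact hI σ (sub_mem_nonunits_of_mem_inertiaSubgroupIn hσ) P

/-- **Leaf RIM at all good levels** from the S37 node `DatumStatement`. -/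
theorem rimStatement_of_datumStatement (h : Fermat.Agent.S37.Core.DatumStatement)
    (M : ℕ) [NeZero M] (ℓ : ℕ) [Fact ℓ.Prime] (hℓM : ¬ ℓ ∣ M)
    (hg : Fermat.Agent.S37.Core.GoodLevel M ℓ)
    (A : ValuationSubring _root_.Fermat.Agent.A3.H615.GrRed.Qb) (hA : A.LiesOverPrime ℓ) :
    Fermat.Agent.A3.GR.RimStatement A M := by
  obtain ⟨G, hgood, hlink⟩ := h M ℓ Fact.out hℓM hg A hA
  exact rimStatement_of_datum M hℓM A hA G hgood hlink

end GrRed

end Fermat.Agent.A3.H615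

end
end
-- ===== PACK-END A3/H615/GrRim.lean

-- ===== PACK-BEGIN A3/H615/GrRedInst.lean
section



/-!
# Cell A3 / GR-INST: leaves RED (helper739's form) and RIM (helper19's form), UNCONDITIONAL

From `S37.H28.datumStatement` (a linked reduction datum with good charts at all good levels):

* `GrRed.redLeaf` : `A3.H739.RedLeaf N V` for every valuation ring `V` of `Q̄` above `ℓ ∤ N`,
  `(N, ℓ)` a good level — verbatim the hypothesis `hred` of
  `A3.H739.grStatement_of_leaves_forall`;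
* `GrRed.rimStatement` : `A3.GR.RimStatement A M`, same hypotheses.
-/

set_option autoImplicit false
set_option synthInstance.maxHeartbeats 400000

noncomputable section

namespace Fermat.Agent.A3.H615

open ModularCurve AlgebraicCurve

namespace GrRed

/-- **Leaf GR-RED, unconditional** (hypothesis `hred` of
`A3.H739.grStatement_of_leaves_forall`). -/
theorem redLeaf :
    ∀ (N : ℕ) [NeZero N] (ℓ : ℕ) [Fact ℓ.Prime], ¬ ℓ ∣ N → Fermat.Agent.S19.GoodLevel N ℓ →
      ∀ V : ValuationSubring Qb, V.LiesOverPrime ℓ → Fermat.Agent.A3.H739.RedLeaf N V :=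
  redLeaf_of_datumStatement Fermat.Agent.S37.H28.datumStatement

/-- **Leaf RIM of `A3/GR/Leaves.lean`, unconditional.** -/
theorem rimStatement (M : ℕ) [NeZero M] (ℓ : ℕ) [Fact ℓ.Prime] (hℓM : ¬ ℓ ∣ M)
    (hg : Fermat.Agent.S19.GoodLevel M ℓ)
    (A : ValuationSubring Qb) (hA : A.LiesOverPrime ℓ) :
    Fermat.Agent.A3.GR.RimStatement A M :=
  rimStatement_of_datumStatement Fermat.Agent.S37.H28.datumStatement M ℓ hℓM hg A hA

end GrRed

end Fermat.Agent.A3.H615

end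
end
-- ===== PACK-END A3/H615/GrRedInst.lean

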