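import Mathlib
import Fermat.Agent.Pack.S43MC.G0E25L3
import Fermat.Agent.Pack.S43MC.G0E23L0
import Fermat.Agent.Pack.S44C.G0E28L2
import Fermat.Agent.Pack.S43MC.G0E24L0
import Fermat.Agent.Pack.S43MC.G0E16L3
import Fermat.Agent.Pack.S43MC.G0E16L1
import Fermat.Agent.Pack.S43MC.G0E16L0
import Fermat.Agent.Pack.S43MC.G0E5L1
import Fermat.Agent.Pack.S43MC.G0E8L1
import Fermat.Agent.Pack.S43MC.G0E18L1
import Fermat.Agent.Pack.S44C.G0E17L1
import Fermat.Agent.Pack.S44C.G0E26L0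
import Fermat.Agent.Pack.S44C.G0E24L1
import Fermat.Agent.Pack.S44C.G0E25L1
import Fermat.Agent.Pack.S44C.G0E26L3
import Fermat.Agent.Pack.S43MC.G0E24L3
import Fermat.Agent.Pack.S44C.G0E12L1
import Fermat.Agent.Pack.S43MC.G0E26L0
import Fermat.Agent.Pack.S43MC.G0E26L3
import Fermat.Agent.Pack.S44C.G0E13L3
import Fermat.Agent.Pack.S44C.G0E13L1
import Fermat.Agent.Pack.S44C.G0E15L3
import Fermat.Agent.Pack.S44C.G0E15L0
import Fermat.Agent.Pack.S44C.G0E9L3
import Fermat.Agent.Pack.S43MC.G0E26L1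
import Fermat.Agent.Pack.S43MC.G0E21L1
import Fermat.Agent.Pack.S43MC.G0E19L3
import Fermat.Agent.Pack.S43GC.G0E11L1
import Fermat.Agent.Pack.S43MC.G0E20L3
import Fermat.Agent.Pack.S43MC.G0E26L2
import Fermat.Agent.Pack.S43MC.G0E22L3
import Fermat.Agent.Pack.S43MC.G0E25L2
import Fermat.Agent.Pack.S43MC.G0E23L1
import Fermat.Agent.Pack.Fast891

-- ===== PACK-BEGIN Ribet/H818/SwapLevel.lean
section









/-!
# Row RIBET, WALL-q, leaf FROB-AL — the LEVEL statement (helper818)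

Instantiation of `H818.algFrobSwapU` (ALG-FROB for a component-swapping Frobenius) at a good level
`E ⊆ ℚ̄` for a place `A ∣ q`, stable under a Frobenius lift `s`:
`F = F_E(M q) = A2.Mod.FE E (M * q)`, `σ = actE E (M * q) (resE E s hs)` the action of `s` on the
coefficients, `sw` an Atkin–Lehner swap of `F` (`sw ∘ α = β`, `sw ∘ β = α`), `ψ = σ ∘ sw`, `Q = q`.

* `nodeSwap`      : **NODE-SWAP** — every crossing point of the two components of the special
                    fibre is stable under `ψ = σ ∘ w_q` (mirror of `S35.G.H558.nodeRat`, which is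
                    the same statement for `σ²`; here only Kronecker on `C∞` is needed:
                    `ψ (α a) = β (σ a) ≡ (α a) ^ q`).
* `frobRes1`      : FROB-RES for `s` itself (`S35.G.FrobResStatement` is stated for `s²`).
* `levelFrobSwap` : **the level statement**, UNCONDITIONAL:
      for `y ≠ 0` in `F_E(M q)` with `m ∣ div y` whose residues at `V∞` and at `V₀ = V∞ ∘ W` are
      `m`-th powers (`S35.H433.PowVU`),   `σ (w_q y) · y ^ q = h ^ m`   for some `h ≠ 0`.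
  In `J₀(M q)[m]`: `Frob_q (w_q x) + q x = 0` on the toric part, i.e. `Frob_q = - q · w_q`.
-/

set_option autoImplicit false
set_option linter.unusedSectionVars false
set_option linter.unusedVariables false
set_option linter.style.haveILetI false
set_option synthInstance.maxHeartbeats 400000
set_option maxHeartbeats 1600000

noncomputable section

namespace Fermat.Agent.Ribet.H818

open ModularCurve HahnSeries
open Fermat.Agent.A2.Mod
open Fermat.Agent.S35.G (actE StableUnder CutBy NodeStable HasAux KronFrobStatement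
  StableStatement)
open Fermat.Agent.S35.H433 (PowVU)

/-! ### The coefficient action and `β` -/

section Act

variable (E : IntermediateField ℚ _root_.Fermat.Agent.A2.Mod.Qb) (M q : ℕ) [NeZero M] [NeZero q]

/-- `β` commutes with the action on the coefficients. -/
theorem beta_actE818 (t : E ≃ₐ[ℚ] E) (a : FE E M) :
    βE E M q (actE E M t a) = actE E (M * q) t (βE E M q a) := by
  apply Subtype.ext
  rw [coe_heckeBetaBar, coe_arithmeticRingAut_apply, coe_arithmeticRingAut_apply,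
    coe_heckeBetaBar]
  exact (ModularCurve.coeffMap_qExpand _ _ _).symm

end Act

/-! ### NODE-SWAP -/

section Node

variable (A : ValuationSubring _root_.Fermat.Agent.A2.Mod.Qb) (E : IntermediateField ℚ _root_.Fermat.Agent.A2.Mod.Qb) (M q : ℕ) [NeZero M] [NeZero q]
  (w : RE A E)

/-- `σ (w V₀) ⊆ w V₀` for `σ` in the decomposition group. -/
theorem inW_comap_actE818 (hSt : StableStatement A E) (N : ℕ) (hN : N ≠ 0)
    (hdvr : IsDiscreteValuationRing (RE A E)) (hw : Irreducible w)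
    (V : ValuationSubring (FE E N)) (W : FE E N ≃ₐ[E] FE E N)
    (hV : IsVinf A E N V) (hW : IsFricke E N W)
    {s : _root_.Fermat.Agent.A2.Mod.Qb ≃ₐ[ℚ] _root_.Fermat.Agent.A2.Mod.Qb} (hs : StableUnder E s) (hsD : s ∈ A.decompositionSubgroup ℚ)
    {f : FE E N} (hf : InW A E N (V.comap (W : FE E N →+* FE E N)) w f) :
    InW A E N (V.comap (W : FE E N →+* FE E N)) w (actE E N (resE E s hs) f) := by
  rw [H142.inW_comap_iff] at hf ⊢
  obtain ⟨hcomm, -⟩ := hSt N hN hdvr V W hV hW s hs hsD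
  rw [← hcomm]
  exact Fermat.Agent.S35.G.H558.inW_actE A E w hSt N hN hdvr hw V W hV hW hs hsD hf

/-- **NODE-SWAP.**  The crossing points of the two components of the special fibre of the chart
`B = chartAlg y` (`y = x` or `x⁻¹`, `x = j · j_q`) are stable under `ψ = σ ∘ w_q`, `σ` the action
of a Frobenius lift on the coefficients, `w_q` an Atkin–Lehner swap. -/
theorem nodeSwap (hK : KronFrobStatement A E M q w) (hSt : StableStatement A E)
    (hS : Setting A E M q w)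
    (VM : ValuationSubring (FE E M)) (V : ValuationSubring (FE E (M * q)))
    (W : FE E (M * q) ≃ₐ[E] FE E (M * q))
    (hVM : IsVinf A E M VM) (hV : IsVinf A E (M * q) V) (hW : IsFricke E (M * q) W)
    (yM : FE E M) (y : FE E (M * q)) (hy : IsCoordPair E M q yM y)
    (hgoodM : GoodRedAt A E M w VM yM)
    (c : Fermat.Agent.A2.SSChart w (chartAlg A E (M * q) y))
    (hcut₁ : IsCut A E (M * q) w V (chartAlg A E (M * q) y) c.p₁)
    (hcut₂ : IsCut A E (M * q) w (V.comap (W : FE E (M * q) →+* FE E (M * q)))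
      (chartAlg A E (M * q) y) c.p₂)
    (sw : FE E (M * q) ≃+* FE E (M * q))
    (hswα : ∀ a : FE E M, sw (αE E M q a) = βE E M q a)
    (hswβ : ∀ a : FE E M, sw (βE E M q a) = αE E M q a)
    (s : _root_.Fermat.Agent.A2.Mod.Qb ≃ₐ[ℚ] _root_.Fermat.Agent.A2.Mod.Qb) (hs : StableUnder E s) (hFrob : A.IsFrobeniusAt s q) :
    NodeStable (chartAlg A E (M * q) y) c (sw.trans (actE E (M * q) (resE E s hs))) := by
  intro n _ hp₁ hp₂ b hbn b' hb'
  have hN : M * q ≠ 0 := Nat.mul_ne_zero hS.M_ne_zero hS.q_prime.ne_zero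
  haveI : NeZero (M * q) := ⟨hN⟩
  have hsD : s ∈ A.decompositionSubgroup ℚ := hFrob.mem_decompositionSubgroup
  -- step (e): `b ≡ α a mod p∞`
  obtain ⟨hBM, -, hαB, hsurj⟩ :=
    Fermat.Agent.S35.G.H558.surj_inf A E M q w hS VM V hVM hV yM y hy hgoodM
  obtain ⟨a, ha, hba⟩ := hsurj (b : FE E (M * q)) b.2
  -- the level-`M` chart is `σ`-stable
  have hσy : actE E M (resE E s hs) yM = yM := by
    rcases hy with ⟨rfl, -⟩ | ⟨rfl, -⟩
    · exact Fermat.Agent.S35.G.H558.actE_jE E M 1 (one_dvd _) _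
    · rw [map_inv₀, Fermat.Agent.S35.G.H558.actE_jE]
  obtain ⟨a₁, ha₁⟩ : ∃ a₁ : FE E M, a₁ = actE E M (resE E s hs) a := ⟨_, rfl⟩
  have ha₁B : a₁ ∈ chartAlg A E M yM :=
    ha₁ ▸ Fermat.Agent.S35.G.H558.chartAlg_actE A E M hs hsD yM hσy ha
  -- (K1) at `a`: `β (σ a) ≡ (α a) ^ q mod w V∞`
  have e1 : InW A E (M * q) V w (βE E M q a₁ - (αE E M q a) ^ q) := by
    rw [ha₁]
    exact hK hS VM V hVM hV s hs hFrob a (hBM a ha)
  -- `w_q (b - α a) ∈ w V₀`
  have e2 : InW A E (M * q) (V.comap (W : FE E (M * q) →+* FE E (M * q))) w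
      (sw (b : FE E (M * q)) - βE E M q a) := by
    have h1 := (Fermat.Agent.Ribet.H279.inW_swap_iff_inW_fricke
      (sw : FE E (M * q) →+* FE E (M * q)) hswα hswβ hS hV hW
      (sw (b : FE E (M * q)) - βE E M q a)).1
    apply h1
    have e : (sw : FE E (M * q) →+* FE E (M * q)) (sw (b : FE E (M * q)) - βE E M q a)
        = (b : FE E (M * q)) - αE E M q a := by
      show sw (sw (b : FE E (M * q)) - βE E M q a) = _
      rw [map_sub, hswβ]
      congr 1
      -- `sw (sw b) = b`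
      exact Fermat.Agent.Ribet.H801.swap_involutive_gen (L := E) (M := M) (p := q) hS.q_prime
        (sw : FE E (M * q) →+* FE E (M * q)) hswα hswβ _
    rw [e]
    exact hba
  -- `ψ b - β (σ a) ∈ w V₀`
  have e3 : InW A E (M * q) (V.comap (W : FE E (M * q) →+* FE E (M * q))) w
      ((b' : FE E (M * q)) - βE E M q a₁) := by
    have h1 := inW_comap_actE818 A E w hSt (M * q) hN hS.dvr hS.unif V W hV hW hs hsD e2
    rw [map_sub, ← beta_actE818, ← ha₁] at h1
    rw [hb']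
    exact h1
  -- the computation in `B / n`
  have hαa : αE E M q a ∈ chartAlg A E (M * q) y := hαB a ha
  have hβa₁ : βE E M q a₁ ∈ chartAlg A E (M * q) y :=
    Fermat.Agent.S35.G.H558.beta_mem_chartAlg A E M q w hS yM y hy ha₁B
  obtain ⟨ua, hua⟩ : ∃ u : chartAlg A E (M * q) y, (u : FE E (M * q)) = αE E M q a :=
    ⟨⟨_, hαa⟩, rfl⟩
  obtain ⟨ub, hub⟩ : ∃ u : chartAlg A E (M * q) y, (u : FE E (M * q)) = βE E M q a₁ :=
    ⟨⟨_, hβa₁⟩, rfl⟩
  have m1 : b - ua ∈ n := hp₁ ((hcut₁ _).2 (by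
    rw [← hua] at hba
    exact hba))
  have m2 : ub - ua ^ q ∈ n := hp₁ ((hcut₁ _).2 (by
    rw [← hua, ← hub] at e1
    exact e1))
  have m3 : b' - ub ∈ n := hp₂ ((hcut₂ _).2 (by
    rw [← hub] at e3
    exact e3))
  have m4 : ua ∈ n := by
    have : ua = b - (b - ua) := by ring
    rw [this]
    exact n.sub_mem hbn m1
  have m5 : ua ^ q ∈ n := n.pow_mem_of_mem m4 q hS.q_prime.pos
  have key : b' = (b' - ub) + (ub - ua ^ q) + ua ^ q := by ring
  rw [key]
  exact n.add_mem (n.add_mem m3 m2) m5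

end Node

/-! ### FROB-RES for the Frobenius lift itself -/

section FrobRes

variable (A : ValuationSubring _root_.Fermat.Agent.A2.Mod.Qb) (E : IntermediateField ℚ _root_.Fermat.Agent.A2.Mod.Qb) (q : ℕ)

/-- **FROB-RES** for `s` (not `s²`): a Frobenius lift `s` at `A` stabilising `E` induces on
`R_E = A ∩ E` an automorphism which is `r ↦ r ^ q` modulo the maximal ideal. -/
theorem frobRes1 (s : _root_.Fermat.Agent.A2.Mod.Qb ≃ₐ[ℚ] _root_.Fermat.Agent.A2.Mod.Qb) (hs : StableUnder E s) (hfrob : A.IsFrobeniusAt s q) :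
    ∃ ψR : RE A E ≃+* RE A E,
      (∀ r : RE A E, (resE E s hs) (r : E) = ((ψR r : RE A E) : E)) ∧
      ∀ r : RE A E, ψR r - r ^ q ∈ IsLocalRing.maximalIdeal (RE A E) := by
  have hsD : s ∈ A.decompositionSubgroup ℚ := hfrob.mem_decompositionSubgroup
  have hsD' : s.symm ∈ A.decompositionSubgroup ℚ := inv_mem hsD
  have hsA : ∀ x : _root_.Fermat.Agent.A2.Mod.Qb, x ∈ A → s x ∈ A :=
    fun x hx => Fermat.Agent.S35.G.H285.apply_mem_of_mem_decomp_h285 A hsD hx
  have hsA' : ∀ x : _root_.Fermat.Agent.A2.Mod.Qb, x ∈ A → s.symm x ∈ A :=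
    fun x hx => Fermat.Agent.S35.G.H285.apply_mem_of_mem_decomp_h285 A hsD' hx
  have ht : ∀ e : E, (((resE E s hs) e : E) : _root_.Fermat.Agent.A2.Mod.Qb) = s (e : _root_.Fermat.Agent.A2.Mod.Qb) := fun _ => rfl
  have hts : ∀ e : E, (((resE E s hs).symm e : E) : _root_.Fermat.Agent.A2.Mod.Qb) = s.symm (e : _root_.Fermat.Agent.A2.Mod.Qb) := by
    intro e
    have h1 := ht ((resE E s hs).symm e)
    rw [AlgEquiv.apply_symm_apply] at h1
    rw [h1, AlgEquiv.symm_apply_apply]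
  have hmem : ∀ r : RE A E, (resE E s hs) (r : E) ∈ RE A E := by
    intro r
    show (((resE E s hs) (r : E) : E) : _root_.Fermat.Agent.A2.Mod.Qb) ∈ A
    rw [ht]
    exact hsA _ r.2
  have hmem' : ∀ r : RE A E, (resE E s hs).symm (r : E) ∈ RE A E := by
    intro r
    show (((resE E s hs).symm (r : E) : E) : _root_.Fermat.Agent.A2.Mod.Qb) ∈ A
    rw [hts]
    exact hsA' _ r.2
  refine ⟨{ toFun := fun r => ⟨(resE E s hs) (r : E), hmem r⟩
            invFun := fun r => ⟨(resE E s hs).symm (r : E), hmem' r⟩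
            left_inv := fun r => Subtype.ext (AlgEquiv.symm_apply_apply _ _)
            right_inv := fun r => Subtype.ext (AlgEquiv.apply_symm_apply _ _)
            map_mul' := fun a b => Subtype.ext (map_mul _ _ _)
            map_add' := fun a b => Subtype.ext (map_add _ _ _) }, fun r => rfl, ?_⟩
  intro r
  rw [Fermat.Agent.S35.G.H285.mem_maximalIdeal_RE_iff_h285,
    ValuationSubring.valuation_lt_one_iff]
  exact Fermat.Agent.S35.G.H285.frob_sub_pow_mem_h285 A hfrob (z := ((r : E) : _root_.Fermat.Agent.A2.Mod.Qb)) r.2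

end FrobRes

/-! ### The level statement -/

section Level

variable (A : ValuationSubring _root_.Fermat.Agent.A2.Mod.Qb) (E : IntermediateField ℚ _root_.Fermat.Agent.A2.Mod.Qb) (M q m : ℕ) [NeZero M] [NeZero q]

/-- **FROB-AL, level form** (UNCONDITIONAL).  `E` a good level for `A ∣ q`, stable under the
Frobenius lift `s`; `sw` an Atkin–Lehner swap of `F_E(M q)`; `V = V∞`, `W` the Fricke involution.
For every `y ≠ 0` with `m ∣ div y` whose residues at `V∞` and `V₀ = V∞ ∘ W` are `m`-th powers,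
`σ (w_q y) · y ^ q` is an `m`-th power. -/
theorem levelFrobSwap (hq : q.Prime) (hqM : ¬ q ∣ M) (haux : HasAux M q) (hm : 0 < m)
    (hqm : ¬ q ∣ m) (hA : A.LiesOverPrime q) (hE : Fermat.Agent.A2.GoodField A E)
    (sw : FE E (M * q) ≃+* FE E (M * q))
    (hswα : ∀ a : FE E M, sw (αE E M q a) = βE E M q a)
    (hswβ : ∀ a : FE E M, sw (βE E M q a) = αE E M q a)
    (s : _root_.Fermat.Agent.A2.Mod.Qb ≃ₐ[ℚ] _root_.Fermat.Agent.A2.Mod.Qb) (hs : StableUnder E s) (hsF : A.IsFrobeniusAt s q)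
    (w : RE A E) (hw : Irreducible w)
    (V : ValuationSubring (FE E (M * q))) (W : FE E (M * q) ≃ₐ[E] FE E (M * q))
    (hV : IsVinf A E (M * q) V) (hW : IsFricke E (M * q) W)
    (y : FE E (M * q)) (hy : y ≠ 0) (hdiv : Fermat.Agent.A2.DivisibleDiv E m y)
    (hp₁ : PowVU w V m y)
    (hp₂ : PowVU w (V.comap (W : FE E (M * q) →+* FE E (M * q))) m y) :
    ∃ h : FE E (M * q), h ≠ 0 ∧ actE E (M * q) (resE E s hs) (sw y) * y ^ q = h ^ m := by
  haveI : IsDiscreteValuationRing ↥(RE A E) := hE.dvr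
  haveI : HenselianLocalRing ↥(RE A E) := hE.henselian
  haveI : IsAlgClosed (IsLocalRing.ResidueField ↥(RE A E)) := hE.algClosed
  have hS : Setting A E M q w :=
    { q_prime := hq
      q_not_dvd := hqM
      M_ne_zero := NeZero.ne M
      lies_over := hA
      dvr := hE.dvr
      unif := hw }
  obtain ⟨V', W', VM, hV', hW', hVM, hg1, hg2, hDeg, cf, ci, hcf, hci⟩ :=
    Fermat.Agent.S35.G.H862.modelNoSep A E M q w hS hE haux
  -- `V' = V`, `V ∘ W' = V ∘ W`
  have hVV : V' = V := by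
    ext f
    exact (hV' f).trans (hV f).symm
  subst hVV
  have hWW : V'.comap (W' : FE E (M * q) →+* FE E (M * q)) =
      V'.comap (W : FE E (M * q) →+* FE E (M * q)) := by
    rw [← Fermat.Agent.Ribet.H279.comap_swap_eq_comap_fricke
        (sw : FE E (M * q) →+* FE E (M * q)) hswα hswβ hS hV hW',
      ← Fermat.Agent.Ribet.H279.comap_swap_eq_comap_fricke
        (sw : FE E (M * q) →+* FE E (M * q)) hswα hswβ hS hV hW]
  rw [← hWW] at hp₂
  obtain ⟨hx, hfr, hconst⟩ := hDeg hq hqM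
  have hpos : 0 < Module.finrank
      (IntermediateField.adjoin E ({xE E M q} : Set (FE E (M * q))))
      (FE E (M * q)) := by
    rw [hfr]
    have h1 := dedekindPsi_pos_of_ne_zero M (NeZero.ne M)
    positivity
  have hfin : FiniteDimensional
      (IntermediateField.adjoin E ({xE E M q} : Set (FE E (M * q))))
      (FE E (M * q)) := Module.finite_of_finrank_pos hpos
  obtain ⟨ψR, hψR, hQ⟩ := frobRes1 A E q s hs hsF
  have hsD : s ∈ A.decompositionSubgroup ℚ := hsF.mem_decompositionSubgroup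
  have hN0 : M * q ≠ 0 := Nat.mul_ne_zero (NeZero.ne M) (NeZero.ne q)
  have hSt := Fermat.Agent.S35.G.H126.stable A E
  have hK := Fermat.Agent.S35.G.H516.kronFrob A E M q w
  obtain ⟨hcomm, hσV⟩ := hSt (M * q) hN0 hE.dvr V' W' hV hW' s hs hsD
  -- the swap exchanges `V∞` and `V₀`
  have hswinv : ∀ x : FE E (M * q), sw (sw x) = x :=
    Fermat.Agent.Ribet.H801.swap_involutive_gen (L := E) (M := M) (p := q) hq
      (sw : FE E (M * q) →+* FE E (M * q)) hswα hswβ
  have hcs := Fermat.Agent.Ribet.H279.comap_swap_eq_comap_fricke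
    (sw : FE E (M * q) →+* FE E (M * q)) hswα hswβ hS hV hW'
  have hsw₁ : ∀ f ∈ V', sw f ∈ V'.comap (W' : FE E (M * q) →+* FE E (M * q)) := by
    intro f hf
    rw [← hcs, ValuationSubring.mem_comap]
    show sw (sw f) ∈ V'
    rw [hswinv]
    exact hf
  have hsw₂ : ∀ f ∈ V'.comap (W' : FE E (M * q) →+* FE E (M * q)), sw f ∈ V' := by
    intro f hf
    rw [← hcs, ValuationSubring.mem_comap] at hf
    exact hf
  -- `ψ = σ ∘ sw`
  set ψ : FE E (M * q) ≃+* FE E (M * q) := sw.trans (actE E (M * q) (resE E s hs)) with hψ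
  have hψapp : ∀ f : FE E (M * q), ψ f = actE E (M * q) (resE E s hs) (sw f) := fun f => rfl
  have hψV₁ : ∀ f ∈ V', ψ f ∈ V'.comap (W' : FE E (M * q) →+* FE E (M * q)) := by
    intro f hf
    rw [hψapp]
    show W' (actE E (M * q) (resE E s hs) (sw f)) ∈ V'
    rw [← hcomm]
    exact hσV _ (hsw₁ f hf)
  have hψV₂ : ∀ f ∈ V'.comap (W' : FE E (M * q) →+* FE E (M * q)), ψ f ∈ V' := by
    intro f hf
    rw [hψapp]
    exact hσV _ (hsw₂ f hf)
  -- semilinearity
  have hψE : ∀ e : E, ψ (algebraMap E (FE E (M * q)) e) =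
      algebraMap E (FE E (M * q)) ((resE E s hs).toRingEquiv e) := by
    intro e
    rw [hψapp]
    have h' : sw (algebraMap E (FE E (M * q)) e) = algebraMap E (FE E (M * q)) e :=
      Fermat.Agent.Ribet.H279.swapE_algebraMap (sw : FE E (M * q) →+* FE E (M * q)) hswα e
    rw [h']
    exact arithmeticRingAut_algebraMap (modularFunctionFieldFull (M * q)) _ e
  have hψRE : ∀ r : ↥(RE A E),
      (resE E s hs).toRingEquiv (algebraMap ↥(RE A E) E r) =
        algebraMap ↥(RE A E) E (ψR r) := fun r => hψR r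
  have hψx : ψ (xE E M q) = xE E M q := by
    rw [hψapp]
    have h' : sw (xE E M q) = xE E M q :=
      Fermat.Agent.Ribet.H279.swapE_xE (sw : FE E (M * q) →+* FE E (M * q)) hswα hswβ
    rw [h']
    exact Fermat.Agent.S35.G.H126.coord E M q _
  have hnf := nodeSwap A E M q w hK hSt hS VM V' W' hVM hV hW' _ _ (Or.inl ⟨rfl, rfl⟩) hg1 cf
    hcf.cut₁ hcf.cut₂ sw hswα hswβ s hs hsF
  have hni := nodeSwap A E M q w hK hSt hS VM V' W' hVM hV hW' _ _ (Or.inr ⟨rfl, rfl⟩) hg2 ci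
    hci.cut₁ hci.cut₂ sw hswα hswβ s hs hsF
  obtain ⟨z, hz, hzz⟩ := algFrobSwapU (R := ↥(RE A E)) (E := E) (F := ↥(FE E (M * q)))
    w hw q m q hq (Fermat.Agent.A2.T1.H669.natCast_mem_maximalIdeal_RE E hA) hm hqm
    (xE E M q) hx hfin hconst
    (chartAlg A E (M * q) (xE E M q))
    (chartAlg A E (M * q) (xE E M q)⁻¹)
    (fun _ => Iff.rfl) (fun _ => Iff.rfl) cf ci V'
    (V'.comap (W' : FE E (M * q) →+* FE E (M * q))) hcf hci
    ψ (resE E s hs).toRingEquiv ψR
    hψE hψRE hψx hQ hψV₁ hψV₂ hnf hni y hy hdiv hp₁ hp₂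
  exact ⟨z, hz, hzz⟩

end Level

end Fermat.Agent.Ribet.H818

end

end
-- ===== PACK-END Ribet/H818/SwapLevel.lean

-- ===== PACK-BEGIN Ribet/H714/DictCore.lean
section











/-!
# RIBET, wall at `p`, leaf S2:DICT — the core at a good level (helper714)

Level `N = M * q`, `q` prime, `q ∤ M`, `A` over `q`, `E` a good level, MOD at `(A, E, M, q)`
(the sub-assemblies `S1`–`S4`, `Sτ` of `A2/Mod/Asm.lean` and `GoodRedHyp`).

* `SplitRedAt N p hpN A x` : `H103.S2.SplitRedClass` at an arbitrary level `N` (`p ∣ N`);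
* `splitRedAt_of_level`   : if `x` has a Kummer function `ι y_f`, `y_f ∈ F_{N,E}`, such that
  `y_f / y_a ^ q ∈ 1 + 𝔪_{V∞}` and `y_f / y_b ^ q ∈ 1 + 𝔪_{V₀}` for some `y_a, y_b ∈ F_{N,E}ˣ`,
  then `x` is a split-reduction class.  In fact the Kummer function `y = y_f / h ^ q` produced
  here is `≡ 1` on BOTH components of BOTH charts (`IsSplit` with constant `1`).
-/

set_option autoImplicit false
set_option linter.style.haveILetI false
set_option linter.unusedSectionVars false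
set_option synthInstance.maxHeartbeats 400000
set_option maxHeartbeats 4000000

noncomputable section

namespace Fermat.Agent.Ribet.H714

open AlgebraicCurve ModularCurve
open Fermat.Agent.A2 Fermat.Agent.A2.Alg
open Fermat.Agent.A2.T1.H669 (iota iota_ne_zero iota_algebraMap iota_injective)
open Fermat.Agent.Ribet.H103.S2

/-- `H103.S2.SplitRedClass` at an arbitrary level `N`, `p ∣ N`. -/
def SplitRedAt (N p : ℕ) [NeZero p] (hpN : p ∣ N) (A : ValuationSubring (AlgebraicClosure ℚ))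
    (x : JZero N) : Prop :=
  ∃ (E : IntermediateField ℚ (AlgebraicClosure ℚ)) (_ : GoodField A E)
    (D : ModSSData A E N)
    (w : RE A E) (y : FE E N) (cf : SSChart w D.Bf) (ci : SSChart w D.Bi),
    D.x = stdCoord E N p hpN ∧ Irreducible w ∧
    IsKummerFn N p x (iota E (modularFunctionFieldFull N) y) ∧
    RedPowAt D.Bf cf.p₁ p y ∧ RedPowAt D.Bf cf.p₂ p y ∧
    RedPowAt D.Bi ci.p₁ p y ∧ RedPowAt D.Bi ci.p₂ p y ∧
    (∀ n : Ideal D.Bf, n.IsMaximal → algebraMap (RE A E) D.Bf w ∈ n → PureAt D.Bf cf p y n) ∧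
    (∀ n : Ideal D.Bi, n.IsMaximal → algebraMap (RE A E) D.Bi w ∈ n → PureAt D.Bi ci p y n)

theorem splitRedClass_iff (p M' : ℕ) [NeZero p] (A : ValuationSubring (AlgebraicClosure ℚ))
    (x : JZero (p * M')) :
    SplitRedClass p M' A x ↔ SplitRedAt (p * M') p (dvd_mul_right p M') A x := Iff.rfl

/-! ## Valuation rings at level `E` -/

section Val

variable {P : ValuationSubring Mod.Qb} {E : IntermediateField ℚ Mod.Qb} {N : ℕ}

/-- the valuation of the transform of a valuation ring by an endomorphism -/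
theorem val_comap_lt_one {F : Type*} [Field F] (V : ValuationSubring F) (W : F →+* F) (z : F) :
    (V.comap W).valuation z < 1 ↔ V.valuation (W z) < 1 := by
  rw [Fermat.Agent.A2.H553.valuation_lt_one_iff_mem, Fermat.Agent.A2.H553.valuation_lt_one_iff_mem]
  simp only [ValuationSubring.mem_comap, map_inv₀, map_eq_zero]

/-- the transform of a valuation ring with uniformiser `ϖ` by an endomorphism fixing `ϖ` -/
theorem isUnif_comap {F : Type*} [Field F] {V : ValuationSubring F} {ϖ : F}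
    (h : Fermat.Agent.A2.H48.IsUnif V ϖ) (W : F →+* F) (hW : W ϖ = ϖ) :
    Fermat.Agent.A2.H48.IsUnif (V.comap W) ϖ where
  mem := by
    show W ϖ ∈ V
    rw [hW]; exact h.mem
  inv_not_mem := by
    show ¬ W ϖ⁻¹ ∈ V
    rw [map_inv₀, hW]; exact h.inv_not_mem
  gen := by
    intro f hf hf'
    show W (f * ϖ⁻¹) ∈ V
    rw [map_mul, map_inv₀, hW]
    refine h.gen _ hf ?_
    intro h1
    apply hf'
    show W f⁻¹ ∈ V
    rw [map_inv₀]; exact h1

/-- discreteness: every nonzero function becomes integral after multiplication by a power of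
the uniformiser. -/
theorem exists_pow_mul_mem [NeZero N] (hdvr : IsDiscreteValuationRing ↥(Mod.RE P E))
    {w : Mod.RE P E} (hw : Irreducible w)
    {V : ValuationSubring ↥(Mod.FE E N)} (hV : Mod.IsVinf P E N V) {z : ↥(Mod.FE E N)}
    (hz : z ≠ 0) : ∃ k : ℕ, (Mod.cE P E N w) ^ k * z ∈ V := by
  haveI := hdvr
  obtain ⟨c, hc, hu⟩ := Mod.H553.exists_const_mul_unit P E hV hz
  have hkey : ∃ k : ℕ, (w : ↥E) ^ k * c ∈ Mod.RE P E := by
    rcases (Mod.RE P E).mem_or_inv_mem c with h1 | h1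
    · exact ⟨0, by simpa using h1⟩
    · have hc' : (⟨c⁻¹, h1⟩ : ↥(Mod.RE P E)) ≠ 0 := by
        intro h0
        exact inv_ne_zero hc (congrArg Subtype.val h0)
      obtain ⟨n, u, hu'⟩ := IsDiscreteValuationRing.eq_unit_mul_pow_irreducible hc' hw
      refine ⟨n, ?_⟩
      have h2 : c⁻¹ = ((u : ↥(Mod.RE P E)) : ↥E) * (w : ↥E) ^ n := by
        have := congrArg (fun t : ↥(Mod.RE P E) => (t : ↥E)) hu'
        simpa using this
      have h5 : ((u⁻¹ : (↥(Mod.RE P E))ˣ) : ↥(Mod.RE P E)) * (u : ↥(Mod.RE P E)) = 1 :=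
        Units.inv_mul u
      have h6 : (((u⁻¹ : (↥(Mod.RE P E))ˣ) : ↥(Mod.RE P E)) : ↥E) *
          ((u : ↥(Mod.RE P E)) : ↥E) = 1 := congrArg Subtype.val h5
      have h7 : (w : ↥E) ^ n * c * ((u : ↥(Mod.RE P E)) : ↥E) = 1 := by
        have h8 : c * c⁻¹ = 1 := mul_inv_cancel₀ hc
        rw [h2] at h8
        rw [← h8]
        ring
      have h3 : (w : ↥E) ^ n * c = (((u⁻¹ : (↥(Mod.RE P E))ˣ) : ↥(Mod.RE P E)) : ↥E) :=
        (eq_inv_of_mul_eq_one_left h7).trans (eq_inv_of_mul_eq_one_left h6).symm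
      rw [h3]
      exact ((u⁻¹ : (↥(Mod.RE P E))ˣ) : ↥(Mod.RE P E)).2
  obtain ⟨k, hk⟩ := hkey
  refine ⟨k, ?_⟩
  have e1 : (Mod.cE P E N w) ^ k * z =
      algebraMap ↥E ↥(Mod.FE E N) ((w : ↥E) ^ k * c) *
        (z * (algebraMap ↥E ↥(Mod.FE E N) c)⁻¹) := by
    have hc0 : algebraMap ↥E ↥(Mod.FE E N) c ≠ 0 :=
      (map_ne_zero_iff _ (algebraMap ↥E ↥(Mod.FE E N)).injective).mpr hc
    rw [Mod.cE, map_mul, map_pow]
    field_simp
  rw [e1]
  refine V.mul_mem _ _ ((Mod.H553.algebraMap_mem_iff P E hV _).2 hk) ?_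
  rw [← V.valuation_le_one_iff, hu]

end Val

/-! ## Kummer generators -/

section Kummer

variable {N : ℕ} [NeZero N]

/-- a `p`-th power is a Kummer function of the zero class -/
theorem isKummerFn_pow (p : ℕ) {h : ↥(modularFunctionFieldBar N)} (hh : h ≠ 0) :
    IsKummerFn N p 0 (h ^ p) := by
  haveI := Fermat.Agent.Lib.HI.H864.hasPrincipalDivisors_FF N
  obtain ⟨D, hD, hdeg⟩ := HasPrincipalDivisors.exists_divisor (K := AlgebraicClosure ℚ) h hh
  refine ⟨pow_ne_zero _ hh, ⟨D, hdeg⟩, ?_, fun v => ?_⟩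
  · refine (QuotientAddGroup.eq_zero_iff _).2 ?_
    rw [AddSubgroup.mem_addSubgroupOf]
    exact ⟨h, hh, fun v => hD v⟩
  · rw [← zpow_natCast, Place.ord_zpow, hD]

/-- dividing a Kummer function by a `p`-th power -/
theorem isKummerFn_mul_inv_pow (p : ℕ) {x : JZero N} {f h : ↥(modularFunctionFieldBar N)}
    (hf : IsKummerFn N p x f) (hh : h ≠ 0) : IsKummerFn N p x (f * (h ^ p)⁻¹) := by
  obtain ⟨hf0, D, hD, hord⟩ := hf
  obtain ⟨hp0, D', hD', hord'⟩ := isKummerFn_pow (N := N) p hh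
  refine ⟨mul_ne_zero hf0 (inv_ne_zero hp0), D - D', ?_, fun v => ?_⟩
  · have h1 : Pic0.mk (D - D') = Pic0.mk D - Pic0.mk D' := rfl
    rw [h1, hD, hD', sub_zero]
  · rw [Place.ord_mul v hf0 (inv_ne_zero hp0), Place.ord_inv, hord, hord']
    simp only [AddSubgroupClass.coe_sub, Finsupp.sub_apply]
    ring

end Kummer

/-! ## The core -/

section Core

variable (M q : ℕ) [NeZero M] [NeZero q] [NeZero (M * q)]

/-- The standing data at a good level: the Gauss valuation ring `V∞`, the Fricke involution and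
`V₀ = V∞ ∘ W`, with the common uniformiser `w`. -/
structure LevelCtx (A : ValuationSubring (AlgebraicClosure ℚ))
    (E : IntermediateField ℚ (AlgebraicClosure ℚ)) (w : RE A E)
    (V : ValuationSubring ↥(Mod.FE E (M * q)))
    (W : ↥(Mod.FE E (M * q)) ≃ₐ[↥E] ↥(Mod.FE E (M * q))) : Prop where
  dvr : IsDiscreteValuationRing ↥(RE A E)
  setting : Mod.Setting A E M q w
  isVinf : Mod.IsVinf A E (M * q) V
  isFricke : Mod.IsFricke E (M * q) W
  iotaW : ∀ z : ↥(Mod.FE E (M * q)), iota E (modularFunctionFieldFull (M * q)) (W z) =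
    Fermat.Agent.A2.H528.wF (M * q) (iota E (modularFunctionFieldFull (M * q)) z)

variable {M q}
variable {A : ValuationSubring (AlgebraicClosure ℚ)}
  {E : IntermediateField ℚ (AlgebraicClosure ℚ)} {w : RE A E}
  {V : ValuationSubring ↥(Mod.FE E (M * q))}
  {W : ↥(Mod.FE E (M * q)) ≃ₐ[↥E] ↥(Mod.FE E (M * q))}

theorem LevelCtx.unif (h : LevelCtx M q A E w V W) :
    Fermat.Agent.A2.H48.IsUnif V (Mod.cE A E (M * q) w) :=
  (Mod.H553.vinfBasic A E w (M * q) (NeZero.ne _) h.dvr h.setting.unif V h.isVinf).1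

theorem LevelCtx.W_cE (h : LevelCtx M q A E w V W) :
    W (Mod.cE A E (M * q) w) = Mod.cE A E (M * q) w := W.commutes _

theorem LevelCtx.unif₀ (h : LevelCtx M q A E w V W) :
    Fermat.Agent.A2.H48.IsUnif
      (V.comap (W : ↥(Mod.FE E (M * q)) →+* ↥(Mod.FE E (M * q)))) (Mod.cE A E (M * q) w) :=
  isUnif_comap h.unif (W : ↥(Mod.FE E (M * q)) →+* ↥(Mod.FE E (M * q))) h.W_cE

theorem LevelCtx.ne (h : LevelCtx M q A E w V W) :
    V ≠ V.comap (W : ↥(Mod.FE E (M * q)) →+* ↥(Mod.FE E (M * q))) :=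
  fun h' => Mod.H553.vzeroNe A E M q w h.setting V W h.isVinf h.isFricke h'.symm

theorem LevelCtx.disc (h : LevelCtx M q A E w V W) {z : ↥(Mod.FE E (M * q))} (hz : z ≠ 0) :
    ∃ k : ℕ, (Mod.cE A E (M * q) w) ^ k * z ∈ V :=
  exists_pow_mul_mem h.dvr h.setting.unif h.isVinf hz

theorem LevelCtx.disc₀ (h : LevelCtx M q A E w V W) {z : ↥(Mod.FE E (M * q))} (hz : z ≠ 0) :
    ∃ k : ℕ, (Mod.cE A E (M * q) w) ^ k * z ∈
      V.comap (W : ↥(Mod.FE E (M * q)) →+* ↥(Mod.FE E (M * q))) := by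
  obtain ⟨k, hk⟩ := h.disc ((map_ne_zero W).2 hz)
  refine ⟨k, ?_⟩
  show W ((Mod.cE A E (M * q) w) ^ k * z) ∈ V
  rw [map_mul, map_pow, h.W_cE]
  exact hk

theorem pow_mul_mem_mono {F : Type*} [Field F] (V' : ValuationSubring F) {ϖ : F} (hϖ : ϖ ∈ V')
    (z : F) {k k' : ℕ} (hkk : k ≤ k') (hk : ϖ ^ k * z ∈ V') : ϖ ^ k' * z ∈ V' := by
  obtain ⟨d, rfl⟩ := Nat.exists_eq_add_of_le hkk
  rw [pow_add, mul_comm (ϖ ^ k), mul_assoc]
  exact V'.mul_mem _ _ (pow_mem hϖ d) hk

/-- **Step 1**: gluing the two `q`-th roots. -/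
theorem LevelCtx.exists_split (h : LevelCtx M q A E w V W) (hq : q.Prime)
    (hA : A.LiesOverPrime q) (yf ya yb : ↥(Mod.FE E (M * q))) (hya : ya ≠ 0) (hyb : yb ≠ 0)
    (h1 : (Fermat.Agent.A2.H553.VinfModular A hq.ne_zero hA (M * q)).valuation
      (iota E (modularFunctionFieldFull (M * q)) (yf * (ya ^ q)⁻¹) - 1) < 1)
    (h2 : (Fermat.Agent.A2.H553.VinfModular A hq.ne_zero hA (M * q)).valuation
      (Fermat.Agent.A2.H528.wF (M * q)
        (iota E (modularFunctionFieldFull (M * q)) (yf * (yb ^ q)⁻¹)) - 1) < 1) :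
    ∃ g : ↥(Mod.FE E (M * q)), g ≠ 0 ∧ V.valuation (yf * (g ^ q)⁻¹ - 1) < 1 ∧
      (V.comap (W : ↥(Mod.FE E (M * q)) →+* ↥(Mod.FE E (M * q)))).valuation
        (yf * (g ^ q)⁻¹ - 1) < 1 := by
  have hdvr := h.dvr
  have hV := h.isVinf
  obtain ⟨k₁, hk₁⟩ := h.disc (mul_ne_zero hyb (inv_ne_zero hya))
  obtain ⟨k₂, hk₂⟩ := h.disc₀ (mul_ne_zero hya (inv_ne_zero hyb))
  obtain ⟨g, hg0, hg1, hg2⟩ := exists_mul_approx h.unif h.unif₀ h.ne hya hyb (k₁ + k₂)
    (pow_mul_mem_mono V h.unif.mem _ (Nat.le_add_right _ _) hk₁)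
    (pow_mul_mem_mono _ h.unif₀.mem _ (Nat.le_add_left _ _) hk₂)
  refine ⟨g, hg0, ?_, ?_⟩
  · have e1 : yf * (g ^ q)⁻¹ = (yf * (ya ^ q)⁻¹) * ((g * ya⁻¹)⁻¹) ^ q := by
      have hyaq : ya ^ q ≠ 0 := pow_ne_zero _ hya
      rw [mul_inv, inv_inv, mul_pow, inv_pow]
      field_simp
    rw [e1]
    refine val_sub_one_mul ?_ (val_sub_one_pow (val_sub_one_inv hg1) q)
    rw [val_lt_one_iff_iota hdvr hV hq.ne_zero hA, map_sub, map_one]
    exact h1
  · have e1 : yf * (g ^ q)⁻¹ = (yf * (yb ^ q)⁻¹) * ((g * yb⁻¹)⁻¹) ^ q := by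
      have hybq : yb ^ q ≠ 0 := pow_ne_zero _ hyb
      rw [mul_inv, inv_inv, mul_pow, inv_pow]
      field_simp
    rw [e1]
    refine val_sub_one_mul ?_ (val_sub_one_pow (val_sub_one_inv hg2) q)
    rw [val_comap_lt_one V (W : ↥(Mod.FE E (M * q)) →+* ↥(Mod.FE E (M * q)))]
    show V.valuation (W (yf * (yb ^ q)⁻¹ - 1)) < 1
    rw [val_lt_one_iff_iota hdvr hV hq.ne_zero hA, map_sub, map_one, map_sub, map_one, h.iotaW]
    exact h2

/-- **Step 2**: on a chart whose two components are cut out by `V∞` and `V₀`, a function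
`≡ 1` at both valuations has constant residue `1` on both components. -/
theorem LevelCtx.constAt (h : LevelCtx M q A E w V W) (c : ↥(Mod.FE E (M * q)))
    (hCtx : ChartCtx E w c (Mod.chartAlg A E (M * q) c)) (hcV : c ∈ V)
    (hcV₀ : c ∈ V.comap (W : ↥(Mod.FE E (M * q)) →+* ↥(Mod.FE E (M * q))))
    (p₁ p₂ : Ideal ↥(Mod.chartAlg A E (M * q) c))
    (hc₁ : Mod.IsCut A E (M * q) w V (Mod.chartAlg A E (M * q) c) p₁)
    (hc₂ : Mod.IsCut A E (M * q) w (V.comap (W : ↥(Mod.FE E (M * q)) →+* ↥(Mod.FE E (M * q))))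
      (Mod.chartAlg A E (M * q) c) p₂)
    (h₁₂ : ¬ p₁ ≤ p₂) (h₂₁ : ¬ p₂ ≤ p₁)
    (hinf : p₁ ⊓ p₂ = Ideal.span {algebraMap ↥(RE A E) ↥(Mod.chartAlg A E (M * q) c) w})
    (y : ↥(Mod.FE E (M * q))) (hyV : V.valuation (y - 1) < 1)
    (hyV₀ : (V.comap (W : ↥(Mod.FE E (M * q)) →+* ↥(Mod.FE E (M * q)))).valuation (y - 1) < 1) :
    ConstAt (Mod.chartAlg A E (M * q) c) p₁ y ∧ ConstAt (Mod.chartAlg A E (M * q) c) p₂ y := by
  haveI hdvr : IsDiscreteValuationRing ↥(RE A E) := h.dvr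
  obtain ⟨-, hconstV, -⟩ :=
    Mod.H553.vinfBasic A E w (M * q) (NeZero.ne _) h.dvr h.setting.unif V h.isVinf
  have hcR : ∀ r : ↥(RE A E), algebraMap ↥(RE A E) ↥(Mod.FE E (M * q)) r ∈ V :=
    fun r => (hconstV (r : ↥E)).2 r.2
  have hcR₀ : ∀ r : ↥(RE A E), algebraMap ↥(RE A E) ↥(Mod.FE E (M * q)) r ∈
      V.comap (W : ↥(Mod.FE E (M * q)) →+* ↥(Mod.FE E (M * q))) := by
    intro r
    show W (algebraMap ↥E ↥(Mod.FE E (M * q)) (r : ↥E)) ∈ V
    rw [W.commutes]
    exact hcR r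
  obtain ⟨-, -, hfracB⟩ := H34.chart_instances' w c (Mod.chartAlg A E (M * q) c) hCtx
  haveI := hfracB
  have hBV : ∀ b : ↥(Mod.chartAlg A E (M * q) c), (b : ↥(Mod.FE E (M * q))) ∈ V := fun b =>
    Mod.H372.mem_of_isIntegralElem V (algebraMap ↥(RE A E) ↥(Mod.FE E (M * q))) c hcR hcV
      (Mod.H372.mem_chartAlg_iff.mp b.2)
  have hBV₀ : ∀ b : ↥(Mod.chartAlg A E (M * q) c), (b : ↥(Mod.FE E (M * q))) ∈
      V.comap (W : ↥(Mod.FE E (M * q)) →+* ↥(Mod.FE E (M * q))) := fun b =>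
    Mod.H372.mem_of_isIntegralElem _ (algebraMap ↥(RE A E) ↥(Mod.FE E (M * q))) c hcR₀ hcV₀
      (Mod.H372.mem_chartAlg_iff.mp b.2)
  have hctx₁ : CutCtx (Mod.chartAlg A E (M * q) c) V w p₁ p₂ :=
    { le := hBV
      unif := h.unif
      cut := hc₁
      inf_eq := hinf
      not_le := h₂₁ }
  have hctx₂ : CutCtx (Mod.chartAlg A E (M * q) c)
      (V.comap (W : ↥(Mod.FE E (M * q)) →+* ↥(Mod.FE E (M * q)))) w p₂ p₁ :=
    { le := hBV₀
      unif := h.unif₀
      cut := hc₂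
      inf_eq := by rw [inf_comm]; exact hinf
      not_le := h₁₂ }
  -- `y` as a fraction
  obtain ⟨a, b, hb, hab⟩ :=
    IsFractionRing.div_surjective (A := ↥(Mod.chartAlg A E (M * q) c)) y
  have hb0 : b ≠ 0 := nonZeroDivisors.ne_zero hb
  have hb0' : (b : ↥(Mod.FE E (M * q))) ≠ 0 := fun h0 => hb0 (Subtype.ext h0)
  have hyb' : y * (b : ↥(Mod.FE E (M * q))) = (a : ↥(Mod.FE E (M * q))) := by
    rw [← hab]
    exact div_mul_cancel₀ _ hb0'
  obtain ⟨k, hk⟩ := h.disc (inv_ne_zero hb0')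
  obtain ⟨k', hk'⟩ := h.disc₀ (inv_ne_zero hb0')
  exact ⟨hctx₁.constAt_of_val_sub_one y hyV ⟨k, a, b, hb0, hk, hyb'⟩,
    hctx₂.constAt_of_val_sub_one y hyV₀ ⟨k', a, b, hb0, hk', hyb'⟩⟩

end Core

end Fermat.Agent.Ribet.H714

end

end
-- ===== PACK-END Ribet/H714/DictCore.lean

-- ===== PACK-BEGIN Ribet/H818/SwapBar.lean
section






/-!
# Row RIBET, WALL-q, leaf FROB-AL — the Kummer statement over `ℚ̄` (helper818)

`kummerSwapBar` (UNCONDITIONAL): `N = M * q`, `q ∤ M` prime, `HasAux M q`, `A ∣ q`, `s` a Frobenius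
element at `A`, `w_q` ANY swap of `F̄ = ℚ̄(X₀(M q))` (`w_q ∘ α = β`, `w_q ∘ β = α`), `m > 0`
prime to `q`.  For `f ∈ F̄ˣ` with `m ∣ div f` which is an `m`-th power times an element of
`1 + 𝔪` at the Gauss valuation `V̄∞` (`H553.VinfModular`) and at `V̄₀ = V̄∞ ∘ w_N`:

    σ_s (w_q f) · f ^ q = y ^ m      for some `y ∈ F̄ˣ`.

Proof: descent to a good level `E ∋ ζ_q` stable under `s` (`S35.G.H305.ifsStatement`,
`T1.H669.exists_finset_descent`), weak approximation for `V∞ ≠ V₀` (`H714.exists_mul_approx`),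
the level statement `H818.levelFrobSwap`, and back along `ι : F_E → F̄`.
-/

set_option autoImplicit false
set_option linter.unusedSectionVars false
set_option linter.unusedVariables false
set_option linter.style.haveILetI false
set_option synthInstance.maxHeartbeats 400000
set_option maxHeartbeats 4000000

noncomputable section

namespace Fermat.Agent.Ribet.H818

open ModularCurve AlgebraicCurve HahnSeries
open Fermat.Agent.A2.Mod
open Fermat.Agent.A2.T1.H669 (iota iota_ne_zero iota_algebraMap iota_injective)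
open Fermat.Agent.S35.G (actE StableUnder HasAux)
open Fermat.Agent.S35.H433 (PowVU)
open Fermat.Agent.Ribet.H714 (LevelCtx val_sub_one_mul val_sub_one_inv val_sub_one_pow
  exists_mul_approx val_lt_one_iff_iota val_comap_lt_one pow_mul_mem_mono)

section Split

variable {M q : ℕ} [NeZero M] [NeZero q] [NeZero (M * q)]
variable {A : ValuationSubring (AlgebraicClosure ℚ)}
  {E : IntermediateField ℚ (AlgebraicClosure ℚ)} {w : RE A E}
  {V : ValuationSubring ↥(FE E (M * q))}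
  {W : ↥(FE E (M * q)) ≃ₐ[↥E] ↥(FE E (M * q))}

/-- **Gluing the two `m`-th roots** (`H714.LevelCtx.exists_split` with an arbitrary exponent). -/
theorem exists_split818 (h : LevelCtx M q A E w V W) (hq : q.Prime)
    (hA : A.LiesOverPrime q) (m : ℕ) (yf ya yb : ↥(FE E (M * q))) (hya : ya ≠ 0)
    (hyb : yb ≠ 0)
    (h1 : (Fermat.Agent.A2.H553.VinfModular A hq.ne_zero hA (M * q)).valuation
      (iota E (modularFunctionFieldFull (M * q)) (yf * (ya ^ m)⁻¹) - 1) < 1)
    (h2 : (Fermat.Agent.A2.H553.VinfModular A hq.ne_zero hA (M * q)).valuation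
      (Fermat.Agent.A2.H528.wF (M * q)
        (iota E (modularFunctionFieldFull (M * q)) (yf * (yb ^ m)⁻¹)) - 1) < 1) :
    ∃ g : ↥(FE E (M * q)), g ≠ 0 ∧ V.valuation (yf * (g ^ m)⁻¹ - 1) < 1 ∧
      (V.comap (W : ↥(FE E (M * q)) →+* ↥(FE E (M * q)))).valuation
        (yf * (g ^ m)⁻¹ - 1) < 1 := by
  have hdvr := h.dvr
  have hV := h.isVinf
  obtain ⟨k₁, hk₁⟩ := h.disc (mul_ne_zero hyb (inv_ne_zero hya))
  obtain ⟨k₂, hk₂⟩ := h.disc₀ (mul_ne_zero hya (inv_ne_zero hyb))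
  obtain ⟨g, hg0, hg1, hg2⟩ := exists_mul_approx h.unif h.unif₀ h.ne hya hyb (k₁ + k₂)
    (pow_mul_mem_mono V h.unif.mem _ (Nat.le_add_right _ _) hk₁)
    (pow_mul_mem_mono _ h.unif₀.mem _ (Nat.le_add_left _ _) hk₂)
  refine ⟨g, hg0, ?_, ?_⟩
  · have e1 : yf * (g ^ m)⁻¹ = (yf * (ya ^ m)⁻¹) * ((g * ya⁻¹)⁻¹) ^ m := by
      have hyaq : ya ^ m ≠ 0 := pow_ne_zero _ hya
      rw [mul_inv, inv_inv, mul_pow, inv_pow]
      field_simp
    rw [e1]
    refine val_sub_one_mul ?_ (val_sub_one_pow (val_sub_one_inv hg1) m)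
    rw [val_lt_one_iff_iota hdvr hV hq.ne_zero hA, map_sub, map_one]
    exact h1
  · have e1 : yf * (g ^ m)⁻¹ = (yf * (yb ^ m)⁻¹) * ((g * yb⁻¹)⁻¹) ^ m := by
      have hybq : yb ^ m ≠ 0 := pow_ne_zero _ hyb
      rw [mul_inv, inv_inv, mul_pow, inv_pow]
      field_simp
    rw [e1]
    refine val_sub_one_mul ?_ (val_sub_one_pow (val_sub_one_inv hg2) m)
    rw [val_comap_lt_one V (W : ↥(FE E (M * q)) →+* ↥(FE E (M * q)))]
    show V.valuation (W (yf * (yb ^ m)⁻¹ - 1)) < 1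
    rw [val_lt_one_iff_iota hdvr hV hq.ne_zero hA, map_sub, map_one, map_sub, map_one, h.iotaW]
    exact h2

/-- `u ∈ 1 + 𝔪_V` is an `m`-th power modulo the uniformiser (`PowVU` with root `1`). -/
theorem powVU_of_val_lt_one818 {F R : Type*} [CommRing R] [Field F] [Algebra R F]
    {V' : ValuationSubring F} {ϖ : R} (hU : Fermat.Agent.A2.H48.IsUnif V' (algebraMap R F ϖ))
    (m : ℕ) {u : F} (hu : V'.valuation (u - 1) < 1) : PowVU ϖ V' m u := by
  refine ⟨1, one_ne_zero, V'.one_mem, by rw [inv_one]; exact V'.one_mem, ?_⟩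
  rw [one_pow]
  by_cases h0 : u - 1 = 0
  · rw [h0, zero_mul]
    exact V'.zero_mem
  · have hmem : u - 1 ∈ V' := (V'.valuation_le_one_iff _).1 hu.le
    have hinv : (u - 1)⁻¹ ∉ V' := by
      intro hc
      have h1 : V'.valuation (u - 1)⁻¹ ≤ 1 := (V'.valuation_le_one_iff _).2 hc
      have hne : V'.valuation (u - 1) ≠ 0 := (Valuation.ne_zero_iff _).2 h0
      rw [map_inv₀, inv_le_one₀ (zero_lt_iff.2 hne)] at h1
      exact absurd hu (not_lt.2 h1)
    exact hU.gen _ hmem hinv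

end Split

/-! ### The swap at level `E` and over `ℚ̄` -/

section Iota

variable (E : IntermediateField ℚ _root_.Fermat.Agent.A2.Mod.Qb) (M q : ℕ) [NeZero M] [NeZero q]

/-- `ι` intertwines a swap at level `E` and a swap over `ℚ̄`. -/
theorem iota_swap818 (hq : q.Prime)
    (swE : ↥(FE E (M * q)) →+* ↥(FE E (M * q)))
    (hα : ∀ a : FE E M, swE (αE E M q a) = βE E M q a)
    (hβ : ∀ a : FE E M, swE (βE E M q a) = αE E M q a)
    (swB : ↥(modularFunctionFieldBar (M * q)) →+* ↥(modularFunctionFieldBar (M * q)))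
    (hBα : ∀ a : modularFunctionFieldBar M,
      swB (heckeAlphaBar _root_.Fermat.Agent.A2.Mod.Qb M q a) = heckeBetaBar _root_.Fermat.Agent.A2.Mod.Qb M q a)
    (hBβ : ∀ a : modularFunctionFieldBar M,
      swB (heckeBetaBar _root_.Fermat.Agent.A2.Mod.Qb M q a) = heckeAlphaBar _root_.Fermat.Agent.A2.Mod.Qb M q a)
    (x : ↥(FE E (M * q))) :
    iota E (modularFunctionFieldFull (M * q)) (swE x) =
      swB (iota E (modularFunctionFieldFull (M * q)) x) := by
  refine Fermat.Agent.Ribet.H801.ringHom_ext_alpha_beta_gen (L := E) (M := M) (p := q) hq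
    ((iota E (modularFunctionFieldFull (M * q))).comp swE)
    (swB.comp (iota E (modularFunctionFieldFull (M * q)))) ?_ ?_ x
  · intro a
    show iota E _ (swE (heckeAlphaBar E M q a)) = swB (iota E _ (heckeAlphaBar E M q a))
    rw [hα, Fermat.Agent.S35.G.H169.iota_alpha, Fermat.Agent.S35.G.H169.iota_beta, hBα]
  · intro a
    show iota E _ (swE (heckeBetaBar E M q a)) = swB (iota E _ (heckeBetaBar E M q a))
    rw [hβ, Fermat.Agent.S35.G.H169.iota_alpha, Fermat.Agent.S35.G.H169.iota_beta, hBβ]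

end Iota

/-! ### The Kummer statement over `ℚ̄` -/

section Bar

variable (M q m : ℕ) [NeZero M] [NeZero q] [NeZero (M * q)]

/-- **FROB-AL, Kummer form over `ℚ̄`** (UNCONDITIONAL). -/
theorem kummerSwapBar (hq : q.Prime) (hqM : ¬ q ∣ M) (haux : HasAux M q) (hm : 0 < m)
    (hqm : ¬ q ∣ m) (A : ValuationSubring _root_.Fermat.Agent.A2.Mod.Qb) (hA : A.LiesOverPrime q)
    (s : _root_.Fermat.Agent.A2.Mod.Qb ≃ₐ[ℚ] _root_.Fermat.Agent.A2.Mod.Qb) (hs : A.IsFrobeniusAt s q)
    (swB : ↥(modularFunctionFieldBar (M * q)) →+* ↥(modularFunctionFieldBar (M * q)))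
    (hBα : ∀ a : modularFunctionFieldBar M,
      swB (heckeAlphaBar _root_.Fermat.Agent.A2.Mod.Qb M q a) = heckeBetaBar _root_.Fermat.Agent.A2.Mod.Qb M q a)
    (hBβ : ∀ a : modularFunctionFieldBar M,
      swB (heckeBetaBar _root_.Fermat.Agent.A2.Mod.Qb M q a) = heckeAlphaBar _root_.Fermat.Agent.A2.Mod.Qb M q a)
    (f : ↥(modularFunctionFieldBar (M * q))) (hf : f ≠ 0)
    (hdiv : ∀ v : Place _root_.Fermat.Agent.A2.Mod.Qb ↥(modularFunctionFieldBar (M * q)), (m : ℤ) ∣ v.ord f)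
    (a b : ↥(modularFunctionFieldBar (M * q))) (ha : a ≠ 0) (hb : b ≠ 0)
    (h1 : (Fermat.Agent.A2.H553.VinfModular A hq.ne_zero hA (M * q)).valuation
      (f * (a ^ m)⁻¹ - 1) < 1)
    (h2 : (Fermat.Agent.A2.H553.VinfModular A hq.ne_zero hA (M * q)).valuation
      (Fermat.Agent.A2.H528.wF (M * q) (f * (b ^ m)⁻¹) - 1) < 1) :
    ∃ y : ↥(modularFunctionFieldBar (M * q)), y ≠ 0 ∧
      arithmeticRingAut (modularFunctionFieldFull (M * q)) s (swB f) * f ^ q = y ^ m := by
  classical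
  set F₀ := modularFunctionFieldFull (M * q) with hF₀
  -- a primitive `q`-th root of unity
  obtain ⟨ζ, hζ⟩ := Fermat.Agent.S37.H88.exists_primitiveRoot_bar q
  -- descent
  obtain ⟨Sf, hSf⟩ := Fermat.Agent.A2.T1.H669.exists_finset_descent F₀ f
  obtain ⟨Sa, hSa⟩ := Fermat.Agent.A2.T1.H669.exists_finset_descent F₀ a
  obtain ⟨Sb, hSb⟩ := Fermat.Agent.A2.T1.H669.exists_finset_descent F₀ b
  obtain ⟨E, hSE, hE, hsE⟩ := Fermat.Agent.S35.G.H305.ifsStatement q hq A hA s
    hs.mem_decompositionSubgroup (Sf ∪ Sa ∪ Sb ∪ {ζ})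
  obtain ⟨yf, hyf⟩ := hSf E (fun t ht => hSE t (by simp [ht]))
  obtain ⟨ya, hya⟩ := hSa E (fun t ht => hSE t (by simp [ht]))
  obtain ⟨yb, hyb⟩ := hSb E (fun t ht => hSE t (by simp [ht]))
  have hζE : ζ ∈ E := hSE ζ (by simp)
  have hya0 : ya ≠ 0 := by
    rintro rfl
    rw [map_zero] at hya
    exact ha hya.symm
  have hyb0 : yb ≠ 0 := by
    rintro rfl
    rw [map_zero] at hyb
    exact hb hyb.symm
  have hyf0 : yf ≠ 0 := by
    rintro rfl
    rw [map_zero] at hyf
    exact hf hyf.symm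
  -- the level
  haveI hdvr : IsDiscreteValuationRing ↥(RE A E) := hE.dvr
  obtain ⟨w, hw⟩ := IsDiscreteValuationRing.exists_irreducible ↥(RE A E)
  have hS : Setting A E M q w :=
    { q_prime := hq
      q_not_dvd := hqM
      M_ne_zero := NeZero.ne M
      lies_over := hA
      dvr := hdvr
      unif := hw }
  obtain ⟨V, hV⟩ := H553.vinfExists A E (M * q) (NeZero.ne _) hdvr
  have hW : IsFricke E (M * q) (H553.wE E (M * q)) := H553.isFricke_wE E (M * q)
  have hL : LevelCtx M q A E w V (H553.wE E (M * q)) :=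
    { dvr := hdvr
      setting := hS
      isVinf := hV
      isFricke := hW
      iotaW := fun z => H553.iota_wE E (M * q) z }
  -- the swap at level `E`
  set ζE : E := ⟨ζ, hζE⟩ with hζEdef
  have hζE' : IsPrimitiveRoot ζE q :=
    IsPrimitiveRoot.of_map_of_injective (f := algebraMap E _root_.Fermat.Agent.A2.Mod.Qb) hζ (algebraMap E _root_.Fermat.Agent.A2.Mod.Qb).injective
  obtain ⟨sw₀, hsw₀α, hsw₀β⟩ :=
    Fermat.Agent.S37.H88.exists_swap (L := E) (N := M) (ℓ := q) hq hqM hζE'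
  set sw : ↥(FE E (M * q)) ≃+* ↥(FE E (M * q)) :=
    Fermat.Agent.Ribet.H801.swapEquivGen (L := E) (M := M) (p := q) hq sw₀ hsw₀α hsw₀β with hsw
  have hswα : ∀ a : FE E M, sw (αE E M q a) = βE E M q a := hsw₀α
  have hswβ : ∀ a : FE E M, sw (βE E M q a) = αE E M q a := hsw₀β
  -- gluing
  have h1' : (Fermat.Agent.A2.H553.VinfModular A hq.ne_zero hA (M * q)).valuation
      (iota E F₀ (yf * (ya ^ m)⁻¹) - 1) < 1 := by
    rw [map_mul, map_inv₀, map_pow, hyf, hya]
    exact h1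
  have h2' : (Fermat.Agent.A2.H553.VinfModular A hq.ne_zero hA (M * q)).valuation
      (Fermat.Agent.A2.H528.wF (M * q) (iota E F₀ (yf * (yb ^ m)⁻¹)) - 1) < 1 := by
    rw [map_mul (iota E F₀), map_inv₀ (iota E F₀), map_pow (iota E F₀), hyf, hyb]
    exact h2
  obtain ⟨g, hg0, hgV, hgV₀⟩ := exists_split818 hL hq hA m yf ya yb hya0 hyb0 h1' h2'
  set u : ↥(FE E (M * q)) := yf * (g ^ m)⁻¹ with hu
  have hu0 : u ≠ 0 := mul_ne_zero hyf0 (inv_ne_zero (pow_ne_zero _ hg0))
  have hyfu : yf = u * g ^ m := by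
    rw [hu, mul_assoc, inv_mul_cancel₀ (pow_ne_zero _ hg0), mul_one]
  -- divisibility of the divisor
  have hdd : Fermat.Agent.A2.DivisibleDiv E m u := by
    refine Fermat.Agent.A2.T1.H669.divisibleDiv_of_ord E F₀ m u hu0 (fun v => ?_)
    have hιg : iota E F₀ g ≠ 0 := iota_ne_zero E F₀ hg0
    have e : iota E F₀ u = f * ((iota E F₀ g) ^ m)⁻¹ := by
      rw [hu, map_mul, map_inv₀, map_pow, hyf]
    rw [e, Place.ord_mul v hf (inv_ne_zero (pow_ne_zero _ hιg)), Place.ord_inv,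
      Fermat.Agent.A2.H129.ord_pow]
    exact dvd_sub (hdiv v) (Dvd.intro _ rfl)
  -- the level statement
  have hp₁ : PowVU w V m u := powVU_of_val_lt_one818 (R := ↥(RE A E)) hL.unif m hgV
  have hp₂ : PowVU w (V.comap (H553.wE E (M * q) : ↥(FE E (M * q)) →+* ↥(FE E (M * q)))) m u :=
    powVU_of_val_lt_one818 (R := ↥(RE A E)) hL.unif₀ m hgV₀
  obtain ⟨h, hh0, hrel⟩ := levelFrobSwap A E M q m hq hqM haux hm hqm hA hE sw hswα hswβ
    s hsE hs w hw V (H553.wE E (M * q)) hV hW u hu0 hdd hp₁ hp₂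
  -- back to `yf`
  set σ := actE E (M * q) (resE E s hsE) with hσ
  have hσg : σ (sw g) ≠ 0 := (map_ne_zero σ).2 ((map_ne_zero sw).2 hg0)
  set z : ↥(FE E (M * q)) := σ (sw g) * g ^ q * h with hz
  have hz0 : z ≠ 0 := mul_ne_zero (mul_ne_zero hσg (pow_ne_zero _ hg0)) hh0
  have hrelf : σ (sw yf) * yf ^ q = z ^ m := by
    rw [hyfu, map_mul, map_mul, map_pow, map_pow, mul_pow, hz, mul_pow, mul_pow, ← hrel]
    ring
  -- push to `ℚ̄`
  refine ⟨iota E F₀ z, iota_ne_zero E F₀ hz0, ?_⟩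
  have key := congrArg (iota E F₀) hrelf
  rw [map_mul, map_pow, map_pow, hyf] at key
  have hσι : iota E F₀ (σ (sw yf)) = arithmeticRingAut F₀ s (swB f) := by
    rw [hσ]
    have h3 := Fermat.Agent.A2.T1.H669.iota_arithmeticRingAut E F₀ s (resE E s hsE)
      (fun _ => rfl) (sw yf)
    have h4 : iota E F₀ (sw yf) = swB f := by
      rw [← hyf]
      exact iota_swap818 E M q hq (sw : ↥(FE E (M * q)) →+* ↥(FE E (M * q))) hswα hswβ
        swB hBα hBβ yf
    rw [← h4]
    exact h3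
  rw [hσι] at key
  exact key

end Bar

end Fermat.Agent.Ribet.H818

end

end
-- ===== PACK-END Ribet/H818/SwapBar.lean

-- ===== PACK-BEGIN S36/H36/KummerAt.lean
section
/-
S36 engine, layers (i)+(ii) POINTWISE and at NEAT levels (helper36).

* `KummerQNewInertiaAt N q p P`   : the Kummer form of the engine at ONE level `(N, q, p, P)`
                                     (the body of `KummerQNewInertiaStatement`);
* `qNewInertiaAt_of_kummerAt`     : `KummerQNewInertiaAt N q p P → H442.QNewInertiaAt N q p P`;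
* `KummerQNewInertiaNeatStatement`: the Kummer form at the neat levels `N r q` of helper442
                                     (`r ≡ 11 mod 12` prime, `r ∤ N q p`, `r > N q p`);
* `newPartInertiaStatement_of_kummerNeat` :
      `KummerQNewInertiaNeatStatement → NewPartInertiaStatement`
  (helper442's `qNewInertia_of_neat` + layer (i)).

So the geometric engine is only needed at neat levels.
-/



set_option autoImplicit false
set_option linter.style.haveILetI false

noncomputable section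

namespace Fermat.Agent.S36.H36

open AlgebraicCurve ModularCurve Fermat.Agent.A2

/-- **The engine, Kummer form, at one level.** -/
def KummerQNewInertiaAt (N q p : ℕ) [NeZero N] [NeZero q]
    (P : ValuationSubring Qb) : Prop :=
  ∃ k : ℕ, ∀ (n : ℕ) (f : modularFunctionFieldBar (N * q)), f ≠ 0 →
    (∀ v : Place Qb (modularFunctionFieldBar (N * q)), ((p ^ n : ℕ) : ℤ) ∣ v.ord f) →
    (∃ h : modularFunctionFieldBar N, h ≠ 0 ∧
      Fermat.Agent.S29.H395.normAlong (heckeAlphaBar Qb N q) f = h ^ (p ^ n)) →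
    (∃ h : modularFunctionFieldBar N, h ≠ 0 ∧
      Fermat.Agent.S29.H395.normAlong (heckeBetaBar Qb N q) f = h ^ (p ^ n)) →
    (∀ τ ∈ P.inertiaSubgroupIn ℚ, ∃ y : modularFunctionFieldBar (N * q), y ≠ 0 ∧
      arithmeticRingAut (modularFunctionFieldFull (N * q)) τ f = y ^ (p ^ n) * f) →
    ∃ y : modularFunctionFieldBar (N * q), y ≠ 0 ∧ f ^ (p ^ k) = y ^ (p ^ n)

theorem kummerQNewInertiaStatement_iff :
    KummerQNewInertiaStatement ↔
      ∀ (N q p : ℕ) [NeZero N] [NeZero q], q.Prime → N.factorization q = 1 → p.Prime → p ≠ q →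
        ∀ P : ValuationSubring Qb, P.LiesOverPrime q → KummerQNewInertiaAt N q p P :=
  Iff.rfl

/-- **Layer (ii), pointwise.** -/
theorem qNewInertiaAt_of_kummerAt (N q p : ℕ) [NeZero N] [NeZero q] (hp : p.Prime)
    (P : ValuationSubring Qb) (hK : KummerQNewInertiaAt N q p P) :
    Fermat.Agent.S36.H442.QNewInertiaAt N q p P := by
  obtain ⟨k, hk⟩ := hK
  refine ⟨k, fun x hx hnew hfix => ?_⟩
  obtain ⟨n, hn⟩ := hx
  haveI : NeZero (N * q) := ⟨Nat.mul_ne_zero (NeZero.ne N) (NeZero.ne q)⟩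
  set m : ℕ := p ^ n with hmdef
  have hm : 0 < m := pow_pos hp.pos n
  obtain ⟨D, rfl⟩ := Pic0.mk_surjective x
  rw [Fermat.Agent.S35.H155.isQNew_mk_iff] at hnew
  obtain ⟨⟨a, ha, haD⟩, ⟨b, hb, hbD⟩⟩ := hnew
  -- the Kummer generator
  have hprin : ((m • D : Divisor.degZero (K := Qb) (F := modularFunctionFieldBar (N * q))) :
      Divisor Qb (modularFunctionFieldBar (N * q))) ∈
      Divisor.principal (K := Qb) (F := modularFunctionFieldBar (N * q)) := by
    have h0 : Pic0.mk (m • D) = 0 := hn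
    have := (QuotientAddGroup.eq_zero_iff (m • D)).1 h0
    simpa [AddSubgroup.mem_addSubgroupOf] using this
  obtain ⟨f, hf, hfD⟩ := hprin
  have hfD' : ∀ v : Place Qb (modularFunctionFieldBar (N * q)),
      v.ord f = (m : ℤ) * (D : Divisor Qb (modularFunctionFieldBar (N * q))) v := by
    intro v
    rw [← hfD v]
    simp [Finsupp.smul_apply]
  have hfD'' : ∀ w : Place Qb (modularFunctionFieldBar (N * q)),
      ((m : ℤ) • (D : Divisor Qb (modularFunctionFieldBar (N * q)))) w = w.ord f := by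
    intro w
    rw [Finsupp.smul_apply, smul_eq_mul, hfD' w]
  -- the norm formula for `α` and `β`
  haveI hPD : HasPrincipalDivisors Qb (modularFunctionFieldBar (N * q)) :=
    Fermat.Agent.Lib.RR.H864.hasPrincipalDivisors_modularFunctionFieldBar (N * q)
  have hF := Fermat.Agent.S29.H812.exists_coord_modular N
  have hα := Fermat.Agent.Lib.FF398.heckeAlphaBarIntegral N q
  have hβ := Fermat.Agent.Lib.FF398.heckeBetaBarIntegral N q
  have hfinα := Fermat.Agent.S29.H812.finiteAlong_heckeAlphaBar N q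
  have hfinβ := Fermat.Agent.S29.H812.finiteAlong_heckeBetaBar N q
  have hNα := Fermat.Agent.S29.H812.normFormulaAlong hF (heckeAlphaBar Qb N q) hfinα
  have hNβ := Fermat.Agent.S29.H812.normFormulaAlong hF (heckeBetaBar Qb N q) hfinβ
  have hordα : ∀ v : Place Qb (modularFunctionFieldBar N),
      v.ord (Fermat.Agent.S29.H395.normAlong (heckeAlphaBar Qb N q) f) = (m : ℤ) * v.ord a := by
    intro v
    rw [← Fermat.Agent.S29.H395.pushforwardAlong_apply_eq_ord (heckeAlphaBar Qb N q) hα hfinα hNα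
      hf hfD'' v, map_zsmul, Finsupp.smul_apply, smul_eq_mul, haD v]
  have hordβ : ∀ v : Place Qb (modularFunctionFieldBar N),
      v.ord (Fermat.Agent.S29.H395.normAlong (heckeBetaBar Qb N q) f) = (m : ℤ) * v.ord b := by
    intro v
    rw [← Fermat.Agent.S29.H395.pushforwardAlong_apply_eq_ord (heckeBetaBar Qb N q) hβ hfinβ hNβ
      hf hfD'' v, map_zsmul, Finsupp.smul_apply, smul_eq_mul, hbD v]
  have hα' := Fermat.Agent.S35.H909.exists_pow_eq_of_ord N m hm
    (Fermat.Agent.S29.H395.normAlong_ne_zero _ hfinα hf) ha hordα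
  have hβ' := Fermat.Agent.S35.H909.exists_pow_eq_of_ord N m hm
    (Fermat.Agent.S29.H395.normAlong_ne_zero _ hfinβ hf) hb hordβ
  -- the fixed condition
  have hfixK : ∀ τ ∈ P.inertiaSubgroupIn ℚ, ∃ y : modularFunctionFieldBar (N * q), y ≠ 0 ∧
      arithmeticRingAut (modularFunctionFieldFull (N * q)) τ f = y ^ m * f := by
    intro τ hτ
    have h1 : arithmeticGalois (L := Qb) (modularFunctionFieldFull (N * q)) τ • Pic0.mk D
        = Pic0.mk D := hfix τ hτ
    obtain ⟨y, hy, hyw⟩ := exists_ord_eq_of_smul_eq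
      (arithmeticGalois (L := Qb) (modularFunctionFieldFull (N * q)) τ) m D hfD' h1
    rw [toRingAut_arithmeticGalois] at hyw
    set τf := arithmeticRingAut (modularFunctionFieldFull (N * q)) τ f with hτf
    have hτf0 : τf ≠ 0 := by
      rw [hτf]
      exact (map_ne_zero_iff _
        (arithmeticRingAut (modularFunctionFieldFull (N * q)) τ).injective).2 hf
    have hyf0 : y ^ m * f ≠ 0 := mul_ne_zero (pow_ne_zero _ hy) hf
    -- `τ f = (y ^ m * f) * (unit of order zero everywhere)`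
    have hy' : ∀ w : Place Qb (modularFunctionFieldBar (N * q)),
        w.ord τf = w.ord (y ^ m * f) := by
      intro w
      rw [hyw w, w.ord_mul (pow_ne_zero _ hy) hf, Fermat.Agent.A2.H129.ord_pow]
    have h2 := Fermat.Agent.S35.H909.exists_pow_eq_of_ord (N * q) m hm
      (y := τf * (y ^ m * f)⁻¹ * y ^ m) (a := y)
      (mul_ne_zero (mul_ne_zero hτf0 (inv_ne_zero hyf0)) (pow_ne_zero _ hy)) hy (fun w => by
        rw [w.ord_mul (mul_ne_zero hτf0 (inv_ne_zero hyf0)) (pow_ne_zero _ hy),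
          Fermat.Agent.A2.H129.ord_div w hτf0 hyf0, hy' w, sub_self, zero_add,
          Fermat.Agent.A2.H129.ord_pow])
    obtain ⟨z, hz, hzy⟩ := h2
    refine ⟨z, hz, ?_⟩
    rw [← hzy]
    field_simp
  obtain ⟨y, hy, hyf⟩ := hk n f hf (fun v => ⟨_, hfD' v⟩) hα' hβ' hfixK
  exact nsmul_mk_eq_zero_of_pow_eq m (p ^ k) hm.ne' D hfD' hy hyf


/-- **The engine, Kummer form, at the neat levels** `N r q` (`q ‖ N`, `r ≡ 11 mod 12` a prime
not dividing `N q p` and larger than `N q p`). -/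
def KummerQNewInertiaNeatStatement : Prop :=
  ∀ (N q r p : ℕ) [NeZero N] [NeZero q] [NeZero r], q.Prime → N.factorization q = 1 →
    r.Prime → r % 12 = 11 → ¬ r ∣ N * q * p → N * q * p < r → p.Prime → p ≠ q →
    ∀ P : ValuationSubring Qb, P.LiesOverPrime q →
      (N * r).factorization q = 1 → KummerQNewInertiaAt (N * r) q p P

/-- The engine on `J₀` at neat levels from its Kummer form at neat levels. -/
theorem qNewInertiaNeat_of_kummerNeat (h : KummerQNewInertiaNeatStatement) :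
    Fermat.Agent.S36.H442.QNewInertiaNeatStatement := by
  intro N q r p _ _ _ hq hfac hr hmod hndvd hB hp hpq P hP hfac'
  haveI : NeZero (N * r) := ⟨Nat.mul_ne_zero (NeZero.ne N) (NeZero.ne r)⟩
  exact qNewInertiaAt_of_kummerAt (N * r) q p hp P
    (h N q r p hq hfac hr hmod hndvd hB hp hpq P hP hfac')

/-- **The engine consumed by the mid layer, from the Kummer form at NEAT levels.** -/
theorem newPartInertiaStatement_of_kummerNeat (h : KummerQNewInertiaNeatStatement) :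
    NewPartInertiaStatement :=
  newPartInertiaStatement_of_qNew
    (Fermat.Agent.S36.H442.qNewInertia_of_neat (qNewInertiaNeat_of_kummerNeat h))

end Fermat.Agent.S36.H36

end
end
-- ===== PACK-END S36/H36/KummerAt.lean

-- ===== PACK-BEGIN S36/Eng/Top.lean
section



/-!
# S36 ENGINE — skeleton, part 2 (architect helper996): the leaves and the top assembly

Leaves (each ONE `Prop`):

* `Alg3Statement`        (`Spec.lean`)  ABSTRACT three-component theorem;
* `Model3Statement`      (`Spec.lean`)  the modular three-component context at neat levels;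
* `InertiaFieldStatement`               (UNR) the inertia field `ℚ̄^{I_P}` is an UNRAMIFIED good
                                        level;
* `DescPlugStatement`                   DESC + Kummer dictionary, POINTWISE: the level engine at
                                        the inertia field gives helper442's `QNewInertiaAt`
                                        (= helper756 `kummerQNewInertiaAt_of_fixedAtC` + helper36
                                        `qNewInertiaAt_of_kummerAt` + a reshaping).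

`qNewInertia_of_leaves` : the four leaves ⟹ `H36.QNewInertiaStatement` (all levels: the auxiliary
primes `r ≡ 11 mod 12` and `2, 2` (`q` odd) resp. `3, 3` (`q = 2`) are added here and removed by
helper442's one-step descent `qNewInertiaAt_of_mul`), hence
`newPartInertia_of_leaves : … → H36.NewPartInertiaStatement`, the engine (N) of helper36's chain.
-/

set_option autoImplicit false
set_option linter.style.haveILetI false
set_option linter.unusedSectionVars false
set_option synthInstance.maxHeartbeats 400000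
set_option maxHeartbeats 1600000

noncomputable section

namespace Fermat.Agent.S36.Eng

open ModularCurve AlgebraicCurve

/-- The inertia field `ℚ̄^{I_P}`. -/
abbrev inertiaFld (P : ValuationSubring A2.Qb) : IntermediateField ℚ A2.Qb :=
  IntermediateField.fixedField (P.inertiaSubgroupIn ℚ)

/-- **UNR (leaf).**  The inertia field of a place `P` over `q` is an unramified good level:
`P ∩ ℚ̄^{I_P}` is a henselian DVR with uniformiser `q` and algebraically closed residue field.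
(`A2/IF/H429`, `A2/IF/H969` have everything except `e = 1`:
`Ideal.card_inertia_eq_ramificationIdxIn` at finite levels.) -/
def InertiaFieldStatement : Prop :=
  ∀ q : ℕ, q.Prime → ∀ P : ValuationSubring A2.Qb, P.LiesOverPrime q →
    Unramified P (inertiaFld P) q

/-- **DESC plug (leaf), pointwise.**  `x ∈ J₀(M q²)[p^∞]` fixed by `I_A` has a Kummer generator
over the inertia field (helper756); `q`-newness gives the two norm conditions over the inertia
field; the level engine gives `y ^ C = c h ^ m`, hence `C • x = 0` and `p ^ k • x = 0`,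
`k = v_p(C)`. -/
def DescPlugStatement : Prop :=
  ∀ (M q p : ℕ) [NeZero M] [NeZero q] [NeZero (M * q)], q.Prime → ¬ q ∣ M → p.Prime → p ≠ q →
    ∀ A : ValuationSubring A2.Qb, A.LiesOverPrime q →
      LevelInertiaAt (inertiaFld A) M q → H442.QNewInertiaAt (M * q) q p A

/-- Transport of `QNewInertiaAt` along an equality of levels. -/
theorem qNewInertiaAt_congr {N N' q p : ℕ} [NeZero N] [NeZero N'] [NeZero q]
    (P : ValuationSubring (AlgebraicClosure ℚ)) (h : N = N')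
    (hN : H442.QNewInertiaAt N q p P) : H442.QNewInertiaAt N' q p P := by
  subst h
  exact hN

/-- The engine at ONE neat level `N₁` (`q ‖ N₁`), from the leaves. -/
theorem qNewInertiaAt_of_leaves (hALG : Alg3Statement) (hMOD : Model3Statement)
    (hUNR : InertiaFieldStatement) (hDESC : DescPlugStatement)
    (N₁ q p : ℕ) [NeZero N₁] [NeZero q] (hq : q.Prime) (hfac : N₁.factorization q = 1)
    (hr : ∃ r : ℕ, r.Prime ∧ r % 12 = 11 ∧ r ≠ q ∧ r ∣ N₁)
    (h4 : q ≠ 2 → 4 ∣ N₁) (h9 : q = 2 → 9 ∣ N₁)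
    (hp : p.Prime) (hpq : p ≠ q) (A : ValuationSubring A2.Qb) (hA : A.LiesOverPrime q) :
    H442.QNewInertiaAt N₁ q p A := by
  have hqN : q ∣ N₁ := Nat.dvd_of_factorization_pos (by rw [hfac]; exact one_ne_zero)
  obtain ⟨M, hM⟩ := hqN
  have hM' : N₁ = M * q := by rw [hM, mul_comm]
  have hM0 : M ≠ 0 := fun h => by
    rw [h, zero_mul] at hM'
    exact (NeZero.ne N₁) hM'
  haveI : NeZero M := ⟨hM0⟩
  haveI : NeZero (M * q) := ⟨Nat.mul_ne_zero hM0 hq.ne_zero⟩
  have hqM : ¬ q ∣ M := by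
    intro hd
    have h2' : 2 ≤ (M * q).factorization q := by
      rw [Nat.factorization_mul hM0 hq.ne_zero, Finsupp.add_apply, hq.factorization,
        Finsupp.single_eq_same]
      have : 1 ≤ M.factorization q :=
        (hq.dvd_iff_one_le_factorization hM0).1 hd
      omega
    rw [← hM'] at h2'
    omega
  have hneat : NeatFor M q := by
    obtain ⟨r, hrp, hr12, hrq, hrd⟩ := hr
    refine ⟨⟨r, hrp, hr12, hrq, ?_⟩, ?_, ?_⟩
    · rw [hM'] at hrd
      rcases (Nat.Prime.dvd_mul hrp).1 hrd with h | h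
      · exact h
      · exact absurd ((Nat.prime_dvd_prime_iff_eq hrp hq).1 h) hrq
    · intro hq2
      have h := h4 hq2
      rw [hM'] at h
      have hcop : Nat.Coprime 4 q := by
        have h2q : Nat.Coprime 2 q := (Nat.coprime_primes Nat.prime_two hq).2 (Ne.symm hq2)
        exact Nat.Coprime.pow_left 2 h2q
      exact hcop.dvd_of_dvd_mul_right h
    · intro hq2
      have h := h9 hq2
      rw [hM'] at h
      subst hq2
      have hcop : Nat.Coprime 9 2 := by norm_num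
      exact hcop.dvd_of_dvd_mul_right h
  exact qNewInertiaAt_congr A hM'.symm
    (hDESC M q p hq hqM hp hpq A hA
      (levelInertia_of_alg3_model3 hALG hMOD A (inertiaFld A) M q hq hqM hA (hUNR q hq A hA)
        hneat))

/-- **Skeleton, part 2.**  The four leaves give the engine on `J₀(N q)` at ALL levels `q ‖ N`:
the level is multiplied by a prime `r ≡ 11 mod 12` and by `s²`, `s = 2` (`q` odd) resp. `s = 3`
(`q = 2`), and the three auxiliary primes are removed by `H442.qNewInertiaAt_of_mul`. -/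
theorem qNewInertia_of_leaves (hALG : Alg3Statement) (hMOD : Model3Statement)
    (hUNR : InertiaFieldStatement) (hDESC : DescPlugStatement) : H36.QNewInertiaStatement := by
  intro N q p _ _ hq hfac hp hpq P hP
  -- the auxiliary prime `r ≡ 11 mod 12`
  obtain ⟨r, hB, hr, hmod⟩ := H442.exists_neat_prime (N * q * 6)
  haveI : NeZero r := ⟨hr.ne_zero⟩
  have hN0 : N ≠ 0 := NeZero.ne N
  have hNpos : 0 < N := Nat.pos_of_ne_zero hN0
  have hrq : r ≠ q := by
    rintro rfl
    have : r ≤ N * r * 6 := by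
      calc r = 1 * r * 1 := by ring
        _ ≤ N * r * 6 := by gcongr <;> omega
    omega
  -- the small auxiliary prime `s`
  obtain ⟨s, hs, hsq, hs4, hs9⟩ : ∃ s : ℕ, s.Prime ∧ s ≠ q ∧ (q ≠ 2 → s = 2) ∧ (q = 2 → s = 3) := by
    by_cases hq2 : q = 2
    · exact ⟨3, Nat.prime_three, by omega, fun h => absurd hq2 h, fun _ => rfl⟩
    · exact ⟨2, Nat.prime_two, fun h => hq2 h.symm, fun _ => rfl, fun h => absurd h hq2⟩
  haveI : NeZero s := ⟨hs.ne_zero⟩
  haveI : NeZero (N * r) := ⟨Nat.mul_ne_zero hN0 hr.ne_zero⟩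
  haveI : NeZero (N * r * s) := ⟨Nat.mul_ne_zero (NeZero.ne (N * r)) hs.ne_zero⟩
  haveI : NeZero (N * r * s * s) := ⟨Nat.mul_ne_zero (NeZero.ne (N * r * s)) hs.ne_zero⟩
  have hfac1 : (N * r).factorization q = 1 :=
    H442.factorization_mul_prime_eq_one hN0 hr hrq hfac
  have hfac2 : (N * r * s).factorization q = 1 :=
    H442.factorization_mul_prime_eq_one (NeZero.ne (N * r)) hs hsq hfac1
  have hfac3 : (N * r * s * s).factorization q = 1 :=
    H442.factorization_mul_prime_eq_one (NeZero.ne (N * r * s)) hs hsq hfac2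
  -- descend three times
  refine H442.qNewInertiaAt_of_mul N q r p hq hr hrq hp P ?_
  refine H442.qNewInertiaAt_of_mul (N * r) q s p hq hs hsq hp P ?_
  refine H442.qNewInertiaAt_of_mul (N * r * s) q s p hq hs hsq hp P ?_
  refine qNewInertiaAt_of_leaves hALG hMOD hUNR hDESC (N * r * s * s) q p hq hfac3
    ⟨r, hr, hmod, hrq, ?_⟩ ?_ ?_ hp hpq P hP
  · exact Dvd.dvd.mul_right (Dvd.dvd.mul_right (Dvd.intro_left N rfl) s) s
  · intro hq2
    have := hs4 hq2
    subst this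
    exact ⟨N * r, by ring⟩
  · intro hq2
    have := hs9 hq2
    subst this
    exact ⟨N * r, by ring⟩

/-- **The engine (N)** of helper36's chain from the four leaves. -/
theorem newPartInertia_of_leaves (hALG : Alg3Statement) (hMOD : Model3Statement)
    (hUNR : InertiaFieldStatement) (hDESC : DescPlugStatement) : H36.NewPartInertiaStatement :=
  H36.newPartInertiaStatement_of_qNew (qNewInertia_of_leaves hALG hMOD hUNR hDESC)

end Fermat.Agent.S36.Eng

end

end
-- ===== PACK-END S36/Eng/Top.lean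

-- ===== PACK-BEGIN S36/H756/Wire.lean
section







/-!
# S36 engine, cell DESC-WIRE (owner helper756)

The engine `H36.KummerQNewInertiaAt N q p P` (helper36, Kummer form over `Q̄`, with the Galois
action of the inertia group `I_P`) follows from a statement over the **inertia field**
`E = Q̄^{I_P}` in which NO Galois action occurs:

`KummerFixedAtC N q p P` : there is `C ≠ 0` such that for all `n` and all
`y ∈ F_E(N q)ˣ` (`F_E(X) = laurentBaseChange E (modularFunctionFieldFull X)`) with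

* `A2.DivisibleDiv E (p ^ n) y`  (locally `y = unit · h ^ (p ^ n)` at every DVR of `F_E / E`),
* `N_α y = c₁ · h₁ ^ (p ^ n)`, `N_β y = c₂ · h₂ ^ (p ^ n)` with `c_i ∈ Eˣ`, `h_i ∈ F_E(N)ˣ`,

we have `y ^ C = c · z ^ (p ^ n)` for some `c ∈ E`, `z ∈ F_E(N q)ˣ`.

* `kummerQNewInertiaAt_of_fixedAtC : KummerFixedAtC N q p P → H36.KummerQNewInertiaAt N q p P`
  (with `k = v_p(C)`).
* `kummerQNewInertiaNeatStatement_of_fixed`, `newPartInertiaStatement_of_fixed` : the same at
  the neat levels, down to helper36's `NewPartInertiaStatement`.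
-/

set_option autoImplicit false
set_option linter.style.haveILetI false
set_option synthInstance.maxHeartbeats 400000
set_option maxHeartbeats 1600000

noncomputable section

namespace Fermat.Agent.S36.H756

open AlgebraicCurve ModularCurve IntermediateField
open Fermat.Agent.A2.T1.H669 (iota)
open Fermat.Agent.S29.H395 (normAlong)

local notation "Q̄" => AlgebraicClosure ℚ

section NormConst

variable {K F F' : Type*} [Field K] [Field F] [Field F'] [Algebra K F] [Algebra K F']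

/-- The norm of a constant is a constant. -/
theorem normAlong_algebraMap_const (ψ : F →ₐ[K] F') (a : K) :
    ∃ d : ℕ, normAlong ψ (algebraMap K F' a) = algebraMap K F (a ^ d) := by
  letI := algebraAlong ψ
  refine ⟨Module.finrank F F', ?_⟩
  have h1 : algebraMap K F' a = algebraMap F F' (algebraMap K F a) := (ψ.commutes a).symm
  show Algebra.norm F (algebraMap K F' a) = _
  rw [h1, Algebra.norm_algebraMap, map_pow]

end NormConst

/-- **The engine over the inertia field** `E = Q̄^{I_P}` (no Galois action). -/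
def KummerFixedAtC (N q p : ℕ) [NeZero N] [NeZero q] (P : ValuationSubring Q̄) : Prop :=
  ∃ C : ℕ, C ≠ 0 ∧ ∀ (n : ℕ)
    (y : laurentBaseChange (fixedField (P.inertiaSubgroupIn ℚ))
      (modularFunctionFieldFull (N * q))), y ≠ 0 →
    Fermat.Agent.A2.DivisibleDiv (fixedField (P.inertiaSubgroupIn ℚ)) (p ^ n) y →
    (∃ (c : fixedField (P.inertiaSubgroupIn ℚ))
      (h : laurentBaseChange (fixedField (P.inertiaSubgroupIn ℚ)) (modularFunctionFieldFull N)),
      c ≠ 0 ∧ h ≠ 0 ∧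
      normAlong (heckeAlphaBar (fixedField (P.inertiaSubgroupIn ℚ)) N q) y
        = algebraMap (fixedField (P.inertiaSubgroupIn ℚ)) _ c * h ^ (p ^ n)) →
    (∃ (c : fixedField (P.inertiaSubgroupIn ℚ))
      (h : laurentBaseChange (fixedField (P.inertiaSubgroupIn ℚ)) (modularFunctionFieldFull N)),
      c ≠ 0 ∧ h ≠ 0 ∧
      normAlong (heckeBetaBar (fixedField (P.inertiaSubgroupIn ℚ)) N q) y
        = algebraMap (fixedField (P.inertiaSubgroupIn ℚ)) _ c * h ^ (p ^ n)) →
    ∃ (c : fixedField (P.inertiaSubgroupIn ℚ))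
      (z : laurentBaseChange (fixedField (P.inertiaSubgroupIn ℚ))
        (modularFunctionFieldFull (N * q))),
      z ≠ 0 ∧ y ^ C = algebraMap (fixedField (P.inertiaSubgroupIn ℚ)) _ c * z ^ (p ^ n)

/-- **DESC-WIRE.**  The engine over the inertia field implies helper36's Kummer form of the
engine. -/
theorem kummerQNewInertiaAt_of_fixedAtC (N q p : ℕ) [NeZero N] [NeZero q] (hp : p.Prime)
    (P : ValuationSubring Q̄) (hE : KummerFixedAtC N q p P) :
    Fermat.Agent.S36.H36.KummerQNewInertiaAt N q p P := by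
  obtain ⟨C, hC, hE⟩ := hE
  refine ⟨C.factorization p, fun n f hf hdiv hα hβ hfix => ?_⟩
  have hm0 : 0 < p ^ n := pow_pos hp.pos n
  -- Step 1: DESC
  obtain ⟨a, ha, b, hb, hfixed⟩ := exists_fixed_rep (P.inertiaSubgroupIn ℚ) (p ^ n) f hf
    (fun τ hτ => by
      obtain ⟨y, hy, e⟩ := hfix τ hτ
      exact ⟨1, one_ne_zero, y, hy, by rw [map_one, one_mul]; exact e⟩)
  have haK : algebraMap Q̄ (modularFunctionFieldBar (N * q)) a ≠ 0 := by simpa using ha
  have hbm : b ^ (p ^ n) ≠ 0 := pow_ne_zero _ hb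
  obtain ⟨y₀, hy₀⟩ := exists_iota_eq_of_fixed (P.inertiaSubgroupIn ℚ) _ hfixed
  have hy₀0 : y₀ ≠ 0 := by
    rintro rfl
    rw [map_zero] at hy₀
    exact mul_ne_zero (mul_ne_zero haK hbm) hf hy₀.symm
  -- Step 2: divisibility
  have hDD : Fermat.Agent.A2.DivisibleDiv (fixedField (P.inertiaSubgroupIn ℚ)) (p ^ n) y₀ := by
    refine Fermat.Agent.A2.T1.H669.divisibleDiv_of_ord (fixedField (P.inertiaSubgroupIn ℚ))
      (modularFunctionFieldFull (N * q)) (p ^ n) y₀ hy₀0 fun v => ?_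
    rw [hy₀, v.ord_mul (mul_ne_zero haK hbm) hf, v.ord_mul haK hbm, ord_const_eq_zero,
      zero_add, ord_npow]
    exact dvd_add (dvd_mul_right _ _) (hdiv v)
  -- Step 3: the norms
  have hfinα := Fermat.Agent.S29.H812.finiteAlong_heckeAlphaBar N q
  have hfinβ := Fermat.Agent.S29.H812.finiteAlong_heckeBetaBar N q
  have hNα : ∃ (c : fixedField (P.inertiaSubgroupIn ℚ))
      (h : laurentBaseChange (fixedField (P.inertiaSubgroupIn ℚ)) (modularFunctionFieldFull N)),
      c ≠ 0 ∧ h ≠ 0 ∧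
      normAlong (heckeAlphaBar (fixedField (P.inertiaSubgroupIn ℚ)) N q) y₀
        = algebraMap (fixedField (P.inertiaSubgroupIn ℚ)) _ c * h ^ (p ^ n) := by
    obtain ⟨h, hh, e⟩ := hα
    obtain ⟨d, hd⟩ := normAlong_algebraMap_const (heckeAlphaBar Q̄ N q) a
    refine descend_const_mul_pow (P.inertiaSubgroupIn ℚ) hm0 _ (a ^ d)
      (normAlong (heckeAlphaBar Q̄ N q) b * h) (pow_ne_zero d ha)
      (mul_ne_zero (Fermat.Agent.S29.H395.normAlong_ne_zero _ hfinα hb) hh) ?_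
    rw [Fermat.Agent.S35.H858.iota_normAlong_alpha (fixedField (P.inertiaSubgroupIn ℚ)) N q
        hfinα y₀, hy₀,
      Fermat.Agent.S29.H395.normAlong_mul, Fermat.Agent.S29.H395.normAlong_mul,
      Fermat.Agent.S29.H395.normAlong_pow, hd, e, mul_pow, mul_assoc]
  have hNβ : ∃ (c : fixedField (P.inertiaSubgroupIn ℚ))
      (h : laurentBaseChange (fixedField (P.inertiaSubgroupIn ℚ)) (modularFunctionFieldFull N)),
      c ≠ 0 ∧ h ≠ 0 ∧
      normAlong (heckeBetaBar (fixedField (P.inertiaSubgroupIn ℚ)) N q) y₀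
        = algebraMap (fixedField (P.inertiaSubgroupIn ℚ)) _ c * h ^ (p ^ n) := by
    obtain ⟨h, hh, e⟩ := hβ
    obtain ⟨d, hd⟩ := normAlong_algebraMap_const (heckeBetaBar Q̄ N q) a
    refine descend_const_mul_pow (P.inertiaSubgroupIn ℚ) hm0 _ (a ^ d)
      (normAlong (heckeBetaBar Q̄ N q) b * h) (pow_ne_zero d ha)
      (mul_ne_zero (Fermat.Agent.S29.H395.normAlong_ne_zero _ hfinβ hb) hh) ?_
    rw [Fermat.Agent.S35.H858.iota_normAlong_beta (fixedField (P.inertiaSubgroupIn ℚ)) N q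
        hfinβ y₀, hy₀,
      Fermat.Agent.S29.H395.normAlong_mul, Fermat.Agent.S29.H395.normAlong_mul,
      Fermat.Agent.S29.H395.normAlong_pow, hd, e, mul_pow, mul_assoc]
  -- Step 4: the engine over `E`
  obtain ⟨c, z, hz, e⟩ := hE n y₀ hy₀0 hDD hNα hNβ
  have e' : (algebraMap Q̄ (modularFunctionFieldBar (N * q)) a * b ^ (p ^ n) * f) ^ C
      = algebraMap Q̄ (modularFunctionFieldBar (N * q)) (c : Q̄)
        * (iota (fixedField (P.inertiaSubgroupIn ℚ)) (modularFunctionFieldFull (N * q)) z)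
          ^ (p ^ n) := by
    rw [← hy₀, ← map_pow, e, map_mul, map_pow, iota_algebraMap_E]
  -- Step 5: back to `f`
  obtain ⟨c'', hc''⟩ := IsAlgClosed.exists_pow_nat_eq ((c : Q̄) / a ^ C) hm0
  have hfC : f ^ C = (algebraMap Q̄ (modularFunctionFieldBar (N * q)) c''
      * iota (fixedField (P.inertiaSubgroupIn ℚ)) (modularFunctionFieldFull (N * q)) z
      * (b ^ C)⁻¹) ^ (p ^ n) := by
    have haC : algebraMap Q̄ (modularFunctionFieldBar (N * q)) a ^ C ≠ 0 := pow_ne_zero C haK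
    have hbC : b ^ C ≠ 0 := pow_ne_zero C hb
    have h1 : algebraMap Q̄ (modularFunctionFieldBar (N * q)) c'' ^ (p ^ n)
        = algebraMap Q̄ (modularFunctionFieldBar (N * q)) (c : Q̄)
          * (algebraMap Q̄ (modularFunctionFieldBar (N * q)) a ^ C)⁻¹ := by
      rw [← map_pow, hc'', map_div₀, map_pow, div_eq_mul_inv]
    have h2 : f ^ C = (algebraMap Q̄ (modularFunctionFieldBar (N * q)) a ^ C)⁻¹
        * ((b ^ C) ^ (p ^ n))⁻¹
        * (algebraMap Q̄ (modularFunctionFieldBar (N * q)) a * b ^ (p ^ n) * f) ^ C := by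
      rw [mul_pow, mul_pow, ← pow_mul b (p ^ n) C, ← pow_mul b C (p ^ n), mul_comm (p ^ n) C]
      have : b ^ (C * p ^ n) ≠ 0 := pow_ne_zero _ hb
      field_simp
    rw [h2, e', mul_pow, mul_pow, h1, inv_pow]
    ring
  exact pow_primePow_of_pow hp hC n hf hfC

/-- The engine over the inertia field, at the neat levels of helper442 / helper36. -/
def KummerFixedNeatStatement : Prop :=
  ∀ (N q r p : ℕ) [NeZero N] [NeZero q] [NeZero r], q.Prime → N.factorization q = 1 →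
    r.Prime → r % 12 = 11 → ¬ r ∣ N * q * p → N * q * p < r → p.Prime → p ≠ q →
    ∀ P : ValuationSubring Q̄, P.LiesOverPrime q →
      (N * r).factorization q = 1 → KummerFixedAtC (N * r) q p P

theorem kummerQNewInertiaNeatStatement_of_fixed (h : KummerFixedNeatStatement) :
    Fermat.Agent.S36.H36.KummerQNewInertiaNeatStatement := by
  intro N q r p _ _ _ hq hfac hr hmod hndvd hB hp hpq P hP hfac'
  haveI : NeZero (N * r) := ⟨Nat.mul_ne_zero (NeZero.ne N) (NeZero.ne r)⟩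
  exact kummerQNewInertiaAt_of_fixedAtC (N * r) q p hp P
    (h N q r p hq hfac hr hmod hndvd hB hp hpq P hP hfac')

/-- **Frozen-chain entry point**: helper36's `NewPartInertiaStatement` from the engine over the
inertia field at neat levels. -/
theorem newPartInertiaStatement_of_fixed (h : KummerFixedNeatStatement) :
    Fermat.Agent.S36.H36.NewPartInertiaStatement :=
  Fermat.Agent.S36.H36.newPartInertiaStatement_of_kummerNeat
    (kummerQNewInertiaNeatStatement_of_fixed h)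

end Fermat.Agent.S36.H756

end
end
-- ===== PACK-END S36/H756/Wire.lean

-- ===== PACK-BEGIN S36/H756/DescPlugCore.lean
section




/-!
# S36 ENGINE, leaf DESC-PLUG, core (helper756) — no dependency on `S36/Eng`

`qNewInertiaAt_of_levelEngine` is `Fermat.Agent.S36.Eng.DescPlugStatement` (architect helper996,
`S36/Eng/Top.lean`, Spec v1.2) with `Eng.LevelInertiaAt` and `Eng.inertiaFld` UNFOLDED:

the level engine over the inertia field `E = ℚ̄^{I_A}`
(`∃ C > 0, ∀ m > 0, q ∤ m, ∀ y ∈ F_E(M q²)ˣ, m ∣ div y, N_α y, N_β y ∈ E·(F_E(M q))^m →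
 y ^ C ∈ E·(F_E(M q²)ˣ)^m`)
gives helper442's pointwise engine `H442.QNewInertiaAt (M q) q p A` on `J₀(M q²)`.

Wrapper (one line, once `S36/Eng/Top.lean` is on main):
`descPlug : Eng.DescPlugStatement := fun M q p _ _ _ hq _ hp hpq A _ h =>
   H756.qNewInertiaAt_of_levelEngine M q p hq hp hpq A h`.

Proof: the hypothesis at `m = p ^ n` (`q ∤ p ^ n` as `p ≠ q`) is `H756.KummerFixedAtC (M q) q p A`;
`H756.kummerQNewInertiaAt_of_fixedAtC` (DESC + wiring) gives helper36's Kummer form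
`H36.KummerQNewInertiaAt`, and `H36.qNewInertiaAt_of_kummerAt` the point form.
-/

set_option autoImplicit false
set_option linter.style.haveILetI false
set_option linter.unusedSectionVars false
set_option synthInstance.maxHeartbeats 400000
set_option maxHeartbeats 1600000

noncomputable section

namespace Fermat.Agent.S36.H756

open ModularCurve AlgebraicCurve

/-- **The level engine over the inertia field** of `A`, levels `M q` and `M q q`
(= `Eng.LevelInertiaAt (Eng.inertiaFld A) M q`, unfolded). -/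
def LevelEngineAt (M q : ℕ) [NeZero M] [NeZero q] [NeZero (M * q)]
    (A : ValuationSubring Fermat.Agent.A2.Qb) : Prop :=
  ∃ C : ℕ, 0 < C ∧ ∀ m : ℕ, 0 < m → ¬ q ∣ m →
    ∀ y : Fermat.Agent.A2.Mod.FE (IntermediateField.fixedField (A.inertiaSubgroupIn ℚ))
        (M * q * q), y ≠ 0 →
      Fermat.Agent.A2.DivisibleDiv (IntermediateField.fixedField (A.inertiaSubgroupIn ℚ)) m y →
      Fermat.Agent.S35.G.NormPow
        (Fermat.Agent.A2.Mod.αE (IntermediateField.fixedField (A.inertiaSubgroupIn ℚ))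
          (M * q) q) m y →
      Fermat.Agent.S35.G.NormPow
        (Fermat.Agent.A2.Mod.βE (IntermediateField.fixedField (A.inertiaSubgroupIn ℚ))
          (M * q) q) m y →
      ∃ (c : IntermediateField.fixedField (A.inertiaSubgroupIn ℚ))
        (h : Fermat.Agent.A2.Mod.FE (IntermediateField.fixedField (A.inertiaSubgroupIn ℚ))
          (M * q * q)), h ≠ 0 ∧
        y ^ C = algebraMap (IntermediateField.fixedField (A.inertiaSubgroupIn ℚ))
          (Fermat.Agent.A2.Mod.FE (IntermediateField.fixedField (A.inertiaSubgroupIn ℚ))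
            (M * q * q)) c * h ^ m

/-- The level engine over the inertia field, at `p`-power exponents, is `KummerFixedAtC`. -/
theorem kummerFixedAtC_of_levelEngine (M q p : ℕ) [NeZero M] [NeZero q] [NeZero (M * q)]
    (hq : q.Prime) (hp : p.Prime) (hpq : p ≠ q) (A : ValuationSubring Fermat.Agent.A2.Qb)
    (h : LevelEngineAt M q A) : KummerFixedAtC (M * q) q p A := by
  obtain ⟨C, hC, hE⟩ := h
  refine ⟨C, hC.ne', fun n y hy hdiv hα hβ => ?_⟩
  have hm : 0 < p ^ n := pow_pos hp.pos n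
  have hqm : ¬ q ∣ p ^ n := fun hd =>
    hpq ((Nat.prime_dvd_prime_iff_eq hq hp).1 (hq.dvd_of_dvd_pow hd)).symm
  obtain ⟨c₁, h₁, -, -, e₁⟩ := hα
  obtain ⟨c₂, h₂, -, -, e₂⟩ := hβ
  exact hE (p ^ n) hm hqm y hy hdiv ⟨c₁, h₁, e₁⟩ ⟨c₂, h₂, e₂⟩

/-- **DESC-PLUG, core** (= `Eng.DescPlugStatement` with the `Eng` definitions unfolded). -/
theorem qNewInertiaAt_of_levelEngine (M q p : ℕ) [NeZero M] [NeZero q] [NeZero (M * q)]
    (hq : q.Prime) (hp : p.Prime) (hpq : p ≠ q) (A : ValuationSubring Fermat.Agent.A2.Qb)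
    (h : LevelEngineAt M q A) : Fermat.Agent.S36.H442.QNewInertiaAt (M * q) q p A :=
  Fermat.Agent.S36.H36.qNewInertiaAt_of_kummerAt (M * q) q p hp A
    (kummerQNewInertiaAt_of_fixedAtC (M * q) q p hp A
      (kummerFixedAtC_of_levelEngine M q p hq hp hpq A h))

/-- The same with `p ^ k`-kernel form of helper160 (`H160.KernelAt`, unfolded): for `x` of
`p`-power order on `J₀(M q²)`, `α_* x = β_* x = 0` and `x` fixed by `I_A` imply `p ^ k • x = 0`. -/
theorem kernelAt_of_levelEngine (M q p : ℕ) [NeZero M] [NeZero q] [NeZero (M * q)]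
    (hq : q.Prime) (hp : p.Prime) (hpq : p ≠ q) (A : ValuationSubring Fermat.Agent.A2.Qb)
    (h : LevelEngineAt M q A) :
    ∃ k : ℕ, ∀ x : JZero (M * q * q), (∃ n : ℕ, p ^ n • x = 0) →
      Fermat.Agent.S35.H155.IsQNew (M * q) q x →
      (∀ τ ∈ A.inertiaSubgroupIn ℚ, τ • x = x) → p ^ k • x = 0 :=
  qNewInertiaAt_of_levelEngine M q p hq hp hpq A h

end Fermat.Agent.S36.H756

end

end
-- ===== PACK-END S36/H756/DescPlugCore.lean

-- ===== PACK-BEGIN S36/Eng/Two.lean
section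




/-!
# S36 ENGINE — skeleton, part 3 (architect helper996): TWO leaves left

The leaves `InertiaFieldStatement` (UNR: helper189, `Eng/H189/Unr.lean`) and `DescPlugStatement`
(helper756, `H756/DescPlugCore.lean`) are theorems.  Hence

  `newPartInertia_of_alg3_model3 : Alg3Statement → Model3Statement → H36.NewPartInertiaStatement`,

i.e. the engine (N) of helper36's chain follows from ALG3 (abstract) and MOD3 (modular).
-/

set_option autoImplicit false
set_option linter.style.haveILetI false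

noncomputable section

namespace Fermat.Agent.S36.Eng

/-- **UNR** (helper189). -/
theorem inertiaFieldStatement : InertiaFieldStatement :=
  fun q hq P hP => H189.unramified_inertiaField q hq P hP

/-- **DESC plug** (helper756 + helper36). -/
theorem descPlugStatement : DescPlugStatement :=
  fun M q p _ _ _ hq _ hp hpq A _ h =>
    Fermat.Agent.S36.H756.qNewInertiaAt_of_levelEngine M q p hq hp hpq A h

/-- **The engine on `J₀(N q)`, `q ‖ N`, from ALG3 and MOD3.** -/
theorem qNewInertia_of_alg3_model3 (hALG : Alg3Statement) (hMOD : Model3Statement) :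
    H36.QNewInertiaStatement :=
  qNewInertia_of_leaves hALG hMOD inertiaFieldStatement descPlugStatement

/-- **The engine (N) of helper36's chain from ALG3 and MOD3.** -/
theorem newPartInertia_of_alg3_model3 (hALG : Alg3Statement) (hMOD : Model3Statement) :
    H36.NewPartInertiaStatement :=
  newPartInertia_of_leaves hALG hMOD inertiaFieldStatement descPlugStatement

end Fermat.Agent.S36.Eng

end

end
-- ===== PACK-END S36/Eng/Two.lean

-- ===== PACK-BEGIN S59/H155/RFD.lean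
section
/-
S59, cell NM, leaf RFD (helper155): the residual Hecke character of a Hecke–Galois datum with
residual representation `ρ̄` is the Frobenius character of `ρ̄`.

`resFrobOfDatum : Arch.ResFrobOfDatumStatement` (verbatim, `Arch/SpecNM.lean`).

Proof: `H.charpoly_frob` reduced modulo `𝔪_T`, transported along the equivalence with
`ρ̄ ⊗ k_T`, and injectivity of the field homomorphism `k_𝒪 → k_T`.
-/


set_option autoImplicit false
set_option linter.style.haveILetI false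

namespace Fermat.Agent.S59.H155

open Polynomial IsLocalRing

/-- Characteristic polynomial of the residual representation. -/
theorem charpoly_residual155 {A : Type} [CommRing A] [IsLocalRing A] (ρ : GaloisRepAdic A)
    (σ : AlgebraicClosure ℚ ≃ₐ[ℚ] AlgebraicClosure ℚ) :
    LinearMap.charpoly (ρ.residual.ρ σ) = (LinearMap.charpoly (ρ.ρ σ)).map (residue A) :=
  LinearMap.charpoly_baseChange (ρ.ρ σ) (ResidueField A)

/-- Characteristic polynomial of a base change of a residual representation. -/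
theorem charpoly_resBaseChangeAlong155 {k k' : Type} [Field k] [Field k'] (ι : k →+* k')
    (ρbar : ResidualGaloisRep k) (σ : AlgebraicClosure ℚ ≃ₐ[ℚ] AlgebraicClosure ℚ) :
    LinearMap.charpoly ((ρbar.baseChangeAlong ι).ρ σ) = (LinearMap.charpoly (ρbar.ρ σ)).map ι := by
  letI : Algebra k k' := ι.toAlgebra
  exact LinearMap.charpoly_baseChange (ρbar.ρ σ) k'

/-- Equivalent residual representations have the same characteristic polynomials. -/
theorem charpoly_eq_of_resIsEquiv155 {k : Type} [Field k] {ρ₁ ρ₂ : ResidualGaloisRep k}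
    (h : ρ₁.IsEquiv ρ₂) (σ : AlgebraicClosure ℚ ≃ₐ[ℚ] AlgebraicClosure ℚ) :
    LinearMap.charpoly (ρ₁.ρ σ) = LinearMap.charpoly (ρ₂.ρ σ) := by
  obtain ⟨E⟩ := h
  rw [← LinearEquiv.charpoly_conj E.toLinearEquiv (ρ₁.ρ σ)]
  congr 1
  apply LinearMap.ext
  intro w
  rw [LinearEquiv.conj_apply_apply, E.map_apply, LinearEquiv.apply_symm_apply]

/-- **LEAF RFD.** -/
theorem resFrobOfDatum : Arch.ResFrobOfDatumStatement := by
  intro N _ S 𝒪 _ _ _ _ ρbar θ T _ _ _ _ _ _ _ _ H hEq ℓ hℓ hℓN hℓS B hB σ hσ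
  have h1 := H.charpoly_frob ℓ hℓ hℓN hℓS B hB σ hσ
  have h2 := charpoly_eq_of_resIsEquiv155 hEq σ
  rw [charpoly_residual155, charpoly_resBaseChangeAlong155, h1] at h2
  have hinj : Function.Injective
      (Polynomial.map (ResidueField.map (algebraMap 𝒪 T)) :
        (ResidueField 𝒪)[X] → (ResidueField T)[X]) :=
    Polynomial.map_injective _ (RingHom.injective _)
  apply hinj
  rw [← h2]
  simp only [Polynomial.map_sub, Polynomial.map_add, Polynomial.map_mul, Polynomial.map_pow,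
    Polynomial.map_X, Polynomial.map_C, Polynomial.map_natCast, map_natCast]
  rw [H.residue_π]

end Fermat.Agent.S59.H155

end
-- ===== PACK-END S59/H155/RFD.lean

-- ===== PACK-BEGIN S59/TW/H324/CuspMin.lean
section






/-!
# S59 / cell TW, layer 3 (AUT), leaf CUSP-MIN (helper324)

`cuspMin` is the body of `Aut.H959.CuspMinStatement` (helper959, `TW/Aut/H959/SkelM.lean`),
verbatim: the localisation `V₀` of `X_{Γ₀(N₀)}(𝒪)` at the maximal ideal of the minimal package
consists of cuspidal classes.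

Proof: `H155.resFrobOfDatum` (the character `θ` of the package is the Frobenius character of
`ρ̄`), `H950.nePrimeK` (a prime `ℓ ∉ Smin`, `ℓ ≡ 1` mod `N₀`, `θ(T_ℓ) ≠ ℓ + 1`),
`isLocPart_cuspidal'` (the boundary is Eisenstein).

`exists_nePrime` is the non-Eisenstein prime for a package of any type `Σ` and any modulus `m`.
-/

set_option autoImplicit false

open Polynomial IsLocalRing CongruenceSubgroup
open scoped MatrixGroups

namespace Fermat.Agent.S59.TW.H324

open Fermat.Agent.S59.Arch Fermat.Agent.S59.TW.H959 Fermat.Agent.S59.TW.H653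
open Fermat.Agent.S59.TW.Aut
open Fermat.Agent.S29.H642 Fermat.Agent.S41.Spec

/-- **A non-Eisenstein prime of a package.**  For every `m > 0` and every finite set `S'` there
are a prime `ℓ ∉ Σ ∪ S'`, `ℓ ≡ 1` mod `m`, and a lift `c ∈ 𝒪` of `θ(T_ℓ)` with
`c - (ℓ + 1) ∈ 𝒪ˣ`. -/
theorem exists_nePrime (p : ℕ) [Fact p.Prime]
    (𝒪 : Type) [CommRing 𝒪] [IsDomain 𝒪] [IsDiscreteValuationRing 𝒪]
    [IsAdicComplete (maximalIdeal 𝒪) 𝒪] [Finite (ResidueField 𝒪)]
    (ρbar : ResidualGaloisRep (ResidueField 𝒪)) (Smin : Finset ℕ)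
    (h : ResidualHyp p 𝒪 ρbar Smin) (t : PType) (Sig : Finset ℕ) (hsub : Smin ⊆ Sig)
    (hSig : ∀ q ∈ Sig, q.Prime)
    [NeZero (wilesLevel p t Smin Sig)]
    (P : HeckePkg p 𝒪 ρbar t Smin Sig) (m : ℕ) (hm : 0 < m) (S' : Finset ℕ) :
    ∃ (ℓ : ℕ) (hℓ : ℓ.Prime) (hℓN : ¬ ℓ ∣ wilesLevel p t Smin Sig)
      (hℓS : ℓ ∉ (↑Sig : Set ℕ)) (c : 𝒪), ℓ ∉ S' ∧ ℓ ≡ 1 [MOD m] ∧
      residue 𝒪 c = P.θ (CuspForm.heckeAlgebra.T hℓ hℓN hℓS) ∧
      IsUnit (c - ((ℓ : 𝒪) + 1)) := by
  classical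
  have hp : p.Prime := Fact.out
  have : CharP (ResidueField 𝒪) p := by
    rw [CharP.charP_iff_prime_eq_zero hp]
    have : residue 𝒪 (p : 𝒪) = 0 := (residue_eq_zero_iff _).mpr h.hp𝒪
    rwa [map_natCast] at this
  have hRF : G4.ResFrobCond ρbar P.θ :=
    H155.resFrobOfDatum (wilesLevel p t Smin Sig) (↑Sig : Set ℕ) 𝒪 ρbar P.θ P.T P.H P.hres
  have hdvd : ∀ l : ℕ, l.Prime → l ∉ Sig → ¬ l ∣ wilesLevel p t Smin Sig := fun l hl hlS hd =>
    hlS (mem_of_prime_dvd_wilesLevel hp h.hSmin hSig h.hpSmin hsub l hl hd)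
  set a : ℕ → ResidueField 𝒪 := fun l =>
    if hl : l.Prime ∧ l ∉ Sig then
      P.θ (CuspForm.heckeAlgebra.T hl.1 (hdvd l hl.1 hl.2) (by simpa using hl.2))
    else 0 with ha
  have hq2 : (2 : ℕ) ≠ p := fun e => h.hp2 e.symm
  obtain ⟨ℓ, hℓ, hℓS, hℓS', hℓm, -, hne, -⟩ :=
    H950.nePrimeK p h.hp2 (ResidueField 𝒪) ρbar h.habs h.hsplit Sig (hsub h.hpSmin) a
      (fun l hl hlS B hB σ hσ => by
        have := hRF l hl (hdvd l hl hlS) (by simpa using hlS) B hB σ hσ
        rw [this, ha]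
        simp only [dif_pos (show l.Prime ∧ l ∉ Sig from ⟨hl, hlS⟩)])
      2 Nat.prime_two hq2 m hm S'
  obtain ⟨c, hc⟩ := residue_surjective
    (P.θ (CuspForm.heckeAlgebra.T hℓ (hdvd ℓ hℓ hℓS) (by simpa using hℓS)))
  refine ⟨ℓ, hℓ, hdvd ℓ hℓ hℓS, by simpa using hℓS, c, hℓS', hℓm, hc, ?_⟩
  have hal : a ℓ = residue 𝒪 c := by
    rw [ha, hc]
    simp only [dif_pos (show ℓ.Prime ∧ ℓ ∉ Sig from ⟨hℓ, hℓS⟩)]
  rw [← IsLocalRing.notMem_maximalIdeal, ← residue_eq_zero_iff]
  intro h0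
  apply hne
  rw [hal]
  have : residue 𝒪 (c - ((ℓ : 𝒪) + 1)) = residue 𝒪 c - ((ℓ : ResidueField 𝒪) + 1) := by
    rw [map_sub, map_add, map_natCast, map_one]
  rw [this] at h0
  exact sub_eq_zero.mp h0

/-- **CUSP at the minimal level** — verbatim the body of `Aut.H959.CuspMinStatement`. -/
theorem cuspMin :
    ∀ (p : ℕ) [Fact p.Prime]
      (𝒪 : Type) [CommRing 𝒪] [IsDomain 𝒪] [IsDiscreteValuationRing 𝒪]
      [IsAdicComplete (maximalIdeal 𝒪) 𝒪] [Finite (ResidueField 𝒪)] [CharZero 𝒪]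
      (ρbar : ResidualGaloisRep (ResidueField 𝒪)) (Smin : Finset ℕ)
      (_h : ResidualHyp p 𝒪 ρbar Smin) (t : PType)
      (_ht : (t = .flat ∧ (GaloisRepAdic.ofResidualGaloisRep ρbar).IsFlatAt p) ∨
        (t = .sord ∧ (GaloisRepAdic.ofResidualGaloisRep ρbar).IsStrictOrdinaryAt p ∧
          ¬ (GaloisRepAdic.ofResidualGaloisRep ρbar).IsFlatAt p))
      [NeZero (wilesLevel p t Smin Smin)]
      (P₀ : HeckePkg p 𝒪 ρbar t Smin Smin)
      (V₀ : Submodule 𝒪 (Additive (Gamma0 (wilesLevel p t Smin Smin)) →+ 𝒪)),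
      IsMinPart P₀ V₀ → ∀ v ∈ V₀, IsCuspidal v := by
  intro p _ 𝒪 _ _ _ _ _ _ ρbar Smin h t _ _ P₀ V₀ hV₀ v hv
  have hN0 : 0 < wilesLevel p t Smin Smin := Nat.pos_of_ne_zero (NeZero.ne _)
  obtain ⟨ℓ, hℓ, hℓN, hℓS, c, -, hℓm, hc, hu⟩ :=
    exists_nePrime p 𝒪 ρbar Smin h t Smin (le_refl _) h.hSmin P₀ _ hN0 ∅
  have : Fact ℓ.Prime := ⟨hℓ⟩
  have hmem : (ℓ, c) ∈ TsetOf P₀ := ⟨hℓ, hℓN, hℓS, hc⟩
  exact isLocPart_cuspidal' (isMid_Gamma0 _) hV₀ hℓN hℓm hmem hu v hv

end Fermat.Agent.S59.TW.H324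

end
-- ===== PACK-END S59/TW/H324/CuspMin.lean

-- ===== PACK-BEGIN S59/TW/H324/CuspPkg.lean
section



/-!
# S59 / cell TW + row HARD cell HECKE: CUSP for every localisation at a package (helper324)

`isLocPart_cuspidal_of_pkg` : for a Hecke package `P` of ANY type `Σ ⊇ Smin`, ANY level structure
`Γ₁(M) ≤ K ≤ Γ₀(M)` (`M ≠ 0`) and ANY set `Uset`: a localisation `V` of `X_K(𝒪)` at
`(TsetOf P, Uset)` (`Aut.IsLocPart`) consists of cuspidal classes.

Covers `Aut.IsMinPart`, `Aut.IsQPart` (cell TW of S59) and `IA.Hecke.IsIAPart`, `IsIAMinPart`-type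
localisations (row HARD), which all unfold to `IsLocPart hK (TsetOf P) Uset V`.
-/

set_option autoImplicit false

open Polynomial IsLocalRing CongruenceSubgroup
open scoped MatrixGroups

namespace Fermat.Agent.S59.TW.H324

open Fermat.Agent.S59.Arch Fermat.Agent.S59.TW.H959 Fermat.Agent.S59.TW.H653
open Fermat.Agent.S59.TW.Aut

/-- **CUSP for a localisation at a package.** -/
theorem isLocPart_cuspidal_of_pkg (p : ℕ) [Fact p.Prime]
    (𝒪 : Type) [CommRing 𝒪] [IsDomain 𝒪] [IsDiscreteValuationRing 𝒪]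
    [IsAdicComplete (maximalIdeal 𝒪) 𝒪] [Finite (ResidueField 𝒪)] [CharZero 𝒪]
    (ρbar : ResidualGaloisRep (ResidueField 𝒪)) (Smin : Finset ℕ)
    (h : ResidualHyp p 𝒪 ρbar Smin) (t : PType) (Sig : Finset ℕ) (hsub : Smin ⊆ Sig)
    (hSig : ∀ q ∈ Sig, q.Prime)
    [NeZero (wilesLevel p t Smin Sig)]
    (P : HeckePkg p 𝒪 ρbar t Smin Sig)
    {M : ℕ} (hM : M ≠ 0) {K : Subgroup SL(2, ℤ)} (hK : IsMid M K) {Uset : Set (ℕ × 𝒪)}
    {V : Submodule 𝒪 (Additive K →+ 𝒪)} (hV : IsLocPart hK (TsetOf P) Uset V) :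
    ∀ v ∈ V, IsCuspidalK v := by
  have : NeZero M := ⟨hM⟩
  obtain ⟨ℓ, hℓ, hℓN, hℓS, c, -, hℓm, hc, hu⟩ :=
    exists_nePrime p 𝒪 ρbar Smin h t Sig hsub hSig P M (Nat.pos_of_ne_zero hM) ∅
  have : Fact ℓ.Prime := ⟨hℓ⟩
  have hℓM : ¬ ℓ ∣ M := by
    intro hd
    have h1 : ℓ ≡ 0 [MOD ℓ] := (Nat.modEq_zero_iff_dvd).mpr (dvd_refl _)
    have h2 : ℓ ≡ 1 [MOD ℓ] := hℓm.of_dvd hd
    have h3 : (0 : ℕ) ≡ 1 [MOD ℓ] := h1.symm.trans h2
    have h4 : ℓ ∣ 1 := (Nat.modEq_zero_iff_dvd).mp h3.symm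
    exact hℓ.one_lt.ne' (Nat.dvd_one.mp h4)
  have hmem : (ℓ, c) ∈ TsetOf P := ⟨hℓ, hℓN, hℓS, hc⟩
  exact isLocPart_cuspidal' hK hV hℓM hℓm hmem hu

/-- The parabolic form. -/
theorem isLocPart_parabolic_of_pkg (p : ℕ) [Fact p.Prime]
    (𝒪 : Type) [CommRing 𝒪] [IsDomain 𝒪] [IsDiscreteValuationRing 𝒪]
    [IsAdicComplete (maximalIdeal 𝒪) 𝒪] [Finite (ResidueField 𝒪)] [CharZero 𝒪]
    (ρbar : ResidualGaloisRep (ResidueField 𝒪)) (Smin : Finset ℕ)
    (h : ResidualHyp p 𝒪 ρbar Smin) (t : PType) (Sig : Finset ℕ) (hsub : Smin ⊆ Sig)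
    (hSig : ∀ q ∈ Sig, q.Prime)
    [NeZero (wilesLevel p t Smin Sig)]
    (P : HeckePkg p 𝒪 ρbar t Smin Sig)
    {M : ℕ} (hM : M ≠ 0) {K : Subgroup SL(2, ℤ)} (hK : IsMid M K) {Uset : Set (ℕ × 𝒪)}
    {V : Submodule 𝒪 (Additive K →+ 𝒪)} (hV : IsLocPart hK (TsetOf P) Uset V) :
    ∀ v ∈ V, ModularCurve.Period.IsParabolicHom K v :=
  fun v hv => (isLocPart_cuspidal_of_pkg p 𝒪 ρbar Smin h t Sig hsub hSig P hM hK hV v hv).1

end Fermat.Agent.S59.TW.H324

end
-- ===== PACK-END S59/TW/H324/CuspPkg.lean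

-- ===== PACK-BEGIN S59/TW/H564/ParPkg.lean
section




/-!
# S59 / TW, piece PAR of MOD0 / MODQ (helper564): the localisation at a package is parabolic

`P` a Hecke package of type `(Smin, Σ)` (`TW/H959/Iface.lean`), `Γ₁(M) ≤ K ≤ Γ₀(M)`,
`V ⊆ X_K(𝒪) = Hom(K, 𝒪)` a localisation (`Aut.IsLocPart`) at an eigen-system containing
`TsetOf P`.  Then every class in `V` is parabolic (`isParabolic_of_pkg`), in fact cuspidal
(`isCuspidal_of_pkg`).

Glue of: RFD (`H155.resFrobOfDatum`: `θ(T_ℓ) = tr ρ̄(Frob_ℓ)`), the non-Eisenstein prime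
(`H424.nePrimeK_h424`: a prime `ℓ ∉ Σ`, `ℓ ≡ 1` mod `M`, `tr ρ̄(Frob_ℓ) ≠ ℓ + 1`) and CUSP-LOC
(`H324.isLocPart_cuspidal'`).
-/

set_option autoImplicit false
set_option linter.unusedSectionVars false
set_option linter.style.haveILetI false

noncomputable section

namespace Fermat.Agent.S59.TW.H564

open CuspForm IsLocalRing CongruenceSubgroup Polynomial
open Fermat.Agent.S59.Arch Fermat.Agent.S59.TW.H959
open Fermat.Agent.S59.TW.H653 Fermat.Agent.S59.TW.Aut
open scoped MatrixGroups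

variable {p : ℕ} [Fact p.Prime]
  {𝒪 : Type} [CommRing 𝒪] [IsDomain 𝒪] [IsDiscreteValuationRing 𝒪]
  [IsAdicComplete (maximalIdeal 𝒪) 𝒪] [Finite (ResidueField 𝒪)] [CharZero 𝒪]
  {ρbar : ResidualGaloisRep (ResidueField 𝒪)} {Smin : Finset ℕ} {t : PType} {Sig : Finset ℕ}
  [NeZero (wilesLevel p t Smin Sig)]

/-- **The non-Eisenstein prime of a package**: a prime `ℓ ∉ Σ`, `ℓ ∤ N_Σ`, `ℓ ≡ 1` modulo `m`,
with `θ(T_ℓ) ≠ ℓ + 1`. -/
theorem exists_nePrime_of_pkg (hRH : ResidualHyp p 𝒪 ρbar Smin) (hpSig : p ∈ Sig)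
    (P : HeckePkg p 𝒪 ρbar t Smin Sig)
    (hNS : ∀ q : ℕ, q.Prime → q ∣ wilesLevel p t Smin Sig → q ∈ Sig)
    (m : ℕ) (hm : 0 < m) :
    ∃ (ℓ : ℕ) (hℓ : ℓ.Prime) (hℓN : ¬ ℓ ∣ wilesLevel p t Smin Sig)
      (hℓS : ℓ ∉ (↑Sig : Set ℕ)), ℓ ≡ 1 [MOD m] ∧
        P.θ (heckeAlgebra.T hℓ hℓN hℓS) ≠ (ℓ : ResidueField 𝒪) + 1 := by
  classical
  have hp : p.Prime := Fact.out
  haveI : CharP (ResidueField 𝒪) p := by
    rw [CharP.charP_iff_prime_eq_zero hp]
    have : residue 𝒪 (p : 𝒪) = 0 := (residue_eq_zero_iff _).mpr hRH.hp𝒪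
    rwa [map_natCast] at this
  have hθ : G4.ResFrobCond ρbar P.θ :=
    H155.resFrobOfDatum (wilesLevel p t Smin Sig) (↑Sig : Set ℕ) 𝒪 ρbar P.θ P.T P.H P.hres
  -- the Frobenius traces
  let a : ℕ → ResidueField 𝒪 := fun l =>
    if h : l.Prime ∧ ¬ l ∣ wilesLevel p t Smin Sig ∧ l ∉ (↑Sig : Set ℕ) then
      P.θ (heckeAlgebra.T h.1 h.2.1 h.2.2) else 0
  have ha' : ∀ (l : ℕ) (hl : l.Prime) (hlN : ¬ l ∣ wilesLevel p t Smin Sig)
      (hlS : l ∉ (↑Sig : Set ℕ)), a l = P.θ (heckeAlgebra.T hl hlN hlS) := by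
    intro l hl hlN hlS
    exact dif_pos ⟨hl, hlN, hlS⟩
  have hgood : ∀ l : ℕ, l.Prime → l ∉ Sig → ¬ l ∣ wilesLevel p t Smin Sig :=
    fun l hl hlS hd => hlS (hNS l hl hd)
  have h2p : (2 : ℕ) ≠ p := fun h => hRH.hp2 h.symm
  obtain ⟨l, hl, hlS, -, hl1, -, hal, -⟩ :=
    H424.nePrimeK_h424 p hRH.hp2 (ResidueField 𝒪) ρbar hRH.habs hRH.hsplit Sig hpSig a
      (fun l hl hlS B hB σ hσ => by
        have hlS' : l ∉ (↑Sig : Set ℕ) := fun h => hlS (Finset.mem_coe.mp h)
        rw [ha' l hl (hgood l hl hlS) hlS']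
        exact hθ l hl (hgood l hl hlS) hlS' B hB σ hσ)
      2 Nat.prime_two h2p m hm ∅
  have hlS' : l ∉ (↑Sig : Set ℕ) := fun h => hlS (Finset.mem_coe.mp h)
  refine ⟨l, hl, hgood l hl hlS, hlS', hl1, ?_⟩
  rw [← ha' l hl (hgood l hl hlS) hlS']
  exact hal

variable {M : ℕ} [NeZero M] {K : Subgroup SL(2, ℤ)}

/-- **PAR (cuspidal form).**  The localisation of `X_K(𝒪)` at a package consists of cuspidal
classes. -/
theorem isCuspidal_of_pkg (hRH : ResidualHyp p 𝒪 ρbar Smin) (hpSig : p ∈ Sig)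
    (P : HeckePkg p 𝒪 ρbar t Smin Sig)
    (hNS : ∀ q : ℕ, q.Prime → q ∣ wilesLevel p t Smin Sig → q ∈ Sig)
    (hK : IsMid M K) (hMN : M ∣ wilesLevel p t Smin Sig)
    {Uset : Set (ℕ × 𝒪)} {V : Submodule 𝒪 (Additive K →+ 𝒪)}
    (hV : IsLocPart hK (TsetOf P) Uset V) :
    ∀ v ∈ V, IsCuspidalK v := by
  obtain ⟨ℓ, hℓ, hℓN, hℓS, hℓ1, hne⟩ :=
    exists_nePrime_of_pkg hRH hpSig P hNS M (Nat.pos_of_ne_zero (NeZero.ne M))
  haveI : Fact ℓ.Prime := ⟨hℓ⟩
  obtain ⟨c, hc⟩ := residue_surjective (P.θ (heckeAlgebra.T hℓ hℓN hℓS))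
  have hmem : (ℓ, c) ∈ TsetOf P := ⟨hℓ, hℓN, hℓS, hc⟩
  have hunit : IsUnit (c - ((ℓ : 𝒪) + 1)) := by
    rw [← IsLocalRing.notMem_maximalIdeal, ← residue_eq_zero_iff, map_sub, map_add, map_one,
      map_natCast, hc, sub_eq_zero]
    exact hne
  exact H324.isLocPart_cuspidal' hK hV (fun h => hℓN (h.trans hMN)) hℓ1 hmem hunit

/-- **PAR.**  The localisation of `X_K(𝒪)` at a package consists of parabolic classes. -/
theorem isParabolic_of_pkg (hRH : ResidualHyp p 𝒪 ρbar Smin) (hpSig : p ∈ Sig)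
    (P : HeckePkg p 𝒪 ρbar t Smin Sig)
    (hNS : ∀ q : ℕ, q.Prime → q ∣ wilesLevel p t Smin Sig → q ∈ Sig)
    (hK : IsMid M K) (hMN : M ∣ wilesLevel p t Smin Sig)
    {Uset : Set (ℕ × 𝒪)} {V : Submodule 𝒪 (Additive K →+ 𝒪)}
    (hV : IsLocPart hK (TsetOf P) Uset V) :
    ∀ v ∈ V, ModularCurve.Period.IsParabolicHom K v :=
  fun v hv => (isCuspidal_of_pkg hRH hpSig P hNS hK hMN hV v hv).1

end Fermat.Agent.S59.TW.H564

end
end
-- ===== PACK-END S59/TW/H564/ParPkg.lean

-- ===== PACK-BEGIN S19/Top4.lean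
section





/-!
# Cell A3 (S19) — top assembly, v4: frozen S19 from the TWO open leaves

Proved on main and discharged here: ORD, FIN, CONT (`Top2`), LEVEL (`A3.H319.levelStatement`),
UNR (`H679.unrStatementH679`, helper679; backup: UA/UB/UC of helper859), RANK ONE
(`H979.rankOneStatement`).

    S19_of_local  : LocalStatement → frozen S19
    S19_of_abs_gr : H979.AbsLocalStatement → H979.GrStatement → frozen S19

Open leaves: LOCAL-ABS (`H979.AbsLocalStatement` = the abstract local theorem of `A3/H799`) and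
GR (`H979.GrStatement` = the `GoodRed` instance for `X₀(M)` at good levels).
-/

set_option autoImplicit false

namespace Fermat.Agent.S19

/-- **Top assembly v4a**: frozen S19 from LOCAL. -/
theorem S19_of_local (hlocal : LocalStatement)
    (p : ℕ) [NeZero p] (ℓ : ℕ) [Fact ℓ.Prime] (hℓp : ¬ ℓ ∣ p) (k : ℕ) :
    FrozenConclusion p ℓ k :=
  S19_of_three H679.unrStatementH679 hlocal Fermat.Agent.A3.H319.levelStatement p ℓ hℓp k

/-- **Top assembly v4b**: frozen S19 from the two open leaves LOCAL-ABS and GR. -/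
theorem S19_of_abs_gr (habs : H979.AbsLocalStatement) (hgr : H979.GrStatement)
    (p : ℕ) [NeZero p] (ℓ : ℕ) [Fact ℓ.Prime] (hℓp : ¬ ℓ ∣ p) (k : ℕ) :
    FrozenConclusion p ℓ k :=
  S19_of_local (H979.localStatement_of_abs_gr' habs hgr) p ℓ hℓp k

end Fermat.Agent.S19

end
-- ===== PACK-END S19/Top4.lean

-- ===== PACK-BEGIN S19/Top5.lean
section




/-!
# Cell A3 (S19) — top assembly, v5: frozen S19 from GR alone

Proved on main and discharged here: everything of `Top4` and LOCAL-ABS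
(`A3.H255.absLocalStatement`: the abstract local theorem of helper799's team, all leaves closed).

    S19_of_gr        : H979.GrStatement → frozen S19
    S19_of_gr_leaves : (RedLeaf, GenusLeaf, OrthLeaf of `A3/H739/GrAsm.lean`) → frozen S19

The only open block of the cell is GR (good reduction of `X₀(M)` at good levels).
-/

set_option autoImplicit false

namespace Fermat.Agent.S19

/-- **Top assembly v5a**: frozen S19 from GR. -/
theorem S19_of_gr (hgr : H979.GrStatement)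
    (p : ℕ) [NeZero p] (ℓ : ℕ) [Fact ℓ.Prime] (hℓp : ¬ ℓ ∣ p) (k : ℕ) :
    FrozenConclusion p ℓ k :=
  S19_of_abs_gr Fermat.Agent.A3.H255.absLocalStatement hgr p ℓ hℓp k

open Fermat.Agent.A3.H739 in
/-- **Top assembly v5b**: frozen S19 from the three leaves of GR. -/
theorem S19_of_gr_leaves
    (hred : ∀ (N : ℕ) [NeZero N] (ℓ : ℕ) [Fact ℓ.Prime], ¬ ℓ ∣ N → GoodLevel N ℓ →
      ∀ V : ValuationSubring Qb, V.LiesOverPrime ℓ → RedLeaf N V)
    (hgen : ∀ (N : ℕ) [NeZero N] (ℓ : ℕ) [Fact ℓ.Prime], ¬ ℓ ∣ N → GoodLevel N ℓ →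
      ∀ V : ValuationSubring Qb, V.LiesOverPrime ℓ → GenusLeaf N V)
    (horth : ∀ (N : ℕ) [NeZero N] (ℓ : ℕ) [Fact ℓ.Prime] (hℓN : ¬ ℓ ∣ N), GoodLevel N ℓ →
      ∀ (V : ValuationSubring Qb) (hV : V.LiesOverPrime ℓ), OrthLeaf N V (gr_vg N hℓN V hV))
    (p : ℕ) [NeZero p] (ℓ : ℕ) [Fact ℓ.Prime] (hℓp : ¬ ℓ ∣ p) (k : ℕ) :
    FrozenConclusion p ℓ k :=
  S19_of_gr (grStatement_of_leaves_forall hred hgen horth) p ℓ hℓp k

end Fermat.Agent.S19

end
-- ===== PACK-END S19/Top5.lean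

-- ===== PACK-BEGIN S59/TW/H788/GalRGen.lean
section


/-!
# Row S59 / row HARD, leaf GAL-R in GENERAL form  (helper788)

`galR_datum788`: the statement of `H314.GalRStatement` for ANY Hecke–Galois datum
`H : CuspForm.HeckeGaloisRepDatum N S 𝒪 θ T` (any level `N`, any finite set `S ∋ p` containing the
primes of `N`, any coefficient ring `T`), any prime `q` with `p ∣ q - 1` at which the residual
representation of `H.ρ` is unramified, and a newform point `emb : T → O'` given in primitive terms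
(`M`, `g`, `chig`, `iota`, compatibility at the `T_ℓ`).  No package, no `ρ̄`, no Taylor–Wiles set:
the absolute irreducibility is the field `residual_absIrr` of the datum and the determinant is
cyclotomic by `charpoly_frob` (`S59.H540`).

Use: the twin `IAGalRStatement` of row HARD (`Sig = Smin ∪ Piv ∪ Q`) and `H314.GalRStatement`
(`Sig = Smin ∪ Q`) are unpackings of this statement.
-/

set_option autoImplicit false
set_option linter.unusedSectionVars false
set_option linter.unusedVariables false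
set_option linter.style.haveILetI false
set_option maxHeartbeats 1000000
set_option synthInstance.maxHeartbeats 400000

open Polynomial IsLocalRing CongruenceSubgroup

namespace Fermat.Agent.S59.TW.H788

open Fermat.Agent.S59.Arch Fermat.Agent.S59.TW Fermat.Agent.S59.TW.H959

/-- The determinant of a Hecke–Galois datum is cyclotomic. -/
theorem detIsCyclotomic_datum788 (p : ℕ) [Fact p.Prime]
    {𝒪 : Type} [CommRing 𝒪] [IsDomain 𝒪] [IsDiscreteValuationRing 𝒪]
    [IsAdicComplete (maximalIdeal 𝒪) 𝒪] (hp𝒪 : (p : 𝒪) ∈ maximalIdeal 𝒪)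
    {N : ℕ} [NeZero N] {S : Finset ℕ} (hNS : ∀ q : ℕ, q.Prime → q ∣ N → q ∈ S)
    {θ : CuspForm.heckeAlgebra N 2 (↑S : Set ℕ) →+* ResidueField 𝒪}
    {T : Type} [CommRing T] [IsLocalRing T] [IsNoetherianRing T]
    [IsAdicComplete (maximalIdeal T) T] [Algebra 𝒪 T] [IsLocalHom (algebraMap 𝒪 T)]
    [Module.Finite 𝒪 T] [Module.Free 𝒪 T]
    (H : CuspForm.HeckeGaloisRepDatum N (↑S : Set ℕ) 𝒪 θ T) :
    H.ρ.DetIsCyclotomic p := by
  have hpT : (p : T) ∈ maximalIdeal T :=
    natCast_mem_of_isLocalHom788 (algebraMap 𝒪 T) inferInstance p hp𝒪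
  refine Fermat.Agent.S59.H540.detIsCyclotomic_of_frob H.ρ p hpT S ?_
  intro ℓ hℓ hℓS B hB τ hτ
  have hℓN : ¬ ℓ ∣ N := fun hd => hℓS (hNS ℓ hℓ hd)
  have hℓS' : ℓ ∉ (↑S : Set ℕ) := fun hd => hℓS (Finset.mem_coe.mp hd)
  exact Fermat.Agent.S59.H540.det_eq_of_charpoly H.ρ.finrank_eq _ _ _
    (H.charpoly_frob ℓ hℓ hℓN hℓS' B hB τ hτ)

/-- **GAL-R for an arbitrary Hecke–Galois datum.** -/
theorem galR_datum788 (h36 : Fermat.Agent.S58.S36Statement)
    (p : ℕ) [Fact p.Prime] (hp2 : p ≠ 2)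
    (𝒪 : Type) [CommRing 𝒪] [IsDomain 𝒪] [IsDiscreteValuationRing 𝒪]
    [IsAdicComplete (maximalIdeal 𝒪) 𝒪] (hp𝒪 : (p : 𝒪) ∈ maximalIdeal 𝒪)
    (N : ℕ) [NeZero N] (S : Finset ℕ) (hpS : p ∈ S)
    (hNS : ∀ q : ℕ, q.Prime → q ∣ N → q ∈ S)
    (θ : CuspForm.heckeAlgebra N 2 (↑S : Set ℕ) →+* ResidueField 𝒪)
    (T : Type) [CommRing T] [IsLocalRing T] [IsNoetherianRing T]
    [IsAdicComplete (maximalIdeal T) T] [Algebra 𝒪 T] [IsLocalHom (algebraMap 𝒪 T)]
    [Module.Finite 𝒪 T] [Module.Free 𝒪 T]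
    (H : CuspForm.HeckeGaloisRepDatum N (↑S : Set ℕ) 𝒪 θ T)
    (q : ℕ) (hq : q.Prime) (hpq : p ∣ q - 1) (hunr : H.ρ.residual.IsUnramifiedAt q)
    (P : ValuationSubring (AlgebraicClosure ℚ)) (hP : P.LiesOverPrime q)
    (φ : AlgebraicClosure ℚ ≃ₐ[ℚ] AlgebraicClosure ℚ) (hφ : P.IsFrobeniusAt φ q)
    (σ : AlgebraicClosure ℚ ≃ₐ[ℚ] AlgebraicClosure ℚ) (hσ : σ ∈ P.inertiaSubgroupIn ℚ)
    (u : (ZMod q)ˣ) (hu : orderOf u = q - 1) (hcyc : CycloAt q σ (u : ZMod q).val)
    (a₀ w : T) (hw : IsInertiaValue H.ρ φ σ a₀ w)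
    (O' : Type) [CommRing O'] [IsDomain O'] [IsDiscreteValuationRing O']
    [IsAdicComplete (maximalIdeal O') O'] [Finite (ResidueField O')] [CharZero O']
    (emb : T →+* O') (hemb : IsLocalHom emb)
    (M : ℕ) [NeZero M] (g : CuspForm (Gamma0 M) 2) (hg : g.IsNewform)
    (hfact : M.factorization q = 2) (hMS : ∀ q' : ℕ, q'.Prime → q' ∣ M → q' ∈ S)
    (chig : CuspForm.heckeAlgebra M 2 (↑S : Set ℕ) →+* ℂ)
    (hchig : ∀ (ℓ : ℕ) (hℓ : ℓ.Prime) (hℓM : ¬ ℓ ∣ M) (hℓS : ℓ ∉ (↑S : Set ℕ)),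
      chig (CuspForm.heckeAlgebra.T hℓ hℓM hℓS) = ModularFormClass.qCoeff g ℓ)
    (iota : chig.range →+* O')
    (hcompat : ∀ (ℓ : ℕ) (hℓ : ℓ.Prime) (hℓN : ¬ ℓ ∣ N) (hℓM : ¬ ℓ ∣ M)
      (hℓS : ℓ ∉ (↑S : Set ℕ)),
      iota (chig.rangeRestrict (CuspForm.heckeAlgebra.T hℓ hℓM hℓS)) =
        emb (H.π (CuspForm.heckeAlgebra.T hℓ hℓN hℓS))) :
    emb w ≠ 1 := by
  intro hone
  classical
  have hp : p.Prime := Fact.out
  have hdet : H.ρ.DetIsCyclotomic p := detIsCyclotomic_datum788 p hp𝒪 hNS H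
  have hpT : (p : T) ∈ maximalIdeal T := hdet.1
  have hqp : q ≠ p := by
    rintro rfl
    have h1 := Nat.le_of_dvd (by have := hq.two_le; omega) hpq
    have := hq.two_le
    omega
  have hgood : ∀ ℓ : ℕ, ℓ.Prime → ℓ ∉ S →
      ¬ ℓ ∣ N ∧ ¬ ℓ ∣ M ∧ ℓ ∉ (↑S : Set ℕ) ∧ ℓ ≠ p := by
    intro ℓ hℓ hℓS
    exact ⟨fun hd => hℓS (hNS ℓ hℓ hd), fun hd => hℓS (hMS ℓ hℓ hd),
      fun hd => hℓS (Finset.mem_coe.mp hd), fun e => hℓS (e ▸ hpS)⟩
  have hpO' : (p : O') ∈ maximalIdeal O' := natCast_mem_of_isLocalHom788 emb hemb p hpT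
  -- the frozen S36
  obtain ⟨O'', j1, j2, j3, j4, j5, j6, j7, j8, j9, hinj, ρ'', hρ'', hnu⟩ :=
    h36 hg p S O' hpO' hp2 chig hchig iota hpS hMS (by
      intro O₃ _ _ _ _ _ _ _ _ _ _ ρ hρ
      have hloc₃ : IsLocalHom ((algebraMap O' O₃).comp emb) :=
        haveI := hemb
        RingHom.isLocalHom_comp _ _
      haveI := hloc₃
      have hpO₃ : (p : O₃) ∈ maximalIdeal O₃ :=
        natCast_mem_of_isLocalHom788 _ hloc₃ p hpT
      have hfrob : ∀ ℓ : ℕ, ℓ.Prime → ℓ ∉ S →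
          ∀ B : ValuationSubring (AlgebraicClosure ℚ), B.LiesOverPrime ℓ →
            ∀ τ : AlgebraicClosure ℚ ≃ₐ[ℚ] AlgebraicClosure ℚ, B.IsFrobeniusAt τ ℓ →
              LinearMap.charpoly (ρ.ρ τ) =
                (LinearMap.charpoly (H.ρ.ρ τ)).map ((algebraMap O' O₃).comp emb) := by
        intro ℓ hℓ hℓS B hB τ hτ
        obtain ⟨hℓN, hℓM, hℓS', hℓp⟩ := hgood ℓ hℓ hℓS
        rw [hρ ℓ hℓ hℓp hℓM hℓS' B hB τ hτ, H.charpoly_frob ℓ hℓ hℓN hℓS' B hB τ hτ,
          RingHom.comp_apply, hcompat ℓ hℓ hℓN hℓM hℓS']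
        simp only [Polynomial.map_add, Polynomial.map_sub, Polynomial.map_mul,
          Polynomial.map_pow, Polynomial.map_X, Polynomial.map_C, map_natCast,
          Polynomial.map_natCast, RingHom.comp_apply]
      refine ⟨?_, ?_⟩
      · refine Fermat.Agent.S58.H273.residual_absIrr_of_frob H.ρ.residual H.residual_absIrr
          (ResidueField.map ((algebraMap O' O₃).comp emb)) ρ S ?_
        intro ℓ hℓ hℓS B hB τ hτ
        rw [hfrob ℓ hℓ hℓS B hB τ hτ, map_residue_map788, ← charpoly_residual788]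
      · intro c hc hc1
        have hcyc₃ : ρ.DetIsCyclotomic p :=
          Fermat.Agent.S59.H540.detIsCyclotomic_of_frob ρ p hpO₃ S (by
              intro ℓ hℓ hℓS B hB τ hτ
              obtain ⟨hℓN, hℓM, hℓS', hℓp⟩ := hgood ℓ hℓ hℓS
              exact Fermat.Agent.S59.H540.det_eq_of_charpoly ρ.finrank_eq _ _ _
                (hρ ℓ hℓ hℓp hℓM hℓS' B hB τ hτ))
        have h1 : LinearMap.det (ρ.ρ c) = -1 :=
          Fermat.Agent.S59.G4.H178.det_involution_eq_neg_one ρ p hp2 hcyc₃ c hc hc1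
        have h2 : LinearMap.det (ρ.residual.ρ c)
            = algebraMap O₃ (ResidueField O₃) (LinearMap.det (ρ.ρ c)) :=
          LinearMap.det_baseChange (ρ.ρ c)
        rw [h2, h1, map_neg, map_one])
  -- the comparison
  have hloc : IsLocalHom ((algebraMap O' O'').comp emb) :=
    haveI := hemb
    RingHom.isLocalHom_comp _ _
  have hψw : ((algebraMap O' O'').comp emb) w = 1 := by
    rw [RingHom.comp_apply, hone, map_one]
  have hunip := isUnipotentOnInertiaAt_baseChangeAlong788 p T hpT H.ρ hdet q hq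
    hpq hunr P hP φ hφ σ hσ u hu hcyc a₀ w hw ((algebraMap O' O'').comp emb) hloc hψw
  have hcheb := Fermat.Agent.S58.H93.chebCharpoly O'' ρ''
    (H.ρ.baseChangeAlong ((algebraMap O' O'').comp emb) hloc) S (by
      intro ℓ hℓ hℓS B hB τ hτ
      obtain ⟨hℓN, hℓM, hℓS', hℓp⟩ := hgood ℓ hℓ hℓS
      rw [hρ'' ℓ hℓ hℓM hℓS' B hB τ hτ, charpoly_baseChangeAlong788,
        H.charpoly_frob ℓ hℓ hℓN hℓS' B hB τ hτ, RingHom.comp_apply,
        hcompat ℓ hℓ hℓN hℓM hℓS']
      simp only [Polynomial.map_add, Polynomial.map_sub, Polynomial.map_mul,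
        Polynomial.map_pow, Polynomial.map_X, Polynomial.map_C, map_natCast,
        Polynomial.map_natCast, RingHom.comp_apply])
  refine hnu q hq hqp hfact ?_
  intro P' hP' τ hτ
  rw [hcheb τ]
  exact hunip P' hP' τ hτ

end Fermat.Agent.S59.TW.H788

end
-- ===== PACK-END S59/TW/H788/GalRGen.lean

-- ===== PACK-BEGIN S59/TW/H324/CuspQ.lean
section



/-!
# S59 / cell TW, layer 3 (AUT), piece CUSP of MODQ (helper324)

`cuspQ` : the localisation `V` of `X_{K_Q}(𝒪)` at the maximal ideal of the package `P_Q` and of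
`U_{q_j} - α_j` (`Aut.IsQPart`) consists of cuspidal classes; `parabolicQ` is the form
`hpar` of `H658.exists_heckeAction_isQPart`.
-/

set_option autoImplicit false

open Polynomial IsLocalRing CongruenceSubgroup
open scoped MatrixGroups

namespace Fermat.Agent.S59.TW.H324

open Fermat.Agent.S59.Arch Fermat.Agent.S59.TW.H959 Fermat.Agent.S59.TW.H653
open Fermat.Agent.S59.TW.Aut
open Fermat.Agent.S29.H642 Fermat.Agent.S41.Spec

/-- **CUSP at the level `Q`.**  For a family `qv` of primes (for instance a Taylor–Wiles set),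
the localisation `V` of `X_{K_Q}(𝒪)` (`Aut.IsQPart`) consists of cuspidal classes. -/
theorem cuspQ (p : ℕ) [Fact p.Prime]
    (𝒪 : Type) [CommRing 𝒪] [IsDomain 𝒪] [IsDiscreteValuationRing 𝒪]
    [IsAdicComplete (maximalIdeal 𝒪) 𝒪] [Finite (ResidueField 𝒪)] [CharZero 𝒪]
    (ρbar : ResidualGaloisRep (ResidueField 𝒪)) (Smin : Finset ℕ)
    (h : ResidualHyp p 𝒪 ρbar Smin) (t : PType)
    [NeZero (wilesLevel p t Smin Smin)]
    {r : ℕ} (qv : Fin r → ℕ) (hq : ∀ j, (qv j).Prime)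
    [NeZero (wilesLevel p t Smin (Smin ∪ Finset.univ.image qv))]
    (PQ : HeckePkg p 𝒪 ρbar t Smin (Smin ∪ Finset.univ.image qv)) (α : Fin r → 𝒪)
    (V : Submodule 𝒪 (XQ p t Smin qv 𝒪)) (hV : IsQPart PQ α V) :
    ∀ v ∈ V, IsCuspidalK v := by
  have hb0 : bLevel (wilesLevel p t Smin Smin) qv ≠ 0 := by
    unfold bLevel
    exact mul_ne_zero (NeZero.ne _) (Finset.prod_ne_zero_iff.mpr fun j _ => (hq j).ne_zero)
  have : NeZero (bLevel (wilesLevel p t Smin Smin) qv) := ⟨hb0⟩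
  have hSig : ∀ q ∈ Smin ∪ Finset.univ.image qv, q.Prime := by
    intro q hqm
    rcases Finset.mem_union.mp hqm with h1 | h1
    · exact h.hSmin q h1
    · obtain ⟨j, -, rfl⟩ := Finset.mem_image.mp h1
      exact hq j
  obtain ⟨ℓ, hℓ, hℓN, hℓS, c, -, hℓm, hc, hu⟩ :=
    exists_nePrime p 𝒪 ρbar Smin h t (Smin ∪ Finset.univ.image qv) Finset.subset_union_left hSig
      PQ (bLevel (wilesLevel p t Smin Smin) qv) (Nat.pos_of_ne_zero hb0) ∅
  have : Fact ℓ.Prime := ⟨hℓ⟩
  have hℓb : ¬ ℓ ∣ bLevel (wilesLevel p t Smin Smin) qv := by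
    intro hd
    have h1 : ℓ ≡ 0 [MOD ℓ] := (Nat.modEq_zero_iff_dvd).mpr (dvd_refl _)
    have h2 : ℓ ≡ 1 [MOD ℓ] := hℓm.of_dvd hd
    have h3 : (0 : ℕ) ≡ 1 [MOD ℓ] := h1.symm.trans h2
    have h4 : ℓ ∣ 1 := (Nat.modEq_zero_iff_dvd).mp h3.symm
    exact hℓ.one_lt.ne' (Nat.dvd_one.mp h4)
  have hmem : (ℓ, c) ∈ TsetOf PQ := ⟨hℓ, hℓN, hℓS, hc⟩
  exact isLocPart_cuspidal' (isMid_KQ p (wilesLevel p t Smin Smin) qv) hV hℓb hℓm hmem hu

/-- The form `hpar` of `H658.exists_heckeAction_isQPart`. -/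
theorem parabolicQ (p : ℕ) [Fact p.Prime]
    (𝒪 : Type) [CommRing 𝒪] [IsDomain 𝒪] [IsDiscreteValuationRing 𝒪]
    [IsAdicComplete (maximalIdeal 𝒪) 𝒪] [Finite (ResidueField 𝒪)] [CharZero 𝒪]
    (ρbar : ResidualGaloisRep (ResidueField 𝒪)) (Smin : Finset ℕ)
    (h : ResidualHyp p 𝒪 ρbar Smin) (t : PType)
    [NeZero (wilesLevel p t Smin Smin)]
    {r : ℕ} (qv : Fin r → ℕ) (hq : ∀ j, (qv j).Prime)
    [NeZero (wilesLevel p t Smin (Smin ∪ Finset.univ.image qv))]
    (PQ : HeckePkg p 𝒪 ρbar t Smin (Smin ∪ Finset.univ.image qv)) (α : Fin r → 𝒪)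
    (V : Submodule 𝒪 (XQ p t Smin qv 𝒪)) (hV : IsQPart PQ α V) :
    ∀ v ∈ V, ModularCurve.Period.IsParabolicHom (KQ p (wilesLevel p t Smin Smin) qv) v :=
  fun v hv => (cuspQ p 𝒪 ρbar Smin h t qv hq PQ α V hV v hv).1

/-- The form `hcusp` of `H709.exists_esAct_TK` / `H658.exists_heckeAction_min` at the minimal
level. -/
theorem parabolicMin (p : ℕ) [Fact p.Prime]
    (𝒪 : Type) [CommRing 𝒪] [IsDomain 𝒪] [IsDiscreteValuationRing 𝒪]
    [IsAdicComplete (maximalIdeal 𝒪) 𝒪] [Finite (ResidueField 𝒪)] [CharZero 𝒪]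
    (ρbar : ResidualGaloisRep (ResidueField 𝒪)) (Smin : Finset ℕ)
    (h : ResidualHyp p 𝒪 ρbar Smin) (t : PType)
    [NeZero (wilesLevel p t Smin Smin)]
    (P₀ : HeckePkg p 𝒪 ρbar t Smin Smin)
    (V₀ : Submodule 𝒪 (Additive (Gamma0 (wilesLevel p t Smin Smin)) →+ 𝒪))
    (hV₀ : IsMinPart P₀ V₀) :
    ∀ v ∈ V₀, ModularCurve.Period.IsParabolicHom (Gamma0 (wilesLevel p t Smin Smin)) v := by
  intro v hv
  have hN0 : 0 < wilesLevel p t Smin Smin := Nat.pos_of_ne_zero (NeZero.ne _)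
  obtain ⟨ℓ, hℓ, hℓN, hℓS, c, -, hℓm, hc, hu⟩ :=
    exists_nePrime p 𝒪 ρbar Smin h t Smin (le_refl _) h.hSmin P₀ _ hN0 ∅
  have : Fact ℓ.Prime := ⟨hℓ⟩
  have hmem : (ℓ, c) ∈ TsetOf P₀ := ⟨hℓ, hℓN, hℓS, hc⟩
  exact (isLocPart_cuspidal' (isMid_Gamma0 _) hV₀ hℓN hℓm hmem hu v hv).1

end Fermat.Agent.S59.TW.H324

end
-- ===== PACK-END S59/TW/H324/CuspQ.lean

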