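import Fermat.Agent.Pack.S43MC.G0E27L2
import Fermat.Agent.Pack.S44C.G0E27L2
import Fermat.Agent.Pack.S44C.G0E25L3
import Fermat.Agent.Pack.S43MC.G0E14L1
import Fermat.Agent.Pack.S44C.G0E30L3
import Fermat.Agent.Pack.S43MC.G0E26L2
import Fermat.Agent.Pack.S44C.G0E26L3
import Fermat.Agent.Pack.S43MC.G0E7L1
import Fermat.Agent.Pack.S43MC.G0E12L3
import Fermat.Agent.Pack.S43MC.G0E21L2
import Fermat.Agent.Pack.S43MC.G0E27L3
import Fermat.Agent.Pack.S43MC.G0E26L0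
import Fermat.Agent.Pack.S43MC.G0E24L3
import Fermat.Agent.Pack.S43MC.G0E26L1
import Fermat.Agent.Pack.S43MC.G0E19L2
import Fermat.Agent.Pack.S43MC.G0E20L3
import Fermat.Agent.Pack.S43MC.G0E27L1
import Fermat.Agent.Pack.Fast891

-- ===== PACK-BEGIN S34/K789/WallFinal.lean
section
/-
Row S34 (helper789): the frozen statement S34 from the WALL A2 ALONE, Tower A discharged.

`result_of_wall`  : frozen S34 (template binders) from
    `hwall : ∀ N q m, q prime → q ∣ N → ¬ q² ∣ N → N ≠ 0 → 0 < m → ¬ q ∣ m → A2.Target N q m`;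
`result_of_parts` : frozen S34 from `A2.AlgSSStatement`, `A2.IFStatement`, `A2.ModSSStatement`.

The two S18 nodes are discharged by `S18.Mod.H216.node_mod` and `S18.H438.node_alg` (same as the
final chain of S30, `S30.H330.S30_of_nodes`).  The final `Fermat/Agent/S34.lean` is ONE application
of `result_of_wall` (or `result_of_parts`).
-/




set_option autoImplicit false
set_option linter.overlappingInstances false

noncomputable section

namespace Fermat.Agent.S34.K789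

/-- **The frozen statement S34 from the wall `A2.Target`.** -/
theorem result_of_wall
    (hwall : ∀ (N q m : ℕ), q.Prime → q ∣ N → ¬ q ^ 2 ∣ N → N ≠ 0 → 0 < m → ¬ q ∣ m →
      Fermat.Agent.A2.Target N q m)
    {𝒪 : Type} [CommRing 𝒪] [IsDomain 𝒪] [IsDiscreteValuationRing 𝒪]
    [IsAdicComplete (IsLocalRing.maximalIdeal 𝒪) 𝒪] [Finite (IsLocalRing.ResidueField 𝒪)]
    [CharZero 𝒪]
    {p : ℕ} (hp : p.Prime) (hp𝒪 : (p : 𝒪) ∈ IsLocalRing.maximalIdeal 𝒪)
    {N : ℕ} [NeZero N] {S : Finset ℕ} (hpS : p ∈ S) (hNS : ∀ q : ℕ, q.Prime → q ∣ N → q ∈ S)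
    {θ : CuspForm.heckeAlgebra N 2 (↑S : Set ℕ) →+* IsLocalRing.ResidueField 𝒪}
    {T : Type} [CommRing T] [IsLocalRing T] [IsNoetherianRing T]
    [IsAdicComplete (IsLocalRing.maximalIdeal T) T] [Algebra 𝒪 T] [IsLocalHom (algebraMap 𝒪 T)]
    [Module.Finite 𝒪 T] [Module.Free 𝒪 T]
    (H : CuspForm.HeckeGaloisRepDatum N (↑S : Set ℕ) 𝒪 θ T)
    (q : ℕ) (hq : q.Prime) (hqp : q ≠ p) (hqN : q ∣ N) (hq2 : ¬ q ^ 2 ∣ N) :
    H.ρ.IsUnipotentOnInertiaAt q :=
  result_of_wall_nodes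
    (fun M _ _ _ hℓM A hA => Fermat.Agent.S18.Mod.H216.node_mod M hℓM A hA)
    (fun M => Fermat.Agent.S18.H438.node_alg M)
    hwall hp hp𝒪 hpS hNS H q hq hqp hqN hq2

/-- **The frozen statement S34 from the three interface statements ALG, IF, MOD of the wall.** -/
theorem result_of_parts
    (hALG : Fermat.Agent.A2.AlgSSStatement)
    (hIF : Fermat.Agent.A2.IFStatement) (hMOD : Fermat.Agent.A2.ModSSStatement)
    {𝒪 : Type} [CommRing 𝒪] [IsDomain 𝒪] [IsDiscreteValuationRing 𝒪]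
    [IsAdicComplete (IsLocalRing.maximalIdeal 𝒪) 𝒪] [Finite (IsLocalRing.ResidueField 𝒪)]
    [CharZero 𝒪]
    {p : ℕ} (hp : p.Prime) (hp𝒪 : (p : 𝒪) ∈ IsLocalRing.maximalIdeal 𝒪)
    {N : ℕ} [NeZero N] {S : Finset ℕ} (hpS : p ∈ S) (hNS : ∀ q : ℕ, q.Prime → q ∣ N → q ∈ S)
    {θ : CuspForm.heckeAlgebra N 2 (↑S : Set ℕ) →+* IsLocalRing.ResidueField 𝒪}
    {T : Type} [CommRing T] [IsLocalRing T] [IsNoetherianRing T]
    [IsAdicComplete (IsLocalRing.maximalIdeal T) T] [Algebra 𝒪 T] [IsLocalHom (algebraMap 𝒪 T)]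
    [Module.Finite 𝒪 T] [Module.Free 𝒪 T]
    (H : CuspForm.HeckeGaloisRepDatum N (↑S : Set ℕ) 𝒪 θ T)
    (q : ℕ) (hq : q.Prime) (hqp : q ≠ p) (hqN : q ∣ N) (hq2 : ¬ q ^ 2 ∣ N) :
    H.ρ.IsUnipotentOnInertiaAt q :=
  result_of_wall
    (fun N q m hq hqN hq2 hN hm hqm =>
      target_of_parts789 hALG hIF hMOD N q m hq hqN hq2 hN hm hqm)
    hp hp𝒪 hpS hNS H q hq hqp hqN hq2

end Fermat.Agent.S34.K789

end
end
-- ===== PACK-END S34/K789/WallFinal.lean

-- ===== PACK-BEGIN S59/H294/ResUnram.lean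
section






/-!
# Row S59, cell LO, leaf ResUnram (helper294)

`resUnram : Fermat.Agent.S59.H934.ResUnramStatement` (VERBATIM, unconditional): if a semistable
`W` with `E[p]` irreducible is residually modular of squarefree level `M`, then `E[p]` is
unramified at every prime `q ∤ p M`.

Inputs on main: `Fermat.Agent.S29.result` (residual representation of an eigenform),
`Fermat.Agent.Lib.Cheb.chebotarev`, `Fermat.Agent.S58.H273.wRes_charpoly_frob`; core
`resUnram_core294` (unipotent normal subgroup of an irreducible plane is trivial).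
-/

set_option autoImplicit false

open scoped WeierstrassCurve.Affine

namespace Fermat.Agent.S59.H294

/-- **ResUnram**, general form: any `p` odd, any level `M ≠ 0` (no squarefreeness, no
semistability needed). -/
theorem resUnram_gen294 (p : ℕ) [Fact p.Prime] (hp2 : p ≠ 2)
    (W : WeierstrassCurve ℤ) (hΔ : W.Δ ≠ 0) (hirr : W.ModRepIsIrreducible p)
    (hcard : Nat.card (Submodule.torsionBy ℤ
      ((W.map (Int.castRingHom ℚ))⁄(AlgebraicClosure ℚ)).Point p) = p ^ 2)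
    (hker : GaloisFactorsThroughFiniteLevel
      (WeierstrassCurve.Affine.Point.galoisRepModuleEnd (K := AlgebraicClosure ℚ) ℚ
        (W.map (Int.castRingHom ℚ)) p))
    (M : ℕ) (hM : M ≠ 0) (hres : W.IsResiduallyModularOfLevel p M)
    (q : ℕ) (hq : q.Prime) (hqp : q ≠ p) (hqM : ¬ q ∣ M) :
    ((W.map (Int.castRingHom ℚ)).residualGaloisRepOf p hcard hker).IsUnramifiedAt q :=
  resUnram_core294 Fermat.Agent.Lib.Cheb.chebotarev p
    ((W.map (Int.castRingHom ℚ)).residualGaloisRepOf p hcard hker)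
    (Fermat.Agent.S58.H273.wRes_isIrreducible W hΔ p hirr) W hΔ
    (fun ℓ hℓ hℓp hgood B hB τ hτ =>
      Fermat.Agent.S58.H273.wRes_charpoly_frob W hΔ p hp2 hirr ℓ hℓ hℓp hgood B hB τ hτ)
    M hM hres (fun _f hf _k _ _ φ => Fermat.Agent.S29.result hf Fact.out φ) q hq hqp hqM

/-- **ResUnram** (leaf of cell LO, VERBATIM). -/
theorem resUnram : Fermat.Agent.S59.H934.ResUnramStatement := by
  intro p _ hp W hΔ _hW hirr hcard hker M hM hres q hq hqp hqM
  have hp2 : p ≠ 2 := by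
    rcases hp with rfl | rfl <;> decide
  exact resUnram_gen294 p hp2 W hΔ hirr hcard hker M hM.ne_zero hres q hq hqp hqM

end Fermat.Agent.S59.H294

end
-- ===== PACK-END S59/H294/ResUnram.lean

-- ===== PACK-BEGIN S59/TW/H81/DictTOcc.lean
section






/-!
# S59 / cell TW, AUT leaf CMP, leaf DICT-T: the eigenvector occurs integrally  (helper81)

* `lift_opB_coeff_eq_zero` : a polynomial in the operators `t_ℓ`, `⟨d⟩` which kills the integral
  parabolic classes of `K` kills the parabolic classes with torsion-free coefficients.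
* `occQ` : the Betti point of a `T_Q`-eigenvector `y ∈ V` fixed by `⟨u⟩_j`: a complete discrete
  valuation ring `𝒪'`, a local homomorphism `emb : T_Q → 𝒪'` with kernel `Ann y`, and values
  `vals` of the operators `t_ℓ` (`= emb (T_ℓ)`), `⟨d⟩` (`= 1` if `d ≡ 1` modulo the `q_i`,
  `i ≠ j`) satisfying the hypothesis `hocc` of helper561's dictionary.
-/

set_option autoImplicit false
set_option linter.style.haveILetI false
set_option linter.unusedSectionVars false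

open Polynomial IsLocalRing CongruenceSubgroup
open scoped MatrixGroups TensorProduct

namespace Fermat.Agent.S59.TW.H81

open Fermat.Agent.S59.Arch Fermat.Agent.S59.TW.H959 Fermat.Agent.S59.TW.H653
open Fermat.Agent.S59.TW.Aut Fermat.Agent.S59.TW.Aut.H673
open Fermat.Agent.S59.TW.H658 Fermat.Agent.S59.TW.H81.D561
open ModularCurve.Period

/-! ## General lemmas -/

/-- Evaluation of a non-commutative polynomial commutes with ring homomorphisms. -/
theorem lift_ringHom_h81 {ι B C F : Type*} [Semiring B] [Semiring C] [Algebra ℤ B]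
    [Algebra ℤ C] [FunLike F B C] [RingHomClass F B C] (φ : F) (gen : ι → B)
    (P : FreeAlgebra ℤ ι) :
    FreeAlgebra.lift ℤ (fun i => φ (gen i)) P = φ (FreeAlgebra.lift ℤ gen P) := by
  induction P using FreeAlgebra.induction with
  | grade0 r =>
    rw [AlgHom.commutes, AlgHom.commutes]
    exact (RingHom.congr_fun (RingHom.ext_int ((φ : B →+* C).comp (algebraMap ℤ B))
      (algebraMap ℤ C)) r).symm
  | grade1 x => rw [FreeAlgebra.lift_ι_apply, FreeAlgebra.lift_ι_apply]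
  | mul a b ha hb => rw [map_mul, map_mul, map_mul, ha, hb]
  | add a b ha hb => rw [map_add, map_add, map_add, ha, hb]

section Coeff

variable {M : ℕ} [NeZero M] {K : Subgroup SL(2, ℤ)} [K.FiniteIndex]
  {A : Type*} [AddCommGroup A] [Module.IsTorsionFree ℤ A]

/-- A polynomial in the `t_ℓ`, `⟨d⟩` which kills the integral parabolic classes kills the
parabolic classes with torsion-free coefficients. -/
theorem lift_opB_coeff_eq_zero (hK : IsMid M K) {N' : ℕ} (hMN : M ∣ N') (u : ℕ → (ZMod M)ˣ)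
    {S : Set ℕ} (P : FreeAlgebra ℤ (OpIdx N' S M))
    (hP : ∀ y : Additive K →+ ℤ, IsParabolicHom K y →
      FreeAlgebra.lift ℤ (opB hK ℤ hMN u) P y = 0)
    (y : Additive K →+ A) (hy : IsParabolicHom K y) :
    FreeAlgebra.lift ℤ (opB hK A hMN u) P y = 0 := by
  haveI := fg_of_finiteIndex K
  refine hom_induction_of_torsionFree (parSet K)
    (fun y => FreeAlgebra.lift ℤ (opB hK A hMN u) P y = 0) ?_ (map_zero _) ?_ y hy
  · intro φ ψ hφ hψ
    rw [map_add, hφ, hψ, add_zero]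
  · intro ψ a hψ
    have h1 := lift_intertwine (opB hK ℤ hMN u) (opB hK A hMN u)
      (compAdd _ (zmultiplesHom A a))
      (fun i m => (opB_comp hK hMN u i (zmultiplesHom A a) m).symm) P ψ
    simp only [compAdd_apply] at h1
    rw [← h1, hP ψ hψ]
    exact AddMonoidHom.comp_zero _

end Coeff

/-! ## The Betti point at the level `Q` -/

section Occ

variable {p : ℕ} [hpF : Fact p.Prime]
  {𝒪 : Type} [CommRing 𝒪] [IsDomain 𝒪] [IsDiscreteValuationRing 𝒪]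
  [IsAdicComplete (maximalIdeal 𝒪) 𝒪] [Finite (ResidueField 𝒪)] [CharZero 𝒪]
  {ρbar : ResidualGaloisRep (ResidueField 𝒪)} {t : PType} {Smin : Finset ℕ}
  [NeZero (wilesLevel p t Smin Smin)]
  {r : ℕ} {qv : Fin r → ℕ}
  [NeZero (wilesLevel p t Smin (Smin ∪ Finset.univ.image qv))]
  (PQ : HeckePkg p 𝒪 ρbar t Smin (Smin ∪ Finset.univ.image qv)) (α : Fin r → 𝒪)
  (V : Submodule 𝒪 (XQ p t Smin qv 𝒪)) (h : ℕ) (a : PQ.T →ₐ[𝒪] Module.End 𝒪 V)

/-- The generators `T_ℓ ⊗ 1`, `1 ⊗ [d]` of `T_Q ⊗ 𝒪[∏ (ℤ/q_j)ˣ]`. -/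
noncomputable def genB
    (hN : ∀ ℓ : ℕ, ℓ.Prime → ℓ ∉ (↑(Smin ∪ Finset.univ.image qv) : Set ℕ) →
      ¬ ℓ ∣ wilesLevel p t Smin (Smin ∪ Finset.univ.image qv)) {N' : ℕ} :
    OpIdx N' (↑(Smin ∪ Finset.univ.image qv) : Set ℕ) (bLevel (wilesLevel p t Smin Smin) qv) →
      PQ.T ⊗[𝒪] MonoidAlgebra 𝒪 (∀ j : Fin r, (ZMod (qv j))ˣ)
  | Sum.inl i =>
    PQ.H.π (CuspForm.heckeAlgebra.T i.2.1 (hN i.1 i.2.1 i.2.2.2) i.2.2.2) ⊗ₜ[𝒪] 1
  | Sum.inr d => 1 ⊗ₜ[𝒪] MonoidAlgebra.of 𝒪 _ (red (wilesLevel p t Smin Smin) qv d)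

theorem genB_inl
    (hN : ∀ ℓ : ℕ, ℓ.Prime → ℓ ∉ (↑(Smin ∪ Finset.univ.image qv) : Set ℕ) →
      ¬ ℓ ∣ wilesLevel p t Smin (Smin ∪ Finset.univ.image qv)) {N' : ℕ}
    (i : GoodPrime N' (↑(Smin ∪ Finset.univ.image qv) : Set ℕ)) :
    genB PQ hN (Sum.inl i : OpIdx N' (↑(Smin ∪ Finset.univ.image qv) : Set ℕ)
      (bLevel (wilesLevel p t Smin Smin) qv)) =
      PQ.H.π (CuspForm.heckeAlgebra.T i.2.1 (hN i.1 i.2.1 i.2.2.2) i.2.2.2) ⊗ₜ[𝒪] 1 := rfl

theorem genB_inr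
    (hN : ∀ ℓ : ℕ, ℓ.Prime → ℓ ∉ (↑(Smin ∪ Finset.univ.image qv) : Set ℕ) →
      ¬ ℓ ∣ wilesLevel p t Smin (Smin ∪ Finset.univ.image qv)) {N' : ℕ}
    (d : (ZMod (bLevel (wilesLevel p t Smin Smin) qv))ˣ) :
    genB PQ hN (Sum.inr d : OpIdx N' (↑(Smin ∪ Finset.univ.image qv) : Set ℕ)
      (bLevel (wilesLevel p t Smin Smin) qv)) =
      1 ⊗ₜ[𝒪] MonoidAlgebra.of 𝒪 _ (red (wilesLevel p t Smin Smin) qv d) := rfl

/-- A primitive root generates `(ℤ/q)ˣ`. -/
theorem exists_pow_eq_of_orderOf_h81 {q : ℕ} (hq : q.Prime) (u : (ZMod q)ˣ)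
    (hu : orderOf u = q - 1) (v : (ZMod q)ˣ) : ∃ n : ℕ, u ^ n = v := by
  haveI : NeZero q := ⟨hq.ne_zero⟩
  haveI : Fact q.Prime := ⟨hq⟩
  have htop : Subgroup.zpowers u = ⊤ := by
    apply Subgroup.eq_top_of_card_eq
    rw [Nat.card_zpowers, hu, Nat.card_eq_fintype_card, ZMod.card_units_eq_totient,
      Nat.totient_prime hq]
  have h1 : v ∈ Subgroup.zpowers u := htop ▸ Subgroup.mem_top v
  have h2 : v ∈ Submonoid.powers u := (mem_powers_iff_mem_zpowers).mpr h1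
  exact (Submonoid.mem_powers_iff v u).mp h2

include hpF in
/-- **DICT-T, front.**  The Betti point of an eigenvector fixed by `⟨u⟩_j`. -/
theorem occQ (hRH : ResidualHyp p 𝒪 ρbar Smin)
    (hinj : Function.Injective qv) (hq : ∀ i, (qv i).Prime ∧ qv i ∉ Smin)
    (hV : IsQPart PQ α V) (ha : IsQAction PQ V h a)
    (j : Fin r) (u : (ZMod (qv j))ˣ) (hu : orderOf u = qv j - 1)
    (y : V) (hy : y ≠ 0)
    (hann : ∀ s s' : PQ.T, a (s * s') y = 0 → a s y = 0 ∨ a s' y = 0)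
    (hfix : diaQ p t Smin qv 𝒪 (Pi.mulSingle j u) (y : XQ p t Smin qv 𝒪) = y) :
    ∃ (O' : Type) (_ : CommRing O') (_ : IsDomain O') (_ : IsDiscreteValuationRing O')
      (_ : IsAdicComplete (maximalIdeal O') O') (_ : Finite (ResidueField O')) (_ : CharZero O')
      (emb : PQ.T →+* O'), IsLocalHom emb ∧ (∀ s : PQ.T, a s y = 0 ↔ emb s = 0) ∧
      ∀ (N' : ℕ) (hMN : bLevel (wilesLevel p t Smin Smin) qv ∣ N'),
        ∃ vals : OpIdx N' (↑(Smin ∪ Finset.univ.image qv) : Set ℕ)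
            (bLevel (wilesLevel p t Smin Smin) qv) → O',
          (∀ (ℓ : ℕ) (hℓ : ℓ.Prime) (hℓN' : ¬ ℓ ∣ N')
            (hℓN : ¬ ℓ ∣ wilesLevel p t Smin (Smin ∪ Finset.univ.image qv))
            (hℓS : ℓ ∉ (↑(Smin ∪ Finset.univ.image qv) : Set ℕ)),
            vals (Sum.inl ⟨ℓ, hℓ, hℓN', hℓS⟩) =
              emb (PQ.H.π (CuspForm.heckeAlgebra.T hℓ hℓN hℓS))) ∧
          (∀ d : (ZMod (bLevel (wilesLevel p t Smin Smin) qv))ˣ,
            (∀ i, i ≠ j → red (wilesLevel p t Smin Smin) qv d i = 1) →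
              vals (Sum.inr d) = 1) ∧
          ∀ P : FreeAlgebra ℤ (OpIdx N' (↑(Smin ∪ Finset.univ.image qv) : Set ℕ)
              (bLevel (wilesLevel p t Smin Smin) qv)),
            (∀ z : Additive (KQ p (wilesLevel p t Smin Smin) qv) →+ ℤ,
              IsParabolicHom (KQ p (wilesLevel p t Smin Smin) qv) z →
              FreeAlgebra.lift ℤ (opB (isMid_KQ p (wilesLevel p t Smin Smin) qv) ℤ hMN
                (fun ℓ => uOf (bLevel (wilesLevel p t Smin Smin) qv) ℓ ^ h)) P z = 0) →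
            FreeAlgebra.lift ℤ vals P = 0 := by
  classical
  have hS := hRH.hSmin
  have hpS := hRH.hpSmin
  have hprime : ∀ i, (qv i).Prime := fun i => (hq i).1
  haveI hM : NeZero (bLevel (wilesLevel p t Smin Smin) qv) :=
    ⟨bLevel_ne_zero p t Smin qv hS hprime⟩
  haveI : (KQ p (wilesLevel p t Smin Smin) qv).FiniteIndex :=
    H564.finiteIndex_of_Gamma1_le (isMid_KQ p (wilesLevel p t Smin Smin) qv).ge
  have hN : ∀ ℓ : ℕ, ℓ.Prime → ℓ ∉ (↑(Smin ∪ Finset.univ.image qv) : Set ℕ) →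
      ¬ ℓ ∣ wilesLevel p t Smin (Smin ∪ Finset.univ.image qv) := fun ℓ hℓ hℓS hd =>
    hℓS (mem_of_dvd_wilesLevel_union p t Smin qv hpS hS hinj hq hℓ hd)
  have hcomm : ∀ (s : PQ.T) (g : ∀ j : Fin r, (ZMod (qv j))ˣ),
      Commute (a s) (diaHom PQ α V hinj hprime hV g) := by
    intro s g
    refine LinearMap.ext fun v => ?_
    rw [Module.End.mul_apply, Module.End.mul_apply, diaHom_apply]
    exact (diaV_comm PQ α V h a hS hpS hprime hV ha g s v).symm
  -- the fixed elements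
  have hfix0 : diaHom PQ α V hinj hprime hV (Pi.mulSingle j u) y = y := by
    apply Subtype.ext
    rw [diaHom_apply, coe_diaV]
    exact hfix
  have hfixall : ∀ g ∈ {g : ∀ j : Fin r, (ZMod (qv j))ˣ | ∀ i, i ≠ j → g i = 1},
      diaHom PQ α V hinj hprime hV g y = y := by
    intro g hg
    obtain ⟨n, hn⟩ := exists_pow_eq_of_orderOf_h81 (hprime j) u hu (g j)
    have h1 : g = Pi.mulSingle j u ^ n := by
      funext i
      by_cases hi : i = j
      · subst hi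
        rw [Pi.pow_apply, Pi.mulSingle_eq_same, hn]
      · rw [Pi.pow_apply, Pi.mulSingle_eq_of_ne hi, one_pow]
        exact hg i hi
    rw [h1, map_pow]
    clear h1 hn
    induction n with
    | zero => rw [pow_zero, Module.End.one_apply]
    | succ n ih => rw [pow_succ, Module.End.mul_apply, hfix0, ih]
  obtain ⟨O', i1, i2, i3, i4, i5, i6, i7, ev, hloc, -, hx, hker, hχ, hrel⟩ :=
    frontT_abs 𝒪 PQ.T (∀ j : Fin r, (ZMod (qv j))ˣ) V (torsionFree_h673 V) a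
      (diaHom PQ α V hinj hprime hV) hcomm y hy hann _ hfixall
  refine ⟨O', i1, i2, i3, i4, i5, i6, (ev.comp
    (Algebra.TensorProduct.includeLeft :
      PQ.T →ₐ[𝒪] PQ.T ⊗[𝒪] MonoidAlgebra 𝒪 (∀ j : Fin r, (ZMod (qv j))ˣ))).toRingHom,
    hx, fun s => (hker s).symm, fun N' hMN => ?_⟩
  refine ⟨fun idx => ev (genB PQ hN idx), fun ℓ hℓ hℓN' hℓN hℓS => rfl, fun d hd => ?_,
    fun P hP => ?_⟩
  · exact hχ _ hd
  · -- the relation
    set Θ := thetaH673 (𝒪 := 𝒪) (T := PQ.T) (G := ∀ j : Fin r, (ZMod (qv j))ˣ) (V := V) a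
      (diaHom PQ α V hinj hprime hV) hcomm with hΘ
    have h1 : FreeAlgebra.lift ℤ (fun idx => ev (genB PQ hN (N' := N') idx)) P =
        ev (FreeAlgebra.lift ℤ (genB PQ hN (N' := N')) P) :=
      lift_ringHom_h81 ev (genB PQ hN (N' := N')) P
    rw [h1]
    apply hrel
    refine LinearMap.ext fun v => ?_
    rw [LinearMap.zero_apply]
    apply Subtype.ext
    have hpar := H324.parabolicQ p 𝒪 ρbar Smin hRH t qv hprime PQ α V hV
    have h2 := lift_opB_coeff_eq_zero (isMid_KQ p (wilesLevel p t Smin Smin) qv) hMN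
      (fun ℓ => uOf (bLevel (wilesLevel p t Smin Smin) qv) ℓ ^ h) P hP
      (v : XQ p t Smin qv 𝒪) (hpar v v.2)
    have hint : ∀ (idx : OpIdx N' (↑(Smin ∪ Finset.univ.image qv) : Set ℕ)
        (bLevel (wilesLevel p t Smin Smin) qv)) (m : V),
        ((Θ (genB PQ hN idx) m : V) : XQ p t Smin qv 𝒪) =
          opB (isMid_KQ p (wilesLevel p t Smin Smin) qv) 𝒪 hMN
            (fun ℓ => uOf (bLevel (wilesLevel p t Smin Smin) qv) ℓ ^ h) idx
            (m : XQ p t Smin qv 𝒪) := by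
      intro idx m
      rcases idx with i | d
      · rw [genB_inl, ← Algebra.TensorProduct.includeLeft_apply (R := 𝒪) (S := 𝒪), hΘ,
          thetaH673_left, ha i.1 i.2.1 (hN i.1 i.2.1 i.2.2.2) i.2.2.2 m]
        rfl
      · rw [genB_inr, hΘ, thetaH673_right, diaHom_apply, coe_diaV]
        unfold diaQ
        rw [opB_inr_apply]
        apply diamondU_eq_of_chi
        apply chi_eq_of_red
        exact red_liftU _ _ ⟨d, rfl⟩
    have h3 := lift_intertwine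
      (fun idx => endToInt 𝒪 V (Θ (genB PQ hN (N' := N') idx)))
      (opB (isMid_KQ p (wilesLevel p t Smin Smin) qv) 𝒪 hMN
        (fun ℓ => uOf (bLevel (wilesLevel p t Smin Smin) qv) ℓ ^ h))
      (V.subtype.toAddMonoidHom) (fun idx m => hint idx m) P v
    have h5 : FreeAlgebra.lift ℤ (fun idx => Θ (genB PQ hN (N' := N') idx)) P =
        Θ (FreeAlgebra.lift ℤ (genB PQ hN (N' := N')) P) :=
      lift_ringHom_h81 Θ (genB PQ hN (N' := N')) P
    rw [lift_endToInt, h5] at h3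
    rw [Submodule.coe_zero, ← h2]
    exact h3

end Occ

end Fermat.Agent.S59.TW.H81

end
-- ===== PACK-END S59/TW/H81/DictTOcc.lean

-- ===== PACK-BEGIN S59/TW/H81/DictT.lean
section





/-!
# S59 / cell TW, AUT leaf CMP, leaf DICT-T  (helper81)

`dictT : H314.DictTStatement` (VERBATIM): an eigenvector `y` of `T_Q` in `V` fixed by the diamond
operator `⟨u⟩_j` is a newform point of a level `M₁` with `q_j² ∤ M₁`.

Chain: `occQ` (the Betti point, `DictTOcc.lean`) → `exists_form_of_occurs` (Eichler–Shimura for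
`K_Q` + twist into `S₂(Γ₀(N''))`, `N'' = M_Q · ∏_{i ≠ j} q_i`, `DictTForm.lean`) →
`exists_newform_of_form` (NEWFORM library) → `H94.chigOf` + `H561.exists_ringHom_of_ker_le`.
-/

set_option autoImplicit false
set_option linter.style.haveILetI false
set_option linter.unusedSectionVars false

open Polynomial IsLocalRing CongruenceSubgroup
open scoped MatrixGroups TensorProduct

namespace Fermat.Agent.S59.TW.H81

open Fermat.Agent.S59.Arch Fermat.Agent.S59.TW.H959 Fermat.Agent.S59.TW.H653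
open Fermat.Agent.S59.TW.Aut Fermat.Agent.S59.TW.Aut.H673
open Fermat.Agent.S59.TW.H658 Fermat.Agent.S59.TW.H81.D561
open ModularCurve.Period

/-! ## Arithmetic of the level `N'' = M_Q · ∏_{i ≠ j} q_i` -/

section Arith

variable {r : ℕ} (qv : Fin r → ℕ) (j : Fin r)

/-- The list of the `q_i`, `i ≠ j`. -/
def qsErase : List ℕ := (List.ofFn qv).erase (qv j)

theorem nodup_qsErase (hinj : Function.Injective qv) : (qsErase qv j).Nodup :=
  (List.nodup_ofFn.mpr hinj).erase _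

theorem mem_qsErase_iff (hinj : Function.Injective qv) {q : ℕ} :
    q ∈ qsErase qv j ↔ ∃ i, i ≠ j ∧ qv i = q := by
  unfold qsErase
  rw [(List.nodup_ofFn.mpr hinj).mem_erase_iff, List.mem_ofFn]
  constructor
  · rintro ⟨hne, i, rfl⟩
    exact ⟨i, fun h => hne (by rw [h]), rfl⟩
  · rintro ⟨i, hi, rfl⟩
    exact ⟨fun h => hi (hinj h), i, rfl⟩

theorem qsErase_prod_mul : qv j * (qsErase qv j).prod = (List.ofFn qv).prod :=
  List.prod_erase (List.mem_ofFn.mpr ⟨j, rfl⟩)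

theorem not_dvd_qsErase_prod (hinj : Function.Injective qv) (hprime : ∀ i, (qv i).Prime) :
    ¬ qv j ∣ (qsErase qv j).prod := by
  intro h
  obtain ⟨a, ha, hd⟩ := (Prime.dvd_prod_iff (hprime j).prime).mp h
  obtain ⟨i, hi, rfl⟩ := (mem_qsErase_iff qv j hinj).mp ha
  exact hi (hinj ((Nat.prime_dvd_prime_iff_eq (hprime j) (hprime i)).mp hd).symm)

end Arith

/-! ## The leaf -/

/-- **DICT-T** (VERBATIM). -/
theorem dictT : H314.DictTStatement := by
  intro p hpF 𝒪 _ _ _ _ _ _ ρbar Smin hRH t _ht _ n r qv hTW _ PQ α _hα V h a hV hh ha j u hu y hy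
    hfix
  classical
  obtain ⟨hinj, hq3, -⟩ := hTW
  have hq : ∀ i, (qv i).Prime ∧ qv i ∉ Smin := fun i => ⟨(hq3 i).1, (hq3 i).2.1⟩
  have hprime : ∀ i, (qv i).Prime := fun i => (hq i).1
  have hS := hRH.hSmin
  have hpS := hRH.hpSmin
  haveI hM : NeZero (bLevel (wilesLevel p t Smin Smin) qv) :=
    ⟨bLevel_ne_zero p t Smin qv hS hprime⟩
  haveI : (KQ p (wilesLevel p t Smin Smin) qv).FiniteIndex :=
    H564.finiteIndex_of_Gamma1_le (isMid_KQ p (wilesLevel p t Smin Smin) qv).ge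
  obtain ⟨O', i1, i2, i3, i4, i5, i6, emb, hloc, hker, hvals⟩ :=
    occQ PQ α V h a hRH hinj hq hV ha j u hu y hy.1 hy.2 hfix
  -- the level
  set M := bLevel (wilesLevel p t Smin Smin) qv with hMdef
  set Qs := qsErase qv j with hQsdef
  have hQs0 : Qs.prod ≠ 0 := by
    intro h0
    have h1 := qsErase_prod_mul qv j
    rw [← hQsdef, h0, mul_zero] at h1
    rw [List.prod_ofFn] at h1
    exact (Finset.prod_ne_zero_iff.mpr fun i _ => (hprime i).ne_zero) h1.symm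
  haveI hN'' : NeZero (M * Qs.prod) := ⟨Nat.mul_ne_zero (NeZero.ne M) hQs0⟩
  have hMN : M ∣ M * Qs.prod := Dvd.intro _ rfl
  -- the primes of the level lie in `Σ_Q`
  have hdvdW : M * Qs.prod ∣ wilesLevel p t Smin (Smin ∪ Finset.univ.image qv) := by
    refine dvd_trans ?_ (bLevel_mul_prod_dvd p t Smin qv hinj fun i => (hq i).2)
    rw [← qsErase_prod_mul qv j]
    exact mul_dvd_mul_left _ (Dvd.intro_left _ rfl)
  have hSig : ∀ q : ℕ, q.Prime → q ∣ M * Qs.prod →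
      q ∈ (↑(Smin ∪ Finset.univ.image qv) : Set ℕ) := fun q hqp hqd =>
    mem_of_dvd_wilesLevel_union p t Smin qv hpS hS hinj hq hqp (hqd.trans hdvdW)
  have hN : ∀ ℓ : ℕ, ℓ.Prime → ℓ ∉ (↑(Smin ∪ Finset.univ.image qv) : Set ℕ) →
      ¬ ℓ ∣ wilesLevel p t Smin (Smin ∪ Finset.univ.image qv) := fun ℓ hℓ hℓS hd =>
    hℓS (mem_of_dvd_wilesLevel_union p t Smin qv hpS hS hinj hq hℓ hd)
  have hN2 : ∀ ℓ : ℕ, ℓ.Prime → ℓ ∉ (↑(Smin ∪ Finset.univ.image qv) : Set ℕ) →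
      ¬ ℓ ∣ M * Qs.prod := fun ℓ hℓ hℓS hd => hℓS (hSig ℓ hℓ hd)
  obtain ⟨vals, hv1, hv2, hocc⟩ := hvals (M * Qs.prod) hMN
  -- the form
  obtain ⟨F, c, hF, hFe, hL⟩ := exists_form_of_occurs
    (isMid_KQ p (wilesLevel p t Smin Smin) qv) Qs (nodup_qsErase qv j hinj)
    (fun q hq' => by
      obtain ⟨i, -, rfl⟩ := (mem_qsErase_iff qv j hinj).mp hq'
      exact ⟨hprime i, exists_bLevel_eq p t Smin qv hpS hS hinj hq i⟩)
    h (fun γ hγ => pow_mem_KQ p _ qv hh hγ) hMN dvd_rfl vals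
    (fun d v hd hv => by
      apply hv2
      intro i hi
      apply Units.ext
      rw [red_apply]
      show ZMod.castHom (dvd_bLevel (wilesLevel p t Smin Smin) qv i) (ZMod (qv i))
        ((v : (ZMod (bLevel (wilesLevel p t Smin Smin) qv))ˣ) :
          ZMod (bLevel (wilesLevel p t Smin Smin) qv)) = 1
      rw [hv, map_intCast]
      have h2 : ((qv i : ℕ) : ℤ) ∣ d - 1 := by
        refine dvd_trans (Int.natCast_dvd_natCast.mpr ?_) hd
        exact List.dvd_prod ((mem_qsErase_iff qv j hinj).mpr ⟨i, hi, rfl⟩)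
      have h3 := (ZMod.intCast_zmod_eq_zero_iff_dvd _ _).mpr h2
      push_cast at h3
      exact sub_eq_zero.mp h3)
    hocc
  -- the newform
  set lam : ℕ → ℂ := fun ℓ =>
    if hℓ : ℓ.Prime ∧ ¬ ℓ ∣ M * Qs.prod ∧ ℓ ∉ (↑(Smin ∪ Finset.univ.image qv) : Set ℕ) then
      c (Sum.inl ⟨ℓ, hℓ⟩) else 0 with hlam
  have hlam_eq : ∀ (ℓ : ℕ) (hℓ : ℓ.Prime) (hℓN : ¬ ℓ ∣ M * Qs.prod)
      (hℓS : ℓ ∉ (↑(Smin ∪ Finset.univ.image qv) : Set ℕ)),
      lam ℓ = c (Sum.inl ⟨ℓ, hℓ, hℓN, hℓS⟩) := fun ℓ hℓ hℓN hℓS => by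
    rw [hlam]
    exact dif_pos ⟨hℓ, hℓN, hℓS⟩
  obtain ⟨M₁, hM₁, g, hg, hM₁N, hgl⟩ := exists_newform_of_form
    (↑(Smin ∪ Finset.univ.image qv) : Set ℕ) F hF lam (fun ℓ hℓ hℓN hℓS => by
      rw [hlam_eq ℓ hℓ hℓN hℓS]
      exact hFe ⟨ℓ, hℓ, hℓN, hℓS⟩)
  have hM₁S : ∀ q : ℕ, q.Prime → q ∣ M₁ → q ∈ (↑(Smin ∪ Finset.univ.image qv) : Set ℕ) :=
    fun q hqp hqd => hSig q hqp (hqd.trans hM₁N)
  -- the ring homomorphism
  obtain ⟨L, hLP⟩ := exists_ringHom_of_ker_le c vals hL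
  have hle : ∀ x ∈ (Fermat.Agent.S58.H94.chigOf hg.1
      (↑(Smin ∪ Finset.univ.image qv) : Set ℕ)).range, x ∈ (FreeAlgebra.lift ℤ c).range := by
    intro x hx
    have h1 := Fermat.Agent.S58.H94.chigOf_range_le hg.1
      (↑(Smin ∪ Finset.univ.image qv) : Set ℕ) (FreeAlgebra.lift ℤ c).range.toSubring
      (fun ℓ hℓ hℓM hℓS => by
        rw [hgl ℓ hℓ (hN2 ℓ hℓ hℓS) hℓS, hlam_eq ℓ hℓ (hN2 ℓ hℓ hℓS) hℓS]
        exact ⟨FreeAlgebra.ι ℤ _, FreeAlgebra.lift_ι_apply _ _⟩) hM₁S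
    exact h1 hx
  let e : (Fermat.Agent.S58.H94.chigOf hg.1
      (↑(Smin ∪ Finset.univ.image qv) : Set ℕ)).range →+* (FreeAlgebra.lift ℤ c).range :=
    { toFun := fun x => ⟨x.1, hle x.1 x.2⟩
      map_one' := rfl
      map_mul' := fun _ _ => rfl
      map_zero' := rfl
      map_add' := fun _ _ => rfl }
  refine ⟨O', i1, i2, i3, i4, i5, i6, emb, hloc, hker, M₁, hM₁, g, hg, ?_, hM₁S,
    Fermat.Agent.S58.H94.chigOf hg.1 (↑(Smin ∪ Finset.univ.image qv) : Set ℕ),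
    L.comp e, ?_, ?_⟩
  · -- `q_j² ∤ M₁`
    intro hsq
    have h1 : qv j ^ 2 ∣ M * Qs.prod := hsq.trans hM₁N
    obtain ⟨M', hM', hcop⟩ := exists_bLevel_eq p t Smin qv hpS hS hinj hq j
    rw [← hMdef] at hM'
    have h2 : qv j * qv j ∣ qv j * (M' * Qs.prod) := by
      have h3 : M * Qs.prod = qv j * (M' * Qs.prod) := by rw [hM']; ring
      rw [← h3, ← pow_two]
      exact h1
    have h4 : qv j ∣ M' * Qs.prod :=
      (Nat.mul_dvd_mul_iff_left (hprime j).pos).mp h2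
    rcases (Nat.Prime.dvd_mul (hprime j)).mp h4 with h5 | h5
    · have h6 : Nat.Coprime (qv j) M' := hcop.symm
      exact (Nat.Prime.coprime_iff_not_dvd (hprime j)).mp h6 h5
    · exact not_dvd_qsErase_prod qv j hinj hprime h5
  · intro ℓ hℓ hℓM hℓS
    exact Fermat.Agent.S58.H94.chigOf_T hg.1 _ hℓ hℓM hℓS
  · intro ℓ hℓ hℓN hℓM hℓS
    have h1 : e ((Fermat.Agent.S58.H94.chigOf hg.1
        (↑(Smin ∪ Finset.univ.image qv) : Set ℕ)).rangeRestrict
        (CuspForm.heckeAlgebra.T hℓ hℓM hℓS)) =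
        ⟨FreeAlgebra.lift ℤ c (FreeAlgebra.ι ℤ (Sum.inl ⟨ℓ, hℓ, hN2 ℓ hℓ hℓS, hℓS⟩)),
          ⟨_, rfl⟩⟩ := by
      apply Subtype.ext
      show Fermat.Agent.S58.H94.chigOf hg.1 _ (CuspForm.heckeAlgebra.T hℓ hℓM hℓS) =
        FreeAlgebra.lift ℤ c (FreeAlgebra.ι ℤ (Sum.inl ⟨ℓ, hℓ, hN2 ℓ hℓ hℓS, hℓS⟩))
      rw [Fermat.Agent.S58.H94.chigOf_T hg.1 _ hℓ hℓM hℓS, hgl ℓ hℓ (hN2 ℓ hℓ hℓS) hℓS,
        hlam_eq ℓ hℓ (hN2 ℓ hℓ hℓS) hℓS, FreeAlgebra.lift_ι_apply]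
    rw [RingHom.comp_apply, h1, hLP, FreeAlgebra.lift_ι_apply, hv1 ℓ hℓ (hN2 ℓ hℓ hℓS) hℓN hℓS]

end Fermat.Agent.S59.TW.H81

end
-- ===== PACK-END S59/TW/H81/DictT.lean

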