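import Fermat.Agent.Pack.S43MC.G0E20L0
import Fermat.Agent.Pack.S43MC.G0E23L3
import Fermat.Agent.Pack.S43MC.G0E18L0
import Fermat.Agent.Pack.S43MC.G0E3L3
import Fermat.Agent.Pack.S44C.G0E26L0
import Fermat.Agent.Pack.S44C.G0E28L2
import Fermat.Agent.Pack.S43MC.G0E18L1
import Fermat.Agent.Pack.S43MC.G0E18L2
import Fermat.Agent.Pack.S43MC.G0E21L3
import Fermat.Agent.Pack.S44C.G0E20L3
import Fermat.Agent.Pack.S43MC.G0E20L3
import Fermat.Agent.Pack.S43MC.G0E26L3
import Fermat.Agent.Pack.S43MC.G0E26L0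
import Fermat.Agent.Pack.S43MC.G0E24L1
import Fermat.Agent.Pack.S43MC.G0E26L1
import Fermat.Agent.Pack.S43MC.G0E25L2
import Fermat.Agent.Pack.S43MC.G0E25L1
import Fermat.Agent.Pack.S43MC.G0E24L0
import Fermat.Agent.Pack.S43MC.G0E25L3
import Fermat.Agent.Pack.S43MC.G0E23L2
import Fermat.Agent.Pack.S43MC.G0E3L1
import Fermat.Agent.Pack.Fast891

-- ===== PACK-BEGIN S36/Mod3/H756/Normal.lean
section







/-!
# S36 / MOD3, leaf NORMAL (helper756)

`leafNormal_of : LeafVT → LeafVal → LeafSheet → LeafTable → LeafNormal`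

The six fields `NormalAlong (chart R {x^{±1}}) V_i` of `Eng.TripleCtx` at the concrete objects of
`Mod3/Spec.lean`, DIRECTLY from good reduction at level `M` (`A2.Mod.H216.goodRedHyp_of_dvr`, on
main) through `γ₁ = γ₂ = α ∘ α'` and `γ₃ = β ∘ β' : F_M → F_{M q²}`:

* residue degree one of `V_i` over `V∞(M)`: `LeafVT.res_*` (level `M q² / M q`) + L11
  (`H378.resInf`, level `M q / M`; on `V₀` with L5, L7 as in helper142's `normal_zero`);
* `x ≡ γ_i (j ^ k_i) mod 𝔪_{V_i}`, `k₁ = k₃ = 1 + q + q²`, `k₂ = q + 2`: `LeafVT.kron_i`;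
* `γ_i j^{±1} ∈ chart R {x^{±1}}`: helper189's `Chart3.lean` (on main);
* the abstract core is helper142's `normalIn_transfer` (on main), via `normalAlong_side3`.

The chart at infinity needs no extra argument.
-/

set_option autoImplicit false
set_option synthInstance.maxHeartbeats 400000
set_option maxHeartbeats 1600000
set_option linter.unusedSectionVars false
set_option linter.style.haveILetI false

noncomputable section

namespace Fermat.Agent.S36.Mod3.H756

open ModularCurve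
open Fermat.Agent Fermat.Agent.A2.Mod Fermat.Agent.S36.Eng Fermat.Agent.S36.Mod3
open Fermat.Agent.S18.H138 (chart)

section Setup

variable {P : ValuationSubring A2.Qb} {E : IntermediateField ℚ A2.Qb} {M q : ℕ}
  [NeZero M] [NeZero q] [NeZero (M * q)] {w : A2.RE P E}

theorem setting_of_std (hS : Std P E M q w) : Setting P E M q w :=
  ⟨hS.q_prime, hS.q_not_dvd, NeZero.ne M, hS.lies_over, hS.unram.1.dvr, hS.unif⟩

/-- `γ₁ = α ∘ α' : F_M → F_{M q²}` (the inclusion). -/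
def gammaA (E : IntermediateField ℚ A2.Qb) (M q : ℕ) [NeZero M] [NeZero q] [NeZero (M * q)] :
    FE E M →ₐ[E] FE E (M * q * q) :=
  (αE E (M * q) q).comp (αE E M q)

/-- `γ₃ = β ∘ β' : F_M → F_{M q²}` (`t ↦ t ^ (q²)`). -/
def gammaB (E : IntermediateField ℚ A2.Qb) (M q : ℕ) [NeZero M] [NeZero q] [NeZero (M * q)] :
    FE E M →ₐ[E] FE E (M * q * q) :=
  (βE E (M * q) q).comp (βE E M q)

theorem gammaA_apply (g : FE E M) : gammaA E M q g = αE E (M * q) q (αE E M q g) := rfl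

theorem gammaB_apply (g : FE E M) : gammaB E M q g = βE E (M * q) q (βE E M q g) := rfl

theorem gammaA_j : gammaA E M q (jE E M 1 (one_dvd _)) = j1 E M q := by
  rw [gammaA_apply, H751.alpha_jE E M q 1 (one_dvd M), H751.alpha_jE E (M * q) q 1 (one_dvd _)]
  rfl

theorem gammaB_j : gammaB E M q (jE E M 1 (one_dvd _)) = jqq E M q := by
  rw [gammaB_apply, H751.beta_jE E M q 1 (one_dvd M)]
  have h1 : jE E (M * q) (q * 1) (by rw [mul_comm M q]; exact mul_dvd_mul_left q (one_dvd M)) =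
      jE E (M * q) q (dvd_mul_left q M) := H751.jE_congr E (M * q) (mul_one q) _ _
  rw [h1, H751.beta_jE E (M * q) q q (dvd_mul_left q M)]
  rfl

end Setup

section Levels

variable (P : ValuationSubring A2.Qb) (E : IntermediateField ℚ A2.Qb) (M q : ℕ)
  [NeZero M] [NeZero q] [NeZero (M * q)] (w : A2.RE P E)

/-- `w ∈ 𝔪_{V∞}` (any level). -/
theorem cE_mem_nonunits_vinf (hdvr : IsDiscreteValuationRing (A2.RE P E)) (hw : Irreducible w)
    (N : ℕ) (hN : N ≠ 0) (V : ValuationSubring (FE E N)) (hV : IsVinf P E N V) :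
    cE P E N w ∈ V.nonunits := by
  have hU := (H553.vinfBasic P E w N hN hdvr hw V hV).1
  exact (mem_nonunits_iff_of_ne_zero V _ hU.ne_zero).2 ⟨hU.mem, hU.inv_not_mem⟩

/-- Residue degree one of `V∞(M q)` over `V∞(M)` along `α'` (L11, `nonunits` form). -/
theorem res_level_inf (hS : Std P E M q w) (VM : ValuationSubring (FE E M))
    (V₁' : ValuationSubring (FE E (M * q))) (hVM : IsVinf P E M VM)
    (hV₁' : IsVinf P E (M * q) V₁') :
    ∀ g' ∈ V₁', ∃ g ∈ VM, g' - (αE E M q : FE E M →+* FE E (M * q)) g ∈ V₁'.nonunits := by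
  intro g' hg'
  have hSet := setting_of_std hS
  obtain ⟨g, hg, h⟩ := H378.resInf P E M q w hSet VM V₁' hVM hV₁' g' hg'
  have hL2 := H553.vinfBasic P E w (M * q) (NeZero.ne _) hSet.dvr hSet.unif V₁' hV₁'
  exact ⟨g, hg, (ValuationSubring.mem_nonunits_iff _).2 ((H142.inW_iff hL2.1 _).1 h)⟩

/-- `β'` maps `V∞(M)` into `V₀(M q) = V∞(M q) ∘ W'` (L5 + L7). -/
theorem beta_mem_zero (hS : Std P E M q w) (VM : ValuationSubring (FE E M))
    (V₁' : ValuationSubring (FE E (M * q))) (hVM : IsVinf P E M VM)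
    (hV₁' : IsVinf P E (M * q) V₁') (W' : FE E (M * q) ≃ₐ[E] FE E (M * q))
    (hW' : IsFricke E (M * q) W') :
    ∀ g ∈ VM, (βE E M q : FE E M →+* FE E (M * q)) g ∈
      V₁'.comap (W' : FE E (M * q) →+* FE E (M * q)) := by
  intro g hg
  have hSet := setting_of_std hS
  have hWM := H751.isFricke_frickeE E M
  have hL5 := H751.frickeCompat E M q (H751.frickeE E M) W' hWM hW'
  rw [ValuationSubring.mem_comap]
  show W' (βE E M q g) ∈ V₁'
  rw [(hL5 g).2]
  exact H142.alpha_mem P E M q hVM hV₁'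
    (H900.frickeStable P E M q w hSet VM (H751.frickeE E M) hVM hWM g hg)

/-- Residue degree one of `V₀(M q)` over `V∞(M)` along `β'` (L11 + L5 + L7). -/
theorem res_level_zero (hS : Std P E M q w) (VM : ValuationSubring (FE E M))
    (V₁' : ValuationSubring (FE E (M * q))) (hVM : IsVinf P E M VM)
    (hV₁' : IsVinf P E (M * q) V₁') (W' : FE E (M * q) ≃ₐ[E] FE E (M * q))
    (hW' : IsFricke E (M * q) W') :
    ∀ g' ∈ V₁'.comap (W' : FE E (M * q) →+* FE E (M * q)), ∃ g ∈ VM,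
      g' - (βE E M q : FE E M →+* FE E (M * q)) g ∈
        (V₁'.comap (W' : FE E (M * q) →+* FE E (M * q))).nonunits := by
  intro g' hg'
  have hSet := setting_of_std hS
  have hWM := H751.isFricke_frickeE E M
  have hL5 := H751.frickeCompat E M q (H751.frickeE E M) W' hWM hW'
  rw [ValuationSubring.mem_comap] at hg'
  obtain ⟨g₀, hg₀, h⟩ := res_level_inf P E M q w hS VM V₁' hVM hV₁' _ hg'
  refine ⟨H751.frickeE E M g₀,
    H900.frickeStable P E M q w hSet VM (H751.frickeE E M) hVM hWM g₀ hg₀, ?_⟩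
  rw [mem_nonunits_comap_iff]
  have h1 : (W' : FE E (M * q) →+* FE E (M * q))
      (g' - (βE E M q : FE E M →+* FE E (M * q)) (H751.frickeE E M g₀)) =
      (W' : FE E (M * q) →+* FE E (M * q)) g' - (αE E M q : FE E M →+* FE E (M * q)) g₀ := by
    rw [map_sub]
    congr 1
    show W' (βE E M q (H751.frickeE E M g₀)) = αE E M q g₀
    rw [(hL5 _).2, hWM.2]
  rw [h1]
  exact h

end Levels

section Main

/-- **NORMAL (leaf)** from the valuation-level hub `LeafVT` and the leaves `LeafVal`, `LeafSheet`,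
`LeafTable`. -/
theorem leafNormal_of (hVT : LeafVT) (hVal : LeafVal) (hSh : LeafSheet) (hTab : LeafTable) :
    LeafNormal := by
  intro P E M q _ _ _ w hS V₁' V₂' V₁ V₂ V₃ W' W hO
  have vt := hVT P E M q w hS V₁' V₂' V₁ V₂ V₃ W' W hO
  have val := hVal P E M q w hS V₁' V₂' V₁ V₂ V₃ W' W hO
  have sh := hSh P E M q w hS V₁' V₂' V₁ V₂ V₃ W' W hO
  have tab := hTab P E M q w hS V₁' V₂' V₁ V₂ V₃ W' W hO
  have hSet := setting_of_std hS
  have hq := hS.q_prime
  have hdvr := hSet.dvr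
  have hw := hS.unif
  -- level `M`
  obtain ⟨VM, hVM⟩ := H553.vinfExists P E M (NeZero.ne M) hdvr
  have hgood := H216.goodRedHyp_of_dvr P E M hq hS.q_not_dvd hS.neat.hasAux.1 hS.neat.hasAux.2
    hS.lies_over hdvr w VM hw hVM
  have hL2M := H553.vinfBasic P E w M (NeZero.ne M) hdvr hw VM hVM
  have hjM : jE E M 1 (one_dvd _) ∈ VM := (hL2M.2.2 1 (one_dvd M)).1
  have hjMi : (jE E M 1 (one_dvd _))⁻¹ ∈ VM := (hL2M.2.2 1 (one_dvd M)).2
  -- the three `j`'s are units of the three valuation rings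
  have hm : ∀ V : ValuationSubring (FE E (M * q * q)), x3E E M q ∈ V →
      j1 E M q ∈ V ∧ jq E M q ∈ V ∧ jqq E M q ∈ V := fun V hV =>
    H189.mem_of_x3_mem E M q hq V hV
  have hi : ∀ V : ValuationSubring (FE E (M * q * q)), (x3E E M q)⁻¹ ∈ V →
      (j1 E M q)⁻¹ ∈ V ∧ (jq E M q)⁻¹ ∈ V ∧ (jqq E M q)⁻¹ ∈ V := fun V hV =>
    H189.inv_mem_of_x3_inv_mem E M q hq V hV
  have hm₁ := hm V₁ val.x_unit₁.2.1
  have hm₂ := hm V₂ val.x_unit₂.2.1
  have hm₃ := hm V₃ val.x_unit₃.2.1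
  have hi₁ := hi V₁ val.x_unit₁.2.2
  have hi₂ := hi V₂ val.x_unit₂.2.2
  have hi₃ := hi V₃ val.x_unit₃.2.2
  -- `w` lies in the three maximal ideals
  have hw₁ : V₁.valuation (cE P E (M * q * q) w) < 1 :=
    (ValuationSubring.mem_nonunits_iff V₁).1 val.unif₁.2.1
  have hw₃ : V₃.valuation (cE P E (M * q * q) w) < 1 :=
    (ValuationSubring.mem_nonunits_iff V₃).1 val.unif₃.2.1
  have hw₂ : V₂.valuation (cE P E (M * q * q) w) < 1 := by
    have h1 := cE_mem_nonunits_vinf P E w hdvr hw (M * q) (NeZero.ne _) V₁' hO.vinf'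
    rw [← hO.mid, mem_nonunits_comap_iff] at h1
    have h2 : (αE E (M * q) q : FE E (M * q) →+* FE E (M * q * q)) (cE P E (M * q) w) =
        cE P E (M * q * q) w := (αE E (M * q) q).commutes (w : E)
    rw [h2] at h1
    exact (ValuationSubring.mem_nonunits_iff V₂).1 h1
  -- `γ V∞(M) ⊆ V_i`
  have hα' : ∀ g ∈ VM, (αE E M q : FE E M →+* FE E (M * q)) g ∈ V₁' := fun g hg =>
    H142.alpha_mem P E M q hVM hO.vinf' hg
  have hβ' : ∀ g ∈ VM, (βE E M q : FE E M →+* FE E (M * q)) g ∈ V₂' := by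
    rw [hO.vzero']
    exact beta_mem_zero P E M q w hS VM V₁' hVM hO.vinf' W' hO.fricke'
  have hγV₁ : ∀ g ∈ VM, gammaA E M q g ∈ V₁ :=
    map_mem_comp (αE E M q : FE E M →+* FE E (M * q))
      (αE E (M * q) q : FE E (M * q) →+* FE E (M * q * q)) VM V₁' V₁ tab.comap_α₁ hα'
  have hγV₂ : ∀ g ∈ VM, gammaA E M q g ∈ V₂ :=
    map_mem_comp (αE E M q : FE E M →+* FE E (M * q))
      (αE E (M * q) q : FE E (M * q) →+* FE E (M * q * q)) VM V₁' V₂ tab.comap_α₂ hα'
  have hγV₃ : ∀ g ∈ VM, gammaB E M q g ∈ V₃ :=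
    map_mem_comp (βE E M q : FE E M →+* FE E (M * q))
      (βE E (M * q) q : FE E (M * q) →+* FE E (M * q * q)) VM V₂' V₃ tab.comap_β₃ hβ'
  -- residue degree one over level `M`
  have hr' := res_level_inf P E M q w hS VM V₁' hVM hO.vinf'
  have hr₀' : ∀ g' ∈ V₂', ∃ g ∈ VM,
      g' - (βE E M q : FE E M →+* FE E (M * q)) g ∈ V₂'.nonunits := by
    rw [hO.vzero']
    exact res_level_zero P E M q w hS VM V₁' hVM hO.vinf' W' hO.fricke'
  have hres₁ : ∀ f ∈ V₁, ∃ g ∈ VM, V₁.valuation (f - gammaA E M q g) < 1 :=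
    res_comp (αE E M q : FE E M →+* FE E (M * q))
      (αE E (M * q) q : FE E (M * q) →+* FE E (M * q * q)) VM V₁' V₁ tab.comap_α₁ hr'
      vt.res_α₁
  have hres₂ : ∀ f ∈ V₂, ∃ g ∈ VM, V₂.valuation (f - gammaA E M q g) < 1 :=
    res_comp (αE E M q : FE E M →+* FE E (M * q))
      (αE E (M * q) q : FE E (M * q) →+* FE E (M * q * q)) VM V₁' V₂ tab.comap_α₂ hr'
      vt.res_α₂
  have hres₃ : ∀ f ∈ V₃, ∃ g ∈ VM, V₃.valuation (f - gammaB E M q g) < 1 :=
    res_comp (βE E M q : FE E M →+* FE E (M * q))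
      (βE E (M * q) q : FE E (M * q) →+* FE E (M * q * q)) VM V₂' V₃ tab.comap_β₃ hr₀'
      vt.res_β₃
  -- the coordinate congruences
  have hc₁ : Cong V₁ (x3E E M q) (j1 E M q ^ (1 + q + q * q)) := by
    have h1 : Cong V₁ (jq E M q) (j1 E M q ^ q) :=
      ⟨hm₁.2.1, V₁.pow_mem hm₁.1 q, vt.kron₁.1⟩
    have h2 : Cong V₁ (jqq E M q) (jq E M q ^ q) :=
      ⟨hm₁.2.2, V₁.pow_mem hm₁.2.1 q, vt.kron₁.2⟩
    have h3 : Cong V₁ (jqq E M q) ((j1 E M q ^ q) ^ q) := h2.trans (h1.pow q)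
    have h4 : Cong V₁ (x3E E M q) (j1 E M q * j1 E M q ^ q * (j1 E M q ^ q) ^ q) :=
      ((Cong.refl hm₁.1).mul h1).mul h3
    have h5 : j1 E M q * j1 E M q ^ q * (j1 E M q ^ q) ^ q = j1 E M q ^ (1 + q + q * q) := by
      ring
    rwa [h5] at h4
  have hc₂ : Cong V₂ (x3E E M q) (j1 E M q ^ (q + 2)) := by
    have h1 : Cong V₂ (jq E M q) (j1 E M q ^ q) :=
      ⟨hm₂.2.1, V₂.pow_mem hm₂.1 q, vt.kron₂.1⟩
    have h2 : Cong V₂ (jqq E M q) (j1 E M q) := ⟨hm₂.2.2, hm₂.1, vt.kron₂.2⟩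
    have h4 : Cong V₂ (x3E E M q) (j1 E M q * j1 E M q ^ q * j1 E M q) :=
      ((Cong.refl hm₂.1).mul h1).mul h2
    have h5 : j1 E M q * j1 E M q ^ q * j1 E M q = j1 E M q ^ (q + 2) := by ring
    rwa [h5] at h4
  have hc₃ : Cong V₃ (x3E E M q) (jqq E M q ^ (1 + q + q * q)) := by
    have h1 : Cong V₃ (jq E M q) (jqq E M q ^ q) :=
      ⟨hm₃.2.1, V₃.pow_mem hm₃.2.2 q, vt.kron₃.2⟩
    have h2 : Cong V₃ (j1 E M q) (jq E M q ^ q) :=
      ⟨hm₃.1, V₃.pow_mem hm₃.2.1 q, vt.kron₃.1⟩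
    have h3 : Cong V₃ (j1 E M q) ((jqq E M q ^ q) ^ q) := h2.trans (h1.pow q)
    have h4 : Cong V₃ (x3E E M q) ((jqq E M q ^ q) ^ q * jqq E M q ^ q * jqq E M q) :=
      (h3.mul h1).mul (Cong.refl hm₃.2.2)
    have h5 : (jqq E M q ^ q) ^ q * jqq E M q ^ q * jqq E M q =
        jqq E M q ^ (1 + q + q * q) := by ring
    rwa [h5] at h4
  -- images of `j^{±1}` under `γ`
  have hgA : ∀ k : ℕ, gammaA E M q (jE E M 1 (one_dvd _) ^ k) = j1 E M q ^ k := fun k => by
    rw [map_pow, gammaA_j]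
  have hgB : ∀ k : ℕ, gammaB E M q (jE E M 1 (one_dvd _) ^ k) = jqq E M q ^ k := fun k => by
    rw [map_pow, gammaB_j]
  have hgAi : ∀ k : ℕ, gammaA E M q ((jE E M 1 (one_dvd _))⁻¹ ^ k) = (j1 E M q ^ k)⁻¹ :=
    fun k => by rw [map_pow, map_inv₀, gammaA_j, inv_pow]
  have hgBi : ∀ k : ℕ, gammaB E M q ((jE E M 1 (one_dvd _))⁻¹ ^ k) = (jqq E M q ^ k)⁻¹ :=
    fun k => by rw [map_pow, map_inv₀, gammaB_j, inv_pow]
  have hpi : ∀ (V : ValuationSubring (FE E (M * q * q))) (c : FE E (M * q * q)) (k : ℕ),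
      c⁻¹ ∈ V → (c ^ k)⁻¹ ∈ V := fun V c k hc => by
    rw [← inv_pow]
    exact V.pow_mem hc k
  exact
    { normal_f₁ := normalAlong_side3 P E M (M * q * q) w hdvr hw VM hVM V₁ sh.base₁ hw₁
        (gammaA E M q) hγV₁ hres₁ _ (x3E E M q) (1 + q + q * q) hjM val.x_unit₁.2.1
        (by rw [hgA]; exact hc₁.val_lt)
        (by rw [gammaA_j]; exact H189.j1_mem_chart P E M q hq) hgood.1
      normal_f₂ := normalAlong_side3 P E M (M * q * q) w hdvr hw VM hVM V₂ sh.base₂ hw₂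
        (gammaA E M q) hγV₂ hres₂ _ (x3E E M q) (q + 2) hjM val.x_unit₂.2.1
        (by rw [hgA]; exact hc₂.val_lt)
        (by rw [gammaA_j]; exact H189.j1_mem_chart P E M q hq) hgood.1
      normal_f₃ := normalAlong_side3 P E M (M * q * q) w hdvr hw VM hVM V₃ sh.base₃ hw₃
        (gammaB E M q) hγV₃ hres₃ _ (x3E E M q) (1 + q + q * q) hjM val.x_unit₃.2.1
        (by rw [hgB]; exact hc₃.val_lt)
        (by rw [gammaB_j]; exact H189.jqq_mem_chart' P E M q hq) hgood.1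
      normal_i₁ := normalAlong_side3 P E M (M * q * q) w hdvr hw VM hVM V₁ sh.base₁ hw₁
        (gammaA E M q) hγV₁ hres₁ _ (x3E E M q)⁻¹ (1 + q + q * q) hjMi val.x_unit₁.2.2
        (by rw [hgAi]; exact (hc₁.inv val.x_unit₁.2.2 (hpi V₁ _ _ hi₁.1)).val_lt)
        (by rw [map_inv₀, gammaA_j]; exact H189.j1_inv_mem_chart P E M q hq) hgood.2
      normal_i₂ := normalAlong_side3 P E M (M * q * q) w hdvr hw VM hVM V₂ sh.base₂ hw₂
        (gammaA E M q) hγV₂ hres₂ _ (x3E E M q)⁻¹ (q + 2) hjMi val.x_unit₂.2.2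
        (by rw [hgAi]; exact (hc₂.inv val.x_unit₂.2.2 (hpi V₂ _ _ hi₂.1)).val_lt)
        (by rw [map_inv₀, gammaA_j]; exact H189.j1_inv_mem_chart P E M q hq) hgood.2
      normal_i₃ := normalAlong_side3 P E M (M * q * q) w hdvr hw VM hVM V₃ sh.base₃ hw₃
        (gammaB E M q) hγV₃ hres₃ _ (x3E E M q)⁻¹ (1 + q + q * q) hjMi val.x_unit₃.2.2
        (by rw [hgBi]; exact (hc₃.inv val.x_unit₃.2.2 (hpi V₃ _ _ hi₃.2.2)).val_lt)
        (by rw [map_inv₀, gammaB_j]; exact H189.jqq_inv_mem_chart' P E M q hq) hgood.2 }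

end Main

end Fermat.Agent.S36.Mod3.H756

end

end
-- ===== PACK-END S36/Mod3/H756/Normal.lean

-- ===== PACK-BEGIN S36/Mod3/H189/LevelNormal.lean
section







/-!
# S36 / MOD3 (helper189) — normality of the two components of level `M q`, in `Eng` form

At the level `M q` (`q ∤ M`, neat) the finite chart `B' = chart R {x'}`, `x' = j j_q`, is the
semistable chart of cell A2 (`S35.G.H862.exists_chart_cutBy`): two components `p₁ = B' ∩ 𝔪_{V∞}`,
`p₂ = B' ∩ 𝔪_{V₀}`, both with integrally closed quotient.  `V∞`, `V₀` are sheets (`A2.H12.IsSheet`),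
hence the local rings of `B'` at `p₁`, `p₂` (`S36.H193.sheet_mem_iff`).  Therefore

* `isSheet_vinf`, `isSheet_vzero` : `V₁'`, `V₂' = V₁' ∘ W'` are sheets of `x'`;
* `normalAlong_vinf`  : `Eng.NormalAlong (chart R {x'}) V₁'`;
* `normalAlong_vzero` : `Eng.NormalAlong (chart R {x'}) (V₁'.comap W')`.
-/

set_option autoImplicit false
set_option linter.style.haveILetI false
set_option linter.unusedSectionVars false
set_option synthInstance.maxHeartbeats 400000
set_option maxHeartbeats 1600000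

noncomputable section

namespace Fermat.Agent.S36.Mod3.H189

open ModularCurve Polynomial
open Fermat.Agent.S18.H138 (chart baseField)
open Fermat.Agent Fermat.Agent.S36.Eng

universe u

section Abs

variable {R : Type u} [CommRing R] [IsDomain R] [IsDiscreteValuationRing R]
  {L : Type u} [Field L] [Algebra R L]

/-- A valuation ring inducing the Gauss valuation on `R[x]` is a sheet. -/
theorem isSheet_of_isGaussOver {w : R} (hw : Irreducible w) {V : ValuationSubring L} {x : L}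
    (h : A2.H489.IsGaussOver R V x) : A2.H12.IsSheet w x V := by
  refine ⟨h.isOver.mem, h.mem, ?_, ?_⟩
  · exact h.isOver.nonunit w ((IsLocalRing.mem_maximalIdeal w).2 hw.not_isUnit)
  · rintro p ⟨i, hi⟩
    by_contra hinv
    have hn : aeval x p ∈ V.nonunits := by
      rw [ValuationSubring.mem_nonunits_iff_or]
      exact Or.inr hinv
    have h0 := h.prim p hn
    apply hi
    have h1 : (p.map (IsLocalRing.residue R)).coeff i = 0 := by rw [h0, coeff_zero]
    rw [coeff_map, IsLocalRing.residue_eq_zero_iff, hw.maximalIdeal_eq,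
      Ideal.mem_span_singleton] at h1
    exact h1

end Abs

section Concrete

variable (P : ValuationSubring A2.Qb) (E : IntermediateField ℚ A2.Qb) (M q : ℕ)
  [NeZero M] [NeZero q] [NeZero (M * q)]

variable {P E M q}

theorem setting_of_std {w : A2.RE P E} (hS : Mod3.Std P E M q w) : A2.Mod.Setting P E M q w where
  q_prime := hS.q_prime
  q_not_dvd := hS.q_not_dvd
  M_ne_zero := NeZero.ne M
  lies_over := hS.lies_over
  dvr := hS.unram.1.dvr
  unif := hS.unif

theorem transcendental_xE (hq : q.Prime) (hqM : ¬ q ∣ M) :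
    Transcendental E (A2.Mod.xE E M q) :=
  (A2.Mod.H31.deg E M q hq hqM).1

/-- `V∞` of level `M q` is a sheet of `x' = j j_q`. -/
theorem isSheet_vinf {w : A2.RE P E} (hS : Mod3.Std P E M q w)
    {V : ValuationSubring (A2.Mod.FE E (M * q))} (hV : A2.Mod.IsVinf P E (M * q) V) :
    A2.H12.IsSheet w (A2.Mod.xE E M q) V := by
  haveI : IsDiscreteValuationRing (A2.RE P E) := hS.unram.1.dvr
  exact isSheet_of_isGaussOver hS.unif
    (A2.Mod.H13.isGaussOver_xE hS.unif hV (transcendental_xE hS.q_prime hS.q_not_dvd))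

/-- `V₀ = V∞ ∘ W` of level `M q` is a sheet of `x' = j j_q`. -/
theorem isSheet_vzero {w : A2.RE P E} (hS : Mod3.Std P E M q w)
    {V : ValuationSubring (A2.Mod.FE E (M * q))} (hV : A2.Mod.IsVinf P E (M * q) V)
    {W : A2.Mod.FE E (M * q) ≃ₐ[E] A2.Mod.FE E (M * q)} (hW : A2.Mod.IsFricke E (M * q) W) :
    A2.H12.IsSheet w (A2.Mod.xE E M q)
      (V.comap (W : A2.Mod.FE E (M * q) →+* A2.Mod.FE E (M * q))) := by
  haveI : IsDiscreteValuationRing (A2.RE P E) := hS.unram.1.dvr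
  exact isSheet_of_isGaussOver hS.unif
    (A2.Mod.H13.isGaussOver_comap_xE hS.unif hV hW (transcendental_xE hS.q_prime hS.q_not_dvd))

/-- **Normality of the two components of level `M q`** (finite chart), in `Eng` form. -/
theorem normalAlong_level {w : A2.RE P E} (hS : Mod3.Std P E M q w)
    {V : ValuationSubring (A2.Mod.FE E (M * q))} (hV : A2.Mod.IsVinf P E (M * q) V)
    {W : A2.Mod.FE E (M * q) ≃ₐ[E] A2.Mod.FE E (M * q)} (hW : A2.Mod.IsFricke E (M * q) W) :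
    NormalAlong (chart (A2.RE P E) ({A2.Mod.xE E M q} : Set (A2.Mod.FE E (M * q)))) V ∧
    NormalAlong (chart (A2.RE P E) ({A2.Mod.xE E M q} : Set (A2.Mod.FE E (M * q))))
      (V.comap (W : A2.Mod.FE E (M * q) →+* A2.Mod.FE E (M * q))) := by
  have hSet := setting_of_std hS
  haveI : IsDiscreteValuationRing (A2.RE P E) := hS.unram.1.dvr
  have hAux := hS.neat.hasAux
  obtain ⟨VM, hVM⟩ := A2.Mod.H553.vinfExists P E M hSet.M_ne_zero hSet.dvr
  obtain ⟨hg₁, -⟩ := A2.Mod.H216.goodRedHyp_of_dvr P E M hSet.q_prime hSet.q_not_dvd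
    hAux.1 hAux.2 hSet.lies_over hSet.dvr w VM hSet.unif hVM
  obtain ⟨cf, hcf⟩ := S35.G.H862.exists_chart_cutBy hSet (S35.G.H862.s1 P E M q w)
    (A2.Mod.H142.s2 P E M q w) (S35.G.H862.s3 P E M q w) VM V W hVM hV hW _ _
    (Or.inl ⟨rfl, rfl⟩) hg₁
  have hu : A2.H48.IsUnif V (A2.Mod.cE P E (M * q) w) :=
    (A2.Mod.H553.vinfBasic P E w (M * q) (NeZero.ne _) hSet.dvr hSet.unif V hV).1
  have hu' := A2.Mod.H13.isUnif_comap hu W
  have htr : Transcendental E (A2.Mod.xE E M q) := transcendental_xE hS.q_prime hS.q_not_dvd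
  haveI : FiniteDimensional (IntermediateField.adjoin E
      ({A2.Mod.xE E M q} : Set (A2.Mod.FE E (M * q)))) (A2.Mod.FE E (M * q)) :=
    Mod3.H933.finiteDimensional_of_transcendental E (M * q) (NeZero.ne _) _ htr
  haveI : FiniteDimensional (baseField (A2.RE P E) (A2.Mod.xE E M q)) (A2.Mod.FE E (M * q)) :=
    A2.H643.finiteDimensional_baseField_of_adjoin (E := E) _
  have hinj : Function.Injective (algebraMap (A2.RE P E) (A2.Mod.FE E (M * q))) := by
    intro a b hab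
    have h1 : algebraMap E (A2.Mod.FE E (M * q)) (a : E) =
        algebraMap E (A2.Mod.FE E (M * q)) (b : E) := hab
    exact Subtype.ext ((algebraMap E (A2.Mod.FE E (M * q))).injective h1)
  have hwp : Prime w := hS.unif.prime
  have htrR : Transcendental (A2.RE P E) (A2.Mod.xE E M q) := A2.Mod.H13.transcendental_RE htr
  have key : NormalAlong (A2.Mod.chartAlg P E (M * q) (A2.Mod.xE E M q)) V ∧
      NormalAlong (A2.Mod.chartAlg P E (M * q) (A2.Mod.xE E M q))
        (V.comap (W : A2.Mod.FE E (M * q) →+* A2.Mod.FE E (M * q))) := by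
    constructor
    · refine @normalAlong_of_closed _ _ _ _ _ (A2.Mod.chartAlg P E (M * q) (A2.Mod.xE E M q))
        V cf.p₁ cf.prime₁ cf.normal₁ hcf.le₁ (fun b => ?_) (fun y hy => ?_)
      · rw [hcf.cut₁]
        exact A2.Mod.H13.inW_iff_mem_nonunits hu _
      · exact (S36.H193.sheet_mem_iff hinj hwp htrR (isSheet_vinf hS hV) y).1 hy
    · refine @normalAlong_of_closed _ _ _ _ _ (A2.Mod.chartAlg P E (M * q) (A2.Mod.xE E M q))
        _ cf.p₂ cf.prime₂ cf.normal₂ hcf.le₂ (fun b => ?_) (fun y hy => ?_)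
      · rw [hcf.cut₂]
        exact A2.Mod.H13.inW_iff_mem_nonunits hu' _
      · exact (S36.H193.sheet_mem_iff hinj hwp htrR (isSheet_vzero hS hV hW) y).1 hy
  exact key

end Concrete

end Fermat.Agent.S36.Mod3.H189

end

end
-- ===== PACK-END S36/Mod3/H189/LevelNormal.lean

-- ===== PACK-BEGIN S36/Mod3/H189/LeafChartOf.lean
section




/-!
# S36 / MOD3, leaf CHART (helper189): `LeafVT → LeafTable → LeafVal → LeafChart`

`Mod3.LeafChart` has eight fields.

* `chart_α`, `chart_β`, `int_α`, `int_β` : unconditional (`Mod3/H189/Chart3.lean`, `ChartLeaf.lean`).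
* `res_α₁`, `res_α₂`, `res_β₃`, `res_β₂` (residue degree one in CHART form): from
  - residue degree one at the level of the valuation rings (`LeafVT`: `res_α₁ … res_β₂`),
  - lying over (`LeafTable`: `comap_α₁`, `comap_α₂`, `comap_β₃`, `comap_β₂`, and `comap_α₃` for
    `R ⊆ V₃`),
  - `x ∈ V_i` (`LeafVal`: `x_unit_i`),
  - `int_α`, `int_β` (above),
  - normality of the two components of level `M q` (`LevelNormal.lean`: cell A2 on main),
  by `res_chart_of_normalAlong` (`ResAbs.lean`).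

**`leafChart_of : LeafVT → LeafTable → LeafVal → LeafChart`.**
-/

set_option autoImplicit false
set_option linter.style.haveILetI false
set_option linter.unusedSectionVars false
set_option synthInstance.maxHeartbeats 400000
set_option maxHeartbeats 1600000

noncomputable section

namespace Fermat.Agent.S36.Mod3.H189

open ModularCurve
open Fermat.Agent.S18.H138 (chart)
open Fermat.Agent Fermat.Agent.S36.Eng

section Abs

variable {R K : Type*} [CommRing R] [Field K] [Algebra R K]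

/-- A valuation ring containing `R` and `x` contains the chart `chart R {x}`. -/
theorem chart_le_valuationSubring (V : ValuationSubring K) {x : K}
    (hR : ∀ r : R, algebraMap R K r ∈ V) (hx : x ∈ V) :
    ∀ b ∈ chart R ({x} : Set K), b ∈ V := by
  intro b hb
  have hle : ∀ a ∈ Algebra.adjoin R ({x} : Set K), a ∈ V := by
    intro a ha
    induction ha using Algebra.adjoin_induction with
    | mem y hy =>
      rw [Set.mem_singleton_iff] at hy
      rw [hy]
      exact hx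
    | algebraMap r => exact hR r
    | add y z _ _ hy hz => exact V.add_mem _ _ hy hz
    | mul y z _ _ hy hz => exact V.mul_mem _ _ hy hz
  obtain ⟨p, hpm, hp0⟩ := (Fermat.Agent.S18.H138.mem_chart).1 hb
  let φ : Algebra.adjoin R ({x} : Set K) →+* V :=
    { toFun := fun a => ⟨(a : K), hle a a.2⟩
      map_one' := rfl
      map_mul' := fun _ _ => rfl
      map_zero' := rfl
      map_add' := fun _ _ => rfl }
  have hφ : (algebraMap V K).comp φ = algebraMap (Algebra.adjoin R ({x} : Set K)) K := by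
    ext a
    rfl
  have hint : IsIntegral V b := by
    refine ⟨p.map φ, hpm.map φ, ?_⟩
    rw [Polynomial.eval₂_map, hφ]
    exact hp0
  obtain ⟨y, hy⟩ := IsIntegrallyClosed.isIntegral_iff (R := V) (K := K) |>.mp hint
  rw [← hy]
  exact y.2

end Abs

section Base

variable {R E F F' : Type*} [CommRing R] [Field E] [Algebra R E]
  [Field F] [Algebra E F] [Algebra R F] [IsScalarTower R E F]
  [Field F'] [Algebra E F'] [Algebra R F'] [IsScalarTower R E F']

/-- `R ⊆ V'` and `V | V'` along an `E`-algebra homomorphism give `R ⊆ V`. -/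
theorem base_of_comap (α : F' →ₐ[E] F) (V : ValuationSubring F) (V' : ValuationSubring F')
    (hcomap : V.comap (α : F' →+* F) = V') (hR : ∀ r : R, algebraMap R F' r ∈ V') :
    ∀ r : R, algebraMap R F r ∈ V := by
  intro r
  have h1 : algebraMap R F' r ∈ V.comap (α : F' →+* F) := by
    rw [hcomap]
    exact hR r
  have h2 : α (algebraMap R F' r) ∈ V := h1
  rwa [IsScalarTower.algebraMap_apply R E F', AlgHom.commutes,
    ← IsScalarTower.algebraMap_apply R E F] at h2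

end Base

/-- **`LeafChart`** from the valuation-level table, lying over, and `x ∈ V_i`. -/
theorem leafChart_of (hVT : Mod3.LeafVT) (hT : Mod3.LeafTable) (hVal : Mod3.LeafVal) :
    Mod3.LeafChart := by
  apply leafChart_of_res
  intro P E M q _ _ _ w hS V₁' V₂' V₁ V₂ V₃ W' W hO
  have vt := hVT P E M q w hS V₁' V₂' V₁ V₂ V₃ W' W hO
  have tb := hT P E M q w hS V₁' V₂' V₁ V₂ V₃ W' W hO
  have vl := hVal P E M q w hS V₁' V₂' V₁ V₂ V₃ W' W hO
  obtain ⟨hn₁, hn₂⟩ := normalAlong_level hS hO.vinf' hO.fricke'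
  rw [← hO.vzero'] at hn₂
  have sh₁ := isSheet_vinf hS hO.vinf'
  have sh₂ : A2.H12.IsSheet w (A2.Mod.xE E M q) V₂' := by
    rw [hO.vzero']
    exact isSheet_vzero hS hO.vinf' hO.fricke'
  have hB'₁ := S36.H193.sheet_chart_le sh₁
  have hB'₂ := S36.H193.sheet_chart_le sh₂
  have hR₁ : ∀ r : A2.RE P E, algebraMap (A2.RE P E) (A2.Mod.FE E (M * q * q)) r ∈ V₁ :=
    base_of_comap _ V₁ V₁' tb.comap_α₁ sh₁.1
  have hR₂ : ∀ r : A2.RE P E, algebraMap (A2.RE P E) (A2.Mod.FE E (M * q * q)) r ∈ V₂ :=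
    base_of_comap _ V₂ V₁' tb.comap_α₂ sh₁.1
  have hR₃ : ∀ r : A2.RE P E, algebraMap (A2.RE P E) (A2.Mod.FE E (M * q * q)) r ∈ V₃ :=
    base_of_comap _ V₃ V₂' tb.comap_α₃ sh₂.1
  have hB₁ := chart_le_valuationSubring V₁ hR₁ vl.x_unit₁.2.1
  have hB₂ := chart_le_valuationSubring V₂ hR₂ vl.x_unit₂.2.1
  have hB₃ := chart_le_valuationSubring V₃ hR₃ vl.x_unit₃.2.1
  exact
    { res_α₁ := res_chart_of_normalAlong _ _ _ V₁ V₁' tb.comap_α₁ hn₁
        (int_α_x3E P E M q hS.q_prime) hB'₁ hB₁ vt.res_α₁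
      res_α₂ := res_chart_of_normalAlong _ _ _ V₂ V₁' tb.comap_α₂ hn₁
        (int_α_x3E P E M q hS.q_prime) hB'₁ hB₂ vt.res_α₂
      res_β₃ := res_chart_of_normalAlong _ _ _ V₃ V₂' tb.comap_β₃ hn₂
        (int_β_x3E P E M q hS.q_prime) hB'₂ hB₃ vt.res_β₃
      res_β₂ := res_chart_of_normalAlong _ _ _ V₂ V₂' tb.comap_β₂ hn₂
        (int_β_x3E P E M q hS.q_prime) hB'₂ hB₂ vt.res_β₂ }

end Fermat.Agent.S36.Mod3.H189

end

end
-- ===== PACK-END S36/Mod3/H189/LeafChartOf.lean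

-- ===== PACK-BEGIN S36/Mod3/H928/OfReg.lean
section











/-!
# S36 / MOD3 — everything but REG (helper928, integrator)

`model3_of_reg : Mod3.LeafReg → Eng.Model3Statement`: all leaves of `Mod3/Spec.lean` except
`LeafReg` are proved on main and plugged in here:
`OBJ`, `VAL`, `TABLE`, `VT` (H370), `FF`, `FIN` (H439), `SHEET` (H985), `QEP` (H27),
`NORMAL` (H756), `NV`, `NR` (H657), `CHART` (H189), `INC`, `UNIQ` (H153).
-/

set_option autoImplicit false

namespace Fermat.Agent.S36.Mod3.H928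

open Fermat.Agent.S36.Eng Fermat.Agent.S36.Mod3

/-- **MOD3 modulo REG.** -/
theorem model3_of_reg (hReg : LeafReg) : Model3Statement :=
  have hObj : LeafObj := Mod3.H370.leafObj
  have hVal : LeafVal := Mod3.H370.leafVal
  have hVT : LeafVT := Mod3.H370.leafVT
  have hTab : LeafTable := Mod3.H370.leafTable
  have hSh : LeafSheet := Mod3.H985.leafSheet
  have hQep : LeafQep := Mod3.H27.leafQep_of_vt hVT
  have hNor : LeafNormal := Mod3.H756.leafNormal_of hVT hVal hSh hTab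
  have hNV : LeafNV := Mod3.H657.leafNV_of hVal hTab
  have hNR : LeafNR := Mod3.H657.leafNR_of hVal hTab
  have hCh : LeafChart := Mod3.H189.leafChart_of hVT hTab hVal
  model3_of_leaves hObj Mod3.H439.leafFF hVal hSh hQep hNor
    (Mod3.H153.leafInc hTab hCh hQep hVal hSh hNR) hReg Mod3.H439.leafFin
    hTab hNV hNR hCh (Mod3.H153.leafUniq hTab hCh hQep hVal hSh hNR)

end Fermat.Agent.S36.Mod3.H928

end
-- ===== PACK-END S36/Mod3/H928/OfReg.lean

-- ===== PACK-BEGIN S36/H816/SymDich.lean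
section



/-!
# S36 / MOD3-SYM, part 6 (helper816): the middle valuation ring from `mid` and `mid_ne`

`Vm` a valuation subring of `F_{M q²}` with `Vm.comap α = V₁ = V∞(M q)`.

* `kron_dichotomy` : `j_{q²} ^ q ≡ j_q` or `j_{q²} ≡ j_q ^ q` modulo `𝔪_{Vm}` (Kronecker congruence
  `Φ_q(X, Y) ≡ (Y^q - X)(Y - X^q) mod q`);
* `isGaussOver_comap_beta_of_cong` : `Vm.comap β` induces the Gauss valuation on `E(x')`, `x' = j j_q`,
  as soon as `β x' ≡ α u₀` for a polar `u₀`;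
* `isMid_of_ne` : if `Vm ≠ V∞(M q²)` then `j_{q²} ≡ j`, i.e. `IsMid V₁ Vm`
  (uniqueness `h83_beta_unique` of helper83 for the first alternative).
-/

set_option autoImplicit false
set_option linter.unusedSectionVars false
set_option linter.style.haveILetI false
set_option synthInstance.maxHeartbeats 400000
set_option maxHeartbeats 1600000

noncomputable section

namespace Fermat.Agent.S36.H816

open ModularCurve HahnSeries Polynomial IntermediateField
open Fermat.Agent Fermat.Agent.A2.Mod Fermat.Agent.A2.H708 Fermat.Agent.S28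

variable {P : ValuationSubring Qb} {E : IntermediateField ℚ Qb}
variable {M q : ℕ} [NeZero M] [NeZero q]
variable {w : RE P E} {V₁ : ValuationSubring (FE E (M * q))}
  {Vm : ValuationSubring (FE E (M * q * q))}

/-! ## Facts using `Vm.comap α = V₁` only -/

section OverAlpha

theorem alpha_nonunits_of_comap
    (hcα : ∀ g : FE E (M * q), heckeAlphaBar E (M * q) q g ∈ Vm ↔ g ∈ V₁) (g : FE E (M * q)) :
    heckeAlphaBar E (M * q) q g ∈ Vm.nonunits ↔ g ∈ V₁.nonunits :=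
  mem_nonunits_iff_of_comap (heckeAlphaBar E (M * q) q : FE E (M * q) →+* FE E (M * q * q))
    hcα g

theorem jE_mem_of_comap [IsDiscreteValuationRing (RE P E)]
    (hcα : ∀ g : FE E (M * q), heckeAlphaBar E (M * q) q g ∈ Vm ↔ g ∈ V₁)
    (hV₁ : IsVinf P E (M * q) V₁) (d : ℕ) [NeZero d] (hd : d ∣ M * q) :
    jE E (M * q * q) d (hd.trans (dvd_mul_right _ q)) ∈ Vm := by
  rw [← A2.Mod.H553.αE_jE E (M * q) q d hd]
  exact (hcα _).mpr (jE_mem hV₁ d hd)

theorem natCast_mem_of_comap [IsDiscreteValuationRing (RE P E)]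
    (hcα : ∀ g : FE E (M * q), heckeAlphaBar E (M * q) q g ∈ Vm ↔ g ∈ V₁)
    (hP : P.LiesOverPrime q) (hV₁ : IsVinf P E (M * q) V₁) :
    ((q : ℕ) : FE E (M * q * q)) ∈ Vm.nonunits := by
  have h1 := (alpha_nonunits_of_comap hcα ((q : ℕ) : FE E (M * q))).mpr
    (natCast_mem_nonunits hP hV₁)
  rwa [map_natCast] at h1

/-- `j_{dq} ≡ j_d ^ q mod 𝔪_{Vm}` for `d ∣ M`. -/
theorem kronA_of_comap [IsDiscreteValuationRing (RE P E)]
    (hcα : ∀ g : FE E (M * q), heckeAlphaBar E (M * q) q g ∈ Vm ↔ g ∈ V₁) (hq : q.Prime)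
    (hP : P.LiesOverPrime q) (hV₁ : IsVinf P E (M * q) V₁) (d : ℕ) [NeZero d] (hd : d ∣ M) :
    jE E (M * q * q) (d * q) ((mul_dvd_mul_right hd q).trans (dvd_mul_right _ q)) -
      (jE E (M * q * q) d ((hd.trans (dvd_mul_right M q)).trans (dvd_mul_right _ q))) ^ q
      ∈ Vm.nonunits := by
  have h1 := kron_jE hq hP hV₁ d (hd.trans (dvd_mul_right M q)) (mul_dvd_mul_right hd q)
  have h2 := (alpha_nonunits_of_comap hcα _).mpr h1
  rw [map_sub, map_pow, A2.Mod.H553.αE_jE, A2.Mod.H553.αE_jE] at h2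
  exact h2

/-- `Vm.comap β` lies over `R_E`. -/
theorem isOver_comap_beta_of_comap [IsDiscreteValuationRing (RE P E)]
    (hcα : ∀ g : FE E (M * q), heckeAlphaBar E (M * q) q g ∈ Vm ↔ g ∈ V₁)
    (hV₁ : IsVinf P E (M * q) V₁) :
    A2.H489.IsOver (RE P E)
      (Vm.comap (heckeBetaBar E (M * q) q : FE E (M * q) →+* FE E (M * q * q))) where
  mem := fun r => by
    rw [ValuationSubring.mem_comap]
    have h1 : heckeBetaBar E (M * q) q (algebraMap (RE P E) (FE E (M * q)) r) ∈ Vm := by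
      rw [beta_algebraMap_RE]
      exact (hcα _).mpr ((A2.Mod.H13.isOver_of_isVinf hV₁).mem r)
    exact h1
  nonunit := fun r hr => by
    rw [mem_nonunits_comap_iff]
    have h1 : heckeBetaBar E (M * q) q (algebraMap (RE P E) (FE E (M * q)) r) ∈ Vm.nonunits := by
      rw [beta_algebraMap_RE]
      exact (alpha_nonunits_of_comap hcα _).mpr
        ((A2.Mod.H13.isOver_of_isVinf hV₁).nonunit r hr)
    exact h1

/-- **`Vm ∘ β` induces the Gauss valuation on `E(x')`** as soon as `β x' ≡ α u₀ mod 𝔪_{Vm}` for a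
polar transcendental `u₀`. -/
theorem isGaussOver_comap_beta_of_cong
    (hcα : ∀ g : FE E (M * q), heckeAlphaBar E (M * q) q g ∈ Vm ↔ g ∈ V₁)
    (hS : Setting P E M q w) (hV₁ : IsVinf P E (M * q) V₁)
    {u₀ : FE E (M * q)} {a : ℕ} (ha : 0 < a) (hpol : A2.Mod.H13.IsPolar E (M * q) u₀ a)
    (htr : Transcendental E u₀)
    (hx : heckeBetaBar E (M * q) q (xE E M q) - heckeAlphaBar E (M * q) q u₀ ∈ Vm.nonunits) :
    haveI := hS.dvr
    A2.H489.IsGaussOver (RE P E)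
      (Vm.comap (heckeBetaBar E (M * q) q : FE E (M * q) →+* FE E (M * q * q)))
      (xE E M q) := by
  haveI := hS.dvr
  have hG₀ : A2.H489.IsGaussOver (RE P E) V₁ u₀ :=
    A2.Mod.H13.isGaussOver_of_polar hV₁ hS.unif (NeZero.ne _) ha hpol
      (A2.Mod.H13.transcendental_RE htr)
  have hαu : heckeAlphaBar E (M * q) q u₀ ∈ Vm := (hcα _).mpr hG₀.mem
  have hβx : heckeBetaBar E (M * q) q (xE E M q) ∈ Vm := by
    have e : heckeBetaBar E (M * q) q (xE E M q)
        = (heckeBetaBar E (M * q) q (xE E M q) - heckeAlphaBar E (M * q) q u₀)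
          + heckeAlphaBar E (M * q) q u₀ := by ring
    rw [e]
    exact Vm.add_mem _ _ (mem_of_mem_nonunits Vm hx) hαu
  refine ⟨isOver_comap_beta_of_comap hcα hV₁, ValuationSubring.mem_comap.mpr hβx, ?_⟩
  intro p hp
  by_contra hne
  rw [mem_nonunits_comap_iff] at hp
  have h1 : aeval u₀ p ∉ V₁.nonunits := fun hmem => hne (hG₀.prim p hmem)
  have h2 : heckeAlphaBar E (M * q) q (aeval u₀ p) ∉ Vm.nonunits :=
    fun hmem => h1 ((alpha_nonunits_of_comap hcα _).mp hmem)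
  have eα : heckeAlphaBar E (M * q) q (aeval u₀ p)
      = aeval (heckeAlphaBar E (M * q) q u₀) p :=
    (Polynomial.aeval_algHom_apply ((heckeAlphaBar E (M * q) q).restrictScalars (RE P E))
      u₀ p).symm
  have eβ : heckeBetaBar E (M * q) q (aeval (xE E M q) p)
      = aeval (heckeBetaBar E (M * q) q (xE E M q)) p :=
    (Polynomial.aeval_algHom_apply ((heckeBetaBar E (M * q) q).restrictScalars (RE P E))
      (xE E M q) p).symm
  have hR : ∀ r : RE P E, algebraMap (RE P E) (FE E (M * q * q)) r ∈ Vm := by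
    intro r
    have e : algebraMap (RE P E) (FE E (M * q * q)) r
        = heckeAlphaBar E (M * q) q (algebraMap (RE P E) (FE E (M * q)) r) := by
      rw [A2.Mod.H13.algebraMap_RE_eq, A2.Mod.H13.algebraMap_RE_eq, AlgHom.commutes]
    rw [e]
    exact (hcα _).mpr ((A2.Mod.H13.isOver_of_isVinf hV₁).mem r)
  have h3 := aeval_sub_aeval_mem_nonunits Vm hR hβx hαu hx p
  have hp' : (heckeBetaBar E (M * q) q : FE E (M * q) →+* FE E (M * q * q))
      (aeval (xE E M q) p) ∈ Vm.nonunits := hp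
  have hp'' : aeval (heckeBetaBar E (M * q) q (xE E M q)) p ∈ Vm.nonunits := by
    rw [← eβ]
    exact hp'
  apply h2
  rw [eα]
  have e : aeval (heckeAlphaBar E (M * q) q u₀) p
      = aeval (heckeBetaBar E (M * q) q (xE E M q)) p
        - (aeval (heckeBetaBar E (M * q) q (xE E M q)) p
            - aeval (heckeAlphaBar E (M * q) q u₀) p) := by ring
  rw [e]
  exact sub_mem_nonunits Vm hp'' h3

end OverAlpha

/-! ## The Kronecker dichotomy -/

section Dichotomy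

theorem mul_mem_nonunits_or {F : Type*} [Field F] (V : ValuationSubring F) {x y : F}
    (h : x * y ∈ V.nonunits) : x ∈ V.nonunits ∨ y ∈ V.nonunits := by
  rw [ValuationSubring.mem_nonunits_iff] at h ⊢
  rw [ValuationSubring.mem_nonunits_iff]
  by_contra hcon
  rw [not_or, not_lt, not_lt] at hcon
  rw [map_mul] at h
  exact absurd h (not_lt.mpr (one_le_mul_of_one_le_of_one_le hcon.1 hcon.2))

/-- `Φ_q(j_q, j_{q²}) = 0` in `F_N`, for any level `N` divisible by `q²`. -/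
theorem modPoly_eval_jqq (Φ : ModPolyData q) (N : ℕ) (hd : q ∣ N)
    (hdd : q * q ∣ N) :
    Φ.Φ.eval₂ (Polynomial.aeval (R := ℤ) (jE E N q hd)).toRingHom (jE E N (q * q) hdd) = 0 := by
  apply Subtype.ext
  have h := Polynomial.hom_eval₂ Φ.Φ (Polynomial.aeval (R := ℤ) (jE E N q hd)).toRingHom
    (algebraMap (FE E N) (LaurentSeries E)) (jE E N (q * q) hdd)
  have h2 : ((Polynomial.eval₂ (Polynomial.aeval (R := ℤ) (jE E N q hd)).toRingHom
      (jE E N (q * q) hdd) Φ.Φ : FE E N) : LaurentSeries E)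
      = Polynomial.eval₂ ((algebraMap (FE E N) (LaurentSeries E)).comp
          (Polynomial.aeval (R := ℤ) (jE E N q hd)).toRingHom)
          ((jE E N (q * q) hdd : FE E N) : LaurentSeries E) Φ.Φ := h
  rw [h2, S36.H83.h83_coe_comp_aeval, S36.H83.h83_coe_jE, S36.H83.h83_coe_jE,
    ← qExpand_qExpand]
  exact h88_modPoly_eval_jpp E q Φ

/-- **Kronecker dichotomy** in a valuation ring of `F_N` containing `j_q` and lying over `q`. -/
theorem kron_dichotomy_gen (hq : q.Prime) (N : ℕ) (hd : q ∣ N) (hdd : q * q ∣ N)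
    (V : ValuationSubring (FE E N)) (hqV : ((q : ℕ) : FE E N) ∈ V.nonunits)
    (hj : jE E N q hd ∈ V) :
    (jE E N (q * q) hdd) ^ q - jE E N q hd ∈ V.nonunits ∨
      jE E N (q * q) hdd - (jE E N q hd) ^ q ∈ V.nonunits := by
  haveI : Fact q.Prime := ⟨hq⟩
  obtain ⟨Φ⟩ := Fermat.Agent.S28.H807.nonempty_modPolyData q hq
  obtain ⟨Θ, hΘ⟩ := h88_kronecker_int q Φ
  set φ : Polynomial ℤ →+* FE E N := (Polynomial.aeval (R := ℤ) (jE E N q hd)).toRingHom with hφ
  have hφV : ∀ c : Polynomial ℤ, φ c ∈ V := fun c => S36.H83.h83_aeval_mem V hj c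
  -- `j_{q²} ∈ V` (integrally closed)
  have hjj : jE E N (q * q) hdd ∈ V := by
    refine A2.H48.mem_of_monic_root V (Φ.monic.map φ) (fun i => ?_) ?_
    · rw [Polynomial.coeff_map]
      exact hφV _
    · rw [Polynomial.eval_map]
      exact modPoly_eval_jqq Φ N hd hdd
  have h0 := modPoly_eval_jqq (E := E) Φ N hd hdd
  rw [← hφ, hΘ, Polynomial.eval₂_add, Polynomial.eval₂_mul, Polynomial.eval₂_mul,
    Polynomial.eval₂_sub, Polynomial.eval₂_sub, Polynomial.eval₂_pow, Polynomial.eval₂_X,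
    Polynomial.eval₂_C, Polynomial.eval₂_C, Polynomial.eval₂_C] at h0
  have e1 : φ (Polynomial.X : Polynomial ℤ) = jE E N q hd := by
    rw [hφ]
    simp
  have e2 : φ ((Polynomial.X : Polynomial ℤ) ^ q) = (jE E N q hd) ^ q := by
    rw [map_pow, e1]
  have e3 : φ (Polynomial.C ((q : ℕ) : ℤ)) = ((q : ℕ) : FE E N) := by
    rw [hφ]
    simp
  rw [e1, e2, e3] at h0
  have hΘV : Θ.eval₂ φ (jE E N (q * q) hdd) ∈ V :=
    A2.Mod.H378.eval₂_mem_subring φ _ V.toSubring hφV hjj Θ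
  have hprod : ((jE E N (q * q) hdd) ^ q - jE E N q hd) *
      (jE E N (q * q) hdd - (jE E N q hd) ^ q) ∈ V.nonunits := by
    have e : ((jE E N (q * q) hdd) ^ q - jE E N q hd) *
        (jE E N (q * q) hdd - (jE E N q hd) ^ q)
        = -(((q : ℕ) : FE E N) * Θ.eval₂ φ (jE E N (q * q) hdd)) := by
      linear_combination h0
    rw [e]
    exact neg_mem_nonunits V (mul_mem_nonunits_left V hqV hΘV)
  exact mul_mem_nonunits_or V hprod

end Dichotomy

/-! ## The middle valuation ring from `mid` and `mid_ne` -/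

section MidOfNe

/-- **`π = j_{q²} - j ∈ 𝔪_{Vm}`** for every extension `Vm ≠ V∞` of `V∞(M q)` along `α`. -/
theorem pi_mem_of_ne
    (hcα : ∀ g : FE E (M * q), heckeAlphaBar E (M * q) q g ∈ Vm ↔ g ∈ V₁)
    (hS : Setting P E M q w) (hV₁ : IsVinf P E (M * q) V₁)
    {W₁ : FE E (M * q) ≃ₐ[E] FE E (M * q)} (hW₁ : IsFricke E (M * q) W₁)
    {VN : ValuationSubring (FE E (M * q * q))} (hVN : IsVinf P E (M * q * q) VN)
    (hne : Vm ≠ VN) : piMid E M q ∈ Vm.nonunits := by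
  haveI := hS.dvr
  have hq := hS.q_prime
  have hP := hS.lies_over
  have hqV := natCast_mem_of_comap hcα hP hV₁
  have hd1 : (1 : ℕ) ∣ M * q := one_dvd _
  have hdq : q ∣ M * q := dvd_mul_left q M
  have hdq1 : 1 * q ∣ M * q := mul_dvd_mul_right (one_dvd M) q
  have hdqq : q * q ∣ M * q * q := Dvd.intro_left M (mul_assoc M q q).symm
  -- the three generators at level `M q²`
  set c : FE E (M * q * q) := jE E (M * q * q) 1 (one_dvd _) with hc
  set a : FE E (M * q * q) := jE E (M * q * q) q (hdq.trans (dvd_mul_right _ q)) with ha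
  set b : FE E (M * q * q) := jE E (M * q * q) (q * q) hdqq with hb
  have hcV : c ∈ Vm := jE_mem_of_comap hcα hV₁ 1 hd1
  have haV : a ∈ Vm := jE_mem_of_comap hcα hV₁ q hdq
  have hA : a - c ^ q ∈ Vm.nonunits := by
    have h1 := kronA_of_comap hcα hq hP hV₁ 1 (one_dvd M)
    have e : jE E (M * q * q) (1 * q)
        ((mul_dvd_mul_right (one_dvd M) q).trans (dvd_mul_right _ q)) = a :=
      jE_congr (M * q * q) (one_mul q) _ _
    rw [e] at h1
    exact h1
  have hbV : b ∈ Vm := by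
    obtain ⟨Φ⟩ := Fermat.Agent.S28.H807.nonempty_modPolyData q hq
    refine A2.H48.mem_of_monic_root Vm
      (Φ.monic.map (Polynomial.aeval (R := ℤ) a).toRingHom) (fun i => ?_) ?_
    · rw [Polynomial.coeff_map]
      exact S36.H83.h83_aeval_mem Vm haV _
    · rw [Polynomial.eval_map]
      exact modPoly_eval_jqq Φ (M * q * q) _ hdqq
  have hπ : piMid E M q = b - c := rfl
  rw [hπ]
  rcases kron_dichotomy_gen hq (M * q * q) (hdq.trans (dvd_mul_right _ q)) hdqq Vm hqV haV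
    with h | h
  · -- `j_{q²} ^ q ≡ j_q ≡ j ^ q`
    refine sub_mem_nonunits_of_pow Vm hq hqV hbV hcV ?_
    have e : b ^ q - c ^ q = (b ^ q - a) + (a - c ^ q) := by ring
    rw [e]
    exact add_mem_nonunits Vm h hA
  · -- `j_{q²} ≡ j_q ^ q`: then `Vm = V∞`
    exfalso
    have hB : b - a ^ q ∈ Vm.nonunits := h
    -- Gauss property of `Vm.comap β`
    set u₀ : FE E (M * q) := (jE E (M * q) 1 hd1) ^ (q * (q + 1)) with hu₀
    have hpos : 0 < q * (q + 1) := Nat.mul_pos hq.pos (Nat.succ_pos q)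
    have hpol : A2.Mod.H13.IsPolar E (M * q) u₀ (q * (q + 1)) := by
      have := isPolar_pow (A2.Mod.H13.isPolar_jE (E := E) (N := M * q) 1 hd1) (q * (q + 1))
      rwa [mul_one] at this
    have htr : Transcendental E u₀ :=
      (transcendental_jE (E := E) (M * q) 1 hd1).pow hpos
    have hx : heckeBetaBar E (M * q) q (xE E M q) - heckeAlphaBar E (M * q) q u₀
        ∈ Vm.nonunits := by
      have e1 : heckeBetaBar E (M * q) q (xE E M q) = a * b := by
        rw [xE, map_mul]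
        have hb1 := A2.Mod.H553.βE_jE E (M * q) q 1 hd1
        have hb2 := A2.Mod.H553.βE_jE E (M * q) q q hdq
        rw [show heckeBetaBar E (M * q) q = βE E (M * q) q from rfl, hb1, hb2]
        congr 1
        exact jE_congr (M * q * q) (one_mul q) _ _
      have e2 : heckeAlphaBar E (M * q) q u₀ = c ^ q * (c ^ q) ^ q := by
        rw [hu₀, map_pow, show heckeAlphaBar E (M * q) q = αE E (M * q) q from rfl,
          A2.Mod.H553.αE_jE E (M * q) q 1 hd1]
        rw [← pow_mul, ← _root_.pow_add]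
        congr 1
        ring
      rw [e1, e2]
      refine mul_sub_mul_mem_nonunits Vm (Vm.pow_mem hcV q) hbV hA ?_
      have e : b - (c ^ q) ^ q = (b - a ^ q) + (a ^ q - (c ^ q) ^ q) := by ring
      rw [e]
      exact add_mem_nonunits Vm hB
        (pow_sub_pow_mem_nonunits Vm haV (Vm.pow_mem hcV q) hA q)
    have hG := isGaussOver_comap_beta_of_cong hcα hS hV₁ hpos hpol htr hx
    rcases eq_or_eq_of_isGaussOver hS hV₁ hW₁ hG with hU | hU
    · -- `Vm.comap β = V∞(M q)`: uniqueness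
      apply hne
      refine S36.H83.h83_beta_unique hS.dvr hS.unif hq hdq hV₁ hVN Vm (fun f => ?_)
      have h2 : f ∈ Vm.comap (heckeBetaBar E (M * q) q : FE E (M * q) →+* FE E (M * q * q))
          ↔ f ∈ V₁ := by rw [hU]
      rw [ValuationSubring.mem_comap] at h2
      exact h2
    · -- `Vm.comap β = V₀(M q)`: Kronecker unit
      have hg : jE E (M * q) (1 * q) hdq1 - (jE E (M * q) 1 hd1) ^ q
          ∈ (Vm.comap (heckeBetaBar E (M * q) q :
              FE E (M * q) →+* FE E (M * q * q))).nonunits := by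
        rw [mem_nonunits_comap_iff]
        have e : (heckeBetaBar E (M * q) q : FE E (M * q) →+* FE E (M * q * q))
            (jE E (M * q) (1 * q) hdq1 - (jE E (M * q) 1 hd1) ^ q) = b - a ^ q := by
          show heckeBetaBar E (M * q) q _ = _
          rw [map_sub, map_pow, show heckeBetaBar E (M * q) q = βE E (M * q) q from rfl,
            A2.Mod.H553.βE_jE E (M * q) q (1 * q) hdq1, A2.Mod.H553.βE_jE E (M * q) q 1 hd1]
          congr 1
          · exact jE_congr (M * q * q) (by rw [one_mul]) _ _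
          · congr 1
            exact jE_congr (M * q * q) (one_mul q) _ _
        rw [e]
        exact hB
      rw [hU, mem_nonunits_comap_iff] at hg
      have hdM : M ∣ M * q := dvd_mul_right M q
      have hdMq : M * q ∣ M * q := dvd_rfl
      have hw1 : W₁ (jE E (M * q) (1 * q) hdq1) = jE E (M * q) M hdM :=
        hW₁.1 (1 * q) M hdq1 hdM (by ring)
      have hw2 : W₁ (jE E (M * q) 1 hd1) = jE E (M * q) (M * q) hdMq :=
        hW₁.1 1 (M * q) hd1 hdMq (by ring)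
      have hg' : jE E (M * q) M hdM - (jE E (M * q) (M * q) hdMq) ^ q ∈ V₁.nonunits := by
        have e : (W₁ : FE E (M * q) →+* FE E (M * q))
            (jE E (M * q) (1 * q) hdq1 - (jE E (M * q) 1 hd1) ^ q)
            = jE E (M * q) M hdM - (jE E (M * q) (M * q) hdMq) ^ q := by
          show W₁ _ = _
          rw [map_sub, map_pow, hw1, hw2]
        rw [← e]
        exact hg
      obtain ⟨hne0, hinv⟩ := kron_unit_jE hq hV₁ M hdM hdMq
      have hg'' : (jE E (M * q) (M * q) hdMq) ^ q - jE E (M * q) M hdM ∈ V₁.nonunits := by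
        have e : (jE E (M * q) (M * q) hdMq) ^ q - jE E (M * q) M hdM
            = -(jE E (M * q) M hdM - (jE E (M * q) (M * q) hdMq) ^ q) := by ring
        rw [e]
        exact neg_mem_nonunits V₁ hg'
      rw [ValuationSubring.mem_nonunits_iff_or] at hg''
      rcases hg'' with h4 | h4
      · exact hne0 h4
      · exact h4 hinv

/-- **Every extension `Vm ≠ V∞` of `V∞(M q)` along `α` is a middle valuation ring.** -/
theorem isMid_of_ne
    (hcα : ∀ g : FE E (M * q), heckeAlphaBar E (M * q) q g ∈ Vm ↔ g ∈ V₁)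
    (hS : Setting P E M q w) (hV₁ : IsVinf P E (M * q) V₁)
    {W₁ : FE E (M * q) ≃ₐ[E] FE E (M * q)} (hW₁ : IsFricke E (M * q) W₁)
    {VN : ValuationSubring (FE E (M * q * q))} (hVN : IsVinf P E (M * q * q) VN)
    (hne : Vm ≠ VN) : IsMid V₁ Vm :=
  ⟨hcα, pi_mem_of_ne hcα hS hV₁ hW₁ hVN hne⟩

end MidOfNe

end Fermat.Agent.S36.H816

end

end
-- ===== PACK-END S36/H816/SymDich.lean

-- ===== PACK-BEGIN S36/Mod3/H816/Table.lean
section



/-!
# S36 / MOD3 leaf TABLE (helper816): `leafTable : Mod3.LeafTable`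

The six `comap` fields of `Eng.TripleCtx` for the concrete objects of `Mod3.Objs`:

* rows FF (`V₁ = V∞`) : Gauss integrality of `f(t) ↦ f(t)`, `f(t) ↦ f(t^q)`        (`SymBase`);
* rows VV (`V₃ = V∞ ∘ W`) : Fricke compatibility `W ∘ α = β ∘ W'`, `W ∘ β = α ∘ W'`  (`SymBase`);
* row MID, `α` : `Objs.mid`;
* row MID, `β` : `Objs.mid` + `Objs.mid_ne` ⟹ `j_{q²} ≡ j` (Kronecker dichotomy + uniqueness of
  `V∞` over `β(V∞)`, helper83) ⟹ `V₂.comap β` is Gauss on `E(j j_q)`, hence `V∞` or `V₀`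
  (two-extension theorem of level `M q`), and `V∞` is excluded by the Kronecker unit.
-/

set_option autoImplicit false
set_option linter.unusedSectionVars false
set_option linter.style.haveILetI false
set_option synthInstance.maxHeartbeats 400000
set_option maxHeartbeats 1600000

noncomputable section

namespace Fermat.Agent.S36.Mod3.H816

open ModularCurve
open Fermat.Agent Fermat.Agent.S36.H816

/-- The standing hypotheses of MOD3 give the `Setting` of A2/Mod. -/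
theorem setting_of_std {P : ValuationSubring A2.Qb} {E : IntermediateField ℚ A2.Qb} {M q : ℕ}
    [NeZero M] [NeZero q] [NeZero (M * q)] {w : A2.RE P E} (h : Mod3.Std P E M q w) :
    A2.Mod.Setting P E M q w :=
  ⟨h.q_prime, h.q_not_dvd, NeZero.ne M, h.lies_over, h.unram.1.dvr, h.unif⟩

/-- **MOD3 leaf TABLE.** -/
theorem leafTable : Mod3.LeafTable := by
  intro P E M q _ _ _ w hStd V₁' V₂' V₁ V₂ V₃ W' W hO
  have hS : A2.Mod.Setting P E M q w := setting_of_std hStd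
  haveI := hS.dvr
  have hcα : ∀ g : A2.Mod.FE E (M * q),
      heckeAlphaBar E (M * q) q g ∈ V₂ ↔ g ∈ V₁' := fun g => by
    have h := hO.mid
    have h2 : g ∈ V₂.comap (A2.Mod.αE E (M * q) q :
        A2.Mod.FE E (M * q) →+* A2.Mod.FE E (M * q * q)) ↔ g ∈ V₁' := by rw [h]
    rw [ValuationSubring.mem_comap] at h2
    exact h2
  have hmid : IsMid V₁' V₂ := isMid_of_ne hcα hS hO.vinf' hO.fricke' hO.vinf hO.mid_ne
  refine ⟨?_, hO.mid, ?_, ?_, ?_, ?_⟩
  · ext g
    rw [ValuationSubring.mem_comap]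
    exact alpha_mem_iff hO.vinf' hO.vinf g
  · rw [hO.vzero, hO.vzero']
    ext g
    rw [ValuationSubring.mem_comap]
    exact alpha_mem_comap_iff hO.vinf' hO.vinf hO.fricke' hO.fricke g
  · ext g
    rw [ValuationSubring.mem_comap]
    exact beta_mem_iff hO.vinf' hO.vinf g
  · rw [hO.vzero']
    exact hmid.comap_beta_eq hS hO.vinf' hO.fricke'
  · rw [hO.vzero, hO.vzero']
    ext g
    rw [ValuationSubring.mem_comap]
    exact beta_mem_comap_iff hO.vinf' hO.vinf hO.fricke' hO.fricke g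

end Fermat.Agent.S36.Mod3.H816

end

end
-- ===== PACK-END S36/Mod3/H816/Table.lean

-- ===== PACK-BEGIN S36/Mod3/H27/RegMid4.lean
section





/-!
# MOD3 / REG, route R4 with `t₄`, CONCRETE, `q` odd (helper27): `PrincipalAt` on the middle
component of the finite chart

Mirror of helper890's `Reg9.lean` + `RegMid9.lean` (`q = 2`, Hauptmodul `t₉`) for `q` odd with the
Hauptmodul `t₄` of `Γ₀(4)` (`4 ∣ M` by `Eng.NeatFor`), on top of

* helper878 `RegSelf.lean`  (`principalAt_of_unit_self'`, PU-self from `Qep3`),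
* helper994 `Plug4.lean`    (`reg4_hres`: transfer of the residue from `j` to `t₄`, all Gauss
                             units discharged), `Chart4.lean` (`t₄`, `g₄ = t₄² (t₄ + 16)⁵` in charts),
* helper816 `IsMid.gen_cong` (FROB: `j_{d q²} ≡ j_d mod 𝔪_{V₂}`, `d ∣ M`).

`principalAt_mid_t4` : Concrete objects of `Mod3/Spec.lean` (`Std`, `Objs`), `4 ∣ M`, `q ≠ 2`.
Hypotheses = EXACTLY (R-U) + (R-RES) of LEAFREG PLAN v2 and `Qep3`, `chart ⊆ V_i`; conclusion:
the middle component of the finite chart is principal at EVERY closed point through which it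
passes (triple points included), generator `x = t₄(t^{q²}) - t₄`.

`principalAt_mid_t4_conc` : the same in the delivered shapes of (R-U) (helper356 `PartRegU`) and
(R-RES) (conclusion of helper922 `h922_hres_mid` at `M₁ = M q`, `V = V₂`); TEXTUALLY the
hypotheses of helper890's `principalAt_mid_t9_conc`.
-/

set_option autoImplicit false
set_option linter.style.haveILetI false
set_option linter.unusedSectionVars false
set_option synthInstance.maxHeartbeats 400000
set_option maxHeartbeats 1600000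

noncomputable section

namespace Fermat.Agent.S36.Mod3.H27

open ModularCurve
open Fermat.Agent Fermat.Agent.A2.Mod Fermat.Agent.S36.Eng
open Fermat.Agent.S18.H138 (chart)
open Fermat.Agent.S36.H816

/-! ## Generalities -/

/-- `q ∈ 𝔪_V`, `n` prime to `q` ⟹ `n⁻¹ ∈ V`. -/
theorem natCast_inv_mem_of_coprime27 {L : Type*} [Field L] (V : ValuationSubring L) {q n : ℕ}
    (hq : ((q : ℕ) : L) ∈ V.nonunits) (hqn : Nat.Coprime q n) : ((n : ℕ) : L)⁻¹ ∈ V := by
  by_contra hn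
  have hnV : ((n : ℕ) : L) ∈ V.nonunits := by
    rw [ValuationSubring.mem_nonunits_iff_or]
    by_cases h0 : ((n : ℕ) : L) = 0
    · exact Or.inl h0
    · exact Or.inr hn
  have h1 : (1 : L) = ((Nat.gcdA q n : ℤ) : L) * ((q : ℕ) : L)
      + ((Nat.gcdB q n : ℤ) : L) * ((n : ℕ) : L) := by
    have h := Nat.gcd_eq_gcd_ab q n
    rw [hqn] at h
    have h' := congrArg (fun z : ℤ => (z : L)) h
    simp only [Nat.cast_one, Int.cast_one, Int.cast_add, Int.cast_mul, Int.cast_natCast] at h'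
    rw [h']
    ring
  have h2 : (1 : L) ∈ V.nonunits := by
    rw [h1]
    exact add_mem_nonunits V (mul_mem_nonunits_right V (intCast_mem V _) hq)
      (mul_mem_nonunits_right V (intCast_mem V _) hnV)
  rw [ValuationSubring.mem_nonunits_iff, map_one] at h2
  exact lt_irrefl _ h2

/-- An element with an inverse does not lie in a proper ideal. -/
theorem not_mem_of_mul_eq_one27 {B : Type*} [CommRing B] {g g' : B} (h : g * g' = 1)
    (𝔪 : Ideal B) (h𝔪 : 𝔪 ≠ ⊤) : g ∉ 𝔪 := by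
  intro hg
  apply h𝔪
  rw [Ideal.eq_top_iff_one, ← h]
  exact 𝔪.mul_mem_right g' hg

/-! ## The map `γ = β ∘ β` on the generators -/

section Gamma

variable (E : IntermediateField ℚ A2.Qb) (M q : ℕ) [NeZero M] [NeZero q] [NeZero (M * q)]

theorem γ4_jE27 (d : ℕ) [NeZero d] (hd : d ∣ M) :
    haveI : NeZero (d * q * q) :=
      ⟨mul_ne_zero (mul_ne_zero (NeZero.ne d) (NeZero.ne q)) (NeZero.ne q)⟩
    Fermat.Agent.S36.H994.γ4 E M q (jE E M d hd)
      = jE E (M * q * q) (d * q * q) (mul_dvd_mul_right (mul_dvd_mul_right hd q) q) := by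
  haveI : NeZero (d * q) := ⟨mul_ne_zero (NeZero.ne d) (NeZero.ne q)⟩
  rw [Fermat.Agent.S36.H994.γ4_apply, H553.βE_jE E M q d hd,
    H553.βE_jE E (M * q) q (d * q)]

end Gamma

/-! ## The middle valuation ring -/

section Main

variable {P : ValuationSubring A2.Qb} {E : IntermediateField ℚ A2.Qb} {M q : ℕ}
  [NeZero M] [NeZero q] [NeZero (M * q)] {w : A2.RE P E}
  {V₁' V₂' : ValuationSubring (FE E (M * q))}
  {V₁ V₂ V₃ : ValuationSubring (FE E (M * q * q))}
  {W' : FE E (M * q) ≃ₐ[E] FE E (M * q)}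
  {W : FE E (M * q * q) ≃ₐ[E] FE E (M * q * q)}

/-- `Objs.V₂` is a middle valuation ring in the sense of helper816. -/
theorem isMid_of_objs27 (hStd : Mod3.Std P E M q w)
    (hO : Mod3.Objs P E M q V₁' V₂' V₁ V₂ V₃ W' W) : IsMid V₁' V₂ := by
  have hS : Setting P E M q w := Mod3.H816.setting_of_std hStd
  haveI := hS.dvr
  have hcα : ∀ g : FE E (M * q), heckeAlphaBar E (M * q) q g ∈ V₂ ↔ g ∈ V₁' := fun g => by
    have h := hO.mid
    have h2 : g ∈ V₂.comap (αE E (M * q) q : FE E (M * q) →+* FE E (M * q * q)) ↔ g ∈ V₁' := by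
      rw [h]
    rw [ValuationSubring.mem_comap] at h2
    exact h2
  exact isMid_of_ne hcα hS hO.vinf' hO.fricke' hO.vinf hO.mid_ne

/-- FROB on the middle component: `γ(j_d) ≡ φ(j_d) mod 𝔪_{V₂}` for `d ∣ M`. -/
theorem frob_mid27 (hStd : Mod3.Std P E M q w)
    (hO : Mod3.Objs P E M q V₁' V₂' V₁ V₂ V₃ W' W) (d : ℕ) [NeZero d] (hd : d ∣ M) :
    Fermat.Agent.S36.H994.γ4 E M q (jE E M d hd)
      - Fermat.Agent.S36.H994.φ4 E M q (jE E M d hd) ∈ V₂.nonunits := by
  have hS : Setting P E M q w := Mod3.H816.setting_of_std hStd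
  haveI := hS.dvr
  have hmid : IsMid V₁' V₂ := isMid_of_objs27 hStd hO
  rw [γ4_jE27, Fermat.Agent.S36.H994.φ4_jE]
  exact hmid.gen_cong hS hO.vinf' hO.fricke' d hd

/-- `2⁻¹ ∈ chart R S` at level `M q²` when `q` is odd. -/
theorem two_inv_mem_chart27 (hStd : Mod3.Std P E M q w) (hq2 : q ≠ 2)
    (S : Set (FE E (M * q * q))) :
    (2 : FE E (M * q * q))⁻¹ ∈ _root_.Fermat.Agent.S18.H138.chart (A2.RE P E) S := by
  have hS : Setting P E M q w := Mod3.H816.setting_of_std hStd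
  haveI := hS.dvr
  have hcop : Nat.Coprime q 2 := (Nat.coprime_primes hStd.q_prime Nat.prime_two).2 hq2
  have hP : ((2 : ℕ) : A2.Qb)⁻¹ ∈ P := natCast_inv_mem_of_coprime27 P hStd.lies_over hcop
  have hE : ((2 : E))⁻¹ ∈ A2.RE P E := by
    show algebraMap E A2.Qb ((2 : E))⁻¹ ∈ P
    rw [map_inv₀, map_ofNat]
    rwa [Nat.cast_ofNat] at hP
  have h := Subalgebra.algebraMap_mem (_root_.Fermat.Agent.S18.H138.chart (A2.RE P E) S) (⟨(2 : E)⁻¹, hE⟩ : A2.RE P E)
  rw [H13.algebraMap_RE_eq] at h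
  rwa [map_inv₀, map_ofNat] at h

/-- **MOD3 / REG, route R4 with `t₄`, concrete, `q` odd.**  With `4 ∣ M` (case `q ≠ 2` of
`NeatFor`), the middle component of the finite chart is principal at EVERY closed point through
which it passes, given (R-U) and (R-RES) of LEAFREG PLAN v2 (`U = U_m`, `6 kk = 12 (q - 1)`). -/
theorem principalAt_mid_t4 (hStd : Mod3.Std P E M q w)
    (hO : Mod3.Objs P E M q V₁' V₂' V₁ V₂ V₃ W' W) (h4 : 4 ∣ M) (hq2 : q ≠ 2)
    (hB₁ : ∀ b : _root_.Fermat.Agent.S18.H138.chart (A2.RE P E) ({Mod3.x3E E M q} : Set (FE E (M * q * q))),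
      (b : FE E (M * q * q)) ∈ V₁)
    (hB₂ : ∀ b : _root_.Fermat.Agent.S18.H138.chart (A2.RE P E) ({Mod3.x3E E M q} : Set (FE E (M * q * q))),
      (b : FE E (M * q * q)) ∈ V₂)
    (hB₃ : ∀ b : _root_.Fermat.Agent.S18.H138.chart (A2.RE P E) ({Mod3.x3E E M q} : Set (FE E (M * q * q))),
      (b : FE E (M * q * q)) ∈ V₃)
    (hqep : Qep3 w (_root_.Fermat.Agent.S18.H138.chart (A2.RE P E) ({Mod3.x3E E M q} : Set (FE E (M * q * q)))) V₁ V₂ V₃)
    (𝔪 : Ideal (_root_.Fermat.Agent.S18.H138.chart (A2.RE P E) ({Mod3.x3E E M q} : Set (FE E (M * q * q)))))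
    (h𝔪 : 𝔪 ≠ ⊤) (hthr : Through _ 𝔪 V₂)
    -- (R-U)
    (U d : _root_.Fermat.Agent.S18.H138.chart (A2.RE P E) ({Mod3.x3E E M q} : Set (FE E (M * q * q)))) (k kk : ℕ)
    (hkk : 0 < kk)
    (hUd : U * d = algebraMap (A2.RE P E) _ w ^ k)
    (hU₁ : (U : FE E (M * q * q))⁻¹ ∈ V₁) (hU₃ : (U : FE E (M * q * q))⁻¹ ∈ V₃)
    (t : FE E (M * q * q)) (ht : UnifAt V₂ t)
    (hU₂ : UnitAt V₂ ((U : FE E (M * q * q)) * (t ^ (6 * kk))⁻¹))
    -- (R-RES)
    (hres : ((Mod3.jqq E M q - Mod3.j1 E M q) ^ (6 * kk)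
        - (Mod3.j1 E M q ^ 4 * (Mod3.j1 E M q - 1728) ^ 3) ^ kk * (U : FE E (M * q * q)))
          * (U : FE E (M * q * q))⁻¹ ∈ V₂.nonunits) :
    PrincipalAt (_root_.Fermat.Agent.S18.H138.chart (A2.RE P E) ({Mod3.x3E E M q} : Set (FE E (M * q * q)))) 𝔪 V₂ := by
  have hS : Setting P E M q w := Mod3.H816.setting_of_std hStd
  haveI := hS.dvr
  have h2 : 2 ∣ M := Dvd.dvd.trans (by norm_num) h4
  haveI : NeZero (1 * q * q) := ⟨mul_ne_zero (mul_ne_zero one_ne_zero (NeZero.ne q)) (NeZero.ne q)⟩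
  haveI : NeZero (q * q) := ⟨mul_ne_zero (NeZero.ne q) (NeZero.ne q)⟩
  have hw0 : algebraMap (A2.RE P E) (FE E (M * q * q)) w ≠ 0 := by
    rw [H13.algebraMap_RE_eq]
    refine (map_ne_zero_iff _ (algebraMap E (FE E (M * q * q))).injective).mpr ?_
    intro h
    exact hStd.unif.ne_zero (Subtype.ext h)
  -- FROB
  have c1 := frob_mid27 hStd hO 1 (one_dvd M)
  have c2 := frob_mid27 hStd hO 2 h2
  have c4 := frob_mid27 hStd hO 4 h4
  -- the two `j`s
  have eφ : Fermat.Agent.S36.H994.φ4 E M q (jE E M 1 (one_dvd M)) = Mod3.j1 E M q := by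
    rw [Fermat.Agent.S36.H994.φ4_jE]
    rfl
  have eγ : Fermat.Agent.S36.H994.γ4 E M q (jE E M 1 (one_dvd M)) = Mod3.jqq E M q := by
    rw [γ4_jE27,
      jE_congr (M * q * q) (show 1 * q * q = q * q by rw [one_mul]) _
        (Dvd.intro_left M (mul_assoc M q q).symm)]
    rfl
  -- transfer of the residue
  have hres4 := Fermat.Agent.S36.H994.reg4_hres hO.vinf' hO.mid h4 c1 c2 c4
    (U : FE E (M * q * q)) kk (by rw [eγ, eφ]; exact hres)
  -- chart membership
  have hj₁B := Mod3.H189.j1_mem_chart P E M q hStd.q_prime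
  have hj₂B := Mod3.H189.jqq_mem_chart' P E M q hStd.q_prime
  have h2B := two_inv_mem_chart27 hStd hq2 ({Mod3.x3E E M q} : Set (FE E (M * q * q)))
  have hJ₁ : Mod3.j1 E M q
        * (Fermat.Agent.S36.H994.φ4 E M q (Fermat.Agent.S36.H994.t4E E M h4) ^ 4
          * (Fermat.Agent.S36.H994.φ4 E M q (Fermat.Agent.S36.H994.t4E E M h4) + 16))
      = (Fermat.Agent.S36.H994.φ4 E M q (Fermat.Agent.S36.H994.t4E E M h4) ^ 2
          + 256 * Fermat.Agent.S36.H994.φ4 E M q (Fermat.Agent.S36.H994.t4E E M h4)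
          + 4096) ^ 3 := by
    have h := congrArg (Fermat.Agent.S36.H994.φ4 E M q) (Fermat.Agent.S36.H994.jE_mul_t4E E M h4)
    simp only [map_mul, map_pow, map_add, map_ofNat] at h
    rw [eφ] at h
    exact h
  have hJ₂ : Mod3.jqq E M q
        * (Fermat.Agent.S36.H994.γ4 E M q (Fermat.Agent.S36.H994.t4E E M h4) ^ 4
          * (Fermat.Agent.S36.H994.γ4 E M q (Fermat.Agent.S36.H994.t4E E M h4) + 16))
      = (Fermat.Agent.S36.H994.γ4 E M q (Fermat.Agent.S36.H994.t4E E M h4) ^ 2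
          + 256 * Fermat.Agent.S36.H994.γ4 E M q (Fermat.Agent.S36.H994.t4E E M h4)
          + 4096) ^ 3 := by
    have h := congrArg (Fermat.Agent.S36.H994.γ4 E M q) (Fermat.Agent.S36.H994.jE_mul_t4E E M h4)
    simp only [map_mul, map_pow, map_add, map_ofNat] at h
    rw [eγ] at h
    exact h
  have hh₁B := Fermat.Agent.S36.H994.mem_chart_of_rel4
    ({Mod3.x3E E M q} : Set (FE E (M * q * q))) hj₁B hJ₁
  have hh₂B := Fermat.Agent.S36.H994.mem_chart_of_rel4
    ({Mod3.x3E E M q} : Set (FE E (M * q * q))) hj₂B hJ₂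
  -- the unit `g₄ ^ kk` of the chart
  have hgB : (Fermat.Agent.S36.H994.φ4 E M q (Fermat.Agent.S36.H994.t4E E M h4) ^ 2
      * (Fermat.Agent.S36.H994.φ4 E M q (Fermat.Agent.S36.H994.t4E E M h4) + 16) ^ 5) ^ kk
      ∈ _root_.Fermat.Agent.S18.H138.chart (A2.RE P E) ({Mod3.x3E E M q} : Set (FE E (M * q * q))) :=
    pow_mem (Fermat.Agent.S36.H994.g4_mem_of_mem _ hh₁B) kk
  have hgB' : ((Fermat.Agent.S36.H994.φ4 E M q (Fermat.Agent.S36.H994.t4E E M h4) ^ 2
      * (Fermat.Agent.S36.H994.φ4 E M q (Fermat.Agent.S36.H994.t4E E M h4) + 16) ^ 5) ^ kk)⁻¹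
      ∈ _root_.Fermat.Agent.S18.H138.chart (A2.RE P E) ({Mod3.x3E E M q} : Set (FE E (M * q * q))) :=
    Fermat.Agent.S36.H994.g4_pow_inv_mem_of_rel4 _ hj₁B hh₁B h2B hJ₁ kk
  have hg0 : (Fermat.Agent.S36.H994.φ4 E M q (Fermat.Agent.S36.H994.t4E E M h4) ^ 2
      * (Fermat.Agent.S36.H994.φ4 E M q (Fermat.Agent.S36.H994.t4E E M h4) + 16) ^ 5) ^ kk ≠ 0 :=
    pow_ne_zero kk (Fermat.Agent.S36.H994.g4_ne_zero_of_rel4 hJ₁)
  have hgg' : (⟨_, hgB⟩ : _root_.Fermat.Agent.S18.H138.chart (A2.RE P E) ({Mod3.x3E E M q} : Set (FE E (M * q * q))))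
      * ⟨_, hgB'⟩ = 1 := Subtype.ext (mul_inv_cancel₀ hg0)
  have hg := not_mem_of_mul_eq_one27 hgg' 𝔪 h𝔪
  exact Fermat.Agent.S36.H878.principalAt_of_unit_self' w _ V₁ V₂ V₃ hw0 hB₁ hB₂ hB₃ hqep 𝔪 hthr
    ((⟨_, hh₂B⟩ : _root_.Fermat.Agent.S18.H138.chart (A2.RE P E) ({Mod3.x3E E M q} : Set (FE E (M * q * q)))) - ⟨_, hh₁B⟩)
    U d ⟨_, hgB⟩ k (6 * kk) (by omega) hUd hU₁ hU₃ t ht hU₂ hg hres4

/-- **The same in the delivered shapes** of (R-U) (helper356 `PartRegU`, `U₀ = U_m`) and (R-RES)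
(helper922 `h922_hres_mid` at `M₁ = M q`, `V = V₂`): the finite half `regular_f` of
`Mod3.PartReg` (middle disjunct) when `4 ∣ M`, `q ≠ 2`.  Hypotheses TEXTUALLY as in helper890's
`principalAt_mid_t9_conc`. -/
theorem principalAt_mid_t4_conc (hStd : Mod3.Std P E M q w)
    (hO : Mod3.Objs P E M q V₁' V₂' V₁ V₂ V₃ W' W) (h4 : 4 ∣ M) (hq2 : q ≠ 2)
    (hB₁ : ∀ b : _root_.Fermat.Agent.S18.H138.chart (A2.RE P E) ({Mod3.x3E E M q} : Set (FE E (M * q * q))),
      (b : FE E (M * q * q)) ∈ V₁)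
    (hB₂ : ∀ b : _root_.Fermat.Agent.S18.H138.chart (A2.RE P E) ({Mod3.x3E E M q} : Set (FE E (M * q * q))),
      (b : FE E (M * q * q)) ∈ V₂)
    (hB₃ : ∀ b : _root_.Fermat.Agent.S18.H138.chart (A2.RE P E) ({Mod3.x3E E M q} : Set (FE E (M * q * q))),
      (b : FE E (M * q * q)) ∈ V₃)
    (hqep : Qep3 w (_root_.Fermat.Agent.S18.H138.chart (A2.RE P E) ({Mod3.x3E E M q} : Set (FE E (M * q * q)))) V₁ V₂ V₃)
    (hunif : ∃ t : FE E (M * q * q), UnifAt V₂ t)
    -- (R-U)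
    (U₀ : FE E (M * q * q)) (k : ℕ)
    (hpair : ∃ U d : _root_.Fermat.Agent.S18.H138.chart (A2.RE P E) ({Mod3.x3E E M q} : Set (FE E (M * q * q))),
      (U : FE E (M * q * q)) = U₀ ∧ U * d = algebraMap (A2.RE P E) _ w ^ k)
    (hU₁ : U₀⁻¹ ∈ V₁) (hU₃ : U₀⁻¹ ∈ V₃)
    (hU₂ : ∀ t : FE E (M * q * q), UnifAt V₂ t → UnitAt V₂ (U₀ * (t ^ (12 * (q - 1)))⁻¹))
    -- (R-RES)
    (hqM : q ∣ M * q)
    (hres : ((βE E (M * q) q (jE E (M * q) q hqM)
          - αE E (M * q) q (jE E (M * q) 1 (one_dvd _))) ^ (12 * (q - 1))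
        - αE E (M * q) q ((jE E (M * q) 1 (one_dvd _) ^ 4
            * (jE E (M * q) 1 (one_dvd _) - 1728) ^ 3) ^ (2 * (q - 1))) * U₀) * U₀⁻¹
      ∈ V₂.nonunits)
    (𝔪 : Ideal (_root_.Fermat.Agent.S18.H138.chart (A2.RE P E) ({Mod3.x3E E M q} : Set (FE E (M * q * q)))))
    (h𝔪 : 𝔪.IsMaximal) (hthr : Through _ 𝔪 V₂) :
    PrincipalAt (_root_.Fermat.Agent.S18.H138.chart (A2.RE P E) ({Mod3.x3E E M q} : Set (FE E (M * q * q)))) 𝔪 V₂ := by
  obtain ⟨t, ht⟩ := hunif
  obtain ⟨U, d, hUeq, hUd⟩ := hpair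
  have hq1 : 0 < 2 * (q - 1) := by
    have := hStd.q_prime.two_le
    omega
  have e6 : 6 * (2 * (q - 1)) = 12 * (q - 1) := by ring
  haveI : NeZero (q * q) := ⟨mul_ne_zero (NeZero.ne q) (NeZero.ne q)⟩
  have ejqq : βE E (M * q) q (jE E (M * q) q hqM) = Mod3.jqq E M q := by
    rw [H553.βE_jE E (M * q) q q hqM]
    rfl
  have ej1 : αE E (M * q) q (jE E (M * q) 1 (one_dvd _)) = Mod3.j1 E M q := by
    rw [H553.αE_jE E (M * q) q 1 (one_dvd _)]
    rfl
  refine principalAt_mid_t4 hStd hO h4 hq2 hB₁ hB₂ hB₃ hqep 𝔪 h𝔪.ne_top hthr U d k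
    (2 * (q - 1)) hq1 hUd (by rw [hUeq]; exact hU₁) (by rw [hUeq]; exact hU₃) t ht
    (by rw [hUeq, e6]; exact hU₂ t ht) ?_
  rw [hUeq, e6]
  rw [ejqq, map_pow, map_mul, map_pow, map_pow, map_sub, map_ofNat, ej1] at hres
  exact hres

end Main

end Fermat.Agent.S36.Mod3.H27

end

end
-- ===== PACK-END S36/Mod3/H27/RegMid4.lean

-- ===== PACK-BEGIN S36/Mod3/H775/ResJ.lean
section




/-!
# S36 / MOD3 / REG — (R-RES) on the concrete objects (helper775)

`hresJ : Std → Objs → (π^(12(q-1)) - α(e) · U_m) · U_m⁻¹ ∈ 𝔪_{V₂}`, the conclusion of helper922's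
`h922_hres_mid` at `M₁ = M q`, `V = V₂`, `U_m = H356.Um E M q = α(D)/β(D)`, UNCONDITIONAL;
TEXTUALLY the hypothesis `hres` of `H27.principalAt_mid_t4_conc` / `H890.principalAt_mid_t9_conc`
with `U₀ = H356.Um E M q`, `hqM = dvd_mul_left q M`.

Inputs: `Res.eis_mid` (`hEis`, this directory), `H438.dE_unit_vzero` + `comap_β₂` (`β(D)` is a unit
of `V₂`), the Gauss unit `j^(q²) - j`, `q ∈ 𝔪_{V₂}`.
-/

set_option autoImplicit false
set_option linter.unusedSectionVars false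
set_option linter.style.haveILetI false
set_option synthInstance.maxHeartbeats 400000
set_option maxHeartbeats 1600000

noncomputable section

namespace Fermat.Agent.S36.Mod3.H775.Res

open ModularCurve Polynomial Fermat.Agent.A2.Mod
open Fermat.Agent.S36.H370 Fermat.Agent.S36.Mod3.H370 Fermat.Agent.S36.Eng
open Fermat.Agent.S36.H83 Fermat.Agent.S28

section Main

variable {P : ValuationSubring Qb} {E : IntermediateField ℚ Qb} {M q : ℕ} [NeZero M] [NeZero q]
  [NeZero (M * q)] {w : RE P E}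

/-- `q ∈ 𝔪_{V∞}` (any level). -/
theorem natCast_mem_nonunits_vinf (hStd : Std P E M q w) {N : ℕ} [NeZero N]
    {V : ValuationSubring (FE E N)} (hV : IsVinf P E N V) :
    algebraMap E (FE E N) (q : E) ∈ V.nonunits := by
  have hdvr := hStd.unram.1.dvr
  have hL2 := H553.vinfBasic P E w N (NeZero.ne N) hdvr hStd.unif V hV
  have hq0 : ((q : ℕ) : E) ≠ 0 := Nat.cast_ne_zero.mpr hStd.q_prime.ne_zero
  have hqP : ((q : ℕ) : Qb) ∈ P.nonunits := hStd.lies_over
  have hvq : P.valuation ((q : ℕ) : Qb) < 1 := (ValuationSubring.mem_nonunits_iff P).mp hqP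
  rw [ValuationSubring.mem_nonunits_iff_or]
  refine Or.inr fun hmem => ?_
  rw [← map_inv₀, hL2.2.1] at hmem
  have h1 : algebraMap E Qb ((q : E))⁻¹ ∈ P := hmem
  rw [map_inv₀, map_natCast, ← ValuationSubring.valuation_le_one_iff, map_inv₀] at h1
  have hv0 : P.valuation ((q : ℕ) : Qb) ≠ 0 := by
    rw [Ne, Valuation.zero_iff]
    exact Nat.cast_ne_zero.mpr hStd.q_prime.ne_zero
  have h2 : 1 ≤ P.valuation ((q : ℕ) : Qb) := (inv_le_one₀ (zero_lt_iff.mpr hv0)).mp h1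
  exact absurd hvq (not_lt.mpr h2)

/-- **(R-RES) on the concrete objects**: the residue of `π^(12(q-1)) / U_m` along the middle
component. -/
theorem hresJ (hStd : Std P E M q w)
    {V₁' V₂' : ValuationSubring (FE E (M * q))}
    {V₁ V₂ V₃ : ValuationSubring (FE E (M * q * q))}
    {W' : FE E (M * q) ≃ₐ[E] FE E (M * q)}
    {W : FE E (M * q * q) ≃ₐ[E] FE E (M * q * q)}
    (hO : Objs P E M q V₁' V₂' V₁ V₂ V₃ W' W) :
    ((βE E (M * q) q (jE E (M * q) q (dvd_mul_left q M))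
          - αE E (M * q) q (jE E (M * q) 1 (one_dvd _))) ^ (12 * (q - 1))
        - αE E (M * q) q ((jE E (M * q) 1 (one_dvd _) ^ 4
            * (jE E (M * q) 1 (one_dvd _) - 1728) ^ 3) ^ (2 * (q - 1)))
          * Mod3.H356.Um E M q) * (Mod3.H356.Um E M q)⁻¹
      ∈ V₂.nonunits := by
  have hS : Setting P E M q w :=
    ⟨hStd.q_prime, hStd.q_not_dvd, NeZero.ne M, hStd.lies_over, hStd.unram.1.dvr, hStd.unif⟩
  haveI := hS.dvr
  haveI : Fact q.Prime := ⟨hStd.q_prime⟩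
  have hq := hStd.q_prime
  have hqM : q ∣ M * q := dvd_mul_left q M
  have hT := leafTable P E M q w hStd V₁' V₂' V₁ V₂ V₃ W' W hO
  have hαV₂ : ∀ k, αE E (M * q) q k ∈ V₂ ↔ k ∈ V₁' := fun k => by
    rw [← hO.mid, ValuationSubring.mem_comap]
    rfl
  have hβ₂ : ∀ f, βE E (M * q) q f ∈ V₂ ↔ f ∈ V₂' := fun f => by
    rw [← hT.comap_β₂, ValuationSubring.mem_comap]
    rfl
  have hαn₂ : ∀ f, αE E (M * q) q f ∈ V₂.nonunits ↔ f ∈ V₁'.nonunits := fun f => by
    rw [← hT.comap_α₂, mem_nonunits_comap_hom]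
    rfl
  obtain ⟨U, g₁, hU, -, hg₁, -, hEis⟩ := eis_mid hStd hO
  -- `q ∈ 𝔪_{V₂}`
  have hqV : algebraMap E (FE E (M * q * q)) (q : E) ∈ V₂.nonunits := by
    have h1 : algebraMap E (FE E (M * q * q)) (q : E)
        = αE E (M * q) q (algebraMap E (FE E (M * q)) (q : E)) :=
      ((αE E (M * q) q).commutes _).symm
    rw [h1, hαn₂]
    exact natCast_mem_nonunits_vinf hStd hO.vinf'
  -- `β(D)` is a unit of `V₂`
  have hD := H438.dE_unit_vzero P E (M * q) q M (mul_comm M q) hqM W' hO.vinf' hO.fricke'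
  rw [← hO.vzero'] at hD
  have hβD : βE E (M * q) q (H438.dE E (M * q) q hqM) ∈ V₂ := (hβ₂ _).mpr hD.1
  have hβD' : (βE E (M * q) q (H438.dE E (M * q) q hqM))⁻¹ ∈ V₂ := by
    rw [← map_inv₀]
    exact (hβ₂ _).mpr hD.2
  -- the Gauss unit
  have hac : (αE E (M * q) q (jE E (M * q) 1 (one_dvd _) ^ (q ^ 2)
      - jE E (M * q) 1 (one_dvd _)))⁻¹ ∈ V₂ := by
    rw [← map_inv₀, hαV₂]
    obtain ⟨G, -, -, -, hsub⟩ := h83_eisPsi_eq_add q (Classical.choice
      (Fermat.Agent.S28.H326.nonempty_modPolyData q hq))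
    refine H972.inv_mem_of_castE hq hStd.lies_over hO.vinf' ?_
      (H972.exists_not_dvd_of_red_ne_zero q hsub)
    have h1 : ((jE E (M * q) 1 (one_dvd _) ^ (q ^ 2) - jE E (M * q) 1 (one_dvd _) :
        FE E (M * q)) : LaurentSeries E)
        = ((jE E (M * q) 1 (one_dvd _) : FE E (M * q)) : LaurentSeries E) ^ (q ^ 2)
          - ((jE E (M * q) 1 (one_dvd _) : FE E (M * q)) : LaurentSeries E) := rfl
    rw [h1, H972.coe_jE', qExpand_one_apply, map_sub, map_pow]
  exact Fermat.Agent.S36.H922.h922_hres_mid P E (M * q) q hqM V₁' hO.vinf' V₂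
    (fun f hf => (hαV₂ f).mpr hf) hqV hβD hβD' hac U hU g₁ hg₁ hEis

end Main

end Fermat.Agent.S36.Mod3.H775.Res

end

end
-- ===== PACK-END S36/Mod3/H775/ResJ.lean

-- ===== PACK-BEGIN S36/Mod3/H928/RegF4.lean
section









/-!
# S36 / MOD3 — REG, `q` odd: the leaf `LeafRegF4` (helper928, wiring only)

`leafRegF4 : LeafRegF4` = `H27.principalAt_mid_t4_conc` fed with (R-U) `H356.leafRegU_of`,
(R-RES) `H775.Res.hresJ`, `Qep3` (`H27.leafQep_of_vt`), `chart ⊆ V_i` (SHEET + VAL).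
-/

set_option autoImplicit false
set_option maxHeartbeats 1600000
set_option synthInstance.maxHeartbeats 400000

noncomputable section

namespace Fermat.Agent.S36.Mod3.H928

open Fermat.Agent.S18.H138 (chart)
open Fermat.Agent.S36.Eng Fermat.Agent.S36.Mod3

/-- **REG, `q` odd** (middle disjunct of `regular_f` everywhere on the middle component). -/
theorem leafRegF4 : LeafRegF4 := by
  intro P E M q _ _ _ w hStd V₁' V₂' V₁ V₂ V₃ W' W hO h4 hq2 𝔪 h𝔪 hthr
  have hVT : LeafVT := Mod3.H370.leafVT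
  have hTab : LeafTable := Mod3.H370.leafTable
  have hVal : LeafVal := Mod3.H370.leafVal
  have hQep : LeafQep := Mod3.H27.leafQep_of_vt hVT
  have hCh : LeafChart := Mod3.H189.leafChart_of hVT hTab hVal
  have hRU := Mod3.H356.leafRegU_of hTab hQep hCh hVal P E M q w hStd V₁' V₂' V₁ V₂ V₃ W' W hO
  have val := hVal P E M q w hStd V₁' V₂' V₁ V₂ V₃ W' W hO
  have sh := Mod3.H985.leafSheet P E M q w hStd V₁' V₂' V₁ V₂ V₃ W' W hO
  have qep := hQep P E M q w hStd V₁' V₂' V₁ V₂ V₃ W' W hO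
  have hB₁ := Mod3.H189.chart_le_valuationSubring (R := A2.RE P E) V₁ sh.base₁ val.x_unit₁.2.1
  have hB₂ := Mod3.H189.chart_le_valuationSubring (R := A2.RE P E) V₂ sh.base₂ val.x_unit₂.2.1
  have hB₃ := Mod3.H189.chart_le_valuationSubring (R := A2.RE P E) V₃ sh.base₃ val.x_unit₃.2.1
  obtain ⟨t, ht, -⟩ := val.ram₂
  exact Mod3.H27.principalAt_mid_t4_conc hStd hO h4 hq2 (fun b => hB₁ b b.2) (fun b => hB₂ b b.2)
    (fun b => hB₃ b b.2) qep.qep_f ⟨t, ht⟩ (Mod3.H356.Um E M q) 12 hRU.exists_pair hRU.unit₁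
    hRU.unit₃ hRU.val₂' (dvd_mul_left q M) (Mod3.H775.Res.hresJ hStd hO) 𝔪 h𝔪 hthr

end Fermat.Agent.S36.Mod3.H928

end

end
-- ===== PACK-END S36/Mod3/H928/RegF4.lean

-- ===== PACK-BEGIN S36/H890/RegMid9.lean
section






/-!
# MOD3 / REG, route R4 with `t₉`, CONCRETE (helper890): `PrincipalAt` on the middle component

Concrete objects of `Mod3/Spec.lean` (`Std`, `Objs`), with `9 ∣ M` (so `q ≠ 3`; under `NeatFor`
this is the case `q = 2`).  `principalAt_mid_t9` discharges the whole block (R-9) of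
`principalAt_t9`:

* `h₁ = t₉` at level `M q²`, `h₂ = γ(t₉)`, `γ = β ∘ β` (`t ↦ t^{q²}`);
* `j, j_{q²}, 3⁻¹ ∈ chart R {x3E}`;
* `t₉`, `Q(t₉)`, `j`, `j - 1728` are units of `V₂` (Gauss units of `V∞(M q)`, pushed by `α`);
* `γ(t₉) - t₉ ∈ 𝔪_{V₂}` (helper934 `t9_congr` + helper816 `IsMid.gen_cong` at `d = 1, 3, 9`).

What is left as hypotheses is EXACTLY (R-U) + (R-RES) of LEAFREG PLAN v2 (the same two inputs as
for `q` odd) and `Qep3`, `chart ⊆ V_i`.
-/

set_option autoImplicit false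
set_option linter.style.haveILetI false
set_option linter.unusedSectionVars false
set_option synthInstance.maxHeartbeats 400000
set_option maxHeartbeats 1600000

noncomputable section

namespace Fermat.Agent.S36.H890

open ModularCurve
open Fermat.Agent Fermat.Agent.A2.Mod Fermat.Agent.S36.Eng
open Fermat.Agent.S18.H138 (chart)
open Fermat.Agent.S36.H816

/-! ## Generalities -/

/-- `q ∈ 𝔪_V`, `n` prime to `q` ⟹ `n⁻¹ ∈ V`. -/
theorem natCast_inv_mem_of_coprime {L : Type*} [Field L] (V : ValuationSubring L) {q n : ℕ}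
    (hq : ((q : ℕ) : L) ∈ V.nonunits) (hqn : Nat.Coprime q n) : ((n : ℕ) : L)⁻¹ ∈ V := by
  by_contra hn
  have hnV : ((n : ℕ) : L) ∈ V.nonunits := by
    rw [ValuationSubring.mem_nonunits_iff_or]
    by_cases h0 : ((n : ℕ) : L) = 0
    · exact Or.inl h0
    · exact Or.inr hn
  have h1 : (1 : L) = ((Nat.gcdA q n : ℤ) : L) * ((q : ℕ) : L)
      + ((Nat.gcdB q n : ℤ) : L) * ((n : ℕ) : L) := by
    have h := Nat.gcd_eq_gcd_ab q n
    rw [hqn] at h
    have h' := congrArg (fun z : ℤ => (z : L)) h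
    simp only [Nat.cast_one, Int.cast_one, Int.cast_add, Int.cast_mul, Int.cast_natCast] at h'
    rw [h']
    ring
  have h2 : (1 : L) ∈ V.nonunits := by
    rw [h1]
    exact add_mem_nonunits V (mul_mem_nonunits_right V (intCast_mem V _) hq)
      (mul_mem_nonunits_right V (intCast_mem V _) hnV)
  rw [ValuationSubring.mem_nonunits_iff, map_one] at h2
  exact lt_irrefl _ h2

/-! ## The map `γ = β ∘ β : F_M → F_{M q²}` -/

section Gamma

variable (E : IntermediateField ℚ A2.Qb) (M q : ℕ) [NeZero M] [NeZero q] [NeZero (M * q)]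

/-- `γ = β ∘ β : F_M → F_{M q²}`, `t ↦ t^{q²}`. -/
def gamma9 : FE E M →ₐ[E] FE E (M * q * q) := (βE E (M * q) q).comp (βE E M q)

theorem gamma9_apply (f : FE E M) : gamma9 E M q f = βE E (M * q) q (βE E M q f) := rfl

theorem gamma9_jE (d : ℕ) [NeZero d] (hd : d ∣ M) :
    haveI : NeZero (d * q * q) :=
      ⟨mul_ne_zero (mul_ne_zero (NeZero.ne d) (NeZero.ne q)) (NeZero.ne q)⟩
    gamma9 E M q (jE E M d hd)
      = jE E (M * q * q) (d * q * q) (mul_dvd_mul_right (mul_dvd_mul_right hd q) q) := by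
  haveI : NeZero (d * q) := ⟨mul_ne_zero (NeZero.ne d) (NeZero.ne q)⟩
  rw [gamma9_apply, H553.βE_jE E M q d hd, H553.βE_jE E (M * q) q (d * q)]

end Gamma

/-! ## Transport of the relations along a ring homomorphism -/

section Transport

variable {S T : Type*} [CommRing S] [CommRing T] (f : S →+* T)

theorem map_lin_u3 {x y a : S} (h : h9u3 x y * a = h9w3 x y) :
    h9u3 (f x) (f y) * f a = h9w3 (f x) (f y) := by
  rw [← map_h9u3, ← map_h9w3, ← map_mul, h]

theorem map_lin_den {A B t : S} (h : t * h9den A B = h9num A B) :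
    f t * h9den (f A) (f B) = h9num (f A) (f B) := by
  rw [← map_h9den, ← map_h9num, ← map_mul, h]

theorem map_rel9 {j t : S}
    (h : j * (t ^ 9 * (t ^ 2 + 9 * t + 27))
      = (t + 9) ^ 3 * (t ^ 3 + 243 * (t ^ 2 + 9 * t + 27)) ^ 3) :
    f j * (f t ^ 9 * (f t ^ 2 + 9 * f t + 27))
      = (f t + 9) ^ 3 * (f t ^ 3 + 243 * (f t ^ 2 + 9 * f t + 27)) ^ 3 := by
  have h' := congrArg f h
  simpa only [map_mul, map_pow, map_add, map_ofNat] using h'

end Transport

/-! ## The middle valuation ring -/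

section Main

variable {P : ValuationSubring A2.Qb} {E : IntermediateField ℚ A2.Qb} {M q : ℕ}
  [NeZero M] [NeZero q] [NeZero (M * q)] {w : A2.RE P E}
  {V₁' V₂' : ValuationSubring (FE E (M * q))}
  {V₁ V₂ V₃ : ValuationSubring (FE E (M * q * q))}
  {W' : FE E (M * q) ≃ₐ[E] FE E (M * q)}
  {W : FE E (M * q * q) ≃ₐ[E] FE E (M * q * q)}

/-- `Objs.V₂` is a middle valuation ring in the sense of helper816. -/
theorem isMid_of_objs (hStd : Mod3.Std P E M q w)
    (hO : Mod3.Objs P E M q V₁' V₂' V₁ V₂ V₃ W' W) : IsMid V₁' V₂ := by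
  have hS : Setting P E M q w := Mod3.H816.setting_of_std hStd
  haveI := hS.dvr
  have hcα : ∀ g : FE E (M * q), heckeAlphaBar E (M * q) q g ∈ V₂ ↔ g ∈ V₁' := fun g => by
    have h := hO.mid
    have h2 : g ∈ V₂.comap (αE E (M * q) q : FE E (M * q) →+* FE E (M * q * q)) ↔ g ∈ V₁' := by
      rw [h]
    rw [ValuationSubring.mem_comap] at h2
    exact h2
  exact isMid_of_ne hcα hS hO.vinf' hO.fricke' hO.vinf hO.mid_ne

/-- A unit of `V₁' = V∞(M q)` is a unit of `V₂` (via `α`). -/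
theorem alpha_unitAt (hmid : IsMid V₁' V₂) {f : FE E (M * q)}
    (hf : f ≠ 0 ∧ f ∈ V₁' ∧ f⁻¹ ∈ V₁') : UnitAt V₂ (αE E (M * q) q f) := by
  refine ⟨?_, (hmid.comap_alpha f).mpr hf.2.1, ?_⟩
  · exact (map_ne_zero_iff _ (αE E (M * q) q).toRingHom.injective).mpr hf.1
  · rw [← map_inv₀]
    exact (hmid.comap_alpha f⁻¹).mpr hf.2.2

/-- `γ(t₉) - t₉ ∈ 𝔪_{V₂}`, and `γ(t₉) ∈ V₂`. -/
theorem gamma9_t9E_congr (hStd : Mod3.Std P E M q w)
    (hO : Mod3.Objs P E M q V₁' V₂' V₁ V₂ V₃ W' W) (h9 : 9 ∣ M) :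
    gamma9 E M q (t9E E M h9) ∈ V₂ ∧
      gamma9 E M q (t9E E M h9)
        - t9E E (M * q * q) ((h9.trans (dvd_mul_right M q)).trans (dvd_mul_right _ q))
        ∈ V₂.nonunits := by
  have hS : Setting P E M q w := Mod3.H816.setting_of_std hStd
  haveI := hS.dvr
  have hmid : IsMid V₁' V₂ := isMid_of_objs hStd hO
  have h3 : 3 ∣ M := Dvd.dvd.trans (by norm_num) h9
  have h9' : 9 ∣ M * q := h9.trans (dvd_mul_right M q)
  have h9'' : 9 ∣ M * q * q := h9'.trans (dvd_mul_right _ q)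
  have h3' : 3 ∣ M * q := h3.trans (dvd_mul_right M q)
  have h3'' : 3 ∣ M * q * q := h3'.trans (dvd_mul_right _ q)
  haveI : NeZero (1 * q * q) := ⟨mul_ne_zero (mul_ne_zero one_ne_zero (NeZero.ne q)) (NeZero.ne q)⟩
  haveI : NeZero (3 * q * q) :=
    ⟨mul_ne_zero (mul_ne_zero (by norm_num) (NeZero.ne q)) (NeZero.ne q)⟩
  haveI : NeZero (9 * q * q) :=
    ⟨mul_ne_zero (mul_ne_zero (by norm_num) (NeZero.ne q)) (NeZero.ne q)⟩
  -- the generators
  have hj := hmid.jE_mem_of_dvd hO.vinf' 1 (one_dvd _)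
  have hj3 := hmid.jE_mem_of_dvd hO.vinf' 3 h3'
  have hj9 := hmid.jE_mem_of_dvd hO.vinf' 9 h9'
  have c1 := hmid.gen_cong hS hO.vinf' hO.fricke' 1 (one_dvd M)
  have c3 := hmid.gen_cong hS hO.vinf' hO.fricke' 3 h3
  have c9 := hmid.gen_cong hS hO.vinf' hO.fricke' 9 h9
  -- the Gauss units
  have hU := alpha_unitAt hmid (u3E_unit P E (M * q) hO.vinf' h9')
  have hUe := alpha_unitAt hmid (u3eE_unit P E (M * q) hO.vinf' h9')
  have hden := alpha_unitAt hmid (den9E_unit P E (M * q) hO.vinf' h9')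
  have eU : αE E (M * q) q (h9u3 (jE E (M * q) 1 (one_dvd _)) (jE E (M * q) 3 h3'))
      = h9u3 (jE E (M * q * q) 1 (one_dvd _)) (jE E (M * q * q) 3 h3'') := by
    have h := map_h9u3 (αE E (M * q) q : FE E (M * q) →+* FE E (M * q * q))
      (jE E (M * q) 1 (one_dvd _)) (jE E (M * q) 3 h3')
    rw [RingHom.coe_coe, H553.αE_jE, H553.αE_jE] at h
    exact h
  have eUe : αE E (M * q) q (h9u3 (jE E (M * q) 3 h3') (jE E (M * q) 9 h9'))
      = h9u3 (jE E (M * q * q) 3 h3'') (jE E (M * q * q) 9 h9'') := by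
    have h := map_h9u3 (αE E (M * q) q : FE E (M * q) →+* FE E (M * q * q))
      (jE E (M * q) 3 h3') (jE E (M * q) 9 h9')
    rw [RingHom.coe_coe, H553.αE_jE, H553.αE_jE] at h
    exact h
  have et3 : αE E (M * q) q (t3E E (M * q) h3') = t3E E (M * q * q) h3'' :=
    Subtype.ext (coe_heckeAlphaBar (M * q) q _)
  have et3e : αE E (M * q) q (t3eE E (M * q) h9') = t3eE E (M * q * q) h9'' :=
    Subtype.ext (coe_heckeAlphaBar (M * q) q _)
  have eden : αE E (M * q) q (h9den (t3E E (M * q) h3') (t3eE E (M * q) h9'))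
      = h9den (t3E E (M * q * q) h3'') (t3eE E (M * q * q) h9'') := by
    have h := map_h9den (αE E (M * q) q : FE E (M * q) →+* FE E (M * q * q))
      (t3E E (M * q) h3') (t3eE E (M * q) h9')
    rw [RingHom.coe_coe, et3, et3e] at h
    exact h
  rw [eU] at hU
  rw [eUe] at hUe
  rw [eden] at hden
  -- the relations
  have l1 := t3E_lin E (M * q * q) h3''
  have l2 := t3eE_lin E (M * q * q) h9''
  have l3 := t9E_lin E (M * q * q) h9''
  have l1' : h9u3 (jE E (M * q * q) (1 * q * q)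
        (mul_dvd_mul_right (mul_dvd_mul_right (one_dvd M) q) q))
        (jE E (M * q * q) (3 * q * q) (mul_dvd_mul_right (mul_dvd_mul_right h3 q) q))
        * gamma9 E M q (t3E E M h3)
      = h9w3 (jE E (M * q * q) (1 * q * q)
          (mul_dvd_mul_right (mul_dvd_mul_right (one_dvd M) q) q))
        (jE E (M * q * q) (3 * q * q) (mul_dvd_mul_right (mul_dvd_mul_right h3 q) q)) := by
    have h := map_lin_u3 (gamma9 E M q : FE E M →+* FE E (M * q * q)) (t3E_lin E M h3)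
    rw [RingHom.coe_coe, gamma9_jE, gamma9_jE] at h
    exact h
  have l2' : h9u3 (jE E (M * q * q) (3 * q * q)
        (mul_dvd_mul_right (mul_dvd_mul_right h3 q) q))
        (jE E (M * q * q) (9 * q * q) (mul_dvd_mul_right (mul_dvd_mul_right h9 q) q))
        * gamma9 E M q (t3eE E M h9)
      = h9w3 (jE E (M * q * q) (3 * q * q)
          (mul_dvd_mul_right (mul_dvd_mul_right h3 q) q))
        (jE E (M * q * q) (9 * q * q) (mul_dvd_mul_right (mul_dvd_mul_right h9 q) q)) := by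
    have h := map_lin_u3 (gamma9 E M q : FE E M →+* FE E (M * q * q)) (t3eE_lin E M h9)
    rw [RingHom.coe_coe, gamma9_jE, gamma9_jE] at h
    exact h
  have l3' : gamma9 E M q (t9E E M h9)
        * h9den (gamma9 E M q (t3E E M h3)) (gamma9 E M q (t3eE E M h9))
      = h9num (gamma9 E M q (t3E E M h3)) (gamma9 E M q (t3eE E M h9)) :=
    map_lin_den (gamma9 E M q : FE E M →+* FE E (M * q * q)) (t9E_lin E M h9)
  obtain ⟨-, h2, h3c⟩ := Fermat.Agent.S36.H934.t9_congr V₂ hj hj3 hj9 c1 c3 c9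
    (H878.valuation_eq_one_of_unitAt V₂ hU) (H878.valuation_eq_one_of_unitAt V₂ hUe)
    (H878.valuation_eq_one_of_unitAt V₂ hden) l1 l2 l3 l1' l2' l3'
  exact ⟨h2, h3c⟩

/-- `3⁻¹ ∈ chart R S` at level `M q²` when `3 ∣ M` (then `q ≠ 3`). -/
theorem three_inv_mem_chart (hStd : Mod3.Std P E M q w) (h3 : 3 ∣ M)
    (S : Set (FE E (M * q * q))) :
    (3 : FE E (M * q * q))⁻¹ ∈ _root_.Fermat.Agent.S18.H138.chart (A2.RE P E) S := by
  have hS : Setting P E M q w := Mod3.H816.setting_of_std hStd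
  haveI := hS.dvr
  have hq3 : q ≠ 3 := by
    rintro rfl
    exact hStd.q_not_dvd h3
  have hcop : Nat.Coprime q 3 := (Nat.coprime_primes hStd.q_prime Nat.prime_three).2 hq3
  have hP : ((3 : ℕ) : A2.Qb)⁻¹ ∈ P := natCast_inv_mem_of_coprime P hStd.lies_over hcop
  have hE : ((3 : E))⁻¹ ∈ A2.RE P E := by
    show algebraMap E A2.Qb ((3 : E))⁻¹ ∈ P
    rw [map_inv₀, map_ofNat]
    rwa [Nat.cast_ofNat] at hP
  have h := Subalgebra.algebraMap_mem (_root_.Fermat.Agent.S18.H138.chart (A2.RE P E) S) (⟨(3 : E)⁻¹, hE⟩ : A2.RE P E)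
  rw [H13.algebraMap_RE_eq] at h
  rwa [map_inv₀, map_ofNat] at h

/-- **MOD3 / REG, route R4 with `t₉`, concrete.**  With `9 ∣ M` (case `q = 2` of `NeatFor`), the
middle component of the finite chart is principal at EVERY closed point through which it passes,
given (R-U) and (R-RES) of LEAFREG PLAN v2 (`U = U_m`, `6 kk = 12 (q - 1)`). -/
theorem principalAt_mid_t9 (hStd : Mod3.Std P E M q w)
    (hO : Mod3.Objs P E M q V₁' V₂' V₁ V₂ V₃ W' W) (h9 : 9 ∣ M)
    (hB₁ : ∀ b : _root_.Fermat.Agent.S18.H138.chart (A2.RE P E) ({Mod3.x3E E M q} : Set (FE E (M * q * q))),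
      (b : FE E (M * q * q)) ∈ V₁)
    (hB₂ : ∀ b : _root_.Fermat.Agent.S18.H138.chart (A2.RE P E) ({Mod3.x3E E M q} : Set (FE E (M * q * q))),
      (b : FE E (M * q * q)) ∈ V₂)
    (hB₃ : ∀ b : _root_.Fermat.Agent.S18.H138.chart (A2.RE P E) ({Mod3.x3E E M q} : Set (FE E (M * q * q))),
      (b : FE E (M * q * q)) ∈ V₃)
    (hqep : Qep3 w (_root_.Fermat.Agent.S18.H138.chart (A2.RE P E) ({Mod3.x3E E M q} : Set (FE E (M * q * q)))) V₁ V₂ V₃)
    (𝔪 : Ideal (_root_.Fermat.Agent.S18.H138.chart (A2.RE P E) ({Mod3.x3E E M q} : Set (FE E (M * q * q)))))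
    (h𝔪 : 𝔪 ≠ ⊤) (hthr : Through _ 𝔪 V₂)
    -- (R-U)
    (U d : _root_.Fermat.Agent.S18.H138.chart (A2.RE P E) ({Mod3.x3E E M q} : Set (FE E (M * q * q)))) (k kk : ℕ)
    (hkk : 0 < kk)
    (hUd : U * d = algebraMap (A2.RE P E) _ w ^ k)
    (hU₁ : (U : FE E (M * q * q))⁻¹ ∈ V₁) (hU₃ : (U : FE E (M * q * q))⁻¹ ∈ V₃)
    (t : FE E (M * q * q)) (ht : UnifAt V₂ t)
    (hU₂ : UnitAt V₂ ((U : FE E (M * q * q)) * (t ^ (6 * kk))⁻¹))
    -- (R-RES)
    (hres : ((Mod3.jqq E M q - Mod3.j1 E M q) ^ (6 * kk)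
        - (Mod3.j1 E M q ^ 4 * (Mod3.j1 E M q - 1728) ^ 3) ^ kk * (U : FE E (M * q * q)))
          * (U : FE E (M * q * q))⁻¹ ∈ V₂.nonunits) :
    PrincipalAt (_root_.Fermat.Agent.S18.H138.chart (A2.RE P E) ({Mod3.x3E E M q} : Set (FE E (M * q * q)))) 𝔪 V₂ := by
  have hS : Setting P E M q w := Mod3.H816.setting_of_std hStd
  haveI := hS.dvr
  have hmid : IsMid V₁' V₂ := isMid_of_objs hStd hO
  have h3 : 3 ∣ M := Dvd.dvd.trans (by norm_num) h9
  have h9' : 9 ∣ M * q := h9.trans (dvd_mul_right M q)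
  have h9'' : 9 ∣ M * q * q := h9'.trans (dvd_mul_right _ q)
  haveI : NeZero (1 * q * q) := ⟨mul_ne_zero (mul_ne_zero one_ne_zero (NeZero.ne q)) (NeZero.ne q)⟩
  haveI : NeZero (q * q) := ⟨mul_ne_zero (NeZero.ne q) (NeZero.ne q)⟩
  obtain ⟨-, hx⟩ := gamma9_t9E_congr hStd hO h9
  have hw0 : algebraMap (A2.RE P E) (FE E (M * q * q)) w ≠ 0 := by
    rw [H13.algebraMap_RE_eq]
    refine (map_ne_zero_iff _ (algebraMap E (FE E (M * q * q))).injective).mpr ?_
    intro h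
    exact hStd.unif.ne_zero (Subtype.ext h)
  have hj₁B := Mod3.H189.j1_mem_chart P E M q hStd.q_prime
  have hj₂B := Mod3.H189.jqq_mem_chart' P E M q hStd.q_prime
  have h3B := three_inv_mem_chart hStd h3 ({Mod3.x3E E M q} : Set (FE E (M * q * q)))
  have hJ₁ : Mod3.j1 E M q
        * (t9E E (M * q * q) h9'' ^ 9
          * (t9E E (M * q * q) h9'' ^ 2 + 9 * t9E E (M * q * q) h9'' + 27))
      = (t9E E (M * q * q) h9'' + 9) ^ 3
        * (t9E E (M * q * q) h9'' ^ 3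
          + 243 * (t9E E (M * q * q) h9'' ^ 2 + 9 * t9E E (M * q * q) h9'' + 27)) ^ 3 :=
    jE_mul_t9E E (M * q * q) h9''
  have hJ₂ : Mod3.jqq E M q
        * (gamma9 E M q (t9E E M h9) ^ 9
          * (gamma9 E M q (t9E E M h9) ^ 2 + 9 * gamma9 E M q (t9E E M h9) + 27))
      = (gamma9 E M q (t9E E M h9) + 9) ^ 3
        * (gamma9 E M q (t9E E M h9) ^ 3
          + 243 * (gamma9 E M q (t9E E M h9) ^ 2 + 9 * gamma9 E M q (t9E E M h9) + 27)) ^ 3 := by
    have h := map_rel9 (gamma9 E M q : FE E M →+* FE E (M * q * q)) (jE_mul_t9E E M h9)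
    rw [RingHom.coe_coe, gamma9_jE,
      jE_congr (M * q * q) (show 1 * q * q = q * q by rw [one_mul]) _
        (Dvd.intro_left M (mul_assoc M q q).symm)] at h
    exact h
  have hh₁ : UnitAt V₂ (t9E E (M * q * q) h9'') := by
    have h := alpha_unitAt hmid (t9E_unit P E (M * q) hO.vinf' h9')
    rwa [αE_t9E] at h
  have hQ₁ : UnitAt V₂
      (t9E E (M * q * q) h9'' ^ 2 + 9 * t9E E (M * q * q) h9'' + 27) := by
    have h := alpha_unitAt hmid (t9E_quad_unit P E (M * q) hO.vinf' h9')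
    rwa [map_add, map_add, map_mul, map_pow, map_ofNat, map_ofNat, αE_t9E] at h
  have hj₁ : UnitAt V₂ (Mod3.j1 E M q) := by
    have h := alpha_unitAt hmid (jE_one_unit P E (M * q) hO.vinf')
    rwa [H553.αE_jE] at h
  have hj₁' : UnitAt V₂ (Mod3.j1 E M q - 1728) := by
    have h := alpha_unitAt hmid (jE_sub_1728_unit P E (M * q) hO.vinf')
    rwa [map_sub, map_ofNat, H553.αE_jE] at h
  exact principalAt_t9 w _ V₁ V₂ V₃ hw0 hB₁ hB₂ hB₃ hqep 𝔪 h𝔪 hthr U d k kk hkk hUd hU₁ hU₃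
    t ht hU₂ (Mod3.j1 E M q) (Mod3.jqq E M q) (t9E E (M * q * q) h9'')
    (gamma9 E M q (t9E E M h9)) hj₁B hj₂B h3B hJ₁ hJ₂ hh₁ hQ₁ hj₁ hj₁' hx hres

/-- **The same in the delivered shapes** of (R-U) (helper356 `PartRegU`, `U₀ = U_m`) and (R-RES)
(helper922 `h922_hres_mid` at `M₁ = M q`, `V = V₂`): the finite half `regular_f` of
`Mod3.PartReg` (middle disjunct) when `9 ∣ M`. -/
theorem principalAt_mid_t9_conc (hStd : Mod3.Std P E M q w)
    (hO : Mod3.Objs P E M q V₁' V₂' V₁ V₂ V₃ W' W) (h9 : 9 ∣ M)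
    (hB₁ : ∀ b : _root_.Fermat.Agent.S18.H138.chart (A2.RE P E) ({Mod3.x3E E M q} : Set (FE E (M * q * q))),
      (b : FE E (M * q * q)) ∈ V₁)
    (hB₂ : ∀ b : _root_.Fermat.Agent.S18.H138.chart (A2.RE P E) ({Mod3.x3E E M q} : Set (FE E (M * q * q))),
      (b : FE E (M * q * q)) ∈ V₂)
    (hB₃ : ∀ b : _root_.Fermat.Agent.S18.H138.chart (A2.RE P E) ({Mod3.x3E E M q} : Set (FE E (M * q * q))),
      (b : FE E (M * q * q)) ∈ V₃)
    (hqep : Qep3 w (_root_.Fermat.Agent.S18.H138.chart (A2.RE P E) ({Mod3.x3E E M q} : Set (FE E (M * q * q)))) V₁ V₂ V₃)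
    (hunif : ∃ t : FE E (M * q * q), UnifAt V₂ t)
    -- (R-U)
    (U₀ : FE E (M * q * q)) (k : ℕ)
    (hpair : ∃ U d : _root_.Fermat.Agent.S18.H138.chart (A2.RE P E) ({Mod3.x3E E M q} : Set (FE E (M * q * q))),
      (U : FE E (M * q * q)) = U₀ ∧ U * d = algebraMap (A2.RE P E) _ w ^ k)
    (hU₁ : U₀⁻¹ ∈ V₁) (hU₃ : U₀⁻¹ ∈ V₃)
    (hU₂ : ∀ t : FE E (M * q * q), UnifAt V₂ t → UnitAt V₂ (U₀ * (t ^ (12 * (q - 1)))⁻¹))
    -- (R-RES)
    (hqM : q ∣ M * q)
    (hres : ((βE E (M * q) q (jE E (M * q) q hqM)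
          - αE E (M * q) q (jE E (M * q) 1 (one_dvd _))) ^ (12 * (q - 1))
        - αE E (M * q) q ((jE E (M * q) 1 (one_dvd _) ^ 4
            * (jE E (M * q) 1 (one_dvd _) - 1728) ^ 3) ^ (2 * (q - 1))) * U₀) * U₀⁻¹
      ∈ V₂.nonunits)
    (𝔪 : Ideal (_root_.Fermat.Agent.S18.H138.chart (A2.RE P E) ({Mod3.x3E E M q} : Set (FE E (M * q * q)))))
    (h𝔪 : 𝔪.IsMaximal) (hthr : Through _ 𝔪 V₂) :
    PrincipalAt (_root_.Fermat.Agent.S18.H138.chart (A2.RE P E) ({Mod3.x3E E M q} : Set (FE E (M * q * q)))) 𝔪 V₂ := by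
  obtain ⟨t, ht⟩ := hunif
  obtain ⟨U, d, hUeq, hUd⟩ := hpair
  have hq1 : 0 < 2 * (q - 1) := by
    have := hStd.q_prime.two_le
    omega
  have e6 : 6 * (2 * (q - 1)) = 12 * (q - 1) := by ring
  haveI : NeZero (q * q) := ⟨mul_ne_zero (NeZero.ne q) (NeZero.ne q)⟩
  have ejqq : βE E (M * q) q (jE E (M * q) q hqM) = Mod3.jqq E M q := by
    rw [H553.βE_jE E (M * q) q q hqM]
    rfl
  have ej1 : αE E (M * q) q (jE E (M * q) 1 (one_dvd _)) = Mod3.j1 E M q := by
    rw [H553.αE_jE E (M * q) q 1 (one_dvd _)]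
    rfl
  refine principalAt_mid_t9 hStd hO h9 hB₁ hB₂ hB₃ hqep 𝔪 h𝔪.ne_top hthr U d k (2 * (q - 1)) hq1
    hUd (by rw [hUeq]; exact hU₁) (by rw [hUeq]; exact hU₃) t ht
    (by rw [hUeq, e6]; exact hU₂ t ht) ?_
  rw [hUeq, e6]
  rw [ejqq, map_pow, map_mul, map_pow, map_pow, map_sub, map_ofNat, ej1] at hres
  exact hres

end Main

end Fermat.Agent.S36.H890

end
end
-- ===== PACK-END S36/H890/RegMid9.lean

-- ===== PACK-BEGIN S36/Mod3/H890/RegTwo.lean
section





/-!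
# S36 / MOD3, leaf REG, finite chart, case `9 ∣ M` (`q = 2`): Leaf-level wiring (helper890)

* `LeafResJ`  : piece (R-RES) as a leaf-shaped `Prop`: the conclusion of helper922's
  `h922_hres_mid` VERBATIM at `M₁ = M q`, `hqM = dvd_mul_left q M`, `V = V₂`
  (`U_m = αE (dE) * (βE (dE))⁻¹`, `dE` of helper438);
* `LeafRegF9` : `9 ∣ M → ∀ 𝔪 maximal, Through 𝔪 V₂ → PrincipalAt (chart R {x3E}) 𝔪 V₂`
  (the middle disjunct of `PartReg.regular_f` at EVERY closed point of the middle component);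
* `leafRegF9_of : LeafSheet → LeafVal → LeafQep → H356.LeafRegU → LeafResJ → LeafRegF9`;
* `LeafRegI2`, `leafRegI2_of : LeafSheet → LeafVal → LeafQep → LeafInc → LeafRegI2` : the chart at
  infinity for `q = 2` (`e₂ = q - 1 = 1`: `w` is a uniformiser of `V₂`, and the cusps of the middle
  component lie on no other component, so `H876.principalAt_lite` applies with `x = w`,
  `g₁ = g₂ = 1`; NO congruence needed);
* `LeafReg2` (`q = 2 → PartReg`), `leafReg2_of`; `LeafRegOdd` (`q ≠ 2 → PartReg`);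
  `leafReg_of_two_odd : LeafReg2 → LeafRegOdd → LeafReg`.

Under `Std` the hypothesis `9 ∣ M` is `hStd.neat.2.2 (h : q = 2)`.
-/

set_option autoImplicit false
set_option linter.style.haveILetI false
set_option linter.unusedSectionVars false
set_option synthInstance.maxHeartbeats 400000
set_option maxHeartbeats 1600000

noncomputable section

namespace Fermat.Agent.S36.Mod3.H890

open ModularCurve
open Fermat.Agent.S18.H138 (chart)
open Fermat.Agent.S36.Eng Fermat.Agent.S36.Mod3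

/-- **(R-RES), leaf-shaped**: the residue of `π ^ (12 (q - 1)) / U_m` along the middle component,
`π = j_{q²} - j`; the conclusion of `h922_hres_mid` at `M₁ = M q`, `V = V₂`. -/
def LeafResJ : Prop :=
  Leaf fun _ E M q _ _ _ _ _ _ _ V₂ _ =>
    ((A2.Mod.βE E (M * q) q (A2.Mod.jE E (M * q) q (dvd_mul_left q M))
          - A2.Mod.αE E (M * q) q (A2.Mod.jE E (M * q) 1 (one_dvd _))) ^ (12 * (q - 1))
        - A2.Mod.αE E (M * q) q ((A2.Mod.jE E (M * q) 1 (one_dvd _) ^ 4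
            * (A2.Mod.jE E (M * q) 1 (one_dvd _) - 1728) ^ 3) ^ (2 * (q - 1)))
          * (A2.Mod.αE E (M * q) q (Fermat.Agent.S36.H438.dE E (M * q) q (dvd_mul_left q M))
            * (A2.Mod.βE E (M * q) q
                (Fermat.Agent.S36.H438.dE E (M * q) q (dvd_mul_left q M)))⁻¹))
      * (A2.Mod.αE E (M * q) q (Fermat.Agent.S36.H438.dE E (M * q) q (dvd_mul_left q M))
            * (A2.Mod.βE E (M * q) q
                (Fermat.Agent.S36.H438.dE E (M * q) q (dvd_mul_left q M)))⁻¹)⁻¹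
      ∈ V₂.nonunits

/-- **REG, finite chart, `9 ∣ M`** (leaf-shaped). -/
def LeafRegF9 : Prop :=
  Leaf fun P E M q _ _ _ _ _ _ _ V₂ _ =>
    9 ∣ M → ∀ 𝔪 : Ideal (chart (A2.RE P E) ({x3E E M q} : Set (A2.Mod.FE E (M * q * q)))),
      𝔪.IsMaximal → Through _ 𝔪 V₂ → PrincipalAt _ 𝔪 V₂

/-- **REG, finite chart, `9 ∣ M`**: from the leaves on main, (R-U) and (R-RES). -/
theorem leafRegF9_of (hSheet : LeafSheet) (hVal : LeafVal) (hQep : LeafQep)
    (hRU : H356.LeafRegU) (hRes : LeafResJ) : LeafRegF9 := by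
  intro P E M q _ _ _ w hStd V₁' V₂' V₁ V₂ V₃ W' W hO h9 𝔪 h𝔪 hthr
  have hS := hSheet P E M q w hStd V₁' V₂' V₁ V₂ V₃ W' W hO
  have hV := hVal P E M q w hStd V₁' V₂' V₁ V₂ V₃ W' W hO
  have hQ := (hQep P E M q w hStd V₁' V₂' V₁ V₂ V₃ W' W hO).qep_f
  have hU := hRU P E M q w hStd V₁' V₂' V₁ V₂ V₃ W' W hO
  have hR := hRes P E M q w hStd V₁' V₂' V₁ V₂ V₃ W' W hO
  obtain ⟨t, ht, -⟩ := hV.ram₂
  have hB₁ : ∀ b : chart (A2.RE P E) ({x3E E M q} : Set (A2.Mod.FE E (M * q * q))),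
      (b : A2.Mod.FE E (M * q * q)) ∈ V₁ := fun b =>
    Mod3.H839.mem_valuationSubring_of_mem_chart839 V₁ hS.base₁
      (fun s hs => by rw [Set.mem_singleton_iff.1 hs]; exact hV.x_unit₁.2.1) b.2
  have hB₂ : ∀ b : chart (A2.RE P E) ({x3E E M q} : Set (A2.Mod.FE E (M * q * q))),
      (b : A2.Mod.FE E (M * q * q)) ∈ V₂ := fun b =>
    Mod3.H839.mem_valuationSubring_of_mem_chart839 V₂ hS.base₂
      (fun s hs => by rw [Set.mem_singleton_iff.1 hs]; exact hV.x_unit₂.2.1) b.2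
  have hB₃ : ∀ b : chart (A2.RE P E) ({x3E E M q} : Set (A2.Mod.FE E (M * q * q))),
      (b : A2.Mod.FE E (M * q * q)) ∈ V₃ := fun b =>
    Mod3.H839.mem_valuationSubring_of_mem_chart839 V₃ hS.base₃
      (fun s hs => by rw [Set.mem_singleton_iff.1 hs]; exact hV.x_unit₃.2.1) b.2
  exact Fermat.Agent.S36.H890.principalAt_mid_t9_conc hStd hO h9 hB₁ hB₂ hB₃ hQ ⟨t, ht⟩
    (H356.Um E M q) 12 hU.exists_pair hU.unit₁ hU.unit₃ hU.val₂' (dvd_mul_left q M) hR
    𝔪 h𝔪 hthr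

/-! ## The chart at infinity, `q = 2` -/

/-- `e = 1`: if `w / t` is a unit for a uniformiser `t`, then `w` is a uniformiser. -/
theorem unifAt_of_unitAt_div {F : Type*} [Field F] (V : ValuationSubring F) {w₀ t : F}
    (ht : UnifAt V t) (hw : UnitAt V (w₀ * t⁻¹)) : UnifAt V w₀ := by
  obtain ⟨ht0, htV, htdiv⟩ := ht
  obtain ⟨hu0, huV, huinv⟩ := hw
  have hw0 : w₀ ≠ 0 := fun h => hu0 (by rw [h, zero_mul])
  have e1 : w₀ = t * (w₀ * t⁻¹) := by
    rw [mul_comm w₀, ← mul_assoc, mul_inv_cancel₀ ht0, one_mul]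
  refine ⟨hw0, ?_, fun f hf => ?_⟩
  · rw [e1, ValuationSubring.mem_nonunits_iff, map_mul]
    exact mul_lt_one_of_lt_of_le ((V.mem_nonunits_iff).1 htV)
      ((V.valuation_le_one_iff _).2 huV)
  · have e2 : f * w₀⁻¹ = f * t⁻¹ * (w₀ * t⁻¹)⁻¹ := by
      rw [mul_inv, inv_inv, mul_assoc, ← mul_assoc t⁻¹, mul_comm t⁻¹ w₀⁻¹, mul_assoc w₀⁻¹,
        inv_mul_cancel₀ ht0, mul_one]
    rw [e2]
    exact V.mul_mem _ _ (htdiv f hf) huinv

/-- **REG, chart at infinity, `q = 2`** (leaf-shaped). -/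
def LeafRegI2 : Prop :=
  Leaf fun P E M q _ _ _ _ _ _ _ V₂ _ =>
    q = 2 → ∀ 𝔪 : Ideal (chart (A2.RE P E) ({(x3E E M q)⁻¹} : Set (A2.Mod.FE E (M * q * q)))),
      𝔪.IsMaximal →
      (⟨(x3E E M q)⁻¹, Fermat.Agent.S18.H138.mem_chart_of_mem rfl⟩ :
        chart (A2.RE P E) ({(x3E E M q)⁻¹} : Set (A2.Mod.FE E (M * q * q)))) ∈ 𝔪 →
      Through _ 𝔪 V₂ → PrincipalAt _ 𝔪 V₂

/-- **REG, chart at infinity, `q = 2`**: from the leaves on main; no congruence. -/
theorem leafRegI2_of (hSheet : LeafSheet) (hVal : LeafVal) (hQep : LeafQep) (hInc : LeafInc) :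
    LeafRegI2 := by
  intro P E M q _ _ _ w hStd V₁' V₂' V₁ V₂ V₃ W' W hO hq2 𝔪 h𝔪 hx hthr
  have hS := hSheet P E M q w hStd V₁' V₂' V₁ V₂ V₃ W' W hO
  have hV := hVal P E M q w hStd V₁' V₂' V₁ V₂ V₃ W' W hO
  have hQ := (hQep P E M q w hStd V₁' V₂' V₁ V₂ V₃ W' W hO).qep_i
  have hI := hInc P E M q w hStd V₁' V₂' V₁ V₂ V₃ W' W hO
  -- `w` is a uniformiser of `V₂`
  obtain ⟨t, ht, hwt⟩ := hV.ram₂
  have e1 : q - 1 = 1 := by omega
  rw [e1, pow_one] at hwt
  have hw2 : UnifAt V₂ (algebraMap (A2.RE P E) (A2.Mod.FE E (M * q * q)) w) :=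
    unifAt_of_unitAt_div V₂ ht hwt
  -- the cusp lies on the middle component only
  have hwm : algebraMap (A2.RE P E)
      (chart (A2.RE P E) ({(x3E E M q)⁻¹} : Set (A2.Mod.FE E (M * q * q)))) w ∈ 𝔪 :=
    hthr _ hw2.2.1
  obtain ⟨h12, -, h23⟩ := hI.cusp_single 𝔪 h𝔪 hwm hx
  have hn₁ : ¬ Through _ 𝔪 V₁ := fun h => h12 ⟨h, hthr⟩
  have hn₃ : ¬ Through _ 𝔪 V₃ := fun h => h23 ⟨hthr, h⟩
  have hB₁ : ∀ b : chart (A2.RE P E) ({(x3E E M q)⁻¹} : Set (A2.Mod.FE E (M * q * q))),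
      (b : A2.Mod.FE E (M * q * q)) ∈ V₁ := fun b =>
    Mod3.H839.mem_valuationSubring_of_mem_chart839 V₁ hS.base₁
      (fun s hs => by rw [Set.mem_singleton_iff.1 hs]; exact hV.x_unit₁.2.2) b.2
  have hB₂ : ∀ b : chart (A2.RE P E) ({(x3E E M q)⁻¹} : Set (A2.Mod.FE E (M * q * q))),
      (b : A2.Mod.FE E (M * q * q)) ∈ V₂ := fun b =>
    Mod3.H839.mem_valuationSubring_of_mem_chart839 V₂ hS.base₂
      (fun s hs => by rw [Set.mem_singleton_iff.1 hs]; exact hV.x_unit₂.2.2) b.2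
  have hB₃ : ∀ b : chart (A2.RE P E) ({(x3E E M q)⁻¹} : Set (A2.Mod.FE E (M * q * q))),
      (b : A2.Mod.FE E (M * q * q)) ∈ V₃ := fun b =>
    Mod3.H839.mem_valuationSubring_of_mem_chart839 V₃ hS.base₃
      (fun s hs => by rw [Set.mem_singleton_iff.1 hs]; exact hV.x_unit₃.2.2) b.2
  refine Fermat.Agent.S36.H876.principalAt_lite w _ V₁ V₂ V₃ hB₁ hB₂ hB₃ hQ hV.unif₁ hV.unif₃
    𝔪 h𝔪.isPrime hthr hn₁ hn₃ (algebraMap (A2.RE P E) _ w) 1 1 1 1 one_pos hw2
    (fun h => h𝔪.ne_top ((Ideal.eq_top_iff_one 𝔪).2 h)) ?_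
  have e0 : ((((algebraMap (A2.RE P E)
        (chart (A2.RE P E) ({(x3E E M q)⁻¹} : Set (A2.Mod.FE E (M * q * q)))) w :
          chart (A2.RE P E) ({(x3E E M q)⁻¹} : Set (A2.Mod.FE E (M * q * q)))) :
            A2.Mod.FE E (M * q * q)) ^ 1
        * (((1 : chart (A2.RE P E) ({(x3E E M q)⁻¹} : Set (A2.Mod.FE E (M * q * q)))) :
            A2.Mod.FE E (M * q * q)))
        - algebraMap (A2.RE P E) (A2.Mod.FE E (M * q * q)) w ^ 1
          * (((1 : chart (A2.RE P E) ({(x3E E M q)⁻¹} : Set (A2.Mod.FE E (M * q * q)))) :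
            A2.Mod.FE E (M * q * q))))
      * (algebraMap (A2.RE P E) (A2.Mod.FE E (M * q * q)) w ^ 1)⁻¹) = 0 := by
    have : (((algebraMap (A2.RE P E)
        (chart (A2.RE P E) ({(x3E E M q)⁻¹} : Set (A2.Mod.FE E (M * q * q)))) w :
          chart (A2.RE P E) ({(x3E E M q)⁻¹} : Set (A2.Mod.FE E (M * q * q)))) :
            A2.Mod.FE E (M * q * q)))
        = algebraMap (A2.RE P E) (A2.Mod.FE E (M * q * q)) w := rfl
    rw [this, sub_self, zero_mul]
  rw [e0, ValuationSubring.mem_nonunits_iff, map_zero]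
  exact zero_lt_one

/-! ## `LeafReg` for `q = 2`, and the final glue -/

/-- **REG for `q = 2`** (leaf-shaped). -/
def LeafReg2 : Prop :=
  Leaf fun P E M q _ _ _ _ _ _ V₁ V₂ V₃ =>
    q = 2 → PartReg (A2.RE P E) (x3E E M q) V₁ V₂ V₃

/-- **REG for `q` odd** (leaf-shaped). -/
def LeafRegOdd : Prop :=
  Leaf fun P E M q _ _ _ _ _ _ V₁ V₂ V₃ =>
    q ≠ 2 → PartReg (A2.RE P E) (x3E E M q) V₁ V₂ V₃

/-- **REG for `q = 2`**: everything but (R-RES) comes from main and (R-U). -/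
theorem leafReg2_of (hSheet : LeafSheet) (hVal : LeafVal) (hQep : LeafQep) (hInc : LeafInc)
    (hRU : H356.LeafRegU) (hRes : LeafResJ) : LeafReg2 := by
  intro P E M q _ _ _ w hStd V₁' V₂' V₁ V₂ V₃ W' W hO hq2
  refine ⟨fun 𝔪 h𝔪 hthr => Or.inr (Or.inl ?_), fun 𝔪 h𝔪 hx hthr => ?_⟩
  · exact leafRegF9_of hSheet hVal hQep hRU hRes P E M q w hStd V₁' V₂' V₁ V₂ V₃ W' W hO
      (hStd.neat.2.2 hq2) 𝔪 h𝔪 hthr
  · exact leafRegI2_of hSheet hVal hQep hInc P E M q w hStd V₁' V₂' V₁ V₂ V₃ W' W hO hq2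
      𝔪 h𝔪 hx hthr

/-- **The final glue.** -/
theorem leafReg_of_two_odd (h2 : LeafReg2) (hodd : LeafRegOdd) : LeafReg := by
  intro P E M q _ _ _ w hStd V₁' V₂' V₁ V₂ V₃ W' W hO
  by_cases hq2 : q = 2
  · exact h2 P E M q w hStd V₁' V₂' V₁ V₂ V₃ W' W hO hq2
  · exact hodd P E M q w hStd V₁' V₂' V₁ V₂ V₃ W' W hO hq2

end Fermat.Agent.S36.Mod3.H890

end
end
-- ===== PACK-END S36/Mod3/H890/RegTwo.lean

-- ===== PACK-BEGIN S36/Mod3/H27/VT.lean
section





/-!
# S36 / MOD3, the valuation-level hub (helper27): `leafVT : Mod3.LeafVT`, unconditional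

Assembly from pieces on main:

* `α`-side (`res_α₁`, `res_α₂`, `only_α₁`, `pi_unif`, `pi_pow`): helper972 `mod3_alpha_main`
  (every `Objs.V₂` IS the middle valuation ring of that theorem);
* `only_α₃`, `insep_α₃`, `only_β₁`, `insep_β₁`: helper83 (`AlphaVV`, `BetaUniq`);
* `res_β₃`, `res_β₂`, `only_β₂`: Fricke transport `W ∘ α = β ∘ W'`, `W ∘ β = α ∘ W'`
  (`V₃ = V₁ ∘ W`, `V₂ ∘ W = V₂` by completeness along `α` and helper816 `IsMid.fricke`);
* `kron₁`, `kron₂`, `kron₃`: helper816 (`kron_jE`, `IsMid.kronA`, `IsMid.pi_mem`).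
-/

set_option autoImplicit false
set_option linter.style.haveILetI false
set_option linter.unusedSectionVars false
set_option synthInstance.maxHeartbeats 400000
set_option maxHeartbeats 1600000

noncomputable section

namespace Fermat.Agent.S36.Mod3.H27

open ModularCurve
open Fermat.Agent.A2.Mod
open Fermat.Agent.S36.Eng

/-! ## Generalities on valuation subrings -/

section Gen

variable {F : Type*} [Field F]

/-- `x w⁻¹ ∈ V`, `w ∈ 𝔪_V`, `w ≠ 0` ⟹ `x ∈ 𝔪_V`. -/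
theorem vt27_mem_nonunits_of_mul_inv {V : ValuationSubring F} {x w : F} (hw0 : w ≠ 0)
    (hw : w ∈ V.nonunits) (h : x * w⁻¹ ∈ V) : x ∈ V.nonunits := by
  have e : x = x * w⁻¹ * w := by field_simp
  rw [e]
  exact Fermat.Agent.S36.H816.mul_mem_nonunits_right V h hw

theorem vt27_isUnif_mem_nonunits {V : ValuationSubring F} {ϖ : F}
    (h : Fermat.Agent.A2.H48.IsUnif V ϖ) : ϖ ∈ V.nonunits := by
  rw [ValuationSubring.mem_nonunits_iff_or]
  exact Or.inr h.inv_not_mem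

theorem vt27_unifAt_of_isUnif {V : ValuationSubring F} {ϖ : F}
    (h : Fermat.Agent.A2.H48.IsUnif V ϖ) : UnifAt V ϖ := by
  refine ⟨h.ne_zero, vt27_isUnif_mem_nonunits h, fun f hf => ?_⟩
  have hfV : f ∈ V := Fermat.Agent.S36.H816.mem_of_mem_nonunits V hf
  rw [ValuationSubring.mem_nonunits_iff_or] at hf
  rcases hf with rfl | hf
  · rw [zero_mul]
    exact V.zero_mem
  · exact h.gen f hfV hf

/-- comap along an involution, twice. -/
theorem vt27_comap_comap {V : ValuationSubring F} {φ : F →+* F} (hφ : ∀ f, φ (φ f) = f) :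
    (V.comap φ).comap φ = V := by
  ext f
  rw [ValuationSubring.mem_comap, ValuationSubring.mem_comap, hφ]

end Gen

/-! ## The concrete assembly -/

section Concrete

variable {P : ValuationSubring A2.Qb} {E : IntermediateField ℚ A2.Qb} {M q : ℕ}
  [NeZero M] [NeZero q] [NeZero (M * q)]

/-- `Std` gives the unramifiedness hypothesis of helper972: `q = w · unit` in `R_E`. -/
theorem vt27_unram {w : A2.RE P E} (h : Mod3.Std P E M q w) :
    Fermat.Agent.S36.H972.Unram P E q w := by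
  haveI : IsDiscreteValuationRing (A2.RE P E) := h.unram.1.dvr
  have hw0 : (w : E) ≠ 0 := fun h0 => h.unif.ne_zero (Subtype.ext h0)
  have hq0 : ((q : ℕ) : E) ≠ 0 := Nat.cast_ne_zero.mpr (NeZero.ne q)
  have hq0' : ((q : ℕ) : A2.Qb) ≠ 0 := Nat.cast_ne_zero.mpr (NeZero.ne q)
  -- `w` is a nonunit of `P`
  have hwn : ((w : E) : A2.Qb) ∈ P.nonunits := by
    rw [ValuationSubring.mem_nonunits_iff_or]
    right
    intro hinv
    apply h.unif.not_isUnit
    refine isUnit_iff_exists_inv.mpr ⟨⟨(w : E)⁻¹, ?_⟩, Subtype.ext ?_⟩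
    · show algebraMap E A2.Qb ((w : E)⁻¹) ∈ P
      rw [map_inv₀]
      exact hinv
    · show (w : E) * (w : E)⁻¹ = 1
      exact mul_inv_cancel₀ hw0
  have h1 : ((w : E) : A2.Qb) * ((q : A2.Qb))⁻¹ ∈ P := h.unram.2 (w : E) hwn
  -- `q` lies in the maximal ideal of `R_E`
  have hqmem : ((q : ℕ) : E) ∈ A2.RE P E := natCast_mem (A2.RE P E) q
  have hqm : (⟨((q : ℕ) : E), hqmem⟩ : A2.RE P E) ∈ IsLocalRing.maximalIdeal (A2.RE P E) := by
    rw [IsLocalRing.mem_maximalIdeal, mem_nonunits_iff]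
    intro hu
    obtain ⟨b, hb⟩ := isUnit_iff_exists_inv.mp hu
    have hb' : ((q : ℕ) : E) * (b : E) = 1 := congrArg Subtype.val hb
    have hbq : (b : E) = ((q : ℕ) : E)⁻¹ := eq_inv_of_mul_eq_one_right hb'
    have hbP : algebraMap E A2.Qb (b : E) ∈ P := b.2
    rw [hbq, map_inv₀, map_natCast] at hbP
    have hl : ((q : ℕ) : A2.Qb) ∈ P.nonunits := h.lies_over
    rw [ValuationSubring.mem_nonunits_iff_or] at hl
    rcases hl with hl | hl
    · exact hq0' hl
    · exact hl hbP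
  rw [Irreducible.maximalIdeal_eq h.unif, Ideal.mem_span_singleton'] at hqm
  obtain ⟨a, ha⟩ := hqm
  have ha' : (a : E) * (w : E) = ((q : ℕ) : E) := congrArg Subtype.val ha
  have ha0 : (a : E) ≠ 0 := by
    intro h0
    rw [h0, zero_mul] at ha'
    exact hq0 ha'.symm
  have hainv : (a : E)⁻¹ ∈ A2.RE P E := by
    show algebraMap E A2.Qb ((a : E)⁻¹) ∈ P
    have e : (a : E)⁻¹ = (w : E) * (((q : ℕ) : E))⁻¹ := by
      rw [← ha']
      field_simp
    rw [e, map_mul, map_inv₀, map_natCast]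
    exact h1
  refine ⟨⟨a, ⟨(a : E)⁻¹, hainv⟩, Subtype.ext (mul_inv_cancel₀ ha0),
    Subtype.ext (inv_mul_cancel₀ ha0)⟩, ?_⟩
  show ((q : ℕ) : E) = (w : E) * (a : E)
  rw [← ha', mul_comm]

/-- **The valuation-level hub**, unconditional. -/
theorem leafVT : Mod3.LeafVT := by
  intro P E M q _ _ _ w hStd V₁' V₂' V₁ V₂ V₃ W' W hO
  have hS : Setting P E M q w := Mod3.H816.setting_of_std hStd
  haveI : IsDiscreteValuationRing (RE P E) := hS.dvr
  have hq : q.Prime := hS.q_prime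
  have hqMq : q ∣ M * q := dvd_mul_left q M
  have hun := vt27_unram hStd
  obtain ⟨Vmid, hne, -, hunif, ⟨u, hu, hui, hpow⟩, hresm, hres1, honly⟩ :=
    Fermat.Agent.S36.H972.mod3_alpha_main hS hun hO.vinf' hO.vinf
  -- `V₂` is the middle valuation ring
  have hcα : ∀ g : FE E (M * q), αE E (M * q) q g ∈ V₂ ↔ g ∈ V₁' := fun g => by
    have h2 : g ∈ V₂.comap (αE E (M * q) q : FE E (M * q) →+* FE E (M * q * q)) ↔ g ∈ V₁' := by
      rw [hO.mid]
    rw [ValuationSubring.mem_comap] at h2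
    exact h2
  have hV₂ : V₂ = Vmid := (honly V₂ hcα).resolve_left hO.mid_ne
  subst hV₂
  have hmid : Fermat.Agent.S36.H816.IsMid V₁' V₂ :=
    Fermat.Agent.S36.H816.isMid_of_ne hcα hS hO.vinf' hO.fricke' hO.vinf hO.mid_ne
  -- Fricke
  have hW2 : ∀ f, W (W f) = f := hO.fricke.2
  have hW'2 : ∀ f, W' (W' f) = f := hO.fricke'.2
  have hfc := fun g => H553.frickeCompat E (M * q) q W' W hO.fricke' hO.fricke g
  have hV₃ : ∀ f, f ∈ V₃ ↔ W f ∈ V₁ := fun f => by
    rw [hO.vzero, ValuationSubring.mem_comap]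
    rfl
  have hV₃n : ∀ f, f ∈ V₃.nonunits ↔ W f ∈ V₁.nonunits := fun f => by
    rw [hO.vzero, Fermat.Agent.S36.H816.mem_nonunits_comap_iff]
    rfl
  have hV₂' : ∀ g, g ∈ V₂' ↔ W' g ∈ V₁' := fun g => by
    rw [hO.vzero', ValuationSubring.mem_comap]
    rfl
  -- the uniformiser `w`
  have hL2 := H553.vinfBasic P E w (M * q * q) (NeZero.ne _) hS.dvr hS.unif V₁ hO.vinf
  have hw0 : cE P E (M * q * q) w ≠ 0 := hL2.1.ne_zero
  have hw1 : cE P E (M * q * q) w ∈ V₁.nonunits := vt27_isUnif_mem_nonunits hL2.1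
  have hWw : W (cE P E (M * q * q) w) = cE P E (M * q * q) w := W.commutes (w : E)
  have hw3 : cE P E (M * q * q) w ∈ V₃.nonunits := by
    rw [hV₃n, hWw]
    exact hw1
  have hπ0 : Mod3.jqq E M q - Mod3.j1 E M q ≠ 0 := hunif.ne_zero
  have hπn : Mod3.jqq E M q - Mod3.j1 E M q ∈ V₂.nonunits := vt27_isUnif_mem_nonunits hunif
  -- completeness along `α`
  have only_α₁ : ∀ V : ValuationSubring (FE E (M * q * q)),
      V.comap (αE E (M * q) q : FE E (M * q) →+* FE E (M * q * q)) = V₁' →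
        V = V₁ ∨ V = V₂ := fun V hV => by
    refine honly V fun k => ?_
    have h2 : k ∈ V.comap (αE E (M * q) q : FE E (M * q) →+* FE E (M * q * q)) ↔ k ∈ V₁' := by
      rw [hV]
    rw [ValuationSubring.mem_comap] at h2
    exact h2
  have only_α₃ : ∀ V : ValuationSubring (FE E (M * q * q)),
      V.comap (αE E (M * q) q : FE E (M * q) →+* FE E (M * q * q)) = V₂' → V = V₃ :=
    fun V hV => by
    rw [hO.vzero]
    refine Fermat.Agent.S36.H83.h83_alpha_unique W' W hS.dvr hS.unif hq hqMq hO.fricke'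
      hO.fricke hO.vinf' hO.vinf V fun f => ?_
    have h2 : f ∈ V.comap (αE E (M * q) q : FE E (M * q) →+* FE E (M * q * q)) ↔ f ∈ V₂' := by
      rw [hV]
    rw [ValuationSubring.mem_comap, hO.vzero'] at h2
    exact h2
  -- `V₂ ∘ W = V₂`
  have hmidW := hmid.fricke hS hO.vinf' hO.fricke' hO.fricke
  have hV₂W : V₂.comap (W : FE E (M * q * q) →+* FE E (M * q * q)) = V₂ := by
    rcases honly _ hmidW.comap_alpha with h1 | h1
    · exfalso
      -- then `V₂ = V₁ ∘ W = V₃`, which lies over `V₂' ≠ V₁'`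
      have h2 : V₂ = V₃ := by
        rw [hO.vzero, ← h1]
        exact (vt27_comap_comap (φ := (W : FE E (M * q * q) →+* FE E (M * q * q))) hW2).symm
      have h3 : V₁' = V₂' := by
        ext g
        rw [← hcα g, h2, hV₃, (hfc g).1, hV₂']
        exact Fermat.Agent.S36.H816.beta_mem_iff hO.vinf' hO.vinf (W' g)
      exact H553.vzeroNe P E M q w hS V₁' W' hO.vinf' hO.fricke' (by rw [← hO.vzero', ← h3])
    · exact h1
  have hV₂Wm : ∀ f, W f ∈ V₂ ↔ f ∈ V₂ := fun f => by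
    conv_rhs => rw [← hV₂W]
    rfl
  have hV₂Wn : ∀ f, W f ∈ V₂.nonunits ↔ f ∈ V₂.nonunits := fun f => by
    conv_rhs => rw [← hV₂W, Fermat.Agent.S36.H816.mem_nonunits_comap_iff]
    rfl
  have hkey : ∀ (d : ℕ) [NeZero d] (hd : d ∣ M * q * q), d = q →
      jE E (M * q * q) d hd = Mod3.jq E M q := by
    intro d _ hd h
    subst h
    rfl
  -- residue degree one along `α`
  have res_α₁ : ∀ f ∈ V₁, ∃ g ∈ V₁', f - αE E (M * q) q g ∈ V₁.nonunits := fun f hf => by
    obtain ⟨g, hg, hfg⟩ := hres1 f hf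
    exact ⟨g, hg, vt27_mem_nonunits_of_mul_inv hw0 hw1 hfg⟩
  have res_α₂ : ∀ f ∈ V₂, ∃ g ∈ V₁', f - αE E (M * q) q g ∈ V₂.nonunits := fun f hf => by
    obtain ⟨g, hg, hfg⟩ := hresm f hf
    exact ⟨g, hg, vt27_mem_nonunits_of_mul_inv hπ0 hπn hfg⟩
  refine
    { res_α₁ := res_α₁
      res_α₂ := res_α₂
      res_β₃ := ?_
      res_β₂ := ?_
      insep_α₃ := ?_
      insep_β₁ := ?_
      only_α₁ := only_α₁
      only_α₃ := only_α₃
      only_β₂ := ?_
      only_β₁ := ?_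
      pi_unif := vt27_unifAt_of_isUnif hunif
      pi_pow := ?_
      kron₁ := ?_
      kron₂ := ?_
      kron₃ := ?_ }
  · -- res_β₃
    intro f hf
    obtain ⟨g, hg, hfg⟩ := res_α₁ (W f) ((hV₃ f).mp hf)
    refine ⟨W' g, (hV₂' _).mpr (by rw [hW'2]; exact hg), ?_⟩
    rw [hV₃n, map_sub, (hfc (W' g)).2, hW'2]
    exact hfg
  · -- res_β₂
    intro f hf
    obtain ⟨g, hg, hfg⟩ := res_α₂ (W f) ((hV₂Wm f).mpr hf)
    refine ⟨W' g, (hV₂' _).mpr (by rw [hW'2]; exact hg), ?_⟩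
    rw [← hV₂Wn, map_sub, (hfc (W' g)).2, hW'2]
    exact hfg
  · -- insep_α₃
    intro f hf
    have hf' : f ∈ Fermat.Agent.S36.H83.h83_comapW V₁ W := by
      have hf2 := hf
      rw [hO.vzero] at hf2
      exact hf2
    obtain ⟨g, hg, hfg⟩ := Fermat.Agent.S36.H83.h83_alpha_insep W' W hS.dvr hS.unif hq hqMq
      hS.lies_over hO.fricke' hO.fricke hO.vinf' hO.vinf hf'
    refine ⟨g, by rw [hO.vzero']; exact hg, ?_⟩
    have hfg' : (f ^ q - αE E (M * q) q g) * (cE P E (M * q * q) w)⁻¹ ∈ V₃ := by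
      rw [hO.vzero]
      exact hfg
    exact vt27_mem_nonunits_of_mul_inv hw0 hw3 hfg'
  · -- insep_β₁
    intro f hf
    obtain ⟨g, hg, hfg⟩ := Fermat.Agent.S36.H83.h83_beta_insep hS.dvr hS.unif hq hqMq
      hS.lies_over hO.vinf' hO.vinf hf
    exact ⟨g, hg, vt27_mem_nonunits_of_mul_inv hw0 hw1 hfg⟩
  · -- only_β₂
    intro V hV
    have hVm : ∀ g, βE E (M * q) q g ∈ V ↔ g ∈ V₂' := fun g => by
      have h2 : g ∈ V.comap (βE E (M * q) q : FE E (M * q) →+* FE E (M * q * q)) ↔ g ∈ V₂' := by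
        rw [hV]
      rw [ValuationSubring.mem_comap] at h2
      exact h2
    have h1 : (V.comap (W : FE E (M * q * q) →+* FE E (M * q * q))).comap
        (αE E (M * q) q : FE E (M * q) →+* FE E (M * q * q)) = V₁' := by
      ext g
      rw [ValuationSubring.mem_comap, ValuationSubring.mem_comap]
      show W (αE E (M * q) q g) ∈ V ↔ g ∈ V₁'
      rw [(hfc g).1, hVm, hV₂', hW'2]
    have hVV : (V.comap (W : FE E (M * q * q) →+* FE E (M * q * q))).comap
        (W : FE E (M * q * q) →+* FE E (M * q * q)) = V :=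
      vt27_comap_comap (φ := (W : FE E (M * q * q) →+* FE E (M * q * q))) hW2
    rcases only_α₁ _ h1 with h2 | h2
    · left
      rw [← hVV, h2, hO.vzero]
    · right
      rw [← hVV, h2, hV₂W]
  · -- only_β₁
    intro V hV
    refine Fermat.Agent.S36.H83.h83_beta_unique hS.dvr hS.unif hq hqMq hO.vinf' hO.vinf V
      fun f => ?_
    have h2 : f ∈ V.comap (βE E (M * q) q : FE E (M * q) →+* FE E (M * q * q)) ↔ f ∈ V₁' := by
      rw [hV]
    rw [ValuationSubring.mem_comap] at h2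
    exact h2
  · -- pi_pow
    have hu0 : u ≠ 0 := by
      intro h0
      rw [h0, mul_zero] at hpow
      exact pow_ne_zero _ hπ0 hpow
    have e : algebraMap (A2.RE P E) (FE E (M * q * q)) w *
        ((Mod3.jqq E M q - Mod3.j1 E M q) ^ (q - 1))⁻¹ = u⁻¹ := by
      show cE P E (M * q * q) w * ((Mod3.jqq E M q - Mod3.j1 E M q) ^ (q - 1))⁻¹ = u⁻¹
      have hpow' : (Mod3.jqq E M q - Mod3.j1 E M q) ^ (q - 1) = cE P E (M * q * q) w * u := hpow
      rw [hpow']
      field_simp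
    rw [e]
    exact ⟨inv_ne_zero hu0, hui, by rw [inv_inv]; exact hu⟩
  · -- kron₁
    refine ⟨?_, ?_⟩
    · have h1 := Fermat.Agent.S36.H816.kron_jE hq hS.lies_over hO.vinf 1 (one_dvd _)
        (by rw [one_mul]; exact Dvd.intro_left (M * q) rfl)
      rw [hkey (1 * q) _ (one_mul q)] at h1
      exact h1
    · exact Fermat.Agent.S36.H816.kron_jE hq hS.lies_over hO.vinf q
        (Dvd.intro_left (M * q) rfl) ⟨M, by ring⟩
  · -- kron₂
    refine ⟨?_, ?_⟩
    · have h1 := hmid.kronA hq hS.lies_over hO.vinf' 1 (one_dvd _)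
      rw [hkey (1 * q) _ (one_mul q)] at h1
      exact h1
    · exact hmid.pi_mem
  · -- kron₃
    have hdM : M ∣ M * q * q := ⟨q * q, by ring⟩
    have hdMq : M * q ∣ M * q * q := ⟨q, rfl⟩
    have hW1 : W (Mod3.j1 E M q) = jE E (M * q * q) (M * q * q) dvd_rfl :=
      hO.fricke.1 1 (M * q * q) _ dvd_rfl (by ring)
    have hWq : W (Mod3.jq E M q) = jE E (M * q * q) (M * q) hdMq :=
      hO.fricke.1 q (M * q) _ hdMq (by ring)
    have hWqq : W (Mod3.jqq E M q) = jE E (M * q * q) M hdM :=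
      hO.fricke.1 (q * q) M _ hdM (by ring)
    refine ⟨?_, ?_⟩
    · rw [hV₃n, map_sub, map_pow, hW1, hWq]
      exact Fermat.Agent.S36.H816.kron_jE hq hS.lies_over hO.vinf (M * q) hdMq dvd_rfl
    · rw [hV₃n, map_sub, map_pow, hWq, hWqq]
      exact Fermat.Agent.S36.H816.kron_jE hq hS.lies_over hO.vinf M hdM hdMq

end Concrete

end Fermat.Agent.S36.Mod3.H27

end

end
-- ===== PACK-END S36/Mod3/H27/VT.lean

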