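import Fermat.Agent.Pack.S43MC.G0E27L1
import Fermat.Agent.Pack.S44C.G0E28L0
import Fermat.Agent.Pack.S43MC.G0E27L0
import Fermat.Agent.Pack.S43MC.G0E25L2
import Fermat.Agent.Pack.S43MC.G0E7L0
import Fermat.Agent.Pack.S43MC.G0E26L0
import Fermat.Agent.Pack.S43MC.G0E25L1
import Fermat.Agent.Pack.S44C.G0E17L2
import Fermat.Agent.Pack.S43MC.G0E26L3
import Fermat.Agent.Pack.S44C.G0E30L3
import Fermat.Agent.Pack.Fast891

-- ===== PACK-BEGIN Ribet/H924/Up.lean
section



/-!
# Row 37, WALL-q, leaf (Q3) EIGEN-LIFT-3 (helper924): the step UP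

A Kummer function `h ∈ k(X₀(M))` of a nonzero eigenclass (`IsRedEigen p M S a h`) is still one
when viewed in `k(X₀(Mℓ))`, for a prime `ℓ ∤ M` with `gcd (ℓ + 1, p) = 1` (`char k ∤ Mℓ`):

* orders at the places of `k(X₀(Mℓ))` are multiples of the orders at the restricted places
  (Prelude `Place.ord_restrict`);
* if `h = c · g ^ p` in `k(X₀(Mℓ))` then `h ^ (ℓ + 1) = c ^ (ℓ + 1) · (N g) ^ p`, so `h` is a
  constant times a `p`-th power already in `k(X₀(M))` (Bezout);
* the eigen-relations are relations between series.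
-/

set_option autoImplicit false
set_option linter.style.haveILetI false
set_option linter.unusedSectionVars false
set_option synthInstance.maxHeartbeats 400000
set_option maxHeartbeats 1600000

noncomputable section

namespace Fermat.Agent.Ribet.H924

open AlgebraicCurve ModularCurve HahnSeries IsLocalRing
open Fermat.Agent.S24 Fermat.Agent.A2.H708
open Fermat.Agent.S37.Red (Qb FN FNk)
open Fermat.Agent.Ribet.H158.WallQ (PPowSeries)
open Fermat.Agent.Ribet.H523.Q3 (KronEigen IsRedEigen)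
open Fermat.Agent.S29.H395 (normAlong)

section Up

variable {p M ℓ : ℕ} [NeZero M] [NeZero ℓ] {A : ValuationSubring Qb}

/-- Bezout. -/
theorem exists_bezout_int {d p : ℕ} (h : Nat.Coprime d p) :
    ∃ s t : ℤ, (d : ℤ) * s + (p : ℤ) * t = 1 := by
  refine ⟨Nat.gcdA d p, Nat.gcdB d p, ?_⟩
  have := Nat.gcd_eq_gcd_ab d p
  rw [h] at this
  rw [← this]
  simp

/-- descent of "constant times a `p`-th power" from `k(X₀(Mℓ))` to `k(X₀(M))`. -/
theorem pPowSeries_down (hℓ : ℓ.Prime) (hℓM : ¬ ℓ ∣ M) (hcop : Nat.Coprime (ℓ + 1) p)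
    (hchar : ∀ r : ℕ, r.Prime → r ∣ M * ℓ → ((r : ℕ) : kk A) ≠ 0) (h : FNk A M) (hh0 : h ≠ 0)
    (hpow : PPowSeries p (M * ℓ) (h : LaurentSeries (kk A))) :
    PPowSeries p M (h : LaurentSeries (kk A)) := by
  obtain ⟨c, g, hc, hg, hhg⟩ := hpow
  letI alg₁ : Algebra (FNk A M) (FNk A (M * ℓ)) := algebraAlong (inclK M ℓ A)
  have hfr₁ : Module.finrank (FNk A M) (FNk A (M * ℓ)) = ℓ + 1 := finrank_inclK hℓ hℓM hchar
  haveI : FiniteDimensional (FNk A M) (FNk A (M * ℓ)) :=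
    Module.finite_of_finrank_pos (by rw [hfr₁]; omega)
  obtain ⟨s, t, hst⟩ := exists_bezout_int hcop
  have e1 : algebraMap (FNk A M) (FNk A (M * ℓ)) h
      = algebraMap (FNk A M) (FNk A (M * ℓ)) (algebraMap (kk A) (FNk A M) c) * g ^ p := by
    apply Subtype.ext
    show ((inclK M ℓ A h : FNk A (M * ℓ)) : LaurentSeries (kk A))
      = ((inclK M ℓ A (algebraMap (kk A) (FNk A M) c) : FNk A (M * ℓ)) : LaurentSeries (kk A))
        * (g : LaurentSeries (kk A)) ^ p
    rw [coe_inclK, coe_inclK, coe_algebraMap_fullC]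
    exact hhg
  have key := eq_zpow_mul_pow_of_norm p hh0 e1 s t (by rw [hfr₁]; exact_mod_cast hst)
  rw [hfr₁] at key
  have hNg : Algebra.norm (FNk A M) g ≠ 0 := Algebra.norm_ne_zero_iff.mpr hg
  refine ⟨(c ^ (ℓ + 1)) ^ s, Algebra.norm (FNk A M) g ^ s * h ^ t,
    zpow_ne_zero _ (pow_ne_zero _ hc), mul_ne_zero (zpow_ne_zero _ hNg) (zpow_ne_zero _ hh0), ?_⟩
  have key' := congrArg (fun z : FNk A M => (z : LaurentSeries (kk A))) key
  have e2 : ((algebraMap (kk A) (FNk A M) c ^ (ℓ + 1)) ^ s : FNk A M)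
      = algebraMap (kk A) (FNk A M) ((c ^ (ℓ + 1)) ^ s) := by
    rw [map_zpow₀, map_pow]
  rw [e2] at key'
  refine key'.trans ?_
  show ((algebraMap (kk A) (FNk A M) ((c ^ (ℓ + 1)) ^ s) : FNk A M) : LaurentSeries (kk A))
    * ((Algebra.norm (FNk A M) g ^ s * h ^ t : FNk A M) : LaurentSeries (kk A)) ^ p = _
  rw [coe_algebraMap_fullC]

/-- **UP**: a Kummer function of a nonzero eigenclass at level `M` is one at level `Mℓ`. -/
theorem isRedEigen_up (hℓ : ℓ.Prime) (hℓM : ¬ ℓ ∣ M) (hcop : Nat.Coprime (ℓ + 1) p)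
    (hchar : ∀ r : ℕ, r.Prime → r ∣ M * ℓ → ((r : ℕ) : kk A) ≠ 0) {S : Finset ℕ} {a : ℕ → ℤ}
    {h : FNk A M} (hh : IsRedEigen p M S a h) :
    IsRedEigen p (M * ℓ) S a (inclK M ℓ A h) := by
  obtain ⟨hh0, hord, hnpow, heig⟩ := hh
  letI alg₁ : Algebra (FNk A M) (FNk A (M * ℓ)) := algebraAlong (inclK M ℓ A)
  haveI : IsScalarTower (kk A) (FNk A M) (FNk A (M * ℓ)) := isScalarTower_along (inclK M ℓ A)
  have hfr₁ : Module.finrank (FNk A M) (FNk A (M * ℓ)) = ℓ + 1 := finrank_inclK hℓ hℓM hchar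
  haveI : FiniteDimensional (FNk A M) (FNk A (M * ℓ)) :=
    Module.finite_of_finrank_pos (by rw [hfr₁]; omega)
  haveI : Algebra.IsIntegral (FNk A M) (FNk A (M * ℓ)) := Algebra.IsIntegral.of_finite _ _
  refine ⟨?_, ?_, ?_, ?_⟩
  · exact (map_ne_zero_iff _ (inclK M ℓ A).injective).mpr hh0
  · intro Q
    have h1 : Q.ord (inclK M ℓ A h)
        = Place.ramificationIndex (F := FNk A M) Q * (Q.restrict (FNk A M)).ord h :=
      Q.ord_restrict (F := FNk A M) h
    rw [h1]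
    exact Dvd.dvd.mul_left (hord _) _
  · intro hpow
    apply hnpow
    rw [coe_inclK] at hpow
    exact pPowSeries_down hℓ hℓM hcop hchar h hh0 hpow
  · intro ℓ' _ hℓ' hℓ'S
    obtain ⟨c, G, hc, hG, hrel⟩ := heig ℓ' hℓ' hℓ'S
    refine ⟨c, inclK M ℓ A G, hc, (map_ne_zero_iff _ (inclK M ℓ A).injective).mpr hG, ?_⟩
    rw [coe_inclK, coe_inclK]
    exact hrel

end Up

end Fermat.Agent.Ribet.H924

end
end
-- ===== PACK-END Ribet/H924/Up.lean

-- ===== PACK-BEGIN Ribet/H924/EigenLiftThree.lean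
section



/-!
# Row 37, WALL-q, leaf (Q3) EIGEN-LIFT-3 (helper924): the step DOWN and the assembly

Target: `H523.Q3.EigenLiftThreeStatement` (`q = 3`, `M'` odd, `3 ∤ M'`), through the level `2M'`
(which is a good level for `q = 3`).

* `EigenLiftStrongStatement` : EIGEN-LIFT at the good levels in its STRONG form — the lifted
  eigenclass `z` comes with a Kummer generator `f` whose reduction is `c · h · u ^ p`
  (`u ∈ k(X₀(M))`).  This is what the lifting argument (GR-SURJ + KUM-RED) produces: the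
  reduction of `z` IS the class of `div h / p`.
* `occursIn_down` : **DOWN**.  For `z' ∈ J₀(2M')[p]` eigen with such a Kummer generator,
  `z = α_* z' ∈ J₀(M')[p]` is eigen and NONZERO: otherwise `N_α f' = g ^ p`
  (`H801.alphaL_mk_eq_zero_iff`), and reducing (`normRed_kummer_to`, NORM-RED in residue
  characteristic `3`) gives `c₁ · h ^ 3 · v ^ p = w · ḡ ^ p` in `k(X₀(M'))`, so `h` is a constant
  times a `p`-th power (`gcd (3, p) = 1`).
* `eigenLiftThree_of : EigenLiftStrongStatement → H523.Q3.EigenLiftThreeStatement`.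
-/

set_option autoImplicit false
set_option linter.style.haveILetI false
set_option linter.unusedSectionVars false
set_option synthInstance.maxHeartbeats 400000
set_option maxHeartbeats 1600000

noncomputable section

namespace Fermat.Agent.Ribet.H924

open AlgebraicCurve ModularCurve HahnSeries IsLocalRing
open Fermat.Agent.S24 Fermat.Agent.A2.H708
open Fermat.Agent.S37.Red (Qb FN FNk ModVG modO modρ)
open Fermat.Agent.Ribet.Spec (OccursIn)
open Fermat.Agent.Ribet.H944.Wall (EigenAt)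
open Fermat.Agent.Ribet.H884 (IsKummerGen IsRedInf kA)
open Fermat.Agent.Ribet.H997 (IsRedSer)
open Fermat.Agent.Ribet.H158.WallQ (PPowSeries)
open Fermat.Agent.Ribet.H523.Q3 (KronEigen IsRedEigen EigenLiftThreeStatement)
open Fermat.Agent.S29.H395 (normAlong)
open Fermat.Agent.S29.H801 (alphaTo)

/-- **EIGEN-LIFT at the good levels, strong form**: the lifted eigenclass has a Kummer generator
whose reduction is `c · h · u ^ p` with `u ∈ k(X₀(M))`. -/
def EigenLiftStrongStatement : Prop :=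
  ∀ (p q M : ℕ) [NeZero M], p.Prime → 5 ≤ p → q.Prime → q ≠ 2 → q ≠ p → ¬ q ∣ M →
    (5 ≤ q ∨ 2 ∣ M) →
    ∀ A : ValuationSubring Kbar, A.LiesOverPrime q →
    ∀ (S : Finset ℕ) (a : ℕ → ℤ) (h : modularFunctionFieldFullC (_root_.Fermat.Agent.Ribet.H884.kA A) M),
      IsRedEigen p M S a h →
      ∃ (S' : Finset ℕ) (z : JZero M) (f : FF M) (c : _root_.Fermat.Agent.Ribet.H884.kA A)
        (u : modularFunctionFieldFullC (_root_.Fermat.Agent.Ribet.H884.kA A) M),
        S ⊆ S' ∧ p • z = 0 ∧ EigenAt M S' a z ∧ IsKummerGen M p f z ∧ c ≠ 0 ∧ u ≠ 0 ∧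
        IsRedInf M A f
          (HahnSeries.C c * (h : LaurentSeries (_root_.Fermat.Agent.Ribet.H884.kA A)) * (u : LaurentSeries (_root_.Fermat.Agent.Ribet.H884.kA A)) ^ p)

/-- Bezout descent: `h ^ d = c · g ^ p` and `d s + p t = 1` give `h = c ^ s · (g ^ s h ^ t) ^ p`. -/
theorem eq_zpow_mul_pow_of_pow {F : Type*} [Field F] (p d : ℕ) {h c g : F} (hh : h ≠ 0)
    (hg : h ^ d = c * g ^ p) (s t : ℤ) (hst : (d : ℤ) * s + (p : ℤ) * t = 1) :
    h = c ^ s * (g ^ s * h ^ t) ^ p := by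
  have h1 : h = (h ^ d) ^ s * (h ^ t) ^ p := by
    rw [← zpow_natCast h d, ← zpow_mul, ← zpow_natCast (h ^ t) p, ← zpow_mul,
      ← zpow_add₀ hh, mul_comm t, hst, zpow_one]
  have h2 : c ^ s * (g ^ s * h ^ t) ^ p = (c * g ^ p) ^ s * (h ^ t) ^ p := by
    rw [mul_zpow, mul_pow, ← zpow_natCast (g ^ s) p, ← zpow_mul, ← zpow_natCast g p,
      ← zpow_mul, mul_comm s (p : ℤ)]
    ring
  rw [h2, ← hg]
  exact h1

/-- **UP**, with the top level renamed. -/
theorem isRedEigen_up_to {p M ℓ N' : ℕ} [NeZero M] [NeZero ℓ] [NeZero N'] (hN' : M * ℓ = N')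
    {A : ValuationSubring Kbar} (hℓ : ℓ.Prime) (hℓM : ¬ ℓ ∣ M) (hcop : Nat.Coprime (ℓ + 1) p)
    (hchar : ∀ r : ℕ, r.Prime → r ∣ M * ℓ → ((r : ℕ) : _root_.Fermat.Agent.Ribet.H884.kA A) ≠ 0) {S : Finset ℕ} {a : ℕ → ℤ}
    {h : modularFunctionFieldFullC (_root_.Fermat.Agent.Ribet.H884.kA A) M} (hh : IsRedEigen p M S a h) :
    ∃ h' : modularFunctionFieldFullC (_root_.Fermat.Agent.Ribet.H884.kA A) N',
      (h' : LaurentSeries (_root_.Fermat.Agent.Ribet.H884.kA A)) = (h : LaurentSeries (_root_.Fermat.Agent.Ribet.H884.kA A)) ∧ IsRedEigen p N' S a h' := by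
  subst hN'
  exact ⟨inclK M ℓ A h, coe_inclK M ℓ A h, isRedEigen_up hℓ hℓM hcop hchar hh⟩

section Down

variable {p M' : ℕ} [NeZero M'] [NeZero (2 * M')] {A : ValuationSubring Kbar}

/-- **DOWN**: `α_*` of the strong lift at level `2M'` is a nonzero eigenclass at level `M'`. -/
theorem occursIn_down (hp : p.Prime) (hp5 : 5 ≤ p) (h3M : ¬ 3 ∣ M') (h2M : ¬ 2 ∣ M')
    (hA : A.LiesOverPrime 3) {S' : Finset ℕ} {a : ℕ → ℤ}
    (h : modularFunctionFieldFullC (_root_.Fermat.Agent.Ribet.H884.kA A) M') (hh0 : h ≠ 0)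
    (hnpow : ¬ PPowSeries p M' (h : LaurentSeries (_root_.Fermat.Agent.Ribet.H884.kA A)))
    (z' : JZero (2 * M')) (f' : FF (2 * M')) (c : _root_.Fermat.Agent.Ribet.H884.kA A)
    (u : modularFunctionFieldFullC (_root_.Fermat.Agent.Ribet.H884.kA A) (2 * M')) (hz' : p • z' = 0)
    (heig : EigenAt (2 * M') S' a z') (hK : IsKummerGen (2 * M') p f' z') (hc : c ≠ 0)
    (hu : u ≠ 0)
    (hred : IsRedInf (2 * M') A f'
      (HahnSeries.C c * (h : LaurentSeries (_root_.Fermat.Agent.Ribet.H884.kA A)) * (u : LaurentSeries (_root_.Fermat.Agent.Ribet.H884.kA A)) ^ p)) :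
    OccursIn M' p (S' ∪ {2}) a := by
  have h3 : Nat.Prime 3 := Nat.prime_three
  have h2 : Nat.Prime 2 := Nat.prime_two
  refine ⟨Fermat.Agent.Ribet.H801.alphaL 2 M' z', ?_, ?_, ?_⟩
  · -- nonzero
    intro hz0
    obtain ⟨hf'0, D, hD, hord⟩ := hK
    rw [← hD] at hz0
    obtain ⟨g, hg0, hNg⟩ := (Fermat.Agent.Ribet.H801.alphaL_mk_eq_zero_iff 2 M' (m := p)
      hp.ne_zero D hf'0 (fun w => (hord w).symm)).mp hz0
    -- NORM-RED
    obtain ⟨c₁, v, hc₁, hv, hNred⟩ := normRed_kummer_to (Nat.mul_comm M' 2) h3 h2 h3M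
      (by decide) h2M hA p f' c h u hc hu hred
    rw [hNg] at hNred
    -- a reduction of `g`
    have hVG₀ : ModVG M' A := modVG_of_prime h3 h3M hA
    obtain ⟨cg, ug, hcg, hug, hgu⟩ := exists_cst_mul_unit hVG₀ hg0
    have hredg : IsRedInf M' A g ((modρ hVG₀ ug : FNk A M') : LaurentSeries (_root_.Fermat.Agent.Ribet.H884.kA A)) := by
      have h1 := isRedSer_cst_mul (isRedSer_of_modO hVG₀ ug hug) hcg
      show IsRedSer A (g : LaurentSeries Kbar) _
      rw [hgu]
      exact h1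
    have hredgp := Fermat.Agent.Ribet.H944.I2.isRedInf_pow M' A hredg p
    obtain ⟨w, hw, hw'⟩ := Fermat.Agent.Ribet.H997.isRedInf_unique hredgp hNred
    -- the identity in `k(X₀(M'))`
    set R : FNk A M' := modρ hVG₀ ug with hR
    have hfield : algebraMap (_root_.Fermat.Agent.Ribet.H884.kA A) (FNk A M') c₁ * h ^ (2 + 1) * v ^ p
        = algebraMap (_root_.Fermat.Agent.Ribet.H884.kA A) (FNk A M') w * R ^ p := by
      apply Subtype.ext
      show ((algebraMap (_root_.Fermat.Agent.Ribet.H884.kA A) (FNk A M') c₁ : FNk A M') : LaurentSeries (_root_.Fermat.Agent.Ribet.H884.kA A))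
          * (h : LaurentSeries (_root_.Fermat.Agent.Ribet.H884.kA A)) ^ (2 + 1) * (v : LaurentSeries (_root_.Fermat.Agent.Ribet.H884.kA A)) ^ p
        = ((algebraMap (_root_.Fermat.Agent.Ribet.H884.kA A) (FNk A M') w : FNk A M') : LaurentSeries (_root_.Fermat.Agent.Ribet.H884.kA A))
          * (R : LaurentSeries (_root_.Fermat.Agent.Ribet.H884.kA A)) ^ p
      rw [coe_algebraMap_fullC, coe_algebraMap_fullC]
      exact hw'
    have hc₁' : algebraMap (_root_.Fermat.Agent.Ribet.H884.kA A) (FNk A M') c₁ ≠ 0 :=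
      (map_ne_zero_iff _ (algebraMap (_root_.Fermat.Agent.Ribet.H884.kA A) (FNk A M')).injective).mpr hc₁
    have hpow3 : h ^ (2 + 1) = algebraMap (_root_.Fermat.Agent.Ribet.H884.kA A) (FNk A M') (w * c₁⁻¹) * (R * v⁻¹) ^ p := by
      rw [map_mul, map_inv₀, mul_pow, inv_pow]
      have hvp : v ^ p ≠ 0 := pow_ne_zero p hv
      field_simp
      rw [← hfield]
      ring
    have hcop : Nat.Coprime (2 + 1) p := by
      rw [Nat.coprime_comm]
      apply (Nat.Prime.coprime_iff_not_dvd hp).mpr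
      intro hdvd
      have := Nat.le_of_dvd (by norm_num) hdvd
      omega
    obtain ⟨s, t, hst⟩ := exists_bezout_int hcop
    have key := eq_zpow_mul_pow_of_pow p (2 + 1) hh0 hpow3 s t hst
    apply hnpow
    have hR0 : R ≠ 0 := hug
    refine ⟨(w * c₁⁻¹) ^ s, (R * v⁻¹) ^ s * h ^ t,
      zpow_ne_zero _ (mul_ne_zero hw (inv_ne_zero hc₁)),
      mul_ne_zero (zpow_ne_zero _ (mul_ne_zero hR0 (inv_ne_zero hv))) (zpow_ne_zero _ hh0), ?_⟩
    have key' := congrArg (fun z : FNk A M' => (z : LaurentSeries (_root_.Fermat.Agent.Ribet.H884.kA A))) key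
    rw [← map_zpow₀] at key'
    refine key'.trans ?_
    show ((algebraMap (_root_.Fermat.Agent.Ribet.H884.kA A) (FNk A M') ((w * c₁⁻¹) ^ s) : FNk A M') : LaurentSeries (_root_.Fermat.Agent.Ribet.H884.kA A))
      * (((R * v⁻¹) ^ s * h ^ t : FNk A M') : LaurentSeries (_root_.Fermat.Agent.Ribet.H884.kA A)) ^ p = _
    rw [coe_algebraMap_fullC]
  · rw [← map_nsmul, hz', map_zero]
  · intro ℓ hℓ
    have hℓS : (ℓ : ℕ) ∉ S' := fun hS => hℓ (Finset.mem_union_left _ hS)
    have hℓ2 : (ℓ : ℕ) ≠ 2 := fun h2' => hℓ (Finset.mem_union_right _ (Finset.mem_singleton.mpr h2'))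
    rw [← Fermat.Agent.Ribet.H801.alphaL_heckeOperatorBar 2 M' h2 ℓ hℓ2, heig ℓ hℓS, map_zsmul]

end Down

/-- **EIGEN-LIFT-3** from the strong form of EIGEN-LIFT at the good level `2M'`. -/
theorem eigenLiftThree_of (hS : EigenLiftStrongStatement) : EigenLiftThreeStatement := by
  intro p M' _ hp hp5 h3M h2M A hA S a h hh
  have h3 : Nat.Prime 3 := Nat.prime_three
  have h2 : Nat.Prime 2 := Nat.prime_two
  haveI : NeZero (2 * M') := ⟨Nat.mul_ne_zero (by norm_num) (NeZero.ne M')⟩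
  have hcop : Nat.Coprime (2 + 1) p := by
    rw [Nat.coprime_comm]
    apply (Nat.Prime.coprime_iff_not_dvd hp).mpr
    intro hdvd
    have := Nat.le_of_dvd (by norm_num) hdvd
    omega
  have h3M2 : ¬ 3 ∣ M' * 2 := by
    intro hd
    rcases (Nat.Prime.dvd_mul h3).mp hd with hd | hd
    · exact h3M hd
    · exact absurd hd (by decide)
  have h3M2' : ¬ 3 ∣ 2 * M' := by rwa [Nat.mul_comm]
  have hchar := natCast_ne_zero_kk h3 h3M2 hA
  obtain ⟨h', hh', hup⟩ := isRedEigen_up_to (Nat.mul_comm M' 2) h2 h2M hcop hchar hh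
  obtain ⟨S', z', f', c, u, hSS', hz', heig, hK, hc, hu, hred⟩ :=
    hS p 3 (2 * M') hp hp5 h3 (by decide) (by omega) h3M2' (Or.inr (dvd_mul_right 2 M')) A hA
      S a h' hup
  rw [hh'] at hred
  exact ⟨S' ∪ {2}, hSS'.trans Finset.subset_union_left,
    occursIn_down hp hp5 h3M h2M hA h hh.1 hh.2.2.1 z' f' c u hz' heig hK hc hu hred⟩

end Fermat.Agent.Ribet.H924

end
end
-- ===== PACK-END Ribet/H924/EigenLiftThree.lean

-- ===== PACK-BEGIN S36/Mod3/H928/OfCusp.lean
section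





/-!
# S36 / MOD3 — everything but `regular_i` for `q` odd (helper928, integrator)

* `leafReg_of_regIOdd : LeafRegIOdd → Mod3.LeafReg`, `LeafRegIOdd` = the field `regular_i` of
  `PartReg` for `q ≠ 2` (the cusps of the middle component).  Plugged in: `q = 2` completely
  (helper890 `leafReg2_of`, with (R-U) `H356`, (R-RES) `H775`), `regular_f` for `q` odd
  (`H928.leafRegF4`).
* `model3_of_regIOdd : LeafRegIOdd → Eng.Model3Statement`;
* `model3_of_cuspCong : H276.LeafCuspCong → Eng.Model3Statement` (helper276's reduction of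
  `regular_i` to ONE congruence).
-/

set_option autoImplicit false
set_option maxHeartbeats 1600000
set_option synthInstance.maxHeartbeats 400000

noncomputable section

namespace Fermat.Agent.S36.Mod3.H928

open Fermat.Agent.S18.H138 (chart)
open Fermat.Agent.S36.Eng Fermat.Agent.S36.Mod3

/-- The field `regular_i` of `PartReg` at the concrete objects, for `q` odd. -/
def LeafRegIOdd : Prop :=
  Leaf fun P E M q _ _ _ _ _ _ _ V₂ _ => q ≠ 2 →
    ∀ 𝔪 : Ideal (chart (A2.RE P E) ({(x3E E M q)⁻¹} : Set (A2.Mod.FE E (M * q * q)))),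
      𝔪.IsMaximal →
      (⟨(x3E E M q)⁻¹, Fermat.Agent.S18.H138.mem_chart_of_mem rfl⟩ :
        chart (A2.RE P E) ({(x3E E M q)⁻¹} : Set (A2.Mod.FE E (M * q * q)))) ∈ 𝔪 →
      Through _ 𝔪 V₂ → PrincipalAt _ 𝔪 V₂

/-- (R-RES) in helper890's leaf shape, from helper775's `hresJ`. -/
theorem leafResJ928 : Mod3.H890.LeafResJ :=
  fun _ _ _ _ _ _ _ _ hStd _ _ _ _ _ _ _ hO => Mod3.H775.Res.hresJ hStd hO

/-- **REG** from `regular_i` for `q` odd. -/
theorem leafReg_of_regIOdd (hI : LeafRegIOdd) : LeafReg :=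
  have hVT : LeafVT := Mod3.H370.leafVT
  have hTab : LeafTable := Mod3.H370.leafTable
  have hVal : LeafVal := Mod3.H370.leafVal
  have hSh : LeafSheet := Mod3.H985.leafSheet
  have hQep : LeafQep := Mod3.H27.leafQep_of_vt hVT
  have hNR : LeafNR := Mod3.H657.leafNR_of hVal hTab
  have hCh : LeafChart := Mod3.H189.leafChart_of hVT hTab hVal
  have hInc : LeafInc := Mod3.H153.leafInc hTab hCh hQep hVal hSh hNR
  have hRU : Mod3.H356.LeafRegU := Mod3.H356.leafRegU_of hTab hQep hCh hVal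
  Mod3.H890.leafReg_of_two_odd (Mod3.H890.leafReg2_of hSh hVal hQep hInc hRU leafResJ928)
    (fun P E M q _ _ _ w hStd V₁' V₂' V₁ V₂ V₃ W' W hO hq2 =>
      { regular_f := fun 𝔪 h𝔪 ht =>
          Or.inr (Or.inl (leafRegF4 P E M q w hStd V₁' V₂' V₁ V₂ V₃ W' W hO
            (hStd.neat.2.1 hq2) hq2 𝔪 h𝔪 ht))
        regular_i := hI P E M q w hStd V₁' V₂' V₁ V₂ V₃ W' W hO hq2 })

/-- **MOD3 modulo `regular_i` for `q` odd.** -/
theorem model3_of_regIOdd (hI : LeafRegIOdd) : Model3Statement :=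
  model3_of_reg (leafReg_of_regIOdd hI)

/-- **MOD3 modulo the cusp congruence** of helper276. -/
theorem model3_of_cuspCong (hC : Mod3.H276.LeafCuspCong) : Model3Statement :=
  have hVT : LeafVT := Mod3.H370.leafVT
  have hTab : LeafTable := Mod3.H370.leafTable
  have hVal : LeafVal := Mod3.H370.leafVal
  have hSh : LeafSheet := Mod3.H985.leafSheet
  have hQep : LeafQep := Mod3.H27.leafQep_of_vt hVT
  have hNR : LeafNR := Mod3.H657.leafNR_of hVal hTab
  have hCh : LeafChart := Mod3.H189.leafChart_of hVT hTab hVal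
  have hInc : LeafInc := Mod3.H153.leafInc hTab hCh hQep hVal hSh hNR
  model3_of_regIOdd (fun P E M q _ _ _ w hStd V₁' V₂' V₁ V₂ V₃ W' W hO _ =>
    Mod3.H276.leafRegI_of hVal hSh hQep hInc hVT hC P E M q w hStd V₁' V₂' V₁ V₂ V₃ W' W hO)

end Fermat.Agent.S36.Mod3.H928

end

end
-- ===== PACK-END S36/Mod3/H928/OfCusp.lean

-- ===== PACK-BEGIN S36/Mod3/H96/CuspCong.lean
section







/-!
# S36 / MOD3, cell REG (R-I): `H276.LeafCuspCong`, ELEMENTARY proof (helper96)

The cusp congruence `tcusp ^ (q - 1) · g₂ ≡ w · h` modulo `w · 𝔪_{V₂}` (`k = 1`, `N = q - 1`,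
`n = 1`, `h = 1 + j⁻¹ c`, `g₂ = -u⁻¹ (1 - j / j_q ^ q)²`, `q = w u`), the single input of
`regular_i` (`H276.leafRegI_of`).

Independent of (R-RES): no modular unit, no Hasse polynomial, no Eisenstein series; only the
Kronecker decomposition of `Φ_q` over `ℤ` (`S28.h88_kronecker_int`), its shape
(`S15.H386.isModularShape_of_modPolyData`), the modular equations `Φ_q(j_q, j) = 0 =
Φ_q(j_q, j_{q²})` and the fields `pi_unif`, `pi_pow`, `kron₂` of `LeafVT`
(abstract core: `H96.cusp_core96`, Taylor expansion of `Φ_q(j_q, ·)` at `j`).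

* `leafCuspCong_of96 : LeafVT → LeafVal → LeafSheet → H276.LeafCuspCong`;
* `leafCuspCong96    : H276.LeafCuspCong` (unconditional, leaves from main plugged).
-/

set_option autoImplicit false
set_option linter.style.haveILetI false
set_option linter.unusedSectionVars false
set_option synthInstance.maxHeartbeats 400000
set_option maxHeartbeats 1600000

noncomputable section

namespace Fermat.Agent.S36.Mod3.H96

open ModularCurve Polynomial
open Fermat.Agent.S18.H138 (chart mem_chart mem_chart_of_mem)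
open Fermat.Agent Fermat.Agent.S36.Eng

section Cong

variable (P : ValuationSubring A2.Qb) (E : IntermediateField ℚ A2.Qb) (M q : ℕ)
  [NeZero M] [NeZero q] [NeZero (M * q)]

/-- **The cusp congruence** from the valuation-level table. -/
theorem cuspCong96 (hq : q.Prime) (w : A2.RE P E) (hun : S36.H972.Unram P E q w)
    (V₁ V₂ V₃ : ValuationSubring (A2.Mod.FE E (M * q * q)))
    (V₁' V₂' : ValuationSubring (A2.Mod.FE E (M * q)))
    (hval : PartVal (R := A2.RE P E) w q (x3E E M q) V₁ V₂ V₃)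
    (hsheet : PartSheet (R := A2.RE P E) w (x3E E M q) V₁ V₂ V₃)
    (hvt : PartVT (R := A2.RE P E) w q (A2.Mod.αE E (M * q) q) (A2.Mod.βE E (M * q) q)
      (j1 E M q) (jq E M q) (jqq E M q) V₁ V₂ V₃ V₁' V₂') :
    H276.CuspCong P E M q w V₂ := by
  haveI : Fact q.Prime := ⟨hq⟩
  obtain ⟨D⟩ := S28.H807.nonempty_modPolyData q hq
  have hΦ := S15.H386.isModularShape_of_modPolyData D hq.one_lt
  obtain ⟨Θ, hK⟩ := S28.h88_kronecker_int q D
  obtain ⟨⟨a0, a1, a2⟩, ⟨b0, b1, b2⟩, ⟨c0, c1, c2⟩⟩ :=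
    H276.unitAt_of_x_unit E M q hq V₂ hval.x_unit₂
  obtain ⟨u, hu⟩ := hun
  -- the constants
  have hW0 : algebraMap (A2.RE P E) (A2.Mod.FE E (M * q * q)) w ≠ 0 := hval.unif₁.1
  have hWm := H276.w_mem_nonunits_of_ram hq.two_le hval.ram₂
  have hUU' : algebraMap (A2.RE P E) (A2.Mod.FE E (M * q * q)) (u : A2.RE P E)
      * algebraMap (A2.RE P E) (A2.Mod.FE E (M * q * q)) ((u⁻¹ : (A2.RE P E)ˣ) : A2.RE P E)
      = 1 := by
    rw [← map_mul, Units.mul_inv, map_one]
  have hqW : ((q : ℕ) : A2.Mod.FE E (M * q * q))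
      = algebraMap (A2.RE P E) (A2.Mod.FE E (M * q * q)) w
        * algebraMap (A2.RE P E) (A2.Mod.FE E (M * q * q)) (u : A2.RE P E) := by
    have h1 : algebraMap (A2.RE P E) (A2.Mod.FE E (M * q * q)) w
        = algebraMap E (A2.Mod.FE E (M * q * q)) (w : E) := rfl
    have h2 : algebraMap (A2.RE P E) (A2.Mod.FE E (M * q * q)) (u : A2.RE P E)
        = algebraMap E (A2.Mod.FE E (M * q * q)) ((u : A2.RE P E) : E) := rfl
    rw [h1, h2, ← map_mul, ← hu, map_natCast]
  have hpow : (jqq E M q - j1 E M q) ^ (q - 1)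
      * (algebraMap (A2.RE P E) (A2.Mod.FE E (M * q * q)) w)⁻¹ ∈ V₂ := by
    have := hvt.pi_pow.2.2
    rw [mul_inv, inv_inv] at this
    rw [mul_comm ((jqq E M q - j1 E M q) ^ (q - 1))]
    exact this
  obtain ⟨C₀, hC₀⟩ := cusp_cong_val96 V₂ q hq hΦ hK a0 a1 a2 b0 b1 b2 c0 c1 c2
    (H276.eval2_jq_j1 E M q D) (H276.eval2_jq_jqq E M q D) hvt.pi_unif.1 hvt.pi_unif.2.1
    hvt.kron₂.1 hW0 hWm (hsheet.base₂ _) (hsheet.base₂ _) hUU' hqW hpow
  -- the elements of the chart at infinity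
  obtain ⟨Jel, hJel⟩ : ∃ y : chart (A2.RE P E)
      ({(x3E E M q)⁻¹} : Set (A2.Mod.FE E (M * q * q))),
      (y : A2.Mod.FE E (M * q * q)) = (j1 E M q)⁻¹ :=
    ⟨⟨_, H189.j1_inv_mem_chart P E M q hq⟩, rfl⟩
  obtain ⟨eel, heel⟩ : ∃ y : chart (A2.RE P E)
      ({(x3E E M q)⁻¹} : Set (A2.Mod.FE E (M * q * q))),
      (y : A2.Mod.FE E (M * q * q)) = j1 E M q * (jq E M q ^ q)⁻¹ :=
    ⟨⟨_, H276.eba_mem_chart P E M q hq⟩, rfl⟩
  have hcoe : ((C₀.eval₂ (Int.castRingHom _) Jel : chart (A2.RE P E)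
      ({(x3E E M q)⁻¹} : Set (A2.Mod.FE E (M * q * q)))) : A2.Mod.FE E (M * q * q))
      = C₀.eval₂ (Int.castRingHom _) (j1 E M q)⁻¹ := by
    have h := Polynomial.hom_eval₂ C₀ (Int.castRingHom (chart (A2.RE P E)
      ({(x3E E M q)⁻¹} : Set (A2.Mod.FE E (M * q * q)))))
      (chart (A2.RE P E) ({(x3E E M q)⁻¹} : Set (A2.Mod.FE E (M * q * q)))).val.toRingHom Jel
    have e : ((chart (A2.RE P E)
        ({(x3E E M q)⁻¹} : Set (A2.Mod.FE E (M * q * q)))).val.toRingHom).comp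
        (Int.castRingHom _) = Int.castRingHom _ := RingHom.ext_int _ _
    rw [e] at h
    rw [← hJel]
    exact h
  refine ⟨1 + Jel * C₀.eval₂ (Int.castRingHom _) Jel, C₀.eval₂ (Int.castRingHom _) Jel,
    -(algebraMap (A2.RE P E) _ ((u⁻¹ : (A2.RE P E)ˣ) : A2.RE P E)) * (1 - eel) ^ 2,
    1, 1, q - 1, ?_, ?_, ?_⟩
  · have := hq.two_le
    omega
  · push_cast
    rw [hJel]
  · refine hC₀ _ _ ?_ ?_
    · push_cast
      rw [hJel, hcoe]
    · push_cast
      rw [heel]

end Cong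

/-! ## The leaf -/

section Leaves

/-- **`H276.LeafCuspCong`** from the hub `LeafVT` (+ `LeafVal`, `LeafSheet`). -/
theorem leafCuspCong_of96 (hVT : LeafVT) (hVal : LeafVal) (hSheet : LeafSheet) :
    H276.LeafCuspCong := by
  intro P E M q _ _ _ w hstd V₁' V₂' V₁ V₂ V₃ W' W hobj
  exact cuspCong96 P E M q hstd.q_prime w (H27.vt27_unram hstd) V₁ V₂ V₃ V₁' V₂'
    (hVal P E M q w hstd V₁' V₂' V₁ V₂ V₃ W' W hobj)
    (hSheet P E M q w hstd V₁' V₂' V₁ V₂ V₃ W' W hobj)
    (hVT P E M q w hstd V₁' V₂' V₁ V₂ V₃ W' W hobj)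

/-- **`H276.LeafCuspCong`, unconditional.** -/
theorem leafCuspCong96 : H276.LeafCuspCong :=
  leafCuspCong_of96 H27.leafVT H370.leafVal H860.leafSheet

end Leaves

end Fermat.Agent.S36.Mod3.H96

end

end
-- ===== PACK-END S36/Mod3/H96/CuspCong.lean

-- ===== PACK-BEGIN S59/H401/DictFinal.lean
section



/-!
# Row S59, leaf DICT (helper401): `dict : Arch.DictStatement`, unconditional

`Fermat.Agent.S59.H401.dict_of_S29` applied to `Fermat.Agent.S29.result` (on main).
-/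

set_option autoImplicit false

namespace Fermat.Agent.S59.H401

/-- Frozen S29, from main. -/
theorem dictS29Statement : DictS29Statement :=
  @Fermat.Agent.S29.result

/-- **Leaf DICT** (cell DICT of `coord/S59.md`). -/
theorem dict : Fermat.Agent.S59.Arch.DictStatement :=
  dict_of_S29 dictS29Statement

end Fermat.Agent.S59.H401

end
-- ===== PACK-END S59/H401/DictFinal.lean

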