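import Fermat.Agent.Pack.S43MC.G0E28L0
import Fermat.Agent.Pack.S43MC.G0E27L1
import Fermat.Agent.Pack.S43MC.G0E28L3
import Fermat.Agent.Pack.S44C.G0E31L0
import Fermat.Agent.Pack.S44C.G0E30L1
import Fermat.Agent.Pack.S44C.G0E30L2
import Fermat.Agent.Pack.Fast891

-- ===== PACK-BEGIN Ribet/H158/WallQClosedPlus.lean
section



/-!
# Row 37: S43 from the OPEN WALL-q leaves, ODD-VACUOUS and the SCALAR hard case  (helper158)

    S43_of_goodLeaves_hardScalar :
      Q2Good → Q3Good → CoreOutQGood → CuspPurityQGood → OddVacuous → H723.HardScalarStatement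
        → S43Statement

All other inputs are discharged from main (see `WallQClosed.lean`).  `H723.HardScalarStatement` is
the hard case restricted to `p ∣ q - 1` AND every Frobenius at `q` scalar on `E[p]`.
-/

set_option autoImplicit false

namespace Fermat.Agent.Ribet.H158.WallQ

open Fermat.Agent.Ribet Fermat.Agent.Ribet.Spec

/-- The targets at good levels from the four open leaves. -/
theorem wallQTargetsGood_of_leaves (h2 : Q2GoodStatement) (h3 : Q3GoodStatement)
    (hCO : CoreOutQGoodStatement) (hCP : CuspPurityQGoodStatement) :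
    WallQTargetsGoodStatement :=
  wallQTargetsGood_of h2 h3 (eisSlopeQGood_of_leaves hCO hCP)

/-- **The sharp wall at `q` from the four open leaves and ODD-VACUOUS.** -/
theorem wallQFreyPlus_of_goodLeaves (h2 : Q2GoodStatement) (h3 : Q3GoodStatement)
    (hCO : CoreOutQGoodStatement) (hCP : CuspPurityQGoodStatement)
    (hOdd : OddVacuousStatement) : H723.WallQFreyPlusStatement :=
  wallQFreyPlus_of_goodTargets H584.places H704.detFrob H643.torsionRank
    (wallQTargetsGood_of_leaves h2 h3 hCO hCP) hOdd

/-- **S43 from the four open WALL-q leaves, ODD-VACUOUS and the SCALAR hard case.** -/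
theorem S43_of_goodLeaves_hardScalar (h2 : Q2GoodStatement) (h3 : Q3GoodStatement)
    (hCO : CoreOutQGoodStatement) (hCP : CuspPurityQGoodStatement)
    (hOdd : OddVacuousStatement) (hH : H723.HardScalarStatement) : S43Statement :=
  S43_of_goodTargets_hardScalar H823.embed H584.places H704.detFrob H643.torsionRank
    H583.nonEisenstein583 H404.eigenformOfOccursAway H943.Final.almostAllToWitness
    (wallQTargetsGood_of_leaves h2 h3 hCO hCP) hOdd hH

end Fermat.Agent.Ribet.H158.WallQ

end
-- ===== PACK-END Ribet/H158/WallQClosedPlus.lean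

-- ===== PACK-BEGIN Ribet/H343/Q3Closed.lean
section




/-!
# RIBET row 37, WALL-q: the leaf (Q3) RED is CLOSED, unconditionally (helper343)

Plugs the last leaf GR-SURJ (`H343.grSurjQ3`, adapter of helper937's `H937.grSurj`) into the
proved glue of the (Q3) board (sub-architect helper523) and into EIGEN-LIFT-3 (helper924):

* `q3Good   : H158.WallQ.Q3GoodStatement`   (good levels: `5 ≤ q`, or `q = 3` and `2 ∣ M'`);
* `q3All    : H158.WallQ.Q3Statement`       (ALL levels, `q = 3` with `M'` odd included);
* `eigenLiftGood`, `eigenLiftStrong`, `eigenLiftThree`, `eigenLift` : the intermediate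
  statements `H523.Q3.EigenLiftGoodStatement`, `H924.EigenLiftStrongStatement`,
  `H523.Q3.EigenLiftThreeStatement`, `H523.Q3.EigenLiftStatement`.

No new mathematics: wiring only (heavy closure: S18 + S27 + S37).
-/

set_option autoImplicit false
set_option synthInstance.maxHeartbeats 400000
set_option maxHeartbeats 1000000

noncomputable section

namespace Fermat.Agent.Ribet.H343

open Fermat.Agent.Ribet.H523.Q3 Fermat.Agent.Ribet.H158.WallQ

/-- **EIGEN-LIFT at good levels**, unconditional. -/
theorem eigenLiftGood : EigenLiftGoodStatement :=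
  eigenLiftGood_of_grSurj grSurjQ3

/-- **EIGEN-LIFT at good levels, strong form** (shape of helper924), unconditional. -/
theorem eigenLiftStrong : Fermat.Agent.Ribet.H924.EigenLiftStrongStatement := by
  intro p q M _ hp _ hq hq2 hqp hqM hgood A hA S a h hh
  obtain ⟨z, f, r, c, u, -, hpz, hK, hred, hc, hu, hr, heig⟩ :=
    eigenLiftGoodStrong_of_grSurj grSurjQ3 p q M hp hq hq2 hqp hqM hgood A hA S a h hh
  refine ⟨S ∪ (q * M * p).primeFactors, z, f, c, u, Finset.subset_union_left, hpz, heig, hK,
    hc, hu, ?_⟩
  rw [← hr]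
  exact hred

/-- **EIGEN-LIFT-3** (`q = 3`, `M'` odd), unconditional. -/
theorem eigenLiftThree : EigenLiftThreeStatement :=
  Fermat.Agent.Ribet.H924.eigenLiftThree_of eigenLiftStrong

/-- **EIGEN-LIFT**, all levels, unconditional. -/
theorem eigenLift : EigenLiftStatement :=
  eigenLift_of_cases eigenLiftGood eigenLiftThree

/-- **(Q3) RED at good levels**, unconditional. -/
theorem q3Good : Q3GoodStatement :=
  q3Good_of_grSurj grSurjQ3

/-- **(Q3) RED at ALL levels**, unconditional. -/
theorem q3All : Q3Statement :=
  q3_of redEigenQ eigenLift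

end Fermat.Agent.Ribet.H343

end
end
-- ===== PACK-END Ribet/H343/Q3Closed.lean

-- ===== PACK-BEGIN Ribet/H912/CoreOutQ.lean
section



/-!
# RIBET row 37, WALL-q: the leaf CORE-OUT-q at good levels (helper912)

`coreOutQGood : H158.WallQ.CoreOutQGoodStatement` (VERBATIM), from `tameCore` with residue prime
`q` and exponent `m = p ^ n` (`p ≥ 5`, so `m` is prime to `12`; `q = 3` needs `2 ∣ M'`).
-/

set_option autoImplicit false
set_option synthInstance.maxHeartbeats 400000
set_option maxHeartbeats 1600000

noncomputable section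

namespace Fermat.Agent.Ribet.H912

open Fermat.Agent.Ribet.H884 Fermat.Agent.Ribet.H158.WallQ

/-- **CORE-OUT-q at good levels** (`H158.WallQ.CoreOutQGoodStatement`, VERBATIM). -/
theorem coreOutQGood : Fermat.Agent.Ribet.H158.WallQ.CoreOutQGoodStatement := by
  intro p n q M' _ _ _ h A hA S a x hx hex hfix
  have haux : Fermat.Agent.S35.G.HasAux M' q := by
    refine ⟨fun h3 => ?_, fun h2 => absurd h2 h.q_ne_two⟩
    rcases h.good with h5 | ⟨-, h2⟩
    · omega
    · exact h2
  have hcop : Nat.Coprime 12 (p ^ n) :=
    Nat.Coprime.pow_right n (coprime_twelve_h912 h.p_prime h.five_le)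
  obtain ⟨f, D, G, a', b', hK, hD, hD0, heq, hNG⟩ :=
    tameCore q M' (p ^ n) h.q_prime h.not_dvd haux (pow_pos h.p_prime.pos n) hcop A hA x hx.1
      hfix
  exact ⟨f, D, G, 12, a', b', hK, hD, hD0, by norm_num, hcop, heq, hNG⟩

end Fermat.Agent.Ribet.H912

end

end
-- ===== PACK-END Ribet/H912/CoreOutQ.lean

-- ===== PACK-BEGIN Ribet/H158/WallQAll.lean
section







/-!
# RIBET row 37, WALL-q: FINAL ASSEMBLY, UNCONDITIONAL (helper158)

All five inputs of `WallQClosedPlus.lean` are closed on main:

| leaf | theorem |
|---|---|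
| (Q2) FROB-AL      | `H818.q2Good : Q2GoodStatement` |
| (Q3) RED          | `H343.q3Good : Q3GoodStatement` |
| CORE-OUT-q        | `H912.coreOutQGood : CoreOutQGoodStatement` |
| CUSP-q            | `H644.cuspPurityQGood : CuspPurityQGoodStatement` |
| ODD-VACUOUS       | `H384.oddVacuous : OddVacuousStatement` |

Hence, with NO hypothesis:

* `wallQTargetsGood : WallQTargetsGoodStatement`
* `wallQFrey : WallQFreyStatement`, `wallQFreyPlus : H723.WallQFreyPlusStatement`
* `mazurPrincipleOdd : MazurPrincipleOddStatement`   (Mazur's principle at odd `q ≠ p`,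
  `p ∤ q - 1`)
* `mazurPrincipleOddPlus : H723.MazurPrincipleOddPlusStatement`   (sharp form: `p ∤ q - 1` or
  Frobenius at `q` not scalar)
* `S43_of_hardScalar : H723.HardScalarStatement → S43Statement`
* `S43_of_hard : H943.Row37.HardCaseStatement → S43Statement`
-/

set_option autoImplicit false

noncomputable section

namespace Fermat.Agent.Ribet.H158.WallQ

open Fermat.Agent.Ribet Fermat.Agent.Ribet.Spec

/-- The three targets of the wall at `q`, good levels — unconditional. -/
theorem wallQTargetsGood : WallQTargetsGoodStatement :=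
  wallQTargetsGood_of_leaves H818.q2Good H343.q3Good H912.coreOutQGood H644.cuspPurityQGood

/-- **The wall at `q`** (all levels) — unconditional. -/
theorem wallQFrey : WallQFreyStatement :=
  wallQFrey_of_goodLeaves H818.q2Good H343.q3Good H912.coreOutQGood H644.cuspPurityQGood
    H384.oddVacuous

/-- **The sharp wall at `q`** — unconditional. -/
theorem wallQFreyPlus : H723.WallQFreyPlusStatement :=
  wallQFreyPlus_of_goodLeaves H818.q2Good H343.q3Good H912.coreOutQGood H644.cuspPurityQGood
    H384.oddVacuous

/-- **Mazur's principle at odd `q ≠ p`** — unconditional. -/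
theorem mazurPrincipleOdd : MazurPrincipleOddStatement :=
  mazurPrincipleOdd_of_goodLeaves H818.q2Good H343.q3Good H912.coreOutQGood
    H644.cuspPurityQGood H384.oddVacuous

/-- **Mazur's principle at odd `q ≠ p`, sharp form** — unconditional. -/
theorem mazurPrincipleOddPlus : H723.MazurPrincipleOddPlusStatement :=
  H723.mazurPrincipleOddPlus_of_wallQ H823.embed wallQFreyPlus H583.nonEisenstein583
    H404.eigenformOfOccursAway H943.Final.almostAllToWitness

/-- **S43 from the SCALAR hard case alone.** -/
theorem S43_of_hardScalar (hH : H723.HardScalarStatement) : S43Statement :=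
  S43_of_goodLeaves_hardScalar H818.q2Good H343.q3Good H912.coreOutQGood H644.cuspPurityQGood
    H384.oddVacuous hH

/-- **S43 from the hard case alone.** -/
theorem S43_of_hard (hH : H943.Row37.HardCaseStatement) : S43Statement :=
  S43_of_goodLeaves_hard H818.q2Good H343.q3Good H912.coreOutQGood H644.cuspPurityQGood
    H384.oddVacuous hH

end Fermat.Agent.Ribet.H158.WallQ

end

end
-- ===== PACK-END Ribet/H158/WallQAll.lean

-- ===== PACK-BEGIN Ribet/H943/S44Top.lean
section







/-!
# Row 38: `S44Statement`, UNCONDITIONAL — plain chain top for consumers (helper943)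

`s44 : Ribet.Spec.S44Statement` is the body of `Fermat.Agent.S44.result` as a statement of the
row.  Consumers (row 37 `S43`, `S45`) import THIS file, never `Fermat/Agent/S44.lean`.
-/

set_option autoImplicit false

namespace Fermat.Agent.Ribet.H943.S44Top

/-- **S44** (Mazur–Ribet, Frey form), unconditional. -/
theorem s44 : Fermat.Agent.Ribet.Spec.S44Statement :=
  Fermat.Agent.Ribet.H943.Final2.S44_of_open Fermat.Agent.Ribet.H558.s2Five
    (Fermat.Agent.Ribet.H884.eisSlope_of_frontier5
      (Fermat.Agent.Ribet.H704.CoreOut.coreOutNE_of_tame_wild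
        (Fermat.Agent.Ribet.H967.Tame.tame_of_fixed Fermat.Agent.Ribet.H912.tameFixed)
        (Fermat.Agent.Ribet.H132.wild_of_frame Fermat.Agent.Ribet.H712.Frame.wildFrame))
      Fermat.Agent.Ribet.H399.cuspPurity5Leaf)

end Fermat.Agent.Ribet.H943.S44Top

end
-- ===== PACK-END Ribet/H943/S44Top.lean

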