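import Fermat.Agent.Pack.S43MC.G0E27L1
import Fermat.Agent.Pack.S44C.G0E29L0
import Fermat.Agent.Pack.S44C.G0E30L3
import Fermat.Agent.Pack.S43MC.G0E26L1
import Fermat.Agent.Pack.S43MC.G0E27L3
import Fermat.Agent.Pack.S43MC.G0E27L2
import Fermat.Agent.Pack.S44C.G0E6L2
import Fermat.Agent.Pack.S44C.G0E28L0
import Fermat.Agent.Pack.S43MC.G0E21L0
import Fermat.Agent.Pack.S43MC.G0E22L1
import Fermat.Agent.Pack.S44C.G0E10L1
import Fermat.Agent.Pack.S43MC.G0E26L2
import Fermat.Agent.Pack.S44C.G0E12L1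
import Fermat.Agent.Pack.S44C.G0E25L0
import Fermat.Agent.Pack.Fast891

-- ===== PACK-BEGIN Ribet/H158/WallQPow.lean
section


/-!
# Row 37, WALL-q for classes killed by `p ^ n` + the reduction map  (wall architect helper158)

ADDITIVE to `WallQ{Spec,Slope,Eis}.lean` (requested by the HARD/IA cell FIN: Mazur's principle
modulo `p ^ n`).  The definitions `IsNewTorsQ`, `Q2For`, `finPartQ`, `splitPartQ`, `NodeGenQ` are
generic in their first argument `m` (the torsion order); here the leaves are frozen for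
`m = p ^ n`, and the leaves of the wall modulo `p` are DERIVED from them (`n = 1`).
**Owners whose proof is generic in `m` should prove the `Pow` form: it serves both.**

## Leaves (torsion order `p ^ n`, `p ≥ 5`, odd `q ≠ p`, `q ∤ M'`, `A` over `q`)
| leaf | Prop | gives (proved here) |
|---|---|---|
| FROB-AL  | `Q2PowStatement`            | `q2_of_pow : … → Q2Statement` |
| RED-MAP  | `RedMapStatement`           | `q3_of_redMap : … → Q3Statement` |
| EIS-q    | `EisSlopeQPowStatement`     | `eisSlopeQ_of_pow : … → EisSlopeQStatement` |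
| CORE-OUT | `CoreOutQPowStatement`      | `coreOutQ_of_pow` |
| HECKE-NODE | `HeckeNodeGenQPowStatement` | `heckeNodeGenQ_of_pow` |
| CUSP     | `CuspPurityQPowStatement`   | `cuspPurityQ_of_pow` |

`RedMapFor q M' S₀ 𝓕 𝒮 β`: `β : 𝓕 →+ J₀(M') × J₀(M')` is Hecke-equivariant off `S₀` and
`ker β ≤ 𝒮` ("`𝓕 / 𝒮` is the abelian part `J₀(M')[m]²`").  Definition of `β` from the landed
vocabulary: `β x = (z, z')` iff `x - α^* z` has trivial `∞`-reduction and `x - β^* z'` has trivial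
`0`-reduction (`z`, `z'` exist by GR-SURJ = torsion lifts along `reductionModL`, are unique by S18).

## Proved here
* `PDivFin.of_pow_coprime`, `NodeGenQ.of_pow_coprime` (extraction of roots prime to `m`);
* `q3For_of_redMapFor` ((Q3) from RED-MAP);
* `isEisModQ_of_slopePropQM`, **`eisSlopeQPow_of`** (the EIS-q glue for `p ^ n`);
* `mem_finPartQ_pow_of_eis`, `q4PowFor_of` ((Q4) for `p ^ n`);
* `q2_of_pow`, `q3_of_redMap`, `eisSlopeQ_of_pow`, `coreOutQ_of_pow`, `heckeNodeGenQ_of_pow`,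
  `cuspPurityQ_of_pow`; `wallQTargets_of_pow`.
-/

set_option autoImplicit false
set_option synthInstance.maxHeartbeats 400000
set_option maxHeartbeats 1000000
set_option linter.unusedSectionVars false

noncomputable section

namespace Fermat.Agent.Ribet.H158.WallQ

open AlgebraicCurve ModularCurve HahnSeries
open Fermat.Agent.S24 Fermat.Agent.A2.H708 Fermat.Agent.A2.H528 Fermat.Agent.A2.H129
open Fermat.Agent.Ribet.Spec Fermat.Agent.Ribet.H944.Wall Fermat.Agent.Ribet.H884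
open Fermat.Agent.S37.H400

/-! ## Vocabulary -/

/-- **RED-MAP**: `β : 𝓕 → J₀(M') × J₀(M')` is Hecke-equivariant off `S₀` with kernel inside
`𝒮`. -/
def RedMapFor (q M' : ℕ) [NeZero M'] [NeZero (q * M')] (S₀ : Finset ℕ)
    (𝓕 𝒮 : AddSubgroup (JZero (q * M'))) (β : 𝓕 →+ JZero M' × JZero M') : Prop :=
  (∀ ℓ : Nat.Primes, (ℓ : ℕ) ∉ S₀ → ∀ x : 𝓕,
    ∃ hx : heckeOperatorBar (q * M') ℓ (x : JZero (q * M')) ∈ 𝓕,
      β ⟨_, hx⟩ = (heckeOperatorBar M' ℓ (β x).1, heckeOperatorBar M' ℓ (β x).2)) ∧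
  ∀ x : 𝓕, β x = 0 → (x : JZero (q * M')) ∈ 𝒮

/-- The slope vector of the `m`-torsion class `x` is a multiple of the slope vector of the
modular unit `Δ(t^q)/Δ(t)` (`n ≠ 0` prime to `m`). -/
def SlopePropQM (m q M' : ℕ) [NeZero q] [NeZero (q * M')] (A : ValuationSubring Kbar)
    (x : JZero (q * M')) : Prop :=
  ∃ (f D G : FF (q * M')) (n a b : ℕ), IsKummerGen (q * M') m f x ∧ IsModUnit q M' D ∧
    D ≠ 0 ∧ n ≠ 0 ∧ Nat.Coprime n m ∧ G * D ^ b = f ^ n * D ^ a ∧ NodeGenQ m q M' A G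

/-- (Q4) for `p ^ n`-torsion: a new, non-Eisenstein eigenclass fixed by inertia lies in `𝓕`. -/
def Q4PowFor (p n q M' : ℕ) [NeZero M'] [NeZero q] [NeZero (q * M')]
    (A : ValuationSubring (AlgebraicClosure ℚ)) (𝓕 : AddSubgroup (JZero (q * M'))) : Prop :=
  ∀ (S : Finset ℕ) (a : ℕ → ℤ), NonEisAway p a → ∀ x : JZero (q * M'),
    IsNewTorsQ (p ^ n) q M' x → EigenAt (q * M') S a x →
    (∀ σ ∈ A.inertiaSubgroupIn ℚ, σ • x = x) → x ∈ 𝓕

/-! ## Leaves for `p ^ n` -/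

/-- **(Q2) FROB-AL** for `p ^ n`-torsion. -/
def Q2PowStatement : Prop :=
  ∀ (p n q M' : ℕ) [NeZero M'] [NeZero q] [NeZero (q * M')], p.Prime → 5 ≤ p → 0 < n →
    q.Prime → q ≠ 2 → q ≠ p → ¬ q ∣ M' →
    ∀ A : ValuationSubring Kbar, A.LiesOverPrime q →
      Q2For (p ^ n) q M' A (splitPartQ (p ^ n) q M' A)

/-- **RED-MAP** for `p ^ n`-torsion: `𝓕 / 𝒮` embeds Hecke-equivariantly in `J₀(M')²`. -/
def RedMapStatement : Prop :=
  ∀ (p n q M' : ℕ) [NeZero M'] [NeZero q] [NeZero (q * M')], p.Prime → 5 ≤ p → 0 < n →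
    q.Prime → q ≠ 2 → q ≠ p → ¬ q ∣ M' →
    ∀ A : ValuationSubring Kbar, A.LiesOverPrime q →
      ∃ (S₀ : Finset ℕ) (β : finPartQ (p ^ n) q M' A →+ JZero M' × JZero M'),
        RedMapFor q M' S₀ (finPartQ (p ^ n) q M' A) (splitPartQ (p ^ n) q M' A) β

/-- **EIS-q** for `p ^ n`-torsion. -/
def EisSlopeQPowStatement : Prop :=
  ∀ (p n q M' : ℕ) [NeZero M'] [NeZero q] [NeZero (q * M')], p.Prime → 5 ≤ p → 0 < n →
    q.Prime → q ≠ 2 → q ≠ p → ¬ q ∣ M' →
    ∀ A : ValuationSubring Kbar, A.LiesOverPrime q →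
    ∀ (S : Finset ℕ) (a : ℕ → ℤ) (x : JZero (q * M')),
      IsNewTorsQ (p ^ n) q M' x → EigenAt (q * M') S a x →
      (∀ σ ∈ A.inertiaSubgroupIn ℚ, σ • x = x) →
      ∃ S' : Finset ℕ, IsEisModQ (p ^ n) q M' A S' x

/-- **CORE-OUT-q** for `p ^ n`-torsion (tame node relation). -/
def CoreOutQPowStatement : Prop :=
  ∀ (p n q M' : ℕ) [NeZero M'] [NeZero q] [NeZero (q * M')], p.Prime → 5 ≤ p → 0 < n →
    q.Prime → q ≠ 2 → q ≠ p → ¬ q ∣ M' →
    ∀ A : ValuationSubring Kbar, A.LiesOverPrime q →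
    ∀ (S : Finset ℕ) (a : ℕ → ℤ) (x : JZero (q * M')),
      IsNewTorsQ (p ^ n) q M' x → EigenAt (q * M') S a x →
      (∀ σ ∈ A.inertiaSubgroupIn ℚ, σ • x = x) →
      SlopePropQM (p ^ n) q M' A x

/-- **HECKE-NODE-q** for `p ^ n`. -/
def HeckeNodeGenQPowStatement : Prop :=
  ∀ (p n q M' : ℕ) [NeZero M'] [NeZero q] [NeZero (q * M')], p.Prime → 0 < n → q.Prime →
    q ≠ p → ¬ q ∣ M' →
    ∀ A : ValuationSubring Kbar, A.LiesOverPrime q →
    ∀ (ℓ : Nat.Primes) [NeZero (ℓ : ℕ)], ¬ (ℓ : ℕ) ∣ q * M' * p →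
    ∀ f g : FF (q * M'),
      (g : LaurentSeries Kbar) = kronNorm (ℓ : ℕ) (f : LaurentSeries Kbar) →
      NodeGenQ (p ^ n) q M' A f → NodeGenQ (p ^ n) q M' A g

/-- **CUSP-q** for `p ^ n`. -/
def CuspPurityQPowStatement : Prop :=
  ∀ (p n q M' : ℕ) [NeZero M'] [NeZero q] [NeZero (q * M')], p.Prime → 0 < n → q.Prime →
    q ≠ p → ¬ q ∣ M' →
    ∀ A : ValuationSubring Kbar, A.LiesOverPrime q →
    ∀ (g : FF (q * M')) (y : JZero (q * M')), IsKummerGen (q * M') (p ^ n) g y →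
      NodeGenQ (p ^ n) q M' A g → FinGenQ (p ^ n) q M' A g

/-! ## Calculus -/

/-- Extraction of `n`-th roots, `n ≠ 0` prime to `m`. -/
theorem PDivFin.of_pow_coprime {m M' : ℕ} {k : Type} [Field k] {n : ℕ} (hn0 : n ≠ 0)
    (hn : Nat.Coprime n m) {r s : LaurentSeries k}
    (hr : ∃ h : modularFunctionFieldFullC k M', (h : LaurentSeries k) = r)
    (c : k) (hs : s = HahnSeries.C c * r ^ n) (h : PDivFin m M' s) : PDivFin m M' r := by
  obtain ⟨a, rfl⟩ := hr
  obtain ⟨b, hb, hb0, hdiv⟩ := h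
  have hbe : b = algebraMap k (modularFunctionFieldFullC k M') c * a ^ n := by
    apply Subtype.ext
    have hc' : ((algebraMap k (modularFunctionFieldFullC k M') c :
        modularFunctionFieldFullC k M') : LaurentSeries k) = HahnSeries.C c := by
      have h0 : ((algebraMap k (modularFunctionFieldFullC k M') c :
          modularFunctionFieldFullC k M') : LaurentSeries k) =
          algebraMap k (LaurentSeries k) c := rfl
      have h1 : algebraMap k (PowerSeries k) c = PowerSeries.C c := by simp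
      rw [h0, HahnSeries.algebraMap_apply', h1, HahnSeries.ofPowerSeries_C]
    rw [hb, hs, IntermediateField.coe_mul, IntermediateField.coe_pow, hc']
  have hc : c ≠ 0 := by
    rintro rfl
    rw [hbe, map_zero, zero_mul] at hb0
    exact hb0 rfl
  have ha : a ≠ 0 := by
    rintro rfl
    rw [hbe, zero_pow hn0, mul_zero] at hb0
    exact hb0 rfl
  refine ⟨a, rfl, ha, fun Q hQ => ?_⟩
  have h1 := hdiv Q hQ
  have hcF : algebraMap k (modularFunctionFieldFullC k M') c ≠ 0 := by simpa using hc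
  rw [hbe, Place.ord_mul Q hcF (pow_ne_zero n ha), ord_algebraMap_eq_zero, zero_add,
    ord_pow] at h1
  have hcop : IsCoprime (m : ℤ) (n : ℤ) := by
    exact_mod_cast (Nat.isCoprime_iff_coprime.mpr hn.symm)
  exact hcop.dvd_of_dvd_mul_left h1

section NodeGenQPowCalc

variable {m q M' : ℕ} [NeZero q] [NeZero (q * M')] {A : ValuationSubring Kbar}

/-- Extraction of `n`-th roots, `n ≠ 0` prime to `m` (needs the RED leaves at `q`). -/
theorem NodeGenQ.of_pow_coprime (hRE : RedExistsStatement) (hRU : RedUniqueStatement)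
    (hRF : RedFieldStatement) [NeZero M'] (hq : q.Prime) (hqM : ¬ q ∣ M')
    (hA : A.LiesOverPrime q) {n : ℕ} (hn0 : n ≠ 0) (hn : Nat.Coprime n m) {g : FF (q * M')}
    (hg : g ≠ 0) (h : NodeGenQ m q M' A (g ^ n)) : NodeGenQ m q M' A g := by
  obtain ⟨s₁, s₂, h1, h2, h3, h4⟩ := h
  obtain ⟨⟨r₁, hr₁⟩, ⟨r₂, hr₂⟩⟩ := hRE q (q * M') hq A hA g hg
  obtain ⟨-, c₁, -, hc₁⟩ := hRU q (q * M') hq A hA (g ^ n) (r₁ ^ n) s₁ (hr₁.pow n) h1
  have hr₂' : IsRedInf (q * M') A (wF (q * M') (g ^ n)) (r₂ ^ n) := IsRedZero.pow hr₂ n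
  obtain ⟨-, c₂, -, hc₂⟩ := hRU q (q * M') hq A hA (wF (q * M') (g ^ n)) (r₂ ^ n) s₂ hr₂' h2
  exact ⟨r₁, r₂, hr₁, hr₂,
    PDivFin.of_pow_coprime hn0 hn (hRF q M' hq hqM A hA g r₁ (Or.inl hr₁)) c₁ hc₁ h3,
    PDivFin.of_pow_coprime hn0 hn (hRF q M' hq hqM A hA g r₂ (Or.inr hr₂)) c₂ hc₂ h4⟩

end NodeGenQPowCalc

/-! ## Glue: EIS-q for `p ^ n` -/

/-- **EIS-q core** for torsion order `p ^ n`: proportional slopes ⇒ Eisenstein slopes. -/
theorem isEisModQ_of_slopePropQM (hHF : HeckeFunStatement) (hHN : HeckeNodeGenQPowStatement)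
    (hU : UnitEisStatement) (hCP : CuspPurityQPowStatement) (hRE : RedExistsStatement)
    (hRU : RedUniqueStatement) (hRF : RedFieldStatement)
    (p n₀ q M' : ℕ) [NeZero M'] [NeZero q] [NeZero (q * M')] (hp : p.Prime) (hn₀ : 0 < n₀)
    (hq : q.Prime) (hqp : q ≠ p) (hqM : ¬ q ∣ M')
    (A : ValuationSubring Kbar) (hA : A.LiesOverPrime q) (x : JZero (q * M'))
    (hx : SlopePropQM (p ^ n₀) q M' A x) :
    IsEisModQ (p ^ n₀) q M' A (q * M' * p).primeFactors x := by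
  intro ℓ hℓ
  have : NeZero (ℓ : ℕ) := ⟨ℓ.2.ne_zero⟩
  have hNp0 : q * M' * p ≠ 0 := mul_ne_zero (NeZero.ne _) hp.ne_zero
  have hℓNp : ¬ (ℓ : ℕ) ∣ q * M' * p := fun h =>
    hℓ (Nat.mem_primeFactors.mpr ⟨ℓ.2, h, hNp0⟩)
  have hℓN : ¬ (ℓ : ℕ) ∣ q * M' := fun h => hℓNp (dvd_mul_of_dvd_left h p)
  have hℓq : (ℓ : ℕ) ≠ q := fun h => hℓN (h ▸ dvd_mul_right _ _)
  obtain ⟨f, D, G, n, a, b, hf, hD, hD0, hn0, hn, hG, hNG⟩ := hx
  obtain ⟨Tf, hTf, hTfK⟩ := hHF (q * M') ℓ hℓN f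
  obtain ⟨TG, hTG, -⟩ := hHF (q * M') ℓ hℓN G
  obtain ⟨c, hc, hUD⟩ := hU q ℓ hq hℓq
  have hf0 : f ≠ 0 := hf.1
  have hG0 : G ≠ 0 := hNG.ne_zero
  -- notation
  set C : FF (q * M') := algebraMap Kbar (FF (q * M')) c with hC
  have hC0 : C ≠ 0 := by simpa [hC] using hc
  set E : FF (q * M') := D ^ ((ℓ : ℕ) + 1) with hE
  have hE0 : E ≠ 0 := pow_ne_zero _ hD0
  -- the Hecke transform of the relation `G * D ^ b = f ^ n * D ^ a`
  have h2 : TG * (C * E) ^ b = Tf ^ n * (C * E) ^ a := by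
    apply Subtype.ext
    have e1 : ((C * E : FF (q * M')) : LaurentSeries Kbar) =
        kronNorm (ℓ : ℕ) (D : LaurentSeries Kbar) := by
      have hD' : (D : LaurentSeries Kbar) = Fermat.Agent.S28.unitL Kbar q := hD
      have hCE : ((C * E : FF (q * M')) : LaurentSeries Kbar) =
          cst c * (D : LaurentSeries Kbar) ^ ((ℓ : ℕ) + 1) := rfl
      rw [hCE, hD', hUD]
    have e2 : ((TG * (C * E) ^ b : FF (q * M')) : LaurentSeries Kbar) =
        kronNorm (ℓ : ℕ) ((G * D ^ b : FF (q * M')) : LaurentSeries Kbar) := by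
      have : ((G * D ^ b : FF (q * M')) : LaurentSeries Kbar) =
          (G : LaurentSeries Kbar) * (D : LaurentSeries Kbar) ^ b := rfl
      rw [this, kronNorm_mul, kronNorm_pow, ← hTG, ← e1]
      rfl
    have e3 : ((Tf ^ n * (C * E) ^ a : FF (q * M')) : LaurentSeries Kbar) =
        kronNorm (ℓ : ℕ) ((f ^ n * D ^ a : FF (q * M')) : LaurentSeries Kbar) := by
      have : ((f ^ n * D ^ a : FF (q * M')) : LaurentSeries Kbar) =
          (f : LaurentSeries Kbar) ^ n * (D : LaurentSeries Kbar) ^ a := rfl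
      rw [this, kronNorm_mul, kronNorm_pow, kronNorm_pow, ← hTf, ← e1]
      rfl
    rw [e2, e3, hG]
  -- the `(ℓ+1)`-st power of the relation
  have h3 : G ^ ((ℓ : ℕ) + 1) * E ^ b = f ^ (n * ((ℓ : ℕ) + 1)) * E ^ a := by
    have h3' : (G * D ^ b) ^ ((ℓ : ℕ) + 1) = (f ^ n * D ^ a) ^ ((ℓ : ℕ) + 1) := by rw [hG]
    calc G ^ ((ℓ : ℕ) + 1) * E ^ b = (G * D ^ b) ^ ((ℓ : ℕ) + 1) := by rw [hE]; ring
      _ = (f ^ n * D ^ a) ^ ((ℓ : ℕ) + 1) := h3'
      _ = f ^ (n * ((ℓ : ℕ) + 1)) * E ^ a := by rw [hE]; ring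
  -- the Kummer generator of `T_ℓ x - (ℓ + 1) x`
  set g : FF (q * M') := Tf * (f ^ ((ℓ : ℕ) + 1))⁻¹ with hg
  have hgK : IsKummerGen (q * M') (p ^ n₀) g
      (heckeOperatorBar (q * M') ℓ x - ((ℓ : ℕ) + 1) • x) := by
    have := (hTfK (p ^ n₀) x hf).mul ((hf.pow ((ℓ : ℕ) + 1)).inv)
    rwa [← sub_eq_add_neg] at this
  have hg0 : g ≠ 0 := hgK.1
  -- `g ^ n` is a constant times `TG / G ^ (ℓ + 1)`
  have h4 : Tf ^ n * C ^ a * G ^ ((ℓ : ℕ) + 1) = C ^ b * TG * f ^ (n * ((ℓ : ℕ) + 1)) := by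
    have hEE : E ^ a * E ^ b ≠ 0 := mul_ne_zero (pow_ne_zero _ hE0) (pow_ne_zero _ hE0)
    apply mul_right_cancel₀ hEE
    rw [mul_pow, mul_pow] at h2
    linear_combination (-(f ^ (n * ((ℓ : ℕ) + 1)) * E ^ a)) * h2 + (Tf ^ n * C ^ a * E ^ a) * h3
  have h5 : g ^ n = algebraMap Kbar (FF (q * M')) (c ^ b * (c ^ a)⁻¹) *
      (TG * (G ^ ((ℓ : ℕ) + 1))⁻¹) := by
    have hCa : C ^ a ≠ 0 := pow_ne_zero _ hC0
    have hGl : G ^ ((ℓ : ℕ) + 1) ≠ 0 := pow_ne_zero _ hG0
    have hfl : f ^ ((ℓ : ℕ) + 1) ≠ 0 := pow_ne_zero _ hf0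
    have hcc : algebraMap Kbar (FF (q * M')) (c ^ b * (c ^ a)⁻¹) = C ^ b * (C ^ a)⁻¹ := by
      rw [map_mul, map_inv₀, map_pow, map_pow]
    rw [hcc, hg, mul_pow, inv_pow, ← pow_mul, mul_comm ((ℓ : ℕ) + 1) n]
    have hfn : f ^ (n * ((ℓ : ℕ) + 1)) ≠ 0 := pow_ne_zero _ hf0
    field_simp
    linear_combination h4
  have hcb : c ^ b * (c ^ a)⁻¹ ≠ 0 :=
    mul_ne_zero (pow_ne_zero _ hc) (inv_ne_zero (pow_ne_zero _ hc))
  have hNGn : NodeGenQ (p ^ n₀) q M' A (g ^ n) := by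
    rw [h5]
    exact ((hHN p n₀ q M' hp hn₀ hq hqp hqM A hA ℓ hℓNp G TG hTG hNG).mul
      (hNG.pow _).inv).const_mul hcb
  have hNGg : NodeGenQ (p ^ n₀) q M' A g :=
    NodeGenQ.of_pow_coprime hRE hRU hRF hq hqM hA hn0 hn hg0 hNGn
  exact AddSubgroup.subset_closure
    ⟨g, hgK, hCP p n₀ q M' hp hn₀ hq hqp hqM A hA g _ hgK hNGg⟩

/-- **EIS-q for `p ^ n` from its leaves.** -/
theorem eisSlopeQPow_of (hCO : CoreOutQPowStatement) (hHF : HeckeFunStatement)
    (hHN : HeckeNodeGenQPowStatement) (hU : UnitEisStatement) (hCP : CuspPurityQPowStatement)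
    (hRE : RedExistsStatement) (hRU : RedUniqueStatement) (hRF : RedFieldStatement) :
    EisSlopeQPowStatement := by
  intro p n q M' _ _ _ hp hp5 hn hq hq2 hqp hqM A hA S a x hx hex hfix
  exact ⟨(q * M' * p).primeFactors,
    isEisModQ_of_slopePropQM hHF hHN hU hCP hRE hRU hRF p n q M' hp hn hq hqp hqM A hA x
      (hCO p n q M' hp hp5 hn hq hq2 hqp hqM A hA S a x hx hex hfix)⟩

/-! ## Glue: (Q4) for `p ^ n` -/

/-- Pure group theory: a `p ^ n`-torsion eigenclass with non-Eisenstein eigenvalues and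
Eisenstein slopes has slopes `0`. -/
theorem mem_finPartQ_pow_of_eis (p n q M' : ℕ) [NeZero (q * M')] (hp : p.Prime)
    (A : ValuationSubring Kbar) (S S' : Finset ℕ) (a : ℕ → ℤ) (hNE : NonEisAway p a)
    (x : JZero (q * M')) (hpx : (p ^ n) • x = 0) (heig : EigenAt (q * M') S a x)
    (hE : IsEisModQ (p ^ n) q M' A S' x) : x ∈ finPartQ (p ^ n) q M' A := by
  obtain ⟨ℓ, hℓ, hℓS, hndvd⟩ := hNE (S ∪ S')
  have hℓ1 : ℓ ∉ S := fun h => hℓS (Finset.mem_union_left _ h)
  have hℓ2 : ℓ ∉ S' := fun h => hℓS (Finset.mem_union_right _ h)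
  have h1 := hE ⟨ℓ, hℓ⟩ hℓ2
  rw [heig ⟨ℓ, hℓ⟩ hℓ1] at h1
  have h2 : (a ℓ - ((ℓ : ℤ) + 1)) • x ∈ finPartQ (p ^ n) q M' A := by
    have e : (a ℓ - ((ℓ : ℤ) + 1)) • x = a ℓ • x - ((ℓ : ℕ) + 1) • x := by
      have h3 : ((ℓ : ℤ) + 1) = (((ℓ : ℕ) + 1 : ℕ) : ℤ) := by push_cast; ring
      rw [sub_smul, h3, natCast_zsmul]
    rw [e]
    exact h1
  have hcop : IsCoprime (a ℓ - ((ℓ : ℤ) + 1)) ((p : ℤ) ^ n) := by
    have hpp : Prime (p : ℤ) := Nat.prime_iff_prime_int.mp hp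
    exact (IsCoprime.symm ((Prime.coprime_iff_not_dvd hpp).mpr hndvd)).pow_right
  obtain ⟨u, v, huv⟩ := hcop
  have hx : x = u • ((a ℓ - ((ℓ : ℤ) + 1)) • x) + v • (((p : ℤ) ^ n) • x) := by
    rw [smul_smul, smul_smul, ← add_zsmul, huv, one_zsmul]
  rw [hx]
  refine (finPartQ (p ^ n) q M' A).add_mem ((finPartQ (p ^ n) q M' A).zsmul_mem h2 u) ?_
  have : (((p : ℤ) ^ n) • x) = 0 := by
    have e : ((p : ℤ) ^ n) = (((p ^ n : ℕ)) : ℤ) := by push_cast; rfl
    rw [e, natCast_zsmul]; exact hpx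
  rw [this, smul_zero]
  exact (finPartQ (p ^ n) q M' A).zero_mem

/-- **(Q4) for `p ^ n`** from EIS-q for `p ^ n`. -/
theorem q4PowFor_of (hE : EisSlopeQPowStatement)
    (p n q M' : ℕ) [NeZero M'] [NeZero q] [NeZero (q * M')] (hp : p.Prime) (hp5 : 5 ≤ p)
    (hn : 0 < n) (hq : q.Prime) (hq2 : q ≠ 2) (hqp : q ≠ p) (hqM : ¬ q ∣ M')
    (A : ValuationSubring Kbar) (hA : A.LiesOverPrime q) :
    Q4PowFor p n q M' A (finPartQ (p ^ n) q M' A) := by
  intro S a hNE x hx hex hfix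
  obtain ⟨S', hS'⟩ := hE p n q M' hp hp5 hn hq hq2 hqp hqM A hA S a x hx hex hfix
  exact mem_finPartQ_pow_of_eis p n q M' hp A S S' a hNE x hx.1 hex hS'

/-! ## Glue: the leaves modulo `p` from the leaves modulo `p ^ n` -/

/-- (Q2) modulo `p` from (Q2) modulo `p ^ n`. -/
theorem q2_of_pow (h : Q2PowStatement) : Q2Statement := by
  intro p q M' _ _ _ hp hp5 hq hq2 hqp hqM A hA
  have := h p 1 q M' hp hp5 Nat.one_pos hq hq2 hqp hqM A hA
  rwa [pow_one] at this

/-- EIS-q modulo `p` from EIS-q modulo `p ^ n`. -/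
theorem eisSlopeQ_of_pow (h : EisSlopeQPowStatement) : EisSlopeQStatement := by
  intro p q M' _ _ _ hp hp5 hq hq2 hqp hqM A hA S a x hx hex hfix
  have := h p 1 q M' hp hp5 Nat.one_pos hq hq2 hqp hqM A hA S a x
    (by rwa [pow_one]) hex hfix
  rwa [pow_one] at this

/-- HECKE-NODE-q modulo `p` from the `p ^ n` form. -/
theorem heckeNodeGenQ_of_pow (h : HeckeNodeGenQPowStatement) : HeckeNodeGenQStatement := by
  intro p q M' _ _ _ hp hq hqp hqM A hA ℓ _ hℓ f g hg hf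
  have := h p 1 q M' hp Nat.one_pos hq hqp hqM A hA ℓ hℓ f g hg (by rwa [pow_one])
  rwa [pow_one] at this

/-- CUSP-q modulo `p` from the `p ^ n` form. -/
theorem cuspPurityQ_of_pow (h : CuspPurityQPowStatement) : CuspPurityQStatement := by
  intro p q M' _ _ _ hp hq hqp hqM A hA g y hg hN
  have := h p 1 q M' hp Nat.one_pos hq hqp hqM A hA g y (by rwa [pow_one]) (by rwa [pow_one])
  rwa [pow_one] at this

/-- CORE-OUT-q modulo `p` from the `p ^ n` form. -/
theorem coreOutQ_of_pow (h : CoreOutQPowStatement) : CoreOutQStatement := by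
  intro p q M' _ _ _ hp hp5 hq hq2 hqp hqM A hA S a x hx hex hfix
  obtain ⟨f, D, G, n, a', b, hf, hD, hD0, hn0, hn, hG, hNG⟩ :=
    h p 1 q M' hp hp5 Nat.one_pos hq hq2 hqp hqM A hA S a x (by rwa [pow_one]) hex hfix
  rw [pow_one] at hf hn hNG
  refine ⟨f, D, G, n, a', b, hf, hD, hD0, ?_, hG, hNG⟩
  intro hpn
  have h1 : p ∣ Nat.gcd n p := Nat.dvd_gcd hpn dvd_rfl
  rw [Nat.Coprime] at hn
  rw [hn] at h1
  exact hp.one_lt.ne' (Nat.dvd_one.mp h1)

/-- **(Q3) from RED-MAP** (case `n = 1`): a new eigenclass in `𝓕 ∖ 𝒮` has nonzero image in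
`J₀(M')²`, and a nonzero component is an eigenvector of level `M'`. -/
theorem q3For_of_redMapFor {p q M' : ℕ} [NeZero M'] [NeZero q] [NeZero (q * M')]
    {S₀ : Finset ℕ} {𝓕 𝒮 : AddSubgroup (JZero (q * M'))} {β : 𝓕 →+ JZero M' × JZero M'}
    (hβ : RedMapFor q M' S₀ 𝓕 𝒮 β) : Q3For p q M' 𝓕 𝒮 := by
  intro S a x hx hxS hnew heig
  obtain ⟨hhecke, hker⟩ := hβ
  have hne : β ⟨x, hx⟩ ≠ 0 := fun h0 => hxS (hker ⟨x, hx⟩ h0)
  have hpβ : p • β ⟨x, hx⟩ = 0 := by
    rw [← map_nsmul]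
    have : p • (⟨x, hx⟩ : 𝓕) = 0 := by
      apply Subtype.ext
      simpa using hnew.1
    rw [this, _root_.map_zero]
  have hTβ : ∀ ℓ : Nat.Primes, (ℓ : ℕ) ∉ S ∪ S₀ →
      (heckeOperatorBar M' ℓ (β ⟨x, hx⟩).1, heckeOperatorBar M' ℓ (β ⟨x, hx⟩).2)
        = a ℓ • β ⟨x, hx⟩ := by
    intro ℓ hℓ
    rw [Finset.mem_union, not_or] at hℓ
    obtain ⟨hx', hβx⟩ := hhecke ℓ hℓ.2 ⟨x, hx⟩
    rw [← hβx, ← map_zsmul]
    congr 1
    apply Subtype.ext
    simpa using heig ℓ hℓ.1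
  refine ⟨S ∪ S₀, Finset.subset_union_left, Or.inl ?_⟩
  by_cases h1 : (β ⟨x, hx⟩).1 = 0
  · have h2 : (β ⟨x, hx⟩).2 ≠ 0 := fun h2 => hne (Prod.ext h1 h2)
    refine ⟨(β ⟨x, hx⟩).2, h2, ?_, fun ℓ hℓ => ?_⟩
    · have := congrArg Prod.snd hpβ
      simpa using this
    · have := congrArg Prod.snd (hTβ ℓ hℓ)
      simpa using this
  · refine ⟨(β ⟨x, hx⟩).1, h1, ?_, fun ℓ hℓ => ?_⟩
    · have := congrArg Prod.fst hpβ
      simpa using this
    · have := congrArg Prod.fst (hTβ ℓ hℓ)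
      simpa using this

/-- (Q3) modulo `p` from RED-MAP. -/
theorem q3_of_redMap (h : RedMapStatement) : Q3Statement := by
  intro p q M' _ _ _ hp hp5 hq hq2 hqp hqM A hA
  obtain ⟨S₀, β, hβ⟩ := h p 1 q M' hp hp5 Nat.one_pos hq hq2 hqp hqM A hA
  have h3 : Q3For p q M' (finPartQ (p ^ 1) q M' A) (splitPartQ (p ^ 1) q M' A) :=
    q3For_of_redMapFor hβ
  rwa [pow_one] at h3

/-- **The three targets modulo `p` from the leaves modulo `p ^ n`.** -/
theorem wallQTargets_of_pow (h2 : Q2PowStatement) (h3 : RedMapStatement)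
    (hE : EisSlopeQPowStatement) : WallQTargetsStatement :=
  wallQTargets_of (q2_of_pow h2) (q3_of_redMap h3) (eisSlopeQ_of_pow hE)

end Fermat.Agent.Ribet.H158.WallQ

end

end
-- ===== PACK-END Ribet/H158/WallQPow.lean

-- ===== PACK-BEGIN Ribet/H158/WallQGood.lean
section


/-!
# Row 37, WALL-q at GOOD LEVELS: official leaves with the hypothesis `GoodLevel M' q`
  (wall architect helper158; ADDITIVE; gap found by helper384)

The reduction infrastructure of rows S18 / S37 / A2 (`ReductionInputsModL`, GR-SURJ, node charts)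
exists at the levels `M'` with `S37.Core.GoodLevel M' q`: `5 ≤ q`, or `q = 3 ∧ 2 ∣ M'`
(`q ≠ 2` here).  So the leaves are frozen HERE with that extra hypothesis; the remaining case
(`q = 3`, `M'` odd) of the wall is VACUOUS for the Frey curve (`E[p]` is ramified at `2`, but an
embedding in `J₀(odd)` is unramified at `2`): piece EVEN / RAM2 of helper384.

All hypotheses are bundled in `WallQHyp p n q M'`.  Torsion order `p ^ n` (`n = 1`: the wall
modulo `p`).

## Leaves (prove ONE of the two forms; `…_of_all` below turns the all-levels form into this one)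
| leaf | Prop |
|---|---|
| FROB-AL  | `Q2GoodStatement`          |
| RED      | `Q3GoodStatement` (mod `p`)  or  `RedMapGoodStatement` (`p ^ n`) |
| CORE-OUT | `CoreOutQGoodStatement`    |
| CUSP     | `CuspPurityQGoodStatement` |

## Proved here
* `isEisModQ_of_slopePropQM'` (instance-level EIS-q core), `eisSlopeQGood_of`;
* `wallQTargetsGood_of`, `wallQTargetsGood_of_redMap`;
* `wallQFreyGood_of_targets : Places → DetFrob → TorsionRank → WallQTargetsGood → WallQFreyGood`;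
* `wallQFrey_of_good : WallQFreyGood → OddVacuous → WallQFreyStatement`;
* `q2Good_of_all`, `redMapGood_of_all`, `q3Good_of_all`, `coreOutQGood_of_all`,
  `cuspPurityQGood_of_all`.
-/

set_option autoImplicit false
set_option synthInstance.maxHeartbeats 400000
set_option maxHeartbeats 1000000
set_option linter.unusedSectionVars false
set_option linter.style.haveILetI false

noncomputable section

open WeierstrassCurve WeierstrassCurve.Affine WeierstrassCurve.Affine.Point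

namespace Fermat.Agent.Ribet.H158.WallQ

open AlgebraicCurve ModularCurve HahnSeries
open Fermat.Agent.S24 Fermat.Agent.A2.H708 Fermat.Agent.A2.H528 Fermat.Agent.A2.H129
open Fermat.Agent.Ribet Fermat.Agent.Ribet.Spec Fermat.Agent.Ribet.H944.Wall
open Fermat.Agent.Ribet.H884 Fermat.Agent.S37.H400

/-- **Standing hypotheses of the wall at `q`, good levels**: `p ≥ 5` prime, `n ≥ 1`, `q` an odd
prime `≠ p`, `q ∤ M'`, and `M'` is a good level for `q` (`p ∣ M'` is allowed). -/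
structure WallQHyp (p n q M' : ℕ) : Prop where
  p_prime : p.Prime
  five_le : 5 ≤ p
  n_pos : 0 < n
  q_prime : q.Prime
  q_ne_two : q ≠ 2
  q_ne_p : q ≠ p
  not_dvd : ¬ q ∣ M'
  good : 5 ≤ q ∨ (q = 3 ∧ 2 ∣ M')

/-! ## Leaves at good levels -/

/-- **(Q2) FROB-AL**, good levels, torsion order `p ^ n`. -/
def Q2GoodStatement : Prop :=
  ∀ (p n q M' : ℕ) [NeZero M'] [NeZero q] [NeZero (q * M')], WallQHyp p n q M' →
    ∀ A : ValuationSubring Kbar, A.LiesOverPrime q →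
      Q2For (p ^ n) q M' A (splitPartQ (p ^ n) q M' A)

/-- **RED-MAP**, good levels, torsion order `p ^ n`. -/
def RedMapGoodStatement : Prop :=
  ∀ (p n q M' : ℕ) [NeZero M'] [NeZero q] [NeZero (q * M')], WallQHyp p n q M' →
    ∀ A : ValuationSubring Kbar, A.LiesOverPrime q →
      ∃ (S₀ : Finset ℕ) (β : finPartQ (p ^ n) q M' A →+ JZero M' × JZero M'),
        RedMapFor q M' S₀ (finPartQ (p ^ n) q M' A) (splitPartQ (p ^ n) q M' A) β

/-- **(Q3) RED**, good levels, modulo `p`. -/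
def Q3GoodStatement : Prop :=
  ∀ (p q M' : ℕ) [NeZero M'] [NeZero q] [NeZero (q * M')], WallQHyp p 1 q M' →
    ∀ A : ValuationSubring Kbar, A.LiesOverPrime q →
      Q3For p q M' (finPartQ p q M' A) (splitPartQ p q M' A)

/-- **CORE-OUT-q** (tame node relation), good levels, torsion order `p ^ n`. -/
def CoreOutQGoodStatement : Prop :=
  ∀ (p n q M' : ℕ) [NeZero M'] [NeZero q] [NeZero (q * M')], WallQHyp p n q M' →
    ∀ A : ValuationSubring Kbar, A.LiesOverPrime q →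
    ∀ (S : Finset ℕ) (a : ℕ → ℤ) (x : JZero (q * M')),
      IsNewTorsQ (p ^ n) q M' x → EigenAt (q * M') S a x →
      (∀ σ ∈ A.inertiaSubgroupIn ℚ, σ • x = x) →
      SlopePropQM (p ^ n) q M' A x

/-- **CUSP-q** (purity at the cusps), good levels, torsion order `p ^ n`. -/
def CuspPurityQGoodStatement : Prop :=
  ∀ (p n q M' : ℕ) [NeZero M'] [NeZero q] [NeZero (q * M')], WallQHyp p n q M' →
    ∀ A : ValuationSubring Kbar, A.LiesOverPrime q →
    ∀ (g : FF (q * M')) (y : JZero (q * M')), IsKummerGen (q * M') (p ^ n) g y →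
      NodeGenQ (p ^ n) q M' A g → FinGenQ (p ^ n) q M' A g

/-- **EIS-q**, good levels, torsion order `p ^ n`. -/
def EisSlopeQGoodStatement : Prop :=
  ∀ (p n q M' : ℕ) [NeZero M'] [NeZero q] [NeZero (q * M')], WallQHyp p n q M' →
    ∀ A : ValuationSubring Kbar, A.LiesOverPrime q →
    ∀ (S : Finset ℕ) (a : ℕ → ℤ) (x : JZero (q * M')),
      IsNewTorsQ (p ^ n) q M' x → EigenAt (q * M') S a x →
      (∀ σ ∈ A.inertiaSubgroupIn ℚ, σ • x = x) →
      ∃ S' : Finset ℕ, IsEisModQ (p ^ n) q M' A S' x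

/-- **The three targets modulo `p` at good levels.** -/
def WallQTargetsGoodStatement : Prop :=
  ∀ (p q M' : ℕ) [NeZero M'] [NeZero q] [NeZero (q * M')], WallQHyp p 1 q M' →
    ∀ A : ValuationSubring (AlgebraicClosure ℚ), A.LiesOverPrime q →
      ∃ 𝓕 𝒮 : AddSubgroup (JZero (q * M')),
        Q2For p q M' A 𝒮 ∧ Q3For p q M' 𝓕 𝒮 ∧ Q4For p q M' A 𝓕

/-- The wall at `q` (Frey form) at good levels. -/
def WallQFreyGoodStatement : Prop :=
  ∀ (P : FreyPackage) (M' q : ℕ) [NeZero M'] [NeZero (q * M')], q.Prime → q ≠ 2 → q ≠ P.p →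
    ¬ q ∣ M' → (5 ≤ q ∨ (q = 3 ∧ 2 ∣ M')) →
    GaloisRepIsIrreducible (K := AlgebraicClosure ℚ) ℚ P.freyCurve P.p →
    P.GaloisRepUnramifiedAt q → ¬ P.p ∣ q - 1 →
    ∀ (S : Finset ℕ) (a : ℕ → ℤ), NonEisAway P.p a → FreyEmbedsIn P (q * M') S a →
      Lowered M' P.p S a

/-- **(ODD-VACUOUS)** [helper384: RAM2 + rawES]  the Frey torsion does not embed
Galois-equivariantly in `J₀(N)` for ODD `N` (`E[p]` is ramified at `2`; `J₀(N)[p]` is unramified
at `2` when `2 ∤ N p`). -/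
def OddVacuousStatement : Prop :=
  ∀ (P : FreyPackage) (N : ℕ) [NeZero N], ¬ 2 ∣ N →
    ∀ (S : Finset ℕ) (a : ℕ → ℤ), ¬ FreyEmbedsIn P N S a

/-! ## Glue: EIS-q, instance level -/

/-- **EIS-q core, instance level**: proportional slopes ⇒ Eisenstein slopes, from HECKE-NODE and
CUSP at the given `(m, q, M', A)`. -/
theorem isEisModQ_of_slopePropQM' (hHF : HeckeFunStatement) (hU : UnitEisStatement)
    (hRE : RedExistsStatement) (hRU : RedUniqueStatement) (hRF : RedFieldStatement)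
    (m p q M' : ℕ) [NeZero M'] [NeZero q] [NeZero (q * M')] (hp : p ≠ 0) (hq : q.Prime)
    (hqM : ¬ q ∣ M') (A : ValuationSubring Kbar) (hA : A.LiesOverPrime q)
    (hHN : ∀ (ℓ : Nat.Primes) [NeZero (ℓ : ℕ)], ¬ (ℓ : ℕ) ∣ q * M' * p →
      ∀ f g : FF (q * M'),
        (g : LaurentSeries Kbar) = kronNorm (ℓ : ℕ) (f : LaurentSeries Kbar) →
        NodeGenQ m q M' A f → NodeGenQ m q M' A g)
    (hCP : ∀ (g : FF (q * M')) (y : JZero (q * M')), IsKummerGen (q * M') m g y →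
      NodeGenQ m q M' A g → FinGenQ m q M' A g)
    (x : JZero (q * M')) (hx : SlopePropQM m q M' A x) :
    IsEisModQ m q M' A (q * M' * p).primeFactors x := by
  intro ℓ hℓ
  have : NeZero (ℓ : ℕ) := ⟨ℓ.2.ne_zero⟩
  have hNp0 : q * M' * p ≠ 0 := mul_ne_zero (NeZero.ne _) hp
  have hℓNp : ¬ (ℓ : ℕ) ∣ q * M' * p := fun h =>
    hℓ (Nat.mem_primeFactors.mpr ⟨ℓ.2, h, hNp0⟩)
  have hℓN : ¬ (ℓ : ℕ) ∣ q * M' := fun h => hℓNp (dvd_mul_of_dvd_left h p)
  have hℓq : (ℓ : ℕ) ≠ q := fun h => hℓN (h ▸ dvd_mul_right _ _)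
  obtain ⟨f, D, G, n, a, b, hf, hD, hD0, hn0, hn, hG, hNG⟩ := hx
  obtain ⟨Tf, hTf, hTfK⟩ := hHF (q * M') ℓ hℓN f
  obtain ⟨TG, hTG, -⟩ := hHF (q * M') ℓ hℓN G
  obtain ⟨c, hc, hUD⟩ := hU q ℓ hq hℓq
  have hf0 : f ≠ 0 := hf.1
  have hG0 : G ≠ 0 := hNG.ne_zero
  set C : FF (q * M') := algebraMap Kbar (FF (q * M')) c with hC
  have hC0 : C ≠ 0 := by simpa [hC] using hc
  set E : FF (q * M') := D ^ ((ℓ : ℕ) + 1) with hE
  have hE0 : E ≠ 0 := pow_ne_zero _ hD0
  have h2 : TG * (C * E) ^ b = Tf ^ n * (C * E) ^ a := by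
    apply Subtype.ext
    have e1 : ((C * E : FF (q * M')) : LaurentSeries Kbar) =
        kronNorm (ℓ : ℕ) (D : LaurentSeries Kbar) := by
      have hD' : (D : LaurentSeries Kbar) = Fermat.Agent.S28.unitL Kbar q := hD
      have hCE : ((C * E : FF (q * M')) : LaurentSeries Kbar) =
          cst c * (D : LaurentSeries Kbar) ^ ((ℓ : ℕ) + 1) := rfl
      rw [hCE, hD', hUD]
    have e2 : ((TG * (C * E) ^ b : FF (q * M')) : LaurentSeries Kbar) =
        kronNorm (ℓ : ℕ) ((G * D ^ b : FF (q * M')) : LaurentSeries Kbar) := by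
      have : ((G * D ^ b : FF (q * M')) : LaurentSeries Kbar) =
          (G : LaurentSeries Kbar) * (D : LaurentSeries Kbar) ^ b := rfl
      rw [this, kronNorm_mul, kronNorm_pow, ← hTG, ← e1]
      rfl
    have e3 : ((Tf ^ n * (C * E) ^ a : FF (q * M')) : LaurentSeries Kbar) =
        kronNorm (ℓ : ℕ) ((f ^ n * D ^ a : FF (q * M')) : LaurentSeries Kbar) := by
      have : ((f ^ n * D ^ a : FF (q * M')) : LaurentSeries Kbar) =
          (f : LaurentSeries Kbar) ^ n * (D : LaurentSeries Kbar) ^ a := rfl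
      rw [this, kronNorm_mul, kronNorm_pow, kronNorm_pow, ← hTf, ← e1]
      rfl
    rw [e2, e3, hG]
  have h3 : G ^ ((ℓ : ℕ) + 1) * E ^ b = f ^ (n * ((ℓ : ℕ) + 1)) * E ^ a := by
    have h3' : (G * D ^ b) ^ ((ℓ : ℕ) + 1) = (f ^ n * D ^ a) ^ ((ℓ : ℕ) + 1) := by rw [hG]
    calc G ^ ((ℓ : ℕ) + 1) * E ^ b = (G * D ^ b) ^ ((ℓ : ℕ) + 1) := by rw [hE]; ring
      _ = (f ^ n * D ^ a) ^ ((ℓ : ℕ) + 1) := h3'
      _ = f ^ (n * ((ℓ : ℕ) + 1)) * E ^ a := by rw [hE]; ring
  set g : FF (q * M') := Tf * (f ^ ((ℓ : ℕ) + 1))⁻¹ with hg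
  have hgK : IsKummerGen (q * M') m g
      (heckeOperatorBar (q * M') ℓ x - ((ℓ : ℕ) + 1) • x) := by
    have := (hTfK m x hf).mul ((hf.pow ((ℓ : ℕ) + 1)).inv)
    rwa [← sub_eq_add_neg] at this
  have hg0 : g ≠ 0 := hgK.1
  have h4 : Tf ^ n * C ^ a * G ^ ((ℓ : ℕ) + 1) = C ^ b * TG * f ^ (n * ((ℓ : ℕ) + 1)) := by
    have hEE : E ^ a * E ^ b ≠ 0 := mul_ne_zero (pow_ne_zero _ hE0) (pow_ne_zero _ hE0)
    apply mul_right_cancel₀ hEE
    rw [mul_pow, mul_pow] at h2
    linear_combination (-(f ^ (n * ((ℓ : ℕ) + 1)) * E ^ a)) * h2 + (Tf ^ n * C ^ a * E ^ a) * h3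
  have h5 : g ^ n = algebraMap Kbar (FF (q * M')) (c ^ b * (c ^ a)⁻¹) *
      (TG * (G ^ ((ℓ : ℕ) + 1))⁻¹) := by
    have hCa : C ^ a ≠ 0 := pow_ne_zero _ hC0
    have hGl : G ^ ((ℓ : ℕ) + 1) ≠ 0 := pow_ne_zero _ hG0
    have hfl : f ^ ((ℓ : ℕ) + 1) ≠ 0 := pow_ne_zero _ hf0
    have hcc : algebraMap Kbar (FF (q * M')) (c ^ b * (c ^ a)⁻¹) = C ^ b * (C ^ a)⁻¹ := by
      rw [map_mul, map_inv₀, map_pow, map_pow]
    rw [hcc, hg, mul_pow, inv_pow, ← pow_mul, mul_comm ((ℓ : ℕ) + 1) n]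
    have hfn : f ^ (n * ((ℓ : ℕ) + 1)) ≠ 0 := pow_ne_zero _ hf0
    field_simp
    linear_combination h4
  have hcb : c ^ b * (c ^ a)⁻¹ ≠ 0 :=
    mul_ne_zero (pow_ne_zero _ hc) (inv_ne_zero (pow_ne_zero _ hc))
  have hNGn : NodeGenQ m q M' A (g ^ n) := by
    rw [h5]
    exact ((hHN ℓ hℓNp G TG hTG hNG).mul (hNG.pow _).inv).const_mul hcb
  have hNGg : NodeGenQ m q M' A g :=
    NodeGenQ.of_pow_coprime hRE hRU hRF hq hqM hA hn0 hn hg0 hNGn
  exact AddSubgroup.subset_closure ⟨g, hgK, hCP g _ hgK hNGg⟩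

/-- **EIS-q at good levels from its leaves.** -/
theorem eisSlopeQGood_of (hCO : CoreOutQGoodStatement) (hHF : HeckeFunStatement)
    (hHN : HeckeNodeGenQPowStatement) (hU : UnitEisStatement) (hCP : CuspPurityQGoodStatement)
    (hRE : RedExistsStatement) (hRU : RedUniqueStatement) (hRF : RedFieldStatement) :
    EisSlopeQGoodStatement := by
  intro p n q M' _ _ _ h A hA S a x hx hex hfix
  refine ⟨(q * M' * p).primeFactors,
    isEisModQ_of_slopePropQM' hHF hU hRE hRU hRF (p ^ n) p q M' h.p_prime.ne_zero h.q_prime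
      h.not_dvd A hA ?_ ?_ x (hCO p n q M' h A hA S a x hx hex hfix)⟩
  · intro ℓ _ hℓ f g hg hf
    exact hHN p n q M' h.p_prime h.n_pos h.q_prime h.q_ne_p h.not_dvd A hA ℓ hℓ f g hg hf
  · intro g y hg hN
    exact hCP p n q M' h A hA g y hg hN

/-! ## Glue: the targets at good levels -/

/-- The three targets at good levels from (Q2), (Q3), EIS-q at good levels. -/
theorem wallQTargetsGood_of (h2 : Q2GoodStatement) (h3 : Q3GoodStatement)
    (hE : EisSlopeQGoodStatement) : WallQTargetsGoodStatement := by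
  intro p q M' _ _ _ h A hA
  have e2 := h2 p 1 q M' h A hA
  rw [pow_one] at e2
  refine ⟨finPartQ p q M' A, splitPartQ p q M' A, e2, h3 p q M' h A hA, ?_⟩
  intro S a hNE x hx hex hfix
  obtain ⟨S', hS'⟩ := hE p 1 q M' h A hA S a x (by rwa [pow_one]) hex hfix
  rw [pow_one] at hS'
  exact mem_finPartQ_of_eis p q M' h.p_prime A S S' a hNE x hx.1 hex hS'

/-- (Q3) at good levels from RED-MAP at good levels. -/
theorem q3Good_of_redMapGood (h : RedMapGoodStatement) : Q3GoodStatement := by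
  intro p q M' _ _ _ hh A hA
  obtain ⟨S₀, β, hβ⟩ := h p 1 q M' hh A hA
  have h3 : Q3For p q M' (finPartQ (p ^ 1) q M' A) (splitPartQ (p ^ 1) q M' A) :=
    q3For_of_redMapFor hβ
  rwa [pow_one] at h3

/-- The three targets at good levels from (Q2), RED-MAP, EIS-q at good levels. -/
theorem wallQTargetsGood_of_redMap (h2 : Q2GoodStatement) (h3 : RedMapGoodStatement)
    (hE : EisSlopeQGoodStatement) : WallQTargetsGoodStatement :=
  wallQTargetsGood_of h2 (q3Good_of_redMapGood h3) hE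

/-- **WALL-q at good levels from the three targets**: Places + DETF + DIM + targets. -/
theorem wallQFreyGood_of_targets (hPl : PlacesStatement) (hDet : DetFrobStatement)
    (hDim : TorsionRankStatement) (hT : WallQTargetsGoodStatement) :
    WallQFreyGoodStatement := by
  intro P M' q _ _ hq hq2 hqp hqM' hgood hirr hunr hq1 S a hNE hemb
  haveI : NeZero q := ⟨hq.ne_zero⟩
  obtain ⟨A, hA, φ, hφ⟩ := hPl q hq
  obtain ⟨𝓕, 𝒮, h2, h3, h4⟩ :=
    hT P.p q M' ⟨P.pp, P.hp5, Nat.one_pos, hq, hq2, hqp, hqM', hgood⟩ A hA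
  exact lowered_of_targetsQ P hq hqp hirr (hDim P) hφ (hDet P q hq hqp A hA φ hφ)
    (fun σ hσ x => hunr A hA σ hσ x) hq1 h2 h3 h4 hNE hemb

/-- **WALL-q (all levels) from WALL-q at good levels and ODD-VACUOUS.** -/
theorem wallQFrey_of_good (hW : WallQFreyGoodStatement) (hOdd : OddVacuousStatement) :
    WallQFreyStatement := by
  intro P M' q _ _ hq hq2 hqp hqM' hirr hunr hq1 S a hNE hemb
  by_cases h2 : 2 ∣ M'
  · refine hW P M' q hq hq2 hqp hqM' ?_ hirr hunr hq1 S a hNE hemb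
    by_cases h5 : 5 ≤ q
    · exact Or.inl h5
    · right
      refine ⟨?_, h2⟩
      have h2q := hq.two_le
      have h4 : q ≠ 4 := by
        rintro rfl
        exact absurd hq (by decide)
      omega
  · exfalso
    have hodd : ¬ 2 ∣ q * M' := by
      intro h
      rcases (Nat.Prime.dvd_mul Nat.prime_two).mp h with h' | h'
      · exact hq2 ((Nat.prime_dvd_prime_iff_eq Nat.prime_two hq).mp h').symm
      · exact h2 h'
    exact hOdd P (q * M') hodd S a hemb

/-! ## The all-levels forms imply the good-level forms -/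

theorem q2Good_of_all (h : Q2PowStatement) : Q2GoodStatement :=
  fun p n q M' _ _ _ hh A hA =>
    h p n q M' hh.p_prime hh.five_le hh.n_pos hh.q_prime hh.q_ne_two hh.q_ne_p hh.not_dvd A hA

theorem redMapGood_of_all (h : RedMapStatement) : RedMapGoodStatement :=
  fun p n q M' _ _ _ hh A hA =>
    h p n q M' hh.p_prime hh.five_le hh.n_pos hh.q_prime hh.q_ne_two hh.q_ne_p hh.not_dvd A hA

theorem q3Good_of_all (h : Q3Statement) : Q3GoodStatement :=
  fun p q M' _ _ _ hh A hA =>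
    h p q M' hh.p_prime hh.five_le hh.q_prime hh.q_ne_two hh.q_ne_p hh.not_dvd A hA

theorem coreOutQGood_of_all (h : CoreOutQPowStatement) : CoreOutQGoodStatement :=
  fun p n q M' _ _ _ hh A hA =>
    h p n q M' hh.p_prime hh.five_le hh.n_pos hh.q_prime hh.q_ne_two hh.q_ne_p hh.not_dvd A hA

theorem cuspPurityQGood_of_all (h : CuspPurityQPowStatement) : CuspPurityQGoodStatement :=
  fun p n q M' _ _ _ hh A hA =>
    h p n q M' hh.p_prime hh.n_pos hh.q_prime hh.q_ne_p hh.not_dvd A hA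

end Fermat.Agent.Ribet.H158.WallQ

end

end
-- ===== PACK-END Ribet/H158/WallQGood.lean

-- ===== PACK-BEGIN Ribet/H699/HeckeNodeGenQ.lean
section



/-!
# Row 37, WALL-q, EIS-q leaf HECKE-NODE-q (`H158.WallQ.HeckeNodeGenQStatement` and the
# `p ^ n` form `H158.WallQ.HeckeNodeGenQPowStatement`, both VERBATIM)   (helper699)

`NodeGenQ f ⇒ NodeGenQ g` for `g = kronNorm ℓ f`, level `q M'`, `A` over `q`, torsion prime
`p ≠ q`, `ℓ ∤ q M' p`.  Same assembly as `H699.heckeNodeGen` (the case `q = p`): helper223's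
Hecke correspondence over `k = A/𝔪` is valid in every characteristic and for every modulus.
-/

set_option autoImplicit false
set_option linter.style.haveILetI false
set_option synthInstance.maxHeartbeats 400000
set_option maxHeartbeats 1000000

noncomputable section

open AlgebraicCurve ModularCurve

namespace Fermat.Agent.Ribet.H699

open Fermat.Agent.S24 Fermat.Agent.A2.H708 Fermat.Agent.A2.H528
open Fermat.Agent.Ribet.Spec Fermat.Agent.Ribet.H884 Fermat.Agent.Ribet.H158.WallQ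
open Fermat.Agent.S37.H400

/-- `kronNorm ℓ` preserves `PDivFin n M'` over an algebraically closed field of characteristic
`c`, `c ∤ M'`, `ℓ ≠ c`, `ℓ ∤ M'` (any modulus `n`). -/
theorem pDivFin_kronNorm_of_char {k : Type} [Field k] [IsAlgClosed k] (n M' ℓ c : ℕ)
    [NeZero M'] [NeZero ℓ] [CharP k c] (hc : c.Prime) (hcM : ¬ c ∣ M') (hℓ : ℓ.Prime)
    (hℓc : ℓ ≠ c) (hℓM : ¬ ℓ ∣ M') {r : LaurentSeries k} (hr : PDivFin n M' r) :
    PDivFin n M' (kronNorm ℓ r) := by
  obtain ⟨h, rfl, h0, hdiv⟩ := hr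
  have hchar : ∀ s : ℕ, s.Prime → s ∣ M' * ℓ → (s : k) ≠ 0 := by
    intro s hs hsd hs0
    have h1 : c ∣ s := (CharP.cast_eq_zero_iff k c s).mp hs0
    have h2 : c = s := (Nat.prime_dvd_prime_iff_eq hc hs).mp h1
    subst h2
    rcases (Nat.Prime.dvd_mul hc).mp hsd with h3 | h3
    · exact hcM h3
    · exact hℓc ((Nat.prime_dvd_prime_iff_eq hc hℓ).mp h3).symm
  obtain ⟨h', hh', hh'0, hdiv'⟩ :=
    Fermat.Agent.Ribet.H223.HF.exists_kronNorm_dvd_ord_of_nonneg (k := k) (N := M') (ℓ := ℓ)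
      hℓ hℓM hchar (n : ℤ) h h0 (fun Q hQ => hdiv Q hQ)
  exact ⟨h', hh', hh'0, fun Q hQ => hdiv' Q hQ⟩

/-- `NodeGenQ` is stable under `Nm_α ∘ β`. -/
theorem nodeGenQ_heckeNorm (p q M' : ℕ) [NeZero M'] [NeZero q] [NeZero (q * M')]
    (hq : q.Prime) (hqM : ¬ q ∣ M') (A : ValuationSubring Kbar) (hA : A.LiesOverPrime q)
    (ℓ : ℕ) [NeZero ℓ] (hℓ : ℓ.Prime) (hℓN : ¬ ℓ ∣ q * M') {f : FF (q * M')}
    (h : NodeGenQ p q M' A f) :
    NodeGenQ p q M' A (Fermat.Agent.S29.H222.heckeNorm (q * M') ℓ f) := by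
  obtain ⟨r₁, r₂, h1, h2, h3, h4⟩ := h
  haveI : CharP (kA A) q := charP_kA A hq hA
  haveI : IsAlgClosed (kA A) := Fermat.Agent.S18.H9.resAlgClosed (AlgebraicClosure ℚ) A
  have hℓq : ℓ ≠ q := fun e => hℓN (e ▸ dvd_mul_right q M')
  have hℓM : ¬ ℓ ∣ M' := fun e => hℓN (dvd_mul_of_dvd_right e q)
  refine ⟨kronNorm ℓ r₁, kronNorm ℓ r₂,
    Fermat.Agent.Ribet.H376.isRedInf_heckeNorm' (q * M') ℓ hℓ hℓN A h1, ?_,
    pDivFin_kronNorm_of_char p M' ℓ q hq hqM hℓ hℓq hℓM h3,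
    pDivFin_kronNorm_of_char p M' ℓ q hq hqM hℓ hℓq hℓM h4⟩
  unfold IsRedZero at h2 ⊢
  rw [Fermat.Agent.Ribet.H376.wF_heckeNorm hℓ hℓN]
  exact Fermat.Agent.Ribet.H376.isRedInf_heckeNorm' (q * M') ℓ hℓ hℓN A h2

/-- **HECKE-NODE-q** (`H158.WallQ.HeckeNodeGenQStatement`, verbatim). -/
theorem heckeNodeGenQ : HeckeNodeGenQStatement := by
  intro p q M' _ _ _ _ hq _ hqM A hA ℓ _ hℓN f g hg hf
  have hℓN' : ¬ (ℓ : ℕ) ∣ q * M' := fun e => hℓN (dvd_mul_of_dvd_left e p)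
  have hgf : g = Fermat.Agent.S29.H222.heckeNorm (q * M') ℓ f :=
    Subtype.ext (hg.trans (Fermat.Agent.S37.H157.node_normid (q * M') ℓ ℓ.2 hℓN' f).symm)
  rw [hgf]
  exact nodeGenQ_heckeNorm p q M' hq hqM A hA ℓ ℓ.2 hℓN' hf

/-- **HECKE-NODE-q for `p ^ n`** (`H158.WallQ.HeckeNodeGenQPowStatement`, verbatim). -/
theorem heckeNodeGenQPow : HeckeNodeGenQPowStatement := by
  intro p n q M' _ _ _ _ _ hq _ hqM A hA ℓ _ hℓN f g hg hf
  have hℓN' : ¬ (ℓ : ℕ) ∣ q * M' := fun e => hℓN (dvd_mul_of_dvd_left e p)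
  have hgf : g = Fermat.Agent.S29.H222.heckeNorm (q * M') ℓ f :=
    Subtype.ext (hg.trans (Fermat.Agent.S37.H157.node_normid (q * M') ℓ ℓ.2 hℓN' f).symm)
  rw [hgf]
  exact nodeGenQ_heckeNorm (p ^ n) q M' hq hqM A hA ℓ ℓ.2 hℓN' hf

end Fermat.Agent.Ribet.H699

end

end
-- ===== PACK-END Ribet/H699/HeckeNodeGenQ.lean

-- ===== PACK-BEGIN Ribet/H158/WallQClosed.lean
section







/-!
# Row 37, WALL-q: Mazur's principle and S43 from the OPEN WALL-q leaves ALONE  (helper158)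

Every input of the WALL-q chain except the open leaves is closed here from landed, unconditional
pieces: BLR `H823.embed`, Places `H584.places`, DETF `H704.detFrob`, DIM `H643.torsionRank`,
NE `H583.nonEisenstein583`, R3S `H404.eigenformOfOccursAway`, R3' `H943.Final.almostAllToWitness`;
and for EIS-q: HECKE-FUN `H398.heckeFun`, HECKE-NODE-q `H699.heckeNodeGenQPow`,
UNIT-EIS `H67.unitEis`, RED `H997.redExists / redUnique / redField`.

    eisSlopeQGood_of_leaves       : CoreOutQGood → CuspPurityQGood → EisSlopeQGood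
    wallQFrey_of_goodLeaves       : Q2Good → Q3Good → CoreOutQGood → CuspPurityQGood → OddVacuous
                                      → WallQFreyStatement
    mazurPrincipleOdd_of_goodLeaves : (the same five) → MazurPrincipleOddStatement
    S43_of_goodLeaves_hard        : (the same five) → H943.Row37.HardCaseStatement → S43Statement
    mazurPrincipleOdd_of_targets  : WallQTargetsStatement → MazurPrincipleOddStatement
    mazurPrincipleOdd_of_leaves   : Q2 → Q3 → EisSlopeQ → MazurPrincipleOddStatement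
-/

set_option autoImplicit false

namespace Fermat.Agent.Ribet.H158.WallQ

open Fermat.Agent.Ribet Fermat.Agent.Ribet.Spec

/-! ## All-levels forms -/

/-- The wall at `q` (Frey form) from the three targets alone. -/
theorem wallQFrey_of_wallQTargets (hT : WallQTargetsStatement) : WallQFreyStatement :=
  wallQFrey_of_targets H584.places H704.detFrob H643.torsionRank hT

/-- Mazur's principle at odd `q` from the wall at `q` alone. -/
theorem mazurPrincipleOdd_of_wallQFrey (hW : WallQFreyStatement) : MazurPrincipleOddStatement :=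
  mazurPrincipleOdd_of_wallQ H823.embed hW H583.nonEisenstein583 H404.eigenformOfOccursAway
    H943.Final.almostAllToWitness

/-- **Mazur's principle at odd `q` from the three targets alone.** -/
theorem mazurPrincipleOdd_of_targets (hT : WallQTargetsStatement) : MazurPrincipleOddStatement :=
  mazurPrincipleOdd_of_wallQFrey (wallQFrey_of_wallQTargets hT)

/-- **Mazur's principle at odd `q` from the three leaves of `WallQSlope.lean`.** -/
theorem mazurPrincipleOdd_of_leaves (h2 : Q2Statement) (h3 : Q3Statement)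
    (hE : EisSlopeQStatement) : MazurPrincipleOddStatement :=
  mazurPrincipleOdd_of_targets (wallQTargets_of h2 h3 hE)

/-- **S43 from the three leaves and the hard case.** -/
theorem S43_of_leaves_hard (h2 : Q2Statement) (h3 : Q3Statement) (hE : EisSlopeQStatement)
    (hH : H943.Row37.HardCaseStatement) : S43Statement :=
  S43_of_mpOdd_hard (mazurPrincipleOdd_of_leaves h2 h3 hE) hH

/-! ## Good-level forms (the official chain) -/

/-- **EIS-q at good levels from CORE-OUT-q and CUSP-q alone.** -/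
theorem eisSlopeQGood_of_leaves (hCO : CoreOutQGoodStatement)
    (hCP : CuspPurityQGoodStatement) : EisSlopeQGoodStatement :=
  eisSlopeQGood_of hCO H398.heckeFun H699.heckeNodeGenQPow H67.unitEis hCP
    H997.redExists H997.redUnique H997.redField

/-- The wall at `q` at good levels from the four open leaves. -/
theorem wallQFreyGood_of_leaves (h2 : Q2GoodStatement) (h3 : Q3GoodStatement)
    (hCO : CoreOutQGoodStatement) (hCP : CuspPurityQGoodStatement) : WallQFreyGoodStatement :=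
  wallQFreyGood_of_targets H584.places H704.detFrob H643.torsionRank
    (wallQTargetsGood_of h2 h3 (eisSlopeQGood_of_leaves hCO hCP))

/-- **The wall at `q` (all levels) from the four open leaves and ODD-VACUOUS.** -/
theorem wallQFrey_of_goodLeaves (h2 : Q2GoodStatement) (h3 : Q3GoodStatement)
    (hCO : CoreOutQGoodStatement) (hCP : CuspPurityQGoodStatement)
    (hOdd : OddVacuousStatement) : WallQFreyStatement :=
  wallQFrey_of_good (wallQFreyGood_of_leaves h2 h3 hCO hCP) hOdd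

/-- **Mazur's principle at odd `q` from the four open leaves and ODD-VACUOUS.** -/
theorem mazurPrincipleOdd_of_goodLeaves (h2 : Q2GoodStatement) (h3 : Q3GoodStatement)
    (hCO : CoreOutQGoodStatement) (hCP : CuspPurityQGoodStatement)
    (hOdd : OddVacuousStatement) : MazurPrincipleOddStatement :=
  mazurPrincipleOdd_of_wallQFrey (wallQFrey_of_goodLeaves h2 h3 hCO hCP hOdd)

/-- **S43 from the four open WALL-q leaves, ODD-VACUOUS and the hard case.** -/
theorem S43_of_goodLeaves_hard (h2 : Q2GoodStatement) (h3 : Q3GoodStatement)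
    (hCO : CoreOutQGoodStatement) (hCP : CuspPurityQGoodStatement)
    (hOdd : OddVacuousStatement) (hH : H943.Row37.HardCaseStatement) : S43Statement :=
  S43_of_mpOdd_hard (mazurPrincipleOdd_of_goodLeaves h2 h3 hCO hCP hOdd) hH

end Fermat.Agent.Ribet.H158.WallQ

end
-- ===== PACK-END Ribet/H158/WallQClosed.lean

-- ===== PACK-BEGIN Ribet/H158/WallQPlusGood.lean
section



/-!
# Row 37, WALL-q: the SHARP wall (helper723) from the targets at GOOD LEVELS  (helper158)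

`H723.WallQFreyPlusStatement` (exclusion `p ∤ q - 1` OR some Frobenius at `q` is not scalar on
`E[p]`) from `WallQTargetsGoodStatement` + `OddVacuousStatement`; hence

    S43 ⇐ row inputs + WallQTargetsGood + OddVacuous + H723.HardScalarStatement.

Core = `H723.lowered_of_targetsQ_plus` (instance level), run at a place of the good level; the
levels `q = 3`, `M'` odd are excluded by ODD-VACUOUS.
-/

set_option autoImplicit false
set_option linter.style.haveILetI false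

open WeierstrassCurve WeierstrassCurve.Affine WeierstrassCurve.Affine.Point

namespace Fermat.Agent.Ribet.H158.WallQ

open Fermat.Agent.Ribet Fermat.Agent.Ribet.Spec Fermat.Agent.Ribet.H944.Wall

/-- For an odd prime `q`: the level `M'` is good for `q`, or `q M'` is odd. -/
theorem good_or_odd {q M' : ℕ} (hq : q.Prime) (hq2 : q ≠ 2) :
    (5 ≤ q ∨ (q = 3 ∧ 2 ∣ M')) ∨ ¬ 2 ∣ q * M' := by
  by_cases h2 : 2 ∣ M'
  · left
    by_cases h5 : 5 ≤ q
    · exact Or.inl h5
    · right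
      refine ⟨?_, h2⟩
      have h2q := hq.two_le
      have h4 : q ≠ 4 := by
        rintro rfl
        exact absurd hq (by decide)
      omega
  · right
    intro h
    rcases (Nat.Prime.dvd_mul Nat.prime_two).mp h with h' | h'
    · exact hq2 ((Nat.prime_dvd_prime_iff_eq Nat.prime_two hq).mp h').symm
    · exact h2 h'

/-- **The sharp wall at `q` from the targets at good levels and ODD-VACUOUS.** -/
theorem wallQFreyPlus_of_goodTargets (hPl : PlacesStatement) (hDet : DetFrobStatement)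
    (hDim : TorsionRankStatement) (hT : WallQTargetsGoodStatement)
    (hOdd : OddVacuousStatement) : H723.WallQFreyPlusStatement := by
  intro P M' q _ _ hq hq2 hqp hqM' hirr hunr hq1 S a hNE hemb
  haveI : NeZero q := ⟨hq.ne_zero⟩
  rcases good_or_odd (M' := M') hq hq2 with hgood | hodd
  · have hH : WallQHyp P.p 1 q M' := ⟨P.pp, P.hp5, Nat.one_pos, hq, hq2, hqp, hqM', hgood⟩
    rcases hq1 with hq1 | hns
    · obtain ⟨A, hA, φ, hφ⟩ := hPl q hq
      obtain ⟨𝓕, 𝒮, h2, h3, h4⟩ := hT P.p q M' hH A hA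
      exact H723.lowered_of_targetsQ_plus P hq hqp hirr (hDim P) hφ
        (hDet P q hq hqp A hA φ hφ) (fun σ hσ x => hunr A hA σ hσ x) (Or.inl hq1) h2 h3 h4
        hNE hemb
    · obtain ⟨A, hA, φ, hφ, hφns⟩ := (H723.not_frobScalarAt_iff P q).1 hns
      obtain ⟨𝓕, 𝒮, h2, h3, h4⟩ := hT P.p q M' hH A hA
      exact H723.lowered_of_targetsQ_plus P hq hqp hirr (hDim P) hφ
        (hDet P q hq hqp A hA φ hφ) (fun σ hσ x => hunr A hA σ hσ x) (Or.inr hφns) h2 h3 h4
        hNE hemb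
  · exact absurd hemb (hOdd P (q * M') hodd S a)

/-- **S43 from the targets at good levels, ODD-VACUOUS, the row inputs and the SCALAR hard
case.** -/
theorem S43_of_goodTargets_hardScalar (hE : EmbedStatement) (hPl : PlacesStatement)
    (hDet : DetFrobStatement) (hDim : TorsionRankStatement) (hNE : NonEisensteinStatement)
    (hR3 : EigenformOfOccursAwayStatement) (hR3' : AlmostAllToWitnessStatement)
    (hT : WallQTargetsGoodStatement) (hOdd : OddVacuousStatement)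
    (hH : H723.HardScalarStatement) : S43Statement :=
  H723.S43_of_mpOddPlus_hardScalar
    (H723.mazurPrincipleOddPlus_of_wallQ hE
      (wallQFreyPlus_of_goodTargets hPl hDet hDim hT hOdd) hNE hR3 hR3')
    hH

end Fermat.Agent.Ribet.H158.WallQ

end
-- ===== PACK-END Ribet/H158/WallQPlusGood.lean

-- ===== PACK-BEGIN Ribet/H818/FrobAL.lean
section






/-!
# Row RIBET, WALL-q, leaf **FROB-AL** = `H158.WallQ.Q2GoodStatement` — CLOSED (helper818)

`q2Good : Q2GoodStatement` (VERBATIM, UNCONDITIONAL): at a good level `M'` (`q ∤ M'`, `q` odd,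
`q ≥ 5` or `2 ∣ M'`), for `A` over `q` and `m = p ^ n` prime to `q`, with `u = - w_q`
(`H801.wL`, Galois-equivariant, involutive):

    φ • x = q • u x      for every `x ∈ splitPartQ m q M' A` and every Frobenius `φ` at `A`.

Proof.  The relation `φ • w_q x + q • x = 0` is additive in `x`, so it is enough to prove it on
the generators `x = [D]`, `m D = div f`, `f` with `m`-th power reductions on both components.
`H818.splitGenQ_roots818` (DICT-A) turns the reductions into `f ∈ (F^×)^m · (1 + 𝔪)` at `V∞` and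
`V₀`; `H818.kummerSwapBar` (descent to a good level + `levelFrobSwap`) gives
`σ_φ (w_q f) · f ^ q = y ^ m`; `H801.wL_mk_of_kummer` identifies `w_q x` with the class of
`div (w_q f) / m`; taking divisors, `φ • w_q x + q • x = [div y] = 0`.
-/

set_option autoImplicit false
set_option linter.unusedSectionVars false
set_option linter.unusedVariables false
set_option linter.style.haveILetI false
set_option synthInstance.maxHeartbeats 400000
set_option maxHeartbeats 4000000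

noncomputable section

namespace Fermat.Agent.Ribet.H818

open AlgebraicCurve ModularCurve HahnSeries
open Fermat.Agent.S24 Fermat.Agent.A2.H528
open Fermat.Agent.Ribet Fermat.Agent.Ribet.Spec
open Fermat.Agent.Ribet.H884 Fermat.Agent.Ribet.H158.WallQ Fermat.Agent.Ribet.H801
open Fermat.Agent.S29.H801 (alphaTo betaTo)

/-! ### The Kummer dictionary for a twisted relation -/

section Dict

variable {K F : Type*} [Field K] [Field F] [Algebra K F]

/-- **T'.**  If `div f = m · D`, `div f' = m · D'` and `g f' · f ^ k = y ^ m`, then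
`g • [D'] + k • [D] = 0`. -/
theorem smul_add_nsmul_eq_zero_of_kummer818 (g : SemilinearAut K F) (m k : ℕ) (hm : m ≠ 0)
    (D D' : Divisor.degZero (K := K) (F := F)) (f f' : F) (hf : f ≠ 0) (hf' : f' ≠ 0)
    (hfD : ∀ v : Place K F, v.ord f = (m : ℤ) * (D : Divisor K F) v)
    (hfD' : ∀ v : Place K F, v.ord f' = (m : ℤ) * (D' : Divisor K F) v)
    (y : F) (hy : y ≠ 0) (h : SemilinearAut.toRingAut g f' * f ^ k = y ^ m) :
    g • Pic0.mk D' + k • Pic0.mk D = 0 := by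
  set E : Divisor.degZero (K := K) (F := F) := SemilinearAut.degZeroSMulHom g D' + k • D with hE
  have hgoal : g • Pic0.mk D' + k • Pic0.mk D = Pic0.mk E := by
    rw [SemilinearAut.pic0_smul_mk]
    rfl
  rw [hgoal]
  refine (QuotientAddGroup.eq_zero_iff E).2 ?_
  rw [AddSubgroup.mem_addSubgroupOf]
  refine ⟨y, hy, fun w => ?_⟩
  have hEw : (E : Divisor K F) w = (D' : Divisor K F) (g⁻¹ • w) + k * (D : Divisor K F) w := by
    simp only [hE, AddMemClass.coe_add, SemilinearAut.coe_degZeroSMulHom,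
      Finsupp.add_apply, SemilinearAut.divisor_smul_apply, AddSubgroupClass.coe_nsmul,
      Finsupp.smul_apply, nsmul_eq_mul]
  have hgf' : SemilinearAut.toRingAut g f' ≠ 0 := by simpa using hf'
  have h1 : w.ord (SemilinearAut.toRingAut g f') = (g⁻¹ • w).ord f' :=
    Fermat.Agent.A2.H129.ord_smul_eq g w f'
  have h2 : w.ord (SemilinearAut.toRingAut g f' * f ^ k) =
      (g⁻¹ • w).ord f' + k * w.ord f := by
    rw [w.ord_mul hgf' (pow_ne_zero k hf), h1, Fermat.Agent.A2.H129.ord_pow]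
  have h3 : w.ord (y ^ m) = (m : ℤ) * w.ord y := Fermat.Agent.A2.H129.ord_pow w y m
  have hmE : (m : ℤ) * (E : Divisor K F) w = (m : ℤ) * w.ord y := by
    rw [h, h3, hfD', hfD] at h2
    rw [hEw]
    linear_combination -h2
  have hm' : (m : ℤ) ≠ 0 := by exact_mod_cast hm
  exact mul_left_cancel₀ hm' hmE

end Dict

/-! ### The Kummer statement at the renamed level -/

section To

variable (M q N m : ℕ) [NeZero M] [NeZero q] [NeZero N]

/-- `kummerSwapBar` with the level renamed along `M * q = N`. -/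
theorem kummerSwapTo (hN : M * q = N) (hq : q.Prime) (hqM : ¬ q ∣ M)
    (haux : Fermat.Agent.S35.G.HasAux M q) (hm : 0 < m)
    (hqm : ¬ q ∣ m) (A : ValuationSubring Kbar) (hA : A.LiesOverPrime q)
    (s : Kbar ≃ₐ[ℚ] Kbar) (hs : A.IsFrobeniusAt s q)
    (swB : FF N →+* FF N)
    (hBα : ∀ a : FF M, swB (alphaTo Kbar M q N hN a) = betaTo Kbar M q N hN a)
    (hBβ : ∀ a : FF M, swB (betaTo Kbar M q N hN a) = alphaTo Kbar M q N hN a)
    (f : FF N) (hf : f ≠ 0)
    (hdiv : ∀ v : Place Kbar (FF N), (m : ℤ) ∣ v.ord f)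
    (a b : FF N) (ha : a ≠ 0) (hb : b ≠ 0)
    (h1 : (Fermat.Agent.A2.H553.VinfModular A hq.ne_zero hA N).valuation
      (f * (a ^ m)⁻¹ - 1) < 1)
    (h2 : (Fermat.Agent.A2.H553.VinfModular A hq.ne_zero hA N).valuation
      (wF N (f * (b ^ m)⁻¹) - 1) < 1) :
    ∃ y : FF N, y ≠ 0 ∧
      arithmeticRingAut (modularFunctionFieldFull N) s (swB f) * f ^ q = y ^ m := by
  subst hN
  exact kummerSwapBar M q m hq hqM haux hm hqm A hA s hs swB hBα hBβ f hf hdiv a b ha hb h1 h2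

end To

/-! ### FROB-AL -/

section Main

variable {q M' : ℕ} [NeZero M'] [NeZero q] [NeZero (q * M')]

/-- **FROB-AL on a generator**: `φ • w_q x + q • x = 0` for `x ∈ splitSetQ`. -/
theorem frob_wL_add_of_splitGen (m : ℕ) (hq : q.Prime) (hqM : ¬ q ∣ M')
    (haux : Fermat.Agent.S35.G.HasAux M' q) (hm : 0 < m) (hqm : ¬ q ∣ m)
    (A : ValuationSubring Kbar) (hA : A.LiesOverPrime q) (φ : GQ) (hφ : A.IsFrobeniusAt φ q)
    (x : JZero (q * M')) (f : FF (q * M')) (hf : IsKummerGen (q * M') m f x)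
    (hs : SplitGenQ m q M' A f) :
    φ • wL q M' hq hqM x + q • x = 0 := by
  obtain ⟨hf0, D, rfl, hD⟩ := hf
  obtain ⟨⟨a, ha, h1⟩, ⟨b, hb, h2⟩⟩ := splitGenQ_roots818 hq hA M' m hm hs
  have hdiv : ∀ v : Place Kbar (FF (q * M')), (m : ℤ) ∣ v.ord f := fun v => by
    rw [hD v]
    exact Dvd.intro _ rfl
  obtain ⟨y, hy, hrel⟩ := kummerSwapTo M' q (q * M') m (Nat.mul_comm M' q) hq hqM haux hm hqm
    A hA φ hφ ((swapL q M' hq hqM : FF (q * M') →ₐ[Kbar] FF (q * M')) : FF (q * M') →+* FF (q * M'))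
    (fun a => swapL_alphaTo hq hqM a) (fun a => swapL_betaTo hq hqM a) f hf0 hdiv a b ha hb h1 h2
  obtain ⟨D', hD', hD'ord⟩ := wL_mk_of_kummer hq hqM (m := (m : ℤ)) D hf0
    (fun w => (hD w).symm)
  rw [hD']
  exact smul_add_nsmul_eq_zero_of_kummer818
    (arithmeticGalois (modularFunctionFieldFull (q * M')) φ) m q hm.ne' D D' f
    (swapL q M' hq hqM f) hf0 (swapL_ne_zero hq hqM hf0) hD (fun v => (hD'ord v).symm) y hy hrel

/-- **FROB-AL on the split part**: `φ • w_q x + q • x = 0` for `x ∈ splitPartQ`. -/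
theorem frob_wL_add_of_mem_splitPartQ (m : ℕ) (hq : q.Prime) (hqM : ¬ q ∣ M')
    (haux : Fermat.Agent.S35.G.HasAux M' q) (hm : 0 < m) (hqm : ¬ q ∣ m)
    (A : ValuationSubring Kbar) (hA : A.LiesOverPrime q) (φ : GQ) (hφ : A.IsFrobeniusAt φ q)
    (x : JZero (q * M')) (hx : x ∈ splitPartQ m q M' A) :
    φ • wL q M' hq hqM x + q • x = 0 := by
  refine AddSubgroup.closure_induction
    (p := fun x _ => φ • wL q M' hq hqM x + q • x = 0) ?_ ?_ ?_ ?_ hx
  · rintro x ⟨f, hf, hs⟩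
    exact frob_wL_add_of_splitGen m hq hqM haux hm hqm A hA φ hφ x f hf hs
  · rw [map_zero, smul_zero (A := JZero (q * M')) φ, nsmul_zero, add_zero]
  · intro x y _ _ hx hy
    rw [map_add, smul_add, nsmul_add, add_add_add_comm, hx, hy, add_zero]
  · intro x _ hx
    rw [map_neg, smul_neg, neg_nsmul, ← neg_add, hx, neg_zero]

/-- **FROB-AL**: `φ • x = q • (- w_q x)` for `x ∈ splitPartQ`. -/
theorem frob_eq_of_mem_splitPartQ (m : ℕ) (hq : q.Prime) (hqM : ¬ q ∣ M')
    (haux : Fermat.Agent.S35.G.HasAux M' q) (hm : 0 < m) (hqm : ¬ q ∣ m)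
    (A : ValuationSubring Kbar) (hA : A.LiesOverPrime q) (φ : GQ) (hφ : A.IsFrobeniusAt φ q)
    (x : JZero (q * M')) (hx : x ∈ splitPartQ m q M' A) :
    φ • x = q • (-(wL q M' hq hqM x)) := by
  have h := frob_wL_add_of_mem_splitPartQ m hq hqM haux hm hqm A hA φ hφ x hx
  have h' := congrArg (wL q M' hq hqM) h
  rw [map_add, wL_smul, wL_wL, map_nsmul, map_zero] at h'
  rw [neg_nsmul]
  exact eq_neg_of_add_eq_zero_left h'

end Main

/-- **Leaf FROB-AL (Q2) at good levels, torsion order `p ^ n`** — VERBATIM. -/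
theorem q2Good : Q2GoodStatement := by
  intro p n q M' _ _ _ h A hA
  have hq := h.q_prime
  have hqM := h.not_dvd
  have hm0 : 0 < p ^ n := pow_pos h.p_prime.pos n
  have hqm : ¬ q ∣ p ^ n := fun hd =>
    h.q_ne_p ((Nat.prime_dvd_prime_iff_eq hq h.p_prime).1 (hq.dvd_of_dvd_pow hd))
  have haux : Fermat.Agent.S35.G.HasAux M' q := by
    refine ⟨fun h3 => ?_, fun h2 => absurd h2 h.q_ne_two⟩
    rcases h.good with h5 | ⟨-, h2⟩
    · omega
    · exact h2
  refine ⟨-((wL q M' hq hqM : JZero (q * M') ≃+ JZero (q * M')) :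
      JZero (q * M') →+ JZero (q * M')), ?_, ?_, ?_⟩
  · intro σ x
    show -(wL q M' hq hqM (σ • x)) = σ • (-(wL q M' hq hqM x))
    rw [wL_smul, smul_neg]
  · intro x _ _
    show -(wL q M' hq hqM (-(wL q M' hq hqM x))) = x
    rw [map_neg, neg_neg, wL_wL]
  · intro φ hφ x hx _
    exact frob_eq_of_mem_splitPartQ (p ^ n) hq hqM haux hm0 hqm A hA φ hφ x hx

end Fermat.Agent.Ribet.H818

end

end
-- ===== PACK-END Ribet/H818/FrobAL.lean

-- ===== PACK-BEGIN Ribet/H523/Q3Lift.lean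
section











/-!
# Row 37, WALL-q, (Q3) RED: the assembly of EIGEN-LIFT at good levels  (helper523)

`eigenLiftGood_of : GRSurj → KumRed → KronField → EigenLiftGoodStatement`, and the strong form
`eigenLiftGood_strong` (the lifted class has a Kummer generator whose reduction is `c·h·u^p`),
which is the input of the corner case `q = 3`, `M'` odd.

On main and used here: `S37.Core.rimStatement` (place reduction at good levels),
`S18.result` (injectivity on torsion), `H398.isKummerGen_heckeNorm`,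
`H376.isRedInf_heckeNorm'`, `H997.redExists`, `H939.resField`,
`S18.H144.constOfOrdZero_fullC`, `S37.H868.hpd_fullC`.
-/

set_option autoImplicit false
set_option linter.style.haveILetI false
set_option linter.unusedSectionVars false
set_option synthInstance.maxHeartbeats 400000
set_option maxHeartbeats 1000000

noncomputable section

namespace Fermat.Agent.Ribet.H523.Q3

open AlgebraicCurve ModularCurve HahnSeries
open Fermat.Agent.S24 Fermat.Agent.A2.H708 Fermat.Agent.A2.H528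
open Fermat.Agent.Ribet.Spec Fermat.Agent.Ribet.H944.Wall Fermat.Agent.Ribet.H884
open Fermat.Agent.Ribet.H158.WallQ
open Fermat.Agent.Ribet.H944.I2
open Fermat.Agent.S37.H400

/-! ## Kummer functions and classes in an abstract function field -/

section Abstract

variable {K F : Type*} [Field K] [Field F] [Algebra K F]

/-- A function all of whose orders are divisible by `p` has a divisor of the form `p · E`,
`deg E = 0`. -/
theorem exists_degZero_of_dvd_ord [HasPrincipalDivisors K F] {p : ℕ} (hp : p ≠ 0) {h : F}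
    (h0 : h ≠ 0) (hdiv : ∀ Q : Place K F, (p : ℤ) ∣ Q.ord h) :
    ∃ E : Divisor.degZero (K := K) (F := F),
      ∀ Q : Place K F, Q.ord h = (p : ℤ) * (E : Divisor K F) Q := by
  obtain ⟨D, hD, hdeg⟩ := HasPrincipalDivisors.exists_divisor (K := K) h h0
  let E₀ : Divisor K F := D.mapRange (fun n => n / (p : ℤ)) (by simp)
  have hE : ∀ Q, (p : ℤ) * E₀ Q = D Q := fun Q => by
    show (p : ℤ) * (D.mapRange (fun n => n / (p : ℤ)) (by simp)) Q = D Q
    rw [Finsupp.mapRange_apply]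
    exact Int.mul_ediv_cancel' (by rw [hD Q]; exact hdiv Q)
  have hpE : (p : ℤ) • E₀ = D := by
    ext Q
    rw [Finsupp.smul_apply, smul_eq_mul, hE]
  have hdeg0 : Divisor.degree E₀ = 0 := by
    have h1 := congrArg Divisor.degree hpE
    rw [map_zsmul, hdeg, smul_eq_mul] at h1
    rcases mul_eq_zero.mp h1 with h2 | h2
    · exact absurd (by exact_mod_cast h2) hp
    · exact h2
  refine ⟨⟨E₀, hdeg0⟩, fun Q => ?_⟩
  show Q.ord h = (p : ℤ) * E₀ Q
  rw [hE Q, hD Q]

/-- Two Kummer functions of the same class differ by a constant and a `p`-th power. -/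
theorem exists_const_mul_pow
    (hconst : ∀ u : F, u ≠ 0 → (∀ v : Place K F, v.ord u = 0) → ∃ c : K, u = algebraMap K F c)
    {p : ℕ} {h₁ h₂ : F} (h1 : h₁ ≠ 0) (h2 : h₂ ≠ 0)
    {E₁ E₂ : Divisor.degZero (K := K) (F := F)}
    (hE1 : ∀ Q : Place K F, Q.ord h₁ = (p : ℤ) * (E₁ : Divisor K F) Q)
    (hE2 : ∀ Q : Place K F, Q.ord h₂ = (p : ℤ) * (E₂ : Divisor K F) Q)
    (hcl : Pic0.mk E₁ = Pic0.mk E₂) :
    ∃ (c : K) (u : F), c ≠ 0 ∧ u ≠ 0 ∧ h₁ = algebraMap K F c * h₂ * u ^ p := by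
  have hmem : (-E₁ + E₂ : Divisor.degZero (K := K) (F := F)) ∈
      (Divisor.principal (K := K) (F := F)).addSubgroupOf
        (Divisor.degZero (K := K) (F := F)) := QuotientAddGroup.eq.mp hcl
  rw [AddSubgroup.mem_addSubgroupOf] at hmem
  obtain ⟨t, ht0, ht⟩ := hmem
  have ht' : ∀ Q : Place K F, Q.ord t = -(E₁ : Divisor K F) Q + (E₂ : Divisor K F) Q :=
    fun Q => by
      rw [← ht Q]
      simp
  have hw0 : h₁ * (h₂ * (t⁻¹) ^ p)⁻¹ ≠ 0 :=
    mul_ne_zero h1 (inv_ne_zero (mul_ne_zero h2 (pow_ne_zero _ (inv_ne_zero ht0))))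
  obtain ⟨c, hc⟩ := hconst _ hw0 (fun Q => by
    rw [Q.ord_mul h1 (inv_ne_zero (mul_ne_zero h2 (pow_ne_zero _ (inv_ne_zero ht0)))),
      Q.ord_inv, Q.ord_mul h2 (pow_ne_zero _ (inv_ne_zero ht0)),
      Fermat.Agent.Lib.RR.ord_pow, Q.ord_inv, hE1, hE2, ht']
    ring)
  refine ⟨c, t⁻¹, ?_, inv_ne_zero ht0, ?_⟩
  · rintro rfl
    rw [map_zero] at hc
    exact hw0 hc
  · rw [← hc]
    field_simp

/-- A Kummer function of the zero class is a constant times a `p`-th power. -/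
theorem exists_const_mul_pow_of_mk_eq_zero [HasPrincipalDivisors K F]
    (hconst : ∀ u : F, u ≠ 0 → (∀ v : Place K F, v.ord u = 0) → ∃ c : K, u = algebraMap K F c)
    {p : ℕ} {h : F} (h0 : h ≠ 0) {E : Divisor.degZero (K := K) (F := F)}
    (hE : ∀ Q : Place K F, Q.ord h = (p : ℤ) * (E : Divisor K F) Q)
    (hcl : Pic0.mk E = 0) :
    ∃ (c : K) (u : F), c ≠ 0 ∧ u ≠ 0 ∧ h = algebraMap K F c * u ^ p := by
  obtain ⟨c, u, hc, hu, he⟩ := exists_const_mul_pow hconst (p := p) h0 (one_ne_zero (α := F))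
    (E₁ := E) (E₂ := 0) hE (fun Q => by rw [Place.ord_one]; simp) (by rw [hcl]; rfl)
  exact ⟨c, u, hc, hu, by rw [he, mul_one]⟩

/-- The class of a constant times a `p`-th power is zero. -/
theorem mk_eq_zero_of_const_mul_pow {p : ℕ} (hp : p ≠ 0) {h : F} {c : K} {u : F}
    (hu : u ≠ 0) (he : h = algebraMap K F c * u ^ p)
    {E : Divisor.degZero (K := K) (F := F)}
    (hE : ∀ Q : Place K F, Q.ord h = (p : ℤ) * (E : Divisor K F) Q) (hc : c ≠ 0) :
    Pic0.mk E = 0 := by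
  have hcF : algebraMap K F c ≠ 0 := fun h0 => hc (by simpa using h0)
  have hEu : ∀ Q : Place K F, (E : Divisor K F) Q = Q.ord u := fun Q => by
    have h1 := hE Q
    rw [he, Q.ord_mul hcF (pow_ne_zero _ hu), Fermat.Agent.Lib.RR.ord_algebraMap,
      Fermat.Agent.Lib.RR.ord_pow, zero_add] at h1
    exact (mul_left_cancel₀ (by exact_mod_cast hp : (p : ℤ) ≠ 0) h1).symm
  show (QuotientAddGroup.mk E : Pic0 K F) = 0
  refine (QuotientAddGroup.eq_zero_iff E).mpr ?_
  rw [AddSubgroup.mem_addSubgroupOf]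
  exact ⟨u, hu, hEu⟩

end Abstract

/-! ## Kummer generators: integer powers -/

section KummerPow

variable (N : ℕ) [NeZero N] (p : ℕ)

theorem isKummerGen_pow' {f : FF N} {x : JZero N} (hf : IsKummerGen N p f x) (n : ℕ) :
    IsKummerGen N p (f ^ n) (n • x) := by
  induction n with
  | zero => simpa using _root_.Fermat.Agent.Ribet.H944.I2.isKummerGen_one N p
  | succ n ih =>
    rw [pow_succ, succ_nsmul]
    exact isKummerGen_mul N p ih hf

theorem isKummerGen_zpow' {f : FF N} {x : JZero N} (hf : IsKummerGen N p f x) (a : ℤ) :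
    IsKummerGen N p (f ^ a) (a • x) := by
  rcases a with n | n
  · simpa using isKummerGen_pow' N p hf n
  · rw [zpow_negSucc, negSucc_zsmul]
    exact isKummerGen_inv N p (isKummerGen_pow' N p hf (n + 1))

end KummerPow

/-! ## The assembly -/

theorem goodLevel_of {q M' : ℕ} (hq : q.Prime) (hq2 : q ≠ 2) (hgood : 5 ≤ q ∨ 2 ∣ M') :
    Fermat.Agent.S37.Core.GoodLevel M' q := by
  by_cases h5 : 5 ≤ q
  · exact Or.inl h5
  · rcases hgood with h | h
    · exact absurd h h5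
    · have h2 := hq.two_le
      have hlt : q < 5 := Nat.lt_of_not_le h5
      interval_cases q
      · exact absurd rfl hq2
      · exact Or.inr (Or.inl ⟨rfl, h⟩)
      · exact absurd hq (by decide)

/-- **EIGEN-LIFT at good levels, strong form.** -/
theorem eigenLiftGood_strong (hSurj : GRSurjStatement) (hKR : KumRedStatement)
    (hKF : KronFieldStatement)
    (p q M' : ℕ) [NeZero M'] (hp : p.Prime) (hq : q.Prime) (hq2 : q ≠ 2) (hqp : q ≠ p)
    (hqM : ¬ q ∣ M') (hgood : 5 ≤ q ∨ 2 ∣ M')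
    (A : ValuationSubring Kbar) (hA : A.LiesOverPrime q)
    (S : Finset ℕ) (a : ℕ → ℤ) (h : modularFunctionFieldFullC (kA A) M')
    (hh : IsRedEigen p M' S a h) :
    ∃ (z : JZero M') (f : FF M') (r : LaurentSeries (kA A)) (c : kA A)
      (u : modularFunctionFieldFullC (kA A) M'),
      z ≠ 0 ∧ p • z = 0 ∧ IsKummerGen M' p f z ∧ IsRedInf M' A f r ∧ c ≠ 0 ∧ u ≠ 0 ∧
      r = HahnSeries.C c * (h : LaurentSeries (kA A)) * (u : LaurentSeries (kA A)) ^ p ∧
      ∀ ℓ : Nat.Primes, (ℓ : ℕ) ∉ S ∪ (q * M' * p).primeFactors →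
        heckeOperatorBar M' ℓ z = a ℓ • z := by
  classical
  obtain ⟨hac, hch⟩ := Fermat.Agent.Ribet.H939.resField q hq A hA
  haveI := hac
  haveI := hch
  haveI : Fact q.Prime := ⟨hq⟩
  have hchar : ∀ p' : ℕ, p'.Prime → p' ∣ M' → (p' : kA A) ≠ 0 := by
    intro p' hp' hd h0
    have h1 : q ∣ p' := (CharP.cast_eq_zero_iff (kA A) q p').mp h0
    have h2 : q = p' := (Nat.prime_dvd_prime_iff_eq hq hp').mp h1
    exact hqM (h2 ▸ hd)
  haveI hpd : HasPrincipalDivisors (kA A) (modularFunctionFieldFullC (kA A) M') :=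
    Fermat.Agent.S37.H868.hpd_fullC (kA A) M' hchar
  have hconst := Fermat.Agent.S18.H144.constOfOrdZero_fullC (kA A) M' hchar
  have hRI : ReductionInputsModL A M' :=
    Fermat.Agent.S37.Core.rimStatement M' q hq hqM (goodLevel_of hq hq2 hgood) A hA
  obtain ⟨h0, hdiv, hnpp, heig⟩ := hh
  obtain ⟨Eh, hEh⟩ := exists_degZero_of_dvd_ord (K := kA A) hp.ne_zero h0 hdiv
  -- the class `y` of `h`
  have hpy : p • (Pic0.mk Eh : JZeroC (kA A) M') = 0 := by
    have e : p • (Pic0.mk Eh : JZeroC (kA A) M') = Pic0.mk (p • Eh) := rfl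
    rw [e]
    show (QuotientAddGroup.mk (p • Eh) : Pic0 (kA A) (modularFunctionFieldFullC (kA A) M')) = 0
    refine (QuotientAddGroup.eq_zero_iff (p • Eh)).mpr ?_
    rw [AddSubgroup.mem_addSubgroupOf]
    refine ⟨h, h0, fun Q => ?_⟩
    rw [hEh Q]
    simp
  have hy0 : (Pic0.mk Eh : JZeroC (kA A) M') ≠ 0 := by
    intro hy
    obtain ⟨c, u, hc, hu, he⟩ := exists_const_mul_pow_of_mk_eq_zero hconst h0 hEh hy
    apply hnpp
    refine ⟨c, u, hc, hu, ?_⟩
    rw [he]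
    show ((algebraMap (kA A) (modularFunctionFieldFullC (kA A) M') c : _) : LaurentSeries (kA A))
      * ((u : LaurentSeries (kA A))) ^ p = _
    rw [show ((algebraMap (kA A) (modularFunctionFieldFullC (kA A) M') c : _) :
      LaurentSeries (kA A)) = HahnSeries.C c from Fermat.Agent.S18.H602.algebraMap_eq_C c]
  obtain ⟨z, hpz, hzy⟩ := hSurj p q M' hp hq hq2 hqp hqM hgood A hA _ hpy
  have hz0 : z ≠ 0 := by
    rintro rfl
    rw [map_zero] at hzy
    exact hy0 hzy.symm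
  obtain ⟨f, hfK⟩ := exists_isKummerGen (N := M') p z hpz
  obtain ⟨r, hr⟩ := (Fermat.Agent.Ribet.H997.redExists q M' hq A hA f hfK.1).1
  have hr0 : r ≠ 0 := (isRedInf_ne_zero M' A hr).2
  obtain ⟨g, E, hgr, hE, hord⟩ := hKR q M' p hq hqM A hA hRI z f r hfK hr
  have hg0 : g ≠ 0 := fun e => hr0 (by rw [← hgr, e]; rfl)
  obtain ⟨c, u, hc, hu, hgeq⟩ :=
    exists_const_mul_pow hconst hg0 h0 hord hEh (hE.trans hzy)
  have hcst : ∀ d : kA A, ((algebraMap (kA A) (modularFunctionFieldFullC (kA A) M') d : _) :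
      LaurentSeries (kA A)) = HahnSeries.C d := fun d =>
    Fermat.Agent.S18.H602.algebraMap_eq_C d
  have hrser : r = HahnSeries.C c * (h : LaurentSeries (kA A)) *
      (u : LaurentSeries (kA A)) ^ p := by
    rw [← hgr, hgeq]
    show ((algebraMap (kA A) (modularFunctionFieldFullC (kA A) M') c : _) :
      LaurentSeries (kA A)) * (h : LaurentSeries (kA A)) * (u : LaurentSeries (kA A)) ^ p = _
    rw [hcst]
  refine ⟨z, f, r, c, u, hz0, hpz, hfK, hr, hc, hu, hrser, ?_⟩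
  -- the eigen-relation, by injectivity of the reduction on `p`-torsion
  intro ℓ hℓS'
  have hℓS : (ℓ : ℕ) ∉ S := fun e => hℓS' (Finset.mem_union_left _ e)
  have hqMp0 : q * M' * p ≠ 0 :=
    Nat.mul_ne_zero (Nat.mul_ne_zero hq.ne_zero (NeZero.ne M')) hp.ne_zero
  have hℓN : ¬ (ℓ : ℕ) ∣ q * M' * p := fun hd =>
    hℓS' (Finset.mem_union_right _ (Nat.mem_primeFactors.mpr ⟨ℓ.2, hd, hqMp0⟩))
  have hℓM : ¬ (ℓ : ℕ) ∣ M' := fun hd =>
    hℓN (Dvd.dvd.mul_right (Dvd.dvd.mul_left hd q) p)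
  have hℓq : (ℓ : ℕ) ≠ q := fun e =>
    hℓN (Dvd.dvd.mul_right (Dvd.dvd.mul_right (e ▸ dvd_refl _) M') p)
  haveI : NeZero (ℓ : ℕ) := ⟨ℓ.2.ne_zero⟩
  obtain ⟨cℓ, G, hcℓ, hG, hKE⟩ := heig ℓ ℓ.2 hℓS
  obtain ⟨v, hv⟩ := hKF q M' hq hqM A hA ℓ ℓ.2 hℓM hℓq u
  have hpw : p • (heckeOperatorBar M' ℓ z - a ℓ • z) = 0 := by
    have e1 : p • (heckeOperatorBar M' ℓ z) = 0 := by
      rw [← map_nsmul, hpz, map_zero]
    have e2 : p • (a ℓ • z) = 0 := by
      rw [smul_comm, hpz, smul_zero]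
    rw [nsmul_sub, e1, e2, sub_zero]
  -- a Kummer generator of `w = T_ℓ z - a_ℓ z` and its reduction
  have hK1 : IsKummerGen M' p (Fermat.Agent.S29.H395.heckeNorm M' ℓ f)
      (heckeOperatorBar M' ℓ z) :=
    Fermat.Agent.Ribet.H398.isKummerGen_heckeNorm M' ℓ p f z hfK
  have hKw : IsKummerGen M' p
      (Fermat.Agent.S29.H395.heckeNorm M' ℓ f * (f ^ (a ℓ))⁻¹)
      (heckeOperatorBar M' ℓ z - a ℓ • z) := by
    rw [sub_eq_add_neg]
    exact isKummerGen_mul M' p hK1 (isKummerGen_inv M' p (isKummerGen_zpow' M' p hfK (a ℓ)))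
  have hR1 : IsRedInf M' A (Fermat.Agent.S29.H395.heckeNorm M' ℓ f) (kronNorm ℓ r) :=
    Fermat.Agent.Ribet.H376.isRedInf_heckeNorm' M' ℓ ℓ.2 hℓM A hr
  have hRw : IsRedInf M' A (Fermat.Agent.S29.H395.heckeNorm M' ℓ f * (f ^ (a ℓ))⁻¹)
      (kronNorm ℓ r * (r ^ (a ℓ))⁻¹) :=
    isRedInf_mul M' A hR1 (isRedInf_inv M' A (isRedInf_zpow M' A hr (a ℓ)))
  obtain ⟨gw, Ew, hgw, hEw, hordw⟩ := hKR q M' p hq hqM A hA hRI _ _ _ hKw hRw
  -- the reduction is a constant times a `p`-th power in `F_k`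
  have hh0 : (h : LaurentSeries (kA A)) ≠ 0 := fun e => h0 (Subtype.ext e)
  have hu0 : (u : LaurentSeries (kA A)) ≠ 0 := fun e => hu (Subtype.ext e)
  have hua0 : u ^ (a ℓ) ≠ 0 := zpow_ne_zero _ hu
  have hcalc : gw = algebraMap (kA A) (modularFunctionFieldFullC (kA A) M')
      (c ^ ((ℓ : ℕ) + 1) * cℓ * (c ^ (a ℓ))⁻¹) * (G * v * (u ^ (a ℓ))⁻¹) ^ p := by
    apply Subtype.ext
    rw [hgw]
    show kronNorm ℓ r * (r ^ (a ℓ))⁻¹ =
      ((algebraMap (kA A) (modularFunctionFieldFullC (kA A) M')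
        (c ^ ((ℓ : ℕ) + 1) * cℓ * (c ^ (a ℓ))⁻¹) : _) : LaurentSeries (kA A)) *
      ((G : LaurentSeries (kA A)) * (v : LaurentSeries (kA A)) *
        ((u : LaurentSeries (kA A)) ^ (a ℓ))⁻¹) ^ p
    rw [hcst, hv, hrser, kronNorm_mul, kronNorm_mul, kronNorm_pow,
      Fermat.Agent.Ribet.H376.kronNorm_C, hKE]
    have hCc : (HahnSeries.C c : LaurentSeries (kA A)) ≠ 0 :=
      (map_ne_zero (HahnSeries.C : kA A →+* LaurentSeries (kA A))).mpr hc
    have e1 : (HahnSeries.C c * (h : LaurentSeries (kA A)) *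
        (u : LaurentSeries (kA A)) ^ p) ^ (a ℓ) =
        HahnSeries.C (c ^ (a ℓ)) * (h : LaurentSeries (kA A)) ^ (a ℓ) *
          ((u : LaurentSeries (kA A)) ^ (a ℓ)) ^ p := by
      rw [mul_zpow, mul_zpow, ← map_zpow₀ (HahnSeries.C : kA A →+* LaurentSeries (kA A)),
        ← zpow_natCast ((u : LaurentSeries (kA A))) p, ← zpow_mul,
        ← zpow_natCast ((u : LaurentSeries (kA A)) ^ (a ℓ)) p, ← zpow_mul, mul_comm (p : ℤ)]
    rw [e1]
    have hha0 : (h : LaurentSeries (kA A)) ^ (a ℓ) ≠ 0 := zpow_ne_zero _ hh0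
    have hua0' : (u : LaurentSeries (kA A)) ^ (a ℓ) ≠ 0 := zpow_ne_zero _ hu0
    have hca0 : (HahnSeries.C (c ^ (a ℓ)) : LaurentSeries (kA A)) ≠ 0 :=
      (map_ne_zero (HahnSeries.C : kA A →+* LaurentSeries (kA A))).mpr (zpow_ne_zero (a ℓ) hc)
    have hcl0 : (HahnSeries.C (c ^ ((ℓ : ℕ) + 1)) : LaurentSeries (kA A)) ≠ 0 :=
      (map_ne_zero (HahnSeries.C : kA A →+* LaurentSeries (kA A))).mpr (pow_ne_zero _ hc)
    have huap0 : ((u : LaurentSeries (kA A)) ^ (a ℓ)) ^ p ≠ 0 := pow_ne_zero _ hua0'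
    rw [map_mul, map_mul, map_inv₀, mul_pow, mul_pow, inv_pow]
    generalize (HahnSeries.C (c ^ ((ℓ : ℕ) + 1)) : LaurentSeries (kA A)) = X1 at hcl0 ⊢
    generalize (HahnSeries.C (c ^ (a ℓ)) : LaurentSeries (kA A)) = X2 at hca0 ⊢
    generalize (HahnSeries.C cℓ : LaurentSeries (kA A)) = X3
    generalize ((u : LaurentSeries (kA A)) ^ (a ℓ)) ^ p = X4 at huap0 ⊢
    generalize (h : LaurentSeries (kA A)) ^ (a ℓ) = X5 at hha0 ⊢
    generalize (G : LaurentSeries (kA A)) ^ p = X6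
    generalize (kronNorm (ℓ : ℕ) (u : LaurentSeries (kA A))) ^ p = X7
    field_simp
  have hgw_cst : c ^ ((ℓ : ℕ) + 1) * cℓ * (c ^ (a ℓ))⁻¹ ≠ 0 :=
    mul_ne_zero (mul_ne_zero (pow_ne_zero _ hc) hcℓ) (inv_ne_zero (zpow_ne_zero _ hc))
  have hv0 : v ≠ 0 := by
    intro e
    have h1 : kronNorm ℓ (u : LaurentSeries (kA A)) = 0 := by rw [← hv, e]; rfl
    exact Fermat.Agent.Ribet.H376.kronNorm_ne_zero_of_field ℓ.2 hu0 h1
  have hzero : (Pic0.mk Ew : JZeroC (kA A) M') = 0 :=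
    mk_eq_zero_of_const_mul_pow (K := kA A) hp.ne_zero
      (mul_ne_zero (mul_ne_zero hG hv0) (inv_ne_zero hua0)) hcalc hordw hgw_cst
  have hred0 : reductionModL A M' (heckeOperatorBar M' ℓ z - a ℓ • z) = 0 := by
    rw [← hEw, hzero]
  have hqp' : ¬ q ∣ p := fun hd => hqp ((Nat.prime_dvd_prime_iff_eq hq hp).mp hd)
  have hw := Fermat.Agent.S18.result M' hqM A hA hRI p hqp' _ hpw hred0
  exact sub_eq_zero.mp hw

/-- **EIGEN-LIFT at good levels** from GR-SURJ, KUM-RED and KRON-FIELD. -/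
theorem eigenLiftGood_of (hSurj : GRSurjStatement) (hKR : KumRedStatement)
    (hKF : KronFieldStatement) : EigenLiftGoodStatement := by
  intro p q M' _ hp _ hq hq2 hqp hqM hgood A hA S a h hh
  obtain ⟨z, f, r, c, u, hz0, hpz, -, -, -, -, -, heig⟩ :=
    eigenLiftGood_strong hSurj hKR hKF p q M' hp hq hq2 hqp hqM hgood A hA S a h hh
  exact ⟨S ∪ (q * M' * p).primeFactors, Finset.subset_union_left, z, hz0, hpz, heig⟩

end Fermat.Agent.Ribet.H523.Q3

end

end
-- ===== PACK-END Ribet/H523/Q3Lift.lean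

-- ===== PACK-BEGIN Ribet/H708/KronField.lean
section





/-!
# Row 37, WALL-q, leaf KRON-FIELD of `Ribet/H523/Q3Spec.lean`   (helper708, subtask 735)

`kronField : H523.Q3.KronFieldStatement` — for `A` over the prime `q ∤ M`, `k = kA A`, and a prime
`ℓ ∤ M`, the formal Kronecker norm `kronNorm ℓ` preserves `F_k = modularFunctionFieldFullC k M`.

Proof by lifting (no correspondence in characteristic `q` is needed):

* `exists_lift_of_mem_adjoin` : every element of `Algebra.adjoin k {j̄(t^d) : d ∣ M}` is the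
  reduction `red A U` of an `A`-integral series `U` with `incl A U ∈ ℚ̄(X₀(M))`;
* `kronNorm_red_mem` : for such `U` with `red A U ≠ 0`, `kronNorm ℓ (incl A U) = incl A (kronNorm ℓ U)`
  is a function of level `M` (`H398.heckeFun`), and `kronNorm ℓ (red A U) = red A (kronNorm ℓ U)`
  is a reduction of it (`coeffMap_kronNorm`), hence lies in `F_k` (`H997.isRedSer_mem_of_good`);
* `kronNorm_mem_fullC` : a general `u ∈ F_k` is a quotient `r / s` of elements of the subalgebra;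
  `kronNorm` is multiplicative and `kronNorm ℓ s ≠ 0`.

The hypothesis `ℓ ≠ q` of the statement is not used.
-/

set_option autoImplicit false
set_option linter.unusedSectionVars false
set_option linter.unusedVariables false
set_option linter.style.haveILetI false
set_option synthInstance.maxHeartbeats 400000
set_option maxHeartbeats 1600000

noncomputable section

namespace Fermat.Agent.Ribet.H708

open AlgebraicCurve ModularCurve HahnSeries
open Fermat.Agent.S24 Fermat.Agent.A2.H708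
open Fermat.Agent.Ribet.H884
open Fermat.Agent.S37.H400

/-! ## Generalities on `kronNorm` -/

theorem kronNorm_zero_h708 {R : Type*} [CommRing R] (ℓ : ℕ) [NeZero ℓ] :
    kronNorm ℓ (0 : LaurentSeries R) = 0 := by
  show qExpand R ℓ (0 : LaurentSeries R) * _ = 0
  rw [map_zero, zero_mul]

/-- Over a field the Kronecker norm of a nonzero series is nonzero. -/
theorem kronNorm_ne_zero_h708 {k : Type*} [Field k] (ℓ : ℕ) [NeZero ℓ] {f : LaurentSeries k}
    (hf : f ≠ 0) : kronNorm ℓ f ≠ 0 := by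
  intro h0
  have h1 : kronNorm ℓ (f * f⁻¹) = 1 := by rw [mul_inv_cancel₀ hf, kronNorm_one]
  rw [kronNorm_mul, h0, zero_mul] at h1
  exact zero_ne_one h1

/-- `kronNorm` of a quotient. -/
theorem kronNorm_div_h708 {k : Type*} [Field k] (ℓ : ℕ) [NeZero ℓ] (r s : LaurentSeries k)
    (hs : s ≠ 0) : kronNorm ℓ (r / s) = kronNorm ℓ r / kronNorm ℓ s := by
  rw [eq_div_iff (kronNorm_ne_zero_h708 ℓ hs), ← kronNorm_mul, div_mul_cancel₀ r hs]

/-! ## Lifting the subalgebra generated by the `j̄(t^d)` -/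

section Lift

variable (A : ValuationSubring Kbar) (M : ℕ) [NeZero M]

/-- Every element of the `k`-subalgebra generated by the `j̄(t^d)`, `d ∣ M`, is the reduction of
an `A`-integral series which is a function of level `M`. -/
theorem exists_lift_of_mem_adjoin {r : LaurentSeries (kA A)}
    (hr : r ∈ Algebra.adjoin (kA A) (divisorExpansionsC (kA A) M)) :
    ∃ U : LaurentSeries A, red A U = r ∧ incl A U ∈ modularFunctionFieldBar M := by
  induction hr using Algebra.adjoin_induction with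
  | mem x hx =>
    obtain ⟨d, hd0, hd, rfl⟩ := hx
    haveI : NeZero d := hd0
    refine ⟨castA A (jInt d), ?_, ?_⟩
    · show coeffMap (IsLocalRing.residue A) (coeffMap (Int.castRingHom A) (jqNModC ℤ d)) = _
      rw [coeffMap_jqNModC, coeffMap_jqNModC]
      rfl
    · rw [incl_castA, castQ_jInt]
      exact coeffEmb_mem_laurentBaseChange Kbar (jqd_mem_full M hd)
  | algebraMap c =>
    obtain ⟨a, rfl⟩ := IsLocalRing.residue_surjective c
    refine ⟨cstA A a, ?_, ?_⟩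
    · rw [red_cstA, algebraMap_laurentSeries_eq_single]
    · rw [incl_cstA]
      exact (modularFunctionFieldBar M).algebraMap_mem _
  | add x y _ _ hx hy =>
    obtain ⟨U, rfl, hU⟩ := hx
    obtain ⟨V, rfl, hV⟩ := hy
    exact ⟨U + V, map_add _ _ _, by rw [map_add]; exact add_mem hU hV⟩
  | mul x y _ _ hx hy =>
    obtain ⟨U, rfl, hU⟩ := hx
    obtain ⟨V, rfl, hV⟩ := hy
    exact ⟨U * V, map_mul _ _ _, by rw [map_mul]; exact mul_mem hU hV⟩

end Lift

/-! ## The Kronecker norm of a reduction -/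

section Red

variable {A : ValuationSubring Kbar} {M q : ℕ} [NeZero M]

/-- If `U` is `A`-integral, of level `M`, with nonzero reduction, then `kronNorm ℓ (red A U)` lies
in `k(X₀(M))`. -/
theorem kronNorm_red_mem (hq : q.Prime) (hqM : ¬ q ∣ M) (hA : A.LiesOverPrime q)
    (ℓ : ℕ) [NeZero ℓ] (hℓ : ℓ.Prime) (hℓM : ¬ ℓ ∣ M) (U : LaurentSeries A)
    (hU : incl A U ∈ modularFunctionFieldBar M) (hU0 : red A U ≠ 0) :
    kronNorm ℓ (red A U) ∈ modularFunctionFieldFullC (kA A) M := by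
  -- the function-level Hecke operator preserves `ℚ̄(X₀(M))`
  haveI : NeZero (((⟨ℓ, hℓ⟩ : Nat.Primes) : ℕ)) := ‹NeZero ℓ›
  obtain ⟨g, hg, -⟩ := Fermat.Agent.Ribet.H398.heckeFun M ⟨ℓ, hℓ⟩ hℓM ⟨incl A U, hU⟩
  have hg' : (g : LaurentSeries Kbar) = incl A (kronNorm ℓ U) := by
    rw [hg]
    exact (coeffMap_kronNorm A.subtype ℓ U).symm
  have hx : incl A (kronNorm ℓ U) ∈ modularFunctionFieldBar M := by
    rw [← hg']
    exact g.2
  have hred : red A (kronNorm ℓ U) = kronNorm ℓ (red A U) :=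
    coeffMap_kronNorm (IsLocalRing.residue A) ℓ U
  have h1 : red A (kronNorm ℓ U) ≠ 0 := by
    rw [hred]
    exact kronNorm_ne_zero_h708 ℓ hU0
  have hser : Fermat.Agent.Ribet.H997.IsRedSer A (incl A (kronNorm ℓ U))
      (kronNorm ℓ (red A U)) := by
    refine ⟨1, kronNorm ℓ U, 1, one_ne_zero, h1, ?_, ?_, ?_⟩
    · rw [map_one]
      exact one_ne_zero
    · rw [map_one, mul_one, cst_one, one_mul]
    · rw [map_one, mul_one, hred]
  exact Fermat.Agent.Ribet.H997.isRedSer_mem_of_good hq hqM hA hx hser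

/-- **KRON-FIELD**, membership form. -/
theorem kronNorm_mem_fullC (hq : q.Prime) (hqM : ¬ q ∣ M) (hA : A.LiesOverPrime q)
    (ℓ : ℕ) [NeZero ℓ] (hℓ : ℓ.Prime) (hℓM : ¬ ℓ ∣ M) {u : LaurentSeries (kA A)}
    (hu : u ∈ modularFunctionFieldFullC (kA A) M) :
    kronNorm ℓ u ∈ modularFunctionFieldFullC (kA A) M := by
  obtain ⟨r, hr, s, hs, rfl⟩ := IntermediateField.mem_adjoin_iff_div.mp hu
  by_cases hs0 : s = 0
  · rw [hs0, div_zero, kronNorm_zero_h708]
    exact zero_mem _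
  by_cases hr0 : r = 0
  · rw [hr0, zero_div, kronNorm_zero_h708]
    exact zero_mem _
  obtain ⟨U, hU, hUm⟩ := exists_lift_of_mem_adjoin A M hr
  obtain ⟨V, hV, hVm⟩ := exists_lift_of_mem_adjoin A M hs
  rw [kronNorm_div_h708 ℓ r s hs0]
  refine div_mem ?_ ?_
  · rw [← hU]
    exact kronNorm_red_mem hq hqM hA ℓ hℓ hℓM U hUm (by rw [hU]; exact hr0)
  · rw [← hV]
    exact kronNorm_red_mem hq hqM hA ℓ hℓ hℓM V hVm (by rw [hV]; exact hs0)

end Red

/-- **KRON-FIELD** (`H523.Q3.KronFieldStatement`, verbatim). -/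
theorem kronField : Fermat.Agent.Ribet.H523.Q3.KronFieldStatement := by
  intro q M _ hq hqM A hA ℓ _ hℓ hℓM _ u
  exact ⟨⟨kronNorm ℓ (u : LaurentSeries (kA A)),
    kronNorm_mem_fullC hq hqM hA ℓ hℓ hℓM u.2⟩, rfl⟩

end Fermat.Agent.Ribet.H708

end

end
-- ===== PACK-END Ribet/H708/KronField.lean

-- ===== PACK-BEGIN Ribet/H523/Q3Final.lean
section






/-!
# Row 37, WALL-q, (Q3) RED at good levels from GR-SURJ alone  (helper523)

    q3Good_of_grSurj : GRSurjStatement → H158.WallQ.Q3GoodStatement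

Assembly of

* RED-CLASS `redEigenQ` (`Q3Red.lean`),
* EIGEN-LIFT at good levels `eigenLiftGood_of` (`Q3Lift.lean`), with the leaves
  KUM-RED (`H579.kumRed`, helper579) and KRON-FIELD (`H708.kronField`, helper708) plugged in.

The last leaf GR-SURJ (`H937.grSurjStatement`, heavy closure: S27 torsion count) is plugged in
in `Q3Closed.lean`.
-/

set_option autoImplicit false
set_option linter.style.haveILetI false
set_option linter.unusedSectionVars false
set_option synthInstance.maxHeartbeats 400000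
set_option maxHeartbeats 1000000

noncomputable section

namespace Fermat.Agent.Ribet.H523.Q3

open AlgebraicCurve ModularCurve HahnSeries
open Fermat.Agent.S24 Fermat.Agent.A2.H708 Fermat.Agent.A2.H528
open Fermat.Agent.Ribet.Spec Fermat.Agent.Ribet.H944.Wall Fermat.Agent.Ribet.H884
open Fermat.Agent.Ribet.H158.WallQ
open Fermat.Agent.S37.H400

/-- **EIGEN-LIFT at good levels** from GR-SURJ alone. -/
theorem eigenLiftGood_of_grSurj (h : GRSurjStatement) : EigenLiftGoodStatement :=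
  eigenLiftGood_of h Fermat.Agent.Ribet.H579.kumRed Fermat.Agent.Ribet.H708.kronField

/-- **EIGEN-LIFT at good levels, strong form**, from GR-SURJ alone. -/
theorem eigenLiftGoodStrong_of_grSurj (hS : GRSurjStatement)
    (p q M' : ℕ) [NeZero M'] (hp : p.Prime) (hq : q.Prime) (hq2 : q ≠ 2) (hqp : q ≠ p)
    (hqM : ¬ q ∣ M') (hgood : 5 ≤ q ∨ 2 ∣ M')
    (A : ValuationSubring Kbar) (hA : A.LiesOverPrime q)
    (S : Finset ℕ) (a : ℕ → ℤ) (h : modularFunctionFieldFullC (kA A) M')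
    (hh : IsRedEigen p M' S a h) :
    ∃ (z : JZero M') (f : FF M') (r : LaurentSeries (kA A)) (c : kA A)
      (u : modularFunctionFieldFullC (kA A) M'),
      z ≠ 0 ∧ p • z = 0 ∧ IsKummerGen M' p f z ∧ IsRedInf M' A f r ∧ c ≠ 0 ∧ u ≠ 0 ∧
      r = HahnSeries.C c * (h : LaurentSeries (kA A)) * (u : LaurentSeries (kA A)) ^ p ∧
      ∀ ℓ : Nat.Primes, (ℓ : ℕ) ∉ S ∪ (q * M' * p).primeFactors →
        heckeOperatorBar M' ℓ z = a ℓ • z :=
  eigenLiftGood_strong hS Fermat.Agent.Ribet.H579.kumRed Fermat.Agent.Ribet.H708.kronField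
    p q M' hp hq hq2 hqp hqM hgood A hA S a h hh

/-- (Q3) at good levels from RED-CLASS and EIGEN-LIFT at good levels. -/
theorem q3Good_of (h1 : RedEigenQStatement) (h2 : EigenLiftGoodStatement) :
    Q3GoodStatement := by
  intro p q M' _ _ _ hH A hA S a x hx hxS hnew heig
  obtain ⟨S', h, hSS', hh⟩ := h1 p q M' hH.p_prime hH.five_le hH.q_prime hH.q_ne_two
    hH.q_ne_p hH.not_dvd A hA S a x hx hxS hnew heig
  obtain ⟨S'', hS'', hocc⟩ := h2 p q M' hH.p_prime hH.five_le hH.q_prime hH.q_ne_two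
    hH.q_ne_p hH.not_dvd (hH.good.imp id And.right) A hA S' a h hh
  exact ⟨S'', hSS'.trans hS'', Or.inl hocc⟩

/-- **(Q3) RED at good levels from GR-SURJ alone.** -/
theorem q3Good_of_grSurj (h : GRSurjStatement) : Q3GoodStatement :=
  q3Good_of redEigenQ (eigenLiftGood_of_grSurj h)

end Fermat.Agent.Ribet.H523.Q3

end

end
-- ===== PACK-END Ribet/H523/Q3Final.lean

-- ===== PACK-BEGIN Ribet/H384/OddVacuous.lean
section




/-!
# WALL-q, leaf ODD-VACUOUS (helper384)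

`oddVacuous : H158.WallQ.OddVacuousStatement` VERBATIM: the Frey torsion does not embed
Galois-equivariantly in `J₀(N)` for ODD `N`.  Indeed `J₀(N)[p]` is unramified at `2` when
`2 ∤ N p` (`S37.Core.rawES`), while `E[p]` is ramified at `2` (`freyRamifiedAtTwo`).
-/

set_option autoImplicit false
set_option linter.style.haveILetI false

namespace Fermat.Agent.Ribet.H384

open Fermat.Agent.Ribet Fermat.Agent.Ribet.Spec

/-- **ODD-VACUOUS.** -/
theorem oddVacuous : Fermat.Agent.Ribet.H158.WallQ.OddVacuousStatement := by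
  intro P N _ hN S a hemb
  obtain ⟨ι, hinj, hgal, -⟩ := hemb
  have hdvd : ¬ 2 ∣ N * P.p := by
    intro h
    rcases (Nat.Prime.dvd_mul Nat.prime_two).mp h with h' | h'
    · exact hN h'
    · have := (Nat.prime_dvd_prime_iff_eq Nat.prime_two P.pp).mp h'
      have := P.hp5
      omega
  have key : ∀ A : ValuationSubring (AlgebraicClosure ℚ), A.LiesOverPrime 2 →
      ∀ σ ∈ A.inertiaSubgroupIn ℚ, ∀ x : FreyTorsion P, σ • x = x := by
    intro A hA σ hσ x
    have hraw := (Fermat.Agent.S37.Core.rawES N P.p 2 Nat.prime_two hdvd A hA).1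
    have hx : ((P.p : ℕ) : ℤ) • ι x = 0 := by
      rw [natCast_zsmul, ← map_nsmul, freyTorsion_nsmul, map_zero]
    exact hinj ((hgal σ x).trans (hraw σ hσ (ι x) hx))
  exact freyRamifiedAtTwo P (fun A hA σ hσ x => key A hA σ hσ x)

end Fermat.Agent.Ribet.H384

end
-- ===== PACK-END Ribet/H384/OddVacuous.lean

-- ===== PACK-BEGIN Ribet/H644/CuspPoint.lean
section


/-!
# RIBET, leaf CUSP (purity at the cusps) — the cusps on the chart at infinity  (helper644)

Level `M q`, good level `E`, `B = chartAlg (x⁻¹)`, `x = j j_q`, `V = V∞`, `Q` a place of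
`F_k = k(X₀(M))` with `ord_Q j < 0` (a cusp of the component `C∞`).

* `redE_inv`, `redE_jE_one`, `redE_jE_q`, `redE_xinv`     : values of the reduction;
* `redE_mem_of_mem_chart`  : `ρ(B) ⊆ O_Q`   (integrality);
* `cuspIdeal`              : `n = {b ∈ B | ρ b ∈ m_Q}`, prime, `p₁ ≤ n`, `w ∈ n`;
* `eprime_mem_chart`       : `e' = j / j_q ^ q ∈ B`   (Newton polygon of `Φ_q`);
* `not_le_cuspIdeal`       : **no node at infinity**, `¬ p₂ ≤ n`;
* `dvd_ord_of_pureAt`      : `PureAt B c m u n`, `u` a unit of `V∞`  ⟹  `m ∣ ord_Q (ρ u)`.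
-/

set_option autoImplicit false
set_option linter.unusedSectionVars false
set_option linter.unusedVariables false
set_option linter.style.haveILetI false
set_option synthInstance.maxHeartbeats 400000
set_option maxHeartbeats 1600000

noncomputable section

namespace Fermat.Agent.Ribet.H644

open AlgebraicCurve ModularCurve HahnSeries
open Fermat.Agent.S24 Fermat.Agent.A2.H708 Fermat.Agent.Ribet.H884 Fermat.Agent.Ribet.H997
open Fermat.Agent.A2 Fermat.Agent.A2.Alg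
open Fermat.Agent.S35.G (CutBy)

/-! ## The closed point of the chart attached to a cusp -/

section CuspPoint

variable {M q : ℕ} [NeZero M] [NeZero q] {A : ValuationSubring Kbar}
  {E : IntermediateField ℚ Kbar} {w : ↥(Mod.RE A E)}
  (Q : Place (kA A) ↥(modularFunctionFieldFullC (kA A) M))
  (hS : Mod.Setting A E M q w)
  {V : ValuationSubring ↥(Mod.FE E (M * q))} (hV : Mod.IsVinf A E (M * q) V)
  (hQ : Q.ord (jC (kA A) M) < 0)
  (hle : ∀ b ∈ chartInf A E M q, b ∈ V)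

/-- the inclusion of the chart at infinity into `V∞`. -/
def chartToV : ↥(chartInf A E M q) →+* ↥V :=
  ((chartInf A E M q).val.toRingHom).codRestrict V (fun b => hle b b.2)

/-- the reduction of the chart at infinity at the cusp `Q`. -/
def chartRedQ : ↥(chartInf A E M q) →+* ↥Q.toValuationSubring :=
  ((redE E hS.q_prime hS.q_not_dvd hS.lies_over hV).comp (chartToV hle)).codRestrict
    Q.toValuationSubring (fun b => redE_mem_of_mem_chart Q hS hV hQ b b.2 (hle b b.2))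

/-- **The closed point of the chart at infinity attached to the cusp `Q`.** -/
def cuspIdeal : Ideal ↥(chartInf A E M q) :=
  Ideal.comap (chartRedQ Q hS hV hQ hle) (IsLocalRing.maximalIdeal ↥Q.toValuationSubring)

theorem cuspIdeal_isPrime : (cuspIdeal Q hS hV hQ hle).IsPrime :=
  Ideal.comap_isPrime _ _

theorem mem_cuspIdeal_iff (b : ↥(chartInf A E M q)) :
    b ∈ cuspIdeal Q hS hV hQ hle ↔
      Fermat.Agent.S37.H940.InMax Q
        (redE E hS.q_prime hS.q_not_dvd hS.lies_over hV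
          ⟨(b : ↥(Mod.FE E (M * q))), hle b b.2⟩ : ↥(modularFunctionFieldFullC (kA A) M)) := by
  rw [Fermat.Agent.S37.H940.inMax_iff_exists_mem_maximalIdeal]
  constructor
  · intro h
    exact ⟨redE_mem_of_mem_chart Q hS hV hQ b b.2 _, h⟩
  · rintro ⟨h1, h2⟩
    exact h2

/-- off the closed point, the reduction has order `0`. -/
theorem ord_eq_zero_of_not_mem (b : ↥(chartInf A E M q)) (hb : b ∉ cuspIdeal Q hS hV hQ hle) :
    redE E hS.q_prime hS.q_not_dvd hS.lies_over hV ⟨(b : ↥(Mod.FE E (M * q))), hle b b.2⟩ ≠ 0 ∧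
    Q.ord (redE E hS.q_prime hS.q_not_dvd hS.lies_over hV
      ⟨(b : ↥(Mod.FE E (M * q))), hle b b.2⟩ : ↥(modularFunctionFieldFullC (kA A) M)) = 0 := by
  rw [mem_cuspIdeal_iff] at hb
  have hne : redE E hS.q_prime hS.q_not_dvd hS.lies_over hV
      ⟨(b : ↥(Mod.FE E (M * q))), hle b b.2⟩ ≠ 0 := fun h0 => hb (Or.inl h0)
  refine ⟨hne, ?_⟩
  have h1 : ¬ 0 < Q.ord (redE E hS.q_prime hS.q_not_dvd hS.lies_over hV
      ⟨(b : ↥(Mod.FE E (M * q))), hle b b.2⟩ : ↥(modularFunctionFieldFullC (kA A) M)) :=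
    fun h => hb (Or.inr h)
  have h2 := Fermat.Agent.S24.FF.ord_nonneg_of_mem Q
    (redE_mem_of_mem_chart Q hS hV hQ b b.2 (hle b b.2))
  omega

variable {W : ↥(Mod.FE E (M * q)) ≃ₐ[↥E] ↥(Mod.FE E (M * q))}
  (ci : SSChart w (chartInf A E M q))

/-- `p₁ = ker ρ`. -/
theorem mem_p₁_iff (hcut₁ : ∀ b : ↥(chartInf A E M q),
      b ∈ ci.p₁ ↔ (b : ↥(Mod.FE E (M * q))) *
        (algebraMap ↥(Mod.RE A E) ↥(Mod.FE E (M * q)) w)⁻¹ ∈ V)
    (b : ↥(chartInf A E M q)) :
    b ∈ ci.p₁ ↔ redE E hS.q_prime hS.q_not_dvd hS.lies_over hV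
      ⟨(b : ↥(Mod.FE E (M * q))), hle b b.2⟩ = 0 := by
  haveI := hS.dvr
  rw [hcut₁ b, redE_eq_zero_iff hS.q_prime hS.q_not_dvd hS.lies_over hV hS.unif]
  rfl

theorem p₁_le_cuspIdeal (hcut₁ : ∀ b : ↥(chartInf A E M q),
      b ∈ ci.p₁ ↔ (b : ↥(Mod.FE E (M * q))) *
        (algebraMap ↥(Mod.RE A E) ↥(Mod.FE E (M * q)) w)⁻¹ ∈ V) :
    ci.p₁ ≤ cuspIdeal Q hS hV hQ hle := by
  intro b hb
  rw [mem_cuspIdeal_iff]
  exact Or.inl ((mem_p₁_iff hS hV hle ci hcut₁ b).mp hb)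

theorem w_mem_cuspIdeal (hcut₁ : ∀ b : ↥(chartInf A E M q),
      b ∈ ci.p₁ ↔ (b : ↥(Mod.FE E (M * q))) *
        (algebraMap ↥(Mod.RE A E) ↥(Mod.FE E (M * q)) w)⁻¹ ∈ V) :
    algebraMap ↥(Mod.RE A E) ↥(chartInf A E M q) w ∈ cuspIdeal Q hS hV hQ hle := by
  apply p₁_le_cuspIdeal Q hS hV hQ hle ci hcut₁
  have h : algebraMap ↥(Mod.RE A E) ↥(chartInf A E M q) w ∈ ci.p₁ ⊓ ci.p₂ := by
    rw [ci.inf_eq]
    exact Ideal.mem_span_singleton_self _
  exact h.1

/-! ### No node at infinity -/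

/-- `e' = j / j_q ^ q`: `e' ≡ 1` on `C₀`, `e'` vanishes at the cusps of `C∞`. -/
def ePrime (E : IntermediateField ℚ Kbar) (M q : ℕ) [NeZero M] [NeZero q] :
    ↥(Mod.FE E (M * q)) :=
  Mod.jE E (M * q) 1 (one_dvd _) * ((Mod.jE E (M * q) q (dvd_mul_left q M)) ^ q)⁻¹

theorem exists_shape_jE (E : IntermediateField ℚ Kbar) (M : ℕ) [NeZero M] (hq : q.Prime) :
    ∃ Φ : Polynomial (Polynomial ℤ), Fermat.Agent.S15.H962.IsModularShape q Φ ∧
      Fermat.Agent.S15.H962.eval2 Φ (Mod.jE E (M * q) 1 (one_dvd _))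
        (Mod.jE E (M * q) q (dvd_mul_left q M)) = 0 := by
  obtain ⟨Φ, hΦ, hev⟩ := Fermat.Agent.S15.H386.exists_isModularShape q hq
  refine ⟨Φ, hΦ, ?_⟩
  have h := (hev ↥E 1).1
  rw [← Fermat.Agent.S15.H386.eval2_eq_zero_iff_map
    (algebraMap ↥(Mod.FE E (M * q)) (LaurentSeries ↥E)) Φ]
  have e1 : algebraMap ↥(Mod.FE E (M * q)) (LaurentSeries ↥E)
      (Mod.jE E (M * q) 1 (one_dvd _)) = qExpand ↥E 1 (jqModC ↥E) :=
    Mod.H873.coe_jE (E := E) (M * q) 1 (one_dvd _)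
  have e2 : algebraMap ↥(Mod.FE E (M * q)) (LaurentSeries ↥E)
      (Mod.jE E (M * q) q (dvd_mul_left q M)) = qExpand ↥E (1 * q) (jqModC ↥E) := by
    rw [qExpand_congr (one_mul q)]
    exact Mod.H873.coe_jE (E := E) (M * q) q (dvd_mul_left q M)
  rw [e1, e2]
  exact h

/-- **`e' ∈ B`** (Newton polygon of the modular equation). -/
theorem ePrime_mem_chart (A : ValuationSubring Kbar) (E : IntermediateField ℚ Kbar) (M : ℕ)
    [NeZero M] (hq : q.Prime) : ePrime E M q ∈ chartInf A E M q := by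
  obtain ⟨Φ, hΦ, h⟩ := exists_shape_jE E M hq
  show IsIntegral
    ↥(Algebra.adjoin ↥(Mod.RE A E) ({(Mod.xE E M q)⁻¹} : Set ↥(Mod.FE E (M * q))))
    (ePrime E M q)
  refine isIntegral_of_forall_valuationSubring _ fun V' hV' => ?_
  have hx : (Mod.xE E M q)⁻¹ ∈ V' :=
    hV' ⟨(Mod.xE E M q)⁻¹, Algebra.subset_adjoin (Set.mem_singleton _)⟩
  exact div_pow_mem_of_isModularShape hq.pos hΦ
    (Mod.H873.jE_ne_zero (E := E) (M * q) 1 (one_dvd _))
    (Mod.H873.jE_ne_zero (E := E) (M * q) q (dvd_mul_left q M)) h V' hx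

/-- `ρ(e') = j̄ / j̄ ^ (q²)` -/
theorem redE_ePrime (he : ePrime E M q ∈ V) :
    redE E hS.q_prime hS.q_not_dvd hS.lies_over hV ⟨ePrime E M q, he⟩ =
      jC (kA A) M * ((jC (kA A) M ^ q) ^ q)⁻¹ := by
  have h1 := jE_unit hS hV 1 (one_dvd _)
  have h2 := jE_unit hS hV q (dvd_mul_left q M)
  have hpow : (Mod.jE E (M * q) q (dvd_mul_left q M)) ^ q ∈ V := pow_mem h2.1 q
  have hpowinv : ((Mod.jE E (M * q) q (dvd_mul_left q M)) ^ q)⁻¹ ∈ V := by
    rw [← inv_pow]
    exact pow_mem h2.2 q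
  have hne : (Mod.jE E (M * q) q (dvd_mul_left q M)) ^ q ≠ 0 :=
    pow_ne_zero _ (Mod.H873.jE_ne_zero (E := E) (M * q) q (dvd_mul_left q M))
  have heq : (⟨ePrime E M q, he⟩ : ↥V) = ⟨Mod.jE E (M * q) 1 (one_dvd _), h1.1⟩ *
      ⟨((Mod.jE E (M * q) q (dvd_mul_left q M)) ^ q)⁻¹, hpowinv⟩ := rfl
  have hpw : (⟨(Mod.jE E (M * q) q (dvd_mul_left q M)) ^ q, hpow⟩ : ↥V) =
      ⟨Mod.jE E (M * q) q (dvd_mul_left q M), h2.1⟩ ^ q := rfl
  rw [heq, map_mul, redE_jE_one,
    redE_inv hS.q_prime hS.q_not_dvd hS.lies_over hV _ hpow hpowinv hne, hpw, map_pow,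
    redE_jE_q]

/-- **No node at infinity**: the closed point of a cusp of `C∞` does not lie on `C₀`. -/
theorem not_p₂_le_cuspIdeal (hW : Mod.IsFricke E (M * q) W)
    (hcut : CutBy w (chartInf A E M q) ci V
      (V.comap (W : ↥(Mod.FE E (M * q)) →+* ↥(Mod.FE E (M * q))))) :
    ¬ ci.p₂ ≤ cuspIdeal Q hS hV hQ hcut.le₁ := by
  intro hle₂
  have hq := hS.q_prime
  have he : ePrime E M q ∈ chartInf A E M q := ePrime_mem_chart A E M hq
  have h1 := jE_unit hS hV 1 (one_dvd _)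
  have h2 := jE_unit hS hV q (dvd_mul_left q M)
  have hj0 := jC_ne_zero Q hQ
  -- `e' ∈ n`
  have hen : (⟨ePrime E M q, he⟩ : ↥(chartInf A E M q)) ∈ cuspIdeal Q hS hV hQ hcut.le₁ := by
    rw [mem_cuspIdeal_iff]
    refine Or.inr ?_
    show 0 < Q.ord (redE E hS.q_prime hS.q_not_dvd hS.lies_over hV
      ⟨ePrime E M q, hcut.le₁ _ he⟩ : ↥(modularFunctionFieldFullC (kA A) M))
    rw [redE_ePrime hS hV, Place.ord_mul Q hj0
      (inv_ne_zero (pow_ne_zero _ (pow_ne_zero _ hj0))), Place.ord_inv,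
      Fermat.Agent.A2.H129.ord_pow, Fermat.Agent.A2.H129.ord_pow]
    have hq2 : (2 : ℤ) ≤ (q : ℤ) := by exact_mod_cast hq.two_le
    nlinarith [mul_nonneg (by linarith : (0 : ℤ) ≤ (q : ℤ) - 2) (by linarith : (0 : ℤ) ≤ (q : ℤ))]
  -- `1 - e' ∈ p₂`
  have h1e : (1 - ⟨ePrime E M q, he⟩ : ↥(chartInf A E M q)) ∈ ci.p₂ := by
    rw [hcut.cut₂, ValuationSubring.mem_comap]
    show W ((1 - ePrime E M q) * (Mod.cE A E (M * q) w)⁻¹) ∈ V
    have hWc : W (Mod.cE A E (M * q) w) = Mod.cE A E (M * q) w := W.commutes _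
    have hW1 : W (Mod.jE E (M * q) 1 (one_dvd _)) = Mod.jE E (M * q) (M * q) (dvd_refl _) :=
      hW.1 1 (M * q) (one_dvd _) (dvd_refl _) (one_mul _)
    have hWq : W (Mod.jE E (M * q) q (dvd_mul_left q M)) =
        Mod.jE E (M * q) M (dvd_mul_right M q) :=
      hW.1 q M (dvd_mul_left q M) (dvd_mul_right M q) (mul_comm q M)
    have hK : Mod.InW A E (M * q) V w
        (Mod.jE E (M * q) (M * q) (dvd_refl _) - (Mod.jE E (M * q) M (dvd_mul_right M q)) ^ q) :=
      Mod.H372.inW_jE_sub_pow w hS hV M (dvd_refl M)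
    have hJ := jE_unit hS hV M (dvd_mul_right M q)
    have hJ0 : Mod.jE E (M * q) M (dvd_mul_right M q) ≠ 0 :=
      Mod.H873.jE_ne_zero (E := E) (M * q) M (dvd_mul_right M q)
    have hw0 : Mod.cE A E (M * q) w ≠ 0 := Mod.H372.cE_ne_zero w hS (M * q)
    have hpinv : ((Mod.jE E (M * q) M (dvd_mul_right M q)) ^ q)⁻¹ ∈ V := by
      rw [← inv_pow]
      exact pow_mem hJ.2 q
    rw [map_mul, map_inv₀, hWc, map_sub, map_one]
    unfold ePrime
    rw [map_mul, map_inv₀, map_pow, hW1, hWq]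
    have e : (1 - Mod.jE E (M * q) (M * q) (dvd_refl _) *
        ((Mod.jE E (M * q) M (dvd_mul_right M q)) ^ q)⁻¹) * (Mod.cE A E (M * q) w)⁻¹ =
        -((Mod.jE E (M * q) (M * q) (dvd_refl _) -
          (Mod.jE E (M * q) M (dvd_mul_right M q)) ^ q) * (Mod.cE A E (M * q) w)⁻¹) *
          ((Mod.jE E (M * q) M (dvd_mul_right M q)) ^ q)⁻¹ := by
      have hJq : (Mod.jE E (M * q) M (dvd_mul_right M q)) ^ q ≠ 0 := pow_ne_zero _ hJ0
      field_simp
      ring
    rw [e]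
    exact V.mul_mem _ _ (V.neg_mem _ hK) hpinv
  have h3 := hle₂ h1e
  have h4 : (1 : ↥(chartInf A E M q)) ∈ cuspIdeal Q hS hV hQ hcut.le₁ := by
    have := Ideal.add_mem _ h3 hen
    rwa [sub_add_cancel] at this
  exact (cuspIdeal_isPrime Q hS hV hQ hcut.le₁).ne_top ((Ideal.eq_top_iff_one _).mpr h4)

/-! ### From the purity datum to the order at the cusp -/

/-- **PURE-FIN**: a purity datum at the closed point of the cusp `Q`, for a unit `u` of `V∞`,
gives `m ∣ ord_Q (ρ u)`. -/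
theorem dvd_ord_of_pureAt (hcut₁ : ∀ b : ↥(chartInf A E M q),
      b ∈ ci.p₁ ↔ (b : ↥(Mod.FE E (M * q))) *
        (algebraMap ↥(Mod.RE A E) ↥(Mod.FE E (M * q)) w)⁻¹ ∈ V)
    (m : ℕ) (u : ↥(Mod.FE E (M * q))) (hu : u ∈ V) (hu' : u⁻¹ ∈ V) (hu0 : u ≠ 0)
    (hpure : PureAt (chartInf A E M q) ci m u (cuspIdeal Q hS hV hQ hle)) :
    (m : ℤ) ∣ Q.ord (redE E hS.q_prime hS.q_not_dvd hS.lies_over hV ⟨u, hu⟩ :
      ↥(modularFunctionFieldFullC (kA A) M)) := by
  obtain ⟨d, hd0, ⟨an, bn, han, hbn, hn⟩, ⟨ad, bd, had, hbd, hd⟩, -⟩ := hpure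
  have key : u * (ad : ↥(Mod.FE E (M * q))) ^ m * (bn : ↥(Mod.FE E (M * q))) =
      (an : ↥(Mod.FE E (M * q))) * (bd : ↥(Mod.FE E (M * q))) ^ m := by
    rw [← hd, ← hn]
    ring
  have keyV : (⟨u, hu⟩ : ↥V) * ⟨(ad : ↥(Mod.FE E (M * q))), hle ad ad.2⟩ ^ m *
      ⟨(bn : ↥(Mod.FE E (M * q))), hle bn bn.2⟩ =
      ⟨(an : ↥(Mod.FE E (M * q))), hle an an.2⟩ *
        ⟨(bd : ↥(Mod.FE E (M * q))), hle bd bd.2⟩ ^ m := Subtype.ext key
  have h := congrArg (redE E hS.q_prime hS.q_not_dvd hS.lies_over hV) keyV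
  rw [map_mul, map_mul, map_pow, map_mul, map_pow] at h
  obtain ⟨han0, hano⟩ := ord_eq_zero_of_not_mem Q hS hV hQ hle an han
  obtain ⟨hbn0, hbno⟩ := ord_eq_zero_of_not_mem Q hS hV hQ hle bn hbn
  have had0 : redE E hS.q_prime hS.q_not_dvd hS.lies_over hV
      ⟨(ad : ↥(Mod.FE E (M * q))), hle ad ad.2⟩ ≠ 0 :=
    fun h0 => had ((mem_p₁_iff hS hV hle ci hcut₁ ad).mpr h0)
  have hbd0 : redE E hS.q_prime hS.q_not_dvd hS.lies_over hV
      ⟨(bd : ↥(Mod.FE E (M * q))), hle bd bd.2⟩ ≠ 0 :=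
    fun h0 => hbd ((mem_p₁_iff hS hV hle ci hcut₁ bd).mpr h0)
  have hρu := redE_ne_zero_of_unit hS.q_prime hS.q_not_dvd hS.lies_over hV u hu hu' hu0
  have h2 := congrArg Q.ord h
  rw [Place.ord_mul Q (mul_ne_zero hρu (pow_ne_zero _ had0)) hbn0,
    Place.ord_mul Q hρu (pow_ne_zero _ had0), Place.ord_mul Q han0 (pow_ne_zero _ hbd0),
    Fermat.Agent.A2.H129.ord_pow, Fermat.Agent.A2.H129.ord_pow, hano, hbno] at h2
  refine ⟨Q.ord (redE E hS.q_prime hS.q_not_dvd hS.lies_over hV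
      ⟨(bd : ↥(Mod.FE E (M * q))), hle bd bd.2⟩ : ↥(modularFunctionFieldFullC (kA A) M)) -
    Q.ord (redE E hS.q_prime hS.q_not_dvd hS.lies_over hV
      ⟨(ad : ↥(Mod.FE E (M * q))), hle ad ad.2⟩ : ↥(modularFunctionFieldFullC (kA A) M)), ?_⟩
  linarith

end CuspPoint

end Fermat.Agent.Ribet.H644

end

end
-- ===== PACK-END Ribet/H644/CuspPoint.lean

-- ===== PACK-BEGIN Ribet/H644/CuspGen.lean
section




/-!
# RIBET, leaf CUSP (purity at the cusps) — the core theorem CUSP-GEN  (helper644)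

Level `M q`, `q ∤ M` (`HasAux M q`), `A ⊆ ℚ̄` a valuation ring over `q`, `k = kA A`.

**`cuspGen`**: let `g ∈ ℚ̄(X₀(M q))ˣ` with `m ∣ div g` (ANY `m > 0`, also `q ∣ m`), `r` a reduction
of `g` on the component `C∞` (`IsRedSer A g r`, i.e. `H884.IsRedInf`), `h ∈ k(X₀(M))` with
`t`-expansion `r`.  Then `m ∣ ord_Q h` at every CUSP `Q` of `X₀(M)_k` (`ord_Q j < 0`).

Proof: the cusps of `C∞` are smooth points of the semistable model (no node at infinity,
`not_p₂_le_cuspIdeal`), purity at smooth points holds without any hypothesis on the residue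
(`pureAt_smooth_of_locUnit`), and `ord_Q ρ(u)` is read off a purity datum (`dvd_ord_of_pureAt`).

* `exists_vinf_dvd_ord` : the statement at a good level `E`;
* `cuspGen`             : the statement over `ℚ̄`;
* `cuspGen_all`         : with the non-cuspidal places as a hypothesis, `m ∣ ord_Q h` everywhere.
-/

set_option autoImplicit false
set_option linter.unusedSectionVars false
set_option linter.unusedVariables false
set_option linter.style.haveILetI false
set_option synthInstance.maxHeartbeats 400000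
set_option maxHeartbeats 1600000

noncomputable section

namespace Fermat.Agent.Ribet.H644

open AlgebraicCurve ModularCurve HahnSeries
open Fermat.Agent.S24 Fermat.Agent.A2.H708 Fermat.Agent.Ribet.H884 Fermat.Agent.Ribet.H997
open Fermat.Agent.A2 Fermat.Agent.A2.Alg Fermat.Agent.A2.T1.H669
open Fermat.Agent.S35.G (CutBy)

section Core

variable {M q : ℕ} [NeZero M] [NeZero q] {A : ValuationSubring Kbar}
  {E : IntermediateField ℚ Kbar} {w : ↥(Mod.RE A E)}

/-- **CUSP-GEN at a good level.** -/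
theorem exists_vinf_dvd_ord (hS : Mod.Setting A E M q w) (hgood : GoodField A E)
    (hAux : Fermat.Agent.S35.G.HasAux M q) (m : ℕ) (hm : 0 < m) :
    ∃ (V : ValuationSubring ↥(Mod.FE E (M * q))) (hV : Mod.IsVinf A E (M * q) V),
      ∀ (u : ↥(Mod.FE E (M * q))) (hu : u ∈ V), u⁻¹ ∈ V → u ≠ 0 → DivisibleDiv ↥E m u →
        ∀ Q : Place (kA A) ↥(modularFunctionFieldFullC (kA A) M), Q.ord (jC (kA A) M) < 0 →
          (m : ℤ) ∣ Q.ord (redE E hS.q_prime hS.q_not_dvd hS.lies_over hV ⟨u, hu⟩ :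
            ↥(modularFunctionFieldFullC (kA A) M)) := by
  obtain ⟨V, W, VM, hV, hW, hVM, -, -, hdeg, cf, ci, hcf, hci⟩ :=
    Fermat.Agent.S35.G.H862.modelNoSep A E M q w hS hgood hAux
  refine ⟨V, hV, ?_⟩
  intro u hu hu' hu0 hdiv Q hQ
  haveI := hS.dvr
  obtain ⟨hx, hfr, hconst⟩ := hdeg hS.q_prime hS.q_not_dvd
  have hpos : 0 < Module.finrank
      ↥(IntermediateField.adjoin ↥E ({Mod.xE E M q} : Set ↥(Mod.FE E (M * q))))
      ↥(Mod.FE E (M * q)) := by
    rw [hfr]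
    have h1 := Mod.dedekindPsi_pos_of_ne_zero M (NeZero.ne M)
    positivity
  have hfin : FiniteDimensional
      ↥(IntermediateField.adjoin ↥E ({Mod.xE E M q} : Set ↥(Mod.FE E (M * q))))
      ↥(Mod.FE E (M * q)) := Module.finite_of_finrank_pos hpos
  have hCi : ChartCtx ↥E w (Mod.xE E M q)⁻¹ (chartInf A E M q) :=
    H34.chartCtx_inv w hS.unif (Mod.xE E M q) hx hfin hconst _ (fun _ => Iff.rfl)
  haveI := ci.prime₁
  have hloc : ∀ z : ↥(Mod.FE E (M * q)), z ∈ V →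
      z ∈ Fermat.Agent.A2.H348.locAt (chartInf A E M q) ci.p₁ :=
    Fermat.Agent.S35.H433.le_locAt_of_cut (Fermat.Agent.A2.Alg.H348.compData₁ hCi ci)
      (Fermat.Agent.A2.Alg.H348.adjoin_le_of_ctx hCi) V hci.le₁ hci.cut₁
  have hLU : LocUnit (chartInf A E M q) ci.p₁ u := by
    rw [Fermat.Agent.S35.H433.locUnit_iff]
    obtain ⟨s, hs, hsu⟩ := hloc u hu
    obtain ⟨s', hs', hsu'⟩ := hloc u⁻¹ hu'
    exact ⟨hu0, ⟨⟨_, hsu⟩, s, trivial, hs, mul_comm _ _⟩,
      ⟨⟨_, hsu'⟩, s', trivial, hs', mul_comm _ _⟩⟩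
  have hnp₂ := not_p₂_le_cuspIdeal Q hS hV hQ ci hW hci
  have hpure : PureAt (chartInf A E M q) ci m u (cuspIdeal Q hS hV hQ hci.le₁) :=
    pureAt_smooth_of_locUnit m hm w (Mod.xE E M q)⁻¹ (chartInf A E M q) hCi ci u hdiv
      (cuspIdeal Q hS hV hQ hci.le₁) (cuspIdeal_isPrime Q hS hV hQ hci.le₁)
      (w_mem_cuspIdeal Q hS hV hQ hci.le₁ ci hci.cut₁)
      (fun h => hnp₂ h.2) (fun _ => hLU) (fun h => absurd h hnp₂)
  exact dvd_ord_of_pureAt Q hS hV hQ hci.le₁ ci hci.cut₁ m u hu hu' hu0 hpure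

end Core

section Qbar

variable (M q m : ℕ) [NeZero M] [NeZero q]

/-- **CUSP-GEN.**  `m ∣ div g` on `X₀(M q)_{ℚ̄}` ⟹ the reduction of `g` on `C∞` has order
divisible by `m` at every cusp of `X₀(M)_k`. -/
theorem cuspGen (hq : q.Prime) (hqM : ¬ q ∣ M) (hAux : Fermat.Agent.S35.G.HasAux M q)
    (hm : 0 < m) (A : ValuationSubring Kbar) (hA : A.LiesOverPrime q)
    (g : ↥(modularFunctionFieldBar (M * q))) (hg : g ≠ 0)
    (hdiv : ∀ v : Place Kbar ↥(modularFunctionFieldBar (M * q)), (m : ℤ) ∣ v.ord g)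
    (r : LaurentSeries (kA A)) (hr : IsRedSer A (g : LaurentSeries Kbar) r)
    (h : ↥(modularFunctionFieldFullC (kA A) M)) (hh : (h : LaurentSeries (kA A)) = r)
    (Q : Place (kA A) ↥(modularFunctionFieldFullC (kA A) M))
    (hQ : Q.ord (jC (kA A) M) < 0) : (m : ℤ) ∣ Q.ord h := by
  obtain ⟨S, hS⟩ := exists_finset_descent (modularFunctionFieldFull (M * q)) g
  obtain ⟨E, hSE, hgood⟩ := Fermat.Agent.A2.IF.H429.exists_goodField q hq A hA S
  obtain ⟨y, hy⟩ := hS E hSE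
  haveI := hgood.dvr
  obtain ⟨w, hw⟩ := IsDiscreteValuationRing.exists_irreducible ↥(Mod.RE A E)
  have hSet : Mod.Setting A E M q w := ⟨hq, hqM, NeZero.ne M, hA, hgood.dvr, hw⟩
  obtain ⟨V, hV, hcore⟩ := exists_vinf_dvd_ord hSet hgood hAux m hm
  have hy0 : y ≠ 0 := by
    rintro rfl
    exact hg (by rw [← hy, map_zero])
  obtain ⟨c, hc0, hval⟩ := Mod.H553.exists_const_mul_unit A E hV hy0
  have hcF0 : algebraMap ↥E ↥(Mod.FE E (M * q)) c ≠ 0 :=
    (map_ne_zero (algebraMap ↥E ↥(Mod.FE E (M * q)))).mpr hc0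
  have hcK0 : algebraMap ↥E Kbar c ≠ 0 := (map_ne_zero (algebraMap ↥E Kbar)).mpr hc0
  obtain ⟨u, hu_def⟩ : ∃ u : ↥(Mod.FE E (M * q)),
      u = y * (algebraMap ↥E ↥(Mod.FE E (M * q)) c)⁻¹ := ⟨_, rfl⟩
  rw [← hu_def] at hval
  have hu : u ∈ V := (V.valuation_le_one_iff u).mp (le_of_eq hval)
  have hu' : u⁻¹ ∈ V := by
    rw [← V.valuation_le_one_iff, map_inv₀, hval, inv_one]
  have hu0 : u ≠ 0 := by
    rw [hu_def]
    exact mul_ne_zero hy0 (inv_ne_zero hcF0)
  have hyu : y = algebraMap ↥E ↥(Mod.FE E (M * q)) c * u := by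
    rw [hu_def, mul_comm y, ← mul_assoc, mul_inv_cancel₀ hcF0, one_mul]
  -- `m ∣ div u`
  have hdivu : DivisibleDiv ↥E m u := by
    apply divisibleDiv_of_ord E (modularFunctionFieldFull (M * q)) m u hu0
    intro v
    have hcb0 : algebraMap Kbar ↥(modularFunctionFieldBar (M * q)) (algebraMap ↥E Kbar c) ≠ 0 :=
      (map_ne_zero (algebraMap Kbar ↥(modularFunctionFieldBar (M * q)))).mpr hcK0
    have e : iota E (modularFunctionFieldFull (M * q)) u =
        g * (algebraMap Kbar ↥(modularFunctionFieldBar (M * q)) (algebraMap ↥E Kbar c))⁻¹ := by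
      rw [hu_def, map_mul, map_inv₀, hy, iota_algebraMap]
    rw [e, Place.ord_mul v hg (inv_ne_zero hcb0), Place.ord_inv,
      Fermat.Agent.A2.H129.ord_algebraMap_eq_zero, neg_zero, add_zero]
    exact hdiv v
  have hres := hcore u hu hu' hu0 hdivu Q hQ
  -- the reduction of `g` is `ρ(u)` up to a constant
  obtain ⟨U₁, U₂, h₂, hm₂, he⟩ := (hV u).mp hu
  have hspec := redE_spec hq hqM hA hV ⟨u, hu⟩ U₁ U₂ h₂ hm₂ he
  have hρ0 := redE_ne_zero_of_unit hq hqM hA hV u hu hu' hu0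
  have hρ0' : ((redE E hq hqM hA hV ⟨u, hu⟩ : ↥(modularFunctionFieldFullC (kA A) M)) :
      LaurentSeries (kA A)) ≠ 0 := fun h0 => hρ0 (Subtype.ext h0)
  have h₂' : red A (upA A E U₂) ≠ 0 := red_upA_ne_zero E h₂
  have h₁' : red A (upA A E U₁) ≠ 0 := by
    rw [← hspec]
    exact mul_ne_zero hρ0' h₂'
  have hred : IsRedSer A (g : LaurentSeries Kbar)
      ((redE E hq hqM hA hV ⟨u, hu⟩ : ↥(modularFunctionFieldFullC (kA A) M)) :
        LaurentSeries (kA A)) := by
    refine ⟨algebraMap ↥E Kbar c, upA A E U₁, upA A E U₂, hcK0, h₁', h₂', ?_, hspec⟩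
    rw [incl_upA, incl_upA, ← hy, coe_iota]
    have hyu' : (y : LaurentSeries ↥E) = cst (c : ↥E) * (u : LaurentSeries ↥E) := by
      rw [hyu]
      rfl
    rw [hyu', ← map_mul, mul_assoc, he, map_mul]
    congr 1
    exact Fermat.Agent.S18.H602.coeffMap_algebraMap' (algebraMap ↥E Kbar) c
  obtain ⟨a, ha0, hra⟩ := hred.unique hr
  have hheq : h = algebraMap (kA A) ↥(modularFunctionFieldFullC (kA A) M) a *
      redE E hq hqM hA hV ⟨u, hu⟩ := by
    apply Subtype.ext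
    rw [hh, hra]
    show _ = algebraMap (kA A) (LaurentSeries (kA A)) a * _
    rw [algebraMap_laurentSeries_eq_single]
    rfl
  rw [hheq, Place.ord_mul Q
    ((map_ne_zero (algebraMap (kA A) ↥(modularFunctionFieldFullC (kA A) M))).mpr ha0) hρ0,
    Fermat.Agent.A2.H129.ord_algebraMap_eq_zero, zero_add]
  exact hres

end Qbar

end Fermat.Agent.Ribet.H644

end

end
-- ===== PACK-END Ribet/H644/CuspGen.lean

-- ===== PACK-BEGIN Ribet/H644/CuspPurityQGood.lean
section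



/-!
# RIBET, WALL-q leaf CUSP-q: `H158.WallQ.CuspPurityQGoodStatement`  (helper644)

From the core `H644.cuspGen` (CUSP-GEN at level `M q` with `HasAux M q`, ANY `m > 0`):

* `cuspGenInf`, `cuspGenZero` : CUSP-GEN at level `q * M'` for `IsRedInf` / `IsRedZero`
  (`q` prime, `q ∤ M'`, `HasAux M' q`: `q = 3 → 2 ∣ M'`, `q = 2 → 3 ∣ M'`);
* `cuspPurityAux`             : `NodeGenQ m q M' A g → FinGenQ m q M' A g` for a Kummer generator
  `g` (`div g = m · D`), ANY `m > 0`;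
* **`cuspPurityQGood : H158.WallQ.CuspPurityQGoodStatement`** (VERBATIM `WallQGood.lean`).
-/

set_option autoImplicit false
set_option linter.unusedSectionVars false
set_option linter.unusedVariables false
set_option linter.style.haveILetI false
set_option synthInstance.maxHeartbeats 400000
set_option maxHeartbeats 1600000

noncomputable section

namespace Fermat.Agent.Ribet.H644

open AlgebraicCurve ModularCurve HahnSeries
open Fermat.Agent.S24 Fermat.Agent.A2.H708 Fermat.Agent.A2.H528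
open Fermat.Agent.Ribet.H884 Fermat.Agent.Ribet.H997

/-- **CUSP-GEN at level `q * M'`**, reductions on `C∞`. -/
theorem cuspGenInf (m q M' : ℕ) [NeZero M'] [NeZero q] [NeZero (q * M')] (hq : q.Prime)
    (hqM : ¬ q ∣ M') (hAux : Fermat.Agent.S35.G.HasAux M' q) (hm : 0 < m)
    (A : ValuationSubring Kbar) (hA : A.LiesOverPrime q)
    (g : FF (q * M')) (hg0 : g ≠ 0)
    (hdiv : ∀ v : Place Kbar (FF (q * M')), (m : ℤ) ∣ v.ord g)
    (r : LaurentSeries (kA A)) (hr : IsRedInf (q * M') A g r)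
    (h : modularFunctionFieldFullC (kA A) M') (hh : (h : LaurentSeries (kA A)) = r)
    (Q : Place (kA A) (modularFunctionFieldFullC (kA A) M'))
    (hQ : Q.ord (jC (kA A) M') < 0) : (m : ℤ) ∣ Q.ord h := by
  have key : ∀ (N : ℕ) (hN : N = M' * q) (g : ↥(modularFunctionFieldBar N)), g ≠ 0 →
      (∀ v : Place Kbar ↥(modularFunctionFieldBar N), (m : ℤ) ∣ v.ord g) →
      IsRedSer A (g : LaurentSeries Kbar) r → (m : ℤ) ∣ Q.ord h := by
    intro N hN g hg0 hdiv hr
    subst hN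
    exact cuspGen M' q m hq hqM hAux hm A hA g hg0 hdiv r hr h hh Q hQ
  exact key (q * M') (Nat.mul_comm q M') g hg0 hdiv hr

/-- the divisor of `w_N g` is divisible by `m` if the divisor of `g` is. -/
theorem dvd_ord_wF644 (N : ℕ) [NeZero N] (m : ℕ) (g : FF N)
    (hdiv : ∀ v : Place Kbar (FF N), (m : ℤ) ∣ v.ord g) (v : Place Kbar (FF N)) :
    (m : ℤ) ∣ v.ord (wF N g) := by
  have h := Place.ord_smul (wF N) ((wF N)⁻¹ • v) g
  rw [smul_inv_smul] at h
  rw [h]
  exact hdiv _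

/-- **CUSP-GEN at level `q * M'`**, reductions on `C₀`. -/
theorem cuspGenZero (m q M' : ℕ) [NeZero M'] [NeZero q] [NeZero (q * M')] (hq : q.Prime)
    (hqM : ¬ q ∣ M') (hAux : Fermat.Agent.S35.G.HasAux M' q) (hm : 0 < m)
    (A : ValuationSubring Kbar) (hA : A.LiesOverPrime q)
    (g : FF (q * M')) (hg0 : g ≠ 0)
    (hdiv : ∀ v : Place Kbar (FF (q * M')), (m : ℤ) ∣ v.ord g)
    (r : LaurentSeries (kA A)) (hr : IsRedZero (q * M') A g r)
    (h : modularFunctionFieldFullC (kA A) M') (hh : (h : LaurentSeries (kA A)) = r)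
    (Q : Place (kA A) (modularFunctionFieldFullC (kA A) M'))
    (hQ : Q.ord (jC (kA A) M') < 0) : (m : ℤ) ∣ Q.ord h :=
  cuspGenInf m q M' hq hqM hAux hm A hA (wF (q * M') g)
    (by rwa [Ne, map_eq_zero_iff _ (wF (q * M')).injective])
    (dvd_ord_wF644 (q * M') m g hdiv) r hr h hh Q hQ

/-- **CUSP at an auxiliary-good level**, any torsion order `m > 0` (also `q ∣ m`). -/
theorem cuspPurityAux (m q M' : ℕ) [NeZero M'] [NeZero q] [NeZero (q * M')] (hq : q.Prime)
    (hqM : ¬ q ∣ M') (hAux : Fermat.Agent.S35.G.HasAux M' q) (hm : 0 < m)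
    (A : ValuationSubring Kbar) (hA : A.LiesOverPrime q)
    (g : FF (q * M')) (y : JZero (q * M')) (hK : IsKummerGen (q * M') m g y)
    (hNG : Fermat.Agent.Ribet.H158.WallQ.NodeGenQ m q M' A g) :
    Fermat.Agent.Ribet.H158.WallQ.FinGenQ m q M' A g := by
  obtain ⟨r₁, r₂, h1, h2, h3, h4⟩ := hNG
  obtain ⟨hg0, D, -, hD⟩ := hK
  have hdiv : ∀ v : Place Kbar (FF (q * M')), (m : ℤ) ∣ v.ord g := fun v => ⟨_, hD v⟩
  refine ⟨r₁, r₂, h1, h2, ?_, ?_⟩
  · obtain ⟨h, hh, h0, hfin⟩ := h3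
    refine ⟨h, hh, h0, fun Q => ?_⟩
    by_cases hQ : 0 ≤ Q.ord (jC (kA A) M')
    · exact hfin Q hQ
    · exact cuspGenInf m q M' hq hqM hAux hm A hA g hg0 hdiv r₁ h1 h hh Q (not_le.mp hQ)
  · obtain ⟨h, hh, h0, hfin⟩ := h4
    refine ⟨h, hh, h0, fun Q => ?_⟩
    by_cases hQ : 0 ≤ Q.ord (jC (kA A) M')
    · exact hfin Q hQ
    · exact cuspGenZero m q M' hq hqM hAux hm A hA g hg0 hdiv r₂ h2 h hh Q (not_le.mp hQ)

/-- **WALL-q leaf CUSP-q** (VERBATIM `H158.WallQ.CuspPurityQGoodStatement`). -/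
theorem cuspPurityQGood : Fermat.Agent.Ribet.H158.WallQ.CuspPurityQGoodStatement := by
  intro p n q M' _ _ _ hH A hA g y hK hNG
  have hAux : Fermat.Agent.S35.G.HasAux M' q := by
    refine ⟨fun h3 => ?_, fun h2 => absurd h2 hH.q_ne_two⟩
    rcases hH.good with h5 | ⟨-, h2⟩
    · omega
    · exact h2
  exact cuspPurityAux (p ^ n) q M' hH.q_prime hH.not_dvd hAux (pow_pos hH.p_prime.pos n)
    A hA g y hK hNG

end Fermat.Agent.Ribet.H644

end

end
-- ===== PACK-END Ribet/H644/CuspPurityQGood.lean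

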